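import Fermat.Agent.H76U4
import Fermat.Agent.H92Psi
import Fermat.Agent.H36Psi
import Fermat.Agent.H84ZDen
import Fermat.Agent.H84ZVal
import Fermat.Agent.H55DC

/-!
# S47, [TYPE-INST], part 1: properties of a type at one place (helper76)

* `index_ne_zero` : the level has finite index in the group of the type;
* `exists_psi_pow` : `psi w` has bounded order on a ball;
* `Nice w T k c₀` : everything block (C) and block (D) need about a type at one place;
* `nice_of` : criterion.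
-/

set_option autoImplicit false
set_option linter.unusedSectionVars false

noncomputable section

open IsDedekindDomain HeightOneSpectrum WithZero NumberField Matrix
open scoped MatrixGroups

namespace Fermat.Agent.H76V

open Fermat.Agent.H59XF Fermat.Agent.H59D Fermat.Agent.H76U

section Index

variable {K : Type*} [Field K] (T : TD K)

/-- The level of a type has finite index in its group if the character has finite order on `B`. -/
theorem index_ne_zero {N : ℕ} (hN : 0 < N) (h : ∀ b ∈ T.B, T.psi b ^ N = 1) :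
    (T.U.subgroupOf T.H).index ≠ 0 := by
  have hpow : ∀ g ∈ T.H, T.chi g ^ N = 1 := by
    rintro _ ⟨x, hx, rfl⟩
    have h1 : T.chi (ProjGenLinGroup.mk x) = T.psi (x 0 1) := T.chi_of_mem hx
    show T.chi (ProjGenLinGroup.mk x) ^ N = 1
    rw [h1]
    exact h _ hx.2.1
  let f0 : T.H →* ℂ :=
    { toFun := fun g => T.chi g
      map_one' := T.chi_one
      map_mul' := fun g g' => T.chi_mul g.2 g'.2 }
  let f : T.H →* ℂˣ := f0.toHomUnits
  have hf : ∀ g : T.H, ((f g : ℂˣ) : ℂ) = T.chi g := fun g => rfl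
  have hker : f.ker = T.U.subgroupOf T.H := by
    ext g
    rw [MonoidHom.mem_ker, Subgroup.mem_subgroupOf, T.mem_U, Units.ext_iff, hf, Units.val_one]
    exact ⟨fun hg => ⟨g.2, hg⟩, fun hg => hg.2⟩
  rw [← hker, Subgroup.index_ker]
  have hN0 : NeZero N := ⟨hN.ne'⟩
  have hsub : (f.range : Set ℂˣ) ⊆ (rootsOfUnity N ℂ : Set ℂˣ) := by
    rintro _ ⟨g, rfl⟩
    rw [SetLike.mem_coe, mem_rootsOfUnity, Units.ext_iff, Units.val_pow_eq_pow_val, hf,
      Units.val_one]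
    exact hpow g g.2
  have hfin : (f.range : Set ℂˣ).Finite := by
    refine Set.Finite.subset ?_ hsub
    have hfin2 : Finite (rootsOfUnity N ℂ) := inferInstance
    exact hfin2
  have : Finite f.range := hfin
  exact Nat.card_pos.ne'

end Index

section NF

variable {K : Type*} [Field K] [NumberField K]

theorem val_absNorm_le (w : HeightOneSpectrum (𝓞 K)) :
    w.valuation K ((Ideal.absNorm w.asIdeal : ℕ) : K) ≤ exp (-1 : ℤ) := by
  have h1 : ((Ideal.absNorm w.asIdeal : ℕ) : 𝓞 K) ∈ w.asIdeal ^ 1 := by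
    rw [pow_one]; exact Ideal.absNorm_mem _
  have h2 := (w.intValuation_le_pow_iff_mem ((Ideal.absNorm w.asIdeal : ℕ) : 𝓞 K) 1).2 h1
  have h3 := w.valuation_of_algebraMap (K := K) ((Ideal.absNorm w.asIdeal : ℕ) : 𝓞 K)
  have h4 : algebraMap (𝓞 K) K ((Ideal.absNorm w.asIdeal : ℕ) : 𝓞 K) =
      ((Ideal.absNorm w.asIdeal : ℕ) : K) := map_natCast _ _
  rw [← h4]
  refine h3.le.trans ?_
  simpa using h2

/-- `psi w` has bounded order on a ball. -/
theorem exists_psi_pow (w : HeightOneSpectrum (𝓞 K)) (m : ℕ) :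
    ∃ N : ℕ, 0 < N ∧ ∀ b : K, w.valuation K b ≤ exp (m : ℤ) → H7.Z.psi w b ^ N = 1 := by
  have hq : 0 < Ideal.absNorm w.asIdeal := by
    rw [Nat.pos_iff_ne_zero, Ne, Ideal.absNorm_eq_zero_iff]
    exact w.ne_bot
  refine ⟨Ideal.absNorm w.asIdeal ^ m, pow_pos hq m, fun b hb => ?_⟩
  rw [← AddChar.map_nsmul_eq_pow, nsmul_eq_mul]
  apply H36.Psi.psi_eq_one_of_le
  rw [map_mul, Nat.cast_pow, map_pow]
  calc w.valuation K ((Ideal.absNorm w.asIdeal : ℕ) : K) ^ m * w.valuation K b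
      ≤ (exp (-1 : ℤ)) ^ m * exp (m : ℤ) :=
        mul_le_mul' (pow_le_pow_left₀ zero_le (val_absNorm_le w) m) hb
    _ = 1 := by
        rw [← WithZero.exp_nsmul, ← exp_add, ← exp_zero]
        congr 1
        simp
    _ ≤ exp (H36.Psi.dexp w : ℤ) := by
        rw [← exp_zero, exp_le_exp]; simp

/-- Everything needed about a type at one place. -/
structure Nice (w : HeightOneSpectrum (𝓞 K)) (T : TD K) (k c₀ : ℕ) : Prop where
  /-- admissible in the sense of block (D) -/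
  adm : H55D.Adm w T k c₀
  /-- `1 + A` is the stabiliser of `psi w` on `B` -/
  dual : ∀ x : K, (∀ b ∈ T.B, H7.Z.psi w (x * b) = 1) → x ∈ T.A
  /-- the level is open -/
  gam : ∃ n : ℕ, Gam w n ≤ T.U
  /-- the group is bounded -/
  bdd : ∃ c : PGL(2, K), ∀ g ∈ T.H, c⁻¹ * g * c ∈ U0 w
  /-- the level has finite index in the group -/
  idx : (T.U.subgroupOf T.H).index ≠ 0
  /-- the group is conjugate to a deep group -/
  conj : ∃ c : PGL(2, K), ∀ h ∈ T.H, ∃ g : GL (Fin 2) K, ProjGenLinGroup.mk g = c⁻¹ * h * c ∧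
    ∀ i j, w.valuation K (g i j - (1 : Matrix (Fin 2) (Fin 2) K) i j) ≤ exp (-(k : ℤ))
  /-- `C` contains a ball -/
  lowC : ∃ n : ℕ, ∀ c : K, w.valuation K c ≤ exp (-(n : ℤ)) → c ∈ T.C

/-- The conjugated matrix. -/
theorem conj_mk (t : Kˣ) (x : GL (Fin 2) K) :
    (((dM t)⁻¹ * x * dM t : GL (Fin 2) K) : Matrix (Fin 2) (Fin 2) K)
        = !![x 0 0, (t : K)⁻¹ * x 0 1; x 1 0 * t, x 1 1] := by
  have hd : ((dM t)⁻¹ : GL (Fin 2) K) = dM t⁻¹ := by
    rw [inv_eq_iff_mul_eq_one, dM_mul_dM, mul_inv_cancel]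
    ext i j
    fin_cases i <;> fin_cases j <;> simp
  rw [Units.val_mul, Units.val_mul, hd, coe_dM, coe_dM,
    Matrix.eta_fin_two (x : Matrix (Fin 2) (Fin 2) K), Matrix.mul_fin_two, Matrix.mul_fin_two]
  have ht0 : (t : K) ≠ 0 := t.ne_zero
  ext i j
  fin_cases i <;> fin_cases j
  · simp
    field_simp
  · simp
  · simp
  · simp

/-- Criterion for `Nice`. -/
theorem nice_of (w : HeightOneSpectrum (𝓞 K)) (T : TD K) {k c₀ nA nC mB mC : ℕ}
    (hpsi : ∀ x, T.psi x = H7.Z.psi w x)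
    (hA1 : ∀ x ∈ T.A, w.valuation K x ≤ exp (-((k + 1 : ℕ) : ℤ)))
    (hA2 : ∀ x, w.valuation K x ≤ exp (-(nA : ℤ)) → x ∈ T.A)
    (hB1 : ∀ x ∈ T.B, w.valuation K x ≤ exp (mB : ℤ))
    (hB2 : ∀ x, w.valuation K x ≤ exp (-(nA : ℤ)) → x ∈ T.B)
    (hC1 : ∀ x ∈ T.C, w.valuation K x ≤ exp (-(mC : ℤ)))
    (hC2 : ∀ x, w.valuation K x ≤ exp (-(nC : ℤ)) → x ∈ T.C)
    (h1 : 2 * nA + c₀ ≤ mC) (h2 : mB + 2 * (k + 1) ≤ mC)
    (dual : ∀ x : K, (∀ b ∈ T.B, H7.Z.psi w (x * b) = 1) → x ∈ T.A) : Nice w T k c₀ := by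
  have hlt : ∀ x ∈ T.A, w.valuation K x < 1 := fun x hx => (hA1 x hx).trans_lt (by
    rw [← exp_zero, exp_lt_exp]; push_cast; linarith)
  obtain ⟨t, ht⟩ := H36.Psi.exists_val_eq_exp w ((mB : ℤ) + (k + 1))
  have hconj : ∀ h ∈ T.H, ∃ g : GL (Fin 2) K,
      ProjGenLinGroup.mk g = (ProjGenLinGroup.mk (dM t))⁻¹ * h * ProjGenLinGroup.mk (dM t) ∧
      ∀ i j, w.valuation K (g i j - (1 : Matrix (Fin 2) (Fin 2) K) i j) ≤
        exp (-((k + 1 : ℕ) : ℤ)) := by
    rintro _ ⟨x, hx, rfl⟩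
    refine ⟨(dM t)⁻¹ * x * dM t, by rw [map_mul, map_mul, map_inv], fun i j => ?_⟩
    have e : ((dM t)⁻¹ * x * dM t : GL (Fin 2) K) i j =
        (!![x 0 0, (t : K)⁻¹ * x 0 1; x 1 0 * t, x 1 1] : Matrix (Fin 2) (Fin 2) K) i j := by
      rw [← conj_mk]
    rw [e]
    fin_cases i <;> fin_cases j
    · exact hA1 _ hx.1
    · show w.valuation K ((t : K)⁻¹ * x 0 1 - 0) ≤ _
      rw [sub_zero, map_mul, map_inv₀, ht]
      refine (mul_le_mul' le_rfl (hB1 _ hx.2.1)).trans ?_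
      rw [← WithZero.exp_neg, ← exp_add, exp_le_exp]
      push_cast
      linarith
    · show w.valuation K (x 1 0 * (t : K) - 0) ≤ _
      rw [sub_zero, map_mul, ht]
      refine (mul_le_mul' (hC1 _ hx.2.2.1) le_rfl).trans ?_
      rw [← exp_add, exp_le_exp]
      push_cast
      have h2' : (mB : ℤ) + 2 * (k + 1) ≤ mC := by exact_mod_cast h2
      linarith
    · exact hA1 _ hx.2.2.2
  refine ⟨⟨hpsi, fun a ha => (hA1 a ha).trans ?_, nA, hA2, fun c hc => (hC1 c hc).trans ?_⟩, dual,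
    ?_, ?_, ?_, ?_, nC, hC2⟩
  · rw [exp_le_exp]; push_cast; linarith
  · rw [exp_le_exp]
    have : ((2 * nA + c₀ : ℕ) : ℤ) ≤ mC := by exact_mod_cast h1
    linarith
  · -- open
    refine ⟨max nA nC, T.gam_le w fun x hx => ?_⟩
    have hxA : w.valuation K x ≤ exp (-(nA : ℤ)) := hx.trans (by
      rw [exp_le_exp]; push_cast; have := le_max_left (nA : ℤ) nC; linarith)
    have hxC : w.valuation K x ≤ exp (-(nC : ℤ)) := hx.trans (by
      rw [exp_le_exp]; push_cast; have := le_max_right (nA : ℤ) nC; linarith)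
    refine ⟨hA2 x hxA, hB2 x hxA, hC2 x hxC, ?_⟩
    rw [hpsi]
    apply H36.Psi.psi_eq_one_of_le
    refine hxA.trans ?_
    rw [exp_le_exp]
    have h3 : (0 : ℤ) ≤ nA := by positivity
    have h4 : (0 : ℤ) ≤ H36.Psi.dexp w := by positivity
    linarith
  · -- bounded
    refine ⟨ProjGenLinGroup.mk (dM t), T.bdd_H w hlt (fun x hx => (hB1 x hx).trans ?_)
      fun x hx => ?_⟩
    · rw [ht, exp_le_exp]
      linarith
    · rw [ht]
      refine (mul_le_mul' (hC1 x hx) le_rfl).trans ?_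
      rw [← exp_add, ← exp_zero, exp_le_exp]
      have h2' : (mB : ℤ) + 2 * (k + 1) ≤ mC := by exact_mod_cast h2
      linarith
  · obtain ⟨N, hN, hN'⟩ := exists_psi_pow w mB
    refine index_ne_zero T hN fun b hb => ?_
    rw [hpsi]
    exact hN' b (hB1 b hb)
  · refine ⟨ProjGenLinGroup.mk (dM t), fun h hh => ?_⟩
    obtain ⟨g, hg, hg'⟩ := hconj h hh
    refine ⟨g, hg, fun i j => (hg' i j).trans ?_⟩
    rw [exp_le_exp]; push_cast; linarith

/-- The duality condition of the positivity lemma. -/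
theorem Nice.dualAt {w : HeightOneSpectrum (𝓞 K)} {T : TD K} {k c₀ : ℕ} (h : Nice w T k c₀)
    {L : LevelFam PGL(2, K) (HeightOneSpectrum (𝓞 K))} (hL : L.U w = T.U) :
    H7.Z.DualAt (H7.Z.borP K) L w (T.B : Set K) := by
  intro a ha
  have h1 : (a : K) - 1 ∈ T.A := h.dual _ ha
  rw [hL]
  have h2 : ProjGenLinGroup.mk (dM a) ∈ T.H := ⟨_, T.dM_mem h1, rfl⟩
  have h3 : (H7.Z.borP K).d a = ProjGenLinGroup.mk (dM a) := rfl
  rw [h3]
  exact ⟨h2, T.chi_dM⟩

theorem Nice.mono {w : HeightOneSpectrum (𝓞 K)} {T : TD K} {k c₀ k' c₀' : ℕ}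
    (h : Nice w T k c₀) (hk : k' ≤ k) (hc : c₀' ≤ c₀) : Nice w T k' c₀' := by
  have hk' : exp (-(k : ℤ)) ≤ exp (-(k' : ℤ)) := by
    rw [exp_le_exp]
    have : (k' : ℤ) ≤ k := by exact_mod_cast hk
    linarith
  refine ⟨⟨h.adm.psi, fun a ha => (h.adm.deep a ha).trans hk', ?_⟩, h.dual, h.gam, h.bdd, h.idx, ?_,
    h.lowC⟩
  · obtain ⟨n, h1, h2⟩ := h.adm.lev
    refine ⟨n, h1, fun c hc' => (h2 c hc').trans ?_⟩
    rw [exp_le_exp]
    have : (c₀' : ℤ) ≤ c₀ := by exact_mod_cast hc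
    push_cast
    linarith
  · obtain ⟨c, hc'⟩ := h.conj
    refine ⟨c, fun g hg => ?_⟩
    obtain ⟨x, h1, h2⟩ := hc' g hg
    exact ⟨x, h1, fun i j => (h2 i j).trans hk'⟩

/-! ### The standard type at a place -/

/-- The standard type. -/
theorem exists_std (w : HeightOneSpectrum (𝓞 K)) {d n M k c₀ : ℕ} (hd : H36.Psi.dexp w = d)
    (hn : k + 1 ≤ n) (hM : 3 * n + d + c₀ ≤ M) :
    ∃ T : TD K, T.psi = H7.Z.psi w ∧
      (∀ x, x ∈ T.A ↔ w.valuation K x ≤ exp (-(n : ℤ))) ∧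
      (∀ x, x ∈ T.B ↔ w.valuation K x ≤ exp ((n : ℤ) + d)) ∧
      (∀ x, x ∈ T.C ↔ w.valuation K x ≤ exp (-(M : ℤ))) ∧ Nice w T k c₀ := by
  have hn' : (k : ℤ) + 1 ≤ n := by exact_mod_cast hn
  have hM' : 3 * (n : ℤ) + d + c₀ ≤ M := by exact_mod_cast hM
  have hk0 : (0 : ℤ) ≤ k := by positivity
  have hc0 : (0 : ℤ) ≤ c₀ := by positivity
  have hd0 : (0 : ℤ) ≤ d := by positivity
  let T : TD K := TD.std (w.valuation K) (exp (-(n : ℤ))) (exp ((n : ℤ) + d)) (exp (-(M : ℤ)))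
    (by rw [← exp_zero, exp_lt_exp]; linarith)
    (by rw [← exp_add, exp_le_exp]; linarith)
    (H7.Z.psi w) (fun x hx => H36.Psi.psi_eq_one_of_le w (hx.trans (by
      rw [← exp_add, exp_le_exp, hd]; linarith)))
  have hA : ∀ x, x ∈ T.A ↔ w.valuation K x ≤ exp (-(n : ℤ)) := fun x => Iff.rfl
  have hB : ∀ x, x ∈ T.B ↔ w.valuation K x ≤ exp ((n : ℤ) + d) := fun x => Iff.rfl
  have hC : ∀ x, x ∈ T.C ↔ w.valuation K x ≤ exp (-(M : ℤ)) := fun x => Iff.rfl
  refine ⟨T, rfl, hA, hB, hC, ?_⟩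
  refine nice_of w T (nA := n) (nC := M) (mB := n + d) (mC := M) (fun x => rfl)
    (fun x hx => ((hA x).1 hx).trans ?_) (fun x hx => (hA x).2 hx)
    (fun x hx => by push_cast; exact (hB x).1 hx)
    (fun x hx => (hB x).2 (hx.trans ?_)) (fun x hx => (hC x).1 hx) (fun x hx => (hC x).2 hx)
    (by omega) (by omega) (fun x hx => ?_)
  · rw [exp_le_exp]; push_cast; linarith
  · rw [exp_le_exp]; linarith
  · rw [hA]
    have h := (H36.Psi.dual_iff w x ((n : ℤ) + d)).1 (fun r hr => hx r ((hB r).2 hr))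
    rw [hd] at h
    refine h.trans (le_of_eq ?_)
    congr 1
    ring

end NF

end Fermat.Agent.H76V
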