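import Fermat.Agent.H76VDef

/-!
# S47, [TYPE-INST], part 2: the self-dual type at a nonsplit place (helper76)
-/

set_option autoImplicit false
set_option linter.unusedSectionVars false

noncomputable section

open IsDedekindDomain HeightOneSpectrum WithZero NumberField Matrix
open scoped MatrixGroups

namespace Fermat.Agent.H76V

open Fermat.Agent.H59XF Fermat.Agent.H59D Fermat.Agent.H76U

section SDual

variable {F E : Type*} [Field F] [NumberField F] [Field E] [NumberField E] [Algebra F E]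

theorem pow_le_exp_iff {x : ℤᵐ⁰} {e : ℕ} (he : e ≠ 0) (m : ℤ) :
    x ^ e ≤ exp ((e : ℤ) * m) ↔ x ≤ exp m := by
  have h : exp ((e : ℤ) * m) = (exp m : ℤᵐ⁰) ^ e := by
    rw [← WithZero.exp_nsmul]; simp
  rw [h]
  exact pow_le_pow_iff_left₀ zero_le zero_le he

theorem val_alg {v : HeightOneSpectrum (𝓞 F)} {w : HeightOneSpectrum (𝓞 E)}
    (hw : w ∈ H82.above E v) (x : F) :
    w.valuation E (algebraMap F E x) =
      v.valuation F x ^ (v.asIdeal.ramificationIdx' w.asIdeal) := H82.valuation_above hw x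

theorem val_alg_exp {v : HeightOneSpectrum (𝓞 F)} {w : HeightOneSpectrum (𝓞 E)}
    (hw : w ∈ H82.above E v) {x : F} {m : ℤ} (hx : v.valuation F x = exp m) :
    w.valuation E (algebraMap F E x) =
      exp (((v.asIdeal.ramificationIdx' w.asIdeal : ℕ) : ℤ) * m) := by
  rw [val_alg hw, hx, ← WithZero.exp_nsmul]; simp

variable (D : SD E)

/-- The basis is self-dual for the trace of `E/F`. -/
theorem selfDual [IsGalois F E] (h3 : Module.finrank F E = 3) (s : E ≃ₐ[F] E) (hs : s ≠ 1)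
    (hD : ∀ x, D.s x = s x) : H36.Psi.SelfDual F D.b := by
  have hT : ∀ x, algebraMap F E (Algebra.trace F E x) = D.T x := by
    intro x
    rw [H92P.trace_cubic h3 s hs x, SD.T, hD, hD]
  refine ⟨fun i j => ?_, fun z => ?_⟩
  · apply (algebraMap F E).injective
    rw [hT]
    have h1 := D.sum_sq
    have h2 := D.e_zero
    have h3' := D.s3
    fin_cases i <;> fin_cases j <;>
      simp [SD.T, SD.b, map_mul, h3']
    all_goals first
      | linear_combination h1
      | linear_combination h2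
  · rw [Fin.sum_univ_three, hT, hT, hT]
    exact D.expand z

theorem mem_Lat_iff [IsGalois F E] (h3 : Module.finrank F E = 3) (s : E ≃ₐ[F] E) (hs : s ≠ 1)
    (hD : ∀ x, D.s x = s x) {v : HeightOneSpectrum (𝓞 F)} {w : HeightOneSpectrum (𝓞 E)}
    (hw : w ∈ H82.above E v) (m : ℤ) (z : E) :
    z ∈ D.Lat (w.valuation E) (exp (((v.asIdeal.ramificationIdx' w.asIdeal : ℕ) : ℤ) * m)) ↔
      z ∈ H36.Psi.latt D.b v m := by
  have hT : ∀ x, algebraMap F E (Algebra.trace F E x) = D.T x := by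
    intro x
    rw [H92P.trace_cubic h3 s hs x, SD.T, hD, hD]
  rw [SD.mem_Lat, H36.Psi.mem_latt]
  refine forall_congr' fun i => ?_
  rw [← hT, val_alg hw]
  exact pow_le_exp_iff (H82.ramificationIdx'_ne_zero hw) m

/-- **The self-dual type at a nonsplit place.** -/
theorem exists_sd [IsGalois F E] (h3 : Module.finrank F E = 3) (s : E ≃ₐ[F] E) (hs : s ≠ 1)
    (hD : ∀ x, D.s x = s x) {v : HeightOneSpectrum (𝓞 F)} {w : HeightOneSpectrum (𝓞 E)}
    (hw : w ∈ H82.above E v) (hns : H82.above E v = {w}) {e d C n M k c₀ : ℕ}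
    (he : v.asIdeal.ramificationIdx' w.asIdeal = e) (hd : H36.Psi.dexp v = d)
    (hβ : ∀ i, w.valuation E (D.b i) ≤ exp (C : ℤ))
    (hstr : ∀ i j, D.b i * D.b j ∈ D.Lat (w.valuation E) (exp (C : ℤ)))
    (hn : 2 * C + k + 1 ≤ n) (hM : 3 * n + d + 3 * C + c₀ ≤ M) :
    ∃ T : TD E, T.psi = H7.Z.psi w ∧
      T.A = D.Lat (w.valuation E) (exp ((e : ℤ) * (-(n : ℤ)))) ∧
      T.B = D.Lat (w.valuation E) (exp ((e : ℤ) * ((n : ℤ) + d))) ∧
      T.C = D.Lat (w.valuation E) (exp ((e : ℤ) * (-(M : ℤ)))) ∧ Nice w T k c₀ := by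
  have he0 : e ≠ 0 := he ▸ H82.ramificationIdx'_ne_zero hw
  have he1 : 1 ≤ e := Nat.one_le_iff_ne_zero.2 he0
  -- products
  have hen : 2 * C + k + 1 ≤ e * n := hn.trans (Nat.le_mul_of_pos_left n he1)
  have heM : 3 * (e * n) + e * d + 3 * C + c₀ ≤ e * M := by
    have h1 : e * (3 * n + d + 3 * C + c₀) ≤ e * M := Nat.mul_le_mul_left e hM
    have h2 : e * (3 * n + d + 3 * C + c₀) =
        3 * (e * n) + e * d + 3 * (e * C) + e * c₀ := by ring
    have h4 : C ≤ e * C := Nat.le_mul_of_pos_left C he1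
    have h5 : c₀ ≤ e * c₀ := Nat.le_mul_of_pos_left c₀ he1
    omega
  obtain ⟨en, hen'⟩ : ∃ en, en = e * n := ⟨_, rfl⟩
  obtain ⟨eM, heM'⟩ : ∃ eM, eM = e * M := ⟨_, rfl⟩
  obtain ⟨ed, hed'⟩ : ∃ ed, ed = e * d := ⟨_, rfl⟩
  rw [← hen'] at hen heM
  rw [← heM', ← hed'] at heM
  have ra : (e : ℤ) * (-(n : ℤ)) = -(en : ℤ) := by rw [hen']; push_cast; ring
  have rb : (e : ℤ) * ((n : ℤ) + d) = (en : ℤ) + ed := by rw [hen', hed']; push_cast; ring
  have rc : (e : ℤ) * (-(M : ℤ)) = -(eM : ℤ) := by rw [heM']; push_cast; ring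
  have hT : ∀ x, algebraMap F E (Algebra.trace F E x) = D.T x := by
    intro x
    rw [H92P.trace_cubic h3 s hs x, SD.T, hD, hD]
  have hsv : ∀ x, w.valuation E (D.s x) = w.valuation E x := by
    intro x
    have h1 : H83Z.placePerm s w = w := by
      have h2 : H83Z.placePerm s w ∈ H82.above E v := (H83Z.placePerm_mem_above s).2 hw
      rw [hns] at h2
      exact h2
    rw [hD]
    have h4 := H83Z.placePerm_val s w x
    rwa [h1] at h4
  have hpsi : ∀ x, w.valuation E (D.T x) ≤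
      exp ((e : ℤ) * (-(n : ℤ))) * exp ((e : ℤ) * ((n : ℤ) + d)) → H7.Z.psi w x = 1 := by
    intro x hx
    rw [H36.Psi.psi_single hns]
    apply H36.Psi.psi_eq_one_of_le
    rw [hd]
    rw [← hT, val_alg hw, he, ← exp_add] at hx
    have h4 : (e : ℤ) * (-(n : ℤ)) + (e : ℤ) * ((n : ℤ) + d) = (e : ℤ) * (d : ℤ) := by ring
    rw [h4] at hx
    exact (pow_le_exp_iff he0 _).1 hx
  have hlt : (exp ((e : ℤ) * (-(n : ℤ))) : ℤᵐ⁰) < 1 := by
    rw [ra, ← exp_zero, exp_lt_exp]; omega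
  have hac : (exp ((e : ℤ) * (-(n : ℤ))) : ℤᵐ⁰) * exp (C : ℤ) ≤ 1 := by
    rw [ra, ← exp_add, ← exp_zero, exp_le_exp]; omega
  have hbc : (exp ((e : ℤ) * ((n : ℤ) + d)) : ℤᵐ⁰) * exp ((e : ℤ) * (-(M : ℤ))) * exp (C : ℤ) ≤
      exp ((e : ℤ) * (-(n : ℤ))) := by
    rw [ra, rb, rc, ← exp_add, ← exp_add, exp_le_exp]; omega
  let T : TD E := D.td (w.valuation E) hstr hlt hac hbc (H7.Z.psi w) hpsi
  have hA : T.A = D.Lat (w.valuation E) (exp ((e : ℤ) * (-(n : ℤ)))) := rfl
  have hB : T.B = D.Lat (w.valuation E) (exp ((e : ℤ) * ((n : ℤ) + d))) := rfl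
  have hC : T.C = D.Lat (w.valuation E) (exp ((e : ℤ) * (-(M : ℤ)))) := rfl
  refine ⟨T, rfl, hA, hB, hC, ?_⟩
  have hin : ∀ {m : ℤ} {x : E}, w.valuation E x * exp (C : ℤ) ≤ exp m →
      x ∈ D.Lat (w.valuation E) (exp m) := fun h => D.mem_of_val_le (w.valuation E) hsv hβ h
  have hout : ∀ {m : ℤ} {x : E}, x ∈ D.Lat (w.valuation E) (exp m) →
      w.valuation E x ≤ exp (m + C) := fun h => by
    rw [exp_add]; exact D.val_le_of_mem (w.valuation E) hβ h
  refine nice_of w T (nA := en + C) (nC := eM + C) (mB := en + ed + C) (mC := eM - C)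
    (fun x => rfl) (fun x hx => ?_) (fun x hx => ?_) (fun x hx => ?_) (fun x hx => ?_)
    (fun x hx => ?_) (fun x hx => ?_) (by omega) (by omega) (fun x hx => ?_)
  · rw [hA, ra] at hx
    refine (hout hx).trans ?_
    rw [exp_le_exp]; push_cast; omega
  · rw [hA, ra]
    apply hin
    refine (mul_le_mul' hx le_rfl).trans ?_
    rw [← exp_add, exp_le_exp]; push_cast; omega
  · rw [hB, rb] at hx
    refine (hout hx).trans ?_
    rw [exp_le_exp]; push_cast; omega
  · rw [hB, rb]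
    apply hin
    refine (mul_le_mul' hx le_rfl).trans ?_
    rw [← exp_add, exp_le_exp]; push_cast; omega
  · rw [hC, rc] at hx
    refine (hout hx).trans ?_
    rw [exp_le_exp]; omega
  · rw [hC, rc]
    apply hin
    refine (mul_le_mul' hx le_rfl).trans ?_
    rw [← exp_add, exp_le_exp]; push_cast; omega
  · -- duality
    have hSD := selfDual D h3 s hs hD
    have h5 : ∀ b ∈ H36.Psi.latt D.b v ((n : ℤ) + d), H7.Z.psi w (x * b) = 1 := by
      intro b hb
      apply hx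
      rw [hB, ← he]
      exact (mem_Lat_iff D h3 s hs hD hw _ b).2 hb
    have h6 := (hSD.single_dual hns ((n : ℤ) + d) x).1 h5
    rw [hA, ← he, mem_Lat_iff D h3 s hs hD hw]
    have h7 : (H36.Psi.dexp v : ℤ) - ((n : ℤ) + d) = -(n : ℤ) := by rw [hd]; ring
    rwa [h7] at h6

end SDual

end Fermat.Agent.H76V
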