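import Fermat.Agent.H76V3
import Fermat.Agent.H22Kum
import Fermat.Agent.H82GlobIndex

/-!
# S47, [TYPE-INST], part 4: the form used by `exists_csetup` (helper76)
-/

set_option autoImplicit false
set_option linter.unusedSectionVars false

noncomputable section

open IsDedekindDomain HeightOneSpectrum WithZero NumberField Matrix
open scoped MatrixGroups

namespace Fermat.Agent.H76V

open Fermat.Agent.H59XF Fermat.Agent.H59D Fermat.Agent.H76U

variable {F E : Type*} [Field F] [NumberField F] [Field E] [NumberField E] [Algebra F E]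

/-- The types are shallower than required. -/
def TInst.mono {s : E ≃ₐ[F] E} {k c₀ k' c₀' : ℕ} (T : TInst F E s k c₀) (hk : k' ≤ k)
    (hc : c₀' ≤ c₀) : TInst F E s k' c₀' :=
  { T with
    niceF := fun v => (T.niceF v).mono hk hc
    niceE := fun w => (T.niceE w).mono hk hc }

theorem TInst.al_le {s : E ≃ₐ[F] E} {k c₀ : ℕ} (T : TInst F E s k c₀)
    {v : HeightOneSpectrum (𝓞 F)} {w : HeightOneSpectrum (𝓞 E)} {D : SD E} {κ : ℤᵐ⁰}
    {π al be ga : F} (h : H43Z.NS s w v (T.TE w) (T.TF v) D κ π al be ga) :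
    v.valuation F al ≤ exp (-(k : ℤ)) := by
  refine (T.niceF v).adm.deep al ?_
  rw [h.A', mem_ball]

theorem exists_depth {ζ : F} (hζ : IsPrimitiveRoot ζ 3) (S : Finset (HeightOneSpectrum (𝓞 F))) :
    ∃ N : ℕ, ∀ v ∈ S, (exp (-(N : ℤ)) : ℤᵐ⁰) < v.valuation F (ζ - 1) ^ 3 := by
  choose m hm using fun v => H82.exists_deep (p := 3) (by norm_num) hζ v
  refine ⟨∑ v ∈ S, m v, fun v hv => ?_⟩
  exact (hm v).mono (Finset.single_le_sum (f := m) (fun _ _ => Nat.zero_le _) hv)

/-- **Existence of the types**, in the form used for `CSetup`. -/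
theorem exists_types [IsGalois F E] (h3 : Module.finrank F E = 3) (s : E ≃ₐ[F] E) (hs : s ≠ 1)
    {ζ : F} (hζ : IsPrimitiveRoot ζ 3) (S : Finset (HeightOneSpectrum (𝓞 F))) (k c₀ : ℕ) :
    ∃ T : TInst F E s k c₀,
      (∀ v ∈ S, H82.NonSplit E v → ∃ w, H47.below F w = v ∧
        ∃ (D : SD E) (κ : ℤᵐ⁰) (π al be ga : F),
          H43Z.NS s w v (T.TE w) (T.TF v) D κ π al be ga ∧
            v.valuation F al < v.valuation F (ζ - 1) ^ 3) ∧
      (∀ v, ¬ H82.NonSplit E v → ∀ w, H47.below F w = v → ∀ x : F,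
        (x ∈ (T.TF v).A ↔ algebraMap F E x ∈ (T.TE w).A) ∧
        (x ∈ (T.TF v).B ↔ algebraMap F E x ∈ (T.TE w).B) ∧
        (x ∈ (T.TF v).C ↔ algebraMap F E x ∈ (T.TE w).C)) := by
  obtain ⟨N, hN⟩ := exists_depth hζ S
  have hom : ζ ^ 2 + ζ + 1 = 0 := by
    have h1 : (ζ - 1) * (ζ ^ 2 + ζ + 1) = 0 := by
      have h2 := hζ.pow_eq_one
      linear_combination h2
    rcases mul_eq_zero.1 h1 with h | h
    · exact absurd (sub_eq_zero.1 h) (hζ.ne_one (by norm_num))
    · exact h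
  have hs' : ∃ x, (s : E ≃+* E) x ≠ x := by
    by_contra hcon
    push Not at hcon
    exact hs (AlgEquiv.ext hcon)
  have homE : (algebraMap F E ζ) ^ 2 + algebraMap F E ζ + 1 = 0 := by
    rw [← map_pow, ← map_add, ← map_one (algebraMap F E), ← map_add, hom, map_zero]
  obtain ⟨th, hth, hsth⟩ := H22C.exists_kummer (s : E ≃+* E) hs' (H83Z.s_app_three h3 s) homE
    (s.commutes ζ)
  obtain ⟨T⟩ := exists_tinst h3 s hs hom hth hsth (max k N) c₀
  refine ⟨T.mono (le_max_left _ _) le_rfl, fun v hv hns => ?_, fun v hv w hw x => ?_⟩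
  · obtain ⟨w, hw⟩ := H47.above_nonempty (L := E) v
    obtain ⟨D, κ, π, al, be, ga, h⟩ := T.ns v hns w hw
    refine ⟨w, (H47.eq_below_of_mem_above hw).symm, D, κ, π, al, be, ga, h, ?_⟩
    refine (T.al_le h).trans_lt (lt_of_le_of_lt ?_ (hN v hv))
    rw [exp_le_exp]
    have : (N : ℤ) ≤ (max k N : ℕ) := by exact_mod_cast le_max_right k N
    linarith
  · subst hw
    obtain ⟨h1, h2, h4, -⟩ := T.split _ hv w (H47.mem_above_below w) x
    exact ⟨h1.symm, h2.symm, h4.symm⟩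

end Fermat.Agent.H76V
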