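import Fermat.Agent.H76Place
set_option autoImplicit false
set_option maxSynthPendingDepth 3

/-! # The weighted norm function (helper76, for S14) -/

namespace Fermat.Agent.H76

open NumberField NumberField.mixedEmbedding NumberField.Units
  NumberField.Units.dirichletUnitTheorem Module NumberField.InfinitePlace

open scoped Classical

variable {K : Type*} [Field K] [NumberField K]

/-- the weighted norm -/
noncomputable def wt (s : ℝ) (y : mixedSpace K) : ℝ := (mixedEmbedding.norm y) ^ (-s) * pou K y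

lemma wt_nonneg (s : ℝ) (y : mixedSpace K) : 0 ≤ wt s y :=
  mul_nonneg (Real.rpow_nonneg (mixedEmbedding.norm_nonneg _) _) (pou_nonneg _)

variable (K) in
/-- constant -/
noncomputable def diffConst : ℝ := 2 * finrank ℚ K + 4 * reprConst K

variable (K) in
lemma diffConst_nonneg : 0 ≤ diffConst K := by
  have := reprConst_nonneg K
  unfold diffConst; positivity

lemma abs_wt_sub_le {y z : mixedSpace K} {m c s : ℝ} (hm : 1 ≤ m)
    (hy : ∀ w, m ≤ normAtPlace w y) (hz : ∀ w, m ≤ normAtPlace w z)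
    (hyz : ∀ w, |normAtPlace w y - normAtPlace w z| ≤ c) (hs1 : 1 ≤ s) (hs2 : s ≤ 2) :
    |wt s y - wt s z| ≤ diffConst K * c * (m⁻¹) ^ (finrank ℚ K + 1) := by
  have hm0 : 0 < m := by linarith
  have h1 := abs_log_norm_sub_le hm0 hy hz hyz
  have h2 := abs_pou_sub_le hm0 hy hz hyz
  have hMy := pow_le_norm hm0 hy
  have hMz := pow_le_norm hm0 hz
  have hM1 : 1 ≤ m ^ finrank ℚ K := one_le_pow₀ hm
  have h3 := abs_rpow_neg_sub_le hM1 hMy hMz hs1 hs2
  have hMpos : 0 < m ^ finrank ℚ K := by linarith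
  have h4 : (mixedEmbedding.norm z) ^ (-s) ≤ (m ^ finrank ℚ K)⁻¹ := by
    rw [← Real.rpow_neg_one (m ^ finrank ℚ K)]
    calc (mixedEmbedding.norm z) ^ (-s) ≤ (m ^ finrank ℚ K) ^ (-s) :=
          Real.rpow_le_rpow_of_nonpos hMpos hMz (by linarith)
      _ ≤ (m ^ finrank ℚ K) ^ (-1 : ℝ) := Real.rpow_le_rpow_of_exponent_le hM1 (by linarith)
  have h5 : 0 ≤ (mixedEmbedding.norm z) ^ (-s) := Real.rpow_nonneg (mixedEmbedding.norm_nonneg _) _
  have h6 : wt s y - wt s z = ((mixedEmbedding.norm y) ^ (-s) - (mixedEmbedding.norm z) ^ (-s)) * pou K y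
      + (mixedEmbedding.norm z) ^ (-s) * (pou K y - pou K z) := by
    unfold wt; ring
  rw [h6]
  refine (abs_add_le _ _).trans ?_
  rw [abs_mul, abs_mul, abs_of_nonneg (pou_nonneg y), abs_of_nonneg h5]
  have h7 : |(mixedEmbedding.norm y) ^ (-s) - (mixedEmbedding.norm z) ^ (-s)| * pou K y ≤
      2 * (finrank ℚ K * (c / m)) * (m ^ finrank ℚ K)⁻¹ := by
    calc _ ≤ |(mixedEmbedding.norm y) ^ (-s) - (mixedEmbedding.norm z) ^ (-s)| * 1 := by
          gcongr; exact pou_le_one y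
      _ ≤ _ := by
          rw [mul_one]
          refine h3.trans ?_
          gcongr
  have h8 : (mixedEmbedding.norm z) ^ (-s) * |pou K y - pou K z| ≤
      (m ^ finrank ℚ K)⁻¹ * (reprConst K * (4 * (c / m))) := by
    gcongr
  refine (add_le_add h7 h8).trans (le_of_eq ?_)
  rw [diffConst, pow_succ, inv_pow, div_eq_mul_inv]
  ring

/-! ## lattice points -/

/-- the embedding of integers -/
noncomputable def emb (β : 𝓞 K) : mixedSpace K := mixedEmbedding K (β : K)

lemma emb_add (β γ : 𝓞 K) : emb (β + γ) = emb β + emb γ := by simp [emb]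

lemma emb_zero : emb (0 : 𝓞 K) = 0 := by simp [emb]

lemma emb_injective : Function.Injective (emb (K := K)) := fun a b h =>
  RingOfIntegers.ext (mixedEmbedding_injective K h)

lemma emb_ne_zero {β : 𝓞 K} (hβ : β ≠ 0) : emb β ≠ 0 := fun h =>
  hβ (emb_injective (h.trans emb_zero.symm))

lemma norm_emb (β : 𝓞 K) :
    mixedEmbedding.norm (emb β) = (Ideal.absNorm (Ideal.span {β}) : ℝ) := by
  rw [emb, norm_eq_norm, Ideal.absNorm_span_singleton, Nat.cast_natAbs, Int.cast_abs,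
    ← Algebra.coe_norm_int]
  push_cast
  rfl

lemma one_le_norm_emb {β : 𝓞 K} (hβ : β ≠ 0) : 1 ≤ mixedEmbedding.norm (emb β) := by
  rw [norm_emb]
  have : Ideal.absNorm (Ideal.span {β}) ≠ 0 := by
    rw [Ne, Ideal.absNorm_eq_zero_iff]
    simpa using hβ
  exact_mod_cast Nat.one_le_iff_ne_zero.mpr this

lemma wt_emb_zero {s : ℝ} (hs : 1 ≤ s) : wt s (emb (0 : 𝓞 K)) = 0 := by
  rw [wt, emb_zero, map_zero, Real.zero_rpow (by linarith), zero_mul]

lemma wt_emb_le_one {s : ℝ} (hs : 1 ≤ s) (β : 𝓞 K) : wt s (emb β) ≤ 1 := by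
  by_cases hβ : β = 0
  · rw [hβ, wt_emb_zero hs]; exact zero_le_one
  · have h1 := one_le_norm_emb hβ
    have h2 : (mixedEmbedding.norm (emb β)) ^ (-s) ≤ 1 :=
      Real.rpow_le_one_of_one_le_of_nonpos h1 (by linarith)
    exact mul_le_one₀ h2 (pou_nonneg _) (pou_le_one _)

lemma abs_wt_emb_sub_le_one {s : ℝ} (hs : 1 ≤ s) (β γ : 𝓞 K) :
    |wt s (emb β) - wt s (emb γ)| ≤ 1 := by
  rw [abs_le]
  have h1 := wt_emb_le_one hs β
  have h2 := wt_emb_le_one hs γ
  have h3 := wt_nonneg s (emb β)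
  have h4 := wt_nonneg s (emb γ)
  constructor <;> linarith

end Fermat.Agent.H76
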