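import Fermat.Agent.H77Lattice

/-!
# Additive functions on finite `𝔽_p[G]`-modules and reductions of lattices
-/

set_option autoImplicit false

set_option linter.style.haveILetI false
set_option linter.unusedSectionVars false

open Module Representation

namespace Fermat.Agent.H77.Rep

/-- An additive function on finite `𝔽_p[G]`-modules. -/
structure AddFun (p : ℕ) (G : Type*) [Group G] where
  /-- the function -/
  F : ∀ (M : Type) [AddCommGroup M] [Module (ZMod p) M] [Finite M],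
    Representation (ZMod p) G M → ℤ
  /-- additivity on short exact sequences -/
  add : ∀ {A B C : Type} [AddCommGroup A] [Module (ZMod p) A] [Finite A] [AddCommGroup B]
    [Module (ZMod p) B] [Finite B] [AddCommGroup C] [Module (ZMod p) C] [Finite C]
    (ρA : Representation (ZMod p) G A) (ρB : Representation (ZMod p) G B)
    (ρC : Representation (ZMod p) G C) (f : A →ₗ[ZMod p] B) (g : B →ₗ[ZMod p] C),
    (∀ σ a, f (ρA σ a) = ρB σ (f a)) → (∀ σ b, g (ρB σ b) = ρC σ (g b)) →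
    Function.Injective f → Function.Surjective g → Function.Exact f g →
    F B ρB = F A ρA + F C ρC

namespace AddFun

variable {p : ℕ} {G : Type*} [Group G] (Φ : AddFun p G)

theorem F_subsingleton {A : Type} [AddCommGroup A] [Module (ZMod p) A] [Finite A]
    (ρ : Representation (ZMod p) G A) (hA : Subsingleton A) : Φ.F A ρ = 0 := by
  have h := Φ.add ρ ρ ρ 0 0 (fun _ _ => Subsingleton.elim _ _) (fun _ _ => Subsingleton.elim _ _)
    (fun _ _ _ => Subsingleton.elim _ _) (fun _ => ⟨0, Subsingleton.elim _ _⟩)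
    (fun y => ⟨fun _ => ⟨0, Subsingleton.elim _ _⟩, fun _ => Subsingleton.elim _ _⟩)
  omega

theorem F_iso {A B : Type} [AddCommGroup A] [Module (ZMod p) A] [Finite A] [AddCommGroup B]
    [Module (ZMod p) B] [Finite B] {ρA : Representation (ZMod p) G A}
    {ρB : Representation (ZMod p) G B} (f : A →ₗ[ZMod p] B) (hf : ∀ σ a, f (ρA σ a) = ρB σ (f a))
    (hbij : Function.Bijective f) : Φ.F A ρA = Φ.F B ρB := by
  have h := Φ.add ρA ρB (1 : Representation (ZMod p) G PUnit) f 0 hf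
    (fun _ _ => Subsingleton.elim _ _) hbij.1 (fun _ => ⟨0, Subsingleton.elim _ _⟩)
    (fun y => ⟨fun _ => hbij.2 y, fun _ => Subsingleton.elim _ _⟩)
  rw [Φ.F_subsingleton (1 : Representation (ZMod p) G PUnit) inferInstance] at h
  omega

/-! ### `ℤ[G]`-modules killed by `p` -/

/-- the `ZMod p`-representation attached to a `ℤ`-representation on a module killed by `p` -/
noncomputable def toZ {M : Type*} [AddCommGroup M] [Module (ZMod p) M] (ρ : Representation ℤ G M) :
    Representation (ZMod p) G M where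
  toFun g := (ρ g).toAddMonoidHom.toZModLinearMap p
  map_one' := by
    ext m
    show ρ 1 m = m
    rw [map_one]; rfl
  map_mul' g h := by
    ext m
    show ρ (g * h) m = ρ g (ρ h m)
    rw [map_mul]; rfl

theorem toZ_apply {M : Type*} [AddCommGroup M] [Module (ZMod p) M] (ρ : Representation ℤ G M)
    (g : G) (m : M) : toZ (p := p) ρ g m = ρ g m := rfl

/-- the value of `Φ` on a `ℤ[G]`-module killed by `p` -/
noncomputable def FZ (M : Type) [AddCommGroup M] [Finite M] (h : ∀ m : M, p • m = 0)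
    (ρ : Representation ℤ G M) : ℤ :=
  letI := AddCommGroup.zmodModule h
  Φ.F M (toZ ρ)

theorem FZ_eq (M : Type) [AddCommGroup M] [Finite M] [i : Module (ZMod p) M]
    (h : ∀ m : M, p • m = 0) (ρ : Representation ℤ G M) : Φ.FZ M h ρ = Φ.F M (toZ ρ) := by
  have : i = AddCommGroup.zmodModule h := Subsingleton.elim _ _
  subst this
  rfl

theorem FZ_add {A B C : Type} [AddCommGroup A] [Finite A] [AddCommGroup B]
    [Finite B] [AddCommGroup C] [Finite C] (hA : ∀ m : A, p • m = 0) (hB : ∀ m : B, p • m = 0)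
    (hC : ∀ m : C, p • m = 0)
    (ρA : Representation ℤ G A) (ρB : Representation ℤ G B)
    (ρC : Representation ℤ G C) (f : A →ₗ[ℤ] B) (g : B →ₗ[ℤ] C)
    (hf : ∀ σ a, f (ρA σ a) = ρB σ (f a)) (hg : ∀ σ b, g (ρB σ b) = ρC σ (g b))
    (hi : Function.Injective f) (hs : Function.Surjective g) (he : Function.Exact f g) :
    Φ.FZ B hB ρB = Φ.FZ A hA ρA + Φ.FZ C hC ρC := by
  letI := AddCommGroup.zmodModule hA
  letI := AddCommGroup.zmodModule hB
  letI := AddCommGroup.zmodModule hC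
  rw [FZ_eq, FZ_eq, FZ_eq]
  exact Φ.add (toZ ρA) (toZ ρB) (toZ ρC) (f.toAddMonoidHom.toZModLinearMap p)
    (g.toAddMonoidHom.toZModLinearMap p) hf hg hi hs he

theorem FZ_iso {A B : Type} [AddCommGroup A] [Finite A] [AddCommGroup B]
    [Finite B] (hA : ∀ m : A, p • m = 0) (hB : ∀ m : B, p • m = 0)
    {ρA : Representation ℤ G A} {ρB : Representation ℤ G B} (f : A →ₗ[ℤ] B)
    (hf : ∀ σ a, f (ρA σ a) = ρB σ (f a)) (hbij : Function.Bijective f) :
    Φ.FZ A hA ρA = Φ.FZ B hB ρB := by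
  letI := AddCommGroup.zmodModule hA
  letI := AddCommGroup.zmodModule hB
  rw [FZ_eq, FZ_eq]
  exact Φ.F_iso (f.toAddMonoidHom.toZModLinearMap p) hf hbij

/-! ### Subquotients -/

section SQ

variable {B : Type} [AddCommGroup B] (ρ : Representation ℤ G B)

/-- stable submodules -/
def IsStab (P : Submodule ℤ B) : Prop := ∀ g, ∀ x ∈ P, ρ g x ∈ P

/-- the subquotient `Q / (P ∩ Q)` -/
abbrev SQ (P Q : Submodule ℤ B) : Type := Q ⧸ P.submoduleOf Q

variable {ρ}

/-- the action on a stable submodule -/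
def subRep {Q : Submodule ℤ B} (hQ : IsStab ρ Q) : Representation ℤ G Q where
  toFun g := (ρ g).restrict (hQ g)
  map_one' := by ext v; simp
  map_mul' g h := by ext v; simp

theorem subRep_coe {Q : Submodule ℤ B} (hQ : IsStab ρ Q) (g : G) (x : Q) :
    ((subRep hQ g x : Q) : B) = ρ g x := rfl

/-- the action on a subquotient -/
def sqRep {P Q : Submodule ℤ B} (hP : IsStab ρ P) (hQ : IsStab ρ Q) :
    Representation ℤ G (SQ P Q) where
  toFun g := (P.submoduleOf Q).mapQ (P.submoduleOf Q) (subRep hQ g) (fun x hx => hP g x hx)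
  map_one' := by
    ext x
    show Submodule.Quotient.mk (subRep hQ 1 x) = Submodule.Quotient.mk x
    rw [map_one]; rfl
  map_mul' g h := by
    ext x
    show Submodule.Quotient.mk (subRep hQ (g * h) x) =
      Submodule.Quotient.mk (subRep hQ g (subRep hQ h x))
    rw [map_mul]; rfl

theorem sqRep_mk {P Q : Submodule ℤ B} (hP : IsStab ρ P) (hQ : IsStab ρ Q) (g : G) (x : Q) :
    sqRep hP hQ g (Submodule.Quotient.mk x) = Submodule.Quotient.mk (subRep hQ g x) := rfl

omit [Group G] in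
theorem sq_killed {P Q : Submodule ℤ B} (h : ∀ x ∈ Q, p • x ∈ P) (m : SQ P Q) : p • m = 0 := by
  obtain ⟨x, rfl⟩ := Submodule.Quotient.mk_surjective _ m
  rw [← Submodule.Quotient.mk_smul, Submodule.Quotient.mk_eq_zero]
  exact h x x.2

theorem sq_finite [Module.Finite ℤ B] (hp : p ≠ 0) {P Q : Submodule ℤ B}
    (h : ∀ x ∈ Q, p • x ∈ P) : Finite (SQ P Q) := by
  have : Module.Finite ℤ Q := Module.IsNoetherian.finite ℤ Q
  apply Module.finite_of_fg_torsion
  intro x
  refine ⟨⟨(p : ℤ), mem_nonZeroDivisors_of_ne_zero (Nat.cast_ne_zero.2 hp)⟩, ?_⟩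
  show (p : ℤ) • x = 0
  rw [natCast_zsmul]
  exact sq_killed h x

variable [Module.Finite ℤ B] (hp : p ≠ 0)

/-- the value of `Φ` on a subquotient -/
noncomputable def fsq {P Q : Submodule ℤ B} (hP : IsStab ρ P) (hQ : IsStab ρ Q)
    (h : ∀ x ∈ Q, p • x ∈ P) : ℤ :=
  haveI := sq_finite hp h
  Φ.FZ (SQ P Q) (sq_killed h) (sqRep hP hQ)

theorem fsq_add {P R Q : Submodule ℤ B} (hP : IsStab ρ P) (hR : IsStab ρ R) (hQ : IsStab ρ Q)
    (h : ∀ x ∈ Q, p • x ∈ P) (hPR : P ≤ R) (hRQ : R ≤ Q) :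
    Φ.fsq hp hP hQ h = Φ.fsq hp hP hR (fun x hx => h x (hRQ hx)) +
      Φ.fsq hp hR hQ (fun x hx => hPR (h x hx)) := by
  have i1 := sq_finite hp h
  have i2 := sq_finite hp (P := P) (Q := R) (fun x hx => h x (hRQ hx))
  have i3 := sq_finite hp (P := R) (Q := Q) (fun x hx => hPR (h x hx))
  let f : SQ P R →ₗ[ℤ] SQ P Q := (P.submoduleOf R).mapQ (P.submoduleOf Q)
    (Submodule.inclusion hRQ) (fun x hx => hx)
  let g : SQ P Q →ₗ[ℤ] SQ R Q := (P.submoduleOf Q).mapQ (R.submoduleOf Q)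
    LinearMap.id (fun x hx => hPR hx)
  refine Φ.FZ_add _ _ _ (sqRep hP hR) (sqRep hP hQ) (sqRep hR hQ) f g ?_ ?_ ?_ ?_ ?_
  · intro σ a
    obtain ⟨x, rfl⟩ := Submodule.Quotient.mk_surjective _ a
    rfl
  · intro σ a
    obtain ⟨x, rfl⟩ := Submodule.Quotient.mk_surjective _ a
    rfl
  · rw [← LinearMap.ker_eq_bot, LinearMap.ker_eq_bot']
    intro a ha
    obtain ⟨x, rfl⟩ := Submodule.Quotient.mk_surjective _ a
    have ha' : (Submodule.Quotient.mk (Submodule.inclusion hRQ x) : SQ P Q) = 0 := ha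
    rw [Submodule.Quotient.mk_eq_zero] at ha' ⊢
    exact ha'
  · intro b
    obtain ⟨x, rfl⟩ := Submodule.Quotient.mk_surjective _ b
    exact ⟨Submodule.Quotient.mk x, rfl⟩
  · intro b
    obtain ⟨x, rfl⟩ := Submodule.Quotient.mk_surjective _ b
    constructor
    · intro hx
      have hx' : (Submodule.Quotient.mk x : SQ R Q) = 0 := hx
      rw [Submodule.Quotient.mk_eq_zero] at hx'
      exact ⟨Submodule.Quotient.mk ⟨x, hx'⟩, rfl⟩
    · rintro ⟨a, ha⟩
      obtain ⟨y, rfl⟩ := Submodule.Quotient.mk_surjective _ a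
      rw [← ha]
      show (Submodule.Quotient.mk (Submodule.inclusion hRQ y) : SQ R Q) = 0
      rw [Submodule.Quotient.mk_eq_zero]
      exact y.2

/-- comparison of subquotients of two modules -/
theorem fsq_eq {B' : Type} [AddCommGroup B'] [Module.Finite ℤ B'] {ρ' : Representation ℤ G B'}
    {P Q : Submodule ℤ B} (hP : IsStab ρ P) (hQ : IsStab ρ Q)
    (h : ∀ x ∈ Q, p • x ∈ P) {P' Q' : Submodule ℤ B'} (hP' : IsStab ρ' P') (hQ' : IsStab ρ' Q')
    (h' : ∀ x ∈ Q', p • x ∈ P') (u : B →ₗ[ℤ] B') (hu : ∀ g x, u (ρ g x) = ρ' g (u x))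
    (h1 : ∀ x ∈ Q, u x ∈ Q') (h2 : ∀ x ∈ Q, u x ∈ P' ↔ x ∈ P)
    (h3 : ∀ y ∈ Q', ∃ x ∈ Q, y - u x ∈ P') :
    Φ.fsq hp hP hQ h = Φ.fsq hp hP' hQ' h' := by
  have i1 := sq_finite hp h
  have i2 := sq_finite hp h'
  let f : SQ P Q →ₗ[ℤ] SQ P' Q' := (P.submoduleOf Q).mapQ (P'.submoduleOf Q')
    (u.restrict h1) (fun x hx => (h2 x x.2).2 hx)
  have hf : ∀ x : Q, f (Submodule.Quotient.mk x) =
    Submodule.Quotient.mk (⟨u x, h1 x x.2⟩ : Q') := fun x => rfl
  refine Φ.FZ_iso _ _ f ?_ ⟨?_, ?_⟩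
  · intro σ a
    obtain ⟨x, rfl⟩ := Submodule.Quotient.mk_surjective _ a
    rw [sqRep_mk, hf, hf, sqRep_mk]
    congr 1
    exact Subtype.ext (hu σ x)
  · rw [← LinearMap.ker_eq_bot, LinearMap.ker_eq_bot']
    intro a ha
    obtain ⟨x, rfl⟩ := Submodule.Quotient.mk_surjective _ a
    rw [hf, Submodule.Quotient.mk_eq_zero] at ha
    rw [Submodule.Quotient.mk_eq_zero]
    exact (h2 x x.2).1 ha
  · intro b
    obtain ⟨y, rfl⟩ := Submodule.Quotient.mk_surjective _ b
    obtain ⟨x, hx, hxy⟩ := h3 y y.2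
    refine ⟨Submodule.Quotient.mk ⟨x, hx⟩, ?_⟩
    rw [hf, eq_comm, Submodule.Quotient.eq]
    exact hxy

end SQ

/-! ### The lattice lemma -/

section Lattice

variable {B : Type} [AddCommGroup B] [Module.Finite ℤ B] [IsAddTorsionFree B]
  {ρ : Representation ℤ G B} (hp : p ≠ 0)

/-- `p • P` -/
def pM (p : ℕ) {B : Type*} [AddCommGroup B] (P : Submodule ℤ B) : Submodule ℤ B :=
  P.map (LinearMap.lsmul ℤ B (p : ℤ))

omit [Module.Finite ℤ B] [IsAddTorsionFree B] in
theorem mem_pM {P : Submodule ℤ B} {x : B} : x ∈ pM p P ↔ ∃ y ∈ P, p • y = x := by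
  unfold pM
  rw [Submodule.mem_map]
  simp

omit [Module.Finite ℤ B] [IsAddTorsionFree B] in
theorem isStab_pM {P : Submodule ℤ B} (hP : IsStab ρ P) : IsStab ρ (pM p P) := by
  intro g x hx
  obtain ⟨y, hy, rfl⟩ := mem_pM.1 hx
  exact mem_pM.2 ⟨ρ g y, hP g y hy, by rw [map_nsmul]⟩

omit [Module.Finite ℤ B] [IsAddTorsionFree B] in
theorem pM_le (P : Submodule ℤ B) : pM p P ≤ P := by
  intro x hx
  obtain ⟨y, hy, rfl⟩ := mem_pM.1 hx
  exact P.smul_of_tower_mem p hy

/-- the reduction of a stable sublattice -/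
noncomputable def red {P : Submodule ℤ B} (hP : IsStab ρ P) : ℤ :=
  Φ.fsq hp (isStab_pM (p := p) hP) hP (fun x hx => mem_pM.2 ⟨x, hx, rfl⟩)

/-- one step: `p Q ≤ P ≤ Q` -/
theorem red_step {P Q : Submodule ℤ B} (hP : IsStab ρ P) (hQ : IsStab ρ Q) (hPQ : P ≤ Q)
    (h : ∀ x ∈ Q, p • x ∈ P) : Φ.red hp hP = Φ.red hp hQ := by
  have e1 := Φ.fsq_add hp (isStab_pM (p := p) hQ) hP hQ (fun x hx => mem_pM.2 ⟨x, hx, rfl⟩)
    (fun x hx => by obtain ⟨y, hy, rfl⟩ := mem_pM.1 hx; exact h y hy) hPQ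
  have e2 := Φ.fsq_add hp (isStab_pM (p := p) hP) (isStab_pM (p := p) hQ) hP
    (fun x hx => mem_pM.2 ⟨x, hx, rfl⟩)
    (fun x hx => by
      obtain ⟨y, hy, rfl⟩ := mem_pM.1 hx
      exact mem_pM.2 ⟨y, hPQ hy, rfl⟩)
    (fun x hx => by obtain ⟨y, hy, rfl⟩ := mem_pM.1 hx; exact h y hy)
  have e3 : Φ.fsq hp hP hQ h =
      Φ.fsq hp (isStab_pM (p := p) hP) (isStab_pM (p := p) hQ) (fun x hx => by
        obtain ⟨y, hy, rfl⟩ := mem_pM.1 hx
        exact mem_pM.2 ⟨p • y, h y hy, rfl⟩) := by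
    refine Φ.fsq_eq hp hP hQ h _ _ _ (LinearMap.lsmul ℤ B (p : ℤ)) (fun g x => ?_) ?_ ?_ ?_
    · simp
    · intro x hx
      exact mem_pM.2 ⟨x, hx, by simp⟩
    · intro x hx
      constructor
      · intro hx'
        obtain ⟨y, hy, hyx⟩ := mem_pM.1 hx'
        have : p • y = p • x := by rw [hyx]; simp
        rw [← nsmul_right_injective hp this]
        exact hy
      · intro hx'
        exact mem_pM.2 ⟨x, hx', by simp⟩
    · intro y hy
      obtain ⟨x, hx, rfl⟩ := mem_pM.1 hy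
      refine ⟨x, hx, ?_⟩
      simp
  unfold red
  rw [e1, e2, e3]
  exact add_comm _ _

/-- the final step: index prime to `p` -/
theorem red_prime {P Q : Submodule ℤ B} (hP : IsStab ρ P) (hQ : IsStab ρ Q) (hPQ : P ≤ Q)
    (h1 : ∀ y ∈ Q, p • y ∈ P → y ∈ P) (h2 : ∀ y ∈ Q, ∃ x ∈ P, ∃ z ∈ Q, y = x + p • z) :
    Φ.red hp hP = Φ.red hp hQ := by
  refine Φ.fsq_eq hp _ _ _ _ _ _ LinearMap.id (fun _ _ => rfl) (fun x hx => hPQ hx) ?_ ?_
  · intro x hx
    constructor
    · intro hx'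
      obtain ⟨y, hy, rfl⟩ := mem_pM.1 hx'
      exact mem_pM.2 ⟨y, h1 y hy hx, rfl⟩
    · intro hx'
      obtain ⟨y, hy, rfl⟩ := mem_pM.1 hx'
      exact mem_pM.2 ⟨y, hPQ hy, rfl⟩
  · intro y hy
    obtain ⟨x, hx, z, hz, rfl⟩ := h2 y hy
    exact ⟨x, hx, mem_pM.2 ⟨z, hz, by simp⟩⟩

omit [Module.Finite ℤ B] [IsAddTorsionFree B] in
theorem isStab_sup {P Q : Submodule ℤ B} (hP : IsStab ρ P) (hQ : IsStab ρ Q) :
    IsStab ρ (P ⊔ Q) := by
  intro g x hx
  obtain ⟨a, ha, b, hb, rfl⟩ := Submodule.mem_sup.1 hx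
  rw [map_add]
  exact Submodule.add_mem_sup (hP g a ha) (hQ g b hb)

/-- the reduction of a stable sublattice of finite index is the reduction of the lattice -/
theorem red_eq_of_finite {P Q : Submodule ℤ B} (hP : IsStab ρ P) (hQ : IsStab ρ Q) (hPQ : P ≤ Q)
    (hfin : Finite (SQ P Q)) : Φ.red hp hP = Φ.red hp hQ := by
  -- induction on the index
  induction hn : Nat.card (SQ P Q) using Nat.strong_induction_on generalizing Q with
  | _ n ih =>
    let R : Submodule ℤ B := P ⊔ pM p Q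
    have hR : IsStab ρ R := isStab_sup hP (isStab_pM hQ)
    have hPR : P ≤ R := le_sup_left
    have hRQ : R ≤ Q := sup_le hPQ (pM_le Q)
    have hstep : Φ.red hp hR = Φ.red hp hQ := Φ.red_step hp hR hQ hRQ
      (fun x hx => Submodule.mem_sup_right (mem_pM.2 ⟨x, hx, rfl⟩))
    let f : SQ P R →ₗ[ℤ] SQ P Q := (P.submoduleOf R).mapQ (P.submoduleOf Q)
      (Submodule.inclusion hRQ) (fun x hx => hx)
    have hf : ∀ x : R, f (Submodule.Quotient.mk x) =
      Submodule.Quotient.mk (Submodule.inclusion hRQ x) := fun x => rfl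
    have hfi : Function.Injective f := by
      rw [← LinearMap.ker_eq_bot, LinearMap.ker_eq_bot']
      intro a ha
      obtain ⟨x, rfl⟩ := Submodule.Quotient.mk_surjective _ a
      rw [hf, Submodule.Quotient.mk_eq_zero] at ha
      rw [Submodule.Quotient.mk_eq_zero]
      exact ha
    have hfinR : Finite (SQ P R) := Finite.of_injective f hfi
    by_cases hRQ' : R = Q
    · -- index prime to `p`
      have hsurj : ∀ y ∈ Q, ∃ x ∈ P, ∃ z ∈ Q, y = x + p • z := by
        intro y hy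
        rw [← hRQ'] at hy
        obtain ⟨x, hx, w, hw, rfl⟩ := Submodule.mem_sup.1 hy
        obtain ⟨z, hz, rfl⟩ := mem_pM.1 hw
        exact ⟨x, hx, z, hz, rfl⟩
      refine Φ.red_prime hp hP hQ hPQ ?_ hsurj
      intro y hy hyP
      -- multiplication by `p` on the finite group `Q / P` is surjective, hence injective
      have hs : Function.Surjective (fun m : SQ P Q => p • m) := by
        intro m
        obtain ⟨x, rfl⟩ := Submodule.Quotient.mk_surjective _ m
        obtain ⟨a, ha, z, hz, h⟩ := hsurj x x.2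
        refine ⟨Submodule.Quotient.mk ⟨z, hz⟩, ?_⟩
        show p • (Submodule.Quotient.mk (⟨z, hz⟩ : Q) : SQ P Q) = _
        rw [← Submodule.Quotient.mk_smul, eq_comm, Submodule.Quotient.eq]
        show (x : B) - p • z ∈ P
        rw [h, add_sub_cancel_right]
        exact ha
      have hi := (Finite.injective_iff_surjective).2 hs
      have h0 : (Submodule.Quotient.mk (⟨y, hy⟩ : Q) : SQ P Q) = 0 := by
        apply hi
        show p • (Submodule.Quotient.mk (⟨y, hy⟩ : Q) : SQ P Q) = p • 0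
        rw [smul_zero, ← Submodule.Quotient.mk_smul, Submodule.Quotient.mk_eq_zero]
        exact hyP
      rw [Submodule.Quotient.mk_eq_zero] at h0
      exact h0
    · rw [← hstep]
      refine ih (Nat.card (SQ P R)) ?_ hR hPR hfinR rfl
      rw [← hn]
      by_contra hcon
      rw [not_lt] at hcon
      have hbij : Function.Bijective f :=
        (Nat.bijective_iff_injective_and_card f).2 ⟨hfi,
          le_antisymm (Nat.card_le_card_of_injective f hfi) hcon⟩
      apply hRQ'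
      apply le_antisymm hRQ
      intro y hy
      obtain ⟨m, hm⟩ := hbij.2 (Submodule.Quotient.mk ⟨y, hy⟩)
      obtain ⟨x, rfl⟩ := Submodule.Quotient.mk_surjective _ m
      rw [hf, Submodule.Quotient.eq] at hm
      have hm' : (x : B) - y ∈ P := hm
      have : y = x - (x - y) := by abel
      rw [this]
      exact R.sub_mem x.2 (hPR hm')

/-- the reduction of a whole lattice -/
noncomputable def redTop (Φ : AddFun p G) (hp : p ≠ 0) (ρ : Representation ℤ G B) : ℤ :=
  Φ.red hp (ρ := ρ) (P := ⊤) (fun _ _ _ => trivial)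

variable {A : Type} [AddCommGroup A] [Module.Finite ℤ A] [IsAddTorsionFree A]

/-- **Lattice lemma** -/
theorem redTop_eq_of_isogeny {ρA : Representation ℤ G A} (φ : A →ₗ[ℤ] B)
    (hφ : ∀ g a, φ (ρA g a) = ρ g (φ a)) (hinj : Function.Injective φ)
    (hfin : Finite (B ⧸ LinearMap.range φ)) :
    redTop Φ hp ρA = redTop Φ hp ρ := by
  have hst : IsStab ρ (LinearMap.range φ) := by
    rintro g _ ⟨a, rfl⟩
    exact ⟨ρA g a, hφ g a⟩
  have h1 : Φ.red hp hst = redTop Φ hp ρ := by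
    refine Φ.red_eq_of_finite hp hst _ le_top ?_
    let f : SQ (LinearMap.range φ) (⊤ : Submodule ℤ B) →ₗ[ℤ] B ⧸ LinearMap.range φ :=
      ((LinearMap.range φ).submoduleOf ⊤).mapQ (LinearMap.range φ) (Submodule.subtype _)
        (fun x hx => hx)
    refine Finite.of_injective f ?_
    rw [← LinearMap.ker_eq_bot, LinearMap.ker_eq_bot']
    intro a ha
    obtain ⟨x, rfl⟩ := Submodule.Quotient.mk_surjective _ a
    have ha' : (Submodule.Quotient.mk (x : B) : B ⧸ LinearMap.range φ) = 0 := ha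
    rw [Submodule.Quotient.mk_eq_zero] at ha' ⊢
    exact ha'
  rw [← h1]
  refine Φ.fsq_eq hp (P := pM p ⊤) (Q := ⊤) (isStab_pM fun _ _ _ => trivial) (fun _ _ _ => trivial)
    (fun x hx => mem_pM.2 ⟨x, hx, rfl⟩) (isStab_pM hst) hst
    (fun x hx => mem_pM.2 ⟨x, hx, rfl⟩) φ hφ ?_ ?_ ?_
  · intro x _
    exact ⟨x, rfl⟩
  · intro x _
    constructor
    · intro hx
      obtain ⟨_, ⟨y, rfl⟩, hyx⟩ := mem_pM.1 hx
      refine mem_pM.2 ⟨y, trivial, hinj ?_⟩
      rw [map_nsmul, hyx]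
    · intro hx
      obtain ⟨y, _, rfl⟩ := mem_pM.1 hx
      exact mem_pM.2 ⟨φ y, ⟨y, rfl⟩, by rw [map_nsmul]⟩
  · rintro _ ⟨x, rfl⟩
    exact ⟨x, trivial, by rw [sub_self]; exact Submodule.zero_mem _⟩

/-- the reduction computed with any model -/
theorem redTop_eq_F {M : Type} [AddCommGroup M] [Module (ZMod p) M] [Finite M]
    (r : Representation (ZMod p) G M) (π : B →+ M) (hπ : Function.Surjective π)
    (hker : ∀ x, π x = 0 ↔ ∃ y, x = p • y) (heq : ∀ g x, π (ρ g x) = r g (π x)) :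
    redTop Φ hp ρ = Φ.F M r := by
  let P : Submodule ℤ B := pM p ⊤
  have hP : IsStab ρ P := isStab_pM (fun _ _ _ => trivial)
  have hk : ∀ x ∈ (⊤ : Submodule ℤ B), p • x ∈ P := fun x hx => mem_pM.2 ⟨x, hx, rfl⟩
  have i1 : Finite (SQ P (⊤ : Submodule ℤ B)) := sq_finite hp hk
  letI i2 : Module (ZMod p) (SQ P (⊤ : Submodule ℤ B)) := AddCommGroup.zmodModule (sq_killed hk)
  show Φ.FZ (SQ P (⊤ : Submodule ℤ B)) (sq_killed hk) (sqRep hP _) = _
  rw [FZ_eq]
  let f : SQ P (⊤ : Submodule ℤ B) →ₗ[ℤ] M := (P.submoduleOf ⊤).liftQ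
    (π.toIntLinearMap ∘ₗ Submodule.subtype _) (fun x hx => by
      obtain ⟨y, _, hy⟩ := mem_pM.1 (show (x : B) ∈ P from hx)
      rw [LinearMap.mem_ker]
      show π x = 0
      exact (hker _).2 ⟨y, hy.symm⟩)
  have hf : ∀ x : (⊤ : Submodule ℤ B), f (Submodule.Quotient.mk x) = π x := fun x => rfl
  refine Φ.F_iso (f.toAddMonoidHom.toZModLinearMap p) ?_ ⟨?_, ?_⟩
  · intro σ a
    obtain ⟨x, rfl⟩ := Submodule.Quotient.mk_surjective _ a
    exact heq σ x
  · show Function.Injective f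
    rw [← LinearMap.ker_eq_bot, LinearMap.ker_eq_bot']
    intro a ha
    obtain ⟨x, rfl⟩ := Submodule.Quotient.mk_surjective _ a
    rw [hf, hker] at ha
    obtain ⟨y, hy⟩ := ha
    rw [Submodule.Quotient.mk_eq_zero]
    exact mem_pM.2 ⟨y, trivial, hy.symm⟩
  · intro m
    obtain ⟨x, hx⟩ := hπ m
    exact ⟨Submodule.Quotient.mk ⟨x, trivial⟩, hx⟩

end Lattice

/-- **LL'**: lattices with the same traces have the same reduction, as far as additive functions are
concerned. -/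
theorem F_red_eq_of_trace [Finite G] (hp : p ≠ 0) {A B : Type} [AddCommGroup A] [Module.Free ℤ A]
    [Module.Finite ℤ A] [AddCommGroup B] [Module.Free ℤ B] [Module.Finite ℤ B]
    (ρ : Representation ℤ G A) (τ : Representation ℤ G B)
    (h : ∀ g, LinearMap.trace ℤ A (ρ g) = LinearMap.trace ℤ B (τ g))
    {M : Type} [AddCommGroup M] [Module (ZMod p) M] [Finite M]
    (r : Representation (ZMod p) G M) (π : A →+ M) (hπ : Function.Surjective π)
    (hker : ∀ x, π x = 0 ↔ ∃ y, x = p • y) (heq : ∀ g x, π (ρ g x) = r g (π x))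
    {M' : Type} [AddCommGroup M'] [Module (ZMod p) M'] [Finite M']
    (r' : Representation (ZMod p) G M') (π' : B →+ M') (hπ' : Function.Surjective π')
    (hker' : ∀ x, π' x = 0 ↔ ∃ y, x = p • y) (heq' : ∀ g x, π' (τ g x) = r' g (π' x)) :
    Φ.F M r = Φ.F M' r' := by
  have : IsAddTorsionFree A := Module.isTorsionFree_int_iff_isAddTorsionFree.1 inferInstance
  have : IsAddTorsionFree B := Module.isTorsionFree_int_iff_isAddTorsionFree.1 inferInstance
  obtain ⟨φ, h1, h2, h3⟩ := exists_isogeny h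
  rw [← Φ.redTop_eq_F hp r π hπ hker heq, ← Φ.redTop_eq_F hp r' π' hπ' hker' heq']
  exact Φ.redTop_eq_of_isogeny hp φ h1 h2 h3

end AddFun

end Fermat.Agent.H77.Rep
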