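import Fermat.Agent.H77BrA
import Fermat.Agent.H21Inj
import Fermat.Prelude.Def_ModularForm_HeckeOperatorForms

/-!
# Bridge, part B: periods of Hecke transforms of cusp forms
-/

set_option autoImplicit false

namespace Fermat.Agent.H77.BR

open Fermat.Agent.H41 Fermat.Agent.H21
open Matrix Matrix.SpecialLinearGroup CongruenceSubgroup ModularCurve
open UpperHalfPlane hiding I
open scoped MatrixGroups ModularForm

/-- real points -/
noncomputable def toR : GL (Fin 2) ℚ →* GL (Fin 2) ℝ :=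
  Matrix.GeneralLinearGroup.map (algebraMap ℚ ℝ)

/-- type synonym for the upper half plane, with its `GL₂(ℚ)`-action. -/
def HQ : Type := ℍ

noncomputable instance : MulAction (GL (Fin 2) ℚ) HQ :=
  MulAction.compHom ℍ toR

/-- the identity -/
def toH (z : HQ) : ℍ := z

theorem smul_HQ (g : GL (Fin 2) ℚ) (z : HQ) : toH (g • z) = toR g • toH z := rfl

theorem toR_mapGL (g : SL(2, ℤ)) : toR (mapGL ℚ g) = mapGL ℝ g := by
  ext i j
  simp [toR]

theorem toR_hm {p : ℕ} (hp : p ≠ 0) (j : ℕ) : toR (hm p j) = ModularForm.heckeMatrix p j := by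
  ext i k
  rw [ModularForm.val_heckeMatrix hp, hm_eq hp]
  fin_cases i <;> fin_cases k <;> simp [toR, mk2]

theorem toR_hd {p : ℕ} (hp : p ≠ 0) : toR (hd p) = ModularForm.heckeDiagMatrix p := by
  ext i k
  rw [ModularForm.val_heckeDiagMatrix hp, hd_eq hp]
  fin_cases i <;> fin_cases k <;> simp [toR, mk2]

/-- chain rule for primitives. -/
theorem isPrim_comp_smul {G g : ℍ → ℂ} (hG : IsPrim G g) (δ : GL (Fin 2) ℝ) (hdet : 0 < δ.det.val) :
    IsPrim (fun τ => G (δ • τ)) (g ∣[(2 : ℤ)] δ) := by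
  intro τ
  have hdet' : 0 < δ.val.det := hdet
  have h1 := (hasStrictDerivAt_smul hdet' τ).hasDerivAt
  have h2 : HasDerivAt (G ∘ ofComplex) (g (δ • τ)) (↑(δ • ofComplex (τ : ℂ))) := by
    simpa [ofComplex_apply] using hG (δ • τ)
  have h3 := h2.comp (τ : ℂ) h1
  have h4 : ((fun τ => G (δ • τ)) ∘ ofComplex) = (G ∘ ofComplex) ∘ (fun w : ℂ => (↑(δ • ofComplex w) : ℂ)) := by
    ext w
    simp [ofComplex_apply]
  rw [h4]
  have h5 : (g ∣[(2 : ℤ)] δ) τ = g (δ • τ) * ((δ.val.det : ℂ) / denom δ τ ^ 2) := by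
    rw [ModularForm.slash_apply, UpperHalfPlane.σ, if_pos hdet]
    simp only [ContinuousAlgEquiv.refl_apply]
    rw [mul_assoc]
    congr 1
    rw [_root_.zpow_neg, div_eq_mul_inv, abs_of_pos hdet]
    norm_num
  rw [h5]
  exact h3

variable {N : ℕ} [NeZero N]

/-- the symbol of a cusp form -/
noncomputable def fsymb (f : CuspForm (Gamma0 N) 2) : Symb ℂ HQ ℂ :=
  ⟨fun z w => prim f (toH z) - prim f (toH w), fun x y z => by ring⟩

theorem fsymb_apply (f : CuspForm (Gamma0 N) 2) (z w : HQ) :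
    (fsymb f).1 z w = prim f (toH z) - prim f (toH w) := rfl

theorem smul_HQ_SL (g : SL(2, ℤ)) (z : HQ) :
    toH ((mapGL ℚ g : GL (Fin 2) ℚ) • z) = g • toH z := by
  rw [smul_HQ, toR_mapGL]
  rfl

theorem fsymb_per (f : CuspForm (Gamma0 N) 2) (γ : Gamma0 N) (z : HQ) :
    (fsymb f).1 ((mapGL ℚ (γ : SL(2, ℤ)) : GL (Fin 2) ℚ) • z) z =
      periodMap N f (Additive.ofMul γ) := by
  rw [fsymb_apply, smul_HQ_SL, periodMap_apply f γ (toH z)]

theorem fsymb_mem (f : CuspForm (Gamma0 N) 2) : fsymb f ∈ inv ℂ HQ ℂ (G0 N) := by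
  rintro _ ⟨γ, hγ, rfl⟩
  ext z w
  have h1 := fsymb_per f ⟨γ, hγ⟩ z
  have h2 := fsymb_per f ⟨γ, hγ⟩ w
  rw [fsymb_apply] at h1 h2
  rw [slash_apply, fsymb_apply, fsymb_apply]
  linear_combination h1 - h2

/-- periods of a form computed with any primitive -/
theorem periodMap_of_isPrim (f : CuspForm (Gamma0 N) 2) {F : ℍ → ℂ} (hF : IsPrim F f)
    (γ : Gamma0 N) (z : ℍ) :
    periodMap N f (Additive.ofMul γ) = F ((γ : SL(2, ℤ)) • z) - F z := by
  obtain ⟨c, hc⟩ := hF.exists_sub_const (prim_isPrim f)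
  rw [periodMap_apply f γ z]
  linear_combination hc z - hc ((γ : SL(2, ℤ)) • z)

theorem IsPrim.sum {ι : Type*} (s : Finset ι) {F f : ι → ℍ → ℂ} (h : ∀ i ∈ s, IsPrim (F i) (f i)) :
    IsPrim (∑ i ∈ s, F i) (∑ i ∈ s, f i) := by
  classical
  induction s using Finset.induction_on with
  | empty =>
    intro τ
    simp
  | insert a s ha ih =>
    rw [Finset.sum_insert ha, Finset.sum_insert ha]
    exact (h a (Finset.mem_insert_self a s)).add (ih fun i hi => h i (Finset.mem_insert_of_mem hi))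

theorem isPrim_U (f : CuspForm (Gamma0 N) 2) {p : ℕ} (hp : p ≠ 0) :
    IsPrim (∑ j ∈ Finset.range p, fun τ : ℍ => prim f (toR (hm p j) • τ))
      (ModularForm.heckeU 2 p f) := by
  rw [ModularForm.heckeU_def]
  refine IsPrim.sum _ fun j _ => ?_
  rw [toR_hm hp]
  exact isPrim_comp_smul (prim_isPrim f) _ (ModularForm.det_heckeMatrix_pos p j)

theorem isPrim_T (f : CuspForm (Gamma0 N) 2) {p : ℕ} (hp : p ≠ 0) :
    IsPrim ((∑ j ∈ Finset.range p, fun τ : ℍ => prim f (toR (hm p j) • τ)) +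
      fun τ : ℍ => prim f (toR (hd p) • τ))
      (ModularForm.heckeT 2 p f) := by
  rw [ModularForm.heckeT_eq_heckeU_add]
  refine (isPrim_U f hp).add ?_
  rw [toR_hd hp]
  exact isPrim_comp_smul (prim_isPrim f) _ (ModularForm.det_heckeDiagMatrix_pos p)

theorem fsymb_hU (f : CuspForm (Gamma0 N) 2) {p : ℕ} (hpN : p ∣ N) (hp : p ≠ 0) (γ : Gamma0 N)
    (z : HQ) :
    (hU p (fsymb f)).1 ((mapGL ℚ (γ : SL(2, ℤ)) : GL (Fin 2) ℚ) • z) z =
      periodMap N (CuspForm.heckeULin 2 hpN f) (Additive.ofMul γ) := by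
  rw [periodMap_of_isPrim (CuspForm.heckeULin 2 hpN f) (isPrim_U f hp) γ (toH z), hU_apply,
    AddSubmonoidClass.coe_finsetSum, Finset.sum_apply, Finset.sum_apply, Finset.sum_apply,
    Finset.sum_apply, ← Finset.sum_sub_distrib]
  refine Finset.sum_congr rfl fun j _ => ?_
  rw [slash_apply, fsymb_apply, smul_HQ (hm p j), smul_HQ (hm p j), smul_HQ_SL]

theorem fsymb_hT (f : CuspForm (Gamma0 N) 2) {p : ℕ} (hp : p.Prime) (hpN : ¬ p ∣ N) (γ : Gamma0 N)
    (z : HQ) :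
    (hT p (fsymb f)).1 ((mapGL ℚ (γ : SL(2, ℤ)) : GL (Fin 2) ℚ) • z) z =
      periodMap N (CuspForm.heckeTLin 2 hp hpN f) (Additive.ofMul γ) := by
  rw [periodMap_of_isPrim (CuspForm.heckeTLin 2 hp hpN f) (isPrim_T f hp.ne_zero) γ (toH z),
    hT_apply]
  have h1 : ∀ (n m : Symb ℂ HQ ℂ) (x y : HQ), (n + m).1 x y = n.1 x y + m.1 x y :=
    fun _ _ _ _ => rfl
  rw [h1, AddSubmonoidClass.coe_finsetSum, Finset.sum_apply, Finset.sum_apply,
    Pi.add_apply, Pi.add_apply, Finset.sum_apply, Finset.sum_apply]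
  have h2 : ∀ a b c d : ℂ, a + b - (c + d) = (a - c) + (b - d) := fun a b c d => by ring
  rw [h2, ← Finset.sum_sub_distrib]
  congr 1

end Fermat.Agent.H77.BR
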