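import Fermat.Agent.H77BrB

/-!
# Bridge between symbols and pairs of weight two cusp forms (S41, [BR])
-/

set_option autoImplicit false

namespace Fermat.Agent.H77.BR

open Fermat.Agent.H41 Fermat.Agent.H21
open Matrix Matrix.SpecialLinearGroup CongruenceSubgroup ModularCurve
open scoped MatrixGroups

variable {N : ℕ}

/-- the period homomorphism of an invariant symbol -/
noncomputable def perHom (N : ℕ) :
    inv ℂ (OnePoint ℚ) ℂ (G0 N) →ₗ[ℂ] (Additive (Gamma0 N) →+ ℂ) where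
  toFun m := AddMonoidHom.mk'
    (fun γ => m.1.1 ((mapGL ℚ ((Additive.toMul γ : Gamma0 N) : SL(2, ℤ)) : GL (Fin 2) ℚ) •
      (OnePoint.infty : OnePoint ℚ)) OnePoint.infty) (by
      intro γ δ
      have h := per_mul m.2 (g := mapGL ℚ ((Additive.toMul γ : Gamma0 N) : SL(2, ℤ)))
        (h := mapGL ℚ ((Additive.toMul δ : Gamma0 N) : SL(2, ℤ)))
        (Subgroup.mem_map_of_mem _ (Additive.toMul γ).2) (OnePoint.infty : OnePoint ℚ)
      rw [← map_mul] at h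
      exact h)
  map_add' m n := rfl
  map_smul' c m := rfl

theorem perHom_apply (m : inv ℂ (OnePoint ℚ) ℂ (G0 N)) (γ : Gamma0 N) (x : OnePoint ℚ) :
    perHom N m (Additive.ofMul γ) =
      m.1.1 ((mapGL ℚ (γ : SL(2, ℤ)) : GL (Fin 2) ℚ) • x) x :=
  per_indep m.2 (Subgroup.mem_map_of_mem _ γ.2) _ _

theorem perHom_sub (m n : inv ℂ (OnePoint ℚ) ℂ (G0 N)) :
    perHom N (m - n) = perHom N m - perHom N n := rfl

theorem trace_sq_of_lower (M : SL(2, ℤ)) (h : M 1 0 = 0) :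
    (M : Matrix (Fin 2) (Fin 2) ℤ).trace ^ 2 = 4 := by
  have hdet := sl_det M
  rw [h, mul_zero, sub_zero] at hdet
  rw [Matrix.trace_fin_two]
  rcases Int.mul_eq_one_iff_eq_one_or_neg_one.mp hdet with ⟨ha, hd⟩ | ⟨ha, hd⟩
  · rw [ha, hd]; norm_num
  · rw [ha, hd]; norm_num

theorem trace_sq_of_fix {γ : SL(2, ℤ)} {x : OnePoint ℚ}
    (h : (mapGL ℚ γ : GL (Fin 2) ℚ) • x = x) :
    (γ : Matrix (Fin 2) (Fin 2) ℤ).trace ^ 2 = 4 := by
  obtain ⟨g, rfl⟩ := OnePoint.exists_mem_SL2 ℤ x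
  have h1 : (mapGL ℚ (g⁻¹ * γ * g) : GL (Fin 2) ℚ) • (OnePoint.infty : OnePoint ℚ) =
      OnePoint.infty := by
    rw [map_mul, map_mul, mul_smul, mul_smul, h, ← mul_smul, map_inv, inv_mul_cancel, one_smul]
  have h2 : (g⁻¹ * γ * g) 1 0 = 0 := by
    rw [OnePoint.smul_infty_eq_ite] at h1
    split_ifs at h1 with h3
    · rw [mapGL_apply] at h3
      exact_mod_cast h3
    · exact absurd h1 (OnePoint.coe_ne_infty _)
  have h3 := trace_sq_of_lower _ h2
  rw [Matrix.SpecialLinearGroup.coe_mul, Matrix.SpecialLinearGroup.coe_mul,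
    Matrix.trace_mul_comm, ← Matrix.mul_assoc, ← Matrix.SpecialLinearGroup.coe_mul,
    mul_inv_cancel, Matrix.SpecialLinearGroup.coe_one, one_mul] at h3
  exact h3

theorem exists_fix {γ : SL(2, ℤ)} (h : (γ : Matrix (Fin 2) (Fin 2) ℤ).trace ^ 2 = 4) :
    ∃ x : OnePoint ℚ, (mapGL ℚ γ : GL (Fin 2) ℚ) • x = x := by
  have hdet := sl_det γ
  rw [Matrix.trace_fin_two] at h
  by_cases hc : γ 1 0 = 0
  · refine ⟨OnePoint.infty, ?_⟩
    rw [OnePoint.smul_infty_eq_ite, if_pos]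
    rw [mapGL_apply, hc]
    norm_num
  · have hcQ : ((γ 1 0 : ℤ) : ℚ) ≠ 0 := by exact_mod_cast hc
    have hdetQ : ((γ 0 0 : ℤ) : ℚ) * γ 1 1 - γ 0 1 * γ 1 0 = 1 := by exact_mod_cast hdet
    have hQ : (((γ 0 0 : ℤ) : ℚ) + γ 1 1) ^ 2 = 4 := by exact_mod_cast h
    set a : ℚ := ((γ 0 0 : ℤ) : ℚ) with ha
    set b : ℚ := ((γ 0 1 : ℤ) : ℚ) with hb
    set c : ℚ := ((γ 1 0 : ℤ) : ℚ) with hc'
    set d : ℚ := ((γ 1 1 : ℤ) : ℚ) with hd
    refine ⟨(((a - d) / (2 * c) : ℚ) : OnePoint ℚ), ?_⟩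
    rw [OnePoint.smul_some_eq_ite]
    simp only [mapGL_apply]
    rw [← ha, ← hb, ← hc', ← hd]
    have e1 : c * ((a - d) / (2 * c)) + d = (a + d) / 2 := by
      field_simp
      ring
    have hne : a + d ≠ 0 := by
      intro h0
      rw [h0] at hQ
      norm_num at hQ
    rw [e1, if_neg (by simpa using hne)]
    congr 1
    rw [div_eq_iff (by simpa using hne)]
    field_simp
    linear_combination (-4 : ℚ) * hdetQ + hQ

theorem perHom_mem (m : inv ℂ (OnePoint ℚ) ℂ (G0 N)) :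
    perHom N m ∈ Period.parabolicHoms ℂ (Gamma0 N) ℂ := by
  rw [Period.mem_parabolicHoms_iff]
  intro γ hγ
  obtain ⟨x, hx⟩ := exists_fix hγ
  rw [perHom_apply m γ x, hx, Symb.self]

theorem perHom_surj {φ : Additive (Gamma0 N) →+ ℂ}
    (hφ : φ ∈ Period.parabolicHoms ℂ (Gamma0 N) ℂ) :
    ∃ m : inv ℂ (OnePoint ℚ) ℂ (G0 N), perHom N m = φ := by
  rw [Period.mem_parabolicHoms_iff] at hφ
  let act : Gamma0 N → OnePoint ℚ → OnePoint ℚ := fun γ x =>
    (mapGL ℚ (γ : SL(2, ℤ)) : GL (Fin 2) ℚ) • x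
  have hact_mul : ∀ γ δ x, act (γ * δ) x = act γ (act δ x) := by
    intro γ δ x
    show (mapGL ℚ ((γ * δ : Gamma0 N) : SL(2, ℤ)) : GL (Fin 2) ℚ) • x = _
    rw [Subgroup.coe_mul, map_mul, mul_smul]
  have hact_one : ∀ x, act 1 x = x := by
    intro x
    show (mapGL ℚ ((1 : Gamma0 N) : SL(2, ℤ)) : GL (Fin 2) ℚ) • x = _
    rw [Subgroup.coe_one, map_one, one_smul]
  let st : Setoid (OnePoint ℚ) :=
    { r := fun x y => ∃ γ : Gamma0 N, act γ x = y
      iseqv :=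
        { refl := fun x => ⟨1, hact_one x⟩
          symm := by
            rintro x y ⟨γ, rfl⟩
            exact ⟨γ⁻¹, by rw [← hact_mul, inv_mul_cancel, hact_one]⟩
          trans := by
            rintro x y z ⟨γ, rfl⟩ ⟨δ, rfl⟩
            exact ⟨δ * γ, hact_mul _ _ _⟩ } }
  let rep : OnePoint ℚ → OnePoint ℚ := fun x => (Quotient.mk st x).out
  have hrep : ∀ x, ∃ γ : Gamma0 N, act γ (rep x) = x := fun x => Quotient.mk_out (s := st) x
  choose G hG using hrep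
  have hrep_eq : ∀ γ x, rep (act γ x) = rep x := by
    intro γ x
    show (Quotient.mk st (act γ x)).out = (Quotient.mk st x).out
    congr 1
    exact Quotient.sound (s := st) (show ∃ δ : Gamma0 N, act δ (act γ x) = x from
      ⟨γ⁻¹, by rw [← hact_mul, inv_mul_cancel, hact_one]⟩)
  have key : ∀ γ x, φ (Additive.ofMul (G (act γ x))) =
      φ (Additive.ofMul γ) + φ (Additive.ofMul (G x)) := by
    intro γ x
    have h1 : act ((γ * G x)⁻¹ * G (act γ x)) (rep x) = rep x := by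
      rw [hact_mul]
      have h2 : act (G (act γ x)) (rep x) = act (γ * G x) (rep x) := by
        rw [hact_mul, hG x]
        have := hG (act γ x)
        rwa [hrep_eq] at this
      rw [h2, ← hact_mul, inv_mul_cancel, hact_one]
    have h2 := hφ _ (trace_sq_of_fix h1)
    have h3 : G (act γ x) = γ * (G x * ((γ * G x)⁻¹ * G (act γ x))) := by group
    have h4 : φ (Additive.ofMul (G (act γ x))) = φ (Additive.ofMul γ) +
        (φ (Additive.ofMul (G x)) + φ (Additive.ofMul ((γ * G x)⁻¹ * G (act γ x)))) := by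
      conv_lhs => rw [h3]
      rw [ofMul_mul, map_add, ofMul_mul, map_add]
    rw [h4, h2, add_zero]
  let F : OnePoint ℚ → ℂ := fun x => φ (Additive.ofMul (G x))
  have hF : ∀ (γ : Gamma0 N) x, F ((mapGL ℚ (γ : SL(2, ℤ)) : GL (Fin 2) ℚ) • x) =
      φ (Additive.ofMul γ) + F x := key
  clear_value F
  let m0 : Symb ℂ (OnePoint ℚ) ℂ := ⟨fun x y => F x - F y, fun x y z => by ring⟩
  have hm0 : ∀ x y, m0.1 x y = F x - F y := fun _ _ => rfl
  clear_value m0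
  have hmem : m0 ∈ inv ℂ (OnePoint ℚ) ℂ (G0 N) := by
    rintro _ ⟨γ, hγ, rfl⟩
    ext x y
    rw [slash_apply, hm0, hm0]
    have h1 := hF ⟨γ, hγ⟩ x
    have h2 := hF ⟨γ, hγ⟩ y
    linear_combination h1 - h2
  refine ⟨⟨m0, hmem⟩, ?_⟩
  refine AddMonoidHom.ext fun γ => ?_
  obtain ⟨γ, rfl⟩ := Additive.ofMul.surjective γ
  rw [perHom_apply _ γ OnePoint.infty, hm0, hF]
  ring

theorem perHom_eps (m : inv ℂ (OnePoint ℚ) ℂ (G0 N)) :
    perHom N ⟨slash eps m.1, slash_eps_mem m.2⟩ =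
      Period.charInvolution N ℂ ℂ (perHom N m) := by
  refine AddMonoidHom.ext fun γ => ?_
  obtain ⟨γ, rfl⟩ := Additive.ofMul.surjective γ
  rw [Period.charInvolution_apply, toMul_ofMul, perHom_apply _ γ OnePoint.infty,
    perHom_apply _ _ (eps • OnePoint.infty), slash_apply, smul_smul, eps_mul, mul_smul]
  congr 3

section Hecke

variable [NeZero N] {ι : Type*} [Fintype ι] {η : ι → GL (Fin 2) ℚ}

theorem bridge_hecke (hη : IsHeckeFam (G0 N) η)
    (heps : ∀ m : Symb ℂ (OnePoint ℚ) ℂ, m ∈ inv ℂ (OnePoint ℚ) ℂ (G0 N) →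
      ∑ i, slash (η i) (slash eps m) = slash eps (∑ i, slash (η i) m))
    (TS : CuspForm (Gamma0 N) 2 → CuspForm (Gamma0 N) 2)
    (hTS : ∀ f (γ : Gamma0 N) (z : HQ), (∑ i, slash (η i) (fsymb f)).1
      ((mapGL ℚ (γ : SL(2, ℤ)) : GL (Fin 2) ℚ) • z) z = periodMap N (TS f) (Additive.ofMul γ))
    {m m' : inv ℂ (OnePoint ℚ) ℂ (G0 N)} (hm' : m'.1 = ∑ i, slash (η i) m.1)
    {f g : CuspForm (Gamma0 N) 2} (h : perHom N m = periodHomPair N (f, g)) :
    perHom N m' = periodHomPair N (TS f, TS g) := by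
  let Tm : inv ℂ (OnePoint ℚ) ℂ (G0 N) → inv ℂ (OnePoint ℚ) ℂ (G0 N) := fun n =>
    ⟨∑ i, slash (η i) n.1, sum_slash_mem_inv hη n.2⟩
  let E : inv ℂ (OnePoint ℚ) ℂ (G0 N) → inv ℂ (OnePoint ℚ) ℂ (G0 N) := fun n =>
    ⟨slash eps n.1, slash_eps_mem n.2⟩
  obtain ⟨mf, hmf⟩ := perHom_surj (periodMap_mem_parabolicHoms f)
  obtain ⟨mg, hmg⟩ := perHom_surj (periodMap_mem_parabolicHoms g)
  have hT : ∀ (n : inv ℂ (OnePoint ℚ) ℂ (G0 N)) (f : CuspForm (Gamma0 N) 2),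
      perHom N n = periodMap N f → perHom N (Tm n) = periodMap N (TS f) := by
    intro n f hn
    refine AddMonoidHom.ext fun γ => ?_
    obtain ⟨γ, rfl⟩ := Additive.ofMul.surjective γ
    rw [perHom_apply _ γ OnePoint.infty, ← hTS f γ (show HQ from UpperHalfPlane.I)]
    refine per_sum_congr hη n.2 (fsymb_mem f) _ _ ?_ (Subgroup.mem_map_of_mem _ γ.2)
    rintro _ ⟨δ, hδ, rfl⟩
    have h1 := fsymb_per f ⟨δ, hδ⟩ (show HQ from UpperHalfPlane.I)
    have h2 := perHom_apply n ⟨δ, hδ⟩ OnePoint.infty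
    rw [hn, ← h1] at h2
    exact h2.symm
  have hE : ∀ n, perHom N (E n) = Period.charInvolution N ℂ ℂ (perHom N n) := perHom_eps
  have hTE : ∀ n, Tm (E n) = E (Tm n) := fun n => Subtype.ext (heps n.1 n.2)
  have hTadd : ∀ n n', Tm (n + n') = Tm n + Tm n' := by
    intro n n'
    apply Subtype.ext
    show ∑ i, slash (η i) (n.1 + n'.1) = ∑ i, slash (η i) n.1 + ∑ i, slash (η i) n'.1
    rw [← Finset.sum_add_distrib]
    exact Finset.sum_congr rfl fun i _ => map_add _ _ _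
  have hTsub : ∀ n n', Tm (n - n') = Tm n - Tm n' := by
    intro n n'
    apply Subtype.ext
    show ∑ i, slash (η i) (n.1 - n'.1) = ∑ i, slash (η i) n.1 - ∑ i, slash (η i) n'.1
    rw [← Finset.sum_sub_distrib]
    exact Finset.sum_congr rfl fun i _ => _root_.map_sub _ _ _
  set n : inv ℂ (OnePoint ℚ) ℂ (G0 N) := (mf + E mf) + (mg - E mg) with hn
  have h1 : perHom N m = perHom N n := by
    rw [h, periodHomPair_apply, hn, _root_.map_add, _root_.map_add, perHom_sub, hE, hE, hmf, hmg]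
  have h2 : perHom N m' = perHom N (Tm n) := by
    refine AddMonoidHom.ext fun γ => ?_
    obtain ⟨γ, rfl⟩ := Additive.ofMul.surjective γ
    rw [perHom_apply _ γ OnePoint.infty, perHom_apply _ γ OnePoint.infty, hm']
    refine per_sum_congr hη m.2 n.2 _ _ ?_ (Subgroup.mem_map_of_mem _ γ.2)
    rintro _ ⟨δ, hδ, rfl⟩
    have h3 := perHom_apply m ⟨δ, hδ⟩ OnePoint.infty
    have h4 := perHom_apply n ⟨δ, hδ⟩ OnePoint.infty
    rw [h1, h4] at h3
    exact h3.symm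
  rw [h2, periodHomPair_apply, hn, hTadd, hTadd, hTsub, hTE, hTE, _root_.map_add, _root_.map_add, perHom_sub, hE,
    hE, hT mf f hmf, hT mg g hmg]

end Hecke

/-- **The bridge.** -/
theorem exists_bridge_of (N : ℕ) [NeZero N]
    (h21 : Function.Injective (ModularCurve.periodHomPair N) ∧
      LinearMap.range (ModularCurve.periodHomPair N) =
        ModularCurve.Period.parabolicHoms ℂ (CongruenceSubgroup.Gamma0 N) ℂ) :
    ∃ Φ : inv ℂ (OnePoint ℚ) ℂ (G0 N) →ₗ[ℂ]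
        (CuspForm (Gamma0 N) 2 × CuspForm (Gamma0 N) 2),
      Function.Surjective Φ ∧
      (∀ m, Φ m = 0 ↔ ∀ γ ∈ G0 N, ∀ x, m.1.1 (γ • x) x = 0) ∧
      (∀ ℓ (hℓ : ℓ.Prime) (hN : ¬ ℓ ∣ N) m (m' : inv ℂ (OnePoint ℚ) ℂ (G0 N)),
        m'.1 = hT ℓ m.1 → Φ m' = (CuspForm.heckeTLin 2 hℓ hN (Φ m).1,
          CuspForm.heckeTLin 2 hℓ hN (Φ m).2)) ∧
      (∀ r (_ : r.Prime) (hrN : r ∣ N) m (m' : inv ℂ (OnePoint ℚ) ℂ (G0 N)),
        m'.1 = hU r m.1 → Φ m' = (CuspForm.heckeULin 2 hrN (Φ m).1,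
          CuspForm.heckeULin 2 hrN (Φ m).2)) := by
  let e := LinearEquiv.ofInjective (periodHomPair N) h21.1
  let Φ : inv ℂ (OnePoint ℚ) ℂ (G0 N) →ₗ[ℂ] (CuspForm (Gamma0 N) 2 × CuspForm (Gamma0 N) 2) :=
    e.symm.toLinearMap ∘ₗ (perHom N).codRestrict _ (fun m => by rw [h21.2]; exact perHom_mem m)
  have hΦ : ∀ m v, Φ m = v ↔ perHom N m = periodHomPair N v := by
    intro m v
    show e.symm _ = v ↔ _
    rw [LinearEquiv.symm_apply_eq, Subtype.ext_iff]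
    rfl
  have hΦ' : ∀ m, perHom N m = periodHomPair N ((Φ m).1, (Φ m).2) := fun m => (hΦ m _).1 rfl
  refine ⟨Φ, ?_, ?_, ?_, ?_⟩
  · intro v
    have : periodHomPair N v ∈ Period.parabolicHoms ℂ (Gamma0 N) ℂ := by
      rw [← h21.2]
      exact ⟨v, rfl⟩
    obtain ⟨m, hm⟩ := perHom_surj this
    exact ⟨m, (hΦ m v).2 hm⟩
  · intro m
    rw [hΦ, map_zero]
    constructor
    · rintro h _ ⟨γ, hγ, rfl⟩ x
      have := perHom_apply m ⟨γ, hγ⟩ x
      rw [h] at this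
      exact this.symm
    · intro h
      refine AddMonoidHom.ext fun γ => ?_
      obtain ⟨γ, rfl⟩ := Additive.ofMul.surjective γ
      rw [perHom_apply m γ OnePoint.infty]
      exact h _ (Subgroup.mem_map_of_mem _ γ.2) _
  · intro ℓ hℓ hN m m' hm'
    have : NeZero ℓ := ⟨hℓ.ne_zero⟩
    rw [hΦ]
    refine bridge_hecke (η := hrep ℓ) (isHeckeFam_T hℓ hN) (fun m hm => ?_)
      (CuspForm.heckeTLin 2 hℓ hN) (fun f γ z => ?_) (by rw [hm', hT_eq_sum]) (hΦ' m)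
    · rw [← hT_eq_sum, ← hT_eq_sum, hT_eps hm]
    · rw [← hT_eq_sum]
      exact fsymb_hT f hℓ hN γ z
  · intro r hr hrN m m' hm'
    have : NeZero r := ⟨hr.ne_zero⟩
    rw [hΦ]
    refine bridge_hecke (η := urep r) (isHeckeFam_U hrN) (fun m hm => ?_)
      (CuspForm.heckeULin 2 hrN) (fun f γ z => ?_) (by rw [hm', hU_eq_sum]) (hΦ' m)
    · rw [← hU_eq_sum, ← hU_eq_sum, hU_eps hm]
    · rw [← hU_eq_sum]
      exact fsymb_hU f hrN hr.ne_zero γ z

end Fermat.Agent.H77.BR
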