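import Mathlib

/-!
# Representations of finite groups in characteristic zero are determined by their characters
-/

set_option autoImplicit false

open Module Representation

namespace Fermat.Agent.H77.Rep

variable {k G V W : Type*} [Field k] [Group G] [AddCommGroup V] [Module k V]
  [AddCommGroup W] [Module k W] (ρ : Representation k G V) (τ : Representation k G W)

/-- equivariant linear maps -/
def IsEq (f : V →ₗ[k] W) : Prop := ∀ g v, f (ρ g v) = τ g (f v)

variable {ρ τ}

theorem exists_lin_geninv (f : V →ₗ[k] W) : ∃ h : W →ₗ[k] V, f ∘ₗ h ∘ₗ f = f := by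
  obtain ⟨s, hs⟩ := f.rangeRestrict.exists_rightInverse_of_surjective f.range_rangeRestrict
  obtain ⟨π, hπ⟩ := (LinearMap.range f).subtype.exists_leftInverse_of_injective
    (Submodule.ker_subtype _)
  refine ⟨s ∘ₗ π, ?_⟩
  ext v
  have h1 : π (f v) = f.rangeRestrict v := by
    have := LinearMap.congr_fun hπ (f.rangeRestrict v)
    exact this
  have h2 : f.rangeRestrict (s (f.rangeRestrict v)) = f.rangeRestrict v :=
    LinearMap.congr_fun hs _
  show f (s (π (f v))) = f v
  rw [h1]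
  exact congrArg Subtype.val h2

variable [Finite G] [CharZero k]

theorem exists_geninv {f : V →ₗ[k] W} (hf : IsEq ρ τ f) :
    ∃ h : W →ₗ[k] V, IsEq τ ρ h ∧ f ∘ₗ h ∘ₗ f = f := by
  classical
  have : Fintype G := Fintype.ofFinite G
  obtain ⟨h₀, hh₀⟩ := exists_lin_geninv f
  have hc : (Fintype.card G : k) ≠ 0 := Nat.cast_ne_zero.2 Fintype.card_ne_zero
  let h : W →ₗ[k] V := (Fintype.card G : k)⁻¹ • ∑ g : G, ρ g ∘ₗ h₀ ∘ₗ τ g⁻¹
  have hh : ∀ w, h w = (Fintype.card G : k)⁻¹ • ∑ g : G, ρ g (h₀ (τ g⁻¹ w)) := by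
    intro w
    simp only [h, LinearMap.smul_apply, LinearMap.sum_apply, LinearMap.comp_apply]
  refine ⟨h, fun g w => ?_, ?_⟩
  · rw [hh, hh, map_smul, map_sum]
    congr 1
    rw [← Equiv.sum_comp (Equiv.mulLeft g) (fun x => ρ x (h₀ (τ x⁻¹ (τ g w))))]
    refine Finset.sum_congr rfl fun x _ => ?_
    simp only [Equiv.coe_mulLeft]
    rw [mul_inv_rev, map_mul, map_mul, Module.End.mul_apply, Module.End.mul_apply]
    congr 3
    rw [← Module.End.mul_apply (τ g⁻¹) (τ g), ← map_mul, inv_mul_cancel, map_one, Module.End.one_apply]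
  · ext v
    simp only [LinearMap.comp_apply]
    rw [hh, map_smul, map_sum]
    have : ∀ g : G, f (ρ g (h₀ (τ g⁻¹ (f v)))) = f v := by
      intro g
      rw [hf, ← hf g⁻¹ v]
      have h1 : f (h₀ (f (ρ g⁻¹ v))) = f (ρ g⁻¹ v) := LinearMap.congr_fun hh₀ _
      rw [h1, ← hf, ← Module.End.mul_apply, ← map_mul, mul_inv_cancel, map_one,
        Module.End.one_apply]
    rw [Finset.sum_congr rfl fun g _ => this g, Finset.sum_const, Finset.card_univ,
      ← Nat.cast_smul_eq_nsmul k, smul_smul, inv_mul_cancel₀ hc, one_smul]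

omit [Finite G] [CharZero k] in
/-- restriction to a stable subspace -/
theorem exists_subrep (ρ : Representation k G V) (K : Submodule k V) (hK : ∀ g, ∀ v ∈ K, ρ g v ∈ K) :
    ∃ ρK : Representation k G K, ∀ g (v : K), ((ρK g v : K) : V) = ρ g v :=
  ⟨{ toFun := fun g => (ρ g).restrict (hK g)
     map_one' := by ext v; simp
     map_mul' := fun g h => by ext v; simp }, fun _ _ => rfl⟩

omit [Finite G] [CharZero k] in
theorem trace_subrep [FiniteDimensional k V] {ρ : Representation k G V} {K : Submodule k V}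
    {ρK : Representation k G K} (hρK : ∀ g (v : K), ((ρK g v : K) : V) = ρ g v)
    (p : V →ₗ[k] V) (hp : ∀ v, p v ∈ K) (hpK : ∀ v ∈ K, p v = v) (g : G) (hpg : p ∘ₗ ρ g = ρ g ∘ₗ p) :
    LinearMap.trace k K (ρK g) = LinearMap.trace k V (ρ g ∘ₗ p) := by
  let π : V →ₗ[k] K := p.codRestrict K hp
  have h1 : ρK g = (π ∘ₗ ρ g) ∘ₗ K.subtype := by
    ext v
    show ((ρK g v : K) : V) = p (ρ g v)
    rw [hρK, hpK]
    rw [← hρK]
    exact (ρK g v).2
  have h2 : ρ g ∘ₗ p = K.subtype ∘ₗ (π ∘ₗ ρ g) := by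
    ext v
    show ρ g (p v) = p (ρ g v)
    exact (LinearMap.congr_fun hpg v).symm
  rw [h1, h2]
  exact LinearMap.trace_comp_comm' _ _

theorem exists_intertwiner [FiniteDimensional k V] [FiniteDimensional k W]
    (h : ∀ g, LinearMap.trace k V (ρ g) = LinearMap.trace k W (τ g)) (hV : Nontrivial V) :
    ∃ f : V →ₗ[k] W, IsEq ρ τ f ∧ f ≠ 0 := by
  classical
  have : Fintype G := Fintype.ofFinite G
  have hc : (Nat.card G : k) ≠ 0 := by
    rw [Nat.card_eq_fintype_card]
    exact Nat.cast_ne_zero.2 Fintype.card_ne_zero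
  have : Invertible (Nat.card G : k) := invertibleOfNonzero hc
  have h1 := card_inv_mul_sum_char_mul_char_eq_finrank (k := k) ρ ρ
  have h2 := card_inv_mul_sum_char_mul_char_eq_finrank (k := k) ρ τ
  have h3 : ∀ g, τ.character g = ρ.character g := fun g => (h g).symm
  simp_rw [h3] at h2
  rw [h1] at h2
  have h4 : finrank k (IntertwiningMap ρ ρ) = finrank k (IntertwiningMap ρ τ) := by
    exact_mod_cast h2
  have e1 := (invariantsEquivIntertwiningMap ρ ρ).finrank_eq
  have e2 := (invariantsEquivIntertwiningMap ρ τ).finrank_eq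
  rw [← e1, ← e2] at h4
  have h5 : 0 < finrank k (linHom ρ ρ).invariants := by
    rw [finrank_pos_iff]
    refine ⟨⟨⟨LinearMap.id, fun g => ?_⟩, 0, ?_⟩⟩
    · ext v
      simp
    · intro h0
      obtain ⟨v, hv⟩ := exists_ne (0 : V)
      have := congrArg (fun f => (f : (linHom ρ ρ).invariants).1 v) h0
      exact hv this
  rw [h4, finrank_pos_iff] at h5
  obtain ⟨⟨f, hf⟩, hf0⟩ := exists_ne (0 : (linHom ρ τ).invariants)
  refine ⟨f, ?_, fun h0 => hf0 (Subtype.ext h0)⟩
  exact ((mem_linHom_invariants_iff_isIntertwining f).1 hf).isIntertwining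

theorem exists_larger [FiniteDimensional k V] [FiniteDimensional k W]
    (h : ∀ g, LinearMap.trace k V (ρ g) = LinearMap.trace k W (τ g))
    {f : V →ₗ[k] W} (hf : IsEq ρ τ f) (hker : LinearMap.ker f ≠ ⊥) :
    ∃ f' : V →ₗ[k] W, IsEq ρ τ f' ∧ LinearMap.range f < LinearMap.range f' := by
  obtain ⟨h', hh', hfh⟩ := exists_geninv hf
  have hfhf : ∀ v, f (h' (f v)) = f v := fun v => LinearMap.congr_fun hfh v
  -- the projection onto the kernel
  let p : V →ₗ[k] V := LinearMap.id - h' ∘ₗ f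
  have hp_apply : ∀ v, p v = v - h' (f v) := fun v => rfl
  let q : W →ₗ[k] W := LinearMap.id - f ∘ₗ h'
  have hq_apply : ∀ w, q w = w - f (h' w) := fun w => rfl
  obtain ⟨ρK, hρK⟩ := exists_subrep ρ (LinearMap.ker f) (fun g v hv => by
    rw [LinearMap.mem_ker] at hv ⊢
    rw [hf, hv, map_zero])
  let C : Submodule k W := LinearMap.ker (f ∘ₗ h')
  have hC : ∀ w, w ∈ C ↔ f (h' w) = 0 := fun w => Iff.rfl
  obtain ⟨τC, hτC⟩ := exists_subrep τ C (fun g w hw => by
    rw [hC] at hw ⊢
    rw [hh', hf, hw, map_zero])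
  have hch : ∀ g, LinearMap.trace k _ (ρK g) = LinearMap.trace k _ (τC g) := by
    intro g
    rw [trace_subrep hρK p, trace_subrep hτC q]
    · have e1 : ρ g ∘ₗ p = ρ g - (ρ g ∘ₗ h') ∘ₗ f := by
        ext v
        simp [hp_apply]
      have e2 : τ g ∘ₗ q = τ g - f ∘ₗ (ρ g ∘ₗ h') := by
        ext w
        simp only [LinearMap.comp_apply, hq_apply, LinearMap.sub_apply, map_sub]
        rw [hf]
      rw [e1, e2, map_sub, map_sub, h g, LinearMap.trace_comp_comm']
    · intro w
      rw [hC, hq_apply, map_sub, map_sub, hfhf, sub_self]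
    · intro w hw
      rw [hC] at hw
      rw [hq_apply, hw, sub_zero]
    · ext w
      simp only [LinearMap.comp_apply, hq_apply, map_sub]
      rw [hh', hf]
    · intro v
      rw [LinearMap.mem_ker, hp_apply, map_sub, hfhf, sub_self]
    · intro v hv
      rw [LinearMap.mem_ker] at hv
      rw [hp_apply, hv, map_zero, sub_zero]
    · ext v
      simp only [LinearMap.comp_apply, hp_apply, map_sub]
      rw [hf, hh']
  have hnt : Nontrivial (LinearMap.ker f) := Submodule.nontrivial_iff_ne_bot.2 hker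
  obtain ⟨u₀, hu₀, hu₀ne⟩ := exists_intertwiner hch hnt
  let π : V →ₗ[k] LinearMap.ker f := p.codRestrict _ (fun v => by
    rw [LinearMap.mem_ker, hp_apply, map_sub, hfhf, sub_self])
  have hπ : ∀ v : V, ((π v : LinearMap.ker f) : V) = v - h' (f v) := fun v => rfl
  let u : V →ₗ[k] W := C.subtype ∘ₗ u₀ ∘ₗ π
  have hu_apply : ∀ v, u v = (u₀ (π v) : W) := fun v => rfl
  have hueq : IsEq ρ τ u := by
    intro g v
    rw [hu_apply, hu_apply, ← hτC, ← hu₀]
    congr 2
    apply Subtype.ext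
    rw [hπ, hρK, hπ, map_sub, hf, hh']
  refine ⟨f + u, fun g v => ?_, ?_⟩
  · rw [LinearMap.add_apply, LinearMap.add_apply, map_add, hf, hueq]
  · have hπ0 : ∀ v, π (h' (f v)) = 0 := fun v => by
      apply Subtype.ext
      rw [hπ, hfhf, sub_self]
      rfl
    have hle : LinearMap.range f ≤ LinearMap.range (f + u) := by
      rintro _ ⟨v, rfl⟩
      refine ⟨h' (f v), ?_⟩
      rw [LinearMap.add_apply, hfhf, hu_apply, hπ0, map_zero]
      simp
    refine lt_of_le_of_ne hle ?_
    intro heq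
    obtain ⟨x, hx⟩ : ∃ x, u₀ x ≠ 0 := by
      by_contra hcon
      push Not at hcon
      exact hu₀ne (LinearMap.ext hcon)
    have hπx : π x = x := by
      apply Subtype.ext
      rw [hπ]
      have : f x = 0 := x.2
      rw [this, map_zero, sub_zero]
    have h1 : (u₀ x : W) ∈ LinearMap.range f := by
      rw [heq]
      refine ⟨x, ?_⟩
      rw [LinearMap.add_apply, hu_apply, hπx]
      have : f x = 0 := x.2
      rw [this, zero_add]
    obtain ⟨v, hv⟩ := h1
    have h2 : f (h' (u₀ x : W)) = 0 := (u₀ x).2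
    rw [← hv, hfhf, hv] at h2
    exact hx (Subtype.ext h2)

/-- Equal characters imply isomorphic (characteristic zero). -/
theorem exists_equiv_of_trace_eq [FiniteDimensional k V] [FiniteDimensional k W]
    (h : ∀ g, LinearMap.trace k V (ρ g) = LinearMap.trace k W (τ g)) :
    ∃ e : V ≃ₗ[k] W, ∀ g v, e (ρ g v) = τ g (e v) := by
  classical
  -- an equivariant map of maximal rank
  have hbdd : ∀ n, (∃ f : V →ₗ[k] W, IsEq ρ τ f ∧ finrank k (LinearMap.range f) = n) →
      n ≤ finrank k W := by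
    rintro n ⟨f, _, rfl⟩
    exact Submodule.finrank_le _
  obtain ⟨n, ⟨f, hf, hfn⟩, hmax⟩ : ∃ n, (∃ f : V →ₗ[k] W, IsEq ρ τ f ∧
      finrank k (LinearMap.range f) = n) ∧ ∀ m, (∃ f : V →ₗ[k] W, IsEq ρ τ f ∧
      finrank k (LinearMap.range f) = m) → m ≤ n := by
    have hex : ∃ n, ∃ f : V →ₗ[k] W, IsEq ρ τ f ∧ finrank k (LinearMap.range f) = n :=
      ⟨_, 0, fun g v => by simp, rfl⟩
    have hfin : {n | ∃ f : V →ₗ[k] W, IsEq ρ τ f ∧ finrank k (LinearMap.range f) = n}.Finite :=
      (Set.finite_Iic (finrank k W)).subset fun n hn => hbdd n hn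
    obtain ⟨n, hn, hn'⟩ := Set.exists_max_image _ id hfin hex
    exact ⟨n, hn, hn'⟩
  have hker : LinearMap.ker f = ⊥ := by
    by_contra hker
    obtain ⟨f', hf', hlt⟩ := exists_larger h hf hker
    have h1 := Submodule.finrank_lt_finrank_of_lt hlt
    have h2 := hmax _ ⟨f', hf', rfl⟩
    omega
  have hdim : finrank k V = finrank k W := by
    have := h 1
    rw [map_one ρ, map_one τ, LinearMap.trace_one, LinearMap.trace_one] at this
    exact_mod_cast this
  have hinj : Function.Injective f := LinearMap.ker_eq_bot.1 hker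
  let e := LinearEquiv.ofInjectiveOfFinrankEq f hinj hdim
  exact ⟨e, fun g v => hf g v⟩

end Fermat.Agent.H77.Rep
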