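import Fermat.Agent.H95Defs

/-!
# Closure properties of uniformly first order predicates (S27, job FO1, part A)
-/

set_option autoImplicit false

open FirstOrder FirstOrder.Language Polynomial
open Fermat.Agent.H95

namespace Fermat.Agent.H77.FOL

universe u

variable {α β γ : Type}

/-- families of predicates on `α → K` -/
abbrev Pred.{v} (α : Type) := ∀ (K : Type v) [Field K], (α → K) → Prop

/-- families of functions `(α → K) → K` -/
abbrev Fun.{v} (α : Type) := ∀ (K : Type v) [Field K], (α → K) → K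

/-- families of functions `(α → K) → K[X]` -/
abbrev UFun.{v} (α : Type) := ∀ (K : Type v) [Field K], (α → K) → K[X]

section logic

theorem fo_congr {P Q : Pred.{u} α} (hP : FO P)
    (h : ∀ (K : Type u) [Field K] (v : α → K), P K v ↔ Q K v) : FO Q := by
  obtain ⟨φ, hφ⟩ := hP
  exact ⟨φ, fun K _ _ _ v => (hφ K v).trans (h K v)⟩

theorem fo_congr' {P Q : Pred.{u} α} (hP : FO P)
    (h : ∀ (K : Type u) [Field K] [IsAlgClosed K] (v : α → K), P K v ↔ Q K v) : FO Q := by
  obtain ⟨φ, hφ⟩ := hP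
  exact ⟨φ, fun K _ _ _ v => (hφ K v).trans (h K v)⟩

theorem fo_not {P : Pred.{u} α} (hP : FO P) : FO (fun K _ v => ¬ P K v) := by
  obtain ⟨φ, hφ⟩ := hP
  refine ⟨φ.not, fun K _ _ _ v => ?_⟩
  rw [Formula.realize_not, hφ]

theorem fo_and {P Q : Pred.{u} α} (hP : FO P) (hQ : FO Q) : FO (fun K _ v => P K v ∧ Q K v) := by
  obtain ⟨φ, hφ⟩ := hP
  obtain ⟨ψ, hψ⟩ := hQ
  refine ⟨φ ⊓ ψ, fun K _ _ _ v => ?_⟩
  rw [Formula.realize_inf, hφ, hψ]

theorem fo_or {P Q : Pred.{u} α} (hP : FO P) (hQ : FO Q) : FO (fun K _ v => P K v ∨ Q K v) := by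
  obtain ⟨φ, hφ⟩ := hP
  obtain ⟨ψ, hψ⟩ := hQ
  refine ⟨φ ⊔ ψ, fun K _ _ _ v => ?_⟩
  rw [Formula.realize_sup, hφ, hψ]

theorem fo_imp {P Q : Pred.{u} α} (hP : FO P) (hQ : FO Q) : FO (fun K _ v => P K v → Q K v) := by
  obtain ⟨φ, hφ⟩ := hP
  obtain ⟨ψ, hψ⟩ := hQ
  refine ⟨φ.imp ψ, fun K _ _ _ v => ?_⟩
  rw [Formula.realize_imp, hφ, hψ]

theorem fo_const (p : Prop) : FO (α := α) (fun (K : Type u) (_ : Field K) _ => p) := by
  by_cases h : p
  · refine ⟨⊤, fun K _ _ _ v => ?_⟩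
    simp [h]
  · refine ⟨⊥, fun K _ _ _ v => ?_⟩
    simp [h]

/-- hypotheses not depending on the field -/
theorem fo_imp_const (p : Prop) {P : Pred.{u} α} (hP : p → FO P) :
    FO (fun K _ v => p → P K v) := by
  by_cases h : p
  · exact fo_congr (hP h) fun K _ v => by simp [h]
  · exact fo_congr (fo_const True) fun K _ v => by simp [h]

theorem fo_and_const (p : Prop) {P : Pred.{u} α} (hP : p → FO P) :
    FO (fun K _ v => p ∧ P K v) := by
  by_cases h : p
  · exact fo_congr (hP h) fun K _ v => by simp [h]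
  · exact fo_congr (fo_const False) fun K _ v => by simp [h]

theorem fo_forall {ι : Type*} [Finite ι] {P : ι → Pred.{u} α} (hP : ∀ i, FO (P i)) :
    FO (fun K _ v => ∀ i, P i K v) := by
  choose φ hφ using hP
  refine ⟨Formula.iInf φ, fun K _ _ _ v => ?_⟩
  rw [Formula.realize_iInf]
  exact forall_congr' fun i => hφ i K v

theorem fo_exists {ι : Type*} [Finite ι] {P : ι → Pred.{u} α} (hP : ∀ i, FO (P i)) :
    FO (fun K _ v => ∃ i, P i K v) := by
  choose φ hφ using hP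
  refine ⟨Formula.iSup φ, fun K _ _ _ v => ?_⟩
  rw [Formula.realize_iSup]
  exact exists_congr fun i => hφ i K v

theorem fo_comp {P : Pred.{u} α} (hP : FO P) (f : α → β) : FO (fun K _ v => P K (v ∘ f)) := by
  obtain ⟨φ, hφ⟩ := hP
  refine ⟨φ.relabel f, fun K _ _ _ v => ?_⟩
  rw [Formula.realize_relabel, hφ]

theorem fo_ex [Finite β] {P : Pred.{u} (α ⊕ β)} (hP : FO P) :
    FO (fun K _ v => ∃ w : β → K, P K (Sum.elim v w)) := by
  obtain ⟨φ, hφ⟩ := hP
  refine ⟨φ.iExs β, fun K _ _ _ v => ?_⟩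
  rw [Formula.realize_iExs]
  exact exists_congr fun i => hφ K _

theorem fo_all [Finite β] {P : Pred.{u} (α ⊕ β)} (hP : FO P) :
    FO (fun K _ v => ∀ w : β → K, P K (Sum.elim v w)) := by
  obtain ⟨φ, hφ⟩ := hP
  refine ⟨φ.iAlls β, fun K _ _ _ v => ?_⟩
  rw [Formula.realize_iAlls]
  exact forall_congr' fun i => hφ K _

end logic

/-! ### polynomial functions -/

/-- `f` is given by an integral polynomial. -/
def PF.{v} {α : Type} (f : Fun.{v} α) : Prop :=
  ∃ p : MvPolynomial α ℤ, ∀ (K : Type v) [Field K] (w : α → K), f K w = MvPolynomial.aeval w p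

/-- `f` is given by a univariate polynomial with coefficients integral polynomials. -/
def UF.{v} {α : Type} (f : UFun.{v} α) : Prop :=
  ∃ p : (MvPolynomial α ℤ)[X], ∀ (K : Type v) [Field K] (w : α → K),
    f K w = p.map ((MvPolynomial.aeval w : MvPolynomial α ℤ →ₐ[ℤ] K) : MvPolynomial α ℤ →+* K)

section PF

theorem PF.var (i : α) : PF.{u} (fun K _ w => w i) :=
  ⟨MvPolynomial.X i, fun K _ w => by simp⟩

theorem PF.zero : PF.{u} (α := α) (fun _ _ _ => 0) := ⟨0, fun K _ w => by simp⟩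

theorem PF.one : PF.{u} (α := α) (fun _ _ _ => 1) := ⟨1, fun K _ w => by simp⟩

theorem PF.intCast (n : ℤ) : PF.{u} (α := α) (fun K _ _ => (n : K)) :=
  ⟨MvPolynomial.C n, fun K _ w => by simp⟩

theorem PF.natCast (n : ℕ) : PF.{u} (α := α) (fun K _ _ => (n : K)) :=
  ⟨MvPolynomial.C (n : ℤ), fun K _ w => by simp⟩

theorem PF.add {f g : Fun.{u} α} (hf : PF f) (hg : PF g) : PF (fun K _ w => f K w + g K w) := by
  obtain ⟨p, hp⟩ := hf
  obtain ⟨q, hq⟩ := hg
  exact ⟨p + q, fun K _ w => by beta_reduce; rw [hp, hq, map_add]⟩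

theorem PF.mul {f g : Fun.{u} α} (hf : PF f) (hg : PF g) : PF (fun K _ w => f K w * g K w) := by
  obtain ⟨p, hp⟩ := hf
  obtain ⟨q, hq⟩ := hg
  exact ⟨p * q, fun K _ w => by beta_reduce; rw [hp, hq, map_mul]⟩

theorem PF.sub {f g : Fun.{u} α} (hf : PF f) (hg : PF g) : PF (fun K _ w => f K w - g K w) := by
  obtain ⟨p, hp⟩ := hf
  obtain ⟨q, hq⟩ := hg
  exact ⟨p - q, fun K _ w => by beta_reduce; rw [hp, hq, map_sub]⟩

theorem PF.neg {f : Fun.{u} α} (hf : PF f) : PF (fun K _ w => - f K w) := by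
  obtain ⟨p, hp⟩ := hf
  exact ⟨-p, fun K _ w => by beta_reduce; rw [hp, map_neg]⟩

theorem PF.pow {f : Fun.{u} α} (hf : PF f) (n : ℕ) : PF (fun K _ w => (f K w) ^ n) := by
  obtain ⟨p, hp⟩ := hf
  exact ⟨p ^ n, fun K _ w => by beta_reduce; rw [hp, map_pow]⟩

theorem PF.sum {ι : Type*} (s : Finset ι) {f : ι → Fun.{u} α} (hf : ∀ i ∈ s, PF (f i)) :
    PF (fun K _ w => ∑ i ∈ s, f i K w) := by
  classical
  choose! p hp using hf
  refine ⟨∑ i ∈ s, p i, fun K _ w => ?_⟩
  rw [map_sum]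
  exact Finset.sum_congr rfl fun i hi => hp i hi K w

theorem PF.sumU {ι : Type*} [Fintype ι] {f : ι → Fun.{u} α} (hf : ∀ i, PF (f i)) :
    PF (fun K _ w => ∑ i, f i K w) := PF.sum _ fun i _ => hf i

theorem PF.ite (p : Prop) [Decidable p] {f g : Fun.{u} α} (hf : PF f) (hg : PF g) :
    PF (fun K _ w => if p then f K w else g K w) := by
  by_cases h : p
  · simpa only [h, if_true] using hf
  · simpa only [h, if_false] using hg

theorem PF.comp {f : Fun.{u} α} (hf : PF f) (e : α → β) : PF (fun K _ w => f K (w ∘ e)) := by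
  obtain ⟨p, hp⟩ := hf
  refine ⟨MvPolynomial.rename e p, fun K _ w => ?_⟩
  beta_reduce
  rw [hp, MvPolynomial.aeval_rename]

end PF

section UF

theorem UF.zero : UF.{u} (α := α) (fun _ _ _ => 0) := ⟨0, fun K _ w => by simp⟩

theorem UF.one : UF.{u} (α := α) (fun _ _ _ => 1) := ⟨1, fun K _ w => by simp⟩

theorem UF.X : UF.{u} (α := α) (fun _ _ _ => Polynomial.X) := ⟨Polynomial.X, fun K _ w => by simp⟩

theorem UF.C {f : Fun.{u} α} (hf : PF f) : UF (fun K _ w => Polynomial.C (f K w)) := by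
  obtain ⟨p, hp⟩ := hf
  exact ⟨Polynomial.C p, fun K _ w => by beta_reduce; rw [hp, Polynomial.map_C]; rfl⟩

theorem UF.add {f g : UFun.{u} α} (hf : UF f) (hg : UF g) : UF (fun K _ w => f K w + g K w) := by
  obtain ⟨p, hp⟩ := hf
  obtain ⟨q, hq⟩ := hg
  exact ⟨p + q, fun K _ w => by beta_reduce; rw [hp, hq, Polynomial.map_add]⟩

theorem UF.sub {f g : UFun.{u} α} (hf : UF f) (hg : UF g) : UF (fun K _ w => f K w - g K w) := by
  obtain ⟨p, hp⟩ := hf
  obtain ⟨q, hq⟩ := hg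
  exact ⟨p - q, fun K _ w => by beta_reduce; rw [hp, hq, Polynomial.map_sub]⟩

theorem UF.mul {f g : UFun.{u} α} (hf : UF f) (hg : UF g) : UF (fun K _ w => f K w * g K w) := by
  obtain ⟨p, hp⟩ := hf
  obtain ⟨q, hq⟩ := hg
  exact ⟨p * q, fun K _ w => by beta_reduce; rw [hp, hq, Polynomial.map_mul]⟩

theorem UF.pow {f : UFun.{u} α} (hf : UF f) (n : ℕ) : UF (fun K _ w => (f K w) ^ n) := by
  obtain ⟨p, hp⟩ := hf
  exact ⟨p ^ n, fun K _ w => by beta_reduce; rw [hp, Polynomial.map_pow]⟩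

theorem UF.sum {ι : Type*} (s : Finset ι) {f : ι → UFun.{u} α} (hf : ∀ i ∈ s, UF (f i)) :
    UF (fun K _ w => ∑ i ∈ s, f i K w) := by
  classical
  choose! p hp using hf
  refine ⟨∑ i ∈ s, p i, fun K _ w => ?_⟩
  rw [Polynomial.map_sum]
  exact Finset.sum_congr rfl fun i hi => hp i hi K w

theorem UF.sumU {ι : Type*} [Fintype ι] {f : ι → UFun.{u} α} (hf : ∀ i, UF (f i)) :
    UF (fun K _ w => ∑ i, f i K w) := UF.sum _ fun i _ => hf i

theorem UF.ite (p : Prop) [Decidable p] {f g : UFun.{u} α} (hf : UF f) (hg : UF g) :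
    UF (fun K _ w => if p then f K w else g K w) := by
  by_cases h : p
  · simpa only [h, if_true] using hf
  · simpa only [h, if_false] using hg

theorem UF.derivative {f : UFun.{u} α} (hf : UF f) :
    UF (fun K _ w => Polynomial.derivative (f K w)) := by
  obtain ⟨p, hp⟩ := hf
  exact ⟨Polynomial.derivative p, fun K _ w => by beta_reduce; rw [hp, Polynomial.derivative_map]⟩

theorem UF.comp {f : UFun.{u} α} (hf : UF f) (e : α → β) : UF (fun K _ w => f K (w ∘ e)) := by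
  obtain ⟨p, hp⟩ := hf
  refine ⟨p.map (MvPolynomial.rename e : MvPolynomial α ℤ →ₐ[ℤ] MvPolynomial β ℤ).toRingHom,
    fun K _ w => ?_⟩
  beta_reduce
  rw [hp, Polynomial.map_map]
  congr 1
  ext i
  · simp
  · simp

theorem PF.coeff {f : UFun.{u} α} (hf : UF f) (n : ℕ) : PF (fun K _ w => (f K w).coeff n) := by
  obtain ⟨p, hp⟩ := hf
  exact ⟨p.coeff n, fun K _ w => by beta_reduce; rw [hp, Polynomial.coeff_map]; rfl⟩

theorem PF.eval {f : UFun.{u} α} (hf : UF f) {g : Fun.{u} α} (hg : PF g) :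
    PF (fun K _ w => (f K w).eval (g K w)) := by
  obtain ⟨p, hp⟩ := hf
  obtain ⟨q, hq⟩ := hg
  refine ⟨p.eval q, fun K _ w => ?_⟩
  beta_reduce
  rw [hp, hq]
  exact Polynomial.eval_map_apply _ _

end UF

/-! ### equations are first order -/

section eqns

theorem fo_poly (p : MvPolynomial α ℤ) :
    FO.{u} (fun K _ (v : α → K) => MvPolynomial.aeval v p = 0) := by
  refine ⟨(FirstOrder.Ring.termOfFreeCommRing
    ((freeCommRingEquivMvPolynomialInt α).symm p)).equal 0, fun K _ _ _ v => ?_⟩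
  rw [Formula.realize_equal, FirstOrder.Ring.realize_termOfFreeCommRing,
    FirstOrder.Ring.realize_zero]
  have h : ((FreeCommRing.lift v).comp
      ((freeCommRingEquivMvPolynomialInt α).symm : MvPolynomial α ℤ →+* FreeCommRing α))
      = ((MvPolynomial.aeval v : MvPolynomial α ℤ →ₐ[ℤ] K) : MvPolynomial α ℤ →+* K) := by
    apply MvPolynomial.ringHom_ext
    · intro r
      simp
    · intro i
      have h1 : (freeCommRingEquivMvPolynomialInt α).symm (MvPolynomial.X i) =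
          FreeCommRing.of i := by
        rw [RingEquiv.symm_apply_eq]
        simp [freeCommRingEquivMvPolynomialInt]
      simp [h1]
  have h2 := congrArg (fun f : MvPolynomial α ℤ →+* K => f p) h
  exact Iff.of_eq (congrArg (· = 0) h2)

theorem fo_eq {f g : Fun.{u} α} (hf : PF f) (hg : PF g) : FO (fun K _ w => f K w = g K w) := by
  obtain ⟨p, hp⟩ := hf
  obtain ⟨q, hq⟩ := hg
  refine fo_congr (fo_poly (p - q)) fun K _ v => ?_
  rw [map_sub, sub_eq_zero, hp, hq]

theorem fo_ne {f g : Fun.{u} α} (hf : PF f) (hg : PF g) : FO (fun K _ w => f K w ≠ g K w) :=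
  fo_not (fo_eq hf hg)

theorem fo_ueq {f g : UFun.{u} α} (hf : UF f) (hg : UF g) : FO (fun K _ w => f K w = g K w) := by
  obtain ⟨p, hp⟩ := hf
  obtain ⟨q, hq⟩ := hg
  set n := max p.natDegree q.natDegree + 1 with hn
  have h1 : FO.{u} (α := α) (fun K _ w => ∀ i : Fin n,
      MvPolynomial.aeval w (p.coeff i) = MvPolynomial.aeval w (q.coeff i)) :=
    fo_forall fun i => fo_eq ⟨p.coeff i, fun K _ w => rfl⟩ ⟨q.coeff i, fun K _ w => rfl⟩
  refine fo_congr h1 fun K _ v => ?_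
  rw [hp, hq]
  constructor
  · intro h
    ext i
    rw [Polynomial.coeff_map, Polynomial.coeff_map]
    by_cases hi : i < n
    · exact h ⟨i, hi⟩
    · rw [Polynomial.coeff_eq_zero_of_natDegree_lt (by omega),
        Polynomial.coeff_eq_zero_of_natDegree_lt (by omega)]
  · intro h i
    have := congrArg (fun r => Polynomial.coeff r (i : ℕ)) h
    simp only [Polynomial.coeff_map] at this
    exact this

end eqns

end Fermat.Agent.H77.FOL
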