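import Fermat.Agent.H95Defs

/-!
# S27: the first order statement `Theta` (array level definitions)

`Theta s n D M c` says (for `D` big) that there are `M` different ideal classes killed by `n` in the
algebra with multiplication table `c`.
-/

set_option autoImplicit false

open Polynomial Fermat.Agent.H95

namespace Fermat.Agent.H77.FOL

variable (s : Shape)

/-- coordinate vector attached to an array -/
noncomputable def toP {D : ℕ} {K : Type*} [Field K] (A : Fin s.a × Fin D → K) : Fin s.a → K[X] :=
  fun i => ∑ e : Fin D, Polynomial.C (A (i, e)) * Polynomial.X ^ (e : ℕ)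

/-- powers in the table algebra -/
noncomputable def tpow {R : Type*} [CommRing R] (c : s.Idx → R) (u : Fin s.a → R[X]) :
    ℕ → Fin s.a → R[X]
  | 0 => Pi.single 0 1
  | n + 1 => s.tmul c (tpow c u n) u

/-- the array `A` represents an element of weight exactly `m` -/
def HasWt {D : ℕ} {K : Type*} [Field K] (A : Fin s.a × Fin D → K) (m : ℕ) : Prop :=
  (∀ (i : Fin s.a) (e : Fin D), m < s.a * e + s.w i → A (i, e) = 0) ∧
    ∃ (i : Fin s.a) (e : Fin D), s.a * e + s.w i = m ∧ A (i, e) ≠ 0

/-- `f` generates the `n`-th power of an ideal `I = (z_j)` of colength `e`; `u j` is the minimal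
weight of elements of `I` in its residue class mod `a`. -/
def Tors (n D : ℕ) {K : Type*} [Field K] (c : s.Idx → K) (f : Fin s.a × Fin D → K) : Prop :=
  ∃ (e : Fin D) (u : Fin s.a → Fin D),
    (∀ i j, (u i : ℕ) ≡ u j [MOD s.a] → i = j) ∧ (∑ j, (u j : ℕ) = ∑ j, s.w j + s.a * e) ∧
    HasWt s f (n * e) ∧
    ∃ z t : Fin s.a × (Fin s.a × Fin D) → K,
      (∀ j, HasWt s (fun p => z (j, p)) (u j)) ∧
      ∀ j, tpow s c (toP s (fun p => z (j, p))) n =
        s.tmul c (toP s f) (toP s (fun p => t (j, p)))

/-- `f` and `f'` give the same class: `f * f' ^ (n - 1)` is an `n`-th power. -/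
def EquivF (n D : ℕ) {K : Type*} [Field K] (c : s.Idx → K) (f f' : Fin s.a × Fin D → K) : Prop :=
  ∃ v : Fin s.a × Fin D → K,
    tpow s c (toP s v) n = s.tmul c (toP s f) (tpow s c (toP s f') (n - 1))

/-- there are `M` pairwise inequivalent `f`'s. -/
def Theta (n D M : ℕ) {K : Type*} [Field K] (c : s.Idx → K) : Prop :=
  ∃ F : Fin M × (Fin s.a × Fin D) → K, (∀ i, Tors s n D c (fun p => F (i, p))) ∧
    ∀ i j, i ≠ j → ¬ EquivF s n D c (fun p => F (i, p)) (fun p => F (j, p))

end Fermat.Agent.H77.FOL
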