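import Fermat.Agent.H77FO
import Fermat.Agent.H77ThetaDef

/-!
# `IsTable`, `IsSmooth` and `Theta` are first order (S27, job FO1, parts B and C)
-/

set_option autoImplicit false

open FirstOrder FirstOrder.Language Polynomial
open Fermat.Agent.H95

namespace Fermat.Agent.H77.FOL

universe u

variable {α β γ : Type} (s : Shape)

/-! ### quantifiers -/

theorem fo_ex' [Finite β] {Q : ∀ (K : Type u) [Field K], (α → K) → (β → K) → Prop}
    (h : FO (fun K _ (v : α ⊕ β → K) => Q K (v ∘ Sum.inl) (v ∘ Sum.inr))) :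
    FO (fun K _ v => ∃ w : β → K, Q K v w) :=
  fo_congr (fo_ex h) fun K _ v => by simp only [Sum.elim_comp_inl, Sum.elim_comp_inr]

theorem fo_all' [Finite β] {Q : ∀ (K : Type u) [Field K], (α → K) → (β → K) → Prop}
    (h : FO (fun K _ (v : α ⊕ β → K) => Q K (v ∘ Sum.inl) (v ∘ Sum.inr))) :
    FO (fun K _ v => ∀ w : β → K, Q K v w) :=
  fo_congr (fo_all h) fun K _ v => by simp only [Sum.elim_comp_inl, Sum.elim_comp_inr]

theorem fo_all1 {Q : ∀ (K : Type u) [Field K], (α → K) → K → Prop}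
    (h : FO (fun K _ (v : α ⊕ Unit → K) => Q K (v ∘ Sum.inl) (v (Sum.inr ())))) :
    FO (fun K _ v => ∀ x : K, Q K v x) :=
  fo_congr (fo_all h) fun K _ v => by
    simp only [Sum.elim_comp_inl, Sum.elim_inr]
    exact ⟨fun h x => h fun _ => x, fun h w => h _⟩

theorem fo_funext {ι : Type*} [Finite ι] {f g : ∀ (K : Type u) [Field K], (α → K) → ι → K[X]}
    (hf : ∀ i, UF (fun K _ v => f K v i)) (hg : ∀ i, UF (fun K _ v => g K v i)) :
    FO (fun K _ v => f K v = g K v) :=
  fo_congr (fo_forall fun i => fo_ueq (hf i) (hg i)) fun K _ v => funext_iff.symm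

section families

variable {c : ∀ (K : Type u) [Field K], (α → K) → s.Idx → K}

theorem UF.Ctab (hc : ∀ t, PF (fun K _ v => c K v t)) (i j k : Fin s.a) :
    UF (fun K _ v => s.C (c K v) i j k) :=
  UF.sumU fun e => UF.mul (UF.C (hc (i, j, k, e))) (UF.pow UF.X _)

theorem UF.tmul (hc : ∀ t, PF (fun K _ v => c K v t))
    {f g : ∀ (K : Type u) [Field K], (α → K) → Fin s.a → K[X]}
    (hf : ∀ i, UF (fun K _ v => f K v i)) (hg : ∀ i, UF (fun K _ v => g K v i)) (k : Fin s.a) :
    UF (fun K _ v => s.tmul (c K v) (f K v) (g K v) k) :=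
  UF.sumU fun i => UF.sumU fun j => UF.mul (UF.mul (hf i) (hg j)) (UF.Ctab s hc i j k)

theorem UF.tpow (hc : ∀ t, PF (fun K _ v => c K v t))
    {f : ∀ (K : Type u) [Field K], (α → K) → Fin s.a → K[X]}
    (hf : ∀ i, UF (fun K _ v => f K v i)) (n : ℕ) :
    ∀ k : Fin s.a, UF (fun K _ v => FOL.tpow s (c K v) (f K v) n k) := by
  induction n with
  | zero =>
    intro k
    have : UF.{u} (α := α) (fun K _ v => if k = 0 then (1 : K[X]) else 0) :=
      UF.ite _ UF.one UF.zero
    convert this using 4 with K _ v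
    simp [FOL.tpow, Pi.single_apply]
  | succ n ih => exact fun k => UF.tmul s hc ih hf k

theorem UF.toP {D : ℕ} {A : ∀ (K : Type u) [Field K], (α → K) → Fin s.a × Fin D → K}
    (hA : ∀ p, PF (fun K _ v => A K v p)) (i : Fin s.a) :
    UF (fun K _ v => FOL.toP s (A K v) i) :=
  UF.sumU fun e => UF.mul (UF.C (hA (i, e))) (UF.pow UF.X _)

theorem fo_hasWt {D : ℕ} {A : ∀ (K : Type u) [Field K], (α → K) → Fin s.a × Fin D → K}
    (hA : ∀ p, PF (fun K _ v => A K v p)) (m : ℕ) : FO (fun K _ v => HasWt s (A K v) m) := by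
  unfold HasWt
  refine fo_and (fo_forall fun i => fo_forall fun e => fo_imp_const _ fun _ =>
    fo_eq (hA _) PF.zero) (fo_exists fun i => fo_exists fun e => fo_and_const _ fun _ =>
    fo_ne (hA _) PF.zero)

theorem fo_equivF (n : ℕ) {D : ℕ} (hc : ∀ t, PF (fun K _ v => c K v t))
    {f f' : ∀ (K : Type u) [Field K], (α → K) → Fin s.a × Fin D → K}
    (hf : ∀ p, PF (fun K _ v => f K v p)) (hf' : ∀ p, PF (fun K _ v => f' K v p)) :
    FO (fun K _ v => EquivF s n D (c K v) (f K v) (f' K v)) := by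
  unfold EquivF
  refine fo_ex' (β := Fin s.a × Fin D) ?_
  refine fo_funext ?_ ?_
  · intro i
    exact UF.tpow s (fun t => (hc t).comp Sum.inl) (fun i => UF.toP s (fun p => PF.var _) i) n i
  · intro i
    exact UF.tmul s (fun t => (hc t).comp Sum.inl)
      (fun i => UF.toP s (fun p => (hf p).comp Sum.inl) i)
      (fun i => UF.tpow s (fun t => (hc t).comp Sum.inl)
        (fun i => UF.toP s (fun p => (hf' p).comp Sum.inl) i) (n - 1) i) i

theorem fo_tors (n : ℕ) {D : ℕ} (hc : ∀ t, PF (fun K _ v => c K v t))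
    {f : ∀ (K : Type u) [Field K], (α → K) → Fin s.a × Fin D → K}
    (hf : ∀ p, PF (fun K _ v => f K v p)) :
    FO (fun K _ v => Tors s n D (c K v) (f K v)) := by
  unfold Tors
  refine fo_exists fun e => fo_exists fun w => fo_and_const _ fun _ => fo_and_const _ fun _ =>
    fo_and (fo_hasWt s hf _) ?_
  refine fo_ex' (β := Fin s.a × (Fin s.a × Fin D)) ?_
  refine fo_ex' (β := Fin s.a × (Fin s.a × Fin D)) ?_
  refine fo_and (fo_forall fun j => fo_hasWt s (fun p => PF.var _) _) (fo_forall fun j => ?_)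
  refine fo_funext ?_ ?_
  · intro i
    exact UF.tpow s (fun t => ((hc t).comp Sum.inl).comp Sum.inl)
      (fun i => UF.toP s (fun p => PF.var _) i) n i
  · intro i
    exact UF.tmul s (fun t => ((hc t).comp Sum.inl).comp Sum.inl)
      (fun i => UF.toP s (fun p => ((hf p).comp Sum.inl).comp Sum.inl) i)
      (fun i => UF.toP s (fun p => PF.var _) i) i

theorem fo_isPoint (hc : ∀ t, PF (fun K _ v => c K v t))
    {x : Fun.{u} α} {η : ∀ (K : Type u) [Field K], (α → K) → Fin s.a → K}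
    (hx : PF x) (hη : ∀ i, PF (fun K _ v => η K v i)) :
    FO (fun K _ v => s.IsPoint (c K v) (x K v) (η K v)) := by
  unfold Shape.IsPoint
  exact fo_and (fo_eq (hη 0) PF.one) (fo_forall fun i => fo_forall fun j =>
    fo_eq (PF.mul (hη i) (hη j)) (PF.sumU fun k => PF.mul (PF.eval (UF.Ctab s hc i j k) hx) (hη k)))

theorem fo_isTangent (hc : ∀ t, PF (fun K _ v => c K v t))
    {x ξ : Fun.{u} α} {η τ : ∀ (K : Type u) [Field K], (α → K) → Fin s.a → K}
    (hx : PF x) (hη : ∀ i, PF (fun K _ v => η K v i)) (hξ : PF ξ)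
    (hτ : ∀ i, PF (fun K _ v => τ K v i)) :
    FO (fun K _ v => s.IsTangent (c K v) (x K v) (η K v) (ξ K v) (τ K v)) := by
  unfold Shape.IsTangent
  refine fo_and (fo_eq (hτ 0) PF.zero) (fo_forall fun i => fo_forall fun j => ?_)
  refine fo_eq (PF.add (PF.mul (hτ i) (hη j)) (PF.mul (hη i) (hτ j))) (PF.sumU fun k => ?_)
  exact PF.add (PF.mul (PF.mul (PF.eval (UF.derivative (UF.Ctab s hc i j k)) hx) hξ) (hη k))
    (PF.mul (PF.eval (UF.Ctab s hc i j k) hx) (hτ k))

end families

/-! ### the final first order predicates -/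

theorem fo_theta (n D M : ℕ) : FO.{u} (fun K _ (c : s.Idx → K) => Theta s n D M c) := by
  unfold Theta
  refine fo_ex' (β := Fin M × (Fin s.a × Fin D)) ?_
  refine fo_and (fo_forall fun i => fo_tors s n (fun t => PF.var _) (fun p => PF.var _))
    (fo_forall fun i => fo_forall fun j => fo_imp_const _ fun _ =>
      fo_not (fo_equivF s n (fun t => PF.var _) (fun p => PF.var _) (fun p => PF.var _)))

theorem fo_isTable : FO.{u} (fun K _ (c : s.Idx → K) => s.IsTable c) := by
  have hc : ∀ t : s.Idx, PF.{u} (α := s.Idx) (fun K _ v => v t) := fun t => PF.var t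
  have hC : ∀ i j k, UF.{u} (α := s.Idx) (fun K _ v => s.C v i j k) :=
    fun i j k => UF.Ctab s (c := fun K _ v => v) hc i j k
  have h1 : FO.{u} (α := s.Idx) (fun K _ v => ∀ i j k, s.C v i j k = s.C v j i k) :=
    fo_forall fun i => fo_forall fun j => fo_forall fun k => fo_ueq (hC i j k) (hC j i k)
  have h2 : FO.{u} (α := s.Idx) (fun K _ v => ∀ j k, s.C v 0 j k = if j = k then 1 else 0) :=
    fo_forall fun j => fo_forall fun k => fo_ueq (hC 0 j k) (UF.ite _ UF.one UF.zero)
  have h3 : FO.{u} (α := s.Idx) (fun K _ v => ∀ i j k m,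
      ∑ l, s.C v i j l * s.C v l k m = ∑ l, s.C v j k l * s.C v i l m) :=
    fo_forall fun i => fo_forall fun j => fo_forall fun k => fo_forall fun m =>
      fo_ueq (UF.sumU fun l => UF.mul (hC _ _ _) (hC _ _ _))
        (UF.sumU fun l => UF.mul (hC _ _ _) (hC _ _ _))
  have h4 : FO.{u} (α := s.Idx) (fun K _ v => ∀ (i j k : Fin s.a) (e : Fin s.N),
      s.w i + s.w j < s.a * e + s.w k → v (i, j, k, e) = 0) :=
    fo_forall fun i => fo_forall fun j => fo_forall fun k => fo_forall fun e =>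
      fo_imp_const _ fun _ => fo_eq (hc _) PF.zero
  have h5 : FO.{u} (α := s.Idx) (fun K _ v => ∀ i j : Fin s.a, ∃ k, ∃ e : Fin s.N,
      s.w i + s.w j = s.a * e + s.w k ∧ v (i, j, k, e) ≠ 0) :=
    fo_forall fun i => fo_forall fun j => fo_exists fun k => fo_exists fun e =>
      fo_and_const _ fun _ => fo_ne (hc _) PF.zero
  refine fo_congr (fo_and h1 (fo_and h2 (fo_and h3 (fo_and h4 h5)))) fun K _ v => ?_
  exact ⟨fun ⟨a, b, c, d, e⟩ => ⟨a, b, c, d, e⟩, fun h => ⟨h.comm, h.one, h.assoc, h.bound, h.lead⟩⟩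

theorem fo_isSmooth : FO.{u} (fun K _ (c : s.Idx → K) => s.IsSmooth c) := by
  unfold Shape.IsSmooth
  refine fo_all1 (fo_all' (β := Fin s.a) (fo_imp ?_ ?_))
  · exact fo_isPoint s (fun t => PF.var _) (PF.var _) (fun i => PF.var _)
  refine fo_all1 (fo_all' (β := Fin s.a) (fo_all1 (fo_all' (β := Fin s.a) (fo_imp ?_ (fo_imp ?_ ?_)))))
  · exact fo_isTangent s (fun t => PF.var _) (PF.var _) (fun i => PF.var _) (PF.var _)
      (fun i => PF.var _)
  · exact fo_isTangent s (fun t => PF.var _) (PF.var _) (fun i => PF.var _) (PF.var _)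
      (fun i => PF.var _)
  · exact fo_and (fo_forall fun i => fo_eq (PF.mul (PF.var _) (PF.var _))
      (PF.mul (PF.var _) (PF.var _))) (fo_forall fun i => fo_forall fun j =>
        fo_eq (PF.mul (PF.var _) (PF.var _)) (PF.mul (PF.var _) (PF.var _)))

end Fermat.Agent.H77.FOL
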