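import Mathlib

/-!
# `SL₂(ℤ)` as an amalgam of `⟨S⟩` and `⟨T * S⟩`: existence of primitives
-/

set_option autoImplicit false

open Matrix ModularGroup MatrixGroups

namespace Fermat.Agent.H77.FP

/-- the element of order 6 -/
def U : SL(2, ℤ) := T * S

theorem S_mul_S : S * S = (-1 : SL(2, ℤ)) := by
  ext i j
  fin_cases i <;> fin_cases j <;> simp [coe_S, Matrix.mul_apply, Fin.sum_univ_two]

theorem coe_U : (U : Matrix (Fin 2) (Fin 2) ℤ) = !![1, -1; 1, 0] := by
  ext i j
  fin_cases i <;> fin_cases j <;> simp [U, coe_S, coe_T, Matrix.mul_apply, Fin.sum_univ_two]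

theorem U_mul_U_mul_U : U * U * U = (-1 : SL(2, ℤ)) := by
  ext i j
  fin_cases i <;> fin_cases j <;> simp [coe_U, Matrix.mul_apply, Fin.sum_univ_two]

theorem mulS (g : SL(2, ℤ)) : (g * S) 0 0 = g 0 1 ∧ (g * S) 0 1 = - g 0 0 ∧
    (g * S) 1 0 = g 1 1 ∧ (g * S) 1 1 = - g 1 0 := by
  refine ⟨?_, ?_, ?_, ?_⟩ <;> simp [coe_S, Matrix.mul_apply, Fin.sum_univ_two]

theorem mulU (g : SL(2, ℤ)) : (g * U) 0 0 = g 0 0 + g 0 1 ∧ (g * U) 0 1 = - g 0 0 ∧
    (g * U) 1 0 = g 1 0 + g 1 1 ∧ (g * U) 1 1 = - g 1 0 := by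
  refine ⟨?_, ?_, ?_, ?_⟩ <;> simp [coe_U, Matrix.mul_apply, Fin.sum_univ_two]

theorem mulV (g : SL(2, ℤ)) : (g * U * U) 0 0 = g 0 1 ∧ (g * U * U) 0 1 = - (g 0 0 + g 0 1) ∧
    (g * U * U) 1 0 = g 1 1 ∧ (g * U * U) 1 1 = - (g 1 0 + g 1 1) := by
  have h1 := mulU g
  have h2 := mulU (g * U)
  refine ⟨?_, ?_, ?_, ?_⟩
  · rw [h2.1, h1.1, h1.2.1]; ring
  · rw [h2.2.1, h1.1]
  · rw [h2.2.2.1, h1.2.2.1, h1.2.2.2]; ring
  · rw [h2.2.2.2, h1.2.2.1]

theorem det_eq (g : SL(2, ℤ)) : g 0 0 * g 1 1 - g 0 1 * g 1 0 = 1 := by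
  have := g.det_coe
  rwa [Matrix.det_fin_two] at this

/-- rows with entries of the same sign -/
def Q (g : SL(2, ℤ)) : Prop := 0 ≤ g 0 0 * g 0 1 ∧ 0 ≤ g 1 0 * g 1 1

/-- rows with entries of opposite signs, not both rows degenerate -/
def P (g : SL(2, ℤ)) : Prop := g 0 0 * g 0 1 ≤ 0 ∧ g 1 0 * g 1 1 ≤ 0 ∧
  ¬ (g 0 0 * g 0 1 = 0 ∧ g 1 0 * g 1 1 = 0)

theorem not_Q_of_P {g : SL(2, ℤ)} (h : P g) : ¬ Q g := fun h' =>
  h.2.2 ⟨le_antisymm h.1 h'.1, le_antisymm h.2.1 h'.2⟩

theorem Q_neg {g : SL(2, ℤ)} : Q (-g) ↔ Q g := by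
  simp [Q]

theorem P_neg {g : SL(2, ℤ)} : P (-g) ↔ P g := by
  simp [P]

theorem P_mulU {g : SL(2, ℤ)} (h : Q g) : P (g * U) := by
  obtain ⟨h1, h2⟩ := h
  obtain ⟨e1, e2, e3, e4⟩ := mulU g
  unfold P
  rw [e1, e2, e3, e4]
  refine ⟨by nlinarith [sq_nonneg (g 0 0)], by nlinarith [sq_nonneg (g 1 0)], ?_⟩
  rintro ⟨h3, h4⟩
  have h5 : g 0 0 = 0 := by
    have : (g 0 0)^2 = 0 := le_antisymm (by nlinarith) (sq_nonneg _)
    exact pow_eq_zero_iff (two_ne_zero) |>.1 this
  have h6 : g 1 0 = 0 := by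
    have : (g 1 0)^2 = 0 := le_antisymm (by nlinarith) (sq_nonneg _)
    exact pow_eq_zero_iff (two_ne_zero) |>.1 this
  have := det_eq g
  rw [h5, h6] at this
  simp at this

theorem P_mulV {g : SL(2, ℤ)} (h : Q g) : P (g * U * U) := by
  obtain ⟨h1, h2⟩ := h
  obtain ⟨e1, e2, e3, e4⟩ := mulV g
  unfold P
  rw [e1, e2, e3, e4]
  refine ⟨by nlinarith [sq_nonneg (g 0 1)], by nlinarith [sq_nonneg (g 1 1)], ?_⟩
  rintro ⟨h3, h4⟩
  have h5 : g 0 1 = 0 := by
    have : (g 0 1)^2 = 0 := le_antisymm (by nlinarith) (sq_nonneg _)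
    exact pow_eq_zero_iff (two_ne_zero) |>.1 this
  have h6 : g 1 1 = 0 := by
    have : (g 1 1)^2 = 0 := le_antisymm (by nlinarith) (sq_nonneg _)
    exact pow_eq_zero_iff (two_ne_zero) |>.1 this
  have := det_eq g
  rw [h5, h6] at this
  simp at this

theorem Q_mulS {g : SL(2, ℤ)} (h : P g) : Q (g * S) := by
  obtain ⟨h1, h2, -⟩ := h
  obtain ⟨e1, e2, e3, e4⟩ := mulS g
  unfold Q
  rw [e1, e2, e3, e4]
  exact ⟨by nlinarith, by nlinarith⟩

theorem Q_one : Q 1 := by simp [Q]

theorem Q_S : Q S := by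
  have := mulS 1
  rw [one_mul] at this
  simp [Q, this.1, this.2.1, this.2.2.1, this.2.2.2]

theorem not_P_S : ¬ P S := fun h => not_Q_of_P h Q_S

/-! ### Words -/

/-- letters; the head of a word is its last letter -/
inductive Letter
  | s
  | u
  | v

open Letter

/-- the matrix of a word -/
def mat : List Letter → SL(2, ℤ)
  | [] => 1
  | s :: w => mat w * S
  | u :: w => mat w * U
  | v :: w => mat w * U * U

/-- the head is not `s` -/
def NS : List Letter → Prop
  | s :: _ => False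
  | _ => True

/-- the head is not `u`, `v` -/
def NU : List Letter → Prop
  | u :: _ => False
  | v :: _ => False
  | _ => True

/-- reduced words -/
def Red : List Letter → Prop
  | [] => True
  | s :: w => Red w ∧ NS w
  | u :: w => Red w ∧ NU w
  | v :: w => Red w ∧ NU w

theorem QP (w : List Letter) (h : Red w) : (NU w → Q (mat w)) ∧ (¬ NU w → P (mat w)) := by
  induction w with
  | nil => exact ⟨fun _ => Q_one, fun h => absurd trivial h⟩
  | cons x t ih =>
    cases x with
    | s =>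
      refine ⟨fun _ => ?_, fun h => absurd trivial h⟩
      obtain ⟨h1, h2⟩ := h
      by_cases ht : NU t
      · -- then `t = []`
        cases t with
        | nil => exact (by simpa [mat] using Q_S)
        | cons y t' => cases y <;> first | exact absurd h2 id | exact absurd ht id
      · exact Q_mulS ((ih h1).2 ht)
    | u =>
      refine ⟨fun h => absurd h id, fun _ => ?_⟩
      exact P_mulU ((ih h.1).1 h.2)
    | v =>
      refine ⟨fun h => absurd h id, fun _ => ?_⟩
      exact P_mulV ((ih h.1).1 h.2)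

/-- equality up to sign -/
def Eqv (g h : SL(2, ℤ)) : Prop := g = h ∨ g = -h

theorem Eqv.refl (g : SL(2, ℤ)) : Eqv g g := Or.inl rfl

theorem Eqv.symm {g h : SL(2, ℤ)} (e : Eqv g h) : Eqv h g := by
  rcases e with e | e
  · exact Or.inl e.symm
  · exact Or.inr (by rw [e, neg_neg])

theorem Eqv.trans {g h k : SL(2, ℤ)} (e : Eqv g h) (e' : Eqv h k) : Eqv g k := by
  rcases e with e | e <;> rcases e' with e' | e' <;> rw [e, e']
  · exact Or.inl rfl
  · exact Or.inr rfl
  · exact Or.inr rfl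
  · exact Or.inl (neg_neg _)

theorem Eqv.mul {g h : SL(2, ℤ)} (e : Eqv g h) (k : SL(2, ℤ)) : Eqv (g * k) (h * k) := by
  rcases e with e | e
  · exact Or.inl (by rw [e])
  · exact Or.inr (by rw [e, neg_mul])

theorem Eqv.cancel {g h : SL(2, ℤ)} (k : SL(2, ℤ)) (e : Eqv (g * k) (h * k)) : Eqv g h := by
  have := e.mul k⁻¹
  simpa using this

theorem Eqv.Q {g h : SL(2, ℤ)} (e : Eqv g h) (hg : Q g) : Q h := by
  rcases e with e | e
  · rwa [← e]
  · rw [e] at hg; exact Q_neg.1 hg

theorem Eqv.P {g h : SL(2, ℤ)} (e : Eqv g h) (hg : P g) : P h := by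
  rcases e with e | e
  · rwa [← e]
  · rw [e] at hg; exact P_neg.1 hg

theorem eqv_SS (g : SL(2, ℤ)) : Eqv (g * S * S) g := by
  rw [mul_assoc, S_mul_S]
  exact Or.inr (by simp)

theorem eqv_UUU (g : SL(2, ℤ)) : Eqv (g * U * U * U) g := by
  rw [mul_assoc, mul_assoc, ← mul_assoc U U U, U_mul_U_mul_U]
  exact Or.inr (by simp)

theorem not_eqv_one_S : ¬ Eqv 1 S := by
  intro h
  rcases h with h | h
  · have := congrArg (fun g : SL(2, ℤ) => g 0 0) h
    simp [coe_S] at this
  · have := congrArg (fun g : SL(2, ℤ) => g 0 0) h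
    simp [coe_S] at this

theorem uniq (w : List Letter) : ∀ w', Red w → Red w' → Eqv (mat w) (mat w') → w = w' := by
  -- a nonempty word starting with `s` is not `±1`
  have key : ∀ t : List Letter, Red (s :: t) → ¬ Eqv (mat (s :: t)) 1 := by
    intro t ht he
    have h1 : Eqv (mat t) S := by
      have h2 : Eqv (mat t * S * S) (1 * S) := he.mul S
      rw [one_mul] at h2
      exact (eqv_SS (mat t)).symm.trans h2
    cases t with
    | nil => exact not_eqv_one_S h1
    | cons y t' =>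
      cases y with
      | s => exact absurd ht.2 id
      | u => exact not_P_S (h1.P ((QP _ ht.1).2 (fun h => h)))
      | v => exact not_P_S (h1.P ((QP _ ht.1).2 (fun h => h)))
  -- different rotations cannot be equal
  have key2 : ∀ t t' : List Letter, Red t → NU t → Red t' → NU t' →
      ¬ Eqv (mat t * U) (mat t' * U * U) := by
    intro t t' ht ht1 ht' ht1' he
    have h1 : Eqv (mat t) (mat t' * U) := he.cancel U
    exact not_Q_of_P (P_mulU ((QP t' ht').1 ht1')) (h1.Q ((QP t ht).1 ht1))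
  induction w with
  | nil =>
    intro w' _ hw' he
    cases w' with
    | nil => rfl
    | cons y t =>
      cases y with
      | s => exact absurd he.symm (key t hw')
      | u => exact absurd (he.Q Q_one) (not_Q_of_P ((QP _ hw').2 fun h => h))
      | v => exact absurd (he.Q Q_one) (not_Q_of_P ((QP _ hw').2 fun h => h))
  | cons x t ih =>
    intro w' hw hw' he
    cases x with
    | s =>
      cases w' with
      | nil => exact absurd he (key t hw)
      | cons y t' =>
        cases y with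
        | s => rw [ih t' hw.1 hw'.1 (he.cancel S)]
        | u => exact absurd (he.Q ((QP _ hw).1 trivial)) (not_Q_of_P ((QP _ hw').2 fun h => h))
        | v => exact absurd (he.Q ((QP _ hw).1 trivial)) (not_Q_of_P ((QP _ hw').2 fun h => h))
    | u =>
      have hP := (QP _ hw).2 (fun h => h)
      cases w' with
      | nil => exact absurd Q_one (not_Q_of_P (he.P hP))
      | cons y t' =>
        cases y with
        | s => exact absurd ((QP _ hw').1 trivial) (not_Q_of_P (he.P hP))
        | u => rw [ih t' hw.1 hw'.1 (he.cancel U)]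
        | v => exact absurd he (key2 t t' hw.1 hw.2 hw'.1 hw'.2)
    | v =>
      have hP := (QP _ hw).2 (fun h => h)
      cases w' with
      | nil => exact absurd Q_one (not_Q_of_P (he.P hP))
      | cons y t' =>
        cases y with
        | s => exact absurd ((QP _ hw').1 trivial) (not_Q_of_P (he.P hP))
        | u => exact absurd he.symm (key2 t' t hw'.1 hw'.2 hw.1 hw.2)
        | v => rw [ih t' hw.1 hw'.1 ((he.cancel U).cancel U)]

/-! ### Right multiplication by generators on words -/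

/-- multiply a reduced word by `s` -/
def ms : List Letter → List Letter
  | s :: t => t
  | w => s :: w

/-- multiply a reduced word by `u` -/
def mu : List Letter → List Letter
  | u :: t => v :: t
  | v :: t => t
  | w => u :: w

theorem ms_red (w : List Letter) (h : Red w) : Red (ms w) := by
  cases w with
  | nil => exact ⟨trivial, trivial⟩
  | cons x t =>
    cases x with
    | s => exact h.1
    | u => exact ⟨h, trivial⟩
    | v => exact ⟨h, trivial⟩

theorem mu_red (w : List Letter) (h : Red w) : Red (mu w) := by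
  cases w with
  | nil => exact ⟨trivial, trivial⟩
  | cons x t =>
    cases x with
    | s => exact ⟨h, trivial⟩
    | u => exact h
    | v => exact h.1

theorem mat_ms (w : List Letter) : Eqv (mat (ms w)) (mat w * S) := by
  cases w with
  | nil => exact Eqv.refl _
  | cons x t =>
    cases x with
    | s => exact (eqv_SS (mat t)).symm
    | u => exact Eqv.refl _
    | v => exact Eqv.refl _

theorem mat_mu (w : List Letter) : Eqv (mat (mu w)) (mat w * U) := by
  cases w with
  | nil => exact Eqv.refl _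
  | cons x t =>
    cases x with
    | s => exact Eqv.refl _
    | u => exact Eqv.refl _
    | v => exact (eqv_UUU (mat t)).symm

theorem exists_word (g : SL(2, ℤ)) : ∃ w, Red w ∧ Eqv (mat w) g := by
  have hS : ∀ g, (∃ w, Red w ∧ Eqv (mat w) g) → ∃ w, Red w ∧ Eqv (mat w) (g * S) := by
    rintro g ⟨w, hw, he⟩
    exact ⟨ms w, ms_red w hw, (mat_ms w).trans (he.mul S)⟩
  have hU : ∀ g, (∃ w, Red w ∧ Eqv (mat w) g) → ∃ w, Red w ∧ Eqv (mat w) (g * U) := by
    rintro g ⟨w, hw, he⟩
    exact ⟨mu w, mu_red w hw, (mat_mu w).trans (he.mul U)⟩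
  have hneg : ∀ g h, Eqv g h → (∃ w, Red w ∧ Eqv (mat w) g) → ∃ w, Red w ∧ Eqv (mat w) h := by
    rintro g h hgh ⟨w, hw, he⟩
    exact ⟨w, hw, he.trans hgh⟩
  have hS' : ∀ g, (∃ w, Red w ∧ Eqv (mat w) g) → ∃ w, Red w ∧ Eqv (mat w) (g * S⁻¹) := by
    intro g hg
    have h1 := hS g hg
    refine hneg _ _ ?_ h1
    have h2 : S⁻¹ = -(S : SL(2, ℤ)) := by
      rw [inv_eq_iff_mul_eq_one, mul_neg, S_mul_S, neg_neg]
    rw [h2, mul_neg]
    exact Or.inr (neg_neg _).symm
  have hT : ∀ g, (∃ w, Red w ∧ Eqv (mat w) g) → ∃ w, Red w ∧ Eqv (mat w) (g * T) := by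
    intro g hg
    have h1 : g * T = g * U * S⁻¹ := by simp [U, mul_assoc]
    rw [h1]
    exact hS' _ (hU _ hg)
  have hT' : ∀ g, (∃ w, Red w ∧ Eqv (mat w) g) → ∃ w, Red w ∧ Eqv (mat w) (g * T⁻¹) := by
    intro g hg
    have h1 : g * T⁻¹ = g * S * U⁻¹ := by simp [U, mul_assoc]
    have h2 : U⁻¹ = -(U * U) := by
      rw [inv_eq_iff_mul_eq_one, mul_neg, ← mul_assoc, U_mul_U_mul_U, neg_neg]
    rw [h1, h2, mul_neg, ← mul_assoc]
    exact hneg _ _ (Or.inr (neg_neg _).symm) (hU _ (hU _ (hS _ hg)))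
  have hg : g ∈ Subgroup.closure {S, T} := by simp [SpecialLinearGroup.SL2Z_generators]
  induction hg using Subgroup.closure_induction_right with
  | one => exact ⟨[], trivial, Eqv.refl _⟩
  | mul_right x hx y hy ih =>
    rcases hy with rfl | rfl
    · exact hS _ ih
    · exact hT _ ih
  | mul_inv_cancel x hx y hy ih =>
    rcases hy with rfl | rfl
    · exact hS' _ ih
    · exact hT' _ ih

/-! ### Primitives -/

section Prim

variable {A : Type*} [Group A] (α β : SL(2, ℤ) → A)

/-- the value of the primitive on a word -/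
def val : List Letter → A
  | [] => 1
  | s :: w => val w * α (mat w)
  | u :: w => val w * β (mat w)
  | v :: w => val w * β (mat w) * β (mat w * U)

variable {α β}

theorem alpha_neg (hα : ∀ g, α g * α (g * S) = 1) (g : SL(2, ℤ)) : α (-g) = α g := by
  have h1 := hα g
  have h2 := hα (g * S)
  rw [mul_assoc, S_mul_S, mul_neg, mul_one] at h2
  rw [eq_inv_of_mul_eq_one_right h2, eq_inv_of_mul_eq_one_right h1, inv_inv]

theorem beta_neg (hβ : ∀ g, β g * β (g * U) * β (g * U * U) = 1) (g : SL(2, ℤ)) :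
    β (-g) = β g := by
  have h1 := hβ g
  have h2 := hβ (g * U)
  have e : g * U * U * U = -g := by
    rw [mul_assoc, mul_assoc, ← mul_assoc U U U, U_mul_U_mul_U, mul_neg, mul_one]
  rw [e] at h2
  have h3 := eq_inv_of_mul_eq_one_right h2
  have h4 : β g = (β (g * U) * β (g * U * U))⁻¹ :=
    eq_inv_of_mul_eq_one_left (by rw [← mul_assoc]; exact h1)
  rw [h3, h4]

omit [Group A] in
theorem Eqv.map {f : SL(2, ℤ) → A} (hf : ∀ g, f (-g) = f g) {g h : SL(2, ℤ)} (e : Eqv g h) :
    f g = f h := by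
  rcases e with e | e
  · rw [e]
  · rw [e, hf]

theorem exists_primitive' (hα : ∀ g, α g * α (g * S) = 1)
    (hβ : ∀ g, β g * β (g * U) * β (g * U * U) = 1) :
    ∃ f : SL(2, ℤ) → A, f 1 = 1 ∧ (∀ g, f (-g) = f g) ∧ (∀ g, f (g * S) = f g * α g) ∧
      (∀ g, f (g * U) = f g * β g) := by
  choose w hw he using exists_word
  have hα' := alpha_neg hα
  have hβ' := beta_neg hβ
  have huniq : ∀ g w', Red w' → Eqv (mat w') g → w g = w' := fun g w' h h' =>
    uniq _ _ (hw g) h ((he g).trans h'.symm)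
  refine ⟨fun g => val α β (w g), ?_, fun g => ?_, fun g => ?_, fun g => ?_⟩
  · show val α β (w 1) = 1
    rw [huniq 1 [] trivial (Eqv.refl _)]
    rfl
  · show val α β (w (-g)) = val α β (w g)
    rw [huniq (-g) (w g) (hw g) ((he g).trans (Or.inr (neg_neg g).symm))]
  · show val α β (w (g * S)) = val α β (w g) * α g
    rw [huniq (g * S) (ms (w g)) (ms_red _ (hw g)) ((mat_ms _).trans ((he g).mul S))]
    rw [← Eqv.map hα' (he g)]
    have hred := hw g
    generalize w g = l at hred
    cases l with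
    | nil => rfl
    | cons x t =>
      cases x with
      | s =>
        show val α β t = val α β t * α (mat t) * α (mat t * S)
        rw [mul_assoc, hα, mul_one]
      | u => rfl
      | v => rfl
  · show val α β (w (g * U)) = val α β (w g) * β g
    rw [huniq (g * U) (mu (w g)) (mu_red _ (hw g)) ((mat_mu _).trans ((he g).mul U))]
    rw [← Eqv.map hβ' (he g)]
    have hred := hw g
    generalize w g = l at hred
    cases l with
    | nil => rfl
    | cons x t =>
      cases x with
      | s => rfl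
      | u => rfl
      | v =>
        show val α β t = val α β t * β (mat t) * β (mat t * U) * β (mat t * U * U)
        rw [mul_assoc, mul_assoc, ← mul_assoc (β (mat t)), hβ, mul_one]

/-- **Free product structure of `SL₂(ℤ)`**: existence of primitives. -/
theorem exists_primitive {A : Type*} [Group A] (α β : SL(2, ℤ) → A)
    (hα : ∀ g, α g * α (g * S) = 1)
    (hβ : ∀ g, β g * β (g * (T * S)) * β (g * (T * S) * (T * S)) = 1) :
    ∃ f : SL(2, ℤ) → A, (∀ g, f (g * S) = f g * α g) ∧ (∀ g, f (g * (T * S)) = f g * β g) := by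
  obtain ⟨f, -, -, h1, h2⟩ := exists_primitive' (α := α) (β := β) hα hβ
  exact ⟨f, h1, h2⟩

end Prim

end Fermat.Agent.H77.FP
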