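import Fermat.Agent.H77CharEquiv

/-!
# Integral representations of finite groups: traces, isogenies
-/

set_option autoImplicit false

open Module Representation TensorProduct

namespace Fermat.Agent.H77.Rep

section Rat

variable {G A : Type*} [Group G] [AddCommGroup A] [Module.Free ℤ A] [Module.Finite ℤ A]
  (ρ : Representation ℤ G A)

/-- extension of scalars to `ℚ` -/
noncomputable def rq : Representation ℚ G (ℚ ⊗[ℤ] A) where
  toFun g := (ρ g).baseChange ℚ
  map_one' := by rw [map_one]; exact LinearMap.baseChange_id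
  map_mul' g h := by rw [map_mul]; exact LinearMap.baseChange_mul _ _

omit [Module.Free ℤ A] [Module.Finite ℤ A] in
theorem rq_apply (g : G) : rq ρ g = (ρ g).baseChange ℚ := rfl

omit [Module.Free ℤ A] [Module.Finite ℤ A] in
theorem rq_tmul (g : G) (q : ℚ) (a : A) : rq ρ g (q ⊗ₜ a) = q ⊗ₜ ρ g a := rfl

theorem trace_rq (g : G) :
    LinearMap.trace ℚ (ℚ ⊗[ℤ] A) (rq ρ g) = (LinearMap.trace ℤ A (ρ g) : ℚ) := by
  rw [rq_apply, LinearMap.trace_baseChange]
  simp

theorem finrank_ker_baseChange (f : A →ₗ[ℤ] A) :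
    finrank ℚ (LinearMap.ker (f.baseChange ℚ)) = finrank ℤ (LinearMap.ker f) := by
  have e := LinearMap.tensorKerEquiv ℚ ℚ f
  have h1 : LinearMap.ker (f.baseChange ℚ) =
      LinearMap.ker (TensorProduct.AlgebraTensorModule.lTensor ℚ ℚ f) := by
    ext x
    rw [LinearMap.mem_ker, LinearMap.mem_ker]
    rfl
  rw [h1, ← e.finrank_eq, Module.finrank_baseChange]

theorem finrank_fixed (g : G) :
    finrank ℚ (LinearMap.ker (rq ρ g - 1)) = finrank ℤ (LinearMap.ker (ρ g - 1)) := by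
  have : rq ρ g - 1 = (ρ g - 1).baseChange ℚ := by
    rw [rq_apply, LinearMap.baseChange_sub]
    congr 1
    exact LinearMap.baseChange_id.symm
  rw [this, finrank_ker_baseChange]

end Rat

section Trace

variable {G A : Type*} [Group G] [Finite G] [AddCommGroup A] [Module.Free ℤ A] [Module.Finite ℤ A]
  (ρ : Representation ℤ G A)

/-- traces of integral operators and Frobenius -/
theorem trace_pow_modEq (f : A →ₗ[ℤ] A) (p : ℕ) [Fact p.Prime] :
    ((LinearMap.trace ℤ A (f ^ p) : ℤ) : ZMod p) = ((LinearMap.trace ℤ A f : ℤ) : ZMod p) := by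
  classical
  let b := Module.Free.chooseBasis ℤ A
  let R := LinearMap.toMatrix b b f
  have h1 : LinearMap.trace ℤ A f = R.trace := LinearMap.trace_eq_matrix_trace ℤ b f
  have h2 : LinearMap.trace ℤ A (f ^ p) = (R ^ p).trace := by
    rw [LinearMap.trace_eq_matrix_trace ℤ b (f ^ p)]
    congr 1
    exact LinearMap.toMatrix_pow b f p |>.symm
  have h3 : ∀ M : Matrix (Module.Free.ChooseBasisIndex ℤ A) (Module.Free.ChooseBasisIndex ℤ A) ℤ, ((M.trace : ℤ) : ZMod p) = (M.map (Int.castRingHom (ZMod p))).trace :=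
    fun M => AddMonoidHom.map_trace (Int.castRingHom (ZMod p)).toAddMonoidHom M
  rw [h1, h2, h3, h3, Matrix.map_pow, ZMod.trace_pow_card, ZMod.pow_card]

/-- generators of the same cyclic group have the same trace -/
theorem trace_eq_of_orderOf_eq {g h : G} (hh : h ∈ Subgroup.zpowers g)
    (ho : orderOf h = orderOf g) :
    LinearMap.trace ℤ A (ρ h) = LinearMap.trace ℤ A (ρ g) := by
  classical
  have : Fintype G := Fintype.ofFinite G
  have hn : 0 < orderOf g := orderOf_pos g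
  rw [← mem_powers_iff_mem_zpowers] at hh
  obtain ⟨j, rfl⟩ := hh
  have hcop : j.Coprime (orderOf g) := by
    have h1 := orderOf_pow' (n := j) g
    by_cases hj : j = 0
    · subst hj
      simp only [pow_zero, orderOf_one] at ho
      rw [← ho]
      exact Nat.coprime_one_right 0
    · have h1 := orderOf_pow' g hj
      have ho' : orderOf (g ^ j) = orderOf g := ho
      rw [ho'] at h1
      have h2 : Nat.gcd (orderOf g) j ∣ orderOf g := Nat.gcd_dvd_left _ _
      have h3 : orderOf g / Nat.gcd (orderOf g) j * Nat.gcd (orderOf g) j = orderOf g :=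
        Nat.div_mul_cancel h2
      rw [← h1] at h3
      have h4 : Nat.gcd (orderOf g) j = 1 := by
        have : orderOf g * Nat.gcd (orderOf g) j = orderOf g * 1 := by rw [h3, mul_one]
        exact Nat.eq_of_mul_eq_mul_left hn this
      rw [Nat.Coprime, Nat.gcd_comm]
      exact h4
  let t : G → ℤ := fun x => LinearMap.trace ℤ A (ρ x)
  let M : ℕ := ∑ x : G, (t x).natAbs
  have hM : ∀ x, (t x).natAbs ≤ M := fun x =>
    Finset.single_le_sum (f := fun x => (t x).natAbs) (fun _ _ => Nat.zero_le _) (Finset.mem_univ x)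
  obtain ⟨p, hp, hpp, hmod⟩ := Nat.forall_exists_prime_gt_and_modEq (2 * M) hn.ne' hcop
  have : Fact p.Prime := ⟨hpp⟩
  have h1 : g ^ p = g ^ j := pow_eq_pow_iff_modEq.2 hmod
  have h2 := trace_pow_modEq (ρ g) p
  rw [← map_pow, h1] at h2
  have h3 : (p : ℤ) ∣ t (g ^ j) - t g := by
    rw [← ZMod.intCast_zmod_eq_zero_iff_dvd]
    push_cast
    rw [sub_eq_zero]
    exact h2
  have h4 : t (g ^ j) - t g = 0 := by
    apply Int.eq_zero_of_abs_lt_dvd h3
    have e1 := hM (g ^ j)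
    have e2 := hM g
    have e3 : |t (g ^ j) - t g| ≤ |t (g ^ j)| + |t g| := abs_sub _ _
    rw [Int.abs_eq_natAbs (t (g ^ j)), Int.abs_eq_natAbs (t g)] at e3
    omega
  exact sub_eq_zero.1 h4

variable {B : Type*} [AddCommGroup B] [Module.Free ℤ B] [Module.Finite ℤ B]
  (τ : Representation ℤ G B)

theorem sum_trace_zpowers (g : G) [Fintype (Subgroup.zpowers g)] :
    ∑ h : Subgroup.zpowers g, LinearMap.trace ℤ A (ρ h) =
      Nat.card (Subgroup.zpowers g) * finrank ℤ (LinearMap.ker (ρ g - 1)) := by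
  classical
  have hc : (Nat.card (Subgroup.zpowers g) : ℚ) ≠ 0 := Nat.cast_ne_zero.2 Nat.card_pos.ne'
  have : Invertible (Nat.card (Subgroup.zpowers g) : ℚ) := invertibleOfNonzero hc
  let r : Representation ℚ (Subgroup.zpowers g) (ℚ ⊗[ℤ] A) := (rq ρ).comp (Subgroup.zpowers g).subtype
  have h1 := card_inv_mul_sum_char_eq_finrank r
  have h2 : r.invariants = LinearMap.ker (rq ρ g - 1) := by
    ext x
    have hgen : ∀ y : Subgroup.zpowers g, y ∈ Subgroup.zpowers
        (⟨g, Subgroup.mem_zpowers g⟩ : Subgroup.zpowers g) := by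
      rintro ⟨y, n, rfl⟩
      exact ⟨n, Subtype.ext (by simp)⟩
    rw [mem_invariants_iff_of_forall_mem_zpowers r ⟨g, Subgroup.mem_zpowers g⟩ hgen x,
      LinearMap.mem_ker, LinearMap.sub_apply, sub_eq_zero]
    rfl
  rw [h2, finrank_fixed, inv_mul_eq_iff_eq_mul₀ hc] at h1
  have h3 : ∀ h : Subgroup.zpowers g, r.character h = (LinearMap.trace ℤ A (ρ h) : ℚ) :=
    fun h => trace_rq ρ (h : G)
  simp_rw [h3] at h1
  exact_mod_cast h1

/-- Traces are determined by the ranks of the fixed lattices of the elements. -/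
theorem trace_eq_of_finrank_eq
    (h : ∀ g, finrank ℤ (LinearMap.ker (ρ g - 1)) = finrank ℤ (LinearMap.ker (τ g - 1))) (g : G) :
    LinearMap.trace ℤ A (ρ g) = LinearMap.trace ℤ B (τ g) := by
  classical
  induction hn : orderOf g using Nat.strong_induction_on generalizing g with
  | _ n ih =>
    have : Fintype (Subgroup.zpowers g) := Fintype.ofFinite _
    have h1 := sum_trace_zpowers ρ g
    have h2 := sum_trace_zpowers τ g
    rw [h g, ← h2] at h1
    have hle : ∀ x : Subgroup.zpowers g, orderOf (x : G) ≤ orderOf g := fun x =>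
      Nat.le_of_dvd (orderOf_pos g) (orderOf_dvd_of_mem_zpowers x.2)
    have key : ∀ x : Subgroup.zpowers g, LinearMap.trace ℤ A (ρ x) - LinearMap.trace ℤ B (τ x) =
        if orderOf (x : G) = orderOf g then
          LinearMap.trace ℤ A (ρ g) - LinearMap.trace ℤ B (τ g) else 0 := by
      intro x
      split_ifs with hx
      · rw [trace_eq_of_orderOf_eq ρ x.2 hx, trace_eq_of_orderOf_eq τ x.2 hx]
      · rw [ih (orderOf (x : G)) (by rw [← hn]; exact lt_of_le_of_ne (hle x) hx) x rfl, sub_self]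
    have h3 : ∑ x : Subgroup.zpowers g, (LinearMap.trace ℤ A (ρ x) - LinearMap.trace ℤ B (τ x)) = 0 := by
      rw [Finset.sum_sub_distrib, h1, sub_self]
    rw [Finset.sum_congr rfl fun x _ => key x, ← Finset.sum_filter, Finset.sum_const,
      nsmul_eq_mul] at h3
    have h4 : (((Finset.univ.filter fun x : Subgroup.zpowers g =>
        orderOf (x : G) = orderOf g).card : ℤ)) ≠ 0 := by
      have : (⟨g, Subgroup.mem_zpowers g⟩ : Subgroup.zpowers g) ∈
          Finset.univ.filter fun x : Subgroup.zpowers g => orderOf (x : G) = orderOf g :=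
        Finset.mem_filter.2 ⟨Finset.mem_univ _, rfl⟩
      exact_mod_cast (Finset.card_pos.2 ⟨_, this⟩).ne'
    exact sub_eq_zero.1 ((mul_eq_zero.1 h3).resolve_left h4)

end Trace

section Isogeny

variable {A : Type*} [AddCommGroup A] [Module.Free ℤ A] [Module.Finite ℤ A]

theorem isLoc (A : Type*) [AddCommGroup A] :
    IsLocalizedModule (nonZeroDivisors ℤ) (TensorProduct.mk ℤ ℚ A 1) :=
  (isLocalizedModule_iff_isBaseChange (nonZeroDivisors ℤ) ℚ _).2 (TensorProduct.isBaseChange ℤ A ℚ)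

omit [Module.Finite ℤ A] in
theorem tmul_inj {a b : A} (h : (1 : ℚ) ⊗ₜ[ℤ] a = 1 ⊗ₜ b) : a = b := by
  have := isLoc A
  obtain ⟨c, hc⟩ := (IsLocalizedModule.eq_iff_exists (nonZeroDivisors ℤ)
    (TensorProduct.mk ℤ ℚ A 1)).1 h
  have hc0 : (c : ℤ) ≠ 0 := nonZeroDivisors.coe_ne_zero c
  have h1 : (c : ℤ) • (a - b) = 0 := by
    rw [smul_sub, sub_eq_zero]
    exact hc
  exact sub_eq_zero.1 ((smul_eq_zero.1 h1).resolve_left hc0)

omit [Module.Free ℤ A] [Module.Finite ℤ A] in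
theorem exists_tmul (x : ℚ ⊗[ℤ] A) : ∃ (D : ℤ) (a : A), D ≠ 0 ∧ D • x = 1 ⊗ₜ a := by
  have := isLoc A
  obtain ⟨⟨a, c⟩, hc⟩ := IsLocalizedModule.surj (nonZeroDivisors ℤ) (TensorProduct.mk ℤ ℚ A 1) x
  exact ⟨c, a, nonZeroDivisors.coe_ne_zero c, hc⟩

variable {B : Type*} [AddCommGroup B] [Module.Free ℤ B] [Module.Finite ℤ B]

omit [Module.Free ℤ B] [Module.Finite ℤ B] in
/-- clearing denominators -/
theorem exists_clear (e : (ℚ ⊗[ℤ] A) →ₗ[ℚ] (ℚ ⊗[ℤ] B)) :
    ∃ (D : ℤ) (φ : A →ₗ[ℤ] B), D ≠ 0 ∧ ∀ a, D • e (1 ⊗ₜ a) = 1 ⊗ₜ φ a := by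
  classical
  let b := Module.Free.chooseBasis ℤ A
  choose D c hD hc using fun i => exists_tmul (e (1 ⊗ₜ b i))
  let E : ℤ := ∏ i, D i
  have hE : E ≠ 0 := Finset.prod_ne_zero_iff.2 fun i _ => hD i
  let φ : A →ₗ[ℤ] B := b.constr ℤ fun i => (∏ j ∈ Finset.univ.erase i, D j) • c i
  refine ⟨E, φ, hE, fun a => ?_⟩
  let L : A →ₗ[ℤ] (ℚ ⊗[ℤ] B) := E • ((e.restrictScalars ℤ) ∘ₗ (TensorProduct.mk ℤ ℚ A 1))
  let R : A →ₗ[ℤ] (ℚ ⊗[ℤ] B) := (TensorProduct.mk ℤ ℚ B 1) ∘ₗ φ
  have : L = R := by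
    apply b.ext
    intro i
    show E • e (1 ⊗ₜ b i) = 1 ⊗ₜ φ (b i)
    rw [b.constr_basis, TensorProduct.tmul_smul, ← hc i, smul_smul]
    congr 1
    exact (Finset.prod_erase_mul _ _ (Finset.mem_univ i)).symm
  exact LinearMap.congr_fun this a

variable {G : Type*} [Group G] [Finite G] {ρ : Representation ℤ G A} {τ : Representation ℤ G B}

/-- **Isogeny of lattices**: lattices with the same traces are isogenous. -/
theorem exists_isogeny
    (h : ∀ g, LinearMap.trace ℤ A (ρ g) = LinearMap.trace ℤ B (τ g)) :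
    ∃ φ : A →ₗ[ℤ] B, (∀ g a, φ (ρ g a) = τ g (φ a)) ∧ Function.Injective φ ∧
      Finite (B ⧸ LinearMap.range φ) := by
  obtain ⟨e, he⟩ := exists_equiv_of_trace_eq (ρ := rq ρ) (τ := rq τ) (fun g => by
    rw [trace_rq, trace_rq, h])
  obtain ⟨D, φ, hD, hφ⟩ := exists_clear e.toLinearMap
  have hφ' : ∀ a, D • e (1 ⊗ₜ a) = 1 ⊗ₜ φ a := hφ
  refine ⟨φ, fun g a => ?_, ?_, ?_⟩
  · apply tmul_inj
    rw [← hφ', ← rq_tmul τ g 1, ← hφ', map_zsmul, ← he, rq_tmul]
  · rw [← LinearMap.ker_eq_bot, LinearMap.ker_eq_bot']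
    intro a ha
    have h1 := hφ' a
    rw [ha, TensorProduct.tmul_zero] at h1
    have h2 : e (1 ⊗ₜ a) = 0 := by
      rw [← Int.cast_smul_eq_zsmul ℚ] at h1
      exact (smul_eq_zero.1 h1).resolve_left (Int.cast_ne_zero.2 hD)
    have h3 : (1 : ℚ) ⊗ₜ[ℤ] a = 1 ⊗ₜ 0 := by
      rw [TensorProduct.tmul_zero]
      exact (LinearEquiv.map_eq_zero_iff e).1 h2
    exact tmul_inj h3
  · apply Module.finite_of_fg_torsion
    intro x
    obtain ⟨b, rfl⟩ := Submodule.Quotient.mk_surjective _ x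
    obtain ⟨D', a, hD', ha⟩ := exists_tmul (e.symm (1 ⊗ₜ b))
    have h1 : (D * D') • b = φ a := by
      apply tmul_inj
      rw [← hφ', ← ha, map_zsmul, LinearEquiv.apply_symm_apply, TensorProduct.tmul_smul, smul_smul]
    refine ⟨⟨D * D', mem_nonZeroDivisors_of_ne_zero (mul_ne_zero hD hD')⟩, ?_⟩
    show (D * D') • (Submodule.Quotient.mk b : B ⧸ LinearMap.range φ) = 0
    rw [← Submodule.Quotient.mk_smul, h1, Submodule.Quotient.mk_eq_zero]
    exact ⟨a, rfl⟩

end Isogeny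

end Fermat.Agent.H77.Rep
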