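import Mathlib
import Fermat.Prelude.Def_ModularCurve_PeriodMap

set_option autoImplicit false

open scoped MatrixGroups
open ModularGroup CongruenceSubgroup Module

namespace Fermat.Agent.H77

section General

variable {G : Type*} [Group G] {X : Type*} [MulAction G X]

/-- Pull back a function along the action of `g`. -/
def res (X : Type*) [MulAction G X] (g : G) : (X → ℂ) →ₗ[ℂ] (X → ℂ) :=
  LinearMap.funLeft ℂ ℂ (fun x => g • x)

@[simp] theorem res_apply (g : G) (v : X → ℂ) (x : X) : res X g v x = v (g • x) := rfl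

/-- Functions fixed by `g`. -/
def fixS (X : Type*) [MulAction G X] (g : G) : Submodule ℂ (X → ℂ) where
  carrier := {v | ∀ x, v (g • x) = v x}
  zero_mem' := fun _ => rfl
  add_mem' := by
    intro a b ha hb x
    show a (g • x) + b (g • x) = a x + b x
    rw [ha x, hb x]
  smul_mem' := by
    intro c a ha x
    show c • a (g • x) = c • a x
    rw [ha x]

theorem mem_fixS {g : G} {v : X → ℂ} : v ∈ fixS X g ↔ ∀ x, v (g • x) = v x := Iff.rfl

theorem fixS_zpow {g : G} {v : X → ℂ} (hv : v ∈ fixS X g) (k : ℤ) (x : X) :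
    v ((g ^ k) • x) = v x := by
  induction k with
  | zero => simp
  | succ n ih =>
    rw [zpow_add_one, ← (Commute.self_zpow g (n : ℤ)).eq, mul_smul, hv, ih]
  | pred n ih =>
    rw [← ih, ← hv, ← mul_smul, ← zpow_one_add]
    congr 2
    congr 1
    ring

theorem finrank_fixS [Finite X] (g : G) :
    finrank ℂ (fixS X g) = Nat.card (MulAction.orbitRel.Quotient (Subgroup.zpowers g) X) := by
  classical
  have : Fintype (MulAction.orbitRel.Quotient (Subgroup.zpowers g) X) := Fintype.ofFinite _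
  let e : (MulAction.orbitRel.Quotient (Subgroup.zpowers g) X → ℂ) ≃ₗ[ℂ] fixS X g :=
    { toFun := fun f => ⟨fun x => f (Quotient.mk _ x), by
        intro x
        show f _ = f _
        congr 1
        apply Quotient.sound
        show (g • x) ∈ MulAction.orbit _ x
        exact ⟨⟨g, Subgroup.mem_zpowers g⟩, rfl⟩⟩
      map_add' := fun _ _ => rfl
      map_smul' := fun _ _ => rfl
      invFun := fun v => Quotient.lift v.1 (by
        rintro a b ⟨⟨_, k, rfl⟩, h⟩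
        rw [← h]
        exact fixS_zpow v.2 k b)
      left_inv := by
        intro f
        funext q
        obtain ⟨x, rfl⟩ := Quotient.exists_rep q
        rfl
      right_inv := by
        intro v
        rfl }
  rw [← e.finrank_eq, finrank_fintype_fun_eq_card, Nat.card_eq_fintype_card]

/-- The norm operator `1 + g + ... + g^(n-1)`. -/
def nrm (X : Type*) [MulAction G X] (g : G) (n : ℕ) : (X → ℂ) →ₗ[ℂ] (X → ℂ) :=
  ∑ j ∈ Finset.range n, res X (g ^ j)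

theorem nrm_apply (g : G) (n : ℕ) (v : X → ℂ) (x : X) :
    nrm X g n v x = ∑ j ∈ Finset.range n, v (g ^ j • x) := by
  simp [nrm]

theorem nrm_mem_fixS {g : G} {n : ℕ} (h : ∀ x : X, g ^ n • x = x) (v : X → ℂ) :
    nrm X g n v ∈ fixS X g := by
  intro x
  rw [nrm_apply, nrm_apply]
  have h1 : ∑ j ∈ Finset.range n, v (g ^ j • g • x) = ∑ j ∈ Finset.range n, v (g ^ (j + 1) • x) := by
    refine Finset.sum_congr rfl fun j _ => ?_
    rw [← mul_smul, pow_succ]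
  rw [h1]
  have h2 := Finset.sum_range_succ' (fun j => v (g ^ j • x)) n
  have h3 := Finset.sum_range_succ (fun j => v (g ^ j • x)) n
  rw [h3] at h2
  simp only [h, pow_zero, one_smul] at h2
  exact (add_right_cancel h2).symm

theorem range_nrm {g : G} {n : ℕ} (hn : 0 < n) (h : ∀ x : X, g ^ n • x = x) :
    LinearMap.range (nrm X g n) = fixS X g := by
  apply le_antisymm
  · rintro _ ⟨v, rfl⟩
    exact nrm_mem_fixS h v
  · intro v hv
    refine ⟨(n : ℂ)⁻¹ • v, ?_⟩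
    funext x
    rw [nrm_apply]
    have : ∀ j ∈ Finset.range n, ((n : ℂ)⁻¹ • v) (g ^ j • x) = (n : ℂ)⁻¹ * v x := by
      intro j _
      have := fixS_zpow hv j x
      rw [zpow_natCast] at this
      simp [this]
    rw [Finset.sum_congr rfl this, Finset.sum_const, Finset.card_range, nsmul_eq_mul, ← mul_assoc,
      mul_inv_cancel₀ (by exact_mod_cast hn.ne'), one_mul]

theorem nrm_cob {g : G} {n : ℕ} (h : ∀ x : X, g ^ n • x = x) (v : X → ℂ) :
    nrm X g n (res X g v - v) = 0 := by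
  have h1 := nrm_mem_fixS h v
  funext x
  have h2 := h1 x
  rw [map_sub]
  show nrm X g n (res X g v) x - nrm X g n v x = 0
  rw [sub_eq_zero, ← h2, nrm_apply, nrm_apply]
  refine Finset.sum_congr rfl fun j _ => ?_
  rw [res_apply, ← mul_smul, ← mul_smul, ← pow_succ, ← pow_succ']

theorem finrank_ker_nrm [Finite X] {g : G} {n : ℕ} (hn : 0 < n) (h : ∀ x : X, g ^ n • x = x) :
    finrank ℂ (LinearMap.ker (nrm X g n)) + finrank ℂ (fixS X g) = Nat.card X := by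
  classical
  have : Fintype X := Fintype.ofFinite _
  rw [← range_nrm hn h, add_comm, LinearMap.finrank_range_add_finrank_ker,
    finrank_fintype_fun_eq_card, Nat.card_eq_fintype_card]

end General

section Cocycle

variable (Γ : Subgroup SL(2, ℤ))

local notation "XX" => (SL(2, ℤ) ⧸ Γ)

/-- The Schreier element of `Γ` attached to `σ` and a coset `x`. -/
noncomputable def gam (σ : SL(2, ℤ)) (x : SL(2, ℤ) ⧸ Γ) : Γ :=
  ⟨(σ • x).out⁻¹ * (σ * x.out), by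
    rw [← QuotientGroup.eq]
    have h : ((x.out : SL(2, ℤ)) : SL(2, ℤ) ⧸ Γ) = x := QuotientGroup.out_eq' x
    have h2 : (((σ • x).out : SL(2, ℤ)) : SL(2, ℤ) ⧸ Γ) = σ • x := QuotientGroup.out_eq' _
    rw [h2]
    conv_lhs => rw [← h]
    rfl⟩

theorem coe_gam (σ : SL(2, ℤ)) (x : SL(2, ℤ) ⧸ Γ) :
    (gam Γ σ x : SL(2, ℤ)) = (σ • x).out⁻¹ * (σ * x.out) := rfl

theorem gam_mul (σ τ : SL(2, ℤ)) (x : SL(2, ℤ) ⧸ Γ) :
    gam Γ (σ * τ) x = gam Γ σ (τ • x) * gam Γ τ x := by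
  apply Subtype.ext
  rw [Subgroup.coe_mul, coe_gam, coe_gam, coe_gam, mul_smul]
  group

variable {Γ}

/-- The Shapiro cocycle of a homomorphism. -/
noncomputable def zc (φ : Additive Γ →+ ℂ) (σ : SL(2, ℤ)) : (SL(2, ℤ) ⧸ Γ) → ℂ :=
  fun x => φ (Additive.ofMul (gam Γ σ x))

theorem zc_mul (φ : Additive Γ →+ ℂ) (σ τ : SL(2, ℤ)) (x : SL(2, ℤ) ⧸ Γ) :
    zc φ (σ * τ) x = zc φ σ (τ • x) + zc φ τ x := by
  simp only [zc, gam_mul, ofMul_mul, map_add]

theorem zc_one (φ : Additive Γ →+ ℂ) (x : SL(2, ℤ) ⧸ Γ) : zc φ 1 x = 0 := by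
  have h := zc_mul φ 1 1 x
  rw [one_smul, mul_one] at h
  have : zc φ 1 x + zc φ 1 x = zc φ 1 x + 0 := by rw [add_zero]; exact h.symm
  exact add_left_cancel this

/-- If `σ` fixes the coset `x`, the cocycle value is `φ` of a conjugate. -/
theorem zc_of_smul_eq (φ : Additive Γ →+ ℂ) (hφ : ModularCurve.Period.IsParabolicHom Γ φ)
    (σ : SL(2, ℤ)) (hσ : (σ : Matrix (Fin 2) (Fin 2) ℤ).trace ^ 2 = 4) (x : SL(2, ℤ) ⧸ Γ)
    (h : σ • x = x) : zc φ σ x = 0 := by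
  apply hφ
  have h1 : (gam Γ σ x : SL(2, ℤ)) = x.out⁻¹ * (σ * x.out) := by rw [coe_gam, h]
  rw [h1]
  have h2 : ((x.out⁻¹ * (σ * x.out) : SL(2, ℤ)) : Matrix (Fin 2) (Fin 2) ℤ).trace
      = (σ : Matrix (Fin 2) (Fin 2) ℤ).trace := by
    rw [Matrix.SpecialLinearGroup.coe_mul, Matrix.SpecialLinearGroup.coe_mul, Matrix.trace_mul_comm,
      Matrix.mul_assoc, ← Matrix.SpecialLinearGroup.coe_mul, mul_inv_cancel,
      Matrix.SpecialLinearGroup.coe_one, Matrix.mul_one]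
  rw [h2]; exact hσ

theorem zc_pow (φ : Additive Γ →+ ℂ) (g : SL(2, ℤ)) (n : ℕ) (x : SL(2, ℤ) ⧸ Γ) :
    zc φ (g ^ n) x = nrm (SL(2, ℤ) ⧸ Γ) g n (zc φ g) x := by
  rw [nrm_apply]
  induction n with
  | zero => simp [zc_one]
  | succ n ih => rw [pow_succ', zc_mul, ih, Finset.sum_range_succ, add_comm]

theorem nrm_zc_eq_zero (φ : Additive Γ →+ ℂ) (hφ : ModularCurve.Period.IsParabolicHom Γ φ)
    (g : SL(2, ℤ)) (n : ℕ) (hg : ∀ x : SL(2, ℤ) ⧸ Γ, g ^ n • x = x)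
    (htr : ((g ^ n : SL(2, ℤ)) : Matrix (Fin 2) (Fin 2) ℤ).trace ^ 2 = 4) :
    nrm (SL(2, ℤ) ⧸ Γ) g n (zc φ g) = 0 := by
  funext x
  rw [← zc_pow]
  exact zc_of_smul_eq φ hφ _ htr x (hg x)

theorem zc_add (φ ψ : Additive Γ →+ ℂ) (σ : SL(2, ℤ)) : zc (φ + ψ) σ = zc φ σ + zc ψ σ := rfl

theorem zc_smul (c : ℂ) (φ : Additive Γ →+ ℂ) (σ : SL(2, ℤ)) : zc (c • φ) σ = c • zc φ σ := rfl

/-- If the cocycle is a coboundary then `φ = 0`. -/
theorem eq_zero_of_zc (φ : Additive Γ →+ ℂ) (v : (SL(2, ℤ) ⧸ Γ) → ℂ)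
    (h : ∀ σ x, zc φ σ x = v x - v (σ • x)) : φ = 0 := by
  refine AddMonoidHom.ext fun γ => ?_
  obtain ⟨γ, rfl⟩ := Additive.ofMul.surjective γ
  set x0 : SL(2, ℤ) ⧸ Γ := ((1 : SL(2, ℤ)) : SL(2, ℤ) ⧸ Γ) with hx0
  have hmem : x0.out ∈ Γ := by
    have h1 : ((x0.out : SL(2, ℤ)) : SL(2, ℤ) ⧸ Γ) = ((1 : SL(2, ℤ)) : SL(2, ℤ) ⧸ Γ) :=
      QuotientGroup.out_eq' x0
    have := (QuotientGroup.eq.mp h1)
    simpa using this
  set σ : SL(2, ℤ) := x0.out * γ * x0.out⁻¹ with hσ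
  have hσΓ : σ ∈ Γ := Γ.mul_mem (Γ.mul_mem hmem γ.2) (Γ.inv_mem hmem)
  have hfix : σ • x0 = x0 := by
    show ((σ * 1 : SL(2, ℤ)) : SL(2, ℤ) ⧸ Γ) = ((1 : SL(2, ℤ)) : SL(2, ℤ) ⧸ Γ)
    rw [mul_one, QuotientGroup.eq]
    simpa using hσΓ
  have h2 := h σ x0
  rw [hfix, sub_self] at h2
  have h3 : gam Γ σ x0 = γ := by
    apply Subtype.ext
    rw [coe_gam, hfix, hσ]
    group
  rw [zc, h3] at h2
  exact h2

theorem zc_of_generators (φ : Additive Γ →+ ℂ) (v : (SL(2, ℤ) ⧸ Γ) → ℂ)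
    (hS : ∀ x, zc φ S x = v x - v (S • x)) (hR : ∀ x, zc φ (S * T) x = v x - v ((S * T) • x))
    (σ : SL(2, ℤ)) : ∀ x, zc φ σ x = v x - v (σ • x) := by
  let H : Subgroup SL(2, ℤ) :=
    { carrier := {σ | ∀ x, zc φ σ x = v x - v (σ • x)}
      one_mem' := by
        intro x
        rw [zc_one, one_smul, sub_self]
      mul_mem' := by
        intro a b ha hb x
        rw [zc_mul, ha, hb, mul_smul]
        ring
      inv_mem' := by
        intro a ha x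
        have h1 := zc_mul φ a a⁻¹ x
        rw [mul_inv_cancel, zc_one, ha, smul_inv_smul] at h1
        linear_combination -h1 }
  have hH : H = ⊤ := by
    rw [eq_top_iff, ← SpecialLinearGroup.SL2Z_generators, Subgroup.closure_le]
    have h1 : S ∈ H := hS
    have h2 : S * T ∈ H := hR
    rintro _ (rfl | rfl)
    · exact h1
    · have := H.mul_mem (H.inv_mem h1) h2
      rwa [inv_mul_cancel_left] at this
  have : σ ∈ H := hH ▸ Subgroup.mem_top σ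
  exact this

end Cocycle

section Bound

variable {Γ : Subgroup SL(2, ℤ)}

theorem neg_one_smul' (hneg : (-1 : SL(2, ℤ)) ∈ Γ) (x : SL(2, ℤ) ⧸ Γ) :
    (-1 : SL(2, ℤ)) • x = x := by
  obtain ⟨g, rfl⟩ := QuotientGroup.mk_surjective x
  show (((-1 : SL(2, ℤ)) * g : SL(2, ℤ)) : SL(2, ℤ) ⧸ Γ) = (g : SL(2, ℤ) ⧸ Γ)
  rw [QuotientGroup.eq]
  have : ((-1 : SL(2, ℤ)) * g)⁻¹ * g = -1 := by
    rw [mul_inv_rev, mul_assoc]
    simp
  rw [this]
  exact hneg

theorem S_sq : (S : SL(2, ℤ)) ^ 2 = -1 := by decide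

theorem ST_cube : (S * T : SL(2, ℤ)) ^ 3 = -1 := by decide

theorem trace_neg_one : ((-1 : SL(2, ℤ)) : Matrix (Fin 2) (Fin 2) ℤ).trace ^ 2 = 4 := by
  decide

theorem S_inv : (S : SL(2, ℤ))⁻¹ = -1 * S := by decide

theorem STS : (S * (S * T) : SL(2, ℤ)) = -1 * T := by decide

theorem trace_T_pow (n : ℕ) : ((T ^ n : SL(2, ℤ)) : Matrix (Fin 2) (Fin 2) ℤ).trace ^ 2 = 4 := by
  have := ModularGroup.coe_T_zpow (n : ℤ)
  rw [zpow_natCast] at this
  rw [this]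
  simp [Matrix.trace_fin_two]

local notation "XX" => (SL(2, ℤ) ⧸ Γ)

variable (Γ) in
/-- kernel of the norm of `S`. -/
noncomputable abbrev US : Submodule ℂ (SL(2, ℤ) ⧸ Γ → ℂ) := LinearMap.ker (nrm (SL(2, ℤ) ⧸ Γ) S 2)

variable (Γ) in
/-- kernel of the norm of `S * T`. -/
noncomputable abbrev UR : Submodule ℂ (SL(2, ℤ) ⧸ Γ → ℂ) :=
  LinearMap.ker (nrm (SL(2, ℤ) ⧸ Γ) (S * T) 3)

theorem S_sq_smul (hneg : (-1 : SL(2, ℤ)) ∈ Γ) (x : SL(2, ℤ) ⧸ Γ) : (S ^ 2 : SL(2, ℤ)) • x = x := by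
  rw [S_sq]; exact neg_one_smul' hneg x

theorem ST_cube_smul (hneg : (-1 : SL(2, ℤ)) ∈ Γ) (x : SL(2, ℤ) ⧸ Γ) :
    ((S * T) ^ 3 : SL(2, ℤ)) • x = x := by
  rw [ST_cube]; exact neg_one_smul' hneg x

/-- The map `(a, b) ↦ a ∘ R + b`. -/
noncomputable def wm (Γ : Subgroup SL(2, ℤ)) :
    (US Γ × UR Γ) →ₗ[ℂ] (SL(2, ℤ) ⧸ Γ → ℂ) :=
  LinearMap.coprod (res _ (S * T) ∘ₗ (US Γ).subtype) (UR Γ).subtype

theorem wm_apply (a : US Γ) (b : UR Γ) (x : SL(2, ℤ) ⧸ Γ) :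
    wm Γ (a, b) x = a.1 ((S * T) • x) + b.1 x := by
  simp [wm]

variable (Γ) in
/-- `σ` such that `e_x - e_{σ x}` always lies in the range of `wm`. -/
def goodS : Subgroup SL(2, ℤ) where
  carrier := {σ | ∀ x : SL(2, ℤ) ⧸ Γ, ∀ [DecidableEq (SL(2, ℤ) ⧸ Γ)],
    (Pi.single x 1 - Pi.single (σ • x) 1 : SL(2, ℤ) ⧸ Γ → ℂ) ∈ LinearMap.range (wm Γ)}
  one_mem' := by
    intro x _
    rw [one_smul, sub_self]
    exact Submodule.zero_mem _
  mul_mem' := by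
    intro a b ha hb x _
    have := Submodule.add_mem _ (hb x) (ha (b • x))
    rwa [sub_add_sub_cancel, ← mul_smul] at this
  inv_mem' := by
    intro a ha x _
    have := Submodule.neg_mem _ (ha (a⁻¹ • x))
    rwa [neg_sub, smul_inv_smul] at this

theorem ST_mem_goodS (hneg : (-1 : SL(2, ℤ)) ∈ Γ) : (S * T : SL(2, ℤ)) ∈ goodS Γ := by
  intro x _
  set w : SL(2, ℤ) ⧸ Γ → ℂ := Pi.single ((S * T) • x) 1 with hw
  refine ⟨(0, ⟨res _ (S * T) w - w, nrm_cob (ST_cube_smul hneg) w⟩), ?_⟩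
  funext y
  rw [wm_apply]
  simp only [ZeroMemClass.coe_zero, Pi.zero_apply, zero_add, Pi.sub_apply, res_apply, hw]
  congr 1
  simp only [Pi.single_apply]
  simp

theorem conj_mem_goodS (hneg : (-1 : SL(2, ℤ)) ∈ Γ) :
    ((S * T)⁻¹ * S * (S * T) : SL(2, ℤ)) ∈ goodS Γ := by
  intro x _
  set w : SL(2, ℤ) ⧸ Γ → ℂ := Pi.single (S • (S * T) • x) 1 with hw
  refine ⟨(⟨res _ S w - w, nrm_cob (S_sq_smul hneg) w⟩, 0), ?_⟩
  funext y
  rw [wm_apply]
  simp only [ZeroMemClass.coe_zero, Pi.zero_apply, add_zero, Pi.sub_apply, res_apply, hw]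
  congr 1
  · simp only [Pi.single_apply]
    simp
  · simp only [Pi.single_apply]
    congr 1
    apply propext
    rw [mul_smul ((S * T)⁻¹ * S), mul_smul (S * T)⁻¹, eq_inv_smul_iff]

theorem goodS_eq_top (hneg : (-1 : SL(2, ℤ)) ∈ Γ) : goodS Γ = ⊤ := by
  have h1 := ST_mem_goodS hneg
  have h2 := conj_mem_goodS hneg
  have h3 : (S : SL(2, ℤ)) ∈ goodS Γ := by
    have := (goodS Γ).mul_mem ((goodS Γ).mul_mem h1 h2) ((goodS Γ).inv_mem h1)
    convert this using 1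
    group
  rw [eq_top_iff, ← SpecialLinearGroup.SL2Z_generators, Subgroup.closure_le]
  rintro _ (rfl | rfl)
  · exact h3
  · have := (goodS Γ).mul_mem ((goodS Γ).inv_mem h3) h1
    rwa [inv_mul_cancel_left] at this

theorem natCard_le_finrank_range_wm [Finite (SL(2, ℤ) ⧸ Γ)] (hneg : (-1 : SL(2, ℤ)) ∈ Γ) :
    Nat.card (SL(2, ℤ) ⧸ Γ) ≤ finrank ℂ (LinearMap.range (wm Γ)) + 1 := by
  classical
  have : Fintype (SL(2, ℤ) ⧸ Γ) := Fintype.ofFinite _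
  set x0 : SL(2, ℤ) ⧸ Γ := ((1 : SL(2, ℤ)) : SL(2, ℤ) ⧸ Γ) with hx0
  have key : LinearMap.range (wm Γ) ⊔ Submodule.span ℂ {(Pi.single x0 1 : SL(2, ℤ) ⧸ Γ → ℂ)} = ⊤ := by
    rw [eq_top_iff, ← (Pi.basisFun ℂ (SL(2, ℤ) ⧸ Γ)).span_eq, Submodule.span_le]
    rintro _ ⟨x, rfl⟩
    rw [Pi.basisFun_apply]
    obtain ⟨g, rfl⟩ := QuotientGroup.mk_surjective x
    have h1 : g ∈ goodS Γ := by rw [goodS_eq_top hneg]; trivial
    have h2 := Submodule.neg_mem _ (h1 x0)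
    rw [neg_sub] at h2
    have h3 : g • x0 = (g : SL(2, ℤ) ⧸ Γ) := by
      show ((g * 1 : SL(2, ℤ)) : SL(2, ℤ) ⧸ Γ) = _
      rw [mul_one]
    rw [h3] at h2
    have h4 := Submodule.add_mem_sup h2 (Submodule.mem_span_singleton_self
      (R := ℂ) (Pi.single x0 1 : SL(2, ℤ) ⧸ Γ → ℂ))
    rwa [sub_add_cancel] at h4
  have h5 : finrank ℂ (⊤ : Submodule ℂ (SL(2, ℤ) ⧸ Γ → ℂ)) = Nat.card (SL(2, ℤ) ⧸ Γ) := by
    rw [finrank_top, finrank_fintype_fun_eq_card, Nat.card_eq_fintype_card]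
  rw [← h5, ← key]
  refine (Submodule.finrank_add_le_finrank_add_finrank _ _).trans ?_
  gcongr
  refine (finrank_span_le_card _).trans ?_
  simp

open ModularCurve.Period in
/-- `φ ↦ (z_S, z_{ST})`. -/
noncomputable def psiPar (hneg : (-1 : SL(2, ℤ)) ∈ Γ) :
    parabolicHoms ℂ Γ ℂ →ₗ[ℂ] (US Γ × UR Γ) where
  toFun φ := (⟨zc φ.1 S, nrm_zc_eq_zero φ.1 φ.2 S 2 (S_sq_smul hneg) (by
      rw [S_sq]; exact trace_neg_one)⟩,
    ⟨zc φ.1 (S * T), nrm_zc_eq_zero φ.1 φ.2 (S * T) 3 (ST_cube_smul hneg) (by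
      rw [ST_cube]; exact trace_neg_one)⟩)
  map_add' _ _ := rfl
  map_smul' _ _ := rfl

/-- coboundaries -/
noncomputable def psiV (hneg : (-1 : SL(2, ℤ)) ∈ Γ) :
    (SL(2, ℤ) ⧸ Γ → ℂ) →ₗ[ℂ] (US Γ × UR Γ) :=
  LinearMap.prod
    (LinearMap.codRestrict _ (res _ S - LinearMap.id) fun v => nrm_cob (S_sq_smul hneg) v)
    (LinearMap.codRestrict _ (res _ (S * T) - LinearMap.id) fun v => nrm_cob (ST_cube_smul hneg) v)

open ModularCurve.Period in
theorem zc_T (hneg : (-1 : SL(2, ℤ)) ∈ Γ) (φ : Additive Γ →+ ℂ) (hφ : IsParabolicHom Γ φ) :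
    zc φ T = res _ (S * T) (zc φ S) + zc φ (S * T) := by
  funext x
  have h1 : (T : SL(2, ℤ)) = (-1 * S) * (S * T) := by decide
  have h2 : zc φ T x = zc φ ((-1 * S) * (S * T)) x := by rw [← h1]
  rw [h2, zc_mul, zc_mul, zc_of_smul_eq φ hφ (-1) trace_neg_one _ (neg_one_smul' hneg _), zero_add]
  rfl

theorem cob_T (hneg : (-1 : SL(2, ℤ)) ∈ Γ) (v : SL(2, ℤ) ⧸ Γ → ℂ) :
    res _ T v - v = res _ (S * T) (res _ S v - v) + (res _ (S * T) v - v) := by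
  funext x
  have h1 : S • (S * T) • x = T • x := by
    rw [← mul_smul, STS, mul_smul, neg_one_smul' hneg]
  simp only [Pi.sub_apply, Pi.add_apply, res_apply, h1]
  ring

open ModularCurve.Period in
theorem main_bound [Finite (SL(2, ℤ) ⧸ Γ)] (hneg : (-1 : SL(2, ℤ)) ∈ Γ) :
    Module.Finite ℂ (parabolicHoms ℂ Γ ℂ) ∧
    finrank ℂ (parabolicHoms ℂ Γ ℂ) + finrank ℂ (fixS (SL(2, ℤ) ⧸ Γ) S)
      + finrank ℂ (fixS (SL(2, ℤ) ⧸ Γ) (S * T)) + finrank ℂ (fixS (SL(2, ℤ) ⧸ Γ) T)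
      ≤ Nat.card (SL(2, ℤ) ⧸ Γ) + 2 := by
  classical
  have : Fintype (SL(2, ℤ) ⧸ Γ) := Fintype.ofFinite _
  set V := (SL(2, ℤ) ⧸ Γ → ℂ) with hV
  -- a common period for `T`
  obtain ⟨M, hM, hT⟩ : ∃ M : ℕ, 0 < M ∧ ∀ x : SL(2, ℤ) ⧸ Γ, (T ^ M : SL(2, ℤ)) • x = x := by
    refine ⟨Nat.card (Equiv.Perm (SL(2, ℤ) ⧸ Γ)), Nat.card_pos, fun x => ?_⟩
    have h1 : (MulAction.toPermHom SL(2, ℤ) (SL(2, ℤ) ⧸ Γ) T) ^
        Nat.card (Equiv.Perm (SL(2, ℤ) ⧸ Γ)) = 1 := pow_card_eq_one'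
    rw [← map_pow] at h1
    exact congrArg (fun e : Equiv.Perm (SL(2, ℤ) ⧸ Γ) => e x) h1
  set Θ : (US Γ × UR Γ) →ₗ[ℂ] V := nrm _ T M ∘ₗ wm Γ with hΘ
  -- kernel of Ψ
  have hPsi : ∀ (φ : parabolicHoms ℂ Γ ℂ) (v : V), psiPar hneg φ + psiV hneg v = 0 →
      φ = 0 ∧ ∀ σ : SL(2, ℤ), ∀ x, v (σ • x) = v x := by
    intro φ v h
    have h1 : ∀ x, zc φ.1 S x = v x - v (S • x) := by
      intro x
      have := congrArg (fun p : US Γ × UR Γ => p.1.1 x) h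
      change zc φ.1 S x + (v (S • x) - v x) = 0 at this
      linear_combination this
    have h2 : ∀ x, zc φ.1 (S * T) x = v x - v ((S * T) • x) := by
      intro x
      have := congrArg (fun p : US Γ × UR Γ => p.2.1 x) h
      change zc φ.1 (S * T) x + (v ((S * T) • x) - v x) = 0 at this
      linear_combination this
    have h3 := zc_of_generators φ.1 v h1 h2
    have h4 : φ.1 = 0 := eq_zero_of_zc φ.1 v h3
    refine ⟨Subtype.ext h4, fun σ x => ?_⟩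
    have h5 := h3 σ x
    rw [h4] at h5
    change (0 : ℂ) = _ at h5
    linear_combination h5
  have hinj : Function.Injective (psiPar hneg) := by
    rw [injective_iff_map_eq_zero]
    intro φ hφ
    exact (hPsi φ 0 (by rw [hφ, map_zero, add_zero])).1
  have hfin : Module.Finite ℂ (parabolicHoms ℂ Γ ℂ) := Module.Finite.of_injective _ hinj
  refine ⟨hfin, ?_⟩
  set Ψ : (parabolicHoms ℂ Γ ℂ × V) →ₗ[ℂ] (US Γ × UR Γ) :=
    LinearMap.coprod (psiPar hneg) (psiV hneg) with hΨ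
  have hrange : LinearMap.range Ψ ≤ LinearMap.ker Θ := by
    rintro _ ⟨⟨φ, v⟩, rfl⟩
    rw [LinearMap.mem_ker, hΘ, LinearMap.comp_apply]
    have h1 : wm Γ (Ψ (φ, v)) = zc φ.1 T + (res _ T v - v) := by
      rw [zc_T hneg φ.1 φ.2, cob_T hneg v]
      funext x
      have : Ψ (φ, v) = ((Ψ (φ, v)).1, (Ψ (φ, v)).2) := rfl
      rw [this, wm_apply]
      change (zc φ.1 S ((S * T) • x) + (v (S • (S * T) • x) - v ((S * T) • x)))
        + (zc φ.1 (S * T) x + (v ((S * T) • x) - v x)) = _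
      simp only [Pi.sub_apply, Pi.add_apply, res_apply]
      ring
    rw [h1, map_add, nrm_cob hT v, add_zero]
    exact nrm_zc_eq_zero φ.1 φ.2 T M hT (trace_T_pow M)
  have hker : finrank ℂ (LinearMap.ker Ψ) ≤ 1 := by
    have hle : LinearMap.ker Ψ ≤ Submodule.span ℂ {((0, fun _ => 1) : parabolicHoms ℂ Γ ℂ × V)} := by
      rintro ⟨φ, v⟩ h
      rw [LinearMap.mem_ker] at h
      obtain ⟨h1, h2⟩ := hPsi φ v h
      rw [Submodule.mem_span_singleton]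
      refine ⟨v ((1 : SL(2, ℤ)) : SL(2, ℤ) ⧸ Γ), ?_⟩
      rw [h1, Prod.smul_mk, smul_zero]
      congr 1
      funext x
      obtain ⟨g, rfl⟩ := QuotientGroup.mk_surjective x
      have := h2 g ((1 : SL(2, ℤ)) : SL(2, ℤ) ⧸ Γ)
      have h3 : g • ((1 : SL(2, ℤ)) : SL(2, ℤ) ⧸ Γ) = (g : SL(2, ℤ) ⧸ Γ) := by
        show ((g * 1 : SL(2, ℤ)) : SL(2, ℤ) ⧸ Γ) = _
        rw [mul_one]
      rw [h3] at this
      show v _ * 1 = v _
      rw [this, mul_one]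
    refine (Submodule.finrank_mono hle).trans ((finrank_span_le_card _).trans ?_)
    simp
  have e1 : finrank ℂ (LinearMap.range Ψ) + finrank ℂ (LinearMap.ker Ψ)
      = finrank ℂ (parabolicHoms ℂ Γ ℂ) + Nat.card (SL(2, ℤ) ⧸ Γ) := by
    rw [LinearMap.finrank_range_add_finrank_ker, finrank_prod, finrank_fintype_fun_eq_card,
      Nat.card_eq_fintype_card]
  have e2 : finrank ℂ (LinearMap.range Θ) + finrank ℂ (LinearMap.ker Θ)
      = finrank ℂ (US Γ) + finrank ℂ (UR Γ) := by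
    rw [LinearMap.finrank_range_add_finrank_ker, finrank_prod]
  have e3 : finrank ℂ (LinearMap.range Ψ) ≤ finrank ℂ (LinearMap.ker Θ) :=
    Submodule.finrank_mono hrange
  have e4 : finrank ℂ (US Γ) + finrank ℂ (fixS (SL(2, ℤ) ⧸ Γ) S) = Nat.card (SL(2, ℤ) ⧸ Γ) :=
    finrank_ker_nrm (by norm_num) (S_sq_smul hneg)
  have e5 : finrank ℂ (UR Γ) + finrank ℂ (fixS (SL(2, ℤ) ⧸ Γ) (S * T))
      = Nat.card (SL(2, ℤ) ⧸ Γ) :=
    finrank_ker_nrm (by norm_num) (ST_cube_smul hneg)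
  have e6 : finrank ℂ (LinearMap.ker (nrm (SL(2, ℤ) ⧸ Γ) T M)) + finrank ℂ (fixS (SL(2, ℤ) ⧸ Γ) T)
      = Nat.card (SL(2, ℤ) ⧸ Γ) := finrank_ker_nrm hM hT
  have e7 := natCard_le_finrank_range_wm hneg
  have e8 : finrank ℂ (LinearMap.range (wm Γ)) ≤
      finrank ℂ (LinearMap.range Θ) + finrank ℂ (LinearMap.ker (nrm (SL(2, ℤ) ⧸ Γ) T M)) := by
    have h1 := LinearMap.finrank_range_add_finrank_ker
      ((nrm (SL(2, ℤ) ⧸ Γ) T M).domRestrict (LinearMap.range (wm Γ)))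
    rw [LinearMap.range_domRestrict, ← LinearMap.range_comp] at h1
    rw [← h1]
    refine Nat.add_le_add le_rfl ?_
    exact LinearMap.finrank_le_finrank_of_injective
      (f := LinearMap.restrict ((LinearMap.range (wm Γ)).subtype)
        (p := LinearMap.ker ((nrm (SL(2, ℤ) ⧸ Γ) T M).domRestrict (LinearMap.range (wm Γ))))
        (q := LinearMap.ker (nrm (SL(2, ℤ) ⧸ Γ) T M))
        (fun x hx => hx)) (fun a b hab => Subtype.ext (Subtype.ext
          (congrArg (fun z : LinearMap.ker (nrm (SL(2, ℤ) ⧸ Γ) T M) => z.1) hab)))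
  omega

end Bound

end Fermat.Agent.H77
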