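import Fermat.Agent.H95W1

/-!
# S27 (M1): weights of coordinate vectors
-/

set_option autoImplicit false

open Polynomial Fermat.Agent.H95

namespace Fermat.Agent.H77.M

section Vwt

variable (s : Shape) {K : Type*} [Field K]

/-- the weight of the monomial `x ^ e * y k` -/
def pos (k : Fin s.a) (e : ℕ) : ℕ := s.a * e + s.w k

theorem pos_inj {k k' : Fin s.a} {e e' : ℕ} (h : pos s k e = pos s k' e') : k = k' ∧ e = e' := by
  have ha : 0 < s.a := Nat.pos_of_ne_zero (NeZero.ne _)
  have hk : k = k' := by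
    apply s.w_inj
    have h1 : s.w k ≡ pos s k e [MOD s.a] := by
      unfold pos; exact (Nat.modEq_iff_dvd' (by omega)).2 ⟨e, by omega⟩
    have h2 : s.w k' ≡ pos s k' e' [MOD s.a] := by
      unfold pos; exact (Nat.modEq_iff_dvd' (by omega)).2 ⟨e', by omega⟩
    rw [h] at h1
    exact h1.trans h2.symm
  subst hk
  refine ⟨rfl, ?_⟩
  unfold pos at h
  exact Nat.eq_of_mul_eq_mul_left ha (by omega)

/-- the weight of a coordinate vector -/
noncomputable def vwt (u : Fin s.a → K[X]) : WithBot ℕ :=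
  Finset.univ.sup fun k => (u k).support.sup fun e => ((pos s k e : ℕ) : WithBot ℕ)

theorem vwt_le_iff {u : Fin s.a → K[X]} {n : WithBot ℕ} :
    vwt s u ≤ n ↔ ∀ k e, (u k).coeff e ≠ 0 → ((pos s k e : ℕ) : WithBot ℕ) ≤ n := by
  unfold vwt
  rw [Finset.sup_le_iff]
  constructor
  · intro h k e hke
    have := h k (Finset.mem_univ _)
    rw [Finset.sup_le_iff] at this
    exact this e (mem_support_iff.2 hke)
  · intro h k _
    rw [Finset.sup_le_iff]
    intro e he
    exact h k e (mem_support_iff.1 he)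

theorem le_vwt {u : Fin s.a → K[X]} {k : Fin s.a} {e : ℕ} (h : (u k).coeff e ≠ 0) :
    ((pos s k e : ℕ) : WithBot ℕ) ≤ vwt s u :=
  (vwt_le_iff s).1 le_rfl k e h

theorem vwt_zero : vwt s (0 : Fin s.a → K[X]) = ⊥ := by
  rw [← le_bot_iff, vwt_le_iff]
  intro k e h
  simp at h

theorem exists_top {u : Fin s.a → K[X]} (hu : u ≠ 0) :
    ∃ k e, (u k).coeff e ≠ 0 ∧ vwt s u = ((pos s k e : ℕ) : WithBot ℕ) := by
  classical
  have hne : ((Finset.univ : Finset (Fin s.a)).sigma fun k => (u k).support).Nonempty := by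
    by_contra h
    rw [Finset.not_nonempty_iff_eq_empty] at h
    apply hu
    funext k
    rw [Pi.zero_apply, ← support_eq_empty]
    by_contra h'
    obtain ⟨e, he⟩ := Finset.nonempty_iff_ne_empty.2 h'
    have : (⟨k, e⟩ : Sigma fun _ : Fin s.a => ℕ) ∈
      (Finset.univ : Finset (Fin s.a)).sigma fun k => (u k).support :=
      Finset.mem_sigma.2 ⟨Finset.mem_univ _, he⟩
    rw [h] at this
    simp at this
  obtain ⟨⟨k, e⟩, hke, hmax⟩ := Finset.exists_max_image _
    (fun p : (_ : Fin s.a) × ℕ => pos s p.1 p.2) hne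
  rw [Finset.mem_sigma] at hke
  refine ⟨k, e, mem_support_iff.1 hke.2, le_antisymm ?_ (le_vwt s (mem_support_iff.1 hke.2))⟩
  rw [vwt_le_iff]
  intro k' e' h'
  have := hmax ⟨k', e'⟩ (Finset.mem_sigma.2 ⟨Finset.mem_univ _, mem_support_iff.2 h'⟩)
  exact_mod_cast this

theorem vwt_eq_bot_iff {u : Fin s.a → K[X]} : vwt s u = ⊥ ↔ u = 0 := by
  constructor
  · intro h
    by_contra hu
    obtain ⟨k, e, _, he⟩ := exists_top s hu
    rw [h] at he
    exact absurd he (by simp)
  · rintro rfl
    exact vwt_zero s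

theorem vwt_eq_iff {u : Fin s.a → K[X]} {n : ℕ} :
    vwt s u = (n : WithBot ℕ) ↔ (∀ k e, n < pos s k e → (u k).coeff e = 0) ∧
      ∃ k e, pos s k e = n ∧ (u k).coeff e ≠ 0 := by
  constructor
  · intro h
    have hu : u ≠ 0 := by
      rintro rfl
      rw [vwt_zero] at h
      exact absurd h (by simp)
    obtain ⟨k, e, hke, he⟩ := exists_top s hu
    rw [h] at he
    have he' : n = pos s k e := by exact_mod_cast he
    refine ⟨fun k' e' h' => ?_, k, e, he'.symm, hke⟩
    by_contra hne
    have := (vwt_le_iff s).1 h.le k' e' hne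
    have : pos s k' e' ≤ n := by exact_mod_cast this
    omega
  · rintro ⟨h1, k, e, hke, he⟩
    apply le_antisymm
    · rw [vwt_le_iff]
      intro k' e' h'
      by_contra hlt
      apply h'
      apply h1
      rw [not_le] at hlt
      exact_mod_cast hlt
    · rw [← hke]
      exact le_vwt s he

theorem vwt_add_le (u v : Fin s.a → K[X]) : vwt s (u + v) ≤ max (vwt s u) (vwt s v) := by
  rw [vwt_le_iff]
  intro k e h
  rw [Pi.add_apply, coeff_add] at h
  by_cases hu : (u k).coeff e = 0
  · rw [hu, zero_add] at h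
    exact (le_vwt s h).trans (le_max_right _ _)
  · exact (le_vwt s hu).trans (le_max_left _ _)

theorem vwt_smul_le (c : K) (u : Fin s.a → K[X]) : vwt s (c • u) ≤ vwt s u := by
  rw [vwt_le_iff]
  intro k e h
  rw [Pi.smul_apply, coeff_smul, smul_eq_mul] at h
  exact le_vwt s (right_ne_zero_of_mul h)

theorem vwt_smul {c : K} (hc : c ≠ 0) (u : Fin s.a → K[X]) : vwt s (c • u) = vwt s u := by
  apply le_antisymm (vwt_smul_le s c u)
  conv_lhs => rw [← inv_smul_smul₀ hc u]
  exact vwt_smul_le s _ _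

theorem vwt_neg (u : Fin s.a → K[X]) : vwt s (-u) = vwt s u := by
  have := vwt_smul s (c := (-1 : K)) (by simp) u
  simpa using this

theorem vwt_add_eq_of_lt {u v : Fin s.a → K[X]} (h : vwt s v < vwt s u) :
    vwt s (u + v) = vwt s u := by
  apply le_antisymm
  · exact (vwt_add_le s u v).trans (by rw [max_eq_left h.le])
  · by_contra hcon
    rw [not_le] at hcon
    have h1 : vwt s u ≤ max (vwt s (u + v)) (vwt s v) := by
      have := vwt_add_le s (u + v) (-v)
      rw [vwt_neg] at this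
      simpa using this
    exact absurd (h1.trans_lt (max_lt hcon h)) (lt_irrefl _)

/-- monomial vectors -/
noncomputable def mono (k : Fin s.a) (e : ℕ) : Fin s.a → K[X] := Pi.single k (X ^ e)

theorem mono_coeff (k k' : Fin s.a) (e e' : ℕ) :
    ((mono s k e : Fin s.a → K[X]) k').coeff e' = if k' = k ∧ e' = e then 1 else 0 := by
  unfold mono
  by_cases h : k' = k
  · subst h
    simp [coeff_X_pow]
  · rw [Pi.single_eq_of_ne h]
    simp [h]

theorem vwt_mono (k : Fin s.a) (e : ℕ) :
    vwt s (mono s k e : Fin s.a → K[X]) = ((pos s k e : ℕ) : WithBot ℕ) := by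
  rw [vwt_eq_iff]
  refine ⟨fun k' e' h => ?_, k, e, rfl, ?_⟩
  · rw [mono_coeff]
    rw [if_neg]
    rintro ⟨rfl, rfl⟩
    exact lt_irrefl _ h
  · rw [mono_coeff, if_pos ⟨rfl, rfl⟩]
    exact one_ne_zero

/-- split off the top term -/
theorem exists_split {u : Fin s.a → K[X]} (hu : u ≠ 0) :
    ∃ (k : Fin s.a) (e : ℕ) (r : K) (u' : Fin s.a → K[X]), r ≠ 0 ∧ u = r • mono s k e + u' ∧
      vwt s u' < vwt s u ∧ vwt s u = ((pos s k e : ℕ) : WithBot ℕ) := by
  obtain ⟨k, e, hke, he⟩ := exists_top s hu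
  refine ⟨k, e, (u k).coeff e, u - (u k).coeff e • mono s k e, hke, by abel, ?_, he⟩
  rw [he]
  by_cases h0 : u - (u k).coeff e • mono s k e = 0
  · rw [h0, vwt_zero]; exact WithBot.bot_lt_coe _
  obtain ⟨k', e', hke', he'⟩ := exists_top s h0
  rw [he']
  have hlt : pos s k' e' ≤ pos s k e := by
    have h1 : (u k').coeff e' ≠ 0 ∨ ((mono s k e : Fin s.a → K[X]) k').coeff e' ≠ 0 := by
      by_contra hcon
      push Not at hcon
      apply hke'
      rw [Pi.sub_apply, coeff_sub, hcon.1, Pi.smul_apply, coeff_smul, hcon.2]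
      simp
    rcases h1 with h1 | h1
    · have := le_vwt s h1
      rw [he] at this
      exact_mod_cast this
    · have := le_vwt s h1
      rw [vwt_mono] at this
      exact_mod_cast this
  have hne : pos s k' e' ≠ pos s k e := by
    intro h
    obtain ⟨rfl, rfl⟩ := pos_inj s h
    apply hke'
    rw [Pi.sub_apply, coeff_sub, Pi.smul_apply, coeff_smul, mono_coeff]
    simp
  exact_mod_cast lt_of_le_of_ne hlt hne

end Vwt

end Fermat.Agent.H77.M
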