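import Mathlib
import Fermat.Agent.H77ZNorm

/-!
# The core of the descent of Hecke characters in a biquadratic extension
-/

set_option autoImplicit false

noncomputable section

open IsDedekindDomain NumberField WithZero
open scoped Pointwise
open Fermat.Agent.H47 (ordHom divHom smulPlace below)
open Fermat.Agent.H82 (above aboveSet NonSplit congr locNorm normGroup)

namespace Fermat.Agent.H77.Z

section places

variable {E B B' : Type} [Field E] [NumberField E] [Field B] [NumberField B]
  [Field B'] [NumberField B'] [Algebra E B] [Algebra B B'] [Algebra E B'] [IsScalarTower E B B']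

theorem smulPlace_restrict (σ : B' ≃ₐ[B] B') (w : HeightOneSpectrum (𝓞 B')) :
    smulPlace (σ.restrictScalars E) w = smulPlace σ w := by
  apply HeightOneSpectrum.ext
  rw [H47.smulPlace_asIdeal, H47.smulPlace_asIdeal]
  rfl

theorem smulPlace_mul (σ τ : B' ≃ₐ[E] B') (w : HeightOneSpectrum (𝓞 B')) :
    smulPlace (σ * τ) w = smulPlace σ (smulPlace τ w) := by
  apply HeightOneSpectrum.ext
  rw [H47.smulPlace_asIdeal, H47.smulPlace_asIdeal, H47.smulPlace_asIdeal, mul_smul]

theorem smulPlace_one (w : HeightOneSpectrum (𝓞 B')) :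
    smulPlace (1 : B' ≃ₐ[E] B') w = w := by
  apply HeightOneSpectrum.ext
  rw [H47.smulPlace_asIdeal, one_smul]

theorem below_below (w : HeightOneSpectrum (𝓞 B')) : below E (below B w) = below E w := by
  apply HeightOneSpectrum.ext
  show (w.asIdeal.under (𝓞 B)).under (𝓞 E) = w.asIdeal.under (𝓞 E)
  exact Ideal.under_under _

theorem below_smulPlace (σ : B' ≃ₐ[E] B') (w : HeightOneSpectrum (𝓞 B')) :
    below E (smulPlace σ w) = below E w :=
  (H47.eq_below_of_mem_above (H47.smulPlace_mem_above σ (H47.mem_above_below (K := E) w))).symm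

theorem mem_above_iff {v : HeightOneSpectrum (𝓞 E)} {w : HeightOneSpectrum (𝓞 B')} :
    w ∈ above B' v ↔ below E w = v :=
  ⟨fun h => (H47.eq_below_of_mem_above h).symm, fun h => h ▸ H47.mem_above_below w⟩

theorem mem_aboveSet_iff {S : Set (HeightOneSpectrum (𝓞 E))} {w : HeightOneSpectrum (𝓞 B')} :
    w ∈ aboveSet B' S ↔ below E w ∈ S := by
  constructor
  · rintro ⟨v, hv, hw⟩
    rwa [← H47.eq_below_of_mem_above hw]
  · intro h
    exact ⟨_, h, H47.mem_above_below w⟩

/-- Ramification in a tower. -/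
theorem unr_of_tower {w : HeightOneSpectrum (𝓞 B')}
    (h : (below E w).asIdeal.ramificationIdx' w.asIdeal = 1) :
    (below B w).asIdeal.ramificationIdx' w.asIdeal = 1 ∧
      (below E (below B w)).asIdeal.ramificationIdx' (below B w).asIdeal = 1 := by
  obtain ⟨π, hπ⟩ := H82.exists_uniformizer (below E w)
  have h1 : od (below E w) π = 1 := by
    rw [H47.valuation_eq_exp_ordHom, exp_inj, neg_inj] at hπ
    exact hπ
  have h2 : od w (up E B' π) = 1 := by
    rw [od_up (H47.mem_above_below w) h, h1]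
  have h3 := H47.ordHom_algebraMap (K := B) (L := B') (H47.mem_above_below w) (up E B π)
  have h4 := H47.ordHom_algebraMap (K := E) (L := B) (H47.mem_above_below (below B w)) π
  rw [below_below] at h4
  have h5 : Units.map (algebraMap B B' : B →* B') (up E B π) = up E B' π := by
    ext
    exact (IsScalarTower.algebraMap_apply E B B' _).symm
  rw [h5] at h3
  change od w (up E B' π) = _ at h3
  change od (below B w) (up E B π) = _ * od (below E w) π at h4
  rw [h2] at h3
  change (1 : ℤ) = _ * od (below B w) (up E B π) at h3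
  rw [h4, h1, mul_one] at h3
  rw [below_below]
  have h6 : (1 : ℕ) = (below B w).asIdeal.ramificationIdx' w.asIdeal *
      (below E w).asIdeal.ramificationIdx' (below B w).asIdeal := by exact_mod_cast h3
  exact ⟨Nat.eq_one_of_mul_eq_one_right h6.symm, Nat.eq_one_of_mul_eq_one_left h6.symm⟩

end places

section compat

variable {E B' : Type} [Field E] [NumberField E] [Field B'] [NumberField B'] [Algebra E B']
  {T : Type*} [AddCommGroup T]

/-- From the local compatibility to the global one. -/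
theorem ev_eq_of_local {S : Set (HeightOneSpectrum (𝓞 E))}
    {e : HeightOneSpectrum (𝓞 B') → T} {ω : HeightOneSpectrum (𝓞 E) → T}
    (he : ∀ w ∈ aboveSet B' S, e w = 0) (hω : ∀ v ∈ S, ω v = 0) (τ : B' ≃ₐ[E] B')
    (hloc : ∀ v ∉ S, ∀ (x : HeightOneSpectrum (𝓞 B') →₀ ℤ) (n : ℤ),
      (∀ w ∈ above B' v, x w + x (smulPlace τ w) = n) →
        ∑ᶠ w ∈ above B' v, x w • e w = n • ω v)
    (x : HeightOneSpectrum (𝓞 B') →₀ ℤ) (a : HeightOneSpectrum (𝓞 E) →₀ ℤ)
    (hx : ∀ w ∉ aboveSet B' S, x w + x (smulPlace τ w) = a (below E w)) :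
    ev e x = ev ω a := by
  classical
  let F : Finset (HeightOneSpectrum (𝓞 E)) := x.support.image (below E) ∪ a.support
  let t : Finset (HeightOneSpectrum (𝓞 B')) :=
    F.biUnion fun v => (H65.finite_above (L := B') v).toFinset
  have h1 : ev e x = ∑ w ∈ t, x w • e w := by
    rw [ev_apply, Finsupp.sum]
    refine Finset.sum_subset ?_ ?_
    · intro w hw
      refine Finset.mem_biUnion.2 ⟨below E w, Finset.mem_union_left _
        (Finset.mem_image_of_mem _ hw), ?_⟩
      rw [Set.Finite.mem_toFinset]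
      exact H47.mem_above_below w
    · intro w _ hw
      rw [Finsupp.notMem_support_iff] at hw
      rw [hw, zero_smul]
  have h2 : ev ω a = ∑ v ∈ F, a v • ω v := by
    rw [ev_apply, Finsupp.sum]
    refine Finset.sum_subset Finset.subset_union_right ?_
    intro v _ hv
    rw [Finsupp.notMem_support_iff] at hv
    rw [hv, zero_smul]
  rw [h1, h2, Finset.sum_biUnion]
  · refine Finset.sum_congr rfl fun v _ => ?_
    by_cases hv : v ∈ S
    · rw [hω v hv, smul_zero]
      refine Finset.sum_eq_zero fun w hw => ?_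
      rw [Set.Finite.mem_toFinset] at hw
      rw [he w ⟨v, hv, hw⟩, smul_zero]
    · rw [← hloc v hv x (a v), finsum_mem_eq_finite_toFinset_sum _ (H65.finite_above v)]
      intro w hw
      have hbw : below E w = v := (H47.eq_below_of_mem_above hw).symm
      rw [hx w (by rw [mem_aboveSet_iff, hbw]; exact hv), hbw]
  · intro v _ v' _ hvv'
    have := H65.above_disjoint (L := B') hvv'
    rw [Function.onFun, Finset.disjoint_left]
    intro w hw hw'
    rw [Set.Finite.mem_toFinset] at hw hw'
    exact (Set.disjoint_left.1 this) hw hw'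

end compat

section core

variable {E B B2 B' : Type} [Field E] [NumberField E] [IsTotallyComplex E]
  [Field B] [NumberField B] [Field B2] [NumberField B2] [Field B'] [NumberField B']
  [Algebra E B] [Algebra E B2] [Algebra B B'] [Algebra B2 B'] [Algebra E B']
  [IsScalarTower E B B'] [IsScalarTower E B2 B'] [IsGalois E B] [IsGalois E B2] [IsGalois E B']
  {T : Type*} [AddCommGroup T]

/-- The relation behind the well-definedness. -/
theorem core_relation {E B B2 B' : Type} [Field E] [Field B] [Field B2] [Field B']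
    [Algebra E B] [Algebra E B2] [Algebra B B'] [Algebra B2 B'] [Algebra E B']
    [IsScalarTower E B B'] [IsScalarTower E B2 B']
    (τ σ : B' ≃ₐ[E] B') (hτB : ∀ b : B, τ (algebraMap B B' b) = algebraMap B B' b)
    {b : B} {y : B2} {s t : E} (h4 : (4 : B') ≠ 0)
    (hs : algebraMap E B' s = algebraMap B B' b + σ (algebraMap B B' b))
    (ht : algebraMap E B' t = algebraMap B2 B' y + τ (algebraMap B2 B' y))
    (hN : algebraMap B B' b * σ (algebraMap B B' b) =
      algebraMap B2 B' y * τ (algebraMap B2 B' y)) :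
    (algebraMap B B' b + algebraMap B2 B' y) / 2 *
      τ ((algebraMap B B' b + algebraMap B2 B' y) / 2)
      = algebraMap B B' b * algebraMap E B' ((s + t) / 4) := by
  have h2 : (2 : B') ≠ 0 := by
    intro h
    apply h4
    have : (4 : B') = 2 * 2 := by norm_num
    rw [this, h, mul_zero]
  rw [map_div₀, map_add, hτB, map_div₀, map_add, hs, ht, map_ofNat, map_ofNat]
  field_simp
  linear_combination -(4 : B') * hN


omit [IsTotallyComplex E] [IsGalois E B] [IsGalois E B2] [NumberField B'] in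
theorem aut_comm (hB : Module.finrank E B = 2) (hB' : Module.finrank B B' = 2)
    (σ τ : B' ≃ₐ[E] B') : σ * τ = τ * σ := by
  have : Fact (Nat.Prime 2) := ⟨Nat.prime_two⟩
  have hfd1 : FiniteDimensional E B := Module.finite_of_finrank_pos (by rw [hB]; norm_num)
  have hfd2 : FiniteDimensional B B' := Module.finite_of_finrank_pos (by rw [hB']; norm_num)
  have hfd : FiniteDimensional E B' := Module.Finite.trans B B'
  have hcard : Nat.card (B' ≃ₐ[E] B') = 2 ^ 2 := by
    rw [IsGalois.card_aut_eq_finrank, ← Module.finrank_mul_finrank E B B', hB, hB']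
    norm_num
  exact IsPGroup.commutative_of_card_eq_prime_sq hcard σ τ

/-- The restriction to a normal subextension. -/
theorem exists_restrict {E B B' : Type} [Field E] [Field B] [Field B']
    [Algebra E B] [Algebra B B'] [Algebra E B'] [IsScalarTower E B B'] [Normal E B]
    (σ : B' ≃ₐ[E] B') (hσ : ∃ b : B, σ (algebraMap B B' b) ≠ algebraMap B B' b) :
    ∃ σ' : B ≃ₐ[E] B, σ' ≠ 1 ∧ ∀ b, algebraMap B B' (σ' b) = σ (algebraMap B B' b) := by
  refine ⟨σ.restrictNormal B, ?_, fun b => σ.restrictNormal_commutes B b⟩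
  intro h
  obtain ⟨b, hb⟩ := hσ
  apply hb
  rw [← σ.restrictNormal_commutes B b, h]
  rfl

/-- Congruences and automorphisms of order two. -/
theorem map_mem_congr {K L : Type*} [Field K] [Field L] [NumberField L] [Algebra K L]
    (σ : L ≃ₐ[K] L) (h2 : σ * σ = 1) {w : HeightOneSpectrum (𝓞 L)} {m : ℕ} {x : Lˣ}
    (hx : x ∈ congr (smulPlace σ w) m) : Units.map (σ : L →* L) x ∈ congr w m := by
  have hval : ∀ x : L, w.valuation L (σ x) = (smulPlace σ w).valuation L x := by
    intro x
    have h := H47.valuation_smulPlace σ (smulPlace σ w) x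
    rw [← h]
    congr 2
    apply HeightOneSpectrum.ext
    rw [H47.smulPlace_asIdeal, H47.smulPlace_asIdeal, ← mul_smul, h2, one_smul]
  refine ⟨?_, ?_⟩
  · show w.valuation L (σ x) = 1
    rw [hval, hx.1]
  · show w.valuation L (σ x - 1) ≤ _
    have : σ (x : L) - 1 = σ ((x : L) - 1) := by rw [map_sub, map_one]
    rw [this, hval]
    exact hx.2

theorem od_map {K L : Type*} [Field K] [Field L] [NumberField L] [Algebra K L]
    (σ : L ≃ₐ[K] L) (h2 : σ * σ = 1) (w : HeightOneSpectrum (𝓞 L)) (x : Lˣ) :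
    od w (Units.map (σ : L →* L) x) = od (smulPlace σ w) x := by
  have h := H47.ordHom_smulPlace σ (smulPlace σ w) x
  change _ = od (smulPlace σ w) x at h
  rw [← h]
  congr 2
  apply HeightOneSpectrum.ext
  rw [H47.smulPlace_asIdeal, H47.smulPlace_asIdeal, ← mul_smul, h2, one_smul]

theorem core (hB : Module.finrank E B = 2) (hB2 : Module.finrank E B2 = 2)
    (hB' : Module.finrank B B' = 2) (hB2' : Module.finrank B2 B' = 2)
    {τ : B' ≃ₐ[B] B'} (hτ : τ ≠ 1) {σ : B' ≃ₐ[B2] B'} (hσ : σ ≠ 1)
    (hσB : ∃ b : B, σ (algebraMap B B' b) ≠ algebraMap B B' b)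
    (hτB2 : ∃ y : B2, τ (algebraMap B2 B' y) ≠ algebraMap B2 B' y)
    {S : Set (HeightOneSpectrum (𝓞 E))} (hS : S.Finite) (hSne : S.Nonempty)
    (h2 : ∀ v ∉ S, v.valuation E (2 : E) = 1)
    (hunr : ∀ v ∉ S, ∀ w ∈ above B' v, v.asIdeal.ramificationIdx' w.asIdeal = 1)
    {e : HeightOneSpectrum (𝓞 B') → T} {ω : HeightOneSpectrum (𝓞 E) → T}
    (he : IsHecke (aboveSet B' S) e) (hω : IsHecke S ω)
    (hcompat : ∀ (x : HeightOneSpectrum (𝓞 B') →₀ ℤ) (a : HeightOneSpectrum (𝓞 E) →₀ ℤ),
      (∀ w ∉ aboveSet B' S, x w + x (smulPlace τ w) = a (below E w)) → ev e x = ev ω a) :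
    ∃ m : ℕ, ∀ (x : HeightOneSpectrum (𝓞 B') →₀ ℤ) (a : HeightOneSpectrum (𝓞 E) →₀ ℤ)
      (b : Bˣ), (∀ w ∈ aboveSet B S, b ∈ congr w m) →
      (∀ w ∉ aboveSet B' S, x w + x (smulPlace τ w) + a (below E w) + od w (up B B' b) = 0) →
      ev e x + ev ω a = 0 := by
  classical
  have hfd1 : FiniteDimensional E B := Module.finite_of_finrank_pos (by rw [hB]; norm_num)
  have hfd2 : FiniteDimensional E B2 := Module.finite_of_finrank_pos (by rw [hB2]; norm_num)
  have hgal1 : IsGalois B B' := IsGalois.tower_top_of_isGalois E B B'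
  have hgal2 : IsGalois B2 B' := IsGalois.tower_top_of_isGalois E B2 B'
  have hfd3 : FiniteDimensional B2 B' := Module.finite_of_finrank_pos (by rw [hB2']; norm_num)
  have hfd4 : FiniteDimensional B B' := Module.finite_of_finrank_pos (by rw [hB']; norm_num)
  obtain ⟨-, me, hme⟩ := he
  obtain ⟨-, mω, hmω⟩ := hω
  set τE : B' ≃ₐ[E] B' := τ.restrictScalars E with hτE
  set σE : B' ≃ₐ[E] B' := σ.restrictScalars E with hσE
  have hττ : τ * τ = 1 := aut_mul_self hB' hτ
  have hσσ : σ * σ = 1 := aut_mul_self hB2' hσ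
  -- restrictions
  obtain ⟨σ', hσ'1, hσ'⟩ := exists_restrict (B := B) σE hσB
  obtain ⟨τ', hτ'1, hτ'⟩ := exists_restrict (B := B2) τE hτB2
  have hσ'σ' : σ' * σ' = 1 := aut_mul_self hB hσ'1
  have hcomm := aut_comm (B := B) hB hB' σE τE
  have hτP : ∀ w, smulPlace τE w = smulPlace τ w := fun w => smulPlace_restrict τ w
  have hσP : ∀ w, smulPlace σE w = smulPlace σ w := fun w => smulPlace_restrict σ w
  have hcommP : ∀ w, smulPlace τ (smulPlace σ w) = smulPlace σ (smulPlace τ w) := by
    intro w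
    rw [← hτP, ← hσP, ← hσP, ← hτP, ← smulPlace_mul, ← smulPlace_mul, hcomm]
  have hττP : ∀ w, smulPlace τ (smulPlace τ w) = w := by
    intro w
    rw [← smulPlace_mul, hττ, smulPlace_one]
  -- a bound for `2`
  have hT : (aboveSet B' S).Finite := H65.finite_aboveSet hS
  obtain ⟨C, hC⟩ : ∃ C : ℕ, ∀ w ∈ aboveSet B' S, exp (-(C : ℤ)) ≤ w.valuation B' (2 : B') := by
    have h1 : ∀ w : HeightOneSpectrum (𝓞 B'), ∃ c : ℕ,
        exp (-(c : ℤ)) ≤ w.valuation B' (2 : B') := by
      intro w
      obtain ⟨k, hk⟩ : ∃ k : ℤ, w.valuation B' (2 : B') = exp k :=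
        ⟨_, H47.valuation_eq_exp_ordHom w (Units.mk0 (2 : B') two_ne_zero)⟩
      refine ⟨(-k).toNat, ?_⟩
      rw [hk, exp_le_exp]
      omega
    choose c hc using h1
    refine ⟨∑ w ∈ hT.toFinset, c w, fun w hw => le_trans ?_ (hc w)⟩
    rw [exp_le_exp, neg_le_neg_iff]
    have := Finset.single_le_sum (f := c) (fun _ _ => Nat.zero_le _) (hT.mem_toFinset.2 hw)
    exact_mod_cast this
  -- constants
  obtain ⟨mS, hmS⟩ := exists_descend (L := B') hS mω
  set N₁ : ℕ := me + mS + 2 * C + 1 with hN₁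
  have hunr2 : ∀ v ∉ S, ∀ w ∈ above B2 v, v.asIdeal.ramificationIdx' w.asIdeal = 1 := by
    intro v hv w hw
    obtain ⟨w', hw'⟩ := H47.above_nonempty (L := B') w
    have hbw : w = below B2 w' := H47.eq_below_of_mem_above hw'
    have hbv : v = below E w' := by
      rw [← below_below (B := B2), ← hbw]
      exact H47.eq_below_of_mem_above hw
    have := (unr_of_tower (E := E) (B := B2) (w := w') (by
      rw [← hbv]; exact hunr v hv w' (mem_above_iff.2 hbv.symm))).2
    rw [below_below, ← hbw, ← hbv] at this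
    exact this
  obtain ⟨m₁, hm₁⟩ := exists_norm_lift (L := B2) hB2 hS h2 hunr2 N₁
  obtain ⟨mc, hmc⟩ := exists_descend (L := B) hS m₁
  refine ⟨N₁ + mc, fun x a b hb hx => ?_⟩
  -- the norm of `b`
  set c : Eˣ := nm E B b with hc
  have hcB : algebraMap E B (c : E) = (b : B) * σ' b := algebraMap_norm hB hσ'1 _
  have hcB' : algebraMap E B' (c : E) = algebraMap B B' b * σ (algebraMap B B' b) := by
    rw [IsScalarTower.algebraMap_apply E B B', hcB, map_mul, hσ']
    rfl
  have hcB'u : up E B' c = up B B' b * Units.map (σ : B' →* B') (up B B' b) := by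
    ext; exact hcB'
  have hc1 : ∀ v ∈ S, c ∈ congr v m₁ := by
    intro v hv
    obtain ⟨w, hw⟩ := H47.above_nonempty (L := B) v
    refine hmc c v hv w hw ?_
    have h1 : up E B c = b * Units.map (σ' : B →* B) b := by ext; exact hcB
    rw [h1]
    refine mul_mem (H82.congr_anti w (Nat.le_add_left _ _) (hb w ⟨v, hv, hw⟩)) ?_
    refine map_mem_congr σ' hσ'σ' ?_
    exact H82.congr_anti _ (Nat.le_add_left _ _) (hb _ ⟨v, hv, H47.smulPlace_mem_above σ' hw⟩)
  have hev : ∀ v ∉ S, NonSplit B2 v → (2 : ℤ) ∣ od v c := by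
    intro v hv hns
    obtain ⟨w2, hw2⟩ := Set.ncard_eq_one.1 hns
    have hw2' : w2 ∈ above B2 v := by rw [hw2]; rfl
    obtain ⟨P, hP⟩ := H47.above_nonempty (L := B') w2
    have hbP : below B2 P = w2 := (H47.eq_below_of_mem_above hP).symm
    have hEP : below E P = v := by
      rw [← below_below (B := B2), hbP]
      exact (H47.eq_below_of_mem_above hw2').symm
    have hPS : P ∉ aboveSet B' S := by rw [mem_aboveSet_iff, hEP]; exact hv
    have hσPE : below E (smulPlace σ P) = v := by rw [← hσP, below_smulPlace, hEP]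
    have hσPS : smulPlace σ P ∉ aboveSet B' S := by rw [mem_aboveSet_iff, hσPE]; exact hv
    have h3 : od v c = od P (up B B' b) + od (smulPlace σ P) (up B B' b) := by
      rw [← od_map σ hσσ, ← od_mul, ← hcB'u]
      exact (od_up (mem_above_iff.2 hEP) (hunr v hv P (mem_above_iff.2 hEP)) c).symm
    have h4 := hx P hPS
    have h5 := hx (smulPlace σ P) hσPS
    rw [hEP] at h4
    rw [hσPE] at h5
    have hτw2 : below B2 (smulPlace τ P) = w2 := by
      have h6 : below B2 (smulPlace τ P) ∈ above B2 v := by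
        rw [mem_above_iff, below_below, ← hτP, below_smulPlace, hEP]
      rw [hw2] at h6
      exact h6
    obtain ⟨g, hg⟩ := H47.exists_smulPlace_eq hP (mem_above_iff.2 hτw2)
    rcases aut_eq_one_or hB2' hσ g with rfl | rfl
    · rw [smulPlace_one] at hg
      have h7 : smulPlace τ (smulPlace σ P) = smulPlace σ P := by rw [hcommP, ← hg]
      rw [← hg] at h4
      rw [h7] at h5
      exact ⟨-(x P + x (smulPlace σ P) + a v), by rw [h3]; linarith⟩
    · have h7 : smulPlace τ (smulPlace g P) = P := by rw [hg, hττP]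
      rw [h7] at h5
      rw [← hg] at h4
      exact ⟨-(x P + x (smulPlace g P) + a v), by rw [h3]; linarith⟩
  obtain ⟨y, hyc, hy⟩ := hm₁ c hc1 hev
  have hyB' : algebraMap E B' (c : E) = algebraMap B2 B' y * τ (algebraMap B2 B' y) := by
    have h1 : algebraMap E B2 (c : E) = (y : B2) * τ' y := by
      rw [← hyc]; exact algebraMap_norm hB2 hτ'1 _
    rw [IsScalarTower.algebraMap_apply E B2 B', h1, map_mul, hτ']
    rfl
  -- valuations near `S`
  have hb1 : ∀ w ∈ aboveSet B' S, up B B' b ∈ congr w N₁ := by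
    intro w hw
    have hw1 : below B w ∈ aboveSet B S := by
      rw [mem_aboveSet_iff, below_below]; exact mem_aboveSet_iff.1 hw
    exact up_mem_congr (H47.mem_above_below w) (H82.congr_anti _ (Nat.le_add_right _ _) (hb _ hw1))
  have hy1 : ∀ w ∈ aboveSet B' S, up B2 B' y ∈ congr w N₁ := by
    intro w hw
    have hw1 : below B2 w ∈ aboveSet B2 S := by
      rw [mem_aboveSet_iff, below_below]; exact mem_aboveSet_iff.1 hw
    exact up_mem_congr (H47.mem_above_below w) (hy _ hw1)
  have hb2 : ∀ w ∈ aboveSet B' S, Units.map (σ : B' →* B') (up B B' b) ∈ congr w N₁ := by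
    intro w hw
    refine map_mem_congr σ hσσ (hb1 _ ?_)
    rw [← hσP]
    exact (H47.smulPlace_mem_aboveSet_iff σE).2 hw
  have hy2 : ∀ w ∈ aboveSet B' S, Units.map (τ : B' →* B') (up B2 B' y) ∈ congr w N₁ := by
    intro w hw
    refine map_mem_congr τ hττ (hy1 _ ?_)
    rw [← hτP]
    exact (H47.smulPlace_mem_aboveSet_iff τE).2 hw
  have h20 : (2 : B') ≠ 0 := two_ne_zero
  set z₀ : B' := (algebraMap B B' b + algebraMap B2 B' y) / 2 with hz₀
  set s₀ : E := (Algebra.trace E B (b : B) + Algebra.trace E B2 (y : B2)) / 4 with hs₀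
  have htrb : algebraMap E B' (Algebra.trace E B (b : B)) =
      algebraMap B B' b + σ (algebraMap B B' b) := by
    rw [IsScalarTower.algebraMap_apply E B B', algebraMap_trace hB hσ'1, map_add, hσ']
    rfl
  have htry : algebraMap E B' (Algebra.trace E B2 (y : B2)) =
      algebraMap B2 B' y + τ (algebraMap B2 B' y) := by
    rw [IsScalarTower.algebraMap_apply E B2 B', algebraMap_trace hB2 hτ'1, map_add, hτ']
    rfl
  have hzv : ∀ w ∈ aboveSet B' S, w.valuation B' (z₀ - 1) ≤ exp (-(me : ℤ) - 1) := by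
    intro w hw
    have h3 : z₀ - 1 = ((algebraMap B B' b - 1) + (algebraMap B2 B' y - 1)) / 2 := by
      rw [hz₀]; field_simp; ring
    have h4 : w.valuation B' ((algebraMap B B' b - 1) + (algebraMap B2 B' y - 1)) ≤
        exp (-(N₁ : ℤ)) :=
      (Valuation.map_add _ _ _).trans (max_le (hb1 w hw).2 (hy1 w hw).2)
    have h5 : w.valuation B' (2 : B') ≠ 0 := (Valuation.ne_zero_iff _).2 h20
    rw [h3, map_div₀, div_le_iff₀ (zero_lt_iff.2 h5)]
    refine h4.trans (le_trans ?_ (mul_le_mul_right (hC w hw) _))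
    rw [← exp_add, exp_le_exp, hN₁]
    push_cast
    omega
  have hsv : ∀ w ∈ aboveSet B' S, w.valuation B' (algebraMap E B' s₀ - 1) ≤
      exp (-(mS : ℤ) - 1) := by
    intro w hw
    have h3 : algebraMap E B' s₀ - 1 = (((algebraMap B B' b - 1) + (σ (algebraMap B B' b) - 1)) +
        ((algebraMap B2 B' y - 1) + (τ (algebraMap B2 B' y) - 1))) / (2 * 2) := by
      rw [hs₀, map_div₀, map_add, htrb, htry, map_ofNat]
      field_simp
      ring
    have h4 : w.valuation B' (((algebraMap B B' b - 1) + (σ (algebraMap B B' b) - 1)) +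
        ((algebraMap B2 B' y - 1) + (τ (algebraMap B2 B' y) - 1))) ≤ exp (-(N₁ : ℤ)) :=
      (Valuation.map_add _ _ _).trans (max_le
        ((Valuation.map_add _ _ _).trans (max_le (hb1 w hw).2 (hb2 w hw).2))
        ((Valuation.map_add _ _ _).trans (max_le (hy1 w hw).2 (hy2 w hw).2)))
    have h5 : w.valuation B' (2 : B') ≠ 0 := (Valuation.ne_zero_iff _).2 h20
    rw [h3, map_div₀, map_mul, div_le_iff₀ (zero_lt_iff.2 (mul_ne_zero h5 h5))]
    refine h4.trans (le_trans ?_ (mul_le_mul_right (mul_le_mul' (hC w hw) (hC w hw)) _))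
    rw [← exp_add, ← exp_add, exp_le_exp, hN₁]
    push_cast
    omega
  obtain ⟨v₁, hv₁⟩ := hSne
  obtain ⟨w₁, hw₁⟩ := H47.above_nonempty (L := B') v₁
  have hw₁S : w₁ ∈ aboveSet B' S := ⟨v₁, hv₁, hw₁⟩
  have hneg : ∀ n : ℕ, exp (-(n : ℤ) - 1) < (1 : ℤᵐ⁰) := by
    intro n
    rw [← exp_zero, exp_lt_exp]
    omega
  have hz1 : ∀ w ∈ aboveSet B' S, w.valuation B' z₀ = 1 := fun w hw =>
    H82.valuation_eq_one_of_sub_one_lt ((hzv w hw).trans_lt (hneg me))
  have hs1 : ∀ w ∈ aboveSet B' S, w.valuation B' (algebraMap E B' s₀) = 1 := fun w hw =>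
    H82.valuation_eq_one_of_sub_one_lt ((hsv w hw).trans_lt (hneg mS))
  have hz0 : z₀ ≠ 0 := by
    intro h
    have := hz1 w₁ hw₁S
    rw [h, map_zero] at this
    exact zero_ne_one this
  have hs0 : s₀ ≠ 0 := by
    intro h
    have := hs1 w₁ hw₁S
    rw [h, map_zero, map_zero] at this
    exact zero_ne_one this
  set z : B'ˣ := Units.mk0 z₀ hz0 with hz
  set s : Eˣ := Units.mk0 s₀ hs0 with hs
  have hez : ev e (dv z) = 0 := by
    refine hme z fun w hw => ⟨hz1 w hw, (hzv w hw).trans ?_⟩
    rw [exp_le_exp]; omega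
  have hωs : ev ω (dv s) = 0 := by
    refine hmω s fun v hv => ?_
    obtain ⟨w, hw⟩ := H47.above_nonempty (L := B') v
    refine hmS s v hv w hw ⟨hs1 w ⟨v, hv, hw⟩, (hsv w ⟨v, hv, hw⟩).trans ?_⟩
    rw [exp_le_exp]; omega
  have hrel : z * Units.map (τ : B' →* B') z = up B B' b * up E B' s := by
    ext
    exact core_relation (B := B) (B2 := B2) τE σE (fun b => τ.commutes b) (by norm_num)
      htrb htry (hcB'.symm.trans hyB')
  have key := hcompat (x + dv z) (-a + dv s) (fun w hw => by
    have h3 := hx w hw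
    have hwv : below E w ∉ S := fun h => hw (mem_aboveSet_iff.2 h)
    have h4 : od w z + od (smulPlace τ w) z = od w (up B B' b) + od (below E w) s := by
      rw [← od_map τ hττ, ← od_mul, hrel, od_mul,
        od_up (H47.mem_above_below w) (hunr _ hwv _ (H47.mem_above_below w))]
    rw [Finsupp.add_apply, Finsupp.add_apply, Finsupp.add_apply, Finsupp.neg_apply, dv_apply,
      dv_apply, dv_apply]
    linarith)
  rw [map_add, map_add, map_neg, hez, hωs, add_zero, add_zero] at key
  rw [key, neg_add_cancel]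

end core

end Fermat.Agent.H77.Z
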