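import Mathlib
import Fermat.Agent.H77ZCore

/-!
# Descent of a quadratic Hecke character in a biquadratic extension
-/

set_option autoImplicit false

noncomputable section

open IsDedekindDomain NumberField WithZero
open scoped Pointwise
open Fermat.Agent.H47 (ordHom divHom smulPlace below)
open Fermat.Agent.H82 (above aboveSet NonSplit congr locNorm normGroup)

namespace Fermat.Agent.H77.Z

theorem dv_one {K : Type*} [Field K] [NumberField K] : dv (1 : Kˣ) = 0 := by
  rw [dv, ofMul_one, map_zero]

section divisors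

variable {K L : Type} [Field K] [NumberField K] [Field L] [NumberField L] [Algebra K L]

open Classical in
/-- The norm of divisors in an unramified quadratic extension. -/
def nmD (τ : L ≃ₐ[K] L) : (HeightOneSpectrum (𝓞 L) →₀ ℤ) →+ (HeightOneSpectrum (𝓞 K) →₀ ℤ) :=
  ev (fun w => Finsupp.single (below K w) (if smulPlace τ w = w then 2 else 1))

/-- Extension of divisors in an unramified extension. -/
def upD (K L : Type) [Field K] [NumberField K] [Field L] [NumberField L] [Algebra K L] :
    (HeightOneSpectrum (𝓞 K) →₀ ℤ) →+ (HeightOneSpectrum (𝓞 L) →₀ ℤ) :=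
  ev (fun v => ∑ w ∈ (H65.finite_above (L := L) v).toFinset, Finsupp.single w 1)

theorem nmD_single (τ : L ≃ₐ[K] L) (w : HeightOneSpectrum (𝓞 L)) (n : ℤ) [Decidable (smulPlace τ w = w)] :
    nmD τ (Finsupp.single w n) =
      Finsupp.single (below K w) (n * if smulPlace τ w = w then 2 else 1) := by
  rw [nmD, ev_single, Finsupp.smul_single, smul_eq_mul]
  congr

theorem nmD_apply [IsGalois K L] (hdeg : Module.finrank K L = 2) {τ : L ≃ₐ[K] L} (hτ : τ ≠ 1)
    (x : HeightOneSpectrum (𝓞 L) →₀ ℤ) (w : HeightOneSpectrum (𝓞 L)) :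
    nmD τ x (below K w) = x w + x (smulPlace τ w) := by
  classical
  have hfd : FiniteDimensional K L := Module.finite_of_finrank_pos (by rw [hdeg]; norm_num)
  have hττ := aut_mul_self hdeg hτ
  have hττP : smulPlace τ (smulPlace τ w) = w := by
    rw [← smulPlace_mul, hττ, smulPlace_one]
  induction x using Finsupp.induction with
  | zero => simp
  | single_add u n x _ _ ih =>
    rw [map_add, Finsupp.add_apply, ih, Finsupp.add_apply, Finsupp.add_apply, nmD_single]
    have key : (Finsupp.single (below K u) (n * if smulPlace τ u = u then 2 else 1)) (below K w)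
        = (Finsupp.single u n) w + (Finsupp.single u n) (smulPlace τ w) := by
      by_cases hb : below K u = below K w
      · have h1 : u ∈ above L (below K w) := by rw [← hb]; exact H47.mem_above_below u
        obtain ⟨g, hg⟩ := H47.exists_smulPlace_eq (H47.mem_above_below (K := K) w) h1
        rw [hb, Finsupp.single_eq_same]
        rcases aut_eq_one_or hdeg hτ g with rfl | rfl
        · rw [smulPlace_one] at hg
          subst hg
          by_cases hfix : smulPlace τ w = w
          · rw [if_pos hfix, hfix, Finsupp.single_eq_same]; ring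
          · rw [if_neg hfix, Finsupp.single_eq_same, Finsupp.single_eq_of_ne hfix]; ring
        · subst hg
          by_cases hfix : smulPlace g w = w
          · rw [hfix, if_pos hfix, Finsupp.single_eq_same]; ring
          · rw [hττP, if_neg (Ne.symm hfix), Finsupp.single_eq_same,
              Finsupp.single_eq_of_ne (Ne.symm hfix)]
            ring
      · have h1 : w ≠ u := by rintro rfl; exact hb rfl
        have h2 : smulPlace τ w ≠ u := by
          rintro rfl
          exact hb (below_smulPlace τ w)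
        rw [Finsupp.single_eq_of_ne (Ne.symm hb), Finsupp.single_eq_of_ne h1,
          Finsupp.single_eq_of_ne h2, add_zero]
    rw [key]
    ring

theorem upD_single (v : HeightOneSpectrum (𝓞 K)) :
    upD K L (Finsupp.single v 1) =
      ∑ w ∈ (H65.finite_above (L := L) v).toFinset, Finsupp.single w 1 := by
  rw [upD, ev_single, one_smul]

theorem upD_apply (a : HeightOneSpectrum (𝓞 K) →₀ ℤ) (w : HeightOneSpectrum (𝓞 L)) :
    upD K L a w = a (below K w) := by
  classical
  induction a using Finsupp.induction with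
  | zero => simp
  | single_add v n a _ _ ih =>
    rw [map_add, Finsupp.add_apply, ih, Finsupp.add_apply]
    congr 1
    rw [upD, ev_single, Finsupp.smul_apply, Finsupp.finsetSum_apply, Finsupp.single_apply]
    by_cases h : v = below K w
    · rw [if_pos h, Finset.sum_eq_single w]
      · rw [Finsupp.single_eq_same, smul_eq_mul, mul_one]
      · intro u _ hu
        exact Finsupp.single_eq_of_ne (Ne.symm hu)
      · intro hw
        exfalso
        apply hw
        rw [Set.Finite.mem_toFinset, mem_above_iff, h]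
    · rw [if_neg h, Finset.sum_eq_zero, smul_zero]
      intro u hu
      rw [Set.Finite.mem_toFinset, mem_above_iff] at hu
      refine Finsupp.single_eq_of_ne ?_
      rintro rfl
      exact h hu.symm

end divisors

section chi

variable {E B B2 B' : Type} [Field E] [NumberField E] [IsTotallyComplex E]
  [Field B] [NumberField B] [Field B2] [NumberField B2] [Field B'] [NumberField B']
  [Algebra E B] [Algebra E B2] [Algebra B B'] [Algebra B2 B'] [Algebra E B']
  [IsScalarTower E B B'] [IsScalarTower E B2 B'] [IsGalois E B] [IsGalois E B2] [IsGalois E B']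

/-- **Descent of characters**, additive form. -/
theorem exists_chi_add (hB : Module.finrank E B = 2) (hB2 : Module.finrank E B2 = 2)
    (hB' : Module.finrank B B' = 2) (hB2' : Module.finrank B2 B' = 2)
    {τ : B' ≃ₐ[B] B'} (hτ : τ ≠ 1) {σ : B' ≃ₐ[B2] B'} (hσ : σ ≠ 1)
    (hσB : ∃ b : B, σ (algebraMap B B' b) ≠ algebraMap B B' b)
    (hτB2 : ∃ y : B2, τ (algebraMap B2 B' y) ≠ algebraMap B2 B' y)
    {S : Set (HeightOneSpectrum (𝓞 E))} (hS : S.Finite) (hSne : S.Nonempty)
    (h2 : ∀ v ∉ S, v.valuation E (2 : E) = 1)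
    (hunr : ∀ v ∉ S, ∀ w ∈ above B' v, v.asIdeal.ramificationIdx' w.asIdeal = 1)
    {e : HeightOneSpectrum (𝓞 B') → AddCircle (1 : ℚ)}
    {ω : HeightOneSpectrum (𝓞 E) → AddCircle (1 : ℚ)}
    (he : IsHecke (aboveSet B' S) e) (hω : IsHecke S ω)
    (hcompat : ∀ (x : HeightOneSpectrum (𝓞 B') →₀ ℤ) (a : HeightOneSpectrum (𝓞 E) →₀ ℤ),
      (∀ w ∉ aboveSet B' S, x w + x (smulPlace τ w) = a (below E w)) → ev e x = ev ω a) :
    ∃ χ : HeightOneSpectrum (𝓞 B) → AddCircle (1 : ℚ), IsHecke (aboveSet B S) χ ∧
      (∀ w, w ∉ aboveSet B' S → smulPlace τ w = w → 2 • χ (below B w) = e w) ∧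
      (∀ w, w ∉ aboveSet B' S → smulPlace τ w ≠ w → χ (below B w) = e w) ∧
      (∀ v, v ∉ S → ∑ᶠ P ∈ above B v, χ P = ω v) := by
  classical
  have hgal1 : IsGalois B B' := IsGalois.tower_top_of_isGalois E B B'
  obtain ⟨m, hm⟩ := core hB hB2 hB' hB2' hτ hσ hσB hτB2 hS hSne h2 hunr he hω hcompat
  let Pm : Subgroup Bˣ := ⨅ w ∈ aboveSet B S, congr w m
  let DS : AddSubgroup (HeightOneSpectrum (𝓞 B) →₀ ℤ) :=
    { carrier := {D | ∀ P ∉ aboveSet B S, D P = 0}
      zero_mem' := fun P _ => rfl
      add_mem' := fun {D D'} hD hD' P hP => by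
        rw [Finsupp.add_apply, hD P hP, hD' P hP, add_zero]
      neg_mem' := fun {D} hD P hP => by rw [Finsupp.neg_apply, hD P hP, neg_zero] }
  let dP : Additive Pm →+ (HeightOneSpectrum (𝓞 B) →₀ ℤ) :=
    (divHom (𝓞 B) B).comp (MonoidHom.toAdditive Pm.subtype)
  let φ : (HeightOneSpectrum (𝓞 B') →₀ ℤ) × (HeightOneSpectrum (𝓞 E) →₀ ℤ) × Additive Pm × DS →+
      (HeightOneSpectrum (𝓞 B) →₀ ℤ) :=
    (nmD τ).coprod ((upD E B).coprod (dP.coprod DS.subtype))
  let c : (HeightOneSpectrum (𝓞 B') →₀ ℤ) × (HeightOneSpectrum (𝓞 E) →₀ ℤ) × Additive Pm × DS →+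
      AddCircle (1 : ℚ) := (ev e).coprod ((ev ω).coprod 0)
  have hφ : ∀ x a (b : Additive Pm) (s : DS), φ (x, a, b, s) =
      nmD τ x + (upD E B a + (dv (b.toMul : Bˣ) + (s : HeightOneSpectrum (𝓞 B) →₀ ℤ))) :=
    fun x a b s => rfl
  have hc : ∀ x a (b : Additive Pm) (s : DS), c (x, a, b, s) = ev e x + (ev ω a + 0) :=
    fun x a b s => rfl
  have hker : ∀ X, φ X = 0 → c X = 0 := by
    rintro ⟨x, a, b, s⟩ hX
    rw [hφ] at hX
    rw [hc, add_zero]
    have hb : ∀ w ∈ aboveSet B S, (b.toMul : Bˣ) ∈ congr w m := by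
      intro w hw
      have h1 := b.toMul.2
      simp only [Pm, Subgroup.mem_iInf] at h1
      exact h1 w hw
    refine hm x a b.toMul hb fun w hw => ?_
    have hwv : below E w ∉ S := fun h => hw (mem_aboveSet_iff.2 h)
    have h3 := DFunLike.congr_fun hX (below B w)
    have hs : (s : HeightOneSpectrum (𝓞 B) →₀ ℤ) (below B w) = 0 := by
      refine s.2 _ ?_
      rw [mem_aboveSet_iff, below_below]
      exact hwv
    have hod : od w (up B B' (b.toMul : Bˣ)) = od (below B w) (b.toMul : Bˣ) :=
      od_up (H47.mem_above_below w)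
        (unr_of_tower (E := E) (hunr _ hwv w (H47.mem_above_below w))).1 _
    rw [Finsupp.add_apply, Finsupp.add_apply, Finsupp.add_apply, nmD_apply hB' hτ, upD_apply,
      below_below, dv_apply, hs, Finsupp.zero_apply] at h3
    rw [hod]
    linarith
  obtain ⟨χ', hχ'⟩ := exists_extension φ c hker
  refine ⟨fun P => χ' (Finsupp.single P 1), ?_, ?_, ?_, ?_⟩
  · have hev : ∀ D, ev (fun P => χ' (Finsupp.single P 1)) D = χ' D := by
      intro D
      induction D using Finsupp.induction with
      | zero => simp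
      | single_add u n D _ _ ih =>
        rw [map_add, map_add, ih, ev_single, ← map_zsmul, Finsupp.smul_single, smul_eq_mul,
          mul_one]
    refine ⟨fun P hP => ?_, m, fun b hb => ?_⟩
    · have hmem : Finsupp.single P (1 : ℤ) ∈ DS := by
        intro Q hQ
        refine Finsupp.single_eq_of_ne ?_
        rintro rfl
        exact hQ hP
      have h1 := hχ' (0, 0, 0, ⟨_, hmem⟩)
      rw [hφ, hc] at h1
      simpa [dv_one] using h1
    · rw [hev]
      have hbm : b ∈ Pm := by
        simp only [Pm, Subgroup.mem_iInf]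
        exact hb
      have h1 := hχ' (0, 0, Additive.ofMul ⟨b, hbm⟩, 0)
      rw [hφ, hc] at h1
      simpa [dv_one] using h1
  · intro w _ hfix
    have h1 := hχ' (Finsupp.single w 1, 0, 0, 0)
    rw [hφ, hc, nmD_single, if_pos hfix] at h1
    have h3 : 2 • χ' (Finsupp.single (below B w) 1) = χ' (Finsupp.single (below B w) (1 * 2)) := by
      rw [← map_nsmul]
      congr 1
      rw [Finsupp.smul_single]
      simp
    show 2 • χ' (Finsupp.single (below B w) 1) = e w
    rw [h3]
    simpa [dv_one] using h1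
  · intro w _ hfix
    have h1 := hχ' (Finsupp.single w 1, 0, 0, 0)
    rw [hφ, hc, nmD_single, if_neg hfix] at h1
    simpa [dv_one] using h1
  · intro v _
    have h1 := hχ' (0, Finsupp.single v 1, 0, 0)
    rw [hφ, hc, upD_single] at h1
    rw [finsum_mem_eq_finite_toFinset_sum _ (H65.finite_above v)]
    simpa [dv_one] using h1

end chi

end Fermat.Agent.H77.Z
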