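import Mathlib
import Fermat.Agent.H77ZDefs

/-!
# Completely multiplicative functions on ideals
-/

set_option autoImplicit false

noncomputable section

open IsDedekindDomain NumberField WithZero
open scoped Pointwise nonZeroDivisors
open Fermat.Agent.H47 (ordHom divHom smulPlace below)
open Fermat.Agent.H82 (above aboveSet NonSplit congr locNorm normGroup)

namespace Fermat.Agent.H77.Z

section multiplicative

variable {R : Type*} [CommRing R] [IsDedekindDomain R] {M : Type*} [CommMonoidWithZero M]

open Classical in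
/-- A function on the maximal ideals, extended by `1`. -/
def extP (f : HeightOneSpectrum R → M) (P : Ideal R) : M :=
  if h : P.IsPrime ∧ P ≠ ⊥ then f ⟨P, h.1, h.2⟩ else 1

theorem extP_asIdeal (f : HeightOneSpectrum R → M) (v : HeightOneSpectrum R) :
    extP f v.asIdeal = f v := by
  rw [extP, dif_pos ⟨v.isPrime, v.ne_bot⟩]

open UniqueFactorizationMonoid Classical in
/-- The completely multiplicative function on ideals with given values at the primes. -/
def chiI [Nontrivial M] (f : HeightOneSpectrum R → M) : Ideal R →*₀ M where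
  toFun I := if I = 0 then 0 else ((normalizedFactors I).map (extP f)).prod
  map_zero' := if_pos rfl
  map_one' := by
    rw [if_neg one_ne_zero, normalizedFactors_one]
    simp
  map_mul' I J := by
    by_cases hI : I = 0
    · rw [hI, zero_mul, if_pos rfl, zero_mul]
    by_cases hJ : J = 0
    · rw [hJ, mul_zero, if_pos rfl, mul_zero]
    rw [if_neg hI, if_neg hJ, if_neg (mul_ne_zero hI hJ), normalizedFactors_mul hI hJ,
      Multiset.map_add, Multiset.prod_add]

theorem chiI_prime [Nontrivial M] (f : HeightOneSpectrum R → M) (v : HeightOneSpectrum R) :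
    chiI f v.asIdeal = f v := by
  classical
  show (if v.asIdeal = 0 then 0 else _) = f v
  have h0 : v.asIdeal ≠ 0 := v.ne_bot
  rw [if_neg h0, UniqueFactorizationMonoid.normalizedFactors_irreducible v.irreducible,
    Multiset.map_singleton, Multiset.prod_singleton, normalize_eq, extP_asIdeal]

theorem exists_of_prime {P : Ideal R} (hP : Prime P) :
    ∃ v : HeightOneSpectrum R, v.asIdeal = P :=
  ⟨⟨P, Ideal.isPrime_of_prime hP, hP.ne_zero⟩, rfl⟩

/-- A completely multiplicative function vanishes iff it vanishes at some prime factor. -/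
theorem chiI_ne_zero_iff [Nontrivial M] [NoZeroDivisors M] (f : HeightOneSpectrum R → M)
    {I : Ideal R} (hI : I ≠ ⊥) :
    chiI f I ≠ 0 ↔ ∀ v : HeightOneSpectrum R, I ≤ v.asIdeal → f v ≠ 0 := by
  constructor
  · intro h v hv hf
    obtain ⟨J, rfl⟩ := Ideal.dvd_iff_le.2 hv
    rw [map_mul, chiI_prime, hf, zero_mul] at h
    exact h rfl
  · revert hI
    refine UniqueFactorizationMonoid.induction_on_prime
      (P := fun I => I ≠ ⊥ → (∀ v : HeightOneSpectrum R, I ≤ v.asIdeal → f v ≠ 0) → chiI f I ≠ 0)
      I ?_ ?_ ?_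
    · intro h; exact absurd rfl h
    · intro I hI _ _
      rw [Ideal.isUnit_iff] at hI
      rw [hI, ← Ideal.one_eq_top, map_one]
      exact one_ne_zero
    · intro I P hI hP ih _ hv
      obtain ⟨v, rfl⟩ := exists_of_prime hP
      rw [map_mul, chiI_prime]
      refine mul_ne_zero (hv v Ideal.mul_le_left) (ih hI fun u hu => hv u ?_)
      exact Ideal.mul_le_right.trans hu

end multiplicative

section divisors

variable {K : Type*} [Field K] [NumberField K]

/-- The divisor of an ideal. -/
def idD (I : Ideal (𝓞 K)) : HeightOneSpectrum (𝓞 K) →₀ ℤ :=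
  Finsupp.ofSupportFinite
    (fun v => FractionalIdeal.count K v (I : FractionalIdeal (𝓞 K)⁰ K)) (by
      have h := FractionalIdeal.finite_factors (R := 𝓞 K) (K := K)
        (I : FractionalIdeal (𝓞 K)⁰ K)
      rw [Filter.eventually_cofinite] at h
      exact h)

theorem idD_apply (I : Ideal (𝓞 K)) (v : HeightOneSpectrum (𝓞 K)) :
    idD I v = FractionalIdeal.count K v (I : FractionalIdeal (𝓞 K)⁰ K) := rfl

theorem idD_mul {I J : Ideal (𝓞 K)} (hI : I ≠ ⊥) (hJ : J ≠ ⊥) : idD (I * J) = idD I + idD J := by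
  ext v
  rw [Finsupp.add_apply, idD_apply, idD_apply, idD_apply, FractionalIdeal.coeIdeal_mul,
    FractionalIdeal.count_mul K v (FractionalIdeal.coeIdeal_ne_zero.2 hI)
      (FractionalIdeal.coeIdeal_ne_zero.2 hJ)]

theorem idD_one : idD (1 : Ideal (𝓞 K)) = 0 := by
  ext v
  rw [idD_apply, Ideal.one_eq_top, FractionalIdeal.coeIdeal_top, FractionalIdeal.count_one]
  rfl

theorem idD_prime (v : HeightOneSpectrum (𝓞 K)) : idD v.asIdeal = Finsupp.single v 1 := by
  classical
  ext u
  rw [idD_apply, Finsupp.single_apply, FractionalIdeal.count_maximal]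

theorem idD_span {a : 𝓞 K} {x : Kˣ} (hx : (x : K) = algebraMap (𝓞 K) K a) :
    idD (Ideal.span {a}) = dv x := by
  ext v
  rw [idD_apply, dv_apply, od, H47.ordHom_eq_count, hx, FractionalIdeal.coeIdeal_span_singleton]

/-- The value of a completely multiplicative function in terms of the divisor. -/
theorem chiI_eq_ev {S : Set (HeightOneSpectrum (𝓞 K))} {g : HeightOneSpectrum (𝓞 K) → Additive ℂˣ}
    {f : HeightOneSpectrum (𝓞 K) → ℂ} (hf : ∀ v ∉ S, f v = ((g v).toMul : ℂˣ))
    {I : Ideal (𝓞 K)} (hI : I ≠ ⊥) (hIS : ∀ v ∈ S, ¬ I ≤ v.asIdeal) :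
    chiI f I = ((ev g (idD I)).toMul : ℂˣ) := by
  revert hI hIS
  refine UniqueFactorizationMonoid.induction_on_prime
    (P := fun I => I ≠ ⊥ → (∀ v ∈ S, ¬ I ≤ v.asIdeal) →
      chiI f I = ((ev g (idD I)).toMul : ℂˣ)) I ?_ ?_ ?_
  · intro h; exact absurd rfl h
  · intro I hI _ _
    rw [Ideal.isUnit_iff] at hI
    rw [hI, ← Ideal.one_eq_top, map_one, idD_one, map_zero]
    rfl
  · intro I P hI hP ih _ hIS
    obtain ⟨v, rfl⟩ := exists_of_prime hP
    have hvS : v ∉ S := fun h => hIS v h Ideal.mul_le_left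
    rw [map_mul, chiI_prime, ih hI (fun u hu h => hIS u hu (Ideal.mul_le_right.trans h)),
      idD_mul v.ne_bot hI, idD_prime, map_add, ev_single, one_smul, toMul_add, Units.val_mul,
      hf v hvS]

end divisors

end Fermat.Agent.H77.Z
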