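import Mathlib
import Fermat.Agent.H77ZChi
import Fermat.Agent.H89D3

/-!
# The quartic character of a quaternion tower, additive form
-/

set_option autoImplicit false

noncomputable section

open IsDedekindDomain NumberField WithZero
open scoped Pointwise
open Fermat.Agent.H47 (ordHom divHom smulPlace below)
open Fermat.Agent.H82 (above aboveSet NonSplit congr locNorm normGroup)
open Fermat.Agent.H89D (IsQ8Tower liftFix)

namespace Fermat.Agent.H77.Z

/-- One half in `ℚ/ℤ`. -/
def half : AddCircle (1 : ℚ) := ((1 / 2 : ℚ) : AddCircle (1 : ℚ))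

theorem two_half : 2 • half = 0 := by
  rw [half, ← AddCircle.coe_nsmul]
  have : (2 • (1 / 2 : ℚ)) = 1 := by norm_num
  rw [this, AddCircle.coe_period]

open Classical in
/-- The quadratic character of a quadratic extension `L/K`, as a function on the finite places,
with values `0` and `h`. -/
def quadFn {K : Type*} [Field K] [NumberField K] (L : Type*) [Field L] [NumberField L]
    [Algebra K L] (S : Set (HeightOneSpectrum (𝓞 K))) {A : Type*} [Zero A] (h : A) :
    HeightOneSpectrum (𝓞 K) → A :=
  fun v => if v ∈ S then 0 else if NonSplit L v then h else 0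

section aux

variable {E B C : Type} [Field E] [NumberField E] [Field B] [NumberField B] [Field C]
  [NumberField C] [Algebra E B] [Algebra B C] [Algebra E C] [IsScalarTower E B C]

/-- In a biquadratic extension `C/E` with a quadratic subfield `B` there is another one. -/
theorem exists_other [IsGalois E C] (hB : Module.finrank E B = 2) (hBC : Module.finrank B C = 2)
    (hsq : ∀ σ : C ≃ₐ[E] C, σ * σ = 1) {τ : C ≃ₐ[B] C} (hτ : τ ≠ 1) :
    ∃ (B2 : IntermediateField E C) (σ : C ≃ₐ[B2] C), σ ≠ 1 ∧ Module.finrank E B2 = 2 ∧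
      Module.finrank B2 C = 2 ∧ (∃ b : B, σ (algebraMap B C b) ≠ algebraMap B C b) ∧
      ∃ y : B2, τ (algebraMap B2 C y) ≠ algebraMap B2 C y := by
  classical
  have hfd1 : FiniteDimensional E B := Module.finite_of_finrank_pos (by rw [hB]; norm_num)
  have hfd2 : FiniteDimensional B C := Module.finite_of_finrank_pos (by rw [hBC]; norm_num)
  have hfd : FiniteDimensional E C := Module.Finite.trans B C
  have hgal : IsGalois B C := IsGalois.tower_top_of_isGalois E B C
  have h4 : Module.finrank E C = 4 := by rw [← Module.finrank_mul_finrank E B C, hB, hBC]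
  have hcard : Fintype.card (C ≃ₐ[E] C) = 4 := by
    rw [← Nat.card_eq_fintype_card, IsGalois.card_aut_eq_finrank, h4]
  set τE : C ≃ₐ[E] C := τ.restrictScalars E with hτE
  have hτE1 : τE ≠ 1 := by
    intro h
    apply hτ
    ext x
    exact DFunLike.congr_fun h x
  obtain ⟨σ₀, hσ₀⟩ : ∃ σ₀ : C ≃ₐ[E] C, σ₀ ∉ ({1, τE} : Finset (C ≃ₐ[E] C)) := by
    by_contra hcon
    push Not at hcon
    have h1 : (Finset.univ : Finset (C ≃ₐ[E] C)).card ≤ ({1, τE} : Finset (C ≃ₐ[E] C)).card :=
      Finset.card_le_card fun σ _ => hcon σ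
    rw [Finset.card_univ, hcard] at h1
    have h2 := Finset.card_le_two (a := (1 : C ≃ₐ[E] C)) (b := τE)
    omega
  rw [Finset.mem_insert, Finset.mem_singleton, not_or] at hσ₀
  obtain ⟨hσ1, hστ⟩ := hσ₀
  have hord : orderOf σ₀ = 2 := by
    refine orderOf_eq_prime ?_ hσ1
    rw [pow_two, hsq]
  set H : Subgroup (C ≃ₐ[E] C) := Subgroup.zpowers σ₀ with hH
  have hcardH : Nat.card H = 2 := by rw [hH, Nat.card_zpowers, hord]
  have hmem : ∀ g ∈ H, g = 1 ∨ g = σ₀ := by
    intro g hg
    obtain ⟨k, rfl⟩ := Subgroup.mem_zpowers_iff.1 hg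
    have h2 : σ₀ ^ (2 : ℤ) = 1 := by
      rw [zpow_two, hsq]
    rcases Int.even_or_odd' k with ⟨j, rfl | rfl⟩
    · left; rw [zpow_mul, h2, one_zpow]
    · right; rw [zpow_add, zpow_mul, h2, one_zpow, one_mul, zpow_one]
  set B2 : IntermediateField E C := IntermediateField.fixedField H with hB2
  have hB2C : Module.finrank B2 C = 2 := by
    rw [hB2, IntermediateField.finrank_fixedField_eq_card, hcardH]
  have hEB2 : Module.finrank E B2 = 2 := by
    have h1 := Module.finrank_mul_finrank E B2 C
    rw [hB2C, h4] at h1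
    omega
  have hfix : ∀ y : B2, σ₀ (algebraMap B2 C y) = algebraMap B2 C y := by
    intro y
    exact y.2 ⟨σ₀, Subgroup.mem_zpowers σ₀⟩
  refine ⟨B2, liftFix σ₀ hfix, ?_, hEB2, hB2C, ?_, ?_⟩
  · intro h
    apply hσ1
    ext x
    exact DFunLike.congr_fun h x
  · by_contra hcon
    push Not at hcon
    have hcon' : ∀ b : B, σ₀ (algebraMap B C b) = algebraMap B C b := hcon
    rcases aut_eq_one_or hBC hτ (liftFix σ₀ hcon') with h | h
    · apply hσ1
      ext x
      exact DFunLike.congr_fun h x
    · apply hστ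
      ext x
      exact DFunLike.congr_fun h x
  · by_contra hcon
    push Not at hcon
    have h1 : τE ∈ IntermediateField.fixingSubgroup B2 := by
      rw [IntermediateField.mem_fixingSubgroup_iff]
      intro x hx
      exact hcon ⟨x, hx⟩
    rw [hB2, IntermediateField.fixingSubgroup_fixedField] at h1
    rcases hmem _ h1 with h | h
    · exact hτE1 h
    · exact hστ h.symm

end aux

section tower

variable {E B C K : Type} [Field E] [NumberField E] [IsTotallyComplex E] [Field B]
  [NumberField B] [Field C] [NumberField C] [Field K] [NumberField K] [Algebra E B]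
  [Algebra E C] [Algebra E K] [Algebra B C] [Algebra B K] [Algebra C K] [IsScalarTower E B C]
  [IsScalarTower E B K] [IsScalarTower E C K] [IsScalarTower B C K]

/-- **The quartic character of a quaternion tower**, additive form. -/
theorem exists_chi_tower (H : IsQ8Tower E B C K) {τ : C ≃ₐ[B] C} (hτ : τ ≠ 1)
    {S : Set (HeightOneSpectrum (𝓞 E))} (hS : S.Finite) (hSne : S.Nonempty)
    (h2 : ∀ v ∉ S, v.valuation E (2 : E) = 1)
    (hunr : ∀ v ∉ S, ∀ w ∈ above K v, v.asIdeal.ramificationIdx' w.asIdeal = 1)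
    (he : IsHecke (aboveSet C S) (quadFn K (aboveSet C S) half))
    (hω : IsHecke S (quadFn B S half)) :
    ∃ χ : HeightOneSpectrum (𝓞 B) → AddCircle (1 : ℚ), IsHecke (aboveSet B S) χ ∧
      (∀ w : HeightOneSpectrum (𝓞 C), w ∉ aboveSet C S → smulPlace τ w = w →
        2 • χ (below B w) = quadFn K (aboveSet C S) half w) ∧
      (∀ w : HeightOneSpectrum (𝓞 C), w ∉ aboveSet C S → smulPlace τ w ≠ w →
        χ (below B w) = quadFn K (aboveSet C S) half w) ∧
      (∀ v, v ∉ S → ∑ᶠ P ∈ above B v, χ P = quadFn B S half v) := by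
  classical
  have := H.isGalois_EC
  have := H.isGalois_EB
  obtain ⟨B2, σ, hσ, hEB2, hB2C, hσB, hτB2⟩ :=
    exists_other H.finrank_EB H.finrank_BC H.sq_eq_one hτ
  have : Algebra.IsQuadraticExtension E B2 := ⟨hEB2⟩
  have hunrC : ∀ v ∉ S, ∀ w ∈ above C v, v.asIdeal.ramificationIdx' w.asIdeal = 1 := by
    intro v hv w hw
    obtain ⟨Q, hQ⟩ := H47.above_nonempty (L := K) w
    have hbQ : below C Q = w := (H47.eq_below_of_mem_above hQ).symm
    have hEw : below E w = v := (H47.eq_below_of_mem_above hw).symm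
    have hEQ : below E Q = v := by rw [← below_below (B := C), hbQ, hEw]
    have h1 := (unr_of_tower (E := E) (B := C) (w := Q)
      (by rw [hEQ]; exact hunr v hv Q (mem_above_iff.2 hEQ))).2
    rw [hbQ, hEw] at h1
    exact h1
  refine exists_chi_add H.finrank_EB hEB2 H.finrank_BC hB2C hτ hσ hσB hτB2 hS hSne h2 hunrC he hω
    fun x a hxa => ?_
  refine ev_eq_of_local he.1 hω.1 (τ.restrictScalars E) ?_ x a (fun w hw => ?_)
  · intro v hv x n hx
    have hvS : ∀ P ∈ above C v, P ∉ aboveSet C S := by
      intro P hP h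
      rw [mem_aboveSet_iff, mem_above_iff.1 hP] at h
      exact hv h
    refine H.compat' hτ two_half (hunr v hv) ?_ ?_ ?_ ?_ x n ?_
    · intro P hP hns
      rw [quadFn, if_neg (hvS P hP), if_pos hns]
    · intro P hP hns
      rw [quadFn, if_neg (hvS P hP), if_neg hns]
    · intro hns
      rw [quadFn, if_neg hv, if_pos hns]
    · intro hns
      rw [quadFn, if_neg hv, if_neg hns]
    · intro P hP
      rw [← smulPlace_restrict (E := E)]
      exact hx P hP
  · rw [smulPlace_restrict]
    exact hxa w hw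

end tower

end Fermat.Agent.H77.Z
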