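import Mathlib
import Fermat.Agent.H77ZTower
import Fermat.Agent.H77ZIdeal
import Fermat.Agent.H89D6

/-!
# The quartic Hecke character of a quaternion tower: output of D3

Multiplicative form on the places, and completely multiplicative form on the ideals.
-/

set_option autoImplicit false

noncomputable section

open IsDedekindDomain NumberField WithZero
open scoped Pointwise nonZeroDivisors
open Fermat.Agent.H47 (ordHom divHom smulPlace below)
open Fermat.Agent.H82 (above aboveSet NonSplit congr locNorm normGroup)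
open Fermat.Agent.H89D (IsQ8Tower liftFix)

namespace Fermat.Agent.H77.Z

theorem ex_half : (((ex half).toMul : ℂˣ) : ℂ) = -1 := by
  rw [half, coe_ex]
  have : 2 * (Real.pi : ℂ) * Complex.I * ((1 / 2 : ℚ) : ℂ) = Real.pi * Complex.I := by
    push_cast
    ring
  rw [this, Complex.exp_pi_mul_I]

section ideal

variable {K : Type*} [Field K] [NumberField K]

theorem mem_congr_of_sub_mem {v : HeightOneSpectrum (𝓞 K)} {n : ℕ} (hn : 0 < n) {a : 𝓞 K}
    (h : a - 1 ∈ v.asIdeal ^ n) {x : Kˣ} (hx : (x : K) = algebraMap (𝓞 K) K a) :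
    x ∈ congr v n := by
  rw [H82.mem_congr_of_pos hn, hx]
  have h1 : algebraMap (𝓞 K) K a - 1 = algebraMap (𝓞 K) K (a - 1) := by
    rw [map_sub, map_one]
  rw [h1, HeightOneSpectrum.valuation_of_algebraMap,
    HeightOneSpectrum.intValuation_le_pow_iff_mem]
  exact h

/-- **From places to ideals**: a Hecke character in additive form gives a completely
multiplicative function on ideals with a modulus. -/
theorem exists_chiI {S : Set (HeightOneSpectrum (𝓞 K))} (hS : S.Finite) (hSne : S.Nonempty)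
    {χ : HeightOneSpectrum (𝓞 K) → AddCircle (1 : ℚ)} (hχ : IsHecke S χ) :
    ∃ (m : Ideal (𝓞 K)) (chi : Ideal (𝓞 K) →*₀ ℂ), m ≠ ⊥ ∧
      (∀ P : HeightOneSpectrum (𝓞 K), m ≤ P.asIdeal ↔ P ∈ S) ∧
      (∀ P ∈ S, chi P.asIdeal = 0) ∧
      (∀ P ∉ S, chi P.asIdeal = ((ex (χ P)).toMul : ℂˣ)) ∧
      (∀ a : 𝓞 K, a - 1 ∈ m → chi (Ideal.span {a}) = 1) := by
  classical
  obtain ⟨-, n, hn⟩ := hχ
  set m : Ideal (𝓞 K) := ∏ P ∈ hS.toFinset, P.asIdeal ^ (n + 1) with hm
  set f : HeightOneSpectrum (𝓞 K) → ℂ := fun P => if P ∈ S then 0 else ((ex (χ P)).toMul : ℂˣ)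
    with hf
  have hm0 : m ≠ ⊥ := by
    rw [hm, ← Ideal.zero_eq_bot, Finset.prod_ne_zero_iff]
    exact fun P _ => pow_ne_zero _ P.ne_bot
  have hle : ∀ P ∈ S, m ≤ P.asIdeal ^ (n + 1) := by
    intro P hP
    exact Ideal.le_of_dvd (Finset.dvd_prod_of_mem _ (hS.mem_toFinset.2 hP))
  have hmP : ∀ P : HeightOneSpectrum (𝓞 K), m ≤ P.asIdeal ↔ P ∈ S := by
    intro P
    constructor
    · intro h
      have := P.isPrime
      rw [hm, Ideal.IsPrime.prod_le this] at h
      obtain ⟨Q, hQ, hQP⟩ := h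
      have h1 : Q.asIdeal ≤ P.asIdeal := Ideal.IsPrime.le_of_pow_le hQP
      have h2 : Q = P := by
        apply HeightOneSpectrum.ext
        exact Q.isMaximal.eq_of_le P.isPrime.ne_top h1
      rw [← h2]
      exact hS.mem_toFinset.1 hQ
    · intro h
      exact (hle P h).trans (Ideal.pow_le_self (Nat.succ_ne_zero n))
  refine ⟨m, chiI f, hm0, hmP, ?_, ?_, ?_⟩
  · intro P hP
    rw [chiI_prime, hf]
    exact if_pos hP
  · intro P hP
    rw [chiI_prime, hf]
    exact if_neg hP
  · intro a ha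
    have haS : ∀ v ∈ S, ¬ Ideal.span {a} ≤ v.asIdeal := by
      intro v hv h
      have h1 : a ∈ v.asIdeal := h (Ideal.mem_span_singleton_self a)
      have h2 : a - 1 ∈ v.asIdeal := (hmP v).2 hv ha
      have h3 : (1 : 𝓞 K) ∈ v.asIdeal := by
        have := v.asIdeal.sub_mem h1 h2
        rwa [sub_sub_cancel] at this
      exact v.isPrime.ne_top ((Ideal.eq_top_iff_one _).2 h3)
    obtain ⟨v₀, hv₀⟩ := hSne
    have ha0 : a ≠ 0 := by
      rintro rfl
      apply haS v₀ hv₀
      rw [Ideal.span_singleton_eq_bot.2 rfl]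
      exact bot_le
    have ha0' : algebraMap (𝓞 K) K a ≠ 0 := by
      rw [Ne, FaithfulSMul.algebraMap_eq_zero_iff]
      exact ha0
    set x : Kˣ := Units.mk0 _ ha0' with hx
    have hspan : Ideal.span {a} ≠ ⊥ := by
      rw [Ne, Ideal.span_singleton_eq_bot]; exact ha0
    have h1 : ev χ (dv x) = 0 := by
      refine hn x fun v hv => ?_
      exact H82.congr_anti v (Nat.le_succ n)
        (mem_congr_of_sub_mem (Nat.succ_pos n) (hle v hv ha) rfl)
    rw [chiI_eq_ev (S := S) (g := fun v => ex (χ v)) (fun v hv => if_neg hv) hspan haS,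
      idD_span (x := x) rfl, ev_comp, h1, map_zero]
    rfl

end ideal

section out

variable {E B C K : Type} [Field E] [NumberField E] [IsTotallyComplex E] [Field B]
  [NumberField B] [Field C] [NumberField C] [Field K] [NumberField K] [Algebra E B]
  [Algebra E C] [Algebra E K] [Algebra B C] [Algebra B K] [Algebra C K] [IsScalarTower E B C]
  [IsScalarTower E B K] [IsScalarTower E C K] [IsScalarTower B C K]

open Classical in
/-- **Output of D3** (ideal form), from the two instances of quadratic reciprocity. -/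
theorem exists_chi (H : IsQ8Tower E B C K)
    {S : Set (HeightOneSpectrum (𝓞 E))} (hS : S.Finite) (hSne : S.Nonempty)
    (h2 : ∀ v ∉ S, v.valuation E (2 : E) = 1)
    (hunr : ∀ v ∉ S, ∀ w ∈ above K v, v.asIdeal.ramificationIdx' w.asIdeal = 1)
    (he : IsHecke (aboveSet C S) (quadFn K (aboveSet C S) half))
    (hω : IsHecke S (quadFn B S half)) :
    ∃ (m : Ideal (𝓞 B)) (chi : Ideal (𝓞 B) →*₀ ℂ), m ≠ ⊥ ∧
      (∀ P : HeightOneSpectrum (𝓞 B), m ≤ P.asIdeal ↔ P ∈ aboveSet B S) ∧
      (∀ P : HeightOneSpectrum (𝓞 B), chi P.asIdeal = 0 ↔ P ∈ aboveSet B S) ∧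
      (∀ a : 𝓞 B, a - 1 ∈ m → chi (Ideal.span {a}) = 1) ∧
      (∀ P : HeightOneSpectrum (𝓞 B), P ∉ aboveSet B S → chi P.asIdeal ^ 4 = 1) ∧
      (∀ v ∉ S, ∀ w ∈ above C v, chi (below B w).asIdeal ^
        ((below B w).asIdeal.inertiaDeg' w.asIdeal) = if NonSplit K w then -1 else 1) ∧
      (∀ v ∉ S, ∏ᶠ P ∈ above B v, chi P.asIdeal = if NonSplit B v then -1 else 1) ∧
      (∀ v ∉ S, ¬ NonSplit B v → ∑ᶠ P ∈ above B v, chi P.asIdeal = H89D.aw C K v) ∧
      (∀ v ∉ S, NonSplit B v → H89D.aw C K v = 0 ∧ ∀ P ∈ above B v, chi P.asIdeal = -1) := by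
  obtain ⟨τ, hτ⟩ := H.exists_tau
  obtain ⟨χ, hχ, hχ1, hχ2, hχ3⟩ := exists_chi_tower H hτ hS hSne h2 hunr he hω
  have hSB : (aboveSet B S).Finite := H65.finite_aboveSet hS
  have hSBne : (aboveSet B S).Nonempty := by
    obtain ⟨v, hv⟩ := hSne
    obtain ⟨w, hw⟩ := H47.above_nonempty (L := B) v
    exact ⟨w, v, hv, hw⟩
  obtain ⟨m, chi, hm, hmP, h0, h1, hprin⟩ := exists_chiI hSB hSBne hχ
  have hnotin : ∀ v ∉ S, ∀ P ∈ above B v, P ∉ aboveSet B S := by
    intro v hv P hP h
    rw [mem_aboveSet_iff, mem_above_iff.1 hP] at h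
    exact hv h
  have hnotinC : ∀ v ∉ S, ∀ w ∈ above C v, w ∉ aboveSet C S := by
    intro v hv P hP h
    rw [mem_aboveSet_iff, mem_above_iff.1 hP] at h
    exact hv h
  have hbel : ∀ v ∉ S, ∀ w ∈ above C v, below B w ∉ aboveSet B S := by
    intro v hv w hw
    rw [mem_aboveSet_iff, below_below, mem_above_iff.1 hw]
    exact hv
  -- values of the exponential
  have hval : ∀ (c : Prop) [Decidable c],
      (((ex (if c then half else 0)).toMul : ℂˣ) : ℂ) = if c then -1 else 1 := by
    intro c _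
    split_ifs
    · exact ex_half
    · rw [map_zero]; rfl
  have hquadC : ∀ v ∉ S, ∀ w ∈ above C v,
      quadFn K (aboveSet C S) half w = if NonSplit K w then half else 0 :=
    fun v hv w hw => if_neg (hnotinC v hv w hw)
  have hquadE : ∀ v ∉ S, quadFn B S half v = if NonSplit B v then half else 0 :=
    fun v hv => if_neg hv
  have ha : ∀ v ∉ S, ∀ w ∈ above C v, chi (below B w).asIdeal ^
      ((below B w).asIdeal.inertiaDeg' w.asIdeal) = if NonSplit K w then -1 else 1 := by
    intro v hv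
    refine H.ha_of_tau (χ := fun P => chi P.asIdeal) hτ (hunr v hv) ?_ ?_
    · intro w hw hfix
      have h3 := hχ1 w (hnotinC v hv w hw) hfix
      rw [hquadC v hv w hw] at h3
      show chi (below B w).asIdeal ^ 2 = _
      rw [h1 _ (hbel v hv w hw), ← hval, ← h3, map_nsmul, toMul_nsmul, Units.val_pow_eq_pow_val]
    · intro w hw hfix
      have h3 := hχ2 w (hnotinC v hv w hw) hfix
      rw [hquadC v hv w hw] at h3
      show chi (below B w).asIdeal = _
      rw [h1 _ (hbel v hv w hw), ← hval, ← h3]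
  have hb : ∀ v ∉ S, ∏ᶠ P ∈ above B v, chi P.asIdeal = if NonSplit B v then -1 else 1 := by
    intro v hv
    have h3 := hχ3 v hv
    rw [hquadE v hv] at h3
    rw [← hval, ← h3, finsum_mem_eq_finite_toFinset_sum _ (H65.finite_above v),
      finprod_mem_eq_finite_toFinset_prod _ (H65.finite_above v), map_sum, toMul_sum,
      Units.coe_prod]
    refine Finset.prod_congr rfl fun P hP => ?_
    rw [Set.Finite.mem_toFinset] at hP
    exact h1 P (hnotin v hv P hP)
  have hcases : ∀ P : HeightOneSpectrum (𝓞 B), P ∉ aboveSet B S → chi P.asIdeal ^ 4 = 1 := by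
    intro P hP
    have hv : below E P ∉ S := fun h => hP (mem_aboveSet_iff.2 h)
    rcases H.value_cases (χ := fun P => chi P.asIdeal) (hunr _ hv) (ha _ hv)
      (H47.mem_above_below P) with ⟨-, -, h⟩ | ⟨-, -, -, h⟩ | ⟨-, -, -, h⟩ | ⟨-, -, -, h⟩
    · show chi P.asIdeal ^ 4 = 1
      rw [h]; norm_num
    · rw [h]; norm_num
    · have : chi P.asIdeal ^ 4 = (chi P.asIdeal ^ 2) ^ 2 := by ring
      rw [this, h]; norm_num
    · rw [h]; norm_num
  refine ⟨m, chi, hm, hmP, ?_, hprin, hcases, ha, hb, ?_, ?_⟩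
  · intro P
    constructor
    · intro h
      by_contra hP
      have := hcases P hP
      rw [h] at this
      norm_num at this
    · exact h0 P
  · intro v hv hns
    exact H.sum_chi (χ := fun P => chi P.asIdeal) (hunr v hv) (ha v hv) (hb v hv) hns
  · intro v hv hns
    exact ⟨H.aw_eq_zero_of_nonSplit hns, fun P hP =>
      H.chi_nonSplit (χ := fun P => chi P.asIdeal) (hunr v hv) (ha v hv) hns hP⟩

end out

end Fermat.Agent.H77.Z
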