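import Fermat.Agent.H82V5
import Fermat.Agent.H77ZDefs

/-!
# The quadratic character of a quadratic extension is a Hecke character (helper82)

`K` totally complex, `L/K` quadratic, `S` finite, containing the places above `2` and the ramified
places: `v ↦ 1 ∈ ZMod 2` for `v ∉ S` inert, `0` otherwise, is a Hecke character.
-/

set_option autoImplicit false
set_option linter.unusedSectionVars false

noncomputable section

open IsDedekindDomain NumberField WithZero Fermat.Agent.H82
open Fermat.Agent.H47 (ordHom divHom smulPlace below)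
open Fermat.Agent.H77.Z

namespace Fermat.Agent.H82V

variable {K : Type} [Field K] [NumberField K] [htc : IsTotallyComplex K]
  {L : Type} [Field L] [NumberField L] [Algebra K L] [IsGalois K L]

theorem hil_eq_top_of_split (hdeg : Module.finrank K L = 2) {b : Kˣ} {β : L}
    (hβ : IsKummer 2 K L b β) {v : HeightOneSpectrum (𝓞 K)} (hns : ¬ NonSplit L v) :
    hil v b = ⊤ := by
  rw [hil_eq_iInf hdeg hβ]
  simp only [locNorm_eq_top_of_split hdeg hns, iInf_top]

theorem mem_hil_iff_of_unramified (hdeg : Module.finrank K L = 2) {b : Kˣ} {β : L}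
    (hβ : IsKummer 2 K L b β) {v : HeightOneSpectrum (𝓞 K)} (h2 : v.valuation K (2 : K) = 1)
    (hns : NonSplit L v) (hunr : ∀ w ∈ above L v, v.asIdeal.ramificationIdx' w.asIdeal = 1)
    (x : Kˣ) : x ∈ hil v b ↔ (2 : ℤ) ∣ od v x := by
  have hζ := primitiveRoot_neg_one K
  have h2' : v.valuation K ((2 : ℕ) : K) = 1 := by exact_mod_cast h2
  rw [hil_eq_iInf hdeg hβ, iInf_locNorm_eq hζ hdeg (deep_of_not_dvd hζ h2' one_pos),
    locNorm_eq_of_unramified hζ hdeg h2' hns hunr, mem_pow_sup_units_iff]
  exact_mod_cast Iff.rfl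

open Classical in
/-- The additive quadratic character of `L/K` outside `S`. -/
def qchar (L : Type) [Field L] [NumberField L] [Algebra K L] (S : Set (HeightOneSpectrum (𝓞 K)))
    (v : HeightOneSpectrum (𝓞 K)) : ZMod 2 :=
  if v ∈ S then 0 else if NonSplit L v then 1 else 0

theorem qchar_of_mem {S : Set (HeightOneSpectrum (𝓞 K))} {v : HeightOneSpectrum (𝓞 K)}
    (h : v ∈ S) : qchar L S v = 0 := by rw [qchar, if_pos h]

theorem qchar_of_nonSplit {S : Set (HeightOneSpectrum (𝓞 K))} {v : HeightOneSpectrum (𝓞 K)}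
    (h : v ∉ S) (hns : NonSplit L v) : qchar L S v = 1 := by rw [qchar, if_neg h, if_pos hns]

theorem qchar_of_split {S : Set (HeightOneSpectrum (𝓞 K))} {v : HeightOneSpectrum (𝓞 K)}
    (hns : ¬ NonSplit L v) : qchar L S v = 0 := by rw [qchar, if_neg hns, ite_self]

theorem zmod_two_smul (n : ℤ) : n • (1 : ZMod 2) = if (2 : ℤ) ∣ n then 0 else 1 := by
  rw [zsmul_eq_mul, mul_one]
  split_ifs with h
  · exact (ZMod.intCast_zmod_eq_zero_iff_dvd n 2).2 (by exact_mod_cast h)
  · have h1 : (n : ZMod 2) ≠ 0 := fun h0 =>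
      h (by exact_mod_cast (ZMod.intCast_zmod_eq_zero_iff_dvd n 2).1 h0)
    revert h1
    generalize (n : ZMod 2) = t
    revert t
    decide

/-- **Quadratic reciprocity**: the quadratic character is a Hecke character. -/
theorem isHecke_qchar (hdeg : Module.finrank K L = 2)
    {S : Set (HeightOneSpectrum (𝓞 K))} (hS : S.Finite)
    (h2 : ∀ v ∉ S, v.valuation K (2 : K) = 1)
    (hunr : ∀ v ∉ S, ∀ w ∈ above L v, v.asIdeal.ramificationIdx' w.asIdeal = 1) :
    IsHecke S (qchar L S) := by
  classical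
  refine ⟨fun v hv => qchar_of_mem hv, ?_⟩
  have : Fact (Nat.Prime 2) := ⟨Nat.prime_two⟩
  obtain ⟨b, β, hβ, -⟩ := exists_isKummer (primitiveRoot_neg_one K) L hdeg
  choose d hd0 hdeep hd using fun v : HeightOneSpectrum (𝓞 K) => exists_depth v
  refine ⟨∑ v ∈ hS.toFinset, d v, fun x hx => ?_⟩
  have hSbad : ∀ v ∈ S, v ∉ bad x b := by
    intro v hv hbad
    apply hbad
    have h1 : d v ≤ ∑ v ∈ hS.toFinset, d v :=
      Finset.single_le_sum (f := d) (fun _ _ => Nat.zero_le _) (hS.mem_toFinset.2 hv)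
    exact congr_le_hil (hd v) b (congr_anti v h1 (hx v hv))
  have key : ∀ v, od v x • qchar L S v = if v ∈ bad x b then (1 : ZMod 2) else 0 := by
    intro v
    by_cases hv : v ∈ S
    · rw [qchar_of_mem hv, smul_zero, if_neg (hSbad v hv)]
    · by_cases hns : NonSplit L v
      · rw [qchar_of_nonSplit hv hns, zmod_two_smul, mem_bad,
          mem_hil_iff_of_unramified hdeg hβ (h2 v hv) hns (hunr v hv)]
        by_cases hd : (2 : ℤ) ∣ od v x
        · rw [if_pos hd, if_neg (not_not.2 hd)]
        · rw [if_neg hd, if_pos hd]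
      · rw [qchar_of_split hns, smul_zero, if_neg]
        rw [mem_bad, hil_eq_top_of_split hdeg hβ hns, not_not]
        exact Subgroup.mem_top x
  have hfin := finite_bad x b
  have hev := even_bad x b
  rw [ev_apply, Finsupp.sum]
  have h3 : ∀ v ∈ (dv x).support, (dv x) v • qchar L S v
      = if v ∈ bad x b then (1 : ZMod 2) else 0 := fun v _ => key v
  rw [Finset.sum_congr rfl h3]
  have hsub : hfin.toFinset ⊆ (dv x).support := by
    intro v hv
    rw [Set.Finite.mem_toFinset] at hv
    rw [Finsupp.mem_support_iff]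
    intro h0
    have h4 := key v
    have h5 : od v x = 0 := h0
    rw [if_pos hv, h5, zero_smul] at h4
    exact zero_ne_one h4
  have h6 : ∑ v ∈ (dv x).support, (if v ∈ bad x b then (1 : ZMod 2) else 0)
      = ∑ v ∈ hfin.toFinset, (1 : ZMod 2) := by
    rw [Finset.sum_ite, Finset.sum_const_zero, add_zero]
    refine Finset.sum_congr ?_ fun _ _ => rfl
    ext v
    rw [Finset.mem_filter, Set.Finite.mem_toFinset]
    exact ⟨fun h => h.2, fun h => ⟨hsub (hfin.mem_toFinset.2 h), h⟩⟩
  rw [h6, Finset.sum_const, nsmul_one, ← Set.ncard_eq_toFinset_card _ hfin]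
  exact (ZMod.natCast_eq_zero_iff_even).2 hev

end Fermat.Agent.H82V
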