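import Mathlib
import Fermat.Agent.H77ZOut
import Fermat.Agent.H82V6

/-!
# The quartic Hecke character of a quaternion tower: final form (no hypotheses left)
-/

set_option autoImplicit false

noncomputable section

open IsDedekindDomain NumberField WithZero
open scoped Pointwise nonZeroDivisors
open Fermat.Agent.H47 (ordHom divHom smulPlace below)
open Fermat.Agent.H82 (above aboveSet NonSplit congr locNorm normGroup)
open Fermat.Agent.H89D (IsQ8Tower liftFix)

namespace Fermat.Agent.H77.Z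

/-- `ℤ/2 → ℚ/ℤ`. -/
def zh : ZMod 2 →+ AddCircle (1 : ℚ) :=
  ZMod.lift 2 ⟨zmultiplesHom _ half, by
    show ((2 : ℕ) : ℤ) • half = 0
    rw [natCast_zsmul, two_half]⟩

theorem zh_one : zh 1 = half := by
  have h : ((1 : ℤ) : ZMod 2) = 1 := by norm_num
  rw [← h, zh, ZMod.lift_coe]
  show (1 : ℤ) • half = half
  rw [one_zsmul]

section

variable {K L : Type} [Field K] [NumberField K] [IsTotallyComplex K] [Field L] [NumberField L]
  [Algebra K L] [IsGalois K L]

/-- **Quadratic reciprocity** for a quadratic extension of a totally complex field. -/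
theorem isHecke_quadFn (hdeg : Module.finrank K L = 2)
    {S : Set (HeightOneSpectrum (𝓞 K))} (hS : S.Finite)
    (h2 : ∀ v ∉ S, v.valuation K (2 : K) = 1)
    (hunr : ∀ v ∉ S, ∀ w ∈ above L v, v.asIdeal.ramificationIdx' w.asIdeal = 1) :
    IsHecke S (quadFn L S half) := by
  have h := (H82V.isHecke_qchar hdeg hS h2 hunr).comp zh
  have he : (fun v => zh (H82V.qchar L S v)) = quadFn L S half := by
    funext v
    rw [H82V.qchar, quadFn]
    split_ifs
    · exact map_zero _
    · exact zh_one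
    · exact map_zero _
  rwa [he] at h

open Classical in
/-- The quadratic character in ideal form. -/
theorem exists_omega (hdeg : Module.finrank K L = 2)
    {S : Set (HeightOneSpectrum (𝓞 K))} (hS : S.Finite) (hSne : S.Nonempty)
    (h2 : ∀ v ∉ S, v.valuation K (2 : K) = 1)
    (hunr : ∀ v ∉ S, ∀ w ∈ above L v, v.asIdeal.ramificationIdx' w.asIdeal = 1) :
    ∃ (m : Ideal (𝓞 K)) (om : Ideal (𝓞 K) →*₀ ℂ), m ≠ ⊥ ∧
      (∀ P : HeightOneSpectrum (𝓞 K), m ≤ P.asIdeal ↔ P ∈ S) ∧
      (∀ P ∈ S, om P.asIdeal = 0) ∧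
      (∀ P ∉ S, om P.asIdeal = if NonSplit L P then -1 else 1) ∧
      (∀ a : 𝓞 K, a - 1 ∈ m → om (Ideal.span {a}) = 1) := by
  obtain ⟨m, chi, hm, hmP, h0, h1, h3⟩ := exists_chiI hS hSne (isHecke_quadFn hdeg hS h2 hunr)
  refine ⟨m, chi, hm, hmP, h0, fun P hP => ?_, h3⟩
  rw [h1 P hP, quadFn, if_neg hP]
  split_ifs
  · exact ex_half
  · rw [map_zero]; rfl

end

section out

variable {E B C K : Type} [Field E] [NumberField E] [IsTotallyComplex E] [Field B]
  [NumberField B] [Field C] [NumberField C] [Field K] [NumberField K] [Algebra E B]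
  [Algebra E C] [Algebra E K] [Algebra B C] [Algebra B K] [Algebra C K] [IsScalarTower E B C]
  [IsScalarTower E B K] [IsScalarTower E C K] [IsScalarTower B C K]

omit [IsTotallyComplex E] [Algebra B K] [IsScalarTower E B K] [IsScalarTower B C K]
  [Algebra B C] [Algebra E B] [IsScalarTower E B C] [NumberField B] [Field B] in
/-- Unramified in `K` above a place of `E` implies unramified at the steps of `E ⊂ C ⊂ K`. -/
theorem unr_tower {v : HeightOneSpectrum (𝓞 E)}
    (h : ∀ w ∈ above K v, v.asIdeal.ramificationIdx' w.asIdeal = 1) :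
    (∀ w ∈ above C v, v.asIdeal.ramificationIdx' w.asIdeal = 1) ∧
      ∀ w ∈ above C v, ∀ Q ∈ above K w, w.asIdeal.ramificationIdx' Q.asIdeal = 1 := by
  have key : ∀ w ∈ above C v, ∀ Q ∈ above K w,
      v.asIdeal.ramificationIdx' w.asIdeal = 1 ∧ w.asIdeal.ramificationIdx' Q.asIdeal = 1 := by
    intro w hw Q hQ
    have hbQ : below C Q = w := (H47.eq_below_of_mem_above hQ).symm
    have hEw : below E w = v := (H47.eq_below_of_mem_above hw).symm
    have hEQ : below E Q = v := by rw [← below_below (B := C), hbQ, hEw]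
    have h1 := unr_of_tower (E := E) (B := C) (w := Q)
      (by rw [hEQ]; exact h Q (mem_above_iff.2 hEQ))
    rw [hbQ, hEw] at h1
    exact ⟨h1.2, h1.1⟩
  refine ⟨fun w hw => ?_, fun w hw Q hQ => (key w hw Q hQ).2⟩
  obtain ⟨Q, hQ⟩ := H47.above_nonempty (L := K) w
  exact (key w hw Q hQ).1

open Classical in
/-- **Output of D3**: the quartic Hecke character of a quaternion tower, ideal form. -/
theorem exists_chi_final (H : IsQ8Tower E B C K)
    {S : Set (HeightOneSpectrum (𝓞 E))} (hS : S.Finite) (hSne : S.Nonempty)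
    (h2 : ∀ v ∉ S, v.valuation E (2 : E) = 1)
    (hunr : ∀ v ∉ S, ∀ w ∈ above K v, v.asIdeal.ramificationIdx' w.asIdeal = 1) :
    ∃ (m : Ideal (𝓞 B)) (chi : Ideal (𝓞 B) →*₀ ℂ), m ≠ ⊥ ∧
      (∀ P : HeightOneSpectrum (𝓞 B), m ≤ P.asIdeal ↔ P ∈ aboveSet B S) ∧
      (∀ P : HeightOneSpectrum (𝓞 B), chi P.asIdeal = 0 ↔ P ∈ aboveSet B S) ∧
      (∀ a : 𝓞 B, a - 1 ∈ m → chi (Ideal.span {a}) = 1) ∧
      (∀ P : HeightOneSpectrum (𝓞 B), P ∉ aboveSet B S → chi P.asIdeal ^ 4 = 1) ∧
      (∀ v ∉ S, ∀ w ∈ above C v, chi (below B w).asIdeal ^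
        ((below B w).asIdeal.inertiaDeg' w.asIdeal) = if NonSplit K w then -1 else 1) ∧
      (∀ v ∉ S, ∏ᶠ P ∈ above B v, chi P.asIdeal = if NonSplit B v then -1 else 1) ∧
      (∀ v ∉ S, ¬ NonSplit B v → ∑ᶠ P ∈ above B v, chi P.asIdeal = H89D.aw C K v) ∧
      (∀ v ∉ S, NonSplit B v → H89D.aw C K v = 0 ∧ ∀ P ∈ above B v, chi P.asIdeal = -1) := by
  have := H.isGalois_EB
  have := H.isGalois_CK
  have hC : IsTotallyComplex C := isTotallyComplex_of_algebra E C
  have hcomp : ∀ v ∉ S, (∀ w ∈ above B v, v.asIdeal.ramificationIdx' w.asIdeal = 1) :=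
    fun v hv => (unr_tower (C := B) (hunr v hv)).1
  refine exists_chi H hS hSne h2 hunr ?_ ?_
  · refine isHecke_quadFn H.finrank_CK (H65.finite_aboveSet hS) ?_ ?_
    · intro w hw
      have hv : below E w ∉ S := fun h => hw (mem_aboveSet_iff.2 h)
      have h3 := H82.valuation_above (K := E) (M := C) (H47.mem_above_below w) (2 : E)
      rw [h2 _ hv, one_pow, map_ofNat] at h3
      exact h3
    · intro w hw
      have hv : below E w ∉ S := fun h => hw (mem_aboveSet_iff.2 h)
      exact (unr_tower (C := C) (hunr _ hv)).2 w (H47.mem_above_below w)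
  · exact isHecke_quadFn H.finrank_EB hS h2 hcomp

end out

end Fermat.Agent.H77.Z
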