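import Fermat.Agent.H35BK1

/-!
# S47, block (D): moderate growth at all cusps (helper78)

`Φ : m.X → ℂ` is `PGL₂(K)`-invariant, and for the finite components `t` in a set `T` which meets
every orbit, `Φ (τ, t)` is bounded by a power of the product of the `ch (τ_j) o`. Then the same holds
for every finite component, and `|Φ (w, η)| ≤ M (∏ y_j)^A` on every set `y_j ≥ c`
(the hypothesis `hgrow` of `H95S.bounded_of_eigen`).
-/

set_option autoImplicit false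

noncomputable section

open IsDedekindDomain HeightOneSpectrum WithZero NumberField Matrix MeasureTheory
open scoped MatrixGroups nonZeroDivisors

namespace Fermat.Agent.H78Gr

open Fermat.Agent.H59D Fermat.Agent.H59XF
open Fermat.Agent.H3 (ch one_le_ch)

/-! ### the triangle inequality for `cosh` of the distance -/

theorem normSq_sub_le (x y : ℂ) :
    Complex.normSq (x + y) ≤ Complex.normSq x + Complex.normSq y + 2 * (‖x‖ * ‖y‖) := by
  have h1 := norm_add_le x y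
  have h2 : ‖x + y‖ ^ 2 ≤ (‖x‖ + ‖y‖) ^ 2 := pow_le_pow_left₀ (norm_nonneg _) h1 2
  rw [Complex.normSq_eq_norm_sq, Complex.normSq_eq_norm_sq, Complex.normSq_eq_norm_sq]
  nlinarith [h2]

theorem ch_le_mul (x y z : H3) : ch x z ≤ 2 * ch x y * ch y z := by
  have hx := x.pos
  have hy := y.pos
  have hz := z.pos
  set p := x.z - y.z with hp
  set q := y.z - z.z with hq
  have e1 : x.z - z.z = p + q := by rw [hp, hq]; ring
  have h1 := normSq_sub_le p q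
  have h2 : Complex.normSq p = ‖p‖ ^ 2 := Complex.normSq_eq_norm_sq p
  have h3 : Complex.normSq q = ‖q‖ ^ 2 := Complex.normSq_eq_norm_sq q
  unfold ch
  rw [e1, ← hp, ← hq]
  rw [show 2 * ((Complex.normSq p + x.y ^ 2 + y.y ^ 2) / (2 * x.y * y.y)) *
    ((Complex.normSq q + y.y ^ 2 + z.y ^ 2) / (2 * y.y * z.y)) =
    ((Complex.normSq p + x.y ^ 2 + y.y ^ 2) * (Complex.normSq q + y.y ^ 2 + z.y ^ 2) / y.y ^ 2) /
      (2 * x.y * z.y) by field_simp]
  refine div_le_div_of_nonneg_right ?_ (by positivity)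
  rw [le_div_iff₀ (by positivity)]
  rw [h2, h3] at h1 ⊢
  nlinarith [mul_nonneg (norm_nonneg p) (norm_nonneg q), sq_nonneg (‖p‖ * ‖q‖ - y.y ^ 2),
    mul_nonneg (sq_nonneg ‖p‖) (sq_nonneg z.y), mul_nonneg (sq_nonneg ‖q‖) (sq_nonneg x.y),
    mul_nonneg (sq_nonneg x.y) (sq_nonneg z.y), sq_nonneg y.y,
    mul_le_mul_of_nonneg_right h1 (sq_nonneg y.y)]

open H95S in
theorem y_add_inv_le (w : H3) : w.y + w.y⁻¹ ≤ 2 * ch w o := by
  have hw := w.pos
  unfold ch o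
  simp only [sub_zero, one_pow, mul_one]
  rw [show 2 * ((Complex.normSq w.z + w.y ^ 2 + 1) / (2 * w.y)) =
    (Complex.normSq w.z + w.y ^ 2 + 1) / w.y by field_simp, le_div_iff₀ hw]
  have := Complex.normSq_nonneg w.z
  rw [add_mul, inv_mul_cancel₀ hw.ne']
  nlinarith

open H95S in
theorem y_le (w : H3) : w.y ≤ 2 * ch w o :=
  le_trans (le_add_of_nonneg_right (inv_nonneg.2 w.pos.le)) (y_add_inv_le w)

open H95S in
theorem inv_y_le (w : H3) : w.y⁻¹ ≤ 2 * ch w o :=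
  le_trans (le_add_of_nonneg_left w.pos.le) (y_add_inv_le w)

open H95S in
theorem ch_o_le (w : H3) {c B : ℝ} (hc : 0 < c) (hw : c ≤ w.y) (hB : ‖w.z‖ ≤ B) :
    ch w o ≤ ((B ^ 2 + 1) / c ^ 2 + 1) * w.y := by
  have hy := w.pos
  have hB0 : 0 ≤ B := (norm_nonneg _).trans hB
  unfold ch o
  simp only [sub_zero, one_pow, mul_one]
  rw [div_le_iff₀ (by positivity), Complex.normSq_eq_norm_sq]
  have h1 : ‖w.z‖ ^ 2 ≤ B ^ 2 := pow_le_pow_left₀ (norm_nonneg _) hB 2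
  have h2 : B ^ 2 + 1 ≤ (B ^ 2 + 1) / c ^ 2 * w.y ^ 2 := by
    rw [div_mul_eq_mul_div, le_div_iff₀ (by positivity)]
    exact mul_le_mul_of_nonneg_left (pow_le_pow_left₀ hc.le hw 2) (by positivity)
  nlinarith [mul_pos hy hy, sq_nonneg w.y]

/-! ### growth -/

variable {K : Type*} [Field K] [NumberField K] {J : Type*} [Fintype J] (m : Model K J)

/-- the product of the `ch (w_j) o` -/
def cht (w : J → H3) : ℝ := ∏ j, ch (w j) H95S.o

theorem one_le_cht (w : J → H3) : 1 ≤ cht w := by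
  unfold cht
  calc (1 : ℝ) = ∏ _j : J, (1 : ℝ) := by simp
    _ ≤ _ := Finset.prod_le_prod (fun _ _ => zero_le_one) fun j _ => one_le_ch _ _

theorem cht_pos (w : J → H3) : 0 < cht w := lt_of_lt_of_le one_pos (one_le_cht w)

theorem cht_actInf_le (g : PGL(2, K)) : ∃ C : ℝ, 0 ≤ C ∧ ∀ w : J → H3,
    cht (m.actInf g w) ≤ C * cht w := by
  refine ⟨∏ j, (2 * ch (ProjGenLinGroup.map (m.e j) g • H95S.o) H95S.o),
    Finset.prod_nonneg fun j _ => mul_nonneg zero_le_two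
      (zero_le_one.trans (one_le_ch _ _)), fun w => ?_⟩
  unfold cht
  rw [← Finset.prod_mul_distrib]
  refine Finset.prod_le_prod (fun j _ => zero_le_one.trans (one_le_ch _ _)) fun j _ => ?_
  rw [Model.actInf_apply]
  refine (ch_le_mul _ (ProjGenLinGroup.map (m.e j) g • H95S.o) _).trans (le_of_eq ?_)
  rw [Fermat.Agent.H59D.ch_smul]
  ring


theorem rpow_cht_nonneg (w : J → H3) (A : ℝ) : 0 ≤ cht w ^ A :=
  Real.rpow_nonneg (cht_pos w).le A

/-- **Moderate growth at every finite component**, from a set `T` which meets every orbit. -/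
theorem growth_all {Φ : m.X → ℂ} (hinv : ∀ (g : PGL(2, K)) (x : m.X), Φ (g • x) = Φ x)
    {T : Set (XF m.L.fam)} (hT : ∀ y : XF m.L.fam, ∃ g : PGL(2, K), g • y ∈ T) {A : ℝ}
    (hA : 0 ≤ A) (hb : ∀ t ∈ T, ∃ C : ℝ, ∀ w : J → H3, ‖Φ (w, t)‖ ≤ C * cht w ^ A)
    (y : XF m.L.fam) : ∃ C : ℝ, 0 ≤ C ∧ ∀ w : J → H3, ‖Φ (w, y)‖ ≤ C * cht w ^ A := by
  obtain ⟨g, hg⟩ := hT y
  obtain ⟨C, hC⟩ := hb _ hg
  obtain ⟨D, hD0, hD⟩ := cht_actInf_le m g
  refine ⟨|C| * D ^ A, mul_nonneg (abs_nonneg _) (Real.rpow_nonneg hD0 _), fun w => ?_⟩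
  have h1 : Φ (w, y) = Φ (m.actInf g w, g • y) := (hinv g (w, y)).symm
  rw [h1]
  calc ‖Φ (m.actInf g w, g • y)‖ ≤ C * cht (m.actInf g w) ^ A := hC _
    _ ≤ |C| * cht (m.actInf g w) ^ A :=
        mul_le_mul_of_nonneg_right (le_abs_self C) (rpow_cht_nonneg _ _)
    _ ≤ |C| * (D * cht w) ^ A := mul_le_mul_of_nonneg_left
        (Real.rpow_le_rpow (cht_pos _).le (hD w) hA) (abs_nonneg _)
    _ = |C| * D ^ A * cht w ^ A := by
        rw [Real.mul_rpow hD0 (cht_pos w).le, mul_assoc]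

/-- **Moderate growth on the half spaces `c ≤ y_j`**: the hypothesis `hgrow` of
`H95S.bounded_of_eigen`. -/
theorem growth {Φ : m.X → ℂ} (hinv : ∀ (g : PGL(2, K)) (x : m.X), Φ (g • x) = Φ x)
    {T : Set (XF m.L.fam)} (hT : ∀ y : XF m.L.fam, ∃ g : PGL(2, K), g • y ∈ T) {A : ℝ}
    (hA : 0 ≤ A) (hb : ∀ t ∈ T, ∃ C : ℝ, ∀ w : J → H3, ‖Φ (w, t)‖ ≤ C * cht w ^ A)
    {Y0 : Set (XF m.L.fam)} (hY0 : Y0.Finite) :
    ∀ c > 0, ∃ M, ∀ η ∈ Y0, ∀ w : J → H3, (∀ j, c ≤ (w j).y) →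
      ‖Φ (w, η)‖ ≤ M * H95S.ht w ^ A := by
  intro c hc
  have := H35BK.isTotallyComplex m
  obtain ⟨n, hn, hfix⟩ := H35BK.exists_stab m.L hY0
  have hn' : (n : FractionalIdeal (𝓞 K)⁰ K) ≠ 0 := by
    rwa [Ne, FractionalIdeal.coeIdeal_eq_zero]
  obtain ⟨B, hB0, hB⟩ := H58R.exists_translate K m.e m.e_bij (Units.mk0 _ hn')
  choose C hC0 hC using growth_all m hinv hT hA hb
  set D : ℝ := (B ^ 2 + 1) / c ^ 2 + 1 with hD
  have hD0 : 0 ≤ D := by positivity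
  refine ⟨(∑ η ∈ hY0.toFinset, C η) * (D ^ Fintype.card J) ^ A, fun η hη w hw => ?_⟩
  obtain ⟨a, ha, hz⟩ := hB fun j => -(w j).z
  obtain ⟨b, hb, rfl⟩ := (FractionalIdeal.mem_coeIdeal (𝓞 K)⁰).1 ha
  have hΦ : Φ (w, η) = Φ (H95S.tr (fun j => m.e j (b : K)) w, η) := by
    rw [← hinv (H35BK.nP b) (w, η)]
    show Φ (m.actInf (H35BK.nP b) w, H35BK.nP b • η) = _
    rw [hfix b hb η hη, H35BK.nP_actInf]
  rw [hΦ]
  have h1 : cht (H95S.tr (fun j => m.e j (b : K)) w) ≤ D ^ Fintype.card J * H95S.ht w := by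
    unfold cht H95S.ht
    rw [← Finset.card_univ, ← Finset.prod_const, ← Finset.prod_mul_distrib]
    refine Finset.prod_le_prod (fun j _ => zero_le_one.trans (one_le_ch _ _)) fun j _ => ?_
    refine ch_o_le _ hc ?_ ?_
    · exact hw j
    · have h2 := hz j
      rw [← norm_neg] at h2
      refine (le_of_eq ?_).trans h2
      congr 1
      rw [H95S.tr_z]
      ring
  have h3 : C η ≤ ∑ η ∈ hY0.toFinset, C η :=
    Finset.single_le_sum (f := C) (fun i _ => hC0 i) (by simpa using hη)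
  calc ‖Φ (H95S.tr (fun j => m.e j (b : K)) w, η)‖
      ≤ C η * cht (H95S.tr (fun j => m.e j (b : K)) w) ^ A := hC η _
    _ ≤ (∑ η ∈ hY0.toFinset, C η) * (D ^ Fintype.card J * H95S.ht w) ^ A :=
        mul_le_mul h3 (Real.rpow_le_rpow (cht_pos _).le h1 hA) (rpow_cht_nonneg _ _)
          ((hC0 η).trans h3)
    _ = (∑ η ∈ hY0.toFinset, C η) * (D ^ Fintype.card J) ^ A * H95S.ht w ^ A := by
        rw [Real.mul_rpow (by positivity) (H95S.ht_pos w).le, mul_assoc]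

/-! ### bounds which imply a bound by `cht` -/

/-- the bound `∏ (y_j + 1 / y_j) ^ A` -/
theorem le_of_prod {Φ : (J → H3) → ℂ} {A C : ℝ} (hA : 0 ≤ A)
    (h : ∀ w, ‖Φ w‖ ≤ C * ∏ j, ((w j).y + ((w j).y)⁻¹) ^ A) :
    ∃ C' : ℝ, ∀ w : J → H3, ‖Φ w‖ ≤ C' * cht w ^ A := by
  refine ⟨|C| * (2 ^ Fintype.card J) ^ A, fun w => (h w).trans ?_⟩
  have hp : ∀ j, 0 < (w j).y + ((w j).y)⁻¹ := fun j => add_pos (w j).pos (inv_pos.2 (w j).pos)
  have h1 : ∏ j, ((w j).y + ((w j).y)⁻¹) ^ A = (∏ j, ((w j).y + ((w j).y)⁻¹)) ^ A :=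
    Real.finsetProd_rpow _ _ (fun j _ => (hp j).le) A
  have h2 : ∏ j, ((w j).y + ((w j).y)⁻¹) ≤ 2 ^ Fintype.card J * cht w := by
    unfold cht
    rw [← Finset.card_univ, ← Finset.prod_const, ← Finset.prod_mul_distrib]
    exact Finset.prod_le_prod (fun j _ => (hp j).le) fun j _ => y_add_inv_le _
  rw [h1]
  calc C * (∏ j, ((w j).y + ((w j).y)⁻¹)) ^ A
      ≤ |C| * (∏ j, ((w j).y + ((w j).y)⁻¹)) ^ A := mul_le_mul_of_nonneg_right (le_abs_self C)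
        (Real.rpow_nonneg (Finset.prod_nonneg fun j _ => (hp j).le) _)
    _ ≤ |C| * (2 ^ Fintype.card J * cht w) ^ A := mul_le_mul_of_nonneg_left
        (Real.rpow_le_rpow (Finset.prod_nonneg fun j _ => (hp j).le) h2 hA) (abs_nonneg _)
    _ = |C| * (2 ^ Fintype.card J) ^ A * cht w ^ A := by
        rw [Real.mul_rpow (by positivity) (cht_pos w).le, mul_assoc]

theorem ht_add_inv_le (w : J → H3) :
    H95S.ht w + (H95S.ht w)⁻¹ ≤ 2 * 2 ^ Fintype.card J * cht w := by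
  have h1 : H95S.ht w ≤ 2 ^ Fintype.card J * cht w := by
    unfold cht H95S.ht
    rw [← Finset.card_univ, ← Finset.prod_const, ← Finset.prod_mul_distrib]
    exact Finset.prod_le_prod (fun j _ => (w j).pos.le) fun j _ => y_le _
  have h2 : (H95S.ht w)⁻¹ ≤ 2 ^ Fintype.card J * cht w := by
    unfold cht H95S.ht
    rw [← Finset.prod_inv_distrib, ← Finset.card_univ, ← Finset.prod_const,
      ← Finset.prod_mul_distrib]
    exact Finset.prod_le_prod (fun j _ => (inv_pos.2 (w j).pos).le) fun j _ => inv_y_le _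
  linarith

/-- the bound `(∏ y_j + 1 / ∏ y_j) ^ A` -/
theorem le_of_ht {Φ : (J → H3) → ℂ} {A C : ℝ} (hA : 0 ≤ A)
    (h : ∀ w, ‖Φ w‖ ≤ C * (H95S.ht w + (H95S.ht w)⁻¹) ^ A) :
    ∃ C' : ℝ, ∀ w : J → H3, ‖Φ w‖ ≤ C' * cht w ^ A := by
  refine ⟨|C| * (2 * 2 ^ Fintype.card J) ^ A, fun w => (h w).trans ?_⟩
  have hp : 0 < H95S.ht w + (H95S.ht w)⁻¹ :=
    add_pos (H95S.ht_pos w) (inv_pos.2 (H95S.ht_pos w))
  calc C * (H95S.ht w + (H95S.ht w)⁻¹) ^ A
      ≤ |C| * (H95S.ht w + (H95S.ht w)⁻¹) ^ A :=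
        mul_le_mul_of_nonneg_right (le_abs_self C) (Real.rpow_nonneg hp.le _)
    _ ≤ |C| * (2 * 2 ^ Fintype.card J * cht w) ^ A := mul_le_mul_of_nonneg_left
        (Real.rpow_le_rpow hp.le (ht_add_inv_le w) hA) (abs_nonneg _)
    _ = |C| * (2 * 2 ^ Fintype.card J) ^ A * cht w ^ A := by
        rw [Real.mul_rpow (by positivity) (cht_pos w).le, mul_assoc]

/-- It is enough to have the bound on balanced points. -/
theorem le_of_balanced [Nonempty J] {Φ : m.X → ℂ}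
    (hinv : ∀ (g : PGL(2, K)) (x : m.X), Φ (g • x) = Φ x) (t : XF m.L.fam) {A : ℝ} (hA : 0 ≤ A)
    (h : ∀ B : ℝ, ∃ C, ∀ w : J → H3, (∀ i j, (w i).y ≤ B * (w j).y) →
      ‖Φ (w, t)‖ ≤ C * (H95S.ht w + (H95S.ht w)⁻¹) ^ A) :
    ∃ C' : ℝ, ∀ w : J → H3, ‖Φ (w, t)‖ ≤ C' * cht w ^ A := by
  obtain ⟨B, -, hB⟩ := H35BK.hbal_aux m (Set.finite_singleton t)
  obtain ⟨C, hC⟩ := h B
  refine le_of_ht (C := C) hA fun w => ?_
  obtain ⟨g, hg1, hg2, hg3, -⟩ := hB t rfl w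
  have h1 := hC _ hg3
  rw [hg2] at h1
  have h2 : Φ (w, t) = Φ (m.actInf g w, g • t) := (hinv g (w, t)).symm
  rw [h2, hg1]
  exact h1

end Fermat.Agent.H78Gr
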