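import Fermat.Agent.H78Gr
import Fermat.Agent.H76U3

/-!
# S47, block (D): moderate growth at all cusps for `H76U.form` (helper78)
-/

set_option autoImplicit false

noncomputable section

open IsDedekindDomain HeightOneSpectrum WithZero NumberField Matrix MeasureTheory
open scoped MatrixGroups nonZeroDivisors

namespace Fermat.Agent.H78Gr

open Fermat.Agent.H59D Fermat.Agent.H59XF Fermat.Agent.H76U

variable {K : Type*} [Field K] [NumberField K] {J : Type*} [Fintype J] (m : Model K J)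
  {S : Finset (HeightOneSpectrum (𝓞 K))} {T : ∀ w, Typ (m.L.fam.U w)}
  {F : Zm m → XF (restr m.L.fam S) → ℂ}

/-- Moderate growth of `form m S F` at every finite component. -/
theorem growth_form_all (hF : OutTyped T S F) {A : ℝ} (hA : 0 ≤ A)
    (hb : ∀ y : XF (restr m.L.fam S), ∃ C : ℝ, ∀ w : J → H3, ‖F w y‖ ≤ C * cht w ^ A)
    (y : XF m.L.fam) : ∃ C : ℝ, 0 ≤ C ∧ ∀ w : J → H3, ‖form m S F (w, y)‖ ≤ C * cht w ^ A := by
  refine growth_all m (T := Set.range (inj m.L.fam S)) (fun g x => form_smul hF g x) ?_ hA ?_ y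
  · intro y
    obtain ⟨γ, z, hz⟩ := (wa m S).exists_smul_inj y
    exact ⟨γ⁻¹, z, by rw [hz, inv_smul_smul]⟩
  · rintro _ ⟨z, rfl⟩
    obtain ⟨C, hC⟩ := hb z
    exact ⟨C, fun w => by rw [form_inj hF]; exact hC w⟩

/-- Moderate growth of `form m S F` on the half spaces: the hypothesis `hgrow` of
`H95S.bounded_of_eigen`. -/
theorem growth_form (hF : OutTyped T S F) {A : ℝ} (hA : 0 ≤ A)
    (hb : ∀ y : XF (restr m.L.fam S), ∃ C : ℝ, ∀ w : J → H3, ‖F w y‖ ≤ C * cht w ^ A)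
    {Y0 : Set (XF m.L.fam)} (hY0 : Y0.Finite) :
    ∀ c > 0, ∃ M, ∀ η ∈ Y0, ∀ w : J → H3, (∀ j, c ≤ (w j).y) →
      ‖form m S F (w, η)‖ ≤ M * H95S.ht w ^ A := by
  refine growth m (T := Set.range (inj m.L.fam S)) (fun g x => form_smul hF g x) ?_ hA ?_ hY0
  · intro y
    obtain ⟨γ, z, hz⟩ := (wa m S).exists_smul_inj y
    exact ⟨γ⁻¹, z, by rw [hz, inv_smul_smul]⟩
  · rintro _ ⟨z, rfl⟩
    obtain ⟨C, hC⟩ := hb z
    exact ⟨C, fun w => by rw [form_inj hF]; exact hC w⟩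

end Fermat.Agent.H78Gr
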