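import Mathlib
import Fermat.Agent.H29Connected
import Fermat.Prelude.Def_ModularCurve_LaurentCoeff

/-! # Descent of a function field to a smaller constant field (helper78) -/

set_option autoImplicit false

namespace Fermat.Agent.H78.KI

open Polynomial ModularCurve IntermediateField Fermat.Agent.H29
open scoped IntermediateField.algebraAdjoinAdjoin

noncomputable section

section Abstract

variable {L₀ K E F : Type*} [Field L₀] [Field K] [Field E] [Field F] [Algebra L₀ K]
  [Algebra L₀ E] [Algebra K F] (i : E →+* F)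
  (hi : ∀ c : L₀, i (algebraMap L₀ E c) = algebraMap K F (algebraMap L₀ K c))
  (hLD : ∀ (n : ℕ) (w : Fin n → E), LinearIndependent L₀ w → LinearIndependent K fun a => i (w a))
  {s : E}

include hi in
theorem map_aeval_desc (p : L₀[X]) :
    i (aeval s p) = aeval (i s) (p.map (algebraMap L₀ K)) := by
  induction p using Polynomial.induction_on' with
  | add p q hp hq => rw [map_add, map_add, hp, hq, Polynomial.map_add, map_add]
  | monomial n a =>
    rw [aeval_monomial, map_mul, map_pow, hi, Polynomial.map_monomial, aeval_monomial]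

include hi in
theorem transcendental_of_map (hs : Transcendental K (i s)) : Transcendental L₀ s := by
  rw [transcendental_iff] at hs ⊢
  intro p hp
  have := hs (p.map (algebraMap L₀ K)) (by rw [← map_aeval_desc i hi, hp, map_zero])
  rwa [Polynomial.map_eq_zero] at this

variable (L₀ s) in
/-- The generator as an element of `L₀⟮s⟯`. -/
def sK : L₀⟮s⟯ := AdjoinSimple.gen L₀ s

@[simp] theorem coe_sK : ((sK L₀ s : L₀⟮s⟯) : E) = s := AdjoinSimple.coe_gen L₀ s

theorem isRatGen (hs : Transcendental L₀ s) : IsRatGen L₀ (sK L₀ s) where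
  transc := by
    intro p hp
    apply (transcendental_iff.mp hs) p
    have := congrArg (algebraMap L₀⟮s⟯ E) hp
    rw [← aeval_algebraMap_apply, map_zero] at this
    exact this
  surj := by
    intro x
    obtain ⟨r, q, hrq⟩ := (mem_adjoin_simple_iff L₀ (x : E)).mp x.2
    by_cases hq : aeval s q = 0
    · refine ⟨0, 1, one_ne_zero, ?_⟩
      have : x = 0 := by
        apply Subtype.ext
        rw [hrq, hq, div_zero]; rfl
      rw [this, zero_mul, map_zero]
    · refine ⟨r, q, ?_, ?_⟩
      · rintro rfl
        exact hq (map_zero _)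
      · apply Subtype.ext
        have h1 : ∀ p : L₀[X], ((aeval (sK L₀ s) p : L₀⟮s⟯) : E) = aeval s p := fun p => by
          have := aeval_algebraMap_apply E (sK L₀ s) p
          exact this.symm
        rw [MulMemClass.coe_mul, h1, h1, hrq, div_mul_cancel₀ _ hq]

include hi hLD in
theorem linearIndependent_desc (hs : Transcendental K (i s)) {m : ℕ} (e : Fin m → E)
    (he : LinearIndependent L₀⟮s⟯ e) : LinearIndependent K⟮i s⟯ fun a => i (e a) := by
  have hs0 := transcendental_of_map i hi hs
  -- monomials
  have hmon : ∀ N : ℕ, LinearIndependent L₀ fun x : Fin N × Fin m => s ^ (x.1 : ℕ) * e x.2 := by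
    intro N
    rw [Fintype.linearIndependent_iff]
    intro c hc
    have h1 : ∀ a, (∑ k : Fin N, C (c (k, a)) * X ^ (k : ℕ) : L₀[X]) = 0 := by
      have h2 := Fintype.linearIndependent_iff.mp he
        (fun a => ∑ k : Fin N, algebraMap L₀ L₀⟮s⟯ (c (k, a)) * sK L₀ s ^ (k : ℕ)) (by
          rw [← hc, Fintype.sum_prod_type_right]
          refine Finset.sum_congr rfl fun a _ => ?_
          rw [Finset.sum_smul]
          refine Finset.sum_congr rfl fun k _ => ?_
          rw [Algebra.smul_def, Algebra.smul_def]
          have : algebraMap L₀⟮s⟯ E (algebraMap L₀ L₀⟮s⟯ (c (k, a)) * sK L₀ s ^ (k : ℕ)) =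
              algebraMap L₀ E (c (k, a)) * s ^ (k : ℕ) := by
            rw [map_mul, map_pow]; rfl
          rw [this]; ring)
      intro a
      apply (transcendental_iff.mp hs0)
      have h3 := congrArg (algebraMap L₀⟮s⟯ E) (h2 a)
      rw [map_sum, map_zero] at h3
      rw [map_sum, ← h3]
      refine Finset.sum_congr rfl fun k _ => ?_
      rw [map_mul, map_pow, map_mul, map_pow, aeval_C, aeval_X]
      rfl
    rintro ⟨k, a⟩
    have h4 := congrArg (fun p : L₀[X] => p.coeff (k : ℕ)) (h1 a)
    simp only [finsetSum_coeff, coeff_C_mul, coeff_X_pow, coeff_zero] at h4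
    rw [Finset.sum_eq_single k] at h4
    · simpa using h4
    · intro b _ hb
      rw [if_neg (fun h => hb (Fin.ext h.symm)), mul_zero]
    · intro h; exact absurd (Finset.mem_univ _) h
  have hmonK : ∀ N : ℕ, LinearIndependent K
      fun x : Fin N × Fin m => i s ^ (x.1 : ℕ) * i (e x.2) := by
    intro N
    have h1 := hLD (N * m) (fun a => s ^ ((finProdFinEquiv.symm a).1 : ℕ) *
      e (finProdFinEquiv.symm a).2) ((hmon N).comp _ finProdFinEquiv.symm.injective)
    have h2 := h1.comp _ (finProdFinEquiv (m := N) (n := m)).injective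
    convert h2 using 1
    ext x
    rw [Function.comp_apply, Equiv.symm_apply_apply, map_mul, map_pow]
  rw [← LinearIndependent.iff_fractionRing (Algebra.adjoin K {i s}) K⟮i s⟯,
    Fintype.linearIndependent_iff]
  intro r hr
  -- polynomials
  have hr' : ∀ a, ∃ p : K[X], aeval (i s) p = ((r a : Algebra.adjoin K {i s}) : F) := by
    intro a
    have h1 : ∀ z ∈ Algebra.adjoin K {i s}, ∃ p : K[X], aeval (i s) p = z := by
      intro z hz
      rw [Algebra.adjoin_singleton_eq_range_aeval] at hz
      exact hz
    exact h1 _ (r a).2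
  choose p hp using hr'
  have hp0 : ∀ a, p a = 0 := by
    let N := (Finset.univ.sup fun a => (p a).natDegree) + 1
    have hN : ∀ a, (p a).natDegree < N := fun a =>
      Nat.lt_succ_of_le (Finset.le_sup (f := fun a => (p a).natDegree) (Finset.mem_univ a))
    have h1 := Fintype.linearIndependent_iff.mp (hmonK N) (fun x => (p x.2).coeff (x.1 : ℕ)) (by
      rw [Fintype.sum_prod_type_right, ← hr]
      refine Finset.sum_congr rfl fun a _ => ?_
      have h2 : r a • i (e a) = aeval (i s) (p a) * i (e a) := by
        rw [Algebra.smul_def, hp]; rfl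
      rw [h2, aeval_eq_sum_range' (hN a), Finset.sum_mul, Finset.sum_range]
      refine Finset.sum_congr rfl fun k _ => ?_
      rw [smul_mul_assoc])
    intro a
    ext k
    rw [coeff_zero]
    rcases lt_or_ge k N with hk | hk
    · exact h1 (⟨k, hk⟩, a)
    · exact coeff_eq_zero_of_natDegree_lt ((hN a).trans_le hk)
  intro a
  apply Subtype.ext
  rw [← hp a, hp0 a, map_zero]
  rfl

include hi hLD in
/-- degree bound for the descended field -/
theorem finite_desc (hs : Transcendental K (i s)) [FiniteDimensional K⟮i s⟯ F] :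
    FiniteDimensional L₀⟮s⟯ E ∧ Module.finrank L₀⟮s⟯ E ≤ Module.finrank K⟮i s⟯ F := by
  have h1 : Module.rank L₀⟮s⟯ E ≤ Module.finrank K⟮i s⟯ F := by
    apply rank_le
    intro t ht
    have h2 : LinearIndependent L₀⟮s⟯ fun a : Fin t.card => ((t.equivFin.symm a : t) : E) :=
      ht.comp _ t.equivFin.symm.injective
    have h3 := linearIndependent_desc i hi hLD hs _ h2
    have := h3.fintype_card_le_finrank
    simpa using this
  have h2 : Module.rank L₀⟮s⟯ E < Cardinal.aleph0 := h1.trans_lt Cardinal.natCast_lt_aleph0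
  have h3 : FiniteDimensional L₀⟮s⟯ E := Module.rank_lt_aleph0_iff.mp h2
  refine ⟨h3, ?_⟩
  rw [← Module.finrank_eq_rank] at h1
  exact_mod_cast h1

end Abstract

section Laurent

variable {L₀ K : Type*} [Field L₀] [Field K] [Algebra L₀ K]

/-- linear disjointness of `L₀((t))` and `K` -/
theorem linearIndependent_coeffMap {κ : Type*} [Finite κ] (w : κ → LaurentSeries L₀)
    (hw : ∀ c : κ → L₀, (∀ n, ∑ᶠ a, c a * (w a).coeff n = 0) → ∀ a, c a = 0)
    (c : κ → K) (hc : ∀ n, ∑ᶠ a, c a * algebraMap L₀ K ((w a).coeff n) = 0) (a : κ) : c a = 0 := by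
  classical
  by_contra ha
  have : Fintype κ := Fintype.ofFinite κ
  simp only [finsum_eq_sum_of_fintype] at hw hc
  obtain ⟨φ, hφ⟩ : ∃ φ : K →ₗ[L₀] L₀, φ (c a) = 1 := by
    have hinj : LinearMap.ker (LinearMap.toSpanSingleton L₀ K (c a)) = ⊥ :=
      LinearMap.ker_toSpanSingleton L₀ ha
    obtain ⟨φ, hφ⟩ := LinearMap.exists_leftInverse_of_injective _ hinj
    refine ⟨φ, ?_⟩
    have := DFunLike.congr_fun hφ (1 : L₀)
    simpa using this
  have h1 := hw (fun b => φ (c b)) (fun n => by
    have h2 := congrArg φ (hc n)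
    rw [map_sum, map_zero] at h2
    rw [← h2]
    refine Finset.sum_congr rfl fun b _ => ?_
    rw [mul_comm (c b), ← Algebra.smul_def, map_smul, smul_eq_mul, mul_comm]) a
  rw [hφ] at h1
  exact one_ne_zero h1

end Laurent

end

end Fermat.Agent.H78.KI
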