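import Mathlib
import Fermat.Agent.H29Connected
import Fermat.Agent.H60Norm

/-! # The Gauss valuation and `q`-expansions of conjugates (helper78) -/

set_option autoImplicit false

namespace Fermat.Agent.H78.KI

open Polynomial ModularCurve IsLocalRing Fermat.Agent.H29

noncomputable section

section BB

variable {A 𝕂 : Type*} [CommRing A] [IsLocalRing A] [Field 𝕂] (ι : A →+* 𝕂)

variable (A) in
/-- reduction of the coefficients of a Laurent series -/
def redL : LaurentSeries A →+* LaurentSeries (ResidueField A) := coeffMap (residue A)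

/-- Laurent series `a / b`, `a, b ∈ A((t))`, `b` nonzero modulo the maximal ideal. -/
def BB : Subring (LaurentSeries 𝕂) where
  carrier := {x | ∃ a b : LaurentSeries A, redL A b ≠ 0 ∧ x * coeffMap ι b = coeffMap ι a}
  mul_mem' := by
    rintro c c' ⟨a, b, hb, h⟩ ⟨a', b', hb', h'⟩
    refine ⟨a * a', b * b', by rw [map_mul]; exact mul_ne_zero hb hb', ?_⟩
    rw [map_mul, map_mul, ← h, ← h']; ring
  one_mem' := ⟨1, 1, by rw [map_one]; exact one_ne_zero, by simp⟩
  add_mem' := by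
    rintro c c' ⟨a, b, hb, h⟩ ⟨a', b', hb', h'⟩
    refine ⟨a * b' + a' * b, b * b', by rw [map_mul]; exact mul_ne_zero hb hb', ?_⟩
    rw [map_add, map_mul, map_mul, map_mul, ← h, ← h']; ring
  zero_mem' := ⟨0, 1, by rw [map_one]; exact one_ne_zero, by simp⟩
  neg_mem' := by
    rintro c ⟨a, b, hb, h⟩
    exact ⟨-a, b, hb, by rw [map_neg, ← h]; ring⟩

variable {ι}

theorem mem_BB {x : LaurentSeries 𝕂} : x ∈ BB ι ↔
    ∃ a b : LaurentSeries A, redL A b ≠ 0 ∧ x * coeffMap ι b = coeffMap ι a := Iff.rfl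

theorem coeffMap_mem_BB (a : LaurentSeries A) : coeffMap ι a ∈ BB ι :=
  ⟨a, 1, by rw [map_one]; exact one_ne_zero, by simp⟩

theorem mem_BB_of_mul_mem {x : LaurentSeries 𝕂} {b : LaurentSeries A} (hb : redL A b ≠ 0)
    (h : x * coeffMap ι b ∈ BB ι) : x ∈ BB ι := by
  obtain ⟨a, b', hb', h'⟩ := h
  exact ⟨a, b * b', by rw [map_mul]; exact mul_ne_zero hb hb', by
    rw [map_mul, ← h']; ring⟩

theorem coeffMap_injective {R S : Type*} [CommRing R] [CommRing S] {f : R →+* S}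
    (hf : Function.Injective f) : Function.Injective (coeffMap f) := by
  intro x y h
  ext n
  apply hf
  have := congrArg (fun z : LaurentSeries S => z.coeff n) h
  simpa using this

end BB

section Gauss

variable {𝔬 L₀ K₀ : Type*} [CommRing 𝔬] [IsDomain 𝔬] [IsDiscreteValuationRing 𝔬]
  [Field L₀] [CharZero L₀] [Algebra 𝔬 L₀] [IsFractionRing 𝔬 L₀]
  [Field K₀] [Algebra L₀ K₀] [Algebra 𝔬 K₀] [IsScalarTower 𝔬 L₀ K₀]
  {s : K₀} (hs : IsRatGen L₀ s)
  {A 𝕂 : Type*} [CommRing A] [IsLocalRing A] [Field 𝕂] (ι : A →+* 𝕂)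
  (g : 𝔬 →+* A) [IsLocalHom g]
  (j : K₀ →+* LaurentSeries 𝕂) (hj : ∀ c : 𝔬, j (algebraMap 𝔬 K₀ c) = HahnSeries.C (ι (g c)))
  (s' : LaurentSeries A) (hs' : coeffMap ι s' = j s)
  (hs'' : ∀ p : (ResidueField A)[X], p.eval₂ HahnSeries.C (redL A s') = 0 → p = 0)

include hj hs' in
theorem map_aeval_eq (p : 𝔬[X]) :
    j (aeval s p) = coeffMap ι (p.eval₂ (HahnSeries.C.comp g) s') := by
  have h : j.comp ((aeval s : 𝔬[X] →ₐ[𝔬] K₀) : 𝔬[X] →+* K₀) =
      (coeffMap ι).comp (eval₂RingHom (HahnSeries.C.comp g) s') := by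
    apply Polynomial.ringHom_ext
    · intro a
      simp only [RingHom.coe_comp, Function.comp_apply, RingHom.coe_coe, aeval_C, hj,
        coe_eval₂RingHom, eval₂_C]
      rw [HahnSeries.C_apply, HahnSeries.C_apply, coeffMap_single]
    · simp only [RingHom.coe_comp, Function.comp_apply, RingHom.coe_coe, aeval_X, ← hs',
        coe_eval₂RingHom, eval₂_X]
  exact DFunLike.congr_fun h p

theorem redL_eval₂ (p : 𝔬[X]) :
    redL A (p.eval₂ (HahnSeries.C.comp g) s') =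
      ((p.map (residue 𝔬)).map (ResidueField.map g)).eval₂ HahnSeries.C (redL A s') := by
  rw [hom_eval₂, eval₂_map, eval₂_map]
  congr 1
  ext1 a
  simp only [RingHom.coe_comp, Function.comp_apply, ResidueField.map_residue]
  rw [HahnSeries.C_apply, HahnSeries.C_apply]
  exact coeffMap_single _ _ _

include hs'' in
theorem redL_eval₂_ne_zero {p : 𝔬[X]} (hp : p.map (residue 𝔬) ≠ 0) :
    redL A (p.eval₂ (HahnSeries.C.comp g) s') ≠ 0 := by
  rw [redL_eval₂]
  intro h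
  have := hs'' _ h
  rw [Polynomial.map_eq_zero] at this
  exact hp this

include hj hs' hs'' in
theorem map_gaussRing_mem_BB {c : K₀} (hc : c ∈ gaussRing 𝔬 s) : j c ∈ BB ι := by
  obtain ⟨a, b, hb, h⟩ := hc
  refine ⟨a.eval₂ (HahnSeries.C.comp g) s', b.eval₂ (HahnSeries.C.comp g) s',
    redL_eval₂_ne_zero g s' hs'' hb, ?_⟩
  rw [← map_aeval_eq ι g j hj s' hs', ← map_aeval_eq ι g j hj s' hs', ← h, map_mul]

include hs hj hs' hs'' in
theorem mem_gaussRing_of_mem_BB (hι : Function.Injective ι) {ϖ : 𝔬} (hϖ : Irreducible ϖ) {c : K₀}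
    (hc : j c ∈ BB ι) : c ∈ gaussRing 𝔬 s := by
  rcases eq_or_ne c 0 with rfl | hc0
  · exact zero_mem _
  have hinj := IsFractionRing.injective 𝔬 L₀
  -- numerator and denominator in `𝔬[X]`
  obtain ⟨p, q, hq, hpq⟩ := hs.surj c
  obtain ⟨d, q₁, hd, hq₁⟩ := exists_smul_map_eq (𝔬 := 𝔬) q
  obtain ⟨e, p₁, he, hp₁⟩ := exists_smul_map_eq (𝔬 := 𝔬) p
  have haev : ∀ r : 𝔬[X], aeval s r = aeval s (r.map (algebraMap 𝔬 L₀)) := fun r => by
    rw [aeval_map_algebraMap]
  have h1 : c * aeval s (C e * q₁) = aeval s (C d * p₁) := by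
    rw [haev, haev, Polynomial.map_mul, Polynomial.map_mul, hq₁, hp₁, Polynomial.map_C,
      Polynomial.map_C]
    simp only [map_mul]
    linear_combination (aeval s (C (algebraMap 𝔬 L₀ e)) * aeval s (C (algebraMap 𝔬 L₀ d))) * hpq
  set P := C d * p₁ with hP
  set Q := C e * q₁ with hQ
  have hd' : algebraMap 𝔬 L₀ d ≠ 0 := by
    have := hinj.ne hd
    rwa [map_zero] at this
  have hq₁0 : q₁ ≠ 0 := by
    rintro rfl
    rw [Polynomial.map_zero] at hq₁
    rcases mul_eq_zero.mp hq₁.symm with h | h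
    · exact hd' (by simpa using h)
    · exact hq h
  have hQ0 : Q ≠ 0 := mul_ne_zero (by simpa using he) hq₁0
  have hsQ : aeval s Q ≠ 0 := fun h => hQ0 (hs.aeval_eq_zero h)
  have hP0 : P ≠ 0 := by
    intro h
    rw [h, map_zero] at h1
    rcases mul_eq_zero.mp h1 with h | h
    · exact hc0 h
    · exact hsQ h
  -- powers of `ϖ`
  have hu : ¬ IsUnit (C ϖ : 𝔬[X]) := (Polynomial.prime_C_iff.mpr hϖ.prime).not_isUnit
  obtain ⟨k, Q', hQ', hQd⟩ : ∃ (k : ℕ) (Q' : 𝔬[X]), Q = C ϖ ^ k * Q' ∧ ¬ C ϖ ∣ Q' :=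
    ⟨_, (FiniteMultiplicity.of_not_isUnit hu hQ0).exists_eq_pow_mul_and_not_dvd⟩
  obtain ⟨l, P', hP', hPd⟩ : ∃ (l : ℕ) (P' : 𝔬[X]), P = C ϖ ^ l * P' ∧ ¬ C ϖ ∣ P' :=
    ⟨_, (FiniteMultiplicity.of_not_isUnit hu hP0).exists_eq_pow_mul_and_not_dvd⟩
  rw [← map_residue_eq_zero_iff hϖ] at hQd hPd
  have hϖ0 : aeval s (C ϖ : 𝔬[X]) ≠ 0 := fun h => by
    have := hs.aeval_eq_zero h
    exact hϖ.ne_zero (by simpa using this)
  rw [hQ', hP', map_mul, map_mul, map_pow, map_pow] at h1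
  rcases le_or_gt k l with hkl | hkl
  · obtain ⟨m, rfl⟩ := Nat.exists_eq_add_of_le hkl
    refine ⟨C ϖ ^ m * P', Q', hQd, ?_⟩
    apply mul_left_cancel₀ (pow_ne_zero k hϖ0)
    rw [map_mul, map_pow]
    linear_combination h1
  · exfalso
    obtain ⟨m, hm⟩ := Nat.exists_eq_add_of_lt hkl
    have h2 : c * aeval s (C ϖ ^ (m + 1) * Q') = aeval s P' := by
      apply mul_left_cancel₀ (pow_ne_zero l hϖ0)
      rw [map_mul, map_pow]
      rw [hm] at h1
      linear_combination h1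
    obtain ⟨a, b, hb, hab⟩ := hc
    have h3 := congrArg j h2
    rw [map_mul, map_aeval_eq ι g j hj s' hs', map_aeval_eq ι g j hj s' hs'] at h3
    have h4 : coeffMap ι (a * (C ϖ ^ (m + 1) * Q').eval₂ (HahnSeries.C.comp g) s') =
        coeffMap ι (P'.eval₂ (HahnSeries.C.comp g) s' * b) := by
      rw [map_mul, map_mul, ← h3, ← hab]; ring
    have h5 := congrArg (redL A) (coeffMap_injective hι h4)
    rw [map_mul, map_mul, redL_eval₂] at h5
    have h6 : (C ϖ ^ (m + 1) * Q').map (residue 𝔬) = 0 := by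
      rw [map_residue_eq_zero_iff hϖ, pow_succ', mul_assoc]
      exact dvd_mul_right _ _
    rw [h6, Polynomial.map_zero, eval₂_zero, mul_zero] at h5
    rcases mul_eq_zero.mp h5.symm with h | h
    · exact redL_eval₂_ne_zero g s' hs'' hPd h
    · exact hb h

end Gauss

end

end Fermat.Agent.H78.KI
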