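import Mathlib
import Fermat.Agent.H78KIGauss

/-! # Self-duality at the Gauss valuation from separated conjugates (helper78) -/

set_option autoImplicit false

namespace Fermat.Agent.H78.KI

open Polynomial ModularCurve IsLocalRing Fermat.Agent.H29

noncomputable section

/-- The trace as a sum over a family of distinct embeddings of the right cardinality. -/
theorem map_trace_eq_sum {F F' E : Type*} [Field F] [Field F'] [Field E] [Algebra F F']
    [FiniteDimensional F F'] [Algebra.IsSeparable F F'] (j : F →+* E) {ι : Type*} [Fintype ι]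
    (σ : ι → (F' →+* E)) (hj : ∀ i x, σ i (algebraMap F F' x) = j x)
    (hσ : Function.Injective σ)
    (hcard : Module.finrank F F' ≤ Fintype.card ι) (z : F') :
    j (Algebra.trace F F' z) = ∑ i, σ i z := by
  classical
  let _ : Algebra F E := j.toAlgebra
  let s : ι → (F' →ₐ[F] E) := fun i => { σ i with commutes' := fun x => hj i x }
  have hs : Function.Injective s := by
    intro i i' h
    apply hσ
    ext x
    exact DFunLike.congr_fun h x
  let Ω := AlgebraicClosure E
  let e0 : E →ₐ[F] Ω := IsScalarTower.toAlgHom F E Ω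
  have he0 : Function.Injective e0 := e0.toRingHom.injective
  apply he0
  let e : ι → (F' →ₐ[F] Ω) := fun i => e0.comp (s i)
  have he : Function.Injective e := by
    intro i i' h
    apply hs
    ext x
    exact he0 (DFunLike.congr_fun h x)
  have hcard' : Fintype.card (F' →ₐ[F] Ω) = Module.finrank F F' := AlgHom.card F F' Ω
  have hbij : Function.Bijective e := by
    rw [Fintype.bijective_iff_injective_and_card]
    refine ⟨he, le_antisymm (Fintype.card_le_of_injective e he) ?_⟩
    rw [hcard']; exact hcard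
  have h1 : e0 (j (Algebra.trace F F' z)) = algebraMap F Ω (Algebra.trace F F' z) :=
    (IsScalarTower.algebraMap_apply F E Ω (Algebra.trace F F' z)).symm
  rw [h1, trace_eq_sum_embeddings Ω, map_sum]
  exact (hbij.sum_comp (fun τ : F' →ₐ[F] Ω => τ z)).symm

/-- If all conjugates lie in a subring, so do the coefficients of the minimal polynomial. -/
theorem minpoly_coeff_mem {F F' E : Type*} [Field F] [Field F'] [Field E] [Algebra F F']
    [FiniteDimensional F F'] [Algebra.IsSeparable F F'] (j : F →+* E) {ι : Type*} [Fintype ι]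
    (σ : ι → (F' →+* E)) (hj : ∀ i x, σ i (algebraMap F F' x) = j x)
    (hσ : Function.Injective σ)
    (hcard : Module.finrank F F' ≤ Fintype.card ι) (B : Subring E) {y : F'}
    (hy : ∀ i, σ i y ∈ B) (n : ℕ) : j ((minpoly F y).coeff n) ∈ B := by
  classical
  let _ : Algebra F E := j.toAlgebra
  let s : ι → (F' →ₐ[F] E) := fun i => { σ i with commutes' := fun x => hj i x }
  have hs : Function.Injective s := by
    intro i i' h
    apply hσ
    ext x
    exact DFunLike.congr_fun h x
  let Ω := AlgebraicClosure E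
  let e0 : E →ₐ[F] Ω := IsScalarTower.toAlgHom F E Ω
  have he0 : Function.Injective e0 := e0.toRingHom.injective
  let e : ι → (F' →ₐ[F] Ω) := fun i => e0.comp (s i)
  have he : Function.Injective e := by
    intro i i' h
    apply hs
    ext x
    exact he0 (DFunLike.congr_fun h x)
  have hcard' : Fintype.card (F' →ₐ[F] Ω) = Module.finrank F F' := AlgHom.card F F' Ω
  have hbij : Function.Bijective e := by
    rw [Fintype.bijective_iff_injective_and_card]
    refine ⟨he, le_antisymm (Fintype.card_le_of_injective e he) ?_⟩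
    rw [hcard']; exact hcard
  have hroots : ∀ r ∈ (minpoly F y).rootSet Ω, ∃ b ∈ B, e0 b = r := by
    intro r hr
    rw [← Algebra.IsAlgebraic.range_eval_eq_rootSet_minpoly Ω y] at hr
    obtain ⟨ψ, rfl⟩ := hr
    obtain ⟨i, rfl⟩ := hbij.2 ψ
    exact ⟨_, hy i, rfl⟩
  have hmonic : ((minpoly F y).map (algebraMap F Ω)).Monic :=
    (minpoly.monic (Algebra.IsIntegral.isIntegral y)).map _
  let a1 : Algebra B Ω := ((e0 : E →+* Ω).comp B.subtype).toAlgebra
  have hlift : (minpoly F y).map (algebraMap F Ω) ∈ Polynomial.lifts (algebraMap B Ω) := by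
    apply Polynomial.Splits.mem_lift_of_roots_mem_range (IsAlgClosed.splits _) hmonic
    intro a ha
    have ha' : a ∈ (minpoly F y).rootSet Ω := by
      rw [Polynomial.rootSet, Finset.mem_coe, Multiset.mem_toFinset]
      exact ha
    obtain ⟨b, hb, hb2⟩ := hroots a ha'
    exact ⟨⟨b, hb⟩, hb2⟩
  rw [Polynomial.lifts_iff_coeff_lifts] at hlift
  obtain ⟨b, hb⟩ := hlift n
  rw [Polynomial.coeff_map] at hb
  have h1 : e0 (b : E) = e0 (j ((minpoly F y).coeff n)) :=
    hb.trans (IsScalarTower.algebraMap_apply F E Ω _)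
  rw [← he0 h1]
  exact b.2

section Dual

variable {𝔬 L₀ K₀ E : Type*} [CommRing 𝔬] [IsDomain 𝔬] [IsDiscreteValuationRing 𝔬]
  [Field L₀] [CharZero L₀] [Algebra 𝔬 L₀] [IsFractionRing 𝔬 L₀]
  [Field K₀] [Algebra L₀ K₀] [Algebra 𝔬 K₀] [IsScalarTower 𝔬 L₀ K₀]
  [Field E] [Algebra K₀ E] [FiniteDimensional K₀ E]
  {s : K₀} (hs : IsRatGen L₀ s) {ϖ : 𝔬} (hϖ : Irreducible ϖ)
  {A 𝕂 : Type*} [CommRing A] [IsLocalRing A] [Field 𝕂] (ι : A →+* 𝕂)
  (hι : Function.Injective ι)
  (g : 𝔬 →+* A) [IsLocalHom g]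
  (j : K₀ →+* LaurentSeries 𝕂) (hj : ∀ c : 𝔬, j (algebraMap 𝔬 K₀ c) = HahnSeries.C (ι (g c)))
  (s' : LaurentSeries A) (hs' : coeffMap ι s' = j s)
  (hs'' : ∀ p : (ResidueField A)[X], p.eval₂ HahnSeries.C (redL A s') = 0 → p = 0)
  {d : ℕ} (σ : Fin d → (E →+* LaurentSeries 𝕂)) (hσj : ∀ i x, σ i (algebraMap K₀ E x) = j x)
  (hσ : Function.Injective σ) (hd : Module.finrank K₀ E ≤ d)

include hs hϖ hι hj hs' hs'' hσj hσ hd in
theorem isIntegral_of_forall_mem_BB {y : E} (hy : ∀ i, σ i y ∈ BB ι) :
    IsIntegral (gaussRing 𝔬 s) y := by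
  have hcharK : CharZero K₀ := charZero_of_injective_algebraMap (algebraMap L₀ K₀).injective
  have h1 : ∀ n, (minpoly K₀ y).coeff n ∈ gaussRing 𝔬 s := fun n =>
    mem_gaussRing_of_mem_BB hs ι g j hj s' hs' hs'' hι hϖ
      (minpoly_coeff_mem j σ hσj hσ (by simpa using hd) (BB ι) hy n)
  have hmem : minpoly K₀ y ∈ Polynomial.lifts (gaussRing 𝔬 s).subtype := by
    rw [Polynomial.lifts_iff_coeff_lifts]
    intro n
    exact ⟨⟨_, h1 n⟩, rfl⟩
  obtain ⟨q, hq, -, hqm⟩ := Polynomial.lifts_and_natDegree_eq_and_monic hmem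
    (minpoly.monic (Algebra.IsIntegral.isIntegral y))
  refine ⟨q, hqm, ?_⟩
  have h2 : algebraMap (gaussRing 𝔬 s) E = (algebraMap K₀ E).comp (gaussRing 𝔬 s).subtype := rfl
  rw [h2, ← eval₂_map, hq]
  exact minpoly.aeval K₀ y

include hs hϖ hι hj hs' hs'' hσj hσ hd in
/-- **Self-duality at the Gauss valuation.** -/
theorem selfDual (θ : E) (θ' : Fin d → LaurentSeries A) (hθ : ∀ i, coeffMap ι (θ' i) = σ i θ)
    (hsep : Function.Injective fun i => redL A (θ' i)) (y : E)
    (hy : ∀ z : E, IsIntegral (gaussRing 𝔬 s) z →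
      Algebra.trace K₀ E (y * z) ∈ gaussRing 𝔬 s) : IsIntegral (gaussRing 𝔬 s) y := by
  have hcharK : CharZero K₀ := charZero_of_injective_algebraMap (algebraMap L₀ K₀).injective
  have hint := fun (y : E) (hy : ∀ i, σ i y ∈ BB ι) =>
    isIntegral_of_forall_mem_BB hs hϖ ι hι g j hj s' hs' hs'' σ hσj hσ hd hy
  apply hint
  -- the traces
  have hθint : ∀ k : ℕ, IsIntegral (gaussRing 𝔬 s) (θ ^ k) := fun k => hint _ fun i => by
    rw [map_pow, ← hθ, ← map_pow]
    exact coeffMap_mem_BB _
  have hc : ∀ k : ℕ, ∑ i, σ i y * coeffMap ι (θ' i ^ k) ∈ BB ι := by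
    intro k
    have h1 := map_gaussRing_mem_BB ι g j hj s' hs' hs'' (hy _ (hθint k))
    rw [map_trace_eq_sum j σ hσj hσ (by simpa using hd)] at h1
    convert h1 using 2 with i
    rw [map_mul, map_pow, map_pow, hθ]
  -- the Vandermonde matrix
  let V : Matrix (Fin d) (Fin d) (LaurentSeries A) := Matrix.vandermonde θ'
  let W : Matrix (Fin d) (Fin d) (LaurentSeries 𝕂) := (coeffMap ι).mapMatrix V
  have hdet : redL A V.det ≠ 0 := by
    have h1 : redL A V.det = (Matrix.vandermonde fun i => redL A (θ' i)).det := by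
      rw [RingHom.map_det]
      congr 1
      ext i k
      simp [V, Matrix.vandermonde_apply]
    rw [h1]
    exact Matrix.det_vandermonde_ne_zero_iff.mpr hsep
  have hadj : W.transpose.adjugate * W.transpose = W.transpose.det • 1 :=
    Matrix.adjugate_mul _
  intro i
  apply mem_BB_of_mul_mem hdet
  have h2 : W.transpose.adjugate.mulVec (W.transpose.mulVec fun i => σ i y) =
      W.transpose.det • fun i => σ i y := by
    rw [Matrix.mulVec_mulVec, hadj, Matrix.smul_mulVec, Matrix.one_mulVec]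
  have h3 := congrFun h2 i
  have h4 : W.transpose.det = coeffMap ι V.det := by
    rw [Matrix.det_transpose, RingHom.map_det]
  rw [Pi.smul_apply, smul_eq_mul, h4, mul_comm] at h3
  rw [← h3]
  -- the entries of the adjugate
  have h5 : W.transpose.adjugate = (coeffMap ι).mapMatrix V.transpose.adjugate := by
    rw [RingHom.map_adjugate]
    rfl
  rw [Matrix.mulVec, dotProduct]
  refine Subring.sum_mem _ fun k _ => mul_mem ?_ ?_
  · rw [h5]
    exact coeffMap_mem_BB _
  · have h6 : W.transpose.mulVec (fun i => σ i y) k = ∑ i, σ i y * coeffMap ι (θ' i ^ (k : ℕ)) := by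
      rw [Matrix.mulVec, dotProduct]
      refine Finset.sum_congr rfl fun l _ => ?_
      rw [mul_comm]
      rfl
    rw [h6]
    exact hc k

end Dual

end

end Fermat.Agent.H78.KI
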