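import Mathlib
import Fermat.Agent.H94Divisors
import Fermat.Agent.H29ChartE

/-! # Unramified places imply `RedAt` (helper78)

Passage from the places of a function field over an algebraically closed field `K` to the
unramifiedness hypothesis `H29.RedAt` over a subfield `L₀`. -/

set_option autoImplicit false

namespace Fermat.Agent.H78.KI

open Polynomial AlgebraicCurve IsDedekindDomain WithZero IntermediateField
open Fermat.Agent.H94 Fermat.Agent.H29

noncomputable section

section Places

variable {K F : Type*} [Field K] [Field F] [Algebra K F]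

theorem coe_algEquivOfTranscendental {x : F} (hx : Transcendental K x) (p : K[X]) :
    algebraMap (Algebra.adjoin K {x}) F
      ((Polynomial.algEquivOfTranscendental K x hx).toRingEquiv p) = aeval x p := by
  have h : (Subalgebra.val (Algebra.adjoin K {x})).comp
      (Polynomial.algEquivOfTranscendental K x hx).toAlgHom = aeval x := by
    apply Polynomial.algHom_ext
    show ((Polynomial.algEquivOfTranscendental K x hx X : Algebra.adjoin K {x}) : F) = _
    rw [Polynomial.algEquivOfTranscendental_apply_X, aeval_X]
  exact DFunLike.congr_fun h p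

variable [IsAlgClosed K] [CharZero K] [FunField K F]

/-- elements without poles above `x ≠ ∞` are integral over `K[x]`. -/
theorem intOver_of_forall_place {x : F} (hx : Transcendental K x) {c : F}
    (hc : ∀ v : Place K F, x ∈ v.toValuationSubring → c ∈ v.toValuationSubring) :
    IntOver K x c := by
  have := FunField.finiteDimensional (F := F) hx
  have hded := isDedekindDomain_intRing (F := F) hx
  have hfrac := isFractionRing_intRing (K := K) (x := x)
  have h1 : ∀ w : HeightOneSpectrum (IntRing K x), w.valuation F c ≤ 1 := by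
    intro w
    have hv := hc (Place.ofHeightOneSpectrum (K := K) (F := F) w)
      (algebraMap_mem_ofHeightOneSpectrum w
        (algebraMap (Algebra.adjoin K {x}) (IntRing K x)
          ⟨x, Algebra.self_mem_adjoin_singleton K x⟩))
    rwa [Place.ofHeightOneSpectrum_toValuationSubring, Valuation.mem_valuationSubring_iff] at hv
  obtain ⟨b, hb⟩ := HeightOneSpectrum.mem_integers_of_valuation_le_one F c h1
  rw [intOver_iff (Algebra.adjoin K {x}) (Polynomial.algEquivOfTranscendental K x hx).toRingEquiv
    (coe_algEquivOfTranscendental hx)]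
  rw [← hb]; exact b.2

theorem mem_of_intOver {x c : F} (hx : Transcendental K x) (hc : IntOver K x c) (v : Place K F)
    (hv : x ∈ v.toValuationSubring) : c ∈ v.toValuationSubring := by
  rw [intOver_iff (Algebra.adjoin K {x}) (Polynomial.algEquivOfTranscendental K x hx).toRingEquiv
    (coe_algEquivOfTranscendental hx)] at hc
  exact mem_of_intRing hv ⟨c, hc⟩

/-- `ord` of a polynomial in `x` at a place where `x` has the finite value `a`. -/
theorem ord_aeval_of_not_isRoot {x : F} {v : Place K F} {a : K}
    (hv : 0 < v.ord (x - algebraMap K F a)) {p : K[X]} (hp : ¬ p.IsRoot a) :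
    v.ord (aeval x p) = 0 := by
  have hne : x - algebraMap K F a ≠ 0 := by
    rintro h; rw [h, v.ord_zero] at hv; exact lt_irrefl _ hv
  obtain ⟨q, hq⟩ := Polynomial.X_sub_C_dvd_sub_C_eval (a := a) (p := p)
  have h1 : aeval x p = algebraMap K F (p.eval a) + (x - algebraMap K F a) * aeval x q := by
    have := congrArg (aeval x) hq
    rw [map_sub, map_mul, map_sub, aeval_C, aeval_X, aeval_C] at this
    rw [← this]; ring
  have hxm : x ∈ v.toValuationSubring := by
    have h2 : x - algebraMap K F a ∈ v.toValuationSubring := mem_of_ord_nonneg v hv.le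
    have := add_mem h2 (v.algebraMap_mem' a)
    rwa [sub_add_cancel] at this
  have hqm : aeval x q ∈ v.toValuationSubring := by
    have : ∀ p : K[X], aeval x p ∈ v.toValuationSubring := by
      intro p
      induction p using Polynomial.induction_on' with
      | add p q hp hq => rw [map_add]; exact add_mem hp hq
      | monomial n a =>
        rw [aeval_monomial]
        exact mul_mem (v.algebraMap_mem' a) (pow_mem hxm n)
    exact this q
  have hp0 : p.eval a ≠ 0 := hp
  have hc0 : algebraMap K F (p.eval a) ≠ 0 := (_root_.map_ne_zero _).mpr hp0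
  by_cases hz : (x - algebraMap K F a) * aeval x q = 0
  · rw [h1, hz, add_zero, ord_algebraMap]
  · have h3 : v.ord (aeval x p) ≥ 0 := ord_nonneg_of_mem v (by
      rw [h1]
      exact add_mem (v.algebraMap_mem' _) (mul_mem (mem_of_ord_nonneg v hv.le) hqm))
    by_contra hne0
    have h4 : 0 < v.ord (aeval x p) := lt_of_le_of_ne h3 (Ne.symm hne0)
    have h5 : 0 < v.ord ((x - algebraMap K F a) * -aeval x q) := by
      rw [v.ord_mul hne (neg_ne_zero.mpr (right_ne_zero_of_mul hz))]
      have := ord_nonneg_of_mem v (neg_mem hqm)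
      omega
    have h6 : algebraMap K F (p.eval a) = aeval x p + (x - algebraMap K F a) * -aeval x q := by
      rw [h1]; ring
    have h7 := ord_add_ge v (f := aeval x p) (g := (x - algebraMap K F a) * -aeval x q)
      (n := 1) (Or.inr h4) (Or.inr h5)
    rw [← h6, ord_algebraMap] at h7
    rcases h7 with h7 | h7
    · exact hc0 h7
    · omega

/-- `ord` of a separable polynomial in `x` is at most one at unramified places. -/
theorem ord_aeval_le_one {x : F} (hx : Transcendental K x) {v : Place K F} {a : K}
    (hv : v.ord (x - algebraMap K F a) = 1) {p : K[X]} (hp : p.Separable) :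
    0 ≤ v.ord (aeval x p) ∧ v.ord (aeval x p) ≤ 1 := by
  by_cases hr : p.IsRoot a
  · obtain ⟨q, rfl⟩ := Polynomial.dvd_iff_isRoot.mpr hr
    have hq : ¬ q.IsRoot a := by
      intro h
      obtain ⟨r, rfl⟩ := Polynomial.dvd_iff_isRoot.mpr h
      have h1 := hp.squarefree (X - C a) ⟨r, by ring⟩
      exact (Polynomial.prime_X_sub_C a).not_unit h1
    have hq0 : aeval x q ≠ 0 := by
      intro h
      apply hq
      have := (transcendental_iff.mp hx) q h
      rw [this]; exact Polynomial.eval_zero
    have hx0 : x - algebraMap K F a ≠ 0 := by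
      intro h
      rw [h, v.ord_zero] at hv
      omega
    rw [map_mul, map_sub, aeval_X, aeval_C, v.ord_mul hx0 hq0, hv,
      ord_aeval_of_not_isRoot (by rw [hv]; exact one_pos) hq]
    omega
  · rw [ord_aeval_of_not_isRoot (by rw [hv]; exact one_pos) hr]
    omega

/-- **`RedAt` from the places.** -/
theorem redAt_of_place {L₀ E : Type*} [Field L₀] [CharZero L₀] [Field E] [Algebra L₀ E]
    [Algebra L₀ K] [Algebra.IsAlgebraic L₀ K] (i : E →+* F)
    (hi : ∀ c : L₀, i (algebraMap L₀ E c) = algebraMap K F (algebraMap L₀ K c)) {s : E}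
    (hs : Transcendental K (i s)) {g : L₀[X]} (hg : Irreducible g)
    (hunr : ∀ (v : Place K F) (a : K), (g.map (algebraMap L₀ K)).IsRoot a →
      0 < v.ord (i s - algebraMap K F a) → v.ord (i s - algebraMap K F a) = 1) :
    RedAt L₀ s g := by
  intro a b ha hb hab
  -- polynomials
  have hpoly : ∀ p : L₀[X], i (aeval s p) = aeval (i s) (p.map (algebraMap L₀ K)) := by
    intro p
    induction p using Polynomial.induction_on' with
    | add p q hp hq => rw [map_add, map_add, hp, hq, Polynomial.map_add, map_add]
    | monomial n a =>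
      rw [aeval_monomial, map_mul, map_pow, hi, Polynomial.map_monomial, aeval_monomial]
  have hgs : i (aeval s g) ≠ 0 := by
    rw [hpoly]
    intro h
    have := (transcendental_iff.mp hs) _ h
    rw [Polynomial.map_eq_zero] at this
    exact hg.ne_zero this
  have hgs' : aeval s g ≠ 0 := fun h => hgs (by rw [h, map_zero])
  refine ⟨a / aeval s g, ?_, by rw [mul_div_cancel₀ _ hgs']⟩
  -- transfer of integrality
  have hint : ∀ e : E, IntOver L₀ s e → IntOver K (i s) (i e) := by
    rintro e ⟨q, hq, hq0⟩
    refine ⟨q.map (mapRingHom (algebraMap L₀ K)), hq.map _, ?_⟩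
    rw [eval₂_map]
    have h1 : ((aeval (i s) : K[X] →ₐ[K] F) : K[X] →+* F).comp (mapRingHom (algebraMap L₀ K)) =
        i.comp ((aeval s : L₀[X] →ₐ[L₀] E) : L₀[X] →+* E) := by
      ext p
      · simp [hi]
      · simp
    rw [h1, ← hom_eval₂, hq0, map_zero]
  have hint' : ∀ e : E, IntOver K (i s) (i e) → IntOver L₀ s e := by
    intro e he
    -- `K[X]` is integral over `L₀[X]`
    have hKL : (mapRingHom (algebraMap L₀ K)).IsIntegral := by
      intro p
      induction p using Polynomial.induction_on' with
      | add p q hp hq => exact RingHom.IsIntegralElem.add _ hp hq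
      | monomial n a =>
        have h1 : (mapRingHom (algebraMap L₀ K)).IsIntegralElem (C a) := by
          obtain ⟨r, hr, hr0⟩ := (Algebra.IsIntegral.isIntegral (R := L₀) a)
          refine ⟨r.map C, hr.map _, ?_⟩
          rw [eval₂_map]
          have h2 : (mapRingHom (algebraMap L₀ K)).comp C = C.comp (algebraMap L₀ K) := by
            ext x; simp
          rw [h2, ← hom_eval₂, hr0, map_zero]
        have h2 : (mapRingHom (algebraMap L₀ K)).IsIntegralElem (X ^ n) := by
          have := RingHom.isIntegralElem_map (f := mapRingHom (algebraMap L₀ K)) (x := X ^ n)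
          simpa using this
        rw [← C_mul_X_pow_eq_monomial]
        exact RingHom.IsIntegralElem.mul _ h1 h2
    have h3 : (((aeval (i s) : K[X] →ₐ[K] F) : K[X] →+* F).comp
        (mapRingHom (algebraMap L₀ K))).IsIntegralElem (i e) := by
      let a1 : Algebra L₀[X] K[X] := (mapRingHom (algebraMap L₀ K)).toAlgebra
      let a2 : Algebra K[X] F := ((aeval (i s) : K[X] →ₐ[K] F) : K[X] →+* F).toAlgebra
      let a3 : Algebra L₀[X] F := (((aeval (i s) : K[X] →ₐ[K] F) : K[X] →+* F).comp
        (mapRingHom (algebraMap L₀ K))).toAlgebra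
      have t : IsScalarTower L₀[X] K[X] F := IsScalarTower.of_algebraMap_eq fun _ => rfl
      have hI : Algebra.IsIntegral L₀[X] K[X] := ⟨hKL⟩
      exact isIntegral_trans (R := L₀[X]) (A := K[X]) (i e) he
    have h1 : ((aeval (i s) : K[X] →ₐ[K] F) : K[X] →+* F).comp (mapRingHom (algebraMap L₀ K)) =
        i.comp ((aeval s : L₀[X] →ₐ[L₀] E) : L₀[X] →+* E) := by
      ext p
      · simp [hi]
      · simp
    rw [h1] at h3
    obtain ⟨q, hq, hq0⟩ := h3
    refine ⟨q, hq, ?_⟩
    apply i.injective
    rw [hom_eval₂, hq0, map_zero]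
  apply hint'
  apply intOver_of_forall_place hs
  intro v hv
  by_cases ha0 : a = 0
  · rw [ha0, zero_div, map_zero]; exact zero_mem _
  have hia0 : i a ≠ 0 := (_root_.map_ne_zero i).mpr ha0
  have hb0 : b ≠ 0 := by
    rintro rfl
    rw [mul_zero] at hab
    exact ha0 (pow_eq_zero_iff (two_ne_zero) |>.mp hab)
  have hib0 : i b ≠ 0 := (_root_.map_ne_zero i).mpr hb0
  have hq0 : i (a / aeval s g) ≠ 0 := (_root_.map_ne_zero i).mpr (div_ne_zero ha0 hgs')
  rw [mem_iff_ord_nonneg v hq0, map_div₀]
  -- the value of `s` at `v`
  obtain ⟨α, hα⟩ := exists_sub_algebraMap_ord_pos v hv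
  have hα' : 0 < v.ord (i s - algebraMap K F α) := by
    refine hα.resolve_left fun h => ?_
    apply hs
    rw [sub_eq_zero] at h
    rw [h]
    exact isAlgebraic_algebraMap α
  have hanonneg := ord_nonneg_of_mem v (mem_of_intOver hs (hint a ha) v hv)
  have hbnonneg := ord_nonneg_of_mem v (mem_of_intOver hs (hint b hb) v hv)
  have hdiv : v.ord (i a / i (aeval s g)) = v.ord (i a) - v.ord (i (aeval s g)) := by
    rw [div_eq_mul_inv, v.ord_mul hia0 (inv_ne_zero hgs), v.ord_inv]
    ring
  rw [hdiv]
  by_cases hr : (g.map (algebraMap L₀ K)).IsRoot α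
  · have h1 := hunr v α hr hα'
    have hsep : (g.map (algebraMap L₀ K)).Separable := (hg.separable).map
    have h2 := ord_aeval_le_one hs h1 hsep
    rw [← hpoly] at h2
    have h3 := congrArg (fun z => v.ord (i z)) hab
    simp only [map_pow, map_mul] at h3
    rw [v.ord_mul hgs hib0, pow_two, v.ord_mul hia0 hia0] at h3
    omega
  · have h2 := ord_aeval_of_not_isRoot hα' hr
    rw [← hpoly] at h2
    omega

end Places

end

end Fermat.Agent.H78.KI
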