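import Fermat.Agent.H78RLd

/-!
# S47, block (D), THETA: the period of `V_S` and the support of its Fourier transform, with
explicit exponents (helper78)

`PL S m = {y | v_P(y) ≤ v_P(t_w), P | w ∈ S}`, `t_w ∈ Eˣ` of order `m w` at `w`
(so `PL S m` is `w^(m w) O_B` at the places above `w ∈ S`).

* `add_mem_VS` : `V_S + PL S m = V_S` for `m w ≥ n w + n2 + 1`, if `US` contains
  `{α | α ∈ congr w (n w), w ∈ S}`;
* `exists_supp'` : if `ξ` is orthogonal to `PL S m` at `S` then `v_w(N ξ) ≤ exp (2 m w + c2)`.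
-/

set_option autoImplicit false
set_option linter.unusedSectionVars false

open IsDedekindDomain HeightOneSpectrum WithZero NumberField
open scoped Pointwise

noncomputable section

namespace Fermat.Agent.H78R

open Fermat.Agent.H7.Z
open Fermat.Agent.H47 (smulPlace below)
open Fermat.Agent.H82 (above aboveSet NonSplit congr)
open Fermat.Agent.H78G Fermat.Agent.H71D

variable {E B : Type*} [Field E] [NumberField E] [Field B] [NumberField B] [Algebra E B]

/-- an element of order `k` at `w` -/
def tE (w : HeightOneSpectrum (𝓞 E)) (k : ℕ) : Eˣ :=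
  (H36.Psi.exists_val_eq_exp w (-(k : ℤ))).choose

theorem val_tE (w : HeightOneSpectrum (𝓞 E)) (k : ℕ) :
    w.valuation E (tE w k : E) = exp (-(k : ℤ)) :=
  (H36.Psi.exists_val_eq_exp w (-(k : ℤ))).choose_spec

variable (B) in
/-- the element `t_w` in `B` -/
def tB (w : HeightOneSpectrum (𝓞 E)) (k : ℕ) : B := algebraMap E B (tE w k : E)

theorem tB_ne_zero (w : HeightOneSpectrum (𝓞 E)) (k : ℕ) : tB B w k ≠ 0 := by
  unfold tB
  rw [Ne, FaithfulSMul.algebraMap_eq_zero_iff]
  exact (tE w k).ne_zero

variable (B) in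
/-- the period lattice at `S` -/
def PL (S : Finset (HeightOneSpectrum (𝓞 E))) (m : HeightOneSpectrum (𝓞 E) → ℕ) :
    AddSubgroup B where
  carrier := {y | ∀ P ∈ aboveSet B (S : Set (HeightOneSpectrum (𝓞 E))),
    P.valuation B y ≤ P.valuation B (tB B (below E P) (m (below E P)))}
  zero_mem' := fun P _ => by rw [map_zero]; exact zero_le
  add_mem' := fun ha hb P hP => (Valuation.map_add _ _ _).trans (max_le (ha P hP) (hb P hP))
  neg_mem' := fun ha P hP => by rw [Valuation.map_neg]; exact ha P hP

theorem mem_PL {S : Finset (HeightOneSpectrum (𝓞 E))} {m : HeightOneSpectrum (𝓞 E) → ℕ} {y : B} :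
    y ∈ PL B S m ↔ ∀ P ∈ aboveSet B (S : Set (HeightOneSpectrum (𝓞 E))),
      P.valuation B y ≤ P.valuation B (tB B (below E P) (m (below E P))) := Iff.rfl

/-- valuation of elements of the base field, general case -/
theorem val_algebraMap_pow (P : HeightOneSpectrum (𝓞 B)) (z : E) :
    P.valuation B (algebraMap E B z) =
      (below E P).valuation E z ^ (below E P).asIdeal.ramificationIdx' P.asIdeal := by
  have h1 : P.asIdeal.LiesOver (below E P).asIdeal := ⟨rfl⟩
  exact (HeightOneSpectrum.valuation_liesOver B (below E P) P z).symm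

theorem ram_ne_zero (P : HeightOneSpectrum (𝓞 B)) :
    (below E P).asIdeal.ramificationIdx' P.asIdeal ≠ 0 := by
  have h1 : P.asIdeal.LiesOver (below E P).asIdeal := ⟨rfl⟩
  exact Ideal.IsDedekindDomain.ramificationIdx'_ne_zero_of_liesOver P.asIdeal (below E P).ne_bot

/-- the description of `PL` with ramification indices -/
theorem mem_PL' {S : Finset (HeightOneSpectrum (𝓞 E))} {m : HeightOneSpectrum (𝓞 E) → ℕ} {y : B} :
    y ∈ PL B S m ↔ ∀ P ∈ aboveSet B (S : Set (HeightOneSpectrum (𝓞 E))),
      P.valuation B y ≤ exp (-(((below E P).asIdeal.ramificationIdx' P.asIdeal *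
        m (below E P) : ℕ) : ℤ)) := by
  rw [mem_PL]
  have key : ∀ P : HeightOneSpectrum (𝓞 B), P.valuation B (tB B (below E P) (m (below E P))) =
      exp (-(((below E P).asIdeal.ramificationIdx' P.asIdeal * m (below E P) : ℕ) : ℤ)) := by
    intro P
    rw [tB, val_algebraMap_pow, val_tE, ← exp_nsmul]
    congr 1
    push_cast
    rw [nsmul_eq_mul]
    ring
  simp only [key]

theorem val_tB_le (P : HeightOneSpectrum (𝓞 B)) (k : ℕ) :
    P.valuation B (tB B (below E P) k) ≤ exp (-(k : ℤ)) := by
  rw [tB, val_algebraMap_pow, val_tE, ← exp_nsmul, exp_le_exp, nsmul_eq_mul]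
  have h1 := Nat.one_le_iff_ne_zero.2 (ram_ne_zero (E := E) P)
  have h2 : (1 : ℤ) ≤ (((below E P).asIdeal.ramificationIdx' P.asIdeal : ℕ) : ℤ) := by
    exact_mod_cast h1
  nlinarith [Int.natCast_nonneg k]


section tau

variable [IsGalois E B] (hdeg : Module.finrank E B = 2) {τ : B ≃ₐ[E] B} (hτ : τ ≠ 1)

include hdeg hτ in
/-- `t_w` has the same order at `P` and at its conjugate -/
theorem val_tB_smulPlace (P : HeightOneSpectrum (𝓞 B)) (w : HeightOneSpectrum (𝓞 E)) (k : ℕ) :
    (smulPlace τ P).valuation B (tB B w k) = P.valuation B (tB B w k) := by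
  rw [← val_tau hdeg hτ, tB, AlgEquiv.commutes]

include hdeg hτ in
theorem tau_mem_PL {S : Finset (HeightOneSpectrum (𝓞 E))} {m : HeightOneSpectrum (𝓞 E) → ℕ}
    {y : B} (hy : y ∈ PL B S m) : τ y ∈ PL B S m := by
  intro P hP
  have h1 := hy (smulPlace τ P) ((H47.smulPlace_mem_aboveSet_iff τ).2 hP)
  rw [val_tau hdeg hτ]
  rwa [below_smulPlace, val_tB_smulPlace hdeg hτ] at h1

include hdeg hτ in
/-- integrality of the norm at `w` -/
theorem norm_le_of {w : HeightOneSpectrum (𝓞 E)} {z : B} {D : ℕ}
    (hz : ∀ P ∈ above B w, P.valuation B z * (smulPlace τ P).valuation B z ≤ exp (D : ℤ)) :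
    w.valuation E (Algebra.norm E z) ≤ exp (D : ℤ) := by
  obtain ⟨P, hP⟩ := H47.above_nonempty (L := B) w
  have h1 := hz P hP
  rw [← val_tau hdeg hτ, ← map_mul, ← H77.Z.algebraMap_norm hdeg hτ, val_algebraMap_pow,
    ← H47.eq_below_of_mem_above hP] at h1
  by_contra hlt
  rw [not_le] at hlt
  have h2 : (1 : ℤᵐ⁰) ≤ exp (D : ℤ) := by
    rw [← exp_zero, exp_le_exp]
    exact Int.natCast_nonneg D
  have h3 : w.valuation E (Algebra.norm E z) ≤
      w.valuation E (Algebra.norm E z) ^ w.asIdeal.ramificationIdx' P.asIdeal := by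
    refine le_self_pow₀ (h2.trans hlt.le) ?_
    have := ram_ne_zero (E := E) P
    rwa [← H47.eq_below_of_mem_above hP] at this
  exact absurd (h3.trans h1) (not_le.2 hlt)

end tau

variable {J : Type*} [Fintype J] {d : DD E B J}

/-- the elements of `V_S` are units above `S` -/
theorem val_of_mem_VS (hd : d.Good) {x : B} (hx : x ∈ d.VS) {P : HeightOneSpectrum (𝓞 B)}
    (hP : P ∈ aboveSet B (d.S : Set (HeightOneSpectrum (𝓞 E)))) : P.valuation B x = 1 := by
  have h1 : P.valuation B (x - 1) < 1 := (hx.1 P hP).trans_lt (by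
    rw [← exp_zero, exp_lt_exp]
    have := hd.n2_pos
    omega)
  have h2 := Valuation.map_add_eq_of_lt_right (P.valuation B) (x := x - 1) (y := 1)
    (by rw [map_one]; exact h1)
  rwa [sub_add_cancel, map_one] at h2

/-- **(PER')**: the period of `V_S`. -/
theorem add_mem_VS (hd : d.Good) {n m : HeightOneSpectrum (𝓞 E) → ℕ}
    (hn : ∀ α : Eˣ, (∀ w ∈ d.S, α ∈ congr w (n w)) → α ∈ d.US)
    (hm : ∀ w ∈ d.S, n w + d.n2 + 1 ≤ m w) {x : B} (hx : x ∈ d.VS) {y : B}
    (hy : y ∈ PL B d.S m) : x + y ∈ d.VS := by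
  have := isGalois_of hd.deg
  have hxu := fun P hP => val_of_mem_VS hd hx (P := P) hP
  have hx0 : x ≠ 0 := by
    rintro rfl
    obtain ⟨w, hw⟩ := hd.ne
    obtain ⟨P, hP⟩ := H47.above_nonempty (L := B) w
    have := hxu P ⟨w, hw, hP⟩
    rw [map_zero] at this
    exact zero_ne_one this
  obtain ⟨hx1, α, hα, hαx⟩ := hx
  have hmS : ∀ P ∈ aboveSet B (d.S : Set (HeightOneSpectrum (𝓞 E))), below E P ∈ d.S :=
    fun P hP => mem_aboveSet_iff.1 hP
  refine ⟨fun P hP => ?_, ?_⟩
  · rw [show x + y - 1 = (x - 1) + y by ring]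
    refine (Valuation.map_add _ _ _).trans (max_le (hx1 P hP) ?_)
    refine ((hy P hP).trans (val_tB_le P _)).trans ?_
    rw [exp_le_exp]
    have := hm _ (hmS P hP)
    omega
  · -- the norm
    set z := y / x with hz
    have hzx : x + y = x * (1 + z) := by
      rw [hz]
      field_simp
    have hzv : ∀ P ∈ aboveSet B (d.S : Set (HeightOneSpectrum (𝓞 E))),
        P.valuation B z ≤ P.valuation B (tB B (below E P) (m (below E P))) := by
      intro P hP
      rw [hz, map_div₀, hxu P hP, div_one]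
      exact hy P hP
    have hw : ∀ w ∈ d.S, w.valuation E (Algebra.norm E (1 + z) - 1) ≤ exp (-(m w : ℤ)) := by
      intro w hw
      have ht0 := tB_ne_zero (B := B) w (m w)
      set s : B := z / tB B w (m w) with hs
      have hzs : z = algebraMap E B (tE w (m w) : E) * s := by
        rw [hs]
        unfold tB at ht0 ⊢
        field_simp
      have hsv : ∀ P ∈ above B w, P.valuation B s ≤ 1 := by
        intro P hP
        rw [hs, map_div₀]
        have h1 := hzv P ⟨w, hw, hP⟩
        rw [← H47.eq_below_of_mem_above hP] at h1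
        exact div_le_one_of_le₀ h1 zero_le
      have hNN : Algebra.norm E (1 + z) - 1 = (tE w (m w) : E) * Algebra.trace E B s +
          (tE w (m w) : E) ^ 2 * Algebra.norm E s := by
        apply (algebraMap E B).injective
        rw [map_sub (algebraMap E B), map_add (algebraMap E B), map_mul (algebraMap E B),
          map_mul (algebraMap E B), map_one (algebraMap E B), map_pow (algebraMap E B),
          H77.Z.algebraMap_norm hd.deg hd.tau_ne, H77.Z.algebraMap_norm hd.deg hd.tau_ne,
          H77.Z.algebraMap_trace hd.deg hd.tau_ne, hzs, map_add d.tau, map_one d.tau,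
          map_mul d.tau, AlgEquiv.commutes]
        ring
      have hN0 : w.valuation E (Algebra.norm E s) ≤ 1 := by
        have := norm_le_of hd.deg hd.tau_ne (w := w) (z := s) (D := 0) (fun P hP => by
          simpa using mul_le_one' (hsv P hP) (hsv _ (H47.smulPlace_mem_above d.tau hP)))
        simpa using this
      rw [hNN]
      refine (Valuation.map_add _ _ _).trans (max_le ?_ ?_)
      · rw [map_mul, val_tE]
        exact mul_le_of_le_one_right' (H36.Psi.trace_le_one hsv)
      · rw [map_mul, map_pow, val_tE]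
        refine (mul_le_of_le_one_right' hN0).trans ?_
        rw [← exp_nsmul, exp_le_exp, nsmul_eq_mul]
        push_cast
        have := Int.natCast_nonneg (m w)
        linarith
    have hw1 : ∀ w ∈ d.S, w.valuation E (Algebra.norm E (1 + z)) = 1 := by
      intro w hwS
      have h1 : w.valuation E (Algebra.norm E (1 + z) - 1) < 1 := (hw w hwS).trans_lt (by
        rw [← exp_zero, exp_lt_exp]
        have := hm w hwS
        omega)
      have h2 := Valuation.map_add_eq_of_lt_right (w.valuation E)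
        (x := Algebra.norm E (1 + z) - 1) (y := 1) (by rw [map_one]; exact h1)
      rwa [sub_add_cancel, map_one] at h2
    have hN0 : Algebra.norm E (1 + z) ≠ 0 := by
      obtain ⟨w, hwS⟩ := hd.ne
      intro h0
      have := hw1 w hwS
      rw [h0, map_zero] at this
      exact zero_ne_one this
    refine ⟨α * Units.mk0 _ hN0, d.US.mul_mem hα (hn _ fun w hwS => ⟨hw1 w hwS, ?_⟩), ?_⟩
    · refine (hw w hwS).trans ?_
      rw [exp_le_exp]
      have := hm w hwS
      omega
    · rw [Units.val_mul, Units.val_mk0, hαx, hzx, map_mul]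

/-- **(SUPP')**: the dual of the period lattice. -/
theorem exists_supp' (hdeg : Module.finrank E B = 2) (S : Finset (HeightOneSpectrum (𝓞 E))) :
    ∃ c2 : ℕ, ∀ (τ : B ≃ₐ[E] B), τ ≠ 1 → ∀ (m : HeightOneSpectrum (𝓞 E) → ℕ) (ξ : B),
    (∀ y ∈ PL B S m, ∏ w ∈ S, psi w (Algebra.trace E B (ξ * τ y)) = 1) →
    ∀ w ∈ S, w.valuation E (Algebra.norm E ξ) ≤ exp ((2 * m w + c2 : ℕ) : ℤ) := by
  classical
  have := isGalois_of hdeg
  let c1 : ℕ := ∑ P ∈ SBf B S, H36.Psi.dexp P
  let c2 : ℕ := c1 + c1
  have hc1 : ∀ P ∈ SBf B S, H36.Psi.dexp P ≤ c1 :=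
    fun P hP => Finset.single_le_sum (f := fun P => H36.Psi.dexp P)
      (fun _ _ => Nat.zero_le _) hP
  refine ⟨c2, fun τ hτ m ξ hξ => ?_⟩
  have hSτ : ∀ P ∈ SBf B S, smulPlace τ P ∈ SBf B S := fun P hP => by
    rw [mem_SBf, below_smulPlace]
    exact mem_SBf.1 hP
  have hc2 : ∀ P ∈ SBf B S, H36.Psi.dexp P + H36.Psi.dexp (smulPlace τ P) ≤ c2 :=
    fun P hP => Nat.add_le_add (hc1 P hP) (hc1 _ (hSτ P hP))
  have hstep : ∀ P ∈ SBf B S,
      P.valuation B (ξ * tB B (below E P) (m (below E P))) ≤ exp (H36.Psi.dexp P : ℤ) := by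
    intro P hP
    rw [← H36.Psi.dual_iff_zero]
    intro r hr
    -- an element close to `t r` at `P` and small at the other places above `S`
    choose e he using fun Q : HeightOneSpectrum (𝓞 B) => exists_le_exp Q ξ
    have hexp : ∀ Q : HeightOneSpectrum (𝓞 B), ∃ k : ℕ, exp (-(k : ℤ)) ≤
        Q.valuation B (tB B (below E Q) (m (below E Q))) := by
      intro Q
      refine ⟨(below E Q).asIdeal.ramificationIdx' Q.asIdeal * m (below E Q), ?_⟩
      rw [tB, val_algebraMap_pow, val_tE, ← exp_nsmul, exp_le_exp, nsmul_eq_mul]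
      push_cast
      linarith
    choose k hk using hexp
    obtain ⟨y, hy1, hy2⟩ := exists_approx (R := 𝓞 B) (SBf B S)
      (fun Q => if Q = P then tB B (below E P) (m (below E P)) * r else 0)
      (fun Q => k Q + e Q)
    have hsm : ∀ Q : HeightOneSpectrum (𝓞 B), ∀ v : B,
        Q.valuation B v ≤ exp (-((k Q + e Q : ℕ) : ℤ)) →
        Q.valuation B v ≤ Q.valuation B (tB B (below E Q) (m (below E Q))) ∧
          Q.valuation B (ξ * v) ≤ 1 := by
      intro Q v hv
      constructor
      · refine hv.trans (le_trans ?_ (hk Q))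
        rw [exp_le_exp]
        push_cast
        have := Int.natCast_nonneg (e Q)
        linarith
      · rw [map_mul]
        refine (mul_le_mul' (he Q) hv).trans ?_
        rw [← exp_add, ← exp_zero, exp_le_exp]
        push_cast
        have := Int.natCast_nonneg (k Q)
        linarith
    have hyP := hy1 P hP
    rw [if_pos rfl] at hyP
    have hyQ : ∀ Q ∈ SBf B S, Q ≠ P → Q.valuation B y ≤ exp (-((k Q + e Q : ℕ) : ℤ)) := by
      intro Q hQ hne
      have := hy1 Q hQ
      rwa [if_neg hne, sub_zero] at this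
    have hymem : y ∈ PL B S m := by
      intro Q hQ
      have hQ' : Q ∈ SBf B S := mem_SBf'.2 hQ
      by_cases hne : Q = P
      · subst hne
        rw [show y = (y - tB B (below E Q) (m (below E Q)) * r) +
          tB B (below E Q) (m (below E Q)) * r by ring]
        refine (Valuation.map_add _ _ _).trans (max_le (hsm Q _ hyP).1 ?_)
        rw [map_mul]
        exact mul_le_of_le_one_right' hr
      · exact (hsm Q _ (hyQ Q hQ' hne)).1
    have h1 := hξ (τ y) (tau_mem_PL hdeg hτ hymem)
    rw [H77.Z.aut_apply_apply hdeg hτ] at h1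
    have h2 : ∏ w ∈ S, psi w (Algebra.trace E B (ξ * y)) = ∏ Q ∈ SBf B S, psi Q (ξ * y) := by
      rw [← Finset.prod_fiberwise_of_maps_to (s := SBf B S) (t := S) (g := below E)
        (fun Q hQ => mem_SBf.1 hQ)]
      refine Finset.prod_congr rfl fun w hw => ?_
      rw [H36.Psi.prod_psi_above w (ξ * y)]
      intro Q
      rw [Finset.mem_filter, mem_SBf]
      constructor
      · rintro ⟨-, rfl⟩
        exact H47.mem_above_below Q
      · intro hQ
        have := H47.eq_below_of_mem_above hQ
        exact ⟨this ▸ hw, this.symm⟩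
    rw [h2, ← Finset.mul_prod_erase _ _ hP, Finset.prod_eq_one, mul_one] at h1
    · have h3 : psi P (ξ * tB B (below E P) (m (below E P)) * r) = psi P (ξ * y) := by
        refine psi_congr P ?_
        rw [show ξ * tB B (below E P) (m (below E P)) * r - ξ * y =
          -(ξ * (y - tB B (below E P) (m (below E P)) * r)) by ring, Valuation.map_neg]
        exact (hsm P _ hyP).2
      rw [h3, h1]
    · intro Q hQ
      rw [Finset.mem_erase] at hQ
      exact psi_of_integral Q (hsm Q _ (hyQ Q hQ.2 hQ.1)).2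
  intro w hw
  have hN : w.valuation E (Algebra.norm E (ξ * tB B w (m w))) ≤ exp (c2 : ℤ) := by
    refine norm_le_of hdeg hτ fun P hP => ?_
    have hb := H47.eq_below_of_mem_above hP
    have hPS : P ∈ SBf B S := mem_SBf.2 (hb ▸ hw)
    have hPS' : smulPlace τ P ∈ SBf B S := by
      rw [mem_SBf, below_smulPlace]
      exact hb ▸ hw
    have h1 := hstep P hPS
    have h2 := hstep _ hPS'
    rw [below_smulPlace] at h2
    rw [← hb] at h1 h2
    refine (mul_le_mul' h1 h2).trans ?_
    rw [← exp_add, exp_le_exp]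
    exact_mod_cast hc2 P hPS
  rw [map_mul, tB, Algebra.norm_algebraMap, hdeg, map_mul, map_pow, val_tE] at hN
  have h4 : w.valuation E (Algebra.norm E ξ) =
      (w.valuation E (Algebra.norm E ξ) * exp (-(m w : ℤ)) ^ 2) * exp (m w : ℤ) ^ 2 := by
    rw [mul_assoc, ← mul_pow, ← exp_add, neg_add_cancel, exp_zero, one_pow, mul_one]
  rw [h4]
  refine (mul_le_mul' hN le_rfl).trans (le_of_eq ?_)
  rw [← exp_nsmul, ← exp_add]
  congr 1
  rw [nsmul_eq_mul]
  push_cast
  ring

end Fermat.Agent.H78R
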