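import Fermat.Agent.H78Key
import Fermat.Agent.H88GS1
import Fermat.Agent.H36Psi
import Fermat.Agent.H18DKap
import Fermat.Agent.H77ZAdj

/-!
# S47, package DE2, final form: the key identity on semilocal lattices (helper78)

For a number field `K`, a set `S` of finite places and a divisor `δ : places → ℤ`
`RL S δ = {x | v_w(x) ≤ exp (-δ w) for all w ∉ S}`.

* `exists_psS_ne_one` : `RL S (-δ)` is the dual of `RL S δ` with respect to `psS S`;
* `psS_trace` : compatibility of the characters in an extension `B/E`;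
* `key` : `mean_{x ∈ c} psS (u N x - T (x, ξ)) = psS (u' N ξ) mean_{x ∈ c} psS (u N x)` for `ξ` in
  the lattice of the divisor `c + g`, and `0` otherwise.
-/

set_option autoImplicit false
set_option linter.unusedSectionVars false

open IsDedekindDomain HeightOneSpectrum WithZero NumberField
open scoped Pointwise

noncomputable section

namespace Fermat.Agent.H78R

open Fermat.Agent.H7.Z Fermat.Agent.H18D
open Fermat.Agent.H47 (smulPlace below)
open Fermat.Agent.H82 (above aboveSet NonSplit)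
open Fermat.Agent.H78G

section RL

variable {K : Type*} [Field K] [NumberField K]

/-- the semilocal lattice of a divisor -/
def RL (S : Set (HeightOneSpectrum (𝓞 K))) (δ : HeightOneSpectrum (𝓞 K) → ℤ) : AddSubgroup K where
  carrier := {x | ∀ w ∉ S, w.valuation K x ≤ exp (-δ w)}
  zero_mem' := fun _ _ => by simp
  add_mem' := fun ha hb w hw => (Valuation.map_add _ _ _).trans (max_le (ha w hw) (hb w hw))
  neg_mem' := fun ha w hw => by rw [Valuation.map_neg]; exact ha w hw

theorem mem_RL {S : Set (HeightOneSpectrum (𝓞 K))} {δ : HeightOneSpectrum (𝓞 K) → ℤ} {x : K} :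
    x ∈ RL S δ ↔ ∀ w ∉ S, w.valuation K x ≤ exp (-δ w) := Iff.rfl

theorem RL_mono {S : Set (HeightOneSpectrum (𝓞 K))} {δ δ' : HeightOneSpectrum (𝓞 K) → ℤ}
    (h : ∀ w ∉ S, δ w ≤ δ' w) : RL S δ' ≤ RL S δ := fun _ hx w hw =>
  (hx w hw).trans (exp_le_exp.2 (neg_le_neg (h w hw)))

theorem mul_mem_RL {S : Set (HeightOneSpectrum (𝓞 K))} {δ δ' : HeightOneSpectrum (𝓞 K) → ℤ}
    {x y : K} (hx : x ∈ RL S δ) (hy : y ∈ RL S δ') : x * y ∈ RL S (fun w => δ w + δ' w) := by
  intro w hw
  rw [map_mul]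
  refine (mul_le_mul' (hx w hw) (hy w hw)).trans (le_of_eq ?_)
  rw [← exp_add]
  congr 1
  ring

/-- the ring of elements which are integral outside `S` -/
def RR (S : Set (HeightOneSpectrum (𝓞 K))) : Subring K where
  carrier := {x | ∀ w ∉ S, w.valuation K x ≤ 1}
  zero_mem' := fun w _ => by simp
  one_mem' := fun w _ => by simp
  add_mem' := fun ha hb w hw => (Valuation.map_add _ _ _).trans (max_le (ha w hw) (hb w hw))
  mul_mem' := fun ha hb w hw => by rw [map_mul]; exact mul_le_one' (ha w hw) (hb w hw)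
  neg_mem' := fun ha w hw => by rw [Valuation.map_neg]; exact ha w hw

theorem mem_RR {S : Set (HeightOneSpectrum (𝓞 K))} {x : K} :
    x ∈ RR S ↔ ∀ w ∉ S, w.valuation K x ≤ 1 := Iff.rfl

theorem mem_RL_zero {S : Set (HeightOneSpectrum (𝓞 K))} {x : K} :
    x ∈ RL S (fun _ => 0) ↔ x ∈ RR S := by
  rw [mem_RL, mem_RR]
  simp

theorem psS_of_mem_RR {S : Finset (HeightOneSpectrum (𝓞 K))} {x : K}
    (hx : x ∈ RR (S : Set (HeightOneSpectrum (𝓞 K)))) : psS S x = 1 := psS_of_out hx

/-- **Duality.** -/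
theorem exists_psS_ne_one {S : Finset (HeightOneSpectrum (𝓞 K))} (hun : ∀ w ∉ S, Unram w)
    {δ : HeightOneSpectrum (𝓞 K) → ℤ} (hδ : {w | w ∉ S ∧ δ w ≠ 0}.Finite) {y : K}
    (hy : y ∉ RL (S : Set (HeightOneSpectrum (𝓞 K))) (fun w => -δ w)) :
    ∃ x ∈ RL (S : Set (HeightOneSpectrum (𝓞 K))) δ, psS S (x * y) ≠ 1 := by
  classical
  rw [mem_RL] at hy
  push Not at hy
  obtain ⟨w₀, hw₀, hlt⟩ := hy
  rw [neg_neg] at hlt
  have hw₀' : w₀ ∉ S := fun h => hw₀ h
  have h1 : ¬ ∀ r : K, w₀.valuation K r ≤ exp (-δ w₀) → psi w₀ (y * r) = 1 := by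
    rw [H36.Psi.dual_iff, (H36.Psi.unram_iff w₀).1 (hun w₀ hw₀')]
    simpa using hlt
  push Not at h1
  obtain ⟨r, hr, hψ⟩ := h1
  choose e he using fun w : HeightOneSpectrum (𝓞 K) => exists_le_exp w y
  let T : Finset (HeightOneSpectrum (𝓞 K)) :=
    insert w₀ (hδ.toFinset ∪ (finite_not_integral y).toFinset)
  obtain ⟨x, hx1, hx2⟩ := exists_approx (R := 𝓞 K) T (fun w => if w = w₀ then r else 0)
    (fun w => e w + (δ w).natAbs)
  have habs : ∀ w, -((e w + (δ w).natAbs : ℕ) : ℤ) ≤ -δ w := by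
    intro w
    have h2 : δ w ≤ (δ w).natAbs := Int.le_natAbs
    push_cast
    push_cast at h2
    have h3 : (0 : ℤ) ≤ e w := Int.natCast_nonneg _
    linarith
  have hyT : ∀ w ∉ T, w.valuation K y ≤ 1 := by
    intro w hw
    by_contra h
    exact hw (Finset.mem_insert_of_mem (Finset.mem_union_right _
      ((finite_not_integral y).mem_toFinset.2 h)))
  have hsmall : ∀ w : HeightOneSpectrum (𝓞 K), ∀ z : K,
      w.valuation K z ≤ exp (-((e w + (δ w).natAbs : ℕ) : ℤ)) → w.valuation K (z * y) ≤ 1 := by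
    intro w z hz
    rw [map_mul]
    refine (mul_le_mul' hz (he w)).trans ?_
    rw [← exp_add, ← exp_zero, exp_le_exp]
    push_cast
    have h3 : (0 : ℤ) ≤ |δ w| := abs_nonneg _
    linarith
  have hx0 : w₀.valuation K (x - r) ≤ exp (-((e w₀ + (δ w₀).natAbs : ℕ) : ℤ)) := by
    have := hx1 w₀ (Finset.mem_insert_self _ _)
    rwa [if_pos rfl] at this
  have hxT : ∀ w ∈ T, w ≠ w₀ → w.valuation K x ≤ exp (-((e w + (δ w).natAbs : ℕ) : ℤ)) := by
    intro w hw hne
    have := hx1 w hw
    rwa [if_neg hne, sub_zero] at this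
  refine ⟨x, fun w hw => ?_, ?_⟩
  · by_cases hw0 : w = w₀
    · subst hw0
      have h2 : x = (x - r) + r := by ring
      rw [h2]
      exact (Valuation.map_add _ _ _).trans (max_le (hx0.trans (exp_le_exp.2 (habs _))) hr)
    · by_cases hwT : w ∈ T
      · exact (hxT w hwT hw0).trans (exp_le_exp.2 (habs w))
      · have h2 : δ w = 0 := by
          by_contra h
          exact hwT (Finset.mem_insert_of_mem (Finset.mem_union_left _
            (hδ.mem_toFinset.2 ⟨fun h' => hw h', h⟩)))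
        rw [h2, neg_zero, exp_zero]
        exact hx2 w hwT
  · have h2 : ∀ w : HeightOneSpectrum (𝓞 K), w ≠ w₀ → w.valuation K (x * y) ≤ 1 := by
      intro w hne
      by_cases hwT : w ∈ T
      · exact hsmall w x (hxT w hwT hne)
      · rw [map_mul]
        exact mul_le_one' (hx2 w hwT) (hyT w hwT)
    rw [psS_eq_psi hw₀' h2]
    have h3 : psi w₀ (x * y) = psi w₀ (y * r) := by
      refine psi_congr w₀ ?_
      rw [show x * y - y * r = (x - r) * y by ring]
      exact hsmall w₀ _ hx0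
    rwa [h3]

end RL

/-! ### Extensions -/

section Ext

variable {E B : Type*} [Field E] [NumberField E] [Field B] [NumberField B] [Algebra E B]

theorem mem_aboveSet_iff {S : Set (HeightOneSpectrum (𝓞 E))} {P : HeightOneSpectrum (𝓞 B)} :
    P ∈ aboveSet B S ↔ below E P ∈ S := by
  constructor
  · rintro ⟨w, hw, hP⟩
    rwa [← H47.eq_below_of_mem_above hP]
  · exact fun h => ⟨_, h, H47.mem_above_below P⟩

/-- Compatibility of the characters. -/
theorem psS_trace {S : Finset (HeightOneSpectrum (𝓞 E))} {SB : Finset (HeightOneSpectrum (𝓞 B))}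
    (hSB : ∀ P, P ∈ SB ↔ below E P ∈ S) (b : B) :
    psS S (Algebra.trace E B b) = psS SB b := by
  classical
  rw [psS_apply, psS_apply, Algebra.trace_trace]
  congr 2
  rw [← Finset.prod_fiberwise_of_maps_to (s := SB) (t := S) (g := below E)
    (fun P hP => (hSB P).1 hP)]
  refine Finset.prod_congr rfl fun w hw => ?_
  rw [H36.Psi.prod_psi_above w b]
  intro P
  rw [Finset.mem_filter, hSB]
  constructor
  · rintro ⟨-, rfl⟩
    exact H47.mem_above_below P
  · intro hP
    have := H47.eq_below_of_mem_above hP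
    exact ⟨this ▸ hw, this.symm⟩

/-- the valuation of an element of the base field at an unramified place -/
theorem val_algebraMap {P : HeightOneSpectrum (𝓞 B)}
    (hP : (below E P).asIdeal.ramificationIdx' P.asIdeal = 1) (z : E) :
    P.valuation B (algebraMap E B z) = (below E P).valuation E z := by
  have h1 : P.asIdeal.LiesOver (below E P).asIdeal := ⟨rfl⟩
  have h := HeightOneSpectrum.valuation_liesOver B (below E P) P z
  rw [← h, hP, pow_one]

end Ext


/-! ### The key identity -/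

section Quad

variable {E B : Type*} [Field E] [NumberField E] [Field B] [NumberField B] [Algebra E B]
  [IsGalois E B]

/-- the norm form of a quadratic extension -/
def ntd (hdeg : Module.finrank E B = 2) {τ : B ≃ₐ[E] B} (hτ : τ ≠ 1) : NT E B where
  N := Algebra.norm E
  T x y := Algebra.trace E B (x * τ y)
  N_add x y := by
    apply (algebraMap E B).injective
    rw [map_add (algebraMap E B), map_add (algebraMap E B), H77.Z.algebraMap_norm hdeg hτ,
      H77.Z.algebraMap_norm hdeg hτ, H77.Z.algebraMap_norm hdeg hτ,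
      H77.Z.algebraMap_trace hdeg hτ, map_add, map_mul, H77.Z.aut_apply_apply hdeg hτ]
    ring
  T_add x y z := by rw [map_add, mul_add, map_add]
  N_smul e x := by
    rw [Algebra.smul_def, map_mul, Algebra.norm_algebraMap, hdeg]
  T_smul e x y := by
    rw [Algebra.smul_def, map_mul τ, AlgEquiv.commutes, mul_left_comm, ← Algebra.smul_def,
      LinearMap.map_smul, smul_eq_mul]
  T_comm x y := by
    apply (algebraMap E B).injective
    rw [H77.Z.algebraMap_trace hdeg hτ, H77.Z.algebraMap_trace hdeg hτ, map_mul, map_mul,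
      H77.Z.aut_apply_apply hdeg hτ, H77.Z.aut_apply_apply hdeg hτ]
    ring

variable (hdeg : Module.finrank E B = 2) {τ : B ≃ₐ[E] B} (hτ : τ ≠ 1)

theorem ntd_N (x : B) : (ntd hdeg hτ).N x = Algebra.norm E x := rfl

theorem ntd_T (x y : B) : (ntd hdeg hτ).T x y = Algebra.trace E B (x * τ y) := rfl

include hdeg hτ in
theorem smulPlace_smulPlace (P : HeightOneSpectrum (𝓞 B)) : smulPlace τ (smulPlace τ P) = P := by
  apply HeightOneSpectrum.ext
  rw [H47.smulPlace_asIdeal, H47.smulPlace_asIdeal, ← mul_smul, H77.Z.aut_mul_self hdeg hτ,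
    one_smul]

include hdeg hτ in
theorem val_tau (P : HeightOneSpectrum (𝓞 B)) (x : B) :
    P.valuation B (τ x) = (smulPlace τ P).valuation B x :=
  H77.Z.valuation_smulPlace' τ P x (H77.Z.aut_mul_self hdeg hτ)

theorem below_smulPlace (P : HeightOneSpectrum (𝓞 B)) : below E (smulPlace τ P) = below E P :=
  (H47.eq_below_of_mem_above (H47.smulPlace_mem_above τ (H47.mem_above_below P))).symm

include hdeg hτ in
theorem val_norm {P : HeightOneSpectrum (𝓞 B)}
    (hP : (below E P).asIdeal.ramificationIdx' P.asIdeal = 1) (x : B) :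
    (below E P).valuation E (Algebra.norm E x) =
      P.valuation B x * (smulPlace τ P).valuation B x := by
  rw [← val_algebraMap hP, H77.Z.algebraMap_norm hdeg hτ, map_mul, val_tau hdeg hτ]

/-- the data of the lattice `c` with norm `n` -/
structure Lat2 (τ : B ≃ₐ[E] B) (S : Finset (HeightOneSpectrum (𝓞 E)))
    (SB : Finset (HeightOneSpectrum (𝓞 B)))
    (c : HeightOneSpectrum (𝓞 B) → ℤ) (n : HeightOneSpectrum (𝓞 E) → ℤ) : Prop where
  hSB : ∀ P, P ∈ SB ↔ below E P ∈ S
  ram : ∀ P ∉ SB, (below E P).asIdeal.ramificationIdx' P.asIdeal = 1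
  unB : ∀ P ∉ SB, Unram P
  cfin : {P | P ∉ SB ∧ c P ≠ 0}.Finite
  nrm : ∀ P ∉ SB, c P + c (smulPlace τ P) = n (below E P)

/-- the conditions on `u`, `u'` and the divisor `g` -/
structure Upair (S : Finset (HeightOneSpectrum (𝓞 E))) (n g : HeightOneSpectrum (𝓞 E) → ℤ)
    (u u' : E) : Prop where
  hg : ∀ w ∉ S, exp (-g w) = max (w.valuation E u) (exp (n w))
  h1 : ∀ w ∉ S, w.valuation E u' ≤ exp (-n w)
  h2 : ∀ w ∉ S, w.valuation E (u * u') ≤ 1
  h3 : ∀ w ∉ S, w.valuation E ((1 + u * u') * u) ≤ exp (n w)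

variable {hdeg hτ}
variable {S : Finset (HeightOneSpectrum (𝓞 E))} {SB : Finset (HeightOneSpectrum (𝓞 B))}
    {c : HeightOneSpectrum (𝓞 B) → ℤ} {n g : HeightOneSpectrum (𝓞 E) → ℤ} {u u' : E}

theorem Lat2.notMem (h : Lat2 τ S SB c n) {P : HeightOneSpectrum (𝓞 B)} (hP : P ∉ SB) :
    below E P ∉ S := fun hh => hP ((h.hSB P).2 hh)

theorem Lat2.smul_notMem (h : Lat2 τ S SB c n) {P : HeightOneSpectrum (𝓞 B)} (hP : P ∉ SB) :
    smulPlace τ P ∉ SB := by
  intro hh
  rw [h.hSB, below_smulPlace] at hh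
  exact hP ((h.hSB P).2 hh)

theorem Lat2.exists_above (h : Lat2 τ S SB c n) {w : HeightOneSpectrum (𝓞 E)} (hw : w ∉ S) :
    ∃ P, P ∉ SB ∧ below E P = w := by
  obtain ⟨P, hP⟩ := H47.above_nonempty (L := B) w
  have h1 := H47.eq_below_of_mem_above hP
  refine ⟨P, fun hh => hw ?_, h1.symm⟩
  rw [h1]
  exact (h.hSB P).1 hh

include hdeg hτ in
theorem Lat2.cfin' (h : Lat2 τ S SB c n) : {P | P ∉ SB ∧ c (smulPlace τ P) ≠ 0}.Finite := by
  refine Set.Finite.subset (h.cfin.image (smulPlace τ)) ?_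
  rintro P ⟨hP, hc⟩
  exact ⟨smulPlace τ P, ⟨h.smul_notMem hP, hc⟩, smulPlace_smulPlace hdeg hτ P⟩

include hdeg hτ in
theorem Lat2.nfin (h : Lat2 τ S SB c n) : {P | P ∉ SB ∧ n (below E P) ≠ 0}.Finite := by
  refine (h.cfin.union (h.cfin' (hdeg := hdeg) (hτ := hτ))).subset ?_
  rintro P ⟨hP, hn⟩
  rw [← h.nrm P hP] at hn
  by_cases h1 : c P = 0
  · right
    refine ⟨hP, fun h2 => hn ?_⟩
    rw [h1, h2, add_zero]
  · exact Or.inl ⟨hP, h1⟩

include hdeg hτ in
theorem Lat2.gfin (h : Lat2 τ S SB c n) (hu : Upair S n g u u') :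
    {P | P ∉ SB ∧ g (below E P) ≠ 0}.Finite := by
  refine ((h.nfin (hdeg := hdeg) (hτ := hτ)).union
    (finite_not_integral (algebraMap E B u))).subset ?_
  rintro P ⟨hP, hg⟩
  by_cases h1 : n (below E P) = 0
  · right
    intro h2
    apply hg
    have h3 := hu.hg _ (h.notMem hP)
    rw [val_algebraMap (h.ram P hP)] at h2
    rw [h1, exp_zero, max_eq_right h2, ← exp_zero, exp_inj] at h3
    linarith
  · exact Or.inl ⟨hP, h1⟩

/-- the trace form is integral on `c` and its dual -/
theorem Lat2.T_mem (h : Lat2 τ S SB c n) {x y : B} (hx : x ∈ RL (SB : Set _) c)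
    (hy : y ∈ RL (SB : Set _) (fun P => c P - n (below E P))) :
    (ntd hdeg hτ).T x y ∈ RR (S : Set (HeightOneSpectrum (𝓞 E))) := by
  intro w hw
  rw [ntd_T]
  refine H36.Psi.trace_le_one fun P hP => ?_
  have h1 := H47.eq_below_of_mem_above hP
  subst h1
  have hP' : P ∉ SB := fun hh => hw ((h.hSB P).1 hh)
  rw [map_mul, val_tau hdeg hτ]
  refine (mul_le_mul' (hx P hP') (hy _ (h.smul_notMem hP'))).trans ?_
  rw [← exp_add, ← exp_zero, exp_le_exp]
  beta_reduce
  rw [below_smulPlace, ← h.nrm P hP']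
  linarith

theorem Lat2.N_mem (h : Lat2 τ S SB c n) {x : B} (hx : x ∈ RL (SB : Set _) c)
    {w : HeightOneSpectrum (𝓞 E)} (hw : w ∉ S) :
    w.valuation E ((ntd hdeg hτ).N x) ≤ exp (-n w) := by
  obtain ⟨P, hP, rfl⟩ := h.exists_above hw
  rw [ntd_N, val_norm hdeg hτ (h.ram P hP)]
  refine (mul_le_mul' (hx P hP) (hx _ (h.smul_notMem hP))).trans ?_
  rw [← exp_add, exp_le_exp, ← h.nrm P hP]
  linarith

theorem Lat2.N_mem' (h : Lat2 τ S SB c n) {x : B}
    (hx : x ∈ RL (SB : Set _) (fun P => c P - n (below E P)))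
    {w : HeightOneSpectrum (𝓞 E)} (hw : w ∉ S) :
    w.valuation E ((ntd hdeg hτ).N x) ≤ exp (n w) := by
  obtain ⟨P, hP, rfl⟩ := h.exists_above hw
  rw [ntd_N, val_norm hdeg hτ (h.ram P hP)]
  refine (mul_le_mul' (hx P hP) (hx _ (h.smul_notMem hP))).trans ?_
  rw [← exp_add, exp_le_exp]
  beta_reduce
  rw [below_smulPlace, ← h.nrm P hP]
  linarith

include hdeg hτ in
/-- decomposition of the elements of the sum lattice -/
theorem Lat2.exists_decomp (h : Lat2 τ S SB c n) (hu : Upair S n g u u') {ξ : B}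
    (hξ : ξ ∈ RL (SB : Set _) (fun P => c P + g (below E P))) :
    ∃ η ∈ RL (SB : Set (HeightOneSpectrum (𝓞 B))) c,
      ξ - u • η ∈ RL (SB : Set _) (fun P => c P - n (below E P)) := by
  classical
  choose e he using fun P : HeightOneSpectrum (𝓞 B) => exists_le_exp P (algebraMap E B u)
  have hn := h.nfin (hdeg := hdeg) (hτ := hτ)
  let T : Finset (HeightOneSpectrum (𝓞 B)) := h.cfin.toFinset ∪ hn.toFinset ∪
    (finite_not_integral ξ).toFinset ∪ (finite_not_integral (algebraMap E B u)).toFinset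
  let m : HeightOneSpectrum (𝓞 B) → ℕ := fun P => e P + (c P).natAbs + (n (below E P)).natAbs
  obtain ⟨η, h1, h2⟩ := exists_approx (R := 𝓞 B) T
    (fun P => if exp (n (below E P)) ≤ (below E P).valuation E u then
      (algebraMap E B u)⁻¹ * ξ else 0) m
  have habs1 : ∀ x : ℤ, x ≤ |x| := le_abs_self
  have habs2 : ∀ x : ℤ, -x ≤ |x| := neg_le_abs
  have hT : ∀ P ∉ SB, P ∉ T → c P = 0 ∧ n (below E P) = 0 ∧ P.valuation B ξ ≤ 1 ∧
      P.valuation B (algebraMap E B u) ≤ 1 := by
    intro P hP hPT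
    simp only [T, Finset.mem_union, not_or, Set.Finite.mem_toFinset, Set.mem_ofPred_eq, not_and,
      not_not] at hPT
    exact ⟨hPT.1.1.1 hP, hPT.1.1.2 hP, hPT.1.2, hPT.2⟩
  refine ⟨η, fun P hP => ?_, fun P hP => ?_⟩
  · have hP' : P ∉ SB := fun hh => hP hh
    by_cases hPT : P ∈ T
    · have h3 := h1 P hPT
      have h4 : exp (-(m P : ℤ)) ≤ exp (-c P) := by
        rw [exp_le_exp]
        simp only [m]
        push_cast
        have := habs1 (c P)
        have := abs_nonneg (n (below E P))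
        have : (0 : ℤ) ≤ e P := Int.natCast_nonneg _
        linarith
      split_ifs at h3 with hc
      · rw [show η = (η - (algebraMap E B u)⁻¹ * ξ) + (algebraMap E B u)⁻¹ * ξ by ring]
        refine (Valuation.map_add _ _ _).trans (max_le (h3.trans h4) ?_)
        rw [map_mul, map_inv₀, val_algebraMap (h.ram P hP')]
        have h5 := hu.hg _ (h.notMem hP')
        rw [max_eq_left hc] at h5
        rw [← h5]
        refine (mul_le_mul' le_rfl (hξ P hP)).trans (le_of_eq ?_)
        rw [← exp_neg, ← exp_add]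
        congr 1
        ring
      · rw [sub_zero] at h3
        exact h3.trans h4
    · rw [(hT P hP' hPT).1, neg_zero, exp_zero]
      exact h2 P hPT
  · have hP' : P ∉ SB := fun hh => hP hh
    beta_reduce
    rw [Algebra.smul_def]
    by_cases hPT : P ∈ T
    · have h3 := h1 P hPT
      have h4 : ∀ z : B, P.valuation B z ≤ exp (-(m P : ℤ)) →
          P.valuation B (algebraMap E B u * z) ≤ exp (-(c P - n (below E P))) := by
        intro z hz
        rw [map_mul]
        refine (mul_le_mul' (he P) hz).trans ?_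
        rw [← exp_add, exp_le_exp]
        simp only [m]
        push_cast
        have := habs1 (c P)
        have := habs2 (n (below E P))
        linarith
      split_ifs at h3 with hc
      · have hu0 : algebraMap E B u ≠ 0 := by
          intro h0
          have h5 : u = 0 := by simpa using h0
          rw [h5, map_zero] at hc
          exact exp_ne_zero (le_zero_iff.1 hc)
        have h5 : ξ - algebraMap E B u * η =
            -(algebraMap E B u * (η - (algebraMap E B u)⁻¹ * ξ)) := by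
          rw [mul_sub, mul_inv_cancel_left₀ hu0]
          ring
        rw [h5, Valuation.map_neg]
        exact h4 _ h3
      · rw [sub_zero] at h3
        refine (Valuation.map_sub _ _ _).trans (max_le ?_ (h4 _ h3))
        have h5 := hu.hg _ (h.notMem hP')
        rw [max_eq_right (not_le.1 hc).le, exp_inj] at h5
        refine (hξ P hP).trans ?_
        beta_reduce
        rw [exp_le_exp]
        linarith
    · obtain ⟨h3, h4, h5, h6⟩ := hT P hP' hPT
      rw [h3, h4, sub_zero, neg_zero, exp_zero]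
      refine (Valuation.map_sub _ _ _).trans (max_le h5 ?_)
      rw [map_mul]
      exact mul_le_one' h6 (h2 P hPT)

include hdeg hτ in
/-- the vanishing outside the sum lattice -/
theorem Lat2.exists_ker (h : Lat2 τ S SB c n) (hu : Upair S n g u u') {ξ : B}
    (hξ : ξ ∉ RL (SB : Set _) (fun P => c P + g (below E P))) :
    ∃ x ∈ ker (ntd hdeg hτ) (RR (S : Set (HeightOneSpectrum (𝓞 E))))
      (RL (SB : Set (HeightOneSpectrum (𝓞 B))) c) u,
      psS S ((ntd hdeg hτ).T x ξ) ≠ 1 := by
  have hy : τ ξ ∉ RL (SB : Set _) (fun P => -(-c (smulPlace τ P) - g (below E P))) := by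
    intro h1
    apply hξ
    intro P hP
    have hP' : P ∉ SB := fun hh => hP hh
    have h2 := h1 (smulPlace τ P) (fun hh => (h.smul_notMem hP') hh)
    beta_reduce at h2
    rw [val_tau hdeg hτ, smulPlace_smulPlace hdeg hτ, below_smulPlace] at h2
    refine h2.trans (le_of_eq ?_)
    congr 1
    ring
  have hfin : {P | P ∉ SB ∧ -c (smulPlace τ P) - g (below E P) ≠ 0}.Finite := by
    refine ((h.cfin' (hdeg := hdeg) (hτ := hτ)).union
      (h.gfin (hdeg := hdeg) (hτ := hτ) hu)).subset ?_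
    rintro P ⟨hP, hne⟩
    by_cases h1 : c (smulPlace τ P) = 0
    · right
      refine ⟨hP, fun h2 => hne ?_⟩
      rw [h1, h2]
      simp
    · exact Or.inl ⟨hP, h1⟩
  obtain ⟨x, hx, hx'⟩ := exists_psS_ne_one h.unB hfin hy
  have hxc : ∀ P ∉ SB, P.valuation B x ≤ exp (-(c P - n (below E P) - g (below E P))) := by
    intro P hP
    refine (hx P (fun hh => hP hh)).trans (le_of_eq ?_)
    congr 1
    rw [← h.nrm P hP]
    ring
  have hgn : ∀ w ∉ S, n w ≤ -g w := by
    intro w hw
    rw [← exp_le_exp, hu.hg w hw]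
    exact le_max_right _ _
  have hgu : ∀ w ∉ S, w.valuation E u ≤ exp (-g w) := by
    intro w hw
    rw [hu.hg w hw]
    exact le_max_left _ _
  refine ⟨x, ⟨fun P hP => ?_, fun y hy => ?_, fun w hw => ?_⟩, ?_⟩
  · have hP' : P ∉ SB := fun hh => hP hh
    refine (hxc P hP').trans ?_
    rw [exp_le_exp]
    have := hgn _ (h.notMem hP')
    linarith
  · -- `u T(x, y)` is integral
    rw [← (ntd hdeg hτ).smul_T]
    intro w hw
    rw [ntd_T]
    refine H36.Psi.trace_le_one fun P hP => ?_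
    have h1 := H47.eq_below_of_mem_above hP
    subst h1
    have hP' : P ∉ SB := fun hh => hw ((h.hSB P).1 hh)
    rw [map_mul, val_tau hdeg hτ, Algebra.smul_def, map_mul, val_algebraMap (h.ram P hP')]
    refine (mul_le_mul' (mul_le_mul' (hgu _ hw) (hxc P hP'))
      (hy _ (fun hh => h.smul_notMem hP' hh))).trans ?_
    rw [← exp_add, ← exp_add, ← exp_zero, exp_le_exp, ← h.nrm P hP']
    linarith
  · -- `u N x` is integral
    have hw' : w ∉ S := fun hh => hw hh
    obtain ⟨P, hP, rfl⟩ := h.exists_above hw'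
    rw [map_mul, ntd_N, val_norm hdeg hτ (h.ram P hP)]
    have h1 := hxc _ (h.smul_notMem hP)
    rw [below_smulPlace] at h1
    refine (mul_le_mul' (hgu _ hw') (mul_le_mul' (hxc P hP) h1)).trans ?_
    rw [← exp_add, ← exp_add, ← exp_zero, exp_le_exp]
    have h2 := hgn _ hw'
    have h3 := h.nrm P hP
    linarith
  · rw [ntd_T, psS_trace h.hSB]
    exact hx'

/-- **The key identity.** -/
theorem Lat2.key (h : Lat2 τ S SB c n) (hu : Upair S n g u u') {L' : AddSubgroup B}
    (hL' : L' ≤ ker (ntd hdeg hτ) (RR (S : Set (HeightOneSpectrum (𝓞 E))))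
      (RL (SB : Set (HeightOneSpectrum (𝓞 B))) c) u)
    [Finite (RL (SB : Set (HeightOneSpectrum (𝓞 B))) c ⧸
      L'.addSubgroupOf (RL (SB : Set (HeightOneSpectrum (𝓞 B))) c))]
    {ξ : B} (hξ : ∀ x ∈ L', (ntd hdeg hτ).T x ξ ∈ RR (S : Set (HeightOneSpectrum (𝓞 E)))) :
    mean (RL (SB : Set (HeightOneSpectrum (𝓞 B))) c) L'
        (fun x => psS S (u * (ntd hdeg hτ).N x - (ntd hdeg hτ).T x ξ)) =
      open Classical in
      if ξ ∈ RL (SB : Set (HeightOneSpectrum (𝓞 B))) (fun P => c P + g (below E P)) then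
        psS S (u' * (ntd hdeg hτ).N ξ) *
          mean (RL (SB : Set (HeightOneSpectrum (𝓞 B))) c) L'
            (fun x => psS S (u * (ntd hdeg hτ).N x))
      else 0 := by
  split_ifs with hmem
  · obtain ⟨η, hη, hδ⟩ := h.exists_decomp (hdeg := hdeg) (hτ := hτ) hu hmem
    have h1 : ξ = u • η + (ξ - u • η) := by abel
    rw [h1]
    refine mean_key (fun z hz => psS_of_mem_RR hz) hL' hη
      (fun x hx => h.T_mem hx hδ) ?_ ?_ ?_
    · intro w hw
      have hw' : w ∉ S := fun hh => hw hh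
      rw [map_mul]
      refine (mul_le_mul' (hu.h1 w hw') (h.N_mem' hδ hw')).trans ?_
      rw [← exp_add, neg_add_cancel, exp_zero]
    · exact fun w hw => hu.h2 w (fun hh => hw hh)
    · intro w hw
      have hw' : w ∉ S := fun hh => hw hh
      rw [← mul_assoc, map_mul]
      refine (mul_le_mul' (hu.h3 w hw') (h.N_mem hη hw')).trans ?_
      rw [← exp_add, add_neg_cancel, exp_zero]
  · obtain ⟨x₀, hx₀, hne⟩ := h.exists_ker (hdeg := hdeg) (hτ := hτ) hu hmem
    refine mean_key_zero (fun z hz => psS_of_mem_RR hz) ?_ hx₀ hne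
    intro l hl l' hl'
    obtain ⟨h1, h2, h3⟩ := hL' hl'
    show psS S (u * (ntd hdeg hτ).N (l + l') - (ntd hdeg hτ).T (l + l') ξ) =
      psS S (u * (ntd hdeg hτ).N l - (ntd hdeg hτ).T l ξ)
    have h4 : u * (ntd hdeg hτ).N (l + l') - (ntd hdeg hτ).T (l + l') ξ =
        (u * (ntd hdeg hτ).N l - (ntd hdeg hτ).T l ξ) +
          (u * (ntd hdeg hτ).T l' l + u * (ntd hdeg hτ).N l' - (ntd hdeg hτ).T l' ξ) := by
      rw [(ntd hdeg hτ).N_add, (ntd hdeg hτ).add_T, (ntd hdeg hτ).T_comm l l']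
      ring
    rw [h4, AddChar.map_add_eq_mul,
      psS_of_mem_RR ((RR _).sub_mem ((RR _).add_mem (h2 l hl) h3) (hξ l' hl')), mul_one]

end Quad

end Fermat.Agent.H78R
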