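import Mathlib

/-!
Estimates for Gauss norms of polynomials which are uniform in the absolute value: the absolute
values are either nonarchimedean (constant `1`) or induced by a complex embedding.
-/

set_option autoImplicit false

namespace Fermat.Agent.H79

open Polynomial

section
variable {K : Type*} [Field K]

/-- Absolute values which are nonarchimedean or induced by a complex embedding. -/
def GoodAV (v : AbsoluteValue K ℝ) : Prop :=
  IsNonarchimedean v ∨ ∃ σ : K →+* ℂ, ∀ x, v x = ‖σ x‖

open Classical in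
/-- `1` for nonarchimedean absolute values, `max 1 C` otherwise. -/
noncomputable def avc (v : AbsoluteValue K ℝ) (C : ℝ) : ℝ :=
  if IsNonarchimedean v then 1 else max 1 C

theorem one_le_avc (v : AbsoluteValue K ℝ) (C : ℝ) : 1 ≤ avc v C := by
  unfold avc; split_ifs
  · exact le_rfl
  · exact le_max_left _ _

theorem avc_pos (v : AbsoluteValue K ℝ) (C : ℝ) : 0 < avc v C :=
  zero_lt_one.trans_le (one_le_avc v C)

theorem avc_of_nonarch {v : AbsoluteValue K ℝ} (h : IsNonarchimedean v) (C : ℝ) : avc v C = 1 := by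
  simp [avc, h]

theorem le_avc {v : AbsoluteValue K ℝ} (h : ¬ IsNonarchimedean v) (C : ℝ) : C ≤ avc v C := by
  simp [avc, h]

theorem avc_mono (v : AbsoluteValue K ℝ) {C D : ℝ} (h : C ≤ D) : avc v C ≤ avc v D := by
  unfold avc; split_ifs
  · exact le_rfl
  · exact max_le_max le_rfl h

/-- bound for a finite sum -/
theorem apply_sum_le {v : AbsoluteValue K ℝ} {ι : Type*} (s : Finset ι) (f : ι → K) {M : ℝ}
    (hM : 0 ≤ M) (h : ∀ i ∈ s, v (f i) ≤ M) : v (∑ i ∈ s, f i) ≤ avc v s.card * M := by
  by_cases hna : IsNonarchimedean v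
  · rw [avc_of_nonarch hna, one_mul]
    rcases s.eq_empty_or_nonempty with rfl | hs
    · simpa using hM
    · obtain ⟨i, hi, hi'⟩ := IsNonarchimedean.finset_image_add_of_nonempty hna f hs
      exact hi'.trans (h i hi)
  · calc v (∑ i ∈ s, f i) ≤ ∑ i ∈ s, v (f i) := v.sum_le s f
      _ ≤ ∑ _i ∈ s, M := Finset.sum_le_sum h
      _ = s.card * M := by simp
      _ ≤ avc v s.card * M := by gcongr; exact le_avc hna _

/-- Gauss norm of a polynomial: the maximum of the absolute values of the coefficients -/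
noncomputable def gN (v : AbsoluteValue K ℝ) (f : K[X]) : ℝ := f.gaussNorm v 1

theorem gN_nonneg (v : AbsoluteValue K ℝ) (f : K[X]) : 0 ≤ gN v f := gaussNorm_nonneg v f zero_le_one

@[simp] theorem gN_zero (v : AbsoluteValue K ℝ) : gN v (0 : K[X]) = 0 := gaussNorm_zero _ _

@[simp] theorem gN_C (v : AbsoluteValue K ℝ) (a : K) : gN v (C a) = v a := gaussNorm_C _ _ _

@[simp] theorem gN_one (v : AbsoluteValue K ℝ) : gN v (1 : K[X]) = 1 := by
  rw [← C_1, gN_C, map_one]

theorem le_gN (v : AbsoluteValue K ℝ) (f : K[X]) (i : ℕ) : v (f.coeff i) ≤ gN v f := by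
  simpa [gN] using le_gaussNorm v f zero_le_one i

theorem exists_gN_eq (v : AbsoluteValue K ℝ) (f : K[X]) : ∃ i, gN v f = v (f.coeff i) := by
  simpa [gN] using exists_eq_gaussNorm v 1 f

theorem gN_le_iff {v : AbsoluteValue K ℝ} {f : K[X]} {M : ℝ} :
    gN v f ≤ M ↔ ∀ i, v (f.coeff i) ≤ M :=
  ⟨fun h i => (le_gN v f i).trans h, fun h => by
    obtain ⟨i, hi⟩ := exists_gN_eq v f
    exact hi ▸ h i⟩

theorem gN_eq_zero_iff {v : AbsoluteValue K ℝ} {f : K[X]} : gN v f = 0 ↔ f = 0 := by
  refine ⟨fun h => ?_, fun h => by simp [h]⟩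
  ext i
  have := le_gN v f i
  rw [h] at this
  simpa using le_antisymm this (v.nonneg _)

theorem gN_pos {v : AbsoluteValue K ℝ} {f : K[X]} (hf : f ≠ 0) : 0 < gN v f :=
  lt_of_le_of_ne (gN_nonneg v f) (fun h => hf (gN_eq_zero_iff.1 h.symm))

theorem supNorm_map {v : AbsoluteValue K ℝ} {σ : K →+* ℂ} (h : ∀ x, v x = ‖σ x‖) (f : K[X]) :
    (f.map σ).supNorm = gN v f := by
  apply le_antisymm
  · obtain ⟨i, hi⟩ := (f.map σ).exists_eq_supNorm
    rw [hi, coeff_map, ← h]
    exact le_gN v f i
  · rw [gN_le_iff]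
    intro i
    rw [h, ← coeff_map]
    exact (f.map σ).le_supNorm i

theorem gN_X_sub_C (v : AbsoluteValue K ℝ) (a : K) : gN v (X - C a) = max 1 (v a) := by
  apply le_antisymm
  · rw [gN_le_iff]
    intro i
    rw [coeff_sub, coeff_X, coeff_C]
    rcases i with _ | _ | i
    · simp
    · simp
    · simp
  · apply max_le
    · have := le_gN v (X - C a) 1
      simpa [coeff_X, coeff_C] using this
    · have := le_gN v (X - C a) 0
      simpa [coeff_X, coeff_C] using this

theorem gN_mul_of_nonarch {v : AbsoluteValue K ℝ} (h : IsNonarchimedean v) (f g : K[X]) :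
    gN v (f * g) = gN v f * gN v g := gaussNorm_mul h zero_lt_one f g

/-- upper bound for the Gauss norm of a product -/
theorem gN_mul_le (v : AbsoluteValue K ℝ) (f g : K[X]) {d : ℕ} (hf : f.natDegree ≤ d) :
    gN v (f * g) ≤ avc v (d + 1) * (gN v f * gN v g) := by
  rw [gN_le_iff]
  intro n
  rw [coeff_mul, Finset.Nat.sum_antidiagonal_eq_sum_range_succ_mk]
  have h0 : ∑ k ∈ Finset.range n.succ, f.coeff k * g.coeff (n - k) =
      ∑ k ∈ (Finset.range n.succ).filter (fun k => k ≤ d), f.coeff k * g.coeff (n - k) := by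
    rw [Finset.sum_filter]
    refine Finset.sum_congr rfl fun k _ => ?_
    split_ifs with hk
    · rfl
    · rw [coeff_eq_zero_of_natDegree_lt (by omega), zero_mul]
  rw [h0]
  refine (apply_sum_le (v := v) _ _ (mul_nonneg (gN_nonneg v f) (gN_nonneg v g))
    fun k _ => ?_).trans ?_
  · rw [map_mul]
    exact mul_le_mul (le_gN v f k) (le_gN v g _) (v.nonneg _) (gN_nonneg v f)
  · refine mul_le_mul_of_nonneg_right (avc_mono v ?_) (mul_nonneg (gN_nonneg v f) (gN_nonneg v g))
    have : ((Finset.range n.succ).filter (fun k => k ≤ d)).card ≤ d + 1 := by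
      refine (Finset.card_le_card (t := Finset.range (d + 1)) fun k hk => ?_).trans
        (Finset.card_range _).le
      simp only [Finset.mem_filter, Finset.mem_range] at hk ⊢
      omega
    exact_mod_cast this

theorem le_mahler (f : ℂ[X]) {d : ℕ} (hd : f.natDegree ≤ d) :
    f.supNorm ≤ 2 ^ d * f.mahlerMeasure := by
  refine (supNorm_le_choose_natDegree_div_two_mul_mahlerMeasure f).trans ?_
  refine mul_le_mul_of_nonneg_right ?_ f.mahlerMeasure_nonneg
  calc ((f.natDegree.choose (f.natDegree / 2) : ℕ) : ℝ) ≤ ((2 ^ f.natDegree : ℕ) : ℝ) := by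
        exact_mod_cast Nat.choose_le_two_pow _ _
    _ ≤ 2 ^ d := by
        push_cast
        exact pow_le_pow_right₀ (by norm_num) hd

theorem mahler_le (f : ℂ[X]) {d : ℕ} (hd : f.natDegree ≤ d) :
    f.mahlerMeasure ≤ (d + 1) * f.supNorm := by
  refine (mahlerMeasure_le_sqrt_natDegree_add_one_mul_supNorm f).trans ?_
  refine mul_le_mul_of_nonneg_right ?_ (by exact supNorm_nonneg f)
  calc √((f.natDegree : ℝ) + 1) ≤ (f.natDegree : ℝ) + 1 := by
        rw [Real.sqrt_le_left (by positivity)]
        nlinarith [(Nat.cast_nonneg f.natDegree : (0:ℝ) ≤ (f.natDegree : ℝ))]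
    _ ≤ d + 1 := by
        have : (f.natDegree : ℝ) ≤ d := by exact_mod_cast hd
        linarith

/-- lower bound for the Gauss norm of a product (Gauss lemma / Gelfond inequality) -/
theorem le_gN_mul {v : AbsoluteValue K ℝ} (hv : GoodAV v) (f g : K[X]) {d : ℕ}
    (hd : f.natDegree + g.natDegree ≤ d) :
    gN v f * gN v g ≤ avc v (2 ^ d * (d + 1)) * gN v (f * g) := by
  by_cases hna : IsNonarchimedean v
  · rw [avc_of_nonarch hna, one_mul, gN_mul_of_nonarch hna]
  obtain ⟨σ, hσ⟩ := hv.resolve_left hna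
  refine le_trans ?_ (mul_le_mul_of_nonneg_right (le_avc hna _) (gN_nonneg v _))
  rw [← supNorm_map hσ f, ← supNorm_map hσ g, ← supNorm_map hσ (f * g), Polynomial.map_mul]
  have h1 := le_mahler (f.map σ) natDegree_map_le
  have h2 := le_mahler (g.map σ) natDegree_map_le
  have h3 : ((f.map σ) * (g.map σ)).natDegree ≤ d :=
    natDegree_mul_le.trans ((add_le_add natDegree_map_le natDegree_map_le).trans hd)
  have h4 := mahler_le _ h3
  calc (f.map σ).supNorm * (g.map σ).supNorm
      ≤ (2 ^ f.natDegree * (f.map σ).mahlerMeasure) * (2 ^ g.natDegree * (g.map σ).mahlerMeasure) :=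
        mul_le_mul h1 h2 (supNorm_nonneg _) (mul_nonneg (by positivity) (mahlerMeasure_nonneg _))
    _ = 2 ^ (f.natDegree + g.natDegree) * ((f.map σ) * (g.map σ)).mahlerMeasure := by
        rw [mahlerMeasure_mul, pow_add]; ring
    _ ≤ 2 ^ d * ((d + 1) * ((f.map σ) * (g.map σ)).supNorm) := by
        refine mul_le_mul ?_ h4 (mahlerMeasure_nonneg _) (by positivity)
        exact pow_le_pow_right₀ (by norm_num) hd
    _ = _ := by ring

theorem gN_C_mul (v : AbsoluteValue K ℝ) (c : K) (f : K[X]) : gN v (C c * f) = v c * gN v f := by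
  apply le_antisymm
  · rw [gN_le_iff]
    intro i
    rw [coeff_C_mul, map_mul]
    exact mul_le_mul_of_nonneg_left (le_gN v f i) (v.nonneg _)
  · obtain ⟨i, hi⟩ := exists_gN_eq v f
    rw [hi, ← map_mul, ← coeff_C_mul]
    exact le_gN v _ i

theorem mahler_prod (s : Multiset ℂ) :
    ((s.map fun a => X - C a).prod).mahlerMeasure = (s.map fun a => max 1 ‖a‖).prod := by
  rw [prod_mahlerMeasure_eq_mahlerMeasure_prod, Multiset.map_map]
  congr 1
  refine Multiset.map_congr rfl fun a _ => ?_
  simp [mahlerMeasure_X_sub_C]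

theorem gN_prod_of_nonarch {v : AbsoluteValue K ℝ} (h : IsNonarchimedean v) (s : Multiset K) :
    gN v (s.map fun a => X - C a).prod = (s.map fun a => max 1 (v a)).prod := by
  induction s using Multiset.induction_on with
  | empty => simp
  | cons a s ih =>
    rw [Multiset.map_cons, Multiset.prod_cons, gN_mul_of_nonarch h, ih, gN_X_sub_C,
      Multiset.map_cons, Multiset.prod_cons]

theorem prod_nonneg_max (v : AbsoluteValue K ℝ) (s : Multiset K) :
    1 ≤ (s.map fun a => max 1 (v a)).prod := by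
  induction s using Multiset.induction_on with
  | empty => simp
  | cons a s ih =>
    rw [Multiset.map_cons, Multiset.prod_cons]
    nlinarith [le_max_left 1 (v a)]

theorem mapprod (σ : K →+* ℂ) (s : Multiset K) :
    ((s.map fun a => X - C a).prod).map σ = ((s.map σ).map fun a => X - C a).prod := by
  rw [Polynomial.map_multiset_prod, Multiset.map_map, Multiset.map_map]
  simp

/-- `|∏ (X - a)| ≤ C ∏ max(1,|a|)` -/
theorem gN_prod_le {v : AbsoluteValue K ℝ} (hv : GoodAV v) (s : Multiset K) {d : ℕ}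
    (hd : s.card ≤ d) :
    gN v (s.map fun a => X - C a).prod ≤ avc v (2 ^ d) * (s.map fun a => max 1 (v a)).prod := by
  by_cases hna : IsNonarchimedean v
  · rw [avc_of_nonarch hna, one_mul, gN_prod_of_nonarch hna]
  obtain ⟨σ, hσ⟩ := hv.resolve_left hna
  have hP := zero_le_one.trans (prod_nonneg_max v s)
  refine le_trans ?_ (mul_le_mul_of_nonneg_right (le_avc hna _) hP)
  rw [← supNorm_map hσ, mapprod]
  refine (le_mahler _ (d := d) ?_).trans (le_of_eq ?_)
  · rw [natDegree_multiset_prod_X_sub_C_eq_card, Multiset.card_map]; exact hd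
  · rw [mahler_prod, Multiset.map_map]
    congr 2
    refine Multiset.map_congr rfl fun a _ => ?_
    simp [hσ]

/-- `∏ max(1,|a|) ≤ C |∏ (X - a)|` -/
theorem le_gN_prod {v : AbsoluteValue K ℝ} (hv : GoodAV v) (s : Multiset K) {d : ℕ}
    (hd : s.card ≤ d) :
    (s.map fun a => max 1 (v a)).prod ≤ avc v (d + 1) * gN v (s.map fun a => X - C a).prod := by
  by_cases hna : IsNonarchimedean v
  · rw [avc_of_nonarch hna, one_mul, gN_prod_of_nonarch hna]
  obtain ⟨σ, hσ⟩ := hv.resolve_left hna
  refine le_trans ?_ (mul_le_mul_of_nonneg_right (le_avc hna _) (gN_nonneg v _))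
  rw [← supNorm_map hσ, mapprod]
  refine le_trans (le_of_eq ?_) (mahler_le _ (d := d) ?_)
  · rw [mahler_prod, Multiset.map_map]
    congr 1
    refine Multiset.map_congr rfl fun a _ => ?_
    simp [hσ]
  · rw [natDegree_multiset_prod_X_sub_C_eq_card, Multiset.card_map]; exact hd

end

end Fermat.Agent.H79
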