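import Fermat.Agent.H64FCore

/-!
# S38-[TW], supersingular case: polynomials like the `p`-division polynomial

`F = p X^d + ... + c` with middle coefficients divisible by `p` and `c` a unit at `p`, `d` prime to
`p`, all roots having a pole.  Inertia at `p` acts on the roots through the tame character of a
single root, and this character has order exactly `d`.
-/

set_option autoImplicit false

open Polynomial

noncomputable section

namespace Fermat.Agent.H79C

open Fermat.Agent.H64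

variable {p : ℕ} [hp : Fact p.Prime]

theorem nm_intCast_lt {a : ℤ} (h : (p : ℤ) ∣ a) : nm p (a : FQb) < 1 := by
  obtain ⟨m, rfl⟩ := h
  push_cast
  rw [nm_mul]
  exact mul_lt_one_of_nonneg_of_lt_one_left (nm_nonneg _) (nm_p_lt_one p) (nm_intCast_le_one _)

theorem nm_intCast_le {a : ℤ} (h : (p : ℤ) ∣ a) : nm p (a : FQb) ≤ nm p (p : FQb) := by
  obtain ⟨m, rfl⟩ := h
  push_cast
  rw [nm_mul]
  exact mul_le_of_le_one_right (nm_nonneg _) (nm_intCast_le_one _)

theorem dvd_of_nm_lt {a : ℤ} (h : nm p (a : FQb) < 1) : (p : ℤ) ∣ a := by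
  by_contra hcon
  have h1 : nm p ((a.natAbs : ℕ) : FQb) = 1 := by
    apply nm_natCast_eq_one
    rw [Nat.coprime_comm, hp.out.coprime_iff_not_dvd]
    intro h2
    exact hcon (Int.natCast_dvd.mpr h2)
  have h2 : nm p ((a.natAbs : ℕ) : FQb) = nm p (a : FQb) := by
    rcases Int.natAbs_eq a with h3 | h3
    · conv_rhs => rw [h3]
      rw [Int.cast_natCast]
    · conv_rhs => rw [h3]
      rw [Int.cast_neg, Int.cast_natCast, nm_neg]
  rw [h2] at h1
  exact h.ne h1

/-- a product of factors `1 - c X` with `c` in the maximal ideal -/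
theorem coeff_prod_lt (s : Multiset FQb) (hs : ∀ c ∈ s, nm p c < 1) :
    ((s.map fun c => (1 - C c * X : FQb[X])).prod).coeff 0 = 1 ∧
    ∀ i, nm p (((s.map fun c => (1 - C c * X : FQb[X])).prod).coeff (i + 1)) < 1 := by
  induction s using Multiset.induction_on with
  | empty =>
    refine ⟨by simp, fun i => ?_⟩
    rw [Multiset.map_zero, Multiset.prod_zero, coeff_one, if_neg (by omega), nm_zero]
    exact one_pos
  | cons c s ih =>
    obtain ⟨h0, h1⟩ := ih fun c hc => hs c (Multiset.mem_cons_of_mem hc)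
    have hc := hs c (Multiset.mem_cons_self c s)
    set P := (s.map fun c => (1 - C c * X : FQb[X])).prod with hP
    have hPle : ∀ i, nm p (P.coeff i) ≤ 1 := by
      intro i
      rcases i with _ | i
      · rw [h0, nm_one]
      · exact (h1 i).le
    rw [Multiset.map_cons, Multiset.prod_cons, ← hP]
    refine ⟨?_, fun i => ?_⟩
    · rw [mul_coeff_zero, h0]
      simp
    · have e1 : ((1 - C c * X) * P).coeff (i + 1) = P.coeff (i + 1) - c * P.coeff i := by
        rw [sub_mul, one_mul, coeff_sub, mul_assoc, coeff_C_mul, mul_comm X P, coeff_mul_X]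
      rw [e1]
      refine nm_sub_lt_of (h1 i) ?_
      rw [nm_mul]
      exact mul_lt_one_of_nonneg_of_lt_one_left (nm_nonneg _) hc (hPle i)

/-- If all the roots of an integral polynomial have a pole and the polynomial is nonzero modulo `p`
then it is a nonzero constant modulo `p`. -/
theorem coeff_of_roots {F : ℤ[X]} (hF : F ≠ 0)
    (hroots : ∀ x : FQb, aeval x F = 0 → 1 < nm p x) :
    (∀ i, (p : ℤ) ∣ F.coeff (i + 1)) ∧ ((∃ i, ¬ (p : ℤ) ∣ F.coeff i) → ¬ (p : ℤ) ∣ F.coeff 0) := by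
  set f : FQb[X] := F.map (Int.castRingHom FQb) with hf
  have hf0 : f ≠ 0 := (Polynomial.map_ne_zero_iff (RingHom.injective_int _)).mpr hF
  have hsplit := (IsAlgClosed.splits f).eq_prod_roots
  have hroot : ∀ x ∈ f.roots, 1 < nm p x := by
    intro x hx
    rw [mem_roots hf0, IsRoot.def, hf, eval_map] at hx
    exact hroots x hx
  have hne : ∀ x ∈ f.roots, x ≠ 0 := by
    intro x hx h0
    have := hroot x hx
    rw [h0, nm_zero] at this
    linarith
  -- rewrite the factorisation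
  have h1 : ∃ c : FQb, f = C c * ((f.roots.map fun x => x⁻¹).map fun c => (1 - C c * X : FQb[X])).prod := by
    refine ⟨f.leadingCoeff * (f.roots.map fun x => -x).prod, ?_⟩
    conv_lhs => rw [hsplit]
    rw [C_mul, mul_assoc]
    congr 1
    rw [map_multiset_prod, Multiset.map_map, Multiset.map_map, ← Multiset.prod_map_mul]
    congr 1
    refine Multiset.map_congr rfl fun x hx => ?_
    have h2 := hne x hx
    have h3 : C x * C x⁻¹ = (1 : FQb[X]) := by rw [← C_mul, mul_inv_cancel₀ h2, C_1]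
    simp only [Function.comp_apply, C_neg]
    linear_combination (-X : FQb[X]) * h3
  obtain ⟨c, hc⟩ := h1
  obtain ⟨h2, h3⟩ := coeff_prod_lt (p := p) (f.roots.map fun x => x⁻¹) (by
    intro y hy
    rw [Multiset.mem_map] at hy
    obtain ⟨x, hx, rfl⟩ := hy
    rw [nm_inv]
    exact inv_lt_one_of_one_lt₀ (hroot x hx))
  have hcoeff : ∀ i, f.coeff i = (F.coeff i : FQb) := fun i => by rw [hf, coeff_map]; rfl
  have h4 : c = (F.coeff 0 : FQb) := by
    have := congrArg (fun g => coeff g 0) hc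
    simp only [coeff_C_mul] at this
    rw [h2, mul_one, hcoeff] at this
    exact this.symm
  have h5 : ∀ i, (F.coeff (i + 1) : FQb) = (F.coeff 0 : FQb) *
      (((f.roots.map fun x => x⁻¹).map fun c => (1 - C c * X : FQb[X])).prod).coeff (i + 1) := by
    intro i
    have := congrArg (fun g => coeff g (i + 1)) hc
    simp only [coeff_C_mul] at this
    rw [← hcoeff, this, h4]
  have h6 : ∀ i, (p : ℤ) ∣ F.coeff (i + 1) := by
    intro i
    apply dvd_of_nm_lt
    rw [h5, nm_mul, mul_comm]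
    exact mul_lt_one_of_nonneg_of_lt_one_left (nm_nonneg _) (h3 i) (nm_intCast_le_one _)
  refine ⟨h6, ?_⟩
  rintro ⟨i, hi⟩ h0
  rcases i with _ | i
  · exact hi h0
  · exact hi (h6 i)

/-- the data on the `p`-division polynomial in the supersingular case -/
structure SSPoly (p : ℕ) [Fact p.Prime] (F : ℤ[X]) (e : ℕ) : Prop where
  deg : F.natDegree ≤ e + 1
  lead : F.coeff (e + 1) = p
  mid : ∀ i, (p : ℤ) ∣ F.coeff (i + 1)
  const : ¬ (p : ℤ) ∣ F.coeff 0
  cop : (e + 1).Coprime p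
  roots : ∀ x : FQb, aeval x F = 0 → 1 < nm p x

namespace SSPoly

variable {F : ℤ[X]} {e : ℕ} (h : SSPoly p F e)

include h

theorem aeval_eq (x : FQb) : aeval x F =
    (∑ i ∈ Finset.range e, (F.coeff (i + 1) : FQb) * x ^ (i + 1)) + (F.coeff 0 : FQb) +
      (p : FQb) * x ^ (e + 1) := by
  rw [aeval_eq_sum_range' (n := e + 2) (by have := h.deg; omega), Finset.sum_range_succ,
    Finset.sum_range_succ', h.lead]
  simp only [zsmul_eq_mul, pow_zero, mul_one, Int.cast_natCast]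

theorem nm_const : nm p (F.coeff 0 : FQb) = 1 := by
  refine le_antisymm (nm_intCast_le_one _) ?_
  by_contra hcon
  exact h.const (dvd_of_nm_lt (not_le.mp hcon))

theorem nm_root {x : FQb} (hx : aeval x F = 0) : nm p (p : FQb) * nm p x ^ (e + 1) = 1 := by
  have hx1 := h.roots x hx
  have hM : 0 < nm p (p : FQb) * nm p x ^ (e + 1) :=
    mul_pos (nm_p_pos p) (pow_pos (one_pos.trans hx1) _)
  have h1 : nm p (∑ i ∈ Finset.range e, (F.coeff (i + 1) : FQb) * x ^ (i + 1)) <
      nm p (p : FQb) * nm p x ^ (e + 1) := by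
    refine nm_sum_lt _ _ hM fun i hi => ?_
    rw [nm_mul, nm_pow]
    refine (mul_le_mul_of_nonneg_right (nm_intCast_le (h.mid i))
      (pow_nonneg (nm_nonneg _) _)).trans_lt ?_
    refine mul_lt_mul_of_pos_left (pow_lt_pow_right₀ hx1 ?_) (nm_p_pos p)
    have := Finset.mem_range.mp hi
    omega
  rw [h.aeval_eq] at hx
  have h2 : nm p ((p : FQb) * x ^ (e + 1) - (-(F.coeff 0 : FQb))) <
      nm p ((p : FQb) * x ^ (e + 1)) := by
    have e1 : (p : FQb) * x ^ (e + 1) - (-(F.coeff 0 : FQb)) =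
        -(∑ i ∈ Finset.range e, (F.coeff (i + 1) : FQb) * x ^ (i + 1)) := by
      linear_combination hx
    rw [e1, nm_neg, nm_mul, nm_pow]
    exact h1
  have h3 := nm_eq_of_sub_lt' h2
  rw [nm_mul, nm_pow, nm_neg, h.nm_const] at h3
  exact h3

theorem nm_mid {x : FQb} (hx : aeval x F = 0) {i : ℕ} (hi : i < e) :
    nm p ((F.coeff (i + 1) : FQb) * x ^ (i + 1)) < 1 := by
  rw [nm_mul, nm_pow, ← h.nm_root hx]
  refine (mul_le_mul_of_nonneg_right (nm_intCast_le (h.mid i))
    (pow_nonneg (nm_nonneg _) _)).trans_lt ?_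
  exact mul_lt_mul_of_pos_left (pow_lt_pow_right₀ (h.roots x hx) (by omega)) (nm_p_pos p)

theorem nm_add_const {x : FQb} (hx : aeval x F = 0) :
    nm p ((p : FQb) * x ^ (e + 1) + (F.coeff 0 : FQb)) < 1 := by
  have h1 : nm p (∑ i ∈ Finset.range e, (F.coeff (i + 1) : FQb) * x ^ (i + 1)) < 1 :=
    nm_sum_lt _ _ one_pos fun i hi => h.nm_mid hx (Finset.mem_range.mp hi)
  rw [h.aeval_eq] at hx
  have e1 : (p : FQb) * x ^ (e + 1) + (F.coeff 0 : FQb) =
      -(∑ i ∈ Finset.range e, (F.coeff (i + 1) : FQb) * x ^ (i + 1)) := by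
    linear_combination hx
  rw [e1, nm_neg]
  exact h1

theorem ne_zero {x : FQb} (hx : aeval x F = 0) : x ≠ 0 := by
  have := h.roots x hx
  rintro rfl
  rw [nm_zero] at this
  linarith

theorem nm_eq {x y : FQb} (hx : aeval x F = 0) (hy : aeval y F = 0) : nm p x = nm p y := by
  have h1 := h.nm_root hx
  rw [← h.nm_root hy] at h1
  have h2 := mul_left_cancel₀ (nm_p_pos p).ne' h1
  exact (pow_left_inj₀ (nm_nonneg _) (nm_nonneg _) (by omega)).mp h2

/-- distinct roots have distinct residues -/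
theorem eq_of_residue {x y : FQb} (hx : aeval x F = 0) (hy : aeval y F = 0)
    (hxy : rs (p := p) (y / x) = 1) : y = x := by
  have hx0 := h.ne_zero hx
  have hnx : nm p x ≠ 0 := (nm_pos.mpr hx0).ne'
  set u := y / x with hu
  have hyu : y = x * u := by rw [hu, mul_div_cancel₀ _ hx0]
  have hnu : nm p u = 1 := by rw [hu, nm_div, h.nm_eq hy hx, div_self hnx]
  by_contra hne
  have hu1 : u - 1 ≠ 0 := by
    intro h1
    rw [sub_eq_zero] at h1
    rw [h1, mul_one] at hyu
    exact hne hyu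
  have hS : ∀ n : ℕ, nm p (∑ j ∈ Finset.range n, u ^ j) ≤ 1 := fun n =>
    nm_sum_le _ _ zero_le_one fun i _ => by rw [nm_pow, hnu, one_pow]
  have key : (∑ i ∈ Finset.range e, ((F.coeff (i + 1) : FQb) * x ^ (i + 1)) *
      ∑ j ∈ Finset.range (i + 1), u ^ j) +
      ((p : FQb) * x ^ (e + 1)) * ∑ j ∈ Finset.range (e + 1), u ^ j = 0 := by
    apply mul_right_cancel₀ hu1
    rw [zero_mul, add_mul, Finset.sum_mul, mul_assoc, geom_sum_mul]
    simp only [mul_assoc, geom_sum_mul]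
    have h2 : ∑ i ∈ Finset.range e, (F.coeff (i + 1) : FQb) * (x ^ (i + 1) * (u ^ (i + 1) - 1)) =
        ∑ i ∈ Finset.range e, (F.coeff (i + 1) : FQb) * (x * u) ^ (i + 1) -
        ∑ i ∈ Finset.range e, (F.coeff (i + 1) : FQb) * x ^ (i + 1) := by
      rw [← Finset.sum_sub_distrib]
      refine Finset.sum_congr rfl fun i _ => ?_
      rw [mul_pow]
      ring
    have h3 : (p : FQb) * (x ^ (e + 1) * (u ^ (e + 1) - 1)) =
        (p : FQb) * (x * u) ^ (e + 1) - (p : FQb) * x ^ (e + 1) := by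
      rw [mul_pow]; ring
    rw [h2, h3]
    have hx' := hx
    have hy' := hy
    rw [h.aeval_eq] at hx' hy'
    rw [hyu] at hy'
    linear_combination hy' - hx'
  have h1 : nm p (∑ i ∈ Finset.range e, ((F.coeff (i + 1) : FQb) * x ^ (i + 1)) *
      ∑ j ∈ Finset.range (i + 1), u ^ j) < 1 := by
    refine nm_sum_lt _ _ one_pos fun i hi => ?_
    rw [nm_mul]
    exact mul_lt_one_of_nonneg_of_lt_one_left (nm_nonneg _)
      (h.nm_mid hx (Finset.mem_range.mp hi)) (hS _)
  have h2 : nm p (∑ j ∈ Finset.range (e + 1), u ^ j) < 1 := by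
    have e1 : ((p : FQb) * x ^ (e + 1)) * ∑ j ∈ Finset.range (e + 1), u ^ j =
        -(∑ i ∈ Finset.range e, ((F.coeff (i + 1) : FQb) * x ^ (i + 1)) *
      ∑ j ∈ Finset.range (i + 1), u ^ j) := by linear_combination key
    have e2 := congrArg (nm p) e1
    rw [nm_neg, nm_mul, nm_mul, nm_pow, h.nm_root hx, one_mul] at e2
    rw [e2]
    exact h1
  rw [← rs_eq_zero_iff h2.le, rs_sum _ _ (fun i _ => by rw [nm_pow, hnu, one_pow])] at h2
  simp only [rs_pow hnu.le, hxy, one_pow, Finset.sum_const, Finset.card_range, nsmul_eq_mul,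
    mul_one] at h2
  rw [CharP.cast_eq_zero_iff (Kap p) p] at h2
  have h3 := h.cop
  rw [Nat.coprime_comm, hp.out.coprime_iff_not_dvd] at h3
  exact h3 h2

omit h in
theorem root_map {x : FQb} (hx : aeval x F = 0) (σ : FGQ) : aeval (σ x) F = 0 := by
  have h1 : aeval (σ x) F = σ (aeval x F) := by
    have := Polynomial.map_aeval_eq_aeval_map (R := ℤ) (S := FQb) (T := ℤ) (U := FQb)
      (φ := RingHom.id ℤ) (ψ := (σ : FQb →+* FQb)) (RingHom.ext_int _ _) F x
    rw [Polynomial.map_id] at this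
    exact this.symm
  rw [h1, hx, map_zero]

/-- the tame character of a root determines the action on all roots -/
theorem apply_eq {x : FQb} (hx : aeval x F = 0) {σ τ : FGQ} (hσ : σ ∈ Ip p) (hτ : τ ∈ Ip p)
    (hth : th p x σ = th p x τ) {y : FQb} (hy : aeval y F = 0) : σ y = τ y := by
  have hy0 := h.ne_zero hy
  have h1 : th p y σ = th p y τ := by
    rw [th_congr hy0 (h.nm_eq hy hx) hσ, th_congr hy0 (h.nm_eq hy hx) hτ, hth]
  apply h.eq_of_residue (root_map hy τ) (root_map hy σ)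
  have hτy0 : τ y ≠ 0 := (map_ne_zero τ).mpr hy0
  have n1 := nm_sigma_div (p := p) hy0 (Ip_le_Dp hσ)
  have n2 := nm_sigma_div (p := p) hy0 (Ip_le_Dp hτ)
  have e1 : σ y / τ y = (σ y / y) * (τ y / y)⁻¹ := by field_simp
  have n3 : nm p ((τ y / y)⁻¹) = 1 := by rw [nm_inv, n2, inv_one]
  have e2 : rs (p := p) ((τ y / y) * (τ y / y)⁻¹) = 1 := by
    rw [mul_inv_cancel₀ (div_ne_zero hτy0 hy0), rs_one]
  rw [rs_mul n2.le n3.le] at e2
  rw [e1, rs_mul n1.le n3.le]
  have h2 : rs (p := p) (σ y / y) = rs (τ y / y) := h1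
  rw [h2, e2]

theorem th_pow_eq_one {x : FQb} (hx : aeval x F = 0) {σ : FGQ} (hσ : σ ∈ Ip p) :
    th p x σ ^ (e + 1) = 1 := by
  have hx0 := h.ne_zero hx
  have n1 := nm_sigma_div (p := p) hx0 (Ip_le_Dp hσ)
  have h1 := h.nm_add_const hx
  have h2 := h.nm_add_const (root_map hx σ)
  have h3 := nm_sub_lt_of h2 h1
  have hpx : (p : FQb) * x ^ (e + 1) ≠ 0 :=
    mul_ne_zero (by exact_mod_cast hp.out.ne_zero) (pow_ne_zero _ hx0)
  have hn : nm p ((p : FQb) * x ^ (e + 1)) = 1 := by rw [nm_mul, nm_pow, h.nm_root hx]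
  rw [th, ← rs_pow n1.le, ← rs_one, rs_eq_iff (by rw [nm_pow, n1, one_pow]) (by simp)]
  have e1 : (σ x / x) ^ (e + 1) - 1 = ((p : FQb) * σ x ^ (e + 1) + (F.coeff 0 : FQb) -
      ((p : FQb) * x ^ (e + 1) + (F.coeff 0 : FQb))) / ((p : FQb) * x ^ (e + 1)) := by
    rw [eq_div_iff hpx, div_pow]
    field_simp
    ring
  rw [e1, nm_div, hn, div_one]
  exact h3

/-- **the tame character of a root has order exactly `d = e + 1`** -/
theorem exists_gen {x : FQb} (hx : aeval x F = 0) :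
    ∃ σ ∈ Ip p, (∀ m : ℕ, th p x σ ^ m = 1 → e + 1 ∣ m) ∧
      ∀ τ ∈ Ip p, ∃ k : ℕ, th p x τ = th p x σ ^ k := by
  have hx0 := h.ne_zero hx
  set χ := thHom p hx0 with hχ
  have hval : ∀ σ : Ip p, ((χ σ : (Kap p)ˣ) : Kap p) = th p x σ := fun σ => rfl
  have hpow : ∀ u ∈ χ.range, u ^ (e + 1) = 1 := by
    rintro _ ⟨σ, rfl⟩
    ext
    rw [Units.val_pow_eq_pow_val, hval, h.th_pow_eq_one hx σ.2]
    rfl
  have hfin : Finite χ.range := by
    have : NeZero (e + 1) := ⟨by omega⟩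
    refine Finite.of_injective (β := rootsOfUnity (e + 1) (Kap p))
      (fun u => ⟨u.1, (mem_rootsOfUnity _ _).mpr (hpow u.1 u.2)⟩) ?_
    intro u v huv
    exact Subtype.ext (congrArg (fun z : rootsOfUnity (e + 1) (Kap p) => (z : (Kap p)ˣ)) huv)
  obtain ⟨⟨_, ⟨σ, rfl⟩⟩, hg⟩ := IsCyclic.exists_generator (α := χ.range)
  have hgen : ∀ τ ∈ Ip p, ∃ k : ℕ, th p x τ = th p x σ ^ k := by
    intro τ hτ
    have h1 := hg ⟨χ ⟨τ, hτ⟩, ⟨_, rfl⟩⟩
    rw [← mem_powers_iff_mem_zpowers] at h1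
    obtain ⟨k, hk⟩ := h1
    refine ⟨k, ?_⟩
    have h2 := congrArg (fun u : χ.range => ((u : (Kap p)ˣ) : Kap p)) hk
    simpa [hval] using h2.symm
  refine ⟨σ, σ.2, fun m hm => ?_, hgen⟩
  rcases Nat.eq_zero_or_pos m with rfl | hm0
  · exact dvd_zero _
  have hall : ∀ τ ∈ Ip p, th p x τ ^ m = 1 := by
    intro τ hτ
    obtain ⟨k, hk⟩ := hgen τ hτ
    rw [hk, ← pow_mul, mul_comm, pow_mul, hm, one_pow]
  obtain ⟨j, hj⟩ := orbit_norm hx0 hm0 hall fun σ hσ τ hτ hth => h.apply_eq hx hσ hτ hth hx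
  have h1 := h.nm_root hx
  have hπ := nm_p_pos p
  have h2 : nm p (p : FQb) ^ (j * ((e + 1 : ℕ) : ℤ)) = nm p (p : FQb) ^ (-(m : ℤ)) := by
    rw [zpow_mul, ← hj, zpow_natCast, zpow_neg, zpow_natCast, ← pow_mul, mul_comm m, pow_mul]
    rw [← inv_pow]
    congr 1
    exact eq_inv_of_mul_eq_one_right h1
  have h3 : j * ((e + 1 : ℕ) : ℤ) = -(m : ℤ) :=
    zpow_right_injective₀ hπ (nm_p_lt_one p).ne h2
  have h4 : ((e + 1 : ℕ) : ℤ) ∣ (m : ℤ) := ⟨-j, by linear_combination h3⟩
  exact_mod_cast h4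

end SSPoly

end Fermat.Agent.H79C
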