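import Fermat.Agent.H79C1
import Fermat.Agent.H69C2

/-!
# S38-[TW]: the Taylor-Wiles condition in the form of `H69C.TWCond`
-/

set_option autoImplicit false

namespace Fermat.Agent.H79C

/-- **The Taylor–Wiles condition** for `W[p]`, `W` semistable, `p` odd. -/
theorem twCond (W : WeierstrassCurve ℤ) (hΔ : W.Δ ≠ 0) {p : ℕ} [Fact p.Prime] (hp2 : p ≠ 2)
    (hW : W.IsSemistableModel) (hirr : W.ModRepIsIrreducible p) : H69C.TWCond W hΔ p :=
  fun _ _ φ ρbar hρ K _ _ G hG V hV => hTW_of_isEquiv W hΔ hp2 hW hirr φ ρbar hρ K G hG V hV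

end Fermat.Agent.H79C
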