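import Mathlib
import Fermat.Agent.H16Cusp0
import Fermat.Agent.H16Lower
import Fermat.Prelude.Def_ModularForm_HeckeOperator
import Fermat.Prelude.Thm_ModularFormClass_qCoeff_heckeU

/-!
The expansion at the cusp `0` of a weight two form on `Γ₀(p)`.
-/

set_option autoImplicit false

noncomputable section

open UpperHalfPlane ModularForm ModularFormClass MatrixGroups SlashInvariantForm
  Matrix.SpecialLinearGroup
open scoped Pointwise
open Fermat.Agent.H16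

namespace Fermat.Agent.H79

local notation "𝕢" => Function.Periodic.qParam

/-- the Fricke matrix `(0 -1; p 0)` -/
def wMat (p : ℕ) : GL (Fin 2) ℝ :=
  if hp : p = 0 then 1 else Matrix.GeneralLinearGroup.mkOfDetNeZero !![0, -1; (p : ℝ), 0]
    (by simpa [Matrix.det_fin_two_of] using hp)

variable {p : ℕ}

theorem val_wMat (hp : p ≠ 0) : ((wMat p : GL (Fin 2) ℝ) : Matrix (Fin 2) (Fin 2) ℝ) =
    !![0, -1; (p : ℝ), 0] := by
  simp [wMat, hp]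

theorem det_wMat (hp : p ≠ 0) : ((wMat p).det : ℝ) = p := by
  rw [Matrix.GeneralLinearGroup.val_det_apply, val_wMat hp, Matrix.det_fin_two_of]
  ring

theorem mem_G0_iff {g : GL (Fin 2) ℝ} : g ∈ G0 p ↔ ∃ γ : SL(2, ℤ), (p : ℤ) ∣ γ 1 0 ∧ mapGL ℝ γ = g := by
  rw [G0, Subgroup.mem_map]
  constructor
  · rintro ⟨γ, hγ, rfl⟩
    exact ⟨γ, mem_Gamma0_iff.1 hγ, rfl⟩
  · rintro ⟨γ, hγ, rfl⟩
    exact ⟨γ, mem_Gamma0_iff.2 hγ, rfl⟩

theorem mapGL_val (γ : SL(2, ℤ)) : ((mapGL ℝ γ : GL (Fin 2) ℝ) : Matrix (Fin 2) (Fin 2) ℝ) =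
    !![((γ 0 0 : ℤ) : ℝ), ((γ 0 1 : ℤ) : ℝ); ((γ 1 0 : ℤ) : ℝ), ((γ 1 1 : ℤ) : ℝ)] := by
  ext i j
  fin_cases i <;> fin_cases j <;> rfl

theorem exists_sl {a b c d : ℤ} (h : a * d - b * c = 1) : ∃ δ : SL(2, ℤ), δ 0 0 = a ∧ δ 0 1 = b ∧
    δ 1 0 = c ∧ δ 1 1 = d :=
  ⟨⟨!![a, b; c, d], by rw [Matrix.det_fin_two_of]; exact h⟩, rfl, rfl, rfl, rfl⟩

theorem wMat_conj (hp : p ≠ 0) {γ : SL(2, ℤ)} (hγ : (p : ℤ) ∣ γ 1 0) :
    ∃ δ : SL(2, ℤ), (p : ℤ) ∣ δ 1 0 ∧ wMat p * mapGL ℝ γ = mapGL ℝ δ * wMat p := by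
  obtain ⟨c, hc⟩ := hγ
  have hdet := γ.det_coe
  rw [Matrix.det_fin_two] at hdet
  obtain ⟨δ, e00, e01, e10, e11⟩ := exists_sl (a := γ 1 1) (b := -c) (c := -(p : ℤ) * γ 0 1)
    (d := γ 0 0) (by rw [hc] at hdet; linear_combination hdet)
  refine ⟨δ, ⟨-γ 0 1, by rw [e10]; ring⟩, ?_⟩
  apply Units.ext
  rw [Units.val_mul, Units.val_mul, val_wMat hp, mapGL_val, mapGL_val, e00, e01, e10, e11, hc]
  ext i j
  fin_cases i <;> fin_cases j <;> simp [Matrix.mul_apply, Fin.sum_univ_two, mul_comm]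

theorem wMat_conj' (hp : p ≠ 0) {γ : SL(2, ℤ)} (hγ : (p : ℤ) ∣ γ 1 0) :
    ∃ δ : SL(2, ℤ), (p : ℤ) ∣ δ 1 0 ∧ mapGL ℝ γ * wMat p = wMat p * mapGL ℝ δ := by
  obtain ⟨c, hc⟩ := hγ
  have hdet := γ.det_coe
  rw [Matrix.det_fin_two] at hdet
  obtain ⟨δ, e00, e01, e10, e11⟩ := exists_sl (a := γ 1 1) (b := -c) (c := -(p : ℤ) * γ 0 1)
    (d := γ 0 0) (by rw [hc] at hdet; linear_combination hdet)
  refine ⟨δ, ⟨-γ 0 1, by rw [e10]; ring⟩, ?_⟩
  apply Units.ext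
  rw [Units.val_mul, Units.val_mul, val_wMat hp, mapGL_val, mapGL_val, e00, e01, e10, e11, hc]
  ext i j
  fin_cases i <;> fin_cases j <;> simp [Matrix.mul_apply, Fin.sum_univ_two, mul_comm]

theorem conj_G0 (hp : p ≠ 0) : ConjAct.toConjAct (wMat p)⁻¹ • G0 p = G0 p := by
  ext g
  rw [Subgroup.mem_pointwise_smul_iff_inv_smul_mem, ← ConjAct.toConjAct_inv, inv_inv,
    ConjAct.toConjAct_smul]
  constructor
  · intro h
    obtain ⟨γ, hγ, h1⟩ := mem_G0_iff.1 h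
    obtain ⟨δ, hδ, h2⟩ := wMat_conj' hp hγ
    refine mem_G0_iff.2 ⟨δ, hδ, ?_⟩
    rw [h1] at h2
    simpa [mul_assoc] using h2.symm
  · intro h
    obtain ⟨γ, hγ, rfl⟩ := mem_G0_iff.1 h
    obtain ⟨δ, hδ, h2⟩ := wMat_conj hp hγ
    refine mem_G0_iff.2 ⟨δ, hδ, ?_⟩
    rw [h2, mul_assoc, mul_inv_cancel, mul_one]

/-- cast along equality of groups -/
theorem exists_cast {Γ Γ' : Subgroup (GL (Fin 2) ℝ)} (h : Γ = Γ') {k : ℤ} (f : ModularForm Γ k) :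
    ∃ g : ModularForm Γ' k, (g : ℍ → ℂ) = f := by
  subst h
  exact ⟨f, rfl⟩

theorem exists_fricke (hp : p ≠ 0) {k : ℤ} (G : ModularForm (G0 p) k) :
    ∃ G' : ModularForm (G0 p) k, (G' : ℍ → ℂ) = (G : ℍ → ℂ) ∣[k] wMat p := by
  obtain ⟨g, hg⟩ := exists_cast (conj_G0 hp) (ModularForm.translate G (wMat p))
  exact ⟨g, hg⟩

/-- slashing by a scalar in weight two -/
theorem slash_scalar {g h : GL (Fin 2) ℝ} {c : ℝ} (hc : c ≠ 0)
    (hgh : (g : Matrix (Fin 2) (Fin 2) ℝ) = c • (h : Matrix (Fin 2) (Fin 2) ℝ)) (f : ℍ → ℂ)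
    (hdet : 0 < (h.det : ℝ)) :
    f ∣[(2 : ℤ)] g = f ∣[(2 : ℤ)] h := by
  have hdet2 : (g.det : ℝ) = c ^ 2 * (h.det : ℝ) := by
    rw [Matrix.GeneralLinearGroup.val_det_apply, Matrix.GeneralLinearGroup.val_det_apply, hgh,
      Matrix.det_smul]
    simp
  have hdg : 0 < (g.det : ℝ) := by rw [hdet2]; positivity
  have hnum : ∀ τ : ℂ, num g τ = c * num h τ := by
    intro τ
    simp only [num, hgh, Matrix.smul_apply, smul_eq_mul]
    push_cast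
    ring
  have hden : ∀ τ : ℂ, denom g τ = c * denom h τ := by
    intro τ
    simp only [denom, hgh, Matrix.smul_apply, smul_eq_mul]
    push_cast
    ring
  have hc' : (c : ℂ) ≠ 0 := by exact_mod_cast hc
  ext τ
  have hsm : g • τ = h • τ := by
    ext
    rw [UpperHalfPlane.coe_smul_of_det_pos hdg, UpperHalfPlane.coe_smul_of_det_pos hdet, hnum, hden]
    rw [mul_div_mul_left _ _ hc']
  rw [ModularForm.slash_apply, ModularForm.slash_apply, hsm, hden, hdet2]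
  have h1 : σ g = σ h := by
    unfold σ
    rw [if_pos hdg, if_pos hdet]
  rw [h1]
  have h2 : ((|c ^ 2 * (h.det : ℝ)| : ℝ) : ℂ) = (c : ℂ) ^ 2 * ((|(h.det : ℝ)| : ℝ) : ℂ) := by
    rw [abs_mul, abs_of_pos (by positivity : 0 < c ^ 2)]
    push_cast; ring
  rw [h2, show (2 : ℤ) - 1 = 1 by norm_num, zpow_one, zpow_one, mul_zpow]
  have h3 : (c : ℂ) ^ 2 * (c : ℂ) ^ (-2 : ℤ) = 1 := by
    rw [← zpow_natCast, ← zpow_add₀ hc']; norm_num
  linear_combination (σ h (f (h • τ)) * ((|(h.det : ℝ)| : ℝ) : ℂ) * denom h τ ^ (-2 : ℤ)) * h3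


variable [hp : Fact p.Prime]

theorem fricke_eq (G : ModularForm (G0 p) 2) :
    (G : ℍ → ℂ) ∣[(2 : ℤ)] wMat p = - heckeU 2 p (G : ℍ → ℂ) := by
  have hp0 : p ≠ 0 := hp.out.ne_zero
  obtain ⟨G', hG'⟩ := exists_fricke hp0 G
  have h1 := Fermat.Agent.H16.Lower.trace_eq_zero G'
  have h2 : ∑ j : Fin p, (G' : ℍ → ℂ) ∣[(2 : ℤ)] (stj j) = heckeU 2 p (G : ℍ → ℂ) := by
    rw [heckeU_def, ← Fin.sum_univ_eq_sum_range (fun j => (G : ℍ → ℂ) ∣[(2 : ℤ)] heckeMatrix p j)]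
    refine Finset.sum_congr rfl fun j _ => ?_
    rw [ModularForm.SL_slash, hG', ← SlashAction.slash_mul]
    refine slash_scalar (c := -1) (by norm_num) ?_ _ (det_heckeMatrix_pos p j)
    rw [Units.val_mul, val_wMat hp0, val_heckeMatrix hp0]
    have hm : ((mapGL ℝ (stj j) : GL (Fin 2) ℝ) : Matrix (Fin 2) (Fin 2) ℝ) =
        !![0, -1; 1, (j : ℝ)] := by
      rw [mapGL_val, stj_coe]
      simp
    erw [hm]
    ext i k
    fin_cases i <;> fin_cases k <;> simp [Matrix.mul_apply, Fin.sum_univ_two]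
  rw [h2, hG'] at h1
  exact eq_neg_of_add_eq_zero_left h1

theorem slash_S_eq (G : ModularForm (G0 p) 2) :
    (G : ℍ → ℂ) ∣[(2 : ℤ)] ModularGroup.S =
      ((G : ℍ → ℂ) ∣[(2 : ℤ)] wMat p) ∣[(2 : ℤ)] heckeMatrix p 0 := by
  have hp0 : p ≠ 0 := hp.out.ne_zero
  have hm : ((mapGL ℝ ModularGroup.S : GL (Fin 2) ℝ) : Matrix (Fin 2) (Fin 2) ℝ) =
      !![0, -1; 1, 0] := by
    rw [mapGL_val]
    simp [ModularGroup.S]
  rw [← SlashAction.slash_mul, ModularForm.SL_slash]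
  symm
  refine slash_scalar (c := (p : ℝ)) (by exact_mod_cast hp0) ?_ _ ?_
  · rw [Units.val_mul, val_wMat hp0, val_heckeMatrix hp0]
    erw [hm]
    ext i k
    fin_cases i <;> fin_cases k <;> simp [Matrix.mul_apply, Fin.sum_univ_two]
  · rw [Matrix.GeneralLinearGroup.val_det_apply]
    erw [hm]
    rw [Matrix.det_fin_two_of]
    norm_num

/-- the expansion at the cusp `0` of a weight two form of prime level -/
theorem coeff_qExpansion_S (G : ModularForm (G0 p) 2) (m : ℕ) :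
    (qExpansion p ((G : ℍ → ℂ) ∣[(2 : ℤ)] ModularGroup.S)).coeff m =
      -((p : ℂ)⁻¹ * (qExpansion 1 (G : ℍ → ℂ)).coeff (m * p)) := by
  have hp0 : p ≠ 0 := hp.out.ne_zero
  obtain ⟨G', hG'⟩ := exists_fricke hp0 G
  have hU : heckeU 2 p (G : ℍ → ℂ) = ((-G' : ModularForm (G0 p) 2) : ℍ → ℂ) := by
    rw [FunLike.coe_neg, hG', fricke_eq, neg_neg]
  have hcoef : ∀ n, (qExpansion 1 (G' : ℍ → ℂ)).coeff n =
      -((qExpansion 1 (G : ℍ → ℂ)).coeff (n * p)) := by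
    intro n
    have h1 := ModularFormClass.qCoeff_heckeU G G0_one_mem_strictPeriods hp0 n
    rw [coeffHeckeU_apply] at h1
    rw [hU, FunLike.coe_neg] at h1
    simp only [qCoeff] at h1
    rw [ModularForm.qExpansion_neg one_pos G0_one_mem_strictPeriods, map_neg] at h1
    rw [← h1, neg_neg]
  symm
  refine ModularFormClass.qExpansion_coeff_unique
    (f := ModularForm.translate G (mapGL ℝ ModularGroup.S))
    (c := fun m => -((p : ℂ)⁻¹ * (qExpansion 1 (G : ℍ → ℂ)).coeff (m * p)))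
    p_pos (p_mem_strictPeriods_conj ModularGroup.S) ?_ m
  intro τ
  change HasSum _ (((G : ℍ → ℂ) ∣[(2 : ℤ)] ModularGroup.S) τ)
  rw [slash_S_eq, slash_heckeMatrix_apply 2 hp0, ← hG']
  have h2 := (ModularForm.hasSum_qExpansion G' one_pos G0_one_mem_strictPeriods
    (heckeMatrix p 0 • τ)).mul_left ((p : ℂ)⁻¹)
  convert! h2 using 2 with n
  rw [hcoef, smul_eq_mul]
  have h3 : 𝕢 1 ((heckeMatrix p 0 • τ : ℍ) : ℂ) = 𝕢 p (τ : ℂ) := by
    rw [coe_heckeMatrix_smul hp0, Function.Periodic.qParam, Function.Periodic.qParam]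
    congr 1
    have : (p : ℂ) ≠ 0 := by exact_mod_cast hp0
    push_cast
    field_simp
    ring
  rw [h3]
  ring

end Fermat.Agent.H79
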