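import Fermat.Agent.H7ZHook
import Fermat.Agent.H9ZEig

/-!
# The positivity lemma on the setup of block (C) (helper7)

* `rad_of_real` : eigenfunctions of all real `IsRC` kernels are eigenfunctions of all kernels;
* `place_ext`, `aut_σ_eq` : the permutation of places of `AutData`;
* `pos_setup` : **the hypothesis `hpos` of block (C)**.
-/

set_option autoImplicit false
set_option linter.unusedSectionVars false

open IsDedekindDomain HeightOneSpectrum WithZero NumberField Matrix MeasureTheory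
open scoped MatrixGroups Classical

noncomputable section

namespace Fermat.Agent.H7.Z

open Fermat.Agent.H59XF Fermat.Agent.H59D Fermat.Agent.H76U Fermat.Agent.H51Z
open Fermat.Agent.H79S (IsInd IsTyp HData KerData CSetup)

/-! ### Real kernels -/

section Rad

variable {J : Type*} [Fintype J]

/-- the real kernels of the countable family, cut off at `1` -/
def Pr (n : ℕ) (k : J → ℕ) (u : J → ℝ) : ℝ := ∏ j, H9Z.mk n (k j) (max (u j) 1)

theorem mk_bound (n k : ℕ) (t : ℝ) : |H9Z.mk n k (max t 1)| ≤ (n + 1 : ℝ) ^ k := by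
  rw [H9Z.mk, abs_mul, abs_pow]
  have h1 : (0 : ℝ) < max t 1 := lt_of_lt_of_le one_pos (le_max_right _ _)
  rw [abs_of_nonneg (H9Z.cut_nonneg _ _), abs_of_pos h1]
  by_cases h : (n : ℝ) + 1 ≤ max t 1
  · rw [H9Z.cut_zero h, zero_mul]
    positivity
  · push Not at h
    calc H9Z.cut n (max t 1) * (max t 1) ^ k ≤ 1 * (max t 1) ^ k :=
          mul_le_mul_of_nonneg_right (H9Z.cut_le_one _ _) (by positivity)
      _ = (max t 1) ^ k := one_mul _
      _ ≤ (n + 1 : ℝ) ^ k := pow_le_pow_left₀ h1.le h.le k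

theorem isRC_Pr (n : ℕ) (k : J → ℕ) : H56Z.IsRC (fun u => ((Pr n k u : ℝ) : ℂ)) where
  cont := by
    refine Complex.continuous_ofReal.comp ?_
    refine continuous_finsetProd _ fun j _ => ?_
    exact (H9Z.contDiff_mk n (k j)).continuous.comp ((continuous_apply j).max continuous_const)
  bdd := by
    refine ⟨∏ j, (n + 1 : ℝ) ^ k j, fun u => ?_⟩
    rw [Complex.norm_real, Real.norm_eq_abs, Pr, Finset.abs_prod]
    exact Finset.prod_le_prod (fun _ _ => abs_nonneg _) fun j _ => mk_bound n (k j) (u j)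
  supp := by
    refine ⟨n + 1, fun u hu => ?_⟩
    obtain ⟨j, hj⟩ := hu
    rw [Pr, Finset.prod_eq_zero (Finset.mem_univ j), Complex.ofReal_zero]
    rw [H9Z.mk, H9Z.cut_zero (hj.le.trans (le_max_left _ _)), zero_mul]

theorem Pr_eq (n : ℕ) (k : J → ℕ) {u : J → ℝ} (hu : ∀ j, 1 ≤ u j) :
    ((Pr n k u : ℝ) : ℂ) = H9Z.P n k u := by
  rw [Pr, H9Z.P, H9Z.tens, Complex.ofReal_prod]
  refine Finset.prod_congr rfl fun j _ => ?_
  rw [max_eq_left (hu j), H9Z.mkC]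

theorem Rk_Pr (n : ℕ) (k : J → ℕ) (Φ : (J → H3) → ℂ) (w : J → H3) :
    H5Z.Rk (fun u => ((Pr n k u : ℝ) : ℂ)) Φ w = H5Z.Rk (H9Z.P n k) Φ w := by
  unfold H5Z.Rk
  congr 1
  funext w'
  have h := Pr_eq n k (u := H5Z.chv w w') fun j => H3.one_le_ch _ _
  simp only [h]

/-- Eigenfunctions of all real `IsRC` kernels are eigenfunctions of all kernels. -/
theorem rad_of_real {Φ : (J → H3) → ℂ} (hΦ : LocallyIntegrable Φ)
    (h : ∀ κ : (J → ℝ) → ℝ, H56Z.IsRC (fun u => (κ u : ℂ)) → ∀ τ,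
      H5Z.Rk (fun u => (κ u : ℂ)) Φ τ = H9Z.hat (fun u => (κ u : ℂ)) * Φ τ) :
    H9Z.IsEig Φ := by
  refine H9Z.isEig_of_countable hΦ fun n k w => ?_
  have h1 := h (Pr n k) (isRC_Pr n k) w
  rw [Rk_Pr] at h1
  rw [h1]
  congr 1
  exact Rk_Pr n k _ _

end Rad

/-! ### Places -/

theorem place_ext {K : Type*} [Field K] [NumberField K] {w w' : HeightOneSpectrum (𝓞 K)}
    (h : ∀ x, w.valuation K x = w'.valuation K x) : w = w' := by
  apply HeightOneSpectrum.ext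
  ext r
  rw [← valuation_lt_one_iff_mem (K := K), ← valuation_lt_one_iff_mem (K := K), h]

section Setup

variable {F E : Type} [Field F] [NumberField F] [Field E] [NumberField E] [Algebra F E]
  (C : CSetup F E)

theorem aut_σ_eq (w : HeightOneSpectrum (𝓞 E)) : C.aE.σ w = H83Z.placePerm C.s w := by
  apply place_ext
  intro x
  obtain ⟨y, rfl⟩ := C.s.surjective x
  rw [H83Z.placePerm_val, ← C.s_eq, C.aE.val]

theorem below_σ (w : HeightOneSpectrum (𝓞 E)) : H47.below F (C.aE.σ w) = H47.below F w := by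
  have := C.gal
  rw [aut_σ_eq, H83Z.below_placePerm]

theorem σ_w0 : C.aE.σ C.w0 = C.w0 := by
  have := C.gal
  have h1 : C.w0 ∈ H82.above E C.v0 := by rw [C.above_v0]; rfl
  have h2 : H83Z.placePerm C.s C.w0 ∈ H82.above E C.v0 := (H83Z.placePerm_mem_above C.s).2 h1
  rw [C.above_v0] at h2
  rw [aut_σ_eq]
  exact h2

theorem mem_SE_σ (w : HeightOneSpectrum (𝓞 E)) : w ∈ C.SE ↔ C.aE.σ w ∈ C.SE := by
  rw [C.mem_SE, C.mem_SE, below_σ]

theorem w0_notMem : C.w0 ∉ C.SE := by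
  rw [C.mem_SE]
  have h1 : C.w0 ∈ H82.above E C.v0 := by rw [C.above_v0]; rfl
  rw [← H47.eq_below_of_mem_above h1]
  exact C.v0S

/-- Existence of a Whittaker function for bounded functions. -/
theorem exists_kappa_of {K : Type*} [Field K] [NumberField K] {J : Type*} [Fintype J] [Nonempty J]
    {m : Model K J} {f : m.X → ℂ}
    (hinv : ∀ (g : PGL(2, K)) (x : m.X), f (g • x) = f x) (hbdd : ∃ M : ℝ, ∀ x, ‖f x‖ ≤ M)
    (hE : ∀ y : XF m.L.fam, H9Z.IsEig fun τ : J → H3 => f (τ, y)) :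
    ∃ κ : XF m.L.fam → ℂ, H19W.IsWM m (fun u => H22Z.K0 (4 * Real.pi * u)) f κ := by
  refine H19W.exists_kappa m (fun u hu => H22Z.k0_ne hu) (H22Z.feThm J) f hinv fun y => ?_
  obtain ⟨M, hM⟩ := hbdd
  refine ⟨M, ⟨?_, ?_, fun τ => hM (τ, y)⟩⟩
  · exact (hE y).contDiffOn.of_le (WithTop.coe_le_coe.2 (le_top : (2 : ℕ∞) ≤ ⊤))
  · exact fun j w => (hE y).lap j w

/-- bounded functions with measurable fibres are locally integrable on the fibres -/
theorem locInt_of_bdd {K : Type*} [Field K] [NumberField K] {J : Type*} [Fintype J]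
    {m : Model K J} {f : m.X → ℂ} (hbdd : ∃ M : ℝ, ∀ x, ‖f x‖ ≤ M) (y : XF m.L.fam)
    (hmeas : Measurable fun τ : J → H3 => f (τ, y)) :
    LocallyIntegrable fun τ : J → H3 => f (τ, y) := by
  obtain ⟨M, hM⟩ := hbdd
  refine ((locallyIntegrable_const (M : ℝ) : LocallyIntegrable (fun _ : J → H3 => M))).mono
    hmeas.aestronglyMeasurable (Filter.Eventually.of_forall fun τ => ?_)
  exact (hM (τ, y)).trans (le_abs_self M)

/-- **POSITIVITY LEMMA for block (C)** (`hpos`). -/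
theorem pos_setup {f : C.mE.X → ℂ}
    (hinv : ∀ (g : PGL(2, E)) (x : C.mE.X), f (g • x) = f x) (hbdd : ∃ M : ℝ, ∀ x, ‖f x‖ ≤ M)
    (hmeas : ∀ y : XF C.mE.L.fam, Measurable fun τ : Fin 3 → H3 => f (τ, y))
    (hrad : ∀ κ : (Fin 3 → ℝ) → ℝ, H56Z.IsRC (fun u => (κ u : ℂ)) →
      ∀ (y : XF C.mE.L.fam) (τ : Fin 3 → H3), H5Z.Rk (fun u => (κ u : ℂ)) (fun v => f (v, y)) τ =
        H9Z.hat (fun u => (κ u : ℂ)) * f (τ, y))
    (he : ∀ τ : Fin 3 → H3, gop C.kE.D.eS (fun y => f (τ, y)) = fun y => f (τ, y))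
    {lam : HeightOneSpectrum (𝓞 E) → ℂ} (hlam : ∀ w, lam (C.aE.σ w) = lam w)
    (hT : ∀ w ∉ C.SE, w ≠ C.w0 → ∀ τ : Fin 3 → H3,
      lop w (C.kE.D.T w) (fun y => f (τ, y)) = lam w • fun y => f (τ, y))
    (x : C.mE.X) : f (C.aE.act x) = f x := by
  obtain ⟨κ, hW⟩ := exists_kappa_of hinv hbdd fun y =>
    rad_of_real (locInt_of_bdd hbdd y (hmeas y)) fun k hk τ => hrad k hk y τ
  have hK : ∀ w ∉ C.SE, w ≠ C.w0 → ∀ (ϖ : Eˣ), w.valuation E (ϖ : E) = exp (-(1 : ℤ)) →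
      ∀ R : Finset E, IsReps (w.valuation E) 1 R → HeckeX C.mE f w ϖ R (lam w) := by
    intro w hw hw' ϖ hϖ R hR τ
    exact heckeEq_of_isInd (C.kE.lev_good w hw hw') (C.kE.T_ind w hw hw') (hT w hw hw' τ) hϖ hR
  have hTy : ∀ w ∈ C.SE, TypeX C.mE f w ((C.TE w).B : Set E) := by
    intro w hw τ y g b hb
    have h1 : lop w (C.kE.D.e w) (fun y => f (τ, y)) = fun y => f (τ, y) :=
      lop_e_of_eS _ (he τ) (by rw [C.kE.D_S]; exact hw)
    have hmem : (borP E).n b ∈ (C.TE w).H := by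
      rw [← mk_nM]; exact ⟨_, (C.TE w).nM_mem hb, rfl⟩
    have h2 := typed_of_lop (C.kE.e_typ w hw) (fun g hg h hh => (C.TE w).chi_mul hg hh)
      (C.TE w).chi_one h1 hmem y g
    rw [smul_eq_mul, ← mk_nM, (C.TE w).chi_nM, C.psiE w hw, mk_nM] at h2
    exact h2
  refine posX C.aE (fun u hu => H22Z.k0_ne hu) hinv hW C.w0 (σ_w0 C) (fun u hu => ?_)
    {w | w ∈ C.SE} lam hlam (fun w hw hw' => goodAt_of_max (C.kE.lev_good w hw hw')
      (C.unramE w hw)) (fun w hw hw' => ?_) (fun w => ((C.TE w).B : Set E))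
    (fun w hw => ⟨C.dualE w hw, hTy w hw, hTy _ ((mem_SE_σ C w).1 hw), fun b hb => ?_⟩) x
  · rw [C.kE.lev_w0]
    refine ⟨bm u 0, ⟨?_, ?_⟩, rfl⟩
    · exact bm_mem_GLw hu (by simp)
    · rw [bm_10, map_zero]; exact zero_le
  · have hσS : C.aE.σ w ∉ C.SE := fun hh => hw ((mem_SE_σ C w).2 hh)
    have hσ0 : C.aE.σ w ≠ C.w0 := fun hh => hw' (C.aE.σ.injective (hh.trans (σ_w0 C).symm))
    obtain ⟨ϖ, hϖ⟩ := exists_unif (K := E) w
    obtain ⟨R, hR, -, -⟩ := exists_isReps_card (K := E) w 1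
    refine ⟨ϖ, hϖ, R, ?_, hR.le_one, hK w hw hw' ϖ hϖ R hR, ?_⟩
    · obtain ⟨b, hb, -⟩ := hR.exists_mem 0 (by simp)
      exact ⟨b, hb⟩
    · refine hK _ hσS hσ0 _ ?_ _ (isReps_map (fun x => C.aE.val w x) hR)
      rw [← hϖ]
      exact C.aE.val w ϖ
  · rw [C.s_eq]
    exact ((C.TE_s w hw b).2.1).2 hb

end Setup

end Fermat.Agent.H7.Z
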