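import Fermat.Agent.H79SFam
import Fermat.Agent.H21Z5
import Fermat.Agent.H42T6
import Fermat.Agent.H7ZHook2
import Fermat.Agent.H44ZMF
import Fermat.Agent.H30G4

/-!
# S47, block (C): positivity on the target coordinates (helper79)

* `fkB_eS` : a finite sum of pure monomial kernels is fixed by `e_S`; `eS_of_kop`;
* `evT_σ` : the eigenvalues of the target are invariant under `s`;
* `hpos_of` : the hypothesis `hpos` of the comparison, for any family of operators containing the
  real radial kernels and the Hecke operators.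
-/

set_option autoImplicit false
set_option linter.unusedSectionVars false

noncomputable section

open IsDedekindDomain HeightOneSpectrum WithZero NumberField Matrix MeasureTheory
open scoped MatrixGroups ComplexConjugate

namespace Fermat.Agent.H79S

open Fermat.Agent.H59XF Fermat.Agent.H51Z Fermat.Agent.H59D Fermat.Agent.H76U
open Fermat.Agent.H17S (gX RI act Bd)
open Fermat.Agent.H32Z Fermat.Agent.H32Z.CutOff Fermat.Agent.H42S Fermat.Agent.H21Z
open Fermat.Agent.H56Z (IsRC)

section eS

variable {K : Type} [Field K] [NumberField K] {J : Type} [Fintype J] {m : Model K J}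

/-- The monomial kernels are fixed by `e_S` on the left. -/
theorem gopB_eS_mono (D : HData m.L.fam) (n : HeightOneSpectrum (𝓞 K) →₀ ℕ) (k : ℕ) :
    gopB m D.eS * gopB m (D.mono n k) = gopB m (D.mono n k) := by
  rw [← gopB_gmul, D.eS_mul_mono]

/-- A finite sum of pure monomial kernels is fixed by `e_S`. -/
theorem gopB_eS_fkB (D : HData m.L.fam) {ι : Type} (s : Finset ι) {κ : ι → (J → ℝ) → ℂ}
    (hκ : ∀ i, IsRC (κ i)) (n : ι → HeightOneSpectrum (𝓞 K) →₀ ℕ) (k : ι → ℕ) :
    gopB m D.eS * fkB s hκ (fun i => D.mono (n i) (k i)) =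
      fkB s hκ (fun i => D.mono (n i) (k i)) := by
  unfold fkB
  rw [Finset.mul_sum]
  refine Finset.sum_congr rfl fun i _ => ?_
  rw [← mul_assoc, ← (rkB_gopB_commute m (hκ i) D.eS).eq, mul_assoc, gopB_eS_mono]

/-- Eigenvectors of the operator with nonzero eigenvalue are fixed by `e_S`. -/
theorem eS_of_kop (D : HData m.L.fam) {ι : Type} (s : Finset ι) {κ : ι → (J → ℝ) → ℂ}
    (hκ : ∀ i, IsRC (κ i)) (n : ι → HeightOneSpectrum (𝓞 K) →₀ ℕ) (k : ι → ℕ)
    (c : CutOff PGL(2, K) m.X) [IsFiniteMeasure (c.ν m.μ)]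
    {hK : BK (autK PGL(2, K) (fks m s κ fun i => D.mono (n i) (k i)))}
    {hG : ∀ (g : PGL(2, K)) x y, autK PGL(2, K) (fks m s κ fun i => D.mono (n i) (k i)) (g • x) y =
      autK PGL(2, K) (fks m s κ fun i => D.mono (n i) (k i)) x y}
    {f : BInv PGL(2, K) m.X} {a : ℂ} (ha : a ≠ 0)
    (h : kop hK (c.ν m.μ) hG f = a • f) : gopB m D.eS f = f := by
  rw [kop_fks s hκ _ c hK hG] at h
  have h1 := congrArg (fun A : Module.End ℂ (BInv PGL(2, K) m.X) => A f)
    (gopB_eS_fkB D s hκ n k)
  simp only [Module.End.mul_apply] at h1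
  rw [h, map_smul] at h1
  have h2 := congrArg (fun g => a⁻¹ • g) h1
  simpa [smul_smul, inv_mul_cancel₀ ha] using h2

end eS

/-! ### The eigenvalues of the target -/

section Target

variable {F E : Type} [Field F] [NumberField F] [Field E] [NumberField E] [Algebra F E]
  (C : CSetup F E)

theorem evT_σ {a : HeightOneSpectrum (𝓞 E) → ℝ}
    (ha : ∀ (s : E ≃ₐ[F] E) (w : HeightOneSpectrum (𝓞 E)), a (H47.smulPlace s w) = a w)
    (w : HeightOneSpectrum (𝓞 E)) : evT a (C.aE.σ w) = evT a w := by
  rw [H7.Z.aut_σ_eq, H83Z.placePerm_apply, evT, evT, ha, H30G.absNorm_smulPlace]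

theorem Ok_σ (w : HeightOneSpectrum (𝓞 E)) : C.Ok (C.aE.σ w) ↔ C.Ok w := by
  unfold CSetup.Ok
  rw [H7.Z.below_σ, ← H7.Z.mem_SE_σ]

theorem σ_of_nonSplit {w : HeightOneSpectrum (𝓞 E)}
    (h : H82.NonSplit E (H47.below F w)) : C.aE.σ w = w := by
  have h1 : w ∈ H82.above E (H47.below F w) := H47.mem_above_below w
  have h2 : C.aE.σ w ∈ H82.above E (H47.below F w) := by
    have := H47.mem_above_below (K := F) (C.aE.σ w)
    rwa [H7.Z.below_σ] at this
  obtain ⟨x, hx⟩ := Set.ncard_eq_one.mp h
  rw [hx, Set.mem_singleton_iff] at h1 h2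
  exact h2.trans h1.symm

end Target

/-! ### Permutation of the coordinates -/

section Perm

variable {K : Type*} [Field K] [NumberField K] {J : Type*} [Fintype J] {m : Model K J}

theorem hat_perm (a : AutData m) (κ : (J → ℝ) → ℂ) :
    H9Z.hat (fun t => κ fun j => t (a.c j)) = H9Z.hat κ := by
  unfold H9Z.hat H5Z.Rk
  rw [← integral_actInf a]
  refine integral_congr_ae (Filter.Eventually.of_forall fun w => ?_)
  simp only
  congr 1
  · congr 1
    funext j
    show H3.ch H3.base (a.actInf w (a.c j)) = H3.ch H3.base (w j)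
    rw [AutData.actInf_apply_c]
  · rw [← Equiv.prod_comp a.c]
    refine Finset.prod_congr rfl fun j _ => ?_
    rw [AutData.actInf_apply_c]

end Perm

end Fermat.Agent.H79S
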