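import Mathlib
import Fermat.Agent.H65ThDict

set_option autoImplicit false

/-!
# Theorem A' (LT-MOD2, binary theta variant): counting lemmas

`cnt I J Q n` = number of pairs `(x, y) ∈ I × J` with `N(x)/N(I) + Q * (N(y)/N(J)) = n`.
-/

namespace Fermat.Agent.H79.TA

open Ideal Fermat.Agent.H65Th Finset

section seq

/-- coefficients of `a(τ) b(Qτ)` -/
def conv (a b : ℕ → ℕ) (Q n : ℕ) : ℕ := ∑ j ∈ range (n / Q + 1), a (n - Q * j) * b j

theorem conv_zero {a b : ℕ → ℕ} (ha : a 0 = 1) (hb : b 0 = 1) (Q : ℕ) : conv a b Q 0 = 1 := by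
  simp [conv, ha, hb]

/-- For `a = 1 + 2 h`, `b = 1 + 2 h'`: `a(τ) b(Qτ) ≡ 2 h(τ) + 2 h'(Qτ)` modulo `4`, away from the
constant term. -/
theorem four_dvd_conv {a b h h' : ℕ → ℕ} (ha : a 0 = 1) (hb : b 0 = 1)
    (ha' : ∀ n, 0 < n → a n = 2 * h n) (hb' : ∀ n, 0 < n → b n = 2 * h' n) {Q : ℕ} (hQ : 0 < Q)
    {n : ℕ} (hn : 0 < n) :
    (4 : ℤ) ∣ (conv a b Q n : ℤ) - 2 * (h n + if Q ∣ n then (h' (n / Q) : ℤ) else 0) := by
  set g : ℕ → ℤ := fun j => (if j = 0 then 2 * (h n : ℤ) else 0) +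
    (if n = Q * j then 2 * (h' j : ℤ) else 0) with hg
  have h1 : ∑ j ∈ range (n / Q + 1), g j =
      2 * (h n + if Q ∣ n then (h' (n / Q) : ℤ) else 0) := by
    rw [hg, sum_add_distrib, sum_ite_eq' (range (n / Q + 1)) 0, if_pos (by simp), mul_add]
    congr 1
    split_ifs with hd
    · obtain ⟨k, rfl⟩ := hd
      rw [Nat.mul_div_cancel_left _ hQ]
      have : ∀ j, (Q * k = Q * j) = (k = j) := fun j => by
        rw [Nat.mul_right_inj hQ.ne']
      simp only [this]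
      rw [sum_ite_eq, if_pos (by simp)]
    · rw [mul_zero]
      refine sum_eq_zero fun j _ => ?_
      rw [if_neg]
      rintro rfl
      exact hd ⟨j, rfl⟩
  rw [← h1, conv, Nat.cast_sum, ← sum_sub_distrib]
  refine dvd_sum fun j hj => ?_
  rw [mem_range, Nat.lt_succ_iff] at hj
  have hj' : Q * j ≤ n := by
    calc Q * j ≤ Q * (n / Q) := Nat.mul_le_mul_left _ hj
      _ ≤ n := Nat.mul_div_le n Q
  rcases Nat.eq_zero_or_pos j with rfl | hj0
  · rw [hg]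
    simp only [mul_zero, Nat.sub_zero, hb, mul_one, if_true]
    rw [if_neg hn.ne', ha' n hn]
    push_cast
    simp
  · by_cases hnj : n = Q * j
    · rw [hg]
      simp only [hj0.ne', if_false, zero_add, if_pos hnj]
      rw [← hnj, Nat.sub_self, ha, one_mul, hb' j hj0]
      push_cast
      simp
    · rw [hg]
      simp only [hj0.ne', if_false, zero_add, if_neg hnj]
      rw [ha' _ (by omega), hb' _ hj0]
      refine ⟨(h (n - Q * j) : ℤ) * h' j, ?_⟩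
      push_cast
      ring

end seq

section count

variable {R : Type*} [CommRing R] [IsDedekindDomain R] [Module.Free ℤ R] [Module.Finite ℤ R]
  [CharZero R]

/-- `N(x) / N(I)` -/
noncomputable def nm (I : Ideal R) (x : R) : ℕ := absNorm (span {x}) / absNorm I

theorem absNorm_pos {I : Ideal R} (hI : I ≠ ⊥) : 0 < absNorm I :=
  Nat.pos_of_ne_zero (by rwa [Ne, absNorm_eq_zero_iff])

theorem absNorm_dvd {I : Ideal R} {x : R} (hx : x ∈ I) : absNorm I ∣ absNorm (span {x}) :=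
  absNorm_dvd_absNorm_of_le (by rwa [span_singleton_le_iff_mem])

theorem nm_eq_iff {I : Ideal R} (hI : I ≠ ⊥) {x : R} (hx : x ∈ I) (n : ℕ) :
    nm I x = n ↔ absNorm (span {x}) = n * absNorm I := by
  rw [nm, Nat.div_eq_iff_eq_mul_left (absNorm_pos hI) (absNorm_dvd hx)]

/-- the number of representations of `n` by `N_I(x) + Q N_J(y)`. -/
noncomputable def cnt (I J : Ideal R) (Q n : ℕ) : ℕ :=
  Nat.card {p : I × J // nm I (p.1 : R) + Q * nm J (p.2 : R) = n}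

/-- one variable count -/
noncomputable def cnt1 (I : Ideal R) (n : ℕ) : ℕ := Nat.card (Pts I n)

theorem finite_pts (hU : ∀ u : Rˣ, u = 1 ∨ u = -1) {I : Ideal R} (hI : I ≠ ⊥) (n : ℕ) :
    Finite (Pts I n) := by
  rcases Nat.eq_zero_or_pos n with rfl | hn
  · have := card_pts_zero I
    exact Nat.finite_of_card_ne_zero (by rw [this]; exact one_ne_zero)
  · exact Finite.of_equiv _ (Equiv.ofBijective _ (toPts_bijective hU I hI n hn))

theorem cnt_eq_conv (hU : ∀ u : Rˣ, u = 1 ∨ u = -1) {I J : Ideal R} (hI : I ≠ ⊥) (hJ : J ≠ ⊥)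
    {Q : ℕ} (hQ : 0 < Q) (n : ℕ) : cnt I J Q n = conv (cnt1 I) (cnt1 J) Q n := by
  classical
  have := finite_pts hU hI
  have := finite_pts hU hJ
  rw [cnt, conv]
  let e : {p : I × J // nm I (p.1 : R) + Q * nm J (p.2 : R) = n} ≃
      (j : Fin (n / Q + 1)) × (Pts I (n - Q * j) × Pts J j) :=
    { toFun := fun p => ⟨⟨nm J (p.1.2 : R), by
          rw [Nat.lt_succ_iff, Nat.le_div_iff_mul_le hQ, mul_comm]
          exact (Nat.le_add_left _ _).trans p.2.le⟩,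
        ⟨⟨p.1.1, p.1.1.2, (nm_eq_iff hI p.1.1.2 _).mp (by
            have := p.2
            simp only
            omega)⟩,
          ⟨p.1.2, p.1.2.2, (nm_eq_iff hJ p.1.2.2 _).mp rfl⟩⟩⟩
      invFun := fun q => ⟨(⟨q.2.1.1, q.2.1.2.1⟩, ⟨q.2.2.1, q.2.2.2.1⟩), by
        have h1 := (nm_eq_iff hI q.2.1.2.1 _).mpr q.2.1.2.2
        have h2 := (nm_eq_iff hJ q.2.2.2.1 _).mpr q.2.2.2.2
        simp only
        rw [h1, h2]
        have h3 : (q.1 : ℕ) ≤ n / Q := Nat.lt_succ_iff.mp q.1.2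
        have h4 : Q * (q.1 : ℕ) ≤ n := (Nat.mul_le_mul_left _ h3).trans (Nat.mul_div_le n Q)
        omega⟩
      left_inv := fun p => rfl
      right_inv := by
        rintro ⟨⟨j, hj⟩, ⟨x, hx, hxn⟩, ⟨y, hy, hyn⟩⟩
        have h2 : nm J y = j := (nm_eq_iff hJ hy _).mpr hyn
        subst h2
        rfl }
  rw [Nat.card_congr e, Nat.card_sigma, ← Fin.sum_univ_eq_sum_range
    (fun j => cnt1 I (n - Q * j) * cnt1 J j) (n / Q + 1)]
  refine sum_congr rfl fun j _ => ?_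
  rw [Nat.card_prod]
  rfl

theorem cnt1_zero (I : Ideal R) : cnt1 I 0 = 1 := card_pts_zero I

theorem cnt1_pos (hU : ∀ u : Rˣ, u = 1 ∨ u = -1) {I : Ideal R} (hI : I ≠ ⊥) {n : ℕ} (hn : 0 < n) :
    cnt1 I n = 2 * Nat.card (Idls I n) := card_pts hU I hI n hn

theorem cnt_zero (hU : ∀ u : Rˣ, u = 1 ∨ u = -1) {I J : Ideal R} (hI : I ≠ ⊥) (hJ : J ≠ ⊥)
    {Q : ℕ} (hQ : 0 < Q) : cnt I J Q 0 = 1 := by
  rw [cnt_eq_conv hU hI hJ hQ, conv_zero (cnt1_zero I) (cnt1_zero J)]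

/-- **(a)**, integral form. -/
theorem four_dvd_cnt (hU : ∀ u : Rˣ, u = 1 ∨ u = -1) {I J : Ideal R} (hI : I ≠ ⊥) (hJ : J ≠ ⊥)
    {Q : ℕ} (hQ : 0 < Q) {n : ℕ} (hn : 0 < n) :
    (4 : ℤ) ∣ (cnt I J Q n : ℤ) -
      2 * (Nat.card (Idls I n) + if Q ∣ n then (Nat.card (Idls J (n / Q)) : ℤ) else 0) := by
  rw [cnt_eq_conv hU hI hJ hQ]
  exact four_dvd_conv (cnt1_zero I) (cnt1_zero J) (fun n hn => cnt1_pos hU hI hn)
    (fun n hn => cnt1_pos hU hJ hn) hQ hn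

end count

end Fermat.Agent.H79.TA
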