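import Mathlib
import Fermat.Agent.H44OldForm
import Fermat.Prelude.Def_ModularForm_HeckeOperatorForms
import Fermat.Prelude.Thm_ModularFormClass_qCoeff_heckeU

set_option autoImplicit false

/-!
# `U_q` lowers the level (LT-MOD2, binary theta variant, W2)

For `q ∣ M`, `U_q` maps `M_k(Γ₀(q M))` to `M_k(Γ₀(M))`.
-/

noncomputable section

open Matrix.SpecialLinearGroup UpperHalfPlane ModularForm CongruenceSubgroup ModularFormClass
open scoped MatrixGroups ModularForm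

namespace Fermat.Agent.H79.Up

variable {q M : ℕ}

/-- `U_q : M_k(Γ₀(q M)) → M_k(Γ₀(M))` for `q ∣ M`. -/
def mfLow (k : ℤ) [NeZero q] [NeZero M] (hqM : q ∣ M) :
    ModularForm (Gamma0 (q * M)) k →ₗ[ℂ] ModularForm (Gamma0 M) k where
  toFun f :=
    { toFun := heckeU k q ⇑f
      slash_action_eq' := fun γ hγ => by
        obtain ⟨g, hg, rfl⟩ := hγ
        exact H44.heckeU_slash_lower k hqM ⇑f
          (fun γ hγ => SlashInvariantFormClass.slash_action_eq f γ hγ) g hg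
      holo' := mdifferentiable_heckeU (ModularFormClass.holo f) k q
      bdd_at_cusps' := fun {c} hc => by
        refine ModularFormClass.isBoundedAt_heckeU f q ?_
        rw [Subgroup.IsArithmetic.isCusp_iff_isCusp_SL2Z] at hc ⊢
        exact hc }
  map_add' f g := DFunLike.coe_injective <|
    show heckeU k q ⇑(f + g) = heckeU k q ⇑f + heckeU k q ⇑g by
      rw [ModularForm.coe_add, heckeU_add]
  map_smul' c f := DFunLike.coe_injective <|
    show heckeU k q ⇑(c • f) = c • heckeU k q ⇑f by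
      rw [ModularForm.IsGLPos.coe_smul, heckeU_smul]

@[simp] theorem coe_mfLow (k : ℤ) [NeZero q] [NeZero M] (hqM : q ∣ M)
    (f : ModularForm (Gamma0 (q * M)) k) : ⇑(mfLow k hqM f) = heckeU k q ⇑f := rfl

theorem one_mem_sp (N : ℕ) :
    (1 : ℝ) ∈ (CongruenceSubgroup.Gamma0 N : Subgroup (GL (Fin 2) ℝ)).strictPeriods :=
  H49.one_mem_sp N

theorem qCoeff_mfLow (k : ℤ) [NeZero q] [NeZero M] (hqM : q ∣ M)
    (f : ModularForm (Gamma0 (q * M)) k) (n : ℕ) :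
    qCoeff ⇑(mfLow k hqM f) n = qCoeff ⇑f (n * q) := by
  rw [coe_mfLow, ModularFormClass.qCoeff_heckeU f (one_mem_sp _) (NeZero.ne q)]
  rfl

/-- `U_q : S_k(Γ₀(q M)) → S_k(Γ₀(M))` for `q ∣ M`. -/
def cfLow (k : ℤ) [NeZero q] [NeZero M] (hqM : q ∣ M) :
    CuspForm (Gamma0 (q * M)) k →ₗ[ℂ] CuspForm (Gamma0 M) k where
  toFun f :=
    { toFun := heckeU k q ⇑f
      slash_action_eq' := fun γ hγ => by
        obtain ⟨g, hg, rfl⟩ := hγ
        exact H44.heckeU_slash_lower k hqM ⇑f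
          (fun γ hγ => SlashInvariantFormClass.slash_action_eq f γ hγ) g hg
      holo' := mdifferentiable_heckeU (CuspFormClass.holo f) k q
      zero_at_cusps' := fun {c} hc => by
        refine CuspFormClass.isZeroAt_heckeU f q ?_
        rw [Subgroup.IsArithmetic.isCusp_iff_isCusp_SL2Z] at hc ⊢
        exact hc }
  map_add' f g := DFunLike.coe_injective <|
    show heckeU k q ⇑(f + g) = heckeU k q ⇑f + heckeU k q ⇑g by
      rw [CuspForm.coe_add, heckeU_add]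
  map_smul' c f := DFunLike.coe_injective <|
    show heckeU k q ⇑(c • f) = c • heckeU k q ⇑f by
      rw [CuspForm.IsGLPos.coe_smul, heckeU_smul]

@[simp] theorem coe_cfLow (k : ℤ) [NeZero q] [NeZero M] (hqM : q ∣ M)
    (f : CuspForm (Gamma0 (q * M)) k) : ⇑(cfLow k hqM f) = heckeU k q ⇑f := rfl

theorem qCoeff_cfLow (k : ℤ) [NeZero q] [NeZero M] (hqM : q ∣ M)
    (f : CuspForm (Gamma0 (q * M)) k) (n : ℕ) :
    qCoeff ⇑(cfLow k hqM f) n = qCoeff ⇑f (n * q) := by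
  rw [coe_cfLow, ModularFormClass.qCoeff_heckeU f (one_mem_sp _) (NeZero.ne q)]
  rfl

/-- If `L = q M`, `q ∣ M`, then for `f` of level `L` there is `g` of level `M` with
`a_n(g) = a_{nq}(f)`. -/
theorem exists_mfLow {L : ℕ} (k : ℤ) [NeZero M] (hL : L = q * M) (hqM : q ∣ M)
    (f : ModularForm (Gamma0 L) k) :
    ∃ g : ModularForm (Gamma0 M) k, (⇑g : ℍ → ℂ) = heckeU k q ⇑f ∧
      ∀ n, qCoeff ⇑g n = qCoeff ⇑f (n * q) := by
  subst hL
  have : NeZero q := ⟨fun h => NeZero.ne M (by subst h; exact zero_dvd_iff.mp hqM)⟩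
  exact ⟨mfLow k hqM f, rfl, qCoeff_mfLow k hqM f⟩

theorem exists_cfLow {L : ℕ} (k : ℤ) [NeZero M] (hL : L = q * M) (hqM : q ∣ M)
    (f : CuspForm (Gamma0 L) k) :
    ∃ g : CuspForm (Gamma0 M) k, (⇑g : ℍ → ℂ) = heckeU k q ⇑f ∧
      ∀ n, qCoeff ⇑g n = qCoeff ⇑f (n * q) := by
  subst hL
  have : NeZero q := ⟨fun h => NeZero.ne M (by subst h; exact zero_dvd_iff.mp hqM)⟩
  exact ⟨cfLow k hqM f, rfl, qCoeff_cfLow k hqM f⟩

/-- From level `8 M` (`M` even... no condition needed here beyond `2 ∣ M`) to level `2 M`, by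
`U_2 ∘ U_2`: `a_n(g) = a_{4 n}(f)`. -/
theorem exists_mfLow_four {L : ℕ} (k : ℤ) [NeZero M] (hL : L = 8 * M)
    (f : ModularForm (Gamma0 L) k) :
    ∃ g : ModularForm (Gamma0 (2 * M)) k, (⇑g : ℍ → ℂ) = heckeU k 2 (heckeU k 2 ⇑f) ∧
      ∀ n, qCoeff ⇑g n = qCoeff ⇑f (4 * n) := by
  have : NeZero (4 * M) := ⟨mul_ne_zero (by norm_num) (NeZero.ne M)⟩
  have : NeZero (2 * M) := ⟨mul_ne_zero (by norm_num) (NeZero.ne M)⟩
  obtain ⟨g1, h1, h1'⟩ := exists_mfLow (q := 2) (M := 4 * M) k (by rw [hL]; ring)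
    ⟨2 * M, by ring⟩ f
  obtain ⟨g2, h2, h2'⟩ := exists_mfLow (q := 2) (M := 2 * M) k (by ring : 4 * M = 2 * (2 * M))
    ⟨M, rfl⟩ g1
  refine ⟨g2, by rw [h2, h1], fun n => ?_⟩
  rw [h2', h1']
  congr 1
  ring

/-- Level-preserving `U_q` (`q ∣ M`). -/
theorem qCoeff_heckeULin (k : ℤ) [NeZero M] (hqM : q ∣ M) (f : ModularForm (Gamma0 M) k) (n : ℕ) :
    qCoeff ⇑(ModularForm.heckeULin k hqM f) n = qCoeff ⇑f (n * q) := by
  have hq : q ≠ 0 := fun h => NeZero.ne M (by subst h; exact zero_dvd_iff.mp hqM)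
  rw [ModularForm.coe_heckeULin_apply, ModularFormClass.qCoeff_heckeU f (one_mem_sp _) hq]
  rfl

/-- `T_p` on `q`-expansions, `p ∤ M`. -/
theorem qCoeff_heckeTLin (k : ℤ) (hq : q.Prime) (hqM : ¬ q ∣ M) (f : ModularForm (Gamma0 M) k)
    (n : ℕ) :
    qCoeff ⇑(ModularForm.heckeTLin k hq hqM f) n = qCoeff ⇑f (n * q) +
      if q ∣ n then (q : ℂ) ^ (k - 1) * qCoeff ⇑f (n / q) else 0 := by
  rw [ModularForm.coe_heckeTLin_apply, ModularFormClass.qCoeff_heckeT f (one_mem_sp _) hq.ne_zero]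
  rfl

end Fermat.Agent.H79.Up
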