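import Mathlib
import Fermat.Prelude.Def_ModularForm_HeckeOperatorForms
import Fermat.Prelude.Thm_ModularFormClass_qCoeff_heckeT
import Fermat.Agent.H16Lower

set_option autoImplicit false

/-!
# Brandt matrices and weight two forms (LT-MOD2, M3b), part 1: non-Eisenstein eigenforms of
squarefree level are cuspidal
-/

namespace Fermat.Agent.H81

open UpperHalfPlane ModularForm ModularFormClass MatrixGroups Filter Topology
open Fermat.Agent.H16.Lower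

noncomputable section

theorem isCoprime_of_squarefree {M M2 : ℕ} (hM : Squarefree M) {c : ℤ}
    (hM2 : M = Int.gcd c M * M2) : IsCoprime c (M2 : ℤ) := by
  rw [Int.isCoprime_iff_gcd_eq_one]
  by_contra hne
  obtain ⟨v, hv, hvd⟩ := Nat.exists_prime_and_dvd hne
  have h1 : (v : ℤ) ∣ c := (Int.natCast_dvd_natCast.mpr hvd).trans (Int.gcd_dvd_left _ _)
  have h2 : v ∣ M2 := by
    have := (Int.natCast_dvd_natCast.mpr hvd).trans (Int.gcd_dvd_right _ _)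
    exact_mod_cast this
  have h3 : v ∣ M := by rw [hM2]; exact Dvd.dvd.mul_left h2 _
  have h4 : v ∣ Int.gcd c M := by
    rw [Int.gcd_def]
    exact Nat.dvd_gcd (by rwa [← Int.natCast_dvd]) (by simpa using h3)
  have h5 : v * v ∣ M := by rw [hM2]; exact mul_dvd_mul h4 h2
  exact hv.one_lt.ne' (Nat.isUnit_iff.mp (hM v h5))

/-- two bottom rows with the same gcd with the squarefree level -/
theorem exists_gamma0_mul_T {M : ℕ} (hM : Squarefree M) (γ γ' : SL(2, ℤ))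
    (h : Int.gcd (γ 1 0) M = Int.gcd (γ' 1 0) M) :
    ∃ (j : ℤ) (g : SL(2, ℤ)), g ∈ CongruenceSubgroup.Gamma0 M ∧
      γ' = g * γ * ModularGroup.T ^ j := by
  obtain ⟨M2, hM2⟩ : Int.gcd (γ 1 0) M ∣ M := by
    have := Int.gcd_dvd_right (γ 1 0) (M : ℤ)
    exact_mod_cast this
  have hcop := isCoprime_of_squarefree hM hM2
  have hcop' : IsCoprime (γ' 1 0) (M2 : ℤ) := isCoprime_of_squarefree hM (by rw [← h]; exact hM2)
  obtain ⟨u, v, huv⟩ := hcop.mul_left hcop'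
  have hd1 : ((Int.gcd (γ 1 0) M : ℕ) : ℤ) ∣ γ 1 0 := Int.gcd_dvd_left _ _
  have hd2 : ((Int.gcd (γ 1 0) M : ℕ) : ℤ) ∣ γ' 1 0 := by rw [h]; exact Int.gcd_dvd_left _ _
  set c := γ 1 0
  set d := γ 1 1
  set c' := γ' 1 0
  set d' := γ' 1 1
  set j : ℤ := (d' * c - c' * d) * u with hj
  refine ⟨j, γ' * (γ * ModularGroup.T ^ j)⁻¹, ?_, by group⟩
  rw [CongruenceSubgroup.Gamma0_mem]
  have hentry : (γ' * (γ * ModularGroup.T ^ j)⁻¹) 1 0 = c' * (d + j * c) - d' * c := by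
    have e1 : ∀ x : SL(2, ℤ), (γ' * x⁻¹) 1 0 = γ' 1 0 * x 1 1 - γ' 1 1 * x 1 0 := by
      intro x
      rw [Matrix.SpecialLinearGroup.coe_mul, Matrix.mul_apply, Fin.sum_univ_two,
        Matrix.SpecialLinearGroup.SL2_inv_expl]
      simp
      ring
    rw [e1]
    have e2 : (γ * ModularGroup.T ^ j) 1 0 = γ 1 0 := by
      rw [Matrix.SpecialLinearGroup.coe_mul, ModularGroup.coe_T_zpow, Matrix.mul_apply,
        Fin.sum_univ_two]
      simp
    have e3 : (γ * ModularGroup.T ^ j) 1 1 = γ 1 1 + j * γ 1 0 := by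
      rw [Matrix.SpecialLinearGroup.coe_mul, ModularGroup.coe_T_zpow, Matrix.mul_apply,
        Fin.sum_univ_two]
      simp
      ring
    rw [e2, e3]
  rw [hentry, ZMod.intCast_zmod_eq_zero_iff_dvd]
  have h1 : ((Int.gcd c M : ℕ) : ℤ) ∣ c' * (d + j * c) - d' * c :=
    dvd_sub (Dvd.dvd.mul_right hd2 _) (Dvd.dvd.mul_left hd1 _)
  have h2 : (M2 : ℤ) ∣ c' * (d + j * c) - d' * c := by
    have : c' * (d + j * c) - d' * c = (d' * c - c' * d) * (u * (c * c') - 1) := by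
      rw [hj]; ring
    rw [this]
    have h3 : u * (c * c') - 1 = (M2 : ℤ) * (-v) := by linear_combination huv
    rw [h3]
    exact Dvd.dvd.mul_left (dvd_mul_right _ _) _
  have hcop3 : IsCoprime ((Int.gcd c M : ℕ) : ℤ) (M2 : ℤ) := hcop.of_isCoprime_of_dvd_left hd1
  have := hcop3.mul_dvd h1 h2
  rw [hM2]
  push_cast
  exact_mod_cast this

theorem tendsto_slash_T_zpow {F : ℍ → ℂ} {k : ℤ} {c : ℂ} (h : Tendsto F atImInfty (𝓝 c)) (j : ℤ) :
    Tendsto (F ∣[k] (ModularGroup.T ^ j : SL(2, ℤ))) atImInfty (𝓝 c) := by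
  refine (h.comp (tendsto_vadd_atImInfty (j : ℝ))).congr fun z => ?_
  rw [SL_slash_apply]
  have h1 : (ModularGroup.T ^ j : SL(2, ℤ)) • z = (j : ℝ) +ᵥ z :=
    UpperHalfPlane.modular_T_zpow_smul z j
  have h2 : denom (ModularGroup.T ^ j : SL(2, ℤ)) z = 1 := by
    rw [ModularGroup.denom_apply, ModularGroup.coe_T_zpow]
    simp
  rw [h1, h2, one_zpow, mul_one]
  rfl

/-- the constant term only depends on the gcd of the lower left entry with the level -/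
theorem tendsto_slash_of_gcd_eq {M : ℕ} (hM : Squarefree M)
    (f : ModularForm (CongruenceSubgroup.Gamma0 M) 2) {γ γ' : SL(2, ℤ)}
    (h : Int.gcd (γ 1 0) M = Int.gcd (γ' 1 0) M) {c : ℂ}
    (hc : Tendsto ((f : ℍ → ℂ) ∣[(2 : ℤ)] γ) atImInfty (𝓝 c)) :
    Tendsto ((f : ℍ → ℂ) ∣[(2 : ℤ)] γ') atImInfty (𝓝 c) := by
  obtain ⟨j, g, hg, rfl⟩ := exists_gamma0_mul_T hM γ γ' h
  have hinv : (f : ℍ → ℂ) ∣[(2 : ℤ)] g = f := f.slash_action_eq' _ ⟨g, hg, rfl⟩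
  rw [SlashAction.slash_mul, SlashAction.slash_mul, hinv]
  exact tendsto_slash_T_zpow hc j

theorem coe_upperTriangularGL_smul {a b d : ℝ} (had : a * d ≠ 0) (hpos : 0 < a * d) (z : ℍ) :
    ((upperTriangularGL a b d had • z : ℍ) : ℂ) = (a * z + b) / d := by
  have hdet : 0 < ((upperTriangularGL a b d had).det : ℝ) := by
    rw [Matrix.GeneralLinearGroup.val_det_apply, val_upperTriangularGL, Matrix.det_fin_two_of]
    linarith
  rw [UpperHalfPlane.coe_smul_of_det_pos hdet]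
  simp [UpperHalfPlane.num, UpperHalfPlane.denom]

theorem tendsto_slash_upper {F : ℍ → ℂ} {c : ℂ} (h : Tendsto F atImInfty (𝓝 c)) {a b d : ℝ}
    (ha : 0 < a) (hd : 0 < d) (had : a * d ≠ 0) :
    Tendsto (F ∣[(2 : ℤ)] (upperTriangularGL a b d had)) atImInfty (𝓝 (a / d * c)) := by
  have hdet : ((upperTriangularGL a b d had).det : ℝ) = a * d := by
    rw [Matrix.GeneralLinearGroup.val_det_apply, val_upperTriangularGL, Matrix.det_fin_two_of]
    ring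
  have hpos : 0 < a * d := mul_pos ha hd
  have h1 : Tendsto (fun z : ℍ => upperTriangularGL a b d had • z) atImInfty atImInfty := by
    rw [atImInfty, tendsto_comap_iff]
    have e : (UpperHalfPlane.im ∘ fun z : ℍ => upperTriangularGL a b d had • z) =
        fun z : ℍ => a / d * z.im := by
      funext z
      show (upperTriangularGL a b d had • z : ℍ).im = _
      rw [← UpperHalfPlane.coe_im, coe_upperTriangularGL_smul had hpos]
      have : ((a : ℂ) * z + b) / d = ((a / d : ℝ) : ℂ) * z + ((b / d : ℝ) : ℂ) := by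
        push_cast; ring
      rw [this, Complex.add_im, Complex.ofReal_im, Complex.im_ofReal_mul, add_zero]
      rfl
    rw [e]
    exact tendsto_comap.const_mul_atTop (div_pos ha hd)
  have h2 := (h.comp h1).const_mul ((a / d : ℝ) : ℂ)
  have e3 : ((a / d : ℝ) : ℂ) * c = a / d * c := by push_cast; ring
  rw [e3] at h2
  refine h2.congr fun z => ?_
  have hd0 : (d : ℂ) ≠ 0 := by exact_mod_cast hd.ne'
  rw [ModularForm.slash_apply, UpperHalfPlane.σ, if_pos (by rw [hdet]; exact hpos), hdet]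
  have hden : UpperHalfPlane.denom (upperTriangularGL a b d had) z = d := by
    simp [UpperHalfPlane.denom]
  rw [hden, abs_of_pos hpos]
  simp only [Function.comp_apply, ContinuousAlgEquiv.refl_apply]
  push_cast
  have e4 : (d : ℂ) ^ (-2 : ℤ) = ((d : ℂ) ^ 2)⁻¹ := by
    rw [zpow_neg]; norm_cast
  rw [e4, zpow_one]
  field_simp

/-- factorisation of an integral matrix of determinant `ℓ` -/
theorem exists_factor {ℓ : ℕ} (hℓ : ℓ.Prime) (x y z w : ℤ) (hdet : x * w - z * y = ℓ) :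
    ∃ (g : SL(2, ℤ)) (a d : ℕ) (b : ℤ), a * d = ℓ ∧ x = g 0 0 * a ∧ y = g 1 0 * a ∧
      z = g 0 0 * b + g 0 1 * d ∧ w = g 1 0 * b + g 1 1 * d ∧ (a = ℓ ↔ (ℓ : ℤ) ∣ x ∧ (ℓ : ℤ) ∣ y) := by
  have hℓ0 : (ℓ : ℤ) ≠ 0 := by exact_mod_cast hℓ.ne_zero
  set a := Int.gcd x y with ha
  obtain ⟨α, hα⟩ : (a : ℤ) ∣ x := Int.gcd_dvd_left _ _
  obtain ⟨β, hβ⟩ : (a : ℤ) ∣ y := Int.gcd_dvd_right _ _
  have had : (a : ℤ) ∣ ℓ := by
    rw [← hdet, hα, hβ]
    exact dvd_sub ⟨α * w, by ring⟩ ⟨z * β, by ring⟩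
  obtain ⟨d, hd⟩ : a ∣ ℓ := by exact_mod_cast had
  have ha0 : (a : ℤ) ≠ 0 := by
    intro h
    rw [h] at had
    exact hℓ0 (zero_dvd_iff.mp had)
  have hcop : IsCoprime α β := by
    rw [Int.isCoprime_iff_gcd_eq_one]
    have h1 := Int.gcd_mul_left a α β
    rw [← hα, ← hβ, ← ha] at h1
    have h2 : a = a * Int.gcd α β := by simpa using h1
    have h3 : 0 < a := Nat.pos_of_ne_zero (by exact_mod_cast ha0)
    exact (Nat.eq_of_mul_eq_mul_left h3 (by rw [mul_one]; exact h2)).symm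
  obtain ⟨u, v, huv⟩ := hcop
  -- g = (α, -v; β, u)
  refine ⟨⟨!![α, -v; β, u], by rw [Matrix.det_fin_two_of]; linear_combination huv⟩, a, d,
    u * z + v * w, hd.symm, ?_, ?_, ?_, ?_, ?_⟩
  · show x = α * a
    rw [hα, mul_comm]
  · show y = β * a
    rw [hβ, mul_comm]
  · show z = α * (u * z + v * w) + -v * d
    have h4 : (a : ℤ) * d = ℓ := by exact_mod_cast hd.symm
    have h5 : α * w - z * β = d := by
      apply mul_left_cancel₀ ha0
      rw [h4, ← hdet, hα, hβ]; ring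
    linear_combination -z * huv - v * h5
  · show w = β * (u * z + v * w) + u * d
    have h4 : (a : ℤ) * d = ℓ := by exact_mod_cast hd.symm
    have h5 : α * w - z * β = d := by
      apply mul_left_cancel₀ ha0
      rw [h4, ← hdet, hα, hβ]; ring
    linear_combination -w * huv + u * h5
  · constructor
    · intro h
      rw [← h]
      exact ⟨Int.gcd_dvd_left _ _, Int.gcd_dvd_right _ _⟩
    · rintro ⟨h1, h2⟩
      have h3 : (ℓ : ℤ) ∣ a := Int.dvd_coe_gcd h1 h2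
      exact Nat.dvd_antisymm ⟨d, hd⟩ (by exact_mod_cast h3)

theorem gcd_natCast_mul_of_coprime {M a : ℕ} (h : Nat.Coprime a M) (c : ℤ) :
    Int.gcd (c * a) M = Int.gcd c M := by
  rw [Int.gcd_def, Int.gcd_def, Int.natAbs_mul]
  simp only [Int.natAbs_natCast]
  exact Nat.Coprime.gcd_mul_right_cancel _ h

/-- constant terms of a translate by an integral matrix of determinant `ℓ` -/
theorem tendsto_slash_det {M : ℕ} (hM : Squarefree M)
    (f : ModularForm (CongruenceSubgroup.Gamma0 M) 2) {ℓ : ℕ} (hℓ : ℓ.Prime) (hℓM : ¬ ℓ ∣ M)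
    {γ : SL(2, ℤ)} {c : ℂ} (hc : Tendsto ((f : ℍ → ℂ) ∣[(2 : ℤ)] γ) atImInfty (𝓝 c))
    (δ : GL (Fin 2) ℝ) (x y z w : ℤ)
    (hδ : (δ : Matrix (Fin 2) (Fin 2) ℝ) = !![(x : ℝ), (z : ℝ); (y : ℝ), (w : ℝ)])
    (hdet : x * w - z * y = ℓ) (hgcd : Int.gcd y M = Int.gcd (γ 1 0) M) :
    Tendsto ((f : ℍ → ℂ) ∣[(2 : ℤ)] δ) atImInfty
      (𝓝 ((if (ℓ : ℤ) ∣ x ∧ (ℓ : ℤ) ∣ y then (ℓ : ℂ) else (ℓ : ℂ)⁻¹) * c)) := by
  obtain ⟨g, a, d, b, had, h1, h2, h3, h4, h5⟩ := exists_factor hℓ x y z w hdet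
  have ha : 0 < a := Nat.pos_of_ne_zero fun h => hℓ.ne_zero (by rw [← had, h, zero_mul])
  have hd : 0 < d := Nat.pos_of_ne_zero fun h => hℓ.ne_zero (by rw [← had, h, mul_zero])
  have ha' : (0 : ℝ) < a := by exact_mod_cast ha
  have hd' : (0 : ℝ) < d := by exact_mod_cast hd
  have hadr : (a : ℝ) * d ≠ 0 := (mul_pos ha' hd').ne'
  have hcop : Nat.Coprime a M := by
    have : Nat.Coprime ℓ M := (Nat.Prime.coprime_iff_not_dvd hℓ).mpr hℓM
    exact this.coprime_dvd_left ⟨d, had.symm⟩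
  have hg : Tendsto ((f : ℍ → ℂ) ∣[(2 : ℤ)] g) atImInfty (𝓝 c) := by
    refine tendsto_slash_of_gcd_eq hM f ?_ hc
    rw [← hgcd, h2, gcd_natCast_mul_of_coprime hcop]
  have hfac : δ = (g : GL (Fin 2) ℝ) * upperTriangularGL a b d hadr := by
    apply Units.ext
    rw [Units.val_mul]
    show (δ : Matrix (Fin 2) (Fin 2) ℝ) = _
    rw [hδ, val_upperTriangularGL]
    ext i j
    fin_cases i <;> fin_cases j <;>
      simp [Matrix.mul_apply, Fin.sum_univ_two, h1, h2, h3, h4]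
  have hlim : Tendsto ((f : ℍ → ℂ) ∣[(2 : ℤ)] δ) atImInfty (𝓝 ((a : ℝ) / (d : ℝ) * c)) := by
    rw [hfac, SlashAction.slash_mul]
    exact tendsto_slash_upper hg ha' hd' hadr
  have hval : ((a : ℝ) : ℂ) / ((d : ℝ) : ℂ) = if (ℓ : ℤ) ∣ x ∧ (ℓ : ℤ) ∣ y then (ℓ : ℂ) else (ℓ : ℂ)⁻¹ := by
    by_cases hcase : (ℓ : ℤ) ∣ x ∧ (ℓ : ℤ) ∣ y
    · rw [if_pos hcase]
      have e1 := h5.mpr hcase
      have e2 : d = 1 := by
        rw [e1] at had
        exact Nat.eq_of_mul_eq_mul_left hℓ.pos (by rw [had, mul_one])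
      rw [e1, e2]
      simp
    · rw [if_neg hcase]
      have e1 : a = 1 := by
        rcases (Nat.dvd_prime hℓ).mp ⟨d, had.symm⟩ with h | h
        · exact h
        · exact absurd (h5.mp h) hcase
      have e2 : d = ℓ := by rw [← had, e1, one_mul]
      rw [e1, e2]
      simp
  rw [hval] at hlim
  exact hlim

/-- the sum of the weights -/
theorem sum_weights {ℓ : ℕ} (hℓ : ℓ.Prime) (α c : ℤ) (hcop : IsCoprime α c) :
    (∑ j ∈ Finset.range ℓ, if (ℓ : ℤ) ∣ α + j * c ∧ (ℓ : ℤ) ∣ ℓ * c then (ℓ : ℂ) else (ℓ : ℂ)⁻¹) +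
      (if (ℓ : ℤ) ∣ ℓ * α ∧ (ℓ : ℤ) ∣ c then (ℓ : ℂ) else (ℓ : ℂ)⁻¹) = ℓ + 1 := by
  have := Fact.mk hℓ
  have hℓ0 : (ℓ : ℂ) ≠ 0 := by exact_mod_cast hℓ.ne_zero
  have e1 : ∀ j : ℕ, (if (ℓ : ℤ) ∣ α + j * c ∧ (ℓ : ℤ) ∣ ℓ * c then (ℓ : ℂ) else (ℓ : ℂ)⁻¹) =
      (ℓ : ℂ)⁻¹ + (if (ℓ : ℤ) ∣ α + j * c then ((ℓ : ℂ) - (ℓ : ℂ)⁻¹) else 0) := by
    intro j
    have : (ℓ : ℤ) ∣ ℓ * c := dvd_mul_right _ _
    by_cases h : (ℓ : ℤ) ∣ α + j * c
    · rw [if_pos ⟨h, this⟩, if_pos h]; ring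
    · rw [if_neg (fun h' => h h'.1), if_neg h, add_zero]
  rw [Finset.sum_congr rfl (fun j _ => e1 j), Finset.sum_add_distrib, Finset.sum_const,
    Finset.card_range, nsmul_eq_mul, mul_inv_cancel₀ hℓ0]
  by_cases hc : (ℓ : ℤ) ∣ c
  · have hα : ¬ (ℓ : ℤ) ∣ α := by
      intro h
      have h1 := hcop.isUnit_of_dvd' h hc
      rw [Int.isUnit_iff] at h1
      have := hℓ.one_lt
      omega
    have e2 : ∀ j ∈ Finset.range ℓ,
        (if (ℓ : ℤ) ∣ α + j * c then ((ℓ : ℂ) - (ℓ : ℂ)⁻¹) else 0) = 0 := by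
      intro j _
      rw [if_neg]
      intro h
      exact hα ((Int.dvd_add_left (Dvd.dvd.mul_left hc _)).mp h)
    rw [Finset.sum_eq_zero e2, if_pos ⟨dvd_mul_right _ _, hc⟩]
    ring
  · rw [if_neg (fun h => hc h.2)]
    have hc0 : (c : ZMod ℓ) ≠ 0 := by rwa [Ne, ZMod.intCast_zmod_eq_zero_iff_dvd]
    set j0 : ℕ := (-(α : ZMod ℓ) / c).val with hj0
    have hiff : ∀ j ∈ Finset.range ℓ, ((ℓ : ℤ) ∣ α + j * c ↔ j = j0) := by
      intro j hj
      rw [Finset.mem_range] at hj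
      rw [← ZMod.intCast_zmod_eq_zero_iff_dvd]
      push_cast
      constructor
      · intro h
        have h2 : (j : ZMod ℓ) = -(α : ZMod ℓ) / c := by
          rw [eq_div_iff hc0]
          linear_combination h
        rw [hj0, ← h2, ZMod.val_natCast, Nat.mod_eq_of_lt hj]
      · rintro rfl
        rw [hj0, ZMod.natCast_zmod_val, div_mul_cancel₀ _ hc0]
        ring
    have e3 : ∀ j ∈ Finset.range ℓ,
        (if (ℓ : ℤ) ∣ α + j * c then ((ℓ : ℂ) - (ℓ : ℂ)⁻¹) else 0) =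
          if j = j0 then ((ℓ : ℂ) - (ℓ : ℂ)⁻¹) else 0 := by
      intro j hj
      simp only [hiff j hj]
    rw [Finset.sum_congr rfl e3, Finset.sum_ite_eq', if_pos (Finset.mem_range.mpr (ZMod.val_lt _))]
    ring

/-- **The Hecke operator acts on constant terms at all cusps by `ℓ + 1`.** -/
theorem tendsto_heckeT {M : ℕ} (hM : Squarefree M)
    (f : ModularForm (CongruenceSubgroup.Gamma0 M) 2) {ℓ : ℕ} (hℓ : ℓ.Prime) (hℓM : ¬ ℓ ∣ M)
    {γ : SL(2, ℤ)} {c : ℂ} (hc : Tendsto ((f : ℍ → ℂ) ∣[(2 : ℤ)] γ) atImInfty (𝓝 c)) :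
    Tendsto ((heckeT 2 ℓ f) ∣[(2 : ℤ)] γ) atImInfty (𝓝 ((ℓ + 1) * c)) := by
  have hdet := γ.det_coe
  rw [Matrix.det_fin_two] at hdet
  have hℓ0 := hℓ.ne_zero
  have hcopM : Nat.Coprime ℓ M := (Nat.Prime.coprime_iff_not_dvd hℓ).mpr hℓM
  have hcop : IsCoprime (γ 0 0) (γ 1 0) := ⟨γ 1 1, -γ 0 1, by linear_combination hdet⟩
  -- the individual terms
  have h1 : ∀ j : ℕ, Tendsto (((f : ℍ → ℂ) ∣[(2 : ℤ)] heckeMatrix ℓ j) ∣[(2 : ℤ)] γ) atImInfty
      (𝓝 ((if (ℓ : ℤ) ∣ γ 0 0 + j * γ 1 0 ∧ (ℓ : ℤ) ∣ ℓ * γ 1 0 then (ℓ : ℂ)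
        else (ℓ : ℂ)⁻¹) * c)) := by
    intro j
    have e : ((f : ℍ → ℂ) ∣[(2 : ℤ)] heckeMatrix ℓ j) ∣[(2 : ℤ)] γ =
        (f : ℍ → ℂ) ∣[(2 : ℤ)] (heckeMatrix ℓ j * (γ : GL (Fin 2) ℝ)) := by
      rw [SlashAction.slash_mul]; rfl
    rw [e]
    refine tendsto_slash_det hM f hℓ hℓM hc _ (γ 0 0 + j * γ 1 0) (ℓ * γ 1 0)
      (γ 0 1 + j * γ 1 1) (ℓ * γ 1 1) ?_ ?_ ?_
    · rw [Units.val_mul]
      show ((heckeMatrix ℓ j : GL (Fin 2) ℝ) : Matrix (Fin 2) (Fin 2) ℝ) * _ = _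
      rw [val_heckeMatrix hℓ0]
      ext i k
      fin_cases i <;> fin_cases k <;> simp [Matrix.mul_apply, Fin.sum_univ_two]
    · linear_combination (ℓ : ℤ) * hdet
    · rw [mul_comm, gcd_natCast_mul_of_coprime hcopM]
  have h2 : Tendsto (((f : ℍ → ℂ) ∣[(2 : ℤ)] heckeDiagMatrix ℓ) ∣[(2 : ℤ)] γ) atImInfty
      (𝓝 ((if (ℓ : ℤ) ∣ ℓ * γ 0 0 ∧ (ℓ : ℤ) ∣ γ 1 0 then (ℓ : ℂ) else (ℓ : ℂ)⁻¹) * c)) := by
    have e : ((f : ℍ → ℂ) ∣[(2 : ℤ)] heckeDiagMatrix ℓ) ∣[(2 : ℤ)] γ =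
        (f : ℍ → ℂ) ∣[(2 : ℤ)] (heckeDiagMatrix ℓ * (γ : GL (Fin 2) ℝ)) := by
      rw [SlashAction.slash_mul]; rfl
    rw [e]
    refine tendsto_slash_det hM f hℓ hℓM hc _ (ℓ * γ 0 0) (γ 1 0) (ℓ * γ 0 1) (γ 1 1) ?_ ?_ rfl
    · rw [Units.val_mul]
      show ((heckeDiagMatrix ℓ : GL (Fin 2) ℝ) : Matrix (Fin 2) (Fin 2) ℝ) * _ = _
      rw [val_heckeDiagMatrix hℓ0]
      ext i k
      fin_cases i <;> fin_cases k <;> simp [Matrix.mul_apply, Fin.sum_univ_two]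
    · linear_combination (ℓ : ℤ) * hdet
  have h3 := (tendsto_finsetSum (Finset.range ℓ) (fun j _ => h1 j)).add h2
  have e4 : (∑ j ∈ Finset.range ℓ, (if (ℓ : ℤ) ∣ γ 0 0 + j * γ 1 0 ∧ (ℓ : ℤ) ∣ ℓ * γ 1 0 then (ℓ : ℂ)
        else (ℓ : ℂ)⁻¹) * c) + (if (ℓ : ℤ) ∣ ℓ * γ 0 0 ∧ (ℓ : ℤ) ∣ γ 1 0 then (ℓ : ℂ)
          else (ℓ : ℂ)⁻¹) * c = (ℓ + 1) * c := by
    rw [← Finset.sum_mul, ← add_mul, sum_weights hℓ _ _ hcop]
  rw [e4] at h3
  refine h3.congr fun z => ?_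
  rw [heckeT_def, SlashAction.add_slash, SlashAction.sum_slash]
  simp [Finset.sum_apply]

/-- a constant modular form of weight two vanishes -/
theorem eq_zero_of_const {M : ℕ} [NeZero M] (f : ModularForm (CongruenceSubgroup.Gamma0 M) 2)
    (h : ∀ n, 1 ≤ n → qCoeff f n = 0) : f = 0 := by
  have hΓ := CongruenceSubgroup.one_mem_strictPeriods_Gamma0 M
  have hconst : ∀ z : ℍ, f z = qCoeff f 0 := by
    intro z
    have h1 := ModularForm.hasSum_qExpansion f one_pos hΓ z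
    have h2 : HasSum (fun n : ℕ => (qExpansion 1 f).coeff n • Function.Periodic.qParam 1 z ^ n)
        (qCoeff f 0) := by
      have : (fun n : ℕ => (qExpansion 1 f).coeff n • Function.Periodic.qParam 1 z ^ n) =
          fun n => if n = 0 then qCoeff f 0 else 0 := by
        funext n
        rcases Nat.eq_zero_or_pos n with rfl | hn
        · simp [qCoeff]
        · have := h n hn
          rw [qCoeff] at this
          rw [this, if_neg hn.ne', zero_smul]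
      rw [this]
      exact hasSum_ite_eq 0 _
    exact h1.unique h2
  have hc : qCoeff f 0 = 0 := by
    let γ : SL(2, ℤ) := ⟨!![1, 0; (M : ℤ), 1], by rw [Matrix.det_fin_two_of]; ring⟩
    have hγ : γ ∈ CongruenceSubgroup.Gamma0 M := by
      rw [CongruenceSubgroup.Gamma0_mem]
      show (((M : ℤ)) : ZMod M) = 0
      simp
    have hinv : (f : ℍ → ℂ) ∣[(2 : ℤ)] γ = f := f.slash_action_eq' _ ⟨γ, hγ, rfl⟩
    have h1 := congrFun hinv UpperHalfPlane.I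
    rw [SL_slash_apply, hconst, hconst, ModularGroup.denom_apply] at h1
    have e1 : ((γ 1 0 : ℤ) : ℂ) = M := rfl
    have e2 : ((γ 1 1 : ℤ) : ℂ) = 1 := by
      show (((1 : ℤ)) : ℂ) = 1
      simp
    rw [e1, e2] at h1
    by_contra hne
    have h2 : ((M : ℂ) * UpperHalfPlane.I + 1) ^ (-2 : ℤ) = 1 := by
      exact mul_left_cancel₀ hne (by rw [mul_one]; exact h1)
    have hM0 : (M : ℝ) ≠ 0 := by exact_mod_cast NeZero.ne M
    rw [zpow_neg, inv_eq_one] at h2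
    have h3 : ((M : ℂ) * UpperHalfPlane.I + 1) ^ 2 = 1 := by exact_mod_cast h2
    have h4 := congrArg Complex.im h3
    rw [UpperHalfPlane.coe_I] at h4
    simp [pow_two] at h4
    exact NeZero.ne M h4
  apply DFunLike.coe_injective
  funext z
  rw [hconst, hc]
  rfl

/-- **Non-Eisenstein eigenforms of squarefree level are cuspidal.** -/
theorem exists_cuspForm_of_eigen {M : ℕ} [NeZero M] (hM : Squarefree M)
    (f : ModularForm (CongruenceSubgroup.Gamma0 M) 2) {ℓ : ℕ} (hℓ : ℓ.Prime) (hℓM : ¬ ℓ ∣ M)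
    {lam : ℂ} (hlam : lam ≠ ℓ + 1)
    (h : ∀ n, 1 ≤ n → qCoeff f (n * ℓ) + (if ℓ ∣ n then (ℓ : ℂ) * qCoeff f (n / ℓ) else 0) =
      lam * qCoeff f n) :
    ∃ g : CuspForm (CongruenceSubgroup.Gamma0 M) 2, (g : ℍ → ℂ) = f := by
  have hΓ := CongruenceSubgroup.one_mem_strictPeriods_Gamma0 M
  -- `T_ℓ f = λ f`
  have hT : heckeTLin 2 hℓ hℓM f = lam • f := by
    have h0 : heckeTLin 2 hℓ hℓM f + (-lam) • f = 0 := by
      apply eq_zero_of_const
      intro n hn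
      rw [qCoeff_add', qCoeff_smul', coe_heckeTLin_apply,
        ModularFormClass.qCoeff_heckeT f hΓ hℓ.ne_zero, coeffHeckeT_apply]
      have := h n hn
      have e : ((ℓ : ℂ) ^ ((2 : ℤ) - 1)) = ℓ := by norm_num
      rw [e, this]
      ring
    have h1 : (-lam) • f = -(lam • f) := by
      apply DFunLike.coe_injective
      funext z
      simp
    rw [h1, add_neg_eq_zero] at h0
    exact h0
  have hT' : heckeT 2 ℓ f = lam • (f : ℍ → ℂ) := by
    have := congrArg (fun F : ModularForm (CongruenceSubgroup.Gamma0 M) 2 => (F : ℍ → ℂ)) hT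
    simpa using this
  refine ⟨{ f with zero_at_cusps' := ?_ }, rfl⟩
  intro c hc
  have hc' : IsCusp c 𝒮ℒ := by rwa [Subgroup.IsArithmetic.isCusp_iff_isCusp_SL2Z] at hc
  rw [OnePoint.isZeroAt_iff_forall_SL2Z hc']
  intro γ _
  obtain ⟨b, hb⟩ := exists_tendsto_slash f γ
  have h1 := tendsto_heckeT hM f hℓ hℓM hb
  rw [hT'] at h1
  have h2 : Tendsto ((lam • (f : ℍ → ℂ)) ∣[(2 : ℤ)] γ) atImInfty (𝓝 (lam * b)) := by
    rw [ModularForm.SL_smul_slash]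
    exact hb.const_mul lam
  have h3 := tendsto_nhds_unique h1 h2
  have hb0 : b = 0 := by
    have : ((ℓ : ℂ) + 1 - lam) * b = 0 := by linear_combination h3
    rcases mul_eq_zero.mp this with h | h
    · exact absurd (sub_eq_zero.mp h).symm hlam
    · exact h
  rw [hb0] at hb
  exact hb

end

end Fermat.Agent.H81
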