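import Mathlib
import Fermat.Agent.H81Br1

set_option autoImplicit false

/-!
# `T_r - (1 + r)` kills the Eisenstein part (squarefree level, weight two)
-/

namespace Fermat.Agent.H81

open UpperHalfPlane ModularForm ModularFormClass MatrixGroups Filter Topology
open Fermat.Agent.H16.Lower

noncomputable section

/-- `T_r F - (1 + r) F` is a cusp form. -/
theorem exists_cuspForm_heckeT_sub {M : ℕ} [NeZero M] (hM : Squarefree M)
    (f : ModularForm (CongruenceSubgroup.Gamma0 M) 2) {r : ℕ} (hr : r.Prime) (hrM : ¬ r ∣ M) :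
    ∃ g : CuspForm (CongruenceSubgroup.Gamma0 M) 2,
      (g : ℍ → ℂ) = heckeT 2 r f - ((r : ℂ) + 1) • (f : ℍ → ℂ) := by
  let F : ModularForm (CongruenceSubgroup.Gamma0 M) 2 :=
    heckeTLin 2 hr hrM f - ((r : ℂ) + 1) • f
  have hF : (F : ℍ → ℂ) = heckeT 2 r f - ((r : ℂ) + 1) • (f : ℍ → ℂ) := by
    funext z
    simp [F]
  refine ⟨{ F with zero_at_cusps' := ?_ }, ?_⟩
  · intro c hc
    have hc' : IsCusp c 𝒮ℒ := by rwa [Subgroup.IsArithmetic.isCusp_iff_isCusp_SL2Z] at hc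
    rw [OnePoint.isZeroAt_iff_forall_SL2Z hc']
    intro γ _
    obtain ⟨b, hb⟩ := exists_tendsto_slash f γ
    have h1 := tendsto_heckeT hM f hr hrM hb
    have h2 : Tendsto ((((r : ℂ) + 1) • (f : ℍ → ℂ)) ∣[(2 : ℤ)] γ) atImInfty
        (𝓝 (((r : ℂ) + 1) * b)) := by
      rw [ModularForm.SL_smul_slash]
      exact hb.const_mul _
    have h3 := h1.sub h2
    rw [sub_self] at h3
    show Tendsto ((F : ℍ → ℂ) ∣[(2 : ℤ)] γ) atImInfty (𝓝 0)
    rw [hF, sub_eq_add_neg, SlashAction.add_slash, SlashAction.neg_slash, ← sub_eq_add_neg]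
    exact h3
  · exact hF

/-- the same with `q`-expansions -/
theorem exists_cuspForm_heckeT_sub_qCoeff {M : ℕ} [NeZero M] (hM : Squarefree M)
    (f : ModularForm (CongruenceSubgroup.Gamma0 M) 2) {r : ℕ} (hr : r.Prime) (hrM : ¬ r ∣ M) :
    ∃ g : CuspForm (CongruenceSubgroup.Gamma0 M) 2,
      (g : ℍ → ℂ) = heckeT 2 r f - ((r : ℂ) + 1) • (f : ℍ → ℂ) ∧
      ∀ n, qCoeff g n = qCoeff f (n * r) + (if r ∣ n then (r : ℂ) * qCoeff f (n / r) else 0) -
        (r + 1) * qCoeff f n := by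
  obtain ⟨g, hg⟩ := exists_cuspForm_heckeT_sub hM f hr hrM
  refine ⟨g, hg, fun n => ?_⟩
  have hΓ := CongruenceSubgroup.one_mem_strictPeriods_Gamma0 M
  let F : ModularForm (CongruenceSubgroup.Gamma0 M) 2 :=
    heckeTLin 2 hr hrM f + (-((r : ℂ) + 1)) • f
  have hF : (g : ℍ → ℂ) = (F : ℍ → ℂ) := by
    rw [hg]
    funext z
    simp [F, sub_eq_add_neg]
    ring
  have e : ((r : ℂ) ^ ((2 : ℤ) - 1)) = r := by norm_num
  rw [hF, qCoeff_add', qCoeff_smul', coe_heckeTLin_apply,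
    ModularFormClass.qCoeff_heckeT f hΓ hr.ne_zero, coeffHeckeT_apply, e]
  ring

end

end Fermat.Agent.H81
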