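import Mathlib
import Fermat.Agent.H61TB
import Fermat.Agent.H79Up
import Fermat.Agent.H81Br3

set_option autoImplicit false

/-!
# Theorem A' (LT-MOD2, binary theta variant): the cusp forms

From a form `θ_I(τ) θ_J(Qτ)` of level `4 N Q` to a cusp form `½ (T_r - 1 - r) U_4 θ_I(τ) θ_J(Qτ)` of
level `N Q` with integral coefficients and `U_v² = 1` for `v ∣ 2 Q`.
-/

noncomputable section

namespace Fermat.Agent.H79.TA

open CuspForm ModularFormClass CongruenceSubgroup Fermat.Agent.H61.TA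

/-- the integral coefficient sequence -/
def gseq (c : ℕ → ℕ) (r : ℕ) (n : ℕ) : ℤ :=
  ((c (4 * (n * r)) : ℤ) + (if r ∣ n then (r : ℤ) * c (4 * (n / r)) else 0) -
    (r + 1) * c (4 * n)) / 2

variable {c : ℕ → ℕ} {r : ℕ}

theorem two_mul_gseq (hr : r.Prime) (c0 : c 0 = 1) (hc : ∀ n, 0 < n → 2 ∣ c n) (n : ℕ) :
    2 * gseq c r n = (c (4 * (n * r)) : ℤ) + (if r ∣ n then (r : ℤ) * c (4 * (n / r)) else 0) -
      (r + 1) * c (4 * n) := by
  rw [gseq]
  refine Int.mul_ediv_cancel' ?_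
  rcases Nat.eq_zero_or_pos n with rfl | hn
  · simp only [zero_mul, mul_zero, c0, dvd_zero, if_true, Nat.zero_div, Nat.cast_one, mul_one]
    exact ⟨0, by ring⟩
  · have h1 : ∀ k, 0 < k → (2 : ℤ) ∣ c k := fun k hk => by exact_mod_cast hc k hk
    refine dvd_sub (dvd_add (h1 _ (Nat.mul_pos (by norm_num) (Nat.mul_pos hn hr.pos))) ?_)
      ((h1 _ (Nat.mul_pos (by norm_num) hn)).mul_left _)
    split_ifs with hd
    · exact (h1 _ (Nat.mul_pos (by norm_num)
        (Nat.div_pos (Nat.le_of_dvd hn hd) hr.pos))).mul_left _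
    · exact dvd_zero _

theorem gseq_mul_sq (hr : r.Prime) (c0 : c 0 = 1) (hc : ∀ n, 0 < n → 2 ∣ c n) {v : ℕ}
    (hv : v.Prime) (hvr : v ≠ r) (h : ∀ n, c (4 * (n * v * v)) = c (4 * n)) (n : ℕ) :
    gseq c r (n * v * v) = gseq c r n := by
  have key : 2 * gseq c r (n * v * v) = 2 * gseq c r n := by
    rw [two_mul_gseq hr c0 hc, two_mul_gseq hr c0 hc]
    have h1 : n * v * v * r = n * r * v * v := by ring
    have h2 : r ∣ n * v * v ↔ r ∣ n := by
      have hco : Nat.Coprime r v := (Nat.coprime_primes hr hv).mpr (Ne.symm hvr)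
      exact ⟨fun h => hco.dvd_of_dvd_mul_right (hco.dvd_of_dvd_mul_right h),
        fun h => (h.mul_right _).mul_right _⟩
    rw [h1, h, h]
    congr 2
    by_cases hd : r ∣ n
    · rw [if_pos (h2.mpr hd), if_pos hd]
      obtain ⟨k, rfl⟩ := hd
      have h3 : r * k * v * v / r = k * v * v := by
        rw [show r * k * v * v = r * (k * v * v) by ring, Nat.mul_div_cancel_left _ hr.pos]
      rw [h3, Nat.mul_div_cancel_left _ hr.pos, h]
    · rw [if_neg (fun h => hd (h2.mp h)), if_neg hd]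
  exact mul_left_cancel₀ two_ne_zero key

/-- **The cusp form of one class.** -/
theorem exists_cuspForm {N m Q : ℕ} (hN : N = 2 * m) (hsq : Squarefree (N * Q)) [NeZero (N * Q)]
    (f : ModularForm (Gamma0 (4 * N * Q)) 2) (hf : ∀ n, qCoeff f n = (c n : ℂ))
    (hr : r.Prime) (hrM : ¬ r ∣ N * Q) (c0 : c 0 = 1) (hc : ∀ n, 0 < n → 2 ∣ c n)
    {V : Set ℕ}
    (h : ∀ v ∈ V, v.Prime → v ∣ N * Q → ∀ n, c (4 * (n * v * v)) = c (4 * n)) :
    ∃ H ∈ X2 (N * Q) V, ∀ n, qCoeff H n = (gseq c r n : ℂ) := by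
  have hm : NeZero (m * Q) := ⟨by
    have := NeZero.ne (N * Q)
    rintro h0
    apply this
    rw [hN, mul_assoc, h0, mul_zero]⟩
  obtain ⟨g, -, hg⟩ := Up.exists_mfLow_four (M := m * Q) 2 (by rw [hN]; ring :
    4 * N * Q = 8 * (m * Q)) f
  have hlev : 2 * (m * Q) = N * Q := by rw [hN]; ring
  obtain ⟨g', hg'⟩ : ∃ g' : ModularForm (Gamma0 (N * Q)) 2, ∀ n, qCoeff g' n = (c (4 * n) : ℂ) := by
    revert g
    rw [hlev]
    intro g hg
    exact ⟨g, fun n => by rw [hg, hf]⟩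
  obtain ⟨H, -, hH⟩ := H81.exists_cuspForm_heckeT_sub_qCoeff hsq g' hr hrM
  have hH2 : ∀ n, qCoeff ⇑((1 / 2 : ℂ) • H) n = (gseq c r n : ℂ) := by
    intro n
    rw [H49.qCoeff_smul, hH]
    simp only [hg']
    have h2 := congrArg (fun z : ℤ => (z : ℂ)) (two_mul_gseq hr c0 hc n)
    push_cast at h2
    have h3 : ((if r ∣ n then (r : ℂ) * (c (4 * (n / r)) : ℂ) else 0) : ℂ) =
        ((if r ∣ n then (r : ℤ) * (c (4 * (n / r)) : ℤ) else 0 : ℤ) : ℂ) := by
      split_ifs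
      · push_cast; ring
      · simp
    rw [h3]
    have h4 : 2 * (gseq c r n : ℂ) = (c (4 * (n * r)) : ℂ) +
        ((if r ∣ n then (r : ℤ) * (c (4 * (n / r)) : ℤ) else 0 : ℤ) : ℂ) -
        (r + 1) * (c (4 * n) : ℂ) := by
      rw [h2]
      push_cast
      rfl
    rw [← h4]
    ring
  refine ⟨(1 / 2 : ℂ) • H, mem_X2_iff_qCoeff.mpr fun v hv hvV hvM n => ?_, hH2⟩
  rw [hH2, hH2, gseq_mul_sq hr c0 hc hv ?_ (h v hvV hv hvM)]
  rintro rfl
  exact hrM hvM

end Fermat.Agent.H79.TA
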