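import Mathlib
import Fermat.Agent.H80ThQuad
import Fermat.Agent.H65ThB0
import Fermat.Agent.H22Th
import Fermat.Agent.H46LTDefsTA

set_option autoImplicit false

/-!
# Theorem A' (LT-MOD2, binary theta variant): arithmetic of `K = ℚ(√(-N))`, the group algebra
-/

noncomputable section

namespace Fermat.Agent.H79.TA

open NumberField Ideal Fermat.Agent.H63.LT
open scoped nonZeroDivisors

/-! ### The group algebra of a 2-group in characteristic 2 -/

section groupAlgebra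

variable {k G : Type*} [Field k] [CharP k 2] [CommGroup G]

/-- augmentation -/
def aug (k G : Type*) [Field k] [CommGroup G] : MonoidAlgebra k G →+* k :=
  (MonoidAlgebra.lift k k G (1 : G →* k) : MonoidAlgebra k G →ₐ[k] k)

@[simp] theorem aug_single (g : G) (a : k) : aug k G (MonoidAlgebra.single g a) = a := by
  simp [aug, MonoidAlgebra.lift_single]

instance charP_monoidAlgebra : CharP (MonoidAlgebra k G) 2 :=
  charP_of_injective_algebraMap (algebraMap k (MonoidAlgebra k G)).injective 2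

theorem pow_eq_aug {n : ℕ} (hG : ∀ g : G, g ^ 2 ^ n = 1) (x : MonoidAlgebra k G) :
    x ^ 2 ^ n = MonoidAlgebra.single 1 (aug k G x ^ 2 ^ n) := by
  induction x using MonoidAlgebra.induction_linear with
  | zero => simp
  | add x y hx hy =>
    rw [add_pow_char_pow, hx, hy, map_add, add_pow_char_pow, MonoidAlgebra.single_add]
  | single g a =>
    rw [MonoidAlgebra.single_pow, hG, aug_single]

theorem isUnit_of_aug_ne_zero {n : ℕ} (hG : ∀ g : G, g ^ 2 ^ n = 1) {x : MonoidAlgebra k G}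
    (hx : aug k G x ≠ 0) : IsUnit x := by
  have h1 : IsUnit (x ^ 2 ^ n) := by
    rw [pow_eq_aug hG]
    refine IsUnit.of_mul_eq_one (MonoidAlgebra.single 1 ((aug k G x ^ 2 ^ n)⁻¹)) ?_
    rw [MonoidAlgebra.single_mul_single, mul_one, mul_inv_cancel₀ (pow_ne_zero _ hx)]
    rfl
  exact (isUnit_pow_iff (pow_ne_zero _ two_ne_zero)).mp h1

end groupAlgebra

/-! ### The field -/

section field

variable {K : Type} [Field K] [NumberField K] {N : ℕ} {w : 𝓞 K} (h : QuadData K N w)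
include h

theorem isTotallyComplex : IsTotallyComplex K := by
  refine ⟨fun v => ?_⟩
  rw [← InfinitePlace.not_isReal_iff_isComplex]
  intro hv
  have h1 : (v.embedding_of_isReal hv) ((w : 𝓞 K) : K) ^ 2 = -(N : ℝ) := by
    rw [← map_pow, h.sqK]
    simp
  have h2 : (0 : ℝ) < N := by exact_mod_cast h.N_pos
  nlinarith [sq_nonneg ((v.embedding_of_isReal hv) ((w : 𝓞 K) : K))]

theorem trace_int (a b : ℤ) : Algebra.trace ℤ (𝓞 K) ((a : 𝓞 K) + b * w) = 2 * a := by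
  obtain ⟨B, hB0, hB1⟩ := H80.Th.exists_basis h
  have hw := h.sq
  have hr : ∀ (x y : ℤ), B.repr ((x : 𝓞 K) + y * w) 0 = x ∧ B.repr ((x : 𝓞 K) + y * w) 1 = y := by
    intro x y
    have : (x : 𝓞 K) + y * w = x • B 0 + y • B 1 := by
      rw [hB0, hB1]; simp
    rw [this, map_add, map_smul, map_smul, B.repr_self, B.repr_self]
    constructor
    · simp
    · simp
  rw [Algebra.trace_eq_matrix_trace B, Matrix.trace_fin_two, Algebra.leftMulMatrix_eq_repr_mul,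
    Algebra.leftMulMatrix_eq_repr_mul, hB0, hB1]
  have e1 : ((a : 𝓞 K) + b * w) * 1 = (a : 𝓞 K) + b * w := mul_one _
  have e2 : ((a : 𝓞 K) + b * w) * w = ((-(b * N) : ℤ) : 𝓞 K) + a * w := by
    push_cast
    linear_combination (b : 𝓞 K) * hw
  rw [e1, e2, (hr _ _).1, (hr _ _).2]
  ring

theorem discr_eq : discr K = -(4 * N) := by
  obtain ⟨B, hB0, hB1⟩ := H80.Th.exists_basis h
  rw [← NumberField.discr_eq_discr K B, Algebra.discr_def, Matrix.det_fin_two]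
  simp only [Algebra.traceMatrix_apply, Algebra.traceForm_apply, hB0, hB1]
  have h1 : (1 : 𝓞 K) * 1 = ((1 : ℤ) : 𝓞 K) + (0 : ℤ) * w := by simp
  have h2 : (1 : 𝓞 K) * w = ((0 : ℤ) : 𝓞 K) + (1 : ℤ) * w := by simp
  have h3 : w * 1 = ((0 : ℤ) : 𝓞 K) + (1 : ℤ) * w := by simp
  have h4 : w * w = ((-N : ℤ) : 𝓞 K) + (0 : ℤ) * w := by
    have := h.sq
    push_cast
    linear_combination this
  rw [h1, h2, h3, h4, trace_int h, trace_int h, trace_int h]
  ring

theorem natAbs_discr_mul (Q : ℕ) : (discr K).natAbs * Q = 4 * N * Q := by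
  rw [discr_eq h]
  norm_num
  left
  norm_cast

end field

/-! ### The auxiliary prime `r₀` -/

section aux

variable {K : Type} [Field K] [NumberField K] {N : ℕ} {w : 𝓞 K} (h : QuadData K N w)
include h

theorem exists_prime_ideal {G : Type*} [CommGroup G] (η : ClassGroup (𝓞 K) →* G) (hη : η ≠ 1) :
    ∃ P : (Ideal (𝓞 K))⁰, (P : Ideal (𝓞 K)).IsPrime ∧ η (ClassGroup.mk0 P) ≠ 1 := by
  by_contra hcon
  push Not at hcon
  apply hη
  ext c
  obtain ⟨I, rfl⟩ := ClassGroup.mk0_surjective c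
  rw [MonoidHom.one_apply]
  obtain ⟨I, hI⟩ := I
  induction I using UniqueFactorizationMonoid.induction_on_prime with
  | h₁ => exact absurd rfl (mem_nonZeroDivisors_iff_ne_zero.mp hI)
  | h₂ I hu =>
    have h1 : I = 1 := (Ideal.isUnit_iff.mp hu).trans Ideal.one_eq_top.symm
    subst h1
    have : (⟨1, hI⟩ : (Ideal (𝓞 K))⁰) = 1 := rfl
    rw [this, map_one, map_one]
  | h₃ I P hI0 hP ih =>
    have hP0 : P ∈ (Ideal (𝓞 K))⁰ := mem_nonZeroDivisors_iff_ne_zero.mpr hP.ne_zero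
    have hI0' : I ∈ (Ideal (𝓞 K))⁰ := mem_nonZeroDivisors_iff_ne_zero.mpr hI0
    have : (⟨P * I, hI⟩ : (Ideal (𝓞 K))⁰) = ⟨P, hP0⟩ * ⟨I, hI0'⟩ := rfl
    rw [this, map_mul, map_mul, ih hI0', mul_one]
    exact hcon ⟨P, hP0⟩ (Ideal.isPrime_of_prime hP)

omit h in
theorem eq_of_dvd {P P' : Ideal (𝓞 K)} (hP : P.IsPrime) (hP0 : P ≠ ⊥) (hP' : P'.IsPrime)
    (hd : P' ∣ P) : P = P' := by
  have h1 : P ≤ P' := Ideal.dvd_iff_le.mp hd
  have := hP.isMaximal hP0
  exact this.eq_of_le hP'.ne_top h1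

omit h in
/-- A prime ideal `P` with `r ∣ N(P)` contains `r`. -/
theorem natCast_mem_of_dvd_absNorm {P : Ideal (𝓞 K)} (hP : P.IsPrime) (hP0 : P ≠ ⊥) {r : ℕ}
    (hr : r.Prime) (hd : r ∣ absNorm P) : (r : 𝓞 K) ∈ P := by
  obtain ⟨M, hM, hMu, hMI⟩ := exists_isMaximal_dvd_of_dvd_absNorm' hr P hd
  have h1 := H22.Th.mem_of_under hMu
  rwa [eq_of_dvd hP hP0 hM.isPrime hMI]

omit h in
/-- If `P₁ P₂ = (r)` with `P₁, P₂` prime and `r ∈ P` then `P = P₁` or `P = P₂`. -/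
theorem eq_or_eq {P P1 P2 : Ideal (𝓞 K)} (hP : P.IsPrime) (hP1 : P1.IsPrime)
    (hP2 : P2.IsPrime) {r : ℕ} (hr : r.Prime) (hmul : P1 * P2 = span {(r : 𝓞 K)})
    (hmem : (r : 𝓞 K) ∈ P) : P = P1 ∨ P = P2 := by
  have hr0 : span {(r : 𝓞 K)} ≠ ⊥ := by
    rw [Ne, span_singleton_eq_bot]
    exact_mod_cast hr.ne_zero
  have h1 : P1 ≠ ⊥ := by
    rintro rfl
    rw [Ideal.bot_mul] at hmul
    exact hr0 hmul.symm
  have h2 : P2 ≠ ⊥ := by
    rintro rfl
    rw [Ideal.mul_bot] at hmul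
    exact hr0 hmul.symm
  have h3 : P1 * P2 ≤ P := by
    rw [hmul, span_singleton_le_iff_mem]
    exact hmem
  rcases hP.mul_le.mp h3 with h4 | h4
  · left
    have := hP1.isMaximal h1
    exact (this.eq_of_le hP.ne_top h4).symm
  · right
    have := hP2.isMaximal h2
    exact (this.eq_of_le hP.ne_top h4).symm

/-- A split prime `r` at which `η` is nontrivial. -/
theorem exists_split_prime {G : Type*} [CommGroup G] (η : ClassGroup (𝓞 K) →* G) (hη : η ≠ 1)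
    (hη3 : ∀ c, η c ^ 3 = 1) :
    ∃ r : ℕ, r.Prime ∧ ¬ r ∣ 2 * N ∧ IsSquare ((-(N : ℤ) : ℤ) : ZMod r) ∧
      ∃ P : (Ideal (𝓞 K))⁰, absNorm (P : Ideal (𝓞 K)) = r ∧ (P : Ideal (𝓞 K)).IsPrime ∧
        η (ClassGroup.mk0 P) ≠ 1 := by
  obtain ⟨⟨P, hP0⟩, hP, hηP⟩ := exists_prime_ideal h η hη
  simp only at hP
  have hPne : P ≠ ⊥ := mem_nonZeroDivisors_iff_ne_zero.mp hP0
  have h1 : absNorm P ≠ 1 := by rw [Ne, absNorm_eq_one_iff]; exact hP.ne_top
  obtain ⟨r, hr, hrP⟩ := Nat.exists_prime_and_dvd h1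
  have h2 := H80.Th.finrank_int h
  -- not inert
  have hsq : r ∣ 2 * N ∨ IsSquare ((-(N : ℤ) : ℤ) : ZMod r) := by
    by_contra hcon
    rw [not_or] at hcon
    have h3 := H22.Th.inert h2 h.sq hr hcon.2 P hrP
    have h4 : P = span {(r : 𝓞 K)} :=
      eq_of_dvd hP hPne (H80.Th.isPrime_of_not_isSquare h hr hcon.2) h3
    apply hηP
    have h5 : ClassGroup.mk0 ⟨P, hP0⟩ = 1 := by
      rw [ClassGroup.mk0_eq_one_iff, h4]
      exact ⟨⟨_, rfl⟩⟩
    rw [h5, map_one]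
  have hnd : ¬ r ∣ 2 * N := by
    intro hrN
    have hrN' : r ∣ N := by
      rcases (Nat.Prime.dvd_mul hr).mp hrN with h3 | h3
      · exact ((Nat.prime_dvd_prime_iff_eq hr Nat.prime_two).mp h3) ▸ h.even
      · exact h3
    obtain ⟨h3, h4, -, h6⟩ := H22.Th.ram h.sqf h2 h.sq hr hrN'
    have h7 : P = span {(r : 𝓞 K), w} := eq_of_dvd hP hPne h4 (h6 P hrP)
    apply hηP
    have h8 : η (ClassGroup.mk0 ⟨P, hP0⟩) ^ 2 = 1 := by
      rw [← map_pow, ← map_pow]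
      have h9 : ClassGroup.mk0 ((⟨P, hP0⟩ : (Ideal (𝓞 K))⁰) ^ 2) = 1 := by
        rw [ClassGroup.mk0_eq_one_iff]
        refine ⟨⟨(r : 𝓞 K), ?_⟩⟩
        show P ^ 2 = span {(r : 𝓞 K)}
        rw [pow_two, h7, h3]
      rw [h9, map_one]
    have h9 := hη3 (ClassGroup.mk0 ⟨P, hP0⟩)
    rw [pow_succ, h8, one_mul] at h9
    exact h9
  have hsq' := hsq.resolve_left hnd
  obtain ⟨P1, P2, hP1, hP2, -, hN1, hN2, hmul, -⟩ :=
    H22.Th.tc_split_prime (B := ℤ) h.N_pos h2 h.sq h.exists_int hr hnd hsq' 1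
  refine ⟨r, hr, hnd, hsq', ⟨P, hP0⟩, ?_, hP, hηP⟩
  show absNorm P = r
  rcases eq_or_eq hP hP1 hP2 hr hmul (natCast_mem_of_dvd_absNorm hP hPne hr hrP) with h5 | h5
  · rw [h5]; exact hN1
  · rw [h5]; exact hN2

end aux

end Fermat.Agent.H79.TA
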