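import Mathlib
import Fermat.Agent.H79TA1
import Fermat.Agent.H79TA2
import Fermat.Agent.H79TA3
import Fermat.Agent.H65ThF
import Fermat.Agent.H65ThU
import Fermat.Agent.H22ThK
import Fermat.Agent.H27LTProd

set_option autoImplicit false

/-!
# Theorem A' (LT-MOD2, binary theta variant): the theta eigensequence modulo 2
-/

noncomputable section

namespace Fermat.Agent.H79.TA

open NumberField Ideal Fermat.Agent.H63.LT Fermat.Agent.H61.TA CuspForm ModularFormClass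
  CongruenceSubgroup
open Fermat.Agent.H80.Th (rth nm)
open Fermat.Agent.H22.Th (th)
open Fermat.Agent.H65Th (hc cross)
open scoped nonZeroDivisors

section seqB

variable {B : Type*} [CommRing B]

theorem odd_cast (h2 : (2 : B) = 0) {r : ℕ} (hr : Odd r) : (r : B) = 1 := by
  obtain ⟨k, rfl⟩ := hr
  push_cast
  rw [h2]
  ring

theorem gseq_zero {c : ℕ → ℕ} {r : ℕ} (hr : r.Prime) (c0 : c 0 = 1)
    (hc : ∀ n, 0 < n → 2 ∣ c n) : gseq c r 0 = 0 := by
  have h1 := two_mul_gseq hr c0 hc 0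
  simp only [zero_mul, mul_zero, c0, dvd_zero, if_true, Nat.zero_div, Nat.cast_one, mul_one] at h1
  omega

theorem gseq_cast (h2 : (2 : B) = 0) {c d e : ℕ → ℕ} {r : ℕ} (hr : r.Prime) (hr2 : Odd r)
    (c0 : c 0 = 1) (hc : ∀ n, 0 < n → c n = 2 * d n + 4 * e n) {n : ℕ} (hn : 0 < n) :
    (gseq c r n : B) = (d (4 * (n * r)) : B) + if r ∣ n then (d (4 * (n / r)) : B) else 0 := by
  have hc' : ∀ n, 0 < n → 2 ∣ c n := fun n hn => ⟨d n + 2 * e n, by rw [hc n hn]; ring⟩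
  have h1 := two_mul_gseq hr c0 hc' n
  have p1 : 0 < 4 * (n * r) := Nat.mul_pos (by norm_num) (Nat.mul_pos hn hr.pos)
  have p2 : 0 < 4 * n := Nat.mul_pos (by norm_num) hn
  rw [hc _ p1, hc _ p2] at h1
  by_cases hd : r ∣ n
  · have p3 : 0 < 4 * (n / r) :=
      Nat.mul_pos (by norm_num) (Nat.div_pos (Nat.le_of_dvd hn hd) hr.pos)
    rw [if_pos hd, hc _ p3] at h1
    rw [if_pos hd]
    have h3 : gseq c r n = (d (4 * (n * r)) : ℤ) + 2 * e (4 * (n * r)) +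
        r * (d (4 * (n / r)) + 2 * e (4 * (n / r))) - (r + 1) * (d (4 * n) + 2 * e (4 * n)) := by
      apply mul_left_cancel₀ (two_ne_zero (α := ℤ))
      push_cast at h1
      linear_combination h1
    rw [h3]
    push_cast
    rw [odd_cast h2 hr2]
    linear_combination ((e (4 * (n * r)) : B) + e (4 * (n / r)) - d (4 * n) - 2 * e (4 * n)) * h2
  · rw [if_neg hd] at h1 ⊢
    have h3 : gseq c r n = (d (4 * (n * r)) : ℤ) + 2 * e (4 * (n * r)) -
        (r + 1) * (d (4 * n) + 2 * e (4 * n)) := by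
      apply mul_left_cancel₀ (two_ne_zero (α := ℤ))
      push_cast at h1
      linear_combination h1
    rw [h3]
    push_cast
    rw [odd_cast h2 hr2]
    linear_combination ((e (4 * (n * r)) : B) - d (4 * n) - 2 * e (4 * n)) * h2

end seqB

/-! ### The sequence `D = Θ(τ) + β₀ Θ(Qτ)` -/

section D

variable {K : Type} [Field K] [NumberField K] {N : ℕ} {w : 𝓞 K} (h : QuadData K N w)
  {B : Type*} [CommRing B] (ψ : ClassGroup (𝓞 K) →* B) (b : ClassGroup (𝓞 K)) (Q : ℕ)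

/-- `D = Θ(τ) + β₀ Θ(Qτ)` -/
def Dn (n : ℕ) : B := th ψ n + if Q ∣ n then ψ b * th ψ (n / Q) else 0

theorem Dn_zero : Dn ψ b Q 0 = 0 := by
  rw [Dn, Nat.zero_div, H22.Th.QD.zero]
  simp

include h

theorem Dn_four (hQ : Odd Q) (n : ℕ) : Dn ψ b Q (4 * n) = Dn ψ b Q n := by
  have hco : Nat.Coprime Q 4 := by
    rw [show 4 = 2 ^ 2 by norm_num]
    exact (Nat.coprime_two_right.mpr hQ).pow_right 2
  rw [Dn, Dn, H22.Th.QD.four h]
  congr 1
  by_cases hd : Q ∣ n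
  · rw [if_pos hd, if_pos (hd.mul_left 4), Nat.mul_div_assoc 4 hd, H22.Th.QD.four h]
  · rw [if_neg hd, if_neg fun h4 => hd (hco.dvd_of_dvd_mul_left h4)]

theorem Dn_hecke (hB : (2 : B) = 0) {r : ℕ} (hr : r.Prime) (hrN : ¬ r ∣ N) (hrQ : ¬ r ∣ Q)
    (hQ0 : 0 < Q) (n : ℕ) :
    Dn ψ b Q (n * r) + (if r ∣ n then Dn ψ b Q (n / r) else 0) = th ψ r * Dn ψ b Q n := by
  have hco : Nat.Coprime r Q := (Nat.Prime.coprime_iff_not_dvd hr).mpr hrQ
  have e1 := H22.Th.QD.hecke_two h ψ hB hr hrN n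
  rw [mul_comm r n] at e1
  by_cases hd : Q ∣ n
  · obtain ⟨k, rfl⟩ := hd
    have e2 := H22.Th.QD.hecke_two h ψ hB hr hrN k
    rw [mul_comm r k] at e2
    have d1 : r ∣ Q * k ↔ r ∣ k := ⟨fun h => hco.dvd_of_dvd_mul_left h, fun h => h.mul_left _⟩
    have d0 : Q ∣ Q * k * r := ⟨k * r, by ring⟩
    simp only [Dn]
    rw [if_pos d0, if_pos (Dvd.intro k rfl),
      show Q * k * r / Q = k * r by rw [mul_assoc, Nat.mul_div_cancel_left _ hQ0],
      Nat.mul_div_cancel_left _ hQ0]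
    by_cases hk : r ∣ k
    · rw [if_pos (d1.mpr hk)]
      rw [if_pos (d1.mpr hk)] at e1
      rw [if_pos hk] at e2
      obtain ⟨j, rfl⟩ := hk
      have d2 : Q * (r * j) / r = Q * j := by
        rw [show Q * (r * j) = r * (Q * j) by ring, Nat.mul_div_cancel_left _ hr.pos]
      rw [Nat.mul_div_cancel_left _ hr.pos] at e2
      rw [d2, if_pos (Dvd.intro j rfl), Nat.mul_div_cancel_left _ hQ0]
      rw [d2] at e1
      linear_combination e1 + ψ b * e2
    · rw [if_neg fun h => hk (d1.mp h)]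
      rw [if_neg fun h => hk (d1.mp h)] at e1
      rw [if_neg hk] at e2
      linear_combination e1 + ψ b * e2
  · have d1 : ¬ Q ∣ n * r := fun h => hd (hco.symm.dvd_of_dvd_mul_right h)
    simp only [Dn]
    rw [if_neg d1, if_neg hd]
    by_cases hk : r ∣ n
    · rw [if_pos hk] at e1 ⊢
      rw [if_neg fun h => hd (h.trans (Nat.div_dvd_of_dvd hk))]
      linear_combination e1
    · rw [if_neg hk] at e1 ⊢
      linear_combination e1

theorem Dn_squarefree (hQ : Squarefree Q)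
    (hq : ∀ q : ℕ, q.Prime → q ∣ Q → ¬ IsSquare ((-(N : ℤ) : ℤ) : ZMod q)) {e : ℕ} (he : e ∣ Q) :
    Dn ψ b Q e = (if e = 1 then 1 else 0) + if e = Q then ψ b else 0 := by
  have hQ0 : 0 < Q := Nat.pos_of_ne_zero hQ.ne_zero
  rw [Dn, H22.Th.QD.squarefree h ψ (hQ.squarefree_of_dvd he) fun q hq' hqe =>
    hq q hq' (hqe.trans he)]
  congr 1
  by_cases hd : Q ∣ e
  · have h1 : e = Q := Nat.dvd_antisymm he hd
    rw [if_pos hd, if_pos h1, h1, Nat.div_self hQ0, H22.Th.th, H22.Th.tc_one, mul_one]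
  · rw [if_neg hd, if_neg]
    rintro rfl
    exact hd dvd_rfl

end D

/-! ### The admissible sequence `F` -/

section F

variable {K : Type} [Field K] [NumberField K] {N : ℕ} {w : 𝓞 K} (h : QuadData K N w)
  {B : Type*} [CommRing B] (ψ : ClassGroup (𝓞 K) →* B)
  (I J : ClassGroup (𝓞 K) → (Ideal (𝓞 K))⁰) (Q r : ℕ)

/-- the representation numbers of one class -/
def cA (A : ClassGroup (𝓞 K)) (n : ℕ) : ℕ := rth (I A : Ideal (𝓞 K)) (J A : Ideal (𝓞 K)) 1 Q n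

/-- the sequence `F`: coefficients of `½ Σ_A ψ(A)⁻¹ (T_r - 1 - r) U_4 (θ_A(τ) θ_{A B₀}(Qτ))` -/
def Fn (n : ℕ) : B := ∑ A : ClassGroup (𝓞 K), ψ A⁻¹ * (gseq (cA I J Q A) r n : B)

include h

theorem cA_zero (hQ : 0 < Q) (A : ClassGroup (𝓞 K)) : cA I J Q A 0 = 1 := by
  have h1 := cnt_zero (H80.Th.units_int h) (I := (I A : Ideal (𝓞 K))) (J := (J A : Ideal (𝓞 K)))
    (mem_nonZeroDivisors_iff_ne_zero.mp (I A).2) (mem_nonZeroDivisors_iff_ne_zero.mp (J A).2) hQ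
  refine Eq.trans ?_ h1
  rw [cA, rth, cnt]
  simp only [one_mul]
  rfl

theorem cA_eq (hQ : 0 < Q) (A : ClassGroup (𝓞 K)) (n : ℕ) (hn : 0 < n) :
    cA I J Q A n = 2 * (hc (I A : Ideal (𝓞 K)) n +
      if Q ∣ n then hc (J A : Ideal (𝓞 K)) (n / Q) else 0) +
      4 * cross (I A : Ideal (𝓞 K)) (J A : Ideal (𝓞 K)) Q n := by
  rw [cA, H65Th.rth_eq (H80.Th.units_int h) (mem_nonZeroDivisors_iff_ne_zero.mp (I A).2)
    (mem_nonZeroDivisors_iff_ne_zero.mp (J A).2) hQ hn, mul_add]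
  split_ifs <;> ring

theorem Fn_eq (hB : (2 : B) = 0) (b : ClassGroup (𝓞 K)) (hI : ∀ A, ClassGroup.mk0 (I A) = A)
    (hJ : ∀ A, ClassGroup.mk0 (J A) = A * b) (hQ : Odd Q) (hr : r.Prime) (hrN : ¬ r ∣ N)
    (hrQ : ¬ r ∣ Q) (n : ℕ) : Fn ψ I J Q r n = th ψ r * Dn ψ b Q n := by
  have hQ0 : 0 < Q := hQ.pos
  have hr2 : Odd r := by
    refine hr.odd_of_ne_two ?_
    rintro rfl
    exact hrN h.even
  have hodd : ∀ A, ∀ n, 0 < n → 2 ∣ cA I J Q A n := fun A n hn => by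
    rw [cA_eq h I J Q hQ0 A n hn]
    exact Dvd.dvd.add (Dvd.intro _ rfl) (Dvd.dvd.mul_right (by norm_num) _)
  have key : ∀ m, 0 < m → ∑ A : ClassGroup (𝓞 K), ψ A⁻¹ *
      ((hc (I A : Ideal (𝓞 K)) m + if Q ∣ m then hc (J A : Ideal (𝓞 K)) (m / Q) else 0 : ℕ) : B) =
        Dn ψ b Q m := by
    intro m hm
    have h1 : ∑ A : ClassGroup (𝓞 K), ψ A⁻¹ * (hc (I A : Ideal (𝓞 K)) m : B) = th ψ m := by
      have h1 := H65Th.sum_hc ψ I 1 (fun A => by rw [hI, mul_one]) hm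
      rw [map_one, one_mul] at h1
      exact h1
    rw [Dn, ← h1]
    by_cases hd : Q ∣ m
    · have h2 : ∑ A : ClassGroup (𝓞 K), ψ A⁻¹ * (hc (J A : Ideal (𝓞 K)) (m / Q) : B) =
          ψ b * th ψ (m / Q) :=
        H65Th.sum_hc ψ J b hJ (Nat.div_pos (Nat.le_of_dvd hm hd) hQ0)
      rw [if_pos hd, ← h2, ← Finset.sum_add_distrib]
      refine Finset.sum_congr rfl fun A _ => ?_
      rw [if_pos hd]
      push_cast
      ring
    · rw [if_neg hd, add_zero]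
      refine Finset.sum_congr rfl fun A _ => ?_
      rw [if_neg hd]
      push_cast
      ring
  rcases Nat.eq_zero_or_pos n with rfl | hn
  · rw [Dn_zero, mul_zero, Fn]
    refine Finset.sum_eq_zero fun A _ => ?_
    rw [gseq_zero hr (cA_zero h I J Q hQ0 A) (hodd A)]
    simp
  rw [← Dn_hecke h ψ b Q hB hr hrN hrQ hQ0 n, ← Dn_four h ψ b Q hQ (n * r), Fn,
    ← key (4 * (n * r)) (Nat.mul_pos (by norm_num) (Nat.mul_pos hn hr.pos))]
  have h3 : (if r ∣ n then Dn ψ b Q (n / r) else 0) = ∑ A : ClassGroup (𝓞 K), ψ A⁻¹ *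
      (if r ∣ n then ((hc (I A : Ideal (𝓞 K)) (4 * (n / r)) +
        if Q ∣ (4 * (n / r)) then hc (J A : Ideal (𝓞 K)) ((4 * (n / r)) / Q) else 0 : ℕ) : B)
          else 0) := by
    by_cases hd : r ∣ n
    · simp only [if_pos hd]
      rw [key _ (Nat.mul_pos (by norm_num) (Nat.div_pos (Nat.le_of_dvd hn hd) hr.pos)),
        Dn_four h ψ b Q hQ]
    · simp only [if_neg hd, mul_zero, Finset.sum_const_zero]
  rw [h3, ← Finset.sum_add_distrib]
  refine Finset.sum_congr rfl fun A _ => ?_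
  rw [gseq_cast hB hr hr2 (cA_zero h I J Q hQ0 A) (fun n hn => cA_eq h I J Q hQ0 A n hn) hn,
    mul_add]

end F

end Fermat.Agent.H79.TA
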