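import Mathlib
import Fermat.Agent.H79TA4

set_option autoImplicit false

/-!
# Theorem A' (LT-MOD2, binary theta variant): the homomorphism from the Hecke algebra
-/

noncomputable section

namespace Fermat.Agent.H79.TA

open NumberField Ideal Fermat.Agent.H63.LT Fermat.Agent.H61.TA CuspForm ModularFormClass
  CongruenceSubgroup
open Fermat.Agent.H80.Th (rth nm)
open Fermat.Agent.H22.Th (th)
open scoped nonZeroDivisors

/-! ### Admissibility of `F` -/

section adm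

variable {K : Type} [Field K] [NumberField K] {N : ℕ} {w : 𝓞 K} (h : QuadData K N w)
  {B : Type*} [CommRing B] (ψ : ClassGroup (𝓞 K) →* B)
  (I J : ClassGroup (𝓞 K) → (Ideal (𝓞 K))⁰) (Q r : ℕ)

/-- the hypotheses on the second family of ideals and on `Q` (the condition at `2`) -/
structure Good (N : ℕ) (I J : ClassGroup (𝓞 K) → (Ideal (𝓞 K))⁰) (b : (Ideal (𝓞 K))⁰) (Q : ℕ) :
    Prop where
  mk_I : ∀ A, ClassGroup.mk0 (I A) = A
  mk_J : ∀ A, ClassGroup.mk0 (J A) = A * ClassGroup.mk0 b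
  mod_eight : (Q * absNorm (b : Ideal (𝓞 K))) % 8 = 3
  sqf : Squarefree Q
  inert : ∀ q : ℕ, q.Prime → q ∣ Q → ¬ q ∣ N ∧ ¬ IsSquare ((-(N : ℤ) : ℤ) : ZMod q)

variable {r} {I J Q} {b : (Ideal (𝓞 K))⁰} (hg : Good N I J b Q)

include hg

theorem Good.odd : Odd Q := by
  rw [← Nat.not_even_iff_odd]
  intro he
  have h1 := hg.mod_eight
  obtain ⟨k, hk⟩ := he
  rw [hk, ← two_mul, mul_assoc] at h1
  omega

theorem Good.odd_b : Odd (absNorm (b : Ideal (𝓞 K))) := by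
  rw [← Nat.not_even_iff_odd]
  intro he
  have h1 := hg.mod_eight
  obtain ⟨k, hk⟩ := he
  rw [hk, ← two_mul, mul_comm 2 k, ← mul_assoc] at h1
  omega

include h

theorem cA_sixteen (A : ClassGroup (𝓞 K)) (n : ℕ) : cA I J Q A (16 * n) = cA I J Q A (4 * n) := by
  refine H80.Th.rth_sixteen_quad h (B := (b : Ideal (𝓞 K)))
    (mem_nonZeroDivisors_iff_ne_zero.mp (I A).2) (mem_nonZeroDivisors_iff_ne_zero.mp (J A).2)
    hg.odd_b ?_ hg.odd ?_ ?_ n
  · refine H80.Th.exists_of_mk0_eq (I A).2 (J A).2 b.2 ?_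
    have h1 := hg.mk_J A
    rw [← hg.mk_I A] at h1
    rw [hg.mk_I A] at h1
    have h2 : ClassGroup.mk0 (I A) = A := hg.mk_I A
    calc ClassGroup.mk0 (J A) = A * ClassGroup.mk0 b := hg.mk_J A
      _ = ClassGroup.mk0 (I A) * ClassGroup.mk0 b := by rw [h2]
  · have h1 := hg.mod_eight
    have h2 : ((Q * absNorm (b : Ideal (𝓞 K)) : ℕ) : ℤ) % 8 = 3 := by exact_mod_cast h1
    push_cast at h2
    omega
  · have h1 := hg.mod_eight
    have h2 : ((Q * absNorm (b : Ideal (𝓞 K)) : ℕ) : ℤ) % 8 = 3 := by exact_mod_cast h1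
    push_cast at h2
    have h3 : (N : ℤ) % 4 = 2 := by exact_mod_cast H80.Th.N_mod_four h
    omega

theorem cA_inert (A : ClassGroup (𝓞 K)) {q : ℕ} (hq : q.Prime) (hqQ : q ∣ Q) (n : ℕ) :
    cA I J Q A (q ^ 2 * n) = cA I J Q A n := by
  refine H80.Th.rth_inert_sq_quad h
    (mem_nonZeroDivisors_iff_ne_zero.mp (I A).2) (mem_nonZeroDivisors_iff_ne_zero.mp (J A).2)
    hq (hg.inert q hq hqQ).2 hqQ ?_ n
  intro h2
  have h3 := hg.sqf q (by rw [← pow_two]; exact h2)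
  exact hq.one_lt.ne' (Nat.isUnit_iff.mp h3)

theorem squarefree_mul : Squarefree (N * Q) := by
  rw [Nat.squarefree_mul_iff]
  refine ⟨?_, h.sqf, hg.sqf⟩
  rw [Nat.coprime_iff_gcd_eq_one]
  by_contra hne
  obtain ⟨q, hq, hqd⟩ := Nat.exists_prime_and_dvd hne
  exact (hg.inert q hq (hqd.trans (Nat.gcd_dvd_right _ _))).1 (hqd.trans (Nat.gcd_dvd_left _ _))

theorem cA_two_dvd (A : ClassGroup (𝓞 K)) (n : ℕ) (hn : 0 < n) : 2 ∣ cA I J Q A n := by
  rw [cA_eq h I J Q hg.odd.pos A n hn]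
  exact Dvd.dvd.add (Dvd.intro _ rfl) (Dvd.dvd.mul_right (by norm_num) _)

/-- the integral cusp form of one class -/
theorem exists_form (A : ClassGroup (𝓞 K)) [NeZero (N * Q)] (hr : r.Prime) (hrM : ¬ r ∣ N * Q)
    {V : Set ℕ} (hV : ∀ v ∈ V, v = 2 ∨ v ∣ Q) :
    ∃ H ∈ X2 (N * Q) V, ∀ n, qCoeff H n = (gseq (cA I J Q A) r n : ℂ) := by
  obtain ⟨m, hm⟩ := h.even
  have := isTotallyComplex h
  obtain ⟨f, hf⟩ := LT.exists_theta_prod h.finrank (I A : Ideal (𝓞 K)) (J A : Ideal (𝓞 K))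
    (mem_nonZeroDivisors_iff_ne_zero.mp (I A).2) (mem_nonZeroDivisors_iff_ne_zero.mp (J A).2)
    Q hg.odd.pos (4 * N * Q) (natAbs_discr_mul h Q)
  have hf' : ∀ n, qCoeff f n = (cA I J Q A n : ℂ) := by
    intro n
    rw [hf n, cA, rth]
    simp only [one_mul]
    rfl
  refine exists_cuspForm (c := cA I J Q A) hm (squarefree_mul h hg) f hf' hr hrM
    (cA_zero h I J Q hg.odd.pos A) (cA_two_dvd h hg A) ?_
  intro v hv hvp hvM n
  rcases hV v hv with rfl | hvQ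
  · rw [show 4 * (n * 2 * 2) = 16 * n by ring, cA_sixteen h hg]
  · rw [show 4 * (n * v * v) = v ^ 2 * (4 * n) by ring, cA_inert h hg A hvp hvQ]

theorem Fn_mem_Adm {S V : Set ℕ} [NeZero (N * Q)] (hr : r.Prime) (hrM : ¬ r ∣ N * Q)
    (hV : ∀ v ∈ V, v = 2 ∨ v ∣ Q) :
    Fn ψ I J Q r ∈ Adm (N * Q) S B (X2 (N * Q) V) := by
  have h1 : Fn ψ I J Q r = ∑ A : ClassGroup (𝓞 K), ψ A⁻¹ •
      (fun n => (gseq (cA I J Q A) r n : B)) := by
    funext n
    rw [Finset.sum_apply]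
    rfl
  rw [h1]
  refine Submodule.sum_mem _ fun A _ => Submodule.smul_mem _ _ ?_
  obtain ⟨H, hH, hHn⟩ := exists_form h hg A hr hrM hV
  exact intCast_mem_Adm hH hHn

/-- `U_q² F = F` -/
theorem Fn_mul_sq [NeZero (N * Q)] (hr : r.Prime) (hrM : ¬ r ∣ N * Q) {q : ℕ} (hq : q.Prime)
    (hqQ : q ∣ Q) (n : ℕ) : Fn ψ I J Q r (n * q * q) = Fn ψ I J Q r n := by
  refine Finset.sum_congr rfl fun A _ => ?_
  rw [gseq_mul_sq hr (cA_zero h I J Q hg.odd.pos A) (cA_two_dvd h hg A) hq ?_ ?_]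
  · rintro rfl
    exact hrM (hqQ.mul_left _)
  · intro n
    rw [show 4 * (n * q * q) = q ^ 2 * (4 * n) by ring, cA_inert h hg A hq hqQ]

end adm

/-! ### Sums over sublists -/

theorem sum_sublists {B : Type*} [CommRing B] {l : List ℕ} (hl : l.Nodup) (f : List ℕ → B)
    (hf : ∀ d, d.Sublist l → d ≠ [] → d ≠ l → f d = 0) :
    (l.sublists.map f).sum = if l = [] then f [] else f [] + f l := by
  classical
  rw [← List.sum_toFinset f (List.nodup_sublists.mpr hl)]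
  split_ifs with h0
  · subst h0
    simp
  · rw [← Finset.sum_subset (s₁ := {[], l}) (f := f), Finset.sum_pair (fun h => h0 h.symm)]
    · intro d hd
      rw [List.mem_toFinset, List.mem_sublists]
      rcases Finset.mem_insert.mp hd with rfl | hd
      · exact List.nil_sublist _
      · rw [Finset.mem_singleton.mp hd]
    · intro d hd hd'
      rw [List.mem_toFinset, List.mem_sublists] at hd
      rw [Finset.mem_insert, Finset.mem_singleton, not_or] at hd'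
      exact hf d hd hd'.1 hd'.2

end Fermat.Agent.H79.TA
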