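import Mathlib
import Fermat.Agent.H79TA5

set_option autoImplicit false

/-!
# Theorem A' (LT-MOD2, binary theta variant): final form
-/

noncomputable section

namespace Fermat.Agent.H79.TA

open NumberField Ideal Fermat.Agent.H63.LT Fermat.Agent.H61.TA CuspForm ModularFormClass
  CongruenceSubgroup
open Fermat.Agent.LT (C2' C2Q deltaQ cls primesOver oddClasses)
open Fermat.Agent.H22.Th (th)
open scoped nonZeroDivisors

/-! ### `C₂ × μ₂^Q` is a 2-group -/

section twoGroup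

variable (K : Type) [Field K] [NumberField K]

theorem pow_two_C2' (c : C2' K) : c ^ 2 ^ Nat.card (ClassGroup (𝓞 K)) = 1 := by
  obtain ⟨c, rfl⟩ := QuotientGroup.mk_surjective c
  have h0 : orderOf c ≠ 0 := (orderOf_pos c).ne'
  obtain ⟨k, m, hm, hkm⟩ := Nat.exists_eq_two_pow_mul_odd h0
  have hk : k ≤ Nat.card (ClassGroup (𝓞 K)) := by
    have h1 : 2 ^ k ≤ orderOf c := by
      rw [hkm]
      exact Nat.le_mul_of_pos_right _ hm.pos
    have h2 : orderOf c ≤ Nat.card (ClassGroup (𝓞 K)) :=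
      Nat.le_of_dvd Nat.card_pos (orderOf_dvd_natCard c)
    exact (Nat.lt_two_pow_self (n := k)).le.trans (h1.trans h2)
  have h3 : c ^ 2 ^ k ∈ Subgroup.closure (oddClasses K) := by
    refine Subgroup.subset_closure ?_
    show Odd (orderOf (c ^ 2 ^ k))
    rw [orderOf_pow' c (pow_ne_zero _ two_ne_zero), hkm, Nat.gcd_mul_right_left,
      Nat.mul_div_cancel_left _ (by positivity)]
    exact hm
  rw [← QuotientGroup.mk_pow, QuotientGroup.eq_one_iff]
  obtain ⟨j, hj⟩ := Nat.exists_eq_add_of_le hk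
  rw [hj, pow_add, pow_mul]
  exact Subgroup.pow_mem _ h3 _

theorem pow_two_C2Q (Q : Finset ℕ) (g : C2Q K Q) :
    g ^ 2 ^ (Nat.card (ClassGroup (𝓞 K)) + 1) = 1 := by
  obtain ⟨c, x⟩ := g
  have h1 : x ^ 2 = 1 := by
    funext q
    rw [Pi.pow_apply, Pi.one_apply]
    generalize x q = y
    revert y
    decide
  refine Prod.ext ?_ ?_
  · show c ^ _ = 1
    rw [pow_succ, pow_mul, pow_two_C2', one_pow]
  · show x ^ _ = 1
    rw [pow_succ, mul_comm, pow_mul, h1, one_pow]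

end twoGroup

/-! ### The characters -/

section chars

variable {K : Type} [Field K] [NumberField K] {k : Type} [Field k] [CharP k 2]
  (η : ClassGroup (𝓞 K) →* kˣ) (Q : Finset ℕ)

/-- the group algebra -/
abbrev BB (K : Type) [Field K] [NumberField K] (k : Type) [Field k] (Q : Finset ℕ) : Type :=
  MonoidAlgebra k (C2Q K Q)

/-- `ψ([𝔠]) = η(𝔠) [𝔠]` -/
def psi : ClassGroup (𝓞 K) →* BB K k Q where
  toFun c := MonoidAlgebra.single ((QuotientGroup.mk c : C2' K),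
    (1 : {q // q ∈ Q} → Multiplicative (ZMod 2))) ((η c : kˣ) : k)
  map_one' := by
    rw [map_one]
    rfl
  map_mul' a b := by
    rw [MonoidAlgebra.single_mul_single, map_mul, Units.val_mul]
    rw [Prod.mk_mul_mk, one_mul]
    rfl

theorem psi_apply (c : ClassGroup (𝓞 K)) : psi η Q c =
    MonoidAlgebra.single ((QuotientGroup.mk c : C2' K),
    (1 : {q // q ∈ Q} → Multiplicative (ZMod 2))) ((η c : kˣ) : k) := rfl

@[simp] theorem aug_psi (c : ClassGroup (𝓞 K)) : aug k (C2Q K Q) (psi η Q c) = (η c : k) := by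
  rw [psi_apply, aug_single]

open Classical in
/-- `u_q = [δ_q]` -/
def uu (K : Type) [Field K] [NumberField K] (k : Type) [Field k] (Q : Finset ℕ) (q : ℕ) :
    BB K k Q :=
  if hq : q ∈ Q then MonoidAlgebra.single (deltaQ K Q ⟨q, hq⟩) 1 else 1

theorem uu_of_mem {q : ℕ} (hq : q ∈ Q) :
    uu K k Q q = MonoidAlgebra.single (deltaQ K Q ⟨q, hq⟩) 1 := dif_pos hq

theorem uu_mul_uu (q : ℕ) : uu K k Q q * uu K k Q q = 1 := by
  classical
  by_cases hq : q ∈ Q
  · rw [uu_of_mem Q hq, MonoidAlgebra.single_mul_single, mul_one]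
    have h1 : deltaQ K Q ⟨q, hq⟩ * deltaQ K Q ⟨q, hq⟩ = 1 := by
      unfold deltaQ
      rw [Prod.mk_mul_mk, one_mul, ← Pi.mulSingle_mul]
      have h2 : (Multiplicative.ofAdd (1 : ZMod 2)) * Multiplicative.ofAdd 1 = 1 := by decide
      rw [h2, Pi.mulSingle_one]
      rfl
    rw [h1]
    rfl
  · rw [uu, dif_neg hq, one_mul]

theorem aug_uu (q : ℕ) : aug k (C2Q K Q) (uu K k Q q) = 1 := by
  by_cases hq : q ∈ Q
  · rw [uu_of_mem Q hq, aug_single]
  · rw [uu, dif_neg hq, map_one]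

end chars

/-! ### Units -/

section unit

variable {K : Type} [Field K] [NumberField K] {N : ℕ} {w : 𝓞 K} (h : QuadData K N w)
  {k : Type} [Field k] [CharP k 2] (η : ClassGroup (𝓞 K) →* kˣ) (Q : Finset ℕ)

include h

/-- `t_r` is a unit if `r` is split and `η` is nontrivial at `r`. -/
theorem isUnit_th {r : ℕ} (hr : r.Prime) (hr2 : ¬ r ∣ 2 * N)
    (hsq : IsSquare ((-(N : ℤ) : ℤ) : ZMod r)) {P : (Ideal (𝓞 K))⁰}
    (hPn : absNorm (P : Ideal (𝓞 K)) = r) (hP : (P : Ideal (𝓞 K)).IsPrime)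
    (hη : η (ClassGroup.mk0 P) ≠ 1) : IsUnit (th (psi η Q) r) := by
  obtain ⟨P1, P2, hP1, hP2, -, hN1, hN2, hmul, ht, -⟩ :=
    H22.Th.tc_split_prime h.N_pos (H80.Th.finrank_int h) h.sq h.exists_int hr hr2 hsq
      (H22.Th.cg (psi η Q))
  have hne : ∀ {I : Ideal (𝓞 K)}, absNorm I = r → I ∈ (Ideal (𝓞 K))⁰ := by
    intro I hI
    rw [mem_nonZeroDivisors_iff_ne_zero]
    rintro rfl
    rw [map_zero] at hI
    exact hr.pos.ne hI
  have hm1 := hne hN1
  have hm2 := hne hN2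
  refine isUnit_of_aug_ne_zero (pow_two_C2Q K Q) ?_
  rw [show th (psi η Q) r = H22.Th.tc (H22.Th.cg (psi η Q)) r from rfl, ht, map_add,
    H22.Th.cg_mk0 _ hm1, H22.Th.cg_mk0 _ hm2, aug_psi, aug_psi]
  set a : k := ((η (ClassGroup.mk0 ⟨P1, hm1⟩) : kˣ) : k) with ha
  set a' : k := ((η (ClassGroup.mk0 ⟨P2, hm2⟩) : kˣ) : k) with ha'
  have hab : a * a' = 1 := by
    rw [ha, ha', ← Units.val_mul, ← map_mul, ← map_mul]
    have h1 : ClassGroup.mk0 ((⟨P1, hm1⟩ : (Ideal (𝓞 K))⁰) * ⟨P2, hm2⟩) = 1 := by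
      rw [ClassGroup.mk0_eq_one_iff]
      exact ⟨⟨(r : 𝓞 K), hmul⟩⟩
    rw [h1, map_one, Units.val_one]
  intro h0
  have h2 : (2 : k) = 0 := CharP.cast_eq_zero k 2
  have ha1 : a = 1 := by
    have h3 : (a - 1) ^ 2 = 0 := by
      linear_combination a * h0 - hab - a * h2
    exact sub_eq_zero.mp (pow_eq_zero_iff two_ne_zero |>.mp h3)
  have ha1' : a' = 1 := by rw [ha1, one_mul] at hab; exact hab
  have hmem : (r : 𝓞 K) ∈ (P : Ideal (𝓞 K)) := by
    rw [← hPn]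
    exact absNorm_mem _
  apply hη
  rcases eq_or_eq hP hP1 hP2 hr hmul hmem with h3 | h3
  · have h4 : P = ⟨P1, hm1⟩ := Subtype.ext h3
    rw [h4]
    exact Units.ext ha1
  · have h4 : P = ⟨P2, hm2⟩ := Subtype.ext h3
    rw [h4]
    exact Units.ext ha1'

omit h in
theorem isUnit_one_add {b : ClassGroup (𝓞 K)} (hb : η b ≠ 1) {x : BB K k Q}
    (hx : aug k (C2Q K Q) x = 1) : IsUnit (1 + psi η Q b * x) := by
  refine isUnit_of_aug_ne_zero (pow_two_C2Q K Q) ?_
  rw [map_add, map_one, map_mul, hx, mul_one, aug_psi]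
  intro h0
  have h2 : (2 : k) = 0 := CharP.cast_eq_zero k 2
  apply hb
  apply Units.ext
  rw [Units.val_one]
  linear_combination h0 - h2

end unit

/-! ### The theorem -/

/-- **Theorem A'** (Hecke algebra over `ℤ`). -/
theorem exists_theta_hom (k : Type) [Field k] [CharP k 2] {K : Type} [Field K] [NumberField K]
    {N : ℕ} {w : 𝓞 K} (h : QuadData K N w) (hN2 : 2 < N) (Q : Finset ℕ)
    (hQ : ∀ q ∈ Q, q.Prime ∧ ¬ q ∣ N ∧ ¬ IsSquare ((-(N : ℤ) : ℤ) : ZMod q))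
    (L : ℕ) [NeZero L] (hL : L = N * ∏ q ∈ Q, q) (η : ClassGroup (𝓞 K) →* kˣ) (hη : η ≠ 1)
    (hη3 : ∀ c, η c ^ 3 = 1) :
    ∃ Ψ : heckeAlgebra L 2 {v : ℕ | v ∣ N} →+* MonoidAlgebra k (C2Q K Q),
      (∀ (ℓ : ℕ) (hℓ : ℓ.Prime) (hℓL : ¬ ℓ ∣ L) (hS : ℓ ∉ {v : ℕ | v ∣ N}),
        Ψ (heckeAlgebra.T hℓ hℓL hS) = ∑ P ∈ primesOver K ℓ,
          MonoidAlgebra.single ((QuotientGroup.mk (cls K P) : C2' K),
            (1 : {q // q ∈ Q} → Multiplicative (ZMod 2))) ((η (cls K P) : kˣ) : k)) ∧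
      (∀ (q : ℕ) (hqQ : q ∈ Q) (hq : q.Prime) (hqL : q ∣ L) (hS : q ∉ {v : ℕ | v ∣ N}),
        Ψ (heckeAlgebra.U hq hqL hS) = MonoidAlgebra.single (deltaQ K Q ⟨q, hqQ⟩) 1) ∧
      ∀ t ∈ ann L {v : ℕ | v ∣ N} (X2 L (insert 2 (↑Q : Set ℕ))), Ψ t = 0 := by
  classical
  subst hL
  have h2B : (2 : BB K k Q) = 0 := CharP.cast_eq_zero (BB K k Q) 2
  set Qn := ∏ q ∈ Q, q with hQn
  have hdvd : ∀ q : ℕ, q.Prime → q ∣ Qn → q ∈ Q := by
    intro q hq hqd
    obtain ⟨q', hq', hqq'⟩ := (hq.prime.dvd_finset_prod_iff _).mp hqd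
    rwa [(Nat.prime_dvd_prime_iff_eq hq (hQ q' hq').1).mp hqq']
  have hQsq : Squarefree Qn := by
    have hind : ∀ s : Finset ℕ, s ⊆ Q → Squarefree (∏ q ∈ s, q) := by
      intro s
      induction s using Finset.induction_on with
      | empty => intro _; rw [Finset.prod_empty]; exact squarefree_one
      | insert q s hqs ih =>
        intro hs
        have hq := (hQ q (hs (Finset.mem_insert_self q s))).1
        rw [Finset.prod_insert hqs, Nat.squarefree_mul_iff]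
        refine ⟨Nat.Coprime.prod_right fun q' hq' => ?_, hq.prime.squarefree,
          ih fun x hx => hs (Finset.mem_insert_of_mem hx)⟩
        refine (Nat.coprime_primes hq (hQ q' (hs (Finset.mem_insert_of_mem hq'))).1).mpr ?_
        rintro rfl
        exact hqs hq'
    exact hind Q subset_rfl
  have hodd : Odd Qn := by
    rw [← Nat.not_even_iff_odd, even_iff_two_dvd]
    intro h2
    exact (hQ 2 (hdvd 2 Nat.prime_two h2)).2.1 h.even
  -- the ideal `𝔟`
  obtain ⟨b, hb, hb8, hηb⟩ := H65Th.exists_B0 h hN2 η hη hη3 Qn hodd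
  set b0 : (Ideal (𝓞 K))⁰ := ⟨b, mem_nonZeroDivisors_iff_ne_zero.2 hb⟩ with hb0
  choose I hI using (ClassGroup.mk0_surjective (R := 𝓞 K))
  have hg : Good N I (fun A => I A * b0) b0 Qn :=
    { mk_I := hI
      mk_J := fun A => by rw [map_mul, hI]
      mod_eight := hb8
      sqf := hQsq
      inert := fun q hq hqd => (hQ q (hdvd q hq hqd)).2 }
  -- the auxiliary prime
  obtain ⟨r, hr, hr2, hrsq, P, hPn, hP, hηP⟩ := exists_split_prime h η hη hη3
  have hrN : ¬ r ∣ N := fun h => hr2 (h.mul_left 2)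
  have hrQ : ¬ r ∣ Qn := fun h => (hQ r (hdvd r hr h)).2.2 hrsq
  have hrM : ¬ r ∣ N * Qn := fun h => ((Nat.Prime.dvd_mul hr).mp h).elim hrN hrQ
  set ψ := psi η Q with hψ
  set F : ℕ → BB K k Q := Fn ψ I (fun A => I A * b0) Qn r with hF
  have hFeq : ∀ n, F n = th ψ r * Dn ψ (ClassGroup.mk0 b0) Qn n :=
    Fn_eq h ψ I _ Qn r h2B _ hg.mk_I hg.mk_J hodd hr hrN hrQ
  have hunit : IsUnit (th ψ r) := isUnit_th h η Q hr hr2 hrsq hPn hP hηP
  set V : Set ℕ := insert 2 (↑Q : Set ℕ) with hV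
  have hV' : ∀ v ∈ V, v = 2 ∨ v ∣ Qn := by
    rintro v (rfl | hv)
    · exact Or.inl rfl
    · exact Or.inr (Finset.dvd_prod_of_mem _ hv)
  have hFadm : F ∈ Adm (N * Qn) {v : ℕ | v ∣ N} (BB K k Q) (X2 (N * Qn) V) :=
    Fn_mem_Adm h ψ hg hr hrM hV'
  set l := Q.toList with hl
  have hlp : ∀ q ∈ l, q.Prime := fun q hq => (hQ q (Finset.mem_toList.mp hq)).1
  set G := proj (N * Qn) (uu K k Q) l F with hG
  have hGadm : G ∈ Adm (N * Qn) {v : ℕ | v ∣ N} (BB K k Q) (X2 (N * Qn) V) :=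
    proj_mem_Adm _ _ hlp hFadm
  -- eigenvalues
  set e : ℕ → BB K k Q := fun ℓ => if ℓ ∈ Q then uu K k Q ℓ else th ψ ℓ with he
  have hGe : ∀ ℓ : ℕ, ℓ.Prime → ℓ ∉ {v : ℕ | v ∣ N} → opS (N * Qn) (BB K k Q) ℓ G = e ℓ • G := by
    intro ℓ hℓ hℓS
    by_cases hℓQ : ℓ ∈ Q
    · rw [he]
      simp only [if_pos hℓQ]
      have hd : ℓ ∣ Qn := Finset.dvd_prod_of_mem _ hℓQ
      refine opS_proj _ _ hlp (Finset.mem_toList.mpr hℓQ) (uu_mul_uu Q ℓ) ?_
      funext n
      rw [opS_of_dvd (hd.mul_left N), opS_of_dvd (hd.mul_left N)]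
      exact Fn_mul_sq h ψ hg hr hrM hℓ hd n
    · rw [he]
      simp only [if_neg hℓQ]
      have hd : ¬ ℓ ∣ Qn := fun hd => hℓQ (hdvd ℓ hℓ hd)
      have hℓN : ¬ ℓ ∣ N := hℓS
      refine opS_proj_of_eigen _ _ hlp hℓ ?_
      funext n
      rw [opS_of_not_dvd fun h => ((Nat.Prime.dvd_mul hℓ).mp h).elim hℓN hd, Pi.smul_apply,
        smul_eq_mul]
      simp only [hFeq]
      have h5 := Dn_hecke h ψ (ClassGroup.mk0 b0) Qn h2B hℓ hℓN hd hodd.pos n
      have hℓodd : Odd ℓ := by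
        refine hℓ.odd_of_ne_two ?_
        rintro rfl
        exact hℓN h.even
      by_cases hdn : ℓ ∣ n
      · rw [if_pos hdn] at h5 ⊢
        rw [odd_cast h2B hℓodd]
        linear_combination (th ψ r) * h5
      · rw [if_neg hdn] at h5 ⊢
        linear_combination (th ψ r) * h5
  -- the first coefficient
  have hlprod : l.prod = Qn := by
    have := Finset.prod_map_toList Q (fun q : ℕ => q)
    rwa [List.map_id'] at this
  have hG1 : G 1 = th ψ r * (1 + ψ (ClassGroup.mk0 b0) * (l.map (uu K k Q)).prod) := by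
    have hlM : ∀ q ∈ l, q ∣ N * Qn := fun q hq =>
      (Finset.dvd_prod_of_mem _ (Finset.mem_toList.mp hq)).mul_left N
    have hnodup : l.Nodup := Finset.nodup_toList Q
    have hD : ∀ d : List ℕ, d.Sublist l → F (1 * d.prod) =
        th ψ r * ((if d.prod = 1 then 1 else 0) + if d.prod = Qn then ψ (ClassGroup.mk0 b0) else 0) := by
      intro d hd
      rw [one_mul, hFeq, Dn_squarefree h ψ _ Qn hQsq (fun q hq hqd => (hg.inert q hq hqd).2)
        (hlprod ▸ hd.prod_dvd_prod)]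
    have hne1 : ∀ d : List ℕ, d.Sublist l → d ≠ [] → d.prod ≠ 1 := by
      intro d hd hd0 hd1
      obtain ⟨q, hq⟩ := List.exists_mem_of_ne_nil d hd0
      have h1 := List.dvd_prod hq
      rw [hd1] at h1
      exact (hlp q (hd.subset hq)).one_lt.ne' (Nat.dvd_one.mp h1)
    have hneQ : ∀ d : List ℕ, d.Sublist l → d ≠ l → d.prod ≠ Qn := by
      intro d hd hdl hdQ
      have h1 : ¬ l ⊆ d := fun hsub => hdl (hd.eq_of_length_le
        ((List.subperm_of_subset hnodup hsub).length_le))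
      obtain ⟨q, hql, hqd⟩ : ∃ q ∈ l, q ∉ d := by
        by_contra hcon
        push Not at hcon
        exact h1 hcon
      have h2 : q ∣ d.prod := by
        rw [hdQ]
        exact Finset.dvd_prod_of_mem _ (Finset.mem_toList.mp hql)
      obtain ⟨q', hq', hqq'⟩ := ((hlp q hql).prime.dvd_prod_iff).mp h2
      rw [(Nat.prime_dvd_prime_iff_eq (hlp q hql) (hlp q' (hd.subset hq'))).mp hqq'] at hqd
      exact hqd hq'
    rw [hG, proj_apply _ _ hlM, sum_sublists hnodup]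
    · by_cases hl0 : l = []
      · rw [if_pos hl0, hD [] (List.nil_sublist _), hl0]
        have hQ1 : Qn = 1 := by rw [← hlprod, hl0]; rfl
        simp [hQ1]
      · have hQ1 : Qn ≠ 1 := by
          rw [← hlprod]
          exact hne1 l (List.Sublist.refl l) hl0
        rw [if_neg hl0, hD [] (List.nil_sublist _), hD l (List.Sublist.refl l)]
        rw [hlprod, if_neg hQ1, if_pos rfl, List.prod_nil, if_pos rfl, if_neg (Ne.symm hQ1),
          List.map_nil, List.prod_nil]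
        ring
    · intro d hd hd0 hdl
      rw [hD d hd, if_neg (hne1 d hd hd0), if_neg (hneQ d hd hdl)]
      ring
  have hG1 : IsUnit (G 1) := by
    rw [hG1]
    refine hunit.mul (isUnit_one_add η Q hηb ?_)
    rw [map_list_prod, List.map_map]
    refine List.prod_eq_one fun x hx => ?_
    obtain ⟨q, -, rfl⟩ := List.mem_map.mp hx
    exact aug_uu Q q
  obtain ⟨Ψ, hT, hU, hann⟩ := exists_ringHom hGadm hGe hG1
  refine ⟨Ψ, ?_, ?_, hann⟩
  · intro ℓ hℓ hℓL hS
    rw [hT ℓ hℓ hℓL hS, he]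
    have hℓQ : ℓ ∉ Q := fun hq => hℓL ((Finset.dvd_prod_of_mem _ hq).mul_left N)
    simp only [if_neg hℓQ]
    rw [H22.Th.th_prime ψ hℓ]
    rfl
  · intro q hqQ hq hqL hS
    rw [hU q hq hqL hS, he]
    simp only [if_pos hqQ]
    exact uu_of_mem Q hqQ

end Fermat.Agent.H79.TA
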