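import Fermat.Agent.H33CaseN
import Fermat.Agent.H30Mid
import Fermat.Agent.H35S35

/-!
# The submodule of the Tate module of `J₀(N)` of classes with trivial reductions (helper79)
-/

set_option autoImplicit false
set_option linter.unusedSectionVars false
set_option linter.style.haveILetI false

noncomputable section

open IsLocalRing ModularCurve AlgebraicCurve
open scoped Pointwise
open Fermat.Agent.H30 Fermat.Agent.H35 Fermat.Agent.H31 Fermat.Agent.H67 Fermat.Agent.H33

namespace Fermat.Agent.H79.V2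

local notation "Qb" => AlgebraicClosure ℚ
local notation "GQ'" => AlgebraicClosure ℚ ≃ₐ[ℚ] AlgebraicClosure ℚ

section RedLemmas

variable {K : Type*} [Field K] {A : ValuationSubring K} {k : Type*} [Field k] {π : A →+* k}
  {f : LaurentSeries K} {r : LaurentSeries k}

/-- semilinear automorphisms which act by `τk` on the residue field. -/
theorem red_map {τ : K →+* K} {τk : k →+* k} (hτ : ∀ a ∈ A, τ a ∈ A)
    (hτπ : ∀ (a : A), π ⟨τ a, hτ a a.2⟩ = τk (π a)) (hf : Red A π f r) :
    Red A π (coeffMap τ f) (coeffMap τk r) := by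
  obtain ⟨hr, c, hc0, hc, rfl⟩ := hf
  let τA : A →+* A := (τ.comp A.subtype).codRestrict A.toSubring (fun a => hτ a a.2)
  have h1 : ∀ g : LaurentSeries A, ((coeffMap τ : LaurentSeries K →+* LaurentSeries K) :
      LaurentSeries K →* LaurentSeries K) (H33.incl A g) = H33.incl A (coeffMap τA g) := by
    intro g
    show coeffMap τ (H33.incl A g) = _
    rw [H33.incl, coeffMap_coeffMap, coeffMap_coeffMap]
    rfl
  have h2 : ∀ g : LaurentSeries A, coeffMap π (coeffMap τA g) =
      ((coeffMap τk : LaurentSeries k →+* LaurentSeries k) :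
        LaurentSeries k →* LaurentSeries k) (coeffMap π g) := by
    intro g
    show _ = coeffMap τk (coeffMap π g)
    rw [coeffMap_coeffMap, coeffMap_coeffMap]
    refine coeffMap_congr (RingHom.ext fun a => ?_) g
    exact hτπ a
  have h4 : ∀ x : LaurentSeries k, x ≠ 0 →
      ((coeffMap τk : LaurentSeries k →+* LaurentSeries k) :
        LaurentSeries k →* LaurentSeries k) x ≠ 0 := fun x hx =>
    (map_ne_zero (coeffMap τk)).mpr hx
  have h3 := map_mem h1 h2 h4 hc
  have h5 := valRes_map h1 h2 h4 hc h3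
  have he : coeffMap τ (cst c * f) = cst (τ c) * coeffMap τ f := by
    rw [map_mul, coeffMap_algebraMap]
  have hm : cst (τ c) * coeffMap τ f ∈ valRing A π := by rw [← he]; exact h3
  refine ⟨(map_ne_zero (coeffMap τk)).mpr hr, τ c, (map_ne_zero τ).mpr hc0, hm, ?_⟩
  refine Eq.trans ?_ h5
  congr 1
  exact Subtype.ext he.symm

variable {p : ℕ} [Fact p.Prime] [NeZero p] [CharP k p]

theorem normOp_cst {ζ : Kˣ} (hζ : IsPrimitiveRoot ζ p) (c : K) :
    normOp p ζ (cst c) = cst (c ^ p) := by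
  apply qExpand_injective p
  rw [qExpand_normOp p hζ, prodTwist, qExpand_algebraMap]
  show _ = cst (c ^ p)
  rw [cst_pow]
  rw [Finset.prod_congr rfl fun i _ => twist_cst (ζ ^ i) c, Finset.prod_const, Finset.card_range]

theorem red_normOp {ζ : Aˣ} (hζ : IsPrimitiveRoot (Units.map (A.subtype : A →* K) ζ) p)
    (hζ1 : Units.map (π : A →* k) ζ = 1) (hf : Red A π f r) :
    Red A π (normOp p (Units.map (A.subtype : A →* K) ζ) f) (coeffMap (frobenius k p) r) := by
  obtain ⟨hr, c, hc0, hc, rfl⟩ := hf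
  have h4 : ∀ x : LaurentSeries k, x ≠ 0 →
      ((coeffMap (frobenius k p) : LaurentSeries k →+* LaurentSeries k) :
        LaurentSeries k →* LaurentSeries k) x ≠ 0 := fun x hx =>
    (map_ne_zero (coeffMap (frobenius k p))).mpr hx
  have h3 := map_mem (normHom_incl hζ) (coeffMap_normOp_res π hζ1) h4 hc
  have h5 := valRes_map (normHom_incl hζ) (coeffMap_normOp_res π hζ1) h4 hc h3
  have he : normHom hζ (cst c * f) = cst (c ^ p) * normOp p (Units.map (A.subtype : A →* K) ζ) f := by
    rw [map_mul]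
    congr 1
    exact normOp_cst hζ c
  have hm : cst (c ^ p) * normOp p (Units.map (A.subtype : A →* K) ζ) f ∈ valRing A π := by
    rw [← he]; exact h3
  refine ⟨(map_ne_zero (coeffMap (frobenius k p))).mpr hr, c ^ p, pow_ne_zero p hc0, hm, ?_⟩
  refine Eq.trans ?_ h5
  congr 1
  exact Subtype.ext he.symm

end RedLemmas

section Frob

variable {A : ValuationSubring Qb} {p : ℕ}

theorem frob_mem {φ : GQ'} (hφ : A.IsFrobeniusAt φ p) {a : Qb} (ha : a ∈ A) : φ a ∈ A := by
  have h := hφ.mem_decompositionSubgroup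
  have h1 : φ • a ∈ φ • A := ValuationSubring.smul_mem_pointwise_smul φ a A ha
  rw [show φ • A = A from h] at h1
  exact h1

theorem frob_res {φ : GQ'} (hφ : A.IsFrobeniusAt φ p) (a : A) :
    residue A ⟨φ a, frob_mem hφ a.2⟩ = residue A a ^ p :=
  hφ.smul_residue_eq (residue A a)

end Frob

section Delta

variable {p : ℕ} [Fact p.Prime] [NeZero p] {A : ValuationSubring Qb} {N : ℕ} [NeZero N]

variable (p A) in
/-- the reductions of the Kummer functions of `x` are `p^n`-th powers -/
def RedPow (n : ℕ) (x : JZero N) : Prop :=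
  ∃ f : H99.FX Qb N, IsKum (p ^ n) x f ∧
    ∃ ω, Red A (residue A) (f : LaurentSeries Qb) (ω ^ p ^ n)

theorem exists_red' (f : H99.FX Qb N) (hf : f ≠ 0) :
    ∃ r, Red A (residue A) (f : LaurentSeries Qb) r := by
  refine exists_red (A := A) (IsLocalRing.residue_surjective (R := A)) N ?_ fun h => hf (Subtype.ext h)
  rw [← H99.FX_eq]
  exact f.2

theorem RedPow.forall {n : ℕ} {x : JZero N} (h : RedPow p A n x) {f : H99.FX Qb N}
    (hf : IsKum (p ^ n) x f) : ∃ ω, Red A (residue A) (f : LaurentSeries Qb) (ω ^ p ^ n) := by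
  have hp : p.Prime := Fact.out
  have hFX : H94.FunField Qb (H99.FX Qb N) := funFieldFX N
  obtain ⟨g, hg, ω, hω⟩ := h
  obtain ⟨h, hh0, hh⟩ := hf.unique (pow_ne_zero n hp.ne_zero) hg
  obtain ⟨η, hη⟩ := exists_red' (A := A) h hh0
  refine ⟨ω * η, ?_⟩
  rw [mul_pow, hh]
  exact hω.mul (hη.pow _)

variable (p A N) in
/-- the submodule of the Tate module of classes with trivial reductions -/
def T0 : Submodule ℤ_[p] (TateMod p (JZero N)) where
  carrier := {x | ∀ n, RedPow p A n (TateMod.proj n x)}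
  zero_mem' n := by
    rw [map_zero]
    exact ⟨1, IsKum.one Qb, 1, by rw [one_pow]; exact red_one⟩
  add_mem' {x y} hx hy n := by
    obtain ⟨f, hf, ω, hω⟩ := hx n
    obtain ⟨g, hg, η, hη⟩ := hy n
    rw [map_add]
    exact ⟨f * g, hf.mul hg, ω * η, by rw [mul_pow]; exact hω.mul hη⟩
  smul_mem' a x hx n := by
    obtain ⟨f, hf, ω, hω⟩ := hx n
    rw [TateMod.proj_smul]
    refine ⟨f ^ _, hf.pow _, ω ^ (PadicInt.toZModPow n a).val, ?_⟩
    rw [← pow_mul, mul_comm, pow_mul]
    exact hω.pow _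

theorem mem_T0 {x : TateMod p (JZero N)} : x ∈ T0 p A N ↔ ∀ n, RedPow p A n (TateMod.proj n x) :=
  Iff.rfl

/-- saturation -/
theorem T0_sat (hA : A.LiesOverPrime p) {x : TateMod p (JZero N)}
    (hx : (p : ℤ_[p]) • x ∈ T0 p A N) : x ∈ T0 p A N := by
  have hp : p.Prime := Fact.out
  have : CharP (ResidueField A) p := H60.charP_residue hp hA
  have : IsAlgClosed (ResidueField A) := H18.isAlgClosed_residueField A
  have : CharP (LaurentSeries (ResidueField A)) p :=
    charP_of_injective_algebraMap (algebraMap (ResidueField A)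
      (LaurentSeries (ResidueField A))).injective p
  intro n
  obtain ⟨f, hf⟩ := IsKum.exists_of_nsmul (TateMod.pow_smul_proj x (n + 1))
  have h1 := hx (n + 1)
  rw [TateMod.natCast_smul, map_nsmul] at h1
  obtain ⟨ω, hω⟩ := h1.forall (hf.pow p)
  obtain ⟨r, hr⟩ := exists_red' (A := A) f hf.ne_zero
  obtain ⟨c, hc0, hc⟩ := hω.unique (IsLocalRing.residue_surjective (R := A)) (hr.pow p)
  obtain ⟨d, hd⟩ := IsAlgClosed.exists_pow_nat_eq c (pow_pos hp.pos (n + 1))
  have h2 : r = (algebraMap (ResidueField A) (LaurentSeries (ResidueField A)) d * ω) ^ p ^ n := by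
    apply frobenius_inj (LaurentSeries (ResidueField A)) p
    rw [frobenius_def, frobenius_def, hc, ← pow_mul, ← pow_succ, mul_pow, ← map_pow, hd]
  refine ⟨f, ?_, _, h2 ▸ hr⟩
  rw [pow_succ] at hf
  have h3 := hf.level
  rwa [TateMod.smul_proj_succ] at h3

/-- inertia acts trivially on `T / T0` -/
theorem T0_iner {σ : GQ'} (hσ : σ ∈ A.inertiaSubgroupIn ℚ) (x : TateMod p (JZero N)) :
    galTate p (JZero N) σ x - x ∈ T0 p A N := by
  intro n
  obtain ⟨f, hf⟩ := IsKum.exists_of_nsmul (TateMod.pow_smul_proj x n)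
  obtain ⟨r, hr⟩ := exists_red' (A := A) f hf.ne_zero
  rw [map_sub, proj_galTate]
  refine ⟨_, (hf.smul (arithmeticGalois (modularFunctionFieldFull N) σ)).div hf, 1, ?_⟩
  have h1 : Red A (residue A) (coeffMap (σ : Qb →+* Qb) (f : LaurentSeries Qb)) r :=
    hr.map (fun a ha => inertia_mem hσ ha) (inertia_res hσ)
  have h2 := h1.div hr
  rw [div_self hr.res_ne] at h2
  rw [one_pow]
  exact h2

/-- Kummer functions at level one -/
theorem T0_red {x : TateMod p (JZero N)} (hx : x ∈ T0 p A N) {f : H99.FX Qb N}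
    (hf : IsKum p (TateMod.proj 1 x : JZero N) f) :
    ∃ ω, Red A (residue A) (f : LaurentSeries Qb) (ω ^ p) := by
  have h := (hx 1).forall (f := f) (by rwa [pow_one])
  rwa [pow_one] at h

end Delta

section New

variable {p : ℕ} [Fact p.Prime] [NeZero p] {A : ValuationSubring Qb} {M : ℕ} [NeZero M]
  [NeZero (M * p)]

set_option maxHeartbeats 1600000 in
/-- On classes which are killed by the norm to level `M`, Frobenius is `- w` on `T / T0`. -/
theorem T0_frob (hA : A.LiesOverPrime p) (hpM : ¬ p ∣ M) (w : H99.AL Qb M p) {φ : GQ'}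
    (hφ : A.IsFrobeniusAt φ p) {x y : TateMod p (JZero (M * p))}
    (hx : ∀ n, pushP (heckeAlphaBar Qb M p) (TateMod.proj n x : JZero (M * p)) = 0)
    (hy : ∀ n, TateMod.proj n y = pushP w.W.toAlgHom (TateMod.proj n x : JZero (M * p))) :
    galTate p (JZero (M * p)) φ y + x ∈ T0 p A (M * p) := by
  have hp : p.Prime := Fact.out
  have : CharP (ResidueField A) p := H60.charP_residue hp hA
  have hFX : H94.FunField Qb (H99.FX Qb M) := funFieldFX M
  have hFX' : H94.FunField Qb (H99.FX Qb (M * p)) := funFieldFX (M * p)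
  have hprim : ∃ ζ : Qb, IsPrimitiveRoot ζ p := by
    have : NeZero (p : Qb) := ⟨Nat.cast_ne_zero.mpr hp.ne_zero⟩
    exact ⟨_, (HasEnoughRootsOfUnity.exists_primitiveRoot Qb p).choose_spec⟩
  obtain ⟨ζ, hζ⟩ := hprim
  obtain ⟨ζA, hζA, hζ', hζ1⟩ := exists_unit_of_root hA hζ
  intro n
  obtain ⟨f, hf⟩ := IsKum.exists_of_nsmul (TateMod.pow_smul_proj x n)
  have hwf : IsKum (p ^ n) (TateMod.proj n y : JZero (M * p)) (w.W f) := by
    rw [hy n]; exact hf.atkin w
  obtain ⟨r, hr⟩ := exists_red' (A := A) (w.W f) hwf.ne_zero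
  have hnorm := hf.pushP (heckeAlphaBar Qb M p)
  rw [hx n] at hnorm
  obtain ⟨b, hb0, hb⟩ := hnorm.unique (pow_ne_zero n hp.ne_zero) (IsKum.one Qb)
  rw [one_mul] at hb
  obtain ⟨β, hβ⟩ := exists_red' (A := A) b hb0
  rw [map_add, proj_galTate]
  refine ⟨_, (hwf.smul (arithmeticGalois (modularFunctionFieldFull (M * p)) φ)).mul hf, β, ?_⟩
  have h1 : Red A (residue A) (coeffMap (φ : Qb →+* Qb) (w.W f : LaurentSeries Qb))
      (coeffMap (frobenius (ResidueField A) p) r) :=
    red_map (fun a ha => frob_mem hφ ha) (fun a => frob_res hφ a) hr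
  have h2 : Red A (residue A) (normOp p (Units.map (A.subtype : A →* Qb) ζA)
      (w.W f : LaurentSeries Qb)) (coeffMap (frobenius (ResidueField A) p) r) :=
    red_normOp hζ' hζ1 hr
  have h3 := (hβ.pow (p ^ n)).mul (h1.div h2)
  rw [div_self h1.res_ne, mul_one] at h3
  have h4 : (b : LaurentSeries Qb) ^ p ^ n = (f : LaurentSeries Qb) *
      normOp p (Units.map (A.subtype : A →* Qb) ζA) (w.W f : LaurentSeries Qb) := by
    rw [← coe_normAlong_alpha w hpM hζ' f, hb]
    rfl
  have h5 : (b : LaurentSeries Qb) ^ p ^ n * (coeffMap (φ : Qb →+* Qb) (w.W f : LaurentSeries Qb) /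
      normOp p (Units.map (A.subtype : A →* Qb) ζA) (w.W f : LaurentSeries Qb)) =
      coeffMap (φ : Qb →+* Qb) (w.W f : LaurentSeries Qb) * f := by
    rw [h4]
    have := h2.ne_zero
    field_simp
  rw [h5] at h3
  exact h3

end New

end Fermat.Agent.H79.V2
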