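import Fermat.Agent.H79V2Alg
import Fermat.Agent.H79V2Delta
import Fermat.Agent.H54Frobenius

/-!
# M8Ram 2: the type at `2 ∥ L` of a two-adic representation (helper79)

The functional: either a functional on the Tate module which vanishes on the submodule `T₀` of
classes with trivial reductions is nonzero on the realisation, or helper33's `case_N` shows that
inertia acts trivially on the residual representation.
-/

set_option autoImplicit false
set_option linter.unusedSectionVars false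
set_option linter.style.haveILetI false

noncomputable section

open TensorProduct IsLocalRing Matrix ModularCurve AlgebraicCurve
open Fermat.Agent.H30 Fermat.Agent.H35 Fermat.Agent.H31 Fermat.Agent.H67 Fermat.Agent.H33

namespace Fermat.Agent.H79.V2

open Fermat.Agent.H53 (M2 MCont mapMat)

local notation "Qb" => AlgebraicClosure ℚ

/-- The facts used about the submodule of classes with trivial reductions. -/
structure DeltaFacts (p M : ℕ) [Fact p.Prime] [NeZero M] [NeZero p] [NeZero (M * p)]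
    (hc : M.Coprime p) (A : ValuationSubring Qb)
    (T₀ : Submodule ℤ_[p] (TateMod p (JZero (M * p)))) : Prop where
  sat : ∀ x, (p : ℤ_[p]) • x ∈ T₀ → x ∈ T₀
  iner : ∀ σ ∈ A.inertiaSubgroupIn ℚ, ∀ x, galTate p (JZero (M * p)) σ x - x ∈ T₀
  frob : ∀ φ : GQ, A.IsFrobeniusAt φ p → ∀ (h : M * 1 ∣ M * p) (x : TateMod p (JZero (M * p))),
    tateMap (degPush (M := M) (N := M * p) 1 h) x = 0 →
      galTate p (JZero (M * p)) φ (tateMap (wJ (R := M * p) M p rfl hc) x) + x ∈ T₀
  red : ∀ x ∈ T₀, ∀ f : H99.FX Qb (M * p), IsKum p (TateMod.proj 1 x : JZero (M * p)) f →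
    ∃ ω, Red A (IsLocalRing.residue A) (f : LaurentSeries Qb) (ω ^ p)

section AL

variable {p M : ℕ} [NeZero M] [NeZero p] [NeZero (M * p)]

/-- the Atkin–Lehner automorphism underlying `wJ` -/
def alOf (hc : M.Coprime p) : H99.AL Qb M p where
  W := atkin (L := Qb) embQbar M p rfl hc
  invol := (isAL_atkin embQbar M p rfl hc).involutive rfl hc
  alpha x := by
    rw [alpha_eq_dg, beta_eq_dg]
    exact AlgHom.congr_fun ((isAL_atkin embQbar M p rfl hc).comp_dg_one hc (by simp)
      (dvd_refl _)) x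
  beta x := by
    rw [alpha_eq_dg, beta_eq_dg]
    exact AlgHom.congr_fun ((isAL_atkin embQbar M p rfl hc).comp_dg_Q hc (by simp)
      (dvd_refl _)) x

end AL

section Facts

variable {p M : ℕ} [Fact p.Prime] [NeZero M] [NeZero p] [NeZero (M * p)]

theorem deltaFacts {A : ValuationSubring Qb} (hA : A.LiesOverPrime p) (hpM : ¬ p ∣ M)
    (hc : M.Coprime p) : DeltaFacts p M hc A (T0 p A (M * p)) where
  sat x := T0_sat hA
  iner σ hσ x := T0_iner hσ x
  frob φ hφ h x hx := by
    refine T0_frob hA hpM (alOf hc) hφ (fun n => ?_) fun n => rfl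
    have h2 := congrArg (TateMod.proj n) hx
    rw [proj_tateMap, map_zero] at h2
    rw [alpha_eq_dg]
    exact h2
  red x hx f hf := T0_red hx hf

end Facts

section Main

variable {p M : ℕ} [Fact p.Prime] [NeZero M] [NeZero p] [NeZero (M * p)]
  {hc : M.Coprime p} {A : ValuationSubring Qb} {T₀ : Submodule ℤ_[p] (TateMod p (JZero (M * p)))}

set_option maxHeartbeats 1600000 in
/-- Case B: if all coordinates of a realisation have trivial reductions then inertia acts on the
first level through the cyclotomic character. -/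
theorem smul_proj_one (hA : A.LiesOverPrime p) (hpM : ¬ p ∣ M) (D : DeltaFacts p M hc A T₀)
    (hSS : SS2p p M A (alOf hc)) (hfinJ : {x : JZero (M * p) | p • x = 0}.Finite)
    {O : Type*} [CommRing O] [Algebra ℤ_[p] O] {ι : Type*} (b : Module.Basis ι ℤ_[p] O)
    {V : Type*} [AddCommGroup V] [Module O V] (Φ : V →ₗ[O] O ⊗[ℤ_[p]] TateMod p (JZero (M * p)))
    (R : GQ → V → V)
    (hgal : ∀ g x, Φ (R g x) = (galTate p (JZero (M * p)) g).baseChange O (Φ x))
    (hpush : ∀ (h : M * 1 ∣ M * p) x,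
      (tateMap (degPush (M := M) (N := M * p) 1 h)).baseChange O (Φ x) = 0)
    {s : O} (hw : ∀ x, (tateMap (wJ (R := M * p) M p rfl hc)).baseChange O (Φ x) = s • Φ x)
    (hB : ∀ x i, co b i (Φ x) ∈ T₀)
    {ζ : Qb} (hζ : IsPrimitiveRoot ζ p) {σ : GQ} (hσ : σ ∈ A.inertiaSubgroupIn ℚ) {a : ℕ}
    (hσζ : σ ζ = ζ ^ a) (x : V) (i : ι) :
    σ • TateMod.proj 1 (co b i (Φ x)) = a • TateMod.proj 1 (co b i (Φ x)) := by
  have hp : p.Prime := Fact.out
  let S : Set (TateMod p (JZero (M * p))) := {t | ∃ x i, t = co b i (Φ x)}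
  let T' : AddSubgroup (TateMod p (JZero (M * p))) := AddSubgroup.closure S
  have hT0 : ∀ t ∈ T', t ∈ T₀ := by
    intro t ht
    have h1 : T' ≤ T₀.toAddSubgroup := (AddSubgroup.closure_le _).mpr (by
      rintro _ ⟨x, i, rfl⟩
      exact hB x i)
    exact h1 ht
  have hTg : ∀ g : GQ, ∀ t ∈ T', galTate p (JZero (M * p)) g t ∈ T' := by
    intro g t ht
    have h1 : T' ≤ T'.comap (galTate p (JZero (M * p)) g).toAddMonoidHom :=
      (AddSubgroup.closure_le _).mpr (by
        rintro _ ⟨x, i, rfl⟩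
        refine AddSubgroup.subset_closure ⟨R g x, i, ?_⟩
        rw [hgal, co_baseChange]
        rfl)
    exact h1 ht
  have hTw : ∀ t ∈ T', tateMap (wJ (R := M * p) M p rfl hc) t ∈ T' := by
    intro t ht
    have h1 : T' ≤ T'.comap (tateMap (p := p) (wJ (R := M * p) M p rfl hc)).toAddMonoidHom :=
      (AddSubgroup.closure_le _).mpr (by
        rintro _ ⟨x, i, rfl⟩
        refine AddSubgroup.subset_closure ⟨s • x, i, ?_⟩
        rw [map_smul, ← hw, co_baseChange]
        rfl)
    exact h1 ht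
  have h1p : M * 1 ∣ M * p := mul_dvd_mul_left M (one_dvd p)
  have hTp : ∀ t ∈ T', tateMap (degPush (M := M) (N := M * p) 1 h1p) t = 0 := by
    intro t ht
    have h1 : T' ≤ (tateMap (p := p) (degPush (M := M) (N := M * p) 1 h1p)).toAddMonoidHom.ker :=
      (AddSubgroup.closure_le _).mpr (by
        rintro _ ⟨x, i, rfl⟩
        show tateMap (degPush (M := M) (N := M * p) 1 h1p) (co b i (Φ x)) = 0
        rw [← co_baseChange, hpush, map_zero])
    exact h1 ht
  let W : AddSubgroup (JZero (M * p)) := T'.map (TateMod.proj 1)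
  have hpW : ∀ x ∈ W, p • x = 0 := by
    rintro _ ⟨t, -, rfl⟩
    have := TateMod.pow_smul_proj t 1
    rwa [pow_one] at this
  have hfin : Finite W := by
    exact (hfinJ.subset fun x hx => hpW x hx).to_subtype
  refine case_N (W := W) hA hpM (alOf hc) hSS hfin hpW ?_ ?_ ?_ ?_ hζ hσ
    hσζ ⟨_, AddSubgroup.subset_closure ⟨x, i, rfl⟩, rfl⟩
  · rintro g - _ ⟨t, ht, rfl⟩
    exact ⟨_, hTg g t ht, proj_galTate g t 1⟩
  · rintro _ ⟨t, ht, rfl⟩
    exact ⟨_, hTw t ht, proj_tateMap _ t 1⟩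
  · rintro _ ⟨t, ht, rfl⟩
    have h2 := congrArg (TateMod.proj 1) (hTp t ht)
    rw [proj_tateMap, map_zero] at h2
    rw [alpha_eq_dg]
    exact h2
  · rintro _ ⟨t, ht, rfl⟩ f hf
    exact D.red t (hT0 t ht) f hf

end Main

section Two

variable {M : ℕ} [NeZero M] [NeZero (M * 2)] {hc : M.Coprime 2} {A : ValuationSubring Qb}
  [Fact (Nat.Prime 2)]
  {T₀ : Submodule ℤ_[2] (TateMod 2 (JZero (M * 2)))}

set_option maxHeartbeats 1600000 in
/-- The functional. -/
theorem exists_l (hA : A.LiesOverPrime 2) (h2M : ¬ 2 ∣ M) (D : DeltaFacts 2 M hc A T₀)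
    (hSS : SS2p 2 M A (alOf hc)) (hfin : {x : JZero (M * 2) | 2 • x = 0}.Finite)
    {O : Type} [CommRing O] [IsDomain O] [IsLocalRing O] [Algebra ℤ_[2] O]
    [Module.Finite ℤ_[2] O] [Module.Free ℤ_[2] O] (h2O : (2 : O) ∈ maximalIdeal O)
    {r : GQ →* M2 O}
    (Φ : (Fin 2 → O) →ₗ[O] O ⊗[ℤ_[2]] TateMod 2 (JZero (M * 2)))
    (hsat : ∀ x, Φ x ∈ (maximalIdeal O • ⊤ : Submodule O (O ⊗[ℤ_[2]] TateMod 2 (JZero (M * 2)))) →
        ∀ i, x i ∈ maximalIdeal O)
    (hgal : ∀ (g : GQ) x, Φ ((r g).mulVec x) =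
        (galTate 2 (JZero (M * 2)) g).baseChange O (Φ x))
    (hpush : ∀ (h : M * 1 ∣ M * 2) x,
      (tateMap (degPush (M := M) (N := M * 2) 1 h)).baseChange O (Φ x) = 0)
    {s : ℤ} (hs : s = 1 ∨ s = -1)
    (hw : ∀ x, (tateMap (wJ (R := M * 2) M 2 rfl hc)).baseChange O (Φ x) = ((-s : ℤ) : O) • Φ x)
    (hram : ∃ σ ∈ A.inertiaSubgroupIn ℚ, mapMat (residue O) r σ ≠ 1) :
    ∃ l : (Fin 2 → O) →ₗ[O] O, l ≠ 0 ∧
      (∀ σ ∈ A.inertiaSubgroupIn ℚ, ∀ x, l (r σ *ᵥ x) = l x) ∧
      ∃ φ : GQ, A.IsFrobeniusAt φ 2 ∧ ∀ x, l (r φ *ᵥ x) = ((s : ℤ) : O) * l x := by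
  classical
  haveI := TateMod.finite_of_finite_torsion (p := 2) (J := JZero (M * 2)) hfin
  let b := Module.Free.chooseBasis ℤ_[2] O
  rcases dichotomy b T₀ D.sat Φ with ⟨c, hc0, x₀, hx₀⟩ | hB
  · let e := TensorProduct.AlgebraTensorModule.rid ℤ_[2] O O
    refine ⟨e.toLinearMap ∘ₗ c.baseChange O ∘ₗ Φ, ?_, ?_, ?_⟩
    · intro h0
      apply hx₀
      have h1 := LinearMap.congr_fun h0 x₀
      simp only [LinearMap.comp_apply, LinearMap.zero_apply, LinearEquiv.coe_coe] at h1
      exact e.map_eq_zero_iff.mp h1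
    · intro σ hσ x
      have h1 : c ∘ₗ galTate 2 (JZero (M * 2)) σ = c := LinearMap.ext fun t => by
        have h2 := hc0 _ (D.iner σ hσ t)
        rw [map_sub, sub_eq_zero] at h2
        exact h2
      simp only [LinearMap.comp_apply, LinearEquiv.coe_coe]
      rw [hgal, ← LinearMap.comp_apply, ← LinearMap.baseChange_comp, h1]
    · obtain ⟨φ, hφ⟩ := H54.exists_isFrobeniusAt Nat.prime_two hA
      refine ⟨φ, hφ, fun x => ?_⟩
      have h1p : M * 1 ∣ M * 2 := mul_dvd_mul_left M (one_dvd 2)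
      have h1 := baseChange_rel b c (galTate 2 (JZero (M * 2)) φ)
        (tateMap (wJ (R := M * 2) M 2 rfl hc)) (tateMap (degPush (M := M) (N := M * 2) 1 h1p))
        (fun t ht => by
          have h2 := hc0 _ (D.frob φ hφ h1p t ht)
          rw [map_add] at h2
          exact eq_neg_of_add_eq_zero_left h2) (hpush h1p x)
      rw [hw, map_smul, map_smul, ← hgal] at h1
      have h2 := congrArg e h1
      rw [map_smul, map_neg, smul_eq_mul] at h2
      simp only [LinearMap.comp_apply, LinearEquiv.coe_coe]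
      rcases hs with rfl | rfl
      · simp only [Int.cast_neg, Int.cast_one, neg_mul, one_mul, neg_inj] at h2 ⊢
        exact h2
      · simp only [neg_neg, Int.cast_neg, Int.cast_one, one_mul, neg_mul] at h2 ⊢
        exact h2
  · exfalso
    obtain ⟨σ, hσ, hne⟩ := hram
    apply hne
    have hζ : IsPrimitiveRoot (-1 : Qb) 2 := IsPrimitiveRoot.neg_one 0 (by norm_num)
    have hσζ : σ (-1 : Qb) = (-1) ^ 1 := by rw [map_neg, map_one, pow_one]
    have h1 : ∀ x, Φ (r σ *ᵥ x - x) ∈
        (maximalIdeal O • ⊤ : Submodule O (O ⊗[ℤ_[2]] TateMod 2 (JZero (M * 2)))) := by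
      intro x
      rw [map_sub, hgal]
      refine sub_mem_of_proj_one b (by simpa using h2O) _ fun i => ?_
      have h2 := smul_proj_one hA h2M D hSS hfin b Φ (fun g x => r g *ᵥ x) hgal hpush hw hB hζ hσ hσζ x i
      rw [map_sub, proj_galTate, h2, one_smul, sub_self]
    ext i k
    have h2 := hsat _ (h1 (Pi.single k 1)) i
    rw [Pi.sub_apply, mulVec_single_one] at h2
    have h3 := (residue_eq_zero_iff _).mpr h2
    rw [map_sub, sub_eq_zero] at h3
    rw [H53.mapMat_apply, ← (show residue O ((1 : M2 O) i k) = (1 : M2 (ResidueField O)) i k by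
      rw [Matrix.one_apply, Matrix.one_apply]; split_ifs <;> simp)]
    refine h3.trans ?_
    congr 1
    rw [Matrix.one_apply, Pi.single_apply]

end Two

end Fermat.Agent.H79.V2
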