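import Mathlib
import Fermat.Agent.H30Mid
import Fermat.Agent.H35S35

/-!
# Coordinates in `O ⊗ T_p J` and functionals (linear algebra for M8Ram 2, helper79)
-/

set_option autoImplicit false
set_option linter.unusedSectionVars false

noncomputable section

open TensorProduct Fermat.Agent.H30 Fermat.Agent.H35 Fermat.Agent.H31

namespace Fermat.Agent.H79.V2

section Coord

variable {Z O : Type*} [CommRing Z] [CommRing O] [Algebra Z O] {T T' : Type*}
  [AddCommGroup T] [Module Z T] [AddCommGroup T'] [Module Z T'] {ι : Type*}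
  (b : Module.Basis ι Z O)

/-- the coordinates of an element of `O ⊗ T` with respect to a basis of `O` -/
def co (i : ι) : O ⊗[Z] T →ₗ[Z] T :=
  (TensorProduct.lid Z T).toLinearMap ∘ₗ (b.coord i).rTensor T

theorem co_tmul (i : ι) (x : O) (t : T) : co b i (x ⊗ₜ[Z] t) = b.coord i x • t := by
  simp [co]

theorem co_baseChange (f : T →ₗ[Z] T') (i : ι) (z : O ⊗[Z] T) :
    co b i (f.baseChange O z) = f (co b i z) := by
  induction z using TensorProduct.induction_on with
  | zero => simp
  | tmul x t => rw [LinearMap.baseChange_tmul, co_tmul, co_tmul, map_smul]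
  | add x y hx hy => rw [map_add, map_add, map_add, map_add, hx, hy]

theorem sum_co [Fintype ι] (z : O ⊗[Z] T) : ∑ i, b i ⊗ₜ[Z] co b i z = z := by
  induction z using TensorProduct.induction_on with
  | zero => simp
  | tmul x t =>
    have h : ∀ i, b i ⊗ₜ[Z] co b i (x ⊗ₜ[Z] t) = (b.repr x i • b i) ⊗ₜ[Z] t := fun i => by
      rw [co_tmul, Module.Basis.coord_apply, TensorProduct.smul_tmul]
    rw [Finset.sum_congr rfl fun i _ => h i, ← TensorProduct.sum_tmul, b.sum_repr]
  | add x y hx hy =>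
    simp only [map_add, TensorProduct.tmul_add, Finset.sum_add_distrib, hx, hy]

theorem ext_co [Fintype ι] {z z' : O ⊗[Z] T} (h : ∀ i, co b i z = co b i z') : z = z' := by
  rw [← sum_co b z, ← sum_co b z']
  exact Finset.sum_congr rfl fun i _ => by rw [h i]

include b in
/-- relations on the kernel of `α` extend to `O ⊗ T`. -/
theorem baseChange_rel [Fintype ι] {T₁ : Type*} [AddCommGroup T₁] [Module Z T₁]
    (c : T →ₗ[Z] T') (φ w : T →ₗ[Z] T) (α : T →ₗ[Z] T₁)
    (h : ∀ t, α t = 0 → c (φ (w t)) = - c t) {z : O ⊗[Z] T} (hα : α.baseChange O z = 0) :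
    c.baseChange O (φ.baseChange O (w.baseChange O z)) = - c.baseChange O z := by
  refine ext_co b fun i => ?_
  rw [co_baseChange, co_baseChange, co_baseChange, map_neg, co_baseChange]
  exact h _ (by rw [← co_baseChange, hα, map_zero])

end Coord

section Tate

variable {p : ℕ} [Fact p.Prime] {J : Type*} [AddCommGroup J]

/-- Functionals vanishing on a saturated submodule separate it from the other points. -/
theorem exists_functional [Module.Finite ℤ_[p] (TateMod p J)]
    (T0 : Submodule ℤ_[p] (TateMod p J)) (hsat : ∀ x, (p : ℤ_[p]) • x ∈ T0 → x ∈ T0)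
    {x : TateMod p J} (hx : x ∉ T0) :
    ∃ c : TateMod p J →ₗ[ℤ_[p]] ℤ_[p], (∀ t ∈ T0, c t = 0) ∧ c x ≠ 0 := by
  have hpow : ∀ (n : ℕ) x, (p : ℤ_[p]) ^ n • x ∈ T0 → x ∈ T0 := by
    intro n
    induction n with
    | zero => intro x h; simpa using h
    | succ n ih => exact fun x h => ih x (hsat _ (by rwa [pow_succ', mul_smul] at h))
  have htf : Module.IsTorsionFree ℤ_[p] (TateMod p J ⧸ T0) :=
    Module.IsTorsionFree.of_smul_eq_zero fun a y h => by
      by_cases ha : a = 0
      · exact Or.inl ha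
      · right
        obtain ⟨y, rfl⟩ := Submodule.mkQ_surjective _ y
        rw [Submodule.mkQ_apply, ← Submodule.Quotient.mk_smul,
          Submodule.Quotient.mk_eq_zero] at h
        rw [Submodule.mkQ_apply, Submodule.Quotient.mk_eq_zero]
        rw [PadicInt.unitCoeff_spec ha, mul_smul] at h
        have h2 := T0.smul_mem (((PadicInt.unitCoeff ha)⁻¹ : ℤ_[p]ˣ) : ℤ_[p]) h
        rw [← mul_smul, Units.inv_mul, one_smul] at h2
        exact hpow _ _ h2
  have hfree : Module.Free ℤ_[p] (TateMod p J ⧸ T0) := Module.free_of_finite_type_torsion_free'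
  have hx' : T0.mkQ x ≠ 0 := by
    rw [Submodule.mkQ_apply, Ne, Submodule.Quotient.mk_eq_zero]
    exact hx
  obtain ⟨d, hd⟩ : ∃ d : Module.Dual ℤ_[p] (TateMod p J ⧸ T0), d (T0.mkQ x) ≠ 0 := by
    by_contra hcon
    push Not at hcon
    exact hx' ((Module.forall_dual_apply_eq_zero_iff ℤ_[p] _).mp hcon)
  refine ⟨d ∘ₗ T0.mkQ, fun t ht => ?_, hd⟩
  have h0 : T0.mkQ t = 0 := by
    rw [Submodule.mkQ_apply, Submodule.Quotient.mk_eq_zero]
    exact ht
  rw [LinearMap.comp_apply, h0, map_zero]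

variable {O : Type*} [CommRing O] [Algebra ℤ_[p] O] {ι : Type*} (b : Module.Basis ι ℤ_[p] O)

/-- **The dichotomy.** -/
theorem dichotomy [Fintype ι] [Module.Finite ℤ_[p] (TateMod p J)]
    (T0 : Submodule ℤ_[p] (TateMod p J)) (hsat : ∀ x, (p : ℤ_[p]) • x ∈ T0 → x ∈ T0)
    {V : Type*} (Φ : V → O ⊗[ℤ_[p]] TateMod p J) :
    (∃ c : TateMod p J →ₗ[ℤ_[p]] ℤ_[p], (∀ t ∈ T0, c t = 0) ∧
      ∃ x, c.baseChange O (Φ x) ≠ 0) ∨ ∀ x i, co b i (Φ x) ∈ T0 := by
  by_contra hcon
  push Not at hcon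
  obtain ⟨h1, x, i, hxi⟩ := hcon
  obtain ⟨c, hc, hcx⟩ := exists_functional T0 hsat hxi
  apply hcx
  rw [← co_baseChange, h1 c hc x, map_zero]

/-- An endomorphism of the Tate module which is trivial on the first level of all coordinates. -/
theorem sub_mem_of_proj_one [Fintype ι] {I : Ideal O} (hpI : (p : O) ∈ I)
    (g : Module.End ℤ_[p] (TateMod p J)) {z : O ⊗[ℤ_[p]] TateMod p J}
    (h : ∀ i, TateMod.proj 1 (g (co b i z) - co b i z) = 0) :
    g.baseChange O z - z ∈ (I • ⊤ : Submodule O (O ⊗[ℤ_[p]] TateMod p J)) := by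
  have h1 : ∀ i, ∃ y : TateMod p J, g (co b i z) - co b i z = (p : ℤ_[p]) ^ 1 • y := fun i =>
    (TateMod.mem_pow_smul_iff 1 _).mpr (h i)
  choose y hy using h1
  have h2 : g.baseChange O z - z = (p : O) • ∑ i, b i ⊗ₜ[ℤ_[p]] y i := by
    refine ext_co b fun i => ?_
    have h3 : (p : O) • ∑ i, b i ⊗ₜ[ℤ_[p]] y i = (p : ℤ_[p]) • ∑ i, b i ⊗ₜ[ℤ_[p]] y i := by
      rw [← algebraMap_smul O (p : ℤ_[p]), map_natCast]
    classical
    rw [map_sub, co_baseChange, hy, pow_one, h3, map_smul, map_sum,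
      Finset.sum_eq_single i]
    · rw [co_tmul, Module.Basis.coord_apply, b.repr_self, Finsupp.single_eq_same, one_smul]
    · intro j _ hj
      rw [co_tmul, Module.Basis.coord_apply, b.repr_self, Finsupp.single_eq_of_ne (Ne.symm hj),
        zero_smul]
    · intro hi
      exact absurd (Finset.mem_univ i) hi
  rw [h2]
  exact Submodule.smul_mem_smul hpI trivial

end Tate

end Fermat.Agent.H79.V2
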