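import Mathlib
import Fermat.Agent.H51QDefs

/-!
# An explicit order in a definite quaternion algebra over `ℚ`

`D = (-N, -b)`, `i² = -N`, `j² = -b`, `b = Q r`, `r = 2ρ+1`, `r + Q = 4k`, `t² + N = r s`.
The order `R = ℤ ⊕ ℤ i ⊕ ℤ (1+j)/2 ⊕ ℤ ((t+i)/2)(1+j/r)` has reduced discriminant `N Q`.
-/

set_option autoImplicit false

noncomputable section

open scoped Quaternion

namespace Fermat.Agent.H7

/-- parameters of the order -/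
structure QP where
  ρ : ℤ
  t : ℤ
  s : ℤ
  k : ℤ
  hr : 0 < 2 * ρ + 1
  hN : 0 < (2 * ρ + 1) * s - t ^ 2
  hQ : 0 < 4 * k - (2 * ρ + 1)

namespace QP

variable (X : QP)

/-- the auxiliary number `r` -/
def r : ℤ := 2 * X.ρ + 1
/-- `N` -/
def N : ℤ := X.r * X.s - X.t ^ 2
/-- `Q` -/
def Q : ℤ := 4 * X.k - X.r
/-- `b` -/
def b : ℤ := X.Q * X.r

theorem r_pos : 0 < X.r := X.hr
theorem N_pos : 0 < X.N := X.hN
theorem Q_pos : 0 < X.Q := X.hQ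
theorem b_pos : 0 < X.b := mul_pos X.Q_pos X.r_pos

theorem r_ne : (X.r : ℚ) ≠ 0 := by exact_mod_cast X.r_pos.ne'
theorem N_ne : (X.N : ℚ) ≠ 0 := by exact_mod_cast X.N_pos.ne'
theorem Q_ne : (X.Q : ℚ) ≠ 0 := by exact_mod_cast X.Q_pos.ne'
theorem b_ne : (X.b : ℚ) ≠ 0 := by exact_mod_cast X.b_pos.ne'

/-- the quaternion algebra -/
abbrev D : Type := QuaternionAlgebra ℚ (-(X.N : ℚ)) 0 (-(X.b : ℚ))

/-- reduced norm -/
def nrd (y : X.D) : ℚ := y.re ^ 2 + X.N * y.imI ^ 2 + X.b * y.imJ ^ 2 + X.N * X.b * y.imK ^ 2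

variable {X}

@[simp] theorem D.re_mul (y z : X.D) : (y * z).re = y.re * z.re - X.N * y.imI * z.imI
    - X.b * y.imJ * z.imJ - X.N * X.b * y.imK * z.imK := by
  rw [QuaternionAlgebra.re_mul]; ring

@[simp] theorem D.imI_mul (y z : X.D) : (y * z).imI = y.re * z.imI + y.imI * z.re
    + X.b * y.imJ * z.imK - X.b * y.imK * z.imJ := by
  rw [QuaternionAlgebra.imI_mul]; ring

@[simp] theorem D.imJ_mul (y z : X.D) : (y * z).imJ = y.re * z.imJ + y.imJ * z.re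
    - X.N * y.imI * z.imK + X.N * y.imK * z.imI := by
  rw [QuaternionAlgebra.imJ_mul]; ring

@[simp] theorem D.imK_mul (y z : X.D) : (y * z).imK = y.re * z.imK + y.imK * z.re
    + y.imI * z.imJ - y.imJ * z.imI := by
  rw [QuaternionAlgebra.imK_mul]; ring

theorem nrd_mul (y z : X.D) : X.nrd (y * z) = X.nrd y * X.nrd z := by
  simp only [nrd, D.re_mul, D.imI_mul, D.imJ_mul, D.imK_mul]
  ring

theorem nrd_one : X.nrd 1 = 1 := by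
  simp [nrd]

theorem nrd_zero : X.nrd 0 = 0 := by
  simp [nrd]

theorem nrd_nonneg (y : X.D) : 0 ≤ X.nrd y := by
  have h1 : (0 : ℚ) < X.N := by exact_mod_cast X.N_pos
  have h2 : (0 : ℚ) < X.b := by exact_mod_cast X.b_pos
  unfold nrd
  positivity

theorem nrd_eq_zero {y : X.D} : X.nrd y = 0 ↔ y = 0 := by
  have h1 : (0 : ℚ) < X.N := by exact_mod_cast X.N_pos
  have h2 : (0 : ℚ) < X.b := by exact_mod_cast X.b_pos
  constructor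
  · intro h
    unfold nrd at h
    have a0 : 0 ≤ y.re ^ 2 := by positivity
    have a1 : 0 ≤ X.N * y.imI ^ 2 := by positivity
    have a2 : 0 ≤ X.b * y.imJ ^ 2 := by positivity
    have a3 : 0 ≤ X.N * X.b * y.imK ^ 2 := by positivity
    have e0 : y.re ^ 2 = 0 := by linarith
    have e1 : X.N * y.imI ^ 2 = 0 := by linarith
    have e2 : X.b * y.imJ ^ 2 = 0 := by linarith
    have e3 : X.N * X.b * y.imK ^ 2 = 0 := by linarith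
    refine QuaternionAlgebra.ext ?_ ?_ ?_ ?_
    · simpa using e0
    · simpa [h1.ne'] using e1
    · simpa [h2.ne'] using e2
    · simpa [h1.ne', h2.ne'] using e3
  · rintro rfl
    simp [nrd]

theorem star_def (y : X.D) : star y = ⟨y.re, -y.imI, -y.imJ, -y.imK⟩ := by
  ext <;> simp

theorem mul_star (y : X.D) : y * star y = algebraMap ℚ X.D (X.nrd y) := by
  rw [star_def]
  refine QuaternionAlgebra.ext ?_ ?_ ?_ ?_
  · rw [D.re_mul]; show _ = X.nrd y; unfold nrd; ring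
  · rw [D.imI_mul]; show _ = (0 : ℚ); ring
  · rw [D.imJ_mul]; show _ = (0 : ℚ); ring
  · rw [D.imK_mul]; show _ = (0 : ℚ); ring

theorem star_mul_self' (y : X.D) : star y * y = algebraMap ℚ X.D (X.nrd y) := by
  rw [star_def]
  refine QuaternionAlgebra.ext ?_ ?_ ?_ ?_
  · rw [D.re_mul]; show _ = X.nrd y; unfold nrd; ring
  · rw [D.imI_mul]; show _ = (0 : ℚ); ring
  · rw [D.imJ_mul]; show _ = (0 : ℚ); ring
  · rw [D.imK_mul]; show _ = (0 : ℚ); ring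

/-- `D` is a division ring -/
instance : DivisionRing X.D where
  inv y := (X.nrd y)⁻¹ • star y
  exists_pair_ne := ⟨0, 1, by
    intro h
    have := congrArg QuaternionAlgebra.re h
    simp at this⟩
  mul_inv_cancel y hy := by
    have h : X.nrd y ≠ 0 := fun h => hy (nrd_eq_zero.mp h)
    rw [mul_smul_comm, mul_star, Algebra.algebraMap_eq_smul_one, smul_smul, inv_mul_cancel₀ h,
      one_smul]
  inv_zero := by simp
  nnqsmul := _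
  nnqsmul_def := fun _ _ => rfl
  qsmul := _
  qsmul_def := fun _ _ => rfl

theorem inv_def (y : X.D) : y⁻¹ = (X.nrd y)⁻¹ • star y := rfl

theorem add_star (y : X.D) : y + star y = algebraMap ℚ X.D (2 * y.re) := by
  rw [star_def]
  refine QuaternionAlgebra.ext ?_ ?_ ?_ ?_
  · show y.re + y.re = 2 * y.re; ring
  · show y.imI + -y.imI = (0 : ℚ); ring
  · show y.imJ + -y.imJ = (0 : ℚ); ring
  · show y.imK + -y.imK = (0 : ℚ); ring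

instance : H51Q.QAlg X.D where
  trd :=
    { toFun := fun y => 2 * y.re
      map_add' := fun y z => by simp [mul_add]
      map_smul' := fun c y => by simp; ring }
  nrd :=
    { toFun := X.nrd
      map_zero' := nrd_zero
      map_one' := nrd_one
      map_mul' := nrd_mul }
  self_add_star := add_star
  self_mul_star := mul_star
  nrd_nonneg := nrd_nonneg

theorem QAlg_nrd (y : X.D) : H51Q.nrd y = X.nrd y := rfl
theorem QAlg_trd (y : X.D) : H51Q.trd y = 2 * y.re := rfl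

/-! ## the order -/

variable (X) in
/-- the element with integral coordinates `m₀, m₁, m₂, m₃` -/
def elt (m₀ m₁ m₂ m₃ : ℤ) : X.D :=
  ⟨m₀ + m₂ / 2 + X.t * m₃ / 2, m₁ + m₃ / 2, m₂ / 2 + X.t * m₃ / (2 * X.r), m₃ / (2 * X.r)⟩

@[simp] theorem elt_re (m₀ m₁ m₂ m₃ : ℤ) : (X.elt m₀ m₁ m₂ m₃).re = m₀ + m₂ / 2 + X.t * m₃ / 2 := rfl
@[simp] theorem elt_imI (m₀ m₁ m₂ m₃ : ℤ) : (X.elt m₀ m₁ m₂ m₃).imI = m₁ + m₃ / 2 := rfl
@[simp] theorem elt_imJ (m₀ m₁ m₂ m₃ : ℤ) :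
    (X.elt m₀ m₁ m₂ m₃).imJ = m₂ / 2 + X.t * m₃ / (2 * X.r) := rfl
@[simp] theorem elt_imK (m₀ m₁ m₂ m₃ : ℤ) : (X.elt m₀ m₁ m₂ m₃).imK = m₃ / (2 * X.r) := rfl

theorem elt_add (a₀ a₁ a₂ a₃ b₀ b₁ b₂ b₃ : ℤ) :
    X.elt a₀ a₁ a₂ a₃ + X.elt b₀ b₁ b₂ b₃ = X.elt (a₀ + b₀) (a₁ + b₁) (a₂ + b₂) (a₃ + b₃) := by
  refine QuaternionAlgebra.ext ?_ ?_ ?_ ?_ <;>
  simp only [QuaternionAlgebra.re_add, QuaternionAlgebra.imI_add, QuaternionAlgebra.imJ_add,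
    QuaternionAlgebra.imK_add, elt_re, elt_imI, elt_imJ, elt_imK] <;> push_cast <;> ring

theorem elt_smul (c a₀ a₁ a₂ a₃ : ℤ) :
    c • X.elt a₀ a₁ a₂ a₃ = X.elt (c * a₀) (c * a₁) (c * a₂) (c * a₃) := by
  refine QuaternionAlgebra.ext ?_ ?_ ?_ ?_
  · show c • (X.elt a₀ a₁ a₂ a₃).re = _
    rw [zsmul_eq_mul]; simp only [elt_re]; push_cast; ring
  · show c • (X.elt a₀ a₁ a₂ a₃).imI = _
    rw [zsmul_eq_mul]; simp only [elt_imI]; push_cast; ring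
  · show c • (X.elt a₀ a₁ a₂ a₃).imJ = _
    rw [zsmul_eq_mul]; simp only [elt_imJ]; push_cast; ring
  · show c • (X.elt a₀ a₁ a₂ a₃).imK = _
    rw [zsmul_eq_mul]; simp only [elt_imK]; push_cast; ring

theorem elt_zero : X.elt 0 0 0 0 = 0 := by
  refine QuaternionAlgebra.ext ?_ ?_ ?_ ?_ <;> simp

theorem elt_one : X.elt 1 0 0 0 = 1 := by
  refine QuaternionAlgebra.ext ?_ ?_ ?_ ?_ <;> simp

theorem elt_inj {a₀ a₁ a₂ a₃ b₀ b₁ b₂ b₃ : ℤ} (h : X.elt a₀ a₁ a₂ a₃ = X.elt b₀ b₁ b₂ b₃) :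
    a₀ = b₀ ∧ a₁ = b₁ ∧ a₂ = b₂ ∧ a₃ = b₃ := by
  have hr := X.r_ne
  have h0 := congrArg QuaternionAlgebra.re h
  have h1 := congrArg QuaternionAlgebra.imI h
  have h2 := congrArg QuaternionAlgebra.imJ h
  have h3 := congrArg QuaternionAlgebra.imK h
  simp only [elt_re, elt_imI, elt_imJ, elt_imK] at h0 h1 h2 h3
  have e3 : (a₃ : ℚ) = b₃ := by
    field_simp at h3
    exact h3
  rw [e3] at h0 h1 h2
  have e2 : (a₂ : ℚ) = b₂ := by linarith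
  have e1 : (a₁ : ℚ) = b₁ := by linarith
  rw [e2] at h0
  have e0 : (a₀ : ℚ) = b₀ := by linarith
  exact ⟨by exact_mod_cast e0, by exact_mod_cast e1, by exact_mod_cast e2, by exact_mod_cast e3⟩

/-- multiplication in coordinates -/
theorem elt_mul (a₀ a₁ a₂ a₃ b₀ b₁ b₂ b₃ : ℤ) :
    X.elt a₀ a₁ a₂ a₃ * X.elt b₀ b₁ b₂ b₃ = X.elt
      (a₀ * b₀ - X.N * a₁ * b₁ - X.ρ * X.t * a₁ * b₂ + X.ρ * X.t * a₂ * b₁
        - (X.k * X.r - X.ρ ^ 2 - X.ρ) * a₂ * b₂ - X.ρ * X.s * a₁ * b₃ + (X.ρ * X.s - X.N) * a₃ * b₁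
        + X.t * (X.ρ - X.k) * a₂ * b₃ - X.k * X.t * a₃ * b₂ - X.s * X.k * a₃ * b₃)
      (a₀ * b₁ + a₁ * b₀ - X.ρ * a₁ * b₂ + (X.ρ + 1) * a₂ * b₁ + X.t * a₃ * b₁ + X.k * a₂ * b₃
        - X.k * a₃ * b₂)
      (a₀ * b₂ + a₂ * b₀ - X.t * a₁ * b₂ + X.t * a₂ * b₁ + a₂ * b₂ - X.s * a₁ * b₃ + X.s * a₃ * b₁
        + X.t * a₂ * b₃)
      (a₀ * b₃ + a₃ * b₀ + X.r * a₁ * b₂ - X.r * a₂ * b₁ + X.t * a₁ * b₃ - X.t * a₃ * b₁
        - X.ρ * a₂ * b₃ + (X.ρ + 1) * a₃ * b₂ + X.t * a₃ * b₃) := by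
  have hr := X.r_ne
  have hr1 : (X.ρ : ℚ) = (X.r - 1) / 2 := by rw [r]; push_cast; ring
  have hN : (X.N : ℚ) = X.r * X.s - X.t ^ 2 := by rw [N]; push_cast; ring
  have hb : (X.b : ℚ) = (4 * X.k - X.r) * X.r := by rw [b, Q]; push_cast; ring
  refine QuaternionAlgebra.ext ?_ ?_ ?_ ?_ <;>
  simp only [D.re_mul, D.imI_mul, D.imJ_mul, D.imK_mul, elt_re, elt_imI, elt_imJ, elt_imK] <;>
  push_cast <;> (try rw [hr1]) <;> (try simp only [hN, hb]) <;> field_simp <;> ring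

/-- the norm form -/
def nrdZ (X : QP) (m₀ m₁ m₂ m₃ : ℤ) : ℤ :=
  m₀ ^ 2 + X.N * m₁ ^ 2 + (X.k * X.r - X.ρ ^ 2 - X.ρ) * m₂ ^ 2 + X.s * X.k * m₃ ^ 2 + m₀ * m₂
    + X.t * m₀ * m₃ + X.N * m₁ * m₃ + X.t * (2 * X.k - X.ρ) * m₂ * m₃

theorem nrd_elt (m₀ m₁ m₂ m₃ : ℤ) : X.nrd (X.elt m₀ m₁ m₂ m₃) = X.nrdZ m₀ m₁ m₂ m₃ := by
  have hr := X.r_ne
  have hr1 : (X.ρ : ℚ) = (X.r - 1) / 2 := by rw [r]; push_cast; ring
  have hN : (X.N : ℚ) = X.r * X.s - X.t ^ 2 := by rw [N]; push_cast; ring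
  have hb : (X.b : ℚ) = (4 * X.k - X.r) * X.r := by rw [b, Q]; push_cast; ring
  simp only [nrd, nrdZ, elt_re, elt_imI, elt_imJ, elt_imK]
  push_cast
  rw [hr1]
  simp only [hN, hb]
  field_simp
  ring

variable (X) in
/-- the order -/
def R : Subring X.D where
  carrier := {y | ∃ m₀ m₁ m₂ m₃ : ℤ, y = X.elt m₀ m₁ m₂ m₃}
  mul_mem' := by
    rintro _ _ ⟨a₀, a₁, a₂, a₃, rfl⟩ ⟨b₀, b₁, b₂, b₃, rfl⟩
    exact ⟨_, _, _, _, elt_mul _ _ _ _ _ _ _ _⟩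
  one_mem' := ⟨1, 0, 0, 0, elt_one.symm⟩
  add_mem' := by
    rintro _ _ ⟨a₀, a₁, a₂, a₃, rfl⟩ ⟨b₀, b₁, b₂, b₃, rfl⟩
    exact ⟨_, _, _, _, elt_add _ _ _ _ _ _ _ _⟩
  zero_mem' := ⟨0, 0, 0, 0, elt_zero.symm⟩
  neg_mem' := by
    rintro _ ⟨a₀, a₁, a₂, a₃, rfl⟩
    refine ⟨-a₀, -a₁, -a₂, -a₃, ?_⟩
    have := elt_smul (X := X) (-1) a₀ a₁ a₂ a₃
    simpa using this

theorem mem_R {y : X.D} : y ∈ X.R ↔ ∃ m₀ m₁ m₂ m₃ : ℤ, y = X.elt m₀ m₁ m₂ m₃ := Iff.rfl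

theorem elt_mem (m₀ m₁ m₂ m₃ : ℤ) : X.elt m₀ m₁ m₂ m₃ ∈ X.R := ⟨_, _, _, _, rfl⟩

variable (X) in
/-- `i = √-N` -/
def i : X.D := X.elt 0 1 0 0

variable (X) in
/-- `j = √-b` -/
def j : X.D := X.elt (-1) 0 2 0

theorem i_mem : X.i ∈ X.R := elt_mem _ _ _ _
theorem j_mem : X.j ∈ X.R := elt_mem _ _ _ _

theorem i_sq : X.i * X.i = -(X.N : X.D) := by
  refine QuaternionAlgebra.ext ?_ ?_ ?_ ?_ <;> simp [i]

theorem j_sq : X.j * X.j = -(X.b : X.D) := by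
  refine QuaternionAlgebra.ext ?_ ?_ ?_ ?_ <;> simp [j]

theorem j_mul_i : X.j * X.i = -(X.i * X.j) := by
  refine QuaternionAlgebra.ext ?_ ?_ ?_ ?_ <;> simp [i, j]

theorem star_elt (m₀ m₁ m₂ m₃ : ℤ) :
    star (X.elt m₀ m₁ m₂ m₃) = X.elt (m₀ + m₂ + X.t * m₃) (-m₁) (-m₂) (-m₃) := by
  rw [star_def]
  refine QuaternionAlgebra.ext ?_ ?_ ?_ ?_
  · show (X.elt m₀ m₁ m₂ m₃).re = _
    simp only [elt_re]; push_cast; ring
  · show -(X.elt m₀ m₁ m₂ m₃).imI = _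
    simp only [elt_imI]; push_cast; ring
  · show -(X.elt m₀ m₁ m₂ m₃).imJ = _
    simp only [elt_imJ]; push_cast; ring
  · show -(X.elt m₀ m₁ m₂ m₃).imK = _
    simp only [elt_imK]; push_cast; ring

theorem star_mem {y : X.D} (hy : y ∈ X.R) : star y ∈ X.R := by
  obtain ⟨m₀, m₁, m₂, m₃, rfl⟩ := hy
  exact ⟨_, _, _, _, star_elt _ _ _ _⟩

end QP

end Fermat.Agent.H7
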