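import Fermat.Agent.H7ZMod
import Fermat.Agent.H19W4

/-!
# The positivity lemma for automorphic functions (helper7, S47, package C19)

`Φ : (J → H3) → XF L → ℂ` automorphic with Whittaker function `κ` (`H19W.IsW`).
-/

set_option autoImplicit false
set_option linter.unusedSectionVars false

open IsDedekindDomain HeightOneSpectrum WithZero NumberField Matrix
open scoped MatrixGroups

noncomputable section

namespace Fermat.Agent.H7.Z

open Fermat.Agent.H59XF Fermat.Agent.H59D Fermat.Agent.H19W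

variable {K : Type*} [Field K] [NumberField K] {J : Type*} [Fintype J] [Nonempty J]
  [DecidableEq (HeightOneSpectrum (𝓞 K))]

/-- the torus action on a restricted coset space -/
def dY {G : Type*} [Group G] (B : Bor K G) (L : LevelFam G (HeightOneSpectrum (𝓞 K)))
    (a : Kˣ) (y : XF L) : XF L := B.d a • y

theorem dY_one {G : Type*} [Group G] (B : Bor K G) (L : LevelFam G (HeightOneSpectrum (𝓞 K)))
    (y : XF L) : dY B L 1 y = y := by rw [dY, B.d_one, one_smul]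

variable {G : Type*} [Group G] {B : Bor K G} {L : LevelFam G (HeightOneSpectrum (𝓞 K))}
  {e : J → K →+* ℂ} {ω : ℝ → ℝ} {Φ : (J → H3) → XF L → ℂ} {κ : XF L → ℂ}

/-- The Hecke equation for automorphic functions. -/
def HeckeFun (B : Bor K G) (L : LevelFam G (HeightOneSpectrum (𝓞 K))) (Φ : (J → H3) → XF L → ℂ)
    (w : HeightOneSpectrum (𝓞 K)) (ϖ : Kˣ) (R : Finset K) (lam : ℂ) : Prop :=
  ∀ (x : J → H3) (y : XF L) (g : G), y w = (g : G ⧸ L.U w) →
    lam * Φ x y = ∑ b ∈ R, Φ x (XF.upd y w ((g * B.n b * B.d ϖ : G) : G ⧸ L.U w)) +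
      Φ x (XF.upd y w ((g * (B.d ϖ)⁻¹ : G) : G ⧸ L.U w))

/-- Type equivariance for automorphic functions. -/
def TypeFun (B : Bor K G) (L : LevelFam G (HeightOneSpectrum (𝓞 K))) (Φ : (J → H3) → XF L → ℂ)
    (w : HeightOneSpectrum (𝓞 K)) (Bw : Set K) : Prop :=
  ∀ (x : J → H3) (y : XF L) (g : G) (b : K), b ∈ Bw →
    Φ x (XF.upd y w ((g * B.n b : G) : G ⧸ L.U w)) = psi w b * Φ x (XF.upd y w ((g : G) : G ⧸ L.U w))

theorem heckeEq_of (hω : ∀ u, 0 < u → ω u ≠ 0) (hW : IsW e (dY B L) ω Φ κ)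
    {w : HeightOneSpectrum (𝓞 K)} {ϖ : Kˣ} {R : Finset K} {lam : ℂ}
    (h : HeckeFun B L Φ w ϖ R lam) : HeckeEq B L κ w ϖ R lam := by
  intro y g hg
  have h1 := IsW.operator (T := Option K) hω (dY_one B L) hW (hW.smul lam)
    (Finset.insertNone R) (fun _ => 1)
    (fun o => o.elim (XF.upd y w ((g * (B.d ϖ)⁻¹ : G) : G ⧸ L.U w))
      (fun b => XF.upd y w ((g * B.n b * B.d ϖ : G) : G ⧸ L.U w))) y (fun x => by
        rw [h x y g hg, Finset.sum_insertNone]
        simp only [one_mul, Option.elim_none, Option.elim_some]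
        ring)
  rw [Pi.smul_apply, smul_eq_mul, Finset.sum_insertNone] at h1
  simp only [one_mul, Option.elim_none, Option.elim_some] at h1
  rw [h1]; ring

theorem typeAt_of (hω : ∀ u, 0 < u → ω u ≠ 0) (hW : IsW e (dY B L) ω Φ κ)
    {w : HeightOneSpectrum (𝓞 K)} {Bw : Set K}
    (h : TypeFun B L Φ w Bw) : TypeAt B L κ w Bw := by
  intro y g b hb
  have h1 := IsW.operator (T := Unit) hω (dY_one B L) hW hW {()} (fun _ => psi w b)
    (fun _ => XF.upd y w ((g : G) : G ⧸ L.U w)) (XF.upd y w ((g * B.n b : G) : G ⧸ L.U w))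
    (fun x => by rw [Finset.sum_singleton]; exact h x y g b hb)
  rwa [Finset.sum_singleton] at h1

/-- Two automorphic functions whose Whittaker functions agree on the Borel points agree. -/
theorem eq_of_borel {Φ' : (J → H3) → XF L → ℂ} {κ' : XF L → ℂ}
    (hW : IsW e (dY B L) ω Φ κ) (hW' : IsW e (dY B L) ω Φ' κ')
    (h : ∀ y, IsBor B L y → κ y = κ' y) (x : J → H3) (y : XF L) (hy : IsBor B L y) :
    Φ x y = Φ' x y := by
  have hc : coef (dY B L) κ y = coef (dY B L) κ' y := by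
    funext α
    rw [coef, coef]
    split_ifs with hα
    · rfl
    · apply h
      intro w
      obtain ⟨a, ha⟩ := hy w
      refine ⟨Units.mk0 α hα * a, ?_⟩
      change B.d (Units.mk0 α hα) • y w = _
      rw [ha, B.d_mul]
      rfl
  have h1 := (hW y).sum x
  have h2 := (hW' y).sum x
  rw [hc] at h1
  exact h1.unique h2

/-- **POSITIVITY LEMMA.** An automorphic function with a Whittaker function, which is an
eigenfunction of all `T_w` outside `S ∪ {w₀}` with `s`-invariant eigenvalues and typed at `S`, is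
invariant under the automorphism `s`. -/
theorem pos_fun (m : Model K J) (a : AutData m) (hω : ∀ u, 0 < u → ω u ≠ 0)
    {Φ : (J → H3) → XF m.L.fam → ℂ} {κ : XF m.L.fam → ℂ}
    (hinv : ∀ (g : PGL(2, K)) x y, Φ (m.actInf g x) (g • y) = Φ x y)
    (hW : IsW m.e (dY (borP K) m.L.fam) ω Φ κ) (hκ : Whit (borP K) m.L.fam κ)
    (w₀ : HeightOneSpectrum (𝓞 K)) (hw₀ : a.σ w₀ = w₀)
    (hgood : ∀ u : Kˣ, w₀.valuation K (u : K) = 1 → (borP K).d u ∈ m.L.U w₀)
    (S : Set (HeightOneSpectrum (𝓞 K)))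
    (lam : HeightOneSpectrum (𝓞 K) → ℂ) (hlam : ∀ w, lam (a.σ w) = lam w)
    (hG : ∀ w ∉ S, w ≠ w₀ → GoodAt (borP K) m.L.fam w)
    (hϖ : ∀ w ∉ S, w ≠ w₀ → ∃ ϖ : Kˣ, w.valuation K (ϖ : K) = exp (-(1 : ℤ)) ∧
      ∃ R : Finset K, R.Nonempty ∧ (∀ b ∈ R, w.valuation K b ≤ 1) ∧
        HeckeFun (borP K) m.L.fam Φ w ϖ R (lam w) ∧
        HeckeFun (borP K) m.L.fam Φ (a.σ w) (Units.map (a.s : K →* K) ϖ)
          (R.map a.s.toEquiv.toEmbedding) (lam (a.σ w)))
    (Bw : HeightOneSpectrum (𝓞 K) → Set K)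
    (hS : ∀ w ∈ S, DualAt (borP K) m.L.fam w (Bw w) ∧ TypeFun (borP K) m.L.fam Φ w (Bw w) ∧
      TypeFun (borP K) m.L.fam Φ (a.σ w) (Bw (a.σ w)) ∧ ∀ b ∈ Bw w, a.s b ∈ Bw (a.σ w))
    (x : J → H3) (y : XF m.L.fam) : Φ (a.actInf x) (a.twist.act y) = Φ x y := by
  -- the Whittaker function of the twisted function
  have hW' : IsW m.e (dY (borP K) m.L.fam) ω (fun x y => Φ (a.actInf x) (a.twist.act y))
      (fun y => κ (a.twist.act y)) := by
    refine IsW.perm hW a.s.symm a.c.symm (fun j α => ?_) a.twist.act (fun u y => ?_)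
    · have := a.e_s (a.c.symm j) (a.s.symm α)
      simpa using this
    · change a.twist.act ((borP K).d u • y) = (borP K).d _ • a.twist.act y
      rw [Twist.act_smul]
      congr 1
      exact (bTwist a).s_d u
  have hpos : ∀ y, IsBor (borP K) m.L.fam y → κ (a.twist.act y) = κ y :=
    fun y hy => pos (bLevel m.L) hκ (bTwist a) w₀ hw₀ hgood S lam hlam hG
      (fun w hw hw' => by
        obtain ⟨ϖ, h1, R, h2, h3, h4, h5⟩ := hϖ w hw hw'
        exact ⟨ϖ, h1, R, h2, h3, heckeEq_of hω hW h4, heckeEq_of hω hW h5⟩) Bw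
      (fun w hw => by
        obtain ⟨h1, h2, h3, h4⟩ := hS w hw
        exact ⟨h1, typeAt_of hω hW h2, typeAt_of hω hW h3, h4⟩) y hy
  -- reduction to Borel points
  have hact : ∀ (g : PGL(2, K)) (x : J → H3), a.actInf (m.actInf g x) =
      m.actInf (ProjGenLinGroup.map (a.s : K →+* K) g) (a.actInf x) := by
    intro g x
    exact congrArg Prod.fst (a.act_smul g ((x, XF.base m.L.fam) : m.X))
  obtain ⟨g, hg, -⟩ := dense m.L ∅ y
  have h1 : Φ (a.actInf x) (a.twist.act y) =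
      Φ (a.actInf (m.actInf g x)) (a.twist.act (g • y)) := by
    rw [hact, Twist.act_smul]
    exact (hinv _ _ _).symm
  rw [h1, ← hinv g x y]
  exact eq_of_borel hW' hW hpos _ _ hg

/-! ### The place `w₀`: eigenfunctions of `U` -/

/-- The `U`-equation for Whittaker functions. -/
def UEq (B : Bor K G) (L : LevelFam G (HeightOneSpectrum (𝓞 K))) (κ : XF L → ℂ)
    (w : HeightOneSpectrum (𝓞 K)) (ϖ : Kˣ) (R : Finset K) (u : ℂ) : Prop :=
  ∀ (y : XF L) (g : G), y w = (g : G ⧸ L.U w) →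
    u * κ y = ∑ b ∈ R, κ (XF.upd y w ((g * B.n b * B.d ϖ : G) : G ⧸ L.U w))

/-- The `U`-equation for automorphic functions. -/
def UFun (B : Bor K G) (L : LevelFam G (HeightOneSpectrum (𝓞 K))) (Φ : (J → H3) → XF L → ℂ)
    (w : HeightOneSpectrum (𝓞 K)) (ϖ : Kˣ) (R : Finset K) (u : ℂ) : Prop :=
  ∀ (x : J → H3) (y : XF L) (g : G), y w = (g : G ⧸ L.U w) →
    u * Φ x y = ∑ b ∈ R, Φ x (XF.upd y w ((g * B.n b * B.d ϖ : G) : G ⧸ L.U w))

theorem uEq_of (hω : ∀ u, 0 < u → ω u ≠ 0) (hW : IsW e (dY B L) ω Φ κ)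
    {w : HeightOneSpectrum (𝓞 K)} {ϖ : Kˣ} {R : Finset K} {u : ℂ}
    (h : UFun B L Φ w ϖ R u) : UEq B L κ w ϖ R u := by
  intro y g hg
  have h1 := IsW.operator (T := K) hω (dY_one B L) hW (hW.smul u) R (fun _ => 1)
    (fun b => XF.upd y w ((g * B.n b * B.d ϖ : G) : G ⧸ L.U w)) y (fun x => by
      rw [h x y g hg]; simp only [one_mul])
  rw [Pi.smul_apply, smul_eq_mul] at h1
  simp only [one_mul] at h1
  exact h1

/-- The recursion at `w₀`: `u κ(a) = q κ(a ϖ)`. -/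
theorem Whit.rec_U (hL : BLevel B L) (hκ : Whit B L κ) {w : HeightOneSpectrum (𝓞 K)}
    {ϖ : Kˣ} {R : Finset K} {u : ℂ} (hR : ∀ b ∈ R, w.valuation K b ≤ 1)
    (hU : UEq B L κ w ϖ R u) (y : XF L) (a : Kˣ) (ha : w.valuation K (a : K) ≤ 1) :
    u * κ (XF.upd y w ((B.d a : G) : G ⧸ L.U w)) =
      (R.card : ℂ) * κ (XF.upd y w ((B.d (a * ϖ) : G) : G ⧸ L.U w)) := by
  rw [hU (XF.upd y w ((B.d a : G) : G ⧸ L.U w)) (B.d a) (by rw [XF.upd_same])]
  rw [← nsmul_eq_mul, ← Finset.sum_const]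
  refine Finset.sum_congr rfl fun b hb => ?_
  rw [XF.upd_upd]
  have h1 := Whit.loc hL hκ (XF.upd y w ((B.d (a * ϖ) : G) : G ⧸ L.U w)) w ((a : K) * b)
  rw [XF.upd_same, XF.upd_upd, psi_of_integral w, one_mul] at h1
  · rw [← h1]
    congr 2
    change _ = ((B.n ((a : K) * b) * B.d (a * ϖ) : G) : G ⧸ L.U w)
    rw [B.d_mul, ← mul_assoc, ← B.conj]
  · rw [map_mul]
    exact mul_le_one' ha (hR b hb)

theorem Whit.zeroAt_U (hL : BLevel B L) (hκ : Whit B L κ) {w : HeightOneSpectrum (𝓞 K)}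
    (hw : GoodAt B L w) {ϖ : Kˣ} (hϖ : w.valuation K (ϖ : K) = exp (-(1 : ℤ)))
    {R : Finset K} (hR0 : R.Nonempty) {u : ℂ} (hR : ∀ b ∈ R, w.valuation K b ≤ 1)
    (hU : UEq B L κ w ϖ R u) : ZeroAt B L κ w := by
  intro y h0 a
  have hpow : ∀ k : ℕ, w.valuation K ((ϖ ^ k : Kˣ) : K) = exp (-(k : ℤ)) := by
    intro k
    rw [Units.val_pow_eq_pow_val, map_pow, hϖ, ← WithZero.exp_nsmul]
    congr 1
    simp
  have key : ∀ k : ℕ, κ (XF.upd y w ((B.d (ϖ ^ k) : G) : G ⧸ L.U w)) = 0 := by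
    intro k
    induction k with
    | zero => rw [pow_zero, B.d_one]; exact h0
    | succ k ih =>
      have h1 := hκ.rec_U hL hR hU y (ϖ ^ k) (by rw [hpow, ← exp_zero, exp_le_exp]; simp)
      rw [ih, mul_zero] at h1
      have h4 : (R.card : ℂ) ≠ 0 := by exact_mod_cast (Finset.card_pos.mpr hR0).ne'
      rw [pow_succ]
      exact (mul_eq_zero.mp h1.symm).resolve_left h4
  by_cases ha : w.valuation K (a : K) ≤ 1
  · have ha0 : w.valuation K (a : K) ≠ 0 := (Valuation.ne_zero_iff _).mpr a.ne_zero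
    obtain ⟨k, hk⟩ : ∃ k : ℕ, w.valuation K (a : K) = exp (-(k : ℤ)) := by
      refine ⟨(-(log (w.valuation K (a : K)))).toNat, ?_⟩
      have h1 : log (w.valuation K (a : K)) ≤ 0 := by
        rw [← exp_log ha0, ← exp_zero, exp_le_exp] at ha
        exact ha
      rw [Int.toNat_of_nonneg (by omega), neg_neg, exp_log ha0]
    have h1 : ((B.d a : G) : G ⧸ L.U w) = ((B.d (ϖ ^ k) : G) : G ⧸ L.U w) := by
      rw [eq_comm, QuotientGroup.eq, ← B.d_inv, ← B.d_mul]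
      apply hw.d_mem
      rw [Units.val_mul, Units.val_inv_eq_inv_val, map_mul, map_inv₀, hpow, hk]
      exact inv_mul_cancel₀ (by simp)
    rw [h1]
    exact key k
  · exact hκ.vanish hL hw y a ha

/-- **Nonvanishing at the base point.** A nonzero automorphic function which is an eigenfunction of
all `T_w` (`w ∉ S ∪ {w₀}`), typed at `S` and an eigenfunction of `U_{w₀}` has a nonzero Whittaker
coefficient at the base point. -/
theorem base_ne_zero (m : Model K J) (hω : ∀ u, 0 < u → ω u ≠ 0)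
    {Φ : (J → H3) → XF m.L.fam → ℂ} {κ : XF m.L.fam → ℂ}
    (hinv : ∀ (g : PGL(2, K)) x y, Φ (m.actInf g x) (g • y) = Φ x y)
    (hW : IsW m.e (dY (borP K) m.L.fam) ω Φ κ) (hκ : Whit (borP K) m.L.fam κ)
    (hloc : ∀ w : HeightOneSpectrum (𝓞 K),
      (GoodAt (borP K) m.L.fam w ∧ ∃ ϖ : Kˣ, w.valuation K (ϖ : K) = exp (-(1 : ℤ)) ∧
        ∃ R : Finset K, ∃ lam : ℂ, R.Nonempty ∧ (∀ b ∈ R, w.valuation K b ≤ 1) ∧
          (HeckeFun (borP K) m.L.fam Φ w ϖ R lam ∨ UFun (borP K) m.L.fam Φ w ϖ R lam)) ∨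
      (∃ Bw : Set K, DualAt (borP K) m.L.fam w Bw ∧ TypeFun (borP K) m.L.fam Φ w Bw))
    (hΦ : ∃ x y, Φ x y ≠ 0) : κ (XF.base m.L.fam) ≠ 0 := by
  intro h0
  have hL := bLevel m.L
  have hzero : ∀ y, IsBor (borP K) m.L.fam y → κ y = 0 := by
    refine zero_of_zeroAt (B := borP K) (∅ : Set _) (fun w _ => ?_) (fun y hy h => ?_)
    · rcases hloc w with ⟨hg, ϖ, hϖ, R, lam, hR0, hR, h | h⟩ | ⟨Bw, hd, ht⟩
      · exact hκ.zeroAt_good hL hg hϖ hR0 hR (heckeEq_of hω hW h)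
      · exact hκ.zeroAt_U hL hg hϖ hR0 hR (uEq_of hω hW h)
      · exact hκ.zeroAt_bad hL (typeAt_of hω hW ht) hd
    · have : y = XF.base m.L.fam := by
        apply XF.ext; intro w
        rw [h w (Set.notMem_empty w), XF.base_apply]
      rw [this, h0]
  obtain ⟨x, y, hxy⟩ := hΦ
  apply hxy
  obtain ⟨g, hg, -⟩ := dense m.L ∅ y
  rw [← hinv g x y]
  have hW0 : IsW m.e (dY (borP K) m.L.fam) ω (fun x y => (0 : ℂ) * Φ x y) ((0 : ℂ) • κ) :=
    hW.smul 0
  have := eq_of_borel hW hW0 (fun y hy => by rw [hzero y hy, Pi.smul_apply, zero_smul])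
    (m.actInf g x) (g • y) hg
  rw [this, zero_mul]

end Fermat.Agent.H7.Z
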