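import Fermat.Agent.H7ZWhit

/-!
# Automorphisms and the positivity lemma for Whittaker functions (helper7, S47, package C19)

`psi_aut`, `Whit.twist`, `HeckeEq.twist`, `TypeAt.twist`; `pos`: a Whittaker function which is an
eigenfunction of all `T_w` outside `S ∪ {w₀}` with `s`-invariant eigenvalues and has types at `S` is
`s`-invariant on the Borel points.
-/

set_option autoImplicit false
set_option linter.unusedSectionVars false

open IsDedekindDomain HeightOneSpectrum WithZero NumberField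

noncomputable section

namespace Fermat.Agent.H7.Z

open Fermat.Agent.H59XF

variable {K : Type*} [Field K] [NumberField K]

/-- The trace is invariant under automorphisms. -/
theorem trace_aut (s : K ≃+* K) (x : K) : Algebra.trace ℚ K (s x) = Algebra.trace ℚ K x := by
  have h := Algebra.trace_eq_of_algEquiv (A := ℚ)
    (AlgEquiv.ofRingEquiv (f := s) (fun q => by simp) : K ≃ₐ[ℚ] K) x
  exact h

/-- Automorphisms permute the local characters. -/
theorem psi_aut (s : K ≃+* K) (σ : Equiv.Perm (HeightOneSpectrum (𝓞 K)))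
    (hval : ∀ w x, (σ w).valuation K (s x) = w.valuation K x)
    (w : HeightOneSpectrum (𝓞 K)) (b : K) : psi (σ w) (s b) = psi w b := by
  obtain ⟨h1, h2⟩ := part_spec w b
  rw [psi_eq (σ w) (β := s b) (β' := s (part w b)), psi_eq w h1 h2, trace_aut]
  · rw [← map_sub, hval]; exact h1
  · intro w' hw'
    obtain ⟨v, rfl⟩ := σ.surjective w'
    rw [hval]
    exact h2 v (fun h => hw' (by rw [h]))

variable {G : Type*} [Group G] [DecidableEq (HeightOneSpectrum (𝓞 K))]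
  {B : Bor K G} {L : LevelFam G (HeightOneSpectrum (𝓞 K))} {κ κ' : XF L → ℂ}

/-- An automorphism compatible with everything. -/
structure BTwist (B : Bor K G) (L : LevelFam G (HeightOneSpectrum (𝓞 K))) where
  t : Twist L
  s : K ≃+* K
  val : ∀ w x, (t.σ w).valuation K (s x) = w.valuation K x
  s_n : ∀ b, t.s (B.n b) = B.n (s b)
  s_d : ∀ a, t.s (B.d a) = B.d (Units.map (s : K →* K) a)

theorem act_upd (t : Twist L) (y : XF L) (w : HeightOneSpectrum (𝓞 K)) (c : G ⧸ L.U w) :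
    t.act (XF.upd y w c) = XF.upd (t.act y) (t.σ w) (t.cmap w c) := by
  apply XF.ext; intro v
  obtain ⟨u, rfl⟩ := t.σ.surjective v
  rw [Twist.act_apply_σ]
  by_cases h : u = w
  · subst h; rw [XF.upd_same, XF.upd_same]
  · rw [XF.upd_ne _ h, XF.upd_ne _ (fun hh => h (t.σ.injective hh)), Twist.act_apply_σ]

theorem Whit.twist (hκ : Whit B L κ) (T : BTwist B L) : Whit B L (fun y => κ (T.t.act y)) := by
  refine ⟨fun b y => ?_⟩
  rw [Twist.act_smul, T.s_n, hκ.eqv, trace_aut]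

theorem TypeAt.twist {w : HeightOneSpectrum (𝓞 K)} {Bw Bw' : Set K} (T : BTwist B L)
    (h : TypeAt B L κ (T.t.σ w) Bw') (hB : ∀ b ∈ Bw, T.s b ∈ Bw') :
    TypeAt B L (fun y => κ (T.t.act y)) w Bw := by
  intro y g b hb
  change κ (T.t.act _) = psi w b * κ (T.t.act _)
  rw [act_upd, act_upd, Twist.cmap_mk, Twist.cmap_mk, map_mul, T.s_n, h _ _ _ (hB b hb),
    psi_aut T.s T.t.σ T.val]

theorem HeckeEq.twist {w : HeightOneSpectrum (𝓞 K)} {ϖ : Kˣ} {R : Finset K} {lam : ℂ}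
    (T : BTwist B L)
    (h : HeckeEq B L κ (T.t.σ w) (Units.map (T.s : K →* K) ϖ)
      (R.map T.s.toEquiv.toEmbedding) lam) :
    HeckeEq B L (fun y => κ (T.t.act y)) w ϖ R lam := by
  intro y g hg
  have h1 := h (T.t.act y) (T.t.s g) (by rw [Twist.act_apply_σ, hg, Twist.cmap_mk])
  change lam * κ (T.t.act y) = _
  rw [h1, Finset.sum_map]
  congr 1
  · refine Finset.sum_congr rfl fun b _ => ?_
    change _ = κ (T.t.act _)
    rw [act_upd, Twist.cmap_mk, map_mul, map_mul, T.s_n, T.s_d]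
    rfl
  · change _ = κ (T.t.act _)
    rw [act_upd, Twist.cmap_mk, map_mul, map_inv, T.s_d]

theorem TypeAt.sub {w : HeightOneSpectrum (𝓞 K)} {Bw : Set K} (h : TypeAt B L κ w Bw)
    (h' : TypeAt B L κ' w Bw) : TypeAt B L (fun y => κ y - κ' y) w Bw := by
  intro y g b hb
  change κ _ - κ' _ = psi w b * (κ _ - κ' _)
  rw [h y g b hb, h' y g b hb, mul_sub]

theorem HeckeEq.sub {w : HeightOneSpectrum (𝓞 K)} {ϖ : Kˣ} {R : Finset K} {lam : ℂ}
    (h : HeckeEq B L κ w ϖ R lam) (h' : HeckeEq B L κ' w ϖ R lam) :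
    HeckeEq B L (fun y => κ y - κ' y) w ϖ R lam := by
  intro y g hg
  change lam * (κ y - κ' y) = ∑ b ∈ R, (κ _ - κ' _) + (κ _ - κ' _)
  rw [mul_sub, h y g hg, h' y g hg, Finset.sum_sub_distrib]
  ring

/-- Data at all places: good places outside `W` with Hecke eigenvalue `lam w`, and types at the
others (`w ∉ W` not good). -/
def EigAt (B : Bor K G) (L : LevelFam G (HeightOneSpectrum (𝓞 K))) (κ : XF L → ℂ)
    (lam : HeightOneSpectrum (𝓞 K) → ℂ) (w : HeightOneSpectrum (𝓞 K)) : Prop :=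
  GoodAt B L w ∧ ∃ ϖ : Kˣ, w.valuation K (ϖ : K) = exp (-(1 : ℤ)) ∧
    ∃ R : Finset K, R.Nonempty ∧ (∀ b ∈ R, w.valuation K b ≤ 1) ∧ HeckeEq B L κ w ϖ R (lam w)

theorem EigAt.zeroAt (hL : BLevel B L) (hκ : Whit B L κ) {lam : HeightOneSpectrum (𝓞 K) → ℂ}
    {w : HeightOneSpectrum (𝓞 K)} (h : EigAt B L κ lam w) : ZeroAt B L κ w := by
  obtain ⟨hg, ϖ, hϖ, R, hR0, hR, hH⟩ := h
  exact hκ.zeroAt_good hL hg hϖ hR0 hR hH

/-- **Uniqueness**: two Whittaker functions with the same Hecke eigenvalues and types outside `W`,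
which agree on the Borel points supported in `W`, agree on all Borel points. -/
theorem eq_on_borel (hL : BLevel B L) (hκ : Whit B L κ) (hκ' : Whit B L κ')
    (W : Set (HeightOneSpectrum (𝓞 K)))
    (h : ∀ w ∉ W, (GoodAt B L w ∧ ∃ ϖ : Kˣ, w.valuation K (ϖ : K) = exp (-(1 : ℤ)) ∧
        ∃ R : Finset K, ∃ lam : ℂ, R.Nonempty ∧ (∀ b ∈ R, w.valuation K b ≤ 1) ∧
          HeckeEq B L κ w ϖ R lam ∧ HeckeEq B L κ' w ϖ R lam) ∨
      (∃ Bw : Set K, DualAt B L w Bw ∧ TypeAt B L κ w Bw ∧ TypeAt B L κ' w Bw))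
    (h0 : ∀ y : XF L, IsBor B L y → (∀ w ∉ W, y w = ((1 : G) : G ⧸ L.U w)) → κ y = κ' y)
    (y : XF L) (hy : IsBor B L y) : κ y = κ' y := by
  have hsub := hκ.sub hκ'
  have := zero_of_zeroAt (κ := fun y => κ y - κ' y) W (fun w hw => ?_)
    (fun y hy h => sub_eq_zero.mpr (h0 y hy h)) y hy
  · exact sub_eq_zero.mp this
  · rcases h w hw with ⟨hg, ϖ, hϖ, R, lam, hR0, hR, h1, h2⟩ | ⟨Bw, hd, h1, h2⟩
    · exact hsub.zeroAt_good hL hg hϖ hR0 hR (h1.sub h2)
    · exact hsub.zeroAt_bad hL (h1.sub h2) hd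

/-- **Positivity lemma** on Borel points: `κ` is invariant under the automorphism. -/
theorem pos (hL : BLevel B L) (hκ : Whit B L κ) (T : BTwist B L)
    (w₀ : HeightOneSpectrum (𝓞 K)) (hw₀ : T.t.σ w₀ = w₀)
    (hgood : ∀ a : Kˣ, w₀.valuation K (a : K) = 1 → B.d a ∈ L.U w₀)
    (S : Set (HeightOneSpectrum (𝓞 K)))
    (lam : HeightOneSpectrum (𝓞 K) → ℂ) (hlam : ∀ w, lam (T.t.σ w) = lam w)
    (hG : ∀ w ∉ S, w ≠ w₀ → GoodAt B L w)
    (hϖ : ∀ w ∉ S, w ≠ w₀ → ∃ ϖ : Kˣ, w.valuation K (ϖ : K) = exp (-(1 : ℤ)) ∧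
      ∃ R : Finset K, R.Nonempty ∧ (∀ b ∈ R, w.valuation K b ≤ 1) ∧
        HeckeEq B L κ w ϖ R (lam w) ∧
        HeckeEq B L κ (T.t.σ w) (Units.map (T.s : K →* K) ϖ)
          (R.map T.s.toEquiv.toEmbedding) (lam (T.t.σ w)))
    (Bw : HeightOneSpectrum (𝓞 K) → Set K)
    (hS : ∀ w ∈ S, DualAt B L w (Bw w) ∧ TypeAt B L κ w (Bw w) ∧
      TypeAt B L κ (T.t.σ w) (Bw (T.t.σ w)) ∧ ∀ b ∈ Bw w, T.s b ∈ Bw (T.t.σ w))
    (y : XF L) (hy : IsBor B L y) : κ (T.t.act y) = κ y := by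
  symm
  refine eq_on_borel hL hκ (hκ.twist T) {w₀} (fun w hw => ?_) (fun y hy h => ?_) y hy
  · by_cases hwS : w ∈ S
    · right
      obtain ⟨h1, h2, h3, h4⟩ := hS w hwS
      exact ⟨Bw w, h1, h2, h3.twist T h4⟩
    · left
      obtain ⟨ϖ, hϖ1, R, hR0, hR, h1, h2⟩ := hϖ w hwS hw
      rw [hlam] at h2
      exact ⟨hG w hwS hw, ϖ, hϖ1, R, lam w, hR0, hR, h1, h2.twist T⟩
  · -- `y` is supported at `w₀`, hence fixed by the automorphism
    congr 1
    apply XF.ext; intro v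
    obtain ⟨u, rfl⟩ := T.t.σ.surjective v
    rw [Twist.act_apply_σ]
    by_cases hu : u = w₀
    · obtain ⟨a, ha⟩ := hy u
      have hua : y (T.t.σ u) = ((B.d a : G) : G ⧸ L.U (T.t.σ u)) := by
        have : ∀ v : HeightOneSpectrum (𝓞 K), v = u → y v = ((B.d a : G) : G ⧸ L.U v) := by
          rintro v rfl; exact ha
        exact this _ (by rw [hu, hw₀])
      rw [hua, ha, Twist.cmap_mk, T.s_d, QuotientGroup.eq, ← B.d_inv, ← B.d_mul]
      have hval : (T.t.σ u).valuation K ((a⁻¹ * Units.map (T.s : K →* K) a : Kˣ) : K) = 1 := by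
        rw [Units.val_mul, map_mul, Units.val_inv_eq_inv_val, map_inv₀]
        have h1 : (T.t.σ u).valuation K ((Units.map (T.s : K →* K) a : Kˣ) : K) =
            u.valuation K (a : K) := T.val u a
        have h2 : (T.t.σ u).valuation K (a : K) = u.valuation K (a : K) := by
          rw [hu, hw₀]
        rw [h1, h2]
        exact inv_mul_cancel₀ ((Valuation.ne_zero_iff _).mpr a.ne_zero)
      have h3 : T.t.σ u = w₀ := by rw [hu, hw₀]
      rw [h3] at hval ⊢
      exact hgood _ hval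
    · have h1 : y (T.t.σ u) = ((1 : G) : G ⧸ L.U (T.t.σ u)) := by
        apply h
        intro hh
        apply hu
        apply T.t.σ.injective
        rw [hw₀]
        exact hh
      rw [h1, h u hu, Twist.cmap_mk, map_one]

end Fermat.Agent.H7.Z
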