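import Fermat.Agent.H7ZOut
import Fermat.Agent.H21Z5
import Fermat.Agent.H21Z2

/-!
# The positivity hypothesis of the comparison, for `OpData` on the setup of block (C) (helper7)

* `pos_BInv` : the positivity lemma for elements of `BInv`;
* `hpos_side` : the hypothesis `hpos` of `H44Z.extract` / `H42S.exists_block_c`.
-/

set_option autoImplicit false
set_option linter.unusedSectionVars false

noncomputable section

open MeasureTheory IsDedekindDomain HeightOneSpectrum WithZero NumberField Matrix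
open scoped MatrixGroups ComplexConjugate
open Fermat.Agent.H32Z Fermat.Agent.H42S Fermat.Agent.H21Z

namespace Fermat.Agent.H7.Z

open Fermat.Agent.H59XF Fermat.Agent.H59D Fermat.Agent.H51Z
open Fermat.Agent.H79S (CSetup)

variable {F E : Type} [Field F] [NumberField F] [Field E] [NumberField E] [Algebra F E]
  (C : CSetup F E)

/-- **Positivity lemma for bounded invariant functions.** -/
theorem pos_BInv {f : BInv PGL(2, E) C.mE.X}
    (hrad : ∀ (κ : (Fin 3 → ℝ) → ℝ) (hκ : H56Z.IsRC (fun u => (κ u : ℂ))),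
      rkB C.mE hκ f = H9Z.hat (fun u => (κ u : ℂ)) • f)
    (he : gopB C.mE C.kE.D.eS f = f)
    {lam : HeightOneSpectrum (𝓞 E) → ℂ} (hlam : ∀ w, lam (C.aE.σ w) = lam w)
    (hT : ∀ w ∉ C.SE, w ≠ C.w0 → gopB C.mE (single w (C.kE.D.T w)) f = lam w • f) :
    sB C.aE f = f := by
  rw [sB_eq_self_iff]
  refine pos_setup C (BInv.inv f) (BInv.bounded f) (fun y => ?_) (fun κ hκ y τ => ?_)
    (fun τ => ?_) hlam (fun w hw hw' τ => ?_)
  · exact (BInv.measurable f).comp (measurable_id.prodMk measurable_const)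
  · have h1 := congrArg (fun g : BInv PGL(2, E) C.mE.X => (g : C.mE.X → ℂ) (τ, y)) (hrad κ hκ)
    exact h1
  · funext y
    have h1 := congrArg (fun g : BInv PGL(2, E) C.mE.X => (g : C.mE.X → ℂ) (τ, y)) he
    exact h1
  · funext y
    have h1 := congrArg (fun g : BInv PGL(2, E) C.mE.X => (g : C.mE.X → ℂ) (τ, y)) (hT w hw hw')
    rw [← gop_single]
    exact h1

variable {J : Type} {ν : Measure C.mE.X} [IsFiniteMeasure ν] {K : C.mE.X → C.mE.X → ℂ} {hK : BK K}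
  {hG : ∀ (g : PGL(2, E)) x y, K (g • x) y = K x y}

/-- **The positivity hypothesis** of the end of the comparison. -/
theorem hpos_side [MeasurableSpace.CountablyGenerated C.mE.X] (D : OpData J hK ν hG)
    (hsym : ∀ x y, K y x = conj (K x y)) (hs : D.s = sB C.aE)
    (heS : ∀ (c : ℝ) (f : BInv PGL(2, E) C.mE.X), c ≠ 0 → kop hK ν hG f = (c : ℂ) • f →
      gopB C.mE C.kE.D.eS f = f)
    (lT : {w : HeightOneSpectrum (𝓞 E) // w ∉ C.SE ∧ w ≠ C.w0} → D.N)
    (hlT : ∀ w, D.Y (lT w) = gopB C.mE (single w.1 (C.kE.D.T w.1)))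
    (hadj : ∀ w, IsAdj ν (D.Y (lT w)) (D.Y (lT w)))
    (hσ : ∀ w w', w'.1 = C.aE.σ w.1 → D.σ (lT w) = lT w')
    (p : (D.side hsym).I)
    (hp : ∀ (κ : (Fin 3 → ℝ) → ℝ) (hκ : H56Z.IsRC (fun u => (κ u : ℂ))), ∃ l : J,
      D.Y (D.j l) = rkB C.mE hκ ∧ ((D.side hsym).x p l : ℂ) = H9Z.hat (fun u => (κ u : ℂ))) :
    ∀ v ∈ blk ((D.side hsym).Y p.1) p.2.1, (D.side hsym).s p.1 v = v := by
  classical
  intro v hv
  have hx := (D.side hsym).x_eq p
  have hcσ := (D.side hsym).comp_σ p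
  obtain ⟨⟨c, hc⟩, χ, hχ⟩ := p
  change v ∈ blk (D.YE hc) χ at hv
  change D.sE hc v = v
  apply D.sE_apply hc
  rw [hs]
  set f : BInv PGL(2, E) C.mE.X := toInv hG hc v with hf
  have hχσ : ∀ k, χ (D.σ k) = χ k := fun k => congrFun hcσ k
  refine pos_BInv C (lam := fun w => if h : w ∉ C.SE ∧ w ≠ C.w0 then χ (lT ⟨w, h⟩) else 0)
    (fun κ hκ => ?_) (heS c f hc (kop_toInv hG hc v)) (fun w => ?_) (fun w hw hw' => ?_)
  · obtain ⟨l, hl, hl'⟩ := hp κ hκ
    rw [← hl, D.apply_of_blk hc hv (D.adj l), ← hl']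
    congr 1
    exact (hx l).symm
  · by_cases h : w ∉ C.SE ∧ w ≠ C.w0
    · have h' : C.aE.σ w ∉ C.SE ∧ C.aE.σ w ≠ C.w0 :=
        ⟨fun hh => h.1 ((mem_SE_σ C w).2 hh),
          fun hh => h.2 (C.aE.σ.injective (hh.trans (σ_w0 C).symm))⟩
      simp only [dif_pos h, dif_pos h']
      rw [← hσ ⟨w, h⟩ ⟨C.aE.σ w, h'⟩ rfl, hχσ]
    · have h' : ¬ (C.aE.σ w ∉ C.SE ∧ C.aE.σ w ≠ C.w0) := fun hh => h
        ⟨fun h2 => hh.1 ((mem_SE_σ C w).1 h2), fun h2 => hh.2 (by rw [h2]; exact σ_w0 C)⟩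
      simp only [dif_neg h, dif_neg h']
  · simp only [dif_pos (⟨hw, hw'⟩ : w ∉ C.SE ∧ w ≠ C.w0)]
    rw [← hlT ⟨w, hw, hw'⟩]
    exact D.apply_of_blk hc hv (hadj ⟨w, hw, hw'⟩)

end Fermat.Agent.H7.Z
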