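import Fermat.Agent.H7ZX
import Fermat.Agent.H76U2
import Fermat.Agent.H9ZRad

/-!
# The positivity lemma with types in the sense of helper76 (helper7, S47, package C19)

General form: the local condition at a place is only used through `ZeroAt` of the difference.
Types: `Ty w : Typ (U w)` with `(Ty w).H = (T w).H` for lattice data `T w : TD K`; the level `U w` may be
smaller than the kernel of the character.
-/

set_option autoImplicit false
set_option linter.unusedSectionVars false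

open IsDedekindDomain HeightOneSpectrum WithZero NumberField Matrix
open scoped MatrixGroups

noncomputable section

namespace Fermat.Agent.H7.Z

open Fermat.Agent.H59XF Fermat.Agent.H59D Fermat.Agent.H76U
open Fermat.Agent.H51Z (bm)

section Abs

variable {K : Type*} [Field K] [NumberField K] {G : Type*} [Group G]
  [DecidableEq (HeightOneSpectrum (𝓞 K))]
  {B : Bor K G} {L : LevelFam G (HeightOneSpectrum (𝓞 K))} {κ κ' : XF L → ℂ}

/-- Invariance under right translation by `d a`, `a ∈ Tw`, at the place `w`. -/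
def TorAt (B : Bor K G) (L : LevelFam G (HeightOneSpectrum (𝓞 K))) (κ : XF L → ℂ)
    (w : HeightOneSpectrum (𝓞 K)) (Tw : Set Kˣ) : Prop :=
  ∀ (y : XF L) (g : G) (a : Kˣ), a ∈ Tw →
    κ (XF.upd y w ((g * B.d a : G) : G ⧸ L.U w)) = κ (XF.upd y w ((g : G) : G ⧸ L.U w))

/-- `Tw` contains the stabiliser of `psi w` on `Bw`. -/
def DualT (w : HeightOneSpectrum (𝓞 K)) (Bw : Set K) (Tw : Set Kˣ) : Prop :=
  ∀ a : Kˣ, (∀ b ∈ Bw, psi w (((a : K) - 1) * b) = 1) → a ∈ Tw

theorem Whit.zeroAt_badT (hL : BLevel B L) (hκ : Whit B L κ) {w : HeightOneSpectrum (𝓞 K)}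
    {Bw : Set K} {Tw : Set Kˣ} (hw : TypeAt B L κ w Bw) (ht : TorAt B L κ w Tw)
    (hd : DualT w Bw Tw) : ZeroAt B L κ w := by
  classical
  intro y h0 a
  by_contra h
  apply h
  have h1 : a ∈ Tw := by
    apply hd
    intro b hb
    have h2 := Whit.loc hL hκ (XF.upd y w ((B.d a : G) : G ⧸ L.U w)) w ((a : K) * b)
    rw [XF.upd_same, XF.upd_upd] at h2
    have h3 : B.n ((a : K) * b) • ((B.d a : G) : G ⧸ L.U w) = ((B.d a * B.n b : G) : G ⧸ L.U w) := by
      change ((B.n ((a : K) * b) * B.d a : G) : G ⧸ L.U w) = _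
      rw [← B.conj]
    rw [h3, hw y (B.d a) b hb] at h2
    have h4 := mul_right_cancel₀ h h2
    have h5 : ((a : K) - 1) * b = (a : K) * b + (-b) := by ring
    rw [h5, AddChar.map_add_eq_mul, ← h4, ← AddChar.map_add_eq_mul, add_neg_cancel,
      AddChar.map_zero_eq_one]
  have h2 := ht y 1 a h1
  rw [one_mul] at h2
  rw [h2, h0]

theorem TorAt.sub {w : HeightOneSpectrum (𝓞 K)} {Tw : Set Kˣ} (h : TorAt B L κ w Tw)
    (h' : TorAt B L κ' w Tw) : TorAt B L (fun y => κ y - κ' y) w Tw := by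
  intro y g a ha
  change κ _ - κ' _ = κ _ - κ' _
  rw [h y g a ha, h' y g a ha]

theorem TorAt.twist {w : HeightOneSpectrum (𝓞 K)} {Tw Tw' : Set Kˣ} (T : BTwist B L)
    (h : TorAt B L κ (T.t.σ w) Tw') (hT : ∀ a ∈ Tw, Units.map (T.s : K →* K) a ∈ Tw') :
    TorAt B L (fun y => κ (T.t.act y)) w Tw := by
  intro y g a ha
  change κ (T.t.act _) = κ (T.t.act _)
  rw [act_upd, act_upd, Twist.cmap_mk, Twist.cmap_mk, map_mul, T.s_d, h _ _ _ (hT a ha)]

/-- **Uniqueness**, general form. -/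
theorem eq_on_borelG (W : Set (HeightOneSpectrum (𝓞 K)))
    (h : ∀ w ∉ W, ZeroAt B L (fun y => κ y - κ' y) w)
    (h0 : ∀ y : XF L, IsBor B L y → (∀ w ∉ W, y w = ((1 : G) : G ⧸ L.U w)) → κ y = κ' y)
    (y : XF L) (hy : IsBor B L y) : κ y = κ' y :=
  sub_eq_zero.mp (zero_of_zeroAt (κ := fun y => κ y - κ' y) W h
    (fun y hy h => sub_eq_zero.mpr (h0 y hy h)) y hy)

/-- **Positivity lemma**, general form. -/
theorem posG (T : BTwist B L) (w₀ : HeightOneSpectrum (𝓞 K)) (hw₀ : T.t.σ w₀ = w₀)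
    (hgood : ∀ a : Kˣ, w₀.valuation K (a : K) = 1 → B.d a ∈ L.U w₀)
    (h : ∀ w, w ≠ w₀ → ZeroAt B L (fun y => κ y - κ (T.t.act y)) w)
    (y : XF L) (hy : IsBor B L y) : κ (T.t.act y) = κ y := by
  symm
  refine eq_on_borelG (κ' := fun y => κ (T.t.act y)) {w₀} (fun w hw => h w hw)
    (fun y hy h => ?_) y hy
  congr 1
  apply XF.ext; intro v
  obtain ⟨u, rfl⟩ := T.t.σ.surjective v
  rw [Twist.act_apply_σ]
  by_cases hu : u = w₀
  · obtain ⟨a, ha⟩ := hy u
    have hua : y (T.t.σ u) = ((B.d a : G) : G ⧸ L.U (T.t.σ u)) := by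
      have : ∀ v : HeightOneSpectrum (𝓞 K), v = u → y v = ((B.d a : G) : G ⧸ L.U v) := by
        rintro v rfl; exact ha
      exact this _ (by rw [hu, hw₀])
    rw [hua, ha, Twist.cmap_mk, T.s_d, QuotientGroup.eq, ← B.d_inv, ← B.d_mul]
    have hval : (T.t.σ u).valuation K ((a⁻¹ * Units.map (T.s : K →* K) a : Kˣ) : K) = 1 := by
      rw [Units.val_mul, map_mul, Units.val_inv_eq_inv_val, map_inv₀]
      have h1 : (T.t.σ u).valuation K ((Units.map (T.s : K →* K) a : Kˣ) : K) =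
          u.valuation K (a : K) := T.val u a
      have h2 : (T.t.σ u).valuation K (a : K) = u.valuation K (a : K) := by
        rw [hu, hw₀]
      rw [h1, h2]
      exact inv_mul_cancel₀ ((Valuation.ne_zero_iff _).mpr a.ne_zero)
    have h3 : T.t.σ u = w₀ := by rw [hu, hw₀]
    rw [h3] at hval ⊢
    exact hgood _ hval
  · have h1 : y (T.t.σ u) = ((1 : G) : G ⧸ L.U (T.t.σ u)) := by
      apply h
      intro hh
      apply hu
      apply T.t.σ.injective
      rw [hw₀]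
      exact hh
    rw [h1, h u hu, Twist.cmap_mk, map_one]

end Abs

section Fun

variable {K : Type*} [Field K] [NumberField K] {J : Type*} [Fintype J] [Nonempty J]
  [DecidableEq (HeightOneSpectrum (𝓞 K))] {m : Model K J} {k0 : ℝ → ℝ} {Φ : m.X → ℂ}
  {κ : XF m.L.fam → ℂ}

/-- **Positivity lemma** on `X(K)`, general form. -/
theorem posXG (a : AutData m)
    (hG : ∀ (g : PGL(2, K)) (x : m.X), Φ (g • x) = Φ x) (hW : H19W.IsWM m k0 Φ κ)
    (w₀ : HeightOneSpectrum (𝓞 K)) (hw₀ : a.σ w₀ = w₀)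
    (hgood : ∀ u : Kˣ, w₀.valuation K (u : K) = 1 → (borP K).d u ∈ m.L.U w₀)
    (h : ∀ w, w ≠ w₀ → ZeroAt (borP K) m.L.fam (fun y => κ y - κ (a.twist.act y)) w)
    (x : m.X) : Φ (a.act x) = Φ x := by
  have hWf := isW_of hW
  have hW' : H19W.IsW m.e (dY (borP K) m.L.fam) (fun u => u * k0 u)
      (fun x y => Φ (a.actInf x, a.twist.act y)) (fun y => κ (a.twist.act y)) := by
    refine H19W.IsW.perm hWf a.s.symm a.c.symm (fun j α => ?_) a.twist.act (fun u y => ?_)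
    · have := a.e_s (a.c.symm j) (a.s.symm α)
      simpa using this
    · change a.twist.act ((borP K).d u • y) = (borP K).d _ • a.twist.act y
      rw [Twist.act_smul]
      congr 1
      exact (bTwist a).s_d u
  have hpos : ∀ y, IsBor (borP K) m.L.fam y → κ (a.twist.act y) = κ y :=
    fun y hy => posG (bTwist a) w₀ hw₀ hgood h y hy
  obtain ⟨g, hg, -⟩ := dense m.L ∅ x.2
  have h1 : Φ (a.act x) = Φ (a.act (g • x)) := by
    rw [a.act_smul, hG]
  rw [h1, ← hG g x]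
  exact eq_of_borel hW' hWf hpos (m.actInf g x.1) (g • x.2) hg

end Fun

section Types

variable {K : Type*} [Field K] [NumberField K]

/-- Lattice data at `w` with the standard character and self-dual. -/
structure StdTD (w : HeightOneSpectrum (𝓞 K)) (T : TD K) : Prop where
  psi : ∀ x, T.psi x = Fermat.Agent.H7.Z.psi w x
  dual : ∀ x : K, (∀ b ∈ T.B, Fermat.Agent.H7.Z.psi w (x * b) = 1) → x ∈ T.A

theorem nM_eq (b : K) : nM b = bm 1 b := Units.ext rfl

theorem dM_eq (a : Kˣ) : dM a = bm a 0 := Units.ext rfl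

theorem mk_nM (b : K) : (ProjGenLinGroup.mk (nM b) : PGL(2, K)) = (borP K).n b := by
  rw [nM_eq]; rfl

theorem mk_dM (a : Kˣ) : (ProjGenLinGroup.mk (dM a) : PGL(2, K)) = (borP K).d a := by
  rw [dM_eq]; rfl

variable [DecidableEq (HeightOneSpectrum (𝓞 K))] {L : Level (𝓞 K) K}

/-- A function on `XF` is typed at `w`. -/
def TypedAt (L : Level (𝓞 K) K) {w : HeightOneSpectrum (𝓞 K)} (Ty : Typ (L.fam.U w))
    (κ : XF L.fam → ℂ) : Prop :=
  ∀ (h : Ty.H) (y : XF L.fam), κ (XF.upd y w (Ty.rt h (y w))) = Ty.chi h * κ y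

/-- Compatibility of a type with lattice data. -/
structure TyOK {w : HeightOneSpectrum (𝓞 K)} (T : TD K) (Ty : Typ (L.fam.U w)) : Prop where
  H_eq : Ty.H = T.H
  chi_eq : ∀ g ∈ T.H, Ty.chi g = T.chi g

theorem TypedAt.typeAt {w : HeightOneSpectrum (𝓞 K)} {T : TD K} {Ty : Typ (L.fam.U w)}
    (hT : StdTD w T) (hTy : TyOK T Ty) {κ : XF L.fam → ℂ} (h : TypedAt L Ty κ) :
    TypeAt (borP K) L.fam κ w (T.B : Set K) := by
  intro y g b hb
  have hmem : (borP K).n b ∈ T.H := by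
    rw [← mk_nM]; exact ⟨_, T.nM_mem hb, rfl⟩
  have hmem' : (borP K).n b ∈ Ty.H := by rw [hTy.H_eq]; exact hmem
  have h1 := h ⟨_, hmem'⟩ (XF.upd y w ((g : PGL(2, K)) : PGL(2, K) ⧸ L.fam.U w))
  rw [XF.upd_same, XF.upd_upd, Typ.rt_mk] at h1
  rw [h1]
  congr 1
  change Ty.chi ((borP K).n b) = _
  rw [hTy.chi_eq _ hmem, ← mk_nM, T.chi_nM, hT.psi]

theorem TypedAt.torAt {w : HeightOneSpectrum (𝓞 K)} {T : TD K} {Ty : Typ (L.fam.U w)}
    (hTy : TyOK T Ty) {κ : XF L.fam → ℂ} (h : TypedAt L Ty κ) :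
    TorAt (borP K) L.fam κ w {a : Kˣ | (a : K) - 1 ∈ T.A} := by
  intro y g a ha
  have hmem : (borP K).d a ∈ T.H := by
    rw [← mk_dM]; exact ⟨_, T.dM_mem ha, rfl⟩
  have hmem' : (borP K).d a ∈ Ty.H := by rw [hTy.H_eq]; exact hmem
  have h1 := h ⟨_, hmem'⟩ (XF.upd y w ((g : PGL(2, K)) : PGL(2, K) ⧸ L.fam.U w))
  rw [XF.upd_same, XF.upd_upd, Typ.rt_mk] at h1
  rw [h1]
  change Ty.chi ((borP K).d a) * _ = _
  rw [hTy.chi_eq _ hmem, ← mk_dM, T.chi_dM, one_mul]

omit [DecidableEq (HeightOneSpectrum (𝓞 K))] in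
theorem StdTD.dualT {w : HeightOneSpectrum (𝓞 K)} {T : TD K} (hT : StdTD w T) :
    DualT w (T.B : Set K) {a : Kˣ | (a : K) - 1 ∈ T.A} :=
  fun _ ha => hT.dual _ ha

/-- **Vanishing at a bad place** for functions typed in the sense of helper76. -/
theorem TypedAt.zeroAt {w : HeightOneSpectrum (𝓞 K)} {T : TD K} {Ty : Typ (L.fam.U w)}
    (hT : StdTD w T) (hTy : TyOK T Ty) {κ : XF L.fam → ℂ} (hκ : Whit (borP K) L.fam κ)
    (h : TypedAt L Ty κ) : ZeroAt (borP K) L.fam κ w :=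
  hκ.zeroAt_badT (bLevel L) (h.typeAt hT hTy) (h.torAt hTy) hT.dualT

end Types

end Fermat.Agent.H7.Z
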