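import Fermat.Agent.H39ZPoly

/-!
# The aleph polynomial: uniqueness, symmetry, value, vanishing (helper80, S47 C5/C6)

`IsAleph P`: `P (v + v⁻¹) = ∏_T (1 - ∏ a, (flip T v) a)` for all commuting units `v a`
(existence: `Fermat.Agent.H39Z.exists_aleph`).
-/

set_option autoImplicit false
set_option linter.unusedSectionVars false

noncomputable section

open MvPolynomial

namespace Fermat.Agent.H80Al

open Fermat.Agent.H39Z (flip)

variable {ι : Type} [Fintype ι] [DecidableEq ι]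

/-- The defining property of the aleph polynomial. -/
def IsAleph (P : MvPolynomial ι ℤ) : Prop :=
  ∀ (R : Type) [CommRing R] (v : ι → Rˣ),
    aeval (fun a => (v a : R) + ((v a)⁻¹ : Rˣ)) P =
      ∏ T : Finset ι, (1 - ∏ a, ((flip T v a : Rˣ) : R))

theorem exists_isAleph (ι : Type) [Fintype ι] [DecidableEq ι] :
    ∃ P : MvPolynomial ι ℤ, IsAleph P := Fermat.Agent.H39Z.exists_aleph ι

/-- The aleph polynomial. -/
def alP (ι : Type) [Fintype ι] [DecidableEq ι] : MvPolynomial ι ℤ := (exists_isAleph ι).choose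

theorem isAleph_alP (ι : Type) [Fintype ι] [DecidableEq ι] : IsAleph (alP ι) :=
  (exists_isAleph ι).choose_spec

/-- every complex number is of the form `z + z⁻¹`. -/
theorem exists_unit_add_inv (x : ℂ) : ∃ z : ℂˣ, (z : ℂ) + ((z⁻¹ : ℂˣ) : ℂ) = x := by
  obtain ⟨s, hs⟩ := IsAlgClosed.exists_pow_nat_eq (x ^ 2 - 4) (n := 2) (by norm_num)
  have hprod : (x + s) * (x - s) = 4 := by linear_combination (-1) * hs
  have h0 : (x + s) / 2 ≠ 0 := by
    intro h
    have : x + s = 0 := by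
      have := congrArg (fun t => t * 2) h
      simpa using this
    rw [this, zero_mul] at hprod
    norm_num at hprod
  refine ⟨Units.mk0 ((x + s) / 2) h0, ?_⟩
  have hinv : ((x + s) / 2)⁻¹ = (x - s) / 2 := by
    refine inv_eq_of_mul_eq_one_right ?_
    linear_combination (1 / 4) * hprod
  rw [Units.val_inv_eq_inv_val, Units.val_mk0, hinv]
  ring

/-- Uniqueness. -/
theorem eq_of_aeval {P Q : MvPolynomial ι ℤ}
    (h : ∀ v : ι → ℂˣ, aeval (fun a => (v a : ℂ) + (((v a)⁻¹ : ℂˣ) : ℂ)) P =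
      aeval (fun a => (v a : ℂ) + (((v a)⁻¹ : ℂˣ) : ℂ)) Q) : P = Q := by
  have hinj : Function.Injective (MvPolynomial.map (σ := ι) (Int.castRingHom ℂ)) :=
    MvPolynomial.map_injective _ (RingHom.injective_int _)
  apply hinj
  apply MvPolynomial.funext
  intro x
  choose v hv using fun a => exists_unit_add_inv (x a)
  have h1 := h v
  have h2 : (fun a => (v a : ℂ) + (((v a)⁻¹ : ℂˣ) : ℂ)) = x := funext hv
  rw [h2] at h1
  rw [MvPolynomial.eval_map, MvPolynomial.eval_map]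
  simpa [MvPolynomial.aeval_def] using h1

theorem IsAleph.unique {P Q : MvPolynomial ι ℤ} (hP : IsAleph P) (hQ : IsAleph Q) : P = Q :=
  eq_of_aeval fun v => by rw [hP ℂ v, hQ ℂ v]

/-- Symmetry: `P` is invariant under all permutations of the variables. -/
theorem IsAleph.rename_eq {κ : Type} [Fintype κ] [DecidableEq κ] {P : MvPolynomial ι ℤ}
    (hP : IsAleph P) (e : ι ≃ κ) : IsAleph (rename e P) := by
  intro R _ v
  rw [aeval_rename]
  have h := hP R (v ∘ e)
  have h1 : ((fun a => ((v a : Rˣ) : R) + ((v a)⁻¹ : Rˣ)) ∘ e) =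
      fun a => (((v ∘ e) a : Rˣ) : R) + (((v ∘ e) a)⁻¹ : Rˣ) := rfl
  rw [h1, h]
  refine Fintype.prod_equiv e.finsetCongr _ _ fun T => ?_
  congr 1
  refine Fintype.prod_equiv e _ _ fun a => ?_
  congr 1
  simp [Fermat.Agent.H39Z.flip]

theorem IsAleph.rename_perm {P : MvPolynomial ι ℤ} (hP : IsAleph P) (e : Equiv.Perm ι) :
    rename e P = P :=
  (hP.rename_eq e).unique hP

theorem IsAleph.coeff_mapDomain {P : MvPolynomial ι ℤ} (hP : IsAleph P) (e : Equiv.Perm ι)
    (m : ι →₀ ℕ) : coeff (m.mapDomain e) P = coeff m P := by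
  conv_lhs => rw [← hP.rename_perm e]
  exact coeff_rename_mapDomain e e.injective P m

/-- Vanishing: if the product of the units is `1`. -/
theorem IsAleph.eq_zero {P : MvPolynomial ι ℤ} (hP : IsAleph P) {R : Type} [CommRing R]
    (v : ι → Rˣ) (T : Finset ι) (h : ∏ a, flip T v a = 1) :
    aeval (fun a => (v a : R) + ((v a)⁻¹ : Rˣ)) P = 0 := by
  rw [hP R v]
  refine Finset.prod_eq_zero (Finset.mem_univ T) ?_
  rw [← Units.coe_prod, h, Units.val_one, sub_self]

/-! ## Two blocks of variables: the places `w_i` (`i : ι`) and the archimedean variables (`j : J`) -/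

variable {J : Type} [Fintype J] [DecidableEq J]

/-- **Killing**: if `∏ S_i = ∏ t_j` (constant terms: `(a) = ∏ w_i`, `a = 1` mod the level) then the
aleph operator vanishes. -/
theorem IsAleph.kill {P : MvPolynomial (ι ⊕ J) ℤ} (hP : IsAleph P) {R : Type} [CommRing R]
    (S : ι → Rˣ) (t : J → Rˣ) (h : ∏ i, S i = ∏ j, t j) :
    aeval (Sum.elim (fun i => (S i : R) + ((S i)⁻¹ : Rˣ)) (fun j => (t j : R) + ((t j)⁻¹ : Rˣ))) P
      = 0 := by
  have h1 : (Sum.elim (fun i => (S i : R) + ((S i)⁻¹ : Rˣ)) (fun j => (t j : R) + ((t j)⁻¹ : Rˣ))) =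
      fun a => ((Sum.elim S t a : Rˣ) : R) + ((Sum.elim S t a)⁻¹ : Rˣ) := by
    funext a
    cases a <;> rfl
  rw [h1]
  refine hP.eq_zero (Sum.elim S t) (Finset.univ.map Function.Embedding.inr) ?_
  rw [Fintype.prod_sum_type]
  have h2 : ∀ i : ι, Fermat.Agent.H39Z.flip
      ((Finset.univ : Finset J).map (Function.Embedding.inr : J ↪ ι ⊕ J)) (Sum.elim S t)
      (Sum.inl i) = S i := by
    intro i
    simp [Fermat.Agent.H39Z.flip]
  have h3 : ∀ j : J, Fermat.Agent.H39Z.flip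
      ((Finset.univ : Finset J).map (Function.Embedding.inr : J ↪ ι ⊕ J)) (Sum.elim S t)
      (Sum.inr j) = (t j)⁻¹ := by
    intro j
    simp [Fermat.Agent.H39Z.flip]
  simp only [h2, h3, Finset.prod_inv_distrib]
  rw [h, mul_inv_cancel]

/-- **Value** at the target: all `v_i = ±I` at an odd number of places (trace `0`), all archimedean
variables `1` (value `2`). -/
theorem IsAleph.value_ne_zero {P : MvPolynomial (ι ⊕ J) ℤ} (hP : IsAleph P)
    (hodd : Odd (Fintype.card ι)) :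
    aeval (Sum.elim (fun _ : ι => (0 : ℂ)) (fun _ : J => (2 : ℂ))) P ≠ 0 := by
  have hI : Complex.I ≠ 0 := Complex.I_ne_zero
  set v : ι ⊕ J → ℂˣ := Sum.elim (fun _ => Units.mk0 Complex.I hI) (fun _ => 1) with hv
  have h1 : (Sum.elim (fun _ : ι => (0 : ℂ)) (fun _ : J => (2 : ℂ))) =
      fun a => ((v a : ℂˣ) : ℂ) + (((v a)⁻¹ : ℂˣ) : ℂ) := by
    funext a
    cases a with
    | inl i => simp [hv]
    | inr j => simp [hv]; norm_num
  rw [h1, hP ℂ v]
  refine Finset.prod_ne_zero_iff.2 fun T _ h0 => ?_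
  have h2 : ∏ a, ((Fermat.Agent.H39Z.flip T v a : ℂˣ) : ℂ) = 1 := (sub_eq_zero.1 h0).symm
  have h3 : ∏ a, ((Fermat.Agent.H39Z.flip T v a : ℂˣ) : ℂ) ^ 2 = 1 := by
    rw [Finset.prod_pow, h2, one_pow]
  rw [Fintype.prod_sum_type] at h3
  have h4 : ∀ i : ι, ((Fermat.Agent.H39Z.flip T v (Sum.inl i) : ℂˣ) : ℂ) ^ 2 = -1 := by
    intro i
    unfold Fermat.Agent.H39Z.flip
    split_ifs
    · simp [hv]
    · simp [hv]
  have h5 : ∀ j : J, ((Fermat.Agent.H39Z.flip T v (Sum.inr j) : ℂˣ) : ℂ) ^ 2 = 1 := by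
    intro j
    unfold Fermat.Agent.H39Z.flip
    split_ifs
    · simp [hv]
    · simp [hv]
  simp only [h4, h5, Finset.prod_const_one, mul_one, Finset.prod_const, Finset.card_univ,
    hodd.neg_one_pow] at h3
  norm_num at h3

theorem IsAleph.value_ne_zero_real {P : MvPolynomial (ι ⊕ J) ℤ} (hP : IsAleph P)
    (hodd : Odd (Fintype.card ι)) :
    aeval (Sum.elim (fun _ : ι => (0 : ℝ)) (fun _ : J => (2 : ℝ))) P ≠ 0 := by
  intro h
  apply hP.value_ne_zero hodd
  have h1 := congrArg (algebraMap ℝ ℂ) h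
  rw [map_zero, ← MvPolynomial.aeval_algebraMap_apply] at h1
  have h2 : (Sum.elim (fun _ : ι => (0 : ℂ)) (fun _ : J => (2 : ℂ))) =
      algebraMap ℝ ℂ ∘ (Sum.elim (fun _ : ι => (0 : ℝ)) (fun _ : J => (2 : ℝ))) := by
    funext a
    cases a with
    | inl i => simp
    | inr j => simp
  rw [h2]
  exact h1

end Fermat.Agent.H80Al
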