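import Fermat.Agent.H53Level
import Fermat.Agent.H53TW4

set_option autoImplicit false
set_option linter.style.haveILetI false
set_option linter.unusedSectionVars false

/-!
# A unipotent representation is unramified at `q` if the residual Frobenius is not of Steinberg type

`isUnramifiedAt_of_unipotent`: let `A` be a local ring which is Hausdorff for the `m`-adic topology,
`ρ : GaloisRepAdic A` with cyclotomic determinant, `q ≠ p` a prime with `q - 1` a unit in `A`, `ρ`
unipotent on the inertia groups at `q` and `(q + 1) ^ 2 - (tr ρ(φ)) ^ 2` a unit in `A` for one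
Frobenius element `φ`.  Then `ρ` is unramified at `q`.

This is used for the auxiliary prime `s ≡ 2 mod 3` of the levels at `p = 3`.
-/

noncomputable section

open IsLocalRing GaloisRep Polynomial

namespace Fermat.Agent.H80.Aux

open Fermat.Agent.H53

local notation "GQ" => (AlgebraicClosure ℚ ≃ₐ[ℚ] AlgebraicClosure ℚ)

/-! ### Matrices -/

/-- The polarised Cayley-Hamilton argument. -/
theorem eq_zero_of_rel {R : Type*} [CommRing R] (n Φ : Matrix (Fin 2) (Fin 2) R) (q : R)
    (htn : n.trace = 0) (hrel : Φ * n = q • (n * Φ)) (hdet : Φ.det = q)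
    (hq : IsUnit q) (hq1 : IsUnit (q - 1)) (hD : IsUnit ((q + 1) ^ 2 - Φ.trace ^ 2)) : n = 0 := by
  have htr : (n * Φ).trace = 0 := by
    have h1 : (Φ * n).trace = (q • (n * Φ)).trace := by rw [hrel]
    rw [Matrix.trace_mul_comm, Matrix.trace_smul, smul_eq_mul] at h1
    have h2 : (q - 1) * (n * Φ).trace = 0 := by
      rw [sub_mul, one_mul, ← h1, sub_self]
    exact (hq1.mul_right_eq_zero).mp h2
  set M : Matrix (Fin 2) (Fin 2) R := (1 + q) • Φ - Φ.trace • (1 : Matrix (Fin 2) (Fin 2) R)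
    with hM
  have hnM : n * M = 0 := by
    have e00 := congrFun (congrFun hrel 0) 0
    have e01 := congrFun (congrFun hrel 0) 1
    have e10 := congrFun (congrFun hrel 1) 0
    have e11 := congrFun (congrFun hrel 1) 1
    simp only [Matrix.mul_apply, Fin.sum_univ_two, Matrix.smul_apply, smul_eq_mul] at e00 e01 e10 e11
    rw [Matrix.trace_fin_two] at htn
    rw [Matrix.trace_fin_two, Matrix.mul_apply, Matrix.mul_apply, Fin.sum_univ_two,
      Fin.sum_univ_two] at htr
    ext i j
    rw [hM]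
    fin_cases i <;> fin_cases j <;>
      simp only [Matrix.mul_apply, Fin.sum_univ_two, Matrix.sub_apply, Matrix.smul_apply,
        smul_eq_mul, Matrix.trace_fin_two, Matrix.one_apply, Fin.zero_eta, Fin.mk_one,
        Fin.isValue, if_true, if_false, mul_one, mul_zero, sub_zero, Matrix.zero_apply,
        one_ne_zero, zero_ne_one]
    · linear_combination (-1 : R) * e00 + htr - Φ 1 1 * htn
    · linear_combination (-1 : R) * e01 + Φ 0 1 * htn
    · linear_combination (-1 : R) * e10 + Φ 1 0 * htn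
    · linear_combination (-1 : R) * e11 + htr - Φ 0 0 * htn
  have hMdet : M.det = q * ((q + 1) ^ 2 - Φ.trace ^ 2) := by
    rw [Matrix.det_fin_two] at hdet ⊢
    rw [hM]
    simp only [Matrix.sub_apply, Matrix.smul_apply, smul_eq_mul, Matrix.trace_fin_two,
      Matrix.one_apply, if_true, if_false, mul_one, mul_zero, sub_zero, one_ne_zero, zero_ne_one]
    linear_combination (1 + q) ^ 2 * hdet
  have h3 : n * (M * M.adjugate) = 0 := by rw [← mul_assoc, hnM, zero_mul]
  rw [Matrix.mul_adjugate, mul_smul_comm, mul_one, hMdet] at h3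
  have hu : IsUnit (q * ((q + 1) ^ 2 - Φ.trace ^ 2)) := hq.mul hD
  obtain ⟨u, hu⟩ := hu
  rw [← hu] at h3
  have h4 : (↑u⁻¹ : R) • ((u : R) • n) = 0 := by rw [h3, smul_zero]
  rwa [smul_smul, Units.inv_mul, one_smul] at h4

/-- powers of a unipotent matrix -/
theorem one_add_pow_of_sq {R : Type*} [CommRing R] {n : Matrix (Fin 2) (Fin 2) R}
    (hn : n * n = 0) (k : ℕ) : (1 + n) ^ k = 1 + (k : R) • n := by
  induction k with
  | zero => simp
  | succ k ih =>
    rw [pow_succ, ih, mul_add, mul_one, add_mul, one_mul, smul_mul_assoc, hn, smul_zero, add_zero]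
    push_cast
    rw [add_smul, one_smul]
    abel

theorem sq_eq_zero_of_charpoly {R : Type*} [CommRing R] {M : Matrix (Fin 2) (Fin 2) R}
    (h : M.charpoly = (X - 1) ^ 2) : (M - 1) * (M - 1) = 0 := by
  have h1 := Matrix.aeval_self_charpoly M
  rw [h, map_pow, map_sub, aeval_X, map_one, sq] at h1
  exact h1

theorem trace_sub_one_of_charpoly {R : Type*} [CommRing R] [Nontrivial R]
    {M : Matrix (Fin 2) (Fin 2) R} (h : M.charpoly = (X - 1) ^ 2) : (M - 1).trace = 0 := by
  have h1 : M.trace = 2 := by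
    rw [Matrix.trace_eq_neg_charpoly_coeff, h]
    have h2 : ((X - 1 : R[X]) ^ 2) = X ^ 2 - C 2 * X + 1 := by
      rw [map_ofNat]; ring
    rw [h2, Fintype.card_fin]
    simp [coeff_one]
  rw [Matrix.trace_sub, h1, Matrix.trace_one, Fintype.card_fin]
  norm_num

/-! ### Representations -/

variable {A : Type} [CommRing A] [IsLocalRing A] {p : ℕ} [Fact p.Prime]

omit [IsLocalRing A] in
theorem toMat_charpoly' [Nontrivial A] {V : Type} [AddCommGroup V] [Module A V]
    [Module.Free A V] [Module.Finite A V]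
    (ρ : GQ →* Module.End A V) (b : Module.Basis (Fin 2) A V) (σ : GQ) :
    (toMat ρ b σ).charpoly = LinearMap.charpoly (ρ σ) := by
  rw [toMat_apply, LinearMap.charpoly_toMatrix]

/-- **Unipotent implies unramified** when the residual Frobenius is not of Steinberg type and
`q - 1` is a unit. -/
theorem isUnramifiedAt_of_unipotent (hH : ∀ x : A, (∀ n, x ∈ maximalIdeal A ^ n) → x = 0)
    {q : ℕ} (hq : q.Prime) (hpq : p ≠ q) (ρ : GaloisRepAdic A) (hdet : ρ.DetIsCyclotomic p)
    (huni : ρ.IsUnipotentOnInertiaAt q) (hq1 : IsUnit ((q : A) - 1))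
    {P : ValuationSubring (AlgebraicClosure ℚ)} (hP : P.LiesOverPrime q) {φ : GQ}
    (hφ : P.IsFrobeniusAt φ q)
    (htr : IsUnit (((q : A) + 1) ^ 2 - (LinearMap.trace A ρ.V (ρ.ρ φ)) ^ 2)) :
    ρ.IsUnramifiedAt q := by
  have hpA : (p : A) ∈ maximalIdeal A := hdet.1
  let b : Module.Basis (Fin 2) A ρ.V := Module.finBasisOfFinrankEq A ρ.V ρ.finrank_eq
  have hqu : IsUnit (q : A) := by
    by_contra hcon
    have h1 : (q : A) ∈ maximalIdeal A := hcon
    have h2 : Nat.Coprime p q := (Nat.coprime_primes Fact.out hq).mpr hpq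
    have h3 : IsCoprime (p : ℤ) (q : ℤ) := Nat.isCoprime_iff_coprime.mpr h2
    obtain ⟨x, y, hxy⟩ := h3
    have h4 : ((x * p + y * q : ℤ) : A) = 1 := by rw [hxy, Int.cast_one]
    push_cast at h4
    have h5 : (1 : A) ∈ maximalIdeal A := by
      rw [← h4]
      exact Ideal.add_mem _ (Ideal.mul_mem_left _ _ hpA) (Ideal.mul_mem_left _ _ h1)
    exact (Ideal.ne_top_iff_one _).mp (maximalIdeal.isMaximal A).ne_top h5
  -- all inertia elements
  have hch : ∀ τ ∈ P.inertiaSubgroupIn ℚ, (toMat ρ.ρ b τ).charpoly = (X - 1) ^ 2 := fun τ hτ => by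
    rw [toMat_charpoly']; exact huni P hP τ hτ
  have hI : ∀ τ ∈ P.inertiaSubgroupIn ℚ, ∃ n, Cong (maximalIdeal A) (toMat ρ.ρ b τ ^ p ^ n) := by
    intro τ hτ
    refine ⟨1, ?_⟩
    set n := toMat ρ.ρ b τ - 1 with hn
    have h1 : toMat ρ.ρ b τ = 1 + n := by rw [hn]; abel
    have h2 : n * n = 0 := sq_eq_zero_of_charpoly (hch τ hτ)
    rw [pow_one, h1, one_add_pow_of_sq h2]
    intro i j
    rw [Matrix.add_apply, add_sub_cancel_left, Matrix.smul_apply, smul_eq_mul]
    exact Ideal.mul_mem_right _ _ hpA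
  obtain ⟨σ₀, hσ₀, hne⟩ := exists_tame_generator (p := p) hq hP hpq
  refine isUnramifiedAt_of_generator hq hP hpq hH hpA ρ b hI hσ₀ hne ?_
  set n := toMat ρ.ρ b σ₀ - 1 with hn
  have h1 : toMat ρ.ρ b σ₀ = 1 + n := by rw [hn]; abel
  have h2 : n * n = 0 := sq_eq_zero_of_charpoly (hch σ₀ hσ₀)
  have h3 : toMat ρ.ρ b φ * toMat ρ.ρ b σ₀ = toMat ρ.ρ b σ₀ ^ q * toMat ρ.ρ b φ :=
    frob_rel_eq hq hP hpq hpA (mcont_toMat ρ b) hI hH hσ₀ hφ
  rw [h1, one_add_pow_of_sq h2, mul_add, mul_one, add_mul, one_mul, smul_mul_assoc] at h3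
  have h4 : toMat ρ.ρ b φ * n = (q : A) • (n * toMat ρ.ρ b φ) := add_left_cancel h3
  have h5 : n = 0 := by
    refine eq_zero_of_rel n (toMat ρ.ρ b φ) (q : A) (trace_sub_one_of_charpoly (hch σ₀ hσ₀)) h4
      (det_frobenius hH hdet b hq hP hpq hφ) hqu hq1 ?_
    have h6 : (toMat ρ.ρ b φ).trace = LinearMap.trace A ρ.V (ρ.ρ φ) := by
      rw [toMat_apply, ← LinearMap.trace_eq_matrix_trace]
    rwa [h6]
  rw [h1, h5, add_zero]

end Fermat.Agent.H80.Aux
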