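import Fermat.Agent.H80Det
import Fermat.Agent.H20Inf2

/-! (P4b): trace identities at the elliptic points and the final count. -/

open UpperHalfPlane ModularForm MatrixGroups CongruenceSubgroup Filter Topology
open scoped Manifold Matrix

noncomputable section

namespace Fermat.Agent.H80

open Fermat.Agent.H20

variable {X : Type*} [MulAction SL(2, ℤ) X] [Fintype X] [DecidableEq X]
  {k : X → ℤ} {F : X → X → ℍ → ℂ}

theorem trace_Rg (g : SL(2, ℤ)) :
    (Rg g : Matrix X X ℂ).trace = (Nat.card (MulAction.fixedBy X g) : ℂ) := by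
  have h1 : ∀ x : X, (g⁻¹ • x = x) ↔ x ∈ MulAction.fixedBy X g := by
    intro x
    rw [inv_smul_eq_iff, MulAction.mem_fixedBy, eq_comm]
  simp only [Matrix.trace, Matrix.diag_apply, Rg, Matrix.of_apply, h1]
  rw [Finset.sum_boole, Nat.card_eq_card_toFinset]
  congr 2
  ext x
  simp

/-- **trace identity** at a fixed point. -/
theorem trace_fixed (h : IsFreeBasis X k F) {g : SL(2, ℤ)} {τ : ℍ} (hg : g • τ = τ) :
    (Nat.card (MulAction.fixedBy X g) : ℂ) =
      ∑ i, denom (g : GL (Fin 2) ℝ) τ ^ (-(k i)) := by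
  have hu := denom_ne_zero (g : GL (Fin 2) ℝ) τ
  set u := denom (g : GL (Fin 2) ℝ) τ with hu_def
  have h1 := fmat_smul (fun i => (h.vmf i).slash) g τ
  rw [hg] at h1
  set Φ := fmat F τ with hΦ
  have hdet : IsUnit Φ.det := isUnit_iff_ne_zero.2 (h.det_ne_zero τ)
  have h2 : Φ * Matrix.diagonal (fun i => u ^ (-(k i))) = Rg g * Φ := by
    conv_lhs => rw [h1]
    rw [Matrix.mul_assoc, Matrix.diagonal_mul_diagonal]
    have : (fun i => u ^ (k i) * u ^ (-(k i))) = fun _ => (1 : ℂ) := by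
      ext i
      rw [← zpow_add₀ hu, add_neg_cancel, zpow_zero]
    rw [← hu_def, this, Matrix.diagonal_one, Matrix.mul_one]
  have h3 : (Rg g : Matrix X X ℂ) = Φ * Matrix.diagonal (fun i => u ^ (-(k i))) * Φ⁻¹ := by
    rw [h2, Matrix.mul_assoc, Matrix.mul_nonsing_inv _ hdet, Matrix.mul_one]
  rw [← trace_Rg, h3, Matrix.trace_mul_comm, ← Matrix.mul_assoc, Matrix.nonsing_inv_mul _ hdet,
    Matrix.one_mul, Matrix.trace_diagonal]

theorem trace_S (h : IsFreeBasis X k F) :
    (Nat.card (MulAction.fixedBy X ModularGroup.S) : ℂ) = ∑ i, Complex.I ^ (-(k i)) := by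
  have h1 : ModularGroup.S • UpperHalfPlane.I = UpperHalfPlane.I :=
    ModularGroup.stabilizer_I.mpr (by simp)
  have h2 := trace_fixed h h1
  rwa [ModularGroup.denom_S] at h2

theorem trace_ST (h : IsFreeBasis X k F) :
    (Nat.card (MulAction.fixedBy X (ModularGroup.S * ModularGroup.T)) : ℂ) =
      ∑ i, ((UpperHalfPlane.ρ : ℂ) + 1) ^ (-(k i)) := by
  have h1 : (ModularGroup.S * ModularGroup.T) • UpperHalfPlane.ρ = UpperHalfPlane.ρ :=
    ModularGroup.stabilizer_ρ.mpr (by simp)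
  have hd : denom (ModularGroup.S * ModularGroup.T : SL(2, ℤ)) UpperHalfPlane.ρ =
      UpperHalfPlane.ρ + 1 := by
    rw [ModularGroup.denom_apply,
      show (ModularGroup.S * ModularGroup.T) 1 0 = 1 by decide,
      show (ModularGroup.S * ModularGroup.T) 1 1 = 1 by decide]
    simp
  have h2 := trace_fixed h h1
  rwa [hd] at h2

/-- number of basis elements of weight `w` -/
def wt (k : X → ℤ) (w : ℤ) : ℕ := (Finset.univ.filter fun i => k i = w).card

omit [MulAction SL(2, ℤ) X] [DecidableEq X] in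
theorem sum_weights {M : Type*} [AddCommMonoid M]
    (hk : ∀ i, k i ∈ ({0, 2, 4, 6, 8, 10} : Finset ℤ)) (f : ℤ → M) :
    ∑ i, f (k i) = wt k 0 • f 0 + wt k 2 • f 2 + wt k 4 • f 4 + wt k 6 • f 6 + wt k 8 • f 8
      + wt k 10 • f 10 := by
  classical
  rw [← Finset.sum_fiberwise_of_maps_to (s := Finset.univ) (t := {0, 2, 4, 6, 8, 10})
    (g := k) (fun i _ => hk i)]
  have h1 : ∀ w ∈ ({0, 2, 4, 6, 8, 10} : Finset ℤ),
      ∑ i ∈ Finset.univ.filter (fun i => k i = w), f (k i) = wt k w • f w := by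
    intro w _
    rw [Finset.sum_congr rfl (g := fun _ => f w) (fun i hi => by
      rw [(Finset.mem_filter.1 hi).2]), Finset.sum_const]
    rfl
  rw [Finset.sum_congr rfl h1]
  rw [Finset.sum_insert (by decide), Finset.sum_insert (by decide), Finset.sum_insert (by decide),
    Finset.sum_insert (by decide), Finset.sum_insert (by decide), Finset.sum_singleton]
  simp only [add_assoc]

/-- **The count of the weight 10 generators.** -/
theorem count_ten (h : IsFreeBasis X k F) (hneg : ∀ x : X, (-1 : SL(2, ℤ)) • x = x)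
    (hk0 : ∀ i, 0 ≤ k i) (hk1 : ∀ i, k i ≤ 10) (h0 : wt k 0 = 1) :
    (wt k 10 : ℚ) = 1 + (Nat.card X : ℚ) / 12
      - (Nat.card (MulAction.fixedBy X ModularGroup.S) : ℚ) / 4
      - (Nat.card (MulAction.fixedBy X (ModularGroup.S * ModularGroup.T)) : ℚ) / 3
      - (cuspNum X : ℚ) / 2 := by
  have hk : ∀ i, k i ∈ ({0, 2, 4, 6, 8, 10} : Finset ℤ) := by
    intro i
    have h1 := hk0 i
    have h2 := hk1 i
    obtain ⟨c, hc⟩ := h.even hneg i
    simp only [Finset.mem_insert, Finset.mem_singleton]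
    omega
  -- total number
  have e1 : (Nat.card X : ℤ) = wt k 0 + wt k 2 + wt k 4 + wt k 6 + wt k 8 + wt k 10 := by
    have := sum_weights hk (fun _ => (1 : ℤ))
    simpa [Nat.card_eq_fintype_card] using this
  -- weight sum
  have e2 : 6 * ((Nat.card X : ℤ) - cuspNum X) =
      2 * wt k 2 + 4 * wt k 4 + 6 * wt k 6 + 8 * wt k 8 + 10 * wt k 10 := by
    have := sum_weights hk (fun j => j)
    rw [Nat.card_eq_fintype_card, ← weight_sum h h.det_ne_zero hneg, this]
    simp only [nsmul_eq_mul]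
    ring
  -- trace of S
  have e3 : (Nat.card (MulAction.fixedBy X ModularGroup.S) : ℤ) =
      wt k 0 - wt k 2 + wt k 4 - wt k 6 + wt k 8 - wt k 10 := by
    have h1 := trace_S h
    rw [sum_weights hk (fun j => Complex.I ^ (-j))] at h1
    have i2 : Complex.I ^ (-2 : ℤ) = -1 := by
      rw [_root_.zpow_neg]; norm_num [zpow_ofNat, Complex.I_sq]
    have i4 : Complex.I ^ (-4 : ℤ) = 1 := by
      rw [show (-4 : ℤ) = -2 + -2 by norm_num, zpow_add₀ Complex.I_ne_zero, i2]; norm_num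
    have i6 : Complex.I ^ (-6 : ℤ) = -1 := by
      rw [show (-6 : ℤ) = -4 + -2 by norm_num, zpow_add₀ Complex.I_ne_zero, i2, i4]; norm_num
    have i8 : Complex.I ^ (-8 : ℤ) = 1 := by
      rw [show (-8 : ℤ) = -4 + -4 by norm_num, zpow_add₀ Complex.I_ne_zero, i4]; norm_num
    have i10 : Complex.I ^ (-10 : ℤ) = -1 := by
      rw [show (-10 : ℤ) = -8 + -2 by norm_num, zpow_add₀ Complex.I_ne_zero, i8, i2]; norm_num
    rw [i2, i4, i6, i8, i10, neg_zero, zpow_zero] at h1
    have h2 : ((Nat.card (MulAction.fixedBy X ModularGroup.S) : ℤ) : ℂ) =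
      ((wt k 0 - wt k 2 + wt k 4 - wt k 6 + wt k 8 - wt k 10 : ℤ) : ℂ) := by
      push_cast
      rw [h1]
      simp only [nsmul_eq_mul]
      ring
    exact_mod_cast h2
  -- trace of ST
  have e4 : (wt k 4 : ℤ) + wt k 10 = wt k 2 + wt k 8 ∧
      (Nat.card (MulAction.fixedBy X (ModularGroup.S * ModularGroup.T)) : ℤ) =
        wt k 0 + wt k 6 - (wt k 2 + wt k 8) := by
    have h1 := trace_ST h
    have hρ := UpperHalfPlane.ρ_sq
    have hu0 : ((UpperHalfPlane.ρ : ℂ) + 1) ≠ 0 := by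
      intro h5
      have := congrArg Complex.im h5
      simp [UpperHalfPlane.ρ] at this
    rw [sum_weights hk (fun j => ((UpperHalfPlane.ρ : ℂ) + 1) ^ (-j))] at h1
    have i2 : ((UpperHalfPlane.ρ : ℂ) + 1) ^ (-2 : ℤ) = -UpperHalfPlane.ρ - 1 := by
      rw [_root_.zpow_neg]
      refine inv_eq_of_mul_eq_one_right ?_
      rw [show ((2 : ℤ)) = ((2 : ℕ) : ℤ) by norm_num, zpow_natCast]
      linear_combination (-(UpperHalfPlane.ρ : ℂ) - 2) * hρ
    have i4 : ((UpperHalfPlane.ρ : ℂ) + 1) ^ (-4 : ℤ) = UpperHalfPlane.ρ := by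
      rw [show (-4 : ℤ) = -2 + -2 by norm_num, zpow_add₀ hu0, i2]
      linear_combination hρ
    have i6 : ((UpperHalfPlane.ρ : ℂ) + 1) ^ (-6 : ℤ) = 1 := by
      rw [show (-6 : ℤ) = -4 + -2 by norm_num, zpow_add₀ hu0, i2, i4]
      linear_combination -hρ
    have i8 : ((UpperHalfPlane.ρ : ℂ) + 1) ^ (-8 : ℤ) = -UpperHalfPlane.ρ - 1 := by
      rw [show (-8 : ℤ) = -6 + -2 by norm_num, zpow_add₀ hu0, i2, i6]
      ring
    have i10 : ((UpperHalfPlane.ρ : ℂ) + 1) ^ (-10 : ℤ) = UpperHalfPlane.ρ := by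
      rw [show (-10 : ℤ) = -6 + -4 by norm_num, zpow_add₀ hu0, i4, i6]
      ring
    rw [i2, i4, i6, i8, i10, neg_zero, zpow_zero] at h1
    simp only [nsmul_eq_mul] at h1
    have him := congrArg Complex.im h1
    have hre := congrArg Complex.re h1
    simp only [Complex.add_im, Complex.mul_im, Complex.natCast_im, Complex.natCast_re,
      Complex.one_im, Complex.one_re, Complex.neg_im, Complex.sub_im, Complex.sub_re,
      Complex.neg_re, Complex.add_re, Complex.mul_re, zero_mul, add_zero, sub_zero,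
      mul_one, UpperHalfPlane.ρ] at him hre
    have h3 : Real.sqrt 3 ≠ 0 := by positivity
    have him' : (wt k 4 : ℝ) + wt k 10 = wt k 2 + wt k 8 := by
      have : Real.sqrt 3 * ((wt k 4 : ℝ) + wt k 10 - (wt k 2 + wt k 8)) = 0 := by
        linear_combination (-2 : ℝ) * him
      have h5 := (mul_eq_zero.1 this).resolve_left h3
      linarith
    have hre' : (Nat.card (MulAction.fixedBy X (ModularGroup.S * ModularGroup.T)) : ℝ) =
        wt k 0 + wt k 6 - (wt k 2 + wt k 8) := by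
      linarith
    constructor
    · exact_mod_cast him'
    · have : ((Nat.card (MulAction.fixedBy X (ModularGroup.S * ModularGroup.T)) : ℤ) : ℝ) =
        ((wt k 0 + wt k 6 - (wt k 2 + wt k 8) : ℤ) : ℝ) := by
        push_cast
        exact hre'
      exact_mod_cast this
  obtain ⟨e4, e5⟩ := e4
  rw [h0] at *
  have q1 : (Nat.card X : ℚ) = 1 + wt k 2 + wt k 4 + wt k 6 + wt k 8 + wt k 10 := by
    exact_mod_cast e1
  have q2 : 6 * ((Nat.card X : ℚ) - cuspNum X) =
      2 * wt k 2 + 4 * wt k 4 + 6 * wt k 6 + 8 * wt k 8 + 10 * wt k 10 := by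
    exact_mod_cast e2
  have q3 : (Nat.card (MulAction.fixedBy X ModularGroup.S) : ℚ) =
      1 - wt k 2 + wt k 4 - wt k 6 + wt k 8 - wt k 10 := by
    exact_mod_cast e3
  have q4 : (wt k 4 : ℚ) + wt k 10 = wt k 2 + wt k 8 := by exact_mod_cast e4
  have q5 : (Nat.card (MulAction.fixedBy X (ModularGroup.S * ModularGroup.T)) : ℚ) =
        1 + wt k 6 - (wt k 2 + wt k 8) := by exact_mod_cast e5
  linarith

end Fermat.Agent.H80
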