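import Fermat.Agent.H80Free
import Fermat.Agent.H61Valence

/-! (P2): Serre derivative on vector valued forms, nonvanishing of the determinant of a
homogeneous basis. -/

open UpperHalfPlane ModularForm MatrixGroups CongruenceSubgroup Filter Topology
open scoped Manifold

noncomputable section

namespace Fermat.Agent.H80

open Fermat.Agent.H20 Derivative

/-- Cauchy estimate: the derivative of a holomorphic function bounded at `i∞` is bounded. -/
theorem bdd_normalizedDeriv {F : ℍ → ℂ} (hF : MDiff F) (hb : IsBoundedAtImInfty F) :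
    IsBoundedAtImInfty (normalizedDerivOfComplex F) := by
  rw [isBoundedAtImInfty_iff] at hb ⊢
  obtain ⟨M, A, hMA⟩ := hb
  refine ⟨‖(2 * Real.pi * Complex.I : ℂ)⁻¹‖ * M, max A 0 + 2, fun z hz => ?_⟩
  have hz' : max A 0 + 2 ≤ (z : ℂ).im := hz
  have him : ∀ w ∈ Metric.closedBall (z : ℂ) 1, max A 0 + 1 ≤ w.im := by
    intro w hw
    have h1 : |w.im - (z : ℂ).im| ≤ 1 := by
      have h2 := Complex.abs_im_le_norm (w - z)
      rw [Complex.sub_im] at h2
      exact h2.trans (by simpa [dist_eq_norm] using hw)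
    have h3 := (abs_le.1 h1).1
    linarith
  have hpos : ∀ w ∈ Metric.closedBall (z : ℂ) 1, 0 < w.im := by
    intro w hw
    have := him w hw
    have h2 : (0 : ℝ) ≤ max A 0 := le_max_right _ _
    linarith
  have hd : DifferentiableOn ℂ (F ∘ ofComplex) upperHalfPlaneSet :=
    UpperHalfPlane.mdifferentiable_iff.1 hF
  have key : ‖deriv (F ∘ ofComplex) (z : ℂ)‖ ≤ M / 1 := by
    refine Complex.norm_deriv_le_of_forall_mem_sphere_norm_le one_pos ?_ ?_
    · refine DifferentiableOn.diffContOnCl_ball (U := upperHalfPlaneSet) hd ?_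
      intro w hw
      exact hpos w hw
    · intro w hw
      have hw' := Metric.sphere_subset_closedBall hw
      have h1 : (F ∘ ofComplex) w = F ⟨w, hpos w hw'⟩ := by
        simp [ofComplex_apply_of_im_pos (hpos w hw')]
      rw [h1]
      refine hMA _ ?_
      have h4 := him w hw'
      have h5 : A ≤ max A 0 := le_max_left _ _
      show A ≤ w.im
      linarith
  rw [normalizedDerivOfComplex, norm_mul]
  have h6 : ‖deriv (F ∘ ofComplex) (z : ℂ)‖ ≤ M := by simpa using key
  gcongr

variable {X : Type*} [MulAction SL(2, ℤ) X] {k l : ℤ}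

/-- The Serre derivative of a vector valued modular form. -/
theorem vmf_serre {F : X → ℍ → ℂ} (hF : IsVMF X k F) :
    IsVMF X (k + 2) (fun x => serreDerivative k (F x)) where
  slash g x := by rw [serreDerivative_slash_equivariant (hF.holo x), hF.slash]
  holo x := serreDerivative_mdifferentiable _ (hF.holo x)
  bdd x := by
    have h1 := bdd_normalizedDeriv (hF.holo x) (hF.bdd x)
    have h2 : IsBoundedAtImInfty (fun z : ℍ =>
        (k : ℂ) * 12⁻¹ * EisensteinSeries.E2 z * F x z) := by
      have := (EisensteinSeries.isBoundedAtImInfty_E2.mul (hF.bdd x)).const_mul_left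
        ((k : ℂ) * 12⁻¹)
      refine (this.congr_left fun z => ?_).trans (Asymptotics.isBigO_of_le _ fun z => by simp)
      simp only [Pi.mul_apply]
      ring
    exact h1.sub h2

/-- derivative of a determinant -/
theorem hasDerivAt_det {n : Type*} [Fintype n] [DecidableEq n] {M : ℂ → Matrix n n ℂ}
    {M' : Matrix n n ℂ} {z : ℂ} (h : ∀ i j, HasDerivAt (fun z => M z i j) (M' i j) z) :
    HasDerivAt (fun z => (M z).det) (∑ i, ((M z).updateCol i (fun j => M' j i)).det) z := by
  have h1 : (fun z => (M z).det) = fun z => ∑ σ : Equiv.Perm n,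
      ((Equiv.Perm.sign σ : ℤ) : ℂ) * ∏ i, M z (σ i) i := by
    ext z
    rw [Matrix.det_apply']
  have h2 : ∑ i, ((M z).updateCol i (fun j => M' j i)).det = ∑ σ : Equiv.Perm n,
      ((Equiv.Perm.sign σ : ℤ) : ℂ) *
        ∑ i, (∏ j ∈ Finset.univ.erase i, M z (σ j) j) • M' (σ i) i := by
    simp only [Matrix.det_apply', Finset.mul_sum]
    rw [Finset.sum_comm]
    refine Finset.sum_congr rfl fun σ _ => Finset.sum_congr rfl fun i _ => ?_
    congr 1
    rw [← Finset.mul_prod_erase Finset.univ _ (Finset.mem_univ i)]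
    simp only [Matrix.updateCol_self, smul_eq_mul]
    rw [mul_comm]
    congr 1
    refine Finset.prod_congr rfl fun j hj => ?_
    rw [Matrix.updateCol_ne (Finset.ne_of_mem_erase hj)]
  rw [h1, h2]
  refine HasDerivAt.fun_sum fun σ _ => ?_
  refine HasDerivAt.const_mul _ ?_
  exact HasDerivAt.fun_finsetProd fun i _ => h (σ i) i

section

variable [Fintype X] [DecidableEq X] {k : X → ℤ} {F : X → X → ℍ → ℂ}

theorem det_mdiff (hF : ∀ i, IsVMF X (k i) (F i)) : MDiff (fun τ => (fmat F τ).det) := by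
  have h1 : (fun τ => (fmat F τ).det) = ∑ σ : Equiv.Perm X,
      (fun _ : ℍ => ((Equiv.Perm.sign σ : ℤ) : ℂ)) * ∏ i, F i (σ i) := by
    ext τ
    rw [Matrix.det_apply']
    simp [Finset.sum_apply, Finset.prod_apply]
  rw [h1]
  exact mdiff_sum _ fun σ _ => mdifferentiable_const.mul
    (mdiff_prod _ fun i _ => (hF i).holo _)

theorem hasDerivAt_of_mdiff {f : ℍ → ℂ} (hf : MDiff f) (τ : ℍ) :
    HasDerivAt (f ∘ ofComplex) (2 * Real.pi * Complex.I * normalizedDerivOfComplex f τ) τ := by
  have h := (UpperHalfPlane.mdifferentiableAt_iff.mp (hf τ)).hasDerivAt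
  have : (2 * Real.pi * Complex.I * normalizedDerivOfComplex f τ) =
      deriv (f ∘ ofComplex) τ := by
    rw [normalizedDerivOfComplex]
    have : (2 * Real.pi * Complex.I : ℂ) ≠ 0 := by simp [Real.pi_ne_zero]
    field_simp
  rwa [this]

theorem normalizedDeriv_of_hasDerivAt {f : ℍ → ℂ} {τ : ℍ} {d : ℂ}
    (h : HasDerivAt (f ∘ ofComplex) (2 * Real.pi * Complex.I * d) τ) :
    normalizedDerivOfComplex f τ = d := by
  rw [normalizedDerivOfComplex, h.deriv]
  have : (2 * Real.pi * Complex.I : ℂ) ≠ 0 := by simp [Real.pi_ne_zero]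
  field_simp

/-- The Serre derivative of the members of a homogeneous basis. -/
theorem serre_basis (h : IsFreeBasis X k F) :
    ∃ a : X → X → ℍ → ℂ, (∀ i j, IsL1 (k i + 2 - k j) (a i j)) ∧ (∀ i, a i i = 0) ∧
      ∀ i x τ, normalizedDerivOfComplex (F i x) τ =
        ∑ j, a i j τ * F j x τ + (k i : ℂ) / 12 * EisensteinSeries.E2 τ * F i x τ := by
  choose a ha hs using fun i => h.span _ _ (vmf_serre (h.vmf i))
  refine ⟨a, ha, fun i => l1_two ((ha i i).cast (by ring)), fun i x τ => ?_⟩
  have := congrFun (hs i x) τ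
  simp only [serreDerivative_apply, Finset.sum_apply, Pi.mul_apply] at this
  linear_combination this

/-- **The determinant of a homogeneous basis satisfies `D d = (K/12) E₂ d`.** -/
theorem deriv_det (h : IsFreeBasis X k F) (τ : ℍ) :
    normalizedDerivOfComplex (fun τ => (fmat F τ).det) τ =
      ((∑ i, k i : ℤ) : ℂ) / 12 * EisensteinSeries.E2 τ * (fmat F τ).det := by
  obtain ⟨a, -, ha, hs⟩ := serre_basis h
  set c : X → X → ℂ := fun i j => 2 * Real.pi * Complex.I *
    (a i j τ + if i = j then (k i : ℂ) / 12 * EisensteinSeries.E2 τ else 0) with hc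
  have h1 : ∀ x i, HasDerivAt (fun z => F i x (ofComplex z)) (∑ j, c i j • fmat F τ x j) τ := by
    intro x i
    have h2 := hasDerivAt_of_mdiff ((h.vmf i).holo x) τ
    refine HasDerivAt.congr_deriv h2 ?_
    rw [hs]
    simp only [hc, fmat_apply, smul_eq_mul, mul_add, add_mul, Finset.sum_add_distrib,
      Finset.mul_sum]
    congr 1
    · exact Finset.sum_congr rfl fun j _ => by ring
    · simp only [mul_ite, mul_zero, ite_mul, zero_mul, Finset.sum_ite_eq, Finset.mem_univ,
        if_true]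
      ring
  have h3 := hasDerivAt_det (M := fun z => fmat F (ofComplex z))
    (M' := Matrix.of fun x i => ∑ j, c i j • fmat F τ x j) (z := (τ : ℂ)) (fun x i => h1 x i)
  refine normalizedDeriv_of_hasDerivAt ?_
  have h4 : (fun z => (fmat F (ofComplex z)).det) = (fun τ => (fmat F τ).det) ∘ ofComplex := rfl
  rw [h4] at h3
  convert h3 using 1
  have h5 : ∀ i, ((fmat F (ofComplex (τ : ℂ))).updateCol i
      (fun x => (Matrix.of fun x i => ∑ j, c i j • fmat F τ x j) x i)).det =
      c i i * (fmat F τ).det := by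
    intro i
    rw [ofComplex_apply]
    exact Matrix.det_updateCol_sum (fmat F τ) i (c i)
  rw [Finset.sum_congr rfl fun i _ => h5 i, ← Finset.sum_mul]
  simp only [hc, ha, Pi.zero_apply, zero_add, if_true]
  push_cast
  rw [← Finset.mul_sum, ← Finset.sum_mul, ← Finset.sum_div]
  ring

/-- **(P2)**: `d^12 = c Δ^K`. -/
theorem det_pow_twelve (h : IsFreeBasis X k F) :
    ∃ c : ℂ, c ≠ 0 ∧ ∀ τ, (fmat F τ).det ^ 12 = c * discriminant τ ^ (∑ i, k i) := by
  set K : ℤ := ∑ i, k i with hK
  set d : ℍ → ℂ := fun τ => (fmat F τ).det with hd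
  have hdm : MDiff d := det_mdiff h.vmf
  have hΔm : MDiff discriminant := isL1_Δ.holo
  set Q : ℂ → ℂ := fun z => (d ∘ ofComplex) z ^ 12 * ((discriminant ∘ ofComplex) z) ^ (-K) with hQ
  have hΔ0 : ∀ z, (discriminant ∘ ofComplex) z ≠ 0 := fun z => discriminant_ne_zero _
  have hder : ∀ τ : ℍ, HasDerivAt Q 0 τ := by
    intro τ
    have h1 := (hasDerivAt_of_mdiff hdm τ).pow 12
    have h2 := (hasDerivAt_zpow (-K) _ (Or.inl (hΔ0 τ))).comp _ (hasDerivAt_of_mdiff hΔm τ)
    have h3 := h1.mul h2
    refine h3.congr_deriv ?_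
    have h4 : normalizedDerivOfComplex d τ = (K : ℂ) / 12 * EisensteinSeries.E2 τ * d τ :=
      deriv_det h τ
    have h5 := Fermat.Agent.H61.deriv_disc τ
    rw [h4, h5]
    simp only [Pi.pow_apply, Function.comp_apply, ofComplex_apply]
    have h6 : discriminant τ ^ (-K) = discriminant τ ^ (-K - 1) * discriminant τ := by
      rw [zpow_sub_one₀ (discriminant_ne_zero τ)]
      field_simp [discriminant_ne_zero τ]
    rw [h6]
    push_cast
    ring
  have hconst : ∀ τ : ℍ, Q τ = Q I := by
    intro τ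
    refine IsOpen.is_const_of_deriv_eq_zero isOpen_upperHalfPlaneSet
      (convex_halfSpace_im_gt 0).isPreconnected ?_ ?_ τ.2 I.2
    · intro z hz
      exact (hder ⟨z, hz⟩).differentiableAt.differentiableWithinAt
    · intro z hz
      exact (hder ⟨z, hz⟩).deriv
  obtain ⟨τ₀, hτ₀⟩ := h.det_ne
  have hQv : ∀ τ : ℍ, Q τ = d τ ^ 12 * discriminant τ ^ (-K) := fun τ => by
    simp [hQ, ofComplex_apply]
  refine ⟨Q I, ?_, fun τ => ?_⟩
  · rw [← hconst τ₀, hQv]
    exact mul_ne_zero (pow_ne_zero _ hτ₀) (zpow_ne_zero _ (discriminant_ne_zero _))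
  · rw [← hconst τ, hQv, mul_assoc, ← zpow_add₀ (discriminant_ne_zero _)]
    simp [hd]

/-- **(P2)**: the determinant of a homogeneous basis has no zeros. -/
theorem _root_.Fermat.Agent.H20.IsFreeBasis.det_ne_zero (h : IsFreeBasis X k F) (τ : ℍ) :
    (fmat F τ).det ≠ 0 := by
  obtain ⟨c, hc, hcd⟩ := det_pow_twelve h
  intro h0
  have := hcd τ
  rw [h0, zero_pow (by norm_num)] at this
  exact mul_ne_zero hc (zpow_ne_zero _ (discriminant_ne_zero _)) this.symm

end

end Fermat.Agent.H80
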