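import Fermat.Agent.H98Model
import Fermat.Agent.H52Congr

set_option autoImplicit false

/-!
# H80Switch: the 3-5 switch keeping the bad primes (for LT-MOD2: partner multiplicative at 2)
-/

open WeierstrassCurve

namespace Fermat.Agent.H80

open Fermat.Agent.H98

/-- The 3-5 switch of S52, keeping the bad primes of `W` (in particular multiplicative reduction at 2):
`W'.Δ` is a multiple of `W.Δ`. Proof: the one of `Fermat.Agent.H98.s52_of_congr5` (helper98). -/
theorem s52_dvd_of_congr5 (hB : Congr5) (W : WeierstrassCurve ℤ) (hΔ : W.Δ ≠ 0)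
    (hW : W.IsSemistableModel) :
    ∃ W' : WeierstrassCurve ℤ, W'.Δ ≠ 0 ∧ W'.IsSemistableModel ∧ W'.ModRepIsIrreducible 3 ∧
      W.Δ ∣ W'.Δ ∧
      ∀ ℓ : ℕ, ℓ.Prime → W.IsGoodPrimeFor ℓ → W'.IsGoodPrimeFor ℓ → ℓ ≠ 5 →
        (5 : ℤ) ∣ (W'.apOfModel ℓ - W.apOfModel ℓ) := by
  set a := W.c₄ with ha
  set b := W.c₆ with hb
  have hrel : a ^ 3 - b ^ 2 = 1728 * W.Δ := W.c_relation.symm
  have hab : a ^ 3 - b ^ 2 ≠ 0 := by
    rw [hrel]; exact mul_ne_zero (by norm_num) hΔ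
  set K : ℤ := 330 * (a ^ 3 - b ^ 2) with hK
  have hK0 : K ≠ 0 := mul_ne_zero (by norm_num) hab
  set M : ℤ := 48 * 864 * |K| with hM
  have hM1 : 1 ≤ M := by
    have : 1 ≤ |K| := Int.one_le_abs hK0
    rw [hM]; omega
  have hKM : 48 * 864 * K ∣ M := by
    rw [hM]
    exact mul_dvd_mul_left _ ((dvd_abs K K).mpr dvd_rfl)
  obtain ⟨t, hMt, hnoroot⟩ := exists_no_root a b M hab hM1
    ((Dvd.intro_left (48 * 864) rfl : 330 * (a ^ 3 - b ^ 2) ∣ 48 * 864 * K).trans hKM)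
  obtain ⟨s, hs⟩ : 48 * 864 * K ∣ t := hKM.trans hMt
  obtain ⟨x, hx⟩ := sub_dvd_C20_sub a b t 0
  obtain ⟨y, hy⟩ := sub_dvd_C30_sub a b t 0
  obtain ⟨w, hw⟩ := sub_dvd_D12_sub a b t 0
  rw [C20_zero, sub_zero] at hx
  rw [C30_zero, sub_zero] at hy
  rw [D12_zero, sub_zero] at hw
  obtain ⟨W', hc4, hc6, h1, h2, h3, h4, h6⟩ := exists_model W K (s * x) (s * y)
  have hc4' : W'.c₄ = C20 a b t := by
    rw [hc4, ← ha]
    have : C20 a b t = a + t * x := by linarith
    rw [this, hs]; ring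
  have hc6' : W'.c₆ = C30 a b t := by
    rw [hc6, ← hb]
    have : C30 a b t = b + t * y := by linarith
    rw [this, hs]; ring
  have hΔ' : W'.Δ = W.Δ * D12 a b t ^ 5 := by
    have h := W'.c_relation
    rw [hc4', hc6', C20_pow_sub_C30_sq, hrel] at h
    have h1728 : (1728 : ℤ) ≠ 0 := by norm_num
    apply mul_left_cancel₀ h1728
    rw [h]; ring
  have hKt : K ∣ t := ⟨48 * 864 * s, by rw [hs]; ring⟩
  -- primes dividing K do not divide D
  have hKD : ∀ q : ℤ, Prime q → q ∣ K → ¬ q ∣ D12 a b t := by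
    intro q hq hqK hqD
    have h7 : q ∣ D12 a b t - 1 := by
      rw [hw]; exact (hqK.trans hKt).mul_right _
    have h8 : q ∣ 1 := by
      have := dvd_sub hqD h7
      rwa [sub_sub_cancel] at this
    exact hq.not_isUnit (isUnit_of_dvd_one h8)
  have hD0 : D12 a b t ≠ 0 := by
    intro h0
    exact hKD 2 Int.prime_two ⟨165 * (a ^ 3 - b ^ 2), by rw [hK]; ring⟩ (h0 ▸ dvd_zero 2)
  have hΔ'0 : W'.Δ ≠ 0 := by
    rw [hΔ']; exact mul_ne_zero hΔ (pow_ne_zero 5 hD0)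
  refine ⟨W', hΔ'0, ?_, ?_, Dvd.intro _ hΔ'.symm, ?_⟩
  · -- semistable
    intro p hp hpΔ hpc
    have hpr : Prime (p : ℤ) := Nat.prime_iff_prime_int.mp hp
    rw [hΔ'] at hpΔ
    rw [hc4'] at hpc
    by_cases hpK : (p : ℤ) ∣ K
    · have hpD := hKD p hpr hpK
      have hpΔ0 : (p : ℤ) ∣ W.Δ := by
        rcases hpr.dvd_or_dvd hpΔ with h | h
        · exact h
        · exact absurd (hpr.dvd_of_dvd_pow h) hpD
      refine hW p hp hpΔ0 ?_
      rw [← ha]
      have h7 : (p : ℤ) ∣ C20 a b t - a := by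
        rw [hx]; exact (hpK.trans hKt).mul_right _
      have := dvd_sub hpc h7
      rwa [sub_sub_cancel] at this
    · have hpD : (p : ℤ) ∣ D12 a b t := by
        rcases hpr.dvd_or_dvd hpΔ with h | h
        · exfalso
          apply hpK
          rw [hK, hrel]
          exact (h.mul_left _).mul_left _
        · exact hpr.dvd_of_dvd_pow h
      refine not_dvd_C20 hpr a b t hpD ?_ hpc
      intro h
      apply hpK
      have e : K = 11 * (30 * (a ^ 3 - b ^ 2)) := by rw [hK]; ring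
      rw [e]; exact h.mul_left _
  · -- irreducible mod 3
    apply modRepIsIrreducible_three W' hΔ'0
    rw [hc4', hc6']
    exact hnoroot
  · -- congruence
    intro ℓ hℓ hg hg' hℓ5
    have : Fact ℓ.Prime := ⟨hℓ⟩
    by_cases hℓK : (ℓ : ℤ) ∣ K
    · have : W'.apOfModel ℓ = W.apOfModel ℓ := by
        unfold WeierstrassCurve.apOfModel
        rw [reductionMod_eq h1 h2 h3 h4 h6 hℓK]
      rw [this, sub_self]
      exact dvd_zero _
    · -- the generic case
      have hpr : Prime (ℓ : ℤ) := Nat.prime_iff_prime_int.mp hℓ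
      have h30 : (30 : ZMod ℓ) ≠ 0 := by
        intro h
        apply hℓK
        have h' : (ℓ : ℤ) ∣ 30 := (ZMod.intCast_zmod_eq_zero_iff_dvd 30 ℓ).mp (by exact_mod_cast h)
        rw [hK]
        exact (h'.mul_right (11 * (a ^ 3 - b ^ 2))).trans ⟨1, by ring⟩
      have h6' : (6 : ZMod ℓ) ≠ 0 := by
        intro h
        apply h30
        have : (30 : ZMod ℓ) = 5 * 6 := by norm_num
        rw [this, h, mul_zero]
      have hcast : ∀ n : ℤ, ¬ (ℓ : ℤ) ∣ n → ((n : ℤ) : ZMod ℓ) ≠ 0 := by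
        intro n hn h
        exact hn ((ZMod.intCast_zmod_eq_zero_iff_dvd n ℓ).mp h)
      have hab' : ((a : ZMod ℓ)) ^ 3 - (b : ZMod ℓ) ^ 2 ≠ 0 := by
        have := hcast (a ^ 3 - b ^ 2) (fun h => hℓK (by rw [hK]; exact h.mul_left _))
        exact_mod_cast this
      have hmapD : D12 (a : ZMod ℓ) (b : ZMod ℓ) (t : ZMod ℓ) = ((D12 a b t : ℤ) : ZMod ℓ) :=
        (map_D12 (Int.castRingHom (ZMod ℓ)) a b t).symm
      have hmapC4 : C20 (a : ZMod ℓ) (b : ZMod ℓ) (t : ZMod ℓ) = ((C20 a b t : ℤ) : ZMod ℓ) :=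
        (map_C20 (Int.castRingHom (ZMod ℓ)) a b t).symm
      have hmapC6 : C30 (a : ZMod ℓ) (b : ZMod ℓ) (t : ZMod ℓ) = ((C30 a b t : ℤ) : ZMod ℓ) :=
        (map_C30 (Int.castRingHom (ZMod ℓ)) a b t).symm
      have hD' : D12 (a : ZMod ℓ) (b : ZMod ℓ) (t : ZMod ℓ) ≠ 0 := by
        rw [hmapD]
        apply hcast
        intro h
        apply hg'
        rw [hΔ']
        exact (h.pow (by norm_num)).mul_left _
      have key := hB ℓ (a : ZMod ℓ) (b : ZMod ℓ) (t : ZMod ℓ) h30 hab' hD'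
      have e1 : (W.reductionMod ℓ).c₄ = (a : ZMod ℓ) := by
        unfold WeierstrassCurve.reductionMod
        rw [WeierstrassCurve.map_c₄]; simp [ha]
      have e2 : (W.reductionMod ℓ).c₆ = (b : ZMod ℓ) := by
        unfold WeierstrassCurve.reductionMod
        rw [WeierstrassCurve.map_c₆]; simp [hb]
      have e3 : (W'.reductionMod ℓ).c₄ = ((C20 a b t : ℤ) : ZMod ℓ) := by
        unfold WeierstrassCurve.reductionMod
        rw [WeierstrassCurve.map_c₄, hc4']; simp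
      have e4 : (W'.reductionMod ℓ).c₆ = ((C30 a b t : ℤ) : ZMod ℓ) := by
        unfold WeierstrassCurve.reductionMod
        rw [WeierstrassCurve.map_c₆, hc6']; simp
      have f1 := card_short h6' (W.reductionMod ℓ)
      have f2 := card_short h6' (W'.reductionMod ℓ)
      rw [e1, e2] at f1
      rw [e3, e4] at f2
      rw [hmapC4, hmapC6, f1, f2] at key
      unfold WeierstrassCurve.apOfModel WeierstrassCurve.traceOfFrobenius WeierstrassCurve.card
      have e : ((Nat.card (ZMod ℓ) : ℤ) + 1 - (Nat.card (W'.reductionMod ℓ).toAffine.Point : ℤ)) -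
          ((Nat.card (ZMod ℓ) : ℤ) + 1 - (Nat.card (W.reductionMod ℓ).toAffine.Point : ℤ)) =
          -((Nat.card (W'.reductionMod ℓ).toAffine.Point : ℤ) -
            (Nat.card (W.reductionMod ℓ).toAffine.Point : ℤ)) := by ring
      rw [e]
      exact (dvd_neg).mpr key

/-- Unconditional 3-5 switch with `W.Δ ∣ W'.Δ`. -/
theorem s52_dvd (W : WeierstrassCurve ℤ) (hΔ : W.Δ ≠ 0) (hW : W.IsSemistableModel) :
    ∃ W' : WeierstrassCurve ℤ, W'.Δ ≠ 0 ∧ W'.IsSemistableModel ∧ W'.ModRepIsIrreducible 3 ∧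
      W.Δ ∣ W'.Δ ∧
      ∀ ℓ : ℕ, ℓ.Prime → W.IsGoodPrimeFor ℓ → W'.IsGoodPrimeFor ℓ → ℓ ≠ 5 →
        (5 : ℤ) ∣ (W'.apOfModel ℓ - W.apOfModel ℓ) :=
  s52_dvd_of_congr5 Fermat.Agent.H52.congr5 W hΔ hW

end Fermat.Agent.H80
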