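import Mathlib
import Fermat.Prelude.Def_WeierstrassCurve_Mlc1RowStatement
import Fermat.Agent.H4FreySemistable
import Fermat.Agent.H45GlueB
import Fermat.Agent.H80Switch
import Fermat.Agent.H1Root
import Fermat.Agent.S02
import Fermat.Agent.S07
import Fermat.Agent.S51

set_option autoImplicit false

/-!
# H80Final: final glue from the LT-MOD2 output to S04, S03, S01

Inputs (exact hypotheses):
* `LTEven` : residual modularity at 3 for semistable curves with `2 ∣ Δ` (output of LT-MOD2)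
* `Stmt59` : statement S59
* `Stmt45` : statement S45, `Stmt09` : statement S09
-/

open WeierstrassCurve CuspForm

namespace Fermat.Agent.H80

/-- Output of LT-MOD2: residual modularity of `W[3]` for semistable `W` multiplicative at `2`. -/
def LTEven : Prop :=
  ∀ W : WeierstrassCurve ℤ, W.Δ ≠ 0 → W.IsSemistableModel → (2 : ℤ) ∣ W.Δ →
    W.ModRepIsIrreducible 3 →
    ∃ M : ℕ, 0 < M ∧ W.IsResiduallyModularOfLevel 3 M ∧ ¬ 3 ^ 2 ∣ M ∧
      ∀ q : ℕ, q.Prime → q ≠ 3 → ¬ q ^ 3 ∣ M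

/-- Statement S59. -/
def Stmt59 : Prop :=
  ∀ (p : ℕ) (_ : p = 3 ∨ p = 5)
    (W : WeierstrassCurve ℤ) (_ : W.Δ ≠ 0) (_ : W.IsSemistableModel) (_ : W.ModRepIsIrreducible p)
    (M₀ : ℕ) [NeZero M₀] (_ : W.IsResiduallyModularOfLevel p M₀)
    (_ : ¬ p ^ 2 ∣ M₀)
    (_ : ∀ q : ℕ, q.Prime → q ≠ p → ¬ q ^ 3 ∣ M₀),
    Mlc1IsModularModelOfExactConductorLevel W

/-- modularity (exact conductor level) in the irreducible mod 3 case -/
theorem exactConductor_of_three (hLT : LTEven) (h59 : Stmt59) (W : WeierstrassCurve ℤ)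
    (hΔ : W.Δ ≠ 0) (hW : W.IsSemistableModel) (h2 : (2 : ℤ) ∣ W.Δ)
    (h3 : W.ModRepIsIrreducible 3) : Mlc1IsModularModelOfExactConductorLevel W := by
  obtain ⟨M, hM, hres, h9, hcube⟩ := hLT W hΔ hW h2 h3
  haveI : NeZero M := ⟨hM.ne'⟩
  exact h59 3 (Or.inl rfl) W hΔ hW h3 M hres h9 hcube

/-- Every semistable curve with multiplicative reduction at `2` is modular of exact conductor
level. -/
theorem exactConductor_of_even (hLT : LTEven) (h59 : Stmt59) (W : WeierstrassCurve ℤ)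
    (hΔ : W.Δ ≠ 0) (hW : W.IsSemistableModel) (h2 : (2 : ℤ) ∣ W.Δ) :
    Mlc1IsModularModelOfExactConductorLevel W := by
  rcases Fermat.Agent.S51.result W hΔ hW with h3 | h5
  · exact exactConductor_of_three hLT h59 W hΔ hW h2 h3
  · obtain ⟨W', hΔ', hW', h3', hdvd, hcong⟩ := s52_dvd W hΔ hW
    obtain ⟨N, hN, hsq, hex, f, hf, hcoeff⟩ :=
      exactConductor_of_three hLT h59 W' hΔ' hW' (h2.trans hdvd) h3'
    obtain ⟨𝔪, hmax, hpm⟩ := FLTPrelim.exists_maximalIdeal_natCast_prime_mem (p := 5) (by norm_num)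
    have hres : W.IsResiduallyModularOfLevel 5 N := by
      refine ⟨f, 𝔪, hf, hmax, hpm, fun ℓ hℓ hgood hℓN hℓ5 => ?_⟩
      have hgood' : W'.IsGoodPrimeFor ℓ := fun h => hℓN ((hex ℓ hℓ).mpr h)
      refine ⟨((W'.apOfModel ℓ : ℤ) : integralClosure ℤ ℂ), ?_, ?_⟩
      · rw [hcoeff ℓ hℓ hgood' hℓN]; push_cast; rfl
      · obtain ⟨k, hk⟩ := hcong ℓ hℓ hgood hgood' hℓ5
        have e : ((W'.apOfModel ℓ : ℤ) : integralClosure ℤ ℂ) - ((W.apOfModel ℓ : ℤ) : integralClosure ℤ ℂ)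
            = ((5 : ℕ) : integralClosure ℤ ℂ) * ((k : ℤ) : integralClosure ℤ ℂ) := by
          rw [← Int.cast_sub, hk]; push_cast; rfl
        rw [e]
        exact 𝔪.mul_mem_right _ hpm
    haveI : NeZero N := ⟨hN.ne'⟩
    have hsqf := Nat.squarefree_iff_prime_squarefree.mp hsq
    refine h59 5 (Or.inr rfl) W hΔ hW h5 N hres (fun h => hsqf 5 (by norm_num) (by rwa [← pow_two]))
      fun q hq _ h => hsqf q hq ((Dvd.intro _ (by ring : q * q * q = q ^ 3)).trans h)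

theorem two_dvd_freyCurveInt_Δ (P : FreyPackage) : (2 : ℤ) ∣ P.freyCurveInt.Δ := by
  have h1 := Fermat.Agent.H4.freyCurveInt_Δ P
  have h2 : (32 : ℤ) ∣ P.b ^ P.p := Fermat.Agent.H4.freyB_dvd P
  obtain ⟨k, hk⟩ := h2
  have h3 : 256 * P.freyCurveInt.Δ = 1024 * (P.a ^ P.p * k * P.c ^ P.p) ^ 2 := by
    rw [h1, hk]; ring
  omega

/-- S04 from the LT output and S59. -/
theorem frey_isModular_of (hLT : LTEven) (h59 : Stmt59) (P : FreyPackage) :
    Mlc1IsModularModelOfExactConductorLevel P.freyCurveInt ∧ P.freyCurve.IsModular := by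
  have h := exactConductor_of_even hLT h59 P.freyCurveInt (Fermat.Agent.H4.freyCurveInt_Δ_ne_zero P)
    (Fermat.Agent.H4.freyCurveInt_isSemistableModel P) (two_dvd_freyCurveInt_Δ P)
  refine ⟨h, P.freyCurveInt, Fermat.Agent.H4.freyCurveInt_isIntegralModelOf P, ?_⟩
  obtain ⟨N, hN, -, -, hmod⟩ := h
  exact ⟨N, hN, hmod⟩

/-- Statement S45. -/
def Stmt45 : Prop :=
  ∀ (P : FreyPackage), P.freyCurve.IsModular →
    WeierstrassCurve.Affine.Point.GaloisRepIsIrreducible (K := AlgebraicClosure ℚ) ℚ P.freyCurve P.p →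
    ∃ f : CuspForm (CongruenceSubgroup.Gamma0 2) 2, f ≠ 0

/-- Statement S09. -/
def Stmt09 : Prop :=
  ∀ (P : FreyPackage),
    WeierstrassCurve.Affine.Point.GaloisRepIsIrreducible (K := AlgebraicClosure ℚ) ℚ P.freyCurve P.p

/-- S03 from LT, S59, S45, S09. -/
theorem false_of (hLT : LTEven) (h59 : Stmt59) (h45 : Stmt45) (h09 : Stmt09) (P : FreyPackage) :
    False := by
  obtain ⟨f, hf⟩ := h45 P (frey_isModular_of hLT h59 P).2 (h09 P)
  exact hf (Fermat.Agent.S07.result f)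

/-- S01 from LT, S59, S45, S09. -/
theorem flt_of (hLT : LTEven) (h59 : Stmt59) (h45 : Stmt45) (h09 : Stmt09)
    (n : ℕ) (hn : 3 ≤ n) (a b c : ℕ) (ha : 0 < a) (hb : 0 < b) (hc : 0 < c) :
    a ^ n + b ^ n ≠ c ^ n :=
  Fermat.Agent.H1.flt_of_freyPackage
    (fun a b c ha hb hc p pp hp5 H => Fermat.Agent.S02.result a b c ha hb hc p pp hp5 H)
    (false_of hLT h59 h45 h09) n hn a b c ha hb hc

end Fermat.Agent.H80
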