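import Fermat.Agent.H80Level1

/-! Existence of a homogeneous basis of the module of vector valued modular forms:
regular sequence argument plus a rank bound. -/

open UpperHalfPlane ModularForm MatrixGroups CongruenceSubgroup Filter Topology
open scoped Manifold

noncomputable section

namespace Fermat.Agent.H80

open Fermat.Agent.H20

variable {X : Type*} [MulAction SL(2, ℤ) X] {k l : ℤ}

theorem vmf_smul {F : X → ℍ → ℂ} (hF : IsVMF X k F) (c : ℂ) :
    IsVMF X k (fun x z => c * F x z) :=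
  ((IsVMF.l1_mul (IsL1.const c) hF).cast (zero_add k))

theorem vmf_mul {F F' : X → ℍ → ℂ} (hF : IsVMF X k F) (hF' : IsVMF X l F') :
    IsVMF X (k + l) (fun x => F x * F' x) where
  slash g x := by rw [mul_slash_SL2, hF.slash, hF'.slash]
  holo x := (hF.holo x).mul (hF'.holo x)
  bdd x := (hF.bdd x).mul (hF'.bdd x)

theorem vmf_one : IsVMF X 0 (fun _ _ => 1) where
  slash g _ := is_invariant_const g 1
  holo _ := mdifferentiable_const
  bdd _ := Filter.const_boundedAtFilter _ 1

theorem vmf_pow {F : X → ℍ → ℂ} (hF : IsVMF X k F) (n : ℕ) :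
    IsVMF X (n * k) (fun x => F x ^ n) := by
  induction n with
  | zero => simpa using! vmf_one
  | succ n ih =>
    simp only [pow_succ]
    exact (vmf_mul ih hF).cast (by push_cast; ring)

theorem E₄_ne_zero : (E₄ : ℍ → ℂ) ≠ 0 := by
  intro h
  have h1 := tendsto_E₄
  rw [h] at h1
  exact one_ne_zero (tendsto_nhds_unique h1 tendsto_const_nhds)

theorem E₄_cancel {F : X → ℍ → ℂ} (hF : IsVMF X k F) {x : X}
    (h : (E₄ : ℍ → ℂ) * F x = 0) : F x = 0 :=
  ((mul_eq_zero_iff isL1_E₄.holo (hF.holo x)).1 h).resolve_left E₄_ne_zero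

/-- `E₄, E₆` is a regular sequence on the module of vector valued modular forms. -/
theorem regular {F G : X → ℍ → ℂ} (hF : IsVMF X (k - 4) F) (hG : IsVMF X (k - 6) G)
    (h : ∀ x, (E₄ : ℍ → ℂ) * F x = (E₆ : ℍ → ℂ) * G x) :
    ∃ H, IsVMF X (k - 10) H ∧ (∀ x, G x = (E₄ : ℍ → ℂ) * H x) := by
  have hD : IsL1 12 (fun z => (1728 : ℂ) * discriminant z) := isL1_Δ.smul 1728
  have hD0 : ∀ z, (1728 : ℂ) * discriminant z ≠ 0 := fun z =>
    mul_ne_zero (by norm_num) (discriminant_ne_zero z)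
  have hN : IsVMF X (k + 2) (fun x => (E₄ : ℍ → ℂ) ^ 2 * G x +
      fun z => (-1 : ℂ) * ((E₆ : ℍ → ℂ) * F x) z) :=
    ((IsVMF.l1_mul (isL1_E₄.pow 2) hG).cast (by push_cast; ring)).add
      ((vmf_smul (IsVMF.l1_mul isL1_E₆ hF) (-1)).cast (by ring))
  set N : X → ℍ → ℂ := fun x => (E₄ : ℍ → ℂ) ^ 2 * G x +
      fun z => (-1 : ℂ) * ((E₆ : ℍ → ℂ) * F x) z with hNdef
  have hGH : ∀ x, G x = (E₄ : ℍ → ℂ) * (N x / fun z => (1728 : ℂ) * discriminant z) := by
    intro x
    ext z
    have h1 := congrFun (h x) z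
    simp only [Pi.mul_apply, Pi.div_apply, hNdef, Pi.add_apply, Pi.pow_apply] at h1 ⊢
    have h2 := discriminant_eq_E₄_cube_sub_E₆_sq z
    have h3 := hD0 z
    rw [eq_comm, ← mul_div_assoc, div_eq_iff h3, h2]
    linear_combination (- E₆ z) * h1
  refine ⟨fun x => N x / (fun z => (1728 : ℂ) * discriminant z), ⟨?_, ?_, ?_⟩, hGH⟩
  · intro g x
    have := div_slash_SL2 (k1 := k + 2) (k2 := 12) (A := g) (N x)
      (fun z => (1728 : ℂ) * discriminant z)
    rw [show k - 10 = k + 2 - 12 by ring, this, hN.slash, hD.slash]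
  · intro x
    exact (hN.holo x).div hD.holo hD0
  · intro x
    have h1 : (N x / fun z => (1728 : ℂ) * discriminant z) =ᶠ[atImInfty]
        G x * (fun z => (E₄ z)⁻¹) := by
      have h2 : ∀ᶠ z in atImInfty, E₄ z ≠ 0 := tendsto_E₄.eventually_ne one_ne_zero
      filter_upwards [h2] with z hz
      have := congrFun (hGH x) z
      simp only [Pi.mul_apply] at this
      rw [Pi.mul_apply, this]
      field_simp
    have h3 : IsBoundedAtImInfty (fun z => (E₄ z)⁻¹) :=
      (tendsto_E₄.inv₀ one_ne_zero).isBigO_one ℝ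
    exact ((hG.bdd x).mul h3).congr' h1.symm EventuallyEq.rfl

/-! ### families independent modulo `(E₄, E₆)` -/

/-- A family of vector valued forms which is linearly independent modulo `(E₄, E₆)`. -/
structure Good (X : Type*) [MulAction SL(2, ℤ) X] {m : ℕ} (k : Fin m → ℤ)
    (f : Fin m → X → ℍ → ℂ) : Prop where
  vmf : ∀ i, IsVMF X (k i) (f i)
  indep : ∀ (w : ℤ) (c : Fin m → ℂ) (A B : X → ℍ → ℂ), (∀ i, k i ≠ w → c i = 0) →
    IsVMF X (w - 4) A → IsVMF X (w - 6) B →
    (∀ x z, ∑ i, c i * f i x z = E₄ z * A x z + E₆ z * B x z) → ∀ i, c i = 0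

theorem l1_zero (k : ℤ) : IsL1 k (0 : ℍ → ℂ) :=
  ⟨fun g => by simp, mdifferentiable_const, Filter.const_boundedAtFilter _ (0 : ℂ)⟩

theorem Good.nonneg [Finite X] {m : ℕ} {k : Fin m → ℤ} {f : Fin m → X → ℍ → ℂ}
    (h : Good X k f) (i : Fin m) : 0 ≤ k i := by
  by_contra hi
  push Not at hi
  have h0 : ∀ x, f i x = 0 := (h.vmf i).eq_zero_of_neg hi
  have := h.indep (k i) (Pi.single i 1) (fun _ => 0) (fun _ => 0)
    (fun j hj => Pi.single_eq_of_ne (by rintro rfl; exact hj rfl) 1) IsVMF.zero IsVMF.zero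
    (fun x z => by
      rw [Finset.sum_eq_single i]
      · simp [h0]
      · intro b _ hb
        simp [Pi.single_eq_of_ne hb]
      · simp) i
  simp at this

/-- a decomposition of level one forms -/
theorem l1_decomp {G : ℍ → ℂ} (hG : IsL1 k G) : ∃ (c : ℂ) (A B : ℍ → ℂ), (k ≠ 0 → c = 0) ∧
    IsL1 (k - 4) A ∧ IsL1 (k - 6) B ∧ ∀ z, G z = c + E₄ z * A z + E₆ z * B z := by
  rcases eq_or_ne k 0 with rfl | hk
  · obtain ⟨c, hc⟩ := hG.const_of_zero
    exact ⟨c, 0, 0, fun h => absurd rfl h, l1_zero _, l1_zero _, fun z => by simp [hc]⟩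
  · obtain ⟨A, B, hA, hB, h⟩ := l1_generation hG hk
    exact ⟨0, A, B, fun _ => rfl, hA, hB, fun z => by simp [h]⟩

theorem combo_vmf {m : ℕ} {k : Fin m → ℤ} {f : Fin m → X → ℍ → ℂ}
    (h : ∀ i, IsVMF X (k i) (f i)) {w : ℤ} {G : Fin m → ℍ → ℂ}
    (hG : ∀ i, IsL1 (w - k i) (G i)) : IsVMF X w (fun x => ∑ i, G i * f i x) :=
  IsVMF.sum _ fun i _ => (IsVMF.l1_mul (hG i) (h i)).cast (by ring)

theorem Good.dvd [Finite X] {m : ℕ} {k : Fin m → ℤ} {f : Fin m → X → ℍ → ℂ}
    (h : Good X k f) (n : ℕ) : ∀ (w : ℤ), w < n → ∀ (G : Fin m → ℍ → ℂ),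
    (∀ i, IsL1 (w - k i) (G i)) → ∀ A, IsVMF X (w - 4) A →
    (∀ x, ∑ i, G i * f i x = (E₄ : ℍ → ℂ) * A x) →
    ∀ i, ∃ G', IsL1 (w - k i - 4) G' ∧ G i = (E₄ : ℍ → ℂ) * G' := by
  induction n with
  | zero =>
    intro w hw G hG A hA hGA i
    refine ⟨0, l1_zero _, ?_⟩
    rw [(hG i).eq_zero_of_neg (by have := h.nonneg i; push_cast at hw; omega)]
    simp
  | succ n ih =>
    intro w hw G hG A hA hGA
    choose c A' B' hc hA' hB' hdec using fun i => l1_decomp (hG i)
    have hA'' : IsVMF X (w - 4) (fun x => ∑ i, A' i * f i x) :=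
      combo_vmf h.vmf fun i => (hA' i).cast (by ring)
    have hB'' : IsVMF X (w - 6) (fun x => ∑ i, B' i * f i x) :=
      combo_vmf h.vmf fun i => (hB' i).cast (by ring)
    have hsum : ∀ x z, ∑ i, c i * f i x z + E₄ z * (∑ i, A' i * f i x) z +
        E₆ z * (∑ i, B' i * f i x) z = E₄ z * A x z := by
      intro x z
      have h1 := congrFun (hGA x) z
      simp only [Finset.sum_apply, Pi.mul_apply, hdec] at h1 ⊢
      rw [← h1, Finset.mul_sum, Finset.mul_sum, ← Finset.sum_add_distrib,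
        ← Finset.sum_add_distrib]
      exact Finset.sum_congr rfl fun i _ => by ring
    have hA3 : IsVMF X (w - 4) (fun x => A x + fun z => (-1 : ℂ) * (∑ i, A' i * f i x) z) :=
      hA.add (vmf_smul hA'' (-1))
    have hc0 : ∀ i, c i = 0 := by
      refine h.indep w c (fun x => A x + fun z => (-1 : ℂ) * (∑ i, A' i * f i x) z)
        (fun x z => (-1 : ℂ) * (∑ i, B' i * f i x) z) (fun i hi => hc i (by omega)) hA3
        (vmf_smul hB'' (-1)) ?_
      intro x z
      have h1 := hsum x z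
      simp only [Pi.add_apply]
      linear_combination h1
    obtain ⟨H, hH, hBH⟩ := regular (k := w) hA3 hB'' (by
      intro x
      ext z
      have h1 := hsum x z
      simp only [hc0, zero_mul, Finset.sum_const_zero, zero_add] at h1
      simp only [Pi.add_apply, Pi.mul_apply]
      linear_combination -h1)
    intro i
    obtain ⟨G', hG', hBG'⟩ := ih (w - 6) (by push_cast at hw; omega) B'
      (fun i => (hB' i).cast (by ring)) H (hH.cast (by ring)) hBH i
    refine ⟨A' i + (E₆ : ℍ → ℂ) * G',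
      ((hA' i).cast (by ring)).add ((isL1_E₆.mul hG').cast (by ring)), ?_⟩
    ext z
    rw [hdec i z, hc0, hBG']
    simp only [Pi.mul_apply, Pi.add_apply]
    ring

theorem Good.independent [Finite X] {m : ℕ} {k : Fin m → ℤ} {f : Fin m → X → ℍ → ℂ}
    (h : Good X k f) (n : ℕ) : ∀ (w : ℤ), w < n → ∀ (G : Fin m → ℍ → ℂ),
    (∀ i, IsL1 (w - k i) (G i)) → (∀ x, ∑ i, G i * f i x = 0) → ∀ i, G i = 0 := by
  induction n with
  | zero =>
    intro w hw G hG hGA i
    exact (hG i).eq_zero_of_neg (by have := h.nonneg i; push_cast at hw; omega)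
  | succ n ih =>
    intro w hw G hG hGA
    choose G' hG' hGG' using h.dvd (n + 1) w hw G hG (fun _ => 0) IsVMF.zero
      (fun x => by rw [hGA x, mul_zero])
    have h1 := ih (w - 4) (by push_cast at hw; omega) G' (fun i => (hG' i).cast (by ring)) (by
      intro x
      have h2 : IsVMF X (w - 4) (fun x => ∑ i, G' i * f i x) :=
        combo_vmf h.vmf fun i => (hG' i).cast (by ring)
      refine E₄_cancel h2 (x := x) ?_
      rw [← hGA x, Finset.mul_sum]
      exact Finset.sum_congr rfl fun i _ => by rw [hGG' i, mul_assoc])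
    intro i
    rw [hGG' i, h1 i, mul_zero]

/-! ### rank bound -/

theorem l1_const_one : IsL1 0 (1 : ℍ → ℂ) := IsL1.const 1

theorem l1_prod {ι : Type*} (s : Finset ι) {k : ι → ℤ} {G : ι → ℍ → ℂ}
    (h : ∀ i ∈ s, IsL1 (k i) (G i)) : IsL1 (∑ i ∈ s, k i) (∏ i ∈ s, G i) := by
  classical
  induction s using Finset.induction_on with
  | empty => simpa using l1_const_one
  | insert i t hi ih =>
    rw [Finset.sum_insert hi, Finset.prod_insert hi]
    exact (h i (Finset.mem_insert_self _ _)).mul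
      (ih fun j hj => h j (Finset.mem_insert_of_mem hj))

theorem l1_sum {ι : Type*} (s : Finset ι) {G : ι → ℍ → ℂ}
    (h : ∀ i ∈ s, IsL1 k (G i)) : IsL1 k (∑ i ∈ s, G i) := by
  classical
  induction s using Finset.induction_on with
  | empty => simpa using l1_zero k
  | insert i t hi ih =>
    rw [Finset.sum_insert hi]
    exact (h i (Finset.mem_insert_self _ _)).add
      (ih fun j hj => h j (Finset.mem_insert_of_mem hj))

theorem l1_det {r : ℕ} {a b : Fin r → ℤ} {M : Fin r → Fin r → ℍ → ℂ}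
    (h : ∀ i j, IsL1 (a i + b j) (M i j)) :
    IsL1 (∑ i, a i + ∑ i, b i) (fun τ => (Matrix.of fun i j => M i j τ).det) := by
  have h1 : (fun τ => (Matrix.of fun i j => M i j τ).det) =
      ∑ σ : Equiv.Perm (Fin r), fun τ =>
        ((Equiv.Perm.sign σ : ℤ) : ℂ) * (∏ i, M (σ i) i) τ := by
    ext τ
    rw [Matrix.det_apply']
    simp [Finset.sum_apply, Finset.prod_apply]
  rw [h1]
  refine l1_sum _ fun σ _ => IsL1.smul ?_ _
  have h2 := l1_prod Finset.univ (k := fun i => a (σ i) + b i) (G := fun i => M (σ i) i)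
    (fun i _ => h (σ i) i)
  refine h2.cast ?_
  rw [Finset.sum_add_distrib, Equiv.sum_comp σ a]

section rank

variable [Fintype X]

/-- Gram matrix against powers of `P` -/
def gram (P : X → ℍ → ℂ) {m : ℕ} (f : Fin m → X → ℍ → ℂ) (j : ℕ) (i : Fin m) : ℍ → ℂ :=
  ∑ x, P x ^ j * f i x

theorem gram_l1 {P : X → ℍ → ℂ} {p : ℤ} (hP : IsVMF X p P) {m : ℕ} {k : Fin m → ℤ}
    {f : Fin m → X → ℍ → ℂ} (h : ∀ i, IsVMF X (k i) (f i)) (j : ℕ) (i : Fin m) :
    IsL1 (j * p + k i) (gram P f j i) :=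
  (vmf_pow hP j).pairing (h i)

/-- minors of the Gram matrix -/
def minor (P : X → ℍ → ℂ) {m : ℕ} (f : Fin m → X → ℍ → ℂ) {r : ℕ} (e : Fin r → ℕ)
    (s : Fin r → Fin m) : ℍ → ℂ :=
  fun τ => (Matrix.of fun a b => gram P f (e a) (s b) τ).det

theorem minor_l1 {P : X → ℍ → ℂ} {p : ℤ} (hP : IsVMF X p P) {m : ℕ} {k : Fin m → ℤ}
    {f : Fin m → X → ℍ → ℂ} (h : ∀ i, IsVMF X (k i) (f i)) {r : ℕ} (e : Fin r → ℕ)
    (s : Fin r → Fin m) : IsL1 (∑ a, (e a : ℤ) * p + ∑ b, k (s b)) (minor P f e s) :=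
  l1_det fun _ _ => gram_l1 hP h _ _

omit [Fintype X] in
/-- the Vandermonde determinant of the components of `P` -/
theorem vandermonde_ne {P : X → ℍ → ℂ} {p : ℤ} (hP : IsVMF X p P)
    (hinj : ∀ x y, P x = P y → x = y) {n : ℕ} (e : Fin n ≃ X) :
    (fun τ => (Matrix.vandermonde fun i => P (e i) τ).det) ≠ 0 := by
  classical
  have h1 : (fun τ => (Matrix.vandermonde fun i => P (e i) τ).det) =
      ∏ i : Fin n, ∏ j ∈ Finset.Ioi i, (P (e j) - P (e i)) := by
    ext τ
    rw [Matrix.det_vandermonde]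
    simp [Finset.prod_apply]
  have hd : ∀ i j : Fin n, MDiff (P (e j) - P (e i)) := fun i j =>
    (hP.holo _).sub (hP.holo _)
  rw [h1, Ne, UpperHalfPlane.prod_eq_zero_iff (fun i _ => mdiff_prod _ fun j _ => hd i j)]
  rintro ⟨i, -, hi⟩
  rw [UpperHalfPlane.prod_eq_zero_iff (fun j _ => hd i j)] at hi
  obtain ⟨j, hj, hij⟩ := hi
  have h2 := e.injective (hinj _ _ (sub_eq_zero.1 hij))
  rw [Finset.mem_Ioi] at hj
  exact absurd h2 hj.ne'

omit [Fintype X] in
theorem vandermonde_mdiff {P : X → ℍ → ℂ} {p : ℤ} (hP : IsVMF X p P) {n : ℕ} (e : Fin n ≃ X) :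
    MDiff (fun τ => (Matrix.vandermonde fun i => P (e i) τ).det) := by
  classical
  have h1 : (fun τ => (Matrix.vandermonde fun i => P (e i) τ).det) =
      ∏ i : Fin n, ∏ j ∈ Finset.Ioi i, (P (e j) - P (e i)) := by
    ext τ
    rw [Matrix.det_vandermonde]
    simp [Finset.prod_apply]
  rw [h1]
  exact mdiff_prod _ fun i _ => mdiff_prod _ fun j _ => (hP.holo _).sub (hP.holo _)

/-- if all power moments of a holomorphic vector vanish, the vector vanishes -/
theorem eq_zero_of_moments {P : X → ℍ → ℂ} {p : ℤ} (hP : IsVMF X p P)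
    (hinj : ∀ x y, P x = P y → x = y) {n : ℕ} (e : Fin n ≃ X) {T : X → ℍ → ℂ}
    (hT : ∀ x, MDiff (T x)) (h : ∀ j < n, ∑ x, P x ^ j * T x = 0) (x : X) : T x = 0 := by
  have hV := vandermonde_ne hP hinj e
  have h1 : (fun τ => (Matrix.vandermonde fun i => P (e i) τ).det) * T x = 0 := by
    ext τ
    simp only [Pi.mul_apply, Pi.zero_apply, mul_eq_zero]
    rw [or_iff_not_imp_left]
    intro hne
    have h2 : (fun i => T (e i) τ) = 0 := by
      refine Matrix.eq_zero_of_vecMul_eq_zero hne ?_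
      ext j
      have h3 := congrFun (h j j.2) τ
      rw [← e.sum_comp] at h3
      simp only [Finset.sum_apply, Pi.mul_apply, Pi.pow_apply, Pi.zero_apply] at h3
      rw [Matrix.vecMul, dotProduct]
      simp only [Matrix.vandermonde_apply, Pi.zero_apply]
      rw [← h3]
      exact Finset.sum_congr rfl fun i _ => mul_comm _ _
    have := congrFun h2 (e.symm x)
    simpa using this
  exact ((UpperHalfPlane.mul_eq_zero_iff (vandermonde_mdiff hP e) (hT x)).1 h1).resolve_left hV

/-- independence over level one forms -/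
def L1Indep (X : Type*) [MulAction SL(2, ℤ) X] {m : ℕ} (k : Fin m → ℤ)
    (f : Fin m → X → ℍ → ℂ) : Prop :=
  ∀ (w : ℤ) (G : Fin m → ℍ → ℂ), (∀ i, IsL1 (w - k i) (G i)) →
    (∀ x, ∑ i, G i * f i x = 0) → ∀ i, G i = 0

theorem card_le_of_indep {P : X → ℍ → ℂ} {p : ℤ} (hP : IsVMF X p P)
    (hinj : ∀ x y, P x = P y → x = y) {m : ℕ} {k : Fin m → ℤ} {f : Fin m → X → ℍ → ℂ}
    (hf : ∀ i, IsVMF X (k i) (f i)) (h : L1Indep X k f) : m ≤ Fintype.card X := by
  classical
  set n := Fintype.card X with hn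
  have en : Fin n ≃ X := (Fintype.equivFin X).symm
  -- the set of sizes of nonvanishing minors
  let S : ℕ → Prop := fun r => ∃ (e : Fin r → Fin n) (s : Fin r → Fin m),
    minor P f (fun a => (e a : ℕ)) s ≠ 0
  have hS0 : S 0 := by
    refine ⟨Fin.elim0, Fin.elim0, ?_⟩
    intro h0
    have := congrFun h0 I
    simp [minor] at this
  have hSn : ∀ r, S r → r ≤ n := by
    rintro r ⟨e, s, hes⟩
    have hinj' : Function.Injective e := by
      intro a b hab
      by_contra hne
      apply hes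
      ext τ
      refine Matrix.det_zero_of_row_eq hne ?_
      ext c
      simp [hab]
    simpa using Fintype.card_le_of_injective e hinj'
  obtain ⟨r, hr, hmax⟩ : ∃ r, S r ∧ ¬ S (r + 1) := by
    by_contra hcon
    push Not at hcon
    have hall : ∀ r, S r := fun r => Nat.rec hS0 (fun r ih => hcon r ih) r
    have := hSn (n + 1) (hall _)
    omega
  by_contra hmn
  push Not at hmn
  have hrn := hSn r hr
  obtain ⟨e, s, hes⟩ := hr
  obtain ⟨i₀, hi₀⟩ : ∃ i₀, ∀ a, s a ≠ i₀ := by
    by_contra hcon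
    push Not at hcon
    have := Fintype.card_le_of_surjective s hcon
    simp at this
    omega
  -- coefficients of the relation
  set s' : Fin (r + 1) → Fin m := Fin.cons i₀ s with hs'
  set C : Fin (r + 1) → ℍ → ℂ := fun b z =>
    (-1 : ℂ) ^ (b : ℕ) * minor P f (fun a => (e a : ℕ)) (s' ∘ b.succAbove) z with hC
  have hCL : ∀ b, IsL1 ((∑ a, ((e a : ℕ) : ℤ) * p + ∑ b, k (s' b)) - k (s' b)) (C b) := by
    intro b
    refine ((minor_l1 hP hf (fun a => (e a : ℕ)) (s' ∘ b.succAbove)).smul _).cast ?_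
    rw [Fin.sum_univ_succAbove (fun b => k (s' b)) b]
    simp only [Function.comp]
    ring
  have hrel : ∀ j : ℕ, j < n → ∑ b, C b * gram P f j (s' b) = 0 := by
    intro j hj
    have hzero : minor P f (fun a => ((Fin.cons ⟨j, hj⟩ e : Fin (r + 1) → Fin n) a : ℕ)) s' = 0 := by
      by_contra hne
      exact hmax ⟨_, _, hne⟩
    ext τ
    have h1 := congrFun hzero τ
    simp only [minor, Pi.zero_apply] at h1
    rw [Matrix.det_succ_row_zero] at h1
    simp only [Finset.sum_apply, Pi.mul_apply, Pi.zero_apply, hC, minor]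
    rw [← h1]
    refine Finset.sum_congr rfl fun b _ => ?_
    have h2 : (Matrix.of fun a b => gram P f ((Fin.cons ⟨j, hj⟩ e : Fin (r + 1) → Fin n) a : ℕ)
        (s' b) τ).submatrix Fin.succ b.succAbove =
        Matrix.of fun a b' => gram P f (e a) ((s' ∘ b.succAbove) b') τ := by
      ext a b'
      simp
    rw [h2]
    simp only [Matrix.of_apply, Fin.cons_zero]
    ring
  -- the vector `∑ C b * f (s' b)` vanishes
  have hT : ∀ x, ∑ b, C b * f (s' b) x = 0 := by
    refine eq_zero_of_moments hP hinj en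
      (fun x => mdiff_sum _ fun b _ => (hCL b).holo.mul ((hf _).holo x)) ?_
    intro j hj
    rw [← hrel j hj]
    simp only [gram, Finset.mul_sum]
    rw [Finset.sum_comm]
    exact Finset.sum_congr rfl fun b _ => Finset.sum_congr rfl fun x _ => by ring
  have hG := h (∑ a, ((e a : ℕ) : ℤ) * p + ∑ b, k (s' b))
    (fun i => ∑ b, if s' b = i then C b else 0) (fun i => by
      refine l1_sum _ fun b _ => ?_
      by_cases hb : s' b = i
      · simp only [hb, if_true]
        subst hb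
        exact hCL b
      · simp only [hb, if_false]
        exact l1_zero _) (fun x => by
      refine Eq.trans ?_ (hT x)
      simp only [Finset.sum_mul]
      rw [Finset.sum_comm]
      refine Finset.sum_congr rfl fun b _ => ?_
      rw [Finset.sum_eq_single (s' b)]
      · simp
      · intro i _ hi
        rw [if_neg (fun h => hi h.symm), zero_mul]
      · simp) i₀
  rw [Finset.sum_eq_single 0] at hG
  · simp only [hs', Fin.cons_zero, if_true, hC] at hG
    apply hes
    ext τ
    have := congrFun hG τ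
    simpa using this
  · intro b _ hb
    obtain ⟨b', rfl⟩ := Fin.exists_succ_eq.2 hb
    simp [hs', hi₀]
  · simp

end rank

/-! ### maximal good families -/

theorem good_zero (k : Fin 0 → ℤ) (f : Fin 0 → X → ℍ → ℂ) : Good X k f :=
  ⟨fun i => i.elim0, fun _ _ _ _ _ _ _ _ i => i.elim0⟩

theorem good_cons {m : ℕ} {k : Fin m → ℤ} {f : Fin m → X → ℍ → ℂ} (h : Good X k f)
    {w : ℤ} {H : X → ℍ → ℂ} (hH : IsVMF X w H)
    (hn : ¬ ∃ (c : Fin m → ℂ) (A B : X → ℍ → ℂ), (∀ i, k i ≠ w → c i = 0) ∧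
      IsVMF X (w - 4) A ∧ IsVMF X (w - 6) B ∧
      ∀ x z, H x z = ∑ i, c i * f i x z + E₄ z * A x z + E₆ z * B x z) :
    Good X (Fin.cons w k : Fin (m + 1) → ℤ) (Fin.cons H f : Fin (m + 1) → X → ℍ → ℂ) := by
  refine ⟨fun i => ?_, ?_⟩
  · refine Fin.cases ?_ (fun i => ?_) i
    · simpa using hH
    · simpa using h.vmf i
  · intro w' c A B hc hA hB hs
    have hc0 : c 0 = 0 := by
      by_contra hne
      have hw : w = w' := by
        by_contra hww
        exact hne (hc 0 (by simpa using hww))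
      subst hw
      apply hn
      refine ⟨fun i => -(c 0)⁻¹ * c i.succ, fun x z => (c 0)⁻¹ * A x z,
        fun x z => (c 0)⁻¹ * B x z, fun i hi => ?_, vmf_smul hA _, vmf_smul hB _, ?_⟩
      · show -(c 0)⁻¹ * c i.succ = 0
        rw [hc i.succ (by simpa using hi), mul_zero]
      · intro x z
        have h1 := hs x z
        rw [Fin.sum_univ_succ] at h1
        simp only [Fin.cons_zero, Fin.cons_succ] at h1
        have h2 : ∑ i : Fin m, -(c 0)⁻¹ * c i.succ * f i x z =
            -(c 0)⁻¹ * ∑ i : Fin m, c i.succ * f i x z := by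
          rw [Finset.mul_sum]
          exact Finset.sum_congr rfl fun i _ => by ring
        rw [h2]
        have h3 : ∑ i : Fin m, c i.succ * f i x z =
          E₄ z * A x z + E₆ z * B x z - c 0 * H x z := by linear_combination h1
        rw [h3]
        field_simp
        ring
    have h1 := h.indep w' (fun i => c i.succ) A B (fun i hi => hc i.succ (by simpa using hi))
      hA hB (fun x z => by
        rw [← hs x z, Fin.sum_univ_succ]
        simp [hc0])
    intro i
    refine Fin.cases hc0 (fun i => h1 i) i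

theorem Good.indep' [Finite X] {m : ℕ} {k : Fin m → ℤ} {f : Fin m → X → ℍ → ℂ}
    (h : Good X k f) : L1Indep X k f := by
  intro w G hG hs i
  exact h.independent (w + 1).toNat w (by omega) G hG hs i

/-- a maximal good family spans -/
theorem exists_spanning [Finite X] (hsep : ∃ (w : ℤ) (H : X → ℍ → ℂ), IsVMF X w H ∧
    ∀ x y, H x = H y → x = y) :
    ∃ (m : ℕ) (k : Fin m → ℤ) (f : Fin m → X → ℍ → ℂ), m ≤ Nat.card X ∧
      (∀ i, IsVMF X (k i) (f i)) ∧
      ∀ (w : ℤ) (H : X → ℍ → ℂ), IsVMF X w H →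
        ∃ G : Fin m → ℍ → ℂ, (∀ i, IsL1 (w - k i) (G i)) ∧ ∀ x, H x = ∑ i, G i * f i x := by
  classical
  have := Fintype.ofFinite X
  obtain ⟨p, P, hP, hinj⟩ := hsep
  have hle : ∀ (m : ℕ) (k : Fin m → ℤ) (f : Fin m → X → ℍ → ℂ), Good X k f → m ≤ Nat.card X := by
    intro m k f h
    rw [Nat.card_eq_fintype_card]
    exact card_le_of_indep hP hinj h.vmf h.indep'
  obtain ⟨m, ⟨k, f, hgood⟩, hmax⟩ : ∃ m, (∃ (k : Fin m → ℤ) (f : Fin m → X → ℍ → ℂ),
      Good X k f) ∧ ¬ ∃ (k : Fin (m + 1) → ℤ) (f : Fin (m + 1) → X → ℍ → ℂ), Good X k f := by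
    by_contra hcon
    push Not at hcon
    have hall : ∀ m, ∃ (k : Fin m → ℤ) (f : Fin m → X → ℍ → ℂ), Good X k f := by
      intro m
      induction m with
      | zero => exact ⟨Fin.elim0, Fin.elim0, good_zero _ _⟩
      | succ m ih =>
        obtain ⟨k, f, hk⟩ := hcon m ih
        exact ⟨k, f, hk⟩
    obtain ⟨k, f, h⟩ := hall (Nat.card X + 1)
    have := hle _ _ _ h
    omega
  refine ⟨m, k, f, hle _ _ _ hgood, hgood.vmf, ?_⟩
  have key : ∀ (n : ℕ) (w : ℤ), w < n → ∀ (H : X → ℍ → ℂ), IsVMF X w H →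
      ∃ G : Fin m → ℍ → ℂ, (∀ i, IsL1 (w - k i) (G i)) ∧ ∀ x, H x = ∑ i, G i * f i x := by
    intro n
    induction n with
    | zero =>
      intro w hw H hH
      refine ⟨fun _ => 0, fun i => l1_zero _, fun x => ?_⟩
      rw [hH.eq_zero_of_neg (by push_cast at hw; omega)]
      simp
    | succ n ih =>
      intro w hw H hH
      by_cases hn : ∃ (c : Fin m → ℂ) (A B : X → ℍ → ℂ), (∀ i, k i ≠ w → c i = 0) ∧
        IsVMF X (w - 4) A ∧ IsVMF X (w - 6) B ∧
        ∀ x z, H x z = ∑ i, c i * f i x z + E₄ z * A x z + E₆ z * B x z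
      · obtain ⟨c, A, B, hc, hA, hB, hdec⟩ := hn
        obtain ⟨GA, hGA, hA'⟩ := ih (w - 4) (by push_cast at hw; omega) A hA
        obtain ⟨GB, hGB, hB'⟩ := ih (w - 6) (by push_cast at hw; omega) B hB
        refine ⟨fun i => (fun _ => c i) + ((E₄ : ℍ → ℂ) * GA i + (E₆ : ℍ → ℂ) * GB i),
          fun i => ?_, ?_⟩
        · have hci : IsL1 (w - k i) (fun _ => c i) := by
            rcases eq_or_ne (k i) w with hw' | hw'
            · exact (IsL1.const (c i)).cast (by omega)
            · rw [hc i hw']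
              exact l1_zero _
          exact hci.add (((isL1_E₄.mul (hGA i)).cast (by ring)).add
            ((isL1_E₆.mul (hGB i)).cast (by ring)))
        · intro x
          ext z
          rw [hdec x z, hA' x, hB' x]
          simp only [Finset.sum_apply, Pi.mul_apply, Pi.add_apply, Finset.mul_sum]
          rw [← Finset.sum_add_distrib, ← Finset.sum_add_distrib]
          exact Finset.sum_congr rfl fun i _ => by ring
      · exact absurd ⟨_, _, good_cons hgood hH hn⟩ hmax
  intro w H hH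
  exact key (w + 1).toNat w (by omega) H hH

/-- **Existence of a homogeneous basis** of the graded module of vector valued modular
forms on a finite `SL(2,ℤ)`-set separated by some form. -/
theorem exists_freeBasis (X : Type*) [MulAction SL(2, ℤ) X] [Fintype X] [DecidableEq X]
    (h : ∃ (w : ℤ) (H : X → ℍ → ℂ), IsVMF X w H ∧ ∀ x y, H x = H y → x = y) :
    ∃ k F, IsFreeBasis X k F := by
  obtain ⟨m, k, f, hm, hf, hspan⟩ := exists_spanning h
  obtain ⟨p, P, hP, hinj⟩ := h
  set n := Fintype.card X with hn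
  have en : Fin n ≃ X := (Fintype.equivFin X).symm
  have hV := vandermonde_ne hP hinj en
  obtain ⟨τ₀, hτ₀⟩ : ∃ τ, (Matrix.vandermonde fun i => P (en i) τ).det ≠ 0 := by
    by_contra hcon
    push Not at hcon
    exact hV (funext hcon)
  choose G hG hPG using fun j : Fin n => hspan _ _ (vmf_pow hP (j : ℕ))
  -- Vandermonde = Φ * G
  have hfac : (Matrix.vandermonde fun i => P (en i) τ₀) =
      (Matrix.of fun (i : Fin n) (a : Fin m) => f a (en i) τ₀) *
        (Matrix.of fun (a : Fin m) (j : Fin n) => G j a τ₀) := by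
    ext i j
    have h1 := congrFun (hPG j (en i)) τ₀
    simp only [Pi.pow_apply, Finset.sum_apply, Pi.mul_apply] at h1
    simp only [Matrix.vandermonde_apply, Matrix.mul_apply, Matrix.of_apply]
    rw [h1]
    exact Finset.sum_congr rfl fun a _ => mul_comm _ _
  have hnm : n ≤ m := by
    have h1 : (Matrix.vandermonde fun i => P (en i) τ₀).rank = n := by
      have := Matrix.rank_of_isUnit _ ((Matrix.isUnit_iff_isUnit_det _).2
        (isUnit_iff_ne_zero.2 hτ₀))
      simpa using this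
    rw [← h1, hfac]
    refine (Matrix.rank_mul_le_left _ _).trans ?_
    simpa using Matrix.rank_le_width (Matrix.of fun (i : Fin n) (a : Fin m) => f a (en i) τ₀)
  have hmn : m = n := le_antisymm (by simpa [Nat.card_eq_fintype_card] using hm) hnm
  subst hmn
  refine ⟨fun x => k (en.symm x), fun x => f (en.symm x), fun x => hf _, ?_, ?_⟩
  · intro w H hH
    obtain ⟨G', hG', hH'⟩ := hspan w H hH
    refine ⟨fun x => G' (en.symm x), fun x => hG' _, fun x => ?_⟩
    rw [hH' x]
    exact (en.symm.sum_comp (fun i => G' i * f i x)).symm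
  · refine ⟨τ₀, fun h0 => hτ₀ ?_⟩
    rw [hfac, Matrix.det_mul]
    have h1 : (Matrix.of fun (i : Fin n) (a : Fin n) => f a (en i) τ₀) =
        (fmat (fun x => f (en.symm x)) τ₀).submatrix en en := by
      ext i a
      simp
    rw [h1, Matrix.det_submatrix_equiv_self, h0, zero_mul]

end Fermat.Agent.H80
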