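import Fermat.Agent.H20VMF

/-! Level one modular forms (as plain functions): limits at `i∞`, generation by `E₄, E₆`. -/

open UpperHalfPlane ModularForm MatrixGroups CongruenceSubgroup Filter Topology
open scoped Manifold

noncomputable section

namespace Fermat.Agent.H80

open Fermat.Agent.H20

variable {k l : ℤ}

theorem l1_tendsto {G : ℍ → ℂ} (hG : IsL1 k G) :
    Tendsto G atImInfty (𝓝 (valueAtInfty G)) := by
  have hper := SlashInvariantFormClass.periodic_comp_ofComplex hG.toMF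
    (one_mem_strictPeriods_SL)
  have hanal := ModularFormClass.analyticAt_cuspFunction_zero hG.toMF one_pos
    (one_mem_strictPeriods_SL)
  have h0 := cuspFunction_apply_zero one_pos hanal hper
  have h1 := hanal.continuousAt.tendsto.comp (qParam_tendsto_atImInfty one_pos)
  rw [h0] at h1
  refine h1.congr fun τ => ?_
  exact SlashInvariantFormClass.eq_cuspFunction hG.toMF τ
    (one_mem_strictPeriods_SL) one_ne_zero

theorem coeff_zero_eq {G : ℍ → ℂ} (hG : IsL1 k G) :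
    (qExpansion 1 G).coeff 0 = valueAtInfty G :=
  qExpansion_coeff_zero one_pos
    (ModularFormClass.analyticAt_cuspFunction_zero hG.toMF one_pos one_mem_strictPeriods_SL)
    (SlashInvariantFormClass.periodic_comp_ofComplex hG.toMF one_mem_strictPeriods_SL)

theorem tendsto_E₄ : Tendsto (E₄ : ℍ → ℂ) atImInfty (𝓝 1) := by
  have h := l1_tendsto isL1_E₄
  rwa [← coeff_zero_eq isL1_E₄, EisensteinSeries.E_qExpansion_coeff_zero _ ⟨2, rfl⟩] at h

theorem tendsto_E₆ : Tendsto (E₆ : ℍ → ℂ) atImInfty (𝓝 1) := by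
  have h := l1_tendsto isL1_E₆
  rwa [← coeff_zero_eq isL1_E₆, EisensteinSeries.E_qExpansion_coeff_zero _ ⟨3, rfl⟩] at h

/-- division of a level one cusp form by `Δ` -/
theorem l1_div_disc {G : ℍ → ℂ} (hG : IsL1 k G) (h0 : Tendsto G atImInfty (𝓝 0)) :
    ∃ H, IsL1 (k - 12) H ∧ G = discriminant * H := by
  have hc : (qExpansion 1 hG.toMF).coeff 0 = 0 := by
    rw [IsL1.toMF_coe, coeff_zero_eq hG]
    exact IsZeroAtImInfty.valueAtInfty_eq_zero h0
  refine ⟨CuspForm.discriminantEquiv (toCuspForm hG.toMF hc), isL1_of_class _, ?_⟩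
  rw [discriminant_mul_discriminantEquiv]
  rfl

theorem l1_odd {G : ℍ → ℂ} (hG : IsL1 k G) (hk : Odd k) : G = 0 := by
  have h := ModularForm.levelOne_odd_weight_eq_zero hk hG.toMF
  have h2 := congrArg (fun f : ModularForm _ k => (f : ℍ → ℂ)) h
  simpa using h2

theorem l1_two {G : ℍ → ℂ} (hG : IsL1 2 G) : G = 0 := by
  have h := rank_zero_iff_forall_zero.mp ModularForm.levelOne_weight_two_rank_zero hG.toMF
  have h2 := congrArg (fun f : ModularForm _ 2 => (f : ℍ → ℂ)) h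
  simpa using h2

/-- for every even weight `m ≥ 0`, `m ≠ 2` there is a level one form tending to `1`. -/
theorem exists_l1_tendsto_one (m : ℕ) (hm : m ≠ 1) :
    ∃ G, IsL1 (2 * m) G ∧ Tendsto G atImInfty (𝓝 1) := by
  have : ∃ a b : ℕ, m = 2 * a + 3 * b := by
    rcases Nat.even_or_odd' m with ⟨c, rfl | rfl⟩
    · exact ⟨c, 0, by ring⟩
    · have : 1 ≤ c := by omega
      exact ⟨c - 1, 1, by omega⟩
  obtain ⟨a, b, rfl⟩ := this
  refine ⟨E₄ ^ a * E₆ ^ b, ((isL1_E₄.pow a).mul (isL1_E₆.pow b)).cast (by push_cast; ring), ?_⟩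
  have h := (tendsto_E₄.pow a).mul (tendsto_E₆.pow b)
  simpa using! h

theorem disc_eq : (discriminant : ℍ → ℂ) =
    E₄ * (fun z => (1/1728 : ℂ) * (E₄ ^ 2 : ℍ → ℂ) z) +
      E₆ * (fun z => (-1/1728 : ℂ) * (E₆ : ℍ → ℂ) z) := by
  ext z
  rw [discriminant_eq_E₄_cube_sub_E₆_sq z]
  simp only [Pi.add_apply, Pi.mul_apply, Pi.pow_apply]
  ring

/-- The ideal of positive weight level one forms is generated by `E₄` and `E₆`. -/
theorem l1_generation {G : ℍ → ℂ} (hG : IsL1 k G) (hk : k ≠ 0) :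
    ∃ A B, IsL1 (k - 4) A ∧ IsL1 (k - 6) B ∧ G = E₄ * A + E₆ * B := by
  have hz : ∀ j : ℤ, IsL1 j (0 : ℍ → ℂ) := fun j => by
    refine ⟨fun g => by simp, mdifferentiable_const, ?_⟩
    exact Filter.const_boundedAtFilter _ (0 : ℂ)
  rcases lt_or_ge k 0 with hk0 | hk0
  · exact ⟨0, 0, hz _, hz _, by rw [hG.eq_zero_of_neg hk0]; simp⟩
  rcases Int.even_or_odd' k with ⟨c, rfl | rfl⟩
  swap
  · exact ⟨0, 0, hz _, hz _, by rw [l1_odd hG ⟨c, rfl⟩]; simp⟩
  obtain ⟨m, rfl⟩ : ∃ m : ℕ, c = m := ⟨c.toNat, by omega⟩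
  rcases eq_or_ne m 1 with rfl | hm1
  · have hG2 : IsL1 2 G := hG.cast (by norm_num)
    refine ⟨0, 0, hz _, hz _, by rw [l1_two hG2]; simp⟩
  -- find `E = E₄ A₀ + E₆ B₀` tending to one
  obtain ⟨A₀, B₀, hA₀, hB₀, hlim⟩ : ∃ A₀ B₀ : ℍ → ℂ, IsL1 (2 * (m:ℤ) - 4) A₀ ∧
      IsL1 (2 * (m:ℤ) - 6) B₀ ∧
      Tendsto ((E₄ : ℍ → ℂ) * A₀ + (E₆ : ℍ → ℂ) * B₀) atImInfty (𝓝 1) := by
    rcases eq_or_ne m 3 with rfl | hm3
    · refine ⟨0, fun _ => 1, hz _, (IsL1.const 1).cast (by norm_num), ?_⟩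
      have h1 : (E₆ : ℍ → ℂ) = (E₄ : ℍ → ℂ) * 0 + (E₆ : ℍ → ℂ) * (fun _ => 1) := by
        ext z; simp
      rw [← h1]
      exact tendsto_E₆
    · obtain ⟨A, hA, hA1⟩ := exists_l1_tendsto_one (m - 2) (by omega)
      refine ⟨A, 0, hA.cast (by omega), hz _, ?_⟩
      simpa using! tendsto_E₄.mul hA1
  set E := (E₄ : ℍ → ℂ) * A₀ + (E₆ : ℍ → ℂ) * B₀ with hE
  have hEL : IsL1 (2 * (m : ℤ)) E :=
    ((isL1_E₄.mul hA₀).cast (by ring)).add ((isL1_E₆.mul hB₀).cast (by ring))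
  set c := valueAtInfty G with hc
  have hG' : IsL1 (2 * (m : ℤ)) (G + fun z => (-c) * E z) := hG.add (hEL.smul _)
  have hG0 : Tendsto (G + fun z => (-c) * E z) atImInfty (𝓝 0) := by
    have := (l1_tendsto hG).add (hlim.const_mul (-c))
    simpa [← hc] using! this
  obtain ⟨H, hH, hGH⟩ := l1_div_disc hG' hG0
  refine ⟨(fun z => c * A₀ z) + (fun z => (1/1728 : ℂ) * (E₄ ^ 2 : ℍ → ℂ) z) * H,
    (fun z => c * B₀ z) + (fun z => (-1/1728 : ℂ) * (E₆ : ℍ → ℂ) z) * H,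
    (hA₀.smul c).add ((((isL1_E₄.pow 2).smul _).mul hH).cast (by push_cast; ring)),
    (hB₀.smul c).add (((isL1_E₆.smul _).mul hH).cast (by ring)), ?_⟩
  have h1 : G = (fun z => c * E z) + discriminant * H := by
    rw [← hGH]
    ext z; simp
  rw [h1, disc_eq, hE]
  ext z
  simp only [Pi.add_apply, Pi.mul_apply, Pi.pow_apply]
  ring

end Fermat.Agent.H80
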