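import Fermat.Agent.H89SS10

/-!
# MZ-J8, abstract part: `(g₁ - 1)(g - 1) x = 0` when `d • x` is fixed by `g`

* `exists_fixed_divisor`: a class fixed by a set of semilinear automorphisms which also fix a place
  is represented by a divisor fixed by all of them (uniqueness of the effective divisor in
  `D + n P₀`, `n` minimal).
* `inertia_sq'`: extension of helper89's `TwoComp.inertia_sq` from torsion classes to classes `x`
  such that `d • x` is represented by a `g`-fixed divisor.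
-/

set_option autoImplicit false

open AlgebraicCurve WithZero Fermat.Agent.H3RR Module

namespace Fermat.Agent.H80.SS

open Fermat.Agent.H89SS

section Fixed

variable {K F : Type*} [Field K] [Field F] [Algebra K F]

theorem smul_ne_zero' (g : SemilinearAut K F) {f : F} (hf : f ≠ 0) : g • f ≠ 0 := by
  intro h
  apply hf
  have := congrArg (g⁻¹ • ·) h
  simpa using this

variable [IsAlgClosed K] [IsFF K F]

theorem divOf_smul (g : SemilinearAut K F) {f : F} (hf : f ≠ 0) :
    (divOf (g • f) : Divisor K F) = g • divOf f := by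
  ext v
  rw [divOf_apply (smul_ne_zero' g hf), SemilinearAut.divisor_smul_apply, divOf_apply hf]
  have := SemilinearAut.ord_smul g (g⁻¹ • v) f
  rwa [smul_inv_smul] at this

theorem exists_ell_eq_one (D : Divisor K F) (hD : Divisor.degree D = 0) (P₀ : Place K F) :
    ∃ n : ℕ, ell (D + Finsupp.single P₀ (n : ℤ)) = 1 := by
  classical
  have hex : ∃ n : ℕ, 0 < ell (D + Finsupp.single P₀ (n : ℤ)) := by
    refine ⟨genusFF K F, ?_⟩
    have h1 := riemann_inequality (D + Finsupp.single P₀ ((genusFF K F : ℕ) : ℤ))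
    rw [map_add, hD, Divisor.degree_single, deg_eq_one] at h1
    push_cast at h1
    omega
  refine ⟨Nat.find hex, ?_⟩
  have hpos := Nat.find_spec hex
  have hle := ell_le_sub_add_one (D + Finsupp.single P₀ ((Nat.find hex : ℕ) : ℤ)) P₀
  have hzero : ell (D + Finsupp.single P₀ ((Nat.find hex : ℕ) : ℤ) - Finsupp.single P₀ 1) = 0 := by
    rcases Nat.eq_zero_or_pos (Nat.find hex) with h0 | h0
    · apply ell_eq_zero_of_degree_neg
      rw [h0, map_sub, map_add, hD, Divisor.degree_single, Divisor.degree_single, deg_eq_one]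
      norm_num
    · have hmin := Nat.find_min hex (Nat.sub_lt h0 one_pos)
      have h1 : D + Finsupp.single P₀ ((Nat.find hex : ℕ) : ℤ) - Finsupp.single P₀ 1 =
          D + Finsupp.single P₀ ((Nat.find hex - 1 : ℕ) : ℤ) := by
        rw [add_sub_assoc, ← Finsupp.single_sub]
        congr 2
        push_cast [Nat.cast_sub h0]
        ring
      rw [h1]
      omega
  omega

/-- **Fixed classes are represented by fixed divisors.** -/
theorem exists_fixed_divisor (G : Set (SemilinearAut K F)) (P₀ : Place K F)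
    (hP₀ : ∀ g ∈ G, g • P₀ = P₀) (x : Pic0 K F) (hx : ∀ g ∈ G, g • x = x) :
    ∃ E : Divisor.degZero (K := K) (F := F), Pic0.mk E = x ∧
      ∀ g ∈ G, g • (E : Divisor K F) = E := by
  obtain ⟨D, rfl⟩ := Pic0.mk_surjective x
  have hD : Divisor.degree (D : Divisor K F) = 0 := D.2
  obtain ⟨n, hn⟩ := exists_ell_eq_one (D : Divisor K F) hD P₀
  obtain ⟨f, hf, hfL⟩ := exists_mem_L_of_ell_pos
    (D := (D : Divisor K F) + Finsupp.single P₀ (n : ℤ)) (by omega)
  set E₁ : Divisor K F := (D : Divisor K F) + Finsupp.single P₀ (n : ℤ) + divOf f with hE₁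
  have hE₁0 : 0 ≤ E₁ := le_add_divOf_of_mem (D := 0) hf (by rwa [sub_zero])
  have hE₁1 : ell E₁ = 1 := by rw [hE₁, ell_add_divOf hf, hn]
  have hfix : ∀ g ∈ G, g • E₁ = E₁ := by
    intro g hg
    have h1 := hx g hg
    rw [SemilinearAut.pic0_smul_mk, mk_eq_mk, SemilinearAut.coe_degZeroSMulHom] at h1
    obtain ⟨h, hh0, hh⟩ := h1
    have hgf := smul_ne_zero' g hf
    set u : F := h * (g • f) * f⁻¹ with hu
    have hu0 : u ≠ 0 := mul_ne_zero (mul_ne_zero hh0 hgf) (inv_ne_zero hf)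
    have hdh : (divOf h : Divisor K F) = g • (D : Divisor K F) - D := by
      ext v
      rw [divOf_apply hh0, hh v]
    have hdu : g • E₁ = E₁ + divOf u := by
      rw [hu, divOf_mul (mul_ne_zero hh0 hgf) (inv_ne_zero hf), divOf_mul hh0 hgf, divOf_inv hf,
        divOf_smul g hf, hdh, hE₁, smul_add, smul_add, SemilinearAut.smul_single, hP₀ g hg]
      abel
    have hgE₁ : 0 ≤ g • E₁ := by
      intro v
      rw [SemilinearAut.divisor_smul_apply]
      exact hE₁0 _
    have huL : u ∈ riemannRochSpace E₁ := by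
      rw [mem_riemannRochSpace_iff]
      intro v
      right
      have h2 := hgE₁ v
      rw [hdu, Finsupp.add_apply, divOf_apply hu0, Finsupp.coe_zero, Pi.zero_apply] at h2
      omega
    obtain ⟨c, hc⟩ := exists_const_of_mem_L hE₁0 hE₁1 huL
    have hdc : (divOf u : Divisor K F) = 0 := by
      ext v
      rw [divOf_apply hu0, ← hc, ord_const]
      rfl
    rw [hdu, hdc, add_zero]
  have hE'deg : Divisor.degree ((D : Divisor K F) + divOf f) = 0 := by
    rw [map_add, hD, degree_divOf hf, add_zero]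
  refine ⟨⟨(D : Divisor K F) + divOf f, hE'deg⟩, ?_, ?_⟩
  · rw [mk_eq_mk]
    refine ⟨f, hf, fun v => ?_⟩
    rw [add_sub_cancel_left, divOf_apply hf]
  · intro g hg
    have h1 : ((D : Divisor K F) + divOf f) = E₁ - Finsupp.single P₀ (n : ℤ) := by
      rw [hE₁]; abel
    show g • ((D : Divisor K F) + divOf f) = (D : Divisor K F) + divOf f
    rw [h1, smul_sub, SemilinearAut.smul_single, hfix g hg, hP₀ g hg]

end Fixed

variable {K F k κ : Type*} [Field K] [Field F] [Algebra K F] [Field k] [Field κ]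
    [Algebra k κ] {A : ValuationSubring K} {π : A →+* k} {q : ℕ}
    [IsAlgClosed K] [IsFF K F] [IsAlgClosed k] [IsFF k κ]

/-- **`(g₁ - 1)(g - 1) x = 0`** when `d • x` is represented by a `g`-fixed divisor. -/
theorem inertia_sq_of_divisor [IsLocalHom π] [CharZero K] [Fact q.Prime] [CharP k q]
    (T : TwoComp K F k κ A π q) (hπ : Function.Surjective π)
    (arch : ∀ a b : A, π a = 0 → b ≠ 0 → ∃ n, b ∣ a ^ n)
    {d : ℕ} (hd : (d : k) ≠ 0) {g g₁ : SemilinearAut K F} (hg : T.Compat g 1)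
    (hg₁ : T.Compat g₁ 1) (x : Pic0 K F) (E' : Divisor.degZero (K := K) (F := F))
    (hx : d • x = Pic0.mk E') (hgE' : g • (E' : Divisor K F) = E') :
    g₁ • (g • x - x) = g • x - x := by
  have hqp : q.Prime := Fact.out
  have hq : 2 ≤ q := hqp.two_le
  have hd0 : d ≠ 0 := by
    rintro rfl
    simp at hd
  obtain ⟨D, rfl⟩ := Pic0.mk_surjective x
  have hxD : Pic0.mk (d • D) = Pic0.mk E' := hx
  rw [mk_eq_mk] at hxD
  obtain ⟨f, hf, hfD⟩ := hxD
  have hford : ∀ v : Place K F, v.ord f = d * (D : Divisor K F) v - (E' : Divisor K F) v := by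
    intro v
    rw [← hfD v, Finsupp.sub_apply]
    congr 1
  have hgf : g • f ≠ 0 := smul_ne_zero' g hf
  -- the divisor `E₀ = g D - D` with `f₀ = g f / f`
  have hE₀deg : Divisor.degree (g • (D : Divisor K F) - (D : Divisor K F)) = 0 := by
    rw [map_sub, SemilinearAut.degree_smul, sub_self]
  have hgord : ∀ v : Place K F, v.ord (g • f) =
      d * (g • (D : Divisor K F)) v - (E' : Divisor K F) v := by
    intro v
    have h2 : (E' : Divisor K F) v = (E' : Divisor K F) (g⁻¹ • v) := by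
      conv_lhs => rw [← hgE']
      rw [SemilinearAut.divisor_smul_apply]
    rw [h2, SemilinearAut.divisor_smul_apply, ← hford]
    have := SemilinearAut.ord_smul g (g⁻¹ • v) f
    rwa [smul_inv_smul] at this
  have hf₀ : g • f * f⁻¹ ≠ 0 := mul_ne_zero hgf (inv_ne_zero hf)
  have hE₀ord : ∀ v : Place K F, v.ord (g • f * f⁻¹) =
      d * (g • (D : Divisor K F) - (D : Divisor K F)) v := by
    intro v
    rw [v.ord_mul hgf (inv_ne_zero hf), v.ord_inv, hgord, hford, Finsupp.sub_apply]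
    ring
  -- on each component
  obtain ⟨c₁, hc₁, hcf₁, hcρ₁⟩ := T.scale₁ f hf
  obtain ⟨c₂, hc₂, hcf₂, hcρ₂⟩ := T.scale₂ f hf
  have hroot : ∀ c : K, c ≠ 0 → ∃ r : K, r ≠ 0 ∧ r ^ d = SemilinearAut.baseAut g c * c⁻¹ := by
    intro c hc
    obtain ⟨r, hr⟩ := IsAlgClosed.exists_pow_nat_eq (SemilinearAut.baseAut g c * c⁻¹)
      (Nat.pos_of_ne_zero hd0)
    refine ⟨r, ?_, hr⟩
    rintro rfl
    rw [zero_pow hd0] at hr
    exact mul_ne_zero ((map_ne_zero _).mpr hc) (inv_ne_zero hc) hr.symm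
  obtain ⟨r₁, hr₁, hr₁'⟩ := hroot c₁ hc₁
  obtain ⟨r₂, hr₂, hr₂'⟩ := hroot c₂ hc₂
  have hquot : ∀ c : K, c ≠ 0 → g • (algebraMap K F c * f) * (algebraMap K F c * f)⁻¹ =
      g • f * f⁻¹ * algebraMap K F (SemilinearAut.baseAut g c * c⁻¹) := by
    intro c hc
    rw [smul_mul', SemilinearAut.smul_algebraMap, map_mul, map_inv₀, mul_inv]
    ring
  have heq₁ : T.Eq1 (g • f * f⁻¹ * (algebraMap K F r₁) ^ d) := by
    rw [← map_pow, hr₁', ← hquot c₁ hc₁]
    exact TwoComp.Eq1.of_eq (hg.mem₁ _ hcf₁) hcf₁ (by rw [hg.ρ₁ _ hcf₁, one_smul]) hcρ₁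
  have heq₂ : T.Eq2 (g • f * f⁻¹ * (algebraMap K F r₂) ^ d) := by
    rw [← map_pow, hr₂', ← hquot c₂ hc₂]
    exact TwoComp.Eq2.of_eq (hg.mem₂ _ hcf₂) hcf₂ (by rw [hg.ρ₂ _ hcf₂, one_smul]) hcρ₂
  obtain ⟨E, f', hE, hEE₀⟩ := T.exists_unitPair hπ hq arch hE₀deg hf₀ hE₀ord
    ((map_ne_zero _).mpr hr₁) ((map_ne_zero _).mpr hr₂) heq₁ heq₂
  have hprin := hE.inertia hπ arch hd hg₁
  -- conclusion
  have hmkE : Pic0.mk ⟨E, hE.degree⟩ = g • Pic0.mk D - Pic0.mk D := by
    rw [SemilinearAut.pic0_smul_mk]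
    have h1 : Pic0.mk (SemilinearAut.degZeroSMulHom g D) - Pic0.mk D =
      Pic0.mk (SemilinearAut.degZeroSMulHom g D - D) := rfl
    rw [h1, mk_eq_mk]
    exact hEE₀
  rw [← hmkE, SemilinearAut.pic0_smul_mk, mk_eq_mk]
  exact hprin

/-- **(SS')**: `(g₁ - 1)(g - 1) x = 0` when `d • x` is fixed by `g`. -/
theorem inertia_sq' [IsLocalHom π] [CharZero K] [Fact q.Prime] [CharP k q]
    (T : TwoComp K F k κ A π q) (hπ : Function.Surjective π)
    (arch : ∀ a b : A, π a = 0 → b ≠ 0 → ∃ n, b ∣ a ^ n)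
    {d : ℕ} (hd : (d : k) ≠ 0) {g g₁ : SemilinearAut K F} (hg : T.Compat g 1)
    (hg₁ : T.Compat g₁ 1) (x : Pic0 K F) (hx : g • (d • x) = d • x) :
    g₁ • (g • x - x) = g • x - x := by
  obtain ⟨E', hE', hfix⟩ := exists_fixed_divisor {g} T.P₁
    (fun g' hg' => by rw [Set.mem_singleton_iff.mp hg']; exact hg.P₁) (d • x)
    (fun g' hg' => by rw [Set.mem_singleton_iff.mp hg']; exact hx)
  exact inertia_sq_of_divisor T hπ arch hd hg hg₁ x E' hE'.symm (hfix g rfl)

end Fermat.Agent.H80.SS
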