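import Fermat.Agent.H75PLocal
import Fermat.Agent.H53TW1
import Fermat.Agent.H23FlatOrd
import Fermat.Agent.H30Points
import Fermat.Agent.H53CondOrd

set_option autoImplicit false
set_option linter.style.haveILetI false
set_option linter.unusedSectionVars false

/-!
# Strictly ordinary representations

* `ordB_of_ordI` : an ordinary representation (matrix form, at the distinguished place) whose
  unramified quotient character has square `1` at one Frobenius element is strictly ordinary;
* `isStrictOrdinaryAt_of_place` : it suffices to know the condition at the distinguished place;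
* `isStrictOrdinaryAt_of_psi_sq` : both together;
* `eq_zero_of_points`, `isStrictOrdinaryAt_of_points` : the condition can be checked at the
  points of a reduced ring.
-/

noncomputable section

open IsLocalRing GaloisRep
open scoped TensorProduct Pointwise

namespace Fermat.Agent.H80.Ty

open Fermat.Agent.H53 Fermat.Agent.H64 Fermat.Agent.H75P

local notation "GQ" => (AlgebraicClosure ℚ ≃ₐ[ℚ] AlgebraicClosure ℚ)

variable {p : ℕ} [hp : Fact p.Prime]

/-! ### The distinguished place -/

section Place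

variable {A : Type} [CommRing A] [IsLocalRing A]

/-- the unramified quotient character has square `1` on the whole decomposition group -/
theorem psi_sq (hsep : IsHausdorff (maximalIdeal A) A) {r : FGQ →* M2 A} (hcont : MCont A r)
    (hr : OrdI p r) {φ : FGQ} (hφ : (padicPlace p).IsFrobeniusAt φ p) (hsq : r φ 1 1 ^ 2 = 1)
    {σ : FGQ} (hσ : σ ∈ Dp p) : r σ 1 1 ^ 2 = 1 := by
  rw [← sub_eq_zero]
  apply hsep.haus
  intro n
  rw [SModEq.zero, smul_eq_mul, Ideal.mul_top]
  obtain ⟨m, hm⟩ := hr.exists_pow hcont hφ hσ n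
  have h1 : (r φ 1 1 ^ m) ^ 2 = 1 := by rw [← pow_mul, mul_comm, pow_mul, hsq, one_pow]
  have h2 : r σ 1 1 ^ 2 - 1 = (r σ 1 1 + r φ 1 1 ^ m) * (r σ 1 1 - r φ 1 1 ^ m) := by
    rw [← h1]; ring
  rw [h2]
  exact Ideal.mul_mem_left _ _ hm

/-- **ordinary with `ψ(φ) ^ 2 = 1` is strictly ordinary** (matrix form) -/
theorem ordB_of_ordI (hsep : IsHausdorff (maximalIdeal A) A) {r : FGQ →* M2 A}
    (hcont : MCont A r) (hdet : DetC p r) (hr : OrdI p r) {φ : FGQ}
    (hφ : (padicPlace p).IsFrobeniusAt φ p) (hsq : r φ 1 1 ^ 2 = 1) :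
    OrdB p (padicPlace p) r := by
  refine ⟨fun σ hσ => hr.1 σ hσ, fun σ hσ => ⟨hr.1 σ (Ip_le_Dp hσ), hr.2 σ hσ⟩,
    fun σ hσ n a ha => ?_⟩
  have h1 := hdet n σ a ha
  have h2 := psi_sq hsep hcont hr hφ hsq hσ
  have h3 : (r σ).det = r σ 0 0 * r σ 1 1 := by
    rw [Matrix.det_fin_two, hr.1 σ hσ, mul_zero, sub_zero]
  have h4 : r σ 0 0 - (a : A) * r σ 1 1 = ((r σ).det - (a : A)) * r σ 1 1 := by
    rw [h3]
    linear_combination (-(r σ 0 0)) * h2
  rw [h4]
  exact Ideal.mul_mem_right _ _ h1

/-- the matrix of `σ` in the basis moved by `g` -/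
theorem toMat_move (ρ : GaloisRepAdic A) (b : Module.Basis (Fin 2) A ρ.V) (g : GQ) :
    ∃ b' : Module.Basis (Fin 2) A ρ.V, ∀ σ, toMat ρ.ρ b' σ = toMat ρ.ρ b (g⁻¹ * σ * g) := by
  let e : ρ.V ≃ₗ[A] ρ.V :=
    { (ρ.ρ g) with
      invFun := ρ.ρ g⁻¹
      left_inv := fun v => by
        show ρ.ρ g⁻¹ (ρ.ρ g v) = v
        rw [← Module.End.mul_apply, ← map_mul, inv_mul_cancel, map_one, Module.End.one_apply]
      right_inv := fun v => by
        show ρ.ρ g (ρ.ρ g⁻¹ v) = v
        rw [← Module.End.mul_apply, ← map_mul, mul_inv_cancel, map_one, Module.End.one_apply] }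
  have he : ∀ v, e v = ρ.ρ g v := fun v => rfl
  have hes : ∀ v, e.symm v = ρ.ρ g⁻¹ v := fun v => rfl
  refine ⟨b.map e, fun σ => ?_⟩
  rw [toMat_apply, toMat_apply]
  ext i j
  rw [LinearMap.toMatrix_apply, LinearMap.toMatrix_apply, Module.Basis.map_apply,
    Module.Basis.map_repr, LinearEquiv.trans_apply, he, hes, map_mul, map_mul,
    Module.End.mul_apply, Module.End.mul_apply]

theorem conj_mem_inertia' {P : ValuationSubring FQb} {g σ : FGQ}
    (hσ : σ ∈ (g • P).inertiaSubgroupIn ℚ) : g⁻¹ * σ * g ∈ P.inertiaSubgroupIn ℚ := by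
  have h1 := H63.conj_mem_inertiaSubgroupIn g⁻¹ σ hσ
  rwa [inv_smul_smul, inv_inv] at h1

theorem conj_mem_decomp' {P : ValuationSubring FQb} {g σ : FGQ}
    (hσ : σ ∈ (g • P).decompositionSubgroup ℚ) : g⁻¹ * σ * g ∈ P.decompositionSubgroup ℚ := by
  have h1 : σ • (g • P) = g • P := hσ
  show (g⁻¹ * σ * g) • P = P
  rw [mul_smul, mul_smul, h1, inv_smul_smul]

/-- the strictly ordinary condition can be checked at the distinguished place -/
theorem isStrictOrdinaryAt_of_place (ρ : GaloisRepAdic A) (hpA : (p : A) ∈ maximalIdeal A)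
    (b : Module.Basis (Fin 2) A ρ.V) (h : OrdB p (padicPlace p) (toMat ρ.ρ b)) :
    ρ.IsStrictOrdinaryAt p := by
  refine ⟨hpA, fun P hP => (strictOrd_iff_exists_ordB ρ p P).mpr ?_⟩
  obtain ⟨g, rfl⟩ := exists_smul_eq_place hp.out (H54.liesOverPrime_padicPlace p) hP
  obtain ⟨b', hb'⟩ := toMat_move ρ b g
  refine ⟨b', fun σ hσ => ?_, fun σ hσ => ?_, fun σ hσ n a ha => ?_⟩
  · rw [hb']; exact h.1 _ (conj_mem_decomp' hσ)
  · rw [hb']; exact h.2.1 _ (conj_mem_inertia' hσ)
  · rw [hb']
    refine h.2.2 _ (conj_mem_decomp' hσ) n a fun μ hμ => ?_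
    have h1 : (g μ) ^ p ^ n = 1 := by rw [← map_pow, hμ, map_one]
    have h2 := ha (g μ) h1
    show g⁻¹ (σ (g μ)) = μ ^ a
    rw [h2, map_pow]
    congr 1
    exact g.symm_apply_apply μ

/-- **(T1)** an ordinary representation with cyclotomic determinant whose unramified quotient
character has square `1` at one Frobenius is strictly ordinary. -/
theorem isStrictOrdinaryAt_of_psi_sq (hsep : IsHausdorff (maximalIdeal A) A)
    (ρ : GaloisRepAdic A) (hdet : ρ.DetIsCyclotomic p)
    (b : Module.Basis (Fin 2) A ρ.V) (hb : OrdI p (toMat ρ.ρ b)) {φ : FGQ}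
    (hφ : (padicPlace p).IsFrobeniusAt φ p) (hsq : toMat ρ.ρ b φ 1 1 ^ 2 = 1) :
    ρ.IsStrictOrdinaryAt p :=
  isStrictOrdinaryAt_of_place ρ hdet.1 b
    (ordB_of_ordI hsep (mcont_toMat ρ b) (detC_toMat hdet b) hb hφ hsq)

/-- an adapted basis of an ordinary representation -/
theorem exists_basis_ordI {ρ : GaloisRepAdic A} (h : ρ.IsOrdinaryAt p) :
    ∃ b : Module.Basis (Fin 2) A ρ.V, OrdI p (toMat ρ.ρ b) := by
  obtain ⟨b, hb⟩ := (ord_iff_exists_ordBp ρ (padicPlace p)).mp
    (h (padicPlace p) (H54.liesOverPrime_padicPlace p))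
  exact ⟨b, fun σ hσ => hb.1 σ hσ, fun σ hσ => (hb.2 σ hσ).2⟩

end Place

/-! ### Points -/

section Points

variable {O : Type} [CommRing O] [IsDomain O] [IsDiscreteValuationRing O]
  [IsAdicComplete (maximalIdeal O) O] [Finite (ResidueField O)] [CharZero O]
  {T : Type} [CommRing T] [Algebra O T] [Module.Finite O T] [Module.Free O T]

/-- the points of a reduced finite free algebra separate its elements -/
theorem eq_zero_of_points [IsReduced T] (x : T)
    (h : ∀ (O' : Type) [CommRing O'] [IsDomain O'] [IsDiscreteValuationRing O']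
      [IsAdicComplete (maximalIdeal O') O'] [Finite (ResidueField O')] [CharZero O']
      [Algebra O O'] [Module.Finite O O'] [IsLocalHom (algebraMap O O')],
      Function.Injective (algebraMap O O') → ∀ f : T →ₐ[O] O', f x = 0) : x = 0 := by
  by_contra hx
  obtain ⟨I, hI, hxI⟩ : ∃ I ∈ minimalPrimes T, x ∉ I := by
    by_contra hcon
    push Not at hcon
    apply hx
    have h1 : x ∈ sInf (minimalPrimes T) := Submodule.mem_sInf.mpr hcon
    have h2 : sInf (minimalPrimes T) = nilradical T := by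
      rw [minimalPrimes, Ideal.sInf_minimalPrimes]
      rfl
    rw [h2, nilradical_eq_zero] at h1
    exact h1
  haveI : I.IsPrime := hI.1.1
  haveI : FaithfulSMul O (T ⧸ I) := by
    rw [faithfulSMul_iff_algebraMap_injective, injective_iff_map_eq_zero]
    intro y hy
    by_contra hy0
    have h1 : algebraMap O T y ∈ I := by
      rw [← Ideal.Quotient.eq_zero_iff_mem]
      exact hy
    have h2 : algebraMap O T y ∈ nonZeroDivisors T := by
      haveI : Module.IsTorsionFree O T := inferInstance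
      rw [mem_nonZeroDivisors_iff_right]
      intro z hz
      rw [mul_comm, ← Algebra.smul_def] at hz
      exact (smul_eq_zero.mp hz).resolve_left hy0
    exact Set.disjoint_left.mp (Ideal.disjoint_nonZeroDivisors_of_mem_minimalPrimes hI) h1 h2
  obtain ⟨O', i1, i2, i3, i4, i5, i6, i7, i8, i9, ψ, hψ⟩ := H30.exists_normalization O (T ⧸ I)
  have hinj : Function.Injective (algebraMap O O') := by
    have h1 : algebraMap O O' = (ψ : T ⧸ I →+* O').comp (algebraMap O (T ⧸ I)) :=
      ψ.comp_algebraMap.symm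
    rw [h1]
    exact hψ.comp (FaithfulSMul.algebraMap_injective O (T ⧸ I))
  have h1 := h O' hinj (ψ.comp (Ideal.Quotient.mkₐ O I))
  have h2 : ψ (Ideal.Quotient.mk I x) = 0 := h1
  have h3 : Ideal.Quotient.mk I x = 0 := hψ (by rw [h2, map_zero])
  exact hxI (Ideal.Quotient.eq_zero_iff_mem.mp h3)

variable [IsLocalRing T]

omit [IsDomain O] [IsDiscreteValuationRing O] [IsAdicComplete (maximalIdeal O) O]
  [Finite (ResidueField O)] [CharZero O] [Module.Free O T] in
/-- a point of a finite local algebra is a local homomorphism -/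
theorem isLocalHom_point [IsLocalRing O] {O' : Type} [CommRing O']
    [IsLocalRing O'] [Algebra O O'] [IsLocalHom (algebraMap O O')] (f : T →ₐ[O] O') :
    IsLocalHom (f : T →+* O') := by
  have hcomap : (maximalIdeal O').comap (f : T →+* O') = maximalIdeal T := by
    haveI : ((maximalIdeal O').comap (f : T →+* O')).IsPrime := Ideal.IsPrime.comap _
    apply IsLocalRing.eq_maximalIdeal
    apply Ideal.isMaximal_of_isIntegral_of_isMaximal_comap (R := O)
    rw [Ideal.comap_comap]
    have h1 : (f : T →+* O').comp (algebraMap O T) = algebraMap O O' := f.comp_algebraMap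
    rw [h1]
    have h2 : (maximalIdeal O').comap (algebraMap O O') = maximalIdeal O := by
      have h3 := (IsLocalRing.local_hom_TFAE (algebraMap O O')).out 0 4
      exact h3.mp inferInstance
    rw [h2]
    infer_instance
  exact ((IsLocalRing.local_hom_TFAE (f : T →+* O')).out 0 4).mpr hcomap

/-- the second coordinate functional of an ordinary representation in an adapted basis -/
theorem coord_apply {B : Type} [CommRing B] [IsLocalRing B] (ρ : GaloisRepAdic B)
    (b : Module.Basis (Fin 2) B ρ.V) {σ : GQ} (h : toMat ρ.ρ b σ 1 0 = 0) (v : ρ.V) :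
    b.coord 1 (ρ.ρ σ v) = toMat ρ.ρ b σ 1 1 * b.coord 1 v := by
  rw [Module.Basis.coord_apply, Module.Basis.coord_apply, repr_apply_eq, h, zero_mul, zero_add]

/-- **(T2)** strict ordinarity over a reduced finite free algebra can be checked at the points:
`hpt` = at every point, every nonzero functional which is invariant under inertia and on which
`φ` acts by `z` has `z ^ 2 = 1`. -/
theorem isStrictOrdinaryAt_of_points [IsReduced T] [IsAdicComplete (maximalIdeal T) T]
    (ρ : GaloisRepAdic T) (hdet : ρ.DetIsCyclotomic p) (hord : ρ.IsOrdinaryAt p) {φ : GQ}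
    (hφ : (padicPlace p).IsFrobeniusAt φ p)
    (hpt : ∀ (O' : Type) [CommRing O'] [IsDomain O'] [IsDiscreteValuationRing O']
      [IsAdicComplete (maximalIdeal O') O'] [Finite (ResidueField O')] [CharZero O']
      [Algebra O O'] [Module.Finite O O'] [IsLocalHom (algebraMap O O')],
      Function.Injective (algebraMap O O') → ∀ (f : T →ₐ[O] O')
        (hf : IsLocalHom (f : T →+* O'))
        (l : (ρ.baseChangeAlong (f : T →+* O') hf).V →ₗ[O'] O'), l ≠ 0 →
        (∀ σ ∈ (padicPlace p).inertiaSubgroupIn ℚ, ∀ v,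
          l ((ρ.baseChangeAlong (f : T →+* O') hf).ρ σ v) = l v) →
        ∀ z : O', (∀ v, l ((ρ.baseChangeAlong (f : T →+* O') hf).ρ φ v) = z * l v) →
          z ^ 2 = 1) :
    ρ.IsStrictOrdinaryAt p := by
  obtain ⟨b, hb⟩ := exists_basis_ordI hord
  have hφD : φ ∈ Dp p := hφ.mem_decompositionSubgroup
  refine isStrictOrdinaryAt_of_psi_sq (inferInstance : IsHausdorff (maximalIdeal T) T) ρ hdet b hb
    hφ ?_
  rw [← sub_eq_zero]
  refine eq_zero_of_points (O := O) _ ?_
  intro O' _ _ _ _ _ _ _ _ _ hinj f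
  have hf : IsLocalHom (f : T →+* O') := isLocalHom_point f
  set ρf := ρ.baseChangeAlong (f : T →+* O') hf with hρf
  let bf : Module.Basis (Fin 2) O' ρf.V := bcBasis (f : T →+* O') hf ρ b
  have hm : ∀ σ i j, toMat ρf.ρ bf σ i j = f (toMat ρ.ρ b σ i j) := by
    intro σ i j
    have h1 := toMat_bcBasis (f : T →+* O') hf ρ b
    have h2 := congrArg (fun r => r σ i j) h1
    exact h2
  have h10 : ∀ σ ∈ Dp p, toMat ρf.ρ bf σ 1 0 = 0 := fun σ hσ => by
    rw [hm, hb.1 σ hσ, map_zero]
  have hl : bf.coord 1 ≠ 0 := by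
    intro h
    have h1 := LinearMap.congr_fun h (bf 1)
    rw [Module.Basis.coord_apply, Module.Basis.repr_self, Finsupp.single_eq_same,
      LinearMap.zero_apply] at h1
    exact one_ne_zero h1
  have h1 := hpt O' hinj f hf (bf.coord 1) hl (fun σ hσ v => by
      have h2 := coord_apply ρf bf (h10 σ (Ip_le_Dp hσ)) v
      rw [h2, hm, hb.2 σ hσ, map_one, one_mul])
    (toMat ρf.ρ bf φ 1 1) (fun v => coord_apply ρf bf (h10 φ hφD) v)
  rw [hm] at h1
  rw [map_sub, map_pow, h1, map_one, sub_self]

end Points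

end Fermat.Agent.H80.Ty
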