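import Mathlib
import Fermat.Agent.H81Br1

set_option autoImplicit false

/-!
# Brandt matrices and weight two forms (LT-MOD2, M3b), part 2
-/

namespace Fermat.Agent.H81

open UpperHalfPlane ModularForm ModularFormClass MatrixGroups Filter Topology
open Fermat.Agent.H16.Lower

noncomputable section

/-- the Hecke relation from multiplicativity -/
theorem hecke_relation {lam : ℕ → ℂ} (h1 : lam 1 = 1)
    (hcop : ∀ m n, 1 ≤ m → 1 ≤ n → m.Coprime n → lam (m * n) = lam m * lam n) {ℓ : ℕ} (hℓ : ℓ.Prime)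
    (hpow : ∀ r, lam (ℓ ^ (r + 2)) = lam ℓ * lam (ℓ ^ (r + 1)) - ℓ * lam (ℓ ^ r)) {n : ℕ}
    (hn : 1 ≤ n) :
    lam (n * ℓ) + (if ℓ ∣ n then (ℓ : ℂ) * lam (n / ℓ) else 0) = lam ℓ * lam n := by
  obtain ⟨r, m, hm, rfl⟩ := Nat.exists_eq_pow_mul_and_not_dvd (by omega : n ≠ 0) ℓ hℓ.ne_one
  have hm1 : 1 ≤ m := Nat.one_le_iff_ne_zero.mpr (by rintro rfl; exact hm (dvd_zero _))
  have hc : ∀ k, (ℓ ^ k).Coprime m := fun k =>
    Nat.Coprime.pow_left _ ((Nat.Prime.coprime_iff_not_dvd hℓ).mpr hm)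
  have hp1 : ∀ k, 1 ≤ ℓ ^ k := fun k => Nat.one_le_pow _ _ hℓ.pos
  have e1 : ℓ ^ r * m * ℓ = ℓ ^ (r + 1) * m := by ring
  rw [e1, hcop _ _ (hp1 _) hm1 (hc _), hcop _ _ (hp1 _) hm1 (hc _)]
  rcases r with _ | r
  · have : ¬ ℓ ∣ ℓ ^ 0 * m := by rwa [pow_zero, one_mul]
    rw [if_neg this, pow_zero, h1]
    simp
  · have h2 : ℓ ∣ ℓ ^ (r + 1) * m := ⟨ℓ ^ r * m, by ring⟩
    have h3 : ℓ ^ (r + 1) * m / ℓ = ℓ ^ r * m := by
      rw [show ℓ ^ (r + 1) * m = ℓ * (ℓ ^ r * m) by ring, Nat.mul_div_cancel_left _ hℓ.pos]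
    rw [if_pos h2, h3, hcop _ _ (hp1 _) hm1 (hc _), hpow]
    ring

/-- A weight two form of squarefree level whose coefficients satisfy the Hecke relations and which
is not Eisenstein is a normalised cuspidal eigenform. -/
theorem exists_normalizedEigenform {M : ℕ} [NeZero M] (hM : Squarefree M)
    (f : ModularForm (CongruenceSubgroup.Gamma0 M) 2) {lam : ℕ → ℂ}
    (hf : ∀ n, 1 ≤ n → qCoeff f n = lam n) (h1 : lam 1 = 1)
    (hcop : ∀ m n, 1 ≤ m → 1 ≤ n → m.Coprime n → lam (m * n) = lam m * lam n)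
    (hpow : ∀ p r, p.Prime → ¬ p ∣ M →
      lam (p ^ (r + 2)) = lam p * lam (p ^ (r + 1)) - p * lam (p ^ r))
    (hpow' : ∀ p r, p.Prime → p ∣ M → lam (p ^ (r + 2)) = lam p * lam (p ^ (r + 1)))
    {ℓ : ℕ} (hℓ : ℓ.Prime) (hℓM : ¬ ℓ ∣ M) (hne : lam ℓ ≠ ℓ + 1) :
    ∃ g : CuspForm (CongruenceSubgroup.Gamma0 M) 2, g.IsNormalizedEigenform ∧
      (g : ℍ → ℂ) = f ∧ ∀ n, 1 ≤ n → qCoeff g n = lam n := by
  obtain ⟨g, hg⟩ := exists_cuspForm_of_eigen hM f hℓ hℓM hne (fun n hn => by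
    rw [hf n hn, hf (n * ℓ) (Nat.mul_pos hn hℓ.pos)]
    have : (if ℓ ∣ n then (ℓ : ℂ) * qCoeff f (n / ℓ) else 0) =
        if ℓ ∣ n then (ℓ : ℂ) * lam (n / ℓ) else 0 := by
      split_ifs with h
      · rw [hf]
        exact Nat.div_pos (Nat.le_of_dvd hn h) hℓ.pos
      · rfl
    rw [this]
    exact hecke_relation h1 hcop hℓ (fun r => hpow ℓ r hℓ hℓM) hn)
  have hgn : ∀ n, 1 ≤ n → qCoeff g n = lam n := by
    intro n hn
    rw [hg]
    exact hf n hn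
  have hp1 : ∀ p k : ℕ, p.Prime → 1 ≤ p ^ k := fun p k hp => Nat.one_le_pow _ _ hp.pos
  refine ⟨g, ⟨?_, ?_, ?_, ?_⟩, hg, hgn⟩
  · rw [hgn 1 le_rfl, h1]
  · intro m n hmn
    rcases Nat.eq_zero_or_pos m with rfl | hm
    · rw [Nat.coprime_zero_left] at hmn
      subst hmn
      rw [hgn 1 le_rfl, h1, zero_mul, mul_one]
    · rcases Nat.eq_zero_or_pos n with rfl | hn
      · rw [Nat.coprime_zero_right] at hmn
        subst hmn
        rw [hgn 1 le_rfl, h1, mul_zero, one_mul]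
      · rw [hgn _ (Nat.mul_pos hm hn), hgn m hm, hgn n hn, hcop m n hm hn hmn]
  · intro p r hp hpM
    rw [hgn _ (hp1 _ _ hp), hgn _ hp.pos, hgn _ (hp1 _ _ hp), hgn _ (hp1 _ _ hp), hpow p r hp hpM]
  · intro p r hp hpM
    rw [hgn _ (hp1 _ _ hp), hgn _ hp.pos, hgn _ (hp1 _ _ hp), hpow' p r hp hpM]

theorem qCoeff_sum_smul {M : ℕ} {Y : Type*} (s : Finset Y) (c : Y → ℂ)
    (θ : Y → ModularForm (CongruenceSubgroup.Gamma0 M) 2) (n : ℕ) :
    qCoeff ((∑ j ∈ s, c j • θ j : ModularForm (CongruenceSubgroup.Gamma0 M) 2) : ℍ → ℂ) n =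
      ∑ j ∈ s, c j * qCoeff (θ j) n := by
  classical
  induction s using Finset.induction_on with
  | empty =>
    rw [Finset.sum_empty, Finset.sum_empty]
    have h := qCoeff_smul' (0 : ℂ) (0 : ModularForm (CongruenceSubgroup.Gamma0 M) 2) n
    rw [zero_mul] at h
    have h0 : (0 : ℂ) • (0 : ModularForm (CongruenceSubgroup.Gamma0 M) 2) = 0 := by
      apply DFunLike.coe_injective
      funext z
      simp
    rwa [h0] at h
  | insert a s ha ih =>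
    rw [Finset.sum_insert ha, Finset.sum_insert ha, qCoeff_add', ih, qCoeff_smul']

open Matrix in
/-- **Brandt eigenvectors give weight two eigenforms.** -/
theorem exists_eigenform_of_brandt {M : ℕ} [NeZero M] (hM : Squarefree M) {Y : Type*} [Fintype Y]
    [DecidableEq Y] (θ : Y → Y → ModularForm (CongruenceSubgroup.Gamma0 M) 2) (w : Y → ℂ)
    (hw : ∀ j, w j ≠ 0) (B : ℕ → Matrix Y Y ℂ)
    (hθ : ∀ n, 1 ≤ n → ∀ i j, qCoeff (θ i j) n = w j * B n i j) (hB1 : B 1 = 1)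
    (hBcop : ∀ m n, 1 ≤ m → 1 ≤ n → m.Coprime n → B (m * n) = B m * B n)
    (hBpow : ∀ p r, p.Prime → ¬ p ∣ M →
      B (p ^ (r + 2)) = B p * B (p ^ (r + 1)) - (p : ℂ) • B (p ^ r))
    (hBpow' : ∀ p r, p.Prime → p ∣ M → B (p ^ (r + 2)) = B p * B (p ^ (r + 1)))
    {φ : Y → ℂ} (hφ : φ ≠ 0) (hev : ∀ p, p.Prime → ∃ c : ℂ, B p *ᵥ φ = c • φ)
    {ℓ : ℕ} (hℓ : ℓ.Prime) (hℓM : ¬ ℓ ∣ M) (hne : B ℓ *ᵥ φ ≠ ((ℓ : ℂ) + 1) • φ) :
    ∃ g : CuspForm (CongruenceSubgroup.Gamma0 M) 2, g.IsNormalizedEigenform ∧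
      ∀ n, 1 ≤ n → B n *ᵥ φ = qCoeff g n • φ := by
  have hppow : ∀ p, p.Prime → ∀ r, (∃ c : ℂ, B (p ^ r) *ᵥ φ = c • φ) ∧
      ∃ c : ℂ, B (p ^ (r + 1)) *ᵥ φ = c • φ := by
    intro p hp r
    induction r with
    | zero =>
      refine ⟨⟨1, ?_⟩, ?_⟩
      · rw [pow_zero, hB1, one_mulVec, one_smul]
      · rw [zero_add, pow_one]
        exact hev p hp
    | succ r ih =>
      refine ⟨ih.2, ?_⟩
      obtain ⟨⟨c, hc⟩, ⟨c', hc'⟩⟩ := ih
      obtain ⟨a, ha⟩ := hev p hp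
      by_cases hpM : p ∣ M
      · refine ⟨c' * a, ?_⟩
        rw [hBpow' p r hp hpM, ← mulVec_mulVec, hc', mulVec_smul, ha, smul_smul]
      · refine ⟨c' * a - p * c, ?_⟩
        rw [hBpow p r hp hpM, sub_mulVec, ← mulVec_mulVec, hc', mulVec_smul, ha, smul_smul,
          smul_mulVec, hc, smul_smul, sub_smul]
  have hall : ∀ n, 1 ≤ n → ∃ c : ℂ, B n *ᵥ φ = c • φ := by
    intro n
    induction n using Nat.recOnPosPrimePosCoprime with
    | prime_pow p k hp hk =>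
      intro _
      exact (hppow p hp k).1
    | zero => intro h; omega
    | one => intro _; exact ⟨1, by rw [hB1, one_mulVec, one_smul]⟩
    | coprime a b ha hb hab iha ihb =>
      intro _
      obtain ⟨c, hc⟩ := iha ha.le
      obtain ⟨c', hc'⟩ := ihb hb.le
      refine ⟨c' * c, ?_⟩
      rw [hBcop a b ha.le hb.le hab, ← mulVec_mulVec, hc', mulVec_smul, hc, smul_smul]
  choose! lam hlam using hall
  obtain ⟨i0, hi0⟩ := Function.ne_iff.mp hφ
  rw [Pi.zero_apply] at hi0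
  have hinj : ∀ a b : ℂ, a • φ = b • φ → a = b := by
    intro a b h
    have := congrFun h i0
    simp only [Pi.smul_apply, smul_eq_mul] at this
    exact mul_right_cancel₀ hi0 this
  have hp1 : ∀ p k : ℕ, p.Prime → 1 ≤ p ^ k := fun p k hp => Nat.one_le_pow _ _ hp.pos
  let f : ModularForm (CongruenceSubgroup.Gamma0 M) 2 :=
    ∑ j : Y, ((φ i0)⁻¹ * (φ j * (w j)⁻¹)) • θ i0 j
  have hf : ∀ n, 1 ≤ n → qCoeff f n = lam n := by
    intro n hn
    rw [qCoeff_sum_smul]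
    have h1 : ∀ j : Y, (φ i0)⁻¹ * (φ j * (w j)⁻¹) * qCoeff (θ i0 j) n =
        (φ i0)⁻¹ * (B n i0 j * φ j) := by
      intro j
      rw [hθ n hn]
      have := hw j
      field_simp
    rw [Finset.sum_congr rfl (fun j _ => h1 j), ← Finset.mul_sum]
    have h2 : ∑ j : Y, B n i0 j * φ j = lam n * φ i0 := by
      have := congrFun (hlam n hn) i0
      simpa [mulVec, dotProduct] using this
    rw [h2]
    field_simp
  obtain ⟨g, hg, -, hgn⟩ := exists_normalizedEigenform hM f hf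
    (hinj _ _ (by rw [← hlam 1 le_rfl, hB1, one_mulVec, one_smul]))
    (fun m n hm hn hmn => hinj _ _ (by
      rw [← hlam _ (Nat.mul_pos hm hn), hBcop m n hm hn hmn, ← mulVec_mulVec, hlam n hn,
        mulVec_smul, hlam m hm, smul_smul, mul_comm]))
    (fun p r hp hpM => hinj _ _ (by
      rw [← hlam _ (hp1 _ _ hp), hBpow p r hp hpM, sub_mulVec, ← mulVec_mulVec,
        hlam _ (hp1 _ _ hp), mulVec_smul, hlam _ hp.pos, smul_smul, smul_mulVec,
        hlam _ (hp1 _ _ hp), smul_smul, sub_smul, mul_comm (lam p)]))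
    (fun p r hp hpM => hinj _ _ (by
      rw [← hlam _ (hp1 _ _ hp), hBpow' p r hp hpM, ← mulVec_mulVec,
        hlam _ (hp1 _ _ hp), mulVec_smul, hlam _ hp.pos, smul_smul, mul_comm (lam p)]))
    hℓ hℓM (fun h => hne (by rw [hlam ℓ hℓ.pos, h]))
  exact ⟨g, hg, fun n hn => by rw [hgn n hn, hlam n hn]⟩

end

end Fermat.Agent.H81
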