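import Mathlib

set_option autoImplicit false

/-!
# Quadratic Gauss sums over `ZMod q`
-/

namespace Fermat.Agent.H81

open Complex Real ZMod

noncomputable section

variable {q : ℕ} [hqp : Fact q.Prime]

/-- the quadratic character with complex values -/
def chi (q : ℕ) [Fact q.Prime] : MulChar (ZMod q) ℂ :=
  (quadraticChar (ZMod q)).ringHomComp (Int.castRingHom ℂ)

theorem chi_apply (a : ZMod q) : chi q a = ((quadraticChar (ZMod q) a : ℤ) : ℂ) := rfl

theorem chi_zero : chi q 0 = 0 := by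
  rw [chi_apply, quadraticChar_zero, Int.cast_zero]

theorem chi_sq {a : ZMod q} (ha : a ≠ 0) : chi q a * chi q a = 1 := by
  have := quadraticChar_sq_one ha
  rw [chi_apply, ← Int.cast_mul, ← sq, this, Int.cast_one]

theorem chi_ne_zero {a : ZMod q} (ha : a ≠ 0) : chi q a ≠ 0 := fun h => by
  have := chi_sq ha
  rw [h, mul_zero] at this
  exact zero_ne_one this

theorem chi_mul_self (a : ZMod q) (ha : a ≠ 0) : chi q (a * a) = 1 := by
  rw [map_mul, chi_sq ha]

theorem chi_inv (a : ZMod q) : chi q a⁻¹ = chi q a := by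
  rcases eq_or_ne a 0 with rfl | ha
  · rw [inv_zero]
  · have h1 : chi q a⁻¹ * chi q a = 1 := by
      rw [← map_mul, inv_mul_cancel₀ ha, map_one]
    have h2 := chi_sq ha
    exact mul_right_cancel₀ (chi_ne_zero ha) (h1.trans h2.symm)

theorem chi_div {a b : ZMod q} : chi q (a / b) = chi q a * chi q b := by
  rw [div_eq_mul_inv, map_mul, chi_inv]

theorem chi_neg_one (h3 : q % 4 = 3) : chi q (-1) = -1 := by
  have h : ¬ IsSquare (-1 : ZMod q) := by
    rw [FiniteField.isSquare_neg_one_iff, ZMod.card]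
    exact not_not.mpr h3
  rw [chi_apply, quadraticChar_neg_one_iff_not_isSquare.mpr h]
  simp

theorem chi_neg (h3 : q % 4 = 3) (a : ZMod q) : chi q (-a) = -chi q a := by
  rw [neg_eq_neg_one_mul, map_mul, chi_neg_one h3, neg_one_mul]

theorem chi_of_isSquare {a : ZMod q} (ha : a ≠ 0) (h : IsSquare a) : chi q a = 1 := by
  rw [chi_apply, (quadraticChar_one_iff_isSquare ha).mpr h, Int.cast_one]

theorem ringChar_ne_two (h3 : q % 4 = 3) : ringChar (ZMod q) ≠ 2 := by
  rw [ZMod.ringChar_zmod_n]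
  rintro rfl
  simp at h3

/-- The quadratic Gauss sum as a sum over squares. -/
theorem sum_stdAddChar_mul_sq (h3 : q % 4 = 3) {a : ZMod q} (ha : a ≠ 0) :
    ∑ r : ZMod q, stdAddChar (a * r ^ 2) = chi q a * gaussSum (chi q) stdAddChar := by
  classical
  have hprim := ZMod.isPrimitive_stdAddChar q
  have e1 : ∑ r : ZMod q, (stdAddChar (a * r ^ 2) : ℂ) =
      ∑ t : ZMod q, ∑ r : ZMod q with r ^ 2 = t, (stdAddChar (a * r ^ 2) : ℂ) :=
    (Finset.sum_fiberwise _ _ _).symm
  have e2 : ∀ t : ZMod q, ∑ r : ZMod q with r ^ 2 = t, (stdAddChar (a * r ^ 2) : ℂ) =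
      (chi q t + 1) * stdAddChar (a * t) := by
    intro t
    rw [Finset.sum_congr rfl (g := fun _ => (stdAddChar (a * t) : ℂ))
      (fun r hr => by rw [(Finset.mem_filter.mp hr).2]), Finset.sum_const, nsmul_eq_mul]
    congr 1
    have := quadraticChar_card_sqrts (ringChar_ne_two h3) t
    rw [chi_apply, ← Int.cast_one, ← Int.cast_add, ← this, Int.cast_natCast]
    congr 2
    ext x
    simp
  rw [e1, Finset.sum_congr rfl (fun t _ => e2 t)]
  simp only [add_mul, one_mul, Finset.sum_add_distrib]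
  have e3 : ∑ t : ZMod q, (stdAddChar (a * t) : ℂ) = 0 := by
    have := AddChar.sum_mulShift (R' := ℂ) a hprim
    rw [if_neg ha] at this
    simp only [mul_comm a]
    exact_mod_cast this
  rw [e3, add_zero]
  have e4 := gaussSum_mulShift (chi q) (stdAddChar (N := q)) (Units.mk0 a ha)
  rw [Units.val_mk0] at e4
  rw [← e4, ← mul_assoc, chi_sq ha, one_mul]
  rfl

theorem gaussSum_chi_sq (h3 : q % 4 = 3) :
    gaussSum (chi q) stdAddChar * gaussSum (chi q) (stdAddChar (N := q)) = -q := by
  have h1 : chi q ≠ 1 := by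
    intro h
    obtain ⟨a, ha⟩ := quadraticChar_exists_neg_one' (ringChar_ne_two h3)
    have h2 : chi q (a : ZMod q) = 1 := by rw [h]; exact MulChar.one_apply a.isUnit
    rw [chi_apply, ha] at h2
    norm_num at h2
  have h2 : (chi q).IsQuadratic := (quadraticChar_isQuadratic (ZMod q)).comp _
  rw [← sq, gaussSum_sq h1 h2 (ZMod.isPrimitive_stdAddChar q), chi_neg_one h3, ZMod.card]
  ring

end

end Fermat.Agent.H81
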