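import Mathlib

set_option autoImplicit false

/-!
# One-dimensional theta series attached to residue classes

`th M r z = ∑_{n ∈ ℤ} exp (π i (r + M n)² z / M)`.
-/

namespace Fermat.Agent.H81

open Complex Real

noncomputable section

/-- the summand `exp (π i u² z / M)` -/
def eM (M : ℕ) (u : ℤ) (z : ℂ) : ℂ := cexp (π * I * (u : ℂ) ^ 2 * z / M)

/-- the theta series of the residue class of `r` mod `M` -/
def th (M : ℕ) (r : ℤ) (z : ℂ) : ℂ :=
  cexp (π * I * (r : ℂ) ^ 2 * z / M) * jacobiTheta₂ ((r : ℂ) * z) ((M : ℂ) * z)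

theorem im_natCast_mul_pos {M : ℕ} (hM : M ≠ 0) {z : ℂ} (hz : 0 < z.im) : 0 < ((M : ℂ) * z).im := by
  have : (0 : ℝ) < M := by exact_mod_cast Nat.pos_of_ne_zero hM
  simp only [Complex.mul_im, natCast_re, natCast_im, zero_mul, add_zero]
  positivity

theorem hasSum_th {M : ℕ} (hM : M ≠ 0) (r : ℤ) {z : ℂ} (hz : 0 < z.im) :
    HasSum (fun n : ℤ => eM M (r + M * n) z) (th M r z) := by
  have h := (hasSum_jacobiTheta₂_term ((r : ℂ) * z) (im_natCast_mul_pos hM hz)).mul_left
    (cexp (π * I * (r : ℂ) ^ 2 * z / M))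
  have hM' : (M : ℂ) ≠ 0 := by exact_mod_cast hM
  have e : (fun n : ℤ => eM M (r + M * n) z) = fun n : ℤ => cexp (π * I * (r : ℂ) ^ 2 * z / M) *
      jacobiTheta₂_term n ((r : ℂ) * z) ((M : ℂ) * z) := by
    funext n
    simp only [eM, jacobiTheta₂_term]
    rw [← Complex.exp_add]
    congr 1
    push_cast
    field_simp
    ring
  rw [e]
  exact h

theorem th_add_self {M : ℕ} (hM : M ≠ 0) (r : ℤ) {z : ℂ} (hz : 0 < z.im) :
    th M (r + M) z = th M r z := by
  have h1 := hasSum_th hM (r + M) hz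
  have h2 := hasSum_th hM r hz
  rw [← (Equiv.addRight (1 : ℤ)).hasSum_iff] at h2
  refine h1.unique ?_
  convert h2 using 2 with n
  simp only [Function.comp_apply, Equiv.coe_addRight]
  congr 1
  ring

theorem th_add_mul {M : ℕ} (hM : M ≠ 0) (r k : ℤ) {z : ℂ} (hz : 0 < z.im) :
    th M (r + M * k) z = th M r z := by
  have h1 := hasSum_th hM (r + M * k) hz
  have h2 := hasSum_th hM r hz
  rw [← (Equiv.addRight (k : ℤ)).hasSum_iff] at h2
  refine h1.unique ?_
  convert h2 using 2 with n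
  simp only [Function.comp_apply, Equiv.coe_addRight]
  congr 1
  ring

theorem th_congr {M : ℕ} (hM : M ≠ 0) {r s : ℤ} (h : (r : ZMod M) = (s : ZMod M)) {z : ℂ}
    (hz : 0 < z.im) : th M r z = th M s z := by
  rw [ZMod.intCast_eq_intCast_iff_dvd_sub] at h
  obtain ⟨k, hk⟩ := h
  rw [show s = r + M * k by linarith, th_add_mul hM r k hz]

theorem th_neg (M : ℕ) (r : ℤ) (z : ℂ) : th M (-r) z = th M r z := by
  rw [th, th]
  push_cast
  rw [neg_mul, jacobiTheta₂_neg_left, neg_sq]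

theorem hasSum_th_ind {M : ℕ} (hM : M ≠ 0) (r : ℤ) {z : ℂ} (hz : 0 < z.im) :
    HasSum (fun u : ℤ => if (u : ZMod M) = (r : ZMod M) then eM M u z else 0) (th M r z) := by
  have hMz : (M : ℤ) ≠ 0 := by exact_mod_cast hM
  have hinj : Function.Injective (fun n : ℤ => r + M * n) := fun a b hab => by
    simpa [hM] using hab
  rw [← hinj.hasSum_iff]
  · convert hasSum_th hM r hz using 2 with n
    simp
  · intro u hu
    rw [if_neg]
    intro h
    rw [eq_comm, ZMod.intCast_eq_intCast_iff_dvd_sub] at h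
    obtain ⟨k, hk⟩ := h
    exact hu ⟨k, by simp only; linarith⟩

/-- translation by one, even modulus -/
theorem th_add_one {m : ℕ} (hm : m ≠ 0) (r : ℤ) (z : ℂ) :
    th (2 * m) r (z + 1) = cexp (π * I * (r : ℂ) ^ 2 / (2 * m)) * th (2 * m) r z := by
  have hm' : (m : ℂ) ≠ 0 := by exact_mod_cast hm
  have e1 : ∀ (w τ : ℂ) (k : ℤ), jacobiTheta₂ (w + k) τ = jacobiTheta₂ w τ := by
    intro w τ k
    induction k using Int.induction_on with
    | zero => simp
    | succ i ih =>
      rw [← ih]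
      push_cast
      rw [← add_assoc, jacobiTheta₂_add_left]
    | pred i ih =>
      rw [← ih, ← jacobiTheta₂_add_left]
      congr 1
      push_cast
      ring
  have e2 : ∀ (w τ : ℂ) (k : ℕ), jacobiTheta₂ w (τ + 2 * k) = jacobiTheta₂ w τ := by
    intro w τ k
    induction k with
    | zero => simp
    | succ i ih =>
      rw [← ih, ← jacobiTheta₂_add_right w (τ + 2 * i)]
      congr 1
      push_cast
      ring
  rw [th, th]
  have h1 : (r : ℂ) * (z + 1) = (r : ℂ) * z + (r : ℤ) := by ring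
  have h2 : ((2 * m : ℕ) : ℂ) * (z + 1) = ((2 * m : ℕ) : ℂ) * z + 2 * (m : ℕ) := by
    push_cast; ring
  rw [h1, h2, e1, e2, ← mul_assoc, ← Complex.exp_add]
  congr 2
  push_cast
  field_simp
  ring

/-- decomposition into residue classes -/
theorem hasSum_residues {M : ℕ} (hM : M ≠ 0) {f : ℤ → ℂ} (S : ℕ → ℂ)
    (h : ∀ s ∈ Finset.range M, HasSum (fun n : ℤ => f (s + M * n)) (S s)) :
    HasSum f (∑ s ∈ Finset.range M, S s) := by
  have hMz : (M : ℤ) ≠ 0 := by exact_mod_cast hM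
  have hMpos : (0 : ℤ) < M := by exact_mod_cast Nat.pos_of_ne_zero hM
  have key : ∀ s ∈ Finset.range M,
      HasSum (fun u : ℤ => if u % M = s then f u else 0) (S s) := by
    intro s hs
    have hs' : (s : ℤ) < M := by exact_mod_cast Finset.mem_range.mp hs
    have hinj : Function.Injective (fun n : ℤ => (s : ℤ) + M * n) := fun a b hab => by
      simpa [hM] using hab
    rw [← hinj.hasSum_iff]
    · convert h s hs using 2 with n
      simp only [Function.comp_apply]
      rw [if_pos]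
      rw [Int.add_mul_emod_self_left]
      exact Int.emod_eq_of_lt (by positivity) hs'
    · intro u hu
      rw [if_neg]
      intro h
      exact hu ⟨u / M, by simp only; rw [← h]; exact Int.emod_add_mul_ediv u M⟩
  have := hasSum_sum key
  convert this using 2 with u
  have h0 : 0 ≤ u % M := Int.emod_nonneg u hMz
  have h1 : u % M < M := Int.emod_lt_of_pos u hMpos
  obtain ⟨t, ht⟩ := Int.eq_ofNat_of_zero_le h0
  rw [Finset.sum_eq_single t]
  · rw [if_pos ht]
  · intro s _ hst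
    rw [if_neg]
    rw [ht]
    exact fun h => hst (by exact_mod_cast h.symm)
  · intro h
    exfalso
    apply h
    rw [Finset.mem_range]
    rw [ht] at h1
    exact_mod_cast h1

theorem im_neg_inv_pos {z : ℂ} (hz : 0 < z.im) : 0 < (-1 / z).im := by
  have hz0 : z ≠ 0 := by rintro rfl; simp at hz
  rw [neg_div, neg_im, one_div, inv_im, neg_div, neg_neg]
  exact div_pos hz (normSq_pos.mpr hz0)

/-- the inversion formula -/
theorem th_inv {M : ℕ} (hM : M ≠ 0) (r : ℤ) {z : ℂ} (hz : 0 < z.im) :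
    th M r (-1 / z) = 1 / (I * M / z) ^ (1 / 2 : ℂ) *
      ∑ s ∈ Finset.range M, cexp (2 * π * I * r * s / M) * th M s z := by
  have hz0 : z ≠ 0 := by rintro rfl; simp at hz
  have hM' : (M : ℂ) ≠ 0 := by exact_mod_cast hM
  rw [th, jacobiTheta₂_functional_equation]
  have e1 : -I * ((M : ℂ) * (-1 / z)) = I * M / z := by field_simp
  have e2 : (r : ℂ) * (-1 / z) / ((M : ℂ) * (-1 / z)) = r / M := by field_simp
  have e3 : -1 / ((M : ℂ) * (-1 / z)) = z / M := by field_simp
  have e4 : -π * I * ((r : ℂ) * (-1 / z)) ^ 2 / ((M : ℂ) * (-1 / z)) =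
      -(π * I * (r : ℂ) ^ 2 * (-1 / z) / M) := by field_simp
  rw [e1, e2, e3, e4, Complex.exp_neg]
  rw [show ∀ a b c : ℂ, a * (b * a⁻¹ * c) = (a * a⁻¹) * (b * c) by intros; ring,
    mul_inv_cancel₀ (Complex.exp_ne_zero _), one_mul]
  congr 1
  have hzM : 0 < (z / M).im := by
    rw [Complex.div_natCast_im]
    have : (0 : ℝ) < M := by exact_mod_cast Nat.pos_of_ne_zero hM
    positivity
  have h := hasSum_jacobiTheta₂_term ((r : ℂ) / M) hzM
  refine h.unique ?_
  apply hasSum_residues hM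
  intro s hs
  have h2 := (hasSum_th hM (s : ℤ) hz).mul_left (cexp (2 * π * I * r * s / M))
  refine h2.congr_fun ?_
  intro n
  simp only [eM, jacobiTheta₂_term]
  rw [← Complex.exp_add]
  have : cexp (2 * π * I * ((s : ℤ) + M * n : ℤ) * (r / M) +
      π * I * (((s : ℤ) + M * n : ℤ) : ℂ) ^ 2 * (z / M)) =
    cexp (2 * π * I * r * s / M + π * I * (((s : ℤ) + M * n : ℤ) : ℂ) ^ 2 * z / M +
      ((r * n : ℤ) : ℂ) * (2 * π * I)) := by
    congr 1
    push_cast
    field_simp
    ring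
  rw [this, Complex.exp_add _ (((r * n : ℤ) : ℂ) * (2 * π * I)), Complex.exp_int_mul_two_pi_mul_I,
    mul_one]

theorem differentiableAt_th {M : ℕ} (hM : M ≠ 0) (r : ℤ) {z : ℂ} (hz : 0 < z.im) :
    DifferentiableAt ℂ (th M r) z := by
  have h := (hasFDerivAt_jacobiTheta₂ ((r : ℂ) * z) (im_natCast_mul_pos hM hz)).differentiableAt
  have h2 : DifferentiableAt ℂ (fun w : ℂ => ((r : ℂ) * w, (M : ℂ) * w)) z := by fun_prop
  have h3 : DifferentiableAt ℂ (fun w : ℂ => jacobiTheta₂ ((r : ℂ) * w) ((M : ℂ) * w)) z :=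
    DifferentiableAt.comp (g := fun p : ℂ × ℂ => jacobiTheta₂ p.1 p.2) z h h2
  have h4 : DifferentiableAt ℂ (fun w : ℂ => cexp (π * I * (r : ℂ) ^ 2 * w / M)) z := by fun_prop
  exact h4.mul h3

theorem norm_eM (M : ℕ) (u : ℤ) (z : ℂ) :
    ‖eM M u z‖ = Real.exp (-(π * u ^ 2 * z.im / M)) := by
  rw [eM, Complex.norm_exp]
  congr 1
  have : (π * I * (u : ℂ) ^ 2 * z / M) = ((π * u ^ 2 / M : ℝ) : ℂ) * (I * z) := by
    push_cast; ring
  rw [this, Complex.re_ofReal_mul]
  simp
  ring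

theorem summable_norm_th {M : ℕ} (hM : M ≠ 0) (r : ℤ) {z : ℂ} (hz : 0 < z.im) :
    Summable (fun n : ℤ => ‖eM M (r + M * n) z‖) := (hasSum_th hM r hz).summable.norm

theorem summable_norm_th_ind {M : ℕ} (hM : M ≠ 0) (r : ℤ) {z : ℂ} (hz : 0 < z.im) :
    Summable (fun u : ℤ => ‖if (u : ZMod M) = (r : ZMod M) then eM M u z else 0‖) :=
  (hasSum_th_ind hM r hz).summable.norm

theorem exists_bound_th {M : ℕ} (hM : M ≠ 0) (r : ℤ) :
    ∃ C : ℝ, ∀ z : ℂ, 1 ≤ z.im → ‖th M r z‖ ≤ C := by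
  refine ⟨∑' n : ℤ, ‖eM M (r + M * n) I‖, fun z hz => ?_⟩
  have hz' : 0 < z.im := by linarith
  rw [← (hasSum_th hM r hz').tsum_eq]
  refine (norm_tsum_le_tsum_norm (summable_norm_th hM r hz')).trans ?_
  refine Summable.tsum_le_tsum (fun n => ?_) (summable_norm_th hM r hz')
    (summable_norm_th hM r (by simp))
  rw [norm_eM, norm_eM, Real.exp_le_exp, neg_le_neg_iff, I_im, mul_one]
  have : (0 : ℝ) < M := by exact_mod_cast Nat.pos_of_ne_zero hM
  have h0 : 0 ≤ π * (((r + M * n : ℤ) : ℝ)) ^ 2 := by positivity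
  exact div_le_div_of_nonneg_right (le_mul_of_one_le_right h0 hz) this.le

/-- positivity on the imaginary axis -/
theorem th_pos {M : ℕ} (hM : M ≠ 0) (r : ℤ) {y : ℝ} (hy : 0 < y) :
    ∃ t : ℝ, 0 < t ∧ th M r (y * I) = t := by
  have hz : 0 < ((y : ℂ) * I).im := by simpa using hy
  have hs := summable_norm_th hM r hz
  refine ⟨∑' n : ℤ, ‖eM M (r + M * n) (y * I)‖, ?_, ?_⟩
  · exact hs.tsum_pos (fun n => norm_nonneg _) 0 (by rw [norm_eM]; exact Real.exp_pos _)
  · rw [← (hasSum_th hM r hz).tsum_eq, Complex.ofReal_tsum]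
    congr 1
    ext n
    rw [norm_eM, eM, Complex.ofReal_exp]
    congr 1
    push_cast
    simp only [mul_im, ofReal_re, I_im, mul_one, ofReal_im, I_re, mul_zero, add_zero]
    ring_nf
    rw [I_sq]
    ring

end

end Fermat.Agent.H81
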