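import Mathlib
import Fermat.Agent.H81Theta1

set_option autoImplicit false

/-!
# Two-dimensional theta series of the lattice `O_K`, `K = ℚ(√-q)`, and its translates

For `q = 4k - 1`, `vt q r z = ∑ exp (2 π i (u² + q b²) z / (4 q))`, the sum over `u ≡ r mod q`,
`u ≡ b mod 2`.
-/

namespace Fermat.Agent.H81

open Complex Real

noncomputable section

theorem cpow_half_mul {a : ℝ} (ha : 0 < a) {w : ℂ} (hw : w ≠ 0) :
    ((a : ℂ) * w) ^ (1 / 2 : ℂ) = (Real.sqrt a : ℂ) * w ^ (1 / 2 : ℂ) := by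
  have ha' : (a : ℂ) ≠ 0 := by exact_mod_cast ha.ne'
  rw [Complex.cpow_def_of_ne_zero (mul_ne_zero ha' hw), Complex.cpow_def_of_ne_zero hw,
    Complex.log_ofReal_mul ha hw, add_mul, Complex.exp_add]
  congr 1
  rw [Real.sqrt_eq_rpow, Real.rpow_def_of_pos ha]
  push_cast
  rfl

theorem cpow_half_sq (w : ℂ) : w ^ (1 / 2 : ℂ) * w ^ (1 / 2 : ℂ) = w := by
  have := Complex.cpow_nat_inv_pow w (n := 2) (by norm_num)
  rw [pow_two] at this
  simpa using this

/-- the two-dimensional theta series of the class `r` mod `q` -/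
def vt (q : ℕ) (r : ℤ) (z : ℂ) : ℂ :=
  th (2 * q) r z * th 2 r z + th (2 * q) (r + q) z * th 2 (r + q) z

variable {q k : ℕ}

theorem vt_neg (q : ℕ) (r : ℤ) {z : ℂ} (hz : 0 < z.im) (hq : q ≠ 0) :
    vt q (-r) z = vt q r z := by
  have h2q : 2 * q ≠ 0 := by omega
  rw [vt, vt, th_neg, th_neg]
  congr 1
  have e1 : th (2 * q) (-r + q) z = th (2 * q) (r + q) z := by
    rw [← th_neg, ← th_add_self h2q _ hz]
    congr 1
    push_cast
    ring
  have e2 : th 2 (-r + q) z = th 2 (r + q) z := by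
    rw [← th_neg, ← th_add_mul two_ne_zero _ q hz]
    congr 1
    push_cast
    ring
  rw [e1, e2]

theorem vt_add_self (hq : q ≠ 0) (r : ℤ) {z : ℂ} (hz : 0 < z.im) :
    vt q (r + q) z = vt q r z := by
  have h2q : 2 * q ≠ 0 := by omega
  have e1 : th (2 * q) (r + q + q) z = th (2 * q) r z := by
    rw [← th_add_self h2q r hz]
    congr 1
    push_cast
    ring
  have e2 : th 2 (r + q + q) z = th 2 r z := by
    rw [← th_add_mul two_ne_zero r q hz]
    congr 1
    push_cast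
    ring
  rw [vt, vt, e1, e2, add_comm]

theorem vt_add_mul (hq : q ≠ 0) (r m : ℤ) {z : ℂ} (hz : 0 < z.im) :
    vt q (r + q * m) z = vt q r z := by
  induction m using Int.induction_on with
  | zero => simp
  | succ i ih =>
    rw [← ih, ← vt_add_self hq (r + q * i) hz]
    congr 1
    ring
  | pred i ih =>
    rw [← ih, ← vt_add_self hq (r + q * (-i - 1)) hz]
    congr 1
    ring

theorem vt_congr (hq : q ≠ 0) {r s : ℤ} (h : (r : ZMod q) = (s : ZMod q)) {z : ℂ}
    (hz : 0 < z.im) : vt q r z = vt q s z := by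
  rw [ZMod.intCast_eq_intCast_iff_dvd_sub] at h
  obtain ⟨m, hm⟩ := h
  rw [show s = r + q * m by linarith, vt_add_mul hq r m hz]

theorem th_two_add_one (r : ℤ) (z : ℂ) :
    th 2 r (z + 1) = cexp (π * I * (r : ℂ) ^ 2 / 2) * th 2 r z := by
  have := th_add_one (m := 1) one_ne_zero r z
  simpa using this

theorem vt_add_one (hk : q + 1 = 4 * k) (hq : q ≠ 0) (r : ℤ) (z : ℂ) :
    vt q r (z + 1) = cexp (2 * π * I * (r : ℂ) ^ 2 * k / q) * vt q r z := by
  have hq' : (q : ℂ) ≠ 0 := by exact_mod_cast hq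
  have hk' : (q : ℂ) = 4 * k - 1 := by
    have : (q : ℂ) + 1 = 4 * k := by exact_mod_cast hk
    rw [← this]; ring
  rw [vt, vt, th_add_one hq, th_add_one hq, th_two_add_one, th_two_add_one, mul_add]
  congr 1
  · rw [show ∀ a b c d : ℂ, a * b * (c * d) = (a * c) * (b * d) by intros; ring, ← Complex.exp_add]
    congr 2
    field_simp
    rw [hk']
    ring
  · rw [show ∀ a b c d : ℂ, a * b * (c * d) = (a * c) * (b * d) by intros; ring, ← Complex.exp_add]
    congr 1
    have : (π * I * (((r + q : ℤ)) : ℂ) ^ 2 / (2 * q) + π * I * (((r + q : ℤ)) : ℂ) ^ 2 / 2) =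
        2 * π * I * (r : ℂ) ^ 2 * k / q + ((2 * r * k + q * k : ℤ) : ℂ) * (2 * π * I) := by
      push_cast
      field_simp
      rw [hk']
      ring
    rw [this, Complex.exp_add, Complex.exp_int_mul_two_pi_mul_I, mul_one]

theorem sum_range_two_mul {q : ℕ} (f : ℕ → ℂ) :
    ∑ s ∈ Finset.range (2 * q), f s = ∑ s ∈ Finset.range q, (f s + f (s + q)) := by
  rw [two_mul, Finset.sum_range_add, Finset.sum_add_distrib]
  congr 1
  exact Finset.sum_congr rfl fun s _ => by rw [add_comm]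

theorem vt_inv (hk : q + 1 = 4 * k) (hq : q ≠ 0) (r : ℤ) {z : ℂ} (hz : 0 < z.im) :
    vt q r (-1 / z) = z / (I * Real.sqrt q) *
      ∑ s ∈ Finset.range q, cexp (2 * π * I * r * s * (2 * k) / q) * vt q s z := by
  have hz0 : z ≠ 0 := by rintro rfl; simp at hz
  have hq' : (q : ℂ) ≠ 0 := by exact_mod_cast hq
  have h2q : 2 * q ≠ 0 := by omega
  have hqk : (q : ℂ) = 4 * k - 1 := by
    have : (q : ℂ) + 1 = 4 * k := by exact_mod_cast hk
    rw [← this]; ring
  have hqpos : (0 : ℝ) < q := by exact_mod_cast Nat.pos_of_ne_zero hq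
  have hw : I / z ≠ 0 := div_ne_zero I_ne_zero hz0
  -- the constant
  have hc : (1 / (I * ((2 * q : ℕ) : ℂ) / z) ^ (1 / 2 : ℂ)) * (1 / (I * ((2 : ℕ) : ℂ) / z) ^ (1 / 2 : ℂ))
      = z / (2 * (I * Real.sqrt q)) := by
    have e1 : I * ((2 * q : ℕ) : ℂ) / z = ((2 * q : ℝ) : ℂ) * (I / z) := by push_cast; ring
    have e2 : I * ((2 : ℕ) : ℂ) / z = ((2 : ℝ) : ℂ) * (I / z) := by push_cast; ring
    rw [e1, e2, cpow_half_mul (by positivity) hw, cpow_half_mul (by positivity) hw, div_mul_div_comm,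
      one_mul, show ∀ a b c : ℂ, a * b * (c * b) = a * c * (b * b) by intros; ring, cpow_half_sq,
      ← Complex.ofReal_mul, ← Real.sqrt_mul (by positivity)]
    rw [show (2 * (q : ℝ) * 2) = 2 ^ 2 * q by ring, Real.sqrt_mul (by positivity),
      Real.sqrt_sq (by positivity)]
    have hs : (Real.sqrt q : ℂ) ≠ 0 := by
      exact_mod_cast (Real.sqrt_pos.mpr hqpos).ne'
    push_cast
    field_simp
  -- periodic exponentials
  have hper : ∀ (a : ℂ) (m : ℤ), cexp (a + m * (2 * π * I)) = cexp a := fun a m => by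
    rw [Complex.exp_add, Complex.exp_int_mul_two_pi_mul_I, mul_one]
  have hpi : cexp (π * I) = -1 := Complex.exp_pi_mul_I
  -- the key identity
  have key : ∀ s : ℕ, cexp (2 * π * I * r * s / ((2 * q : ℕ) : ℂ)) * th (2 * q) s z *
        (∑ m ∈ Finset.range 2, cexp (2 * π * I * r * m / ((2 : ℕ) : ℂ)) * th 2 m z) +
      cexp (2 * π * I * ((r + q : ℤ) : ℂ) * s / ((2 * q : ℕ) : ℂ)) * th (2 * q) s z *
        (∑ m ∈ Finset.range 2, cexp (2 * π * I * ((r + q : ℤ) : ℂ) * m / ((2 : ℕ) : ℂ)) * th 2 m z) =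
      2 * (cexp (2 * π * I * r * s * (2 * k) / q) * (th (2 * q) s z * th 2 s z)) := by
    intro s
    have e1 : cexp (2 * π * I * ((r + q : ℤ) : ℂ) * 1 / ((2 : ℕ) : ℂ)) =
        - cexp (2 * π * I * r * 1 / ((2 : ℕ) : ℂ)) := by
      have : (2 * π * I * ((r + q : ℤ) : ℂ) * 1 / ((2 : ℕ) : ℂ)) =
          2 * π * I * r * 1 / ((2 : ℕ) : ℂ) + π * I + ((2 * k - 1 : ℤ) : ℂ) * (2 * π * I) := by
        push_cast
        rw [hqk]
        ring
      rw [this, hper, Complex.exp_add, hpi]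
      ring
    rw [Finset.sum_range_succ, Finset.sum_range_one, Finset.sum_range_succ, Finset.sum_range_one]
    simp only [Nat.cast_zero, mul_zero, zero_div, Complex.exp_zero, one_mul, Nat.cast_one]
    rw [e1]
    rcases Nat.even_or_odd' s with ⟨t, rfl | rfl⟩
    · have e2 : cexp (2 * π * I * ((r + q : ℤ) : ℂ) * ((2 * t : ℕ) : ℂ) / ((2 * q : ℕ) : ℂ)) =
          cexp (2 * π * I * r * ((2 * t : ℕ) : ℂ) / ((2 * q : ℕ) : ℂ)) := by
        rw [← hper (2 * π * I * r * ((2 * t : ℕ) : ℂ) / ((2 * q : ℕ) : ℂ)) t]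
        congr 1
        push_cast
        field_simp
      have e3 : cexp (2 * π * I * r * ((2 * t : ℕ) : ℂ) * (2 * k) / q) =
          cexp (2 * π * I * r * ((2 * t : ℕ) : ℂ) / ((2 * q : ℕ) : ℂ)) := by
        rw [← hper (2 * π * I * r * ((2 * t : ℕ) : ℂ) / ((2 * q : ℕ) : ℂ)) (r * t)]
        congr 1
        push_cast
        field_simp
        rw [hqk]
        ring
      have e4 : th 2 ((2 * t : ℕ) : ℤ) z = th 2 ((0 : ℕ) : ℤ) z := by
        have := th_add_mul two_ne_zero 0 t hz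
        rw [Nat.cast_zero, ← this]
        congr 1
        push_cast
        ring
      rw [e2, e3, e4]
      simp only [Nat.cast_zero]
      ring
    · have e2 : cexp (2 * π * I * ((r + q : ℤ) : ℂ) * ((2 * t + 1 : ℕ) : ℂ) / ((2 * q : ℕ) : ℂ)) =
          - cexp (2 * π * I * r * ((2 * t + 1 : ℕ) : ℂ) / ((2 * q : ℕ) : ℂ)) := by
        have : (2 * π * I * ((r + q : ℤ) : ℂ) * ((2 * t + 1 : ℕ) : ℂ) / ((2 * q : ℕ) : ℂ)) =
            2 * π * I * r * ((2 * t + 1 : ℕ) : ℂ) / ((2 * q : ℕ) : ℂ) + π * I +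
              ((t : ℤ) : ℂ) * (2 * π * I) := by
          push_cast
          field_simp
          ring
        rw [this, hper, Complex.exp_add, hpi]
        ring
      have e3 : cexp (2 * π * I * r * ((2 * t + 1 : ℕ) : ℂ) * (2 * k) / q) =
          cexp (2 * π * I * r * ((2 * t + 1 : ℕ) : ℂ) / ((2 * q : ℕ) : ℂ)) *
            cexp (2 * π * I * r * 1 / ((2 : ℕ) : ℂ)) := by
        rw [← Complex.exp_add, ← hper (_ + _) (r * t)]
        congr 1
        push_cast
        field_simp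
        rw [hqk]
        ring
      have e4 : th 2 ((2 * t + 1 : ℕ) : ℤ) z = th 2 ((1 : ℕ) : ℤ) z := by
        have := th_add_mul two_ne_zero 1 t hz
        rw [Nat.cast_one, ← this]
        congr 1
        push_cast
        ring
      rw [e2, e3, e4]
      simp only [Nat.cast_one]
      ring
  rw [vt, th_inv h2q _ hz, th_inv h2q _ hz, th_inv two_ne_zero _ hz, th_inv two_ne_zero _ hz]
  rw [show ∀ a b c d e f : ℂ, a * b * (c * d) + a * e * (c * f) = a * c * (b * d + e * f) by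
    intros; ring, hc, Finset.sum_mul, Finset.sum_mul, ← Finset.sum_add_distrib,
    Finset.sum_congr rfl (fun s _ => key s), sum_range_two_mul, Finset.mul_sum, Finset.mul_sum]
  refine Finset.sum_congr rfl fun s _ => ?_
  have e5 : cexp (2 * π * I * r * ((s + q : ℕ) : ℂ) * (2 * k) / q) =
      cexp (2 * π * I * r * s * (2 * k) / q) := by
    rw [← hper (2 * π * I * r * s * (2 * k) / q) (r * (2 * k))]
    congr 1
    push_cast
    field_simp
  rw [e5, vt]
  have hs : (Real.sqrt q : ℂ) ≠ 0 := by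
    exact_mod_cast (Real.sqrt_pos.mpr hqpos).ne'
  push_cast
  field_simp

theorem differentiableAt_vt (hq : q ≠ 0) (r : ℤ) {z : ℂ} (hz : 0 < z.im) :
    DifferentiableAt ℂ (vt q r) z := by
  have h2q : 2 * q ≠ 0 := by omega
  exact ((differentiableAt_th h2q r hz).mul (differentiableAt_th two_ne_zero r hz)).add
    ((differentiableAt_th h2q (r + q) hz).mul (differentiableAt_th two_ne_zero (r + q) hz))

theorem exists_bound_vt (hq : q ≠ 0) (r : ℤ) :
    ∃ C : ℝ, ∀ z : ℂ, 1 ≤ z.im → ‖vt q r z‖ ≤ C := by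
  have h2q : 2 * q ≠ 0 := by omega
  obtain ⟨C1, h1⟩ := exists_bound_th h2q r
  obtain ⟨C2, h2⟩ := exists_bound_th two_ne_zero r
  obtain ⟨C3, h3⟩ := exists_bound_th h2q (r + q)
  obtain ⟨C4, h4⟩ := exists_bound_th two_ne_zero (r + q)
  refine ⟨C1 * C2 + C3 * C4, fun z hz => ?_⟩
  rw [vt]
  refine (norm_add_le _ _).trans ?_
  rw [norm_mul, norm_mul]
  exact add_le_add
    (mul_le_mul (h1 z hz) (h2 z hz) (norm_nonneg _) ((norm_nonneg _).trans (h1 z hz)))
    (mul_le_mul (h3 z hz) (h4 z hz) (norm_nonneg _) ((norm_nonneg _).trans (h3 z hz)))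

theorem vt_pos (hq : q ≠ 0) (r : ℤ) {y : ℝ} (hy : 0 < y) :
    ∃ t : ℝ, 0 < t ∧ vt q r (y * I) = t := by
  have h2q : 2 * q ≠ 0 := by omega
  obtain ⟨t1, h1, e1⟩ := th_pos h2q r hy
  obtain ⟨t2, h2, e2⟩ := th_pos two_ne_zero r hy
  obtain ⟨t3, h3, e3⟩ := th_pos h2q (r + q) hy
  obtain ⟨t4, h4, e4⟩ := th_pos two_ne_zero (r + q) hy
  refine ⟨t1 * t2 + t3 * t4, by positivity, ?_⟩
  rw [vt, e1, e2, e3, e4]
  push_cast
  ring

/-- the summand of the two-dimensional theta series -/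
def eL (q : ℕ) (x : ℤ × ℤ) (z : ℂ) : ℂ :=
  cexp (2 * π * I * (((x.1 ^ 2 + q * x.2 ^ 2 : ℤ) : ℂ) * z / (4 * q)))

theorem eM_mul_eM (hq : q ≠ 0) (u b : ℤ) (z : ℂ) :
    eM (2 * q) u z * eM 2 b z = eL q (u, b) z := by
  have hq' : (q : ℂ) ≠ 0 := by exact_mod_cast hq
  rw [eM, eM, eL, ← Complex.exp_add]
  congr 1
  push_cast
  field_simp
  ring

theorem zmod_two_mul_iff (hodd : Odd q) (a b : ℤ) :
    ((a : ZMod (2 * q)) = b) ↔ (a : ZMod 2) = b ∧ (a : ZMod q) = b := by
  rw [ZMod.intCast_eq_intCast_iff_dvd_sub, ZMod.intCast_eq_intCast_iff_dvd_sub,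
    ZMod.intCast_eq_intCast_iff_dvd_sub]
  have hcop : IsCoprime ((2 : ℕ) : ℤ) (q : ℤ) := by
    rw [Nat.isCoprime_iff_coprime]
    exact hodd.coprime_two_left
  constructor
  · intro h
    push_cast at h
    exact ⟨(Dvd.intro _ rfl).trans h, (Dvd.intro_left _ rfl).trans h⟩
  · rintro ⟨h1, h2⟩
    push_cast
    exact hcop.mul_dvd h1 h2

theorem hasSum_vt (hodd : Odd q) (r : ℤ) {z : ℂ} (hz : 0 < z.im) :
    HasSum (fun x : ℤ × ℤ => if (x.1 : ZMod 2) = x.2 ∧ (x.1 : ZMod q) = r then eL q x z else 0)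
      (vt q r z) := by
  have hq : q ≠ 0 := by rintro rfl; simp at hodd
  have h2q : 2 * q ≠ 0 := by omega
  have main : ∀ s : ℤ, HasSum (fun x : ℤ × ℤ =>
      if (x.1 : ZMod (2 * q)) = s ∧ (x.2 : ZMod 2) = s then eL q x z else 0)
      (th (2 * q) s z * th 2 s z) := by
    intro s
    have h1 := hasSum_th_ind h2q s hz
    have h2 := hasSum_th_ind two_ne_zero s hz
    have h3 := summable_mul_of_summable_norm (summable_norm_th_ind h2q s hz)
      (summable_norm_th_ind two_ne_zero s hz)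
    have h4 := h1.mul h2 h3
    refine h4.congr_fun fun x => ?_
    by_cases ha : (x.1 : ZMod (2 * q)) = s <;> by_cases hb : (x.2 : ZMod 2) = s
    · rw [if_pos ⟨ha, hb⟩, if_pos ha, if_pos hb, eM_mul_eM hq]
    · rw [if_neg (fun h => hb h.2), if_neg hb, mul_zero]
    · rw [if_neg (fun h => ha h.1), if_neg ha, zero_mul]
    · rw [if_neg (fun h => hb h.2), if_neg hb, mul_zero]
  refine ((main r).add (main (r + q))).congr_fun fun x => ?_
  simp only [zmod_two_mul_iff hodd]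
  have hq2 : (q : ZMod 2) = 1 := by
    rw [← Nat.cast_one, ZMod.natCast_eq_natCast_iff]
    exact Nat.odd_iff.mp hodd
  push_cast
  simp only [hq2, ZMod.natCast_self, add_zero]
  have h01 : ∀ a : ZMod 2, a = 0 ∨ a = 1 := by decide
  have h11 : (1 : ZMod 2) + 1 = 0 := by decide
  by_cases hc : (x.1 : ZMod q) = r
  · simp only [hc, and_true]
    rcases h01 (x.1 : ZMod 2) with h1 | h1 <;> rcases h01 (x.2 : ZMod 2) with h2 | h2 <;>
      rcases h01 (r : ZMod 2) with h3 | h3 <;> rw [h1, h2, h3] <;> simp [h11]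
  · simp [hc]

end

end Fermat.Agent.H81
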