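import Mathlib
import Fermat.Agent.H81Theta2
import Fermat.Agent.H81Gauss

set_option autoImplicit false

/-!
# The Weil representation vectors and their transformation laws
-/

namespace Fermat.Agent.H81

open Complex Real ZMod

noncomputable section

variable {q : ℕ} [hqp : Fact q.Prime]

/-- the theta functions, indexed by `ZMod q` -/
def vz (q : ℕ) (r : ZMod q) (z : ℂ) : ℂ := vt q (r.val : ℤ) z

theorem q_ne_zero : q ≠ 0 := hqp.out.ne_zero

theorem vt_eq_vz (r : ℤ) {z : ℂ} (hz : 0 < z.im) : vt q r z = vz q (r : ZMod q) z := by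
  refine vt_congr q_ne_zero ?_ hz
  simp

theorem vz_neg (r : ZMod q) {z : ℂ} (hz : 0 < z.im) : vz q (-r) z = vz q r z := by
  have h1 : vz q (-r) z = vt q (-(r.val : ℤ)) z := by
    rw [vt_eq_vz _ hz]
    congr 1
    simp
  rw [h1, vt_neg _ _ hz q_ne_zero, vz]

omit hqp in
theorem exists_k (h3 : q % 4 = 3) : ∃ k : ℕ, q + 1 = 4 * k := ⟨(q + 1) / 4, by omega⟩

theorem four_mul_k {k : ℕ} (hk : q + 1 = 4 * k) : (4 : ZMod q) * (k : ZMod q) = 1 := by
  have : ((q + 1 : ℕ) : ZMod q) = ((4 * k : ℕ) : ZMod q) := by rw [hk]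
  push_cast at this
  rw [ZMod.natCast_self, zero_add] at this
  exact this.symm

theorem four_ne_zero' (h3 : q % 4 = 3) : (4 : ZMod q) ≠ 0 := by
  obtain ⟨k, hk⟩ := exists_k h3
  intro h
  have := four_mul_k hk
  rw [h, zero_mul] at this
  exact zero_ne_one this

theorem two_ne_zero' (h3 : q % 4 = 3) : (2 : ZMod q) ≠ 0 := by
  intro h
  apply four_ne_zero' h3
  rw [show (4 : ZMod q) = 2 * 2 by norm_num, h, zero_mul]

theorem vz_add_one (h3 : q % 4 = 3) (r : ZMod q) (z : ℂ) :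
    vz q r (z + 1) = stdAddChar (4⁻¹ * r ^ 2) * vz q r z := by
  obtain ⟨k, hk⟩ := exists_k h3
  have h4 := four_ne_zero' h3
  rw [vz, vt_add_one hk q_ne_zero, vz]
  congr 1
  have : (4⁻¹ * r ^ 2 : ZMod q) = (((r.val : ℤ) ^ 2 * k : ℤ) : ZMod q) := by
    push_cast
    rw [ZMod.natCast_zmod_val]
    have := four_mul_k hk
    rw [eq_comm, mul_comm, ← mul_right_inj' h4, ← mul_assoc, this]
    field_simp
  rw [this, ZMod.stdAddChar_coe]
  congr 1
  push_cast
  ring

theorem sum_range_eq_sum_zmod (f : ZMod q → ℂ) :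
    ∑ s ∈ Finset.range q, f (s : ZMod q) = ∑ s : ZMod q, f s := by
  refine Finset.sum_nbij' (fun s => (s : ZMod q)) (fun s => s.val) ?_ ?_ ?_ ?_ ?_
  · intro a _
    exact Finset.mem_univ _
  · intro a _
    exact Finset.mem_range.mpr (ZMod.val_lt a)
  · intro a ha
    exact ZMod.val_cast_of_lt (Finset.mem_range.mp ha)
  · intro a _
    simp
  · intro a _
    rfl

/-- the constant `1 / (i √q)` -/
def kap (q : ℕ) : ℂ := 1 / (I * Real.sqrt q)

omit hqp in
theorem sqrt_q_sq : (Real.sqrt q : ℂ) * (Real.sqrt q : ℂ) = q := by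
  rw [← Complex.ofReal_mul, Real.mul_self_sqrt (by positivity)]
  simp

theorem kap_sq : kap q * kap q = -1 / q := by
  have hq' : (q : ℂ) ≠ 0 := by exact_mod_cast (q_ne_zero (q := q))
  rw [kap, div_mul_div_comm, one_mul, show I * (Real.sqrt q : ℂ) * (I * Real.sqrt q) =
    (I * I) * (Real.sqrt q * Real.sqrt q) by ring, sqrt_q_sq, I_mul_I]
  field_simp

theorem kap_ne_zero : kap q ≠ 0 := by
  intro h
  have hq' : (q : ℂ) ≠ 0 := by exact_mod_cast (q_ne_zero (q := q))
  have := kap_sq (q := q)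
  rw [h, zero_mul, eq_comm, div_eq_zero_iff] at this
  rcases this with h | h
  · norm_num at h
  · exact hq' h

theorem vz_inv (h3 : q % 4 = 3) (r : ZMod q) {z : ℂ} (hz : 0 < z.im) :
    vz q r (-1 / z) = z * kap q * ∑ s : ZMod q, stdAddChar (2⁻¹ * r * s) * vz q s z := by
  obtain ⟨k, hk⟩ := exists_k h3
  have h4 := four_ne_zero' h3
  have h2 := two_ne_zero' h3
  rw [vz, vt_inv hk q_ne_zero _ hz, kap, mul_one_div,
    ← sum_range_eq_sum_zmod (fun s => stdAddChar (2⁻¹ * r * s) * vz q s z)]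
  congr 1
  refine Finset.sum_congr rfl fun s _ => ?_
  rw [vt_eq_vz _ hz]
  have e1 : (2⁻¹ * r * (s : ZMod q) : ZMod q) = (((r.val : ℤ) * s * (2 * k) : ℤ) : ZMod q) := by
    push_cast
    rw [ZMod.natCast_zmod_val, ← mul_right_inj' h4]
    have := four_mul_k hk
    rw [show (4 : ZMod q) * (r * s * (2 * k)) = 2 * r * s * (4 * k) by ring, this]
    rw [show (4 : ZMod q) = 2 * 2 by norm_num]
    field_simp
  rw [e1, ZMod.stdAddChar_coe]
  congr 2
  · congr 1
    push_cast
    ring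
  · simp

/-- The Weil vectors. -/
def W (q : ℕ) [Fact q.Prime] (c d : ZMod q) (z : ℂ) : ℂ :=
  if c = 0 then chi q d * vz q 0 z
  else chi q c * kap q * ∑ r : ZMod q, stdAddChar (d / (4 * c) * r ^ 2) * vz q r z

theorem W_zero_left (d : ZMod q) (z : ℂ) : W q 0 d z = chi q d * vz q 0 z := if_pos rfl

theorem W_of_ne {c : ZMod q} (hc : c ≠ 0) (d : ZMod q) (z : ℂ) :
    W q c d z = chi q c * kap q * ∑ r : ZMod q, stdAddChar (d / (4 * c) * r ^ 2) * vz q r z :=
  if_neg hc

theorem W_zero_zero (z : ℂ) : W q 0 0 z = 0 := by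
  rw [W_zero_left, chi_zero, zero_mul]

theorem W_neg (h3 : q % 4 = 3) (c d : ZMod q) (z : ℂ) : W q (-c) (-d) z = -W q c d z := by
  by_cases hc : c = 0
  · subst hc
    rw [neg_zero, W_zero_left, W_zero_left, chi_neg h3, neg_mul]
  · rw [W_of_ne hc, W_of_ne (neg_ne_zero.mpr hc), chi_neg h3]
    have : -d / (4 * -c) = d / (4 * c) := by
      rw [mul_neg, neg_div_neg_eq]
    rw [this]
    ring

theorem W_add_one (h3 : q % 4 = 3) (c d : ZMod q) (z : ℂ) :
    W q c d (z + 1) = W q c (c + d) z := by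
  have h4 := four_ne_zero' h3
  by_cases hc : c = 0
  · subst hc
    rw [zero_add, W_zero_left, W_zero_left, vz_add_one h3]
    simp
  · rw [W_of_ne hc, W_of_ne hc]
    congr 1
    refine Finset.sum_congr rfl fun r _ => ?_
    rw [vz_add_one h3, ← mul_assoc, ← AddChar.map_add_eq_mul]
    congr 2
    field_simp
    ring

/-- the a priori sign -/
def eps (q : ℕ) [Fact q.Prime] : ℂ := kap q * gaussSum (chi q) stdAddChar

theorem eps_sq (h3 : q % 4 = 3) : eps q * eps q = 1 := by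
  have hq' : (q : ℂ) ≠ 0 := by exact_mod_cast (q_ne_zero (q := q))
  rw [eps, show ∀ a b : ℂ, a * b * (a * b) = (a * a) * (b * b) by intros; ring, kap_sq,
    gaussSum_chi_sq h3]
  field_simp

theorem W_inv_zero_left (h3 : q % 4 = 3) (d : ZMod q) {z : ℂ} (hz : 0 < z.im) :
    W q 0 d (-1 / z) = z * W q d 0 z := by
  by_cases hd : d = 0
  · subst hd
    rw [W_zero_zero, W_zero_zero, mul_zero]
  · rw [W_zero_left, W_of_ne hd, vz_inv h3 _ hz]
    simp only [mul_zero, zero_mul, zero_div]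
    ring

theorem W_inv_zero_right (h3 : q % 4 = 3) (c : ZMod q) {z : ℂ} (hz : 0 < z.im) :
    W q c 0 (-1 / z) = z * W q 0 (-c) z := by
  have h2 := two_ne_zero' h3
  by_cases hc : c = 0
  · subst hc
    rw [neg_zero, W_zero_zero, W_zero_zero, mul_zero]
  · have hq' : (q : ℂ) ≠ 0 := by exact_mod_cast (q_ne_zero (q := q))
    rw [W_zero_left, W_of_ne hc, chi_neg h3]
    simp only [zero_div, zero_mul, AddChar.map_zero_eq_one, one_mul]
    simp_rw [vz_inv h3 _ hz]
    rw [← Finset.mul_sum, Finset.sum_comm]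
    simp_rw [← Finset.sum_mul]
    have e : ∀ s : ZMod q, ∑ r : ZMod q, (stdAddChar (2⁻¹ * r * s) : ℂ) =
        if s = 0 then (q : ℂ) else 0 := by
      intro s
      have := AddChar.sum_mulShift (R' := ℂ) (2⁻¹ * s) (ZMod.isPrimitive_stdAddChar q)
      rw [ZMod.card] at this
      have h0 : (2⁻¹ * s = 0) ↔ s = 0 := by
        rw [mul_eq_zero]
        exact ⟨fun h => h.resolve_left (inv_ne_zero h2), Or.inr⟩
      simp only [h0] at this
      rw [show (if s = 0 then (q : ℂ) else 0) = ((if s = 0 then q else 0 : ℕ) : ℂ) by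
        split_ifs <;> simp, ← this]
      refine Finset.sum_congr rfl fun r _ => ?_
      congr 1
      ring
    simp_rw [e, ite_mul, zero_mul]
    rw [Finset.sum_ite_eq' Finset.univ (0 : ZMod q), if_pos (Finset.mem_univ _)]
    rw [show ∀ a b c d e : ℂ, a * b * (c * b * (d * e)) = a * c * d * (b * b) * e by intros; ring,
      kap_sq]
    field_simp

theorem W_inv_of_ne (h3 : q % 4 = 3) {c d : ZMod q} (hc : c ≠ 0) (hd : d ≠ 0) {z : ℂ}
    (hz : 0 < z.im) :
    W q c d (-1 / z) = z * eps q * W q d (-c) z := by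
  have h2 := two_ne_zero' h3
  have h4 := four_ne_zero' h3
  rw [W_of_ne hc, W_of_ne hd]
  simp_rw [vz_inv h3 _ hz]
  have e1 : ∑ r : ZMod q, (stdAddChar (d / (4 * c) * r ^ 2) : ℂ) *
      (z * kap q * ∑ s : ZMod q, stdAddChar (2⁻¹ * r * s) * vz q s z) =
      z * kap q * ∑ s : ZMod q, (∑ r : ZMod q, (stdAddChar (d / (4 * c) * r ^ 2) : ℂ) *
        stdAddChar (2⁻¹ * r * s)) * vz q s z := by
    simp_rw [Finset.sum_mul, Finset.mul_sum]
    rw [Finset.sum_comm]
    refine Finset.sum_congr rfl fun s _ => Finset.sum_congr rfl fun r _ => ?_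
    ring
  have e2 : ∀ s : ZMod q, ∑ r : ZMod q, (stdAddChar (d / (4 * c) * r ^ 2) : ℂ) *
        stdAddChar (2⁻¹ * r * s) =
      chi q c * chi q d * gaussSum (chi q) stdAddChar * stdAddChar (-c / (4 * d) * s ^ 2) := by
    intro s
    have e3 : ∀ r : ZMod q, (stdAddChar (d / (4 * c) * r ^ 2) : ℂ) * stdAddChar (2⁻¹ * r * s) =
        stdAddChar (d / (4 * c) * (r + c / d * s) ^ 2) * stdAddChar (-c / (4 * d) * s ^ 2) := by
      intro r
      rw [← AddChar.map_add_eq_mul, ← AddChar.map_add_eq_mul]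
      congr 1
      rw [show (4 : ZMod q) = 2 * 2 by norm_num]
      field_simp
      ring
    simp_rw [e3]
    rw [← Finset.sum_mul]
    congr 1
    rw [← (Equiv.subRight (c / d * s)).sum_comp]
    simp only [Equiv.subRight_apply, sub_add_cancel]
    rw [sum_stdAddChar_mul_sq h3 (div_ne_zero hd (mul_ne_zero h4 hc)), chi_div, map_mul,
      show (4 : ZMod q) = 2 * 2 by norm_num, chi_mul_self 2 h2]
    ring
  rw [e1]
  simp_rw [e2, mul_assoc, ← Finset.mul_sum, eps]
  rw [show chi q c * (kap q * (z * (kap q * (chi q c * (chi q d * (gaussSum (chi q) stdAddChar *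
    ∑ x : ZMod q, stdAddChar (-c / (4 * d) * x ^ 2) * vz q x z)))))) = (chi q c * chi q c) *
    (kap q * (z * (kap q * ((chi q d * (gaussSum (chi q) stdAddChar *
    ∑ x : ZMod q, stdAddChar (-c / (4 * d) * x ^ 2) * vz q x z)))))) by ring, chi_sq hc]
  ring

theorem im_add_one_pos {z : ℂ} (hz : 0 < z.im) : 0 < (z + 1).im := by simpa using hz

/-- the step `z ↦ -1 / (z + 1)` -/
theorem W_step (h3 : q % 4 = 3) {c d e : ZMod q} (hc : c ≠ 0) (hd : d ≠ 0) (he : d - c = e) {z : ℂ}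
    (hz : 0 < z.im) : W q c d (-1 / (z + 1)) = (z + 1) * eps q * W q d e z := by
  rw [W_inv_of_ne h3 hc hd (im_add_one_pos hz), W_add_one h3, ← sub_eq_add_neg, he]

theorem W_one_two_eq (h3 : q % 4 = 3) {z : ℂ} (hz : 0 < z.im) :
    W q 1 2 z = eps q * W q 1 2 z := by
  have h1 : (1 : ZMod q) ≠ 0 := one_ne_zero
  have h2 := two_ne_zero' h3
  have hz0 : z ≠ 0 := by rintro rfl; simp at hz
  have hz1 : z + 1 ≠ 0 := by
    intro h
    have := im_add_one_pos hz
    rw [h] at this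
    simp at this
  set z1 : ℂ := -1 / (z + 1) with hz1d
  have hz1p : 0 < z1.im := im_neg_inv_pos (im_add_one_pos hz)
  have hz1' : z1 + 1 = z / (z + 1) := by
    rw [hz1d]
    field_simp
    ring
  set z2 : ℂ := -1 / (z1 + 1) with hz2d
  have hz2p : 0 < z2.im := im_neg_inv_pos (im_add_one_pos hz1p)
  have hz2' : z2 + 1 = -1 / z := by
    rw [hz2d, hz1']
    field_simp
    ring
  have hz3 : -1 / (z2 + 1) = z := by
    rw [hz2']
    field_simp
  have a1 : W q 1 2 (-1 / (z2 + 1)) = (z2 + 1) * eps q * W q 2 1 z2 :=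
    W_step h3 h1 h2 (by ring) hz2p
  have a2 : W q 2 1 z2 = (z1 + 1) * eps q * W q 1 (-1) z1 :=
    W_step h3 h2 h1 (by ring) hz1p
  have a3 : W q 1 (-1) z1 = (z + 1) * eps q * W q (-1) (-2) z :=
    W_step h3 h1 (neg_ne_zero.mpr h1) (by ring) hz
  rw [hz3, a2, a3, W_neg h3, hz1', hz2'] at a1
  have he := eps_sq h3
  refine a1.trans ?_
  rw [show -1 / z * eps q * (z / (z + 1) * eps q * ((z + 1) * eps q * -W q 1 2 z)) =
    (z / z) * ((z + 1) / (z + 1)) * (eps q * eps q) * (eps q * W q 1 2 z) by ring, he,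
    div_self hz0, div_self hz1, one_mul, one_mul, one_mul]

theorem eps_eq_one (h3 : q % 4 = 3) : eps q = 1 := by
  -- `W 1 0 (i) ≠ 0`
  have hpos : ∀ r : ZMod q, ∃ t : ℝ, 0 < t ∧ vz q r I = t := by
    intro r
    obtain ⟨t, ht, e⟩ := vt_pos (q := q) q_ne_zero (r.val : ℤ) one_pos
    refine ⟨t, ht, ?_⟩
    rw [Complex.ofReal_one, one_mul] at e
    exact e
  choose t ht e using hpos
  have hne : W q 1 0 I ≠ 0 := by
    rw [W_of_ne one_ne_zero]
    simp only [map_one, one_mul, zero_div, zero_mul, AddChar.map_zero_eq_one, e]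
    rw [← Complex.ofReal_sum]
    refine mul_ne_zero kap_ne_zero ?_
    rw [Complex.ofReal_ne_zero]
    exact (Finset.sum_pos (fun r _ => ht r) Finset.univ_nonempty).ne'
  have h12 : W q 1 2 (I - 2) = W q 1 0 I := by
    have s2 : W q 1 2 (I - 2) = W q 1 0 (I - 2 + 1 + 1) := by
      rw [W_add_one h3, W_add_one h3, add_zero, one_add_one_eq_two]
    rw [s2]
    congr 1
    ring
  have h2 : (0 : ℝ) < (I - 2 : ℂ).im := by simp
  have := W_one_two_eq h3 h2
  rw [h12] at this
  exact (mul_right_cancel₀ hne (by rw [one_mul]; exact this)).symm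

/-- the transformation law under inversion -/
theorem W_inv (h3 : q % 4 = 3) (c d : ZMod q) {z : ℂ} (hz : 0 < z.im) :
    W q c d (-1 / z) = z * W q d (-c) z := by
  by_cases hc : c = 0
  · subst hc
    rw [neg_zero]
    exact W_inv_zero_left h3 d hz
  · by_cases hd : d = 0
    · subst hd
      exact W_inv_zero_right h3 c hz
    · rw [W_inv_of_ne h3 hc hd hz, eps_eq_one h3, mul_one]

end

end Fermat.Agent.H81
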