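import Mathlib
import Fermat.Agent.H81Weil

set_option autoImplicit false
set_option linter.unusedSectionVars false

/-!
# The Weil vectors as a vector-valued modular form of weight one on `SL(2, ℤ)`
-/

open UpperHalfPlane ModularForm ModularGroup Matrix MatrixGroups CongruenceSubgroup
open scoped ModularForm Manifold

namespace Fermat.Agent.H81

open Complex Real ZMod

noncomputable section

variable {q : ℕ} [hqp : Fact q.Prime]

/-- the Weil vectors as functions on the upper half plane -/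
def FW (q : ℕ) [Fact q.Prime] (v : Fin 2 → ZMod q) : ℍ → ℂ := fun τ => W q (v 0) (v 1) (τ : ℂ)

/-- right action of `SL(2, ℤ)` on row vectors -/
def act (q : ℕ) (v : Fin 2 → ZMod q) (g : SL(2, ℤ)) : Fin 2 → ZMod q :=
  v ᵥ* (SpecialLinearGroup.map (Int.castRingHom (ZMod q)) g : Matrix (Fin 2) (Fin 2) (ZMod q))

theorem act_one (v : Fin 2 → ZMod q) : act q v 1 = v := by
  simp [act]

theorem act_mul (v : Fin 2 → ZMod q) (g h : SL(2, ℤ)) : act q v (g * h) = act q (act q v g) h := by
  rw [act, act, act, map_mul, Matrix.vecMul_vecMul]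
  congr 1

theorem act_zero_eq (v : Fin 2 → ZMod q) (g : SL(2, ℤ)) :
    act q v g 0 = v 0 * (g 0 0 : ℤ) + v 1 * (g 1 0 : ℤ) := by
  simp [act, Matrix.vecMul, dotProduct, Fin.sum_univ_two]

theorem act_one_eq (v : Fin 2 → ZMod q) (g : SL(2, ℤ)) :
    act q v g 1 = v 0 * (g 0 1 : ℤ) + v 1 * (g 1 1 : ℤ) := by
  simp [act, Matrix.vecMul, dotProduct, Fin.sum_univ_two]

theorem FW_slash_S (h3 : q % 4 = 3) (v : Fin 2 → ZMod q) :
    FW q v ∣[(1 : ℤ)] S = FW q (act q v S) := by
  ext τ
  rw [SL_slash_apply, FW, FW, act_zero_eq, act_one_eq, modular_S_smul]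
  have hτ : (τ : ℂ) ≠ 0 := UpperHalfPlane.ne_zero τ
  have h1 : ((UpperHalfPlane.mk (-(τ : ℂ))⁻¹ τ.im_inv_neg_coe_pos : ℍ) : ℂ) = -1 / (τ : ℂ) := by
    rw [UpperHalfPlane.coe_mk]
    field_simp
  have h2 : denom (S : GL (Fin 2) ℝ) τ = (τ : ℂ) := by
    rw [ModularGroup.denom_apply]
    simp [S]
  rw [h1, h2, W_inv h3 _ _ τ.im_pos]
  simp only [S]
  norm_num
  field_simp

theorem FW_slash_T (h3 : q % 4 = 3) (v : Fin 2 → ZMod q) :
    FW q v ∣[(1 : ℤ)] T = FW q (act q v T) := by
  ext τ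
  rw [SL_slash_apply, FW, FW, act_zero_eq, act_one_eq, modular_T_smul]
  have h1 : (((1 : ℝ) +ᵥ τ : ℍ) : ℂ) = (τ : ℂ) + 1 := by
    rw [coe_vadd]
    push_cast
    ring
  have h2 : denom (T : GL (Fin 2) ℝ) τ = 1 := by
    rw [ModularGroup.denom_apply]
    simp [T]
  rw [h1, h2, W_add_one h3]
  simp [T]

/-- The Weil vectors transform under `SL(2, ℤ)` by right multiplication. -/
theorem FW_slash (h3 : q % 4 = 3) (g : SL(2, ℤ)) :
    ∀ v : Fin 2 → ZMod q, FW q v ∣[(1 : ℤ)] g = FW q (act q v g) := by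
  have : g ∈ Subgroup.closure {S, T} := by simp [SpecialLinearGroup.SL2Z_generators]
  induction this using Subgroup.closure_induction with
  | one =>
    intro v
    rw [SlashAction.slash_one, act_one]
  | mem g hg =>
    intro v
    simp only [Set.mem_insert_iff, Set.mem_singleton_iff] at hg
    rcases hg with rfl | rfl
    · exact FW_slash_S h3 v
    · exact FW_slash_T h3 v
  | mul g h _ _ ig ih =>
    intro v
    rw [SlashAction.slash_mul, ig, ih, act_mul]
  | inv g _ ig =>
    intro v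
    have h1 := ig (act q v g⁻¹)
    rw [← act_mul, inv_mul_cancel, act_one] at h1
    rw [← h1, ← SlashAction.slash_mul, mul_inv_cancel, SlashAction.slash_one]

end

end Fermat.Agent.H81
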