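import Mathlib
import Fermat.Agent.H81Slash

set_option autoImplicit false
set_option linter.unusedSectionVars false

/-!
# The theta form of weight two on `Γ₀(p)`
-/

open UpperHalfPlane ModularForm ModularGroup Matrix MatrixGroups CongruenceSubgroup
open scoped ModularForm Manifold

namespace Fermat.Agent.H81

open Complex Real ZMod

noncomputable section

variable {q : ℕ} [hqp : Fact q.Prime] {p : ℕ}

/-- multiplication by `p` on the upper half plane -/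
def pm (hp : 0 < p) (τ : ℍ) : ℍ := ⟨(p : ℂ) * τ, im_natCast_mul_pos hp.ne' τ.im_pos⟩

theorem coe_pm (hp : 0 < p) (τ : ℍ) : (pm hp τ : ℂ) = (p : ℂ) * τ := rfl

/-- scaling the first coordinate by `p⁻¹` -/
def uu (p : ℕ) (v : Fin 2 → ZMod q) : Fin 2 → ZMod q := ![v 0 / p, v 1]

/-- the scaled Weil vectors -/
def FWp (q : ℕ) [Fact q.Prime] (hp : 0 < p) (v : Fin 2 → ZMod q) : ℍ → ℂ :=
  fun τ => FW q (uu p v) (pm hp τ)

/-- the matrix `diag(p,1) γ diag(p,1)⁻¹` -/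
def conjG (p : ℕ) (γ : SL(2, ℤ)) (c' : ℤ) (hc : γ 1 0 = p * c') : SL(2, ℤ) :=
  ⟨!![γ 0 0, p * γ 0 1; c', γ 1 1], by
    have := γ.det_coe
    rw [Matrix.det_fin_two] at this
    rw [Matrix.det_fin_two_of]
    linear_combination this + γ 0 1 * hc⟩

theorem conjG_00 (γ : SL(2, ℤ)) (c' : ℤ) (hc : γ 1 0 = p * c') : conjG p γ c' hc 0 0 = γ 0 0 := rfl
theorem conjG_01 (γ : SL(2, ℤ)) (c' : ℤ) (hc : γ 1 0 = p * c') :
    conjG p γ c' hc 0 1 = p * γ 0 1 := rfl
theorem conjG_10 (γ : SL(2, ℤ)) (c' : ℤ) (hc : γ 1 0 = p * c') : conjG p γ c' hc 1 0 = c' := rfl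
theorem conjG_11 (γ : SL(2, ℤ)) (c' : ℤ) (hc : γ 1 0 = p * c') : conjG p γ c' hc 1 1 = γ 1 1 := rfl

theorem conjG_smul (hp : 0 < p) (γ : SL(2, ℤ)) (c' : ℤ) (hc : γ 1 0 = p * c') (τ : ℍ) :
    conjG p γ c' hc • pm hp τ = pm hp (γ • τ) := by
  ext
  rw [coe_pm, UpperHalfPlane.coe_specialLinearGroup_apply,
    UpperHalfPlane.coe_specialLinearGroup_apply, conjG_00, conjG_01, conjG_10, conjG_11, coe_pm, hc]
  simp only [algebraMap_int_eq, eq_intCast, Int.cast_mul, Int.cast_natCast, ofReal_mul,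
    ofReal_natCast, ofReal_intCast]
  rw [← mul_div_assoc]
  congr 1 <;> ring

theorem denom_conjG (hp : 0 < p) (γ : SL(2, ℤ)) (c' : ℤ) (hc : γ 1 0 = p * c') (τ : ℍ) :
    denom (conjG p γ c' hc : GL (Fin 2) ℝ) (pm hp τ) = denom (γ : GL (Fin 2) ℝ) τ := by
  rw [ModularGroup.denom_apply, ModularGroup.denom_apply, conjG_10, conjG_11, coe_pm, hc]
  push_cast
  ring

theorem act_uu (hpq : (p : ZMod q) ≠ 0) (γ : SL(2, ℤ)) (c' : ℤ) (hc : γ 1 0 = p * c')
    (v : Fin 2 → ZMod q) : act q (uu p v) (conjG p γ c' hc) = uu p (act q v γ) := by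
  have e0 : ∀ w : Fin 2 → ZMod q, uu p w 0 = w 0 / p := fun w => rfl
  have e1 : ∀ w : Fin 2 → ZMod q, uu p w 1 = w 1 := fun w => rfl
  ext i
  fin_cases i
  · simp only [Fin.zero_eta, act_zero_eq, e0, e1, conjG_00, conjG_10, hc]
    push_cast
    field_simp
  · simp only [Fin.mk_one, act_one_eq, e0, e1, conjG_01, conjG_11]
    push_cast
    field_simp

theorem FWp_slash (h3 : q % 4 = 3) (hp : 0 < p) (hpq : (p : ZMod q) ≠ 0) {γ : SL(2, ℤ)}
    (hγ : γ ∈ Gamma0 p) (v : Fin 2 → ZMod q) :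
    FWp q hp v ∣[(1 : ℤ)] γ = FWp q hp (act q v γ) := by
  rw [Gamma0_mem, ZMod.intCast_zmod_eq_zero_iff_dvd] at hγ
  obtain ⟨c', hc⟩ := hγ
  ext τ
  have h := congrFun (FW_slash h3 (conjG p γ c' hc) (uu p v)) (pm hp τ)
  rw [SL_slash_apply, conjG_smul, denom_conjG, act_uu hpq] at h
  rw [SL_slash_apply, FWp, FWp, h]

theorem mdiff_of_differentiableAt {g : ℂ → ℂ} (h : ∀ z : ℂ, 0 < z.im → DifferentiableAt ℂ g z) :
    MDiff (fun τ : ℍ => g (τ : ℂ)) := by
  rw [UpperHalfPlane.mdifferentiable_iff]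
  refine DifferentiableOn.congr (f := g) (fun z hz => (h z hz).differentiableWithinAt) ?_
  intro z hz
  simp only [Function.comp_apply]
  rw [ofComplex_apply_of_im_pos hz, UpperHalfPlane.coe_mk]

theorem differentiableAt_W (c d : ZMod q) {z : ℂ} (hz : 0 < z.im) :
    DifferentiableAt ℂ (W q c d) z := by
  have hv : ∀ r : ZMod q, DifferentiableAt ℂ (fun z => vz q r z) z := fun r =>
    differentiableAt_vt q_ne_zero _ hz
  by_cases hc : c = 0
  · subst hc
    have : W q 0 d = fun z => chi q d * vz q 0 z := funext fun z => W_zero_left d z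
    rw [this]
    exact (hv 0).const_mul _
  · have : W q c d = fun z => chi q c * kap q *
        ∑ r : ZMod q, stdAddChar (d / (4 * c) * r ^ 2) * vz q r z := funext fun z => W_of_ne hc d z
    rw [this]
    refine DifferentiableAt.const_mul ?_ _
    exact DifferentiableAt.fun_sum fun r _ => (hv r).const_mul _

theorem mdiff_FW (v : Fin 2 → ZMod q) : MDiff (FW q v) :=
  mdiff_of_differentiableAt (g := W q (v 0) (v 1)) fun _ hz => differentiableAt_W _ _ hz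

theorem mdiff_FWp (hp : 0 < p) (v : Fin 2 → ZMod q) : MDiff (FWp q hp v) := by
  refine mdiff_of_differentiableAt (g := fun z => W q (uu p v 0) (uu p v 1) (p * z)) fun z hz => ?_
  exact (differentiableAt_W (q := q) (uu p v 0) (uu p v 1)
    (im_natCast_mul_pos hp.ne' hz)).comp z (by fun_prop)

theorem exists_bound_W (c d : ZMod q) : ∃ C : ℝ, ∀ z : ℂ, 1 ≤ z.im → ‖W q c d z‖ ≤ C := by
  have hb : ∀ r : ZMod q, ∃ C : ℝ, ∀ z : ℂ, 1 ≤ z.im → ‖vz q r z‖ ≤ C := fun r =>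
    exists_bound_vt q_ne_zero _
  choose C hC using hb
  by_cases hc : c = 0
  · subst hc
    refine ⟨‖chi q d‖ * C 0, fun z hz => ?_⟩
    rw [W_zero_left, norm_mul]
    exact mul_le_mul_of_nonneg_left (hC 0 z hz) (norm_nonneg _)
  · refine ⟨‖chi q c * kap q‖ * ∑ r : ZMod q, ‖(stdAddChar (d / (4 * c) * r ^ 2) : ℂ)‖ * C r,
      fun z hz => ?_⟩
    rw [W_of_ne hc, norm_mul]
    refine mul_le_mul_of_nonneg_left ((norm_sum_le _ _).trans ?_) (norm_nonneg _)
    refine Finset.sum_le_sum fun r _ => ?_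
    rw [norm_mul]
    exact mul_le_mul_of_nonneg_left (hC r z hz) (norm_nonneg _)

theorem isBoundedAtImInfty_FW (v : Fin 2 → ZMod q) : IsBoundedAtImInfty (FW q v) := by
  rw [UpperHalfPlane.isBoundedAtImInfty_iff]
  obtain ⟨C, hC⟩ := exists_bound_W (v 0) (v 1)
  exact ⟨C, 1, fun z hz => hC z hz⟩

theorem isBoundedAt_FW (h3 : q % 4 = 3) (v : Fin 2 → ZMod q) {c : OnePoint ℝ} (hc : IsCusp c 𝒮ℒ) :
    OnePoint.IsBoundedAt c (FW q v) 1 := by
  rw [OnePoint.isBoundedAt_iff_forall_SL2Z hc]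
  intro γ _
  rw [FW_slash h3]
  exact isBoundedAtImInfty_FW _

/-- the matrix `diag(p, 1)` -/
def delta (hp : 0 < p) : GL (Fin 2) ℚ :=
  Matrix.GeneralLinearGroup.mkOfDetNeZero !![(p : ℚ), 0; 0, 1] (by
    rw [Matrix.det_fin_two_of]
    have : (p : ℚ) ≠ 0 := by exact_mod_cast hp.ne'
    simpa using this)

theorem isCusp_smul_rat (g : GL (Fin 2) ℚ) {c : OnePoint ℝ} (hc : IsCusp c 𝒮ℒ) :
    IsCusp (g.map (Rat.castHom ℝ) • c) 𝒮ℒ := by
  rw [isCusp_SL2Z_iff] at hc ⊢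
  obtain ⟨c', rfl⟩ := hc
  exact ⟨g • c', by rw [← Rat.coe_castHom, OnePoint.map_smul]⟩

theorem FWp_eq_slash (hp : 0 < p) (v : Fin 2 → ZMod q) :
    FWp q hp v = FW q (uu p v) ∣[(1 : ℤ)] ((delta hp).map (Rat.castHom ℝ)) := by
  have h00 : ((delta hp).map (Rat.castHom ℝ)) 0 0 = (p : ℝ) := by simp [delta]
  have h01 : ((delta hp).map (Rat.castHom ℝ)) 0 1 = 0 := by simp [delta]
  have h10 : ((delta hp).map (Rat.castHom ℝ)) 1 0 = 0 := by simp [delta]
  have h11 : ((delta hp).map (Rat.castHom ℝ)) 1 1 = 1 := by simp [delta]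
  have hdet : ((delta hp).map (Rat.castHom ℝ)).det.val = (p : ℝ) := by
    rw [Matrix.GeneralLinearGroup.val_det_apply, Matrix.det_fin_two, h00, h01, h10, h11]
    ring
  have hdpos : 0 < ((delta hp).map (Rat.castHom ℝ)).det.val := by
    rw [hdet]
    exact_mod_cast hp
  ext τ
  have hsm : ((delta hp).map (Rat.castHom ℝ)) • τ = pm hp τ := by
    ext
    rw [UpperHalfPlane.coe_smul_of_det_pos hdpos, UpperHalfPlane.num, UpperHalfPlane.denom, h00,
      h01, h10, h11, coe_pm]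
    simp
  rw [slash_apply, hsm, UpperHalfPlane.denom, h10, h11, UpperHalfPlane.σ, if_pos hdpos, FWp]
  simp

theorem isBoundedAt_FWp (h3 : q % 4 = 3) (hp : 0 < p) (v : Fin 2 → ZMod q) {c : OnePoint ℝ}
    (hc : IsCusp c 𝒮ℒ) : OnePoint.IsBoundedAt c (FWp q hp v) 1 := by
  rw [FWp_eq_slash, ← OnePoint.IsBoundedAt.smul_iff]
  exact isBoundedAt_FW h3 _ (isCusp_smul_rat _ hc)

theorem isBoundedAt_mul {f g : ℍ → ℂ} {k l : ℤ} {c : OnePoint ℝ} (hc : IsCusp c 𝒮ℒ)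
    (hf : OnePoint.IsBoundedAt c f k) (hg : OnePoint.IsBoundedAt c g l) :
    OnePoint.IsBoundedAt c (f * g) (k + l) := by
  rw [OnePoint.isBoundedAt_iff_forall_SL2Z hc] at hf hg ⊢
  intro γ hγ
  rw [mul_slash_SL2]
  exact (hf γ hγ).mul (hg γ hγ)

theorem isBoundedAt_sum {ι : Type*} (s : Finset ι) {f : ι → ℍ → ℂ} {k : ℤ} {c : OnePoint ℝ}
    (hc : IsCusp c 𝒮ℒ) (hf : ∀ i ∈ s, OnePoint.IsBoundedAt c (f i) k) :
    OnePoint.IsBoundedAt c (∑ i ∈ s, f i) k := by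
  classical
  induction s using Finset.induction_on with
  | empty =>
    rw [Finset.sum_empty, OnePoint.isBoundedAt_iff_forall_SL2Z hc]
    intro γ _
    rw [SlashAction.zero_slash]
    exact Asymptotics.isBigO_zero _ _
  | insert a s ha ih =>
    rw [Finset.sum_insert ha]
    exact (hf a (Finset.mem_insert_self a s)).add
      (ih fun i hi => hf i (Finset.mem_insert_of_mem hi))

/-- the sum over all vectors -/
def Hsum (q : ℕ) [Fact q.Prime] (hp : 0 < p) : ℍ → ℂ :=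
  ∑ v : Fin 2 → ZMod q, FW q v * FWp q hp v

theorem Hsum_slash (h3 : q % 4 = 3) (hp : 0 < p) (hpq : (p : ZMod q) ≠ 0) {γ : SL(2, ℤ)}
    (hγ : γ ∈ Gamma0 p) : Hsum q hp ∣[(2 : ℤ)] γ = Hsum q hp := by
  have e : Function.Bijective (fun v : Fin 2 → ZMod q => act q v γ) := by
    refine Function.bijective_iff_has_inverse.mpr ⟨fun v => act q v γ⁻¹, fun v => ?_, fun v => ?_⟩
    · simp only
      rw [← act_mul, mul_inv_cancel, act_one]
    · simp only
      rw [← act_mul, inv_mul_cancel, act_one]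
  rw [Hsum, SlashAction.sum_slash]
  refine Fintype.sum_bijective _ e _ _ fun v => ?_
  rw [show (2 : ℤ) = 1 + 1 by norm_num, mul_slash_SL2, FW_slash h3, FWp_slash h3 hp hpq hγ]

theorem isBoundedAt_Hsum (h3 : q % 4 = 3) (hp : 0 < p) {c : OnePoint ℝ} (hc : IsCusp c 𝒮ℒ) :
    OnePoint.IsBoundedAt c (Hsum q hp) 2 :=
  isBoundedAt_sum _ hc fun v _ => isBoundedAt_mul (k := 1) (l := 1) hc (isBoundedAt_FW h3 v hc)
    (isBoundedAt_FWp h3 hp v hc)

theorem mdiff_Hsum (hp : 0 < p) : MDiff (Hsum q hp) := by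
  have e : Hsum q hp = fun τ : ℍ => ∑ v : Fin 2 → ZMod q, W q (v 0) (v 1) (τ : ℂ) *
      W q (uu p v 0) (uu p v 1) (p * (τ : ℂ)) := by
    ext τ
    rw [Hsum, Finset.sum_apply]
    rfl
  rw [e]
  refine mdiff_of_differentiableAt (g := fun z : ℂ => ∑ v : Fin 2 → ZMod q, W q (v 0) (v 1) z *
      W q (uu p v 0) (uu p v 1) (p * z)) fun z hz => ?_
  refine DifferentiableAt.fun_sum fun v _ => (differentiableAt_W _ _ hz).mul ?_
  exact (differentiableAt_W (q := q) (uu p v 0) (uu p v 1)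
    (im_natCast_mul_pos hp.ne' hz)).comp z (by fun_prop)

/-- the modular form -/
def HsumMF (h3 : q % 4 = 3) (hp : 0 < p) (hpq : (p : ZMod q) ≠ 0) :
    ModularForm (Gamma0 p) 2 where
  toFun := Hsum q hp
  slash_action_eq' := by
    rintro _ ⟨γ, hγ, rfl⟩
    exact Hsum_slash h3 hp hpq hγ
  holo' := mdiff_Hsum hp
  bdd_at_cusps' := by
    intro c hc
    have : NeZero p := ⟨hp.ne'⟩
    exact isBoundedAt_Hsum h3 hp ((Subgroup.IsArithmetic.isCusp_iff_isCusp_SL2Z _).mp hc)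

end

end Fermat.Agent.H81
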