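import Mathlib
import Fermat.Agent.H81Form

set_option autoImplicit false
set_option linter.unusedSectionVars false

/-!
# The sum over all Weil vectors is `2 (q - 1) θ`
-/

open UpperHalfPlane ModularForm ModularGroup Matrix MatrixGroups CongruenceSubgroup
open scoped ModularForm Manifold

namespace Fermat.Agent.H81

open Complex Real ZMod

noncomputable section

variable {q : ℕ} [hqp : Fact q.Prime] {p : ℕ}

/-- the theta function of weight two -/
def Th (q p : ℕ) [Fact q.Prime] (w : ZMod q) (z : ℂ) : ℂ :=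
  ∑ s : ZMod q, vz q (w * s) z * vz q s (p * z)

theorem chi_p (h3 : q % 4 = 3) {w : ZMod q} (hw : w ^ 2 = -(p : ZMod q))
    (hpq : (p : ZMod q) ≠ 0) : chi q (p : ZMod q) = -1 := by
  have h1 : chi q (-(p : ZMod q)) = 1 :=
    chi_of_isSquare (neg_ne_zero.mpr hpq) ⟨w, by rw [← hw]; ring⟩
  rw [chi_neg h3] at h1
  linear_combination -h1

theorem sum_chi_sq : ∑ d : ZMod q, chi q d * chi q d = (q : ℂ) - 1 := by
  have h : ∀ d : ZMod q, chi q d * chi q d = 1 - if d = 0 then 1 else 0 := by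
    intro d
    by_cases hd : d = 0
    · subst hd
      rw [chi_zero]
      simp
    · rw [chi_sq hd, if_neg hd, sub_zero]
  simp_rw [h]
  rw [Finset.sum_sub_distrib, Finset.sum_ite_eq' Finset.univ (0 : ZMod q),
    if_pos (Finset.mem_univ _)]
  simp [ZMod.card]

theorem sum_r (h3 : q % 4 = 3) (t : ZMod q) {z : ℂ} (hz : 0 < z.im) :
    ∑ r : ZMod q, (if r ^ 2 = t ^ 2 then vz q r z else 0) =
      2 * vz q t z - if t = 0 then vz q 0 z else 0 := by
  have h2 := two_ne_zero' h3
  by_cases ht : t = 0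
  · subst ht
    rw [if_pos rfl]
    have : ∀ r : ZMod q, (r ^ 2 = 0 ^ 2) ↔ r = 0 := fun r => by simp
    simp_rw [this]
    rw [Finset.sum_ite_eq' Finset.univ (0 : ZMod q), if_pos (Finset.mem_univ _)]
    ring
  · rw [if_neg ht, sub_zero]
    have hne : t ≠ -t := by
      intro h
      apply ht
      have : 2 * t = 0 := by linear_combination h
      exact (mul_eq_zero.mp this).resolve_left h2
    have e : ∀ r : ZMod q, (if r ^ 2 = t ^ 2 then vz q r z else 0) =
        (if r = t then vz q t z else 0) + (if r = -t then vz q t z else 0) := by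
      intro r
      simp only [sq_eq_sq_iff_eq_or_eq_neg]
      by_cases h1 : r = t
      · subst h1
        rw [if_pos (Or.inl rfl), if_pos rfl, if_neg hne, add_zero]
      · by_cases h1' : r = -t
        · subst h1'
          rw [if_pos (Or.inr rfl), if_neg h1, if_pos rfl, zero_add, vz_neg _ hz]
        · rw [if_neg (by tauto), if_neg h1, if_neg h1', add_zero]
    simp_rw [e]
    rw [Finset.sum_add_distrib, Finset.sum_ite_eq' Finset.univ t,
      Finset.sum_ite_eq' Finset.univ (-t), if_pos (Finset.mem_univ _), if_pos (Finset.mem_univ _)]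
    ring

theorem sum_d (h3 : q % 4 = 3) {w : ZMod q} (hw : w ^ 2 = -(p : ZMod q))
    (hpq : (p : ZMod q) ≠ 0) {c : ZMod q} (hc : c ≠ 0) (hp : 0 < p) {z : ℂ} (hz : 0 < z.im) :
    ∑ d : ZMod q, W q c d z * W q (c / (p : ZMod q)) d (p * z) =
      2 * Th q p w z - vz q 0 z * vz q 0 (p * z) := by
  have h4 := four_ne_zero' h3
  have hq' : (q : ℂ) ≠ 0 := by exact_mod_cast (q_ne_zero (q := q))
  have hcp : c / (p : ZMod q) ≠ 0 := div_ne_zero hc hpq
  have hpz := im_natCast_mul_pos hp.ne' hz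
  have e1 : ∀ d : ZMod q, W q c d z * W q (c / (p : ZMod q)) d (p * z) =
      (1 / q) * ∑ r : ZMod q, ∑ s : ZMod q,
        stdAddChar (d * ((r ^ 2 + (p : ZMod q) * s ^ 2) / (4 * c))) * (vz q r z * vz q s (p * z)) := by
    intro d
    rw [W_of_ne hc, W_of_ne hcp, chi_div, chi_p h3 hw hpq,
      show chi q c * kap q * (∑ r : ZMod q, stdAddChar (d / (4 * c) * r ^ 2) * vz q r z) *
        (chi q c * -1 * kap q *
          (∑ r : ZMod q, stdAddChar (d / (4 * (c / (p : ZMod q))) * r ^ 2) * vz q r (p * z))) =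
        (-(chi q c * chi q c) * (kap q * kap q)) *
        ((∑ r : ZMod q, stdAddChar (d / (4 * c) * r ^ 2) * vz q r z) *
          (∑ r : ZMod q, stdAddChar (d / (4 * (c / (p : ZMod q))) * r ^ 2) * vz q r (p * z))) by ring,
      chi_sq hc, kap_sq, Finset.sum_mul_sum]
    rw [show (-1 * (-1 / (q : ℂ))) = 1 / q by ring]
    congr 1
    refine Finset.sum_congr rfl fun r _ => Finset.sum_congr rfl fun s _ => ?_
    rw [show d * ((r ^ 2 + (p : ZMod q) * s ^ 2) / (4 * c)) =
      d / (4 * c) * r ^ 2 + d / (4 * (c / (p : ZMod q))) * s ^ 2 by field_simp, AddChar.map_add_eq_mul]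
    ring
  simp_rw [e1]
  rw [← Finset.mul_sum, Finset.sum_comm]
  have e2 : ∀ r : ZMod q, ∑ d : ZMod q, ∑ s : ZMod q,
      (stdAddChar (d * ((r ^ 2 + (p : ZMod q) * s ^ 2) / (4 * c))) : ℂ) * (vz q r z * vz q s (p * z)) =
      ∑ s : ZMod q, (q : ℂ) * ((if r ^ 2 = (w * s) ^ 2 then vz q r z else 0) *
        vz q s (p * z)) := by
    intro r
    rw [Finset.sum_comm]
    refine Finset.sum_congr rfl fun s _ => ?_
    rw [← Finset.sum_mul]
    have := AddChar.sum_mulShift (R' := ℂ) ((r ^ 2 + (p : ZMod q) * s ^ 2) / (4 * c))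
      (ZMod.isPrimitive_stdAddChar q)
    rw [this, ZMod.card]
    have h0 : ((r ^ 2 + (p : ZMod q) * s ^ 2) / (4 * c) = 0) ↔ r ^ 2 = (w * s) ^ 2 := by
      rw [div_eq_zero_iff]
      constructor
      · intro h
        rcases h with h | h
        · rw [mul_pow, hw]
          linear_combination h
        · exact absurd h (mul_ne_zero h4 hc)
      · intro h
        left
        rw [mul_pow, hw] at h
        linear_combination h
    by_cases h : r ^ 2 = (w * s) ^ 2
    · rw [if_pos (h0.mpr h), if_pos h]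
    · rw [if_neg (fun h' => h (h0.mp h')), if_neg h]
      simp
  simp_rw [e2]
  rw [Finset.sum_comm]
  simp_rw [← Finset.mul_sum, ← Finset.sum_mul, sum_r h3 _ hz]
  rw [← mul_assoc, one_div_mul_cancel hq', one_mul]
  simp_rw [sub_mul]
  rw [Finset.sum_sub_distrib, Th, Finset.mul_sum]
  congr 1
  · exact Finset.sum_congr rfl fun s _ => by ring
  · have hw0 : w ≠ 0 := by
      rintro rfl
      apply hpq
      have : (p : ZMod q) = 0 := by linear_combination hw
      exact this
    have : ∀ s : ZMod q, (if w * s = 0 then vz q 0 z else 0) * vz q s (p * z) =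
        if s = 0 then vz q 0 z * vz q 0 (p * z) else 0 := by
      intro s
      by_cases hs : s = 0
      · subst hs
        simp
      · rw [if_neg (mul_ne_zero hw0 hs), if_neg hs, zero_mul]
    simp_rw [this]
    rw [Finset.sum_ite_eq' Finset.univ (0 : ZMod q), if_pos (Finset.mem_univ _)]

theorem Hsum_eq (h3 : q % 4 = 3) {w : ZMod q} (hw : w ^ 2 = -(p : ZMod q))
    (hpq : (p : ZMod q) ≠ 0) (hp : 0 < p) (τ : ℍ) :
    Hsum q hp τ = 2 * ((q : ℂ) - 1) * Th q p w (τ : ℂ) := by
  have e1 : Hsum q hp τ = ∑ c : ZMod q, ∑ d : ZMod q, W q c d (τ : ℂ) *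
      W q (c / (p : ZMod q)) d (p * (τ : ℂ)) := by
    rw [Hsum, Finset.sum_apply, ← Fintype.sum_prod_type']
    refine Fintype.sum_equiv (finTwoArrowEquiv (ZMod q)) _ _ fun v => ?_
    rfl
  rw [e1, ← Finset.add_sum_erase Finset.univ _ (Finset.mem_univ (0 : ZMod q))]
  rw [Finset.sum_congr rfl fun c hc => sum_d h3 hw hpq (Finset.ne_of_mem_erase hc) hp τ.im_pos]
  rw [Finset.sum_const, Finset.card_erase_of_mem (Finset.mem_univ _), Finset.card_univ, ZMod.card,
    nsmul_eq_mul]
  have e2 : ∀ d : ZMod q, W q 0 d (τ : ℂ) * W q (0 / (p : ZMod q)) d (p * (τ : ℂ)) =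
      (chi q d * chi q d) * (vz q 0 (τ : ℂ) * vz q 0 (p * (τ : ℂ))) := by
    intro d
    rw [zero_div, W_zero_left, W_zero_left]
    ring
  simp_rw [e2]
  rw [← Finset.sum_mul, sum_chi_sq]
  have hq1 : 1 ≤ q := hqp.out.one_lt.le
  push_cast [Nat.cast_sub hq1]
  ring

end

end Fermat.Agent.H81
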