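import Mathlib
import Fermat.Agent.H81Ord3

set_option autoImplicit false
set_option maxSynthPendingDepth 3

/-!
# The local bound at `p` for ordinary lifts which are trivial at a Kummer element of inertia
-/

namespace Fermat.Agent.H81

open Fermat.Agent.H55 Fermat.Agent.H56 Fermat.Agent.H91 ExtCitation
open IsLocalRing
open Fermat.Agent.H53 (M2 MCont ofMatrix)

noncomputable section

local notation "Qb" => AlgebraicClosure ℚ

section Kummer

variable (p : ℕ) [hp : Fact p.Prime]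

/-- the Kummer cocycle of `x ^ p = p` -/
theorem exists_kummer_cocycle {σ0 : Dq (pPrime p)}
    (hmove : ∃ x : Qb, x ^ p = (p : Qb) ∧ (σ0 : GQ) x ≠ x) :
    ∃ c ∈ Z1 (Dlev (pPrime p)) (chiD p), c σ0 ≠ 0 := by
  have : NeZero p := ⟨hp.out.ne_zero⟩
  obtain ⟨ζ, hζ⟩ := HasEnoughRootsOfUnity.exists_primitiveRoot Qb p
  have hζ1 := hζ.pow_eq_one
  obtain ⟨x, hx, hmv⟩ := hmove
  have hx0 : x ≠ 0 := by
    rintro rfl
    rw [zero_pow hp.out.ne_zero] at hx
    exact hp.out.ne_zero (by exact_mod_cast hx.symm)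
  have hrt : ∀ σ : GQ, (σ x / x) ^ p = 1 := by
    intro σ
    rw [div_pow, ← map_pow, hx, map_natCast, div_self]
    exact_mod_cast hp.out.ne_zero
  choose κ hκ using fun σ : GQ => exists_ze hζ (hrt σ)
  have hκ' : ∀ σ : GQ, σ x = ze ζ (κ σ) * x := fun σ => by
    rw [← hκ, div_mul_cancel₀ _ hx0]
  refine ⟨fun σ => κ (σ : GQ), ⟨?_, fun σ τ => ?_⟩, fun h => hmv ?_⟩
  · have hfin : FiniteDimensional ℚ (IntermediateField.adjoin ℚ {x}) :=
      IntermediateField.adjoin.finiteDimensional (Algebra.IsIntegral.isIntegral x)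
    refine ⟨(IntermediateField.adjoin ℚ {x}).fixingSubgroup.comap (Dq (pPrime p)).subtype,
      ⟨_, (krullLevels_op_iff _).mpr ⟨_, hfin, le_rfl⟩, le_rfl⟩, fun g s hs => ?_⟩
    have hs' : (s : GQ) x = x :=
      (IntermediateField.mem_fixingSubgroup_iff _ _).mp hs x
        (IntermediateField.mem_adjoin_simple_self ℚ x)
    apply ze_injective hζ
    apply mul_right_cancel₀ hx0
    rw [← hκ', ← hκ']
    show (g : GQ) ((s : GQ) x) = (g : GQ) x
    rw [hs']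
  · apply ze_injective hζ
    apply mul_right_cancel₀ hx0
    rw [ze_add hζ1, ← hκ', chiD_apply, ← map_ze p (σ : GQ) hζ1, mul_assoc, ← hκ', ← map_mul,
      ← hκ']
    rfl
  · have h' : κ (σ0 : GQ) = 0 := h
    rw [hκ', h', ze_zero, one_mul]

/-- cocycles vanishing at `σ0` -/
theorem card_Z1_ker (hp2 : p ≠ 2) {σ0 : Dq (pPrime p)}
    (hmove : ∃ x : Qb, x ^ p = (p : Qb) ∧ (σ0 : GQ) x ≠ x) :
    Nat.card {c : Z1 (Dlev (pPrime p)) (chiD p) // (c : Dq (pPrime p) → ZMod p) σ0 = 0} ≤ p ^ 2 := by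
  obtain ⟨hfin, hcard⟩ := card_Z1_chiD p hp2
  obtain ⟨κ, hκ, hκ0⟩ := exists_kummer_cocycle p hmove
  let E : ZMod p × {c : Z1 (Dlev (pPrime p)) (chiD p) // (c : Dq (pPrime p) → ZMod p) σ0 = 0} →
      Z1 (Dlev (pPrime p)) (chiD p) := fun y => y.1 • ⟨κ, hκ⟩ + y.2.1
  have hval : ∀ y, (E y : Dq (pPrime p) → ZMod p) σ0 = y.1 * κ σ0 := by
    intro y
    show y.1 * κ σ0 + (y.2.1 : Dq (pPrime p) → ZMod p) σ0 = _
    rw [y.2.2, add_zero]
  have hE : Function.Injective E := by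
    rintro ⟨a, c⟩ ⟨a', c'⟩ h
    have h1 : a * κ σ0 = a' * κ σ0 := by
      rw [← hval (a, c), ← hval (a', c'), h]
    have h2 : a = a' := mul_right_cancel₀ hκ0 h1
    subst h2
    have h3 : (c : Z1 (Dlev (pPrime p)) (chiD p)) = c' := add_left_cancel h
    rw [Subtype.ext h3]
  have h1 := Nat.card_le_card_of_injective E hE
  rw [Nat.card_prod, Nat.card_zmod] at h1
  have h2 : p * Nat.card {c : Z1 (Dlev (pPrime p)) (chiD p) //
      (c : Dq (pPrime p) → ZMod p) σ0 = 0} ≤ p * p ^ 2 :=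
    h1.trans (hcard.trans (le_of_eq (by ring)))
  exact Nat.le_of_mul_le_mul_left h2 hp.out.pos

end Kummer

section Final

variable (p : ℕ) [hp : Fact p.Prime] {k : Type} [Field k] [Algebra (ZMod p) k]

/-- evaluation at `σ0` -/
def evσ (σ0 : Dq (pPrime p)) : (Dq (pPrime p) → SL p k) →ₗ[ZMod p] SL p k :=
  LinearMap.proj σ0

/-- the part of the local condition vanishing at `σ0` -/
def LL0 (r : H91.GQ →* M2 k) (u : (M2 k)ˣ) (σ0 : Dq (pPrime p)) :
    Submodule (ZMod p) (Dq (pPrime p) → SL p k) :=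
  LL p r u ⊓ LinearMap.ker (evσ p σ0)

theorem card_MM0 [Finite k] (hp2 : p ≠ 2) {r : H91.GQ →* M2 k} {u : (M2 k)ˣ}
    (h : Tri0 p r (u : M2 k)) {σ0 : Dq (pPrime p)}
    (hmove : ∃ x : Qb, x ^ p = (p : Qb) ∧ (σ0 : GQ) x ≠ x) :
    Nat.card {f : MM p r u // (f : Dq (pPrime p) → SL p k) σ0 = 0} ≤ Nat.card k ^ 2 := by
  have hcard := card_Z1_ker p hp2 hmove
  obtain ⟨hfin, -⟩ := card_Z1_chiD p hp2
  have hMf : Module.Finite (ZMod p) k := Module.Finite.of_finite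
  let b := Module.finBasis (ZMod p) k
  choose s hs using fun (f : MM p r u) => ((mem_MM p).mp f.2).2
  have hs0 : ∀ f : MM p r u, (f : Dq (pPrime p) → SL p k) σ0 = 0 → s f σ0 = 0 := by
    intro f hf
    apply phi_injective p u
    rw [hs, hf, map_zero]
  let E : {f : MM p r u // (f : Dq (pPrime p) → SL p k) σ0 = 0} →
      (Fin (Module.finrank (ZMod p) k) →
        {c : Z1 (Dlev (pPrime p)) (chiD p) // (c : Dq (pPrime p) → ZMod p) σ0 = 0}) :=
    fun f i => ⟨⟨fun σ => b.coord i (s f.1 σ),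
      comp_mem_Z1 p h ((mem_MM p).mp f.1.2).1 (hs f.1) _⟩, by
        show b.coord i (s f.1 σ0) = 0
        rw [hs0 f.1 f.2, map_zero]⟩
  have hE : Function.Injective E := by
    intro f f' hff
    apply Subtype.ext
    apply Subtype.ext
    funext σ
    rw [← hs f.1 σ, ← hs f'.1 σ]
    congr 1
    apply b.ext_elem
    intro i
    have h1 := congrArg (fun x : {c : Z1 (Dlev (pPrime p)) (chiD p) //
      (c : Dq (pPrime p) → ZMod p) σ0 = 0} => (x.1 : Dq (pPrime p) → ZMod p) σ) (congrFun hff i)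
    exact h1
  have hk : Nat.card k = p ^ Module.finrank (ZMod p) k := by
    rw [Module.natCard_eq_pow_finrank (K := ZMod p), Nat.card_zmod]
  calc Nat.card {f : MM p r u // (f : Dq (pPrime p) → SL p k) σ0 = 0}
      ≤ _ := Nat.card_le_card_of_injective _ hE
    _ = Nat.card {c : Z1 (Dlev (pPrime p)) (chiD p) //
          (c : Dq (pPrime p) → ZMod p) σ0 = 0} ^ (Module.finrank (ZMod p) k) := by
        rw [Nat.card_fun, Nat.card_fin]
    _ ≤ (p ^ 2) ^ (Module.finrank (ZMod p) k) := Nat.pow_le_pow_left hcard _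
    _ = _ := by rw [hk, ← pow_mul, ← pow_mul, mul_comm]

theorem d0_apply_σ0 {r : H91.GQ →* M2 k} {σ0 : Dq (pPrime p)} (hr0 : r (σ0 : H91.GQ) = 1)
    (X : SL p k) : d0 (rhoD (ad p r) (pPrime p)) X σ0 = 0 := by
  have hinv : r ((σ0 : H91.GQ)⁻¹) = 1 := by
    have h1 := rmul_inv r (σ0 : H91.GQ)
    rwa [hr0, one_mul] at h1
  rw [d0_apply, sub_eq_zero]
  apply Subtype.ext
  show r (σ0 : H91.GQ) * (X : M2 k) * r (σ0 : H91.GQ)⁻¹ = X
  rw [hr0, hinv, one_mul, mul_one]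

theorem card_LL0 [Finite k] (hp2 : p ≠ 2) {r : H91.GQ →* M2 k} (hr : FinLev r) {u : (M2 k)ˣ}
    (h : Tri0 p r (u : M2 k)) {σ0 : Dq (pPrime p)}
    (hmove : ∃ x : Qb, x ^ p = (p : Qb) ∧ (σ0 : GQ) x ≠ x) (hr0 : r (σ0 : H91.GQ) = 1) :
    Finite (LL0 p r u σ0) ∧ Nat.card (LL0 p r u σ0) ≤ Nat.card k ^ 3 := by
  obtain ⟨hfinM, -⟩ := card_MM p hp2 h
  have hcard := card_MM0 p hp2 h hmove
  obtain ⟨hfinL, -⟩ := card_LL p hp2 hr h
  have hfin0 : Finite (LL0 p r u σ0) := by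
    refine Finite.of_injective (fun f : LL0 p r u σ0 => (⟨f.1, f.2.1⟩ : LL p r u)) ?_
    intro f f' hff
    exact Subtype.ext (congrArg (fun x : LL p r u => (x : Dq (pPrime p) → SL p k)) hff)
  have hphim : ∀ s, d0 (rhoD (ad p r) (pPrime p)) (phim p u s) ∈ LL0 p r u σ0 := fun s =>
    ⟨Submodule.mem_sup_right ⟨_, rfl⟩, d0_apply_σ0 p hr0 _⟩
  let E : {f : MM p r u // (f : Dq (pPrime p) → SL p k) σ0 = 0} × k → LL0 p r u σ0 := fun x =>
    ⟨(x.1.1 : Dq (pPrime p) → SL p k) + d0 (rhoD (ad p r) (pPrime p)) (phim p u x.2),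
      (LL0 p r u σ0).add_mem ⟨Submodule.mem_sup_left x.1.1.2, x.1.2⟩ (hphim x.2)⟩
  have hE : Function.Surjective E := by
    rintro ⟨f, hf⟩
    obtain ⟨m, hm, s, rfl⟩ := exists_of_mem_LL p hr h hf.1
    have hm0 : m σ0 = 0 := by
      have h1 : m σ0 + d0 (rhoD (ad p r) (pPrime p)) (phim p u s) σ0 = 0 := hf.2
      rwa [d0_apply_σ0 p hr0, add_zero] at h1
    exact ⟨(⟨⟨m, hm⟩, hm0⟩, s), rfl⟩
  refine ⟨hfin0, ?_⟩
  calc Nat.card (LL0 p r u σ0)
      ≤ Nat.card ({f : MM p r u // (f : Dq (pPrime p) → SL p k) σ0 = 0} × k) :=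
        Nat.card_le_card_of_surjective _ hE
    _ = _ * Nat.card k := Nat.card_prod _ _
    _ ≤ Nat.card k ^ 2 * Nat.card k := Nat.mul_le_mul_right _ hcard
    _ = _ := by ring

/-- **(LB)** the local bound at `p` for triangular lifts (constant unramified quotient character)
which are trivial at an element `σ0` of the decomposition group moving `p^(1/p)`. -/
theorem localBound_three [Finite k] (hp2 : p ≠ 2) {σ0 : H91.GQ} (hσ0 : σ0 ∈ Dq (pPrime p))
    (hmove : ∃ x : Qb, x ^ p = (p : Qb) ∧ σ0 x ≠ x) {r : H91.GQ →* M2 k} (hr : FinLev r)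
    (hr0 : r σ0 = 1) :
    LocalBound p r (pPrime p) 3 (fun R => (∃ g, Tri p R g) ∧ R σ0 = 1) := by
  by_cases hex : ∃ R : H91.GQ →* M2 (DualNumber k), GoodLift r R ∧ (∃ g, Tri p R g) ∧ R σ0 = 1
  · obtain ⟨R₀, hR₀, ⟨g₀, hg₀⟩, -⟩ := hex
    have ht₀ := hg₀.red p hR₀.red
    obtain ⟨u, hu⟩ := ht₀.1
    have htu : Tri0 p r (u : M2 k) := by rw [hu]; exact ht₀
    obtain ⟨hfin, hcard⟩ := card_LL0 p hp2 hr htu (σ0 := ⟨σ0, hσ0⟩) hmove hr0
    refine ⟨LL0 p r u ⟨σ0, hσ0⟩, ?_, ?_, hfin, hcard, ?_⟩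
    · rintro _ ⟨X, rfl⟩
      exact ⟨Submodule.mem_sup_right ⟨X, rfl⟩, d0_apply_σ0 p hr0 X⟩
    · refine inf_le_left.trans (sup_le inf_le_left ?_)
      rintro _ ⟨X, rfl⟩
      exact (smooth_adD p hr _).d0_mem_Z1 _
    · rintro R hR ⟨⟨g, hg⟩, hR0⟩ c hc
      obtain ⟨a, b, d, ha, hd, hgg⟩ := htu.unique p hp2 (hg.red p hR.red)
      obtain ⟨g', hg', hgu'⟩ := hg.adjust p ha hd hgg
      refine ⟨coc_mem_LL p hp2 hr hR hg' hgu' hc, ?_⟩
      show c ⟨σ0, hσ0⟩ = 0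
      apply Subtype.ext
      rw [hc]
      show coc R σ0 = 0
      have h1 : sndM (1 : M2 (DualNumber k)) = 0 := by
        ext i j
        fin_cases i <;> fin_cases j <;> simp [sndM]
      rw [coc, hR0, h1, zero_mul]
  · refine ⟨B1 (rhoD (ad p r) (pPrime p)), le_rfl, ?_, ?_, ?_, ?_⟩
    · rintro _ ⟨X, rfl⟩
      exact (smooth_adD p hr _).d0_mem_Z1 _
    · have hs : Function.Surjective (fun X : SL p k =>
          (⟨d0 (rhoD (ad p r) (pPrime p)) X, X, rfl⟩ : B1 (rhoD (ad p r) (pPrime p)))) := by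
        rintro ⟨_, X, rfl⟩
        exact ⟨X, rfl⟩
      exact Finite.of_surjective _ hs
    · have hs : Function.Surjective (fun X : SL p k =>
          (⟨d0 (rhoD (ad p r) (pPrime p)) X, X, rfl⟩ : B1 (rhoD (ad p r) (pPrime p)))) := by
        rintro ⟨_, X, rfl⟩
        exact ⟨X, rfl⟩
      calc Nat.card (B1 (rhoD (ad p r) (pPrime p))) ≤ Nat.card (SL p k) :=
            Nat.card_le_card_of_surjective _ hs
        _ = Nat.card k ^ 3 := natCard_traceZero k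
    · rintro R hR hRR
      exact absurd ⟨R, hR, hRR⟩ hex

end Final

end

end Fermat.Agent.H81
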