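import Mathlib
import Fermat.Agent.H81Ident
import Fermat.Prelude.Def_FLTPrelim_Modularity

set_option autoImplicit false
set_option linter.unusedSectionVars false

/-!
# The `q`-expansion of the theta form
-/

open UpperHalfPlane hiding I
open ModularForm ModularGroup Matrix MatrixGroups CongruenceSubgroup
open scoped ModularForm Manifold

namespace Fermat.Agent.H81

open Complex Real ZMod

noncomputable section

variable {q : ℕ} [hqp : Fact q.Prime] {p : ℕ}

/-- the index set -/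
abbrev Idx := (ℤ × ℤ) × (ℤ × ℤ)

/-- membership in the lattice -/
def inL (q : ℕ) (w : ZMod q) (x : Idx) : Prop :=
  ((x.1.1 : ZMod 2) = x.1.2 ∧ (x.2.1 : ZMod 2) = x.2.2) ∧ (x.1.1 : ZMod q) = w * x.2.1

instance (q : ℕ) (w : ZMod q) : DecidablePred (inL q w) := fun x => by
  unfold inL; infer_instance

/-- the quadratic form times `4q` -/
def QQ (q p : ℕ) (x : Idx) : ℤ := x.1.1 ^ 2 + q * x.1.2 ^ 2 + p * (x.2.1 ^ 2 + q * x.2.2 ^ 2)

theorem QQ_nonneg (x : Idx) : 0 ≤ QQ q p x := by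
  unfold QQ; positivity

theorem sq_add_mul_sq_dvd_four (h3 : q % 4 = 3) {a b : ℤ} (h : (a : ZMod 2) = b) :
    (4 : ℤ) ∣ a ^ 2 + q * b ^ 2 := by
  rw [ZMod.intCast_eq_intCast_iff_dvd_sub] at h
  obtain ⟨m, hm⟩ := h
  obtain ⟨k, hk⟩ := exists_k h3
  have hk' : (q : ℤ) = 4 * k - 1 := by
    have : ((q + 1 : ℕ) : ℤ) = ((4 * k : ℕ) : ℤ) := by rw [hk]
    push_cast at this
    linarith
  have hb : b = a + 2 * m := by push_cast at hm; linarith
  exact ⟨k * b ^ 2 - a * m - m ^ 2, by rw [hk', hb]; ring⟩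

theorem four_q_dvd_QQ (h3 : q % 4 = 3) {w : ZMod q} (hw : w ^ 2 = -(p : ZMod q)) {x : Idx}
    (hx : inL q w x) : ((4 * q : ℕ) : ℤ) ∣ QQ q p x := by
  have h4 : (4 : ℤ) ∣ QQ q p x :=
    dvd_add (sq_add_mul_sq_dvd_four h3 hx.1.1) ((sq_add_mul_sq_dvd_four h3 hx.1.2).mul_left _)
  have hq : (q : ℤ) ∣ QQ q p x := by
    rw [← ZMod.intCast_zmod_eq_zero_iff_dvd, QQ]
    push_cast
    rw [hx.2, ZMod.natCast_self, mul_pow, hw]
    ring
  have hcop : IsCoprime ((4 : ℕ) : ℤ) (q : ℤ) := by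
    rw [Nat.isCoprime_iff_coprime]
    have : Nat.Coprime 2 q := by
      rw [Nat.coprime_two_left]
      rw [Nat.odd_iff]
      omega
    exact Nat.Coprime.pow_left 2 this
  push_cast
  exact_mod_cast hcop.mul_dvd (by exact_mod_cast h4) hq

/-- the exponent -/
def NN (q p : ℕ) (x : Idx) : ℕ := (QQ q p x).toNat / (4 * q)

theorem NN_spec (h3 : q % 4 = 3) {w : ZMod q} (hw : w ^ 2 = -(p : ZMod q)) {x : Idx}
    (hx : inL q w x) : ((4 * q * NN q p x : ℕ) : ℤ) = QQ q p x := by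
  obtain ⟨m, hm⟩ := four_q_dvd_QQ h3 hw hx
  have hq : 0 < q := hqp.out.pos
  have h0 := QQ_nonneg (q := q) (p := p) x
  have h1 : (4 * q) ∣ (QQ q p x).toNat := by
    rw [← Int.natCast_dvd_natCast, Int.toNat_of_nonneg h0]
    exact ⟨m, hm⟩
  rw [NN, Nat.mul_div_cancel' h1, Int.toNat_of_nonneg h0]

theorem eL_mul_eL (h3 : q % 4 = 3) {w : ZMod q} (hw : w ^ 2 = -(p : ZMod q)) {x : Idx}
    (hx : inL q w x) (z : ℂ) :
    eL q x.1 z * eL q x.2 (p * z) = cexp (2 * π * I * (NN q p x * z)) := by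
  have hq' : (q : ℂ) ≠ 0 := by exact_mod_cast (q_ne_zero (q := q))
  have h := NN_spec h3 hw hx
  have h' : (4 * q * NN q p x : ℂ) = (QQ q p x : ℂ) := by exact_mod_cast congrArg (Int.cast (R := ℂ)) h
  have h'' : (NN q p x : ℂ) = (QQ q p x : ℂ) / (4 * q) := by
    rw [← h']
    field_simp
  rw [eL, eL, ← Complex.exp_add, h'', QQ]
  congr 1
  push_cast
  field_simp

theorem hasSum_vz (h3 : q % 4 = 3) (s : ZMod q) {z : ℂ} (hz : 0 < z.im) :
    HasSum (fun x : ℤ × ℤ =>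
      if (x.1 : ZMod 2) = x.2 ∧ (x.1 : ZMod q) = s then eL q x z else 0) (vz q s z) := by
  have hodd : Odd q := by rw [Nat.odd_iff]; omega
  have := hasSum_vt hodd (s.val : ℤ) hz
  simp only [Int.cast_natCast, ZMod.natCast_zmod_val] at this
  exact this

theorem summand_eq (h3 : q % 4 = 3) {w : ZMod q} (hw : w ^ 2 = -(p : ZMod q)) (z : ℂ) (x : Idx) :
    ∑ s : ZMod q, (if (x.1.1 : ZMod 2) = x.1.2 ∧ (x.1.1 : ZMod q) = w * s then eL q x.1 z else 0) *
      (if (x.2.1 : ZMod 2) = x.2.2 ∧ (x.2.1 : ZMod q) = s then eL q x.2 (p * z) else 0) =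
    if inL q w x then cexp (2 * π * I * (NN q p x * z)) else 0 := by
  rw [Finset.sum_eq_single (x.2.1 : ZMod q)]
  · by_cases hx : inL q w x
    · rw [if_pos hx, if_pos ⟨hx.1.1, hx.2⟩, if_pos ⟨hx.1.2, rfl⟩, eL_mul_eL h3 hw hx]
    · rw [if_neg hx]
      by_cases ha : (x.1.1 : ZMod 2) = x.1.2 ∧ (x.1.1 : ZMod q) = w * x.2.1
      · rw [if_neg (fun hb => hx ⟨⟨ha.1, hb.1⟩, ha.2⟩ :
          ¬ ((x.2.1 : ZMod 2) = x.2.2 ∧ (x.2.1 : ZMod q) = x.2.1)), mul_zero]
      · rw [if_neg ha, zero_mul]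
  · intro s _ hs
    rw [if_neg (fun hb => hs hb.2.symm : ¬ ((x.2.1 : ZMod 2) = x.2.2 ∧ (x.2.1 : ZMod q) = s)),
      mul_zero]
  · intro h
    exact absurd (Finset.mem_univ _) h

theorem hasSum_Th (h3 : q % 4 = 3) {w : ZMod q} (hw : w ^ 2 = -(p : ZMod q)) (hp : 0 < p) {z : ℂ}
    (hz : 0 < z.im) :
    HasSum (fun x : Idx => if inL q w x then cexp (2 * π * I * (NN q p x * z)) else 0)
      (Th q p w z) := by
  have hpz := im_natCast_mul_pos hp.ne' hz
  have h2 : ∀ s : ZMod q, HasSum (fun x : Idx =>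
      (if (x.1.1 : ZMod 2) = x.1.2 ∧ (x.1.1 : ZMod q) = w * s then eL q x.1 z else 0) *
      (if (x.2.1 : ZMod 2) = x.2.2 ∧ (x.2.1 : ZMod q) = s then eL q x.2 (p * z) else 0))
      (vz q (w * s) z * vz q s (p * z)) := by
    intro s
    have a1 := hasSum_vz h3 (w * s) hz
    have a2 := hasSum_vz h3 s hpz
    have a3 := summable_mul_of_summable_norm a1.summable.norm a2.summable.norm
    have a4 := a1.mul a2 a3
    refine a4.congr_fun fun x => ?_
    rfl
  have h4 := hasSum_sum (s := (Finset.univ : Finset (ZMod q))) fun s _ => h2 s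
  exact h4.congr_fun fun x => (summand_eq h3 hw z x).symm

/-- the box -/
def box (B : ℤ) : Finset Idx :=
  (Finset.Icc (-B) B ×ˢ Finset.Icc (-B) B) ×ˢ (Finset.Icc (-B) B ×ˢ Finset.Icc (-B) B)

/-- the vectors of norm `n` -/
def vecs (q p : ℕ) (w : ZMod q) (n : ℕ) : Finset Idx :=
  (box (4 * q * n : ℕ)).filter fun x => inL q w x ∧ NN q p x = n

theorem mem_Icc_of_sq_le {a B : ℤ} (h : a ^ 2 ≤ B) : a ∈ Finset.Icc (-B) B := by
  rw [Finset.mem_Icc]
  have h1 : |a| ≤ a ^ 2 := by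
    rw [← sq_abs]
    nlinarith [abs_nonneg a, Int.one_le_abs (z := a), (by
      by_cases ha : a = 0
      · subst ha; simp
      · have := Int.one_le_abs ha
        nlinarith [abs_nonneg a] : |a| ≤ |a| ^ 2)]
  exact abs_le.mp (h1.trans h)

theorem mem_vecs (h3 : q % 4 = 3) {w : ZMod q} (hw : w ^ 2 = -(p : ZMod q)) (hp : 0 < p) {n : ℕ}
    {x : Idx} : x ∈ vecs q p w n ↔ inL q w x ∧ NN q p x = n := by
  rw [vecs, Finset.mem_filter]
  refine ⟨fun h => h.2, fun h => ⟨?_, h⟩⟩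
  have h1 := NN_spec h3 hw h.1
  rw [h.2] at h1
  have hq : (1 : ℤ) ≤ q := by exact_mod_cast hqp.out.one_lt.le
  have hp' : (1 : ℤ) ≤ p := by exact_mod_cast hp
  have hqp' : (1 : ℤ) ≤ p * q := one_le_mul_of_one_le_of_one_le hp' hq
  have hQ : QQ q p x = x.1.1 ^ 2 + q * x.1.2 ^ 2 + p * x.2.1 ^ 2 + p * q * x.2.2 ^ 2 := by
    rw [QQ]; ring
  have a1 := sq_nonneg x.1.1
  have a2 := sq_nonneg x.1.2
  have a3 := sq_nonneg x.2.1
  have a4 := sq_nonneg x.2.2
  have b2 : x.1.2 ^ 2 ≤ q * x.1.2 ^ 2 := le_mul_of_one_le_left a2 hq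
  have b3 : x.2.1 ^ 2 ≤ p * x.2.1 ^ 2 := le_mul_of_one_le_left a3 hp'
  have b4 : x.2.2 ^ 2 ≤ p * q * x.2.2 ^ 2 := le_mul_of_one_le_left a4 hqp'
  simp only [box, Finset.mem_product]
  refine ⟨⟨mem_Icc_of_sq_le ?_, mem_Icc_of_sq_le ?_⟩, ⟨mem_Icc_of_sq_le ?_, mem_Icc_of_sq_le ?_⟩⟩
  all_goals rw [h1, hQ]; linarith

theorem hasSum_Th_nat (h3 : q % 4 = 3) {w : ZMod q} (hw : w ^ 2 = -(p : ZMod q)) (hp : 0 < p)
    {z : ℂ} (hz : 0 < z.im) :
    HasSum (fun n : ℕ => ((vecs q p w n).card : ℂ) * cexp (2 * π * I * (n * z))) (Th q p w z) := by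
  have h1 := hasSum_Th h3 hw hp hz
  have hinj : Function.Injective (fun x : Idx => (NN q p x, x)) := fun x y h => by
    simpa using congrArg Prod.snd h
  have h2 : HasSum (fun y : ℕ × Idx => if inL q w y.2 ∧ NN q p y.2 = y.1 then
      cexp (2 * π * I * (y.1 * z)) else 0) (Th q p w z) := by
    rw [← hinj.hasSum_iff]
    · refine h1.congr_fun fun x => ?_
      simp only [Function.comp_apply, and_true]
    · rintro ⟨n, x⟩ hx
      rw [if_neg]
      rintro ⟨-, h⟩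
      exact hx ⟨x, by simp only at h ⊢; rw [h]⟩
  refine h2.prod_fiberwise fun n => ?_
  have h3' : ∑ x ∈ vecs q p w n, (if inL q w x ∧ NN q p x = n then
      cexp (2 * π * I * (n * z)) else 0) =
      ((vecs q p w n).card : ℂ) * cexp (2 * π * I * (n * z)) := by
    rw [Finset.sum_congr rfl (g := fun _ => cexp (2 * π * I * (n * z)))
      (fun x hx => if_pos ((mem_vecs h3 hw hp).mp hx)), Finset.sum_const, nsmul_eq_mul]
  rw [← h3']
  refine hasSum_sum_of_ne_finset_zero fun x hx => ?_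
  rw [if_neg (fun h => hx ((mem_vecs h3 hw hp).mpr h))]

theorem vecs_zero (h3 : q % 4 = 3) {w : ZMod q} (hw : w ^ 2 = -(p : ZMod q)) (hp : 0 < p) :
    vecs q p w 0 = {((0, 0), (0, 0))} := by
  ext x
  rw [mem_vecs h3 hw hp, Finset.mem_singleton]
  constructor
  · rintro ⟨hx, hn⟩
    have h1 := NN_spec h3 hw hx
    rw [hn] at h1
    have hq : (0 : ℤ) < q := by exact_mod_cast hqp.out.pos
    have hp' : (0 : ℤ) < p := by exact_mod_cast hp
    have hQ : x.1.1 ^ 2 + q * x.1.2 ^ 2 + p * x.2.1 ^ 2 + p * q * x.2.2 ^ 2 = 0 := by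
      rw [QQ] at h1
      push_cast at h1
      linarith
    have a1 := sq_nonneg x.1.1
    have a2 : 0 ≤ q * x.1.2 ^ 2 := by positivity
    have a3 : 0 ≤ p * x.2.1 ^ 2 := by positivity
    have a4 : 0 ≤ p * q * x.2.2 ^ 2 := by positivity
    have b1 : x.1.1 ^ 2 = 0 := by linarith
    have b2 : q * x.1.2 ^ 2 = 0 := by linarith
    have b3 : p * x.2.1 ^ 2 = 0 := by linarith
    have b4 : p * q * x.2.2 ^ 2 = 0 := by linarith
    have c1 : x.1.1 = 0 := by simpa using b1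
    have c2 : x.1.2 = 0 := by simpa using (mul_eq_zero.mp b2).resolve_left hq.ne'
    have c3 : x.2.1 = 0 := by simpa using (mul_eq_zero.mp b3).resolve_left hp'.ne'
    have c4 : x.2.2 = 0 := by
      simpa using (mul_eq_zero.mp b4).resolve_left (mul_ne_zero hp'.ne' hq.ne')
    ext <;> simp [c1, c2, c3, c4]
  · rintro rfl
    refine ⟨?_, ?_⟩
    · simp [inL]
    · simp [NN, QQ]

theorem even_card_vecs (h3 : q % 4 = 3) {w : ZMod q} (hw : w ^ 2 = -(p : ZMod q)) (hp : 0 < p)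
    {n : ℕ} (hn : n ≠ 0) : Even (vecs q p w n).card := by
  have hneg : ∀ x : Idx, QQ q p (-x) = QQ q p x := by
    intro x
    simp [QQ]
  have hmem : ∀ x ∈ vecs q p w n, -x ∈ vecs q p w n := by
    intro x hx
    rw [mem_vecs h3 hw hp] at hx ⊢
    refine ⟨⟨⟨?_, ?_⟩, ?_⟩, ?_⟩
    · have := hx.1.1.1
      simp [this]
    · have := hx.1.1.2
      simp [this]
    · have := hx.1.2
      simp [this]
    · rw [NN, hneg]
      exact hx.2
  have key : ∑ x ∈ vecs q p w n, (1 : ZMod 2) = 0 := by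
    refine Finset.sum_involution (fun x _ => -x) ?_ ?_ hmem ?_
    · intro x _
      decide
    · intro x hx _ h
      have h0 : x = 0 := by
        have h1 : x.1.1 = 0 := by have := congrArg (fun y : Idx => y.1.1) h; simp at this; omega
        have h2 : x.1.2 = 0 := by have := congrArg (fun y : Idx => y.1.2) h; simp at this; omega
        have h3 : x.2.1 = 0 := by have := congrArg (fun y : Idx => y.2.1) h; simp at this; omega
        have h4 : x.2.2 = 0 := by have := congrArg (fun y : Idx => y.2.2) h; simp at this; omega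
        ext <;> simp [h1, h2, h3, h4]
      rw [mem_vecs h3 hw hp] at hx
      apply hn
      rw [← hx.2, h0]
      simp [NN, QQ]
    · intro x _
      exact neg_neg x
  rw [Finset.sum_const, nsmul_eq_mul, mul_one] at key
  exact (ZMod.natCast_eq_zero_iff_even).mp key

end

end Fermat.Agent.H81
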