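import Mathlib

/-!
# The one-orbit lemma for Hermitian matrices over `ℤ[ω]` (S47, T5a, helper90)

Everything is formulated for a commutative ring `O` with an involution `σ` and an element `ω`
such that `O = ℤ ⊕ ℤ ω`, `ω² + ω + 1 = 0`, `σ ω = -1 - ω`.
-/

set_option autoImplicit false

namespace Fermat.Agent.H90T

open Matrix

/-! ### lifting to `SL₂(ℤ)` -/

theorem exists_isCoprime_add_mul {m d n : ℤ} (hm : m ≠ 0)
    (h : ∀ p : ℕ, p.Prime → (p : ℤ) ∣ m → (p : ℤ) ∣ d → ¬ (p : ℤ) ∣ n) :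
    ∃ t : ℤ, IsCoprime m (d + t * n) := by
  classical
  let ps : Finset ℕ := {p ∈ m.natAbs.primeFactors | ¬ (p : ℤ) ∣ d}
  refine ⟨((ps.prod id : ℕ) : ℤ), ?_⟩
  rw [Int.isCoprime_iff_gcd_eq_one]
  by_contra hne
  obtain ⟨p, hp, hpg⟩ := Nat.exists_prime_and_dvd hne
  have h1 : (p : ℤ) ∣ m := (Int.natCast_dvd_natCast.mpr hpg).trans (Int.gcd_dvd_left ..)
  have h2 : (p : ℤ) ∣ d + ((ps.prod id : ℕ) : ℤ) * n :=
    (Int.natCast_dvd_natCast.mpr hpg).trans (Int.gcd_dvd_right ..)
  by_cases hpd : (p : ℤ) ∣ d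
  · have h3 : (p : ℤ) ∣ ((ps.prod id : ℕ) : ℤ) * n := (dvd_add_right hpd).mp h2
    rcases (Nat.prime_iff_prime_int.mp hp).dvd_or_dvd h3 with h4 | h4
    · have h5 : p ∣ ps.prod id := Int.natCast_dvd_natCast.mp h4
      obtain ⟨q, hq, hpq⟩ := (hp.prime.dvd_finsetProd_iff id).mp h5
      rw [Finset.mem_filter, Nat.mem_primeFactors] at hq
      have : p = q := (Nat.prime_dvd_prime_iff_eq hp hq.1.1).mp hpq
      exact hq.2 (this ▸ hpd)
    · exact h p hp h1 hpd h4
  · have hps : p ∈ ps := by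
      refine Finset.mem_filter.mpr ⟨Nat.mem_primeFactors.mpr ⟨hp, ?_, by simpa using hm⟩, hpd⟩
      exact Int.natCast_dvd.mp h1
    have h3 : (p : ℤ) ∣ ((ps.prod id : ℕ) : ℤ) * n :=
      (Int.natCast_dvd_natCast.mpr (Finset.dvd_prod_of_mem id hps)).mul_right n
    exact hpd ((dvd_add_left h3).mp h2)

/-- `SL₂(ℤ) → SL₂(ℤ/n)` is onto. -/
theorem exists_SL2_lift {n : ℤ} (hn : n ≠ 0) {a b c d : ℤ} (h : n ∣ a * d - b * c - 1) :
    ∃ g : SpecialLinearGroup (Fin 2) ℤ,
      n ∣ g 0 0 - a ∧ n ∣ g 0 1 - b ∧ n ∣ g 1 0 - c ∧ n ∣ g 1 1 - d := by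
  obtain ⟨c', hc'0, hc'⟩ : ∃ c' : ℤ, c' ≠ 0 ∧ n ∣ c' - c := by
    by_cases hc : c = 0
    · exact ⟨n, hn, by rw [hc, sub_zero]⟩
    · exact ⟨c, hc, by rw [sub_self]; exact dvd_zero n⟩
  obtain ⟨t, ht⟩ := exists_isCoprime_add_mul (m := c') (d := d) (n := n) hc'0 (by
    intro p hp h1 h2 h3
    have h4 : (p : ℤ) ∣ c := by
      have := h1.sub (h3.trans hc')
      simpa using this
    have h5 : (p : ℤ) ∣ 1 := by
      have h6 := (h2.mul_left a).sub (h4.mul_left b)
      have h7 := h6.sub (h3.trans h)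
      have : a * d - b * c - (a * d - b * c - 1) = 1 := by ring
      rwa [this] at h7
    exact hp.one_lt.ne' (Nat.dvd_one.mp (by exact_mod_cast h5)))
  obtain ⟨u, v, huv⟩ := ht
  set d' := d + t * n with hd'
  have hdd : n ∣ d' - d := ⟨t, by rw [hd']; ring⟩
  set x := a - v with hx
  set y := b + u with hy
  set s := u * x + v * y with hs
  have hkey : n ∣ x * d' - y * c' := by
    have : x * d' - y * c' = (a * d - b * c - 1) + a * (d' - d) - b * (c' - c) := by
      have : x * d' - y * c' = a * d' - b * c' - (u * c' + v * d') := by rw [hx, hy]; ring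
      rw [this, huv]; ring
    rw [this]
    exact (h.add (hdd.mul_left a)).sub (hc'.mul_left b)
  have h1 : n ∣ s * c' - x := by
    have : s * c' - x = -(v * (x * d' - y * c')) := by
      have h2 : u * c' = 1 - v * d' := by linarith
      calc s * c' - x = (u * c') * x + v * y * c' - x := by rw [hs]; ring
        _ = _ := by rw [h2]; ring
    rw [this]
    exact (hkey.mul_left v).neg_right
  have h2 : n ∣ s * d' - y := by
    have : s * d' - y = u * (x * d' - y * c') := by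
      have h2 : v * d' = 1 - u * c' := by linarith
      calc s * d' - y = u * x * d' + (v * d') * y - y := by rw [hs]; ring
        _ = _ := by rw [h2]; ring
    rw [this]
    exact hkey.mul_left u
  refine ⟨⟨!![v + s * c', -u + s * d'; c', d'], ?_⟩, ?_, ?_, ?_, ?_⟩
  · rw [det_fin_two_of]
    linear_combination huv
  · show n ∣ v + s * c' - a
    have : v + s * c' - a = s * c' - x := by rw [hx]; ring
    rwa [this]
  · show n ∣ -u + s * d' - b
    have : -u + s * d' - b = s * d' - y := by rw [hy]; ring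
    rwa [this]
  · exact hc'
  · exact hdd

/-! ### models of `ℤ[ω]` -/

/-- `O` with `σ`, `ω` is a model of the ring of Eisenstein integers. -/
structure EisModel (O : Type*) [CommRing O] (σ : O →+* O) (ω : O) : Prop where
  basis : ∀ x : O, ∃ a b : ℤ, x = a + b * ω
  indep : ∀ a b : ℤ, (a : O) + b * ω = 0 → a = 0 ∧ b = 0
  rel : ω ^ 2 + ω + 1 = 0
  conj : σ ω = -1 - ω

namespace EisModel

variable {O : Type*} [CommRing O] {σ : O →+* O} {ω : O}

theorem indep' (h : EisModel O σ ω) {a b c d : ℤ} (e : (a : O) + b * ω = c + d * ω) :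
    a = c ∧ b = d := by
  obtain ⟨h1, h2⟩ := h.indep (a - c) (b - d) (by push_cast; linear_combination e)
  exact ⟨sub_eq_zero.mp h1, sub_eq_zero.mp h2⟩

theorem conj_add (h : EisModel O σ ω) (a b : ℤ) : σ (a + b * ω) = (a - b : ℤ) + (-b : ℤ) * ω := by
  rw [map_add, map_mul, map_intCast, map_intCast, h.conj]
  push_cast; ring

theorem conj_conj (h : EisModel O σ ω) (x : O) : σ (σ x) = x := by
  obtain ⟨a, b, rfl⟩ := h.basis x
  rw [h.conj_add, h.conj_add]
  push_cast; ring

theorem natCast_inj (h : EisModel O σ ω) {a b : ℤ} (e : (a : O) = b) : a = b :=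
  (h.indep' (a := a) (b := 0) (c := b) (d := 0) (by push_cast; linear_combination e)).1

theorem nontrivial (h : EisModel O σ ω) : Nontrivial O := by
  refine ⟨⟨1, 0, fun e => ?_⟩⟩
  have := h.natCast_inj (a := 1) (b := 0) (by push_cast; exact e)
  exact one_ne_zero this

theorem int_mul_eq_zero (h : EisModel O σ ω) {m : ℤ} (hm : m ≠ 0) {x : O} (e : (m : O) * x = 0) :
    x = 0 := by
  obtain ⟨a, b, rfl⟩ := h.basis x
  obtain ⟨h1, h2⟩ := h.indep (m * a) (m * b) (by push_cast; linear_combination e)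
  rw [(mul_eq_zero.mp h1).resolve_left hm, (mul_eq_zero.mp h2).resolve_left hm]
  simp

theorem sqrt_sq (h : EisModel O σ ω) : (1 + 2 * ω) * (1 + 2 * ω) = -3 := by
  linear_combination 4 * h.rel

theorem sqrt_mul_eq_zero (h : EisModel O σ ω) {x : O} (e : (1 + 2 * ω) * x = 0) : x = 0 := by
  apply h.int_mul_eq_zero (m := -3) (by norm_num)
  push_cast
  linear_combination (1 + 2 * ω) * e - h.sqrt_sq * x

theorem sub_conj (h : EisModel O σ ω) (a b : ℤ) :
    (a + b * ω : O) - σ (a + b * ω) = (1 + 2 * ω) * b := by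
  rw [h.conj_add]; push_cast; ring

theorem dvd_of_dvd_sub_conj (h : EisModel O σ ω) {n a b : ℤ}
    (e : (n : O) ∣ (a + b * ω : O) - σ (a + b * ω)) : n ∣ b := by
  obtain ⟨c, hc⟩ := e
  obtain ⟨p, q, rfl⟩ := h.basis c
  rw [h.sub_conj] at hc
  exact ⟨p, (h.indep' (a := b) (b := 2 * b) (c := n * p) (d := n * q)
    (by push_cast; linear_combination hc)).1⟩

theorem int_dvd (h : EisModel O σ ω) {n m : ℤ} (e : (n : O) ∣ (m : O)) : n ∣ m := by
  obtain ⟨c, hc⟩ := e
  obtain ⟨p, q, rfl⟩ := h.basis c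
  exact ⟨p, (h.indep' (a := m) (b := 0) (c := n * p) (d := n * q)
    (by push_cast; linear_combination hc)).1⟩

theorem exists_int_of_conj_eq (h : EisModel O σ ω) {x : O} (hx : σ x = x) : ∃ a : ℤ, x = a := by
  obtain ⟨a, b, rfl⟩ := h.basis x
  have h1 : (1 + 2 * ω) * (b : O) = 0 := by rw [← h.sub_conj a b, hx, sub_self]
  have h2 : (b : O) = 0 := h.sqrt_mul_eq_zero h1
  exact ⟨a, by rw [h2]; ring⟩

theorem int_isUnit (h : EisModel O σ ω) {a : ℤ} (ha : IsUnit (a : O)) : a * a = 1 := by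
  obtain ⟨y, hy⟩ := ha.exists_right_inv
  obtain ⟨p, q, rfl⟩ := h.basis y
  have h1 := (h.indep' (a := a * p) (b := a * q) (c := 1) (d := 0)
    (by push_cast; linear_combination hy)).1
  have h2 : IsUnit a := IsUnit.of_mul_eq_one p h1
  rcases Int.isUnit_iff.mp h2 with h3 | h3 <;> rw [h3] <;> norm_num

/-- The basis `1, ω`. -/
noncomputable def zbasis (h : EisModel O σ ω) : Module.Basis (Fin 2) ℤ O :=
  Module.Basis.mk (v := ![1, ω]) (by
    rw [LinearIndependent.pair_iff]
    intro s t e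
    refine h.indep s t ?_
    simpa [zsmul_eq_mul] using e) (by
    intro x _
    obtain ⟨a, b, rfl⟩ := h.basis x
    refine add_mem ?_ ?_
    · have : (a : O) = a • ((![1, ω] : Fin 2 → O) 0) := by simp
      rw [this]
      exact Submodule.smul_mem _ _ (Submodule.subset_span ⟨0, rfl⟩)
    · have : (b : O) * ω = b • ((![1, ω] : Fin 2 → O) 1) := by simp
      rw [this]
      exact Submodule.smul_mem _ _ (Submodule.subset_span ⟨1, rfl⟩))

end EisModel

end Fermat.Agent.H90T
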