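import Mathlib
import Fermat.Agent.H90TOrb

/-!
# The one-orbit lemma for skew-Hermitian matrices over the Eisenstein integers (S47, T5a)

`O = ℤ[ω]` (any model with its conjugation `σ`, structure `EisModel` of `H90TOrb`).
A `2 × 2` matrix `Y` over `O` with `Y^* = -Y`, `det Y = 1` and `√-3 N ∣ Y₂₂` is `± g J g^*` with
`g ∈ Γ₀(N; O)`, `J = (0 1; -1 0)`.
(`Y = √-3 X` with `X` Hermitian, `X = (a, β/√-3; conj, d)`, `|β|² - 3 a d = 1`.)
The sign is determined by `Y`, and `g` is unique up to right multiplication by `Γ₀(N; ℤ)`.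
-/

set_option autoImplicit false
set_option linter.unusedSectionVars false

open Matrix

namespace Fermat.Agent.H81.T5

open Fermat.Agent.H90T

/-- the matrix `M^* = (σ M)^t` -/
def mst {O : Type*} [CommRing O] (σ : O →+* O) (M : Matrix (Fin 2) (Fin 2) O) :
    Matrix (Fin 2) (Fin 2) O := (M.map σ)ᵀ

/-- the matrix `J = (0 1; -1 0)` -/
def J (O : Type*) [CommRing O] : Matrix (Fin 2) (Fin 2) O := !![0, 1; -1, 0]

/-! ### a primitive kernel vector modulo `N` -/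

theorem exists_primitive_ker {a1 a2 b1 b2 : ℤ} {N : ℕ} (hN : N ≠ 0)
    (hprim : ∀ ℓ : ℕ, ℓ.Prime → ℓ ∣ N →
      ¬ ((ℓ : ℤ) ∣ a1 ∧ (ℓ : ℤ) ∣ a2 ∧ (ℓ : ℤ) ∣ b1 ∧ (ℓ : ℤ) ∣ b2))
    (hdet : (N : ℤ) ∣ a1 * b2 - a2 * b1) :
    ∃ p q : ℤ, IsCoprime p q ∧ (N : ℤ) ∣ a1 * p + a2 * q ∧ (N : ℤ) ∣ b1 * p + b2 * q := by
  classical
  rcases eq_or_ne N 1 with rfl | hN1
  · exact ⟨1, 0, isCoprime_one_left, by simp, by simp⟩
  let s : Finset ℕ := N.primeFactors.filter fun ℓ => ¬ ((ℓ : ℤ) ∣ b1 ∧ (ℓ : ℤ) ∣ b2)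
  obtain ⟨t, ht⟩ : ∃ t : ℤ, t = ((∏ ℓ ∈ s, ℓ : ℕ) : ℤ) := ⟨_, rfl⟩
  obtain ⟨v1, hv1⟩ : ∃ v1 : ℤ, v1 = b2 - t * a2 := ⟨_, rfl⟩
  obtain ⟨v2, hv2⟩ : ∃ v2 : ℤ, v2 = -b1 + t * a1 := ⟨_, rfl⟩
  have hgood : ∀ ℓ : ℕ, ℓ.Prime → ℓ ∣ N → ¬ ((ℓ : ℤ) ∣ v1 ∧ (ℓ : ℤ) ∣ v2) := by
    rintro ℓ hℓ hℓN ⟨h1, h2⟩
    by_cases hb : (ℓ : ℤ) ∣ b1 ∧ (ℓ : ℤ) ∣ b2
    · have ht' : ¬ (ℓ : ℤ) ∣ t := by
        intro h
        rw [ht] at h
        have h' : ℓ ∣ ∏ ℓ ∈ s, ℓ := Int.natCast_dvd_natCast.mp h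
        rw [Prime.dvd_finsetProd_iff hℓ.prime] at h'
        obtain ⟨m, hm, hd⟩ := h'
        rw [Finset.mem_filter, Nat.mem_primeFactors] at hm
        have : ℓ = m := (Nat.prime_dvd_prime_iff_eq hℓ hm.1.1).mp hd
        subst this
        exact hm.2 hb
      have hp : Prime (ℓ : ℤ) := Nat.prime_iff_prime_int.mp hℓ
      have h3 : (ℓ : ℤ) ∣ t * a2 := by
        have := dvd_sub hb.2 h1
        rwa [hv1, sub_sub_cancel] at this
      have h4 : (ℓ : ℤ) ∣ t * a1 := by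
        have := dvd_add hb.1 h2
        rwa [hv2, ← add_assoc, add_neg_cancel, zero_add] at this
      exact hprim ℓ hℓ hℓN ⟨(hp.dvd_or_dvd h4).resolve_left ht',
        (hp.dvd_or_dvd h3).resolve_left ht', hb⟩
    · have ht' : (ℓ : ℤ) ∣ t := by
        rw [ht]
        exact Int.natCast_dvd_natCast.mpr (Finset.dvd_prod_of_mem (fun i => i)
          (Finset.mem_filter.mpr ⟨Nat.mem_primeFactors.mpr ⟨hℓ, hℓN, hN⟩, hb⟩))
      apply hb
      constructor
      · have := dvd_sub (ht'.mul_right a1) h2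
        rwa [hv2, show t * a1 - (-b1 + t * a1) = b1 by ring] at this
      · have := dvd_add h1 (ht'.mul_right a2)
        rwa [hv1, sub_add_cancel] at this
  have hv0 : Int.gcd v1 v2 ≠ 0 := by
    intro h
    rw [Int.gcd_eq_zero_iff] at h
    obtain ⟨ℓ, hℓ, hℓN⟩ := Nat.exists_prime_and_dvd hN1
    exact hgood ℓ hℓ hℓN ⟨by rw [h.1]; exact dvd_zero _, by rw [h.2]; exact dvd_zero _⟩
  obtain ⟨p, hp⟩ := Int.gcd_dvd_left v1 v2
  obtain ⟨q, hq⟩ := Int.gcd_dvd_right v1 v2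
  have h1 := Int.gcd_eq_gcd_ab v1 v2
  obtain ⟨g, hg⟩ : ∃ g : ℕ, g = Int.gcd v1 v2 := ⟨_, rfl⟩
  rw [← hg] at hp hq h1 hv0
  have hg0 : (g : ℤ) ≠ 0 := Int.natCast_ne_zero.mpr hv0
  have hcop : IsCoprime p q := by
    refine ⟨Int.gcdA v1 v2, Int.gcdB v1 v2, ?_⟩
    apply mul_left_cancel₀ hg0
    calc (g : ℤ) * (Int.gcdA v1 v2 * p + Int.gcdB v1 v2 * q)
        = (g * p) * Int.gcdA v1 v2 + (g * q) * Int.gcdB v1 v2 := by ring
      _ = g * 1 := by rw [← hp, ← hq, mul_one, ← h1]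
  have hgN : IsCoprime (g : ℤ) (N : ℤ) := by
    rw [Nat.isCoprime_iff_coprime, Nat.coprime_iff_gcd_eq_one]
    by_contra hne
    obtain ⟨ℓ, hℓ, hℓd⟩ := Nat.exists_prime_and_dvd hne
    have h1 : (ℓ : ℤ) ∣ (g : ℤ) := Int.natCast_dvd_natCast.mpr (hℓd.trans (Nat.gcd_dvd_left _ _))
    exact hgood ℓ hℓ (hℓd.trans (Nat.gcd_dvd_right _ _))
      ⟨by rw [hp]; exact h1.mul_right _, by rw [hq]; exact h1.mul_right _⟩
  refine ⟨p, q, hcop, ?_, ?_⟩
  · have h2 : (N : ℤ) ∣ (g : ℤ) * (a1 * p + a2 * q) := by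
      have : (g : ℤ) * (a1 * p + a2 * q) = a1 * b2 - a2 * b1 := by
        calc (g : ℤ) * (a1 * p + a2 * q) = a1 * (g * p) + a2 * (g * q) := by ring
          _ = a1 * v1 + a2 * v2 := by rw [← hp, ← hq]
          _ = _ := by rw [hv1, hv2]; ring
      rw [this]
      exact hdet
    exact hgN.symm.dvd_of_dvd_mul_left h2
  · have h2 : (N : ℤ) ∣ (g : ℤ) * (b1 * p + b2 * q) := by
      have : (g : ℤ) * (b1 * p + b2 * q) = t * (a1 * b2 - a2 * b1) := by
        calc (g : ℤ) * (b1 * p + b2 * q) = b1 * (g * p) + b2 * (g * q) := by ring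
          _ = b1 * v1 + b2 * v2 := by rw [← hp, ← hq]
          _ = _ := by rw [hv1, hv2]; ring
      rw [this]
      exact hdet.mul_left _
    exact hgN.symm.dvd_of_dvd_mul_left h2

/-! ### norm, Euclidean division -/

/-- the norm of `a + b ω` -/
def nrm (a b : ℤ) : ℤ := a ^ 2 - a * b + b ^ 2

theorem nrm_nonneg (a b : ℤ) : 0 ≤ nrm a b := by
  rw [nrm]; nlinarith [sq_nonneg (2 * a - b), sq_nonneg b]

theorem nrm_eq_zero {a b : ℤ} (h : nrm a b = 0) : a = 0 ∧ b = 0 := by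
  rw [nrm] at h
  have h1 : b ^ 2 = 0 := by nlinarith [sq_nonneg (2 * a - b), sq_nonneg b]
  have h2 : b = 0 := pow_eq_zero_iff (two_ne_zero) |>.mp h1
  subst h2
  refine ⟨?_, rfl⟩
  have h3 : a ^ 2 = 0 := by nlinarith
  exact pow_eq_zero_iff (two_ne_zero) |>.mp h3

/-- rounded division -/
theorem exists_round (u : ℤ) {n : ℤ} (hn : 0 < n) : ∃ q : ℤ, 4 * (u - n * q) ^ 2 ≤ n ^ 2 := by
  refine ⟨(2 * u + n) / (2 * n), ?_⟩
  have h1 := Int.emod_add_mul_ediv (2 * u + n) (2 * n)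
  have h2 := Int.emod_nonneg (2 * u + n) (b := 2 * n) (by omega)
  have h3 := Int.emod_lt_of_pos (2 * u + n) (b := 2 * n) (by omega)
  set q := (2 * u + n) / (2 * n)
  set r := (2 * u + n) % (2 * n)
  have h4 : 2 * (u - n * q) = r - n := by linear_combination -h1
  have h5 : 4 * (u - n * q) ^ 2 = (r - n) ^ 2 := by rw [← h4]; ring
  rw [h5]
  nlinarith

variable {O : Type*} [CommRing O] {σ : O →+* O} {ω : O}

section model

variable (h : EisModel O σ ω)

include h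

theorem mul_conj' (x y : ℤ) : ((x : O) + (y : O) * ω) * σ ((x : O) + (y : O) * ω) =
    ((nrm x y : ℤ) : O) := by
  rw [h.conj_add, nrm]
  push_cast
  linear_combination (-(y : O) ^ 2) * h.rel

theorem eis_domain : IsDomain O := by
  have := h.nontrivial
  have : NoZeroDivisors O := ⟨by
    intro x y hxy
    obtain ⟨a, b, rfl⟩ := h.basis x
    by_cases hn : nrm a b = 0
    · obtain ⟨ha, hb⟩ := nrm_eq_zero hn
      left
      rw [ha, hb]; simp
    · right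
      apply h.int_mul_eq_zero hn
      rw [← mul_conj' h, mul_comm _ (σ _), mul_assoc, hxy, mul_zero]⟩
  exact NoZeroDivisors.to_isDomain O

/-- Every pair is, up to a factor, the second row of a matrix of determinant one. -/
theorem exists_det_one (x y : O) : ∃ a b c d : O, a * d - b * c = 1 ∧ x * a + y * c = 0 := by
  have key : ∀ n : ℕ, ∀ (x : O) (u v : ℤ), nrm u v ≤ n →
      ∃ a b c d : O, a * d - b * c = 1 ∧ x * a + ((u : O) + (v : O) * ω) * c = 0 := by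
    intro n
    induction n with
    | zero =>
      intro x u v hn
      have h0 : nrm u v = 0 := le_antisymm (by exact_mod_cast hn) (nrm_nonneg u v)
      obtain ⟨rfl, rfl⟩ := nrm_eq_zero h0
      exact ⟨0, -1, 1, 0, by ring, by simp⟩
    | succ n ih =>
      intro x u v hn
      by_cases h0 : nrm u v = 0
      · obtain ⟨rfl, rfl⟩ := nrm_eq_zero h0
        exact ⟨0, -1, 1, 0, by ring, by simp⟩
      have hpos : 0 < nrm u v := lt_of_le_of_ne (nrm_nonneg u v) (Ne.symm h0)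
      obtain ⟨p, q, hpq⟩ := h.basis (x * σ ((u : O) + (v : O) * ω))
      obtain ⟨q1, hq1⟩ := exists_round p hpos
      obtain ⟨q2, hq2⟩ := exists_round q hpos
      obtain ⟨r1, r2, hr⟩ := h.basis (x - ((q1 : O) + (q2 : O) * ω) * ((u : O) + (v : O) * ω))
      -- the norm of the remainder
      have hmul : ((r1 : O) + (r2 : O) * ω) * σ ((u : O) + (v : O) * ω) =
          ((p - nrm u v * q1 : ℤ) : O) + ((q - nrm u v * q2 : ℤ) : O) * ω := by
        rw [← hr, sub_mul, hpq, mul_assoc, mul_conj' h]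
        push_cast; ring
      have hnorm : nrm r1 r2 * nrm u v = nrm (p - nrm u v * q1) (q - nrm u v * q2) := by
        apply h.natCast_inj
        rw [← mul_conj' h, ← hmul]
        push_cast
        rw [← mul_conj' h, ← mul_conj' h, map_mul, h.conj_conj]
        ring
      have hlt : nrm r1 r2 < nrm u v := by
        by_contra hcon
        push Not at hcon
        set A := p - nrm u v * q1
        set B := q - nrm u v * q2
        have h1 : nrm u v * nrm u v ≤ nrm r1 r2 * nrm u v :=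
          mul_le_mul_of_nonneg_right hcon hpos.le
        rw [hnorm] at h1
        have h2 : nrm A B = A ^ 2 - A * B + B ^ 2 := rfl
        nlinarith [sq_nonneg (A + B), mul_pos hpos hpos]
      have hle : nrm (-r1) (-r2) ≤ n := by
        have : nrm (-r1) (-r2) = nrm r1 r2 := by rw [nrm, nrm]; ring
        rw [this]
        push_cast at hn
        omega
      obtain ⟨a, b, c, d, hdet, hz⟩ := ih ((u : O) + (v : O) * ω) (-r1) (-r2) hle
      refine ⟨-c, -d, a + ((q1 : O) + (q2 : O) * ω) * c, b + ((q1 : O) + (q2 : O) * ω) * d,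
        by linear_combination hdet, ?_⟩
      push_cast at hz
      linear_combination hz - c * hr
  obtain ⟨u, v, rfl⟩ := h.basis y
  exact key (nrm u v).toNat x u v (Int.self_le_toNat _)

/-- skew elements are multiples of `√-3` -/
theorem skew {z : O} (hz : σ z = -z) : ∃ x : ℤ, z = (x : O) * (1 + 2 * ω) := by
  obtain ⟨x, y, rfl⟩ := h.basis z
  rw [h.conj_add] at hz
  have h1 := h.indep (2 * x - y) 0 (by push_cast; push_cast at hz; linear_combination hz)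
  refine ⟨x, ?_⟩
  have h2 : y = 2 * x := by omega
  rw [h2]
  push_cast
  ring

/-- elements of norm one are, up to sign, squares of elements of norm one -/
theorem norm_one {β : O} (hβ : β * σ β = 1) :
    ∃ ε : O, ε * σ ε = 1 ∧ (ε ^ 2 * β = 1 ∨ ε ^ 2 * β = -1) := by
  obtain ⟨x, y, rfl⟩ := h.basis β
  rw [mul_conj' h] at hβ
  have h1 : nrm x y = 1 := h.natCast_inj (by rw [hβ, Int.cast_one])
  rw [nrm] at h1
  have hω3 : ω ^ 3 = 1 := by linear_combination (ω - 1) * h.rel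
  have hωc : ω * σ ω = 1 := by rw [h.conj]; linear_combination -h.rel
  have hω2c : ω ^ 2 * σ (ω ^ 2) = 1 := by
    rw [map_pow, ← mul_pow, hωc, one_pow]
  have hx : -1 ≤ x ∧ x ≤ 1 := by constructor <;> nlinarith [sq_nonneg (x - 2 * y), sq_nonneg x]
  have hy : -1 ≤ y ∧ y ≤ 1 := by constructor <;> nlinarith [sq_nonneg (y - 2 * x), sq_nonneg y]
  obtain ⟨hx1, hx2⟩ := hx
  obtain ⟨hy1, hy2⟩ := hy
  interval_cases x <;> interval_cases y <;> simp at h1
  · -- (-1,-1)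
    refine ⟨ω ^ 2, hω2c, Or.inl ?_⟩
    push_cast
    linear_combination (-(ω ^ 4)) * h.rel + (ω ^ 3 + 1) * hω3
  · -- (-1,0)
    exact ⟨1, by simp, Or.inr (by push_cast; ring)⟩
  · -- (0,-1)
    refine ⟨ω, hωc, Or.inr ?_⟩
    push_cast
    linear_combination -hω3
  · -- (0,1)
    refine ⟨ω, hωc, Or.inl ?_⟩
    push_cast
    linear_combination hω3
  · -- (1,0)
    exact ⟨1, by simp, Or.inl (by push_cast; ring)⟩
  · -- (1,1)
    refine ⟨ω ^ 2, hω2c, Or.inr ?_⟩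
    push_cast
    linear_combination (ω ^ 4) * h.rel - (ω ^ 3 + 1) * hω3

end model

/-! ### the action -/

theorem mst_mul (σ : O →+* O) (A B : Matrix (Fin 2) (Fin 2) O) :
    mst σ (A * B) = mst σ B * mst σ A := by
  rw [mst, mst, mst, Matrix.map_mul, Matrix.transpose_mul]

theorem mst_one (σ : O →+* O) : mst σ (1 : Matrix (Fin 2) (Fin 2) O) = 1 := by
  rw [mst, Matrix.map_one _ (map_zero σ) (map_one σ), Matrix.transpose_one]

theorem det_mst (σ : O →+* O) (A : Matrix (Fin 2) (Fin 2) O) : (mst σ A).det = σ A.det := by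
  rw [mst, Matrix.det_transpose, Matrix.det_fin_two, Matrix.det_fin_two]
  simp

theorem mst_apply (σ : O →+* O) (A : Matrix (Fin 2) (Fin 2) O) (i j : Fin 2) :
    mst σ A i j = σ (A j i) := rfl

theorem det_J : (J O).det = 1 := by
  rw [J, Matrix.det_fin_two_of]; ring

/-- the action of `SL₂(O)` on matrices: `g Y g^*` -/
def tw (σ : O →+* O) (g : SpecialLinearGroup (Fin 2) O) (Y : Matrix (Fin 2) (Fin 2) O) :
    Matrix (Fin 2) (Fin 2) O :=
  (g : Matrix (Fin 2) (Fin 2) O) * Y * mst σ (g : Matrix (Fin 2) (Fin 2) O)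

theorem tw_mul (σ : O →+* O) (g g' : SpecialLinearGroup (Fin 2) O)
    (Y : Matrix (Fin 2) (Fin 2) O) : tw σ (g * g') Y = tw σ g (tw σ g' Y) := by
  show (g.1 * g'.1) * Y * mst σ (g.1 * g'.1) = g.1 * (g'.1 * Y * mst σ g'.1) * mst σ g.1
  rw [mst_mul]
  simp only [Matrix.mul_assoc]

theorem tw_one (σ : O →+* O) (Y : Matrix (Fin 2) (Fin 2) O) : tw σ 1 Y = Y := by
  show (1 : Matrix (Fin 2) (Fin 2) O) * Y * mst σ (1 : Matrix (Fin 2) (Fin 2) O) = Y
  rw [mst_one, Matrix.one_mul, Matrix.mul_one]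

theorem tw_neg (σ : O →+* O) (g : SpecialLinearGroup (Fin 2) O) (Y : Matrix (Fin 2) (Fin 2) O) :
    tw σ g (-Y) = -tw σ g Y := by
  rw [tw, tw, Matrix.mul_neg, Matrix.neg_mul]

theorem tw_inv_eq {g : SpecialLinearGroup (Fin 2) O} {Y Y' : Matrix (Fin 2) (Fin 2) O}
    (e : tw σ g Y = Y') : Y = tw σ g⁻¹ Y' := by
  rw [← e, ← tw_mul, inv_mul_cancel, tw_one]

theorem det_tw (σ : O →+* O) (g : SpecialLinearGroup (Fin 2) O) (Y : Matrix (Fin 2) (Fin 2) O) :
    (tw σ g Y).det = Y.det := by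
  rw [tw, Matrix.det_mul, Matrix.det_mul, det_mst, g.2, map_one, one_mul, mul_one]

theorem mst_mst (h : EisModel O σ ω) (Y : Matrix (Fin 2) (Fin 2) O) : mst σ (mst σ Y) = Y := by
  ext i j
  rw [mst_apply, mst_apply, h.conj_conj]

theorem mst_tw (h : EisModel O σ ω) (g : SpecialLinearGroup (Fin 2) O)
    {Y : Matrix (Fin 2) (Fin 2) O} (hY : mst σ Y = -Y) : mst σ (tw σ g Y) = -tw σ g Y := by
  rw [tw, mst_mul, mst_mul, mst_mst h, hY, Matrix.neg_mul, Matrix.mul_neg, Matrix.mul_assoc]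

theorem mst_J : mst σ (J O) = -J O := by
  ext i j
  rw [mst_apply]
  fin_cases i <;> fin_cases j <;> simp [J]

/-! ### first step: an isotropic row -/

theorem tw_one_one (g : SpecialLinearGroup (Fin 2) O) (Y : Matrix (Fin 2) (Fin 2) O) :
    tw σ g Y 1 1 = g.1 1 0 * Y 0 0 * σ (g.1 1 0) + g.1 1 0 * Y 0 1 * σ (g.1 1 1) +
      g.1 1 1 * Y 1 0 * σ (g.1 1 0) + g.1 1 1 * Y 1 1 * σ (g.1 1 1) := by
  rw [tw, Matrix.mul_apply, Fin.sum_univ_two, Matrix.mul_apply, Matrix.mul_apply,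
    Fin.sum_univ_two, Fin.sum_univ_two, mst_apply, mst_apply]
  ring

theorem exists_isotropic (h : EisModel O σ ω) {Y : Matrix (Fin 2) (Fin 2) O}
    (hskew : mst σ Y = -Y) (hdet : Y.det = 1) :
    ∃ g : SpecialLinearGroup (Fin 2) O, tw σ g Y 1 1 = 0 := by
  have := eis_domain h
  have h00 : σ (Y 0 0) = -Y 0 0 := by
    have := congrFun (congrFun hskew 0) 0
    rwa [mst_apply] at this
  have h01 : Y 1 0 = -σ (Y 0 1) := by
    have := congrFun (congrFun hskew 1) 0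
    rw [mst_apply, Matrix.neg_apply] at this
    rw [this, neg_neg]
  have hdet' : Y 0 0 * Y 1 1 + Y 0 1 * σ (Y 0 1) = 1 := by
    rw [Matrix.det_fin_two, h01] at hdet
    rw [← hdet]; ring
  -- an isotropic row
  obtain ⟨r1, r2, hr, hrne⟩ : ∃ r1 r2 : O, r1 * Y 0 0 * σ r1 + r1 * Y 0 1 * σ r2 +
      r2 * Y 1 0 * σ r1 + r2 * Y 1 1 * σ r2 = 0 ∧ ¬ (r1 = 0 ∧ r2 = 0) := by
    by_cases hx : Y 0 0 = 0
    · exact ⟨1, 0, by rw [hx]; simp, fun h => one_ne_zero h.1⟩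
    · refine ⟨1 + σ (Y 0 1), Y 0 0, ?_, fun h => hx h.2⟩
      rw [h01, map_add, map_one, h.conj_conj, h00]
      linear_combination (-Y 0 0) * hdet'
  obtain ⟨a, b, c, d, hd, hz⟩ := exists_det_one h r1 r2
  set δ := r1 * b + r2 * d with hδ
  have e1 : r1 = -(δ * c) := by rw [hδ]; linear_combination (-r1) * hd + d * hz
  have e2 : r2 = δ * a := by rw [hδ]; linear_combination (-r2) * hd - b * hz
  have hδ0 : δ ≠ 0 := by
    intro h0
    apply hrne
    rw [e1, e2, h0]; simp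
  have hσδ : σ δ ≠ 0 := by
    intro h0
    apply hδ0
    rw [← h.conj_conj δ, h0, map_zero]
  refine ⟨⟨!![d, -b; -c, a], by rw [Matrix.det_fin_two_of]; linear_combination hd⟩, ?_⟩
  rw [tw_one_one]
  show -c * Y 0 0 * σ (-c) + -c * Y 0 1 * σ a + a * Y 1 0 * σ (-c) + a * Y 1 1 * σ a = 0
  apply mul_left_cancel₀ hδ0
  apply mul_left_cancel₀ hσδ
  rw [e1, e2] at hr
  simp only [map_neg, map_mul] at hr ⊢
  linear_combination hr

/-! ### second step: normal form when the `(2,2)` entry vanishes -/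

theorem exists_normal (h : EisModel O σ ω) {Y : Matrix (Fin 2) (Fin 2) O}
    (hskew : mst σ Y = -Y) (hdet : Y.det = 1) (h11 : Y 1 1 = 0) :
    ∃ g : SpecialLinearGroup (Fin 2) O, tw σ g Y = J O ∨ tw σ g Y = -J O := by
  have h00 : σ (Y 0 0) = -Y 0 0 := by
    have := congrFun (congrFun hskew 0) 0
    rwa [mst_apply] at this
  have h01 : Y 1 0 = -σ (Y 0 1) := by
    have := congrFun (congrFun hskew 1) 0
    rw [mst_apply, Matrix.neg_apply] at this
    rw [this, neg_neg]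
  have hβ : Y 0 1 * σ (Y 0 1) = 1 := by
    rw [Matrix.det_fin_two, h01, h11] at hdet
    rw [← hdet]; ring
  obtain ⟨n, hn⟩ := skew h h00
  obtain ⟨ε, hε, hs⟩ := norm_one h hβ
  set β := Y 0 1 with hβdef
  -- the matrix
  have hgdet : (!![ε, ε * (n * ω * β); 0, σ ε] : Matrix (Fin 2) (Fin 2) O).det = 1 := by
    rw [Matrix.det_fin_two_of]; linear_combination hε
  refine ⟨⟨!![ε, ε * (n * ω * β); 0, σ ε], hgdet⟩, ?_⟩
  have e00 : tw σ ⟨!![ε, ε * (n * ω * β); 0, σ ε], hgdet⟩ Y 0 0 = 0 := by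
    rw [tw, Matrix.mul_apply, Fin.sum_univ_two, Matrix.mul_apply, Matrix.mul_apply,
      Fin.sum_univ_two, Fin.sum_univ_two, mst_apply, mst_apply]
    show (ε * Y 0 0 + ε * (n * ω * β) * Y 1 0) * σ ε +
      (ε * Y 0 1 + ε * (n * ω * β) * Y 1 1) * σ (ε * (n * ω * β)) = 0
    rw [h11, hn, h01, map_mul, map_mul, map_mul, map_intCast, h.conj]
    linear_combination (ε * σ ε * n) * ((-1 - 2 * ω) * hβ)
  have e01 : tw σ ⟨!![ε, ε * (n * ω * β); 0, σ ε], hgdet⟩ Y 0 1 = ε ^ 2 * β := by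
    rw [tw, Matrix.mul_apply, Fin.sum_univ_two, Matrix.mul_apply, Matrix.mul_apply,
      Fin.sum_univ_two, Fin.sum_univ_two, mst_apply, mst_apply]
    show (ε * Y 0 0 + ε * (n * ω * β) * Y 1 0) * σ 0 +
      (ε * Y 0 1 + ε * (n * ω * β) * Y 1 1) * σ (σ ε) = ε ^ 2 * β
    rw [h11, h.conj_conj, map_zero]
    ring
  have e11 : tw σ ⟨!![ε, ε * (n * ω * β); 0, σ ε], hgdet⟩ Y 1 1 = 0 := by
    rw [tw_one_one]
    show 0 * Y 0 0 * σ 0 + 0 * Y 0 1 * σ (σ ε) + σ ε * Y 1 0 * σ 0 + σ ε * Y 1 1 * σ (σ ε) = 0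
    rw [h11, map_zero]
    ring
  have e10 : tw σ ⟨!![ε, ε * (n * ω * β); 0, σ ε], hgdet⟩ Y 1 0 = -σ (ε ^ 2 * β) := by
    have := congrFun (congrFun (mst_tw h ⟨!![ε, ε * (n * ω * β); 0, σ ε], hgdet⟩ hskew) 1) 0
    rw [mst_apply, Matrix.neg_apply, e01] at this
    rw [this, neg_neg]
  rcases hs with hs | hs
  · left
    ext i j
    fin_cases i <;> fin_cases j
    · exact e00
    · exact e01.trans hs
    · refine e10.trans ?_
      rw [hs, map_one]; rfl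
    · exact e11
  · right
    ext i j
    fin_cases i <;> fin_cases j
    · refine e00.trans ?_
      simp [J]
    · refine (e01.trans hs).trans ?_
      simp [J]
    · refine e10.trans ?_
      rw [hs]; simp [J]
    · refine e11.trans ?_
      simp [J]

/-- **One orbit, level one.** -/
theorem exists_eq_tw_J (h : EisModel O σ ω) {Y : Matrix (Fin 2) (Fin 2) O}
    (hskew : mst σ Y = -Y) (hdet : Y.det = 1) :
    ∃ g : SpecialLinearGroup (Fin 2) O, Y = tw σ g (J O) ∨ Y = -tw σ g (J O) := by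
  obtain ⟨g1, h1⟩ := exists_isotropic h hskew hdet
  obtain ⟨g2, h2⟩ := exists_normal h (mst_tw h g1 hskew) (by rw [det_tw, hdet]) h1
  refine ⟨(g2 * g1)⁻¹, ?_⟩
  rw [← tw_mul] at h2
  rcases h2 with h2 | h2
  · exact Or.inl (tw_inv_eq h2)
  · exact Or.inr (by rw [← tw_neg]; exact tw_inv_eq h2)

/-! ### the stabiliser -/

/-- `SL₂(ℤ) → SL₂(O)` -/
abbrev ofInt (O : Type*) [CommRing O] (k : SpecialLinearGroup (Fin 2) ℤ) :
    SpecialLinearGroup (Fin 2) O := SpecialLinearGroup.map (Int.castRingHom O) k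

theorem tw_ofInt_J (k : SpecialLinearGroup (Fin 2) ℤ) : tw σ (ofInt O k) (J O) = J O := by
  have hk : k 0 0 * k 1 1 - k 0 1 * k 1 0 = 1 := by
    have := k.2
    rwa [Matrix.det_fin_two] at this
  have hk' : (k 0 0 : O) * k 1 1 - k 0 1 * k 1 0 = 1 := by
    have := congrArg (fun x : ℤ => (x : O)) hk
    push_cast at this
    exact this
  ext i j
  rw [tw, Matrix.mul_apply, Fin.sum_univ_two, Matrix.mul_apply, Matrix.mul_apply,
      Fin.sum_univ_two, Fin.sum_univ_two, mst_apply, mst_apply]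
  fin_cases i <;> fin_cases j <;> simp [J]
  · ring
  · linear_combination hk'
  · linear_combination -hk'
  · ring

/-- `g J g^* = c J` for a scalar `c` means `σ g = c g`. -/
theorem map_eq_of_tw_J {g : SpecialLinearGroup (Fin 2) O} (c : O)
    (hg : tw σ g (J O) = c • J O) : ∀ i j, σ (g.1 i j) = c * g.1 i j := by
  have hdet : g.1 0 0 * g.1 1 1 - g.1 0 1 * g.1 1 0 = 1 := by
    have := g.2
    rwa [Matrix.det_fin_two] at this
  have e : ∀ i j, tw σ g (J O) i j = -g.1 i 1 * σ (g.1 j 0) + g.1 i 0 * σ (g.1 j 1) := by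
    intro i j
    rw [tw, Matrix.mul_apply, Fin.sum_univ_two, Matrix.mul_apply, Matrix.mul_apply,
      Fin.sum_univ_two, Fin.sum_univ_two, mst_apply, mst_apply]
    simp [J]
  have f00 : -g.1 0 1 * σ (g.1 0 0) + g.1 0 0 * σ (g.1 0 1) = 0 := by
    rw [← e, hg]; simp [J]
  have f01 : -g.1 0 1 * σ (g.1 1 0) + g.1 0 0 * σ (g.1 1 1) = c := by
    rw [← e, hg]; simp [J]
  have f10 : -g.1 1 1 * σ (g.1 0 0) + g.1 1 0 * σ (g.1 0 1) = -c := by
    rw [← e, hg]; simp [J]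
  have f11 : -g.1 1 1 * σ (g.1 1 0) + g.1 1 0 * σ (g.1 1 1) = 0 := by
    rw [← e, hg]; simp [J]
  intro i j
  fin_cases i <;> fin_cases j
  · show σ (g.1 0 0) = c * g.1 0 0
    linear_combination (-σ (g.1 0 0)) * hdet + g.1 1 0 * f00 - g.1 0 0 * f10
  · show σ (g.1 0 1) = c * g.1 0 1
    linear_combination (-σ (g.1 0 1)) * hdet + g.1 1 1 * f00 - g.1 0 1 * f10
  · show σ (g.1 1 0) = c * g.1 1 0
    linear_combination (-σ (g.1 1 0)) * hdet + g.1 1 0 * f01 - g.1 0 0 * f11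
  · show σ (g.1 1 1) = c * g.1 1 1
    linear_combination (-σ (g.1 1 1)) * hdet + g.1 1 1 * f01 - g.1 0 1 * f11

/-- The stabiliser of `J` is `SL₂(ℤ)`. -/
theorem exists_ofInt_of_tw_J (h : EisModel O σ ω) {g : SpecialLinearGroup (Fin 2) O}
    (hg : tw σ g (J O) = J O) : ∃ k : SpecialLinearGroup (Fin 2) ℤ, g = ofInt O k := by
  have h1 := map_eq_of_tw_J (g := g) (σ := σ) (1 : O) (by rw [one_smul]; exact hg)
  have h2 : ∀ i j, ∃ a : ℤ, g.1 i j = a := fun i j =>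
    h.exists_int_of_conj_eq (by rw [h1 i j, one_mul])
  choose k hk using h2
  have hdet : (Matrix.of k : Matrix (Fin 2) (Fin 2) ℤ).det = 1 := by
    apply h.natCast_inj
    have := g.2
    rw [Matrix.det_fin_two, hk, hk, hk, hk] at this
    rw [Matrix.det_fin_two]
    push_cast
    exact this
  refine ⟨⟨Matrix.of k, hdet⟩, ?_⟩
  ext i j
  exact hk i j

/-- `J` and `-J` are inequivalent. -/
theorem tw_J_ne_neg (h : EisModel O σ ω) (g : SpecialLinearGroup (Fin 2) O) :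
    tw σ g (J O) ≠ -J O := by
  intro hg
  have h1 := map_eq_of_tw_J (g := g) (σ := σ) (-1 : O) (by rw [neg_one_smul]; exact hg)
  have h2 : ∀ i j, ∃ a : ℤ, g.1 i j = a * (1 + 2 * ω) := fun i j =>
    skew h (by rw [h1 i j, neg_one_mul])
  choose k hk using h2
  have := g.2
  rw [Matrix.det_fin_two, hk, hk, hk, hk] at this
  have h3 : (((-3) * (k 0 0 * k 1 1 - k 0 1 * k 1 0) : ℤ) : O) = ((1 : ℤ) : O) := by
    push_cast
    rw [← this]
    linear_combination (-(k 0 0 : O) * k 1 1 + k 0 1 * k 1 0) * h.sqrt_sq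
  have h4 := h.natCast_inj h3
  omega

/-! ### level `N` -/

theorem natCast_dvd_iff (h : EisModel O σ ω) {n : ℤ} {x y : ℤ}
    (e : (n : O) ∣ (x : O) + (y : O) * ω) : n ∣ x ∧ n ∣ y := by
  obtain ⟨c, hc⟩ := e
  obtain ⟨p, q, rfl⟩ := h.basis c
  obtain ⟨h1, h2⟩ := h.indep' (a := x) (b := y) (c := n * p) (d := n * q)
    (by push_cast; linear_combination hc)
  exact ⟨⟨p, h1⟩, ⟨q, h2⟩⟩

theorem dvd_of_dvd (n : ℤ) {x y : ℤ} (hx : n ∣ x) (hy : n ∣ y) :
    (n : O) ∣ (x : O) + (y : O) * ω := by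
  obtain ⟨p, rfl⟩ := hx
  obtain ⟨q, rfl⟩ := hy
  exact ⟨p + q * ω, by push_cast; ring⟩

/-- **One orbit, level `N`.**  `Y` skew-Hermitian, `det Y = 1`, `√-3 N ∣ Y₂₂`. -/
theorem one_orbit (h : EisModel O σ ω) {N : ℕ} (hN : N ≠ 0) {Y : Matrix (Fin 2) (Fin 2) O}
    (hskew : mst σ Y = -Y) (hdet : Y.det = 1) (hY : ((N : ℤ) : O) * (1 + 2 * ω) ∣ Y 1 1) :
    ∃ g : SpecialLinearGroup (Fin 2) O, ((N : ℤ) : O) ∣ g.1 1 0 ∧
      (Y = tw σ g (J O) ∨ Y = -tw σ g (J O)) := by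
  have := eis_domain h
  obtain ⟨g, hg⟩ := exists_eq_tw_J h hskew hdet
  obtain ⟨a1, b1, h1⟩ := h.basis (g.1 1 0)
  obtain ⟨a2, b2, h2⟩ := h.basis (g.1 1 1)
  have hgdet : g.1 0 0 * g.1 1 1 - g.1 0 1 * g.1 1 0 = 1 := by
    have := g.2
    rwa [Matrix.det_fin_two] at this
  -- the determinant condition
  have hsq : (1 + 2 * ω) ≠ 0 := by
    intro h0
    have := h.sqrt_sq
    rw [h0, zero_mul] at this
    have h3 : ((0 : ℤ) : O) = ((-3 : ℤ) : O) := by push_cast; exact this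
    have h4 := h.natCast_inj h3
    omega
  have hval : tw σ g (J O) 1 1 = ((a2 * b1 - a1 * b2 : ℤ) : O) * (1 + 2 * ω) := by
    rw [tw_one_one]
    have e1 : (J O) 0 0 = 0 := rfl
    have e2 : (J O) 0 1 = 1 := rfl
    have e3 : (J O) 1 0 = -1 := rfl
    have e4 : (J O) 1 1 = 0 := rfl
    rw [e1, e2, e3, e4, h1, h2, h.conj_add, h.conj_add]
    push_cast
    ring
  have hdvd : ((N : ℤ) : O) * (1 + 2 * ω) ∣ ((a2 * b1 - a1 * b2 : ℤ) : O) * (1 + 2 * ω) := by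
    rw [← hval]
    rcases hg with hg | hg
    · rwa [← hg]
    · have : tw σ g (J O) = -Y := by rw [hg, neg_neg]
      rw [this, Matrix.neg_apply]
      exact hY.neg_right
  have hdvd' : (N : ℤ) ∣ a1 * b2 - a2 * b1 := by
    have h3 := h.int_dvd (mul_dvd_mul_iff_right hsq |>.mp hdvd)
    have : a1 * b2 - a2 * b1 = -(a2 * b1 - a1 * b2) := by ring
    rw [this]
    exact h3.neg_right
  obtain ⟨p, q, hpq, hp, hq⟩ := exists_primitive_ker (a1 := a1) (a2 := a2) (b1 := b1) (b2 := b2) hN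
    (by
      rintro ℓ hℓ - ⟨c1, c2, c3, c4⟩
      have d1 : ((ℓ : ℤ) : O) ∣ g.1 1 0 := by rw [h1]; exact dvd_of_dvd _ c1 c3
      have d2 : ((ℓ : ℤ) : O) ∣ g.1 1 1 := by rw [h2]; exact dvd_of_dvd _ c2 c4
      have d3 : ((ℓ : ℤ) : O) ∣ ((1 : ℤ) : O) := by
        rw [Int.cast_one, ← hgdet]
        exact (d2.mul_left _).sub (d1.mul_left _)
      have d4 : ℓ ∣ 1 := by exact_mod_cast h.int_dvd d3
      exact hℓ.one_lt.ne' (Nat.dvd_one.mp d4)) hdvd'
  obtain ⟨u, v, huv⟩ := hpq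
  let k : SpecialLinearGroup (Fin 2) ℤ := ⟨!![p, -v; q, u], by
    rw [Matrix.det_fin_two_of]; linear_combination huv⟩
  refine ⟨g * ofInt O k, ?_, ?_⟩
  · have e : (g * ofInt O k).1 1 0 = g.1 1 0 * (p : O) + g.1 1 1 * (q : O) := by
      show (g.1 * (ofInt O k).1) 1 0 = _
      rw [Matrix.mul_apply, Fin.sum_univ_two]
      rfl
    rw [e, h1, h2]
    have e' : ((a1 : O) + (b1 : O) * ω) * p + ((a2 : O) + (b2 : O) * ω) * q =
        ((a1 * p + a2 * q : ℤ) : O) + ((b1 * p + b2 * q : ℤ) : O) * ω := by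
      push_cast; ring
    rw [e']
    exact dvd_of_dvd _ hp hq
  · rw [tw_mul, tw_ofInt_J]
    exact hg

/-- Conversely, the elements of the orbits satisfy the conditions. -/
theorem one_orbit_conv (h : EisModel O σ ω) {n : O} {g : SpecialLinearGroup (Fin 2) O}
    (hn : σ n = n) (hg : n ∣ g.1 1 0) :
    mst σ (tw σ g (J O)) = -tw σ g (J O) ∧ (tw σ g (J O)).det = 1 ∧
      n * (1 + 2 * ω) ∣ tw σ g (J O) 1 1 := by
  refine ⟨mst_tw h g mst_J, by rw [det_tw, det_J], ?_⟩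
  obtain ⟨c, hc⟩ := hg
  rw [tw_one_one]
  have e1 : (J O) 0 0 = 0 := rfl
  have e2 : (J O) 0 1 = 1 := rfl
  have e3 : (J O) 1 0 = -1 := rfl
  have e4 : (J O) 1 1 = 0 := rfl
  rw [e1, e2, e3, e4, hc]
  -- `c σ δ - δ σ c` is a multiple of `√-3`
  obtain ⟨x, hx⟩ := skew h (z := c * σ (g.1 1 1) - g.1 1 1 * σ c)
    (by rw [map_sub, map_mul, map_mul, h.conj_conj, h.conj_conj]; ring)
  refine ⟨x, ?_⟩
  rw [map_mul, hn]
  linear_combination n * hx

/-- Two elements of `Γ₀(N; O)` with the same value differ by `Γ₀(N; ℤ)`. -/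
theorem tw_J_eq_iff (h : EisModel O σ ω) {N : ℤ} {g g' : SpecialLinearGroup (Fin 2) O}
    (hg : (N : O) ∣ g.1 1 0) (hg' : (N : O) ∣ g'.1 1 0) :
    tw σ g (J O) = tw σ g' (J O) ↔
      ∃ k : SpecialLinearGroup (Fin 2) ℤ, N ∣ k.1 1 0 ∧ g' = g * ofInt O k := by
  constructor
  · intro e
    obtain ⟨k, hk⟩ := exists_ofInt_of_tw_J h (g := g⁻¹ * g')
      (by rw [tw_mul, ← e, ← tw_mul, inv_mul_cancel, tw_one])
    have hk' : g' = g * ofInt O k := by rw [← hk, mul_inv_cancel_left]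
    refine ⟨k, ?_, hk'⟩
    have hgdet : g.1 0 0 * g.1 1 1 - g.1 0 1 * g.1 1 0 = 1 := by
      have := g.2
      rwa [Matrix.det_fin_two] at this
    have e1 : ((k.1 1 0 : ℤ) : O) = g.1 0 0 * g'.1 1 0 - g.1 1 0 * g'.1 0 0 := by
      have a1 : g'.1 1 0 = g.1 1 0 * (k.1 0 0 : O) + g.1 1 1 * (k.1 1 0 : O) := by
        rw [hk']
        show (g.1 * (ofInt O k).1) 1 0 = _
        rw [Matrix.mul_apply, Fin.sum_univ_two]
        rfl
      have a2 : g'.1 0 0 = g.1 0 0 * (k.1 0 0 : O) + g.1 0 1 * (k.1 1 0 : O) := by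
        rw [hk']
        show (g.1 * (ofInt O k).1) 0 0 = _
        rw [Matrix.mul_apply, Fin.sum_univ_two]
        rfl
      rw [a1, a2]
      linear_combination (-(k.1 1 0 : O)) * hgdet
    apply h.int_dvd
    rw [e1]
    exact (hg'.mul_left _).sub (hg.mul_right _)
  · rintro ⟨k, -, rfl⟩
    rw [tw_mul, tw_ofInt_J]

theorem tw_J_ne_neg' (h : EisModel O σ ω) (g g' : SpecialLinearGroup (Fin 2) O) :
    tw σ g (J O) ≠ -tw σ g' (J O) := by
  intro e
  apply tw_J_ne_neg h (g'⁻¹ * g)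
  rw [tw_mul, e, tw_neg, ← tw_mul, inv_mul_cancel, tw_one]

end Fermat.Agent.H81.T5
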