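import Fermat.Agent.H96TDef
import Fermat.Agent.H31Hyp2
import Fermat.Agent.H81T5a

/-!
# One orbit: the classical form (S47, T5a)

The vectors `x : Lat` with `qL x = 1/3` and `phiN N x ≠ 0` are `± g x₀`, `g ∈ Gam N`,
`x₀ = (0, 1, 0)`; the stabiliser of `x₀` is the ordinary Hecke group `Γ₀(N)`.
-/

set_option autoImplicit false
set_option linter.unusedSectionVars false

noncomputable section

open Matrix
open scoped ComplexConjugate Real

namespace Fermat.Agent.S47T.Orb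

open Fermat.Agent.H90T Fermat.Agent.H81.T5

theorem coe_two : ((2 : Eis) : ℂ) = 2 := rfl

theorem coe_three : ((3 : Eis) : ℂ) = 3 := rfl

theorem eisModel : EisModel Eis conjE omE := by
  refine ⟨fun x => ?_, fun a b h => ?_, Subtype.ext ?_, Subtype.ext ?_⟩
  · obtain ⟨_, a, b, rfl⟩ := x
    exact ⟨a, b, Subtype.ext (by simp)⟩
  · apply om_indep
    have := congrArg (Subtype.val : Eis → ℂ) h
    simpa using this
  · simpa using om_rel
  · simpa using conj_om

theorem sq3E_eq : sq3E = 1 + 2 * omE := Subtype.ext (by simpa [coe_two] using sq3_eq)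

/-- The skew-Hermitian matrix `√-3 X` of an index. -/
def Ymat (x : Lat) : Matrix (Fin 2) (Fin 2) Eis :=
  !![sq3E * (x.1 : Eis), x.2.1; -conjE x.2.1, sq3E * (x.2.2 : Eis)]

theorem conjE_sq3E : conjE sq3E = -sq3E := Subtype.ext (by simpa using conj_sq3)

theorem sq3E_mul : sq3E * sq3E = -3 := Subtype.ext (by simpa [coe_three] using sq3_mul_sq3)

theorem sq3E_ne_zero : sq3E ≠ 0 := fun h => sq3_ne_zero (congrArg (Subtype.val : Eis → ℂ) h)

theorem conjE_conjE (x : Eis) : conjE (conjE x) = x := eisModel.conj_conj x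

theorem mst_Ymat (x : Lat) : mst conjE (Ymat x) = -Ymat x := by
  refine Matrix.ext fun i j => ?_
  rw [mst_apply]
  fin_cases i <;> fin_cases j
  · show conjE (sq3E * (x.1 : Eis)) = -(sq3E * (x.1 : Eis))
    rw [map_mul, map_intCast, conjE_sq3E, neg_mul]
  · show conjE (-conjE x.2.1) = -x.2.1
    rw [map_neg, conjE_conjE]
  · show conjE x.2.1 = -(-conjE x.2.1)
    rw [neg_neg]
  · show conjE (sq3E * (x.2.2 : Eis)) = -(sq3E * (x.2.2 : Eis))
    rw [map_mul, map_intCast, conjE_sq3E, neg_mul]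

theorem Ymat_injective : Function.Injective Ymat := by
  have := eis_domain eisModel
  rintro ⟨a, β, d⟩ ⟨a', β', d'⟩ h
  have h00 : sq3E * (a : Eis) = sq3E * (a' : Eis) := congrFun (congrFun h 0) 0
  have h01 : β = β' := congrFun (congrFun h 0) 1
  have h11 : sq3E * (d : Eis) = sq3E * (d' : Eis) := congrFun (congrFun h 1) 1
  have e0 := eisModel.natCast_inj (mul_left_cancel₀ sq3E_ne_zero h00)
  have e1 := eisModel.natCast_inj (mul_left_cancel₀ sq3E_ne_zero h11)
  rw [e0, e1, h01]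

theorem exists_Ymat {Y : Matrix (Fin 2) (Fin 2) Eis} (hY : mst conjE Y = -Y) :
    ∃ x, Ymat x = Y := by
  have h00 : conjE (Y 0 0) = -Y 0 0 := by
    have := congrFun (congrFun hY 0) 0
    rwa [mst_apply] at this
  have h11 : conjE (Y 1 1) = -Y 1 1 := by
    have := congrFun (congrFun hY 1) 1
    rwa [mst_apply] at this
  have h01 : Y 1 0 = -conjE (Y 0 1) := by
    have := congrFun (congrFun hY 1) 0
    rw [mst_apply, Matrix.neg_apply] at this
    rw [this, neg_neg]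
  obtain ⟨a, ha⟩ := skew eisModel h00
  obtain ⟨d, hd⟩ := skew eisModel h11
  refine ⟨(a, Y 0 1, d), ?_⟩
  refine Matrix.ext fun i j => ?_
  fin_cases i <;> fin_cases j
  · show sq3E * (a : Eis) = Y 0 0
    rw [ha, sq3E_eq, mul_comm]
  · rfl
  · exact h01.symm
  · show sq3E * (d : Eis) = Y 1 1
    rw [hd, sq3E_eq, mul_comm]

/-- The index with a given skew-Hermitian matrix. -/
def latOf (Y : Matrix (Fin 2) (Fin 2) Eis) : Lat :=
  haveI := Classical.propDecidable
  if hY : mst conjE Y = -Y then (exists_Ymat hY).choose else 0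

theorem Ymat_latOf {Y : Matrix (Fin 2) (Fin 2) Eis} (hY : mst conjE Y = -Y) :
    Ymat (latOf Y) = Y := by
  rw [latOf, dif_pos hY]
  exact (exists_Ymat hY).choose_spec

/-- the action of `SL₂(ℤ[ω])` on the index set -/
def latAct (g : SpecialLinearGroup (Fin 2) Eis) (x : Lat) : Lat := latOf (tw conjE g (Ymat x))

theorem Ymat_latAct (g : SpecialLinearGroup (Fin 2) Eis) (x : Lat) :
    Ymat (latAct g x) = tw conjE g (Ymat x) :=
  Ymat_latOf (mst_tw eisModel g (mst_Ymat x))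

instance : MulAction (SpecialLinearGroup (Fin 2) Eis) Lat where
  smul := latAct
  one_smul x := Ymat_injective (by
    show Ymat (latAct 1 x) = Ymat x
    rw [Ymat_latAct, tw_one])
  mul_smul g h x := Ymat_injective (by
    show Ymat (latAct (g * h) x) = Ymat (latAct g (latAct h x))
    rw [Ymat_latAct, Ymat_latAct, Ymat_latAct, tw_mul])

theorem Ymat_smul (g : SpecialLinearGroup (Fin 2) Eis) (x : Lat) :
    Ymat (g • x) = tw conjE g (Ymat x) := Ymat_latAct g x

theorem Ymat_neg (x : Lat) : Ymat (-x) = -Ymat x := by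
  refine Matrix.ext fun i j => ?_
  fin_cases i <;> fin_cases j
  · show sq3E * ((-x.1 : ℤ) : Eis) = -(sq3E * (x.1 : Eis))
    push_cast; ring
  · rfl
  · show -conjE (-x.2.1) = -(-conjE x.2.1)
    rw [map_neg]
  · show sq3E * ((-x.2.2 : ℤ) : Eis) = -(sq3E * (x.2.2 : Eis))
    push_cast; ring

theorem smul_neg' (g : SpecialLinearGroup (Fin 2) Eis) (x : Lat) : g • (-x) = -(g • x) :=
  Ymat_injective (by rw [Ymat_smul, Ymat_neg, Ymat_neg, Ymat_smul, tw_neg])

theorem det_Ymat (x : Lat) : (Ymat x).det = -3 * (x.1 : Eis) * x.2.2 + x.2.1 * conjE x.2.1 := by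
  rw [Ymat, Matrix.det_fin_two_of]
  linear_combination ((x.1 : Eis) * x.2.2) * sq3E_mul

theorem normSq_sq3 : Complex.normSq sq3 = 3 := by
  rw [sq3, map_mul, Complex.normSq_I, Complex.normSq_ofReal, one_mul,
    Real.mul_self_sqrt (by norm_num)]

theorem three_qL (x : Lat) : (((Ymat x).det : Eis) : ℂ) = ((3 * qL x : ℝ) : ℂ) := by
  rw [det_Ymat, qL, hQ, Complex.normSq_div, normSq_sq3]
  push_cast
  rw [coe_conjE, Complex.mul_conj, coe_three]
  ring

theorem qL_eq_iff (x : Lat) : qL x = 1 / 3 ↔ (Ymat x).det = 1 := by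
  rw [Subtype.ext_iff, three_qL]
  constructor
  · intro h
    rw [h]; norm_num
  · intro h
    have h1 : (3 * qL x : ℝ) = 1 := by
      have h2 : ((3 * qL x : ℝ) : ℂ) = ((1 : ℝ) : ℂ) := by rw [h]; simp
      exact Complex.ofReal_injective h2
    linarith

/-! ### the pairing -/

theorem map_Ymat (x : Lat) : (Ymat x).map (Subtype.val : Eis → ℂ) =
    sq3 • hmat x.1 ((x.2.1 : ℂ) / sq3) x.2.2 := by
  ext i j
  have hs := sq3_ne_zero
  fin_cases i <;> fin_cases j
  · show ((sq3E * (x.1 : Eis) : Eis) : ℂ) = sq3 * (((x.1 : ℤ) : ℝ) : ℂ)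
    push_cast; simp
  · show (x.2.1 : ℂ) = sq3 * ((x.2.1 : ℂ) / sq3)
    field_simp
  · show ((-conjE x.2.1 : Eis) : ℂ) = sq3 * conj ((x.2.1 : ℂ) / sq3)
    rw [map_div₀, conj_sq3]
    push_cast
    rw [coe_conjE]
    field_simp
  · show ((sq3E * (x.2.2 : Eis) : Eis) : ℂ) = sq3 * (((x.2.2 : ℤ) : ℝ) : ℂ)
    push_cast; simp

/-- `SL₂(ℤ[ω]) → GL₂(ℂ)` -/
def toGLC : SpecialLinearGroup (Fin 2) Eis →* GL (Fin 2) ℂ :=
  SpecialLinearGroup.toGL.comp (SpecialLinearGroup.map Eis.subtype)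

theorem toGLC_apply (g : SpecialLinearGroup (Fin 2) Eis) (i j : Fin 2) :
    (toGLC g : Matrix (Fin 2) (Fin 2) ℂ) i j = (g.1 i j : ℂ) := rfl

theorem toGLC_val (g : SpecialLinearGroup (Fin 2) Eis) :
    (toGLC g : Matrix (Fin 2) (Fin 2) ℂ) = g.1.map (Subtype.val : Eis → ℂ) := rfl

theorem toGLC_injective : Function.Injective toGLC := by
  intro g h e
  ext i j
  have := congrArg (fun m : GL (Fin 2) ℂ => (m : Matrix (Fin 2) (Fin 2) ℂ) i j) e
  exact this

theorem toGLC_det (g : SpecialLinearGroup (Fin 2) Eis) :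
    (toGLC g : Matrix (Fin 2) (Fin 2) ℂ).det = 1 := by
  have h : (toGLC g : Matrix (Fin 2) (Fin 2) ℂ) = (Eis.subtype).mapMatrix g.1 := rfl
  rw [h, ← RingHom.map_det, g.2, map_one]

theorem toGLC_mem {N : ℕ} {g : SpecialLinearGroup (Fin 2) Eis}
    (hg : ((N : ℤ) : Eis) ∣ g.1 1 0) : toGLC g ∈ Gam N := by
  refine ⟨toGLC_det g, fun i j => (g.1 i j).2, ?_⟩
  obtain ⟨c, hc⟩ := hg
  refine ⟨c, c.2, ?_⟩
  rw [toGLC_apply, hc]
  push_cast
  rfl

theorem exists_of_mem_Gam {N : ℕ} {g : GL (Fin 2) ℂ} (hg : g ∈ Gam N) :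
    ∃ s : SpecialLinearGroup (Fin 2) Eis, ((N : ℤ) : Eis) ∣ s.1 1 0 ∧ toGLC s = g := by
  obtain ⟨h1, h2, x, hx, h3⟩ := hg
  let M : Matrix (Fin 2) (Fin 2) Eis := fun i j => ⟨(g : Matrix (Fin 2) (Fin 2) ℂ) i j, h2 i j⟩
  have hM : M.det = 1 := by
    apply Subtype.ext
    have h : ((M.det : Eis) : ℂ) = (Eis.subtype.mapMatrix M).det := by
      rw [← RingHom.map_det]; rfl
    rw [h]
    exact h1
  refine ⟨⟨M, hM⟩, ⟨⟨x, hx⟩, Subtype.ext ?_⟩, ?_⟩
  · show (g : Matrix (Fin 2) (Fin 2) ℂ) 1 0 = _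
    rw [h3]
    push_cast
    rfl
  · apply Units.ext
    ext i j
    rfl

theorem pL_smul (g : SpecialLinearGroup (Fin 2) Eis) (x : Lat) (w : H3) :
    pL (g • x) (toGLC g • w) = pL x w := by
  have hS := toGLC_det g
  set S : Matrix (Fin 2) (Fin 2) ℂ := (toGLC g : Matrix (Fin 2) (Fin 2) ℂ) with hSdef
  have e1 : hmat (g • x).1 (((g • x).2.1 : ℂ) / sq3) (g • x).2.2 =
      S * hmat x.1 ((x.2.1 : ℂ) / sq3) x.2.2 * Sᴴ := by
    apply smul_right_injective _ sq3_ne_zero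
    show sq3 • hmat (g • x).1 (((g • x).2.1 : ℂ) / sq3) (g • x).2.2 = sq3 • _
    rw [← map_Ymat, ← Matrix.smul_mul, ← Matrix.mul_smul, ← map_Ymat, Ymat_smul]
    ext i j
    rw [Matrix.map_apply, tw, Matrix.mul_apply, Matrix.mul_apply, Fin.sum_univ_two,
      Fin.sum_univ_two, Matrix.mul_apply, Matrix.mul_apply, Matrix.mul_apply, Matrix.mul_apply,
      Fin.sum_univ_two, Fin.sum_univ_two, Fin.sum_univ_two, Fin.sum_univ_two]
    simp only [mst_apply, Matrix.conjTranspose_apply, Matrix.map_apply]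
    push_cast
    rfl
  have h : ((2 * pL (g • x) (toGLC g • w) : ℝ) : ℂ) = ((2 * pL x w : ℝ) : ℂ) := by
    rw [pL, pL, ← trace_hmat, ← trace_hmat, e1, H3.herm_smul, ← hSdef, hS]
    set X := hmat x.1 ((x.2.1 : ℂ) / sq3) x.2.2
    have hn : ((‖(1 : ℂ)‖ : ℝ) : ℂ)⁻¹ = 1 := by simp
    rw [hn, one_smul, Matrix.adjugate_mul_distrib, Matrix.adjugate_mul_distrib]
    have e2 : S * X * Sᴴ * ((Sᴴ).adjugate * ((H3.herm w).adjugate * S.adjugate)) =
        S * (X * (H3.herm w).adjugate) * S.adjugate := by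
      calc S * X * Sᴴ * ((Sᴴ).adjugate * ((H3.herm w).adjugate * S.adjugate))
          = S * X * (Sᴴ * (Sᴴ).adjugate) * ((H3.herm w).adjugate * S.adjugate) := by
            simp only [Matrix.mul_assoc]
        _ = _ := by
            rw [Matrix.mul_adjugate, Matrix.det_conjTranspose, hS, star_one, one_smul,
              Matrix.mul_one]
            simp only [Matrix.mul_assoc]
    rw [e2, Matrix.trace_mul_comm, ← Matrix.mul_assoc, Matrix.adjugate_mul, hS, one_smul,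
      Matrix.one_mul]
  have h' : 2 * pL (g • x) (toGLC g • w) = 2 * pL x w := by exact_mod_cast h
  linarith

theorem qL_smul (g : SpecialLinearGroup (Fin 2) Eis) (x : Lat) : qL (g • x) = qL x := by
  have h : ((3 * qL (g • x) : ℝ) : ℂ) = ((3 * qL x : ℝ) : ℂ) := by
    rw [← three_qL, ← three_qL, Ymat_smul, det_tw]
  have h' : 3 * qL (g • x) = 3 * qL x := by exact_mod_cast h
  linarith

theorem pL_neg (x : Lat) (w : H3) : pL (-x) w = -pL x w := by
  rw [pL, pL, pair, pair]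
  show ((((-x.1 : ℤ) : ℝ)) - 2 * (((-x.2.1 : Eis) : ℂ) / sq3 * conj w.z).re +
    ((-x.2.2 : ℤ) : ℝ) * _) / _ = _
  push_cast
  rw [neg_div, neg_mul, Complex.neg_re]
  ring

theorem qL_neg (x : Lat) : qL (-x) = qL x := by
  rw [qL, qL, hQ, hQ]
  show Complex.normSq (((-x.2.1 : Eis) : ℂ) / sq3) - ((-x.1 : ℤ) : ℝ) * ((-x.2.2 : ℤ) : ℝ) = _
  push_cast
  rw [neg_div, Complex.normSq_neg]
  ring

/-- the base vector -/
def x0 : Lat := (0, 1, 0)

theorem Ymat_x0 : Ymat x0 = H81.T5.J Eis := by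
  refine Matrix.ext fun i j => ?_
  fin_cases i <;> fin_cases j
  · show sq3E * ((0 : ℤ) : Eis) = 0
    simp
  · rfl
  · show -conjE 1 = -1
    rw [map_one]
  · show sq3E * ((0 : ℤ) : Eis) = 0
    simp

theorem pL_x0 (w : H3) : pL x0 w = w.z.im / (Real.sqrt 3 * w.y) := by
  have h3 : (0 : ℝ) < Real.sqrt 3 := Real.sqrt_pos.mpr (by norm_num)
  have hy := w.pos
  have e : ((1 : ℂ) / sq3 * conj w.z).re = -(w.z.im / Real.sqrt 3) := by
    have h4 : (1 : ℂ) / sq3 = ((-(Real.sqrt 3)⁻¹ : ℝ) : ℂ) * Complex.I := by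
      rw [sq3, eq_comm, eq_div_iff (mul_ne_zero Complex.I_ne_zero
        (by exact_mod_cast h3.ne'))]
      have h5 : ((Real.sqrt 3 : ℝ) : ℂ) ≠ 0 := by exact_mod_cast h3.ne'
      push_cast
      field_simp
      rw [Complex.I_sq]
      ring
    rw [h4, Complex.mul_re, Complex.mul_re, Complex.mul_im]
    simp only [Complex.ofReal_re, Complex.ofReal_im, Complex.I_re, Complex.I_im, Complex.conj_re,
      Complex.conj_im]
    field_simp
    ring
  rw [pL, pair]
  show (((0 : ℤ) : ℝ) - 2 * (((1 : Eis) : ℂ) / sq3 * conj w.z).re + ((0 : ℤ) : ℝ) * _) / _ = _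
  push_cast
  rw [e]
  field_simp
  ring

end Fermat.Agent.S47T.Orb
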