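import Mathlib

/-!
# Unfolding with cut-off functions (S47, T5a)

`Γ` a countable group acting on `X` with an invariant measure, `H ≤ Γ`; `χ`, `χH` cut-off
functions for `Γ` and `H`.  For `f` invariant under `H`:
`∫ χ(w) ∑_{c ∈ Γ/H} f (c⁻¹ w) = ∫ χH(w) f(w)`.
-/

set_option autoImplicit false
set_option linter.unusedSectionVars false

noncomputable section

open MeasureTheory
open scoped ENNReal

namespace Fermat.Agent.H81.Unf

/-- A cut-off function for a group action. -/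
structure Cut (Γ : Type*) {X : Type*} [Group Γ] [MulAction Γ X] [MeasurableSpace X]
    (χ : X → ℝ) : Prop where
  meas : Measurable χ
  nonneg : ∀ w, 0 ≤ χ w
  sum : ∀ w, HasSum (fun g : Γ => χ (g • w)) 1

variable {Γ X : Type*} [Group Γ] [MulAction Γ X] [MeasurableSpace X]

theorem Cut.le_one {χ : X → ℝ} (h : Cut Γ χ) (w : X) : χ w ≤ 1 := by
  have := le_hasSum (h.sum w) 1 (fun g _ => h.nonneg _)
  simpa using this

theorem Cut.tsum_ofReal {χ : X → ℝ} (h : Cut Γ χ) (w : X) :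
    ∑' g : Γ, ENNReal.ofReal (χ (g • w)) = 1 := by
  rw [← ENNReal.ofReal_tsum_of_nonneg (fun g => h.nonneg _) (h.sum w).summable,
    (h.sum w).tsum_eq, ENNReal.ofReal_one]

theorem Cut.sum_inv {χ : X → ℝ} (h : Cut Γ χ) (w : X) : HasSum (fun g : Γ => χ (g⁻¹ • w)) 1 := by
  have := (Equiv.inv Γ).hasSum_iff.mpr (h.sum w)
  exact this

/-- the bijection `(Γ ⧸ H) × H ≃ Γ`, `(c, k) ↦ c.out * k` -/
def prodEquiv (H : Subgroup Γ) : (Γ ⧸ H) × H ≃ Γ where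
  toFun p := p.1.out * p.2
  invFun g := ((g : Γ ⧸ H), ⟨((g : Γ ⧸ H).out)⁻¹ * g,
    QuotientGroup.eq.mp (Quotient.out_eq' (g : Γ ⧸ H))⟩)
  left_inv p := by
    obtain ⟨c, k⟩ := p
    have h1 : ((c.out * (k : Γ) : Γ) : Γ ⧸ H) = c := by
      rw [QuotientGroup.mk_mul_of_mem _ k.2]
      exact Quotient.out_eq' c
    refine Prod.ext h1 (Subtype.ext ?_)
    simp only
    rw [h1, inv_mul_cancel_left]
  right_inv g := by simp

theorem prodEquiv_apply (H : Subgroup Γ) (c : Γ ⧸ H) (k : H) :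
    prodEquiv H (c, k) = c.out * k := rfl

/-- fibre summation, extended nonnegative values -/
theorem tsum_fibre (H : Subgroup Γ) {χH : X → ℝ} (hχH : Cut H χH) {f : X → ℝ≥0∞}
    (hinv : ∀ k ∈ H, ∀ w, f (k • w) = f w) (w : X) :
    ∑' g : Γ, ENNReal.ofReal (χH (g⁻¹ • w)) * f (g⁻¹ • w) =
      ∑' c : Γ ⧸ H, f (c.out⁻¹ • w) := by
  rw [← (prodEquiv H).tsum_eq, ENNReal.tsum_prod']
  refine tsum_congr fun c => ?_
  have h1 : ∀ k : H, ENNReal.ofReal (χH ((prodEquiv H (c, k))⁻¹ • w)) *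
      f ((prodEquiv H (c, k))⁻¹ • w) =
      ENNReal.ofReal (χH (k⁻¹ • (c.out⁻¹ • w))) * f (c.out⁻¹ • w) := by
    intro k
    have h2 : (prodEquiv H (c, k))⁻¹ • w = (k⁻¹ : H) • (c.out⁻¹ • w) := by
      rw [prodEquiv_apply, mul_inv_rev, mul_smul]
      rfl
    rw [h2]
    congr 1
    exact hinv _ (k⁻¹ : H).2 _
  simp_rw [h1]
  rw [ENNReal.tsum_mul_right]
  have h3 : ∑' k : H, ENNReal.ofReal (χH (k⁻¹ • (c.out⁻¹ • w))) = 1 := by
    rw [← ENNReal.ofReal_tsum_of_nonneg (fun g => hχH.nonneg _) (hχH.sum_inv _).summable,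
      (hχH.sum_inv _).tsum_eq, ENNReal.ofReal_one]
  rw [h3, one_mul]

/-- fibre summation, complex values -/
theorem hasSum_fibre (H : Subgroup Γ) {χH : X → ℝ} (hχH : Cut H χH) {f : X → ℂ}
    (hinv : ∀ k ∈ H, ∀ w, f (k • w) = f w) (w : X)
    (hs : ∑' c : Γ ⧸ H, ‖f (c.out⁻¹ • w)‖ₑ ≠ ∞) :
    HasSum (fun g : Γ => (χH (g⁻¹ • w) : ℂ) * f (g⁻¹ • w)) (∑' c : Γ ⧸ H, f (c.out⁻¹ • w)) := by
  have hsum : Summable fun g : Γ => (χH (g⁻¹ • w) : ℂ) * f (g⁻¹ • w) := by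
    apply Summable.of_norm
    rw [← tsum_enorm_ne_top_iff_summable_norm]
    have h1 := tsum_fibre H hχH (f := fun w => ‖f w‖ₑ) (fun k hk w => by rw [hinv k hk]) w
    rw [← h1] at hs
    have h2 : ∀ g : Γ, ENNReal.ofReal (χH (g⁻¹ • w)) * ‖f (g⁻¹ • w)‖ₑ =
        ‖(χH (g⁻¹ • w) : ℂ) * f (g⁻¹ • w)‖ₑ := by
      intro g
      rw [enorm_mul]
      congr 1
      rw [← ofReal_norm, Complex.norm_real, Real.norm_of_nonneg (hχH.nonneg _)]
    simp_rw [h2] at hs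
    exact hs
  have h1 := (prodEquiv H).summable_iff.mpr hsum
  have h2 : HasSum (fun p : (Γ ⧸ H) × H => (χH ((prodEquiv H p)⁻¹ • w) : ℂ) *
      f ((prodEquiv H p)⁻¹ • w)) (∑' c : Γ ⧸ H, f (c.out⁻¹ • w)) := by
    have h3 := h1.hasSum
    have h4 : ∀ c : Γ ⧸ H, HasSum (fun k : H => (χH ((prodEquiv H (c, k))⁻¹ • w) : ℂ) *
        f ((prodEquiv H (c, k))⁻¹ • w)) (f (c.out⁻¹ • w)) := by
      intro c
      have h5 : ∀ k : H, (χH ((prodEquiv H (c, k))⁻¹ • w) : ℂ) * f ((prodEquiv H (c, k))⁻¹ • w) =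
          (χH (k⁻¹ • (c.out⁻¹ • w)) : ℂ) * f (c.out⁻¹ • w) := by
        intro k
        have h2 : (prodEquiv H (c, k))⁻¹ • w = (k⁻¹ : H) • (c.out⁻¹ • w) := by
          rw [prodEquiv_apply, mul_inv_rev, mul_smul]
          rfl
        rw [h2]
        congr 1
        exact hinv _ (k⁻¹ : H).2 _
      simp_rw [h5]
      have h6 := (Complex.hasSum_ofReal.mpr (hχH.sum_inv (c.out⁻¹ • w))).mul_right
        (f (c.out⁻¹ • w))
      rw [Complex.ofReal_one, one_mul] at h6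
      exact h6
    have h7 := h3.prod_fiberwise h4
    rw [← h7.tsum_eq] at h3
    exact h3
  exact (prodEquiv H).hasSum_iff.mp h2

variable {μ : Measure X} [Countable Γ] [MeasurableConstSMul Γ X] [SMulInvariantMeasure Γ X μ]

/-- **Unfolding**, extended nonnegative values. -/
theorem lunfold (H : Subgroup Γ) {χ χH : X → ℝ} (hχ : Cut Γ χ) (hχH : Cut H χH)
    {f : X → ℝ≥0∞} (hf : Measurable f) (hinv : ∀ k ∈ H, ∀ w, f (k • w) = f w) :
    ∫⁻ w, ENNReal.ofReal (χ w) * ∑' c : Γ ⧸ H, f (c.out⁻¹ • w) ∂μ =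
      ∫⁻ w, ENNReal.ofReal (χH w) * f w ∂μ := by
  have hm : ∀ g : Γ, Measurable fun w : X => g • w := fun g => measurable_const_smul g
  calc ∫⁻ w, ENNReal.ofReal (χ w) * ∑' c : Γ ⧸ H, f (c.out⁻¹ • w) ∂μ
      = ∫⁻ w, ∑' g : Γ, ENNReal.ofReal (χ w) *
          (ENNReal.ofReal (χH (g⁻¹ • w)) * f (g⁻¹ • w)) ∂μ := by
        refine lintegral_congr fun w => ?_
        rw [ENNReal.tsum_mul_left, tsum_fibre H hχH hinv]
    _ = ∑' g : Γ, ∫⁻ w, ENNReal.ofReal (χ w) *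
          (ENNReal.ofReal (χH (g⁻¹ • w)) * f (g⁻¹ • w)) ∂μ := by
        refine lintegral_tsum fun g => ?_
        exact (hχ.meas.ennreal_ofReal.mul ((hχH.meas.ennreal_ofReal.comp (hm g⁻¹)).mul
          (hf.comp (hm g⁻¹)))).aemeasurable
    _ = ∑' g : Γ, ∫⁻ w, ENNReal.ofReal (χ (g • w)) *
          (ENNReal.ofReal (χH w) * f w) ∂μ := by
        refine tsum_congr fun g => ?_
        have h1 : Measurable fun w => ENNReal.ofReal (χ w) *
            (ENNReal.ofReal (χH (g⁻¹ • w)) * f (g⁻¹ • w)) :=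
          hχ.meas.ennreal_ofReal.mul ((hχH.meas.ennreal_ofReal.comp (hm g⁻¹)).mul
            (hf.comp (hm g⁻¹)))
        rw [← (measurePreserving_smul g μ).lintegral_comp h1]
        simp only [inv_smul_smul]
    _ = ∫⁻ w, ∑' g : Γ, ENNReal.ofReal (χ (g • w)) *
          (ENNReal.ofReal (χH w) * f w) ∂μ := by
        refine (lintegral_tsum fun g => ?_).symm
        exact ((hχ.meas.ennreal_ofReal.comp (hm g)).mul
          (hχH.meas.ennreal_ofReal.mul hf)).aemeasurable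
    _ = ∫⁻ w, ENNReal.ofReal (χH w) * f w ∂μ := by
        refine lintegral_congr fun w => ?_
        rw [ENNReal.tsum_mul_right, hχ.tsum_ofReal, one_mul]

theorem enorm_ofReal_mul {a : ℝ} (ha : 0 ≤ a) (z : ℂ) :
    ‖(a : ℂ) * z‖ₑ = ENNReal.ofReal a * ‖z‖ₑ := by
  rw [enorm_mul]
  congr 1
  rw [← ofReal_norm, Complex.norm_real, Real.norm_of_nonneg ha]

/-- **Unfolding**, complex values. -/
theorem unfold (H : Subgroup Γ) {χ χH : X → ℝ} (hχ : Cut Γ χ) (hχH : Cut H χH)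
    {f : X → ℂ} (hf : Measurable f) (hinv : ∀ k ∈ H, ∀ w, f (k • w) = f w)
    (hint : ∫⁻ w, ENNReal.ofReal (χH w) * ‖f w‖ₑ ∂μ ≠ ∞) :
    ∫ w, (χ w : ℂ) * ∑' c : Γ ⧸ H, f (c.out⁻¹ • w) ∂μ = ∫ w, (χH w : ℂ) * f w ∂μ := by
  have hm : ∀ g : Γ, Measurable fun w : X => g • w := fun g => measurable_const_smul g
  have hcm : Measurable fun w : X => (χ w : ℂ) := Complex.measurable_ofReal.comp hχ.meas
  have hcHm : Measurable fun w : X => (χH w : ℂ) := Complex.measurable_ofReal.comp hχH.meas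
  have hl := lunfold (μ := μ) H hχ hχH (f := fun w => ‖f w‖ₑ) hf.enorm
    (fun k hk w => by rw [hinv k hk])
  -- the double family
  have hG : ∀ g : Γ, Measurable fun w : X => (χ w : ℂ) *
      ((χH (g⁻¹ • w) : ℂ) * f (g⁻¹ • w)) := fun g =>
    hcm.mul ((hcHm.comp (hm g⁻¹)).mul (hf.comp (hm g⁻¹)))
  have hG' : ∀ g : Γ, Measurable fun w : X => (χ (g • w) : ℂ) * ((χH w : ℂ) * f w) := fun g =>
    (hcm.comp (hm g)).mul (hcHm.mul hf)
  have hnorm : ∑' g : Γ, ∫⁻ w, ‖(χ w : ℂ) * ((χH (g⁻¹ • w) : ℂ) * f (g⁻¹ • w))‖ₑ ∂μ ≠ ∞ := by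
    rw [← lintegral_tsum fun g => (hG g).enorm.aemeasurable]
    have h1 : ∀ w, ∑' g : Γ, ‖(χ w : ℂ) * ((χH (g⁻¹ • w) : ℂ) * f (g⁻¹ • w))‖ₑ =
        ENNReal.ofReal (χ w) * ∑' c : Γ ⧸ H, ‖f (c.out⁻¹ • w)‖ₑ := by
      intro w
      rw [← tsum_fibre H hχH (f := fun w => ‖f w‖ₑ) (fun k hk w => by rw [hinv k hk]) w,
        ← ENNReal.tsum_mul_left]
      refine tsum_congr fun g => ?_
      rw [enorm_ofReal_mul (hχ.nonneg w), enorm_ofReal_mul (hχH.nonneg _)]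
    simp_rw [h1]
    rw [hl]
    exact hint
  have hnorm' : ∑' g : Γ, ∫⁻ w, ‖(χ (g • w) : ℂ) * ((χH w : ℂ) * f w)‖ₑ ∂μ ≠ ∞ := by
    rw [← lintegral_tsum fun g => (hG' g).enorm.aemeasurable]
    have h1 : ∀ w, ∑' g : Γ, ‖(χ (g • w) : ℂ) * ((χH w : ℂ) * f w)‖ₑ =
        ENNReal.ofReal (χH w) * ‖f w‖ₑ := by
      intro w
      have h2 : ∀ g : Γ, ‖(χ (g • w) : ℂ) * ((χH w : ℂ) * f w)‖ₑ =
          ENNReal.ofReal (χ (g • w)) * (ENNReal.ofReal (χH w) * ‖f w‖ₑ) := by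
        intro g
        rw [enorm_ofReal_mul (hχ.nonneg _), enorm_ofReal_mul (hχH.nonneg _)]
      simp_rw [h2]
      rw [ENNReal.tsum_mul_right, hχ.tsum_ofReal, one_mul]
    simp_rw [h1]
    exact hint
  have hfin : ∀ᵐ w ∂μ, ENNReal.ofReal (χ w) * ∑' c : Γ ⧸ H, ‖f (c.out⁻¹ • w)‖ₑ < ∞ := by
    have h2 : ∫⁻ w, ENNReal.ofReal (χ w) * ∑' c : Γ ⧸ H, ‖f (c.out⁻¹ • w)‖ₑ ∂μ ≠ ∞ := by
      rw [hl]; exact hint
    have : Countable (Γ ⧸ H) := Function.Surjective.countable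
      (f := fun g : Γ => (g : Γ ⧸ H)) QuotientGroup.mk_surjective
    refine ae_lt_top ?_ h2
    refine hχ.meas.ennreal_ofReal.mul (Measurable.tsum fun c => ?_)
    exact hf.enorm.comp (hm _)
  calc ∫ w, (χ w : ℂ) * ∑' c : Γ ⧸ H, f (c.out⁻¹ • w) ∂μ
      = ∫ w, ∑' g : Γ, (χ w : ℂ) * ((χH (g⁻¹ • w) : ℂ) * f (g⁻¹ • w)) ∂μ := by
        refine integral_congr_ae ?_
        filter_upwards [hfin] with w hw
        by_cases h0 : χ w = 0
        · simp [h0]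
        · rw [tsum_mul_left]
          congr 1
          refine (hasSum_fibre H hχH hinv w ?_).tsum_eq.symm
          intro htop
          rw [htop, ENNReal.mul_top] at hw
          · exact lt_irrefl _ hw
          · rw [Ne, ENNReal.ofReal_eq_zero, not_le]
            exact lt_of_le_of_ne (hχ.nonneg w) (Ne.symm h0)
    _ = ∑' g : Γ, ∫ w, (χ w : ℂ) * ((χH (g⁻¹ • w) : ℂ) * f (g⁻¹ • w)) ∂μ :=
        integral_tsum (fun g => (hG g).aestronglyMeasurable) hnorm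
    _ = ∑' g : Γ, ∫ w, (χ (g • w) : ℂ) * ((χH w : ℂ) * f w) ∂μ := by
        refine tsum_congr fun g => ?_
        have h1 := (measurePreserving_smul g μ).integral_comp
          (MeasurableEquiv.smul g).measurableEmbedding
          (fun w => (χ w : ℂ) * ((χH (g⁻¹ • w) : ℂ) * f (g⁻¹ • w)))
        rw [← h1]
        simp only [inv_smul_smul]
    _ = ∫ w, ∑' g : Γ, (χ (g • w) : ℂ) * ((χH w : ℂ) * f w) ∂μ :=
        (integral_tsum (fun g => (hG' g).aestronglyMeasurable) hnorm').symm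
    _ = ∫ w, (χH w : ℂ) * f w ∂μ := by
        refine integral_congr_ae (Filter.Eventually.of_forall fun w => ?_)
        simp only
        rw [tsum_mul_right, (Complex.hasSum_ofReal.mpr (hχ.sum w)).tsum_eq, Complex.ofReal_one,
          one_mul]

end Fermat.Agent.H81.Unf
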