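import Fermat.Agent.H81T5b
import Fermat.Agent.H81T5u
import Fermat.Agent.H90TCoord

/-!
# The coefficient of the theta lift at `1/3` (S47, T5a)

`N > 0`, `χ` a cut-off function of `Gam N`, `χZ` a cut-off function of `Γ₀(N)` acting on `H3`:
`∫ χ F ∑_{qL x = 1/3} phiN x G(pL x w) = 2 ∫ χZ F G(Im z / (√3 y))` for even `G`.
-/

set_option autoImplicit false
set_option linter.unusedSectionVars false

noncomputable section

open Matrix MeasureTheory CongruenceSubgroup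
open scoped ComplexConjugate Real ENNReal

namespace Fermat.Agent.S47T.Orb

open Fermat.Agent.H90T Fermat.Agent.H81.T5 Fermat.Agent.H81.Unf

theorem toGLC_ofInt (k : SpecialLinearGroup (Fin 2) ℤ) : toGLC (ofInt Eis k) = toC k := by
  apply Units.ext
  ext i j
  show (((k i j : ℤ) : Eis) : ℂ) = ((k i j : ℤ) : ℂ)
  simp

variable {N : ℕ}

/-- the element of `SL₂(ℤ[ω])` -/
def slOf (g : Gam N) : SpecialLinearGroup (Fin 2) Eis := (exists_of_mem_Gam g.2).choose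

theorem slOf_dvd (g : Gam N) : ((N : ℤ) : Eis) ∣ (slOf g).1 1 0 :=
  (exists_of_mem_Gam g.2).choose_spec.1

theorem toGLC_slOf (g : Gam N) : toGLC (slOf g) = g := (exists_of_mem_Gam g.2).choose_spec.2

theorem toC_mem (k : Gamma0 N) : toC k ∈ Gam N := by
  rw [← toGLC_ofInt]
  apply toGLC_mem
  have h : (N : ℤ) ∣ (k : SpecialLinearGroup (Fin 2) ℤ) 1 0 := by
    have := k.2
    rw [Gamma0_mem] at this
    exact (ZMod.intCast_zmod_eq_zero_iff_dvd _ N).mp this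
  obtain ⟨c, hc⟩ := h
  refine ⟨(c : Eis), ?_⟩
  show (((k : SpecialLinearGroup (Fin 2) ℤ) 1 0 : ℤ) : Eis) = _
  rw [hc]
  push_cast
  rfl

/-- `Γ₀(N) → Gam N` -/
def jZ (N : ℕ) : Gamma0 N →* Gam N where
  toFun k := ⟨toC k, toC_mem k⟩
  map_one' := Subtype.ext (by simp)
  map_mul' k k' := Subtype.ext (by simp)

theorem coe_jZ (k : Gamma0 N) : ((jZ N k : Gam N) : GL (Fin 2) ℂ) = toC k := rfl

theorem jZ_injective : Function.Injective (jZ N) := by
  intro k k' h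
  have h1 : toC (k : SpecialLinearGroup (Fin 2) ℤ) = toC k' := congrArg Subtype.val h
  apply Subtype.ext
  ext i j
  have h2 := congrArg (fun g : GL (Fin 2) ℂ => g i j) h1
  simp only [toC_apply] at h2
  exact_mod_cast h2

/-- the subgroup `Γ₀(N)` of `Gam N` -/
def HZ (N : ℕ) : Subgroup (Gam N) := (jZ N).range

theorem slOf_smul_x0_eq_iff (g g' : Gam N) :
    slOf g • x0 = slOf g' • x0 ↔ g⁻¹ * g' ∈ HZ N := by
  have h1 : slOf g • x0 = slOf g' • x0 ↔ tw conjE (slOf g) (H81.T5.J Eis) =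
      tw conjE (slOf g') (H81.T5.J Eis) := by
    rw [← Ymat_x0, ← Ymat_smul, ← Ymat_smul]
    exact Ymat_injective.eq_iff.symm
  rw [h1, tw_J_eq_iff eisModel (slOf_dvd g) (slOf_dvd g')]
  constructor
  · rintro ⟨k, hk, hg'⟩
    have hk0 : k ∈ Gamma0 N := by
      rw [Gamma0_mem]
      exact (ZMod.intCast_zmod_eq_zero_iff_dvd _ N).mpr hk
    refine ⟨⟨k, hk0⟩, ?_⟩
    apply Subtype.ext
    show toC k = (g : GL (Fin 2) ℂ)⁻¹ * g'
    rw [← toGLC_slOf g, ← toGLC_slOf g', hg', map_mul, inv_mul_cancel_left, toGLC_ofInt]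
  · rintro ⟨k, hk⟩
    refine ⟨k, ?_, ?_⟩
    · have := k.2
      rw [Gamma0_mem] at this
      exact (ZMod.intCast_zmod_eq_zero_iff_dvd _ N).mp this
    · apply toGLC_injective
      rw [map_mul, toGLC_slOf, toGLC_slOf, toGLC_ofInt]
      have h2 : toC k = (g : GL (Fin 2) ℂ)⁻¹ * g' := congrArg Subtype.val hk
      rw [h2, mul_inv_cancel_left]

/-- The parametrisation of the vectors of norm `1/3`. -/
def eL (p : (Gam N ⧸ HZ N) × Bool) : Lat :=
  if p.2 then slOf p.1.out • x0 else -(slOf p.1.out • x0)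

theorem eL_injective : Function.Injective (eL (N := N)) := by
  have hne : ∀ g g' : Gam N, slOf g • x0 ≠ -(slOf g' • x0) := by
    intro g g' h
    have h1 := congrArg Ymat h
    rw [Ymat_neg, Ymat_smul, Ymat_smul, Ymat_x0] at h1
    exact tw_J_ne_neg' eisModel _ _ h1
  have hq : ∀ c c' : Gam N ⧸ HZ N, slOf c.out • x0 = slOf c'.out • x0 → c = c' := by
    intro c c' h
    rw [slOf_smul_x0_eq_iff] at h
    have := QuotientGroup.eq.mpr h
    rwa [QuotientGroup.out_eq', QuotientGroup.out_eq'] at this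
  rintro ⟨c, s⟩ ⟨c', s'⟩ h
  rcases s <;> rcases s' <;> simp only [eL] at h
  · exact Prod.ext (hq c c' (neg_injective h)) rfl
  · exact absurd h.symm (hne _ _)
  · exact absurd h (hne _ _)
  · exact Prod.ext (hq c c' h) rfl

theorem qL_eL (p : (Gam N ⧸ HZ N) × Bool) : qL (eL p) = 1 / 3 := by
  have h0 : qL x0 = 1 / 3 := by
    rw [qL_eq_iff, Ymat_x0, det_J]
  rw [eL]
  split_ifs
  · rw [qL_smul, h0]
  · rw [qL_neg, qL_smul, h0]

theorem dvd_of_smul (g : Gam N) : (N : ℤ) ∣ (slOf g • x0).2.2 := by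
  have h1 := (one_orbit_conv eisModel (n := ((N : ℤ) : Eis)) (by simp) (slOf_dvd g)).2.2
  rw [← Ymat_x0, ← Ymat_smul, ← sq3E_eq] at h1
  have h2 : Ymat (slOf g • x0) 1 1 = sq3E * ((slOf g • x0).2.2 : Eis) := rfl
  rw [h2, mul_comm ((N : ℤ) : Eis)] at h1
  have := eis_domain eisModel
  exact eisModel.int_dvd ((mul_dvd_mul_iff_left sq3E_ne_zero).mp h1)

theorem isCoprime_of_dvd {x : Lat} (hq : qL x = 1 / 3) (hd : (N : ℤ) ∣ x.2.2) :
    IsCoprime x.2.1 (N : Eis) := by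
  obtain ⟨d, hd⟩ := hd
  rw [qL_eq_iff, det_Ymat, hd] at hq
  refine ⟨conjE x.2.1, -3 * (x.1 : Eis) * d, ?_⟩
  rw [← hq]
  push_cast
  ring

theorem phiN_eq_one {x : Lat} (hq : qL x = 1 / 3) (hd : (N : ℤ) ∣ x.2.2) : phiN N x = 1 := by
  rw [phiN, if_pos ⟨hd, isCoprime_of_dvd hq hd⟩]

theorem phiN_eL (p : (Gam N ⧸ HZ N) × Bool) : phiN N (eL p) = 1 := by
  refine phiN_eq_one (qL_eL p) ?_
  rw [eL]
  split_ifs
  · exact dvd_of_smul _
  · exact (dvd_of_smul p.1.out).neg_right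

/-- every vector of norm `1/3` in the support of `phiN` is parametrised -/
theorem exists_eL (hN : N ≠ 0) {x : Lat} (hq : qL x = 1 / 3) (hx : phiN N x ≠ 0) :
    ∃ p, eL (N := N) p = x := by
  have hd : (N : ℤ) ∣ x.2.2 := by
    by_contra h
    apply hx
    rw [phiN, if_neg fun h' => h h'.1]
  have h1 : ((N : ℤ) : Eis) * (1 + 2 * omE) ∣ Ymat x 1 1 := by
    rw [← sq3E_eq, mul_comm]
    obtain ⟨d, hd⟩ := hd
    refine mul_dvd_mul_left sq3E ⟨(d : Eis), ?_⟩
    rw [hd]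
    push_cast
    rfl
  obtain ⟨s, hs, hor⟩ := one_orbit eisModel hN (mst_Ymat x) ((qL_eq_iff x).mp hq) h1
  let g : Gam N := ⟨toGLC s, toGLC_mem hs⟩
  have hg : slOf g = s := toGLC_injective (toGLC_slOf g)
  have hc : slOf (g : Gam N ⧸ HZ N).out • x0 = s • x0 := by
    rw [← hg, slOf_smul_x0_eq_iff]
    exact QuotientGroup.eq.mp (QuotientGroup.out_eq' _)
  rcases hor with h | h
  · refine ⟨((g : Gam N ⧸ HZ N), true), ?_⟩
    rw [eL, if_pos rfl, hc]
    apply Ymat_injective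
    rw [Ymat_smul, Ymat_x0, h]
  · refine ⟨((g : Gam N ⧸ HZ N), false), ?_⟩
    rw [eL, if_neg (by simp), hc]
    apply Ymat_injective
    rw [Ymat_neg, Ymat_smul, Ymat_x0, h]

/-- the summand, supported on the vectors of norm `1/3` -/
def third (N : ℕ) (G : ℝ → ℂ) (w : H3) (x : Lat) : ℂ :=
  haveI := Classical.propDecidable
  if qL x = 1 / 3 then phiN N x * G (pL x w) else 0

theorem third_support (hN : N ≠ 0) (G : ℝ → ℂ) (w : H3) :
    Function.support (third N G w) ⊆ Set.range (eL (N := N)) := by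
  intro x hx
  rw [Function.mem_support, third] at hx
  by_cases hq : qL x = 1 / 3
  · rw [if_pos hq] at hx
    obtain ⟨p, hp⟩ := exists_eL hN hq (left_ne_zero_of_mul hx)
    exact ⟨p, hp⟩
  · rw [if_neg hq] at hx
    exact absurd rfl hx

theorem pL_eL {G : ℝ → ℂ} (hG : ∀ t, G (-t) = G t) (p : (Gam N ⧸ HZ N) × Bool) (w : H3) :
    G (pL (eL p) w) = G (pL x0 ((p.1.out)⁻¹ • w)) := by
  have h1 : pL (slOf p.1.out • x0) w = pL x0 ((p.1.out)⁻¹ • w) := by
    have h2 := pL_smul (slOf p.1.out) x0 ((p.1.out)⁻¹ • w)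
    rw [toGLC_slOf] at h2
    rw [← h2]
    congr 1
    show w = (p.1.out : GL (Fin 2) ℂ) • (((p.1.out)⁻¹ : Gam N) : GL (Fin 2) ℂ) • w
    rw [InvMemClass.coe_inv, smul_inv_smul]
  rw [eL]
  split_ifs
  · rw [h1]
  · rw [pL_neg, hG, h1]

theorem third_eL {G : ℝ → ℂ} (hG : ∀ t, G (-t) = G t) (p : (Gam N ⧸ HZ N) × Bool) (w : H3) :
    third N G w (eL p) = G (pL x0 ((p.1.out)⁻¹ • w)) := by
  rw [third, if_pos (qL_eL p), phiN_eL, one_mul, pL_eL hG]

theorem tsum_enorm_third (hN : N ≠ 0) {G : ℝ → ℂ} (hG : ∀ t, G (-t) = G t) (w : H3) :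
    ∑' x : Lat, ‖third N G w x‖ₑ =
      2 * ∑' c : Gam N ⧸ HZ N, ‖G (pL x0 (c.out⁻¹ • w))‖ₑ := by
  rw [← eL_injective.tsum_eq (f := fun x => ‖third N G w x‖ₑ)
    ((Function.support_subset_iff'.mpr fun x hx => by
      have : third N G w x = 0 := by
        by_contra h
        exact hx (third_support hN G w h)
      rw [this, enorm_zero]))]
  simp_rw [third_eL hG]
  rw [ENNReal.tsum_prod']
  rw [← ENNReal.tsum_mul_left]
  refine tsum_congr fun c => ?_
  rw [tsum_bool, two_mul]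

theorem tsum_third (hN : N ≠ 0) {G : ℝ → ℂ} (hG : ∀ t, G (-t) = G t) (w : H3)
    (hs : ∑' c : Gam N ⧸ HZ N, ‖G (pL x0 (c.out⁻¹ • w))‖ₑ ≠ ∞) :
    ∑' x : Lat, third N G w x = 2 * ∑' c : Gam N ⧸ HZ N, G (pL x0 (c.out⁻¹ • w)) := by
  rw [← eL_injective.tsum_eq (third_support hN G w)]
  simp_rw [third_eL hG]
  have h1 : Summable fun c : Gam N ⧸ HZ N => G (pL x0 (c.out⁻¹ • w)) :=
    Summable.of_norm (tsum_enorm_ne_top_iff_summable_norm.mp hs)
  have h2 : Summable fun p : (Gam N ⧸ HZ N) × Bool => G (pL x0 (p.1.out⁻¹ • w)) := by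
    apply Summable.of_norm
    rw [← tsum_enorm_ne_top_iff_summable_norm, ENNReal.tsum_prod']
    have h3 : ∀ c : Gam N ⧸ HZ N, ∑' _ : Bool, ‖G (pL x0 (c.out⁻¹ • w))‖ₑ =
        2 * ‖G (pL x0 (c.out⁻¹ • w))‖ₑ := fun c => by rw [tsum_bool, two_mul]
    simp_rw [h3]
    rw [ENNReal.tsum_mul_left]
    exact ENNReal.mul_ne_top (by simp) hs
  rw [h2.tsum_prod' (fun c => by simp [Summable.of_finite]), ← tsum_mul_left]
  refine tsum_congr fun c => ?_
  rw [tsum_bool, two_mul]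

end Fermat.Agent.S47T.Orb
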