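import Fermat.Agent.H81T5c
import Fermat.Agent.H8T3
import Fermat.Agent.H47RCong

/-!
# The coefficient of the theta lift at `1/3`, final form (S47, T5a)

* `unfold_third` : `∫ χ F ∑_{qL x = 1/3} phiN x G(pL x w) = 2 ∫ χZ F G(pL x0 w)`;
* `coef_zero` : if the theta lift of `F` vanishes identically then
  `∫ χZ(w) F(w) exp(-4 π v (Im z)² / (3 y²)) dw = 0` for all `v > 0`.
-/

set_option autoImplicit false
set_option linter.unusedSectionVars false

noncomputable section

open Matrix MeasureTheory CongruenceSubgroup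
open scoped ComplexConjugate Real ENNReal

namespace Fermat.Agent.S47T.Orb

open Fermat.Agent.H90T Fermat.Agent.H81.T5 Fermat.Agent.H81.Unf Fermat.Agent.H8T
open Fermat.Agent.H47.Red

instance instMeasConst : MeasurableConstSMul (GL (Fin 2) ℂ) H3 :=
  ⟨fun g => (H3.continuous_smul_const g).measurable⟩

variable {N : ℕ}

theorem cut_of_isCut {χ : H3 → ℝ} (hχ : IsCut (Gam N) χ) : Cut (Gam N) χ :=
  ⟨hχ.meas, hχ.nonneg, hχ.sum⟩

theorem cut_HZ {χZ : H3 → ℝ} (hm : Measurable χZ) (h0 : ∀ w, 0 ≤ χZ w)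
    (hs : ∀ w : H3, HasSum (fun k : Gamma0 N => χZ (toC k • w)) 1) : Cut (HZ N) χZ := by
  refine ⟨hm, h0, fun w => ?_⟩
  have h1 := (MonoidHom.ofInjective (jZ_injective (N := N))).toEquiv.hasSum_iff
    (f := fun g : (jZ N).range => χZ (g • w)) (a := 1)
  exact h1.mp (hs w)

theorem measurable_pL (x : Lat) : Measurable fun w : H3 => pL x w := by
  unfold pL pair
  refine Measurable.div ?_ (measurable_const.mul H3.measurable_y)
  refine Measurable.add (measurable_const.sub (measurable_const.mul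
    (Complex.measurable_re.comp (measurable_const.mul
      (Complex.continuous_conj.measurable.comp H3.measurable_z))))) ?_
  exact measurable_const.mul ((Complex.continuous_normSq.measurable.comp H3.measurable_z).add
    (H3.measurable_y.pow_const 2))

/-- The vectors of norm `1/3`: unfolding. -/
theorem unfold_third (hN : N ≠ 0) {χ χZ : H3 → ℝ} (hχ : IsCut (Gam N) χ) (hm : Measurable χZ)
    (h0 : ∀ w, 0 ≤ χZ w) (hs : ∀ w : H3, HasSum (fun k : Gamma0 N => χZ (toC k • w)) 1)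
    {F : H3 → ℂ} (hF : Measurable F) (hinv : ∀ g ∈ Gam N, ∀ w, F (g • w) = F w)
    {G : ℝ → ℂ} (hGm : Measurable G) (hG : ∀ t, G (-t) = G t)
    (hfin : ∫⁻ w, ENNReal.ofReal (χ w) * (‖F w‖ₑ * ∑' x : Lat, ‖third N G w x‖ₑ) ≠ ∞) :
    ∫⁻ w, ENNReal.ofReal (χZ w) * ‖F w * G (pL x0 w)‖ₑ ≠ ∞ ∧
      ∫ w, (χ w : ℂ) * (F w * ∑' x : Lat, third N G w x) =
        2 * ∫ w, (χZ w : ℂ) * (F w * G (pL x0 w)) := by
  have hcut := cut_of_isCut hχ
  have hcutZ := cut_HZ hm h0 hs
  have hfm : Measurable fun w : H3 => F w * G (pL x0 w) := hF.mul (hGm.comp (measurable_pL x0))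
  have hfinv : ∀ k ∈ HZ N, ∀ w : H3, F (k • w) * G (pL x0 (k • w)) = F w * G (pL x0 w) := by
    rintro k hk w
    have e1 : F (k • w) = F w := hinv k k.2 w
    have e2 : pL x0 (k • w) = pL x0 w := by
      have h1 : slOf (1 : Gam N) • x0 = slOf k • x0 := by
        rw [slOf_smul_x0_eq_iff, inv_one, one_mul]
        exact hk
      have h2 : slOf (1 : Gam N) = 1 := toGLC_injective (by rw [toGLC_slOf, map_one]; rfl)
      rw [h2, one_smul] at h1
      have h3 := pL_smul (slOf k) x0 w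
      rw [← h1, toGLC_slOf] at h3
      exact h3
    rw [e1, e2]
  have hFc : ∀ (c : Gam N ⧸ HZ N) (w : H3), F (c.out⁻¹ • w) = F w := fun c w =>
    hinv _ (c.out⁻¹ : Gam N).2 w
  have hl := lunfold (μ := (volume : Measure H3)) (HZ N) hcut hcutZ
    (f := fun w => ‖F w * G (pL x0 w)‖ₑ) hfm.enorm (fun k hk w => by rw [hfinv k hk w])
  simp only [hFc, enorm_mul] at hl
  have hl2 : ∫⁻ w, ENNReal.ofReal (χ w) * (‖F w‖ₑ * ∑' x : Lat, ‖third N G w x‖ₑ) =
      2 * ∫⁻ w, ENNReal.ofReal (χZ w) * (‖F w‖ₑ * ‖G (pL x0 w)‖ₑ) := by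
    rw [← hl, ← lintegral_const_mul' 2 _ (by simp)]
    refine lintegral_congr fun w => ?_
    rw [tsum_enorm_third hN hG, ENNReal.tsum_mul_left]
    ring
  have hfinZ : ∫⁻ w, ENNReal.ofReal (χZ w) * ‖F w * G (pL x0 w)‖ₑ ≠ ∞ := by
    simp only [enorm_mul]
    rw [hl2] at hfin
    intro h
    apply hfin
    rw [h]
    simp
  refine ⟨hfinZ, ?_⟩
  have hu := unfold (μ := (volume : Measure H3)) (HZ N) hcut hcutZ hfm hfinv hfinZ
  rw [← hu, ← integral_const_mul]
  refine integral_congr_ae ?_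
  -- almost everywhere the sum is finite where it matters
  have hcount : Countable (Gam N ⧸ HZ N) := Function.Surjective.countable
    (f := fun g : Gam N => (g : Gam N ⧸ HZ N)) QuotientGroup.mk_surjective
  have hae : ∀ᵐ w : H3, ENNReal.ofReal (χ w) *
      ∑' c : Gam N ⧸ HZ N, (‖F w‖ₑ * ‖G (pL x0 (c.out⁻¹ • w))‖ₑ) < ∞ := by
    refine ae_lt_top ?_ ?_
    · refine hχ.meas.ennreal_ofReal.mul (Measurable.tsum fun c => ?_)
      exact hF.enorm.mul ((hGm.comp ((measurable_pL x0).comp (measurable_const_smul _))).enorm)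
    · rw [hl]
      simpa only [enorm_mul] using hfinZ
  filter_upwards [hae] with w hw
  by_cases hχ0 : χ w = 0
  · simp [hχ0]
  by_cases hF0 : F w = 0
  · simp only [hFc, hF0, zero_mul, tsum_zero, mul_zero]
  have hsum : ∑' c : Gam N ⧸ HZ N, ‖G (pL x0 (c.out⁻¹ • w))‖ₑ ≠ ∞ := by
    intro h
    rw [ENNReal.tsum_mul_left, h, ENNReal.mul_top (by simpa using hF0), ENNReal.mul_top] at hw
    · exact lt_irrefl _ hw
    · rw [Ne, ENNReal.ofReal_eq_zero, not_le]
      exact lt_of_le_of_ne (hχ.nonneg w) (Ne.symm hχ0)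
  rw [tsum_third hN hG w hsum]
  simp only [hFc]
  rw [tsum_mul_left]
  ring

end Fermat.Agent.S47T.Orb
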