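import Mathlib
import Fermat.Agent.H70Reduced
import Fermat.Prelude.Thm_Algebra_finite_maximalSpectrum_and_bijective_localization_of_module_finite

set_option autoImplicit false
set_option linter.style.haveILetI false

/-!
# The local factor of a Hecke algebra over a complete discrete valuation ring
-/

namespace Fermat.Agent.H81

open IsLocalRing TensorProduct

/-- the group algebra of a finite 2-group in characteristic 2 is local -/
theorem isUnit_of_aug {k G : Type*} [Field k] [CharP k 2] [CommGroup G] {n : ℕ}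
    (hG : ∀ g : G, g ^ (2 ^ n) = 1) (aug : MonoidAlgebra k G →ₐ[k] k)
    (haug : ∀ g, aug (MonoidAlgebra.single g 1) = 1) (b : MonoidAlgebra k G) (hb : aug b ≠ 0) :
    IsUnit b := by
  haveI : CharP (MonoidAlgebra k G) 2 :=
    charP_of_injective_algebraMap (algebraMap k (MonoidAlgebra k G)).injective 2
  haveI : ExpChar (MonoidAlgebra k G) 2 := ExpChar.prime Nat.prime_two
  haveI : ExpChar k 2 := ExpChar.prime Nat.prime_two
  have key : ∀ x : MonoidAlgebra k G,
      x ^ (2 ^ n) = algebraMap k (MonoidAlgebra k G) (aug x ^ (2 ^ n)) := by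
    intro x
    induction x using MonoidAlgebra.induction_on with
    | of g =>
      rw [MonoidAlgebra.of_apply, haug, one_pow, map_one, MonoidAlgebra.single_pow, hG, one_pow]
      rfl
    | add x y hx hy =>
      rw [add_pow_expChar_pow, hx, hy, map_add, add_pow_expChar_pow, map_add]
    | smul c x hx =>
      rw [smul_pow, hx, map_smul, smul_eq_mul, mul_pow, map_mul, Algebra.smul_def]
  have h1 : IsUnit (b ^ (2 ^ n)) := by
    rw [key]
    exact (IsUnit.mk0 _ (pow_ne_zero _ hb)).map _
  exact (isUnit_pow_iff (pow_ne_zero n two_ne_zero)).mp h1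

theorem exists_local_factor {O : Type} [CommRing O] [IsDomain O] [IsDiscreteValuationRing O]
    [CharZero O] [IsAdicComplete (maximalIdeal O) O]
    {A : Type} [CommRing A] [Module.Finite ℤ A] [Module.Free ℤ A] [IsReduced A]
    {B : Type} [CommRing B] [Algebra (ResidueField O) B]
    (aug : B →ₐ[ResidueField O] ResidueField O) (haug : ∀ b, aug b ≠ 0 → IsUnit b)
    (Ψ : A →+* B) :
    ∃ (T : Type) (_ : CommRing T) (_ : Algebra O T), Module.Finite O T ∧ Module.Free O T ∧
      IsLocalRing T ∧ IsReduced T ∧ ∃ (j : A →+* T) (π : T →+* B),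
        Algebra.adjoin O (Set.range j) = ⊤ ∧
        (∀ a : O, π (algebraMap O T a) = algebraMap _ B (residue O a)) ∧ ∀ x, π (j x) = Ψ x := by
  classical
  let R := O ⊗[ℤ] A
  let f₁ : O →ₐ[ℤ] B := ((algebraMap (ResidueField O) B).comp (residue O)).toIntAlgHom
  let ΨO : R →ₐ[ℤ] B := Algebra.TensorProduct.productMap f₁ Ψ.toIntAlgHom
  have hΨO : ∀ a x, ΨO (a ⊗ₜ x) = algebraMap _ B (residue O a) * Ψ x := fun a x =>
    Algebra.TensorProduct.productMap_apply_tmul _ _ _ _
  let θ : R →+* ResidueField O := (aug : B →+* ResidueField O).comp (ΨO : R →+* B)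
  have hθs : Function.Surjective θ := by
    intro x
    obtain ⟨a, rfl⟩ := residue_surjective (R := O) x
    refine ⟨a ⊗ₜ 1, ?_⟩
    change aug (ΨO (a ⊗ₜ 1)) = _
    rw [hΨO, map_one, mul_one, AlgHom.commutes]
    rfl
  let I : MaximalSpectrum R := ⟨RingHom.ker θ, RingHom.ker_isMaximal_of_surjective θ hθs⟩
  haveI hIp : I.asIdeal.IsPrime := I.isMaximal.isPrime
  obtain ⟨-, hbij, hfin, -⟩ :=
    Algebra.finite_maximalSpectrum_and_bijective_localization_of_module_finite (𝒪 := O) R
  let T := Localization.AtPrime I.asIdeal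
  have hsurj : Function.Surjective (algebraMap R T) := by
    intro t
    obtain ⟨r, hr⟩ := hbij.2 (Pi.single I t)
    refine ⟨r, ?_⟩
    have := congrFun hr I
    rw [Pi.single_eq_same] at this
    exact this
  haveI hTfin : Module.Finite O T := hfin I
  haveI : Module.Flat R T := IsLocalization.flat T I.asIdeal.primeCompl
  haveI : Module.Flat O T := Module.Flat.trans O R T
  haveI hTfree : Module.Free O T :=
    @Module.free_of_flat_of_isLocalRing O T _ _ _ _ hTfin inferInstance
  let j : A →+* T := (algebraMap R T).comp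
    (Algebra.TensorProduct.includeRight : A →ₐ[ℤ] O ⊗[ℤ] A).toRingHom
  have hj : ∀ x, j x = algebraMap R T (1 ⊗ₜ x) := fun x => rfl
  have hadj : Algebra.adjoin O (Set.range j) = ⊤ := by
    rw [eq_top_iff]
    rintro t -
    obtain ⟨r, rfl⟩ := hsurj t
    induction r using TensorProduct.induction_on with
    | zero => rw [map_zero]; exact Subalgebra.zero_mem _
    | add x y hx hy => rw [map_add]; exact Subalgebra.add_mem _ hx hy
    | tmul a x =>
      have h1 : (a ⊗ₜ[ℤ] x : R) = a • ((1 : O) ⊗ₜ[ℤ] x) := by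
        rw [TensorProduct.smul_tmul', smul_eq_mul, mul_one]
      have h2 : algebraMap R T (a ⊗ₜ[ℤ] x) = a • j x := by
        rw [h1, hj, Algebra.smul_def a ((1 : O) ⊗ₜ[ℤ] x : R), map_mul,
          ← IsScalarTower.algebraMap_apply O R T, ← Algebra.smul_def]
      rw [h2]
      exact Subalgebra.smul_mem _ (Algebra.subset_adjoin (Set.mem_range_self x)) _
  haveI : Algebra.IsIntegral ℤ A := Algebra.IsIntegral.of_finite ℤ A
  have hunits : ∀ y : I.asIdeal.primeCompl, IsUnit ((ΨO : R →+* B) y) := by
    intro y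
    exact haug _ (fun h => y.2 (RingHom.mem_ker.mpr h))
  let π : T →+* B := IsLocalization.lift hunits
  have hπ : ∀ r, π (algebraMap R T r) = ΨO r := fun r => IsLocalization.lift_eq hunits r
  refine ⟨T, inferInstance, inferInstance, hTfin, hTfree, inferInstance,
    H70.isReduced_of_adjoin j hadj, j, π, hadj, fun a => ?_, fun x => ?_⟩
  · rw [IsScalarTower.algebraMap_apply O R T, hπ]
    have : algebraMap O R a = a ⊗ₜ 1 := rfl
    rw [this, hΨO, map_one, mul_one]
  · rw [hj, hπ, hΨO, map_one, map_one, one_mul]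

end Fermat.Agent.H81
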