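import Mathlib
import Fermat.Agent.H81TS
import Fermat.Agent.H81Pt
import Fermat.Agent.H61TB
import Fermat.Agent.H46LTDefsTA

set_option autoImplicit false
set_option linter.style.haveILetI false

/-!
# Packaging: from a homomorphism `TT → F₄[C₂ × μ₂^Q]` to `TSide'`
-/

noncomputable section

namespace Fermat.Agent.H81

open IsLocalRing CuspForm ModularFormClass Fermat.Agent.LT Fermat.Agent.H61.TA
open scoped NumberField

/-- `C₂` has exponent a power of 2 -/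
theorem exists_exponent_C2' (K : Type) [Field K] [NumberField K] :
    ∃ n : ℕ, ∀ x : C2' K, x ^ (2 ^ n) = 1 := by
  obtain ⟨n, m, hm, hcard⟩ := Nat.exists_eq_pow_mul_and_not_dvd
    (n := Nat.card (ClassGroup (𝓞 K))) Nat.card_pos.ne' 2 (by norm_num)
  refine ⟨n, fun x => ?_⟩
  obtain ⟨g, rfl⟩ := QuotientGroup.mk_surjective x
  rw [← QuotientGroup.mk_pow, QuotientGroup.eq_one_iff]
  refine Subgroup.subset_closure ?_
  change Odd (orderOf (g ^ 2 ^ n))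
  have h1 : (g ^ 2 ^ n) ^ m = 1 := by
    rw [← pow_mul, ← hcard, pow_card_eq_one']
  have h2 : orderOf (g ^ 2 ^ n) ∣ m := orderOf_dvd_of_pow_eq_one h1
  have h3 : Odd m := Nat.not_even_iff_odd.mp fun h => hm h.two_dvd
  exact Odd.of_dvd_nat h3 h2

theorem exists_exponent_C2Q (K : Type) [Field K] [NumberField K] (Q : Finset ℕ) :
    ∃ n : ℕ, ∀ x : C2Q K Q, x ^ (2 ^ n) = 1 := by
  obtain ⟨n, hn⟩ := exists_exponent_C2' K
  refine ⟨n + 1, fun x => Prod.ext ?_ (funext fun q => ?_)⟩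
  · rw [Prod.pow_fst, pow_succ, pow_mul, hn, one_pow]
    rfl
  · rw [Prod.pow_snd, Pi.pow_apply, pow_succ, mul_comm, pow_mul]
    have : (x.2 q) ^ 2 = 1 := by
      have h : ∀ y : Multiplicative (ZMod 2), y ^ 2 = 1 := by decide
      exact h _
    rw [this, one_pow]
    rfl

/-- The action of `TT` on `X2`. -/
def actX (M : ℕ) [NeZero M] (S V : Set ℕ) : TT M S V →+* Module.End ℂ (X2 M V) :=
  Ideal.Quotient.lift (ann M S (X2 M V))
    { toFun := fun t => (t : Module.End ℂ (CuspForm (CongruenceSubgroup.Gamma0 M) 2)).restrict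
        (heckeAlgebra_mem_X2 t)
      map_one' := rfl
      map_mul' := fun _ _ => rfl
      map_zero' := rfl
      map_add' := fun _ _ => rfl } (fun _ ht => LinearMap.ext fun f => Subtype.ext (ht f f.2))

theorem actX_toTT {M : ℕ} [NeZero M] {S V : Set ℕ} (t : heckeAlgebra M 2 S) (f : X2 M V) :
    ((actX M S V (toTT M S V t) f : X2 M V) : CuspForm (CongruenceSubgroup.Gamma0 M) 2) =
      (t : Module.End ℂ (CuspForm (CongruenceSubgroup.Gamma0 M) 2)) f := rfl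

theorem actX_injective (M : ℕ) [NeZero M] (S V : Set ℕ) :
    Function.Injective (actX M S V) := by
  have key : ∀ x, actX M S V x = 0 → x = 0 := by
    intro x hx
    obtain ⟨t, rfl⟩ := toTT_surjective x
    rw [toTT_eq_zero_iff]
    intro f hf
    have := actX_toTT (V := V) t ⟨f, hf⟩
    rw [hx] at this
    exact this.symm
  intro x y h
  exact sub_eq_zero.mp (key _ (by rw [RingHom.map_sub, h, sub_self]))

/-- points of `TT` are eigenforms -/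
theorem exists_eigenform_TT {M : ℕ} [NeZero M] {S V : Set ℕ} {F : Type*} [Field F]
    [IsAlgClosed F] (φ : TT M S V →+* F) :
    ∃ f ∈ X2 M V, f.IsNormalizedEigenform ∧ ∃ ι : integralClosure ℤ ℂ →+* F,
      (∀ (ℓ : ℕ) (hℓ : ℓ.Prime) (hℓM : ¬ ℓ ∣ M) (hℓS : ℓ ∉ S), ∃ a : integralClosure ℤ ℂ,
        (a : ℂ) = qCoeff f ℓ ∧ ι a = φ (toTT M S V (heckeAlgebra.T hℓ hℓM hℓS))) ∧
      (∀ (q : ℕ) (hq : q.Prime) (hqM : q ∣ M) (hqS : q ∉ S), ∃ a : integralClosure ℤ ℂ,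
        (a : ℂ) = qCoeff f q ∧ ι a = φ (toTT M S V (heckeAlgebra.U hq hqM hqS))) ∧
      ∀ v : ℕ, v.Prime → v ∈ V → v ∣ M → qCoeff f v = 1 ∨ qCoeff f v = -1 := by
  haveI : Algebra.IsIntegral ℤ (TT M S V) := Algebra.IsIntegral.of_finite ℤ _
  obtain ⟨f, hfX, hf, ι, hι⟩ := exists_eigenform_of_point (X2 M V)
    (fun t ht f hf => heckeAlgebra_mem_X2 ⟨t, ht⟩ f hf) (A := TT M S V)
    (fun a => Algebra.IsIntegral.isIntegral a) (actX M S V) (actX_injective M S V)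
    (fun a => by
      obtain ⟨t, rfl⟩ := toTT_surjective a
      exact ⟨t, heckeAlgebra_mono (Set.empty_subset S) t.2, fun g => actX_toTT t g⟩) φ
  have hev := hf.isHeckeEigenvector_H49
  have hf0 : f ≠ 0 := by
    rintro rfl
    have := hf.qCoeff_one
    rw [H49.qCoeff_zero] at this
    exact zero_ne_one this
  refine ⟨f, hfX, hf, ι, fun ℓ hℓ hℓM hℓS => ?_, fun q hq hqM hqS => ?_, fun v hv hvV hvM => ?_⟩
  · obtain ⟨z, hz, hz'⟩ := hι (toTT M S V (heckeAlgebra.T hℓ hℓM hℓS)) (heckeTLin 2 hℓ hℓM)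
      (fun g => actX_toTT (heckeAlgebra.T hℓ hℓM hℓS) g)
    refine ⟨z, ?_, hz'⟩
    rw [hev.T ℓ hℓ hℓM] at hz
    exact (smul_left_injective ℂ hf0 hz).symm
  · obtain ⟨z, hz, hz'⟩ := hι (toTT M S V (heckeAlgebra.U hq hqM hqS)) (heckeULin 2 hqM)
      (fun g => actX_toTT (heckeAlgebra.U hq hqM hqS) g)
    refine ⟨z, ?_, hz'⟩
    rw [hev.U q hq hqM] at hz
    exact (smul_left_injective ℂ hf0 hz).symm
  · have h1 := hfX v hv hvV hvM
    rw [hev.U v hv hvM, map_smul, hev.U v hv hvM, smul_smul] at h1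
    have h2 : qCoeff f v * qCoeff f v = 1 := by
      have : (qCoeff f v * qCoeff f v) • f = (1 : ℂ) • f := by rw [one_smul]; exact h1
      exact smul_left_injective ℂ hf0 this
    exact mul_self_eq_one_iff.mp h2

/-- The Hecke algebra is generated by the `T_ℓ` and `U_q`. -/
theorem adjoin_TT {M : ℕ} [NeZero M] {S V : Set ℕ} :
    Algebra.adjoin ℤ ({x : TT M S V | ∃ (ℓ : ℕ) (hℓ : ℓ.Prime) (hℓM : ¬ ℓ ∣ M) (hℓS : ℓ ∉ S),
      x = toTT M S V (heckeAlgebra.T hℓ hℓM hℓS)} ∪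
      {x : TT M S V | ∃ (q : ℕ) (hq : q.Prime) (hqM : q ∣ M) (hqS : q ∉ S),
      x = toTT M S V (heckeAlgebra.U hq hqM hqS)}) = ⊤ := by
  rw [eq_top_iff]
  rintro x -
  obtain ⟨⟨t, ht⟩, rfl⟩ := toTT_surjective x
  induction ht using Algebra.adjoin_induction with
  | mem t ht =>
    rcases ht with ⟨ℓ, hℓ, hℓM, hℓS, rfl⟩ | ⟨q, hqM, hq, hqS, rfl⟩
    · exact Algebra.subset_adjoin (Or.inl ⟨ℓ, hℓ, hℓM, hℓS, rfl⟩)
    · exact Algebra.subset_adjoin (Or.inr ⟨q, hq, hqM, hqS, rfl⟩)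
  | algebraMap r =>
    exact Subalgebra.algebraMap_mem _ r
  | add x y hx hy h1 h2 =>
    exact Subalgebra.add_mem _ h1 h2
  | mul x y hx hy h1 h2 =>
    exact Subalgebra.mul_mem _ h1 h2

/-- **Packaging.** -/
theorem nonempty_TSide' {O : Type} [CommRing O] [IsDomain O] [IsDiscreteValuationRing O]
    [CoefRing O] (K : Type) [Field K] [NumberField K]
    (η : ClassGroup (𝓞 K) →* (ResidueField O)ˣ) (N : ℕ) (hN : 2 ∣ N) (Q : Finset ℕ)
    (hQ : ∀ q ∈ Q, q.Prime ∧ ¬ q ∣ N) (L : ℕ) [NeZero L] (hL : L = N * ∏ q ∈ Q, q)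
    (V : Set ℕ) (hV : ∀ v, v ∈ V ↔ v = 2 ∨ v ∈ Q) (hred : IsReduced (TT L {v : ℕ | v ∣ N} V))
    (Ψ : TT L {v : ℕ | v ∣ N} V →+* MonoidAlgebra (ResidueField O) (C2Q K Q))
    (hT : ∀ (ℓ : ℕ) (hℓ : ℓ.Prime) (hℓL : ¬ ℓ ∣ L) (hS : ℓ ∉ {v : ℕ | v ∣ N}),
      Ψ (toTT L _ V (heckeAlgebra.T hℓ hℓL hS)) = ∑ P ∈ primesOver K ℓ,
        MonoidAlgebra.single ((QuotientGroup.mk (cls K P) : C2' K),
          (1 : {q // q ∈ Q} → Multiplicative (ZMod 2)))
          ((η (cls K P) : (ResidueField O)ˣ) : ResidueField O))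
    (hU : ∀ (q : {q // q ∈ Q}) (hq : (q : ℕ).Prime) (hqL : (q : ℕ) ∣ L)
      (hS : (q : ℕ) ∉ {v : ℕ | v ∣ N}), Ψ (toTT L _ V (heckeAlgebra.U hq hqL hS)) =
        MonoidAlgebra.single (deltaQ K Q q) 1) :
    Nonempty (TSide' O K η N Q L) := by
  classical
  haveI : CharZero O := CoefRing.char_zero
  haveI : IsAdicComplete (maximalIdeal O) O := CoefRing.complete
  haveI : CharP (ResidueField O) 2 := by
    have h2 : (2 : ResidueField O) = 0 := by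
      have h : residue O 2 = 0 := by
        rw [residue_eq_zero_iff, CoefRing.two (O := O)]
        exact Ideal.mem_span_singleton_self 2
      rwa [map_ofNat] at h
    exact CharTwo.of_one_ne_zero_of_two_eq_zero one_ne_zero h2
  obtain ⟨n, hn⟩ := exists_exponent_C2Q K Q
  let aug : MonoidAlgebra (ResidueField O) (C2Q K Q) →ₐ[ResidueField O] ResidueField O :=
    MonoidAlgebra.lift (ResidueField O) (ResidueField O) (C2Q K Q) 1
  have haug : ∀ g, aug (MonoidAlgebra.single g 1) = 1 := by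
    intro g
    rw [MonoidAlgebra.lift_single]
    simp
  obtain ⟨T, _, _, hfin, hfree, hloc, hredT, j, π, hgen, hπa, hπj⟩ :=
    exists_local_factor (O := O) (A := TT L {v : ℕ | v ∣ N} V) aug
      (isUnit_of_aug hn aug haug) Ψ
  have hLS : ∀ ℓ, ¬ ℓ ∣ L → ℓ ∉ {v : ℕ | v ∣ N} := fun ℓ h h' =>
    h (by rw [hL]; exact Dvd.dvd.mul_right h' _)
  have hQL : ∀ q ∈ Q, q ∣ L := fun q hq => by
    rw [hL]; exact Dvd.dvd.mul_left (Finset.dvd_prod_of_mem _ hq) _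
  let t : ℕ → T := fun ℓ => if h : ℓ.Prime ∧ ¬ ℓ ∣ L then
    j (toTT L _ V (heckeAlgebra.T h.1 h.2 (hLS ℓ h.2))) else 0
  let u : ℕ → T := fun q => if h : q.Prime ∧ q ∣ L ∧ ¬ q ∣ N then
    j (toTT L _ V (heckeAlgebra.U h.1 h.2.1 (S := {v : ℕ | v ∣ N}) h.2.2)) else 0
  have ht : ∀ (ℓ : ℕ) (hℓ : ℓ.Prime) (hℓL : ¬ ℓ ∣ L) (hS : ℓ ∉ {v : ℕ | v ∣ N}),
      t ℓ = j (toTT L _ V (heckeAlgebra.T hℓ hℓL hS)) := fun ℓ hℓ hℓL hS =>
    dif_pos (⟨hℓ, hℓL⟩ : ℓ.Prime ∧ ¬ ℓ ∣ L)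
  have hu : ∀ (q : ℕ) (hq : q.Prime) (hqL : q ∣ L) (hS : q ∉ {v : ℕ | v ∣ N}),
      u q = j (toTT L _ V (heckeAlgebra.U hq hqL hS)) := fun q hq hqL hS =>
    dif_pos (⟨hq, hqL, hS⟩ : q.Prime ∧ q ∣ L ∧ ¬ q ∣ N)
  refine ⟨{
    T := T
    finite := hfin
    free := hfree
    isLocal := hloc
    reduced := hredT
    t := t
    u := u
    u_sq := ?_
    gen := ?_
    pi := j.comp (toTT L _ V)
    pi_T := ?_
    pi_U := ?_
    π := π
    π_alg := hπa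
    π_t := ?_
    π_u := ?_
    point := ?_ }⟩
  · intro q hq
    have hqV : q ∈ V := (hV q).mpr (Or.inr hq)
    rw [hu q (hQ q hq).1 (hQL q hq) (hQ q hq).2, ← map_pow,
      toTT_U_sq (hQ q hq).1 (hQL q hq) (hQ q hq).2 hqV, map_one]
  · rw [eq_top_iff, ← hgen]
    refine Algebra.adjoin_le ?_
    rintro _ ⟨x, rfl⟩
    have hx : x ∈ Algebra.adjoin ℤ _ := (adjoin_TT (M := L) (S := {v : ℕ | v ∣ N}) (V := V)) ▸
      (Algebra.mem_top : x ∈ (⊤ : Subalgebra ℤ (TT L {v : ℕ | v ∣ N} V)))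
    induction hx using Algebra.adjoin_induction with
    | mem x hx =>
      rcases hx with ⟨ℓ, hℓ, hℓM, hℓS, rfl⟩ | ⟨q, hq, hqM, hqS, rfl⟩
      · exact Algebra.subset_adjoin (Or.inl ⟨ℓ, ⟨hℓ, hℓM⟩, ht ℓ hℓ hℓM hℓS⟩)
      · have hqQ : q ∈ Q := by
          rw [hL] at hqM
          rcases (Nat.Prime.dvd_mul hq).mp hqM with h | h
          · exact absurd h hqS
          · obtain ⟨q', hq', h'⟩ := (Prime.dvd_finsetProd_iff hq.prime _).mp h
            rwa [(Nat.prime_dvd_prime_iff_eq hq (hQ q' hq').1).mp h']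
        exact Algebra.subset_adjoin (Or.inr ⟨q, hqQ, hu q hq hqM hqS⟩)
    | algebraMap r =>
      have : j (algebraMap ℤ _ r) = algebraMap O T (r : O) := by
        rw [map_intCast, eq_intCast, map_intCast]
      rw [this]
      exact Subalgebra.algebraMap_mem _ _
    | add x y _ _ h1 h2 => rw [RingHom.map_add]; exact Subalgebra.add_mem _ h1 h2
    | mul x y _ _ h1 h2 => rw [RingHom.map_mul]; exact Subalgebra.mul_mem _ h1 h2
  · intro ℓ hℓ hℓL hS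
    exact (ht ℓ hℓ hℓL hS).symm
  · intro q _ hq hqL hS
    exact (hu q hq hqL hS).symm
  · intro ℓ hℓ hℓL
    rw [ht ℓ hℓ hℓL (hLS ℓ hℓL), hπj, hT]
  · intro q
    rw [hu q (hQ q q.2).1 (hQL q q.2) (hQ q q.2).2, hπj, hU]
  · intro F _ _ _ φ
    obtain ⟨f, -, hf, ι, h1, h2, h3⟩ := exists_eigenform_TT (φ.comp j)
    refine ⟨f, hf, fun q hq => h3 q (hQ q hq).1 ((hV q).mpr (Or.inr hq)) (hQL q hq),
      h3 2 Nat.prime_two ((hV 2).mpr (Or.inl rfl)) (by rw [hL]; exact Dvd.dvd.mul_right hN _),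
      ι, fun ℓ hℓ hℓL => ?_, fun q hq => ?_⟩
    · rw [ht ℓ hℓ hℓL (hLS ℓ hℓL)]
      exact h1 ℓ hℓ hℓL (hLS ℓ hℓL)
    · rw [hu q (hQ q hq).1 (hQL q hq) (hQ q hq).2]
      exact h2 q (hQ q hq).1 (hQL q hq) (hQ q hq).2

end Fermat.Agent.H81
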