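import Mathlib
import Fermat.Agent.H81TSide
import Fermat.Agent.H61TD

set_option autoImplicit false

/-!
# Packaging: final form (reducedness inserted)
-/

noncomputable section

namespace Fermat.Agent.H81

open IsLocalRing CuspForm ModularFormClass Fermat.Agent.LT Fermat.Agent.H61.TA
open scoped NumberField

/-- **Packaging**, final form: `Ψ : TT → F₄[C₂ × μ₂^Q]` gives `TSide'`. -/
theorem nonempty_TSide'_of_hom {O : Type} [CommRing O] [IsDomain O] [IsDiscreteValuationRing O]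
    [CoefRing O] (K : Type) [Field K] [NumberField K]
    (η : ClassGroup (𝓞 K) →* (ResidueField O)ˣ) (N : ℕ) (hN : 2 ∣ N) (Q : Finset ℕ)
    (hQ : ∀ q ∈ Q, q.Prime ∧ ¬ q ∣ N) (L : ℕ) [NeZero L] (hL : L = N * ∏ q ∈ Q, q)
    (V : Set ℕ) (hV : ∀ v, v ∈ V ↔ v = 2 ∨ v ∈ Q)
    (Ψ : TT L {v : ℕ | v ∣ N} V →+* MonoidAlgebra (ResidueField O) (C2Q K Q))
    (hT : ∀ (ℓ : ℕ) (hℓ : ℓ.Prime) (hℓL : ¬ ℓ ∣ L) (hS : ℓ ∉ {v : ℕ | v ∣ N}),
      Ψ (toTT L _ V (heckeAlgebra.T hℓ hℓL hS)) = ∑ P ∈ primesOver K ℓ,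
        MonoidAlgebra.single ((QuotientGroup.mk (cls K P) : C2' K),
          (1 : {q // q ∈ Q} → Multiplicative (ZMod 2)))
          ((η (cls K P) : (ResidueField O)ˣ) : ResidueField O))
    (hU : ∀ (q : {q // q ∈ Q}) (hq : (q : ℕ).Prime) (hqL : (q : ℕ) ∣ L)
      (hS : (q : ℕ) ∉ {v : ℕ | v ∣ N}), Ψ (toTT L _ V (heckeAlgebra.U hq hqL hS)) =
        MonoidAlgebra.single (deltaQ K Q q) 1) :
    Nonempty (TSide' O K η N Q L) :=
  nonempty_TSide' K η N hN Q hQ L hL V hV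
    (isReduced_TT fun q hq hqL hqS => by
      refine (hV q).mpr (Or.inr ?_)
      rw [hL] at hqL
      rcases (Nat.Prime.dvd_mul hq).mp hqL with h | h
      · exact absurd h hqS
      · obtain ⟨q', hq', h'⟩ := (Prime.dvd_finsetProd_iff hq.prime _).mp h
        rwa [(Nat.prime_dvd_prime_iff_eq hq (hQ q' hq').1).mp h']) Ψ hT hU

/-- The same, from a homomorphism on the Hecke algebra killing the annihilator of `X2`. -/
theorem nonempty_TSide'_of_heckeAlgebra {O : Type} [CommRing O] [IsDomain O]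
    [IsDiscreteValuationRing O] [CoefRing O] (K : Type) [Field K] [NumberField K]
    (η : ClassGroup (𝓞 K) →* (ResidueField O)ˣ) (N : ℕ) (hN : 2 ∣ N) (Q : Finset ℕ)
    (hQ : ∀ q ∈ Q, q.Prime ∧ ¬ q ∣ N) (L : ℕ) [NeZero L] (hL : L = N * ∏ q ∈ Q, q)
    (V : Set ℕ) (hV : ∀ v, v ∈ V ↔ v = 2 ∨ v ∈ Q)
    (Ψ : heckeAlgebra L 2 {v : ℕ | v ∣ N} →+* MonoidAlgebra (ResidueField O) (C2Q K Q))
    (hΨ : ∀ t ∈ ann L {v : ℕ | v ∣ N} (X2 L V), Ψ t = 0)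
    (hT : ∀ (ℓ : ℕ) (hℓ : ℓ.Prime) (hℓL : ¬ ℓ ∣ L) (hS : ℓ ∉ {v : ℕ | v ∣ N}),
      Ψ (heckeAlgebra.T hℓ hℓL hS) = ∑ P ∈ primesOver K ℓ,
        MonoidAlgebra.single ((QuotientGroup.mk (cls K P) : C2' K),
          (1 : {q // q ∈ Q} → Multiplicative (ZMod 2)))
          ((η (cls K P) : (ResidueField O)ˣ) : ResidueField O))
    (hU : ∀ (q : {q // q ∈ Q}) (hq : (q : ℕ).Prime) (hqL : (q : ℕ) ∣ L)
      (hS : (q : ℕ) ∉ {v : ℕ | v ∣ N}), Ψ (heckeAlgebra.U hq hqL hS) =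
        MonoidAlgebra.single (deltaQ K Q q) 1) :
    Nonempty (TSide' O K η N Q L) :=
  nonempty_TSide'_of_hom K η N hN Q hQ L hL V hV (Ideal.Quotient.lift _ Ψ hΨ)
    (fun ℓ hℓ hℓL hS => by rw [Ideal.Quotient.lift_mk]; exact hT ℓ hℓ hℓL hS)
    (fun q hq hqL hS => by rw [Ideal.Quotient.lift_mk]; exact hU q hq hqL hS)

end Fermat.Agent.H81
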