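import Mathlib
import Fermat.Agent.H81QExp

set_option autoImplicit false
set_option linter.unusedSectionVars false

/-!
# A weight two modular form on `Γ₀(p)` with `q`-expansion `1 + 2(…)`

Main result: `exists_theta`.
-/

open UpperHalfPlane hiding I
open ModularForm ModularGroup Matrix MatrixGroups CongruenceSubgroup
open scoped ModularForm Manifold

namespace Fermat.Agent.H81

open Complex Real ZMod

noncomputable section

/-- choice of the auxiliary prime -/
theorem exists_aux_prime {p : ℕ} (hp : p.Prime) :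
    ∃ q : ℕ, ∃ _ : Fact q.Prime, q % 4 = 3 ∧ (p : ZMod q) ≠ 0 ∧ ∃ w : ZMod q, w ^ 2 = -(p : ZMod q) := by
  rcases hp.eq_two_or_odd' with rfl | hodd
  · refine ⟨3, ⟨Nat.prime_three⟩, by norm_num, by decide, 1, by decide⟩
  have hpf : Fact p.Prime := ⟨hp⟩
  have hp2 : p ≠ 2 := by rintro rfl; exact absurd hodd (by decide)
  -- it suffices to find `q` with `p` a nonresidue mod `q`
  suffices h : ∃ q : ℕ, q.Prime ∧ p < q ∧ q % 4 = 3 ∧ ¬ IsSquare (p : ZMod q) by
    obtain ⟨q, hq, hpq, h3, hns⟩ := h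
    have hqf : Fact q.Prime := ⟨hq⟩
    have hp0 : (p : ZMod q) ≠ 0 := by
      rw [Ne, ZMod.natCast_eq_zero_iff]
      exact fun h => absurd (Nat.le_of_dvd hp.pos h) (not_le.mpr hpq)
    refine ⟨q, hqf, h3, hp0, ?_⟩
    have h1 : quadraticChar (ZMod q) (p : ZMod q) = -1 :=
      quadraticChar_neg_one_iff_not_isSquare.mpr hns
    have h2 : quadraticChar (ZMod q) (-1 : ZMod q) = -1 := by
      rw [quadraticChar_neg_one_iff_not_isSquare, FiniteField.isSquare_neg_one_iff, ZMod.card]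
      exact not_not.mpr h3
    have h3' : quadraticChar (ZMod q) (-(p : ZMod q)) = 1 := by
      rw [neg_eq_neg_one_mul, map_mul, h1, h2]
      norm_num
    obtain ⟨w, hw⟩ := (quadraticChar_one_iff_isSquare (neg_ne_zero.mpr hp0)).mp h3'
    exact ⟨w, by rw [sq, ← hw]⟩
  -- choose the residue class
  have hcop : Nat.Coprime 4 p := by
    have : Nat.Coprime 2 p := Nat.coprime_two_left.mpr hodd
    exact Nat.Coprime.pow_left 2 this
  have main : ∀ b : ℕ, Nat.Coprime b p → ∃ q : ℕ, q.Prime ∧ p < q ∧ q % 4 = 3 ∧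
      (q : ZMod p) = b := by
    intro b hb
    obtain ⟨a, ha4, hap⟩ := Nat.chineseRemainder hcop 3 b
    have hau : IsUnit ((a : ℕ) : ZMod (4 * p)) := by
      rw [ZMod.isUnit_iff_coprime]
      refine Nat.Coprime.mul_right ?_ ?_
      · have := ha4.gcd_eq
        rw [Nat.Coprime, this]
        decide
      · have := hap.gcd_eq
        rw [Nat.Coprime, this]
        exact hb
    have : NeZero (4 * p) := ⟨by have := hp.pos; omega⟩
    obtain ⟨q, hgt, hq, hqa⟩ := Nat.forall_exists_prime_gt_and_eq_mod hau p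
    rw [ZMod.natCast_eq_natCast_iff] at hqa
    refine ⟨q, hq, hgt, ?_, ?_⟩
    · have : q ≡ 3 [MOD 4] := (hqa.of_mul_right p).trans ha4
      exact this
    · rw [ZMod.natCast_eq_natCast_iff]
      exact (hqa.of_mul_left 4).trans hap
  rcases (by have := hodd; rw [Nat.odd_iff] at this; omega : p % 4 = 1 ∨ p % 4 = 3) with h1 | h3
  · -- `p ≡ 1 mod 4`: take `q` a nonresidue mod `p`
    obtain ⟨n, hn⟩ := FiniteField.exists_nonsquare (F := ZMod p) (by
      rw [ZMod.ringChar_zmod_n]; exact hp2)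
    have hn0 : n ≠ 0 := by rintro rfl; exact hn ⟨0, by simp⟩
    have hb : Nat.Coprime n.val p := by
      rw [← ZMod.isUnit_iff_coprime, ZMod.natCast_zmod_val]
      exact isUnit_iff_ne_zero.mpr hn0
    obtain ⟨q, hq, hgt, hq3, hqn⟩ := main n.val hb
    refine ⟨q, hq, hgt, hq3, ?_⟩
    have hqf : Fact q.Prime := ⟨hq⟩
    rw [← ZMod.exists_sq_eq_prime_iff_of_mod_four_eq_one h1 (by rintro rfl; simp at hq3), hqn,
      ZMod.natCast_zmod_val]
    exact hn
  · -- `p ≡ 3 mod 4`: take `q ≡ 1 mod p`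
    obtain ⟨q, hq, hgt, hq3, hq1⟩ := main 1 (Nat.coprime_one_left p)
    refine ⟨q, hq, hgt, hq3, ?_⟩
    have hqf : Fact q.Prime := ⟨hq⟩
    rw [← ZMod.exists_sq_eq_prime_iff_of_mod_four_eq_three h3 hq3 hgt.ne, hq1]
    exact ⟨1, by simp⟩

/-- **The theta form.** For every prime `p` there is a weight two modular form on `Γ₀(p)` whose
`q`-expansion is `1 + ∑ (even integers) qⁿ`. -/
theorem exists_theta {p : ℕ} (hp : p.Prime) :
    ∃ θ : ModularForm (CongruenceSubgroup.Gamma0 p) 2, ModularFormClass.qCoeff θ 0 = 1 ∧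
      ∀ n : ℕ, 1 ≤ n → ∃ m : ℤ, ModularFormClass.qCoeff θ n = 2 * (m : ℂ) := by
  obtain ⟨q, hqf, h3, hpq, w, hw⟩ := exists_aux_prime hp
  have hq1 : (q : ℂ) - 1 ≠ 0 := by
    have : q ≠ 1 := hqf.out.one_lt.ne'
    rw [sub_ne_zero]
    exact_mod_cast this
  set F := HsumMF h3 hp.pos hpq with hF
  set θ : ModularForm (CongruenceSubgroup.Gamma0 p) 2 := (2 * ((q : ℂ) - 1))⁻¹ • F with hθ
  have hval : ∀ τ : ℍ, θ τ = Th q p w (τ : ℂ) := by
    intro τ
    have e1 : θ τ = (2 * ((q : ℂ) - 1))⁻¹ * Hsum q hp.pos τ := rfl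
    rw [e1, Hsum_eq h3 hw hpq hp.pos]
    field_simp
  have hcoeff : ∀ n : ℕ, ModularFormClass.qCoeff θ n = ((vecs q p w n).card : ℂ) := by
    intro n
    have h1 : (1 : ℝ) ∈ ((Gamma0 p : Subgroup SL(2, ℤ)) : Subgroup (GL (Fin 2) ℝ)).strictPeriods := by
      rw [CongruenceSubgroup.strictPeriods_Gamma0]
      exact AddSubgroup.mem_zmultiples 1
    rw [ModularFormClass.qCoeff]
    refine (ModularFormClass.qExpansion_coeff_unique (c := fun n => ((vecs q p w n).card : ℂ))
      one_pos h1 (fun τ => ?_) n).symm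
    rw [hval]
    refine (hasSum_Th_nat h3 hw hp.pos τ.im_pos).congr_fun fun m => ?_
    rw [smul_eq_mul, Function.Periodic.qParam, ← Complex.exp_nat_mul]
    congr 2
    push_cast
    ring
  refine ⟨θ, ?_, fun n hn => ?_⟩
  · rw [hcoeff, vecs_zero h3 hw hp.pos]
    simp
  · obtain ⟨m, hm⟩ := even_card_vecs h3 hw hp.pos (Nat.one_le_iff_ne_zero.mp hn)
    refine ⟨m, ?_⟩
    rw [hcoeff, hm]
    push_cast
    ring

end

end Fermat.Agent.H81
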