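import Fermat.Agent.H82CftDefs

/-!
# Weak approximation and indices of congruence subgroups
-/

set_option autoImplicit false

noncomputable section

open IsDedekindDomain NumberField WithZero

namespace Fermat.Agent.H82

variable {K : Type*} [Field K] [NumberField K]

/-- Weak approximation: `Kˣ → ∏_{v ∈ T} Kˣ / congr v (m v)` is onto. -/
theorem exists_approx (T : Finset (HeightOneSpectrum (𝓞 K)))
    (m : HeightOneSpectrum (𝓞 K) → ℕ) (x : HeightOneSpectrum (𝓞 K) → Kˣ) :
    ∃ y : Kˣ, ∀ v ∈ T, y / x v ∈ congr v (m v) := by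
  classical
  rcases T.eq_empty_or_nonempty with rfl | hT
  · exact ⟨1, by simp⟩
  have h1 : ∀ v, ∃ a d : 𝓞 K, d ≠ 0 ∧ (x v : K) = algebraMap (𝓞 K) K a / algebraMap (𝓞 K) K d := by
    intro v
    obtain ⟨a, d, hd, h⟩ := IsFractionRing.div_surjective (A := 𝓞 K) (x v : K)
    exact ⟨a, d, nonZeroDivisors.ne_zero hd, h.symm⟩
  choose a d hd hx using h1
  have hK : ∀ r : 𝓞 K, algebraMap (𝓞 K) K r = 0 ↔ r = 0 := fun r =>
    FaithfulSMul.algebraMap_eq_zero_iff _ _
  have ha : ∀ v, a v ≠ 0 := by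
    intro v h
    have := hx v
    rw [h, map_zero, zero_div] at this
    exact (x v).ne_zero this
  set D : 𝓞 K := ∏ v ∈ T, d v with hD
  have hD0 : D ≠ 0 := Finset.prod_ne_zero_iff.2 fun v _ => hd v
  set b : HeightOneSpectrum (𝓞 K) → 𝓞 K := fun v => a v * ∏ u ∈ T.erase v, d u with hb
  have hb0 : ∀ v, b v ≠ 0 := fun v =>
    mul_ne_zero (ha v) (Finset.prod_ne_zero_iff.2 fun u _ => hd u)
  have hbx : ∀ v ∈ T, (algebraMap (𝓞 K) K (b v)) = (x v : K) * algebraMap (𝓞 K) K D := by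
    intro v hv
    rw [hx v, hb, hD, ← Finset.mul_prod_erase T d hv, map_mul, map_mul]
    have : algebraMap (𝓞 K) K (d v) ≠ 0 := by rw [Ne, hK]; exact hd v
    field_simp
  have hk : ∀ v : HeightOneSpectrum (𝓞 K), ∃ k : ℕ, v.valuation K (algebraMap (𝓞 K) K (b v)) = exp (-(k : ℤ)) := by
    intro v
    rw [HeightOneSpectrum.valuation_of_algebraMap, HeightOneSpectrum.intValuation_if_neg _ (hb0 v)]
    exact ⟨_, rfl⟩
  choose k hk using hk
  obtain ⟨y, hy⟩ := IsDedekindDomain.exists_forall_sub_mem_ideal (s := T)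
    (fun v => v.asIdeal) (fun v => k v + m v + 1) (fun v _ => v.prime)
    (fun v _ u _ h h' => h (HeightOneSpectrum.ext h')) (fun v => b v)
  have hy' : ∀ v ∈ T, v.valuation K (algebraMap (𝓞 K) K y / algebraMap (𝓞 K) K (b v) - 1)
      ≤ exp (-((m v + 1 : ℕ) : ℤ)) := by
    intro v hv
    have hb1 : algebraMap (𝓞 K) K (b v) ≠ 0 := by rw [Ne, hK]; exact hb0 v
    have h2 : algebraMap (𝓞 K) K y / algebraMap (𝓞 K) K (b v) - 1
        = algebraMap (𝓞 K) K (y - b v) / algebraMap (𝓞 K) K (b v) := by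
      rw [map_sub]; field_simp
    have h3 := (HeightOneSpectrum.intValuation_le_pow_iff_mem v (y - b v) (k v + m v + 1)).2 (hy v hv)
    rw [h2, map_div₀, HeightOneSpectrum.valuation_of_algebraMap, hk v, div_le_iff₀ (by simp),
      ← exp_add]
    refine h3.trans ?_
    rw [exp_le_exp]
    push_cast
    omega
  have hy0 : algebraMap (𝓞 K) K y ≠ 0 := by
    obtain ⟨v, hv⟩ := hT
    intro h
    have := hy' v hv
    rw [h, zero_div, zero_sub, Valuation.map_neg, map_one, ← exp_zero, exp_le_exp] at this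
    omega
  have hDK : algebraMap (𝓞 K) K D ≠ 0 := by rw [Ne, hK]; exact hD0
  refine ⟨Units.mk0 (algebraMap (𝓞 K) K y / algebraMap (𝓞 K) K D) (div_ne_zero hy0 hDK), ?_⟩
  intro v hv
  refine congr_anti v (Nat.le_succ (m v)) ?_
  rw [mem_congr_of_pos (Nat.succ_pos _)]
  have : ((Units.mk0 (algebraMap (𝓞 K) K y / algebraMap (𝓞 K) K D) (div_ne_zero hy0 hDK) / x v : Kˣ) : K)
      = algebraMap (𝓞 K) K y / algebraMap (𝓞 K) K (b v) := by
    rw [hbx v hv]
    have := (x v).ne_zero
    push_cast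
    rw [Units.val_mk0]
    field_simp
  rw [this]
  exact hy' v hv

/-- `𝓞 K` is dense in the valuation ring of `v`, congruence form. -/
theorem exists_int_approx (v : HeightOneSpectrum (𝓞 K)) {x : K} (hx : v.valuation K x ≤ 1)
    (n : ℕ) : ∃ a : 𝓞 K, v.valuation K (algebraMap (𝓞 K) K a - x) ≤ exp (-(n : ℤ)) := by
  obtain ⟨a, ha⟩ := v.exists_valuation_sub_lt_of_integer (K := K) hx
    (Units.mk0 (exp (-(n : ℤ))) (by simp))
  exact ⟨a, ha.le⟩

theorem index_iInf_of_approx {G ι : Type*} [CommGroup G] (T : Finset ι) (H : ι → Subgroup G)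
    (hH : ∀ x : ι → G, ∃ y, ∀ i ∈ T, y / x i ∈ H i) :
    (⨅ i ∈ T, H i).index = ∏ i ∈ T, (H i).index := by
  classical
  let f : G →* (∀ v : T, G ⧸ (H v)) := MonoidHom.pi fun v => QuotientGroup.mk' (H v)
  have hf : Function.Surjective f := by
    intro z
    choose x hx using fun v : T => QuotientGroup.mk'_surjective (H v) (z v)
    obtain ⟨y, hy⟩ := hH (fun v => if h : v ∈ T then x ⟨v, h⟩ else 1)
    refine ⟨y, funext fun v => ?_⟩
    rw [← hx v]
    change (QuotientGroup.mk' (H v)) y = _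
    have h2 := hy v v.2
    simp only [v.2, dif_pos] at h2
    rw [QuotientGroup.mk'_apply, QuotientGroup.mk'_apply]
    rw [eq_comm, QuotientGroup.eq]
    rwa [div_eq_mul_inv, mul_comm] at h2
  have hker : f.ker = ⨅ v ∈ T, H v := by
    ext y
    simp only [MonoidHom.mem_ker, Subgroup.mem_iInf, funext_iff]
    constructor
    · intro h v hv
      exact (QuotientGroup.eq_one_iff y).1 (h ⟨v, hv⟩)
    · intro h v
      exact (QuotientGroup.eq_one_iff y).2 (h v v.2)
  have h3 : f.ker.index = Nat.card f.range := Subgroup.index_ker f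
  rw [← hker, h3, MonoidHom.range_eq_top.2 hf, Subgroup.card_top, Nat.card_pi]
  exact Finset.prod_coe_sort T (fun v => Nat.card (G ⧸ H v))

/-- Intersections of subgroups containing congruence subgroups at different places. -/
theorem index_iInf (T : Finset (HeightOneSpectrum (𝓞 K)))
    (m : HeightOneSpectrum (𝓞 K) → ℕ) (H : HeightOneSpectrum (𝓞 K) → Subgroup Kˣ)
    (hH : ∀ v ∈ T, congr v (m v) ≤ H v) :
    (⨅ v ∈ T, H v).index = ∏ v ∈ T, (H v).index := by
  refine index_iInf_of_approx T H fun x => ?_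
  obtain ⟨y, hy⟩ := exists_approx T m x
  exact ⟨y, fun v hv => hH v hv (hy v hv)⟩

end Fermat.Agent.H82
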