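import Fermat.Agent.H82KummerExists

/-!
# A Galois number field containing two Kummer generators
-/

set_option autoImplicit false

noncomputable section

open IsDedekindDomain NumberField WithZero

namespace Fermat.Agent.H82

universe u

variable {K : Type u} [Field K] [NumberField K] {p : ℕ} [hp : Fact p.Prime] {ζ : K}
  (hζ : IsPrimitiveRoot ζ p)

/-- A number field, Galois over `ℚ`, containing `K` and `p`-th roots of two elements. -/
theorem exists_galois_pair_field (p : ℕ) (hp : 0 < p) (a x : K) :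
    ∃ (N : Type u) (_ : Field N) (_ : NumberField N) (_ : Algebra K N) (α ξ : N),
      IsGalois ℚ N ∧ IsGalois K N ∧ α ^ p = algebraMap K N a ∧ ξ ^ p = algebraMap K N x := by
  obtain ⟨α, hα⟩ := IsAlgClosed.exists_pow_nat_eq (algebraMap K (AlgebraicClosure K) a) hp
  obtain ⟨ξ, hξ⟩ := IsAlgClosed.exists_pow_nat_eq (algebraMap K (AlgebraicClosure K) x) hp
  have hintα : IsIntegral K α := Algebra.IsIntegral.isIntegral α
  have hintξ : IsIntegral K ξ := Algebra.IsIntegral.isIntegral ξ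
  let E : IntermediateField K (AlgebraicClosure K) := IntermediateField.adjoin K {α, ξ}
  have hfd : FiniteDimensional K E := IntermediateField.finiteDimensional_adjoin_pair hintα hintξ
  have hE : NumberField E := NumberField.of_module_finite K E
  have halg : Algebra.IsAlgebraic ℚ (AlgebraicClosure K) := Algebra.IsAlgebraic.trans ℚ K _
  have hclos : IsAlgClosure ℚ (AlgebraicClosure K) := ⟨inferInstance, halg⟩
  have hnorm : Normal ℚ (AlgebraicClosure K) := IsAlgClosure.normal ℚ (AlgebraicClosure K)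
  let N := IntermediateField.normalClosure ℚ E (AlgebraicClosure K)
  have hNfd : FiniteDimensional ℚ N := inferInstance
  have hN : NumberField N := { to_charZero := inferInstance, to_finiteDimensional := hNfd }
  have hNn : Normal ℚ N := normalClosure.normal ℚ E (AlgebraicClosure K)
  have hNg : IsGalois ℚ N := ⟨⟩
  let : Algebra K N := ((algebraMap E N).comp (algebraMap K E)).toAlgebra
  have hNK : IsGalois K N := IsGalois.tower_top_of_isGalois ℚ K N
  have hαE : α ∈ E := IntermediateField.subset_adjoin K _ (by simp)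
  have hξE : ξ ∈ E := IntermediateField.subset_adjoin K _ (by simp)
  refine ⟨N, inferInstance, hN, inferInstance, algebraMap E N ⟨α, hαE⟩, algebraMap E N ⟨ξ, hξE⟩,
    hNg, hNK, ?_, ?_⟩
  · rw [← map_pow]
    have : (⟨α, hαE⟩ : E) ^ p = algebraMap K E a := Subtype.ext (by simpa using hα)
    rw [this]; rfl
  · rw [← map_pow]
    have : (⟨ξ, hξE⟩ : E) ^ p = algebraMap K E x := Subtype.ext (by simpa using hξ)
    rw [this]; rfl

include hζ

/-- If `x` is independent of `a` in `Kˣ/Kˣᵖ`, some automorphism fixes `a^(1/p)` and moves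
`x^(1/p)`. -/
theorem exists_aut_pair (a x : Kˣ)
    (hx : ∀ j : ℕ, x / a ^ j ∉ (powMonoidHom p : Kˣ →* Kˣ).range) {N : Type*} [Field N]
    [Algebra K N] [IsGalois K N] {α ξ : N} (hα : α ^ p = algebraMap K N a)
    (hξ : ξ ^ p = algebraMap K N x) : ∃ σ : N ≃ₐ[K] N, σ α = α ∧ σ ξ ≠ ξ := by
  by_contra hcon
  push Not at hcon
  have hp0 : p ≠ 0 := hp.out.ne_zero
  have hne : ∀ (y : Kˣ) (β : N), β ^ p = algebraMap K N y → β ≠ 0 := by
    rintro y β hβ rfl
    rw [zero_pow hp0, eq_comm, map_eq_zero] at hβ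
    exact y.ne_zero hβ
  have hα0 := hne a α hα
  have hξ0 := hne x ξ hξ
  have hroot : ∀ (y : Kˣ) (β : N), β ^ p = algebraMap K N y → ∀ σ : N ≃ₐ[K] N,
      ∃ i : ℕ, σ β = algebraMap K N ζ ^ i * β := by
    intro y β hβ σ
    have h0 := hne y β hβ
    have h1 : (σ β / β) ^ p = 1 := by
      rw [div_pow, ← map_pow, hβ, σ.commutes, div_self]
      rw [Ne, map_eq_zero]; exact y.ne_zero
    have h1' : IsPrimitiveRoot (algebraMap K N ζ) p :=
      hζ.map_of_injective (algebraMap K N).injective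
    have : NeZero p := ⟨hp0⟩
    obtain ⟨i, -, hi⟩ := h1'.eq_pow_of_pow_eq_one h1
    exact ⟨i, by rw [hi]; field_simp⟩
  have hζσ : ∀ (σ : N ≃ₐ[K] N) (i : ℕ), σ (algebraMap K N ζ ^ i) = algebraMap K N ζ ^ i := by
    intro σ i
    rw [← map_pow, σ.commutes]
  -- there is `j` with `σ (ξ / α ^ j) = ξ / α ^ j` for all `σ`
  have key : ∃ j : ℕ, ∀ σ : N ≃ₐ[K] N, σ (ξ / α ^ j) = ξ / α ^ j := by
    by_cases hτ : ∀ τ : N ≃ₐ[K] N, τ α = α
    · exact ⟨0, fun σ => by simpa using hcon σ (hτ σ)⟩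
    push Not at hτ
    obtain ⟨τ, hτ⟩ := hτ
    obtain ⟨i, hi⟩ := hroot a α hα τ
    obtain ⟨k, hk⟩ := hroot x ξ hξ τ
    have hipos : ¬ p ∣ i := by
      rintro ⟨c, rfl⟩
      apply hτ
      rw [hi, pow_mul, ← map_pow, hζ.pow_eq_one, map_one, one_pow, one_mul]
    have hcop : Nat.Coprime i p := (Nat.Prime.coprime_iff_not_dvd hp.out).2 hipos |>.symm
    -- every `σ` acts on `α` as a power of `τ`
    have hpowτ : ∀ (n : ℕ), (τ ^ n) α = algebraMap K N ζ ^ (i * n) * α ∧
        (τ ^ n) ξ = algebraMap K N ζ ^ (k * n) * ξ := by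
      intro n
      induction n with
      | zero => simp
      | succ n ih =>
        have h1 : ∀ z : N, (τ ^ (n + 1)) z = τ ((τ ^ n) z) := fun z => by
          rw [pow_succ']; rfl
        rw [h1, h1, ih.1, ih.2, map_mul, map_mul, hζσ, hζσ, hi, hk]
        constructor <;> ring
    -- choose `j` with `k ≡ i j`
    obtain ⟨j, hj⟩ : ∃ j : ℕ, k ≡ i * j [MOD p] := by
      obtain ⟨i', hi'⟩ : ∃ i', i * i' ≡ 1 [MOD p] := by
        rcases Nat.exists_mul_mod_eq_one_of_coprime hcop hp.out.one_lt with ⟨m, -, hm⟩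
        refine ⟨m, ?_⟩
        rw [Nat.ModEq, hm, Nat.mod_eq_of_lt hp.out.one_lt]
      refine ⟨i' * k, ?_⟩
      have := hi'.mul_right k
      rw [one_mul, mul_assoc] at this
      exact this.symm
    have hmod : ∀ {u w : ℕ}, u ≡ w [MOD p] → algebraMap K N ζ ^ u = algebraMap K N ζ ^ w := by
      intro u w huw
      rw [← map_pow, ← map_pow, pow_eq_pow_of_modEq huw hζ.pow_eq_one]
    refine ⟨j, fun σ => ?_⟩
    obtain ⟨i₂, hi₂⟩ := hroot a α hα σ
    -- `σ = τ ^ n` on `α`
    obtain ⟨n, hn⟩ : ∃ n : ℕ, i₂ ≡ i * n [MOD p] := by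
      obtain ⟨i', hi'⟩ : ∃ i', i * i' ≡ 1 [MOD p] := by
        rcases Nat.exists_mul_mod_eq_one_of_coprime hcop hp.out.one_lt with ⟨m, -, hm⟩
        refine ⟨m, ?_⟩
        rw [Nat.ModEq, hm, Nat.mod_eq_of_lt hp.out.one_lt]
      refine ⟨i' * i₂, ?_⟩
      have := hi'.mul_right i₂
      rw [one_mul, mul_assoc] at this
      exact this.symm
    have h1 : σ α = (τ ^ n) α := by rw [hi₂, (hpowτ n).1, hmod hn]
    have h2 : ((τ ^ n)⁻¹ * σ) α = α := by
      have : ((τ ^ n)⁻¹ * σ) α = (τ ^ n)⁻¹ (σ α) := rfl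
      rw [this, h1]
      exact (τ ^ n).symm_apply_apply α
    have h3 := hcon _ h2
    have h4 : σ ξ = (τ ^ n) ξ := by
      have : (τ ^ n) (((τ ^ n)⁻¹ * σ) ξ) = σ ξ := (τ ^ n).apply_symm_apply (σ ξ)
      rw [← this, h3]
    rw [map_div₀, map_pow, h4, h1, (hpowτ n).1, (hpowτ n).2, mul_pow, ← pow_mul]
    have h5 : algebraMap K N ζ ^ (k * n) = algebraMap K N ζ ^ (i * n * j) := by
      apply hmod
      have := hj.mul_right n
      rw [show i * n * j = i * j * n by ring]
      exact this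
    rw [h5]
    have h6 : algebraMap K N ζ ≠ 0 := by
      rw [Ne, map_eq_zero]; exact hζ.ne_zero hp0
    field_simp
  obtain ⟨j, hj⟩ := key
  obtain ⟨b, hb⟩ := (InfiniteGalois.mem_range_algebraMap_iff_fixed (ξ / α ^ j)).2 hj
  have h1 : (b : K) ^ p = x / a ^ j := by
    apply (algebraMap K N).injective
    rw [map_pow, hb, div_pow, hξ, map_div₀, map_pow, ← pow_mul, mul_comm j p, pow_mul, hα]
  have hb0 : b ≠ 0 := by
    rintro rfl
    rw [zero_pow hp0] at h1
    exact (x / a ^ j).ne_zero (by push_cast; exact h1.symm)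
  apply hx j
  refine ⟨Units.mk0 b hb0, Units.ext ?_⟩
  simpa using h1

end Fermat.Agent.H82
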