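import Fermat.Agent.H82Residue
import Fermat.Agent.H82FrobDensity

/-!
# Auxiliary primes from the Frobenius density theorem
-/

set_option autoImplicit false

noncomputable section

open IsDedekindDomain NumberField WithZero

namespace Fermat.Agent.H82

universe u

variable {K : Type u} [Field K] [NumberField K]

theorem finite_valuation_ne_one (x : Kˣ) :
    {v : HeightOneSpectrum (𝓞 K) | v.valuation K (x : K) ≠ 1}.Finite := by
  refine (H47.finite_ordHom_ne_zero (R := 𝓞 K) (Additive.ofMul x)).subset fun v hv => ?_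
  intro h
  exact hv ((H47.ordHom_eq_zero_iff v x).1 h)

/-- Frobenius congruence for `w`-integral elements. -/
theorem frob_integral {N : Type*} [Field N] [NumberField N] {w : HeightOneSpectrum (𝓞 N)}
    {φ : N ≃ₐ[ℚ] N} {ℓ : ℕ}
    (hφ : ∀ x : 𝓞 N, φ • x - x ^ ℓ ∈ w.asIdeal) {x : N} (hx : w.valuation N x ≤ 1) :
    w.valuation N (φ x - x ^ ℓ) < 1 := by
  obtain ⟨n, ⟨d, hd⟩, hnd⟩ := w.exists_primeCompl_mul_eq_of_integer x hx
  have hlt : ∀ r : 𝓞 N,
      w.valuation N (φ (algebraMap (𝓞 N) N r) - algebraMap (𝓞 N) N r ^ ℓ) < 1 := by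
    intro r
    have h2 : w.valuation N (φ (algebraMap (𝓞 N) N r) - algebraMap (𝓞 N) N (r ^ ℓ)) < 1 :=
      (w.valuation_lt_one_iff_mem (K := N) (φ • r - r ^ ℓ)).2 (hφ r)
    rwa [map_pow] at h2
  have hd1 : w.valuation N (algebraMap (𝓞 N) N d) = 1 := by
    rw [HeightOneSpectrum.valuation_of_algebraMap]
    exact (w.intValuation_eq_one_iff_mem_primeCompl d).2 hd
  have hd2 : w.valuation N (φ (algebraMap (𝓞 N) N d)) = 1 := by
    have h1 : φ (algebraMap (𝓞 N) N d) =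
        (φ (algebraMap (𝓞 N) N d) - algebraMap (𝓞 N) N d ^ ℓ) + algebraMap (𝓞 N) N d ^ ℓ := by ring
    rw [h1, Valuation.map_add_eq_of_lt_right _ (by rw [map_pow, hd1, one_pow]; exact hlt d),
      map_pow, hd1, one_pow]
  have hd0 : algebraMap (𝓞 N) N d ≠ 0 := by
    intro h0; rw [h0, map_zero] at hd1; exact zero_ne_one hd1
  have hx' : x = algebraMap (𝓞 N) N n / algebraMap (𝓞 N) N d := by
    rw [← hnd]; field_simp
  have hσd0 : φ (algebraMap (𝓞 N) N d) ≠ 0 := by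
    intro h0; rw [h0, map_zero] at hd2; exact zero_ne_one hd2
  have h2 : φ x - x ^ ℓ =
      ((φ (algebraMap (𝓞 N) N n) - algebraMap (𝓞 N) N n ^ ℓ) * algebraMap (𝓞 N) N d ^ ℓ
      - algebraMap (𝓞 N) N n ^ ℓ * (φ (algebraMap (𝓞 N) N d) - algebraMap (𝓞 N) N d ^ ℓ)) /
      (φ (algebraMap (𝓞 N) N d) * algebraMap (𝓞 N) N d ^ ℓ) := by
    rw [hx', map_div₀, div_pow]
    field_simp
    ring
  rw [h2, map_div₀, map_mul, map_pow, hd1, hd2, one_pow, one_mul, div_one]
  refine (Valuation.map_sub _ _ _).trans_lt (max_lt ?_ ?_)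
  · rw [map_mul, map_pow, hd1, one_pow, mul_one]; exact hlt n
  · rw [map_mul, map_pow]
    calc _ ≤ 1 * w.valuation N (φ (algebraMap (𝓞 N) N d) - algebraMap (𝓞 N) N d ^ ℓ) :=
          mul_le_mul' (pow_le_one₀ zero_le (w.valuation_le_one n)) le_rfl
      _ < 1 := by rw [one_mul]; exact hlt d

variable {p : ℕ} [hp : Fact p.Prime] {ζ : K} (hζ : IsPrimitiveRoot ζ p)

include hζ

/-- If `x` is independent of `a` modulo `p`-th powers, there is a prime `v ∤ p` outside any given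
finite set at which `a` is a local `p`-th power and `x` is not. -/
theorem exists_aux_prime (a x : Kˣ)
    (hx : ∀ j : ℕ, x / a ^ j ∉ (powMonoidHom p : Kˣ →* Kˣ).range)
    (S : Set (HeightOneSpectrum (𝓞 K))) (hS : S.Finite) :
    ∃ v, v ∉ S ∧ v.valuation K (p : K) = 1 ∧ a ∈ locPow p v 1 ∧ x ∉ locPow p v 1 := by
  classical
  have hp0 : (p : K) ≠ 0 := by exact_mod_cast hp.out.ne_zero
  obtain ⟨N, _, _, _, α, ξ, hNQ, hNK, hα, hξ⟩ :=
    exists_galois_pair_field (K := K) p hp.out.pos (a : K) (x : K)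
  obtain ⟨σ, hσα, hσξ⟩ := exists_aut_pair hζ a x hx hα hξ
  let σ' : N ≃ₐ[ℚ] N := σ.restrictScalars ℚ
  -- the bad places
  set B : Set (HeightOneSpectrum (𝓞 K)) := S ∪ {v | v.valuation K ((Units.mk0 (p : K) hp0 : Kˣ) : K) ≠ 1}
    ∪ {v | v.valuation K (a : K) ≠ 1} ∪ {v | v.valuation K (x : K) ≠ 1} with hB
  have hBfin : B.Finite :=
    ((hS.union (finite_valuation_ne_one _)).union (finite_valuation_ne_one _)).union
      (finite_valuation_ne_one _)
  obtain ⟨ℓ, hℓ, hℓS, P, hP, hℓP, -, φ, hφ, hφσ⟩ := exists_frob_finite N σ'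
    (hBfin.toFinset.biUnion fun v => (Ideal.absNorm v.asIdeal).primeFactors)
  have hPne : P ≠ ⊥ := by
    rintro rfl
    rw [Ideal.mem_bot] at hℓP
    exact hℓ.ne_zero (by exact_mod_cast hℓP)
  let w : HeightOneSpectrum (𝓞 N) := ⟨P, hP, hPne⟩
  let v : HeightOneSpectrum (𝓞 K) := H47.below K w
  have hw : w ∈ above N v := H47.mem_above_below w
  have hℓv : ((ℓ : ℕ) : 𝓞 K) ∈ v.asIdeal := by
    change ((ℓ : ℕ) : 𝓞 K) ∈ P.under (𝓞 K)
    rw [Ideal.mem_comap, map_natCast]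
    exact hℓP
  -- `absNorm v` is a power of `ℓ`
  obtain ⟨k, hk⟩ : ∃ k : ℕ, Ideal.absNorm v.asIdeal = ℓ ^ k := by
    have h1 : Ideal.absNorm v.asIdeal ∣ ℓ ^ Module.finrank ℚ K := by
      rw [← absNorm_natCast (K := K) ℓ]
      exact Ideal.absNorm_dvd_absNorm_of_le ((Ideal.span_singleton_le_iff_mem _).2 hℓv)
    obtain ⟨k, -, hk⟩ := (Nat.dvd_prime_pow hℓ).1 h1
    exact ⟨k, hk⟩
  have hk0 : k ≠ 0 := by
    rintro rfl
    rw [pow_zero, Ideal.absNorm_eq_one_iff] at hk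
    exact v.isPrime.ne_top hk
  have hvB : v ∉ B := by
    intro hvB
    apply hℓS
    rw [Finset.mem_biUnion]
    refine ⟨v, hBfin.mem_toFinset.2 hvB, ?_⟩
    rw [hk, Nat.primeFactors_pow _ hk0, hℓ.primeFactors]
    exact Finset.mem_singleton_self ℓ
  simp only [hB, Set.mem_union, Set.mem_ofPred_eq, not_or, not_not] at hvB
  obtain ⟨⟨⟨hvS, hvp⟩, hva⟩, hvx⟩ := hvB
  rw [Units.val_mk0] at hvp
  have he := ramificationIdx'_ne_zero hw
  set e := v.asIdeal.ramificationIdx' w.asIdeal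
  -- `φ` fixes `K` and `α`, and moves `ξ`
  obtain ⟨n, hn⟩ : φ ∈ Subgroup.zpowers σ' := by rw [← hφσ]; exact Subgroup.mem_zpowers φ
  have hn' : (σ ^ n).restrictScalars ℚ = φ := by
    rw [← hn]
    exact map_zpow (AlgEquiv.restrictScalarsHom ℚ) σ n
  have hφK : ∀ r : K, φ (algebraMap K N r) = algebraMap K N r := by
    intro r
    rw [← hn']
    exact (σ ^ n).commutes r
  have hφα : φ α = α := by
    rw [← hn']
    have h1 : σ ∈ MulAction.stabilizer (N ≃ₐ[K] N) α := hσα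
    exact Subgroup.zpow_mem _ h1 n
  have hφξ : φ ξ ≠ ξ := by
    intro h
    obtain ⟨m, hm⟩ : σ' ∈ Subgroup.zpowers φ := by rw [hφσ]; exact Subgroup.mem_zpowers σ'
    have h1 : φ ∈ MulAction.stabilizer (N ≃ₐ[ℚ] N) ξ := h
    have h2 : φ ^ m ∈ MulAction.stabilizer (N ≃ₐ[ℚ] N) ξ := Subgroup.zpow_mem _ h1 m
    have hm' : φ ^ m = σ' := hm
    rw [hm'] at h2
    exact hσξ h2
  -- the residue field of `v` has `ℓ` elements
  have hres := finite_residue v
  let : Field (𝓞 K ⧸ v.asIdeal) := Ideal.Quotient.field _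
  have hFrobK : ∀ z : (𝓞 K ⧸ v.asIdeal), z ^ ℓ = z := by
    intro z
    obtain ⟨r, rfl⟩ := Ideal.Quotient.mk_surjective z
    rw [← map_pow, Ideal.Quotient.eq]
    change r ^ ℓ - r ∈ P.under (𝓞 K)
    rw [Ideal.mem_comap, map_sub, map_pow]
    have h1 := hφ (algebraMap (𝓞 K) (𝓞 N) r)
    have h2 : φ • (algebraMap (𝓞 K) (𝓞 N) r) = algebraMap (𝓞 K) (𝓞 N) r := by
      apply RingOfIntegers.coe_injective
      exact hφK (r : K)
    rw [h2] at h1
    have h3 := P.neg_mem h1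
    rwa [neg_sub] at h3
  have hq : Ideal.absNorm v.asIdeal = ℓ := by
    have h1 : Nat.card (𝓞 K ⧸ v.asIdeal)ˣ ∣ ℓ - 1 := by
      obtain ⟨g, hg⟩ := IsCyclic.exists_generator (α := (𝓞 K ⧸ v.asIdeal)ˣ)
      rw [← orderOf_eq_card_of_forall_mem_zpowers hg]
      apply orderOf_dvd_of_pow_eq_one
      have h2 := hFrobK (g : 𝓞 K ⧸ v.asIdeal)
      have h3 : g ^ ℓ = g := Units.ext (by simpa using h2)
      have h4 : g ^ (ℓ - 1) * g = g := by
        rw [← pow_succ, Nat.sub_add_cancel hℓ.one_le, h3]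
      exact mul_eq_right.1 h4
    rw [Nat.card_units, ← absNorm_eq_card] at h1
    have h2 := Nat.le_of_dvd (Nat.sub_pos_of_lt hℓ.one_lt) h1
    have h3 : ℓ ≤ Ideal.absNorm v.asIdeal := by
      rw [hk]; exact Nat.le_self_pow hk0 ℓ
    have h4 := hℓ.one_lt
    omega
  -- `p ∣ ℓ - 1`
  have hvζ : v.valuation K (ζ - 1) = 1 := val_zeta_sub_one (v.valuation K) hζ hvp
  have hζ1 : v.valuation K ζ = 1 := val_eq_one_of_pow _ p hp.out.ne_zero hζ.pow_eq_one
  have hζ0 : ζ ≠ 0 := hζ.ne_zero hp.out.ne_zero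
  have hdvd : p ∣ ℓ - 1 := by
    have h1 := pow_card_sub_one_mem (v := v) (x := Units.mk0 ζ hζ0) hζ1
    rw [hq, mem_congr_one_iff] at h1
    push_cast at h1
    rw [Units.val_mk0] at h1
    by_contra hnd
    have h2 : ζ ^ (ℓ - 1) ≠ 1 := fun h => hnd (hζ.dvd_of_pow_eq_one _ h)
    have h3 : (ζ ^ (ℓ - 1)) ^ p = 1 := by rw [← pow_mul, mul_comm, pow_mul, hζ.pow_eq_one, one_pow]
    rw [val_root_sub_one (v.valuation K) hζ h3 h2, hvζ] at h1
    exact lt_irrefl _ h1
  obtain ⟨m, hm⟩ := hdvd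
  have hm0 : m ≠ 0 := by
    rintro rfl
    have := hℓ.one_lt
    omega
  have hqm : Ideal.absNorm v.asIdeal - 1 = p * m := by rw [hq, hm]
  -- units above
  have hunit : ∀ (y : Kˣ) (β : N), β ^ p = algebraMap K N y → v.valuation K (y : K) = 1 →
      w.valuation N β = 1 := by
    intro y β hβ hy
    have h1 : w.valuation N (β ^ p) = 1 := by
      rw [hβ, valuation_above hw, hy, one_pow]
    rw [map_pow] at h1
    exact (pow_eq_one_iff_of_nonneg zero_le hp.out.ne_zero).1 h1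
  have hwα := hunit a α hα hva
  have hwξ := hunit x ξ hξ hvx
  -- `β ^ (ℓ - 1) = y ^ m`
  have hpow : ∀ (y : Kˣ) (β : N), β ^ p = algebraMap K N y → w.valuation N β = 1 →
      w.valuation N (φ β / β - algebraMap K N ((y ^ m : Kˣ) : K)) < 1 := by
    intro y β hβ hwβ
    have h1 := frob_integral (w := w) hφ hwβ.le
    have hβ0 : β ≠ 0 := by intro h0; rw [h0, map_zero] at hwβ; exact zero_ne_one hwβ
    have h2 : β ^ ℓ = algebraMap K N ((y ^ m : Kˣ) : K) * β := by
      have : ℓ = p * m + 1 := by have := hℓ.one_lt; omega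
      rw [this, pow_succ, pow_mul, hβ, Units.val_pow_eq_pow_val, map_pow]
    have h3 : φ β / β - algebraMap K N ((y ^ m : Kˣ) : K) = (φ β - β ^ ℓ) / β := by
      rw [h2]; field_simp
    rw [h3, map_div₀, hwβ, div_one]
    exact h1
  refine ⟨v, hvS, hvp, ?_, ?_⟩
  · refine mem_locPow_of_pow_mem hm0 hqm hva ?_
    have h1 := hpow a α hα hwα
    have hα0 : α ≠ 0 := by intro h0; rw [h0, map_zero] at hwα; exact zero_ne_one hwα
    rw [hφα, div_self hα0, ← map_one (algebraMap K N), ← map_sub, valuation_above hw,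
      pow_lt_one_iff he] at h1
    rw [mem_congr_one_iff, Valuation.map_sub_swap]
    exact h1
  · intro hcon
    have h1 := pow_mem_of_mem_locPow hqm hvx hcon
    rw [mem_congr_one_iff] at h1
    have h2 := hpow x ξ hξ hwξ
    have hξ0 : ξ ≠ 0 := by intro h0; rw [h0, map_zero] at hwξ; exact zero_ne_one hwξ
    have h3 : w.valuation N (φ ξ / ξ - 1) < 1 := by
      have h4 : φ ξ / ξ - 1 = (φ ξ / ξ - algebraMap K N ((x ^ m : Kˣ) : K)) +
          algebraMap K N (((x ^ m : Kˣ) : K) - 1) := by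
        rw [map_sub, map_one]; ring
      rw [h4]
      refine (Valuation.map_add _ _ _).trans_lt (max_lt h2 ?_)
      rw [valuation_above hw]
      exact pow_lt_one₀ zero_le h1 he
    have h5 : (φ ξ / ξ) ^ p = 1 := by
      rw [div_pow, ← map_pow, hξ, hφK, div_self]
      rw [Ne, map_eq_zero]; exact x.ne_zero
    have h6 : φ ξ / ξ ≠ 1 := by
      rw [Ne, div_eq_one_iff_eq hξ0]; exact hφξ
    have h7 : IsPrimitiveRoot (algebraMap K N ζ) p := hζ.map_of_injective (algebraMap K N).injective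
    have h8 : w.valuation N (algebraMap K N ζ - 1) = 1 := by
      rw [← map_one (algebraMap K N), ← map_sub, valuation_above hw, hvζ, one_pow]
    rw [val_root_sub_one (w.valuation N) h7 h5 h6, h8] at h3
    exact lt_irrefl _ h3

end Fermat.Agent.H82
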