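import Fermat.Agent.H82Residue

/-!
# Tame local norm groups are proper
-/

set_option autoImplicit false

noncomputable section

open IsDedekindDomain NumberField WithZero

namespace Fermat.Agent.H82

variable {K : Type*} [Field K] [NumberField K] {M : Type*} [Field M] [NumberField M] [Algebra K M]
  {p : ℕ} [hp : Fact p.Prime] {ζ : K} (hζ : IsPrimitiveRoot ζ p)

include hζ in
/-- `[U_v : U_v ∩ Kˣᵖ(1+v)] = p` for `v ∤ p`. -/
theorem relIndex_locPow_units {v : HeightOneSpectrum (𝓞 K)} (hv : v.valuation K (p : K) = 1) :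
    (locPow p v 1).relIndex (congr v 0) = p := by
  have hdeep : Deep ζ p v 1 := deep_of_not_dvd hζ hv one_pos
  obtain ⟨e, he, hidx⟩ := index_locPow' hζ v hdeep
  rw [hv, eq_comm, exp_eq_one] at he
  have he0 : e = 0 := by simpa using he
  rw [he0, pow_zero, mul_one] at hidx
  have h1 : locPow p v 1 ≤ (powMonoidHom p : Kˣ →* Kˣ).range ⊔ congr v 0 :=
    sup_le_sup_left (congr_anti v (Nat.zero_le 1)) _
  have h2 : (powMonoidHom p : Kˣ →* Kˣ).range ⊔ congr v 0 = locPow p v 1 ⊔ congr v 0 := by
    rw [locPow, sup_assoc, sup_eq_right.2 (congr_anti v (Nat.zero_le 1))]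
  have h3 : (locPow p v 1).relIndex ((powMonoidHom p : Kˣ →* Kˣ).range ⊔ congr v 0)
      = (locPow p v 1).relIndex (congr v 0) := by
    rw [h2, Subgroup.relIndex_sup_left]
  have h4 := Subgroup.relIndex_mul_index h1
  rw [h3, index_pow_sup_units v p, hidx, pow_two] at h4
  exact Nat.eq_of_mul_eq_mul_right hp.out.pos h4

/-- Finite products of elements congruent modulo `w`. -/
theorem prod_congr_mod {F : Type*} [Field F] {Γ : Type*} [LinearOrderedCommGroupWithZero Γ]
    (w : Valuation F Γ) {ι : Type*} (s : Finset ι) (f : ι → F) (z : F) (hz : w z ≤ 1)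
    (h : ∀ i ∈ s, w (f i - z) < 1) : w (∏ i ∈ s, f i - z ^ s.card) < 1 := by
  classical
  induction s using Finset.induction_on with
  | empty => simp
  | insert i s his ih =>
    rw [Finset.prod_insert his, Finset.card_insert_of_notMem his]
    have h1 := ih fun j hj => h j (Finset.mem_insert_of_mem hj)
    have h2 := h i (Finset.mem_insert_self i s)
    have h3 : f i * ∏ j ∈ s, f j - z ^ (s.card + 1)
      = f i * (∏ j ∈ s, f j - z ^ s.card) + (f i - z) * z ^ s.card := by ring
    have h4 : w (f i) ≤ 1 := by
      have : f i = (f i - z) + z := by ring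
      rw [this]
      exact (w.map_add _ _).trans (max_le h2.le hz)
    rw [h3]
    refine (w.map_add _ _).trans_lt (max_lt ?_ ?_)
    · rw [map_mul]
      calc _ ≤ 1 * w (∏ j ∈ s, f j - z ^ s.card) := mul_le_mul' h4 le_rfl
        _ < 1 := by rw [one_mul]; exact h1
    · rw [map_mul, map_pow]
      calc _ ≤ w (f i - z) * 1 := mul_le_mul' le_rfl (pow_le_one₀ zero_le hz)
        _ < 1 := by rw [mul_one]; exact h2

variable [IsGalois K M]

omit hp in
theorem valuation_norm {w : HeightOneSpectrum (𝓞 M)} (hdeg : Module.finrank K M = p)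
    (hw : ∀ σ : M ≃ₐ[K] M, H47.smulPlace σ w = w) (x : M) :
    w.valuation M (algebraMap K M (Algebra.norm K x)) = w.valuation M x ^ p := by
  classical
  have hfd : FiniteDimensional K M := by
    exact Module.Finite.of_restrictScalars_finite ℚ K M
  rw [Algebra.norm_eq_prod_automorphisms, map_prod]
  have h1 : ∀ σ ∈ (Finset.univ : Finset (M ≃ₐ[K] M)), w.valuation M (σ x) = w.valuation M x := by
    intro σ _
    conv_lhs => rw [← hw σ]
    exact H47.valuation_smulPlace σ w x
  rw [Finset.prod_congr rfl h1, Finset.prod_const, Finset.card_univ, ← Nat.card_eq_fintype_card,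
    IsGalois.card_aut_eq_finrank, hdeg]

include hζ in
/-- For `v ∤ p` nonsplit in a Galois extension of degree `p`, local norms form a proper
subgroup. -/
theorem locNorm_ne_top_of_tame (hdeg : Module.finrank K M = p) {v : HeightOneSpectrum (𝓞 K)}
    (hvp : v.valuation K (p : K) = 1) (hns : NonSplit M v) : locNorm M v 1 ≠ ⊤ := by
  classical
  have hfd : FiniteDimensional K M := by
    exact Module.Finite.of_restrictScalars_finite ℚ K M
  obtain ⟨w, hw0⟩ := Set.ncard_eq_one.1 hns
  have hw : w ∈ above M v := by rw [hw0]; rfl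
  have hfix : ∀ σ : M ≃ₐ[K] M, H47.smulPlace σ w = w := fun σ => by
    have := H47.smulPlace_mem_above σ hw
    rw [hw0] at this
    exact this
  have hcard : Nat.card (M ≃ₐ[K] M) = p := by rw [IsGalois.card_aut_eq_finrank, hdeg]
  have he := ramificationIdx'_ne_zero hw
  have hval := valuation_norm (K := K) hdeg hfix
  have : Fact (Nat.card (M ≃ₐ[K] M)).Prime := by rw [hcard]; exact hp
  rcases Subgroup.eq_bot_or_eq_top_of_prime_card (w.asIdeal.inertia (M ≃ₐ[K] M)) with hI | hI
  · -- unramified case
    have he1 : v.asIdeal.ramificationIdx' w.asIdeal = 1 := by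
      refine ramificationIdx'_eq_one_of_inertia hw fun σ hσ => ?_
      have : σ ∈ w.asIdeal.inertia (M ≃ₐ[K] M) := hσ
      rw [hI, Subgroup.mem_bot] at this
      exact this
    intro htop
    have hle : locNorm M v 1 ≤ (powMonoidHom p : Kˣ →* Kˣ).range ⊔ congr v 0 := by
      refine sup_le ?_ ((congr_anti v (Nat.zero_le 1)).trans le_sup_right)
      rintro _ ⟨z, rfl⟩
      have h1 := hval (z : M)
      rw [valuation_above hw, he1, pow_one] at h1
      -- choose `y` with `v y = w z`
      obtain ⟨y, hy⟩ := ordM_surjective v (ordM w z)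
      have hy' : v.valuation K (y : K) = w.valuation M (z : M) := by
        rw [ordM_apply, hy, ← ordM_apply]
      rw [Subgroup.mem_sup]
      refine ⟨y ^ p, ⟨y, rfl⟩, Units.map (Algebra.norm K : M →* K) z / y ^ p, ?_, by simp⟩
      rw [mem_congr_zero]
      push_cast
      rw [map_div₀, map_pow, hy']
      have h2 : ((Units.map (Algebra.norm K : M →* K) z : Kˣ) : K) = Algebra.norm K (z : M) := rfl
      rw [h2, h1, div_self]
      exact pow_ne_zero _ ((Valuation.ne_zero_iff _).2 z.ne_zero)
    rw [htop, top_le_iff] at hle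
    have := index_pow_sup_units v p
    rw [hle, Subgroup.index_top] at this
    exact hp.out.ne_one this.symm
  · -- totally ramified case
    intro htop
    have hI' : ∀ (σ : M ≃ₐ[K] M) {x : M}, w.valuation M x ≤ 1 → w.valuation M (σ x - x) < 1 := by
      intro σ x hx
      have h1 : σ ∈ w.asIdeal.inertia (M ≃ₐ[K] M) := by rw [hI]; trivial
      exact inertia_integral h1 hx
    -- a unit which is not a `p`-th power
    obtain ⟨u, hu0, hu1⟩ : ∃ u ∈ congr v 0, u ∉ locPow p v 1 := by
      by_contra hcon
      push Not at hcon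
      have h1 := relIndex_locPow_units hζ hvp
      rw [Subgroup.relIndex_eq_one.2 hcon] at h1
      exact hp.out.ne_one h1.symm
    have hu : u ∈ locNorm M v 1 := by rw [htop]; trivial
    obtain ⟨z, hz⟩ := mem_locNorm.1 hu
    set Nz : Kˣ := Units.map (Algebra.norm K : M →* K) z with hNz
    have hNz' : (Nz : K) = Algebra.norm K (z : M) := rfl
    have hvN : v.valuation K (Nz : K) = 1 := by
      have h1 := hz.1
      push_cast at h1
      rw [map_div₀, mem_congr_zero.1 hu0, one_div, inv_eq_one] at h1
      exact h1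
    have hwz : w.valuation M (z : M) = 1 := by
      have h1 := hval (z : M)
      rw [valuation_above hw, ← hNz', hvN, one_pow] at h1
      exact (pow_eq_one_iff_of_nonneg zero_le hp.out.ne_zero).1 h1.symm
    -- `z ≡ Tr(z)/p`
    have hwp : w.valuation M ((p : ℕ) : M) = 1 := by
      have h1 := valuation_above hw (p : K)
      rw [map_natCast, hvp, one_pow] at h1
      exact h1
    have hp0 : ((p : ℕ) : M) ≠ 0 := by exact_mod_cast hp.out.ne_zero
    have hp0' : ((p : ℕ) : K) ≠ 0 := by exact_mod_cast hp.out.ne_zero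
    set r : K := Algebra.trace K M (z : M) / p with hr
    have hrz : w.valuation M (algebraMap K M r - z) < 1 := by
      have h1 : algebraMap K M r - z = (∑ σ : M ≃ₐ[K] M, (σ (z : M) - z)) / (p : M) := by
        rw [hr, map_div₀, trace_eq_sum_automorphisms, Finset.sum_sub_distrib, Finset.sum_const,
          Finset.card_univ, ← Nat.card_eq_fintype_card, hcard, map_natCast, nsmul_eq_mul]
        field_simp
      rw [h1, map_div₀, hwp, div_one]
      exact Valuation.map_sum_lt _ one_ne_zero fun σ _ => hI' σ hwz.le
    have hwr : w.valuation M (algebraMap K M r) = 1 := by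
      have h1 : algebraMap K M r = (algebraMap K M r - z) + z := by ring
      rw [h1, Valuation.map_add_eq_of_lt_right _ (by rwa [hwz]), hwz]
    have hvr : v.valuation K r = 1 := by
      rw [valuation_above hw] at hwr
      exact (pow_eq_one_iff_of_nonneg zero_le he).1 hwr
    have hr0 : r ≠ 0 := by
      intro h0; rw [h0, map_zero] at hvr; exact zero_ne_one hvr
    have hNr : w.valuation M (algebraMap K M (Nz : K) - algebraMap K M r ^ p) < 1 := by
      rw [hNz', Algebra.norm_eq_prod_automorphisms]
      have h1 := prod_congr_mod (w.valuation M) (Finset.univ : Finset (M ≃ₐ[K] M))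
        (fun σ => σ (z : M)) (algebraMap K M r) hwr.le (fun σ _ => by
          have h2 : σ (z : M) - algebraMap K M r = (σ (z : M) - z) - (algebraMap K M r - z) := by
            ring
          rw [h2]
          exact (Valuation.map_sub _ _ _).trans_lt (max_lt (hI' σ hwz.le) hrz))
      rwa [Finset.card_univ, ← Nat.card_eq_fintype_card, hcard] at h1
    have hNr' : Nz / (Units.mk0 r hr0) ^ p ∈ congr v 1 := by
      rw [mem_congr_one_iff]
      push_cast
      rw [Units.val_mk0]
      have h1 : (Nz : K) / r ^ p - 1 = ((Nz : K) - r ^ p) / r ^ p := by field_simp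
      rw [h1, map_div₀, map_pow, hvr, one_pow, div_one]
      rw [← map_pow, ← map_sub, valuation_above hw] at hNr
      exact (pow_lt_one_iff he).1 hNr
    apply hu1
    rw [mem_locPow]
    refine ⟨Units.mk0 r hr0, ?_⟩
    have h1 : u / (Units.mk0 r hr0) ^ p = (u / Nz) * (Nz / (Units.mk0 r hr0) ^ p) := by
      rw [div_mul_div_cancel]
    rw [h1]
    exact mul_mem hz hNr'

end Fermat.Agent.H82
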