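import Fermat.Agent.H82AuxPrime
import Fermat.Agent.H82Tame

/-!
# The set `T*` of auxiliary primes
-/

set_option autoImplicit false

noncomputable section

open IsDedekindDomain NumberField WithZero

namespace Fermat.Agent.H82

universe u

/-- `|Q ⟨a⟩ / Q| = p` if `a^p ∈ Q`, `a ∉ Q`. -/
theorem relIndex_zpowers {G : Type*} [CommGroup G] {p : ℕ} [hp : Fact p.Prime] (Q : Subgroup G)
    (a : G) (ha : a ^ p ∈ Q) (ha' : a ∉ Q) : Q.relIndex (Subgroup.zpowers a ⊔ Q) = p := by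
  rw [Subgroup.relIndex_sup_right]
  have h1 : (QuotientGroup.mk' Q).ker = Q := QuotientGroup.ker_mk' Q
  have h2 := Subgroup.relIndex_ker (Subgroup.zpowers a) (QuotientGroup.mk' Q)
  rw [h1, MonoidHom.map_zpowers, Nat.card_zpowers] at h2
  rw [h2]
  refine orderOf_eq_prime ?_ ?_
  · rw [← map_pow]
    exact (QuotientGroup.eq_one_iff _).2 ha
  · intro h
    exact ha' ((QuotientGroup.eq_one_iff _).1 h)

variable {K : Type u} [Field K] [NumberField K] {p : ℕ} [hp : Fact p.Prime] {ζ : K}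
  (hζ : IsPrimitiveRoot ζ p)

/-- `T`-units are units outside `T`. -/
theorem unit_le_congr_zero {T : Set (HeightOneSpectrum (𝓞 K))} {v : HeightOneSpectrum (𝓞 K)}
    (hv : v ∉ T) : T.unit K ≤ congr v 0 := by
  intro x hx
  rw [mem_congr_zero]
  exact hx v hv

theorem mem_unit_of_pow_mem {T : Set (HeightOneSpectrum (𝓞 K))} {z : Kˣ}
    (h : z ^ p ∈ T.unit K) : z ∈ T.unit K := by
  intro v hv
  have h1 := h v hv
  push_cast at h1
  rw [map_pow] at h1
  exact (pow_eq_one_iff_of_nonneg zero_le hp.out.ne_zero).1 h1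

include hζ in
/-- Auxiliary primes cutting `D` down to the span of `a`. -/
theorem exists_aux_set_aux (T : Set (HeightOneSpectrum (𝓞 K))) (hT : T.Finite) (a : Kˣ) (k : ℕ) :
    ∀ (D : Subgroup Kˣ), D ≤ T.unit K →
      (T.unit K ⊓ (Subgroup.zpowers a ⊔ (powMonoidHom p : Kˣ →* Kˣ).range)) ≤ D →
      (T.unit K ⊓ (Subgroup.zpowers a ⊔ (powMonoidHom p : Kˣ →* Kˣ).range)).relIndex D = p ^ k →
      ∀ (S : Set (HeightOneSpectrum (𝓞 K))), S.Finite →
      ∃ A : Finset (HeightOneSpectrum (𝓞 K)), A.card = k ∧ (∀ v ∈ A, v ∉ T ∧ v ∉ S ∧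
        v.valuation K (p : K) = 1 ∧ a ∈ locPow p v 1) ∧
        D ⊓ (⨅ v ∈ A, locPow p v 1) ≤
          Subgroup.zpowers a ⊔ (powMonoidHom p : Kˣ →* Kˣ).range := by
  classical
  set D₀ := Subgroup.zpowers a ⊔ (powMonoidHom p : Kˣ →* Kˣ).range with hD₀
  induction k with
  | zero =>
    intro D _ hAD hidx S _
    rw [pow_zero, Subgroup.relIndex_eq_one] at hidx
    exact ⟨∅, rfl, by simp, inf_le_left.trans (hidx.trans inf_le_right)⟩
  | succ k ih =>
    intro D hDT hAD hidx S hS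
    -- an element of `D` outside `A`
    obtain ⟨x, hxD, hxA⟩ : ∃ x ∈ D, x ∉ T.unit K ⊓ D₀ := by
      by_contra hcon
      push Not at hcon
      have h1 : (T.unit K ⊓ D₀).relIndex D = 1 := Subgroup.relIndex_eq_one.2 hcon
      rw [h1] at hidx
      exact absurd hidx (ne_of_lt (Nat.one_lt_pow (Nat.succ_ne_zero k) hp.out.one_lt))
    have hx : ∀ j : ℕ, x / a ^ j ∉ (powMonoidHom p : Kˣ →* Kˣ).range := by
      intro j hj
      apply hxA
      refine ⟨hDT hxD, ?_⟩
      have h1 : x = a ^ j * (x / a ^ j) := by rw [mul_div_cancel]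
      rw [h1]
      exact mul_mem (Subgroup.mem_sup_left (pow_mem (Subgroup.mem_zpowers a) j))
        (Subgroup.mem_sup_right hj)
    obtain ⟨v, hvS, hvp, hav, hxv⟩ := exists_aux_prime hζ a x hx (S ∪ T) (hS.union hT)
    rw [Set.mem_union, not_or] at hvS
    set D' := D ⊓ locPow p v 1 with hD'
    have hAloc : T.unit K ⊓ D₀ ≤ locPow p v 1 :=
      inf_le_right.trans (sup_le (Subgroup.zpowers_le.2 hav) le_sup_left)
    have hAD' : T.unit K ⊓ D₀ ≤ D' := le_inf hAD hAloc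
    have h1 := Subgroup.relIndex_mul_relIndex _ _ _ hAD' (inf_le_left : D' ≤ D)
    have h2 : D'.relIndex D = (locPow p v 1).relIndex D := by
      rw [hD', inf_comm, Subgroup.inf_relIndex_right]
    have h3 : (locPow p v 1).relIndex D ≤ p := by
      have h4 := relIndex_locPow_units hζ hvp
      have h5 : D ≤ congr v 0 := hDT.trans (unit_le_congr_zero hvS.2)
      have h6 : (locPow p v 1).relIndex (congr v 0) ≠ 0 := by rw [h4]; exact hp.out.ne_zero
      exact (Subgroup.relIndex_le_of_le_right h5 h6).trans h4.le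
    have h5 : D'.relIndex D ∣ (T.unit K ⊓ D₀).relIndex D := Dvd.intro_left _ h1
    rw [hidx] at h5 h1
    obtain ⟨j, -, hj⟩ := (Nat.dvd_prime_pow hp.out).1 h5
    have hj1 : j = 1 := by
      rw [← h2, hj] at h3
      have hj0 : j ≠ 0 := by
        rintro rfl
        rw [pow_zero, h2, Subgroup.relIndex_eq_one] at hj
        exact hxv (hj hxD)
      have hj2 : j ≤ 1 := by
        have : p ^ j ≤ p ^ 1 := by rwa [pow_one]
        exact (Nat.pow_le_pow_iff_right hp.out.one_lt).1 this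
      omega
    rw [hj, hj1, pow_one, pow_succ p k] at h1
    have h6 := Nat.eq_of_mul_eq_mul_right hp.out.pos h1
    obtain ⟨A, hAcard, hA, hAle⟩ := ih D' (inf_le_left.trans hDT) hAD' h6 (insert v S)
      (hS.insert v)
    have hvA : v ∉ A := fun h => (hA v h).2.1 (Set.mem_insert v S)
    refine ⟨insert v A, by rw [Finset.card_insert_of_notMem hvA, hAcard], ?_, ?_⟩
    · intro u hu
      rcases Finset.mem_insert.1 hu with rfl | hu
      · exact ⟨hvS.2, hvS.1, hvp, hav⟩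
      · obtain ⟨h1, h2, h3⟩ := hA u hu
        exact ⟨h1, fun h => h2 (Set.mem_insert_of_mem v h), h3⟩
    · rw [Finset.iInf_insert]
      refine le_trans ?_ hAle
      rw [hD', inf_assoc]

/-- `p`-th powers in `T`-units. -/
theorem unit_inf_pow (T : Set (HeightOneSpectrum (𝓞 K))) :
    T.unit K ⊓ (powMonoidHom p : Kˣ →* Kˣ).range
      = (T.unit K).map (powMonoidHom p : Kˣ →* Kˣ) := by
  ext x
  constructor
  · rintro ⟨hx, ⟨z, rfl⟩⟩
    exact ⟨z, mem_unit_of_pow_mem (p := p) hx, rfl⟩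
  · rintro ⟨z, hz, rfl⟩
    exact ⟨pow_mem hz p, ⟨z, rfl⟩⟩

theorem unit_inf_sup (T : Set (HeightOneSpectrum (𝓞 K))) {a : Kˣ} (ha : a ∈ T.unit K) :
    T.unit K ⊓ (Subgroup.zpowers a ⊔ (powMonoidHom p : Kˣ →* Kˣ).range)
      = Subgroup.zpowers a ⊔ (T.unit K).map (powMonoidHom p : Kˣ →* Kˣ) := by
  rw [← unit_inf_pow, inf_comm, inf_comm (T.unit K), sup_inf_assoc_of_le]
  exact Subgroup.zpowers_le.2 ha

include hζ in
/-- **Existence of the auxiliary primes `T*`.** -/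
theorem exists_aux_set (T : Set (HeightOneSpectrum (𝓞 K))) (hT : T.Finite) {a : Kˣ}
    (ha : a ∈ T.unit K) (ha' : a ∉ (powMonoidHom p : Kˣ →* Kˣ).range)
    (S : Set (HeightOneSpectrum (𝓞 K))) (hS : S.Finite) :
    ∃ A : Finset (HeightOneSpectrum (𝓞 K)),
      A.card = NumberField.Units.rank K + T.ncard ∧ (∀ v ∈ A, v ∉ T ∧ v ∉ S ∧
        v.valuation K (p : K) = 1 ∧ a ∈ locPow p v 1) ∧
      (⨅ v ∈ A, locPow p v 1).relIndex (T.unit K) = p ^ A.card ∧
      T.unit K ⊓ (⨅ v ∈ A, locPow p v 1) ≤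
          Subgroup.zpowers a ⊔ (powMonoidHom p : Kˣ →* Kˣ).range := by
  have : NeZero p := ⟨hp.out.ne_zero⟩
  have h1 := H47.relIndex_map_pow_unit K T hT hζ
  have h2 := relIndex_zpowers (p := p) ((T.unit K).map (powMonoidHom p : Kˣ →* Kˣ)) a
    ⟨a, ha, rfl⟩ (fun h => ha' (by obtain ⟨z, -, hz⟩ := h; exact ⟨z, hz⟩))
  have h3 : (T.unit K).map (powMonoidHom p : Kˣ →* Kˣ) ≤ Subgroup.zpowers a ⊔
      (T.unit K).map (powMonoidHom p : Kˣ →* Kˣ) := le_sup_right
  have h4 : Subgroup.zpowers a ⊔ (T.unit K).map (powMonoidHom p : Kˣ →* Kˣ) ≤ T.unit K := by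
    rw [← unit_inf_sup T ha]; exact inf_le_left
  have h5 := Subgroup.relIndex_mul_relIndex _ _ _ h3 h4
  rw [h1, h2, pow_succ, mul_comm] at h5
  have h6 := Nat.eq_of_mul_eq_mul_right hp.out.pos h5
  rw [← unit_inf_sup T ha] at h6
  obtain ⟨A, hA1, hA2, hA3⟩ := exists_aux_set_aux hζ T hT a _ (T.unit K) le_rfl inf_le_left h6 S hS
  refine ⟨A, hA1, hA2, ?_, hA3⟩
  rw [hA1, ← h6, ← Subgroup.inf_relIndex_right]
  congr 1
  refine le_antisymm (le_inf inf_le_right (inf_comm (T.unit K) _ ▸ hA3)) (le_inf ?_ inf_le_left)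
  refine inf_le_right.trans (sup_le ?_ ?_)
  · rw [Subgroup.zpowers_le, Subgroup.mem_iInf]
    intro v
    rw [Subgroup.mem_iInf]
    exact fun hv => (hA2 v hv).2.2.2
  · exact le_iInf fun v => le_iInf fun _ => le_sup_left

end Fermat.Agent.H82
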