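import Mathlib

/-!
# Degree one primes and the logarithmic pole of the Dedekind zeta function

Main result: `Fermat.Agent.H82.sum_idealCount_prime_isBigO`: for a number field `K`, with
`idealCount K p` = number of ideals of `𝓞 K` of norm `p`,
`∑ₚ idealCount K p * p^{-s} + log (s - 1) = O(1)` as `s → 1⁺`.
-/

set_option autoImplicit false
namespace Fermat.Agent.H82
open NumberField Ideal Filter Topology

section mult
variable (K : Type*) [Field K] [NumberField K]

/-- number of ideals of norm `n` in the ring of integers of `K`. -/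
noncomputable def idealCount (n : ℕ) : ℕ := Nat.card {I : Ideal (𝓞 K) // absNorm I = n}

variable {K}

lemma sup_span_natCast_eq_top {m n : ℕ} (h : m.Coprime n) {J : Ideal (𝓞 K)} (hJ : absNorm J = n) :
    J ⊔ span {(m : 𝓞 K)} = ⊤ := by
  rw [Ideal.eq_top_iff_one]
  have h1 : (n : 𝓞 K) ∈ J := hJ ▸ absNorm_mem J
  have h2 : ((Nat.gcd m n : ℤ) : 𝓞 K) = (m : 𝓞 K) * ((Nat.gcdA m n : ℤ) : 𝓞 K) + (n : 𝓞 K) * ((Nat.gcdB m n : ℤ) : 𝓞 K) := by
    rw [Nat.gcd_eq_gcd_ab]; push_cast; ring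
  rw [Nat.Coprime] at h
  rw [h] at h2
  simp only [Nat.cast_one, Int.cast_one] at h2
  rw [h2, add_comm]
  exact Submodule.add_mem_sup (J.mul_mem_right _ h1) (Ideal.mul_mem_right _ _ (mem_span_singleton_self _))

lemma mul_sup_span_eq {m n : ℕ} (h : m.Coprime n) {I J : Ideal (𝓞 K)} (hI : absNorm I = m) (hJ : absNorm J = n) :
    I * J ⊔ span {(m : 𝓞 K)} = I := by
  apply le_antisymm
  · refine sup_le Ideal.mul_le_left ?_
    rw [span_singleton_le_iff_mem]
    exact hI ▸ absNorm_mem I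
  · calc I = I * (J ⊔ span {(m : 𝓞 K)}) := by rw [sup_span_natCast_eq_top h hJ, Ideal.mul_top]
      _ = I * J ⊔ I * span {(m : 𝓞 K)} := Ideal.mul_sup _ _ _
      _ ≤ I * J ⊔ span {(m : 𝓞 K)} := sup_le_sup_left Ideal.mul_le_right _

lemma idealCount_mul {m n : ℕ} (h : m.Coprime n) :
    idealCount K (m * n) = idealCount K m * idealCount K n := by
  rw [idealCount, idealCount, idealCount, ← Nat.card_prod]
  symm
  refine Nat.card_congr (Equiv.ofBijective (fun x => ⟨x.1.1 * x.2.1, by rw [map_mul, x.1.2, x.2.2]⟩) ⟨?_, ?_⟩)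
  · rintro ⟨⟨I, hI⟩, ⟨J, hJ⟩⟩ ⟨⟨I', hI'⟩, ⟨J', hJ'⟩⟩ hx
    simp only [Subtype.mk.injEq] at hx
    have e1 : I = I' := by
      rw [← mul_sup_span_eq h hI hJ, ← mul_sup_span_eq h hI' hJ', hx]
    have e2 : J = J' := by
      rw [← mul_sup_span_eq h.symm hJ hI, ← mul_sup_span_eq h.symm hJ' hI', mul_comm J, mul_comm J', hx]
    simp only [Prod.mk.injEq, Subtype.mk.injEq]
    exact ⟨e1, e2⟩
  · rintro ⟨I, hI⟩
    have key : (I ⊔ span {(m : 𝓞 K)}) * (I ⊔ span {(n : 𝓞 K)}) = I := by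
      apply le_antisymm
      · rw [Ideal.sup_mul, Ideal.mul_sup, Ideal.mul_sup]
        refine sup_le (sup_le Ideal.mul_le_left Ideal.mul_le_left) (sup_le Ideal.mul_le_right ?_)
        rw [Ideal.span_singleton_mul_span_singleton, span_singleton_le_iff_mem, ← Nat.cast_mul]
        exact hI ▸ absNorm_mem I
      · have htop : (span {(m : 𝓞 K)} ⊔ span {(n : 𝓞 K)} : Ideal (𝓞 K)) = ⊤ := by
          rw [Ideal.eq_top_iff_one]
          have h2 : ((Nat.gcd m n : ℤ) : 𝓞 K) = (m : 𝓞 K) * ((Nat.gcdA m n : ℤ) : 𝓞 K) + (n : 𝓞 K) * ((Nat.gcdB m n : ℤ) : 𝓞 K) := by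
            rw [Nat.gcd_eq_gcd_ab]; push_cast; ring
          rw [Nat.Coprime] at h
          rw [h] at h2
          simp only [Nat.cast_one, Int.cast_one] at h2
          rw [h2]
          exact Submodule.add_mem_sup (Ideal.mul_mem_right _ _ (mem_span_singleton_self _))
            (Ideal.mul_mem_right _ _ (mem_span_singleton_self _))
        calc I = I * (span {(m : 𝓞 K)} ⊔ span {(n : 𝓞 K)}) := by rw [htop, Ideal.mul_top]
          _ = I * span {(m : 𝓞 K)} ⊔ I * span {(n : 𝓞 K)} := Ideal.mul_sup _ _ _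
          _ ≤ (I ⊔ span {(m : 𝓞 K)}) * (I ⊔ span {(n : 𝓞 K)}) := by
            refine sup_le ?_ ?_
            · rw [mul_comm]
              exact Ideal.mul_mono le_sup_right le_sup_left
            · exact Ideal.mul_mono le_sup_left le_sup_right
    have hprod : absNorm (I ⊔ span {(m : 𝓞 K)}) * absNorm (I ⊔ span {(n : 𝓞 K)}) = m * n := by
      rw [← map_mul, key, hI]
    have d1 : absNorm (I ⊔ span {(m : 𝓞 K)}) ∣ m ^ Module.finrank ℤ (𝓞 K) := by
      rw [← absNorm_span_natCast]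
      exact absNorm_dvd_absNorm_of_le le_sup_right
    have d2 : absNorm (I ⊔ span {(n : 𝓞 K)}) ∣ n ^ Module.finrank ℤ (𝓞 K) := by
      rw [← absNorm_span_natCast]
      exact absNorm_dvd_absNorm_of_le le_sup_right
    have c1 : Nat.Coprime (absNorm (I ⊔ span {(m : 𝓞 K)})) n :=
      Nat.Coprime.coprime_dvd_left d1 (Nat.Coprime.pow_left _ h)
    have c2 : Nat.Coprime (absNorm (I ⊔ span {(n : 𝓞 K)})) m :=
      Nat.Coprime.coprime_dvd_left d2 (Nat.Coprime.pow_left _ h.symm)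
    have e1 : absNorm (I ⊔ span {(m : 𝓞 K)}) ∣ m :=
      c1.dvd_of_dvd_mul_right (hprod ▸ dvd_mul_right _ _)
    have e2 : absNorm (I ⊔ span {(n : 𝓞 K)}) ∣ n :=
      c2.dvd_of_dvd_mul_left (hprod ▸ dvd_mul_left _ _)
    have c3 : Nat.Coprime m (absNorm (I ⊔ span {(n : 𝓞 K)})) := c2.symm
    have f1 : m ∣ absNorm (I ⊔ span {(m : 𝓞 K)}) :=
      c3.dvd_of_dvd_mul_right (hprod ▸ dvd_mul_right _ _)
    have f2 : n ∣ absNorm (I ⊔ span {(n : 𝓞 K)}) :=
      c1.symm.dvd_of_dvd_mul_left (hprod ▸ dvd_mul_left _ _)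
    refine ⟨⟨⟨I ⊔ span {(m : 𝓞 K)}, Nat.dvd_antisymm e1 f1⟩, ⟨I ⊔ span {(n : 𝓞 K)}, Nat.dvd_antisymm e2 f2⟩⟩, ?_⟩
    simp only [Subtype.mk.injEq]
    exact key

lemma idealCount_one : idealCount K 1 = 1 := by
  rw [idealCount, Nat.card_eq_one_iff_unique]
  refine ⟨⟨fun a b => ?_⟩, ⟨⟨⊤, by simp⟩⟩⟩
  have h1 := absNorm_eq_one_iff.mp a.2
  have h2 := absNorm_eq_one_iff.mp b.2
  exact Subtype.ext (h1.trans h2.symm)


open UniqueFactorizationMonoid in
lemma idealCount_prime_pow_le {p : ℕ} (hp : p.Prime) (e : ℕ) :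
    idealCount K (p ^ e) ≤ (e + 1) ^ (Module.finrank ℚ K) := by
  classical
  have hp0 : (span {(p : ℤ)} : Ideal ℤ) ≠ ⊥ := by
    simp [Ideal.span_singleton_eq_bot, hp.ne_zero]
  have hpm : (span {(p : ℤ)} : Ideal ℤ).IsMaximal := by
    have hpp : Prime (p : ℤ) := Nat.prime_iff_prime_int.mp hp
    exact ((span_singleton_prime (by exact_mod_cast hp.ne_zero)).mpr hpp).isMaximal hp0
  set T := IsDedekindDomain.primesOverFinset (span {(p : ℤ)}) (𝓞 K) with hT
  have hne : ∀ I : Ideal (𝓞 K), absNorm I = p ^ e → I ≠ 0 := by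
    intro I hI h0
    rw [h0, Ideal.zero_eq_bot, absNorm_bot] at hI
    exact (pow_pos hp.pos e).ne hI
  have hmem : ∀ I : Ideal (𝓞 K), absNorm I = p ^ e → ∀ P ∈ normalizedFactors I, P ∈ T := by
    intro I hI P hP
    have hPp : Prime P := prime_of_normalized_factor P hP
    have hPI : P ∣ I := dvd_of_mem_normalizedFactors hP
    have : P.IsPrime := isPrime_of_prime hPp
    rw [hT, IsDedekindDomain.mem_primesOverFinset_iff hp0]
    refine ⟨inferInstance, ?_⟩
    have h1 : ((p ^ e : ℕ) : 𝓞 K) ∈ P := Ideal.le_of_dvd hPI (hI ▸ absNorm_mem I)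
    have h2 : ((p : ℕ) : 𝓞 K) ∈ P := by
      rw [Nat.cast_pow] at h1
      exact (inferInstance : P.IsPrime).mem_of_pow_mem _ h1
    constructor
    rw [Ideal.under_def]
    refine hpm.eq_of_le ?_ ?_
    · exact (Ideal.IsPrime.comap _ (hK := inferInstance)).ne_top
    · rw [span_singleton_le_iff_mem, Ideal.mem_comap]
      simpa using h2
  have hcount : ∀ I : Ideal (𝓞 K), absNorm I = p ^ e → ∀ P, (normalizedFactors I).count P < e + 1 := by
    intro I hI P
    rw [Nat.lt_succ_iff]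
    by_cases hP : P ∈ normalizedFactors I
    · have hPp : Prime P := prime_of_normalized_factor P hP
      set c := (normalizedFactors I).count P with hc
      have h1 : P ^ c ∣ I := by
        have h2 : (Multiset.replicate c P).prod ∣ (normalizedFactors I).prod :=
          Multiset.prod_dvd_prod_of_le (Multiset.le_count_iff_replicate_le.mp le_rfl)
        rw [Multiset.prod_replicate] at h2
        exact h2.trans (prod_normalizedFactors (hne I hI)).dvd
      have h3 : absNorm P ^ c ∣ p ^ e := by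
        rw [← map_pow, ← hI]
        exact map_dvd absNorm h1
      have hcpos : 0 < c := Multiset.count_pos.mpr hP
      have h4 : absNorm P ∣ p ^ e := (dvd_pow_self _ hcpos.ne').trans h3
      have h5 : absNorm P ≠ 1 := by
        rw [Ne, absNorm_eq_one_iff]
        intro h; apply hPp.not_isUnit; rw [h, ← Ideal.one_eq_top]; exact isUnit_one
      obtain ⟨k, hk, hk'⟩ := (Nat.dvd_prime_pow hp).mp h4
      have hk0 : k ≠ 0 := by
        rintro rfl
        exact h5 (by simpa using hk')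
      have h6 : p ∣ absNorm P := hk' ▸ dvd_pow_self p hk0
      have h7 : p ^ c ∣ p ^ e := (pow_dvd_pow_of_dvd h6 c).trans h3
      exact (Nat.pow_dvd_pow_iff_le_right hp.one_lt).mp h7
    · rw [Multiset.count_eq_zero_of_notMem hP]; exact Nat.zero_le _
  let f : {I : Ideal (𝓞 K) // absNorm I = p ^ e} → (T → Fin (e + 1)) :=
    fun I P => ⟨(normalizedFactors I.1).count P.1, hcount I.1 I.2 P.1⟩
  have hf : Function.Injective f := by
    intro I J hIJ
    apply Subtype.ext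
    have h1 : normalizedFactors I.1 = normalizedFactors J.1 := by
      ext P
      by_cases hP : P ∈ T
      · have := congrFun hIJ ⟨P, hP⟩
        simpa [f] using this
      · rw [Multiset.count_eq_zero_of_notMem fun h => hP (hmem I.1 I.2 P h),
          Multiset.count_eq_zero_of_notMem fun h => hP (hmem J.1 J.2 P h)]
    have h2 := Ideal.prod_normalizedFactors_eq_self (hne I.1 I.2)
    have h3 := Ideal.prod_normalizedFactors_eq_self (hne J.1 J.2)
    rw [← h2, ← h3, h1]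
  have h1 : idealCount K (p ^ e) ≤ Nat.card (T → Fin (e + 1)) := Nat.card_le_card_of_injective f hf
  refine h1.trans ?_
  rw [Nat.card_pi]
  simp only [Nat.card_eq_fintype_card, Fintype.card_fin, Finset.prod_const, Finset.card_univ,
    Fintype.card_coe]
  exact Nat.pow_le_pow_right (Nat.succ_pos e) (card_primesOverFinset_le_finrank (R := ℤ) (S := 𝓞 K) ℚ K hp0)


variable (K) in
lemma tendsto_sum_idealCount_div :
    Tendsto (fun n : ℕ => (∑ k ∈ Finset.Icc 1 n, (idealCount K k : ℝ)) / n) atTop (𝓝 (dedekindZeta_residue K)) := by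
  refine ((Ideal.tendsto_norm_le_div_atTop₀ K).comp tendsto_natCast_atTop_atTop).congr fun n ↦ ?_
  simp only [Function.comp_apply, Nat.cast_le, ← Nat.cast_sum]
  congr
  rw [← add_left_inj 1, ← card_norm_le_eq_card_norm_le_add_one,
    show Finset.Icc 1 n = Finset.Ioc 0 n from Finset.Icc_succ_left_eq_Ioc _ _,
    show 1 = Nat.card {I : Ideal (𝓞 K) // absNorm I = 0} by simp [Ideal.absNorm_eq_zero_iff]]
  simp only [idealCount]
  rw [Finset.sum_Ioc_add_eq_sum_Icc (n.zero_le),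
    ← Finset.card_preimage_eq_sum_card_image_eq (fun k _ ↦ finite_setOfPred_absNorm_eq k)]
  simp [Set.coe_eq_subtype]

variable (K) in
lemma sum_idealCount_isBigO :
    (fun n : ℕ => ∑ k ∈ Finset.Icc 1 n, (idealCount K k : ℝ)) =O[atTop] fun n => (n : ℝ) ^ (1 : ℝ) := by
  have h := (tendsto_sum_idealCount_div K).isBigO_one ℝ
  have h2 : (fun n : ℕ => ∑ k ∈ Finset.Icc 1 n, (idealCount K k : ℝ)) =ᶠ[atTop]
      fun n : ℕ => ((∑ k ∈ Finset.Icc 1 n, (idealCount K k : ℝ)) / n) * n := by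
    filter_upwards [eventually_ge_atTop 1] with n hn
    rw [div_mul_cancel₀]
    exact_mod_cast (by omega : n ≠ 0)
  refine h2.trans_isBigO ?_
  have h3 := h.mul (Asymptotics.isBigO_refl (fun n : ℕ => (n : ℝ)) atTop)
  simpa using h3

variable (K) in
lemma lseriesSummable_idealCount {s : ℝ} (hs : 1 < s) :
    LSeriesSummable (fun n => ((idealCount K n : ℝ) : ℂ)) (s : ℂ) :=
  LSeriesSummable_of_sum_norm_bigO_and_nonneg (sum_idealCount_isBigO K) (fun _ => Nat.cast_nonneg _)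
    zero_le_one (by simpa using hs)

variable (K) in
lemma term_eq {s : ℝ} (hs : 1 < s) (n : ℕ) :
    LSeries.term (fun n => ((idealCount K n : ℝ) : ℂ)) (s : ℂ) n = (((idealCount K n : ℝ) * (n : ℝ) ^ (-s) : ℝ) : ℂ) := by
  rcases Nat.eq_zero_or_pos n with rfl | hn
  · simp [Real.zero_rpow (by linarith : -s ≠ 0)]
  · rw [LSeries.term_of_ne_zero hn.ne', Real.rpow_neg (Nat.cast_nonneg _)]
    push_cast
    rw [Complex.ofReal_cpow (Nat.cast_nonneg _), Complex.ofReal_natCast, div_eq_mul_inv]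

variable (K) in
lemma summable_idealCount {s : ℝ} (hs : 1 < s) :
    Summable (fun n : ℕ => (idealCount K n : ℝ) * (n : ℝ) ^ (-s)) := by
  have h := lseriesSummable_idealCount K hs
  rw [LSeriesSummable, funext (term_eq K hs)] at h
  exact_mod_cast h

variable (K) in
lemma dedekindZeta_eq {s : ℝ} (hs : 1 < s) :
    dedekindZeta K (s : ℂ) = ((∑' n : ℕ, (idealCount K n : ℝ) * (n : ℝ) ^ (-s) : ℝ) : ℂ) := by
  rw [Complex.ofReal_tsum, dedekindZeta, LSeries]
  refine tsum_congr fun n => ?_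
  rw [← term_eq K hs]
  rfl

variable (K) in
/-- real zeta -/
noncomputable def zetaR (s : ℝ) : ℝ := ∑' n : ℕ, (idealCount K n : ℝ) * (n : ℝ) ^ (-s)

variable (K) in
lemma tendsto_zetaR : Tendsto (fun s : ℝ => (s - 1) * zetaR K s) (𝓝[>] 1) (𝓝 (dedekindZeta_residue K)) := by
  have h := tendsto_sub_one_mul_dedekindZeta_nhdsGT K
  have h2 : Tendsto (fun s : ℝ => (((s - 1) * zetaR K s : ℝ) : ℂ)) (𝓝[>] 1) (𝓝 ((dedekindZeta_residue K : ℝ) : ℂ)) := by
    refine h.congr' ?_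
    filter_upwards [self_mem_nhdsWithin] with s hs
    rw [dedekindZeta_eq K hs, zetaR]
    push_cast
    ring
  have h3 := (Complex.continuous_re.tendsto _).comp h2
  simpa [Function.comp_def] using h3


variable (K) in
/-- the local factor constant -/
noncomputable def locConst : ℝ := ∑' e : ℕ, ((e : ℝ) + 3) ^ (Module.finrank ℚ K) * (1 / 2 : ℝ) ^ e

lemma summable_shift_pow_geom (d : ℕ) : Summable fun e : ℕ => ((e : ℝ) + 3) ^ d * (1 / 2 : ℝ) ^ e := by
  have h1 : Summable fun e : ℕ => ((e : ℝ)) ^ d * (1 / 2 : ℝ) ^ e :=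
    summable_pow_mul_geometric_of_norm_lt_one d (by norm_num)
  have h2 := (summable_nat_add_iff 3).mpr h1
  have h3 := h2.mul_left 8
  refine h3.congr fun e => ?_
  push_cast
  rw [pow_add]
  ring

variable (K) in
lemma locConst_nonneg : 0 ≤ locConst K := tsum_nonneg fun e => by positivity

variable (K) in
/-- local factor -/
noncomputable def locFactor (s : ℝ) (p : ℕ) : ℝ := ∑' e : ℕ, (idealCount K (p ^ e) : ℝ) * ((p ^ e : ℕ) : ℝ) ^ (-s)

lemma locTerm_le {p : ℕ} (hp : p.Prime) {s : ℝ} (hs : 1 < s) (e : ℕ) :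
    (idealCount K (p ^ (e + 2)) : ℝ) * ((p ^ (e + 2) : ℕ) : ℝ) ^ (-s) ≤
      ((p : ℝ) ^ 2)⁻¹ * (((e : ℝ) + 3) ^ (Module.finrank ℚ K) * (1 / 2 : ℝ) ^ e) := by
  have hp1 : (1 : ℝ) ≤ (p : ℝ) := by exact_mod_cast hp.one_le
  have hp2 : (2 : ℝ) ≤ (p : ℝ) := by exact_mod_cast hp.two_le
  have h1 : (idealCount K (p ^ (e + 2)) : ℝ) ≤ ((e : ℝ) + 3) ^ (Module.finrank ℚ K) := by
    have := idealCount_prime_pow_le (K := K) hp (e + 2)
    have h : (idealCount K (p ^ (e + 2)) : ℝ) ≤ (((e + 2 + 1 : ℕ) : ℝ)) ^ (Module.finrank ℚ K) := by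
      exact_mod_cast this
    refine h.trans (le_of_eq ?_)
    push_cast
    ring
  have h2 : ((p ^ (e + 2) : ℕ) : ℝ) ^ (-s) ≤ ((p : ℝ) ^ 2)⁻¹ * (1 / 2 : ℝ) ^ e := by
    have hge : (1 : ℝ) ≤ ((p ^ (e + 2) : ℕ) : ℝ) := by
      exact_mod_cast Nat.one_le_pow _ _ hp.pos
    calc ((p ^ (e + 2) : ℕ) : ℝ) ^ (-s) ≤ ((p ^ (e + 2) : ℕ) : ℝ) ^ (-1 : ℝ) :=
          Real.rpow_le_rpow_of_exponent_le hge (by linarith)
      _ = ((p : ℝ) ^ 2)⁻¹ * ((p : ℝ)⁻¹) ^ e := by
          rw [Real.rpow_neg_one]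
          push_cast
          rw [pow_add, mul_inv, inv_pow, mul_comm]
      _ ≤ ((p : ℝ) ^ 2)⁻¹ * (1 / 2 : ℝ) ^ e := by
          gcongr
          rw [one_div]
          gcongr
  calc (idealCount K (p ^ (e + 2)) : ℝ) * ((p ^ (e + 2) : ℕ) : ℝ) ^ (-s)
      ≤ ((e : ℝ) + 3) ^ (Module.finrank ℚ K) * (((p : ℝ) ^ 2)⁻¹ * (1 / 2 : ℝ) ^ e) := by
        gcongr
    _ = _ := by ring

lemma summable_locTerm {p : ℕ} (hp : p.Prime) {s : ℝ} (hs : 1 < s) :
    Summable fun e : ℕ => (idealCount K (p ^ e) : ℝ) * ((p ^ e : ℕ) : ℝ) ^ (-s) := by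
  rw [← summable_nat_add_iff 2]
  refine Summable.of_nonneg_of_le (fun e => by positivity) (fun e => locTerm_le hp hs e) ?_
  exact (summable_shift_pow_geom _).mul_left _

lemma locFactor_ge {p : ℕ} (hp : p.Prime) {s : ℝ} (hs : 1 < s) :
    1 + (idealCount K p : ℝ) * (p : ℝ) ^ (-s) ≤ locFactor K s p := by
  rw [locFactor, (summable_locTerm hp hs).tsum_eq_zero_add,
    ((summable_nat_add_iff 1).mpr (summable_locTerm hp hs)).tsum_eq_zero_add]
  simp only [pow_zero, Nat.cast_one, Real.one_rpow, zero_add, pow_one, idealCount_one, mul_one]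
  have : 0 ≤ ∑' (b : ℕ), (idealCount K (p ^ (b + 1 + 1)) : ℝ) * ((p ^ (b + 1 + 1) : ℕ) : ℝ) ^ (-s) :=
    tsum_nonneg fun e => by positivity
  linarith

lemma locFactor_le {p : ℕ} (hp : p.Prime) {s : ℝ} (hs : 1 < s) :
    locFactor K s p ≤ 1 + (idealCount K p : ℝ) * (p : ℝ) ^ (-s) + locConst K * ((p : ℝ) ^ 2)⁻¹ := by
  rw [locFactor, (summable_locTerm hp hs).tsum_eq_zero_add,
    ((summable_nat_add_iff 1).mpr (summable_locTerm hp hs)).tsum_eq_zero_add]
  simp only [pow_zero, Nat.cast_one, Real.one_rpow, zero_add, pow_one, idealCount_one, mul_one]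
  have : ∑' (b : ℕ), (idealCount K (p ^ (b + 1 + 1)) : ℝ) * ((p ^ (b + 1 + 1) : ℕ) : ℝ) ^ (-s)
      ≤ ∑' e : ℕ, ((p : ℝ) ^ 2)⁻¹ * (((e : ℝ) + 3) ^ (Module.finrank ℚ K) * (1 / 2 : ℝ) ^ e) := by
    refine Summable.tsum_le_tsum (fun e => locTerm_le hp hs e) ?_ ?_
    · exact (summable_nat_add_iff 2).mpr (summable_locTerm hp hs)
    · exact (summable_shift_pow_geom _).mul_left _
  rw [tsum_mul_left] at this
  rw [locConst]
  linarith

variable (K) in
noncomputable def bigConst : ℝ := ((2 : ℝ) ^ (Module.finrank ℚ K) + locConst K) ^ 2 + locConst K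

lemma idealCount_prime_le {p : ℕ} (hp : p.Prime) : (idealCount K p : ℝ) ≤ (2 : ℝ) ^ (Module.finrank ℚ K) := by
  have h := idealCount_prime_pow_le (K := K) hp 1
  rw [pow_one] at h
  exact_mod_cast h

lemma abs_log_locFactor_sub_le {p : ℕ} (hp : p.Prime) {s : ℝ} (hs : 1 < s) :
    |Real.log (locFactor K s p) - (idealCount K p : ℝ) * (p : ℝ) ^ (-s)| ≤ bigConst K * ((p : ℝ) ^ 2)⁻¹ := by
  have hp0 : (0 : ℝ) < (p : ℝ) := by exact_mod_cast hp.pos
  have hp1 : (1 : ℝ) ≤ (p : ℝ) := by exact_mod_cast hp.one_le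
  have hge := locFactor_ge (K := K) hp hs
  have hle := locFactor_le (K := K) hp hs
  set t : ℝ := (idealCount K p : ℝ) * (p : ℝ) ^ (-s) with ht
  set E := locFactor K s p with hE
  have ht0 : 0 ≤ t := by positivity
  have hC := locConst_nonneg K
  have hE1 : 1 ≤ E := by linarith
  have hE0 : 0 < E := by linarith
  have hq : 0 < ((p : ℝ) ^ 2)⁻¹ := by positivity
  have htle : t ≤ (2 : ℝ) ^ (Module.finrank ℚ K) * (p : ℝ)⁻¹ := by
    rw [ht]
    have h1 : (p : ℝ) ^ (-s) ≤ (p : ℝ)⁻¹ := by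
      rw [← Real.rpow_neg_one]
      exact Real.rpow_le_rpow_of_exponent_le hp1 (by linarith)
    have := idealCount_prime_le (K := K) hp
    gcongr
  have hx : E - 1 ≤ ((2 : ℝ) ^ (Module.finrank ℚ K) + locConst K) * (p : ℝ)⁻¹ := by
    have h3 : locConst K * ((p : ℝ) ^ 2)⁻¹ ≤ locConst K * (p : ℝ)⁻¹ := by
      gcongr
      nlinarith
    nlinarith
  have hx2 : (E - 1) ^ 2 ≤ ((2 : ℝ) ^ (Module.finrank ℚ K) + locConst K) ^ 2 * ((p : ℝ) ^ 2)⁻¹ := by
    have h0 : 0 ≤ E - 1 := by linarith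
    calc (E - 1) ^ 2 ≤ (((2 : ℝ) ^ (Module.finrank ℚ K) + locConst K) * (p : ℝ)⁻¹) ^ 2 := by
          gcongr
      _ = _ := by rw [mul_pow, inv_pow]
  have hlog1 : Real.log E ≤ E - 1 := Real.log_le_sub_one_of_pos hE0
  have hlog2 : 1 - E⁻¹ ≤ Real.log E := Real.one_sub_inv_le_log_of_pos hE0
  have hlog3 : (E - 1) - (E - 1) ^ 2 ≤ 1 - E⁻¹ := by
    have h0 : 0 ≤ E - 1 := by linarith
    have h4 : (1 - E⁻¹) - ((E - 1) - (E - 1) ^ 2) = (E - 1) ^ 3 * E⁻¹ := by
      field_simp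
      ring
    have h5 : 0 ≤ (E - 1) ^ 3 * E⁻¹ := by positivity
    linarith
  rw [abs_le, bigConst]
  constructor
  · nlinarith
  · nlinarith [sq_nonneg ((2 : ℝ) ^ (Module.finrank ℚ K) + locConst K)]


lemma summable_prime_inv_sq : Summable fun p : Nat.Primes => (((p : ℕ) : ℝ) ^ 2)⁻¹ := by
  have h : Summable fun n : ℕ => ((n : ℝ) ^ 2)⁻¹ := by
    simp
  exact h.comp_injective (i := fun p : Nat.Primes => (p : ℕ)) Nat.Primes.coe_nat_injective

variable (K) in
lemma summable_prime_idealCount {s : ℝ} (hs : 1 < s) :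
    Summable fun p : Nat.Primes => (idealCount K p : ℝ) * ((p : ℕ) : ℝ) ^ (-s) :=
  (summable_idealCount K hs).comp_injective (i := fun p : Nat.Primes => (p : ℕ)) Nat.Primes.coe_nat_injective

variable (K) in
lemma hasProd_locFactor {s : ℝ} (hs : 1 < s) :
    HasProd (fun p : Nat.Primes => locFactor K s p) (zetaR K s) := by
  have h := EulerProduct.eulerProduct_hasProd (R := ℝ) (f := fun n : ℕ => (idealCount K n : ℝ) * (n : ℝ) ^ (-s))
    (by simp [idealCount_one]) ?_ ?_ ?_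
  · exact h
  · intro m n hmn
    rw [idealCount_mul hmn]
    push_cast
    rw [Real.mul_rpow (Nat.cast_nonneg _) (Nat.cast_nonneg _)]
    ring
  · exact (summable_idealCount K hs).norm
  · simp [Real.zero_rpow (by linarith : -s ≠ 0)]

variable (K) in
lemma summable_log_locFactor_sub {s : ℝ} (hs : 1 < s) :
    Summable fun p : Nat.Primes => Real.log (locFactor K s p) - (idealCount K p : ℝ) * ((p : ℕ) : ℝ) ^ (-s) := by
  refine Summable.of_norm_bounded (g := fun p : Nat.Primes => bigConst K * (((p : ℕ) : ℝ) ^ 2)⁻¹)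
    (summable_prime_inv_sq.mul_left _) fun p => ?_
  rw [Real.norm_eq_abs]
  exact abs_log_locFactor_sub_le p.2 hs

variable (K) in
lemma summable_log_locFactor {s : ℝ} (hs : 1 < s) :
    Summable fun p : Nat.Primes => Real.log (locFactor K s p) := by
  have := (summable_log_locFactor_sub K hs).add (summable_prime_idealCount K hs)
  simpa using this

variable (K) in
lemma log_zetaR_eq {s : ℝ} (hs : 1 < s) :
    Real.log (zetaR K s) = ∑' p : Nat.Primes, Real.log (locFactor K s p) := by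
  have hpos : ∀ p : Nat.Primes, 0 < locFactor K s p := fun p => by
    have := locFactor_ge (K := K) p.2 hs
    have h2 : 0 ≤ (idealCount K p : ℝ) * ((p : ℕ) : ℝ) ^ (-s) := by positivity
    linarith
  have h := Real.rexp_tsum_eq_tprod hpos (summable_log_locFactor K hs)
  rw [(hasProd_locFactor K hs).tprod_eq] at h
  rw [← h, Real.log_exp]

variable (K) in
lemma abs_log_zetaR_sub_le {s : ℝ} (hs : 1 < s) :
    |Real.log (zetaR K s) - ∑' p : Nat.Primes, (idealCount K p : ℝ) * ((p : ℕ) : ℝ) ^ (-s)| ≤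
      ∑' p : Nat.Primes, bigConst K * (((p : ℕ) : ℝ) ^ 2)⁻¹ := by
  rw [log_zetaR_eq K hs, ← (summable_log_locFactor K hs).tsum_sub (summable_prime_idealCount K hs)]
  rw [← Real.norm_eq_abs]
  refine tsum_of_norm_bounded (summable_prime_inv_sq.mul_left _).hasSum fun p => ?_
  rw [Real.norm_eq_abs]
  exact abs_log_locFactor_sub_le p.2 hs

variable (K) in
/-- The prime sum attached to degree one primes of `K` has a logarithmic pole with coefficient one. -/
theorem sum_idealCount_prime_isBigO :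
    (fun s : ℝ => (∑' p : Nat.Primes, (idealCount K p : ℝ) * ((p : ℕ) : ℝ) ^ (-s)) + Real.log (s - 1))
      =O[𝓝[>] 1] (fun _ => (1 : ℝ)) := by
  have h1 : Tendsto (fun s : ℝ => Real.log ((s - 1) * zetaR K s)) (𝓝[>] 1) (𝓝 (Real.log (dedekindZeta_residue K))) :=
    (Real.continuousAt_log (dedekindZeta_residue_ne_zero K)).tendsto.comp (tendsto_zetaR K)
  have h2 := h1.isBigO_one ℝ
  have h3 : (fun s : ℝ => Real.log (zetaR K s) - ∑' p : Nat.Primes, (idealCount K p : ℝ) * ((p : ℕ) : ℝ) ^ (-s))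
      =O[𝓝[>] 1] (fun _ => (1 : ℝ)) := by
    refine Asymptotics.IsBigO.of_bound (∑' p : Nat.Primes, bigConst K * (((p : ℕ) : ℝ) ^ 2)⁻¹) ?_
    filter_upwards [self_mem_nhdsWithin] with s hs
    rw [Real.norm_eq_abs, norm_one, mul_one]
    exact abs_log_zetaR_sub_le K hs
  refine (h2.sub h3).congr' ?_ EventuallyEq.rfl
  have h4 : ∀ᶠ s in 𝓝[>] (1 : ℝ), 0 < (s - 1) * zetaR K s :=
    (tendsto_zetaR K).eventually (lt_mem_nhds (dedekindZeta_residue_pos K))
  filter_upwards [self_mem_nhdsWithin, h4] with s hs hs2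
  have hs' : 0 < s - 1 := sub_pos.mpr hs
  have hz : 0 < zetaR K s := (mul_pos_iff_of_pos_left hs').mp hs2
  rw [Real.log_mul hs'.ne' hz.ne']
  ring

end mult
end Fermat.Agent.H82
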