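import Fermat.Agent.H82Stable

/-!
# Every place contributes to the cokernel (the substitute for the reciprocity law)
-/

set_option autoImplicit false

noncomputable section

open IsDedekindDomain NumberField WithZero

namespace Fermat.Agent.H82

variable {K : Type} [Field K] [NumberField K] {p : ℕ} [hp : Fact p.Prime] {ζ : K}
  (hζ : IsPrimitiveRoot ζ p) {T A : Finset (HeightOneSpectrum (𝓞 K))}

include hζ

/-- General index formula. -/
theorem index_unit_sup_mul (hp2 : p ≠ 2) (hcl : ClTrivial (T : Set (HeightOneSpectrum (𝓞 K))))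
    (hTp : ∀ v, v ∉ T → v.valuation K (p : K) = 1)
    (m : HeightOneSpectrum (𝓞 K) → ℕ) (hm : ∀ v ∈ T, Deep ζ p v (m v))
    (hA : ∀ v ∈ A, v ∉ T)
    (hidx : (⨅ v ∈ A, locPow p v 1).relIndex
      ((T : Set (HeightOneSpectrum (𝓞 K))).unit K) = p ^ A.card) :
    (((T : Set (HeightOneSpectrum (𝓞 K))) ∪ A).unit K ⊔ (⨅ v ∈ T, locPow p v (m v))).index
      * p ^ A.card = p ^ (Units.rank K + T.card + 1) := by
  classical
  have hker := kernel_le hζ hp2 hcl hTp m hm hA hidx
  have htc : IsTotallyComplex K := H65.isTotallyComplex_of_isPrimitiveRoot K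
    (lt_of_le_of_ne hp.out.two_le (Ne.symm hp2)) hζ
  have hne : NeZero p := ⟨hp.out.ne_zero⟩
  set T' : Set (HeightOneSpectrum (𝓞 K)) := (T : Set (HeightOneSpectrum (𝓞 K))) ∪ A with hT'
  set E' := T'.unit K with hE'
  set U := (⨅ v ∈ T, locPow p v (m v)) with hU
  have hT'fin : T'.Finite := T.finite_toSet.union A.finite_toSet
  have hT'card : T'.ncard = T.card + A.card := by
    rw [hT', ← Finset.coe_union, Set.ncard_coe_finset, Finset.card_union_of_disjoint]
    rw [Finset.disjoint_right]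
    exact hA
  have hUidx : U.index = p ^ (2 * T.card + Module.finrank ℚ K) :=
    index_iInf_locPow hζ T hTp m hm
  have hrangeU : (powMonoidHom p : Kˣ →* Kˣ).range ≤ U :=
    le_iInf₂ fun v _ => le_sup_left
  have h1 : U.relIndex E' = p ^ (Units.rank K + T'.ncard + 1) := by
    rw [← H47.relIndex_map_pow_unit K T' hT'fin hζ, ← unit_inf_pow, ← Subgroup.inf_relIndex_right]
    congr 1
    refine le_antisymm (le_inf inf_le_right ?_) (le_inf ?_ inf_le_left)
    · rw [inf_comm]; exact hker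
    · exact inf_le_right.trans hrangeU
  have h2 := Subgroup.relIndex_mul_index (le_sup_right : U ≤ E' ⊔ U)
  rw [Subgroup.relIndex_sup_right, h1, hUidx] at h2
  have h3 := two_mul_rank (K := K)
  have h4 : 2 * T.card + Module.finrank ℚ K
      = (Units.rank K + T.card + 1) + (Units.rank K + T.card + 1) := by omega
  have h5 : Units.rank K + T'.ncard + 1 = (Units.rank K + T.card + 1) + A.card := by
    rw [hT'card]; omega
  rw [h4, h5, pow_add p _ (Units.rank K + T.card + 1), pow_add p _ A.card, mul_assoc] at h2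
  have h6 := Nat.eq_of_mul_eq_mul_left (pow_pos hp.out.pos _) h2
  rw [mul_comm]
  exact h6

/-- Each place outside `T` contributes at most `p`. -/
theorem relIndex_iInf_le (hTp : ∀ v, v ∉ T → v.valuation K (p : K) = 1)
    (hA : ∀ v ∈ A, v ∉ T) :
    (⨅ v ∈ A, locPow p v 1).relIndex ((T : Set (HeightOneSpectrum (𝓞 K))).unit K)
      ≤ p ^ A.card := by
  classical
  induction A using Finset.induction_on with
  | empty => simp
  | insert v A hvA ih =>
    rw [Finset.iInf_insert, Finset.card_insert_of_notMem hvA, pow_succ, mul_comm]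
    have h1 := ih fun u hu => hA u (Finset.mem_insert_of_mem hu)
    have hvT := hA v (Finset.mem_insert_self v A)
    have h4 := relIndex_locPow_units hζ (hTp v hvT)
    have h5 : (T : Set (HeightOneSpectrum (𝓞 K))).unit K ≤ congr v 0 :=
      unit_le_congr_zero (fun h => hvT (Finset.mem_coe.1 h))
    have h6 : (locPow p v 1).relIndex (congr v 0) ≠ 0 := by rw [h4]; exact hp.out.ne_zero
    have h7 := (Subgroup.relIndex_le_of_le_right h5 h6).trans h4.le
    exact (Subgroup.relIndex_inf_le).trans (Nat.mul_le_mul h7 h1)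

/-- For `c ∉ E_T · U` there are `b ∈ E_T` and auxiliary primes for `b` with
`c ∉ E_{T ∪ A₀} · U`. -/
theorem exists_separating (hp2 : p ≠ 2) (hcl : ClTrivial (T : Set (HeightOneSpectrum (𝓞 K))))
    (hTp : ∀ v, v ∉ T → v.valuation K (p : K) = 1)
    (m : HeightOneSpectrum (𝓞 K) → ℕ) (hm : ∀ v ∈ T, Deep ζ p v (m v)) {c : Kˣ}
    (hc : c ∉ (T : Set (HeightOneSpectrum (𝓞 K))).unit K ⊔ (⨅ v ∈ T, locPow p v (m v))) :
    ∃ (b : Kˣ) (A₀ : Finset (HeightOneSpectrum (𝓞 K))),
      b ∈ (T : Set (HeightOneSpectrum (𝓞 K))).unit K ∧ b ∉ (powMonoidHom p : Kˣ →* Kˣ).range ∧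
      A₀.card = Units.rank K + T.card ∧ (∀ v ∈ A₀, v ∉ T ∧ b ∈ locPow p v 1) ∧
      (⨅ v ∈ A₀, locPow p v 1).relIndex ((T : Set (HeightOneSpectrum (𝓞 K))).unit K)
        = p ^ A₀.card ∧
      c ∉ ((T : Set (HeightOneSpectrum (𝓞 K))) ∪ A₀).unit K ⊔ (⨅ v ∈ T, locPow p v (m v)) := by
  classical
  have hne : NeZero p := ⟨hp.out.ne_zero⟩
  set E := (T : Set (HeightOneSpectrum (𝓞 K))).unit K with hE
  set U := (⨅ v ∈ T, locPow p v (m v)) with hU
  have hrangeU : (powMonoidHom p : Kˣ →* Kˣ).range ≤ U :=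
    le_iInf₂ fun v _ => le_sup_left
  have hEpow : (E.map (powMonoidHom p : Kˣ →* Kˣ)).relIndex E
      = p ^ (Units.rank K + T.card + 1) := by
    have := H47.relIndex_map_pow_unit K (T : Set (HeightOneSpectrum (𝓞 K))) T.finite_toSet hζ
    rwa [Set.ncard_coe_finset] at this
  -- a full set of auxiliary primes
  obtain ⟨A, hAcard, hA, hAle⟩ := exists_aux_set_aux hζ (T : Set (HeightOneSpectrum (𝓞 K)))
    T.finite_toSet 1 (Units.rank K + T.card + 1) E le_rfl inf_le_left (by
      rw [Subgroup.zpowers_one_eq_bot, bot_sup_eq, unit_inf_pow]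
      exact hEpow) ∅ Set.finite_empty
  rw [Subgroup.zpowers_one_eq_bot, bot_sup_eq] at hAle
  have hAT : ∀ v ∈ A, v ∉ T := fun v hv => (hA v hv).1
  have hAidx : (⨅ v ∈ A, locPow p v 1).relIndex E = p ^ A.card := by
    rw [hAcard, ← hEpow, ← unit_inf_pow, ← Subgroup.inf_relIndex_right]
    congr 1
    refine le_antisymm (le_inf inf_le_right (inf_comm E _ ▸ hAle)) (le_inf ?_ inf_le_left)
    exact inf_le_right.trans (le_iInf₂ fun v _ => le_sup_left)
  have htop : ((T : Set (HeightOneSpectrum (𝓞 K))) ∪ A).unit K ⊔ U = ⊤ := by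
    have h1 := index_unit_sup_mul hζ hp2 hcl hTp m hm hAT hAidx
    rw [hAcard] at h1
    have h2 := Nat.eq_of_mul_eq_mul_right (pow_pos hp.out.pos _)
      (h1.trans (one_mul _).symm)
    exact Subgroup.index_eq_one.1 h2
  have hker := kernel_le hζ hp2 hcl hTp m hm hAT hAidx
  -- decompose `c`
  obtain ⟨x, hx, u, hu, hxu⟩ : ∃ x ∈ ((T : Set (HeightOneSpectrum (𝓞 K))) ∪ A).unit K,
      ∃ u ∈ U, x * u = c := by
    rw [← Subgroup.mem_sup, htop]
    trivial
  -- some order is prime to `p`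
  obtain ⟨v₀, hv₀, hord⟩ : ∃ v₀ ∈ A, ¬ (p : ℤ) ∣ H47.ordHom v₀ (Additive.ofMul x) := by
    by_contra hcon
    push Not at hcon
    apply hc
    let D : HeightOneSpectrum (𝓞 K) →₀ ℤ := Finsupp.onFinset A
      (fun v => if v ∈ A then H47.ordHom v (Additive.ofMul x) / p else 0) (fun v hv => by
        by_contra h
        exact hv (if_neg h))
    obtain ⟨y, hy⟩ := H47.exists_ordHom_eq hcl D
    have hxy : x / y ^ p ∈ E := by
      intro v hv
      rw [← H47.ordHom_eq_zero_iff, ofMul_div, map_sub, ofMul_pow, map_nsmul, hy v hv]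
      change _ - p • (if v ∈ A then _ else _) = _
      by_cases hvA : v ∈ A
      · rw [if_pos hvA, nsmul_eq_mul, Int.mul_ediv_cancel' (hcon v hvA), sub_self]
      · rw [if_neg hvA, smul_zero, sub_zero, H47.ordHom_eq_zero_iff]
        exact hx v (fun h => h.elim hv (fun h => hvA (Finset.mem_coe.1 h)))
    have h1 : c = (x / y ^ p) * (y ^ p * u) := by
      rw [← mul_assoc, div_mul_cancel, hxu]
    rw [h1]
    exact mul_mem (Subgroup.mem_sup_left hxy)
      (Subgroup.mem_sup_right (mul_mem (hrangeU ⟨y, rfl⟩) hu))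
  set A₀ := A.erase v₀ with hA₀
  have hA₀card : A₀.card = Units.rank K + T.card := by
    rw [hA₀, Finset.card_erase_of_mem hv₀, hAcard]; rfl
  have hA₀A : ∀ v ∈ A₀, v ∈ A := fun v hv => Finset.mem_of_mem_erase hv
  have hinsert : A = insert v₀ A₀ := (Finset.insert_erase hv₀).symm
  -- index for `A₀`
  have hA₀idx : (⨅ v ∈ A₀, locPow p v 1).relIndex E = p ^ A₀.card := by
    refine le_antisymm (relIndex_iInf_le hζ hTp fun v hv => hAT v (hA₀A v hv)) ?_
    have h1 : (⨅ v ∈ A, locPow p v 1) = locPow p v₀ 1 ⊓ (⨅ v ∈ A₀, locPow p v 1) := by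
      rw [hinsert, Finset.iInf_insert]
    have h2 := Subgroup.relIndex_inf_le (H := locPow p v₀ 1) (K := ⨅ v ∈ A₀, locPow p v 1) (L := E)
    rw [← h1, hAidx] at h2
    have hvT := hAT v₀ hv₀
    have h4 := relIndex_locPow_units hζ (hTp v₀ hvT)
    have h5 : E ≤ congr v₀ 0 := unit_le_congr_zero (fun h => hvT (Finset.mem_coe.1 h))
    have h6 : (locPow p v₀ 1).relIndex (congr v₀ 0) ≠ 0 := by rw [h4]; exact hp.out.ne_zero
    have h7 := (Subgroup.relIndex_le_of_le_right h5 h6).trans h4.le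
    have h8 : p ^ A.card = p * p ^ A₀.card := by
      rw [hinsert, Finset.card_insert_of_notMem (Finset.notMem_erase v₀ A), pow_succ, mul_comm]
    rw [h8] at h2
    have h9 := h2.trans (Nat.mul_le_mul_right _ h7)
    exact Nat.le_of_mul_le_mul_left h9 hp.out.pos
  obtain ⟨b, hbE, hbA, hb⟩ : ∃ b ∈ E, b ∈ (⨅ v ∈ A₀, locPow p v 1) ∧
      b ∉ (powMonoidHom p : Kˣ →* Kˣ).range := by
    by_contra hcon
    push Not at hcon
    have h1 : (⨅ v ∈ A₀, locPow p v 1).relIndex E = p ^ (Units.rank K + T.card + 1) := by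
      rw [← hEpow, ← unit_inf_pow, ← Subgroup.inf_relIndex_right]
      congr 1
      refine le_antisymm (le_inf inf_le_right ?_) (le_inf ?_ inf_le_left)
      · rintro b ⟨hb1, hb2⟩
        exact hcon b hb2 hb1
      · exact inf_le_right.trans (le_iInf₂ fun v _ => le_sup_left)
    rw [hA₀idx, hA₀card] at h1
    have h2 := Nat.pow_right_injective hp.out.two_le h1
    omega
  refine ⟨b, A₀, hbE, hb, hA₀card, fun v hv => ⟨hAT v (hA₀A v hv), ?_⟩, hA₀idx, ?_⟩
  · exact (iInf₂_le v hv : (⨅ v ∈ A₀, locPow p v 1) ≤ locPow p v 1) hbA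
  · intro hcon
    rw [Subgroup.mem_sup] at hcon
    obtain ⟨x', hx', u', hu', hxu'⟩ := hcon
    have h1 : x / x' = u' / u := by
      rw [div_eq_div_iff_mul_eq_mul, hxu, ← hxu', mul_comm]
    have h2 : x / x' ∈ ((T : Set (HeightOneSpectrum (𝓞 K))) ∪ A).unit K := by
      refine div_mem hx ?_
      intro v hv
      refine hx' v ?_
      rw [Set.mem_union, not_or] at hv ⊢
      exact ⟨hv.1, fun h => hv.2 (Finset.mem_coe.2 (hA₀A v (Finset.mem_coe.1 h)))⟩
    have h3 : x / x' ∈ U := by rw [h1]; exact div_mem hu' hu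
    obtain ⟨z, hz⟩ := hker ⟨h2, h3⟩
    apply hord
    have h4 : H47.ordHom v₀ (Additive.ofMul x') = 0 := by
      rw [H47.ordHom_eq_zero_iff]
      refine hx' v₀ ?_
      rw [Set.mem_union, not_or]
      exact ⟨fun h => hAT v₀ hv₀ (Finset.mem_coe.1 h), fun h =>
        Finset.notMem_erase v₀ A (Finset.mem_coe.1 h)⟩
    have h5 : x = x' * z ^ p := by
      have : z ^ p = x / x' := hz
      rw [this, mul_div_cancel]
    rw [h5, ofMul_mul, map_add, h4, zero_add, ofMul_pow, map_nsmul, nsmul_eq_mul]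
    exact Dvd.intro _ rfl

end Fermat.Agent.H82
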