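import Fermat.Agent.H82Kummer

/-!
# Existence of Kummer extensions
-/

set_option autoImplicit false

noncomputable section

open IsDedekindDomain NumberField WithZero Polynomial

namespace Fermat.Agent.H82

universe u

variable {K : Type u} [Field K] [NumberField K] {p : ℕ} [hp : Fact p.Prime] {ζ : K}
  (hζ : IsPrimitiveRoot ζ p)

include hζ

/-- The Kummer extension `K(y^(1/p))`. -/
theorem exists_kummer (y : Kˣ) (hy : y ∉ (powMonoidHom p : Kˣ →* Kˣ).range) :
    ∃ (M : Type u) (_ : Field M) (_ : NumberField M) (_ : Algebra K M) (α : M),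
      IsKummer p K M y α ∧ IsGalois K M ∧ Module.finrank K M = p := by
  have hprim : (primitiveRoots p K).Nonempty :=
    ⟨ζ, (mem_primitiveRoots hp.out.pos).2 hζ⟩
  have hirr : Irreducible (X ^ p - C (y : K)) := by
    refine X_pow_sub_C_irreducible_of_prime hp.out fun b hb => hy ?_
    have hb0 : b ≠ 0 := by
      rintro rfl
      rw [zero_pow hp.out.ne_zero] at hb
      exact y.ne_zero hb.symm
    exact ⟨Units.mk0 b hb0, Units.ext (by simpa using hb)⟩
  have := Fact.mk hirr
  let M := AdjoinRoot (X ^ p - C (y : K))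
  have hsp : IsSplittingField K M (X ^ p - C (y : K)) :=
    isSplittingField_AdjoinRoot_X_pow_sub_C hprim hirr
  have hfd : FiniteDimensional K M := IsSplittingField.finiteDimensional M (X ^ p - C (y : K))
  have hnf : NumberField M := NumberField.of_module_finite K M
  refine ⟨M, inferInstance, hnf, inferInstance, AdjoinRoot.root _, ⟨?_, ?_⟩, ?_, ?_⟩
  · exact root_X_pow_sub_C_pow p (y : K)
  · intro σ hσ
    have : (σ : M →ₐ[K] M) = (1 : M ≃ₐ[K] M) := by
      refine AdjoinRoot.algHom_ext ?_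
      simpa using hσ
    ext x
    exact DFunLike.congr_fun this x
  · exact isGalois_of_isSplittingField_X_pow_sub_C hprim hirr M
  · exact finrank_of_isSplittingField_X_pow_sub_C hprim hirr M

omit [NumberField K] in
/-- Galois extensions of degree `p` are Kummer. -/
theorem exists_isKummer (L : Type*) [Field L] [Algebra K L] [IsGalois K L]
    (hdeg : Module.finrank K L = p) :
    ∃ (a : Kˣ) (α : L), IsKummer p K L a α ∧ a ∉ (powMonoidHom p : Kˣ →* Kˣ).range := by
  have hfd : FiniteDimensional K L := by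
    refine Module.finite_of_finrank_pos ?_
    rw [hdeg]; exact hp.out.pos
  have hcard : Nat.card (L ≃ₐ[K] L) = p := by rw [IsGalois.card_aut_eq_finrank, hdeg]
  have hcyc : IsCyclic (L ≃ₐ[K] L) := isCyclic_of_prime_card hcard
  have hprim : (primitiveRoots (Module.finrank K L) K).Nonempty := by
    rw [hdeg]; exact ⟨ζ, (mem_primitiveRoots hp.out.pos).2 hζ⟩
  obtain ⟨α, ⟨a, ha⟩, hα⟩ := exists_root_adjoin_eq_top_of_isCyclic K L hprim
  rw [hdeg] at ha
  have hinj : ∀ σ : L ≃ₐ[K] L, σ α = α → σ = 1 := by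
    intro σ hσ
    have h1 : (IntermediateField.adjoin K {α} : IntermediateField K L) ≤
        IntermediateField.fixedField (Subgroup.zpowers σ) := by
      rw [IntermediateField.adjoin_le_iff, Set.singleton_subset_iff]
      intro τ
      obtain ⟨n, hn⟩ := Subgroup.mem_zpowers_iff.1 τ.2
      have h2 : σ ∈ MulAction.stabilizer (L ≃ₐ[K] L) α := hσ
      have h3 : (τ : L ≃ₐ[K] L) ∈ MulAction.stabilizer (L ≃ₐ[K] L) α := by
        rw [← hn]; exact Subgroup.zpow_mem _ h2 n
      exact h3
    rw [hα, top_le_iff] at h1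
    ext x
    have hx : x ∈ IntermediateField.fixedField (Subgroup.zpowers σ) := by rw [h1]; trivial
    exact hx ⟨σ, Subgroup.mem_zpowers σ⟩
  have hne : ¬ ∀ σ : L ≃ₐ[K] L, σ = 1 := by
    intro h
    have : Subsingleton (L ≃ₐ[K] L) := ⟨fun a b => by rw [h a, h b]⟩
    rw [Nat.card_unique] at hcard
    exact hp.out.ne_one hcard.symm
  have hα0 : α ≠ 0 := by
    rintro rfl
    exact hne fun σ => hinj σ (map_zero σ)
  have ha0 : a ≠ 0 := by
    rintro rfl
    rw [map_zero, eq_comm] at ha
    exact hα0 (pow_eq_zero_iff hp.out.ne_zero |>.1 ha)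
  refine ⟨Units.mk0 a ha0, α, ⟨ha.symm, hinj⟩, ?_⟩
  rintro ⟨b, hb⟩
  apply hne
  intro σ
  refine hinj σ ?_
  have hb' : (b : K) ^ p = a := by
    have := congrArg Units.val hb
    simpa using this
  have h1 : (α / algebraMap K L b) ^ p = 1 := by
    rw [div_pow, ← map_pow, hb', ← ha, div_self]
    rw [Ne, map_eq_zero]; exact ha0
  obtain ⟨ν, hν, hν'⟩ : ∃ ν : K, ν ^ p = 1 ∧ algebraMap K L ν = α / algebraMap K L b := by
    have h1' : IsPrimitiveRoot (algebraMap K L ζ) p :=
      hζ.map_of_injective (algebraMap K L).injective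
    have : NeZero p := ⟨hp.out.ne_zero⟩
    obtain ⟨i, -, hi⟩ := h1'.eq_pow_of_pow_eq_one h1
    exact ⟨ζ ^ i, by rw [← pow_mul, mul_comm, pow_mul, hζ.pow_eq_one, one_pow], by
      rw [map_pow, hi]⟩
  have hb0 : algebraMap K L (b : K) ≠ 0 := by
    rw [Ne, map_eq_zero]; exact b.ne_zero
  have : α = algebraMap K L (ν * b) := by
    rw [map_mul, hν']; field_simp
  rw [this, σ.commutes]

end Fermat.Agent.H82
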