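import Mathlib
import Fermat.Agent.H82LTPsi
import Fermat.Agent.H19LTSide
import Fermat.Agent.S29

/-!
# LT-MOD2: the residual representation of the Hecke side matches `E'[2]`
-/

set_option autoImplicit false
set_option linter.unusedSectionVars false
set_option linter.style.haveILetI false

noncomputable section

open NumberField IsLocalRing CuspForm ModularFormClass

namespace Fermat.Agent.H82.LT

open Fermat.Agent.H53 (GQ M2 mapMat MCont)
open Fermat.Agent.LT (Qb GK FinLevel primesOver cls GoodCurve EData cond CoefRing TSide' C2Q)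
open Fermat.Agent.H19LT (resT Pt two_residue ker_resT resT_surjective resT_algebraMap)

section side

variable {O : Type} [CommRing O] [IsDomain O] [IsDiscreteValuationRing O] [CoefRing O]
  {K : Type} [Field K] [NumberField K] {η : ClassGroup (NumberField.RingOfIntegers K) →*
    (ResidueField O)ˣ} {N : ℕ} {Q : Finset ℕ} {L : ℕ} [NeZero L]

/-- the residual Hecke eigenvalues are given by `η` -/
theorem resT_t (X : TSide' O K η N Q L) {ℓ : ℕ} (hℓ : ℓ.Prime) (hℓL : ¬ ℓ ∣ L) :
    letI := X.commRing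
    resT X (X.t ℓ) = ∑ P ∈ primesOver K ℓ, ((η (cls K P) : (ResidueField O)ˣ) : ResidueField O) := by
  letI := X.commRing
  show MonoidAlgebra.lift (ResidueField O) (ResidueField O) (C2Q K Q) 1 (X.π (X.t ℓ)) = _
  rw [X.π_t ℓ hℓ hℓL, map_sum]
  refine Finset.sum_congr rfl fun P _ => ?_
  rw [MonoidAlgebra.lift_single]
  simp

/-- the embedding of residue fields at a point -/
theorem exists_residue_embedding (X : TSide' O K η N Q L) :
    letI := X.commRing; letI := X.algebra; letI := X.isLocal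
    ∀ (i : Pt O X.T), ∃ e : ResidueField O →+* ResidueField i.B,
      ∀ x, e (resT X x) = residue i.B (i.φ x) := by
  letI := X.commRing; letI := X.algebra; letI := X.isLocal
  intro i
  haveI := i.loc
  let f : X.T →+* ResidueField i.B := (residue i.B).comp (i.φ : X.T →+* i.B)
  have hf : ∀ x, resT X x = 0 → f x = 0 := by
    intro x hx
    have h1 : x ∈ maximalIdeal X.T := by
      rw [← ker_resT X]; exact hx
    show residue i.B (i.φ x) = 0
    rw [residue_eq_zero_iff]
    exact map_nonunit (i.φ : X.T →+* i.B) x h1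
  let e : ResidueField O →+* ResidueField i.B :=
    (Ideal.Quotient.lift (RingHom.ker (resT X)) f (fun x hx => hf x hx)).comp
      (RingHom.quotientKerEquivOfSurjective (resT_surjective X)).symm.toRingHom
  refine ⟨e, fun x => ?_⟩
  have h1 : (RingHom.quotientKerEquivOfSurjective (resT_surjective X)).symm (resT X x) =
      Ideal.Quotient.mk _ x := by
    rw [RingEquiv.symm_apply_eq]
    rfl
  show Ideal.Quotient.lift (RingHom.ker (resT X)) f (fun x hx => hf x hx)
    ((RingHom.quotientKerEquivOfSurjective (resT_surjective X)).symm (resT X x)) = _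
  rw [h1]
  exact Ideal.Quotient.lift_mk _ _ _

/-- Residue maps: a ring homomorphism from the algebraic integers to an algebraically closed
field containing a local domain `B` reduces compatibly with the residue map of `B`. -/
theorem exists_residue_map {B F : Type} [CommRing B] [IsLocalRing B] [Field F] [Algebra B F]
    (hinj : Function.Injective (algebraMap B F)) (ι : integralClosure ℤ ℂ →+* F) :
    ∃ (k : Type) (_ : Field k) (j : ResidueField B →+* k) (φ : integralClosure ℤ ℂ →+* k),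
      ∀ (a : integralClosure ℤ ℂ) (b : B), ι a = algebraMap B F b → φ a = j (residue B b) := by
  let R := integralClosure B F
  have hint : ∀ a, ι a ∈ R := by
    intro a
    have h1 : IsIntegral ℤ a := by
      obtain ⟨p, hp, hpa⟩ := a.2
      refine ⟨p, hp, ?_⟩
      apply Subtype.ext
      rw [← Polynomial.aeval_def] at hpa ⊢
      have h2 : ((Polynomial.aeval a p : integralClosure ℤ ℂ) : ℂ) =
        Polynomial.aeval (a : ℂ) p := (Polynomial.aeval_algHom_apply (integralClosure ℤ ℂ).val a p).symm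
      rw [h2, hpa]
      rfl
    have h2 : IsIntegral ℤ (ι a) := h1.map (ι.toIntAlgHom)
    exact h2.tower_top
  let ι' : integralClosure ℤ ℂ →+* R := ι.codRestrict R.toSubring hint
  have hinj' : Function.Injective (algebraMap B R) := by
    intro x y hxy
    exact hinj (congrArg (fun z : R => (z : F)) hxy)
  have hm : (maximalIdeal B).IsMaximal := inferInstance
  obtain ⟨M, hM, hMB⟩ := Ideal.exists_ideal_over_maximal_of_isIntegral (S := R) (maximalIdeal B) (by
    rw [(RingHom.injective_iff_ker_eq_bot _).1 hinj']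
    exact bot_le)
  let k := R ⧸ M
  let _ : Field k := Ideal.Quotient.field M
  let j : ResidueField B →+* k := Ideal.quotientMap M (algebraMap B R) (by rw [← hMB])
  refine ⟨k, inferInstance, j, (Ideal.Quotient.mk M).comp ι', ?_⟩
  intro a b hab
  have h1 : ι' a = algebraMap B R b := Subtype.ext hab
  rw [RingHom.comp_apply, h1]
  exact (Ideal.quotientMap_mk).symm

/-- matrix form of a residual representation attached to an eigenform -/
theorem exists_matrix_rep {L : ℕ} {f : CuspForm (CongruenceSubgroup.Gamma0 L) 2}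
    (hf : f.IsNormalizedEigenform) {k : Type} [Field k] (h2k : (2 : k) = 0)
    (φ : integralClosure ℤ ℂ →+* k) :
    ∃ ρ : GQ →* M2 k, FinLevel ρ ∧ ∀ ℓ : ℕ, ℓ.Prime → ¬ ℓ ∣ L → ℓ ≠ 2 →
      ∀ A : ValuationSubring Qb, A.LiesOverPrime ℓ → ∀ σ : GQ, A.IsFrobeniusAt σ ℓ →
        ∀ a : integralClosure ℤ ℂ, (a : ℂ) = qCoeff f ℓ →
          (ρ σ).trace = φ a ∧ (ρ σ).det = 1 := by
  have hchar : CharP k 2 := by
    refine ringChar.of_eq (CharP.ringChar_of_prime_eq_zero Nat.prime_two ?_)
    exact_mod_cast h2k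
  obtain ⟨ρ, hρ, -⟩ := Fermat.Agent.S29.result hf Nat.prime_two φ
  let b : Module.Basis (Fin 2) k ρ.V := Module.finBasisOfFinrankEq k ρ.V ρ.finrank_eq
  refine ⟨H53.toMat ρ.ρ b, ?_, ?_⟩
  · obtain ⟨F, hF, h1⟩ := ρ.factorsThroughFiniteLevel
    refine ⟨F, hF, fun g σ hσ => ?_⟩
    have h2 : H53.toMat ρ.ρ b σ = 1 := by
      rw [H53.toMat_apply, h1 σ hσ]
      exact LinearMap.toMatrix_one b
    rw [map_mul, h2, mul_one]
  · intro ℓ hℓ hℓL hℓ2 A hA σ hσ a ha
    have hodd : (ℓ : k) = 1 := by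
      obtain ⟨m, rfl⟩ : Odd ℓ := hℓ.odd_of_ne_two hℓ2
      push_cast
      rw [h2k]
      ring
    obtain ⟨a', ha', hch⟩ := hρ ℓ hℓ hℓL (by rw [hodd]; exact one_ne_zero) A hA σ hσ
    have haa : a = a' := Subtype.ext (ha.trans ha'.symm)
    rw [← LinearMap.charpoly_toMatrix _ b, Matrix.charpoly_fin_two, hodd] at hch
    have h1 := congrArg (fun p : Polynomial k => p.coeff 1) hch
    have h0 := congrArg (fun p : Polynomial k => p.coeff 0) hch
    simp only [Polynomial.coeff_add, Polynomial.coeff_sub, Polynomial.coeff_X_pow,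
      Polynomial.coeff_C_mul, Polynomial.coeff_X_one, Polynomial.coeff_X_zero,
      Polynomial.coeff_C_zero, Polynomial.coeff_C_succ, mul_one, mul_zero] at h1 h0
    norm_num at h1 h0
    rw [haa]
    exact ⟨h1, by rw [H53.toMat_apply, LinearMap.det_toMatrix]; exact h0⟩

/-- **hmatch** for one Hecke side. -/
theorem match_side (X : TSide' O K η N Q L) (h2L : 2 ∣ L) (rb : GQ →* M2 (ZMod 2))
    [Algebra (ZMod 2) (ResidueField O)]
    (hη : ∀ (k : Type) [Field k] (ι : ResidueField O →+* k) (ρ : GQ →* M2 k) (S : Finset ℕ),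
      FinLevel ρ →
        (∀ ℓ : ℕ, ℓ.Prime → ℓ ∉ S → ∀ A : ValuationSubring Qb, A.LiesOverPrime ℓ →
          ∀ φ : GQ, A.IsFrobeniusAt φ ℓ → (ρ φ).det = 1) →
        (∀ ℓ : ℕ, ℓ.Prime → ℓ ∉ S → ∀ A : ValuationSubring Qb, A.LiesOverPrime ℓ →
          ∀ φ : GQ, A.IsFrobeniusAt φ ℓ →
            (ρ φ).trace = ι (∑ P ∈ primesOver K ℓ,
              ((η (cls K P) : (ResidueField O)ˣ) : ResidueField O))) →
        (∀ g, (ρ g).det = 1) ∧
          ∀ (c : ZMod 2 →+* k) (g : GQ), (ρ g).trace = c (rb g).trace) :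
    letI := X.commRing
    ∀ ℓ : ℕ, ℓ.Prime → ¬ ℓ ∣ L → ∀ P : ValuationSubring Qb, P.LiesOverPrime ℓ →
      ∀ φ : GQ, P.IsFrobeniusAt φ ℓ → algebraMap (ZMod 2) (ResidueField O) (rb φ).trace =
        resT X (X.t ℓ) := by
  letI := X.commRing; letI := X.algebra; letI := X.isLocal
  haveI := X.finite; haveI := X.free; haveI := X.reduced
  haveI : CharZero O := CoefRing.char_zero
  haveI : IsAdicComplete (maximalIdeal O) O := CoefRing.complete
  haveI : Finite (ResidueField O) := Nat.finite_of_card_ne_zero (by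
    rw [CoefRing.card]; norm_num)
  obtain ⟨B, i1, i2, i3, i4, i5, i6, i7, i8, ψ, hψ, -⟩ :=
    H19LT.exists_point_ne_zero O (T := X.T) (x := 1) one_ne_zero
  let i : Pt O X.T := { B := B, φ := ψ, loc := hψ }
  obtain ⟨e, he⟩ := exists_residue_embedding X i
  let F := AlgebraicClosure (FractionRing B)
  have hj : Function.Injective (algebraMap B F) := by
    have h1 : algebraMap B F = (algebraMap (FractionRing B) F).comp
      (algebraMap B (FractionRing B)) := rfl
    rw [h1]
    exact (algebraMap (FractionRing B) F).injective.comp (IsFractionRing.injective B _)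
  haveI : CharZero F := charZero_of_injective_ringHom hj
  obtain ⟨f, hf, -, -, ι, hι, -⟩ := X.point F ((algebraMap B F).comp (ψ : X.T →+* B))
  obtain ⟨k, _, j, φ', hφ'⟩ := exists_residue_map hj ι
  have h2k : (2 : k) = 0 := by
    have h1 := congrArg (j.comp e) (two_residue (O := O))
    rwa [map_zero, map_ofNat] at h1
  obtain ⟨ρ, hρ, hρf⟩ := exists_matrix_rep hf h2k φ'
  have hne2 : ∀ {ℓ : ℕ}, ¬ ℓ ∣ L → ℓ ≠ 2 := by
    rintro ℓ hℓL rfl
    exact hℓL h2L
  have key : ∀ ℓ : ℕ, ℓ.Prime → ¬ ℓ ∣ L → ∀ A : ValuationSubring Qb, A.LiesOverPrime ℓ →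
      ∀ σ : GQ, A.IsFrobeniusAt σ ℓ → (ρ σ).trace = (j.comp e) (resT X (X.t ℓ)) ∧
        (ρ σ).det = 1 := by
    intro ℓ hℓ hℓL A hA σ hσ
    obtain ⟨a, ha, hιa⟩ := hι ℓ hℓ hℓL
    obtain ⟨h1, h3⟩ := hρf ℓ hℓ hℓL (hne2 hℓL) A hA σ hσ a ha
    refine ⟨?_, h3⟩
    rw [h1, hφ' a (ψ (X.t ℓ)) hιa]
    exact congrArg j (he (X.t ℓ)).symm
  have hS : ∀ {ℓ : ℕ}, ℓ.Prime → ℓ ∉ L.primeFactors → ¬ ℓ ∣ L := fun h1 h2 h3 =>
    h2 (Nat.mem_primeFactors.mpr ⟨h1, h3, NeZero.ne L⟩)
  obtain ⟨-, htr⟩ := hη k (j.comp e) ρ L.primeFactors hρ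
    (fun ℓ hℓ hℓS A hA σ hσ => (key ℓ hℓ (hS hℓ hℓS) A hA σ hσ).2)
    (fun ℓ hℓ hℓS A hA σ hσ => by
      rw [(key ℓ hℓ (hS hℓ hℓS) A hA σ hσ).1, resT_t X hℓ (hS hℓ hℓS)])
  intro ℓ hℓ hℓL P hP φ hφ
  apply (j.comp e).injective
  rw [← (key ℓ hℓ hℓL P hP φ hφ).1, htr ((j.comp e).comp (algebraMap (ZMod 2) (ResidueField O)))]
  rfl

end side

/-- **hmatch**, final form: the cubic class group character `η` attached to `W` such that for every
Hecke side `X` for `η`, the residual eigenvalues of `X` are those of `W`. -/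
theorem exists_eta_match {W : WeierstrassCurve ℤ} {r : GQ →* M2 ℤ_[2]} {s : ℕ → ℤ}
    (hW : GoodCurve W) (hE : EData W r s) (K : Type) [Field K] [NumberField K]
    (hK : Module.finrank ℚ K = 2) (hx : ∃ x : K, x ^ 2 = -((cond W : ℕ) : K))
    (O : Type) [CommRing O] [IsDomain O] [IsDiscreteValuationRing O] [CoefRing O]
    [Algebra (ZMod 2) (ResidueField O)] :
    ∃ η : ClassGroup (𝓞 K) →* (ResidueField O)ˣ, η ≠ 1 ∧ (∀ c, η c ^ 3 = 1) ∧
      ∀ (Q : Finset ℕ) (L : ℕ) [NeZero L] (X : TSide' O K η (cond W) Q L), 2 ∣ L →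
        letI := X.commRing
        ∀ ℓ : ℕ, ℓ.Prime → ¬ ℓ ∣ L → ∀ P : ValuationSubring Qb, P.LiesOverPrime ℓ →
          ∀ φ : GQ, P.IsFrobeniusAt φ ℓ →
            algebraMap (ZMod 2) (ResidueField O) (mapMat PadicInt.toZMod r φ).trace =
              resT X (X.t ℓ) := by
  obtain ⟨η, h1, h3, h⟩ := exists_eta hW hE K hK hx (ResidueField O) CoefRing.card
  exact ⟨η, h1, h3, fun Q L _ X h2L => match_side X h2L _ h⟩

end Fermat.Agent.H82.LT
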