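import Fermat.Agent.H82Approx

/-!
# Index of `Kˣᵖ (1 + v^m)` in `Kˣ`
-/

set_option autoImplicit false

noncomputable section

open IsDedekindDomain NumberField WithZero

namespace Fermat.Agent.H82

theorem card_eq_of_surj {X Y Z : Type*} (g : X → Y) (h : X → Z) (hg : Function.Surjective g)
    (hh : Function.Surjective h) (H : ∀ a b, g a = g b ↔ h a = h b) : Nat.card Y = Nat.card Z := by
  refine Nat.card_congr (Equiv.ofBijective (fun y => h (Function.surjInv hg y)) ⟨?_, ?_⟩)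
  · intro a b hab
    have := (H _ _).2 hab
    rwa [Function.surjInv_eq hg, Function.surjInv_eq hg] at this
  · intro z
    obtain ⟨x, rfl⟩ := hh z
    exact ⟨g x, (H _ _).1 (Function.surjInv_eq hg _)⟩

variable {K : Type*} [Field K] [NumberField K]

theorem valuation_le_exp_iff_mem (v : HeightOneSpectrum (𝓞 K)) (a : 𝓞 K) (n : ℕ) :
    v.valuation K (algebraMap (𝓞 K) K a) ≤ exp (-(n : ℤ)) ↔ a ∈ v.asIdeal ^ n := by
  rw [HeightOneSpectrum.valuation_of_algebraMap, HeightOneSpectrum.intValuation_le_pow_iff_mem]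

theorem absNorm_pos (v : HeightOneSpectrum (𝓞 K)) : 0 < Ideal.absNorm v.asIdeal :=
  Nat.pos_of_ne_zero (by rw [Ne, Ideal.absNorm_eq_zero_iff]; exact v.ne_bot)

theorem relIndex_pow (v : HeightOneSpectrum (𝓞 K)) (n k : ℕ) :
    (v.asIdeal ^ (n + k)).toAddSubgroup.relIndex (v.asIdeal ^ n).toAddSubgroup
      = Ideal.absNorm v.asIdeal ^ k := by
  have h1 : (v.asIdeal ^ (n + k)).toAddSubgroup ≤ (v.asIdeal ^ n).toAddSubgroup :=
    Ideal.pow_le_pow_right (Nat.le_add_right _ _)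
  have h2 := AddSubgroup.relIndex_mul_index h1
  have h3 : ∀ I : Ideal (𝓞 K), (I.toAddSubgroup).index = Ideal.absNorm I := fun I => by
    rw [Ideal.absNorm_apply]; rfl
  rw [h3, h3, map_pow, map_pow, pow_add (Ideal.absNorm v.asIdeal), mul_comm] at h2
  exact Nat.eq_of_mul_eq_mul_left (pow_pos (absNorm_pos v) n) h2

theorem relIndex_congr (v : HeightOneSpectrum (𝓞 K)) {n : ℕ} (hn : 0 < n) (k : ℕ) :
    (congr v (n + k)).relIndex (congr v n) = Ideal.absNorm v.asIdeal ^ k := by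
  rw [← relIndex_pow v n k]
  -- `1 + a` for `a ∈ v ^ n`
  have hval : ∀ a : (v.asIdeal ^ n : Ideal (𝓞 K)),
      v.valuation K ((1 + algebraMap (𝓞 K) K a) - 1) ≤ exp (-(n : ℤ)) := by
    intro a
    rw [add_sub_cancel_left, valuation_le_exp_iff_mem]
    exact a.2
  have hlt : (exp (-(n : ℤ)) : ℤᵐ⁰) < 1 := by
    rw [← exp_zero, exp_lt_exp]; omega
  have hone : ∀ a : (v.asIdeal ^ n : Ideal (𝓞 K)),
      v.valuation K (1 + algebraMap (𝓞 K) K a) = 1 := fun a =>
    valuation_eq_one_of_sub_one_lt ((hval a).trans_lt hlt)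
  have hne : ∀ a : (v.asIdeal ^ n : Ideal (𝓞 K)), (1 + algebraMap (𝓞 K) K a) ≠ 0 := by
    intro a h
    have := hone a
    rw [h, map_zero] at this
    exact zero_ne_one this
  let u : (v.asIdeal ^ n : Ideal (𝓞 K)) → congr v n := fun a =>
    ⟨Units.mk0 _ (hne a), hone a, hval a⟩
  have hu : ∀ a, ((u a : Kˣ) : K) = 1 + algebraMap (𝓞 K) K a := fun a => rfl
  let g : (v.asIdeal ^ n : Ideal (𝓞 K)) → congr v n ⧸ (congr v (n + k)).subgroupOf (congr v n) :=
    fun a => QuotientGroup.mk (u a)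
  let h : (v.asIdeal ^ n : Ideal (𝓞 K)) → (v.asIdeal ^ n).toAddSubgroup ⧸
      (v.asIdeal ^ (n + k)).toAddSubgroup.addSubgroupOf (v.asIdeal ^ n).toAddSubgroup :=
    fun a => QuotientAddGroup.mk a
  refine card_eq_of_surj g h ?_ ?_ ?_
  · intro z
    obtain ⟨x, rfl⟩ := QuotientGroup.mk_surjective z
    obtain ⟨c, hc⟩ := exists_int_approx v (x := ((x : Kˣ) : K)) x.2.1.le (n + k)
    have hc1 : c - 1 ∈ v.asIdeal ^ n := by
      rw [← valuation_le_exp_iff_mem, map_sub, map_one]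
      have : algebraMap (𝓞 K) K c - 1
          = (algebraMap (𝓞 K) K c - ((x : Kˣ) : K)) + (((x : Kˣ) : K) - 1) := by ring
      rw [this]
      refine (Valuation.map_add _ _ _).trans (max_le (hc.trans ?_) x.2.2)
      rw [exp_le_exp]; omega
    refine ⟨⟨c - 1, hc1⟩, ?_⟩
    rw [QuotientGroup.eq, Subgroup.mem_subgroupOf]
    have h1 : v.valuation K (algebraMap (𝓞 K) K c) = 1 := by
      have := hone ⟨c - 1, hc1⟩
      simpa using this
    rw [mem_congr_of_pos (by omega)]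
    have hcne : algebraMap (𝓞 K) K c ≠ 0 := by
      intro h; rw [h, map_zero] at h1; exact zero_ne_one h1
    have h2 : (((u ⟨c - 1, hc1⟩)⁻¹ * x : congr v n) : Kˣ) =
      (((u ⟨c - 1, hc1⟩ : Kˣ)⁻¹ * x : Kˣ)) := rfl
    rw [h2]
    push_cast
    rw [hu]
    simp only [map_sub, map_one, add_sub_cancel]
    have h3 : (algebraMap (𝓞 K) K c)⁻¹ * ((x : Kˣ) : K) - 1
        = -(algebraMap (𝓞 K) K c)⁻¹ * (algebraMap (𝓞 K) K c - ((x : Kˣ) : K)) := by
      field_simp; ring
    rw [h3, map_mul, Valuation.map_neg, map_inv₀, h1, inv_one, one_mul]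
    exact hc
  · exact QuotientAddGroup.mk_surjective
  · intro a b
    change (QuotientGroup.mk (u a) = QuotientGroup.mk (u b)) ↔
      (QuotientAddGroup.mk a = QuotientAddGroup.mk b)
    rw [QuotientGroup.eq, QuotientAddGroup.eq, Subgroup.mem_subgroupOf,
      AddSubgroup.mem_addSubgroupOf, mem_congr_of_pos (by omega)]
    have h2 : (((u a)⁻¹ * u b : congr v n) : Kˣ) =
      (((u a : Kˣ)⁻¹ * u b : Kˣ)) := rfl
    rw [h2]
    push_cast
    rw [hu, hu]
    have h3 : (1 + algebraMap (𝓞 K) K a)⁻¹ * (1 + algebraMap (𝓞 K) K b) - 1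
        = (1 + algebraMap (𝓞 K) K a)⁻¹ * (algebraMap (𝓞 K) K (-a + b)) := by
      have := hne a
      rw [map_add, map_neg]
      field_simp; ring
    have h4 := valuation_le_exp_iff_mem v (-(a : 𝓞 K) + b) (n + k)
    rw [Nat.cast_add] at h4
    rw [h3, map_mul, map_inv₀, hone a, inv_one, one_mul, h4]
    rfl

end Fermat.Agent.H82
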