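import Fermat.Agent.H82RootVal

/-!
# Index of `Kˣᵖ (1 + v^m)` in `Kˣ`, II
-/

set_option autoImplicit false

noncomputable section

open IsDedekindDomain NumberField WithZero

namespace Fermat.Agent.H82

/-- For a finite commutative group, `|A / A^p| = |A[p]|`. -/
theorem index_range_pow {A : Type*} [CommGroup A] [Finite A] (p : ℕ) :
    (powMonoidHom p : A →* A).range.index = Nat.card (powMonoidHom p : A →* A).ker := by
  have h1 := Subgroup.card_mul_index (powMonoidHom p : A →* A).ker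
  have h2 := Subgroup.card_mul_index (powMonoidHom p : A →* A).range
  rw [Subgroup.index_ker, mul_comm] at h1
  rw [← h1] at h2
  exact Nat.eq_of_mul_eq_mul_left Nat.card_pos h2

/-- `|U / U^p C| = |U[x^p ∈ C] / C|`. -/
theorem relIndex_pow_sup {G : Type*} [CommGroup G] (U C : Subgroup G) (hCU : C ≤ U)
    (hfin : C.relIndex U ≠ 0) (p : ℕ)
    (hU : ∀ x : G, x ^ p ∈ U → x ∈ U) :
    ((powMonoidHom p : G →* G).range ⊔ C).relIndex U
      = C.relIndex (U ⊓ C.comap (powMonoidHom p : G →* G)) := by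
  classical
  let A := U ⧸ C.subgroupOf U
  have : Finite A := by
    have : (C.subgroupOf U).index ≠ 0 := hfin
    exact (Subgroup.finiteIndex_iff_finite_quotient).1 ⟨this⟩
  let π : U →* A := QuotientGroup.mk' (C.subgroupOf U)
  have hπ : Function.Surjective π := QuotientGroup.mk'_surjective _
  have hker : π.ker = C.subgroupOf U := QuotientGroup.ker_mk' _
  have key := index_range_pow (A := A) p
  have h1 : (powMonoidHom p : A →* A).range.index
      = ((powMonoidHom p : G →* G).range ⊔ C).relIndex U := by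
    rw [← Subgroup.index_comap_of_surjective _ hπ, Subgroup.relIndex]
    congr 1
    ext x
    rw [Subgroup.mem_comap, Subgroup.mem_subgroupOf, Subgroup.mem_sup]
    constructor
    · rintro ⟨a, ha⟩
      obtain ⟨y, rfl⟩ := hπ a
      rw [powMonoidHom_apply, ← map_pow, ← inv_mul_eq_one, ← map_inv, ← map_mul,
        ← MonoidHom.mem_ker, hker, Subgroup.mem_subgroupOf] at ha
      exact ⟨_, ⟨(y : G), rfl⟩, _, ha, by simp⟩
    · rintro ⟨_, ⟨y, rfl⟩, c, hc, hx⟩
      have hy : y ∈ U := hU y (by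
        have : y ^ p = (x : G) * c⁻¹ := by rw [← hx]; simp
        rw [this]
        exact U.mul_mem x.2 (U.inv_mem (hCU hc)))
      refine ⟨π ⟨y, hy⟩, ?_⟩
      rw [powMonoidHom_apply, ← map_pow, ← inv_mul_eq_one, ← map_inv, ← map_mul,
        ← MonoidHom.mem_ker, hker, Subgroup.mem_subgroupOf]
      have : ((((⟨y, hy⟩ : U) ^ p)⁻¹ * x : U) : G) = c := by
        push_cast
        rw [← hx]; simp
      rw [this]
      exact hc
  have h2 : Nat.card (powMonoidHom p : A →* A).ker
      = C.relIndex (U ⊓ C.comap (powMonoidHom p : G →* G)) := by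
    have h3 : ((powMonoidHom p : A →* A).ker.comap π).map π = (powMonoidHom p : A →* A).ker :=
      Subgroup.map_comap_eq_self_of_surjective hπ _
    rw [← h3, ← Subgroup.relIndex_ker, hker]
    have h4 : ((powMonoidHom p : A →* A).ker.comap π)
        = (U ⊓ C.comap (powMonoidHom p : G →* G)).subgroupOf U := by
      ext x
      rw [Subgroup.mem_comap, MonoidHom.mem_ker, powMonoidHom_apply, ← map_pow,
        ← MonoidHom.mem_ker, hker, Subgroup.mem_subgroupOf, Subgroup.mem_subgroupOf,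
        Subgroup.mem_inf, Subgroup.mem_comap]
      simp
    rw [h4]
    exact Subgroup.relIndex_subgroupOf inf_le_left
  rw [← h1, key, h2]

variable {K : Type*} [Field K] [NumberField K]

/-- The additive order at `v` (with the sign of `WithZero.log`) as a multiplicative hom. -/
def ordM (v : HeightOneSpectrum (𝓞 K)) : Kˣ →* Multiplicative ℤ :=
  (unitsWithZeroEquiv (α := Multiplicative ℤ)).toMonoidHom.comp
    (Units.map (v.valuation K : K →* ℤᵐ⁰))

theorem ordM_apply (v : HeightOneSpectrum (𝓞 K)) (x : Kˣ) :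
    v.valuation K (x : K) = exp (Multiplicative.toAdd (ordM v x)) := by
  rw [ordM]
  simp only [MonoidHom.comp_apply]
  have := WithZero.coe_unzero (x := v.valuation K (x : K)) ((Valuation.ne_zero_iff _).2 x.ne_zero)
  rw [← this]
  rfl

theorem ordM_eq_iff (v : HeightOneSpectrum (𝓞 K)) (x : Kˣ) (n : ℤ) :
    ordM v x = Multiplicative.ofAdd n ↔ v.valuation K (x : K) = exp n := by
  rw [ordM_apply, exp_inj]
  exact Iff.rfl

theorem mem_congr_zero' {v : HeightOneSpectrum (𝓞 K)} {x : Kˣ} :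
    x ∈ congr v 0 ↔ ordM v x = 1 := by
  rw [mem_congr_zero, ← ofAdd_zero, ordM_eq_iff, exp_zero]

theorem exists_uniformizer (v : HeightOneSpectrum (𝓞 K)) :
    ∃ π : Kˣ, v.valuation K (π : K) = exp (-1) := by
  obtain ⟨π, hπ⟩ := v.valuation_exists_uniformizer K
  have h0 : π ≠ 0 := by
    rintro rfl
    rw [map_zero] at hπ
    exact (exp_ne_zero) hπ.symm
  exact ⟨Units.mk0 π h0, hπ⟩

theorem ordM_surjective (v : HeightOneSpectrum (𝓞 K)) : Function.Surjective (ordM v) := by
  intro n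
  obtain ⟨π, hπ⟩ := exists_uniformizer v
  refine ⟨π ^ (-(Multiplicative.toAdd n)), ?_⟩
  have h := (ordM_eq_iff v π (-1)).2 hπ
  rw [map_zpow, h, ← ofAdd_zsmul]
  simp

/-- `[Kˣ : Kˣᵖ U_v] = p`. -/
theorem index_pow_sup_units (v : HeightOneSpectrum (𝓞 K)) (p : ℕ) :
    ((powMonoidHom p : Kˣ →* Kˣ).range ⊔ congr v 0).index = p := by
  let θ : Kˣ →* Multiplicative (ZMod p) :=
    (AddMonoidHom.toMultiplicative (Int.castAddHom (ZMod p))).comp (ordM v)
  have hθ : Function.Surjective θ := by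
    intro z
    obtain ⟨n, hn⟩ := ZMod.intCast_surjective (Multiplicative.toAdd z)
    obtain ⟨x, hx⟩ := ordM_surjective v (Multiplicative.ofAdd n)
    refine ⟨x, ?_⟩
    change Multiplicative.ofAdd ((Multiplicative.toAdd (ordM v x) : ℤ) : ZMod p) = z
    rw [hx]
    exact congrArg Multiplicative.ofAdd hn
  have hker : θ.ker = (powMonoidHom p : Kˣ →* Kˣ).range ⊔ congr v 0 := by
    ext x
    rw [MonoidHom.mem_ker, Subgroup.mem_sup]
    constructor
    · intro h
      have h1 : ((Multiplicative.toAdd (ordM v x) : ℤ) : ZMod p) = 0 := h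
      rw [ZMod.intCast_zmod_eq_zero_iff_dvd] at h1
      obtain ⟨k, hk⟩ := h1
      obtain ⟨y, hy⟩ := ordM_surjective v (Multiplicative.ofAdd k)
      refine ⟨y ^ p, ⟨y, rfl⟩, x / y ^ p, ?_, by simp⟩
      rw [mem_congr_zero', map_div, map_pow, hy, div_eq_one]
      apply Multiplicative.toAdd.injective
      rw [hk]
      simp [mul_comm]
    · rintro ⟨_, ⟨y, rfl⟩, c, hc, rfl⟩
      rw [mem_congr_zero'] at hc
      change Multiplicative.ofAdd ((Multiplicative.toAdd (ordM v (y ^ p * c)) : ℤ) : ZMod p) = 1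
      rw [map_mul, hc, mul_one, map_pow]
      simp
  rw [← hker, Subgroup.index_ker, MonoidHom.range_eq_top.2 hθ, Subgroup.card_top]
  exact Nat.card_zmod p

/-- `(𝓞/v^m)ˣ` is finite. -/
theorem relIndex_congr_ne_zero (v : HeightOneSpectrum (𝓞 K)) (m : ℕ) :
    (congr v m).relIndex (congr v 0) ≠ 0 := by
  rcases Nat.eq_zero_or_pos m with rfl | hm
  · simp [Subgroup.relIndex_self]
  have : Finite (𝓞 K ⧸ v.asIdeal ^ m) := Ideal.finiteQuotientOfFreeOfNeBot _
    (pow_ne_zero m v.ne_bot)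
  have : Finite (congr v 0 ⧸ (congr v m).subgroupOf (congr v 0)) := by
    choose a ha using fun x : congr v 0 => exists_int_approx v (x := ((x : Kˣ) : K)) x.2.1.le m
    refine Finite.of_injective (β := 𝓞 K ⧸ v.asIdeal ^ m)
      (fun z => Ideal.Quotient.mk _ (a z.out)) ?_
    intro z z' hzz
    simp only at hzz
    rw [Ideal.Quotient.eq, ← valuation_le_exp_iff_mem, map_sub] at hzz
    rw [← QuotientGroup.out_eq' z, ← QuotientGroup.out_eq' z', QuotientGroup.eq,
      Subgroup.mem_subgroupOf, mem_congr_of_pos hm]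
    set x := z.out
    set y := z'.out
    have h2 : ((x⁻¹ * y : congr v 0) : Kˣ) = (((x : Kˣ)⁻¹ * y : Kˣ)) := rfl
    rw [h2]
    push_cast
    have hx0 := (x : Kˣ).ne_zero
    have h3 : (((x : Kˣ) : K))⁻¹ * ((y : Kˣ) : K) - 1
      = ((x : Kˣ) : K)⁻¹ * ((algebraMap (𝓞 K) K (a x) - ((x : Kˣ) : K)) -
        (algebraMap (𝓞 K) K (a y) - ((y : Kˣ) : K)) -
        (algebraMap (𝓞 K) K (a x) - algebraMap (𝓞 K) K (a y))) := by
      field_simp; ring
    rw [h3, map_mul, map_inv₀, x.2.1, inv_one, one_mul]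
    refine (Valuation.map_sub _ _ _).trans (max_le ((Valuation.map_sub _ _ _).trans
      (max_le (ha x) (ha y))) hzz)
  exact Nat.card_pos.ne'

theorem exists_exp_of_root (v : HeightOneSpectrum (𝓞 K)) {p : ℕ} (hp : 1 < p) {ζ : K}
    (hζ : IsPrimitiveRoot ζ p) : ∃ c : ℕ, v.valuation K (ζ - 1) = exp (-(c : ℤ)) := by
  have hint : IsIntegral ℤ (ζ - 1) := (hζ.isIntegral (by omega)).sub isIntegral_one
  have h0 : ζ - 1 ≠ 0 := sub_ne_zero.2 (hζ.ne_one hp)
  obtain ⟨r, hr⟩ : ∃ r : 𝓞 K, algebraMap (𝓞 K) K r = ζ - 1 := ⟨⟨ζ - 1, hint⟩, rfl⟩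
  have hr0 : r ≠ 0 := by rintro rfl; exact h0 (by rw [← hr, map_zero])
  rw [← hr, HeightOneSpectrum.valuation_of_algebraMap, HeightOneSpectrum.intValuation_if_neg _ hr0]
  exact ⟨_, rfl⟩

section

variable (v : HeightOneSpectrum (𝓞 K)) {p : ℕ} [hp : Fact p.Prime] {ζ : K}
  (hζ : IsPrimitiveRoot ζ p) {c : ℕ} (hc : v.valuation K (ζ - 1) = exp (-(c : ℤ)))
  {m : ℕ} (hm : p * c < m)

include hζ hc hm

/-- `x ∈ U_v` with `x^p ≡ 1 mod v^m` iff `x ≡ root of unity mod v^(m-(p-1)c)`. -/
theorem congr_comap_pow :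
    congr v 0 ⊓ (congr v m).comap (powMonoidHom p : Kˣ →* Kˣ)
      = (powMonoidHom p : Kˣ →* Kˣ).ker ⊔ congr v (m - (p - 1) * c) := by
  have hp1 : 1 ≤ p := hp.out.one_le
  have hpc : p * c = (p - 1) * c + c := by
    obtain ⟨q, rfl⟩ : ∃ q, p = q + 1 := ⟨p - 1, by omega⟩
    simp; ring
  have hm' : c < m - (p - 1) * c := by omega
  have hmpos : 0 < m := by omega
  have hvpow : v.valuation K (ζ - 1) ^ (p - 1) = exp (-(((p - 1) * c : ℕ) : ℤ)) := by
    rw [hc, ← exp_nsmul]
    congr 1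
    push_cast
    simp
  have hvpow' : v.valuation K (ζ - 1) ^ p = exp (-((p * c : ℕ) : ℤ)) := by
    rw [hc, ← exp_nsmul]
    congr 1
    push_cast
    simp
  have hsplit : (exp (-(m : ℤ)) : ℤᵐ⁰)
      = exp (-((m - (p - 1) * c : ℕ) : ℤ)) * exp (-(((p - 1) * c : ℕ) : ℤ)) := by
    rw [← exp_add]
    congr 1
    have : (p - 1) * c ≤ m := by omega
    omega
  ext x
  rw [Subgroup.mem_inf, Subgroup.mem_comap, powMonoidHom_apply, mem_congr_of_pos hmpos,
    Subgroup.mem_sup]
  constructor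
  · rintro ⟨-, hx⟩
    push_cast at hx
    obtain ⟨μ, hμ, hμx⟩ := exists_near_root (v.valuation K) hζ (x := (x : K)) (by
      refine hx.trans_lt ?_
      rw [hvpow', exp_lt_exp]
      omega)
    have h1 := val_pow_sub_one_of_near (v.valuation K) hζ hμ hμx
    rw [h1, hvpow, hsplit, mul_le_mul_iff_of_pos_right (by simp)] at hx
    have hμ0 : μ ≠ 0 := by
      rintro rfl
      rw [zero_pow hp.out.ne_zero] at hμ
      exact zero_ne_one hμ
    refine ⟨Units.mk0 μ hμ0, ?_, x / Units.mk0 μ hμ0, ?_, by simp⟩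
    · rw [MonoidHom.mem_ker, powMonoidHom_apply]
      ext
      simpa using hμ
    · rw [mem_congr_of_pos (by omega)]
      have h2 : ((x / Units.mk0 μ hμ0 : Kˣ) : K) - 1 = μ⁻¹ * ((x : K) - μ) := by
        push_cast
        rw [Units.val_mk0]
        field_simp
      rw [h2, map_mul, map_inv₀, val_eq_one_of_pow (v.valuation K) p hp.out.ne_zero hμ, inv_one,
        one_mul]
      exact hx
  · rintro ⟨μ, hμ, t, ht, rfl⟩
    rw [MonoidHom.mem_ker, powMonoidHom_apply] at hμ
    have hμK : (μ : K) ^ p = 1 := by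
      rw [← Units.val_pow_eq_pow_val, hμ, Units.val_one]
    have hvμ := val_eq_one_of_pow (v.valuation K) p hp.out.ne_zero hμK
    refine ⟨?_, ?_⟩
    · refine (congr v 0).mul_mem ?_ (congr_anti v (Nat.zero_le _) ht)
      rw [mem_congr_zero]
      exact hvμ
    · rw [mul_pow, hμ, one_mul]
      push_cast
      have hlt : v.valuation K ((t : K) - 1) < v.valuation K (ζ - 1) := by
        refine ht.2.trans_lt ?_
        rw [hc, exp_lt_exp]
        omega
      rw [val_pow_sub_one_of_near (v.valuation K) hζ (one_pow p) hlt, hvpow, hsplit]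
      exact mul_le_mul_left ht.2 _

theorem index_locPow :
    (locPow p v m).index = p ^ 2 * Ideal.absNorm v.asIdeal ^ ((p - 1) * c) := by
  have hp1 : 1 ≤ p := hp.out.one_le
  have hpc : p * c = (p - 1) * c + c := by
    obtain ⟨q, rfl⟩ : ∃ q, p = q + 1 := ⟨p - 1, by omega⟩
    simp; ring
  have hm' : c < m - (p - 1) * c := by omega
  -- step 1
  have h1 : locPow p v m ≤ (powMonoidHom p : Kˣ →* Kˣ).range ⊔ congr v 0 :=
    sup_le_sup_left (congr_anti v (Nat.zero_le m)) _
  have h2 : (powMonoidHom p : Kˣ →* Kˣ).range ⊔ congr v 0 = locPow p v m ⊔ congr v 0 := by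
    rw [locPow, sup_assoc, sup_eq_right.2 (congr_anti v (Nat.zero_le m))]
  have h3 : (locPow p v m).relIndex ((powMonoidHom p : Kˣ →* Kˣ).range ⊔ congr v 0)
      = (locPow p v m).relIndex (congr v 0) := by
    rw [h2, Subgroup.relIndex_sup_left]
  have h4 := Subgroup.relIndex_mul_index h1
  rw [h3, index_pow_sup_units v p] at h4
  -- step 2
  have h5 : (locPow p v m).relIndex (congr v 0)
      = (congr v m).relIndex (congr v 0 ⊓ (congr v m).comap (powMonoidHom p : Kˣ →* Kˣ)) := by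
    refine relIndex_pow_sup (congr v 0) (congr v m) (congr_anti v (Nat.zero_le m))
      (relIndex_congr_ne_zero v m) p ?_
    intro x hx
    rw [mem_congr_zero] at hx ⊢
    push_cast at hx
    rw [map_pow] at hx
    exact (pow_eq_one_iff_of_nonneg zero_le hp.out.ne_zero).1 hx
  rw [congr_comap_pow v hζ hc hm] at h5
  -- step 3
  set C' := congr v (m - (p - 1) * c) with hC'
  have h6 : (congr v m).relIndex C' = Ideal.absNorm v.asIdeal ^ ((p - 1) * c) := by
    have := relIndex_congr v (n := m - (p - 1) * c) (by omega) ((p - 1) * c)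
    rwa [Nat.sub_add_cancel (by omega)] at this
  have h7 : C'.relIndex ((powMonoidHom p : Kˣ →* Kˣ).ker ⊔ C')
      = Nat.card (powMonoidHom p : Kˣ →* Kˣ).ker := by
    rw [Subgroup.relIndex_sup_right, ← Subgroup.inf_relIndex_right]
    have : C' ⊓ (powMonoidHom p : Kˣ →* Kˣ).ker = ⊥ := by
      rw [eq_bot_iff]
      rintro μ ⟨hμ1, hμ2⟩
      replace hμ2 : μ ∈ (powMonoidHom p : Kˣ →* Kˣ).ker := hμ2
      rw [MonoidHom.mem_ker, powMonoidHom_apply] at hμ2
      have hμK : (μ : K) ^ p = 1 := by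
        rw [← Units.val_pow_eq_pow_val, hμ2, Units.val_one]
      rw [Subgroup.mem_bot]
      ext
      refine near_root_unique (v.valuation K) hζ (x := (μ : K)) hμK (one_pow p) ?_ ?_
      · rw [sub_self, map_zero, hc]
        simp
      · refine hμ1.2.trans_lt ?_
        rw [hc, exp_lt_exp]
        omega
    rw [this, Subgroup.relIndex_bot_left]
  have h8 : Nat.card (powMonoidHom p : Kˣ →* Kˣ).ker = p := by
    have e : (powMonoidHom p : Kˣ →* Kˣ).ker = rootsOfUnity p K := by
      ext μ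
      rw [MonoidHom.mem_ker, powMonoidHom_apply, mem_rootsOfUnity]
    have : NeZero p := ⟨hp.out.ne_zero⟩
    rw [e, hζ.card_rootsOfUnity]
  have h9 := Subgroup.relIndex_mul_relIndex (congr v m) C'
    ((powMonoidHom p : Kˣ →* Kˣ).ker ⊔ C') (congr_anti v (by omega)) le_sup_right
  rw [h6, h7, h8] at h9
  rw [← h4, h5, ← h9]
  ring

end

end Fermat.Agent.H82
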