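import Fermat.Agent.H76NormChar
import Fermat.Agent.H76ClassL
set_option autoImplicit false
set_option maxSynthPendingDepth 3
set_option linter.unusedSectionVars false

/-! # Ray class characters as functions on ideals, boundedness of the `L`-series near `s = 1`
(helper82, package [RAY] of the octahedral case) -/

namespace Fermat.Agent.H82R

open NumberField NumberField.mixedEmbedding NumberField.Units
  NumberField.Units.dirichletUnitTheorem Module NumberField.InfinitePlace Ideal nonZeroDivisors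
  Filter Topology

open scoped Classical

open Fermat.Agent.H76

variable {K : Type*} [Field K] [NumberField K]

/-- A (generalised) ray class character modulo `𝔪` without conditions at the real places:
a function on all ideals, completely multiplicative, zero exactly at the ideals which are not
coprime to `𝔪`, and `1` at the principal ideals `(b)`, `b ≡ 1 mod 𝔪`. -/
structure IsRayChar (𝔪 : Ideal (𝓞 K)) (ψ : Ideal (𝓞 K) → ℂ) : Prop where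
  ne_bot : 𝔪 ≠ ⊥
  ne_top : 𝔪 ≠ ⊤
  mul : ∀ I J : Ideal (𝓞 K), ψ (I * J) = ψ I * ψ J
  eq_zero : ∀ I : Ideal (𝓞 K), I ⊔ 𝔪 ≠ ⊤ → ψ I = 0
  ne_zero : ∀ I : Ideal (𝓞 K), I ⊔ 𝔪 = ⊤ → ψ I ≠ 0
  one_of : ∀ b : 𝓞 K, b - 1 ∈ 𝔪 → ψ (Ideal.span {b}) = 1

namespace IsRayChar

variable {𝔪 : Ideal (𝓞 K)} {ψ : Ideal (𝓞 K) → ℂ} (h : IsRayChar 𝔪 ψ)

/-- the weight on integers -/
noncomputable def wg (ψ : Ideal (𝓞 K) → ℂ) (x : 𝓞 K) : ℂ := ψ (Ideal.span {x})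

include h

lemma map_one : ψ 1 = 1 := by
  have := h.one_of 1 (by rw [sub_self]; exact 𝔪.zero_mem)
  rwa [Ideal.span_singleton_one, ← Ideal.one_eq_top] at this

lemma ne_zero_iff (I : Ideal (𝓞 K)) : ψ I ≠ 0 ↔ I ⊔ 𝔪 = ⊤ :=
  ⟨fun h0 => by_contra fun h1 => h0 (h.eq_zero I h1), h.ne_zero I⟩

lemma wg_mul (x y : 𝓞 K) : wg ψ (x * y) = wg ψ x * wg ψ y := by
  rw [wg, wg, wg, ← h.mul, Ideal.span_singleton_mul_span_singleton]

lemma exists_inv {x : 𝓞 K} (hx : wg ψ x ≠ 0) : ∃ y c : 𝓞 K, c ∈ 𝔪 ∧ y * x + c = 1 := by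
  have h1 := (h.ne_zero_iff _).mp hx
  have h2 : (1 : 𝓞 K) ∈ Ideal.span {x} ⊔ 𝔪 := by rw [h1]; trivial
  obtain ⟨a, ha, c, hc, hac⟩ := Submodule.mem_sup.mp h2
  obtain ⟨y, hy⟩ := Ideal.mem_span_singleton'.mp ha
  exact ⟨y, c, hc, by rw [hy]; exact hac⟩

lemma wg_one_of {b : 𝓞 K} (hb : b - 1 ∈ 𝔪) : wg ψ b = 1 := h.one_of b hb

lemma wg_per_aux {x t : 𝓞 K} (ht : t ∈ 𝔪) (hx : wg ψ x ≠ 0) : wg ψ (t + x) = wg ψ x := by
  obtain ⟨y, c, hc, hyc⟩ := h.exists_inv hx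
  have h1 : wg ψ (y * x) = 1 := h.wg_one_of (by
    have : y * x - 1 = -c := by linear_combination hyc
    rw [this]; exact (Ideal.neg_mem_iff _).mpr hc)
  have h2 : wg ψ (y * (t + x)) = 1 := h.wg_one_of (by
    have : y * (t + x) - 1 = y * t - c := by linear_combination hyc
    rw [this]; exact Ideal.sub_mem _ (Ideal.mul_mem_left _ _ ht) hc)
  rw [h.wg_mul] at h1 h2
  have hy : wg ψ y ≠ 0 := by
    intro h0
    rw [h0, zero_mul] at h1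
    exact zero_ne_one h1
  exact mul_left_cancel₀ hy (h2.trans h1.symm)

lemma wg_per {x t : 𝓞 K} (ht : t ∈ 𝔪) : wg ψ (t + x) = wg ψ x := by
  by_cases hx : wg ψ x = 0
  · rw [hx]
    by_contra h1
    have h2 := h.wg_per_aux (x := t + x) (t := -t) ((Ideal.neg_mem_iff _).mpr ht) h1
    rw [neg_add_cancel_left, hx] at h2
    exact h1 h2.symm
  · exact h.wg_per_aux ht hx

omit h in
lemma wg_unit (u : (𝓞 K)ˣ) (x : 𝓞 K) : wg ψ ((u : 𝓞 K) * x) = wg ψ x := by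
  rw [wg, wg, Ideal.span_singleton_mul_left_unit u.isUnit]

end IsRayChar

open IsRayChar

/-! ## representatives coprime to the modulus -/

lemma exists_coprime_rep' (C : ClassGroup (𝓞 K)) {𝔪 : Ideal (𝓞 K)} (hm : 𝔪 ≠ ⊥) :
    ∃ J : (Ideal (𝓞 K))⁰, ClassGroup.mk0 J = C ∧ (J : Ideal (𝓞 K)) ⊔ 𝔪 = ⊤ := by
  have hN : absNorm 𝔪 ≠ 0 := by
    rw [Ne, Ideal.absNorm_eq_zero_iff]; exact hm
  obtain ⟨J, hJ1, hJ2⟩ := exists_coprime_rep (K := K) C hN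
  refine ⟨J, hJ1, ?_⟩
  rw [eq_top_iff, ← hJ2]
  exact sup_le_sup_left ((Ideal.span_singleton_le_iff_mem _).mpr (Ideal.absNorm_mem 𝔪)) _

variable {𝔪 : Ideal (𝓞 K)} {ψ : Ideal (𝓞 K) → ℂ}

/-- the period lattice `𝔪 J` -/
noncomputable def perL (hm : 𝔪 ≠ ⊥) (J : (Ideal (𝓞 K))⁰) : (Ideal (𝓞 K))⁰ :=
  ⟨𝔪 * (J : Ideal (𝓞 K)), mem_nonZeroDivisors_of_ne_zero
    (mul_ne_zero hm (nonZeroDivisors.coe_ne_zero J))⟩

lemma perL_le (hm : 𝔪 ≠ ⊥) (J : (Ideal (𝓞 K))⁰) :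
    (perL hm J : Ideal (𝓞 K)) ≤ (J : Ideal (𝓞 K)) := Ideal.mul_le_right

lemma perL_le' (hm : 𝔪 ≠ ⊥) (J : (Ideal (𝓞 K))⁰) :
    (perL hm J : Ideal (𝓞 K)) ≤ 𝔪 := Ideal.mul_le_left

/-! ## the mean values -/

/-- the mean value of the weight over the residues in `J` modulo `𝔪 J` does not depend on `J`
(coprime to `𝔪`) -/
lemma mean_eq' (h : IsRayChar 𝔪 ψ) (J : (Ideal (𝓞 K))⁰) (hJ : (J : Ideal (𝓞 K)) ⊔ 𝔪 = ⊤) :
    ∑ q : 𝓞 K ⧸ (perL h.ne_bot J : Ideal (𝓞 K)),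
      (if q.out ∈ (J : Ideal (𝓞 K)) then wg ψ q.out else 0) =
    ∑ x : 𝓞 K ⧸ (perL h.ne_bot (1 : (Ideal (𝓞 K))⁰) : Ideal (𝓞 K)), wg ψ x.out := by
  rw [← Finset.sum_filter]
  symm
  set hm := h.ne_bot
  set M : Ideal (𝓞 K) := (perL hm J : Ideal (𝓞 K)) with hM
  set M1 : Ideal (𝓞 K) := (perL hm (1 : (Ideal (𝓞 K))⁰) : Ideal (𝓞 K)) with hM1
  have hM1' : M1 = 𝔪 := by
    rw [hM1]
    change 𝔪 * ((1 : (Ideal (𝓞 K))⁰) : Ideal (𝓞 K)) = _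
    rw [OneMemClass.coe_one, mul_one]
  have hMJ : M = 𝔪 * (J : Ideal (𝓞 K)) := rfl
  have h1 : (1 : 𝓞 K) ∈ (J : Ideal (𝓞 K)) ⊔ 𝔪 := by rw [hJ]; trivial
  obtain ⟨e, he, f, hf, hef⟩ := Submodule.mem_sup.mp h1
  have hout : ∀ x : 𝓞 K, ∃ t ∈ M, (Ideal.Quotient.mk M x).out = t + x := by
    intro x
    refine ⟨(Ideal.Quotient.mk M x).out - x, ?_, by ring⟩
    rw [← Ideal.Quotient.eq_zero_iff_mem, map_sub, Ideal.Quotient.mk_out, sub_self]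
  have hout1 : ∀ x : 𝓞 K, ∃ t ∈ M1, (Ideal.Quotient.mk M1 x).out = t + x := by
    intro x
    refine ⟨(Ideal.Quotient.mk M1 x).out - x, ?_, by ring⟩
    rw [← Ideal.Quotient.eq_zero_iff_mem, map_sub, Ideal.Quotient.mk_out, sub_self]
  refine Finset.sum_bij (fun (x : 𝓞 K ⧸ M1) _ => Ideal.Quotient.mk M (e * x.out)) ?_ ?_ ?_ ?_
  · intro x _
    rw [Finset.mem_filter]
    refine ⟨Finset.mem_univ _, ?_⟩
    obtain ⟨t, ht, h'⟩ := hout (e * x.out)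
    rw [h']
    exact Ideal.add_mem _ (perL_le hm J ht) (Ideal.mul_mem_right _ _ he)
  · intro x _ y _ h'
    have h2 : e * x.out - e * y.out ∈ M := by
      rw [← Ideal.Quotient.eq_zero_iff_mem, map_sub, h', sub_self]
    have h3 : x.out - y.out ∈ M1 := by
      have h4 : x.out - y.out = (e * x.out - e * y.out) + f * (x.out - y.out) := by
        linear_combination (-(x.out - y.out)) * hef
      rw [h4, hM1']
      exact Ideal.add_mem _ (perL_le' hm J h2) (Ideal.mul_mem_right _ _ hf)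
    rw [← Ideal.Quotient.mk_out x, ← Ideal.Quotient.mk_out y]
    exact Ideal.Quotient.eq.mpr h3
  · intro q hq
    rw [Finset.mem_filter] at hq
    refine ⟨Ideal.Quotient.mk M1 q.out, Finset.mem_univ _, ?_⟩
    obtain ⟨t, ht, h'⟩ := hout1 q.out
    rw [h']
    conv_rhs => rw [← Ideal.Quotient.mk_out q]
    rw [Ideal.Quotient.eq, hMJ]
    have h4 : e * (t + q.out) - q.out = t * e - f * q.out := by
      linear_combination q.out * hef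
    rw [h4]
    rw [hM1'] at ht
    exact Ideal.sub_mem _ (Ideal.mul_mem_mul ht he) (Ideal.mul_mem_mul hf hq.2)
  · intro x _
    obtain ⟨t, ht, h'⟩ := hout (e * x.out)
    rw [h', h.wg_per (perL_le' hm J ht)]
    have h5 : e * x.out = (-(f * x.out)) + x.out := by
      linear_combination x.out * hef
    rw [h5, h.wg_per (Ideal.neg_mem_iff _ |>.mpr (Ideal.mul_mem_right _ _ hf))]

/-- the common mean value -/
noncomputable def mv (h : IsRayChar 𝔪 ψ) : ℂ :=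
  ∑ x : 𝓞 K ⧸ (perL h.ne_bot (1 : (Ideal (𝓞 K))⁰) : Ideal (𝓞 K)), wg ψ x.out

/-- the mean value vanishes if the character is non-trivial on principal ideals -/
lemma mv_eq_zero (h : IsRayChar 𝔪 ψ) {a : 𝓞 K} (ha0 : wg ψ a ≠ 0) (ha1 : wg ψ a ≠ 1) :
    mv h = 0 := by
  rw [mv]
  set hm := h.ne_bot
  set M : Ideal (𝓞 K) := (perL hm (1 : (Ideal (𝓞 K))⁰) : Ideal (𝓞 K)) with hM
  have hM' : M = 𝔪 := by
    rw [hM]
    change 𝔪 * ((1 : (Ideal (𝓞 K))⁰) : Ideal (𝓞 K)) = _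
    rw [OneMemClass.coe_one, mul_one]
  have hout : ∀ x : 𝓞 K, ∃ t ∈ M, (Ideal.Quotient.mk M x).out = t + x := by
    intro x
    refine ⟨(Ideal.Quotient.mk M x).out - x, ?_, by ring⟩
    rw [← Ideal.Quotient.eq_zero_iff_mem, map_sub, Ideal.Quotient.mk_out, sub_self]
  refine sum_eq_zero_of_smul _ (fun q : 𝓞 K ⧸ M => wg ψ q.out)
    (fun q => Ideal.Quotient.mk M (a * q.out)) (fun _ _ => Finset.mem_univ _) ?_ ha1 ?_
  · intro q _ q' _ h'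
    have h1 : a * q.out - a * q'.out ∈ M := by
      rw [← Ideal.Quotient.eq_zero_iff_mem, map_sub, h', sub_self]
    obtain ⟨b, c, hc, hbc⟩ := h.exists_inv ha0
    have h2 : q.out - q'.out ∈ M := by
      have h3 : q.out - q'.out = b * (a * q.out - a * q'.out) + c * (q.out - q'.out) := by
        linear_combination (-(q.out - q'.out)) * hbc
      rw [h3]
      exact Ideal.add_mem _ (Ideal.mul_mem_left _ _ h1) (hM'.ge (Ideal.mul_mem_right _ _ hc))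
    rw [← Ideal.Quotient.mk_out q, ← Ideal.Quotient.mk_out q']
    exact Ideal.Quotient.eq.mpr h2
  · intro q _
    obtain ⟨t, ht, h'⟩ := hout (a * q.out)
    rw [h', h.wg_per (hM' ▸ ht), h.wg_mul]

/-! ## the main term -/

/-- the common main term -/
noncomputable def mainT (h : IsRayChar 𝔪 ψ) (s : ℝ) : ℂ :=
  mv h * (((absNorm 𝔪 : ℝ) ^ (-s) *
      ((torsionOrder K : ℝ)⁻¹ * ∑' β : 𝓞 K, wt s (emb β)) : ℝ) : ℂ)

lemma wg_bound (h : IsRayChar 𝔪 ψ) : ∃ B : ℝ, ∀ x : 𝓞 K, ‖wg ψ x‖ ≤ B :=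
  exists_bound_of_periodic (perL h.ne_bot 1) (wg ψ)
    (fun _ _ ht => h.wg_per (perL_le' h.ne_bot 1 ht))

lemma exists_bound_mainT (h : IsRayChar 𝔪 ψ) (J : (Ideal (𝓞 K))⁰)
    (hJ : (J : Ideal (𝓞 K)) ⊔ 𝔪 = ⊤) :
    ∃ C : ℝ, ∀ s : ℝ, 1 < s ∧ s ≤ 2 →
      ‖(∑' I : InvClass J, wg ψ (gen I) *
        (((absNorm (I.1 : Ideal (𝓞 K)) : ℝ) ^ (-s) : ℝ) : ℂ)) - mainT h s‖ ≤ C := by
  obtain ⟨B, hB⟩ := wg_bound h
  set hm := h.ne_bot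
  set g' : 𝓞 K → ℂ := fun x => if x ∈ (J : Ideal (𝓞 K)) then wg ψ x else 0 with hg'
  have hper' : ∀ x : 𝓞 K, ∀ t ∈ (perL hm J : Ideal (𝓞 K)), g' (t + x) = g' x := by
    intro x t ht
    simp only [hg', h.wg_per (perL_le' hm J ht)]
    have : t + x ∈ (J : Ideal (𝓞 K)) ↔ x ∈ (J : Ideal (𝓞 K)) :=
      (Ideal.add_mem_iff_right _ (perL_le hm J ht))
    rw [if_congr this rfl rfl]
  obtain ⟨C, hC⟩ := exists_periodic_bound (perL hm J) g' hper'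
  obtain ⟨D, hD0, hD⟩ := exists_pz_bound (perL hm J)
  have hmean := mean_eq' h J hJ
  set μ : ℂ := mv h with hμ
  have hw := H76.torsionOrder_pos K
  have hN := absNorm_pos J
  have hN1 : (1 : ℝ) ≤ absNorm (J : Ideal (𝓞 K)) := by
    have : absNorm (J : Ideal (𝓞 K)) ≠ 0 := by
      intro h; rw [h] at hN; simp at hN
    exact_mod_cast Nat.one_le_iff_ne_zero.mpr this
  have hm0 : (1 : ℝ) ≤ (absNorm 𝔪 : ℝ) := by
    have : absNorm 𝔪 ≠ 0 := by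
      rw [Ne, Ideal.absNorm_eq_zero_iff]
      exact h.ne_bot
    exact_mod_cast Nat.one_le_iff_ne_zero.mpr this
  have hmul : (absNorm (perL hm J : Ideal (𝓞 K)) : ℝ) =
      (absNorm 𝔪 : ℝ) * (absNorm (J : Ideal (𝓞 K)) : ℝ) := by
    have : (perL hm J : Ideal (𝓞 K)) = 𝔪 * (J : Ideal (𝓞 K)) := rfl
    rw [this, _root_.map_mul, Nat.cast_mul]
  refine ⟨(absNorm (J : Ideal (𝓞 K)) : ℝ) ^ (2 : ℝ) * (torsionOrder K : ℝ)⁻¹ * |C| + ‖μ‖ * D,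
    fun s hs => ?_⟩
  have h3 : ∑' β : (J : Ideal (𝓞 K)), wg ψ (β : 𝓞 K) * (wt s (emb (β : 𝓞 K)) : ℂ) =
      ∑' β : 𝓞 K, g' β * (wt s (emb β) : ℂ) := by
    have h4 := tsum_subtype ((J : Ideal (𝓞 K)) : Set (𝓞 K))
      (fun β : 𝓞 K => wg ψ β * (wt s (emb β) : ℂ))
    refine h4.trans (tsum_congr fun β => ?_)
    rw [Set.indicator_apply]
    simp only [hg', SetLike.mem_coe]
    split_ifs
    · rfl
    · rw [zero_mul]
  have h1 := hC s hs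
  have h2 : (∑ q : 𝓞 K ⧸ (perL hm J : Ideal (𝓞 K)), g' q.out) = μ := hmean
  rw [h2] at h1
  rw [(hasSum_invClass_weight (J := J) (wg ψ) wg_unit hB hs.1).tsum_eq, h3]
  have hpz := hD s hs
  set S := ∑' β : 𝓞 K, g' β * (wt s (emb β) : ℂ) with hS
  set T := ∑' t : (perL hm J : Ideal (𝓞 K)), wt s (emb (t : 𝓞 K)) with hT
  have hpzT : pz (perL hm J) s = (absNorm 𝔪 : ℝ) ^ s *
      ((absNorm (J : Ideal (𝓞 K)) : ℝ) ^ s * (torsionOrder K : ℝ)⁻¹ * T) := by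
    rw [pz, hmul, Real.mul_rpow (by linarith) (by linarith)]
    ring
  set A : ℝ := (absNorm (J : Ideal (𝓞 K)) : ℝ) ^ s * (torsionOrder K : ℝ)⁻¹ with hA
  set Nm : ℝ := (absNorm 𝔪 : ℝ) with hNm
  have hNms : Nm ^ (-s) * Nm ^ s = 1 := by
    rw [← Real.rpow_add (by linarith), neg_add_cancel, Real.rpow_zero]
  have hA0 : 0 ≤ A := by positivity
  have hA2 : A ≤ (absNorm (J : Ideal (𝓞 K)) : ℝ) ^ (2 : ℝ) * (torsionOrder K : ℝ)⁻¹ := by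
    rw [hA]
    gcongr
    · exact hs.2
  have hNm1 : Nm ^ (-s) ≤ 1 := Real.rpow_le_one_of_one_le_of_nonpos hm0 (by linarith [hs.1])
  have hNm0 : 0 ≤ Nm ^ (-s) := by positivity
  have hdecomp : (A : ℂ) * S - mainT h s =
      (A : ℂ) * (S - μ * (T : ℂ)) + μ * ((Nm ^ (-s) : ℝ) : ℂ) *
        ((pz (perL hm J) s - (torsionOrder K : ℝ)⁻¹ * ∑' β : 𝓞 K, wt s (emb β) : ℝ) : ℂ) := by
    have h5 : ((Nm ^ (-s) : ℝ) : ℂ) * ((Nm ^ s : ℝ) : ℂ) = 1 := by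
      rw [← Complex.ofReal_mul, hNms, Complex.ofReal_one]
    rw [mainT, hpzT, ← hμ]
    push_cast
    push_cast at h5
    linear_combination (-(μ * A * T)) * h5
  rw [hdecomp]
  refine (norm_add_le _ _).trans (add_le_add ?_ ?_)
  · rw [norm_mul, Complex.norm_real, Real.norm_eq_abs, abs_of_nonneg hA0]
    exact mul_le_mul hA2 (h1.trans (le_abs_self _)) (norm_nonneg _) (by positivity)
  · rw [norm_mul, norm_mul, Complex.norm_real, Complex.norm_real, Real.norm_eq_abs,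
      Real.norm_eq_abs, abs_of_nonneg hNm0]
    calc ‖μ‖ * Nm ^ (-s) * _ ≤ ‖μ‖ * 1 * D := by
          gcongr
      _ = ‖μ‖ * D := by ring

/-! ## partial L-functions -/

/-- a coprime representative of the inverse class -/
noncomputable def cRep (hm : 𝔪 ≠ ⊥) (C : ClassGroup (𝓞 K)) : (Ideal (𝓞 K))⁰ :=
  (exists_coprime_rep' C⁻¹ hm).choose

lemma mk0_cRep (hm : 𝔪 ≠ ⊥) (C : ClassGroup (𝓞 K)) : ClassGroup.mk0 (cRep hm C) = C⁻¹ :=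
  (exists_coprime_rep' C⁻¹ hm).choose_spec.1

lemma cRep_coprime (hm : 𝔪 ≠ ⊥) (C : ClassGroup (𝓞 K)) :
    (cRep hm C : Ideal (𝓞 K)) ⊔ 𝔪 = ⊤ :=
  (exists_coprime_rep' C⁻¹ hm).choose_spec.2

/-- the partial `L`-function of the character -/
noncomputable def pLr (h : IsRayChar 𝔪 ψ) (C : ClassGroup (𝓞 K)) (s : ℝ) : ℂ :=
  (ψ (cRep h.ne_bot C : Ideal (𝓞 K)))⁻¹ *
  ∑' I : InvClass (cRep h.ne_bot C : (Ideal (𝓞 K))⁰), wg ψ (gen I) *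
    (((absNorm (I.1 : Ideal (𝓞 K)) : ℝ) ^ (-s) : ℝ) : ℂ)

lemma wg_gen (h : IsRayChar 𝔪 ψ) {J : (Ideal (𝓞 K))⁰} (I : InvClass J) :
    wg ψ (gen I) = ψ (I.1 : Ideal (𝓞 K)) * ψ (J : Ideal (𝓞 K)) := by
  rw [wg, span_gen, h.mul]

lemma hasSum_pLr (h : IsRayChar 𝔪 ψ) (C : ClassGroup (𝓞 K)) {s : ℝ} (hs : 1 < s) :
    HasSum (fun I : (Ideal (𝓞 K))⁰ => if ClassGroup.mk0 I = C then
      ψ (I : Ideal (𝓞 K)) *
        (((absNorm (I : Ideal (𝓞 K)) : ℝ) ^ (-s) : ℝ) : ℂ) else 0) (pLr h C s) := by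
  obtain ⟨B, hB⟩ := wg_bound h
  have h0 := (hasSum_invClass_weight (J := cRep h.ne_bot C) (wg ψ) wg_unit hB hs)
  have h1 := h0.summable.hasSum.mul_left (ψ (cRep h.ne_bot C : Ideal (𝓞 K)))⁻¹
  have hne : ψ (cRep h.ne_bot C : Ideal (𝓞 K)) ≠ 0 := h.ne_zero _ (cRep_coprime _ _)
  have h2 : (fun I : InvClass (cRep h.ne_bot C : (Ideal (𝓞 K))⁰) =>
      (ψ (cRep h.ne_bot C : Ideal (𝓞 K)))⁻¹ * (wg ψ (gen I) *
      (((absNorm (I.1 : Ideal (𝓞 K)) : ℝ) ^ (-s) : ℝ) : ℂ))) =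
      (fun I : (Ideal (𝓞 K))⁰ => ψ (I : Ideal (𝓞 K)) *
        (((absNorm (I : Ideal (𝓞 K)) : ℝ) ^ (-s) : ℝ) : ℂ)) ∘ (fun I : InvClass (cRep h.ne_bot C :
          (Ideal (𝓞 K))⁰) => I.1) := by
    funext I
    rw [wg_gen h, Function.comp_apply]
    field_simp
  rw [h2] at h1
  have h3 : ({I : (Ideal (𝓞 K))⁰ | ClassGroup.mk0 I * ClassGroup.mk0 (cRep h.ne_bot C) =
        1}.indicator
      (fun I : (Ideal (𝓞 K))⁰ => ψ (I : Ideal (𝓞 K)) *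
        (((absNorm (I : Ideal (𝓞 K)) : ℝ) ^ (-s) : ℝ) : ℂ))) =
      fun I : (Ideal (𝓞 K))⁰ => if ClassGroup.mk0 I = C then
      ψ (I : Ideal (𝓞 K)) *
        (((absNorm (I : Ideal (𝓞 K)) : ℝ) ^ (-s) : ℝ) : ℂ) else 0 := by
    funext I
    rw [Set.indicator_apply]
    congr 1
    rw [Set.mem_ofPred_eq, mk0_cRep, mul_inv_eq_one]
  rw [← h3]
  exact hasSum_subtype_iff_indicator.mp h1

lemma hasSum_sum_pLr (h : IsRayChar 𝔪 ψ) {s : ℝ} (hs : 1 < s) :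
    HasSum (fun I : (Ideal (𝓞 K))⁰ => ψ (I : Ideal (𝓞 K)) *
        (((absNorm (I : Ideal (𝓞 K)) : ℝ) ^ (-s) : ℝ) : ℂ))
      (∑ C : ClassGroup (𝓞 K), pLr h C s) := by
  have h1 : ∀ C ∈ (Finset.univ : Finset (ClassGroup (𝓞 K))),
      HasSum (fun I : (Ideal (𝓞 K))⁰ => (if ClassGroup.mk0 I = C then
      ψ (I : Ideal (𝓞 K)) *
        (((absNorm (I : Ideal (𝓞 K)) : ℝ) ^ (-s) : ℝ) : ℂ) else 0)) (pLr h C s) :=
    fun C _ => (hasSum_pLr h C hs)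
  have h2 := hasSum_sum h1
  have h3 : (fun I : (Ideal (𝓞 K))⁰ => ∑ C : ClassGroup (𝓞 K),
      (if ClassGroup.mk0 I = C then
      ψ (I : Ideal (𝓞 K)) *
        (((absNorm (I : Ideal (𝓞 K)) : ℝ) ^ (-s) : ℝ) : ℂ) else 0)) =
      fun I : (Ideal (𝓞 K))⁰ => ψ (I : Ideal (𝓞 K)) *
        (((absNorm (I : Ideal (𝓞 K)) : ℝ) ^ (-s) : ℝ) : ℂ) := by
    funext I
    rw [Finset.sum_eq_single (ClassGroup.mk0 I)]
    · rw [if_pos rfl]
    · intro C _ hC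
      rw [if_neg (Ne.symm hC)]
    · intro h
      exact absurd (Finset.mem_univ _) h
  rw [← h3]
  exact h2

/-! ## the class group sum -/

lemma psi_eq_cRep_inv (h : IsRayChar 𝔪 ψ)
    (h01 : ∀ a : 𝓞 K, wg ψ a = 0 ∨ wg ψ a = 1) {I : (Ideal (𝓞 K))⁰}
    (hI : ψ (I : Ideal (𝓞 K)) ≠ 0) :
    ψ (I : Ideal (𝓞 K)) = (ψ (cRep h.ne_bot (ClassGroup.mk0 I) : Ideal (𝓞 K)))⁻¹ := by
  have h1 : ClassGroup.mk0 (I * cRep h.ne_bot (ClassGroup.mk0 I)) = 1 := by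
    rw [_root_.map_mul, mk0_cRep, mul_inv_cancel]
  obtain ⟨a, ha⟩ := (ClassGroup.mk0_eq_one_iff _).mp h1
  have ha' : (I : Ideal (𝓞 K)) * (cRep h.ne_bot (ClassGroup.mk0 I) : Ideal (𝓞 K)) =
      Ideal.span {a} := ha
  have h2 : wg ψ a = ψ (I : Ideal (𝓞 K)) *
      ψ (cRep h.ne_bot (ClassGroup.mk0 I) : Ideal (𝓞 K)) := by
    rw [wg, ← ha', h.mul]
  have hne : ψ (cRep h.ne_bot (ClassGroup.mk0 I) : Ideal (𝓞 K)) ≠ 0 :=
    h.ne_zero _ (cRep_coprime _ _)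
  have h3 : wg ψ a ≠ 0 := by
    rw [h2]; exact mul_ne_zero hI hne
  have h4 := (h01 a).resolve_left h3
  rw [h2] at h4
  exact eq_inv_of_mul_eq_one_left h4

lemma sum_cRep_inv_eq_zero (h : IsRayChar 𝔪 ψ)
    (h01 : ∀ a : 𝓞 K, wg ψ a = 0 ∨ wg ψ a = 1) {I₀ : (Ideal (𝓞 K))⁰}
    (hI0 : ψ (I₀ : Ideal (𝓞 K)) ≠ 0) (hI1 : ψ (I₀ : Ideal (𝓞 K)) ≠ 1) :
    ∑ C : ClassGroup (𝓞 K), (ψ (cRep h.ne_bot C : Ideal (𝓞 K)))⁻¹ = 0 := by
  set κ : ClassGroup (𝓞 K) → ℂ := fun C => (ψ (cRep h.ne_bot C : Ideal (𝓞 K)))⁻¹ with hκ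
  have hκI : ∀ I : (Ideal (𝓞 K))⁰, ψ (I : Ideal (𝓞 K)) ≠ 0 →
      ψ (I : Ideal (𝓞 K)) = κ (ClassGroup.mk0 I) :=
    fun I hI => psi_eq_cRep_inv h h01 hI
  have hmul : ∀ C : ClassGroup (𝓞 K), κ (ClassGroup.mk0 I₀ * C) =
      ψ (I₀ : Ideal (𝓞 K)) * κ C := by
    intro C
    have h1 : ClassGroup.mk0 (cRep h.ne_bot C⁻¹) = C := by rw [mk0_cRep, inv_inv]
    have hne : ψ (cRep h.ne_bot C⁻¹ : Ideal (𝓞 K)) ≠ 0 := h.ne_zero _ (cRep_coprime _ _)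
    have h2 := hκI (cRep h.ne_bot C⁻¹) hne
    rw [h1] at h2
    have h3 : ψ ((I₀ * cRep h.ne_bot C⁻¹ : (Ideal (𝓞 K))⁰) : Ideal (𝓞 K)) =
        ψ (I₀ : Ideal (𝓞 K)) * ψ (cRep h.ne_bot C⁻¹ : Ideal (𝓞 K)) := by
      rw [Submonoid.coe_mul, h.mul]
    have h4 := hκI (I₀ * cRep h.ne_bot C⁻¹) (by rw [h3]; exact mul_ne_zero hI0 hne)
    rw [_root_.map_mul, h1] at h4
    rw [← h4, h3, h2]
  have h1 : ψ (I₀ : Ideal (𝓞 K)) * ∑ C, κ C = ∑ C, κ C := by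
    rw [Finset.mul_sum]
    refine Fintype.sum_equiv (Equiv.mulLeft (ClassGroup.mk0 I₀)) _ _ fun C => ?_
    rw [Equiv.coe_mulLeft, hmul]
  have h2 : (ψ (I₀ : Ideal (𝓞 K)) - 1) * ∑ C, κ C = 0 := by
    rw [sub_mul, one_mul, h1, sub_self]
  rcases mul_eq_zero.mp h2 with h | h
  · exact absurd (sub_eq_zero.mp h) hI1
  · exact h

/-- **[R1]** The `L`-series of a non-trivial ray class character is bounded on `(1, 2]`. -/
theorem rayL_bounded (h : IsRayChar 𝔪 ψ) (hnt : ∃ I : Ideal (𝓞 K), ψ I ≠ 0 ∧ ψ I ≠ 1) :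
    ∃ C : ℝ, ∀ s : ℝ, 1 < s → s ≤ 2 →
      ‖∑' I : (Ideal (𝓞 K))⁰, ψ (I : Ideal (𝓞 K)) *
        (((absNorm (I : Ideal (𝓞 K)) : ℝ) ^ (-s) : ℝ) : ℂ)‖ ≤ C := by
  -- the coefficient of the main term vanishes
  have hcoef : mv h * ∑ C : ClassGroup (𝓞 K), (ψ (cRep h.ne_bot C : Ideal (𝓞 K)))⁻¹ = 0 := by
    by_cases h01 : ∀ a : 𝓞 K, wg ψ a = 0 ∨ wg ψ a = 1
    · obtain ⟨I, hI0, hI1⟩ := hnt
      have hIb : I ≠ ⊥ := by
        rintro rfl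
        rw [h.ne_zero_iff, bot_sup_eq] at hI0
        exact h.ne_top hI0
      rw [sum_cRep_inv_eq_zero h h01 (I₀ := ⟨I, mem_nonZeroDivisors_of_ne_zero hIb⟩) hI0 hI1,
        mul_zero]
    · push Not at h01
      obtain ⟨a, ha0, ha1⟩ := h01
      rw [mv_eq_zero h ha0 ha1, zero_mul]
  choose B hB using fun C : ClassGroup (𝓞 K) =>
    exists_bound_mainT h (cRep h.ne_bot C) (cRep_coprime h.ne_bot C)
  refine ⟨∑ C : ClassGroup (𝓞 K), ‖(ψ (cRep h.ne_bot C : Ideal (𝓞 K)))⁻¹‖ * B C,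
    fun s hs1 hs2 => ?_⟩
  rw [(hasSum_sum_pLr h hs1).tsum_eq]
  have hz : (∑ C : ClassGroup (𝓞 K), (ψ (cRep h.ne_bot C : Ideal (𝓞 K)))⁻¹) * mainT h s = 0 := by
    rw [mainT, ← mul_assoc, mul_comm _ (mv h), hcoef, zero_mul]
  have h1 : ∑ C : ClassGroup (𝓞 K), pLr h C s = ∑ C : ClassGroup (𝓞 K),
      (ψ (cRep h.ne_bot C : Ideal (𝓞 K)))⁻¹ *
      ((∑' I : InvClass (cRep h.ne_bot C : (Ideal (𝓞 K))⁰), wg ψ (gen I) *
        (((absNorm (I.1 : Ideal (𝓞 K)) : ℝ) ^ (-s) : ℝ) : ℂ)) - mainT h s) := by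
    simp_rw [mul_sub]
    rw [Finset.sum_sub_distrib, ← Finset.sum_mul, hz, sub_zero]
    rfl
  rw [h1]
  refine norm_sum_le_of_le _ fun C _ => ?_
  rw [norm_mul]
  exact mul_le_mul_of_nonneg_left (hB C s ⟨hs1, hs2⟩) (norm_nonneg _)

end Fermat.Agent.H82R
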