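import Fermat.Agent.H82R1
import Fermat.Agent.H28Z1
import Fermat.Agent.H85Euler
set_option autoImplicit false
set_option maxSynthPendingDepth 3
set_option linter.unusedSectionVars false

/-! # Prime sums of ray class characters (helper82, package [RAY] of the octahedral case) -/

namespace Fermat.Agent.H82R

open NumberField Ideal nonZeroDivisors IsDedekindDomain Filter Topology

open Fermat.Agent.H28Z (RayChar)

open Fermat.Agent.H99 (xp Ps)

variable {K : Type*} [Field K] [NumberField K]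

variable {m m' : Ideal (𝓞 K)} {ψ : Ideal (𝓞 K) → ℂ}

/-! ## change of the modulus -/

open scoped Classical in
/-- restriction of a function on ideals to the ideals prime to `m'` -/
noncomputable def restr (m' : Ideal (𝓞 K)) (ψ : Ideal (𝓞 K) → ℂ) (I : Ideal (𝓞 K)) : ℂ :=
  if IsCoprime I m' then ψ I else 0

lemma restr_of_coprime {I : Ideal (𝓞 K)} (h : IsCoprime I m') : restr m' ψ I = ψ I := if_pos h

lemma restr_of_not {I : Ideal (𝓞 K)} (h : ¬ IsCoprime I m') : restr m' ψ I = 0 := if_neg h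

lemma isCoprime_mul {I J : Ideal (𝓞 K)} : IsCoprime (I * J) m' ↔ IsCoprime I m' ∧ IsCoprime J m' :=
  IsCoprime.mul_left_iff

lemma rayChar_restr (hψ : RayChar m ψ) (hle : m' ≤ m) : RayChar m' (restr m' ψ) where
  map_bot := by
    by_cases h : IsCoprime (⊥ : Ideal (𝓞 K)) m'
    · rw [restr_of_coprime h, hψ.map_bot]
    · exact restr_of_not h
  map_one := by
    rw [restr_of_coprime isCoprime_one_left, hψ.map_one]
  map_mul I J := by
    by_cases hI : IsCoprime I m'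
    · by_cases hJ : IsCoprime J m'
      · rw [restr_of_coprime hI, restr_of_coprime hJ, restr_of_coprime (isCoprime_mul.mpr ⟨hI, hJ⟩),
          hψ.map_mul]
      · rw [restr_of_not hJ, restr_of_not (fun h => hJ (isCoprime_mul.mp h).2), mul_zero]
    · rw [restr_of_not hI, restr_of_not (fun h => hI (isCoprime_mul.mp h).1), zero_mul]
  eq_zero I hI := restr_of_not hI
  map_span a ha0 ha := by
    have h : IsCoprime (Ideal.span {a}) m' := by
      rw [Ideal.isCoprime_iff_exists]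
      refine ⟨a, Ideal.mem_span_singleton_self a, -(a - 1), (Ideal.neg_mem_iff _).mpr ha, by ring⟩
    rw [restr_of_coprime h, hψ.map_span a ha0 (hle ha)]

/-- an element congruent to `a` modulo `m` and prime to `m'` -/
lemma exists_congr_coprime (hm' : m' ≠ ⊥) {a : 𝓞 K}
    (ha : IsCoprime (Ideal.span {a}) m) :
    ∃ b : 𝓞 K, b - a ∈ m ∧ IsCoprime (Ideal.span {b}) m' := by
  classical
  have hfin : {v : HeightOneSpectrum (𝓞 K) | v.asIdeal ∣ m'}.Finite := Ideal.finite_factors hm'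
  set T : Finset (HeightOneSpectrum (𝓞 K)) := hfin.toFinset.filter (fun v => ¬ m ≤ v.asIdeal)
    with hT
  set n : Ideal (𝓞 K) := ∏ v ∈ T, v.asIdeal with hn
  have hcop : IsCoprime m n := by
    refine IsCoprime.prod_right fun v hv => ?_
    have h1 : ¬ m ≤ v.asIdeal := (Finset.mem_filter.mp hv).2
    rw [Ideal.isCoprime_iff_sup_eq]
    have hmax : v.asIdeal.IsMaximal := v.isMaximal
    by_contra h2
    exact h1 ((hmax.eq_of_le h2 le_sup_right) ▸ le_sup_left)
  rw [Ideal.isCoprime_iff_exists] at hcop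
  obtain ⟨x, hx, y, hy, hxy⟩ := hcop
  refine ⟨a * y + x, ?_, ?_⟩
  · have : a * y + x - a = (1 - a) * x := by linear_combination a * hxy
    rw [this]
    exact Ideal.mul_mem_left _ _ hx
  · rw [Ideal.isCoprime_iff_sup_eq]
    by_contra hne
    obtain ⟨P, hP, hle⟩ := Ideal.exists_le_maximal _ hne
    have hbP : a * y + x ∈ P := hle (Ideal.mem_sup_left (Ideal.mem_span_singleton_self _))
    have hmP : m' ≤ P := le_sup_right.trans hle
    have hP0 : P ≠ ⊥ := by
      rintro rfl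
      exact hm' (le_bot_iff.mp hmP)
    by_cases hmP' : m ≤ P
    · have h1 : a ∈ P := by
        have h2 : a = (a * y + x) + (a - 1) * x := by linear_combination (-a) * hxy
        rw [h2]
        exact P.add_mem hbP (P.mul_mem_left _ (hmP' hx))
      rw [Ideal.isCoprime_iff_sup_eq] at ha
      exact hP.ne_top (top_le_iff.mp (ha ▸ sup_le ((Ideal.span_singleton_le_iff_mem _).mpr h1) hmP'))
    · let v : HeightOneSpectrum (𝓞 K) := ⟨P, hP.isPrime, hP0⟩
      have hv : v ∈ T := by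
        rw [hT, Finset.mem_filter]
        exact ⟨hfin.mem_toFinset.mpr (Ideal.dvd_iff_le.mpr hmP), hmP'⟩
      have hnP : n ≤ P := by
        have := Finset.dvd_prod_of_mem (fun v : HeightOneSpectrum (𝓞 K) => v.asIdeal) hv
        exact Ideal.dvd_iff_le.mp this
      have h1 : (1 : 𝓞 K) ∈ P := by
        have h2 : (1 : 𝓞 K) = (a * y + x) + (1 - a) * y := by linear_combination (-1 : 𝓞 K) * hxy
        rw [h2]
        exact P.add_mem hbP (P.mul_mem_left _ (hnP hy))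
      exact hP.ne_top ((Ideal.eq_top_iff_one _).mpr h1)

/-- non-triviality is preserved by a change of the modulus -/
lemma exists_ne_one_coprime (hψ : RayChar m ψ) (hm' : m' ≠ ⊥) (hle : m' ≤ m)
    (hnt : ∃ I : Ideal (𝓞 K), I ≠ ⊥ ∧ IsCoprime I m ∧ ψ I ≠ 1) :
    ∃ J : Ideal (𝓞 K), J ≠ ⊥ ∧ IsCoprime J m' ∧ ψ J ≠ 1 := by
  obtain ⟨I, hI0, hIm, hI1⟩ := hnt
  have hm : m ≠ ⊥ := by
    rintro rfl
    exact hm' (le_bot_iff.mp hle)
  by_cases htop : m' = ⊤
  · have : m = ⊤ := top_le_iff.mp (htop ▸ hle)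
    exact ⟨I, hI0, by rw [htop, ← this]; exact hIm, hI1⟩
  by_contra hcon
  push Not at hcon
  let I' : (Ideal (𝓞 K))⁰ := ⟨I, mem_nonZeroDivisors_of_ne_zero hI0⟩
  obtain ⟨J, hJ, hJm⟩ := H28Z.exists_coprime_rep hm' (ClassGroup.mk0 I')⁻¹
  have hJ0 : (J : Ideal (𝓞 K)) ≠ ⊥ := nonZeroDivisors.coe_ne_zero J
  have h1 : ClassGroup.mk0 (I' * J) = 1 := by rw [_root_.map_mul, hJ, mul_inv_cancel]
  rw [ClassGroup.mk0_eq_one_iff] at h1
  obtain ⟨a, ha⟩ := h1
  have ha' : I * (J : Ideal (𝓞 K)) = Ideal.span {a} := ha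
  have ha0 : a ≠ 0 := by
    rintro rfl
    rw [Ideal.span_singleton_eq_bot.mpr rfl] at ha'
    exact mul_ne_zero hI0 hJ0 ha'
  have hJm1 : IsCoprime (J : Ideal (𝓞 K)) m := by
    rw [Ideal.isCoprime_iff_sup_eq, eq_top_iff, ← Ideal.isCoprime_iff_sup_eq.mp hJm]
    exact sup_le_sup_left hle _
  have ham : IsCoprime (Ideal.span {a}) m := ha' ▸ isCoprime_mul.mpr ⟨hIm, hJm1⟩
  obtain ⟨b, hba, hbm⟩ := exists_congr_coprime (m := m) hm' ham
  have hb0 : b ≠ 0 := by
    rintro rfl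
    rw [Ideal.span_singleton_eq_bot.mpr rfl, Ideal.isCoprime_iff_sup_eq, bot_sup_eq] at hbm
    exact htop hbm
  have h2 : ψ (Ideal.span {a}) = ψ I := by
    rw [← ha', hψ.map_mul, hcon J hJ0 hJm, mul_one]
  have h3 : ψ (Ideal.span {b}) = ψ (Ideal.span {a}) := hψ.congr_span hb0 ha0 hba
  have h4 := hcon (Ideal.span {b}) (by rwa [Ne, Ideal.span_singleton_eq_bot]) hbm
  exact hI1 (by rw [← h2, ← h3, h4])

/-! ## the L-series -/

lemma isRayChar_of (hψ : RayChar m ψ) (hm : m ≠ ⊥) (htop : m ≠ ⊤) : IsRayChar m ψ where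
  ne_bot := hm
  ne_top := htop
  mul := hψ.map_mul
  eq_zero I hI := hψ.eq_zero I (fun h => hI (Ideal.isCoprime_iff_sup_eq.mp h))
  ne_zero I hI := by
    have hI0 : I ≠ ⊥ := by
      rintro rfl
      rw [bot_sup_eq] at hI
      exact htop hI
    exact hψ.ne_zero hm hI0 (Ideal.isCoprime_iff_sup_eq.mpr hI)
  one_of b hb := by
    by_cases hb0 : b = 0
    · exfalso
      apply htop
      rw [hb0, zero_sub, Ideal.neg_mem_iff] at hb
      exact (Ideal.eq_top_iff_one _).mpr hb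
    · exact hψ.map_span b hb0 hb

theorem rayChar_L_bounded (hψ : RayChar m ψ) (hm : m ≠ ⊥) (htop : m ≠ ⊤)
    (hnt : ∃ I : Ideal (𝓞 K), I ≠ ⊥ ∧ IsCoprime I m ∧ ψ I ≠ 1) :
    ∃ C : ℝ, ∀ s : ℝ, 1 < s → s ≤ 2 →
      ‖∑' I : (Ideal (𝓞 K))⁰, ψ (I : Ideal (𝓞 K)) *
        (((absNorm (I : Ideal (𝓞 K)) : ℝ) ^ (-s) : ℝ) : ℂ)‖ ≤ C := by
  obtain ⟨I, hI0, hIm, hI1⟩ := hnt
  exact rayL_bounded (isRayChar_of hψ hm htop) ⟨I, hψ.ne_zero hm hI0 hIm, hI1⟩

/-! ## prime sums -/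

lemma summable_absNorm {s : ℝ} (hs : 1 < s) :
    Summable fun I : Ideal (𝓞 K) => (Ideal.absNorm I : ℝ) ^ (-s) := by
  have h1 : ∑' I : Ideal (𝓞 K), ENNReal.ofReal ((Ideal.absNorm I : ℝ) ^ (-s)) ≠ ⊤ := by
    have h2 := H99.Z_eq K hs
    rw [H99.Z] at h2
    have h3 : ∑' I : Ideal (𝓞 K), ENNReal.ofReal ((Ideal.absNorm I : ℝ) ^ (-s)) =
        ENNReal.ofReal (H99.zr K s) := h2
    rw [h3]
    exact ENNReal.ofReal_ne_top
  have h2 := ENNReal.summable_toReal h1
  refine h2.congr fun I => ?_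
  rw [ENNReal.toReal_ofReal (by positivity)]

/-- the weight `ψ(I) N(I)^{-s}` -/
noncomputable def wr (ψ : Ideal (𝓞 K) → ℂ) (s : ℝ) (I : Ideal (𝓞 K)) : ℂ :=
  ψ I * (((Ideal.absNorm I : ℝ) ^ (-s) : ℝ) : ℂ)

lemma wr_re (ψ : Ideal (𝓞 K) → ℂ) (s : ℝ) (P : HeightOneSpectrum (𝓞 K)) :
    (wr ψ s P.asIdeal).re = (ψ P.asIdeal).re * xp K s P := by
  rw [wr, Complex.re_mul_ofReal]; rfl

lemma norm_wr_le (hψ : RayChar m ψ) (hm : m ≠ ⊥) (s : ℝ) (I : Ideal (𝓞 K)) :
    ‖wr ψ s I‖ ≤ (Ideal.absNorm I : ℝ) ^ (-s) := by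
  rw [wr, norm_mul, Complex.norm_real, Real.norm_of_nonneg (by positivity)]
  calc ‖ψ I‖ * (Ideal.absNorm I : ℝ) ^ (-s) ≤ 1 * (Ideal.absNorm I : ℝ) ^ (-s) :=
        mul_le_mul_of_nonneg_right (hψ.norm_le_one hm I) (by positivity)
    _ = _ := one_mul _

lemma summable_prime (hψ : RayChar m ψ) (hm : m ≠ ⊥) {s : ℝ} (hs : 1 < s) :
    Summable fun P : HeightOneSpectrum (𝓞 K) => (ψ P.asIdeal).re * xp K s P := by
  refine Summable.of_norm_bounded (H99.summable_xp K hs) fun P => ?_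
  rw [← wr_re, Real.norm_eq_abs]
  exact (Complex.abs_re_le_norm _).trans (norm_wr_le hψ hm s P.asIdeal)

theorem rayChar_prime_sum_le_aux (hψ : RayChar m ψ) (hm : m ≠ ⊥) (htop : m ≠ ⊤)
    (hnt : ∃ I : Ideal (𝓞 K), I ≠ ⊥ ∧ IsCoprime I m ∧ ψ I ≠ 1) :
    ∃ C : ℝ, ∀ s : ℝ, 1 < s → s ≤ 2 →
      ∑' P : HeightOneSpectrum (𝓞 K), (ψ P.asIdeal).re * xp K s P ≤ C := by
  obtain ⟨C, hC⟩ := rayChar_L_bounded hψ hm htop hnt
  refine ⟨Real.log C + Ps K 2 / 2, fun s hs hs2 => ?_⟩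
  have hw0 : wr ψ s ⊥ = 0 := by rw [wr, hψ.map_bot, zero_mul]
  have hw1 : wr ψ s 1 = 1 := by rw [wr, hψ.map_one, _root_.map_one]; simp
  have hwmul : ∀ I J, wr ψ s (I * J) = wr ψ s I * wr ψ s J := by
    intro I J
    rw [wr, wr, wr, _root_.map_mul, Nat.cast_mul, hψ.map_mul,
      Real.mul_rpow (by positivity) (by positivity), Complex.ofReal_mul]
    ring
  have hwsum : Summable fun I => ‖wr ψ s I‖ :=
    Summable.of_nonneg_of_le (fun _ => norm_nonneg _) (norm_wr_le hψ hm s) (summable_absNorm hs)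
  have hwP : ∀ P : HeightOneSpectrum (𝓞 K), ‖wr ψ s P.asIdeal‖ ≤ xp K s P :=
    fun P => norm_wr_le hψ hm s P.asIdeal
  have htsum : ∑' I, wr ψ s I = ∑' I : (Ideal (𝓞 K))⁰, wr ψ s (I : Ideal (𝓞 K)) := by
    symm
    apply tsum_subtype_eq_of_support_subset
    intro I hI
    rw [SetLike.mem_coe, mem_nonZeroDivisors_iff_ne_zero]
    rintro rfl
    exact hI hw0
  have h1 := H85.sum_re_le (wr ψ s) hw0 hw1 hwmul hwsum (fun P => lt_of_le_of_lt (hwP P)
      (lt_of_le_of_lt (H99.xp_le_half K hs.le P) (by norm_num)))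
    C (by rw [htsum]; exact hC s hs hs2) (Ps K 2 / 2) (by
      have e1 : Ps K 2 / 2 = ∑' P : HeightOneSpectrum (𝓞 K), xp K 2 P / 2 := by
        rw [Ps, tsum_div_const]
      rw [e1]
      refine Summable.tsum_le_tsum (fun P => ?_) ?_ ((H99.summable_xp K (by norm_num)).div_const 2)
      · have h2 := H99.xp_sq_le K hs.le P
        have h3 := pow_le_pow_left₀ (norm_nonneg _) (hwP P) 2
        linarith
      · refine Summable.of_nonneg_of_le (fun P => by positivity) (fun P => ?_)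
          ((H99.summable_xp K (by norm_num : (1:ℝ) < 2)).div_const 2)
        have h2 := H99.xp_sq_le K hs.le P
        have h3 := pow_le_pow_left₀ (norm_nonneg _) (hwP P) 2
        linarith)
  refine le_of_eq_of_le (tsum_congr fun P => ?_) h1
  rw [wr_re]

/-- **[R2]** the prime sums of a non-trivial ray class character are bounded above on `(1, 2]`. -/
theorem rayChar_prime_sum_le (hψ : RayChar m ψ) (hm : m ≠ ⊥)
    (hnt : ∃ I : Ideal (𝓞 K), I ≠ ⊥ ∧ IsCoprime I m ∧ ψ I ≠ 1) :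
    ∃ C : ℝ, ∀ s : ℝ, 1 < s → s ≤ 2 →
      ∑' P : HeightOneSpectrum (𝓞 K),
        (ψ P.asIdeal).re * (Ideal.absNorm P.asIdeal : ℝ) ^ (-s) ≤ C := by
  classical
  -- a smaller modulus
  set m' : Ideal (𝓞 K) := m * Ideal.span {(2 : 𝓞 K)} with hm'
  have h20 : Ideal.span {(2 : 𝓞 K)} ≠ ⊥ := by
    rw [Ne, Ideal.span_singleton_eq_bot]; exact two_ne_zero
  have hm'0 : m' ≠ ⊥ := mul_ne_zero hm h20
  have hle : m' ≤ m := Ideal.mul_le_left
  have h2top : Ideal.span {(2 : 𝓞 K)} ≠ ⊤ := by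
    rw [Ne, Ideal.span_singleton_eq_top]
    intro hu
    have h1 : IsUnit (Algebra.norm ℤ (2 : 𝓞 K)) := hu.map _
    have h2 : Algebra.norm ℤ (2 : 𝓞 K) = 2 ^ Module.finrank ℤ (𝓞 K) := by
      have := Algebra.norm_algebraMap (S := 𝓞 K) (2 : ℤ)
      rwa [map_ofNat] at this
    rw [h2] at h1
    have h3 : 0 < Module.finrank ℤ (𝓞 K) := Module.finrank_pos
    rw [isUnit_pow_iff h3.ne', Int.isUnit_iff] at h1
    omega
  have hm'top : m' ≠ ⊤ := fun h => h2top (top_le_iff.mp (h ▸ Ideal.mul_le_right))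
  have hψ' := rayChar_restr (m' := m') hψ hle
  obtain ⟨J, hJ0, hJm, hJ1⟩ := exists_ne_one_coprime hψ hm'0 hle hnt
  obtain ⟨C, hC⟩ := rayChar_prime_sum_le_aux hψ' hm'0 hm'top
    ⟨J, hJ0, hJm, by rwa [restr_of_coprime hJm]⟩
  have hfin : {v : HeightOneSpectrum (𝓞 K) | v.asIdeal ∣ m'}.Finite := Ideal.finite_factors hm'0
  refine ⟨C + hfin.toFinset.card, fun s hs hs2 => ?_⟩
  have h1 := hC s hs hs2
  have hs1 := summable_prime hψ hm hs
  have hs1' := summable_prime hψ' hm'0 hs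
  -- the difference is supported on the primes dividing `m'`
  have hdiff : ∑' P : HeightOneSpectrum (𝓞 K), ((ψ P.asIdeal).re * xp K s P -
      (restr m' ψ P.asIdeal).re * xp K s P) ≤ hfin.toFinset.card := by
    rw [tsum_eq_sum (s := hfin.toFinset)]
    · calc ∑ P ∈ hfin.toFinset, ((ψ P.asIdeal).re * xp K s P -
          (restr m' ψ P.asIdeal).re * xp K s P) ≤ ∑ P ∈ hfin.toFinset, (1 : ℝ) := by
            refine Finset.sum_le_sum fun P hP => ?_
            have hP' : P.asIdeal ∣ m' := hfin.mem_toFinset.mp hP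
            have hnc : ¬ IsCoprime P.asIdeal m' := by
              rw [Ideal.isCoprime_iff_sup_eq, sup_eq_left.mpr (Ideal.dvd_iff_le.mp hP')]
              exact P.isPrime.ne_top
            rw [restr_of_not hnc, Complex.zero_re, zero_mul, sub_zero, ← wr_re]
            have h3 := norm_wr_le hψ hm s P.asIdeal
            have h4 := H99.xp_le_half K hs.le P
            have h5 := (le_abs_self _).trans (Complex.abs_re_le_norm (wr ψ s P.asIdeal))
            exact (h5.trans h3).trans (h4.trans (by norm_num))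
        _ = _ := by rw [Finset.sum_const, nsmul_eq_mul, mul_one]
    · intro P hP
      have hP' : ¬ P.asIdeal ∣ m' := fun h => hP (hfin.mem_toFinset.mpr h)
      have hc : IsCoprime P.asIdeal m' := by
        rw [Ideal.isCoprime_iff_sup_eq]
        have hmax : P.asIdeal.IsMaximal := P.isMaximal
        by_contra h2
        exact hP' (Ideal.dvd_iff_le.mpr ((hmax.eq_of_le h2 le_sup_left) ▸ le_sup_right))
      rw [restr_of_coprime hc, sub_self]
  rw [hs1.tsum_sub hs1'] at hdiff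
  have h2 : ∑' P : HeightOneSpectrum (𝓞 K),
        (ψ P.asIdeal).re * (Ideal.absNorm P.asIdeal : ℝ) ^ (-s) =
      ∑' P : HeightOneSpectrum (𝓞 K), (ψ P.asIdeal).re * xp K s P := rfl
  rw [h2]
  linarith

/-- **[R3]** a ray class character whose prime sum has positive logarithmic density is trivial. -/
theorem rayChar_eq_one_of_density (hψ : RayChar m ψ) (hm : m ≠ ⊥) {θ C : ℝ} (hθ : 0 < θ)
    (h : ∀ᶠ s : ℝ in 𝓝[>] 1, θ * Real.log (1 / (s - 1)) - C ≤
      ∑' P : HeightOneSpectrum (𝓞 K),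
        (ψ P.asIdeal).re * (Ideal.absNorm P.asIdeal : ℝ) ^ (-s)) :
    ∀ I : Ideal (𝓞 K), I ≠ ⊥ → IsCoprime I m → ψ I = 1 := by
  by_contra hcon
  push Not at hcon
  obtain ⟨I, hI0, hIm, hI1⟩ := hcon
  obtain ⟨B, hB⟩ := rayChar_prime_sum_le hψ hm ⟨I, hI0, hIm, hI1⟩
  have h1 : ∀ᶠ s : ℝ in 𝓝[>] 1, θ * Real.log (1 / (s - 1)) ≤ B + C := by
    have h2 : ∀ᶠ s : ℝ in 𝓝[>] 1, 1 < s ∧ s ≤ 2 := H76.eventually_Ioc
    filter_upwards [h, h2] with s hs hs2
    have := hB s hs2.1 hs2.2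
    linarith
  have h3 : Tendsto (fun s : ℝ => θ * Real.log (1 / (s - 1))) (𝓝[>] 1) atTop := by
    refine Tendsto.const_mul_atTop hθ (Real.tendsto_log_atTop.comp ?_)
    have h4 : Tendsto (fun s : ℝ => s - 1) (𝓝[>] 1) (𝓝[>] 0) := by
      refine tendsto_nhdsWithin_iff.mpr ⟨?_, ?_⟩
      · have : Tendsto (fun s : ℝ => s - 1) (𝓝 1) (𝓝 (1 - 1)) :=
          tendsto_id.sub tendsto_const_nhds
        rw [sub_self] at this
        exact this.mono_left nhdsWithin_le_nhds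
      · filter_upwards [self_mem_nhdsWithin] with s hs
        rw [Set.mem_Ioi] at hs ⊢
        linarith
    have h5 := tendsto_inv_nhdsGT_zero.comp h4
    refine h5.congr fun s => ?_
    rw [Function.comp_apply, one_div]
  have h6 := h3.eventually_gt_atTop (B + C)
  obtain ⟨s, hs1, hs2⟩ := (h1.and h6).exists
  exact absurd hs1 (not_le.mpr hs2)

/-- the character in `MonoidWithZeroHom` form -/
theorem rayChar_of_hom {χ : Ideal (𝓞 K) →*₀ ℂ}
    (h0 : ∀ I : Ideal (𝓞 K), ¬ IsCoprime I m → χ I = 0)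
    (h1 : ∀ a : 𝓞 K, a ≠ 0 → a - 1 ∈ m → χ (Ideal.span {a}) = 1) :
    RayChar m (fun I => χ I) where
  map_bot := _root_.map_zero χ
  map_one := _root_.map_one χ
  map_mul I J := _root_.map_mul χ I J
  eq_zero := h0
  map_span := h1

end Fermat.Agent.H82R
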