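import Fermat.Agent.H82AuxField

/-!
# `p`-th powers modulo a prime `v ∤ p`
-/

set_option autoImplicit false

noncomputable section

open IsDedekindDomain NumberField WithZero

namespace Fermat.Agent.H82

theorem val_zeta_sub_one {F : Type*} [Field F] {Γ : Type*} [LinearOrderedCommGroupWithZero Γ]
    (v : Valuation F Γ) {p : ℕ} [hp : Fact p.Prime] {ζ : F} (hζ : IsPrimitiveRoot ζ p)
    (hv : v (p : F) = 1) : v (ζ - 1) = 1 := by
  have h5 := val_prime v hζ
  rw [hv] at h5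
  have h6 : p - 1 ≠ 0 := by have := hp.out.two_le; omega
  exact (pow_eq_one_iff_of_nonneg zero_le h6).1 h5.symm

/-- In a cyclic group of order `n = p m`, the elements killed by `m` are the `p`-th powers. -/
theorem exists_pow_eq_of_pow_eq_one {G : Type*} [Group G] [Finite G] [IsCyclic G] {p m : ℕ}
    (hm : m ≠ 0) (hcard : Nat.card G = p * m) {u : G} (hu : u ^ m = 1) : ∃ s : G, s ^ p = u := by
  obtain ⟨g, hg⟩ := IsCyclic.exists_generator (α := G)
  obtain ⟨i, rfl⟩ := Subgroup.mem_zpowers_iff.1 (hg u)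
  have h1 : (orderOf g : ℤ) ∣ i * m := by
    rw [orderOf_dvd_iff_zpow_eq_one, zpow_mul, zpow_natCast]; exact hu
  rw [orderOf_eq_card_of_forall_mem_zpowers hg, hcard] at h1
  push_cast at h1
  obtain ⟨j, hj⟩ := Int.dvd_of_mul_dvd_mul_right (by exact_mod_cast hm) h1
  refine ⟨g ^ j, ?_⟩
  rw [← zpow_natCast, ← zpow_mul, hj, mul_comm]

variable {K : Type*} [Field K] [NumberField K]

/-- cardinality of the residue field -/
theorem finite_residue (v : HeightOneSpectrum (𝓞 K)) : Finite (𝓞 K ⧸ v.asIdeal) :=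
  Ideal.finiteQuotientOfFreeOfNeBot _ v.ne_bot

theorem absNorm_eq_card (v : HeightOneSpectrum (𝓞 K)) :
    Ideal.absNorm v.asIdeal = Nat.card (𝓞 K ⧸ v.asIdeal) := by
  rw [Ideal.absNorm_apply]; rfl

theorem residue_ne_zero {v : HeightOneSpectrum (𝓞 K)} {r : 𝓞 K}
    (hr : v.valuation K (algebraMap (𝓞 K) K r) = 1) : Ideal.Quotient.mk v.asIdeal r ≠ 0 := by
  rw [Ne, Ideal.Quotient.eq_zero_iff_mem, ← v.valuation_lt_one_iff_mem (K := K)]
  exact hr.not_lt

theorem exists_residue_rep {v : HeightOneSpectrum (𝓞 K)} {x : Kˣ}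
    (hx : v.valuation K (x : K) = 1) : ∃ r : 𝓞 K, v.valuation K (algebraMap (𝓞 K) K r) = 1 ∧
      v.valuation K (algebraMap (𝓞 K) K r - x) < 1 := by
  obtain ⟨r, hr⟩ := exists_int_approx v (x := (x : K)) hx.le 1
  have hlt : v.valuation K (algebraMap (𝓞 K) K r - x) < 1 := hr.trans_lt (by
    rw [← exp_zero, exp_lt_exp]; norm_num)
  refine ⟨r, ?_, hlt⟩
  have h1 : algebraMap (𝓞 K) K r = (algebraMap (𝓞 K) K r - x) + x := by ring
  rw [h1, Valuation.map_add_eq_of_lt_right _ (by rwa [hx]), hx]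

theorem mem_congr_one_iff {v : HeightOneSpectrum (𝓞 K)} {x : Kˣ} :
    x ∈ congr v 1 ↔ v.valuation K ((x : K) - 1) < 1 := by
  rw [mem_congr_of_pos one_pos]
  constructor
  · intro h
    exact h.trans_lt (by rw [← exp_zero, exp_lt_exp]; norm_num)
  · intro h
    by_cases h0 : v.valuation K ((x : K) - 1) = 0
    · rw [h0]; simp
    · rw [← exp_log h0, exp_le_exp]
      rw [← exp_log h0, ← exp_zero, exp_lt_exp] at h
      push_cast
      omega

/-- Fermat's little theorem at `v`. -/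
theorem pow_card_sub_one_mem {v : HeightOneSpectrum (𝓞 K)} {x : Kˣ}
    (hx : v.valuation K (x : K) = 1) : x ^ (Ideal.absNorm v.asIdeal - 1) ∈ congr v 1 := by
  obtain ⟨r, hr1, hr2⟩ := exists_residue_rep hx
  have := finite_residue v
  let : Field (𝓞 K ⧸ v.asIdeal) := Ideal.Quotient.field _
  have : Fintype (𝓞 K ⧸ v.asIdeal) := Fintype.ofFinite _
  have h1 : (Ideal.Quotient.mk v.asIdeal r) ^ (Ideal.absNorm v.asIdeal - 1) = 1 := by
    rw [absNorm_eq_card, Nat.card_eq_fintype_card]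
    exact FiniteField.pow_card_sub_one_eq_one _ (residue_ne_zero hr1)
  have hr0 : algebraMap (𝓞 K) K r ≠ 0 := by
    intro h0; rw [h0, map_zero] at hr1; exact zero_ne_one hr1
  set n := Ideal.absNorm v.asIdeal - 1
  have h2 : (Units.mk0 _ hr0 : Kˣ) ^ n ∈ congr v 1 := by
    rw [mem_congr_one_iff]
    push_cast
    rw [Units.val_mk0, ← map_pow, ← map_one (algebraMap (𝓞 K) K), ← map_sub,
      v.valuation_lt_one_iff_mem, ← Ideal.Quotient.eq, map_pow, h1, map_one]
  have h3 : x / Units.mk0 _ hr0 ∈ congr v 1 := by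
    rw [mem_congr_one_iff]
    push_cast
    rw [Units.val_mk0]
    have : (x : K) / algebraMap (𝓞 K) K r - 1
      = -(algebraMap (𝓞 K) K r - x) / algebraMap (𝓞 K) K r := by field_simp; ring
    rw [this, map_div₀, hr1, div_one, Valuation.map_neg]
    exact hr2
  have h4 : x ^ n = (x / Units.mk0 _ hr0) ^ n * (Units.mk0 _ hr0) ^ n := by
    rw [← mul_pow, div_mul_cancel]
  rw [h4]
  exact mul_mem (pow_mem h3 n) h2

variable {p : ℕ} [hp : Fact p.Prime]

/-- `v`-unit `p`-th powers modulo `v` satisfy Euler's criterion. -/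
theorem pow_mem_of_mem_locPow {v : HeightOneSpectrum (𝓞 K)} {m : ℕ}
    (hq : Ideal.absNorm v.asIdeal - 1 = p * m) {x : Kˣ} (hx : v.valuation K (x : K) = 1)
    (hx' : x ∈ locPow p v 1) : x ^ m ∈ congr v 1 := by
  obtain ⟨z, hz⟩ := mem_locPow.1 hx'
  have hvz : v.valuation K (z : K) = 1 := by
    have h1 := hz.1
    push_cast at h1
    rw [map_div₀, map_pow, hx, one_div, inv_eq_one] at h1
    exact (pow_eq_one_iff_of_nonneg zero_le hp.out.ne_zero).1 h1
  have h1 := pow_card_sub_one_mem hvz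
  rw [hq] at h1
  have h2 : x ^ m = (x / z ^ p) ^ m * z ^ (p * m) := by
    rw [pow_mul, ← mul_pow, div_mul_cancel]
  rw [h2]
  exact mul_mem (pow_mem hz m) h1

/-- Euler's criterion for `p`-th powers modulo `v`. -/
theorem mem_locPow_of_pow_mem {v : HeightOneSpectrum (𝓞 K)} {m : ℕ} (hm : m ≠ 0)
    (hq : Ideal.absNorm v.asIdeal - 1 = p * m) {x : Kˣ} (hx : v.valuation K (x : K) = 1)
    (hx' : x ^ m ∈ congr v 1) : x ∈ locPow p v 1 := by
  obtain ⟨r, hr1, hr2⟩ := exists_residue_rep hx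
  have := finite_residue v
  let : Field (𝓞 K ⧸ v.asIdeal) := Ideal.Quotient.field _
  have hr0 : algebraMap (𝓞 K) K r ≠ 0 := by
    intro h0; rw [h0, map_zero] at hr1; exact zero_ne_one hr1
  have h3 : x / Units.mk0 _ hr0 ∈ congr v 1 := by
    rw [mem_congr_one_iff]
    push_cast
    rw [Units.val_mk0]
    have : (x : K) / algebraMap (𝓞 K) K r - 1
      = -(algebraMap (𝓞 K) K r - x) / algebraMap (𝓞 K) K r := by field_simp; ring
    rw [this, map_div₀, hr1, div_one, Valuation.map_neg]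
    exact hr2
  have h4 : (Units.mk0 _ hr0 : Kˣ) ^ m ∈ congr v 1 := by
    have : (Units.mk0 _ hr0 : Kˣ) ^ m = x ^ m / (x / Units.mk0 _ hr0) ^ m := by
      rw [← div_pow, div_div_cancel]
    rw [this]
    exact div_mem hx' (pow_mem h3 m)
  have h5 : (Ideal.Quotient.mk v.asIdeal r) ^ m = 1 := by
    rw [mem_congr_one_iff] at h4
    push_cast at h4
    rw [Units.val_mk0, ← map_pow, ← map_one (algebraMap (𝓞 K) K), ← map_sub,
      v.valuation_lt_one_iff_mem, ← Ideal.Quotient.eq, map_pow, map_one] at h4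
    exact h4
  have hne := residue_ne_zero hr1
  have hcard : Nat.card (𝓞 K ⧸ v.asIdeal)ˣ = p * m := by
    rw [Nat.card_units, ← absNorm_eq_card, hq]
  obtain ⟨s, hs⟩ := exists_pow_eq_of_pow_eq_one (G := (𝓞 K ⧸ v.asIdeal)ˣ) (p := p) hm hcard
    (u := Units.mk0 _ hne) (Units.ext (by simpa using h5))
  obtain ⟨t, ht⟩ := Ideal.Quotient.mk_surjective (s : 𝓞 K ⧸ v.asIdeal)
  have hvt : v.valuation K (algebraMap (𝓞 K) K t) = 1 := by
    refine le_antisymm (v.valuation_le_one t) (not_lt.1 ?_)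
    rw [v.valuation_lt_one_iff_mem, ← Ideal.Quotient.eq_zero_iff_mem, ht]
    exact s.ne_zero
  have ht0 : algebraMap (𝓞 K) K t ≠ 0 := by
    intro h0; rw [h0, map_zero] at hvt; exact zero_ne_one hvt
  have h6 : (Units.mk0 _ hr0 : Kˣ) / (Units.mk0 _ ht0) ^ p ∈ congr v 1 := by
    rw [mem_congr_one_iff]
    push_cast
    rw [Units.val_mk0, Units.val_mk0]
    have : algebraMap (𝓞 K) K r / (algebraMap (𝓞 K) K t) ^ p - 1
      = algebraMap (𝓞 K) K (r - t ^ p) / algebraMap (𝓞 K) K t ^ p := by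
      rw [map_sub, map_pow]
      field_simp
    rw [this, map_div₀, map_pow, hvt, one_pow, div_one, v.valuation_lt_one_iff_mem,
      ← Ideal.Quotient.eq, map_pow, ht]
    have := congrArg Units.val hs
    simpa using this.symm
  rw [mem_locPow]
  refine ⟨Units.mk0 _ ht0, ?_⟩
  have h7 : x / (Units.mk0 _ ht0) ^ p = (x / Units.mk0 _ hr0) *
      ((Units.mk0 _ hr0 : Kˣ) / (Units.mk0 _ ht0) ^ p) := by
    rw [div_mul_div_cancel]
  rw [h7]
  exact mul_mem h3 h6

end Fermat.Agent.H82
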