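import Fermat.Agent.H82AuxSet
import Fermat.Agent.H65First
import Fermat.Agent.H65Adic

/-!
# The second inequality, for cyclic Kummer extensions of degree `p`
-/

set_option autoImplicit false

noncomputable section

open IsDedekindDomain NumberField WithZero

namespace Fermat.Agent.H82

variable {K : Type} [Field K] [NumberField K] {p : ℕ} [hp : Fact p.Prime] {ζ : K}
  (hζ : IsPrimitiveRoot ζ p)

include hζ

/-- A proper subgroup containing a local `p`-th power group has index at least `p`. -/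
theorem le_index_of_ne_top {v : HeightOneSpectrum (𝓞 K)} {m : ℕ} (hm : Deep ζ p v m)
    {N : Subgroup Kˣ} (hN : locPow p v m ≤ N) (hN' : N ≠ ⊤) : p ≤ N.index := by
  obtain ⟨e, he, hidx⟩ := index_locPow' hζ v hm
  have h0 := index_locPow_ne_zero hζ v hm
  have hN0 : N.index ≠ 0 := fun h => h0 (by
    have := Subgroup.index_dvd_of_le hN
    rw [h, Nat.zero_dvd] at this
    exact this)
  -- the quotient is a nontrivial group killed by `p`
  have hfin : N.FiniteIndex := ⟨hN0⟩
  have hfq : Finite (Kˣ ⧸ N) := inferInstance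
  obtain ⟨x, hx⟩ : ∃ x : Kˣ, x ∉ N := by
    by_contra hcon
    push Not at hcon
    exact hN' ((Subgroup.eq_top_iff' N).2 hcon)
  have h1 : orderOf (QuotientGroup.mk' N x) = p := by
    refine orderOf_eq_prime ?_ ?_
    · rw [← map_pow]
      exact (QuotientGroup.eq_one_iff _).2 (hN (Subgroup.mem_sup_left ⟨x, rfl⟩))
    · intro h
      exact hx ((QuotientGroup.eq_one_iff _).1 h)
  have h2 : p ∣ Nat.card (Kˣ ⧸ N) := by
    rw [← h1]; exact orderOf_dvd_natCard _
  exact Nat.le_of_dvd (Nat.pos_of_ne_zero hN0) h2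

variable {T A : Finset (HeightOneSpectrum (𝓞 K))}

/-- `E_{T ∪ A}` surjects onto `∏_{v ∈ A} Kˣ/Kˣᵖ(1+v)`. -/
theorem unit_sup_eq_top (hcl : ClTrivial (T : Set (HeightOneSpectrum (𝓞 K))))
    (hA : ∀ v ∈ A, v ∉ T ∧ v.valuation K (p : K) = 1)
    (hidx : (⨅ v ∈ A, locPow p v 1).relIndex
      ((T : Set (HeightOneSpectrum (𝓞 K))).unit K) = p ^ A.card) :
    ((T : Set (HeightOneSpectrum (𝓞 K))) ∪ A).unit K ⊔ (⨅ v ∈ A, locPow p v 1) = ⊤ := by
  classical
  set E := (T : Set (HeightOneSpectrum (𝓞 K))).unit K with hE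
  set E' := ((T : Set (HeightOneSpectrum (𝓞 K))) ∪ A).unit K with hE'
  set H := (⨅ v ∈ A, locPow p v 1) with hH
  set R := (⨅ v ∈ A, ((powMonoidHom p : Kˣ →* Kˣ).range ⊔ congr v 0)) with hR
  have hEE' : E ≤ E' := fun x hx v hv => hx v (fun h => hv (Or.inl h))
  have hHR : H ≤ R := iInf₂_mono fun v _ => sup_le_sup_left (congr_anti v (Nat.zero_le 1)) _
  have hRidx : R.index = p ^ A.card := by
    rw [hR, index_iInf A (fun _ => 0) (fun v => (powMonoidHom p : Kˣ →* Kˣ).range ⊔ congr v 0)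
      (fun v _ => le_sup_right)]
    rw [Finset.prod_congr rfl fun v _ => index_pow_sup_units v p, Finset.prod_const]
  have hHidx : H.index = (p ^ 2) ^ A.card := by
    rw [hH, index_iInf A (fun _ => 1) (fun v => locPow p v 1) (fun v _ => le_sup_right)]
    rw [← Finset.prod_const]
    refine Finset.prod_congr rfl fun v hv => ?_
    obtain ⟨e, he, h⟩ := index_locPow' hζ v (deep_of_not_dvd hζ (hA v hv).2 one_pos)
    rw [(hA v hv).2, eq_comm, exp_eq_one] at he
    have he0 : e = 0 := by simpa using he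
    rw [h, he0, pow_zero, mul_one]
  have hppos : 0 < p ^ A.card := pow_pos hp.out.pos _
  have hHR' : H.relIndex R = p ^ A.card := by
    have h1 := Subgroup.relIndex_mul_index hHR
    rw [hRidx, hHidx, ← pow_mul, mul_comm 2, pow_mul, pow_two] at h1
    exact Nat.eq_of_mul_eq_mul_right hppos h1
  have hER : E ≤ R := by
    refine le_iInf₂ fun v hv => ?_
    exact (unit_le_congr_zero (hA v hv).1).trans le_sup_right
  have hsup : E ⊔ H ≤ R := sup_le hER hHR
  have h2 := Subgroup.relIndex_mul_relIndex H (E ⊔ H) R le_sup_right hsup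
  rw [Subgroup.relIndex_sup_right, hidx, hHR'] at h2
  have h3 : (E ⊔ H).relIndex R = 1 :=
    Nat.eq_of_mul_eq_mul_left hppos (by rw [h2, mul_one])
  rw [Subgroup.relIndex_eq_one] at h3
  rw [eq_top_iff]
  intro x _
  -- correct the valuations at `A`
  let D : HeightOneSpectrum (𝓞 K) →₀ ℤ := Finsupp.onFinset A
    (fun v => if v ∈ A then H47.ordHom v (Additive.ofMul x) else 0) (fun v hv => by
      by_contra h
      exact hv (if_neg h))
  obtain ⟨y, hy⟩ := H47.exists_ordHom_eq hcl D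
  have hyE' : y ∈ E' := by
    intro v hv
    rw [Set.mem_union, not_or] at hv
    rw [← H47.ordHom_eq_zero_iff, hy v hv.1]
    change (if v ∈ A then _ else _) = _
    rw [if_neg (fun h => hv.2 (Finset.mem_coe.2 h))]
  have hxy : x / y ∈ R := by
    rw [hR, Subgroup.mem_iInf]
    intro v
    rw [Subgroup.mem_iInf]
    intro hv
    refine Subgroup.mem_sup_right ?_
    rw [mem_congr_zero, ← H47.ordHom_eq_zero_iff, ofMul_div, map_sub, hy v (hA v hv).1]
    change _ - (if v ∈ A then _ else _) = _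
    rw [if_pos hv, sub_self]
  have hx : x = y * (x / y) := by rw [mul_div_cancel]
  rw [hx]
  exact (E' ⊔ H).mul_mem (Subgroup.mem_sup_left hyE')
    ((h3.trans (sup_le_sup_right hEE' H)) hxy)

/-- The kernel of `E_{T ∪ A} → ∏_{v ∈ T} K_vˣ/K_vˣᵖ` consists of `p`-th powers. -/
theorem kernel_le (hp2 : p ≠ 2) (hcl : ClTrivial (T : Set (HeightOneSpectrum (𝓞 K))))
    (hTp : ∀ v, v ∉ T → v.valuation K (p : K) = 1)
    (m : HeightOneSpectrum (𝓞 K) → ℕ) (hm : ∀ v ∈ T, Deep ζ p v (m v))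
    (hA : ∀ v ∈ A, v ∉ T)
    (hidx : (⨅ v ∈ A, locPow p v 1).relIndex
      ((T : Set (HeightOneSpectrum (𝓞 K))).unit K) = p ^ A.card) :
    ((T : Set (HeightOneSpectrum (𝓞 K))) ∪ A).unit K ⊓ (⨅ v ∈ T, locPow p v (m v))
      ≤ (powMonoidHom p : Kˣ →* Kˣ).range := by
  classical
  rintro y ⟨hyE, hyT⟩
  by_contra hy
  obtain ⟨M, _, _, _, α, hα, hgal, hdeg⟩ := exists_kummer hζ y hy
  set T' : Set (HeightOneSpectrum (𝓞 K)) := (T : Set (HeightOneSpectrum (𝓞 K))) ∪ A with hT'
  set E' := T'.unit K with hE'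
  have hT'fin : T'.Finite := T.finite_toSet.union A.finite_toSet
  have hunr : ∀ v ∉ T', ∀ w ∈ above M v, v.asIdeal.ramificationIdx' w.asIdeal = 1 := by
    intro v hv w hw
    rw [hT', Set.mem_union, not_or] at hv
    refine hα.ramificationIdx'_eq_one hζ (hTp v hv.1) ?_ hw
    rw [mem_locPow]
    refine ⟨1, ?_⟩
    rw [one_pow, div_one, mem_congr_zero]
    exact hyE v (by rw [hT', Set.mem_union, not_or]; exact hv)
  have hFI := H65.relIndex_norm_mul_of_primitiveRoot hp.out hp2 hζ hdeg hT'fin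
    (hcl.mono Set.subset_union_left) hunr
  set NS := A.filter (fun v => NonSplit M v) with hNS
  have hns : {v | v ∈ T' ∧ NonSplit M v} = (NS : Set (HeightOneSpectrum (𝓞 K))) := by
    ext v
    simp only [Set.mem_ofPred_eq, hNS, Finset.coe_filter, hT', Set.mem_union, Finset.mem_coe]
    constructor
    · rintro ⟨hv | hv, hn⟩
      · exfalso
        have h1 : (⨅ v ∈ T, locPow p v (m v)) ≤ locPow p v (m v) := iInf₂_le v hv
        exact hα.not_nonSplit hζ hdeg (hm v hv) (h1 hyT) hn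
      · exact ⟨hv, hn⟩
    · rintro ⟨hv, hn⟩
      exact ⟨Or.inr hv, hn⟩
  rw [hns, Set.ncard_coe_finset] at hFI
  set NE := ((aboveSet M T').unit M).map (Units.map (Algebra.norm K : M →* K)) with hNE
  -- the target
  have hAp : ∀ v ∈ A, v.valuation K (p : K) = 1 := fun v hv => hTp v (hA v hv)
  have htop := unit_sup_eq_top hζ hcl (fun v hv => ⟨hA v hv, hAp v hv⟩) hidx
  set Q := (⨅ v ∈ NS, locNorm M v 1) with hQ
  have hHQ : (⨅ v ∈ A, locPow p v 1) ≤ Q := by
    refine le_iInf₂ fun v hv => ?_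
    have hvA : v ∈ A := (Finset.mem_filter.1 hv).1
    exact (iInf₂_le v hvA).trans (locPow_le_locNorm M hdeg v 1)
  have hEQ : E' ⊔ Q = ⊤ := by
    rw [eq_top_iff, ← htop]
    exact sup_le_sup_left hHQ _
  have hQidx : p ^ NS.card ≤ Q.index := by
    rw [hQ, index_iInf NS (fun _ => 1) (fun v => locNorm M v 1) (fun v _ => le_sup_right),
      ← Finset.prod_const]
    refine Finset.prod_le_prod' fun v hv => ?_
    obtain ⟨hvA, hvn⟩ := Finset.mem_filter.1 hv
    exact le_index_of_ne_top hζ (deep_of_not_dvd hζ (hAp v hvA) one_pos)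
      (locPow_le_locNorm M hdeg v 1) (locNorm_ne_top_of_tame hζ hdeg (hAp v hvA) hvn)
  have hQrel : Q.relIndex E' = Q.index := by
    rw [← Subgroup.relIndex_sup_right, hEQ, Subgroup.relIndex_top_right]
  have hNEQ : NE ≤ Q := by
    refine le_iInf₂ fun v _ => ?_
    rintro _ ⟨z, -, rfl⟩
    exact Subgroup.mem_sup_left ⟨z, rfl⟩
  have hNE0 : NE.relIndex E' ≠ 0 := by
    intro h0
    rw [h0, zero_mul] at hFI
    exact (pow_pos hp.out.pos NS.card).ne hFI
  have h1 : Q.relIndex E' ≤ NE.relIndex E' := Subgroup.relIndex_le_of_le_left hNEQ hNE0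
  have h2 : p ^ NS.card ≤ NE.relIndex E' := hQidx.trans (hQrel ▸ h1)
  have h3 : p ^ NS.card * p ≤ p ^ NS.card := by
    calc p ^ NS.card * p ≤ NE.relIndex E' * p := Nat.mul_le_mul_right p h2
      _ = p ^ NS.card := hFI
  have h4 : 0 < p ^ NS.card := pow_pos hp.out.pos _
  have h5 := hp.out.one_lt
  nlinarith

omit hζ hp in
theorem two_mul_rank [IsTotallyComplex K] :
    2 * (Units.rank K + 1) = Module.finrank ℚ K := by
  have h1 := InfinitePlace.card_add_two_mul_card_eq_rank K
  have h2 := InfinitePlace.card_eq_nrRealPlaces_add_nrComplexPlaces K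
  have h3 : 0 < Fintype.card (InfinitePlace K) := Fintype.card_pos
  have h4 : InfinitePlace.nrRealPlaces K = 0 := IsTotallyComplex.nrRealPlaces_eq_zero K
  rw [Units.rank, ← h1]
  omega

/-- **Second inequality**: `E_{T ∪ A} → ∏_{v ∈ T} K_vˣ/K_vˣᵖ` has cokernel of order exactly `p`. -/
theorem index_unit_sup (hp2 : p ≠ 2) (hcl : ClTrivial (T : Set (HeightOneSpectrum (𝓞 K))))
    (hTp : ∀ v, v ∉ T → v.valuation K (p : K) = 1)
    (m : HeightOneSpectrum (𝓞 K) → ℕ) (hm : ∀ v ∈ T, Deep ζ p v (m v))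
    (hA : ∀ v ∈ A, v ∉ T) (hAcard : A.card = Units.rank K + T.card)
    (hidx : (⨅ v ∈ A, locPow p v 1).relIndex
      ((T : Set (HeightOneSpectrum (𝓞 K))).unit K) = p ^ A.card) :
    (((T : Set (HeightOneSpectrum (𝓞 K))) ∪ A).unit K ⊔ (⨅ v ∈ T, locPow p v (m v))).index
      = p := by
  classical
  have hker := kernel_le hζ hp2 hcl hTp m hm hA hidx
  have htc : IsTotallyComplex K := H65.isTotallyComplex_of_isPrimitiveRoot K
    (lt_of_le_of_ne hp.out.two_le (Ne.symm hp2)) hζ
  have hne : NeZero p := ⟨hp.out.ne_zero⟩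
  set T' : Set (HeightOneSpectrum (𝓞 K)) := (T : Set (HeightOneSpectrum (𝓞 K))) ∪ A with hT'
  set E' := T'.unit K with hE'
  set U := (⨅ v ∈ T, locPow p v (m v)) with hU
  have hT'fin : T'.Finite := T.finite_toSet.union A.finite_toSet
  have hT'card : T'.ncard = T.card + A.card := by
    rw [hT', ← Finset.coe_union, Set.ncard_coe_finset, Finset.card_union_of_disjoint]
    rw [Finset.disjoint_right]
    exact hA
  have hUidx : U.index = p ^ (2 * T.card + Module.finrank ℚ K) :=
    index_iInf_locPow hζ T hTp m hm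
  have hrangeU : (powMonoidHom p : Kˣ →* Kˣ).range ≤ U :=
    le_iInf₂ fun v _ => le_sup_left
  have h1 : U.relIndex E' = p ^ (Units.rank K + T'.ncard + 1) := by
    rw [← H47.relIndex_map_pow_unit K T' hT'fin hζ, ← unit_inf_pow, ← Subgroup.inf_relIndex_right]
    congr 1
    refine le_antisymm (le_inf inf_le_right ?_) (le_inf ?_ inf_le_left)
    · rw [inf_comm]; exact hker
    · exact inf_le_right.trans hrangeU
  have h2 := Subgroup.relIndex_mul_index (le_sup_right : U ≤ E' ⊔ U)
  rw [Subgroup.relIndex_sup_right, h1, hUidx] at h2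
  have h3 := two_mul_rank (K := K)
  have h4 : 2 * T.card + Module.finrank ℚ K = (Units.rank K + T'.ncard + 1) + 1 := by
    rw [hT'card, hAcard]; omega
  rw [h4, pow_succ p (Units.rank K + T'.ncard + 1)] at h2
  exact Nat.eq_of_mul_eq_mul_left (pow_pos hp.out.pos _) h2

end Fermat.Agent.H82
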