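import Fermat.Agent.H82J8
import Fermat.Agent.H54THasse

/-!
# Totally complex versions of the codimension statements (all primes `p`, in particular `p = 2`)

(helper82, second proof of quadratic reciprocity over totally complex number fields)
-/

set_option autoImplicit false

noncomputable section

open IsDedekindDomain NumberField WithZero Fermat.Agent.H82

namespace Fermat.Agent.H82V

variable {K : Type} [Field K] [NumberField K] [htc : IsTotallyComplex K] {p : ℕ}
  [hp : Fact p.Prime] {ζ : K} (hζ : IsPrimitiveRoot ζ p)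

include hζ htc

open Classical in
/-- **First inequality**. -/
theorem first_inequality {L : Type} [Field L] [NumberField L] [Algebra K L] [IsGalois K L] (hdeg : Module.finrank K L = p)
    {T : Finset (HeightOneSpectrum (𝓞 K))} (hcl : ClTrivial (T : Set (HeightOneSpectrum (𝓞 K))))
    (hunr : ∀ v ∉ T, ∀ w ∈ above L v, v.asIdeal.ramificationIdx' w.asIdeal = 1)
    (m : HeightOneSpectrum (𝓞 K) → ℕ) (hm : ∀ v ∈ T, Deep ζ p v (m v)) :
    p ≤ ((T : Set (HeightOneSpectrum (𝓞 K))).unit K ⊔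
      (⨅ v ∈ T.filter (fun v => NonSplit L v), locNorm L v (m v))).index := by
  have hFI := H65.relIndex_norm_mul hp.out hdeg T.finite_toSet hcl
    (fun v hv => hunr v (fun h => hv (Finset.mem_coe.2 h)))
  set E := (T : Set (HeightOneSpectrum (𝓞 K))).unit K with hE
  set NS := T.filter (fun v => NonSplit L v) with hNS
  have hns : {v | v ∈ (T : Set (HeightOneSpectrum (𝓞 K))) ∧ NonSplit L v}
      = (NS : Set (HeightOneSpectrum (𝓞 K))) := by
    ext v
    simp [hNS]
  rw [hns, Set.ncard_coe_finset] at hFI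
  set NE := ((aboveSet L (T : Set (HeightOneSpectrum (𝓞 K)))).unit L).map
    (Units.map (Algebra.norm K : L →* K)) with hNE
  set Q := (⨅ v ∈ NS, locNorm L v (m v)) with hQ
  have hQidx : Q.index = p ^ NS.card := by
    rw [hQ, index_iInf NS m (fun v => locNorm L v (m v)) (fun v _ => le_sup_right),
      ← Finset.prod_const]
    refine Finset.prod_congr rfl fun v hv => ?_
    obtain ⟨hvT, hvn⟩ := Finset.mem_filter.1 hv
    exact index_locNorm hζ hdeg (hm v hvT) hvn
  have hNEQ : NE ≤ Q := by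
    refine le_iInf₂ fun v _ => ?_
    rintro _ ⟨z, -, rfl⟩
    exact Subgroup.mem_sup_left ⟨z, rfl⟩
  have hNE0 : NE.relIndex E ≠ 0 := by
    intro h0
    rw [h0, zero_mul] at hFI
    exact (pow_pos hp.out.pos NS.card).ne hFI
  have h1 : Q.relIndex E ≤ NE.relIndex E := Subgroup.relIndex_le_of_le_left hNEQ hNE0
  have h2 := Subgroup.relIndex_mul_index (le_sup_right : Q ≤ E ⊔ Q)
  rw [Subgroup.relIndex_sup_right, hQidx, ← hFI] at h2
  by_contra hcon
  push Not at hcon
  have h3 : 0 < NE.relIndex E := Nat.pos_of_ne_zero hNE0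
  have h4 : Q.relIndex E * (E ⊔ Q).index ≤ NE.relIndex E * (E ⊔ Q).index :=
    Nat.mul_le_mul_right _ h1
  have h5 : NE.relIndex E * (E ⊔ Q).index < NE.relIndex E * p := Nat.mul_lt_mul_of_pos_left hcon h3
  omega


variable {T A : Finset (HeightOneSpectrum (𝓞 K))}

/-- General index formula. -/
theorem index_unit_sup_mul (hcl : ClTrivial (T : Set (HeightOneSpectrum (𝓞 K))))
    (hTp : ∀ v, v ∉ T → v.valuation K (p : K) = 1)
    (m : HeightOneSpectrum (𝓞 K) → ℕ) (hm : ∀ v ∈ T, Deep ζ p v (m v))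
    (hA : ∀ v ∈ A, v ∉ T)
    (hidx : (⨅ v ∈ A, locPow p v 1).relIndex
      ((T : Set (HeightOneSpectrum (𝓞 K))).unit K) = p ^ A.card) :
    (((T : Set (HeightOneSpectrum (𝓞 K))) ∪ A).unit K ⊔ (⨅ v ∈ T, locPow p v (m v))).index
      * p ^ A.card = p ^ (Units.rank K + T.card + 1) := by
  classical
  have hker := H54T.kernel_le hζ hcl hTp m hm hA hidx
  have hne : NeZero p := ⟨hp.out.ne_zero⟩
  set T' : Set (HeightOneSpectrum (𝓞 K)) := (T : Set (HeightOneSpectrum (𝓞 K))) ∪ A with hT'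
  set E' := T'.unit K with hE'
  set U := (⨅ v ∈ T, locPow p v (m v)) with hU
  have hT'fin : T'.Finite := T.finite_toSet.union A.finite_toSet
  have hT'card : T'.ncard = T.card + A.card := by
    rw [hT', ← Finset.coe_union, Set.ncard_coe_finset, Finset.card_union_of_disjoint]
    rw [Finset.disjoint_right]
    exact hA
  have hUidx : U.index = p ^ (2 * T.card + Module.finrank ℚ K) :=
    index_iInf_locPow hζ T hTp m hm
  have hrangeU : (powMonoidHom p : Kˣ →* Kˣ).range ≤ U :=
    le_iInf₂ fun v _ => le_sup_left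
  have h1 : U.relIndex E' = p ^ (Units.rank K + T'.ncard + 1) := by
    rw [← H47.relIndex_map_pow_unit K T' hT'fin hζ, ← unit_inf_pow, ← Subgroup.inf_relIndex_right]
    congr 1
    refine le_antisymm (le_inf inf_le_right ?_) (le_inf ?_ inf_le_left)
    · rw [inf_comm]; exact hker
    · exact inf_le_right.trans hrangeU
  have h2 := Subgroup.relIndex_mul_index (le_sup_right : U ≤ E' ⊔ U)
  rw [Subgroup.relIndex_sup_right, h1, hUidx] at h2
  have h3 := two_mul_rank (K := K)
  have h4 : 2 * T.card + Module.finrank ℚ K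
      = (Units.rank K + T.card + 1) + (Units.rank K + T.card + 1) := by omega
  have h5 : Units.rank K + T'.ncard + 1 = (Units.rank K + T.card + 1) + A.card := by
    rw [hT'card]; omega
  rw [h4, h5, pow_add p _ (Units.rank K + T.card + 1), pow_add p _ A.card, mul_assoc] at h2
  have h6 := Nat.eq_of_mul_eq_mul_left (pow_pos hp.out.pos _) h2
  rw [mul_comm]
  exact h6

/-- For `c ∉ E_T · U` there are `b ∈ E_T` and auxiliary primes for `b` with
`c ∉ E_{T ∪ A₀} · U`. -/
theorem exists_separating (hcl : ClTrivial (T : Set (HeightOneSpectrum (𝓞 K))))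
    (hTp : ∀ v, v ∉ T → v.valuation K (p : K) = 1)
    (m : HeightOneSpectrum (𝓞 K) → ℕ) (hm : ∀ v ∈ T, Deep ζ p v (m v)) {c : Kˣ}
    (hc : c ∉ (T : Set (HeightOneSpectrum (𝓞 K))).unit K ⊔ (⨅ v ∈ T, locPow p v (m v))) :
    ∃ (b : Kˣ) (A₀ : Finset (HeightOneSpectrum (𝓞 K))),
      b ∈ (T : Set (HeightOneSpectrum (𝓞 K))).unit K ∧ b ∉ (powMonoidHom p : Kˣ →* Kˣ).range ∧
      A₀.card = Units.rank K + T.card ∧ (∀ v ∈ A₀, v ∉ T ∧ b ∈ locPow p v 1) ∧
      (⨅ v ∈ A₀, locPow p v 1).relIndex ((T : Set (HeightOneSpectrum (𝓞 K))).unit K)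
        = p ^ A₀.card ∧
      c ∉ ((T : Set (HeightOneSpectrum (𝓞 K))) ∪ A₀).unit K ⊔ (⨅ v ∈ T, locPow p v (m v)) := by
  classical
  have hne : NeZero p := ⟨hp.out.ne_zero⟩
  set E := (T : Set (HeightOneSpectrum (𝓞 K))).unit K with hE
  set U := (⨅ v ∈ T, locPow p v (m v)) with hU
  have hrangeU : (powMonoidHom p : Kˣ →* Kˣ).range ≤ U :=
    le_iInf₂ fun v _ => le_sup_left
  have hEpow : (E.map (powMonoidHom p : Kˣ →* Kˣ)).relIndex E
      = p ^ (Units.rank K + T.card + 1) := by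
    have := H47.relIndex_map_pow_unit K (T : Set (HeightOneSpectrum (𝓞 K))) T.finite_toSet hζ
    rwa [Set.ncard_coe_finset] at this
  -- a full set of auxiliary primes
  obtain ⟨A, hAcard, hA, hAle⟩ := exists_aux_set_aux hζ (T : Set (HeightOneSpectrum (𝓞 K)))
    T.finite_toSet 1 (Units.rank K + T.card + 1) E le_rfl inf_le_left (by
      rw [Subgroup.zpowers_one_eq_bot, bot_sup_eq, unit_inf_pow]
      exact hEpow) ∅ Set.finite_empty
  rw [Subgroup.zpowers_one_eq_bot, bot_sup_eq] at hAle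
  have hAT : ∀ v ∈ A, v ∉ T := fun v hv => (hA v hv).1
  have hAidx : (⨅ v ∈ A, locPow p v 1).relIndex E = p ^ A.card := by
    rw [hAcard, ← hEpow, ← unit_inf_pow, ← Subgroup.inf_relIndex_right]
    congr 1
    refine le_antisymm (le_inf inf_le_right (inf_comm E _ ▸ hAle)) (le_inf ?_ inf_le_left)
    exact inf_le_right.trans (le_iInf₂ fun v _ => le_sup_left)
  have htop : ((T : Set (HeightOneSpectrum (𝓞 K))) ∪ A).unit K ⊔ U = ⊤ := by
    have h1 := index_unit_sup_mul hζ hcl hTp m hm hAT hAidx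
    rw [hAcard] at h1
    have h2 := Nat.eq_of_mul_eq_mul_right (pow_pos hp.out.pos _)
      (h1.trans (one_mul _).symm)
    exact Subgroup.index_eq_one.1 h2
  have hker := H54T.kernel_le hζ hcl hTp m hm hAT hAidx
  -- decompose `c`
  obtain ⟨x, hx, u, hu, hxu⟩ : ∃ x ∈ ((T : Set (HeightOneSpectrum (𝓞 K))) ∪ A).unit K,
      ∃ u ∈ U, x * u = c := by
    rw [← Subgroup.mem_sup, htop]
    trivial
  -- some order is prime to `p`
  obtain ⟨v₀, hv₀, hord⟩ : ∃ v₀ ∈ A, ¬ (p : ℤ) ∣ H47.ordHom v₀ (Additive.ofMul x) := by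
    by_contra hcon
    push Not at hcon
    apply hc
    let D : HeightOneSpectrum (𝓞 K) →₀ ℤ := Finsupp.onFinset A
      (fun v => if v ∈ A then H47.ordHom v (Additive.ofMul x) / p else 0) (fun v hv => by
        by_contra h
        exact hv (if_neg h))
    obtain ⟨y, hy⟩ := H47.exists_ordHom_eq hcl D
    have hxy : x / y ^ p ∈ E := by
      intro v hv
      rw [← H47.ordHom_eq_zero_iff, ofMul_div, map_sub, ofMul_pow, map_nsmul, hy v hv]
      change _ - p • (if v ∈ A then _ else _) = _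
      by_cases hvA : v ∈ A
      · rw [if_pos hvA, nsmul_eq_mul, Int.mul_ediv_cancel' (hcon v hvA), sub_self]
      · rw [if_neg hvA, smul_zero, sub_zero, H47.ordHom_eq_zero_iff]
        exact hx v (fun h => h.elim hv (fun h => hvA (Finset.mem_coe.1 h)))
    have h1 : c = (x / y ^ p) * (y ^ p * u) := by
      rw [← mul_assoc, div_mul_cancel, hxu]
    rw [h1]
    exact mul_mem (Subgroup.mem_sup_left hxy)
      (Subgroup.mem_sup_right (mul_mem (hrangeU ⟨y, rfl⟩) hu))
  set A₀ := A.erase v₀ with hA₀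
  have hA₀card : A₀.card = Units.rank K + T.card := by
    rw [hA₀, Finset.card_erase_of_mem hv₀, hAcard]; rfl
  have hA₀A : ∀ v ∈ A₀, v ∈ A := fun v hv => Finset.mem_of_mem_erase hv
  have hinsert : A = insert v₀ A₀ := (Finset.insert_erase hv₀).symm
  -- index for `A₀`
  have hA₀idx : (⨅ v ∈ A₀, locPow p v 1).relIndex E = p ^ A₀.card := by
    refine le_antisymm (relIndex_iInf_le hζ hTp fun v hv => hAT v (hA₀A v hv)) ?_
    have h1 : (⨅ v ∈ A, locPow p v 1) = locPow p v₀ 1 ⊓ (⨅ v ∈ A₀, locPow p v 1) := by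
      rw [hinsert, Finset.iInf_insert]
    have h2 := Subgroup.relIndex_inf_le (H := locPow p v₀ 1) (K := ⨅ v ∈ A₀, locPow p v 1) (L := E)
    rw [← h1, hAidx] at h2
    have hvT := hAT v₀ hv₀
    have h4 := relIndex_locPow_units hζ (hTp v₀ hvT)
    have h5 : E ≤ congr v₀ 0 := unit_le_congr_zero (fun h => hvT (Finset.mem_coe.1 h))
    have h6 : (locPow p v₀ 1).relIndex (congr v₀ 0) ≠ 0 := by rw [h4]; exact hp.out.ne_zero
    have h7 := (Subgroup.relIndex_le_of_le_right h5 h6).trans h4.le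
    have h8 : p ^ A.card = p * p ^ A₀.card := by
      rw [hinsert, Finset.card_insert_of_notMem (Finset.notMem_erase v₀ A), pow_succ, mul_comm]
    rw [h8] at h2
    have h9 := h2.trans (Nat.mul_le_mul_right _ h7)
    exact Nat.le_of_mul_le_mul_left h9 hp.out.pos
  obtain ⟨b, hbE, hbA, hb⟩ : ∃ b ∈ E, b ∈ (⨅ v ∈ A₀, locPow p v 1) ∧
      b ∉ (powMonoidHom p : Kˣ →* Kˣ).range := by
    by_contra hcon
    push Not at hcon
    have h1 : (⨅ v ∈ A₀, locPow p v 1).relIndex E = p ^ (Units.rank K + T.card + 1) := by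
      rw [← hEpow, ← unit_inf_pow, ← Subgroup.inf_relIndex_right]
      congr 1
      refine le_antisymm (le_inf inf_le_right ?_) (le_inf ?_ inf_le_left)
      · rintro b ⟨hb1, hb2⟩
        exact hcon b hb2 hb1
      · exact inf_le_right.trans (le_iInf₂ fun v _ => le_sup_left)
    rw [hA₀idx, hA₀card] at h1
    have h2 := Nat.pow_right_injective hp.out.two_le h1
    omega
  refine ⟨b, A₀, hbE, hb, hA₀card, fun v hv => ⟨hAT v (hA₀A v hv), ?_⟩, hA₀idx, ?_⟩
  · exact (iInf₂_le v hv : (⨅ v ∈ A₀, locPow p v 1) ≤ locPow p v 1) hbA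
  · intro hcon
    rw [Subgroup.mem_sup] at hcon
    obtain ⟨x', hx', u', hu', hxu'⟩ := hcon
    have h1 : x / x' = u' / u := by
      rw [div_eq_div_iff_mul_eq_mul, hxu, ← hxu', mul_comm]
    have h2 : x / x' ∈ ((T : Set (HeightOneSpectrum (𝓞 K))) ∪ A).unit K := by
      refine div_mem hx ?_
      intro v hv
      refine hx' v ?_
      rw [Set.mem_union, not_or] at hv ⊢
      exact ⟨hv.1, fun h => hv.2 (Finset.mem_coe.2 (hA₀A v (Finset.mem_coe.1 h)))⟩
    have h3 : x / x' ∈ U := by rw [h1]; exact div_mem hu' hu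
    obtain ⟨z, hz⟩ := hker ⟨h2, h3⟩
    apply hord
    have h4 : H47.ordHom v₀ (Additive.ofMul x') = 0 := by
      rw [H47.ordHom_eq_zero_iff]
      refine hx' v₀ ?_
      rw [Set.mem_union, not_or]
      exact ⟨fun h => hAT v₀ hv₀ (Finset.mem_coe.1 h), fun h =>
        Finset.notMem_erase v₀ A (Finset.mem_coe.1 h)⟩
    have h5 : x = x' * z ^ p := by
      have : z ^ p = x / x' := hz
      rw [this, mul_div_cancel]
    rw [h5, ofMul_mul, map_add, h4, zero_add, ofMul_pow, map_nsmul, nsmul_eq_mul]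
    exact Dvd.intro _ rfl


variable {L : Type} [Field L] [NumberField L] [Algebra K L] [IsGalois K L]

section data

variable (hcl : ClTrivial (T : Set (HeightOneSpectrum (𝓞 K))))
    (hTp : ∀ v, v ∉ T → v.valuation K (p : K) = 1)
    (m : HeightOneSpectrum (𝓞 K) → ℕ) (hm : ∀ v ∈ T, Deep ζ p v (m v))
    (hdeg : Module.finrank K L = p) {b : Kˣ} {β : L} (hβ : IsKummer p K L b β)
    (hTb : b ∈ (T : Set (HeightOneSpectrum (𝓞 K))).unit K)
    (hA : ∀ v ∈ A, v ∉ T ∧ b ∈ locPow p v 1) (hAcard : A.card = Units.rank K + T.card)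
    (hidx : (⨅ v ∈ A, locPow p v 1).relIndex
      ((T : Set (HeightOneSpectrum (𝓞 K))).unit K) = p ^ A.card)

include hcl hTp hm hdeg hβ hTb hA hAcard hidx in
/-- `⨅_{v ∈ T nonsplit} N_v ≤ E_{T ∪ A} U`. -/
theorem iInf_locNorm_le : (⨅ v ∈ T, ⨅ (_ : NonSplit L v), locNorm L v (m v)) ≤
    ((T : Set (HeightOneSpectrum (𝓞 K))) ∪ A).unit K ⊔ (⨅ v ∈ T, locPow p v (m v)) := by
  classical
  have hAp : ∀ v ∈ A, v.valuation K (p : K) = 1 := fun v hv => hTp v (hA v hv).1
  have hindex := H54T.index_unit_sup hζ hcl hTp m hm (fun v hv => (hA v hv).1) hAcard hidx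
  set U := (⨅ v ∈ T, locPow p v (m v)) with hU
  set Q := (⨅ v ∈ T, ⨅ (_ : NonSplit L v), locNorm L v (m v)) with hQ
  have hUQ : U ≤ Q := by
    refine le_iInf₂ fun v hv => le_iInf fun _ => ?_
    exact (iInf₂_le v hv).trans (locPow_le_locNorm L hdeg v (m v))
  -- first inequality for `T ∪ A`
  let m' : HeightOneSpectrum (𝓞 K) → ℕ := fun v => if v ∈ T then m v else 1
  have hm'T : ∀ v ∈ T, m' v = m v := fun v hv => if_pos hv
  have hm' : ∀ v ∈ T ∪ A, Deep ζ p v (m' v) := by
    intro v hv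
    by_cases hvT : v ∈ T
    · rw [hm'T v hvT]; exact hm v hvT
    · have : m' v = 1 := if_neg hvT
      rw [this]
      exact deep_of_not_dvd hζ (hTp v hvT) one_pos
  have hcl' : ClTrivial ((T ∪ A : Finset (HeightOneSpectrum (𝓞 K))) :
      Set (HeightOneSpectrum (𝓞 K))) := by
    refine hcl.mono ?_
    rw [Finset.coe_union]; exact Set.subset_union_left
  have hfirst := first_inequality hζ hdeg hcl' (fun v hv => unramified_outside hζ hTp hβ hTb
    (fun h => hv (Finset.mem_union_left _ h))) m' hm'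
  rw [Finset.coe_union] at hfirst
  set E' := ((T : Set (HeightOneSpectrum (𝓞 K))) ∪ A).unit K with hE'
  have hQle : Q ≤ (⨅ v ∈ (T ∪ A).filter (fun v => NonSplit L v), locNorm L v (m' v)) := by
    refine le_iInf₂ fun v hv => ?_
    obtain ⟨hv1, hv2⟩ := Finset.mem_filter.1 hv
    rcases Finset.mem_union.1 hv1 with hvT | hvA
    · rw [hm'T v hvT]
      exact (iInf₂_le v hvT).trans (iInf_le _ hv2)
    · exfalso
      exact hβ.not_nonSplit hζ hdeg (deep_of_not_dvd hζ (hAp v hvA) one_pos) (hA v hvA).2 hv2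
  have hQle' : E' ⊔ Q ≤ E' ⊔
      (⨅ v ∈ (T ∪ A).filter (fun v => NonSplit L v), locNorm L v (m' v)) :=
    sup_le_sup_left hQle _
  have h1 : (E' ⊔ U).index ≠ 0 := by rw [hindex]; exact hp.out.ne_zero
  have h2 : (E' ⊔ Q).index ∣ p := by
    rw [← hindex]; exact Subgroup.index_dvd_of_le (sup_le_sup_left hUQ _)
  have h3 : (E' ⊔ Q).index = p := by
    rcases (Nat.dvd_prime hp.out).1 h2 with h | h
    · exfalso
      rw [Subgroup.index_eq_one] at h
      rw [h, top_le_iff] at hQle'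
      rw [hQle', Subgroup.index_top] at hfirst
      exact absurd hfirst (not_le.2 hp.out.one_lt)
    · exact h
  have h4 : E' ⊔ U = E' ⊔ Q := eq_of_index_eq (sup_le_sup_left hUQ _) h1 (by rw [h3, hindex])
  rw [h4]
  exact le_sup_right

include hcl hTp hm hdeg hβ hTb hA hAcard hidx in
/-- Elements which are local norms outside `T` lie in `E_{T ∪ A} U`. -/
theorem mem_of_forall_locNorm {a : Kˣ} (ha : ∀ v, v ∉ T → NonSplit L v → a ∈ locNorm L v 1) :
    a ∈ ((T : Set (HeightOneSpectrum (𝓞 K))) ∪ A).unit K ⊔ (⨅ v ∈ T, locPow p v (m v)) := by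
  classical
  by_contra hcon
  have hAp : ∀ v ∈ A, v.valuation K (p : K) = 1 := fun v hv => hTp v (hA v hv).1
  have hindex := H54T.index_unit_sup hζ hcl hTp m hm (fun v hv => (hA v hv).1) hAcard hidx
  set U := (⨅ v ∈ T, locPow p v (m v)) with hU
  set E' := ((T : Set (HeightOneSpectrum (𝓞 K))) ∪ A).unit K with hE'
  have htop : Subgroup.zpowers a ⊔ (E' ⊔ U) = ⊤ := by
    have h1 : (Subgroup.zpowers a ⊔ (E' ⊔ U)).index ∣ p := by
      rw [← hindex]; exact Subgroup.index_dvd_of_le le_sup_right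
    rcases (Nat.dvd_prime hp.out).1 h1 with h | h
    · exact Subgroup.index_eq_one.1 h
    · exfalso
      apply hcon
      have h2 : E' ⊔ U = Subgroup.zpowers a ⊔ (E' ⊔ U) :=
        eq_of_index_eq le_sup_right (by rw [hindex]; exact hp.out.ne_zero) (by rw [h, hindex])
      rw [h2]
      exact Subgroup.mem_sup_left (Subgroup.mem_zpowers a)
  -- the larger set of places
  set B : Finset (HeightOneSpectrum (𝓞 K)) := (finite_valuation_ne_one a).toFinset with hB
  set T'' : Finset (HeightOneSpectrum (𝓞 K)) := T ∪ A ∪ B with hT''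
  have hTT'' : T ⊆ T'' := fun v hv => Finset.mem_union_left _ (Finset.mem_union_left _ hv)
  have hAT'' : A ⊆ T'' := fun v hv => Finset.mem_union_left _ (Finset.mem_union_right _ hv)
  let m' : HeightOneSpectrum (𝓞 K) → ℕ := fun v => if v ∈ T then m v else 1
  have hm'T : ∀ v ∈ T, m' v = m v := fun v hv => if_pos hv
  have hm'1 : ∀ v, v ∉ T → m' v = 1 := fun v hv => if_neg hv
  have hm' : ∀ v ∈ T'', Deep ζ p v (m' v) := by
    intro v _
    by_cases hvT : v ∈ T
    · rw [hm'T v hvT]; exact hm v hvT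
    · rw [hm'1 v hvT]
      exact deep_of_not_dvd hζ (hTp v hvT) one_pos
  have hunr := fun {v} (hv : v ∉ T) => unramified_outside hζ hTp hβ hTb hv
  have hfirst := first_inequality hζ hdeg (hcl.mono (Finset.coe_subset.2 hTT''))
    (fun v hv => hunr (fun h => hv (hTT'' h))) m' hm'
  set E'' := ((T'' : Finset (HeightOneSpectrum (𝓞 K))) : Set (HeightOneSpectrum (𝓞 K))).unit K
    with hE''
  set Q := (⨅ v ∈ T''.filter (fun v => NonSplit L v), locNorm L v (m' v)) with hQ
  suffices h : E'' ⊔ Q = ⊤ by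
    rw [h, Subgroup.index_top] at hfirst
    exact absurd hfirst (not_le.2 hp.out.one_lt)
  rw [eq_top_iff]
  intro x _
  let D : HeightOneSpectrum (𝓞 K) →₀ ℤ := Finsupp.onFinset T''
    (fun v => if v ∈ T'' then H47.ordHom v (Additive.ofMul x) else 0) (fun v hv => by
      by_contra h
      exact hv (if_neg h))
  obtain ⟨y, hy⟩ := H47.exists_ordHom_eq hcl D
  have hyE'' : y ∈ E'' := by
    intro v hv
    rw [← H47.ordHom_eq_zero_iff, hy v (fun h => hv (Finset.mem_coe.2 (hTT'' (Finset.mem_coe.1 h))))]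
    change (if v ∈ T'' then _ else _) = _
    rw [if_neg (fun h => hv (Finset.mem_coe.2 h))]
  have hxy : ∀ v ∈ T'', v ∉ T → x / y ∈ congr v 0 := by
    intro v hv hvT
    rw [mem_congr_zero, ← H47.ordHom_eq_zero_iff, ofMul_div, map_sub,
      hy v (fun h => hvT (Finset.mem_coe.1 h))]
    change _ - (if v ∈ T'' then _ else _) = _
    rw [if_pos hv, sub_self]
  have hxy' : x / y ∈ Subgroup.zpowers a ⊔ (E' ⊔ U) := by rw [htop]; trivial
  rw [Subgroup.mem_sup] at hxy'
  obtain ⟨c, hc, d, hd, hcd⟩ := hxy'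
  rw [Subgroup.mem_sup] at hd
  obtain ⟨e, he, u, hu, heu⟩ := hd
  obtain ⟨i, rfl⟩ := Subgroup.mem_zpowers_iff.1 hc
  have haE'' : a ∈ E'' := by
    intro v hv
    by_contra h
    exact hv (Finset.mem_coe.2 (Finset.mem_union_right _
      ((finite_valuation_ne_one a).mem_toFinset.2 h)))
  have heE'' : e ∈ E'' := by
    intro v hv
    refine he v ?_
    rw [Set.mem_union, not_or]
    exact ⟨fun h => hv (Finset.mem_coe.2 (hTT'' (Finset.mem_coe.1 h))),
      fun h => hv (Finset.mem_coe.2 (hAT'' (Finset.mem_coe.1 h)))⟩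
  have huQ : u ∈ Q := by
    rw [hQ, Subgroup.mem_iInf]
    intro v
    rw [Subgroup.mem_iInf]
    intro hv
    obtain ⟨hvT'', hvn⟩ := Finset.mem_filter.1 hv
    by_cases hvT : v ∈ T
    · rw [hm'T v hvT]
      have h1 : U ≤ locPow p v (m v) := iInf₂_le v hvT
      exact locPow_le_locNorm L hdeg v (m v) (h1 hu)
    · rw [hm'1 v hvT]
      have hvA : v ∉ A := fun h =>
        hβ.not_nonSplit hζ hdeg (deep_of_not_dvd hζ (hAp v h) one_pos) (hA v h).2 hvn
      have hunits := units_le_locNorm hζ hdeg (hTp v hvT) hvn (hunr hvT) one_pos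
      have h1 : e ∈ congr v 0 := by
        rw [mem_congr_zero]
        refine he v ?_
        rw [Set.mem_union, not_or]
        exact ⟨fun h => hvT (Finset.mem_coe.1 h), fun h => hvA (Finset.mem_coe.1 h)⟩
      have h2 : u = (x / y) / (a ^ i * e) := by
        rw [← hcd, ← heu, ← mul_assoc, mul_div_cancel_left]
      rw [h2]
      exact div_mem (hunits (hxy v hvT'' hvT)) (mul_mem (zpow_mem (ha v hvT hvn) i) (hunits h1))
  have hx : x = (y * a ^ i * e) * u := by
    have : x = y * (x / y) := by rw [mul_div_cancel]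
    rw [this, ← hcd, ← heu]
    simp only [mul_assoc]
  rw [hx]
  exact mul_mem (Subgroup.mem_sup_left (mul_mem (mul_mem hyE'' (zpow_mem haE'' i)) heE''))
    (Subgroup.mem_sup_right huQ)

include hcl hTp hm hdeg hβ hTb hA hAcard hidx in
/-- If `w` is split, or some `a` is a local norm at all nonsplit `v ≠ w` but not at `w`, then the
`w`-component of `Kˣ/U` lies in `E_{T ∪ A} U`. -/
theorem component_le (w : HeightOneSpectrum (𝓞 K)) (hw : w ∈ T)
    (h : NonSplit L w → ∃ a : Kˣ, (∀ v, v ≠ w → NonSplit L v → ∀ n, a ∈ locNorm L v n) ∧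
      a ∉ locNorm L w (m w)) {y : Kˣ} (hy : ∀ v ∈ T, v ≠ w → y ∈ locPow p v (m v)) :
    y ∈ ((T : Set (HeightOneSpectrum (𝓞 K))) ∪ A).unit K ⊔ (⨅ v ∈ T, locPow p v (m v)) := by
  classical
  have hQ := iInf_locNorm_le hζ hcl hTp m hm hdeg hβ hTb hA hAcard hidx
  have hyN : ∀ v ∈ T, v ≠ w → y ∈ locNorm L v (m v) := fun v hv hvw =>
    locPow_le_locNorm L hdeg v (m v) (hy v hv hvw)
  by_cases hns : NonSplit L w
  · obtain ⟨a, ha1, ha2⟩ := h hns
    have haH := mem_of_forall_locNorm hζ hcl hTp m hm hdeg hβ hTb hA hAcard hidx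
      (a := a) (fun v hv hvn => ha1 v (by rintro rfl; exact hv hw) hvn 1)
    -- `y = a ^ j * n` with `n ∈ N_w`
    have hidxw := index_locNorm hζ hdeg (hm w hw) hns
    have htop : Subgroup.zpowers a ⊔ locNorm L w (m w) = ⊤ := by
      have h1 : (Subgroup.zpowers a ⊔ locNorm L w (m w)).index ∣ p := by
        rw [← hidxw]; exact Subgroup.index_dvd_of_le le_sup_right
      rcases (Nat.dvd_prime hp.out).1 h1 with h | h
      · exact Subgroup.index_eq_one.1 h
      · exfalso
        apply ha2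
        have h2 : locNorm L w (m w) = Subgroup.zpowers a ⊔ locNorm L w (m w) :=
          eq_of_index_eq le_sup_right (by rw [hidxw]; exact hp.out.ne_zero) (by rw [h, hidxw])
        rw [h2]
        exact Subgroup.mem_sup_left (Subgroup.mem_zpowers a)
    have hy' : y ∈ Subgroup.zpowers a ⊔ locNorm L w (m w) := by rw [htop]; trivial
    rw [Subgroup.mem_sup] at hy'
    obtain ⟨c, hc, n, hn, hcn⟩ := hy'
    obtain ⟨j, rfl⟩ := Subgroup.mem_zpowers_iff.1 hc
    have hnQ : n ∈ (⨅ v ∈ T, ⨅ (_ : NonSplit L v), locNorm L v (m v)) := by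
      simp only [Subgroup.mem_iInf]
      intro v hv hvn
      by_cases hvw : v = w
      · rw [hvw]; exact hn
      · have h2 : n = y / a ^ j := by rw [← hcn, mul_div_cancel_left]
        rw [h2]
        exact div_mem (hyN v hv hvw) (zpow_mem (ha1 v hvw hvn _) j)
    rw [← hcn]
    exact mul_mem (zpow_mem haH j) (hQ hnQ)
  · apply hQ
    simp only [Subgroup.mem_iInf]
    intro v hv hvn
    exact hyN v hv (by rintro rfl; exact hns hvn)

end data

/-- **(G4)** For every finite place `w` there is `b ∈ Kˣ` such that `w` is nonsplit in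
`L = K(b^(1/p))` and every `a ∈ Kˣ` which is a local norm from `L` at all places `v ≠ w` is also a
local norm at `w`. -/
theorem exists_good_b (w : HeightOneSpectrum (𝓞 K)) :
    ∃ b : Kˣ, b ∉ (powMonoidHom p : Kˣ →* Kˣ).range ∧
      ∀ (L : Type) [Field L] [NumberField L] [Algebra K L] [IsGalois K L] (β : L),
        Module.finrank K L = p → IsKummer p K L b β →
        NonSplit L w ∧ ∀ a : Kˣ, (∀ v, v ≠ w → NonSplit L v → ∀ n, a ∈ locNorm L v n) →
          ∀ n, a ∈ locNorm L w n := by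
  classical
  have hp0 : (p : K) ≠ 0 := by exact_mod_cast hp.out.ne_zero
  have hfin : ({v | v.valuation K ((Units.mk0 (p : K) hp0 : Kˣ) : K) ≠ 1} ∪
      {w} : Set (HeightOneSpectrum (𝓞 K))).Finite :=
    (finite_valuation_ne_one _).union (Set.finite_singleton w)
  obtain ⟨T₀, hT₁, hT₀, hcl⟩ := H47.exists_clTrivial K hfin
  obtain ⟨T, rfl⟩ : ∃ T : Finset (HeightOneSpectrum (𝓞 K)), (T : Set _) = T₀ :=
    ⟨hT₀.toFinset, hT₀.coe_toFinset⟩
  have hTp : ∀ v, v ∉ T → v.valuation K (p : K) = 1 := by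
    intro v hv
    by_contra h
    exact hv (hT₁ (Or.inl h))
  have hwT : w ∈ T := Finset.mem_coe.1 (hT₁ (Or.inr rfl))
  choose m hm using fun v : HeightOneSpectrum (𝓞 K) => exists_deep hp.out.one_lt hζ v
  set E := (T : Set (HeightOneSpectrum (𝓞 K))).unit K with hE
  set U := (⨅ v ∈ T, locPow p v (m v)) with hU
  by_contra hcon
  push Not at hcon
  -- step 3: the `w`-component lies in `E U`
  have hW : ∀ y : Kˣ, (∀ v ∈ T, v ≠ w → y ∈ locPow p v (m v)) → y ∈ E ⊔ U := by
    intro y hy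
    by_contra hyEU
    obtain ⟨b, A₀, hbE, hb, hA₀card, hA₀, hidx, hyA₀⟩ :=
      exists_separating hζ hcl hTp m (fun v _ => hm v) hyEU
    obtain ⟨L, _, _, _, _, β, hdeg, hβ, hL⟩ := hcon b hb
    apply hyA₀
    refine component_le hζ hcl hTp m (fun v _ => hm v) hdeg hβ hbE hA₀ hA₀card hidx w hwT ?_ hy
    intro hns
    obtain ⟨a, ha, n, han⟩ := hL hns
    refine ⟨a, ha, fun h => han ?_⟩
    exact (forall_mem_locNorm_iff hζ hdeg (hm w)).2 h n
  -- step 4
  -- an element which is not a local `p`-th power at `w`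
  have hVtop : locPow p w (m w) ≠ ⊤ := by
    intro h
    obtain ⟨e, -, hidx⟩ := index_locPow' hζ w (hm w)
    rw [h, Subgroup.index_top] at hidx
    have h1 : p ^ 2 ∣ 1 := by rw [hidx]; exact Dvd.intro _ rfl
    have h2 : p ∣ 1 := (dvd_pow_self p two_ne_zero).trans h1
    exact hp.out.one_lt.ne' (Nat.dvd_one.1 h2)
  -- approximate
  have happ : ∀ x : Kˣ, ∃ y : Kˣ, (∀ v ∈ T, v ≠ w → y ∈ locPow p v (m v)) ∧
      y / x ∈ locPow p w (m w) := by
    intro x
    obtain ⟨y, hy⟩ := exists_approx T m (fun v => if v = w then x else 1)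
    refine ⟨y, fun v hv hvw => ?_, ?_⟩
    · have := hy v hv
      rw [if_neg hvw, div_one] at this
      exact Subgroup.mem_sup_right this
    · have := hy w hwT
      rw [if_pos rfl] at this
      exact Subgroup.mem_sup_right this
  obtain ⟨x, hx⟩ : ∃ x : Kˣ, x ∉ locPow p w (m w) := by
    by_contra h
    push Not at h
    exact hVtop ((Subgroup.eq_top_iff' _).2 h)
  obtain ⟨y, hy1, hy2⟩ := happ x
  have hyw : y ∉ locPow p w (m w) := by
    intro h
    apply hx
    have : x = y / (y / x) := by rw [div_div_cancel]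
    rw [this]
    exact div_mem h hy2
  obtain ⟨e, he, u, hu, heu⟩ := Subgroup.mem_sup.1 (hW y hy1)
  have hUle : ∀ v ∈ T, U ≤ locPow p v (m v) := fun v hv => iInf₂_le v hv
  have hew : e ∉ locPow p w (m w) := by
    intro h
    apply hyw
    rw [← heu]
    exact mul_mem h (hUle w hwT hu)
  have hev : ∀ v ∈ T, v ≠ w → e ∈ locPow p v (m v) := by
    intro v hv hvw
    have : e = y / u := by rw [← heu, mul_div_cancel_right]
    rw [this]
    exact div_mem (hy1 v hv hvw) (hUle v hv hu)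
  have hepow : e ∉ (powMonoidHom p : Kˣ →* Kˣ).range := fun h =>
    hew ((le_sup_left : (powMonoidHom p : Kˣ →* Kˣ).range ≤ locPow p w (m w)) h)
  obtain ⟨M, _, _, _, γ, hγ, hgal, hdeg⟩ := exists_kummer hζ e hepow
  have hFI := H65.relIndex_norm_mul hp.out hdeg T.finite_toSet hcl
    (fun v hv => unramified_outside hζ hTp hγ he (fun h => hv (Finset.mem_coe.2 h)))
  rw [← hE] at hFI
  have hsub : {v | v ∈ (T : Set (HeightOneSpectrum (𝓞 K))) ∧ NonSplit M v} ⊆ {w} := by
    rintro v ⟨hv, hvn⟩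
    by_contra hvw
    exact hγ.not_nonSplit hζ hdeg (hm v) (hev v hv hvw) hvn
  have hns : {v | v ∈ (T : Set (HeightOneSpectrum (𝓞 K))) ∧ NonSplit M v} = {w} := by
    rcases Set.subset_singleton_iff_eq.1 hsub with h | h
    · exfalso
      rw [h, Set.ncard_empty, pow_zero] at hFI
      exact hp.out.one_lt.ne' (Nat.eq_one_of_mul_eq_one_left hFI)
    · exact h
  rw [hns, Set.ncard_singleton, pow_one] at hFI
  have hNE : (((aboveSet M (T : Set (HeightOneSpectrum (𝓞 K)))).unit M).map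
      (Units.map (Algebra.norm K : M →* K))).relIndex E = 1 :=
    Nat.eq_of_mul_eq_mul_right hp.out.pos (by rw [hFI, one_mul])
  rw [Subgroup.relIndex_eq_one] at hNE
  have hwns : NonSplit M w := by
    have : w ∈ {v | v ∈ (T : Set (HeightOneSpectrum (𝓞 K))) ∧ NonSplit M v} := by
      rw [hns]; rfl
    exact this.2
  have hEN : E ≤ locNorm M w (m w) := by
    refine hNE.trans ?_
    rintro _ ⟨z, -, rfl⟩
    exact Subgroup.mem_sup_left ⟨z, rfl⟩
  have hUN : U ≤ locNorm M w (m w) :=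
    (hUle w hwT).trans (locPow_le_locNorm M hdeg w (m w))
  have htop : locNorm M w (m w) = ⊤ := by
    rw [Subgroup.eq_top_iff']
    intro z
    obtain ⟨y', hy'1, hy'2⟩ := happ z
    have h1 : y' ∈ locNorm M w (m w) := (sup_le hEN hUN) (hW y' hy'1)
    have h2 : z = y' / (y' / z) := by rw [div_div_cancel]
    rw [h2]
    exact div_mem h1 (locPow_le_locNorm M hdeg w (m w) hy'2)
  have hidxw := index_locNorm hζ hdeg (hm w) hwns
  rw [htop, Subgroup.index_top] at hidxw
  exact hp.out.one_lt.ne hidxw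

/-- **(J8)** codimension at most one, for an arbitrary finite set of places. -/
theorem index_normOutside_sup (hdeg : Module.finrank K L = p)
    {S : Set (HeightOneSpectrum (𝓞 K))} (hS : S.Finite) :
    (normOutside L S ⊔ ⨅ v ∈ S, ⨅ m, locNorm L v m).index ∣ p := by
  classical
  obtain ⟨a, α, hα, ha⟩ := exists_isKummer hζ L hdeg
  have hp0 : (p : K) ≠ 0 := by exact_mod_cast hp.out.ne_zero
  have hfin : ({v | v.valuation K ((Units.mk0 (p : K) hp0 : Kˣ) : K) ≠ 1} ∪
      {v | v.valuation K (a : K) ≠ 1} ∪ S).Finite :=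
    ((finite_valuation_ne_one _).union (finite_valuation_ne_one _)).union hS
  obtain ⟨T₀, hT₁, hT₀, hcl⟩ := H47.exists_clTrivial K hfin
  obtain ⟨T, rfl⟩ : ∃ T : Finset (HeightOneSpectrum (𝓞 K)), (T : Set _) = T₀ :=
    ⟨hT₀.toFinset, hT₀.coe_toFinset⟩
  have hTp : ∀ v, v ∉ T → v.valuation K (p : K) = 1 := by
    intro v hv
    by_contra h
    exact hv (hT₁ (Or.inl (Or.inl h)))
  have hTa : a ∈ (T : Set (HeightOneSpectrum (𝓞 K))).unit K := by
    intro v hv
    by_contra h
    exact hv (hT₁ (Or.inl (Or.inr h)))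
  have hST : ∀ v ∈ S, v ∈ T := fun v hv => Finset.mem_coe.1 (hT₁ (Or.inr hv))
  choose m hm using fun v : HeightOneSpectrum (𝓞 K) => exists_deep hp.out.one_lt hζ v
  obtain ⟨A, hAcard, hA, hidx, -⟩ := exists_aux_set hζ (T : Set (HeightOneSpectrum (𝓞 K)))
    T.finite_toSet hTa ha ∅ Set.finite_empty
  rw [Set.ncard_coe_finset] at hAcard
  have hindex := H54T.index_unit_sup hζ hcl hTp m (fun v _ => hm v) (fun v hv => (hA v hv).1)
    hAcard hidx
  set U := (⨅ v ∈ T, locPow p v (m v)) with hU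
  set E' := ((T : Set (HeightOneSpectrum (𝓞 K))) ∪ A).unit K with hE'
  set T₁ := T.filter (fun v => v ∉ S) with hT₁
  set S₁ := T.filter (fun v => v ∈ S) with hS₁
  set M := (⨅ v ∈ T₁, locNorm L v (m v)) with hM
  set Q := (⨅ v ∈ S₁, locNorm L v (m v)) with hQ
  have hUM : U ≤ M := le_iInf₂ fun v hv =>
    (iInf₂_le v (Finset.mem_filter.1 hv).1).trans (locPow_le_locNorm L hdeg v (m v))
  have hUQ : U ≤ Q := le_iInf₂ fun v hv =>
    (iInf₂_le v (Finset.mem_filter.1 hv).1).trans (locPow_le_locNorm L hdeg v (m v))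
  -- weak approximation
  have hMQ : M ⊔ Q = ⊤ := by
    rw [Subgroup.eq_top_iff']
    intro x
    obtain ⟨y, hy⟩ := exists_approx T m (fun v => if v ∈ S then 1 else x)
    have h1 : y ∈ Q := by
      rw [hQ, Subgroup.mem_iInf]
      intro v
      rw [Subgroup.mem_iInf]
      intro hv
      obtain ⟨hvT, hvS⟩ := Finset.mem_filter.1 hv
      have := hy v hvT
      rw [if_pos hvS, div_one] at this
      exact Subgroup.mem_sup_right this
    have h2 : y / x ∈ M := by
      rw [hM, Subgroup.mem_iInf]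
      intro v
      rw [Subgroup.mem_iInf]
      intro hv
      obtain ⟨hvT, hvS⟩ := Finset.mem_filter.1 hv
      have := hy v hvT
      rw [if_neg hvS] at this
      exact Subgroup.mem_sup_right this
    have h3 : x = (y / x)⁻¹ * y := by rw [inv_div, div_mul_cancel]
    rw [h3]
    exact mul_mem (Subgroup.mem_sup_left (inv_mem h2)) (Subgroup.mem_sup_right h1)
  -- `M ⊓ (E' ⊔ U) ≤ W ⊔ Q`
  have hQ' : Q ≤ ⨅ v ∈ S, ⨅ n, locNorm L v n := by
    refine le_iInf₂ fun v hv => ?_
    rw [iInf_locNorm_eq hζ hdeg (hm v)]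
    exact iInf₂_le v (Finset.mem_filter.2 ⟨hST v hv, hv⟩)
  have hW : M ⊓ E' ≤ normOutside L S := by
    rintro x ⟨hxM, hxE⟩
    rw [mem_normOutside]
    intro v hvS hvn
    rw [forall_mem_locNorm_iff hζ hdeg (hm v)]
    by_cases hvT : v ∈ T
    · have h1 : M ≤ locNorm L v (m v) := iInf₂_le v (Finset.mem_filter.2 ⟨hvT, hvS⟩)
      exact h1 hxM
    · have hvp := hTp v hvT
      have hvA : v ∉ A := fun h =>
        hα.not_nonSplit hζ hdeg (deep_of_not_dvd hζ hvp one_pos) (hA v h).2.2.2 hvn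
      have hmpos : 0 < m v := (hm v).pos hp.out.one_lt hζ
      refine units_le_locNorm hζ hdeg hvp hvn (unramified_outside hζ hTp hα hTa hvT) hmpos ?_
      rw [mem_congr_zero]
      refine hxE v ?_
      rw [Set.mem_union, not_or]
      exact ⟨fun h => hvT (Finset.mem_coe.1 h), fun h => hvA (Finset.mem_coe.1 h)⟩
  have hX : M ⊓ (E' ⊔ U) ≤ (M ⊓ E') ⊔ U := by
    rw [inf_comm, sup_comm, sup_inf_assoc_of_le E' hUM, inf_comm, sup_comm]
  have hle : (M ⊓ (E' ⊔ U)) ⊔ Q ≤ normOutside L S ⊔ ⨅ v ∈ S, ⨅ n, locNorm L v n := by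
    refine sup_le (hX.trans (sup_le (hW.trans le_sup_left) ?_)) (hQ'.trans le_sup_right)
    exact (hUQ.trans hQ').trans le_sup_right
  refine (Subgroup.index_dvd_of_le hle).trans ?_
  have h1 := relIndex_sup_dvd (M ⊓ (E' ⊔ U)) M Q inf_le_left
  rw [hMQ, Subgroup.relIndex_top_right] at h1
  refine h1.trans ?_
  rw [inf_comm, Subgroup.inf_relIndex_right, ← hindex]
  exact Subgroup.relIndex_dvd_index_of_normal _ _


end Fermat.Agent.H82V
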