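import Fermat.Agent.H82V1

/-!
# The quadratic norm residue symbol, completion-free (helper82)

`nf b` = nonzero values of `u ^ 2 - b w ^ 2` on `K`, `hil v b` = elements of `Kˣ` which are local
norms from `K(√b)` at the finite place `v`. Symmetry and bilinearity.
-/

set_option autoImplicit false

noncomputable section

open IsDedekindDomain NumberField WithZero Fermat.Agent.H82

namespace Fermat.Agent.H82V

section defs

variable {K : Type*} [Field K]

/-- The group of nonzero values of `u² - b w²`. -/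
def nf (b : Kˣ) : Subgroup Kˣ where
  carrier := {x | ∃ u w : K, u ^ 2 - b * w ^ 2 = x}
  mul_mem' := by
    rintro x y ⟨u, w, h⟩ ⟨u', w', h'⟩
    refine ⟨u * u' + b * (w * w'), u * w' + w * u', ?_⟩
    rw [Units.val_mul, ← h, ← h']
    ring
  one_mem' := ⟨1, 0, by simp⟩
  inv_mem' := by
    rintro x ⟨u, w, h⟩
    refine ⟨u / x, w / x, ?_⟩
    rw [Units.val_inv_eq_inv_val]
    have hx : (x : K) ≠ 0 := x.ne_zero
    field_simp
    linear_combination h

lemma mem_nf {b x : Kˣ} : x ∈ nf b ↔ ∃ u w : K, u ^ 2 - b * w ^ 2 = x := Iff.rfl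

lemma sq_mem_nf (b x : Kˣ) : x ^ 2 ∈ nf b := ⟨x, 0, by simp⟩

lemma nf_mul_sq (b t : Kˣ) : nf (b * t ^ 2) = nf b := by
  ext x
  rw [mem_nf, mem_nf]
  constructor
  · rintro ⟨u, w, h⟩
    exact ⟨u, t * w, by rw [← h]; push_cast; ring⟩
  · rintro ⟨u, w, h⟩
    refine ⟨u, w / t, ?_⟩
    rw [← h]
    have : (t : K) ≠ 0 := t.ne_zero
    push_cast
    field_simp

lemma nf_sq [NeZero (2 : K)] (t : Kˣ) : nf (t ^ 2) = ⊤ := by
  rw [Subgroup.eq_top_iff']
  intro x
  have h2 : (2 : K) ≠ 0 := NeZero.ne 2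
  have ht : (t : K) ≠ 0 := t.ne_zero
  refine ⟨(x + 1) / 2, (x - 1) / (2 * t), ?_⟩
  push_cast
  field_simp
  ring

end defs

section places

variable {K : Type*} [Field K] [NumberField K]

/-- Elements of `Kˣ` which are local norms from `K(√b)` at `v`. -/
def hil (v : HeightOneSpectrum (𝓞 K)) (b : Kˣ) : Subgroup Kˣ := ⨅ m, nf b ⊔ congr v m

lemma mem_sup_congr {v : HeightOneSpectrum (𝓞 K)} {b x : Kˣ} {m : ℕ} :
    x ∈ nf b ⊔ congr v m ↔ ∃ y ∈ nf b, x / y ∈ congr v m := by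
  rw [Subgroup.mem_sup]
  constructor
  · rintro ⟨y, hy, c, hc, rfl⟩
    exact ⟨y, hy, by simpa using hc⟩
  · rintro ⟨y, hy, hc⟩
    exact ⟨y, hy, _, hc, by simp⟩

lemma mem_hil {v : HeightOneSpectrum (𝓞 K)} {b x : Kˣ} :
    x ∈ hil v b ↔ ∀ m : ℕ, ∃ y ∈ nf b, x / y ∈ congr v m := by
  simp only [hil, Subgroup.mem_iInf, mem_sup_congr]

lemma nf_le_hil (v : HeightOneSpectrum (𝓞 K)) (b : Kˣ) : nf b ≤ hil v b := by
  intro x hx
  rw [mem_hil]
  intro m
  exact ⟨x, hx, by rw [div_self']; exact one_mem _⟩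

lemma hil_mul_sq (v : HeightOneSpectrum (𝓞 K)) (b t : Kˣ) : hil v (b * t ^ 2) = hil v b := by
  rw [hil, hil, nf_mul_sq]

/-- the values of the valuation are bounded by exponentials -/
lemma exists_val_le (v : HeightOneSpectrum (𝓞 K)) (x : K) :
    ∃ k : ℕ, v.valuation K x ≤ exp (k : ℤ) := by
  by_cases hx : x = 0
  · exact ⟨0, by rw [hx, map_zero]; exact zero_le⟩
  · have h0 : v.valuation K x ≠ 0 := (Valuation.ne_zero_iff _).2 hx
    obtain ⟨n, hn⟩ : ∃ n : ℤ, v.valuation K x = exp n := ⟨_, (exp_log h0).symm⟩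
    refine ⟨n.toNat, ?_⟩
    rw [hn, exp_le_exp]
    exact Int.self_le_toNat n

/-- if `a` is a local square at `v` then every element is a local norm from `K(√a)` -/
lemma hil_eq_top_of_locPow {v : HeightOneSpectrum (𝓞 K)} {a : Kˣ}
    (ha : ∀ k : ℕ, a ∈ locPow 2 v k) : hil v a = ⊤ := by
  rw [Subgroup.eq_top_iff']
  intro b
  rw [mem_hil]
  intro M
  have hb : (b : K) ≠ 0 := b.ne_zero
  -- the error
  obtain ⟨k, hk⟩ := exists_val_le v (((b : K) - 1) ^ 2 / (4 * b))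
  obtain ⟨z, hz⟩ := mem_locPow.1 (ha (k + M + 1))
  have hzne : (z : K) ≠ 0 := z.ne_zero
  obtain ⟨δ, hδ⟩ : ∃ δ : K, δ = ((a / z ^ 2 : Kˣ) : K) - 1 := ⟨_, rfl⟩
  have hδv : v.valuation K δ ≤ exp (-((k + M + 1 : ℕ) : ℤ)) := by rw [hδ]; exact hz.2
  have haz : (a : K) = z ^ 2 * (1 + δ) := by
    rw [hδ]; push_cast; field_simp; ring
  obtain ⟨y, hy⟩ : ∃ y : K, y = (((b : K) + 1) / 2) ^ 2 - a * (((b : K) - 1) / (2 * z)) ^ 2 := ⟨_, rfl⟩
  have hyb : y = b * (1 - δ * (((b : K) - 1) ^ 2 / (4 * b))) := by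
    rw [hy, haz]
    field_simp
    ring
  have herr : v.valuation K (δ * (((b : K) - 1) ^ 2 / (4 * b))) ≤ exp (-((M + 1 : ℕ) : ℤ)) := by
    rw [map_mul]
    refine (mul_le_mul' hδv hk).trans ?_
    rw [← exp_add, exp_le_exp]
    push_cast
    omega
  have h1 : v.valuation K (1 - δ * (((b : K) - 1) ^ 2 / (4 * b)) - 1) ≤ exp (-((M + 1 : ℕ) : ℤ)) := by
    rw [sub_sub_cancel_left, Valuation.map_neg]
    exact herr
  have hunit : v.valuation K (1 - δ * (((b : K) - 1) ^ 2 / (4 * b))) = 1 := by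
    refine valuation_eq_one_of_sub_one_lt (h1.trans_lt ?_)
    rw [← exp_zero, exp_lt_exp]
    push_cast
    omega
  have hne : 1 - δ * (((b : K) - 1) ^ 2 / (4 * b)) ≠ 0 := by
    intro h
    rw [h, map_zero] at hunit
    exact zero_ne_one hunit
  have hyne : y ≠ 0 := by rw [hyb]; exact mul_ne_zero hb hne
  refine ⟨Units.mk0 y hyne, ⟨_, _, hy.symm⟩, ?_⟩
  have hmem : (Units.mk0 _ hne : Kˣ) ∈ congr v M :=
    congr_anti v (Nat.le_succ M) ⟨hunit, h1⟩
  have h2 : b / Units.mk0 y hyne = (Units.mk0 _ hne)⁻¹ := by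
    ext
    push_cast
    rw [Units.val_mk0, Units.val_mk0, hyb]
    field_simp
  rw [h2]
  exact inv_mem hmem

/-- **Symmetry** of the quadratic norm residue symbol. -/
lemma hil_symm_aux {v : HeightOneSpectrum (𝓞 K)} {d : ℕ} (hd0 : 0 < d)
    (hd : ∀ k : ℕ, congr v d ≤ locPow 2 v k) {a b : Kˣ} (h : a ∈ hil v b) : b ∈ hil v a := by
  rw [mem_hil] at h
  by_cases hsq : ∀ k : ℕ, a ∈ locPow 2 v k
  · rw [hil_eq_top_of_locPow hsq]; trivial
  rw [mem_hil]
  intro M
  obtain ⟨y, ⟨u, w, huw⟩, hy⟩ := h (M + d + 1)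
  have ha0 : (a : K) ≠ 0 := a.ne_zero
  have hb0 : (b : K) ≠ 0 := b.ne_zero
  have hy0 : (y : K) ≠ 0 := y.ne_zero
  have hy' := inv_mem hy
  rw [inv_div] at hy'
  -- `ε = y / a - 1` is small
  obtain ⟨ε, hε⟩ : ∃ ε : K, ε = ((y / a : Kˣ) : K) - 1 := ⟨_, rfl⟩
  have hεv : v.valuation K ε ≤ exp (-((M + d + 1 : ℕ) : ℤ)) := by rw [hε]; exact hy'.2
  have hya : (y : K) = a * (1 + ε) := by
    rw [hε]; push_cast; field_simp; ring
  -- `η = b w² / a` is not too small
  obtain ⟨η, hη⟩ : ∃ η : K, η = b * w ^ 2 / a := ⟨_, rfl⟩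
  have hηv : ¬ v.valuation K η ≤ exp (-(d : ℤ)) := by
    intro hcon
    apply hsq
    intro k
    have h1 : u ^ 2 = a * (1 + (ε + η)) := by
      have : a * η = b * w ^ 2 := by rw [hη]; field_simp
      linear_combination huw + hya - this
    have h2 : v.valuation K (ε + η) ≤ exp (-(d : ℤ)) := by
      refine (Valuation.map_add _ _ _).trans (max_le (hεv.trans ?_) hcon)
      rw [exp_le_exp]; push_cast; omega
    have h3 : v.valuation K (1 + (ε + η)) = 1 := by
      refine valuation_eq_one_of_sub_one_lt ?_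
      rw [add_sub_cancel_left]
      refine h2.trans_lt ?_
      rw [← exp_zero, exp_lt_exp]
      omega
    have hne : 1 + (ε + η) ≠ 0 := by
      intro h; rw [h, map_zero] at h3; exact zero_ne_one h3
    have hu0 : u ≠ 0 := by
      rintro rfl
      rw [zero_pow two_ne_zero, eq_comm] at h1
      exact mul_ne_zero ha0 hne h1
    have h4 : (Units.mk0 _ hne : Kˣ) ∈ congr v d :=
      ⟨h3, by rw [Units.val_mk0, add_sub_cancel_left]; exact h2⟩
    have h5 : a = (Units.mk0 u hu0) ^ 2 * (Units.mk0 _ hne)⁻¹ := by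
      ext
      push_cast
      rw [Units.val_mk0, Units.val_mk0, h1]
      field_simp
    rw [h5]
    exact mul_mem (Subgroup.mem_sup_left ⟨_, rfl⟩) (inv_mem (hd k h4))
  have hη0 : η ≠ 0 := by
    intro h
    rw [h, map_zero] at hηv
    exact hηv zero_le
  have hw0 : w ≠ 0 := by
    rintro rfl
    apply hη0
    rw [hη]; ring
  -- `b ≈ (u² - a) / w²`
  obtain ⟨θ, hθ⟩ : ∃ θ : K, θ = ε / η := ⟨_, rfl⟩
  have hθv : v.valuation K θ ≤ exp (-((M + 1 : ℕ) : ℤ)) := by
    rw [hθ, map_div₀]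
    have h0 : v.valuation K η ≠ 0 := (Valuation.ne_zero_iff _).2 hη0
    rw [div_le_iff₀ (zero_lt_iff.2 h0)]
    refine hεv.trans ?_
    have h1 : exp (-(d : ℤ)) ≤ v.valuation K η := (not_le.1 hηv).le
    refine le_trans ?_ (mul_le_mul_right h1 _)
    rw [← exp_add, exp_le_exp]
    push_cast
    omega
  have hunit : v.valuation K (1 + θ) = 1 := by
    refine valuation_eq_one_of_sub_one_lt ?_
    rw [add_sub_cancel_left]
    refine hθv.trans_lt ?_
    rw [← exp_zero, exp_lt_exp]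
    push_cast
    omega
  have hne : 1 + θ ≠ 0 := by
    intro h; rw [h, map_zero] at hunit; exact zero_ne_one hunit
  have hval : (u / w) ^ 2 - a * (1 / w) ^ 2 = b * (1 + θ) := by
    have h1 : a * η = b * w ^ 2 := by rw [hη]; field_simp
    have h2 : η * θ = ε := by rw [hθ]; field_simp
    have h3 : u ^ 2 - a = b * w ^ 2 * (1 + θ) := by
      linear_combination huw + hya + θ * h1 - a * h2
    field_simp
    linear_combination h3
  refine ⟨b * Units.mk0 _ hne, ⟨u / w, 1 / w, ?_⟩, ?_⟩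
  · rw [hval]; push_cast; rfl
  · have h2 : b / (b * Units.mk0 _ hne) = (Units.mk0 _ hne)⁻¹ := by
      rw [div_mul_cancel_left]
    rw [h2]
    exact inv_mem (congr_anti v (Nat.le_succ M)
      ⟨hunit, by rw [Units.val_mk0, add_sub_cancel_left]; exact hθv⟩)

end places

end Fermat.Agent.H82V
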