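import Fermat.Agent.H82V2

/-!
# The quadratic norm residue symbol, completion-free, II (helper82)

Comparison with the norm groups, index at most two, symmetry, bilinearity, base change.
-/

set_option autoImplicit false
set_option linter.unusedSectionVars false

noncomputable section

open IsDedekindDomain NumberField WithZero Fermat.Agent.H82

namespace Fermat.Agent.H82V

section norm

variable {K : Type*} [Field K] [CharZero K] {L : Type*} [Field L] [Algebra K L]

/-- conjugation in a quadratic extension -/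
lemma exists_conj [IsGalois K L] (hdeg : Module.finrank K L = 2) {b : Kˣ} {β : L}
    (hβ : IsKummer 2 K L b β) :
    ∃ σ : L ≃ₐ[K] L, σ β = -β ∧ σ ≠ 1 ∧ ∀ τ : L ≃ₐ[K] L, τ = 1 ∨ τ = σ := by
  have hfd : FiniteDimensional K L := Module.finite_of_finrank_pos (by rw [hdeg]; norm_num)
  have hcard : Nat.card (L ≃ₐ[K] L) = 2 := by rw [IsGalois.card_aut_eq_finrank, hdeg]
  obtain ⟨σ, hσ, huniv⟩ := (Nat.card_eq_two_iff' (1 : L ≃ₐ[K] L)).1 hcard
  refine ⟨σ, ?_, hσ, fun τ => ?_⟩
  · have h1 : (σ β) ^ 2 = β ^ 2 := by rw [← map_pow, hβ.pow_eq, AlgEquiv.commutes]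
    rcases sq_eq_sq_iff_eq_or_eq_neg.1 h1 with h | h
    · exact absurd (hβ.eq_one σ h) hσ
    · exact h
  · by_cases h : τ = 1
    · exact Or.inl h
    · exact Or.inr (huniv τ h)

lemma norm_kummer [IsGalois K L] (hdeg : Module.finrank K L = 2) {b : Kˣ} {β : L}
    (hβ : IsKummer 2 K L b β) (u w : K) :
    Algebra.norm K (algebraMap K L u + algebraMap K L w * β) = u ^ 2 - b * w ^ 2 := by
  classical
  have hfd : FiniteDimensional K L := Module.finite_of_finrank_pos (by rw [hdeg]; norm_num)
  obtain ⟨σ, hσβ, hσ1, hσ⟩ := exists_conj hdeg hβ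
  apply (algebraMap K L).injective
  rw [Algebra.norm_eq_prod_automorphisms]
  have huniv : (Finset.univ : Finset (L ≃ₐ[K] L)) = {1, σ} := by
    ext τ
    simpa using hσ τ
  rw [huniv, Finset.prod_pair (Ne.symm hσ1), AlgEquiv.one_apply, map_add, map_mul,
    AlgEquiv.commutes, AlgEquiv.commutes, hσβ, map_sub, map_pow, map_mul, map_pow, ← hβ.pow_eq]
  ring

lemma exists_coords [IsGalois K L] (hdeg : Module.finrank K L = 2) {b : Kˣ} {β : L}
    (hβ : IsKummer 2 K L b β) (z : L) :
    ∃ u w : K, z = algebraMap K L u + algebraMap K L w * β := by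
  classical
  have hfd : FiniteDimensional K L := Module.finite_of_finrank_pos (by rw [hdeg]; norm_num)
  obtain ⟨σ, hσβ, hσ1, hσ⟩ := exists_conj hdeg hβ
  have hσσ : σ * σ = 1 := by
    rcases hσ (σ * σ) with h | h
    · exact h
    · exact absurd (mul_eq_left.1 h) hσ1
  have hσσz : ∀ x, σ (σ x) = x := fun x => DFunLike.congr_fun hσσ x
  have hβ0 : β ≠ 0 := by
    rintro rfl
    have h1 := hβ.pow_eq
    rw [zero_pow two_ne_zero, eq_comm, map_eq_zero] at h1
    exact b.ne_zero h1
  have hchar : CharZero L := charZero_of_injective_algebraMap (algebraMap K L).injective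
  have hfix : ∀ x : L, σ x = x → ∃ y : K, algebraMap K L y = x := by
    intro x hx
    have := (IsGalois.mem_range_algebraMap_iff_fixed (F := K) (E := L) x).2 (fun τ => by
      rcases hσ τ with h | h
      · rw [h]; rfl
      · rw [h]; exact hx)
    exact this
  obtain ⟨u, hu⟩ := hfix ((z + σ z) / 2) (by
    rw [map_div₀, map_add, hσσz, map_ofNat, add_comm])
  obtain ⟨w, hw⟩ := hfix ((z - σ z) / (2 * β)) (by
    rw [map_div₀, map_sub, hσσz, map_mul, map_ofNat, hσβ]
    field_simp
    ring)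
  refine ⟨u, w, ?_⟩
  rw [hu, hw]
  field_simp
  ring

/-- the norm group of `K(√b)` is the group of values of the norm form -/
theorem normGroup_eq_nf [IsGalois K L] (hdeg : Module.finrank K L = 2) {b : Kˣ} {β : L}
    (hβ : IsKummer 2 K L b β) : normGroup K L = nf b := by
  ext x
  constructor
  · rintro ⟨z, rfl⟩
    obtain ⟨u, w, hz⟩ := exists_coords hdeg hβ (z : L)
    refine ⟨u, w, ?_⟩
    rw [Units.coe_map, hz]
    exact (norm_kummer hdeg hβ u w).symm
  · rintro ⟨u, w, h⟩
    have h1 := norm_kummer hdeg hβ u w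
    have hfd : FiniteDimensional K L := Module.finite_of_finrank_pos (by rw [hdeg]; norm_num)
    have hne : algebraMap K L u + algebraMap K L w * β ≠ 0 := by
      intro h0
      rw [h0, Algebra.norm_zero, h] at h1
      exact x.ne_zero h1.symm
    refine ⟨Units.mk0 _ hne, ?_⟩
    ext
    rw [Units.coe_map, Units.val_mk0]
    exact h1.trans h

end norm

section places

variable {K : Type} [Field K] [NumberField K]

lemma primitiveRoot_neg_one (K : Type*) [Field K] [CharZero K] : IsPrimitiveRoot (-1 : K) 2 :=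
  IsPrimitiveRoot.neg_one 0 (by norm_num)

instance : Fact (Nat.Prime 2) := ⟨Nat.prime_two⟩

theorem hil_eq_iInf {L : Type} [Field L] [NumberField L] [Algebra K L] [IsGalois K L]
    (hdeg : Module.finrank K L = 2) {b : Kˣ} {β : L} (hβ : IsKummer 2 K L b β)
    (v : HeightOneSpectrum (𝓞 K)) : hil v b = ⨅ m, locNorm L v m := by
  simp only [hil, locNorm, normGroup_eq_nf hdeg hβ]

/-- a depth at which congruence implies local square -/
lemma exists_depth (v : HeightOneSpectrum (𝓞 K)) :
    ∃ d : ℕ, 0 < d ∧ Deep (-1 : K) 2 v d ∧ ∀ k : ℕ, congr v d ≤ locPow 2 v k := by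
  have hζ := primitiveRoot_neg_one K
  obtain ⟨d, hd⟩ := exists_deep (K := K) (by norm_num : 1 < 2) hζ v
  refine ⟨d, hd.pos (by norm_num) hζ, hd, fun k => ?_⟩
  have h1 : locPow 2 v d = locPow 2 v (max d k) :=
    locPow_eq_of_deep hζ hd (hd.mono (le_max_left _ _))
  have h2 : congr v d ≤ locPow 2 v d := le_sup_right
  exact (h1 ▸ h2).trans (locPow_anti 2 v (le_max_right d k))

/-- **Symmetry.** -/
theorem hil_symm {v : HeightOneSpectrum (𝓞 K)} {a b : Kˣ} : a ∈ hil v b ↔ b ∈ hil v a := by
  obtain ⟨d, hd0, -, hd⟩ := exists_depth v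
  exact ⟨hil_symm_aux hd0 hd, hil_symm_aux hd0 hd⟩

/-- `hil v b` is everything or has index two -/
theorem hil_index (v : HeightOneSpectrum (𝓞 K)) (b : Kˣ) :
    hil v b = ⊤ ∨ (hil v b).index = 2 := by
  classical
  by_cases hb : b ∈ (powMonoidHom 2 : Kˣ →* Kˣ).range
  · obtain ⟨t, rfl⟩ := hb
    left
    rw [powMonoidHom_apply, hil, nf_sq]
    simp
  · obtain ⟨M, _, _, _, β, hβ, hgal, hdeg⟩ := exists_kummer (primitiveRoot_neg_one K) b hb
    rw [hil_eq_iInf hdeg hβ]
    by_cases hns : NonSplit M v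
    · right
      exact H65.index_locNorm_eq Nat.prime_two hdeg (primitiveRoot_neg_one K) hns
    · left
      simp only [locNorm_eq_top_of_split hdeg hns, iInf_top]

lemma hil_mul_mem {v : HeightOneSpectrum (𝓞 K)} {b x y : Kˣ} (hx : x ∉ hil v b)
    (hy : y ∉ hil v b) : x * y ∈ hil v b := by
  rcases hil_index v b with h | h
  · rw [h] at hx; exact absurd (Subgroup.mem_top x) hx
  · rw [Subgroup.mul_mem_iff_of_index_two h]
    exact iff_of_false hx hy

lemma hil_mul_iff {v : HeightOneSpectrum (𝓞 K)} {b x y : Kˣ} :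
    x * y ∈ hil v b ↔ (x ∈ hil v b ↔ y ∈ hil v b) := by
  rcases hil_index v b with h | h
  · simp [h]
  · exact Subgroup.mul_mem_iff_of_index_two h

/-- **Bilinearity.** -/
lemma hil_mul_right {v : HeightOneSpectrum (𝓞 K)} {a b b' : Kˣ} :
    a ∈ hil v (b * b') ↔ (a ∈ hil v b ↔ a ∈ hil v b') := by
  rw [hil_symm, hil_mul_iff, hil_symm (a := b), hil_symm (a := b')]

end places

end Fermat.Agent.H82V
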