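import Fermat.Agent.H82V3

/-!
# No quaternion algebra is ramified at exactly one place (helper82)

If `c` is a local norm from `K(√b)` at all finite places `v ≠ v₀` then it is one at `v₀`
(`K` totally complex). Proof: base change to `K(√b')` for a good `b'` (`exists_good_b`), Hasse norm
theorem there, common slot lemma.
-/

set_option autoImplicit false
set_option linter.unusedSectionVars false

noncomputable section

open IsDedekindDomain NumberField WithZero Fermat.Agent.H82

namespace Fermat.Agent.H82V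

/-! ## base change -/

section basechange

variable {K : Type} [Field K] [NumberField K] {L : Type} [Field L] [NumberField L] [Algebra K L]

lemma map_congr {v : HeightOneSpectrum (𝓞 K)} {w : HeightOneSpectrum (𝓞 L)} (hw : w ∈ above L v)
    {m : ℕ} {x : Kˣ} (hx : x ∈ congr v m) :
    Units.map (algebraMap K L : K →* L) x ∈ congr w m := by
  have he := ramificationIdx'_ne_zero hw
  obtain ⟨h1, h2⟩ := hx
  refine ⟨?_, ?_⟩
  · change w.valuation L (algebraMap K L (x : K)) = 1
    rw [valuation_above hw, h1, one_pow]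
  · change w.valuation L (algebraMap K L (x : K) - 1) ≤ _
    have h3 : algebraMap K L (x : K) - 1 = algebraMap K L ((x : K) - 1) := by
      rw [map_sub, map_one]
    rw [h3, valuation_above hw]
    have h4 : exp (-(m : ℤ)) ≤ 1 := by
      rw [← exp_zero, exp_le_exp]; omega
    calc v.valuation K ((x : K) - 1) ^ (v.asIdeal.ramificationIdx' w.asIdeal)
        ≤ exp (-(m : ℤ)) ^ (v.asIdeal.ramificationIdx' w.asIdeal) := pow_le_pow_left' h2 _
      _ ≤ exp (-(m : ℤ)) :=
        (pow_le_pow_right_of_le_one' h4 (Nat.one_le_iff_ne_zero.2 he)).trans_eq (pow_one _)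

lemma map_nf {b x : Kˣ} (hx : x ∈ nf b) :
    Units.map (algebraMap K L : K →* L) x ∈ nf (Units.map (algebraMap K L : K →* L) b) := by
  obtain ⟨u, w, h⟩ := hx
  refine ⟨algebraMap K L u, algebraMap K L w, ?_⟩
  change _ - algebraMap K L (b : K) * _ = algebraMap K L (x : K)
  rw [← h, map_sub, map_mul, map_pow, map_pow]

lemma map_hil {v : HeightOneSpectrum (𝓞 K)} {w : HeightOneSpectrum (𝓞 L)} (hw : w ∈ above L v)
    {b x : Kˣ} (hx : x ∈ hil v b) :
    Units.map (algebraMap K L : K →* L) x ∈ hil w (Units.map (algebraMap K L : K →* L) b) := by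
  rw [mem_hil] at hx ⊢
  intro m
  obtain ⟨y, hy, hxy⟩ := hx m
  refine ⟨_, map_nf hy, ?_⟩
  rw [← map_div]
  exact map_congr hw hxy

end basechange

/-! ## coordinates -/

section coords

variable {K : Type*} [Field K] [CharZero K] {L : Type*} [Field L] [Algebra K L]

lemma coords_zero [IsGalois K L] (hdeg : Module.finrank K L = 2) {b : Kˣ} {β : L}
    (hβ : IsKummer 2 K L b β) (hb : b ∉ (powMonoidHom 2 : Kˣ →* Kˣ).range) {p q : K}
    (h : algebraMap K L p + algebraMap K L q * β = 0) : p = 0 ∧ q = 0 := by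
  have hfd : FiniteDimensional K L := Module.finite_of_finrank_pos (by rw [hdeg]; norm_num)
  have h1 := norm_kummer hdeg hβ p q
  rw [h, Algebra.norm_zero] at h1
  by_cases hq : q = 0
  · subst hq
    refine ⟨?_, rfl⟩
    rw [map_zero, zero_mul, add_zero, map_eq_zero] at h
    exact h
  · exfalso
    have hp : p ≠ 0 := by
      rintro rfl
      have h2 : (b : K) * q ^ 2 = 0 := by linear_combination h1
      exact mul_ne_zero b.ne_zero (pow_ne_zero 2 hq) h2
    apply hb
    refine ⟨Units.mk0 (p / q) (div_ne_zero hp hq), ?_⟩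
    ext
    rw [powMonoidHom_apply, Units.val_pow_eq_pow_val, Units.val_mk0, div_pow]
    field_simp
    linear_combination -h1

end coords

/-! ## the main argument -/

section main

variable {K : Type} [Field K] [NumberField K] [htc : IsTotallyComplex K]

lemma prop_aux {P Q : Prop} (h : (P ↔ Q) ↔ P) : Q := by tauto

/-- the algebraic core: the common slot lemma -/
lemma slot {v₀ : HeightOneSpectrum (𝓞 K)} {b b' c : Kˣ}
    (hb : b ∉ (powMonoidHom 2 : Kˣ →* Kˣ).range)
    (hgood : ∀ x : Kˣ, (∀ v, v ≠ v₀ → x ∈ hil v b') → x ∈ hil v₀ b')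
    (h1 : ∀ v, v ≠ v₀ → c ∈ hil v b) (h0 : c ∉ hil v₀ b)
    {p₁ q₁ p₂ q₂ : K} (hc : (c : K) = (p₁ ^ 2 - b * p₂ ^ 2) + b' * (q₁ ^ 2 - b * q₂ ^ 2))
    (hpq : p₁ * q₁ = b * (p₂ * q₂)) : False := by
  -- zeros of the norm form
  have hzero : ∀ p q : K, p ^ 2 - b * q ^ 2 = 0 → p = 0 ∧ q = 0 := by
    intro p q h
    by_cases hq : q = 0
    · subst hq
      refine ⟨?_, rfl⟩
      have : p ^ 2 = 0 := by linear_combination h
      exact pow_eq_zero_iff two_ne_zero |>.1 this
    · exfalso
      have hp : p ≠ 0 := by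
        rintro rfl
        have h2 : (b : K) * q ^ 2 = 0 := by linear_combination -h
        exact mul_ne_zero b.ne_zero (pow_ne_zero 2 hq) h2
      apply hb
      refine ⟨Units.mk0 (p / q) (div_ne_zero hp hq), ?_⟩
      ext
      rw [powMonoidHom_apply, Units.val_pow_eq_pow_val, Units.val_mk0, div_pow]
      field_simp
      linear_combination h
  obtain ⟨n₁, hn₁⟩ : ∃ n : K, n = p₁ ^ 2 - b * p₂ ^ 2 := ⟨_, rfl⟩
  obtain ⟨n₂, hn₂⟩ : ∃ n : K, n = q₁ ^ 2 - b * q₂ ^ 2 := ⟨_, rfl⟩
  rw [← hn₁, ← hn₂] at hc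
  by_cases hn₂0 : n₂ = 0
  · apply h0
    refine nf_le_hil v₀ b ⟨p₁, p₂, ?_⟩
    rw [hc, hn₂0, mul_zero, add_zero, hn₁]
  by_cases hn₁0 : n₁ = 0
  · -- `c = b' n₂`, so `b` itself contradicts the choice of `b'`
    have hcb : c = b' * Units.mk0 n₂ hn₂0 := by
      ext
      rw [hc, hn₁0, zero_add]; rfl
    have hn₂mem : Units.mk0 n₂ hn₂0 ∈ nf b := ⟨q₁, q₂, hn₂.symm⟩
    have hiff : ∀ v, c ∈ hil v b ↔ b ∈ hil v b' := by
      intro v
      have e1 : b' * Units.mk0 n₂ hn₂0 ∈ hil v b ↔ b' ∈ hil v b :=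
        hil_mul_iff.trans (iff_true_right (nf_le_hil v b hn₂mem))
      rw [hcb]
      exact e1.trans hil_symm
    exact h0 ((hiff v₀).2 (hgood b fun v hv => (hiff v).1 (h1 v hv)))
  · -- `x = c n₁`
    obtain ⟨N₁, hN₁⟩ : ∃ N : Kˣ, N = Units.mk0 n₁ hn₁0 := ⟨_, rfl⟩
    have hN₁v : (N₁ : K) = n₁ := by rw [hN₁]; rfl
    have hN₁mem : N₁ ∈ nf b := ⟨p₁, p₂, by rw [hN₁v, hn₁]⟩
    have hx : c * N₁ ∈ nf (b * b') := by
      refine ⟨n₁, p₂ * q₁ - p₁ * q₂, ?_⟩
      rw [Units.val_mul, Units.val_mul, hN₁v, hc]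
      have h2 : n₁ * n₂ = - b * (p₂ * q₁ - p₁ * q₂) ^ 2 := by
        rw [hn₁, hn₂]
        linear_combination (p₁ * q₁ - b * (p₂ * q₂)) * hpq
      linear_combination (-(b' : K)) * h2
    have hxv : ∀ v, (c * N₁ ∈ hil v b' ↔ c ∈ hil v b) := by
      intro v
      have e1 := hil_mul_right.1 (nf_le_hil v _ hx)
      have e2 : c * N₁ ∈ hil v b ↔ c ∈ hil v b :=
        hil_mul_iff.trans (iff_true_right (nf_le_hil v b hN₁mem))
      exact e1.symm.trans e2
    exact h0 ((hxv v₀).1 (hgood _ fun v hv => (hxv v).2 (h1 v hv)))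

/-- **No quaternion algebra is ramified at exactly one place.** -/
theorem mem_hil_of_forall_ne {v₀ : HeightOneSpectrum (𝓞 K)} {b c : Kˣ}
    (h1 : ∀ v, v ≠ v₀ → c ∈ hil v b) : c ∈ hil v₀ b := by
  classical
  by_contra h0
  have hζ := primitiveRoot_neg_one K
  have hb : b ∉ (powMonoidHom 2 : Kˣ →* Kˣ).range := by
    rintro ⟨t, rfl⟩
    apply h0
    rw [powMonoidHom_apply, hil, nf_sq]
    simp
  obtain ⟨b', hb', hgood'⟩ := exists_good_b hζ v₀
  obtain ⟨L, _, _, _, β, hβ, hgal, hdeg⟩ := exists_kummer hζ b' hb'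
  obtain ⟨hns, hg⟩ := hgood' L β hdeg hβ
  have hhil := hil_eq_iInf hdeg hβ
  have hgood : ∀ x : Kˣ, (∀ v, v ≠ v₀ → x ∈ hil v b') → x ∈ hil v₀ b' := by
    intro x hx
    rw [hhil, Subgroup.mem_iInf]
    refine hg x fun v hv _ n => ?_
    have := hx v hv
    rw [hhil, Subgroup.mem_iInf] at this
    exact this n
  have hidx : (hil v₀ b').index = 2 := by
    rw [hhil]
    exact H65.index_locNorm_eq Nat.prime_two hdeg hζ hns
  set ι : Kˣ →* Lˣ := Units.map (algebraMap K L : K →* L) with hι
  have hιv : ∀ x : Kˣ, ((ι x : Lˣ) : L) = algebraMap K L (x : K) := fun x => rfl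
  have hβ2 := hβ.pow_eq
  by_cases hsq : ι b ∈ (powMonoidHom 2 : Lˣ →* Lˣ).range
  · obtain ⟨z, hz⟩ := hsq
    have hz' : (z : L) ^ 2 = algebraMap K L (b : K) := by
      have := congrArg Units.val hz
      rwa [powMonoidHom_apply, Units.val_pow_eq_pow_val, hιv] at this
    obtain ⟨u, w, huw⟩ := exists_coords hdeg hβ (z : L)
    have h2 : algebraMap K L (u ^ 2 + b' * w ^ 2 - b) + algebraMap K L (2 * u * w) * β = 0 := by
      rw [map_sub, ← hz', huw, map_add, map_mul, map_mul, map_mul, map_pow, map_pow, ← hβ2,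
        map_ofNat]
      ring
    obtain ⟨h3, h4⟩ := coords_zero hdeg hβ hb' h2
    rcases mul_eq_zero.1 h4 with h5 | h5
    · have hu : u = 0 := (mul_eq_zero.1 h5).resolve_left two_ne_zero
      subst hu
      have hw : w ≠ 0 := by
        rintro rfl
        apply b.ne_zero
        linear_combination -h3
      have hbb : b = b' * (Units.mk0 w hw) ^ 2 := by
        ext
        push_cast
        rw [Units.val_mk0]
        linear_combination -h3
      rw [hbb, hil_mul_sq] at h0
      refine h0 (hgood c fun v hv => ?_)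
      have := h1 v hv
      rwa [hbb, hil_mul_sq] at this
    · subst h5
      apply hb
      have hu : u ≠ 0 := by
        rintro rfl
        apply b.ne_zero
        linear_combination -h3
      refine ⟨Units.mk0 u hu, ?_⟩
      ext
      rw [powMonoidHom_apply, Units.val_pow_eq_pow_val, Units.val_mk0]
      linear_combination h3
  · -- Hasse norm theorem over `L`
    have htcL : IsTotallyComplex L := isTotallyComplex_of_algebra K L
    obtain ⟨M, _, _, _, γ, hγ, hgalM, hdegM⟩ := exists_kummer (primitiveRoot_neg_one L) (ι b) hsq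
    have hloc : ∀ w : HeightOneSpectrum (𝓞 L), ι c ∈ hil w (ι b) := by
      intro w
      obtain ⟨v, hw⟩ : ∃ v : HeightOneSpectrum (𝓞 K), w ∈ above L v :=
        ⟨_, H47.mem_above_below w⟩
      by_cases hv : v = v₀
      · subst hv
        -- an element which is a norm from `K(√(b b'))` but not from `K(√b)` at `v`
        obtain ⟨x, hx1, hx2⟩ : ∃ x : Kˣ, x ∈ hil v (b * b') ∧ x ∉ hil v b := by
          by_contra hcon
          push Not at hcon
          have hle : hil v (b * b') ≤ hil v b := hcon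
          have hne : hil v b ≠ ⊤ := fun h => h0 (h ▸ Subgroup.mem_top c)
          have hi1 : (hil v b).index = 2 := (hil_index v b).resolve_left hne
          have hi2 : (hil v (b * b')).index = 2 :=
            (hil_index v (b * b')).resolve_left (fun h => hne (top_le_iff.1 (h ▸ hle)))
          have heq := eq_of_index_eq hle (by rw [hi2]; norm_num) (by rw [hi1, hi2])
          have hx : ∀ x, x ∈ hil v (b * b') ↔ x ∈ hil v b := fun x => by rw [heq]
          have htop : hil v b' = ⊤ := by
            rw [Subgroup.eq_top_iff']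
            intro x
            exact prop_aux (hil_mul_right.symm.trans (hx x))
          rw [htop, Subgroup.index_top] at hidx
          norm_num at hidx
        have h2 : c * x ∈ hil v b := hil_mul_mem h0 hx2
        have h3 : ι (c * x) ∈ hil w (ι b) := map_hil hw h2
        have h4 : ι x ∈ hil w (ι (b * b')) := map_hil hw hx1
        have h5 : ι (b * b') = ι b * (Units.mk0 β hβ.ne_zero) ^ 2 := by
          ext
          rw [map_mul]
          push_cast
          rw [Units.val_mk0, hβ2, hιv b']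
        rw [h5, hil_mul_sq] at h4
        rw [map_mul] at h3
        have h6 : ι c = (ι c * ι x) / ι x := by rw [mul_div_cancel_right]
        rw [h6]
        exact div_mem h3 h4
      · exact map_hil hw (h1 v hv)
    have hnorm : ι c ∈ normGroup L M := by
      refine H54T.hasse_norm (primitiveRoot_neg_one L) hdegM (ι c) fun w _ m => ?_
      have := hloc w
      rw [hil_eq_iInf hdegM hγ, Subgroup.mem_iInf] at this
      exact this m
    rw [normGroup_eq_nf hdegM hγ] at hnorm
    obtain ⟨U, W, hUW⟩ := hnorm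
    obtain ⟨p₁, q₁, hU⟩ := exists_coords hdeg hβ U
    obtain ⟨p₂, q₂, hW⟩ := exists_coords hdeg hβ W
    rw [hU, hW, hιv, hιv] at hUW
    have h2 : algebraMap K L ((p₁ ^ 2 - b * p₂ ^ 2) + b' * (q₁ ^ 2 - b * q₂ ^ 2) - c) +
        algebraMap K L (2 * (p₁ * q₁ - b * (p₂ * q₂))) * β = 0 := by
      simp only [map_sub, map_add, map_mul, map_pow, map_ofNat]
      rw [← hβ2, ← hUW]
      ring
    obtain ⟨h3, h4⟩ := coords_zero hdeg hβ hb' h2
    have h5 : p₁ * q₁ - b * (p₂ * q₂) = 0 := (mul_eq_zero.1 h4).resolve_left two_ne_zero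
    exact slot hb hgood h1 h0 (sub_eq_zero.1 h3).symm (sub_eq_zero.1 h5)

end main

end Fermat.Agent.H82V
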