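import Fermat.Agent.H82V4

/-!
# The product formula for the quadratic norm residue symbol, totally complex case (helper82)
-/

set_option autoImplicit false
set_option linter.unusedSectionVars false

noncomputable section

open IsDedekindDomain NumberField WithZero Fermat.Agent.H82

namespace Fermat.Agent.H82V

variable {K : Type} [Field K] [NumberField K] [htc : IsTotallyComplex K]

lemma congr_le_hil {v : HeightOneSpectrum (𝓞 K)} {d : ℕ}
    (hd : ∀ k : ℕ, congr v d ≤ locPow 2 v k) (b : Kˣ) : congr v d ≤ hil v b := by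
  refine le_iInf fun k => (hd k).trans ?_
  refine sup_le ?_ le_sup_right
  rintro _ ⟨z, rfl⟩
  exact Subgroup.mem_sup_left (sq_mem_nf b z)

/-- the places where `x` is not a local norm from `K(√b)` -/
def bad (x b : Kˣ) : Set (HeightOneSpectrum (𝓞 K)) := {v | x ∉ hil v b}

lemma mem_bad {x b : Kˣ} {v : HeightOneSpectrum (𝓞 K)} : v ∈ bad x b ↔ x ∉ hil v b := Iff.rfl

theorem finite_bad (x b : Kˣ) : (bad x b).Finite := by
  classical
  by_cases hb : b ∈ (powMonoidHom 2 : Kˣ →* Kˣ).range
  · obtain ⟨t, rfl⟩ := hb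
    have : bad x ((powMonoidHom 2 : Kˣ →* Kˣ) t) = ∅ := by
      rw [Set.eq_empty_iff_forall_notMem]
      intro v hv
      apply hv
      rw [powMonoidHom_apply, hil, nf_sq]
      simp
    rw [this]
    exact Set.finite_empty
  · have hζ := primitiveRoot_neg_one K
    obtain ⟨L, _, _, _, β, hβ, hgal, hdeg⟩ := exists_kummer hζ b hb
    have h20 : ((2 : ℕ) : K) ≠ 0 := by norm_num
    have hfin : ({v | v.valuation K ((Units.mk0 ((2 : ℕ) : K) h20 : Kˣ) : K) ≠ 1} ∪
        {v | v.valuation K (b : K) ≠ 1} ∪ {v : HeightOneSpectrum (𝓞 K) | v.valuation K (x : K) ≠ 1}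
        ).Finite :=
      ((finite_valuation_ne_one _).union (finite_valuation_ne_one _)).union
        (finite_valuation_ne_one _)
    refine hfin.subset fun v hv => ?_
    by_contra hcon
    rw [Set.mem_union, Set.mem_union, not_or, not_or] at hcon
    obtain ⟨⟨h1, h2⟩, h3⟩ := hcon
    have h1' : v.valuation K ((2 : ℕ) : K) = 1 := not_not.1 h1
    have h2' : v.valuation K (b : K) = 1 := not_not.1 h2
    have h3' : v.valuation K (x : K) = 1 := not_not.1 h3
    apply hv
    rw [hil_eq_iInf hdeg hβ]
    by_cases hns : NonSplit L v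
    · have hunr : ∀ w ∈ above L v, v.asIdeal.ramificationIdx' w.asIdeal = 1 := by
        intro w hw
        refine hβ.ramificationIdx'_eq_one hζ h1' ?_ hw
        rw [mem_locPow]
        refine ⟨1, ?_⟩
        rw [one_pow, div_one, mem_congr_zero]
        exact h2'
      have hdeep := deep_of_not_dvd hζ h1' one_pos
      rw [iInf_locNorm_eq hζ hdeg hdeep]
      exact units_le_locNorm hζ hdeg h1' hns hunr one_pos (mem_congr_zero.2 h3')
    · simp only [locNorm_eq_top_of_split hdeg hns, iInf_top]
      exact Subgroup.mem_top x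

/-- **Product formula** (quadratic reciprocity for totally complex number fields): the number of
finite places at which `x` is not a local norm from `K(√b)` is even. -/
theorem even_bad (x b : Kˣ) : Even (bad x b).ncard := by
  classical
  by_cases hb : b ∈ (powMonoidHom 2 : Kˣ →* Kˣ).range
  · obtain ⟨t, rfl⟩ := hb
    have : bad x ((powMonoidHom 2 : Kˣ →* Kˣ) t) = ∅ := by
      rw [Set.eq_empty_iff_forall_notMem]
      intro v hv
      apply hv
      rw [powMonoidHom_apply, hil, nf_sq]
      simp
    rw [this, Set.ncard_empty]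
    exact Even.zero
  have hζ := primitiveRoot_neg_one K
  obtain ⟨L, _, _, _, β, hβ, hgal, hdeg⟩ := exists_kummer hζ b hb
  have hhil := hil_eq_iInf hdeg hβ
  have hfin := finite_bad x b
  set S : Set (HeightOneSpectrum (𝓞 K)) := bad x b with hS
  obtain ⟨F, hF⟩ : ∃ F : Finset (HeightOneSpectrum (𝓞 K)), (F : Set _) = S :=
    ⟨hfin.toFinset, hfin.coe_toFinset⟩
  have hFS : ∀ v, v ∈ F ↔ v ∈ S := fun v => by rw [← hF, Finset.mem_coe]
  rw [← hF, Set.ncard_coe_finset]
  have hJ := index_normOutside_sup hζ hdeg (L := L) hfin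
  obtain ⟨G, hG⟩ : ∃ G : Subgroup Kˣ, G = normOutside L S ⊔ ⨅ v ∈ S, ⨅ m, locNorm L v m :=
    ⟨_, rfl⟩
  rw [← hG] at hJ
  have hI : (⨅ v ∈ S, ⨅ m, locNorm L v m) = ⨅ v ∈ S, hil v b := by
    refine iInf_congr fun v => iInf_congr fun _ => (hhil v).symm
  rw [hI] at hG
  choose d hd0 hdeep hd using fun v : HeightOneSpectrum (𝓞 K) => exists_depth v
  -- the separating elements
  have hsep : ∀ v ∈ F, ∃ y : Kˣ, y ∉ hil v b ∧ ∀ v' ∈ F, v' ≠ v → y ∈ hil v' b := by
    intro v hv
    obtain ⟨y, hy⟩ := exists_approx F d (fun v' => if v' = v then x else 1)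
    refine ⟨y, ?_, fun v' hv' hne => ?_⟩
    · have h1 := hy v hv
      rw [if_pos rfl] at h1
      have h2 := congr_le_hil (hd v) b h1
      intro h3
      have h4 : x ∈ hil v b := by
        have : x = y / (y / x) := by rw [div_div_cancel]
        rw [this]
        exact div_mem h3 h2
      exact ((hFS v).1 hv) h4
    · have h1 := hy v' hv'
      rw [if_neg hne, div_one] at h1
      exact congr_le_hil (hd v') b h1
  choose! y hy1 hy2 using hsep
  -- they do not lie in `G`
  have hyG : ∀ v ∈ F, y v ∉ G := by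
    intro v hv hcon
    rw [hG, Subgroup.mem_sup] at hcon
    obtain ⟨c, hc, e, he, hce⟩ := hcon
    have he' : ∀ v' ∈ F, e ∈ hil v' b := by
      intro v' hv'
      have h1 : (⨅ v ∈ S, hil v b) ≤ hil v' b := iInf₂_le v' ((hFS v').1 hv')
      exact h1 he
    apply hy1 v hv
    rw [← hce]
    refine mul_mem (mem_hil_of_forall_ne fun v' hv' => ?_) (he' v hv)
    by_cases hv'F : v' ∈ F
    · have h1 : c = y v / e := by rw [← hce, mul_div_cancel_right]
      rw [h1]
      exact div_mem (hy2 v hv v' hv'F hv') (he' v' hv'F)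
    · rw [hhil, Subgroup.mem_iInf]
      intro m
      by_cases hns : NonSplit L v'
      · exact ((mem_normOutside L).1 hc) v' (fun h => hv'F ((hFS v').2 h)) hns m
      · rw [locNorm_eq_top_of_split hdeg hns]
        exact Subgroup.mem_top c
  rcases F.eq_empty_or_nonempty with hFe | ⟨v₀, hv₀⟩
  · rw [hFe, Finset.card_empty]; exact Even.zero
  have hidx : G.index = 2 := by
    rcases (Nat.dvd_prime Nat.prime_two).1 hJ with h | h
    · exfalso
      rw [Subgroup.index_eq_one] at h
      exact hyG v₀ hv₀ (h ▸ Subgroup.mem_top _)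
    · exact h
  -- the product of the separating elements
  have hprod : ∀ F' ⊆ F, (∏ v ∈ F', y v ∈ G ↔ Even F'.card) := by
    intro F'
    induction F' using Finset.induction_on with
    | empty => intro _; simp
    | insert v F' hvF' ih =>
      intro hsub
      rw [Finset.prod_insert hvF', Subgroup.mul_mem_iff_of_index_two hidx,
        ih (fun u hu => hsub (Finset.mem_insert_of_mem hu)), Finset.card_insert_of_notMem hvF',
        Nat.even_add_one]
      have := hyG v (hsub (Finset.mem_insert_self v F'))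
      constructor
      · intro h h'
        exact this (h.2 h')
      · intro h
        exact ⟨fun h' => absurd h' this, fun h' => absurd h' h⟩
  rw [← hprod F (Finset.Subset.refl F)]
  have hx1 : x ∈ G := by
    rw [hG]
    refine Subgroup.mem_sup_left ?_
    rw [mem_normOutside L]
    intro v hv _ m
    have h1 : x ∈ hil v b := not_not.1 hv
    rw [hhil, Subgroup.mem_iInf] at h1
    exact h1 m
  have hx2 : x * ∏ v ∈ F, y v ∈ G := by
    rw [hG]
    refine Subgroup.mem_sup_right ?_
    rw [Subgroup.mem_iInf]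
    intro v
    rw [Subgroup.mem_iInf]
    intro hv
    have hvF := (hFS v).2 hv
    rw [← Finset.mul_prod_erase F y hvF, ← mul_assoc]
    refine mul_mem (hil_mul_mem hv (hy1 v hvF)) (prod_mem fun u hu => ?_)
    obtain ⟨hne, huF⟩ := Finset.mem_erase.1 hu
    exact hy2 u huF v hvF (Ne.symm hne)
  rwa [Subgroup.mul_mem_cancel_left G hx1] at hx2

end Fermat.Agent.H82V
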