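import Fermat.Agent.H82V6
import Fermat.Agent.H77ZOut

/-!
# The quadratic characters of D3, and the closed output of D3 (helper82)
-/

set_option autoImplicit false
set_option linter.unusedSectionVars false

noncomputable section

open IsDedekindDomain NumberField WithZero Fermat.Agent.H82
open scoped Pointwise nonZeroDivisors
open Fermat.Agent.H47 (ordHom divHom smulPlace below)
open Fermat.Agent.H77.Z
open Fermat.Agent.H89D (IsQ8Tower)

namespace Fermat.Agent.H82V

theorem totallyComplex_of_algebra {K L : Type*} [Field K] [Field L] [NumberField K]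
    [NumberField L] [Algebra K L] [IsTotallyComplex K] : IsTotallyComplex L := by
  refine ⟨fun w => ?_⟩
  rw [← InfinitePlace.not_isReal_iff_isComplex]
  intro hw
  have h1 : (w.comap (algebraMap K L)).IsReal := hw.comap _
  exact InfinitePlace.not_isReal_iff_isComplex.2 (IsTotallyComplex.isComplex _) h1

section quad

variable {K : Type} [Field K] [NumberField K] [htc : IsTotallyComplex K]
  {L : Type} [Field L] [NumberField L] [Algebra K L] [IsGalois K L]

/-- The homomorphism `ZMod 2 → A` with `1 ↦ h`. -/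
def zmodTwoLift {A : Type*} [AddCommGroup A] (h : A) (hh : 2 • h = 0) : ZMod 2 →+ A :=
  ZMod.lift 2 ⟨zmultiplesHom A h, by
    show ((2 : ℕ) : ℤ) • h = 0
    rw [natCast_zsmul]; exact hh⟩

theorem zmodTwoLift_one {A : Type*} [AddCommGroup A] (h : A) (hh : 2 • h = 0) :
    zmodTwoLift h hh 1 = h := by
  have h1 : (1 : ZMod 2) = ((1 : ℤ) : ZMod 2) := by rw [Int.cast_one]
  rw [zmodTwoLift, h1, ZMod.lift_coe]
  exact one_smul ℤ h

/-- **Quadratic reciprocity** in the form of D3. -/
theorem isHecke_quadFn (hdeg : Module.finrank K L = 2)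
    {S : Set (HeightOneSpectrum (𝓞 K))} (hS : S.Finite)
    (h2 : ∀ v ∉ S, v.valuation K (2 : K) = 1)
    (hunr : ∀ v ∉ S, ∀ w ∈ above L v, v.asIdeal.ramificationIdx' w.asIdeal = 1)
    {A : Type*} [AddCommGroup A] (h : A) (hh : 2 • h = 0) : IsHecke S (quadFn L S h) := by
  have h1 := (isHecke_qchar hdeg hS h2 hunr).comp (zmodTwoLift h hh)
  have h3 : (fun v => zmodTwoLift h hh (qchar L S v)) = quadFn L S h := by
    funext v
    rw [quadFn]
    by_cases hv : v ∈ S
    · rw [qchar_of_mem hv, map_zero, if_pos hv]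
    · by_cases hns : NonSplit L v
      · rw [qchar_of_nonSplit hv hns, zmodTwoLift_one, if_neg hv, if_pos hns]
      · rw [qchar_of_split hns, map_zero, if_neg hv, if_neg hns]
  rwa [h3] at h1

end quad

theorem two_nsmul_half : 2 • half = 0 := by
  rw [half, ← AddCircle.coe_nsmul, AddCircle.coe_eq_zero_iff]
  exact ⟨1, by norm_num⟩

section tower

variable {E B C K : Type} [Field E] [NumberField E] [IsTotallyComplex E] [Field B]
  [NumberField B] [Field C] [NumberField C] [Field K] [NumberField K] [Algebra E B]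
  [Algebra E C] [Algebra E K] [Algebra B C] [Algebra B K] [Algebra C K] [IsScalarTower E B C]
  [IsScalarTower E B K] [IsScalarTower E C K] [IsScalarTower B C K]

theorem isHecke_EB (H : IsQ8Tower E B C K)
    {S : Set (HeightOneSpectrum (𝓞 E))} (hS : S.Finite)
    (h2 : ∀ v ∉ S, v.valuation E (2 : E) = 1)
    (hunr : ∀ v ∉ S, ∀ w ∈ above K v, v.asIdeal.ramificationIdx' w.asIdeal = 1) :
    IsHecke S (quadFn B S half) := by
  have := H.isGalois_EB
  refine isHecke_quadFn H.finrank_EB hS h2 ?_ half two_nsmul_half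
  intro v hv P hP
  obtain ⟨Q, hQ⟩ := H47.above_nonempty (L := K) P
  have h3 := H89D.ramificationIdx'_tower hP hQ
  rw [hunr v hv Q (H89D.mem_above_trans hP hQ)] at h3
  exact Nat.eq_one_of_mul_eq_one_right h3.symm

theorem isHecke_CK (H : IsQ8Tower E B C K)
    {S : Set (HeightOneSpectrum (𝓞 E))} (hS : S.Finite)
    (h2 : ∀ v ∉ S, v.valuation E (2 : E) = 1)
    (hunr : ∀ v ∉ S, ∀ w ∈ above K v, v.asIdeal.ramificationIdx' w.asIdeal = 1) :
    IsHecke (aboveSet C S) (quadFn K (aboveSet C S) half) := by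
  have := H.isGalois_CK
  have : IsTotallyComplex C := totallyComplex_of_algebra (K := E)
  refine isHecke_quadFn H.finrank_CK (H65.finite_aboveSet hS) ?_ ?_ half two_nsmul_half
  · intro w hw
    have hv : below E w ∉ S := fun h => hw (mem_aboveSet_iff.2 h)
    have h3 := valuation_above (H47.mem_above_below (K := E) w) (2 : E)
    rw [h2 _ hv, one_pow] at h3
    rwa [map_ofNat (algebraMap E C) 2] at h3
  · intro w hw Q hQ
    have hv : below E w ∉ S := fun h => hw (mem_aboveSet_iff.2 h)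
    have hwv := H47.mem_above_below (K := E) w
    have h3 := H89D.ramificationIdx'_tower hwv hQ
    rw [hunr _ hv Q (H89D.mem_above_trans hwv hQ)] at h3
    exact Nat.eq_one_of_mul_eq_one_left h3.symm

open Classical in
/-- **Output of D3** (ideal form), unconditional. -/
theorem exists_chi (H : IsQ8Tower E B C K)
    {S : Set (HeightOneSpectrum (𝓞 E))} (hS : S.Finite) (hSne : S.Nonempty)
    (h2 : ∀ v ∉ S, v.valuation E (2 : E) = 1)
    (hunr : ∀ v ∉ S, ∀ w ∈ above K v, v.asIdeal.ramificationIdx' w.asIdeal = 1) :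
    ∃ (m : Ideal (𝓞 B)) (chi : Ideal (𝓞 B) →*₀ ℂ), m ≠ ⊥ ∧
      (∀ P : HeightOneSpectrum (𝓞 B), m ≤ P.asIdeal ↔ P ∈ aboveSet B S) ∧
      (∀ P : HeightOneSpectrum (𝓞 B), chi P.asIdeal = 0 ↔ P ∈ aboveSet B S) ∧
      (∀ a : 𝓞 B, a - 1 ∈ m → chi (Ideal.span {a}) = 1) ∧
      (∀ P : HeightOneSpectrum (𝓞 B), P ∉ aboveSet B S → chi P.asIdeal ^ 4 = 1) ∧
      (∀ v ∉ S, ∀ w ∈ above C v, chi (below B w).asIdeal ^
        ((below B w).asIdeal.inertiaDeg' w.asIdeal) = if NonSplit K w then -1 else 1) ∧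
      (∀ v ∉ S, ∏ᶠ P ∈ above B v, chi P.asIdeal = if NonSplit B v then -1 else 1) ∧
      (∀ v ∉ S, ¬ NonSplit B v → ∑ᶠ P ∈ above B v, chi P.asIdeal = H89D.aw C K v) ∧
      (∀ v ∉ S, NonSplit B v → H89D.aw C K v = 0 ∧ ∀ P ∈ above B v, chi P.asIdeal = -1) :=
  H77.Z.exists_chi H hS hSne h2 hunr (isHecke_CK H hS h2 hunr) (isHecke_EB H hS h2 hunr)

end tower

end Fermat.Agent.H82V
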