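import Fermat.Agent.H84ZPlace
import Fermat.Agent.H51ZOp

/-!
# S47, block (C), package C15 (m3): transport of local kernels at split places is an isomorphism of
algebras; multiplicativity of the convolution `convAt`.
-/

set_option autoImplicit false

namespace Fermat.Agent.H84Z

open Fermat.Agent.H59XF Fermat.Agent.H51Z Function

section pull

variable {G : Type*} [Group G] (s : G ≃* G) {H K : Subgroup G} (h : ∀ g, g ∈ H ↔ s g ∈ K)

theorem pull_mul (a b : LocKer K) :
    pull s h (LocKer.mul a b) = LocKer.mul (pull s h a) (pull s h b) := by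
  apply LocKer.ext'
  intro x y
  rw [pull_k, LocKer.mul_k, LocKer.mul_k, ← finsum_comp_equiv (smapEquiv s h)]
  rfl

theorem pull_ladd (a b : LocKer K) : pull s h (ladd a b) = ladd (pull s h a) (pull s h b) := rfl

theorem pull_lsmul (c : ℂ) (a : LocKer K) : pull s h (lsmul c a) = lsmul c (pull s h a) := rfl

theorem pull_ltr (a : LocKer K) : pull s h (ltr a) = ltr (pull s h a) := rfl

theorem pull_injective : Injective (pull s h) := by
  intro a b hab
  apply LocKer.ext'
  intro x y
  obtain ⟨x, rfl⟩ := smap_surjective s h x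
  obtain ⟨y, rfl⟩ := smap_surjective s h y
  have := congrArg (fun c => LocKer.k c x y) hab
  exact this

/-- The inverse of `pull`. -/
noncomputable def push (a : LocKer H) : LocKer K where
  k x y := a.k ((smapEquiv s h).symm x) ((smapEquiv s h).symm y)
  inv g x y := by
    obtain ⟨g, rfl⟩ := s.surjective g
    obtain ⟨x, rfl⟩ := smap_surjective s h x
    obtain ⟨y, rfl⟩ := smap_surjective s h y
    rw [← smap_smul, ← smap_smul, ← smapEquiv_apply, ← smapEquiv_apply, ← smapEquiv_apply,
      ← smapEquiv_apply, Equiv.symm_apply_apply, Equiv.symm_apply_apply, Equiv.symm_apply_apply,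
      Equiv.symm_apply_apply, a.inv]
  fin_right x := (a.fin_right _).preimage (smapEquiv s h).symm.injective.injOn
  fin_left y := (a.fin_left _).preimage (smapEquiv s h).symm.injective.injOn

@[simp] theorem pull_push (a : LocKer H) : pull s h (push s h a) = a := by
  apply LocKer.ext'
  intro x y
  show a.k ((smapEquiv s h).symm (smapEquiv s h x)) ((smapEquiv s h).symm (smapEquiv s h y)) = _
  rw [Equiv.symm_apply_apply, Equiv.symm_apply_apply]

theorem pull_surjective : Surjective (pull s h) := fun a => ⟨push s h a, pull_push s h a⟩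

end pull

section res

variable {G GF : Type*} [Group G] [Group GF] (ι : GF →* G) {H : Subgroup G} {V : Subgroup GF}
  (hV : ∀ g, g ∈ V ↔ ι g ∈ H)

theorem res_ladd (a b : LocKer H) : res ι hV (ladd a b) = ladd (res ι hV a) (res ι hV b) := rfl

theorem res_lsmul (c : ℂ) (a : LocKer H) : res ι hV (lsmul c a) = lsmul c (res ι hV a) := rfl

theorem res_ltr (a : LocKer H) : res ι hV (ltr a) = ltr (res ι hV a) := rfl

theorem res_injective (hd : ∀ g : G, ∃ f : GF, g⁻¹ * ι f ∈ H) : Injective (res ι hV) := by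
  intro a b hab
  apply LocKer.ext'
  intro x y
  obtain ⟨x, rfl⟩ := imap_surjective ι hV hd x
  obtain ⟨y, rfl⟩ := imap_surjective ι hV hd y
  exact congrArg (fun c => LocKer.k c x y) hab

/-- Extension of a kernel from `GF ⧸ V` to `G ⧸ H`; invariance under `G` has to be known. -/
theorem res_eq_iff (a : LocKer H) (b : LocKer V) :
    res ι hV a = b ↔ ∀ f g : GF, a.k ((ι f : G) : G ⧸ H) ((ι g : G) : G ⧸ H)
      = b.k (f : GF ⧸ V) (g : GF ⧸ V) := by
  constructor
  · rintro rfl f g
    rfl
  · intro h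
    apply LocKer.ext'
    intro x y
    induction x using QuotientGroup.induction_on with
    | H x =>
      induction y using QuotientGroup.induction_on with
      | H y => exact h x y

/-- The kernels given by functions: restriction of the function. -/
theorem res_ofFun (f : G → ℂ) (hf hr hl) (f' : GF → ℂ) (hf' hr' hl')
    (h : ∀ g, f (ι g) = f' g) :
    res ι hV (LocKer.ofFun (H := H) f hf hr hl) = LocKer.ofFun (H := V) f' hf' hr' hl' := by
  rw [res_eq_iff]
  intro x y
  rw [LocKer.ofFun_k, LocKer.ofFun_k, ← h, map_mul, map_inv]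

theorem pull_ofFun (s : G ≃* G) {K : Subgroup G} (h : ∀ g, g ∈ H ↔ s g ∈ K) (f : G → ℂ)
    (hf hr hl) (f' : G → ℂ) (hf' hr' hl') (hff : ∀ g, f (s g) = f' g) :
    pull s h (LocKer.ofFun (H := K) f hf hr hl) = LocKer.ofFun (H := H) f' hf' hr' hl' := by
  apply LocKer.ext'
  intro x y
  induction x using QuotientGroup.induction_on with
  | H x =>
    induction y using QuotientGroup.induction_on with
    | H y =>
      rw [pull_k, smap_mk, smap_mk, LocKer.ofFun_k, LocKer.ofFun_k, ← hff, map_mul, map_inv]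

/-- Every local kernel is given by its function `g ↦ k(1, g)`. -/
theorem k_eq (a : LocKer H) (g h : G) :
    a.k (g : G ⧸ H) (h : G ⧸ H) = a.k ((1 : G) : G ⧸ H) ((g⁻¹ * h : G) : G ⧸ H) := by
  have := a.inv g⁻¹ (g : G ⧸ H) (h : G ⧸ H)
  rw [← this]
  congr 1
  show ((g⁻¹ * g : G) : G ⧸ H) = _
  rw [inv_mul_cancel]

theorem k_biinv (a : LocKer H) {u v : G} (hu : u ∈ H) (hv : v ∈ H) (g : G) :
    a.k ((1 : G) : G ⧸ H) ((u * g * v : G) : G ⧸ H) = a.k ((1 : G) : G ⧸ H) (g : G ⧸ H) := by
  have h1 : ((u * g * v : G) : G ⧸ H) = u • (g : G ⧸ H) := by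
    show _ = ((u * g : G) : G ⧸ H)
    rw [QuotientGroup.eq]
    have : (u * g * v)⁻¹ * (u * g) = v⁻¹ := by group
    rw [this]
    exact H.inv_mem hv
  have h2 : ((1 : G) : G ⧸ H) = u • ((1 : G) : G ⧸ H) := by
    show _ = ((u * 1 : G) : G ⧸ H)
    rw [QuotientGroup.eq, inv_one, one_mul, mul_one]
    exact hu
  conv_lhs => rw [h1, h2]
  rw [a.inv]

end res

/-! ## Commutativity and multiplicativity -/

section comm

variable {G : Type*} [Group G] {H : Subgroup G}

theorem lmul_assoc (a b c : LocKer H) :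
    LocKer.mul (LocKer.mul a b) c = LocKer.mul a (LocKer.mul b c) := by
  apply LocKer.ext'
  intro x z
  rw [mul_k_eq_sum, mul_k_eq_sum]
  have h1 : ∀ w, (LocKer.mul a b).k x w = ∑ y ∈ ls a x, a.k x y * b.k y w :=
    fun w => mul_k_eq_sum a b x w
  have h2 : ∀ y, (LocKer.mul b c).k y z = ∑ᶠ w, b.k y w * c.k w z := fun y => rfl
  classical
  let T : Finset (G ⧸ H) := (ls (LocKer.mul a b) x) ∪ (ls a x).biUnion (fun y => ls b y)
  have h3 : ∑ w ∈ ls (LocKer.mul a b) x, (LocKer.mul a b).k x w * c.k w z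
      = ∑ w ∈ T, (LocKer.mul a b).k x w * c.k w z := by
    apply Finset.sum_subset Finset.subset_union_left
    intro w _ hw
    rw [mem_ls, not_not] at hw
    rw [hw, zero_mul]
  rw [h3]
  have h4 : ∀ y ∈ ls a x, a.k x y * (LocKer.mul b c).k y z
      = ∑ w ∈ T, a.k x y * b.k y w * c.k w z := by
    intro y hy
    rw [mul_k_eq_sum, Finset.mul_sum]
    have : ∑ w ∈ ls b y, a.k x y * (b.k y w * c.k w z)
        = ∑ w ∈ T, a.k x y * (b.k y w * c.k w z) := by
      apply Finset.sum_subset
      · intro w hw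
        exact Finset.mem_union_right _ (Finset.mem_biUnion.2 ⟨y, hy, hw⟩)
      · intro w _ hw
        rw [mem_ls, not_not] at hw
        rw [hw, zero_mul, mul_zero]
    rw [this]
    apply Finset.sum_congr rfl
    intro w _
    ring
  rw [Finset.sum_congr rfl h4, Finset.sum_comm]
  apply Finset.sum_congr rfl
  intro w _
  rw [h1, Finset.sum_mul]

/-- Rearrangement of a product of two triple products. -/
theorem mul3_mul3 (a b c a' b' c' : LocKer H)
    (h1 : LocKer.mul c a' = LocKer.mul a' c) (h2 : LocKer.mul b a' = LocKer.mul a' b)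
    (h3 : LocKer.mul c b' = LocKer.mul b' c) :
    LocKer.mul (LocKer.mul (LocKer.mul a b) c) (LocKer.mul (LocKer.mul a' b') c')
      = LocKer.mul (LocKer.mul (LocKer.mul a a') (LocKer.mul b b')) (LocKer.mul c c') := by
  simp only [lmul_assoc]
  -- a b c a' b' c' → a a' b b' c c'
  congr 1
  rw [← lmul_assoc c a', h1, lmul_assoc, ← lmul_assoc b a', h2, lmul_assoc, ← lmul_assoc c b', h3,
    lmul_assoc]

end comm

section conv

variable {G : Type*} [Group G] {ι : Type*} {L : LevelFam G ι} (t : Twist L)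

/-- The convolution at a split place is multiplicative (for kernels whose transports commute). -/
theorem convAt_gmul (a a' : GlobKer L) (i : ι)
    (h1 : LocKer.mul (pull t.s (t.map_U i) (a.loc (t.σ i))) (a'.loc i)
      = LocKer.mul (a'.loc i) (pull t.s (t.map_U i) (a.loc (t.σ i))))
    (h2 : LocKer.mul (pull t.s (t.map_U i) (pull t.s (t.map_U (t.σ i)) (a.loc (t.σ (t.σ i)))))
        (a'.loc i)
      = LocKer.mul (a'.loc i)
        (pull t.s (t.map_U i) (pull t.s (t.map_U (t.σ i)) (a.loc (t.σ (t.σ i))))))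
    (h3 : LocKer.mul (pull t.s (t.map_U i) (a.loc (t.σ i)))
        (pull t.s (t.map_U i) (pull t.s (t.map_U (t.σ i)) (a'.loc (t.σ (t.σ i)))))
      = LocKer.mul (pull t.s (t.map_U i) (pull t.s (t.map_U (t.σ i)) (a'.loc (t.σ (t.σ i)))))
        (pull t.s (t.map_U i) (a.loc (t.σ i)))) :
    convAt t (gmul a a') i = LocKer.mul (convAt t a i) (convAt t a' i) := by
  rw [convAt, convAt, convAt, mul3_mul3 _ _ _ _ _ _ h1 h2 h3, gmul_loc, gmul_loc, gmul_loc,
    pull_mul, pull_mul, pull_mul]

/-- Version with commutativity of the whole local algebra. -/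
theorem convAt_gmul_of_comm (a a' : GlobKer L) (i : ι)
    (hc : ∀ x y : LocKer (L.U i), LocKer.mul x y = LocKer.mul y x) :
    convAt t (gmul a a') i = LocKer.mul (convAt t a i) (convAt t a' i) :=
  convAt_gmul t a a' i (hc _ _) (hc _ _) (hc _ _)

end conv

end Fermat.Agent.H84Z
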