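import Fermat.Agent.H84ZShell
import Fermat.Agent.H84ZTyp
import Fermat.Agent.H92Psi

/-!
# S47, block (C), package C15: the bad split places ([G1-BADSPLIT])

`cs_pm_badsplit`: local matching at `v ∈ SF` split in `E` for the type idempotents.
-/

set_option autoImplicit false

noncomputable section

open scoped MatrixGroups
open IsDedekindDomain NumberField WithZero Matrix

namespace Fermat.Agent.H84Z

open Fermat.Agent.H59XF Fermat.Agent.H57C Fermat.Agent.H59D Fermat.Agent.H79S Fermat.Agent.H25V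
  Fermat.Agent.H76U Fermat.Agent.H51Z
open H20.S47 (incP sP nP EllReg)

/-! ### Lattice types under field homomorphisms -/

section Hom

variable {K K' : Type*} [Field K] [Field K'] (f : K →+* K') {T : TD K} {T' : TD K'}

theorem td_mem_GH (hA : ∀ x, x ∈ T.A ↔ f x ∈ T'.A) (hB : ∀ x, x ∈ T.B ↔ f x ∈ T'.B)
    (hC : ∀ x, x ∈ T.C ↔ f x ∈ T'.C) (g : GL (Fin 2) K) :
    g ∈ T.GH ↔ GeneralLinearGroup.map f g ∈ T'.GH := by
  have h1 : ∀ i j, (GeneralLinearGroup.map f g) i j = f (g i j) := fun i j => rfl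
  rw [T.mem_GH, T'.mem_GH, h1, h1, h1, h1]
  have e : ∀ x : K, f x - 1 = f (x - 1) := fun x => by rw [map_sub, map_one]
  rw [e, e, hA, hA, hB, hC]

theorem td_mem_H (hA : ∀ x, x ∈ T.A ↔ f x ∈ T'.A) (hB : ∀ x, x ∈ T.B ↔ f x ∈ T'.B)
    (hC : ∀ x, x ∈ T.C ↔ f x ∈ T'.C) (g : PGL(2, K)) :
    g ∈ T.H ↔ ProjGenLinGroup.map f g ∈ T'.H := by
  constructor
  · rintro ⟨x, hx, rfl⟩
    exact ⟨GeneralLinearGroup.map f x, (td_mem_GH f hA hB hC x).1 hx, rfl⟩
  · intro hg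
    obtain ⟨x, rfl⟩ := ProjGenLinGroup.mk_surjective g
    obtain ⟨y, hy, hyx, hy1⟩ := T'.exists_normalised hg
    have h0 : ProjGenLinGroup.mk y = ProjGenLinGroup.mk (GeneralLinearGroup.map f x) := hyx
    rw [ProjGenLinGroup.mk_eq_mk_iff] at h0
    obtain ⟨u, hu⟩ := h0
    have h1 : ∀ i j, f (x i j) = (u : K') * y i j := by
      intro i j
      have h2 : (y * GeneralLinearGroup.scalar (Fin 2) u) i j
          = (GeneralLinearGroup.map f x) i j := by rw [hu]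
      rw [mul_scalar_apply] at h2
      exact h2.symm
    have h2 : f (x 1 1) = (u : K') := by rw [h1, hy1, mul_one]
    have hx1 : x 1 1 ≠ 0 := by
      intro h
      rw [h, map_zero] at h2
      exact u.ne_zero h2.symm
    refine ⟨x * GeneralLinearGroup.scalar (Fin 2) (Units.mk0 _ hx1)⁻¹, ?_, ?_⟩
    · rw [SetLike.mem_coe, td_mem_GH f hA hB hC]
      have h3 : GeneralLinearGroup.map f (x * GeneralLinearGroup.scalar (Fin 2) (Units.mk0 _ hx1)⁻¹)
          = y := by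
        ext i j
        show f ((x * GeneralLinearGroup.scalar (Fin 2) (Units.mk0 _ hx1)⁻¹) i j) = y i j
        rw [mul_scalar_apply, map_mul, h1]
        have h4 : f ((((Units.mk0 (x 1 1) hx1)⁻¹ : Kˣ) : K)) = ((u : K'))⁻¹ := by
          rw [Units.val_inv_eq_inv_val, Units.val_mk0, map_inv₀, h2]
        rw [h4, inv_mul_cancel_left₀ u.ne_zero]
      rw [h3]
      exact hy
    · rw [map_mul, ProjGenLinGroup.mk_scalar, mul_one]

theorem td_chi (hpsi : ∀ x, T'.psi (f x) = T.psi x) (g : PGL(2, K)) :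
    T'.chi (ProjGenLinGroup.map f g) = T.chi g := by
  obtain ⟨x, rfl⟩ := ProjGenLinGroup.mk_surjective g
  have h0 : ProjGenLinGroup.map f (ProjGenLinGroup.mk x)
      = ProjGenLinGroup.mk (GeneralLinearGroup.map f x) := rfl
  rw [h0, T.chi_mk, T'.chi_mk]
  have h1 : ∀ i j, (GeneralLinearGroup.map f x) i j = f (x i j) := fun i j => rfl
  rw [h1, h1, ← map_div₀, hpsi]

theorem td_mem_U (hA : ∀ x, x ∈ T.A ↔ f x ∈ T'.A) (hB : ∀ x, x ∈ T.B ↔ f x ∈ T'.B)
    (hC : ∀ x, x ∈ T.C ↔ f x ∈ T'.C) (hpsi : ∀ x, T'.psi (f x) = T.psi x) (g : PGL(2, K)) :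
    g ∈ T.U ↔ ProjGenLinGroup.map f g ∈ T'.U := by
  rw [T.mem_U, T'.mem_U, ← td_mem_H f hA hB hC, td_chi f hpsi]

end Hom

/-! ### The type of lattice data at a level equal to its kernel -/

section TypOf

variable {K : Type*} [Field K]

/-- The type of `T` at a level which is equal to `T.U`. -/
def typOf (T : TD K) {U : Subgroup PGL(2, K)} (hU : U = T.U) : Typ U where
  H := T.H
  chi := T.chi
  le := by rw [hU]; exact T.typ.le
  mul := T.typ.mul
  one := by rw [hU]; exact T.typ.one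
  norm := by rw [hU]; exact T.typ.norm

theorem eq_eker {G : Type*} [Group G] {U : Subgroup G} (t : Typ U) (hf : U.relIndex t.H ≠ 0)
    {κ : LocKer U} (hκ : IsTyp κ t.H t.chi) : κ = eker t hf := by
  apply LocKer.ext'
  intro x y
  obtain ⟨x, rfl⟩ := QuotientGroup.mk_surjective x
  obtain ⟨y, rfl⟩ := QuotientGroup.mk_surjective y
  rw [eker_k]
  by_cases h : x⁻¹ * y ∈ t.H
  · rw [(hκ x y).1 h, efun_of_mem t h, div_eq_mul_inv, mul_comm]
    rfl
  · rw [(hκ x y).2 h, efun_of_notMem t h]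

end TypOf

/-! ### Convolution at a split place -/

section Conv

variable {G : Type*} [Group G] {ι : Type*} {L : LevelFam G ι} (T : Twist L)

/-- The convolution at a split place of three type idempotents which are transported to each
other. -/
theorem convAt_eker3 (a : GlobKer L) (i : ι) (t0 : Typ (L.U i)) (t1 : Typ (L.U (T.σ i)))
    (t2 : Typ (L.U (T.σ (T.σ i))))
    (hf0 : (L.U i).relIndex t0.H ≠ 0) (hf1 : (L.U (T.σ i)).relIndex t1.H ≠ 0)
    (hf2 : (L.U (T.σ (T.σ i))).relIndex t2.H ≠ 0)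
    (hH0 : ∀ g, g ∈ t0.H ↔ T.s g ∈ t1.H) (hc0 : ∀ g ∈ t0.H, t1.chi (T.s g) = t0.chi g)
    (hH1 : ∀ g, g ∈ t1.H ↔ T.s g ∈ t2.H) (hc1 : ∀ g ∈ t1.H, t2.chi (T.s g) = t1.chi g)
    (h0 : a.loc i = eker t0 hf0) (h1 : a.loc (T.σ i) = eker t1 hf1)
    (h2 : a.loc (T.σ (T.σ i)) = eker t2 hf2) :
    convAt T a i = eker t0 hf0 := by
  rw [convAt, h0, h1, h2, pull_eker T.s (T.map_U (T.σ i)) hH1 hc1 hf1 hf2,
    pull_eker T.s (T.map_U i) hH0 hc0 hf0 hf1, eker_mul_self, eker_mul_self]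

end Conv

/-! ### The theorem -/

section Setup

variable {F E : Type} [Field F] [NumberField F] [Field E] [NumberField E] [Algebra F E]
  (C : CSetup F E)

theorem cs_sigma_mem {w : HeightOneSpectrum (𝓞 E)} : C.aE.σ w ∈ C.SE ↔ w ∈ C.SE := by
  rw [C.mem_SE, C.mem_SE, cs_below_sigma]

/-- The characters of the types over `E` are stable under `s`. -/
theorem cs_psi_s {w : HeightOneSpectrum (𝓞 E)} (hw : w ∈ C.SE) (x : E) :
    (C.TE (C.aE.σ w)).psi (C.s x) = (C.TE w).psi x := by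
  rw [C.psiE _ ((cs_sigma_mem C).2 hw), C.psiE w hw]
  exact H92P.psi_aut (C.s : E ≃+* E) (H83Z.placePerm C.s)
    (fun u x => H83Z.placePerm_val C.s u x) (cs_sigma C w).symm x

theorem cs_H_s {w : HeightOneSpectrum (𝓞 E)} (hw : w ∈ C.SE) (g : PGL(2, E)) :
    g ∈ (C.TE w).H ↔ C.aE.twist.s g ∈ (C.TE (C.aE.σ w)).H := by
  rw [cs_twist_s]
  exact td_mem_H (C.s : E →+* E) (fun x => (C.TE_s w hw x).1.symm)
    (fun x => (C.TE_s w hw x).2.1.symm) (fun x => (C.TE_s w hw x).2.2.symm) g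

theorem cs_chi_s {w : HeightOneSpectrum (𝓞 E)} (hw : w ∈ C.SE) (g : PGL(2, E)) :
    (C.TE (C.aE.σ w)).chi (C.aE.twist.s g) = (C.TE w).chi g := by
  rw [cs_twist_s]
  exact td_chi (C.s : E →+* E) (fun x => cs_psi_s C hw x) g

theorem cs_loc_bad {K : Type*} [Field K] [NumberField K] {J : Type*} [Fintype J]
    {m : Model K J} {S : Finset (HeightOneSpectrum (𝓞 K))} {w0 : HeightOneSpectrum (𝓞 K)}
    {T : HeightOneSpectrum (𝓞 K) → TD K} (kd : KerData m S w0 T) {w : HeightOneSpectrum (𝓞 K)}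
    (hw : w ∈ S) (n : HeightOneSpectrum (𝓞 K) →₀ ℕ) (k : ℕ) :
    (kd.D.mono n k).loc w = kd.D.e w :=
  kd.D.loc_S (by rw [kd.D_S]; exact hw)

/-- The local component of a monomial kernel at a bad place. -/
theorem cs_loc_eker {K : Type*} [Field K] [NumberField K] {J : Type*} [Fintype J]
    {m : Model K J} {S : Finset (HeightOneSpectrum (𝓞 K))} {w0 : HeightOneSpectrum (𝓞 K)}
    {T : HeightOneSpectrum (𝓞 K) → TD K} (kd : KerData m S w0 T) {w : HeightOneSpectrum (𝓞 K)}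
    (hw : w ∈ S) (n : HeightOneSpectrum (𝓞 K) →₀ ℕ) (k : ℕ) (hU : m.L.fam.U w = (T w).U)
    (hf : (m.L.fam.U w).relIndex (typOf (T w) hU).H ≠ 0) :
    (kd.D.mono n k).loc w = eker (typOf (T w) hU) hf := by
  rw [cs_loc_bad kd hw]
  exact eq_eker _ hf (kd.e_typ w hw)

theorem cs_relIndex {K : Type*} [Field K] [NumberField K] {J : Type*} [Fintype J]
    {m : Model K J} {S : Finset (HeightOneSpectrum (𝓞 K))} {w0 : HeightOneSpectrum (𝓞 K)}
    {T : HeightOneSpectrum (𝓞 K) → TD K} (kd : KerData m S w0 T) {w : HeightOneSpectrum (𝓞 K)}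
    (hw : w ∈ S) (hU : m.L.fam.U w = (T w).U) :
    (m.L.fam.U w).relIndex (typOf (T w) hU).H ≠ 0 := by
  have h := kd.e_index w hw
  show (m.L.fam.U w).relIndex (T w).H ≠ 0
  rw [hU]
  exact h

/-- **[G1-BADSPLIT]**: local matching at the bad split places, with base points. -/
theorem cs_pm0_badsplit {v : HeightOneSpectrum (𝓞 F)} {w : HeightOneSpectrum (𝓞 E)}
    (hv : v ∈ C.SF) (hw : H47.below F w = v) (hns : ¬ H82.NonSplit E v)
    (hSP : ∀ x : F, (x ∈ (C.TF v).A ↔ algebraMap F E x ∈ (C.TE w).A) ∧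
      (x ∈ (C.TF v).B ↔ algebraMap F E x ∈ (C.TE w).B) ∧
      (x ∈ (C.TF v).C ↔ algebraMap F E x ∈ (C.TE w).C))
    (n : HeightOneSpectrum (𝓞 E) →₀ ℕ) (n' : HeightOneSpectrum (𝓞 F) →₀ ℕ) (k k' : ℕ)
    (hπ : ∀ w, H47.below F (C.aE.twist.σ w) = H47.below F w) {H : Subgroup PGL(2, F)}
    (hH : H = C.mF.L.fam.U v) :
    PM0 C.s C.aE.twist (H47.below F) hπ (C.kE.D.mono n k) (C.kF.D.mono n' k') H v := by
  have hgal := C.gal
  have hwS : w ∈ C.SE := by rw [C.mem_SE, hw]; exact hv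
  have hwS1 : C.aE.σ w ∈ C.SE := (cs_sigma_mem C).2 hwS
  have hwS2 : C.aE.σ (C.aE.σ w) ∈ C.SE := (cs_sigma_mem C).2 hwS1
  have hU0 : C.mE.L.fam.U w = (C.TE w).U := C.kE.lev_S w hwS
  have hU1 : C.mE.L.fam.U (C.aE.twist.σ w) = (C.TE (C.aE.σ w)).U := C.kE.lev_S _ hwS1
  have hU2 : C.mE.L.fam.U (C.aE.twist.σ (C.aE.twist.σ w)) = (C.TE (C.aE.σ (C.aE.σ w))).U :=
    C.kE.lev_S _ hwS2
  have hUF : C.mF.L.fam.U v = (C.TF v).U := C.kF.lev_S v hv
  have hf0 := cs_relIndex C.kE hwS hU0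
  have hf1 := cs_relIndex C.kE hwS1 hU1
  have hf2 := cs_relIndex C.kE hwS2 hU2
  have hfF := cs_relIndex C.kF hv hUF
  have hpsi : ∀ x : F, (C.TE w).psi (algebraMap F E x) = (C.TF v).psi x := by
    intro x
    rw [C.psiE w hwS, C.psiF v hv]
    exact H92P.psi_split_cubic C.h3 C.s C.hs (cs_mem_above.2 hw)
      (H83Z.ne_of_split C.h3 C.s C.hs (cs_mem_above.2 hw) hns).1 x
  have hV : ∀ g, g ∈ C.mF.L.fam.U v ↔ incP E g ∈ C.mE.L.fam.U w := by
    intro g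
    rw [hU0, hUF]
    exact td_mem_U (algebraMap F E) (fun x => (hSP x).1) (fun x => (hSP x).2.1)
      (fun x => (hSP x).2.2) hpsi g
  refine cs_pm0_split C hw hns hV _ _ ?_ hπ hH
  have hconv : convAt C.aE.twist (C.kE.D.mono n k) w = eker (typOf (C.TE w) hU0) hf0 := by
    refine convAt_eker3 C.aE.twist (C.kE.D.mono n k) w (typOf (C.TE w) hU0)
      (typOf (C.TE (C.aE.σ w)) hU1) (typOf (C.TE (C.aE.σ (C.aE.σ w))) hU2) hf0 hf1 hf2
      (cs_H_s C hwS) (fun g _ => cs_chi_s C hwS g) (cs_H_s C hwS1) (fun g _ => cs_chi_s C hwS1 g)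
      (cs_loc_eker C.kE hwS n k hU0 hf0) (cs_loc_eker C.kE hwS1 n k hU1 hf1)
      (cs_loc_eker C.kE hwS2 n k hU2 hf2)
  rw [hconv, cs_loc_eker C.kF hv n' k' hUF hfF]
  symm
  exact res_eker (incP E) hV (cs_dense C hw hns)
    (fun g => td_mem_H (algebraMap F E) (fun x => (hSP x).1) (fun x => (hSP x).2.1)
      (fun x => (hSP x).2.2) g)
    (fun g _ => td_chi (algebraMap F E) hpsi g) hf0 hfF

/-- **[G1-BADSPLIT]**, in the shape `PM`. -/
theorem cs_pm_badsplit {v : HeightOneSpectrum (𝓞 F)} {w : HeightOneSpectrum (𝓞 E)}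
    (hv : v ∈ C.SF) (hw : H47.below F w = v) (hns : ¬ H82.NonSplit E v)
    (hSP : ∀ x : F, (x ∈ (C.TF v).A ↔ algebraMap F E x ∈ (C.TE w).A) ∧
      (x ∈ (C.TF v).B ↔ algebraMap F E x ∈ (C.TE w).B) ∧
      (x ∈ (C.TF v).C ↔ algebraMap F E x ∈ (C.TE w).C))
    (n : HeightOneSpectrum (𝓞 E) →₀ ℕ) (n' : HeightOneSpectrum (𝓞 F) →₀ ℕ) (k k' : ℕ)
    (hπ : ∀ w, H47.below F (C.aE.twist.σ w) = H47.below F w) {H : Subgroup PGL(2, F)}
    (hH : H = C.mF.L.fam.U v) :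
    PM C.s C.aE.twist (H47.below F) hπ (C.kE.D.mono n k) (C.kF.D.mono n' k') H v :=
  (cs_pm0_badsplit C hv hw hns hSP n n' k k' hπ hH).pm

end Setup

end Fermat.Agent.H84Z
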