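import Fermat.Agent.H84ZTyp
import Fermat.Agent.H51ZDisc
import Fermat.Agent.H76U4

/-!
# S47, block (C), package C15 (m3): finite index of levels in bounded subgroups; the idempotent of a
lattice type
-/

set_option autoImplicit false

noncomputable section

open IsDedekindDomain HeightOneSpectrum WithZero NumberField Matrix
open scoped MatrixGroups

namespace Fermat.Agent.H84Z

open Fermat.Agent.H59XF Fermat.Agent.H51Z Fermat.Agent.H76U Fermat.Agent.H59D

section Fin

variable {R : Type*} [CommRing R] [IsDedekindDomain R] {K : Type*} [Field K] [Algebra R K]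
  [IsFractionRing R K] (w : HeightOneSpectrum R)

/-- Two integral matrices which are close differ by an element of the congruence subgroup. -/
theorem inv_mul_mem_GLcong {n : ℕ} {g g' : GL (Fin 2) K} (hg : g ∈ GLw w) (hg' : g' ∈ GLw w)
    (h : ∀ i j, w.valuation K (g' i j - g i j) ≤ exp (-(n : ℤ))) : g⁻¹ * g' ∈ GLcong w n := by
  refine ⟨(GLw w).mul_mem ((GLw w).inv_mem hg) hg', fun i j => ?_⟩
  have h1 := ((GLw w).inv_mem hg).1
  have e : ((g⁻¹ * g' : GL (Fin 2) K) : Matrix (Fin 2) (Fin 2) K) i j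
      - (1 : Matrix (Fin 2) (Fin 2) K) i j
      = (g⁻¹ : GL (Fin 2) K) i 0 * (g' 0 j - g 0 j) + (g⁻¹ : GL (Fin 2) K) i 1 * (g' 1 j - g 1 j) := by
    have h2 : (1 : Matrix (Fin 2) (Fin 2) K) i j
        = ((g⁻¹ * g : GL (Fin 2) K) : Matrix (Fin 2) (Fin 2) K) i j := by
      rw [inv_mul_cancel]; rfl
    rw [h2, GeneralLinearGroup.coe_mul, GeneralLinearGroup.coe_mul, Matrix.mul_apply,
      Matrix.mul_apply, Fin.sum_univ_two, Fin.sum_univ_two]
    ring
  rw [e]
  refine Valuation.map_add_le _ ?_ ?_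
  · rw [map_mul]
    exact (mul_le_mul' (h1 i 0) (h 0 j)).trans (by rw [one_mul])
  · rw [map_mul]
    exact (mul_le_mul' (h1 i 1) (h 1 j)).trans (by rw [one_mul])

theorem relIndex_GLcong {n : ℕ} {B : Finset K} (hB : IsReps (w.valuation K) n B) :
    (GLcong (K := K) w n).relIndex (GLw w) ≠ 0 := by
  have h0 : ∀ x : K, ∃ b ∈ B, w.valuation K x ≤ 1 → w.valuation K (x - b) ≤ exp (-(n : ℤ)) := by
    intro x
    by_cases hx : w.valuation K x ≤ 1
    · obtain ⟨b, hb, h⟩ := hB.exists_mem x hx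
      exact ⟨b, hb, fun _ => h⟩
    · obtain ⟨b, hb, _⟩ := hB.exists_mem 0 (by simp)
      exact ⟨b, hb, fun h => absurd h hx⟩
  choose r hrB hr using h0
  have h1 : Finite ((GLw (K := K) w) ⧸ (GLcong (K := K) w n).subgroupOf (GLw w)) := by
    let φ : (GLw (K := K) w) ⧸ (GLcong (K := K) w n).subgroupOf (GLw w) → Fin 2 → Fin 2 → B :=
      fun q i j => ⟨r ((q.out : GL (Fin 2) K) i j), hrB _⟩
    have hφ : Function.Injective φ := by
      intro q q' hqq
      rw [← QuotientGroup.out_eq' q, ← QuotientGroup.out_eq' q', QuotientGroup.eq,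
        Subgroup.mem_subgroupOf]
      apply inv_mul_mem_GLcong w q.out.2 q'.out.2
      intro i j
      have h2 : r ((q.out : GL (Fin 2) K) i j) = r ((q'.out : GL (Fin 2) K) i j) :=
        congrArg Subtype.val (congrFun (congrFun hqq i) j)
      have h3 : (q'.out : GL (Fin 2) K) i j - (q.out : GL (Fin 2) K) i j
          = ((q'.out : GL (Fin 2) K) i j - r ((q'.out : GL (Fin 2) K) i j))
            - ((q.out : GL (Fin 2) K) i j - r ((q.out : GL (Fin 2) K) i j)) := by
        rw [h2]; ring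
      rw [h3]
      exact Valuation.map_sub_le _ (hr _ (q'.out.2.1 i j)) (hr _ (q.out.2.1 i j))
    exact Finite.of_injective φ hφ
  have h2 : ((GLcong (K := K) w n).subgroupOf (GLw w)).FiniteIndex :=
    Subgroup.finiteIndex_of_finite_quotient
  exact h2.index_ne_zero

theorem relIndex_map {G G' : Type*} [Group G] [Group G'] (f : G →* G') {A B : Subgroup G}
    (h : A.relIndex B ≠ 0) : (A.map f).relIndex (B.map f) ≠ 0 := by
  rw [Subgroup.relIndex_map_map]
  have h1 : (A ⊔ f.ker).relIndex (B ⊔ f.ker) = (A ⊔ f.ker).relIndex B := by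
    have h2 : (A ⊔ f.ker).relIndex B = ((A ⊔ f.ker).comap B.subtype).index := rfl
    have h3 : (A ⊔ f.ker).relIndex (B ⊔ f.ker)
        = ((A.map f).comap f).relIndex ((B.map f).comap f) := by
      rw [Subgroup.comap_map_eq, Subgroup.comap_map_eq]
    rw [h3, Subgroup.relIndex_comap, Subgroup.map_comap_eq_self, ← Subgroup.relIndex_comap,
      Subgroup.comap_map_eq]
    intro x hx
    obtain ⟨y, _, rfl⟩ := hx
    exact ⟨y, rfl⟩
  rw [h1]
  intro h0
  exact h (Subgroup.relIndex_eq_zero_of_le_left le_sup_left h0)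

theorem relIndex_Gam {n : ℕ} {B : Finset K} (hB : IsReps (w.valuation K) n B) :
    (Gam (K := K) w n).relIndex (U0 w) ≠ 0 :=
  relIndex_map _ (relIndex_GLcong w hB)

theorem exists_bound (g : GL (Fin 2) K) : ∃ a : ℕ, ∀ i j, w.valuation K (g i j) ≤ exp (a : ℤ) := by
  have h0 : ∀ x : K, ∃ a : ℕ, w.valuation K x ≤ exp (a : ℤ) := by
    intro x
    by_cases hx : w.valuation K x = 0
    · exact ⟨0, by rw [hx]; exact zero_le⟩
    · refine ⟨(log (w.valuation K x)).toNat, ?_⟩
      rw [← exp_log hx, exp_le_exp, log_exp]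
      exact Int.self_le_toNat _
  choose a ha using h0
  refine ⟨∑ i, ∑ j, a (g i j), fun i j => ?_⟩
  refine (ha (g i j)).trans ?_
  rw [exp_le_exp, Int.ofNat_le]
  exact (Finset.single_le_sum (f := fun j => a (g i j)) (fun _ _ => Nat.zero_le _)
    (Finset.mem_univ j)).trans (Finset.single_le_sum (f := fun i => ∑ j, a (g i j))
    (fun _ _ => Nat.zero_le _) (Finset.mem_univ i))

/-- Congruence subgroups of high level are conjugated into a given one. -/
theorem exists_conj_Gam (c : PGL(2, K)) (n : ℕ) :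
    ∃ N, ∀ g ∈ Gam (K := K) w N, c * g * c⁻¹ ∈ Gam w n := by
  obtain ⟨C, rfl⟩ := ProjGenLinGroup.mk_surjective c
  obtain ⟨a, ha⟩ := exists_bound w C
  obtain ⟨b, hb⟩ := exists_bound w C⁻¹
  refine ⟨n + 1 + a + b, ?_⟩
  rintro _ ⟨x, hx, rfl⟩
  refine ⟨C * x * C⁻¹, ?_, by rw [map_mul, map_mul, map_inv]⟩
  refine GLcong_antitone w (Nat.le_succ n) (mem_GLcong_of_sub_one (Nat.le_add_left 1 n) ?_)
  intro i j
  have e : ((C * x * C⁻¹ : GL (Fin 2) K) : Matrix (Fin 2) (Fin 2) K) i j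
      - (1 : Matrix (Fin 2) (Fin 2) K) i j
      = ∑ k : Fin 2, (∑ l : Fin 2, C i l * (x l k - (1 : Matrix (Fin 2) (Fin 2) K) l k))
        * (C⁻¹ : GL (Fin 2) K) k j := by
    have h2 : (1 : Matrix (Fin 2) (Fin 2) K) i j
        = ((C * C⁻¹ : GL (Fin 2) K) : Matrix (Fin 2) (Fin 2) K) i j := by
      rw [mul_inv_cancel]; rfl
    rw [h2, GeneralLinearGroup.coe_mul, GeneralLinearGroup.coe_mul, GeneralLinearGroup.coe_mul,
      Matrix.mul_apply, Matrix.mul_apply, ← Finset.sum_sub_distrib]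
    apply Finset.sum_congr rfl
    intro k _
    rw [Matrix.mul_apply, ← sub_mul]
    congr 1
    have h5 : (C : Matrix (Fin 2) (Fin 2) K) i k
        = ∑ l : Fin 2, (C : Matrix (Fin 2) (Fin 2) K) i l * (1 : Matrix (Fin 2) (Fin 2) K) l k := by
      rw [← Matrix.mul_apply, mul_one]
    conv_lhs => rw [h5]
    rw [← Finset.sum_sub_distrib]
    exact Finset.sum_congr rfl fun l _ => (mul_sub _ _ _).symm
  rw [e]
  have h3 : ∀ l k, w.valuation K (x l k - (1 : Matrix (Fin 2) (Fin 2) K) l k)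
      ≤ exp (-((n + 1 + a + b : ℕ) : ℤ)) := hx.2
  have h4 : exp (a : ℤ) * exp (-((n + 1 + a + b : ℕ) : ℤ)) * exp (b : ℤ) = exp (-((n + 1 : ℕ) : ℤ)) := by
    rw [← exp_add, ← exp_add]
    congr 1
    push_cast
    ring
  rw [← Nat.succ_eq_add_one] at h4
  refine Valuation.map_sum_le _ fun k _ => ?_
  rw [map_mul, ← h4]
  refine mul_le_mul' ?_ (hb k j)
  refine Valuation.map_sum_le _ fun l _ => ?_
  rw [map_mul]
  exact mul_le_mul' (ha i l) (h3 l k)

/-- The level is of finite index in every bounded subgroup. -/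
theorem relIndex_of_open_bdd [∀ m, Finite (R ⧸ w.asIdeal ^ m)] {U H : Subgroup PGL(2, K)}
    {n : ℕ} (hU : Gam w n ≤ U) {c : PGL(2, K)} (hH : ∀ g ∈ H, c⁻¹ * g * c ∈ U0 w) :
    U.relIndex H ≠ 0 := by
  obtain ⟨N, hN⟩ := exists_conj_Gam w c n
  obtain ⟨B, hB, _⟩ := exists_isReps_card (K := K) w N
  have h1 := relIndex_Gam w hB
  -- conjugate
  let f : PGL(2, K) ≃* PGL(2, K) := MulAut.conj c
  have h2 : ((Gam (K := K) w N).map (f : PGL(2, K) →* PGL(2, K))).relIndex
      ((U0 w).map (f : PGL(2, K) →* PGL(2, K))) ≠ 0 := relIndex_map _ h1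
  have h3 : (Gam (K := K) w N).map (f : PGL(2, K) →* PGL(2, K)) ≤ U := by
    rintro _ ⟨g, hg, rfl⟩
    exact hU (hN g hg)
  have h4 : H ≤ (U0 w).map (f : PGL(2, K) →* PGL(2, K)) := by
    intro g hg
    refine ⟨c⁻¹ * g * c, hH g hg, ?_⟩
    show c * (c⁻¹ * g * c) * c⁻¹ = g
    group
  intro h0
  exact h2 (Subgroup.relIndex_eq_zero_of_le_left h3
    (Subgroup.relIndex_eq_zero_of_le_right h4 h0))

end Fin

section NF

variable {K : Type*} [Field K] [NumberField K]

/-- Finite index, number field form. -/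
theorem relIndex_nf (w : HeightOneSpectrum (𝓞 K)) {U H : Subgroup PGL(2, K)}
    (hU : ∃ n, Gam w n ≤ U) (hH : ∃ c : PGL(2, K), ∀ g ∈ H, c⁻¹ * g * c ∈ U0 w) :
    U.relIndex H ≠ 0 := by
  obtain ⟨n, hn⟩ := hU
  obtain ⟨c, hc⟩ := hH
  exact relIndex_of_open_bdd w hn hc

end NF

end Fermat.Agent.H84Z
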