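import Fermat.Agent.H84ZSplit
import Fermat.Agent.H57CLoc

/-!
# S47, block (C), package C15: the split places in the language of `H57C.LocMatch`
-/

set_option autoImplicit false

namespace Fermat.Agent.H84Z

open Fermat.Agent.H59XF Function

variable {G GF T : Type*} [Group G] [Group GF] (ι : GF →* G) (s : G ≃* G)
  {I : Type*} [Fintype I] [DecidableEq I] {U : I → Subgroup G} (σ : Equiv.Perm I)
  (hU : ∀ i g, g ∈ U i ↔ s g ∈ U (σ i)) (i₀ : I) {V : Subgroup GF}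
  (hV : ∀ g, g ∈ V ↔ ι g ∈ U i₀) (hd : ∀ g : G, ∃ f : GF, g⁻¹ * ι f ∈ U i₀)
  (hcov : ∀ i, i = i₀ ∨ i = σ i₀ ∨ i = σ (σ i₀)) (h01 : σ i₀ ≠ i₀) (h3 : σ (σ (σ i₀)) = i₀)

include h01 h3 hcov in
/-- **Local matching at a split place.** -/
theorem locMatch (hs3 : ∀ g, s (s (s g)) = g) (a : (i : I) → LocKer (U i)) (d : G) (γ : GF)
    (hγ : ι γ = d * s d * s (s d)) (j : T → GF) :
    H57C.LocMatch (fun (t : T) (x : (i : I) → G ⧸ U i) => fun i => ι (j t) • x i)
      (fun (t : T) (y : GF ⧸ V) => j t • y) (phi s σ hU a d)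
      (fun y => (res ι hV (conv3 s σ hU i₀ a)).k y (γ • y)) (beta ι i₀ hV hd) where
  equiv t x _ := beta_smul ι i₀ hV hd (j t) x
  fin y := fin_fibre ι s σ hU i₀ hV hd hcov h01 h3 hs3 a d y
  sum y := sum_fibre ι s σ hU i₀ hV hd hcov h01 h3 hs3 a d γ hγ y

include h01 h3 hcov in
/-- Compatibility with the base points for unit kernels. -/
theorem base (a : (i : I) → LocKer (U i)) (ha : ∀ i, a i = LocKer.one) (d : G)
    (hdU : ∀ i, d ∈ U i) (γ : GF) (hγ : ι γ = d * s d * s (s d)) :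
    H57C.Base (fun i => ((1 : G) : G ⧸ U i)) ((1 : GF) : GF ⧸ V) (phi s σ hU a d)
      (fun y => (res ι hV (conv3 s σ hU i₀ a)).k y (γ • y)) (beta ι i₀ hV hd) where
  one := phi_base s σ hU a ha d hdU
  one' := by
    have hsU : ∀ g, (∀ i, g ∈ U i) → ∀ i, s g ∈ U i := by
      intro g hg i
      obtain ⟨k, rfl⟩ := σ.surjective i
      exact (hU k g).1 (hg k)
    have hγV : γ ∈ V := by
      rw [hV, hγ]
      exact (U i₀).mul_mem ((U i₀).mul_mem (hdU i₀) (hsU d hdU i₀))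
        (hsU _ (hsU d hdU) i₀)
    rw [conv3_one s σ hU i₀ a ha, res_one, LocKer.one_k, if_pos]
    show _ = ((γ * 1 : GF) : GF ⧸ V)
    rw [QuotientGroup.eq, mul_one, inv_one, one_mul]
    exact hγV
  iff x hx := base_iff ι s σ hU i₀ hV hd hcov h01 h3 a ha d hdU x hx

end Fermat.Agent.H84Z
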