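import Fermat.Agent.H84ZMatch
import Fermat.Agent.H57CProd

/-!
# S47, block (C), package C15: the split places in the exact form of `H57C.exists_locMatch`
-/

set_option autoImplicit false

namespace Fermat.Agent.H84Z

open Fermat.Agent.H59XF Fermat.Agent.H57C Function

variable {G : Type*} [Group G] {ι : Type*} {L : LevelFam G ι} (t : Twist L)
  {G' : Type*} [Group G'] {κ : Type*} {L' : LevelFam G' κ} (π : ι → κ)

/-- The convolution of the three kernels at `i, σ i, σ² i`, transported to the place `i`. -/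
noncomputable def convAt (a : GlobKer L) (i : ι) : LocKer (L.U i) :=
  LocKer.mul (LocKer.mul (a.loc i)
      (pull t.s (t.map_U i) (pull t.s (t.map_U (t.σ i)) (a.loc (t.σ (t.σ i))))))
    (pull t.s (t.map_U i) (a.loc (t.σ i)))

theorem convAt_single (a : GlobKer L) (i : ι) (h1 : a.loc (t.σ i) = LocKer.one)
    (h2 : a.loc (t.σ (t.σ i)) = LocKer.one) : convAt t a i = a.loc i := by
  rw [convAt, h1, h2, pull_one, pull_one, mul_one', mul_one']

theorem convAt_one (a : GlobKer L) (i : ι) (h0 : a.loc i = LocKer.one)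
    (h1 : a.loc (t.σ i) = LocKer.one)
    (h2 : a.loc (t.σ (t.σ i)) = LocKer.one) : convAt t a i = LocKer.one := by
  rw [convAt_single t a i h1 h2, h0]

/-- The permutation of the places over `v`. -/
def permv (hπ : ∀ i, π (t.σ i) = π i) (v : κ) : Equiv.Perm {i // π i = v} :=
  t.σ.subtypePerm (fun i => by rw [hπ])

@[simp] theorem permv_coe (hπ : ∀ i, π (t.σ i) = π i) (v : κ) (i : {i // π i = v}) :
    (permv t π hπ v i : ι) = t.σ i.1 := rfl

theorem hUv (hπ : ∀ i, π (t.σ i) = π i) (v : κ) (i : {i // π i = v}) (g : G) :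
    g ∈ L.U i.1 ↔ t.s g ∈ L.U (permv t π hπ v i : ι) := t.map_U i.1 g

theorem actv_eq (hπ : ∀ i, π (t.σ i) = π i) (v : κ) (x : Xv L π v) :
    actv t π hπ v x
      = sact (U := fun i : {i // π i = v} => L.U i.1) t.s (permv t π hπ v) (hUv t π hπ v) x := by
  apply sact_unique
  rintro ⟨i, hi⟩
  have key : ∀ (j : ι) (hj : π j = v) (hji : j = i) (h' : t.σ j = t.σ i),
      Twist.ccast (L := L) h' (t.cmap j (x ⟨j, hj⟩)) = t.cmap i (x ⟨i, hi⟩) := by
    intro j hj hji h'
    subst hji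
    rfl
  exact key _ _ (by simp) _

/-- **Local matching at a split place**, in the form used by `H57C.exists_locMatch`. -/
theorem exists_locMatch_split (hπ : ∀ i, π (t.σ i) = π i) (inc : G' →* G) (v : κ) (i₀ : ι)
    (hi₀ : π i₀ = v)
    (hcov : ∀ i, π i = v → i = i₀ ∨ i = t.σ i₀ ∨ i = t.σ (t.σ i₀)) (h01 : t.σ i₀ ≠ i₀)
    (h3 : t.σ (t.σ (t.σ i₀)) = i₀) (hs3 : ∀ g, t.s (t.s (t.s g)) = g)
    (hV : ∀ g, g ∈ L'.U v ↔ inc g ∈ L.U i₀) (hd : ∀ g : G, ∃ f : G', g⁻¹ * inc f ∈ L.U i₀)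
    (a : GlobKer L) (b : LocKer (L'.U v)) (hb : b = res inc hV (convAt t a i₀))
    (d : G) (γ : G') (hγ : inc γ = d * t.s d * t.s (t.s d)) {T : Type*} (τ : T → G') :
    ∃ β : Xv L π v → G' ⧸ L'.U v,
      LocMatch (fun c x => fun i => inc (τ c) • x i) (fun c y => τ c • y)
        (phiv t π hπ a d v) (fun y => b.k y (γ • y)) β ∧
      ((∀ i, π i = v → a.loc i = LocKer.one) → (∀ i, π i = v → d ∈ L.U i) →
        Base (bv L π v) ((1 : G') : G' ⧸ L'.U v) (phiv t π hπ a d v)
          (fun y => b.k y (γ • y)) β) := by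
  classical
  let σv := permv t π hπ v
  let j₀ : {i // π i = v} := ⟨i₀, hi₀⟩
  have hcov' : ∀ i : {i // π i = v}, i = j₀ ∨ i = σv j₀ ∨ i = σv (σv j₀) := by
    rintro ⟨i, hi⟩
    rcases hcov i hi with h | h | h
    · exact Or.inl (Subtype.ext h)
    · exact Or.inr (Or.inl (Subtype.ext h))
    · exact Or.inr (Or.inr (Subtype.ext h))
  have : Finite {i // π i = v} := by
    have : (Set.univ : Set {i // π i = v}) ⊆ {j₀, σv j₀, σv (σv j₀)} := by
      intro i _
      rcases hcov' i with h | h | h <;> simp [h]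
    exact Set.finite_univ_iff.1 (Set.Finite.subset (by simp) this)
  have : Fintype {i // π i = v} := Fintype.ofFinite _
  have h01' : σv j₀ ≠ j₀ := fun h => h01 (congrArg Subtype.val h)
  have h3' : σv (σv (σv j₀)) = j₀ := Subtype.ext h3
  have hphi : phiv t π hπ a d v = phi (U := fun i : {i // π i = v} => L.U i.1) t.s σv
      (hUv t π hπ v) (fun i => a.loc i.1) d := by
    funext x
    rw [phiv, actv_eq, finprod_eq_prod_of_fintype]
    rfl
  have hpsi : (fun y : G' ⧸ L'.U v => b.k y (γ • y)) = fun y =>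
      (res inc hV (conv3 (U := fun i : {i // π i = v} => L.U i.1) t.s σv (hUv t π hπ v) j₀
        (fun i => a.loc i.1))).k y (γ • y) := by
    rw [hb]
    rfl
  refine ⟨beta (U := fun i : {i // π i = v} => L.U i.1) inc j₀ hV hd, ?_, ?_⟩
  · rw [hphi, hpsi]
    exact locMatch (U := fun i : {i // π i = v} => L.U i.1) inc t.s σv (hUv t π hπ v) j₀ hV hd
      hcov' h01' h3' hs3 (fun i => a.loc i.1) d γ hγ τ
  · intro ha hdU
    rw [hphi, hpsi]
    exact base (U := fun i : {i // π i = v} => L.U i.1) inc t.s σv (hUv t π hπ v) j₀ hV hd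
      hcov' h01' h3' (fun i => a.loc i.1) (fun i => ha i.1 i.2) d (fun i => hdU i.1 i.2) γ hγ

end Fermat.Agent.H84Z
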