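import Fermat.Agent.H84ZPlace
import Fermat.Agent.H84ZDen
import Fermat.Agent.H25ZV0d

/-!
# S47, block (C), package C15: split places in the shape `PM0` on a `CSetup`

`cs_pm0_split`: the common shell for all split places.
-/

set_option autoImplicit false

noncomputable section

open scoped MatrixGroups
open IsDedekindDomain NumberField WithZero Matrix

namespace Fermat.Agent.H84Z

open Fermat.Agent.H59XF Fermat.Agent.H57C Fermat.Agent.H59D Fermat.Agent.H79S Fermat.Agent.H25V
open H20.S47 (incP sP nP EllReg)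

variable {F E : Type} [Field F] [NumberField F] [Field E] [NumberField E] [Algebra F E]
  (C : CSetup F E)

/-- The places over a split place. -/
theorem cs_cover {v : HeightOneSpectrum (𝓞 F)} {w : HeightOneSpectrum (𝓞 E)}
    (hw : H47.below F w = v) (i : HeightOneSpectrum (𝓞 E)) (hi : H47.below F i = v) :
    i = w ∨ i = C.aE.twist.σ w ∨ i = C.aE.twist.σ (C.aE.twist.σ w) := by
  have := C.gal
  have h1 : i ∈ H82.above E v := cs_mem_above.2 hi
  rw [H83Z.mem_above_iff_exists C.h3 C.s C.hs (cs_mem_above.2 hw)] at h1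
  show i = w ∨ i = C.aE.σ w ∨ i = C.aE.σ (C.aE.σ w)
  rw [cs_sigma, cs_sigma]
  exact h1

theorem cs_sigma_ne {v : HeightOneSpectrum (𝓞 F)} {w : HeightOneSpectrum (𝓞 E)}
    (hw : H47.below F w = v) (hns : ¬ H82.NonSplit E v) : C.aE.σ w ≠ w := by
  have := C.gal
  rw [cs_sigma]
  exact (H83Z.ne_of_split C.h3 C.s C.hs (cs_mem_above.2 hw) hns).1

theorem cs_sigma_three (w : HeightOneSpectrum (𝓞 E)) : C.aE.σ (C.aE.σ (C.aE.σ w)) = w := by
  have := C.gal
  rw [cs_sigma, cs_sigma, cs_sigma]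
  exact H83Z.placePerm_three C.h3 C.s w

theorem cs_twist_three (g : PGL(2, E)) : C.aE.twist.s (C.aE.twist.s (C.aE.twist.s g)) = g := by
  rw [cs_twist_s, cs_twist_s, cs_twist_s]
  obtain ⟨x, rfl⟩ := ProjGenLinGroup.mk_surjective g
  show ProjGenLinGroup.mk _ = ProjGenLinGroup.mk _
  congr 1
  ext i j
  exact cs_three C _

/-- Density of `PGL₂(F)` at a split place. -/
theorem cs_dense {v : HeightOneSpectrum (𝓞 F)} {w : HeightOneSpectrum (𝓞 E)}
    (hw : H47.below F w = v) (hns : ¬ H82.NonSplit E v) (g : PGL(2, E)) :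
    ∃ f : PGL(2, F), g⁻¹ * incP E f ∈ C.mE.L.fam.U w := by
  have := C.gal
  exact dense_split_PGL (algebraMap F E) (C.s : E ≃+* E) (H83Z.placePerm C.s)
    (fun w x => H83Z.placePerm_val C.s w x) (cs_three C) (fun x hx => cs_fix C hx) w
    (H83Z.ne_of_split C.h3 C.s C.hs (cs_mem_above.2 hw) hns).1 (C.mE.L.isOpen w) g

include C in
/-- `F` is dense in `E` at a split place. -/
theorem cs_dense_field {v : HeightOneSpectrum (𝓞 F)} {w : HeightOneSpectrum (𝓞 E)}
    (hw : H47.below F w = v) (hns : ¬ H82.NonSplit E v) (x : E) (n : ℕ) :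
    ∃ y : F, w.valuation E (x - algebraMap F E y) ≤ exp (-(n : ℤ)) := by
  have := C.gal
  exact dense_split (algebraMap F E) (C.s : E ≃+* E) (H83Z.placePerm C.s)
    (fun w x => H83Z.placePerm_val C.s w x) (cs_three C) (fun x hx => cs_fix C hx) w
    (H83Z.ne_of_split C.h3 C.s C.hs (cs_mem_above.2 hw) hns).1 x n

/-- **Split places**, in the shape `PM0`. -/
theorem cs_pm0_split {v : HeightOneSpectrum (𝓞 F)} {w : HeightOneSpectrum (𝓞 E)}
    (hw : H47.below F w = v) (hns : ¬ H82.NonSplit E v)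
    (hV : ∀ g, g ∈ C.mF.L.fam.U v ↔ incP E g ∈ C.mE.L.fam.U w)
    (a : GlobKer C.mE.L.fam) (b : GlobKer C.mF.L.fam)
    (hb : b.loc v = res (incP E) hV (convAt C.aE.twist a w))
    (hπ : ∀ w, H47.below F (C.aE.twist.σ w) = H47.below F w) {H : Subgroup PGL(2, F)}
    (hH : H = C.mF.L.fam.U v) :
    PM0 C.s C.aE.twist (H47.below F) hπ a b H v := by
  refine PM0.of_direct hH fun d γ hd => ?_
  obtain ⟨β, hβ, hβ'⟩ := exists_locMatch_split (L' := C.mF.L.fam) C.aE.twist (H47.below F) hπ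
    (incP E) v w hw (cs_cover C hw) (cs_sigma_ne C hw hns) (cs_sigma_three C w)
    (cs_twist_three C) hV (cs_dense C hw hns) a (b.loc v) hb d γ
    (by
      have h := hd.norm
      rw [cs_twist_s, cs_twist_s]
      exact h.symm)
    (fun c : Subgroup.centralizer ({γ} : Set PGL(2, F)) => (c : PGL(2, F)))
  exact ⟨β, hβ, fun hG => hβ' hG.a_one hG.d_mem⟩

end Fermat.Agent.H84Z
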