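import Fermat.Agent.H84ZAlg
import Fermat.Agent.H59Def

/-!
# S47, block (C): spherical local kernels are symmetric and commute

`w` a finite place; every `PGL₂(K)`-invariant kernel on `PGL₂(K) ⧸ U0 w` is symmetric
(Cartan decomposition: `g⁻¹ ∈ U0 g U0`), hence the spherical Hecke algebra is commutative.
-/

set_option autoImplicit false

open IsDedekindDomain HeightOneSpectrum WithZero Matrix
open scoped MatrixGroups

namespace Fermat.Agent.H84Z

open Fermat.Agent.H59D Fermat.Agent.H59XF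

section sph

variable {R : Type*} [CommRing R] [IsDedekindDomain R] {K : Type*} [Field K] [Algebra R K]
  [IsFractionRing R K] (w : HeightOneSpectrum R)

/-- The Weyl element. -/
def wey : GL (Fin 2) K := Matrix.GeneralLinearGroup.mkOfDetNeZero !![0, 1; 1, 0] (by
  rw [Matrix.det_fin_two_of]; norm_num)

theorem wey_mem : (wey : GL (Fin 2) K) ∈ GLw w := by
  refine ⟨fun i j => ?_, ?_⟩
  · show w.valuation K ((!![0, 1; 1, 0] : Matrix (Fin 2) (Fin 2) K) i j) ≤ 1
    fin_cases i <;> fin_cases j <;> simp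
  · show w.valuation K ((!![0, 1; 1, 0] : Matrix (Fin 2) (Fin 2) K)).det = 1
    rw [Matrix.det_fin_two_of]
    simp [Valuation.map_neg]

/-- If `g = P * D * Q` with `D` diagonal then `g⁻¹ ∈ U0 g U0` modulo scalars. -/
theorem inv_mem_of_diag (P Q D : GL (Fin 2) K) (hP : P ∈ GLw w) (hQ : Q ∈ GLw w)
    (h01 : (D : Matrix (Fin 2) (Fin 2) K) 0 1 = 0) (h10 : (D : Matrix (Fin 2) (Fin 2) K) 1 0 = 0) :
    ∃ u ∈ U0 (K := K) w, ∃ v ∈ U0 (K := K) w,
      (ProjGenLinGroup.mk (P * D * Q))⁻¹ = u * ProjGenLinGroup.mk (P * D * Q) * v := by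
  -- `D⁻¹ = wey * D * wey` up to the scalar `det D`
  have hD : ProjGenLinGroup.mk D⁻¹ = ProjGenLinGroup.mk (wey * D * wey : GL (Fin 2) K) := by
    rw [ProjGenLinGroup.mk_eq_mk_iff]
    refine ⟨D.det, ?_⟩
    apply Units.ext
    have e1 : ((D⁻¹ * GeneralLinearGroup.scalar (Fin 2) D.det : GL (Fin 2) K) :
        Matrix (Fin 2) (Fin 2) K) = (D : Matrix (Fin 2) (Fin 2) K).adjugate := by
      rw [Units.val_mul, GeneralLinearGroup.coe_scalar, Matrix.coe_units_inv, Matrix.inv_def,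
        Ring.inverse_eq_inv']
      ext i k
      have hdet : (D : Matrix (Fin 2) (Fin 2) K).det ≠ 0 := D.det.ne_zero
      simp only [Matrix.scalar_apply, Matrix.mul_diagonal, Matrix.smul_apply, smul_eq_mul]
      rw [mul_right_comm]
      have : (D : Matrix (Fin 2) (Fin 2) K).det⁻¹ * ((D.det : Kˣ) : K) = 1 :=
        inv_mul_cancel₀ hdet
      rw [this, one_mul]
    rw [e1, Matrix.adjugate_fin_two, h01, h10]
    show _ = ((wey : GL (Fin 2) K) : Matrix (Fin 2) (Fin 2) K) * (D : Matrix (Fin 2) (Fin 2) K) *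
      ((wey : GL (Fin 2) K) : Matrix (Fin 2) (Fin 2) K)
    have hw : ((wey : GL (Fin 2) K) : Matrix (Fin 2) (Fin 2) K) = !![0, 1; 1, 0] := rfl
    have hDe : (D : Matrix (Fin 2) (Fin 2) K)
        = !![(D : Matrix (Fin 2) (Fin 2) K) 0 0, 0; 0, (D : Matrix (Fin 2) (Fin 2) K) 1 1] := by
      ext i k
      fin_cases i <;> fin_cases k <;> simp [h01, h10]
    rw [hw]
    conv_rhs => rw [hDe]
    simp
  have hmP : ProjGenLinGroup.mk P ∈ U0 (K := K) w := ⟨P, hP, rfl⟩
  have hmQ : ProjGenLinGroup.mk Q ∈ U0 (K := K) w := ⟨Q, hQ, rfl⟩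
  have hmw : ProjGenLinGroup.mk (wey : GL (Fin 2) K) ∈ U0 (K := K) w := ⟨wey, wey_mem w, rfl⟩
  refine ⟨(ProjGenLinGroup.mk Q)⁻¹ * ProjGenLinGroup.mk wey * (ProjGenLinGroup.mk P)⁻¹,
    mul_mem (mul_mem (inv_mem hmQ) hmw) (inv_mem hmP),
    (ProjGenLinGroup.mk Q)⁻¹ * ProjGenLinGroup.mk wey * (ProjGenLinGroup.mk P)⁻¹,
    mul_mem (mul_mem (inv_mem hmQ) hmw) (inv_mem hmP), ?_⟩
  rw [map_mul, map_mul, _root_.mul_inv_rev, _root_.mul_inv_rev, ← map_inv ProjGenLinGroup.mk D, hD, map_mul,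
    map_mul]
  group

/-- Cartan decomposition: `g = P * D * Q` with `D` diagonal. -/
theorem exists_diag (g : GL (Fin 2) K) : ∃ P ∈ GLw (K := K) w, ∃ Q ∈ GLw (K := K) w,
    ∃ D : GL (Fin 2) K, (D : Matrix (Fin 2) (Fin 2) K) 0 1 = 0 ∧
      (D : Matrix (Fin 2) (Fin 2) K) 1 0 = 0 ∧ g = P * D * Q := by
  -- it is enough to treat the case where the entry `0 0` has maximal valuation
  have key : ∀ g : GL (Fin 2) K, (∀ i k, w.valuation K (g i k) ≤ w.valuation K (g 0 0)) →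
      ∃ P ∈ GLw (K := K) w, ∃ Q ∈ GLw (K := K) w,
      ∃ D : GL (Fin 2) K, (D : Matrix (Fin 2) (Fin 2) K) 0 1 = 0 ∧
        (D : Matrix (Fin 2) (Fin 2) K) 1 0 = 0 ∧ g = P * D * Q := by
    intro g hg
    have hdet : (g : Matrix (Fin 2) (Fin 2) K).det ≠ 0 := g.det.ne_zero
    have ha : g 0 0 ≠ 0 := by
      intro h0
      apply hdet
      rw [Matrix.det_fin_two]
      have h1 : ∀ i k, g i k = 0 := by
        intro i k
        have := hg i k
        rw [h0, map_zero] at this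
        exact (Valuation.zero_iff _).1 (le_antisymm this zero_le)
      rw [h1 0 0, h1 0 1, zero_mul, zero_mul, sub_zero]
    have hva : w.valuation K (g 0 0) ≠ 0 := (Valuation.ne_zero_iff _).2 ha
    have hq : ∀ i k, w.valuation K (g i k / g 0 0) ≤ 1 := by
      intro i k
      rw [map_div₀]
      exact (div_le_one₀ (zero_lt_iff.2 hva)).2 (hg i k)
    let P : GL (Fin 2) K := Matrix.GeneralLinearGroup.mkOfDetNeZero
      !![1, 0; g 1 0 / g 0 0, 1] (by rw [Matrix.det_fin_two_of]; norm_num)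
    let Q : GL (Fin 2) K := Matrix.GeneralLinearGroup.mkOfDetNeZero
      !![1, g 0 1 / g 0 0; 0, 1] (by rw [Matrix.det_fin_two_of]; norm_num)
    let D : GL (Fin 2) K := Matrix.GeneralLinearGroup.mkOfDetNeZero
      !![g 0 0, 0; 0, (g : Matrix (Fin 2) (Fin 2) K).det / g 0 0] (by
        rw [Matrix.det_fin_two_of, mul_zero, sub_zero, mul_div_cancel₀ _ ha]
        exact hdet)
    refine ⟨P, ⟨fun i k => ?_, ?_⟩, Q, ⟨fun i k => ?_, ?_⟩, D, rfl, rfl, ?_⟩
    · show w.valuation K ((!![1, 0; g 1 0 / g 0 0, 1] : Matrix (Fin 2) (Fin 2) K) i k) ≤ 1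
      fin_cases i <;> fin_cases k
      · simp
      · simp
      · exact hq 1 0
      · simp
    · show w.valuation K ((!![1, 0; g 1 0 / g 0 0, 1] : Matrix (Fin 2) (Fin 2) K)).det = 1
      rw [Matrix.det_fin_two_of]
      simp
    · show w.valuation K ((!![1, g 0 1 / g 0 0; 0, 1] : Matrix (Fin 2) (Fin 2) K) i k) ≤ 1
      fin_cases i <;> fin_cases k
      · simp
      · exact hq 0 1
      · simp
      · simp
    · show w.valuation K ((!![1, g 0 1 / g 0 0; 0, 1] : Matrix (Fin 2) (Fin 2) K)).det = 1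
      rw [Matrix.det_fin_two_of]
      simp
    · apply Units.ext
      show (g : Matrix (Fin 2) (Fin 2) K) = (!![1, 0; g 1 0 / g 0 0, 1] : Matrix (Fin 2) (Fin 2) K) *
        !![g 0 0, 0; 0, (g : Matrix (Fin 2) (Fin 2) K).det / g 0 0] *
        !![1, g 0 1 / g 0 0; 0, 1]
      rw [Matrix.mul_fin_two, Matrix.mul_fin_two, Matrix.det_fin_two]
      ext i k
      fin_cases i <;> fin_cases k
      · simp
      · simp; field_simp
      · simp; field_simp
      · simp; field_simp; ring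
  -- move the largest entry to the position `0 0`
  obtain ⟨i₀, k₀, hmax⟩ : ∃ i₀ k₀, ∀ i k, w.valuation K (g i k) ≤ w.valuation K (g i₀ k₀) := by
    obtain ⟨p, -, hp⟩ := Finset.exists_max_image (Finset.univ : Finset (Fin 2 × Fin 2))
      (fun p => w.valuation K (g p.1 p.2)) ⟨(0, 0), Finset.mem_univ _⟩
    exact ⟨p.1, p.2, fun i k => hp (i, k) (Finset.mem_univ _)⟩
  have hw2 : (wey : GL (Fin 2) K) * wey = 1 := by
    apply Units.ext
    show (!![0, 1; 1, 0] : Matrix (Fin 2) (Fin 2) K) * !![0, 1; 1, 0] = 1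
    rw [Matrix.mul_fin_two]
    ext i k
    fin_cases i <;> fin_cases k <;> simp
  have hl : ∀ (h : GL (Fin 2) K) (i k : Fin 2), ((wey * h : GL (Fin 2) K) : Matrix (Fin 2) (Fin 2) K) i k
      = h (Equiv.swap 0 1 i) k := by
    intro h i k
    rw [Units.val_mul, Matrix.mul_apply, Fin.sum_univ_two]
    fin_cases i <;> simp [wey, Matrix.GeneralLinearGroup.mkOfDetNeZero]
  have hr : ∀ (h : GL (Fin 2) K) (i k : Fin 2), ((h * wey : GL (Fin 2) K) : Matrix (Fin 2) (Fin 2) K) i k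
      = h i (Equiv.swap 0 1 k) := by
    intro h i k
    rw [Units.val_mul, Matrix.mul_apply, Fin.sum_univ_two]
    fin_cases k <;> simp [wey, Matrix.GeneralLinearGroup.mkOfDetNeZero]
  have hL : ∀ g : GL (Fin 2) K, (∃ P ∈ GLw (K := K) w, ∃ Q ∈ GLw (K := K) w,
      ∃ D : GL (Fin 2) K, (D : Matrix (Fin 2) (Fin 2) K) 0 1 = 0 ∧
        (D : Matrix (Fin 2) (Fin 2) K) 1 0 = 0 ∧ wey * g = P * D * Q) →
      ∃ P ∈ GLw (K := K) w, ∃ Q ∈ GLw (K := K) w,
      ∃ D : GL (Fin 2) K, (D : Matrix (Fin 2) (Fin 2) K) 0 1 = 0 ∧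
        (D : Matrix (Fin 2) (Fin 2) K) 1 0 = 0 ∧ g = P * D * Q := by
    rintro g ⟨P, hP, Q, hQ, D, h1, h2, h3⟩
    refine ⟨wey * P, mul_mem (wey_mem w) hP, Q, hQ, D, h1, h2, ?_⟩
    have : g = wey * (wey * g) := by rw [← mul_assoc, hw2, one_mul]
    rw [this, h3]
    group
  have hR : ∀ g : GL (Fin 2) K, (∃ P ∈ GLw (K := K) w, ∃ Q ∈ GLw (K := K) w,
      ∃ D : GL (Fin 2) K, (D : Matrix (Fin 2) (Fin 2) K) 0 1 = 0 ∧
        (D : Matrix (Fin 2) (Fin 2) K) 1 0 = 0 ∧ g * wey = P * D * Q) →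
      ∃ P ∈ GLw (K := K) w, ∃ Q ∈ GLw (K := K) w,
      ∃ D : GL (Fin 2) K, (D : Matrix (Fin 2) (Fin 2) K) 0 1 = 0 ∧
        (D : Matrix (Fin 2) (Fin 2) K) 1 0 = 0 ∧ g = P * D * Q := by
    rintro g ⟨P, hP, Q, hQ, D, h1, h2, h3⟩
    refine ⟨P, hP, Q * wey, mul_mem hQ (wey_mem w), D, h1, h2, ?_⟩
    have : g = (g * wey) * wey := by rw [mul_assoc, hw2, mul_one]
    rw [this, h3]
    group
  have hs : ∀ i₀ : Fin 2, i₀ = 0 ∨ i₀ = 1 := by decide
  rcases hs i₀ with rfl | rfl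
  · rcases hs k₀ with rfl | rfl
    · exact key g hmax
    · apply hR
      apply key
      intro i k
      rw [hr, hr]
      exact hmax _ _
  · rcases hs k₀ with rfl | rfl
    · apply hL
      apply key
      intro i k
      rw [hl, hl]
      exact hmax _ _
    · apply hL
      apply hR
      apply key
      intro i k
      rw [hr, hr, hl, hl]
      exact hmax _ _

/-- `g⁻¹ ∈ U0 g U0`. -/
theorem exists_inv (g : PGL(2, K)) : ∃ u ∈ U0 (K := K) w, ∃ v ∈ U0 (K := K) w,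
    g⁻¹ = u * g * v := by
  induction g using ProjGenLinGroup.induction_on with
  | mk g =>
  obtain ⟨P, hP, Q, hQ, D, h1, h2, rfl⟩ := exists_diag w g
  exact inv_mem_of_diag w P Q D hP hQ h1 h2

/-- **Spherical kernels are symmetric.** -/
theorem sph_symm (a : LocKer (U0 (K := K) w)) (x y : PGL(2, K) ⧸ U0 (K := K) w) :
    a.k x y = a.k y x := by
  induction x using QuotientGroup.induction_on with
  | H x =>
    induction y using QuotientGroup.induction_on with
    | H y =>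
      rw [k_eq a x y, k_eq a y x]
      have h1 : y⁻¹ * x = (x⁻¹ * y)⁻¹ := by group
      obtain ⟨u, hu, v, hv, h⟩ := exists_inv w (x⁻¹ * y)
      rw [h1, h, k_biinv a hu hv]

/-- **The spherical Hecke algebra is commutative.** -/
theorem sph_comm (a b : LocKer (U0 (K := K) w)) : LocKer.mul a b = LocKer.mul b a := by
  apply LocKer.ext'
  intro x z
  rw [sph_symm w (LocKer.mul b a) x z, LocKer.mul_k, LocKer.mul_k]
  apply finsum_congr
  intro y
  rw [sph_symm w a x y, sph_symm w b y z, mul_comm]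

end sph

end Fermat.Agent.H84Z
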