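import Fermat.Agent.H59XF

/-!
# S47, block (C), package C15: local matching at a place that splits completely

Abstract part: `G` a group with an automorphism `s` of order three, `ι : GF →* G` with `s ∘ ι = ι`,
three places `i₀, σ i₀, σ² i₀` with levels `U`, permuted by `s`; the kernel on the triple product of
coset spaces, twisted by `d • s`, sums along the fibres of the first coordinate to the restriction of
a convolution.
-/

set_option autoImplicit false

namespace Fermat.Agent.H84Z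

open Fermat.Agent.H59XF Function

section maps

variable {G : Type*} [Group G]

/-- The map on cosets induced by an automorphism. -/
def smap (s : G ≃* G) {H K : Subgroup G} (h : ∀ g, g ∈ H ↔ s g ∈ K) : G ⧸ H → G ⧸ K :=
  Quotient.map' s (by
    intro a b hab
    rw [QuotientGroup.leftRel_apply] at hab ⊢
    rw [← map_inv, ← map_mul]
    exact (h _).1 hab)

variable (s : G ≃* G) {H K : Subgroup G} (h : ∀ g, g ∈ H ↔ s g ∈ K)

@[simp] theorem smap_mk (g : G) : smap s h (g : G ⧸ H) = ((s g : G) : G ⧸ K) := rfl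

theorem smap_smul (g : G) (x : G ⧸ H) : smap s h (g • x) = s g • smap s h x := by
  induction x using QuotientGroup.induction_on with
  | H x =>
    show smap s h (((g * x : G)) : G ⧸ H) = _
    rw [smap_mk, smap_mk, map_mul]
    rfl

theorem smap_injective : Injective (smap s h) := by
  intro x y hxy
  induction x using QuotientGroup.induction_on with
  | H x =>
    induction y using QuotientGroup.induction_on with
    | H y =>
      rw [smap_mk, smap_mk, QuotientGroup.eq] at hxy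
      rw [QuotientGroup.eq, h]
      simpa using hxy

theorem smap_surjective : Surjective (smap s h) := by
  intro y
  induction y using QuotientGroup.induction_on with
  | H y => exact ⟨((s.symm y : G) : G ⧸ H), by simp⟩

/-- `smap` as an equivalence. -/
noncomputable def smapEquiv : G ⧸ H ≃ G ⧸ K :=
  Equiv.ofBijective (smap s h) ⟨smap_injective s h, smap_surjective s h⟩

@[simp] theorem smapEquiv_apply (x : G ⧸ H) : smapEquiv s h x = smap s h x := rfl

/-- Pull back of a local kernel along an automorphism. -/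
def pull (a : LocKer K) : LocKer H where
  k x y := a.k (smap s h x) (smap s h y)
  inv g x y := by rw [smap_smul, smap_smul, a.inv]
  fin_right x := (a.fin_right (smap s h x)).preimage (smap_injective s h).injOn
  fin_left y := (a.fin_left (smap s h y)).preimage (smap_injective s h).injOn

@[simp] theorem pull_k (a : LocKer K) (x y : G ⧸ H) :
    (pull s h a).k x y = a.k (smap s h x) (smap s h y) := rfl

theorem pull_one : pull s h (LocKer.one : LocKer K) = LocKer.one := by
  apply LocKer.ext'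
  intro x y
  rw [pull_k, LocKer.one_k, LocKer.one_k]
  by_cases hxy : x = y
  · rw [if_pos hxy, if_pos (by rw [hxy])]
  · rw [if_neg hxy, if_neg (fun h' => hxy (smap_injective s h h'))]

end maps

section imap

variable {G GF : Type*} [Group G] [Group GF] (ι : GF →* G) {H : Subgroup G} {V : Subgroup GF}
  (hV : ∀ g, g ∈ V ↔ ι g ∈ H)

/-- The map of coset spaces induced by a homomorphism. -/
def imap : GF ⧸ V → G ⧸ H :=
  Quotient.map' ι (by
    intro a b hab
    rw [QuotientGroup.leftRel_apply] at hab ⊢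
    rw [← map_inv, ← map_mul]
    exact (hV _).1 hab)

@[simp] theorem imap_mk (g : GF) : imap ι hV (g : GF ⧸ V) = ((ι g : G) : G ⧸ H) := rfl

theorem imap_smul (g : GF) (x : GF ⧸ V) : imap ι hV (g • x) = ι g • imap ι hV x := by
  induction x using QuotientGroup.induction_on with
  | H x =>
    show imap ι hV (((g * x : GF)) : GF ⧸ V) = _
    rw [imap_mk, imap_mk, map_mul]
    rfl

theorem imap_injective : Injective (imap ι hV) := by
  intro x y hxy
  induction x using QuotientGroup.induction_on with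
  | H x =>
    induction y using QuotientGroup.induction_on with
    | H y =>
      rw [imap_mk, imap_mk, QuotientGroup.eq] at hxy
      rw [QuotientGroup.eq, hV]
      simpa using hxy

theorem imap_surjective (hd : ∀ g : G, ∃ f : GF, g⁻¹ * ι f ∈ H) : Surjective (imap ι hV) := by
  intro y
  induction y using QuotientGroup.induction_on with
  | H y =>
    obtain ⟨f, hf⟩ := hd y
    refine ⟨(f : GF ⧸ V), ?_⟩
    rw [imap_mk, eq_comm, QuotientGroup.eq]
    exact hf

/-- `G ⧸ H` is `GF ⧸ V` if `GF` is dense. -/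
noncomputable def imapEquiv (hd : ∀ g : G, ∃ f : GF, g⁻¹ * ι f ∈ H) : GF ⧸ V ≃ G ⧸ H :=
  Equiv.ofBijective (imap ι hV) ⟨imap_injective ι hV, imap_surjective ι hV hd⟩

@[simp] theorem imapEquiv_apply (hd : ∀ g : G, ∃ f : GF, g⁻¹ * ι f ∈ H) (x : GF ⧸ V) :
    imapEquiv ι hV hd x = imap ι hV x := rfl

theorem imapEquiv_symm_smul (hd : ∀ g : G, ∃ f : GF, g⁻¹ * ι f ∈ H) (g : GF) (x : G ⧸ H) :
    (imapEquiv ι hV hd).symm (ι g • x) = g • (imapEquiv ι hV hd).symm x := by
  apply (imapEquiv ι hV hd).injective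
  rw [Equiv.apply_symm_apply, imapEquiv_apply, imap_smul, ← imapEquiv_apply ι hV hd,
    Equiv.apply_symm_apply]

/-- Restriction of a local kernel. -/
def res (a : LocKer H) : LocKer V where
  k x y := a.k (imap ι hV x) (imap ι hV y)
  inv g x y := by rw [imap_smul, imap_smul, a.inv]
  fin_right x := (a.fin_right (imap ι hV x)).preimage (imap_injective ι hV).injOn
  fin_left y := (a.fin_left (imap ι hV y)).preimage (imap_injective ι hV).injOn

@[simp] theorem res_k (a : LocKer H) (x y : GF ⧸ V) :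
    (res ι hV a).k x y = a.k (imap ι hV x) (imap ι hV y) := rfl

theorem res_one : res ι hV (LocKer.one : LocKer H) = LocKer.one := by
  apply LocKer.ext'
  intro x y
  rw [res_k, LocKer.one_k, LocKer.one_k]
  by_cases hxy : x = y
  · rw [if_pos hxy, if_pos (by rw [hxy])]
  · rw [if_neg hxy, if_neg (fun h' => hxy (imap_injective ι hV h'))]

/-- Restriction is multiplicative when `GF` is dense. -/
theorem res_mul (hd : ∀ g : G, ∃ f : GF, g⁻¹ * ι f ∈ H) (a b : LocKer H) :
    res ι hV (LocKer.mul a b) = LocKer.mul (res ι hV a) (res ι hV b) := by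
  apply LocKer.ext'
  intro x y
  rw [res_k, LocKer.mul_k, LocKer.mul_k, ← finsum_comp_equiv (imapEquiv ι hV hd)]
  rfl

end imap

section kernels

variable {G : Type*} [Group G] {H : Subgroup G}

theorem mul_one' (a : LocKer H) : LocKer.mul a LocKer.one = a := by
  apply LocKer.ext'
  intro x y
  rw [LocKer.mul_k, finsum_eq_single _ y]
  · rw [LocKer.one_k, if_pos rfl, mul_one]
  · intro z hz
    rw [LocKer.one_k, if_neg hz, mul_zero]

theorem one_mul' (a : LocKer H) : LocKer.mul LocKer.one a = a := by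
  apply LocKer.ext'
  intro x y
  rw [LocKer.mul_k, finsum_eq_single _ x]
  · rw [LocKer.one_k, if_pos rfl, one_mul]
  · intro z hz
    rw [LocKer.one_k, if_neg (fun h => hz h.symm), zero_mul]

theorem supp2 (a b c : LocKer H) (x z : G ⧸ H) :
    (support fun p : (G ⧸ H) × (G ⧸ H) => a.k x p.2 * b.k p.2 p.1 * c.k p.1 z).Finite := by
  have h1 : (⋃ y ∈ {y | a.k x y ≠ 0}, (fun w => (w, y)) '' {w | b.k y w ≠ 0}).Finite :=
    (a.fin_right x).biUnion (fun y _ => (b.fin_right y).image _)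
  refine h1.subset ?_
  rintro ⟨w, y⟩ hp
  have hp' : a.k x y * b.k y w * c.k w z ≠ 0 := hp
  simp only [Set.mem_iUnion]
  refine ⟨y, ?_, w, ?_, rfl⟩
  · intro h0; exact hp' (by rw [h0, zero_mul, zero_mul])
  · intro h0; exact hp' (by rw [h0, mul_zero, zero_mul])

theorem mul_mul_k (a b c : LocKer H) (x z : G ⧸ H) :
    (LocKer.mul (LocKer.mul a b) c).k x z
      = ∑ᶠ p : (G ⧸ H) × (G ⧸ H), a.k x p.2 * b.k p.2 p.1 * c.k p.1 z := by
  rw [finsum_curry _ (supp2 a b c x z), LocKer.mul_k]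
  apply finsum_congr
  intro w
  rw [LocKer.mul_k, finsum_mul]

theorem sum_triple (a b c : LocKer H) (d e f : G) (x : G ⧸ H) :
    ∑ᶠ p : (G ⧸ H) × (G ⧸ H), a.k x (d • p.2) * b.k p.2 (e • p.1) * c.k p.1 (f • x)
      = (LocKer.mul (LocKer.mul a b) c).k x ((d * e * f) • x) := by
  rw [mul_mul_k, eq_comm, ← finsum_comp_equiv
    ((MulAction.toPerm (α := G) (β := G ⧸ H) (d * e)).prodCongr
      (MulAction.toPerm (α := G) (β := G ⧸ H) d))]
  apply finsum_congr
  rintro ⟨w, y⟩
  show a.k x (d • y) * b.k (d • y) ((d * e) • w) * c.k ((d * e) • w) ((d * e * f) • x)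
    = a.k x (d • y) * b.k y (e • w) * c.k w (f • x)
  rw [mul_smul d e w, b.inv, ← mul_smul d e w, mul_smul (d * e) f x, c.inv]

end kernels

/-! ## The triple product -/

section triple

variable {G : Type*} [Group G] (s : G ≃* G)
  {I : Type*} [DecidableEq I] {U : I → Subgroup G} (σ : Equiv.Perm I)
  (hU : ∀ i g, g ∈ U i ↔ s g ∈ U (σ i)) (i₀ : I)
  (hcov : ∀ i, i = i₀ ∨ i = σ i₀ ∨ i = σ (σ i₀)) (h01 : σ i₀ ≠ i₀) (h3 : σ (σ (σ i₀)) = i₀)

omit [DecidableEq I] in
include h01 h3 in
theorem h02 : σ (σ i₀) ≠ i₀ := by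
  intro h
  have h' : σ (σ (σ i₀)) = σ i₀ := by rw [h]
  exact h01 (h' ▸ h3)

omit [DecidableEq I] in
include h01 in
theorem h12 : σ (σ i₀) ≠ σ i₀ := fun h => h01 (σ.injective h)

/-- The point of the triple product with given transported coordinates. -/
noncomputable def mk3 (p : (G ⧸ U i₀) × (G ⧸ U i₀) × (G ⧸ U i₀)) : (i : I) → G ⧸ U i :=
  update (update (update (fun i => ((1 : G) : G ⧸ U i)) i₀ p.1) (σ i₀)
    (smap s (hU i₀) p.2.1)) (σ (σ i₀)) (smap s (hU (σ i₀)) (smap s (hU i₀) p.2.2))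

include h01 h3 in
theorem mk3_zero (p) : mk3 s σ hU i₀ p i₀ = p.1 := by
  rw [mk3, update_of_ne (h02 σ i₀ h01 h3).symm, update_of_ne h01.symm, update_self]

include h01 in
theorem mk3_one (p) : mk3 s σ hU i₀ p (σ i₀) = smap s (hU i₀) p.2.1 := by
  rw [mk3, update_of_ne (h12 σ i₀ h01).symm, update_self]

theorem mk3_two (p) :
    mk3 s σ hU i₀ p (σ (σ i₀)) = smap s (hU (σ i₀)) (smap s (hU i₀) p.2.2) := by
  rw [mk3, update_self]

/-- The triple product in transported coordinates. -/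
noncomputable def equiv3 :
    (G ⧸ U i₀) × (G ⧸ U i₀) × (G ⧸ U i₀) ≃ ((i : I) → G ⧸ U i) where
  toFun := mk3 s σ hU i₀
  invFun x := (x i₀, (smapEquiv s (hU i₀)).symm (x (σ i₀)),
    (smapEquiv s (hU i₀)).symm ((smapEquiv s (hU (σ i₀))).symm (x (σ (σ i₀)))))
  left_inv p := by
    obtain ⟨a, b, c⟩ := p
    show (mk3 s σ hU i₀ (a, b, c) i₀, (smapEquiv s (hU i₀)).symm (mk3 s σ hU i₀ (a, b, c) (σ i₀)),
      (smapEquiv s (hU i₀)).symm ((smapEquiv s (hU (σ i₀))).symm
        (mk3 s σ hU i₀ (a, b, c) (σ (σ i₀))))) = (a, b, c)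
    rw [mk3_zero s σ hU i₀ h01 h3, mk3_one s σ hU i₀ h01, mk3_two s σ hU i₀]
    simp only [← smapEquiv_apply, Equiv.symm_apply_apply]
  right_inv x := by
    funext i
    rcases hcov i with rfl | rfl | rfl
    · rw [mk3_zero s σ hU i h01 h3]
    · rw [mk3_one s σ hU i₀ h01, ← smapEquiv_apply, Equiv.apply_symm_apply]
    · rw [mk3_two s σ hU i₀, ← smapEquiv_apply, ← smapEquiv_apply, Equiv.apply_symm_apply,
        Equiv.apply_symm_apply]

theorem equiv3_apply (p) : equiv3 s σ hU i₀ hcov h01 h3 p = mk3 s σ hU i₀ p := rfl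

include hcov h01 h3 in
/-- The twisted kernel on the triple product: `x' = s x` is characterised by `x' (σ i) = s (x i)`. -/
theorem phi_mk3 [Fintype I] (hs3 : ∀ g, s (s (s g)) = g) (a : (i : I) → LocKer (U i)) (d : G)
    (p : (G ⧸ U i₀) × (G ⧸ U i₀) × (G ⧸ U i₀)) (x' : (i : I) → G ⧸ U i)
    (hx' : ∀ i, x' (σ i) = smap s (hU i) (mk3 s σ hU i₀ p i)) :
    ∏ i, (a i).k (mk3 s σ hU i₀ p i) (d • x' i)
      = (a i₀).k p.1 (d • p.2.2) *
        (pull s (hU i₀) (pull s (hU (σ i₀)) (a (σ (σ i₀))))).k p.2.2 (s d • p.2.1) *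
        (pull s (hU i₀) (a (σ i₀))).k p.2.1 (s (s d) • p.1) := by
  have hprod : ∀ f : I → ℂ, ∏ i, f i = f i₀ * f (σ (σ i₀)) * f (σ i₀) := by
    intro f
    have huniv : (Finset.univ : Finset I) = {i₀, σ (σ i₀), σ i₀} := by
      ext i
      simp only [Finset.mem_univ, Finset.mem_insert, Finset.mem_singleton, true_iff]
      rcases hcov i with h | h | h
      · exact Or.inl h
      · exact Or.inr (Or.inr h)
      · exact Or.inr (Or.inl h)
    rw [huniv, Finset.prod_insert, Finset.prod_insert, Finset.prod_singleton, mul_assoc]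
    · rw [Finset.mem_singleton]; exact h12 σ i₀ h01
    · rw [Finset.mem_insert, Finset.mem_singleton]
      rintro (h | h)
      · exact h02 σ i₀ h01 h3 h.symm
      · exact h01 h.symm
  rw [hprod]
  have e1 : x' (σ i₀) = smap s (hU i₀) p.1 := by
    rw [hx', mk3_zero s σ hU i₀ h01 h3]
  have e2 : x' (σ (σ i₀)) = smap s (hU (σ i₀)) (smap s (hU i₀) p.2.1) := by
    rw [hx', mk3_one s σ hU i₀ h01]
  have e0 : x' i₀ = p.2.2 := by
    obtain ⟨b, hb⟩ : ∃ b : G, ((b : G) : G ⧸ U i₀) = p.2.2 := Quotient.exists_rep _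
    have h := hx' (σ (σ i₀))
    rw [mk3_two s σ hU i₀, ← hb, smap_mk, smap_mk, smap_mk, hs3] at h
    rw [← hb]
    have key : ∀ (j : I) (hj : j = i₀), x' j = ((b : G) : G ⧸ U j) →
        x' i₀ = ((b : G) : G ⧸ U i₀) := by
      intro j hj hj'
      subst hj
      exact hj'
    exact key _ h3 h
  rw [e0, e1, e2, mk3_zero s σ hU i₀ h01 h3, mk3_one s σ hU i₀ h01, mk3_two s σ hU i₀]
  rw [pull_k, pull_k, pull_k, smap_smul, smap_smul, smap_smul, hs3]

/-- The action of `s` on the triple product: `(s x)_{σ i} = s (x_i)`. -/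
def sact (x : (i : I) → G ⧸ U i) : (i : I) → G ⧸ U i := fun j =>
  (σ.apply_symm_apply j) ▸ (smap s (hU (σ.symm j)) (x (σ.symm j)))

omit [DecidableEq I] in
@[simp] theorem sact_apply (x : (i : I) → G ⧸ U i) (i : I) :
    sact s σ hU x (σ i) = smap s (hU i) (x i) := by
  have key : ∀ (j : I) (hj : j = i) (h' : σ j = σ i),
      (h' ▸ (smap s (hU j) (x j)) : G ⧸ U (σ i)) = smap s (hU i) (x i) := by
    intro j hj h'
    subst hj
    rfl
  exact key _ (by simp) _

omit [DecidableEq I] in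
theorem sact_unique (x x' : (i : I) → G ⧸ U i) (hx' : ∀ i, x' (σ i) = smap s (hU i) (x i)) :
    x' = sact s σ hU x := by
  funext j
  obtain ⟨i, rfl⟩ := σ.surjective j
  rw [hx', sact_apply]

/-- The twisted weight `x ↦ k (x, d • s x)` on the triple product. -/
noncomputable def phi [Fintype I] (a : (i : I) → LocKer (U i)) (d : G)
    (x : (i : I) → G ⧸ U i) : ℂ :=
  ∏ i, (a i).k (x i) (d • sact s σ hU x i)

/-- The convolution of the three local kernels, transported to the place `i₀`. -/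
noncomputable def conv3 (a : (i : I) → LocKer (U i)) : LocKer (U i₀) :=
  LocKer.mul (LocKer.mul (a i₀) (pull s (hU i₀) (pull s (hU (σ i₀)) (a (σ (σ i₀))))))
    (pull s (hU i₀) (a (σ i₀)))

end triple

section triv

variable {G : Type*} [Group G] {H : Subgroup G}

theorem supp_triple (a b c : LocKer H) (d e f : G) (x : G ⧸ H) :
    (support fun p : (G ⧸ H) × (G ⧸ H) =>
      a.k x (d • p.2) * b.k p.2 (e • p.1) * c.k p.1 (f • x)).Finite := by
  have h1 := supp2 a b c x ((d * e * f) • x)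
  have h2 := h1.preimage (((MulAction.toPerm (α := G) (β := G ⧸ H) (d * e)).prodCongr
      (MulAction.toPerm (α := G) (β := G ⧸ H) d)).injective.injOn)
  refine h2.subset ?_
  rintro ⟨w, y⟩ hp
  have hp' : a.k x (d • y) * b.k y (e • w) * c.k w (f • x) ≠ 0 := hp
  show a.k x (d • y) * b.k (d • y) ((d * e) • w) * c.k ((d * e) • w) ((d * e * f) • x) ≠ 0
  rw [mul_smul d e w, b.inv, ← mul_smul d e w, mul_smul (d * e) f x, c.inv]
  exact hp'

end triv

/-! ## The matching theorem -/

section main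

variable {G GF : Type*} [Group G] [Group GF] (ι : GF →* G) (s : G ≃* G)
  {I : Type*} [Fintype I] [DecidableEq I] {U : I → Subgroup G} (σ : Equiv.Perm I)
  (hU : ∀ i g, g ∈ U i ↔ s g ∈ U (σ i)) (i₀ : I) {V : Subgroup GF}
  (hV : ∀ g, g ∈ V ↔ ι g ∈ U i₀) (hd : ∀ g : G, ∃ f : GF, g⁻¹ * ι f ∈ U i₀)
  (hcov : ∀ i, i = i₀ ∨ i = σ i₀ ∨ i = σ (σ i₀)) (h01 : σ i₀ ≠ i₀) (h3 : σ (σ (σ i₀)) = i₀)

omit [Fintype I] [DecidableEq I]

/-- The comparison map: the first coordinate. -/
noncomputable def beta (x : (i : I) → G ⧸ U i) : GF ⧸ V :=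
  (imapEquiv ι hV hd).symm (x i₀)

theorem beta_smul (t : GF) (x : (i : I) → G ⧸ U i) :
    beta ι i₀ hV hd (fun i => ι t • x i) = t • beta ι i₀ hV hd x :=
  imapEquiv_symm_smul ι hV hd t (x i₀)

theorem beta_eq_iff (x : (i : I) → G ⧸ U i) (y : GF ⧸ V) :
    beta ι i₀ hV hd x = y ↔ x i₀ = imap ι hV y := by
  rw [beta, Equiv.symm_apply_eq, imapEquiv_apply]

variable [Fintype I] [DecidableEq I]

include hcov h01 h3 in
theorem supp_eq (a : (i : I) → LocKer (U i)) (d : G) (y : GF ⧸ V) :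
    {x | phi s σ hU a d x ≠ 0 ∧ beta ι i₀ hV hd x = y}
      = (Set.range fun q : (G ⧸ U i₀) × (G ⧸ U i₀) => mk3 s σ hU i₀ (imap ι hV y, q)) ∩
        support (phi s σ hU a d) := by
  ext x
  simp only [Set.mem_ofPred_eq, Set.mem_inter_iff, Set.mem_range, mem_support]
  rw [and_comm]
  apply and_congr_left
  intro _
  rw [beta_eq_iff]
  constructor
  · intro hx
    refine ⟨((equiv3 s σ hU i₀ hcov h01 h3).symm x).2, ?_⟩
    have hx1 : ((equiv3 s σ hU i₀ hcov h01 h3).symm x).1 = imap ι hV y := hx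
    rw [← hx1, Prod.mk.eta, ← equiv3_apply s σ hU i₀ hcov h01 h3, Equiv.apply_symm_apply]
  · rintro ⟨q, rfl⟩
    rw [mk3_zero s σ hU i₀ h01 h3]

omit [Fintype I] in
include h01 h3 hcov in
theorem mk3_inj (z : G ⧸ U i₀) :
    Injective fun q : (G ⧸ U i₀) × (G ⧸ U i₀) => mk3 s σ hU i₀ (z, q) := by
  intro q q' h
  have h' : equiv3 s σ hU i₀ hcov h01 h3 (z, q) = equiv3 s σ hU i₀ hcov h01 h3 (z, q') := h
  have h2 := (equiv3 s σ hU i₀ hcov h01 h3).injective h'
  exact (Prod.mk.inj h2).2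

include h01 h3 hcov in
theorem phi_eq (hs3 : ∀ g, s (s (s g)) = g) (a : (i : I) → LocKer (U i)) (d : G) (z : G ⧸ U i₀)
    (q : (G ⧸ U i₀) × (G ⧸ U i₀)) :
    phi s σ hU a d (mk3 s σ hU i₀ (z, q))
      = (a i₀).k z (d • q.2) *
        (pull s (hU i₀) (pull s (hU (σ i₀)) (a (σ (σ i₀))))).k q.2 (s d • q.1) *
        (pull s (hU i₀) (a (σ i₀))).k q.1 (s (s d) • z) := by
  rw [phi]
  exact phi_mk3 s σ hU i₀ hcov h01 h3 hs3 a d (z, q) _ (fun i => sact_apply s σ hU _ i)

include h01 h3 hcov in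
/-- Finite fibres. -/
theorem fin_fibre (hs3 : ∀ g, s (s (s g)) = g) (a : (i : I) → LocKer (U i)) (d : G)
    (y : GF ⧸ V) : {x | phi s σ hU a d x ≠ 0 ∧ beta ι i₀ hV hd x = y}.Finite := by
  rw [supp_eq ι s σ hU i₀ hV hd hcov h01 h3]
  have h1 := supp_triple (a i₀) (pull s (hU i₀) (pull s (hU (σ i₀)) (a (σ (σ i₀)))))
    (pull s (hU i₀) (a (σ i₀))) d (s d) (s (s d)) (imap ι hV y)
  refine (h1.image (fun q => mk3 s σ hU i₀ (imap ι hV y, q))).subset ?_
  rintro x ⟨⟨q, rfl⟩, hx⟩
  refine ⟨q, ?_, rfl⟩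
  rw [mem_support, phi_eq s σ hU i₀ hcov h01 h3 hs3] at hx
  exact hx

include h01 h3 hcov in
/-- **Local matching at a split place.**  The sum of the twisted weight along the fibre of the
first coordinate is the restriction of the convolution of the three kernels. -/
theorem sum_fibre (hs3 : ∀ g, s (s (s g)) = g) (a : (i : I) → LocKer (U i)) (d : G) (γ : GF)
    (hγ : ι γ = d * s d * s (s d)) (y : GF ⧸ V) :
    ∑ᶠ x ∈ {x | phi s σ hU a d x ≠ 0 ∧ beta ι i₀ hV hd x = y}, phi s σ hU a d x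
      = (res ι hV (conv3 s σ hU i₀ a)).k y (γ • y) := by
  rw [supp_eq ι s σ hU i₀ hV hd hcov h01 h3, finsum_mem_inter_support,
    finsum_mem_range (mk3_inj s σ hU i₀ hcov h01 h3 _), res_k, imap_smul, hγ, conv3, ← sum_triple]
  apply finsum_congr
  intro q
  rw [phi_eq s σ hU i₀ hcov h01 h3 hs3]

omit [DecidableEq I] in
include h01 h3 hcov in
/-- For unit kernels the base point is the only point of the support over the base point. -/
theorem base_iff (a : (i : I) → LocKer (U i)) (ha : ∀ i, a i = LocKer.one) (d : G)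
    (hdU : ∀ i, d ∈ U i) (x : (i : I) → G ⧸ U i) (hx : phi s σ hU a d x ≠ 0) :
    beta ι i₀ hV hd x = ((1 : GF) : GF ⧸ V) ↔ x = fun i => ((1 : G) : G ⧸ U i) := by
  have hx1 : ∀ i, x i = d • sact s σ hU x i := by
    intro i
    rw [phi, Finset.prod_ne_zero_iff] at hx
    have h := hx i (Finset.mem_univ i)
    rw [ha i, LocKer.one_k] at h
    by_contra hne
    exact h (if_neg hne)
  have hx2 : ∀ i, x (σ i) = d • smap s (hU i) (x i) := by
    intro i
    rw [hx1 (σ i), sact_apply]
  have hb : ∀ i, d • smap s (hU i) ((1 : G) : G ⧸ U i) = ((1 : G) : G ⧸ U (σ i)) := by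
    intro i
    rw [smap_mk, map_one]
    show ((d * 1 : G) : G ⧸ U (σ i)) = _
    rw [QuotientGroup.eq, mul_one, mul_one]
    exact (U (σ i)).inv_mem (hdU _)
  rw [beta_eq_iff, imap_mk, map_one]
  constructor
  · intro h0
    have h1 : x (σ i₀) = ((1 : G) : G ⧸ U (σ i₀)) := by rw [hx2, h0, hb]
    have h2 : x (σ (σ i₀)) = ((1 : G) : G ⧸ U (σ (σ i₀))) := by rw [hx2, h1, hb]
    funext i
    rcases hcov i with rfl | rfl | rfl
    · exact h0
    · exact h1
    · exact h2
  · intro h
    rw [h]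

omit [DecidableEq I] in
theorem phi_base (a : (i : I) → LocKer (U i)) (ha : ∀ i, a i = LocKer.one) (d : G)
    (hdU : ∀ i, d ∈ U i) : phi s σ hU a d (fun i => ((1 : G) : G ⧸ U i)) = 1 := by
  rw [phi]
  apply Finset.prod_eq_one
  intro i _
  obtain ⟨j, rfl⟩ := σ.surjective i
  rw [ha, sact_apply, smap_mk, map_one, LocKer.one_k, if_pos]
  show _ = ((d * 1 : G) : G ⧸ U (σ j))
  rw [QuotientGroup.eq, mul_one, inv_one, one_mul]
  exact hdU _

omit [Fintype I] [DecidableEq I] in
theorem conv3_one (a : (i : I) → LocKer (U i)) (ha : ∀ i, a i = LocKer.one) :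
    conv3 s σ hU i₀ a = LocKer.one := by
  rw [conv3, ha, ha, ha, pull_one, pull_one, mul_one', mul_one']

omit [Fintype I] [DecidableEq I] in
/-- Only one non-trivial kernel, at `i₀`. -/
theorem conv3_single (a : (i : I) → LocKer (U i)) (h1 : a (σ i₀) = LocKer.one)
    (h2 : a (σ (σ i₀)) = LocKer.one) : conv3 s σ hU i₀ a = a i₀ := by
  rw [conv3, h1, h2, pull_one, pull_one, mul_one', mul_one']

end main

end Fermat.Agent.H84Z
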