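import Fermat.Agent.H86InPH
import Fermat.Agent.H69TWMod
import Fermat.Agent.H53TWB1

set_option autoImplicit false
set_option linter.style.haveILetI false
set_option linter.unusedSectionVars false

/-!
# The inner statement of level lowering on the levels `GalLevelB` without raising primes

All odd `p`, all types at `p` without marks.
-/

noncomputable section

open IsLocalRing GaloisRep CuspForm
open Fermat.Agent.H53 (GQ M2 toMat mapMat PData PlaceData GalLevelB numB)
open Fermat.Agent.H59 (Tset CoeffChoice Zset)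
open Fermat.Agent.H87.Glue (resZ)
open Fermat.Agent.H69.EG (TWModPart)
open Fermat.Agent.H86.In (GLev)
open ExtCitation

namespace Fermat.Agent.H85.C

/-- **The inner statement of level lowering**: types at `p` without marks, no raising primes; at
every Taylor-Wiles level the Galois side can be completed by the module part. -/
def InnerLL (W : WeierstrassCurve ℤ) (hΔ : W.Δ ≠ 0) (p : ℕ) [Fact p.Prime] (A T : Finset ℕ)
    (t₀ : Tset T) : Prop :=
  ∀ (O : Type) [CommRing O] [IsDomain O] [IsDiscreteValuationRing O]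
    [IsAdicComplete (maximalIdeal O) O] [CharZero O] [Finite (ResidueField O)]
    [CharP (ResidueField O) p] [Algebra (ZMod p) (ResidueField O)] (ϖ : O) (a : ℕ) (ζ : O)
    (_ : CoeffChoice p T O ϖ a ζ)
    (b : Module.Basis (Fin 2) (ResidueField O) ((resZ W hΔ p).baseChange (ResidueField O)).V)
    (pl : ∀ t : Tset T, PlaceData p t.1)
    (_ : ∀ (t : Tset T) (ht : t.1.Prime), (pl t).P = primeLocalPlace ⟨t.1, ht⟩)
    (u : Tset T → O) (_ : ∀ t, u t ^ 2 = 1)
    (_ : ∀ t, toMat ((resZ W hΔ p).baseChange (ResidueField O)).ρ b (pl t).φ =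
      residue O (u t) • (1 : M2 (ResidueField O)))
    (plB : ∀ i : Tset (∅ : Finset ℕ), PlaceData p i.1),
    ∃ (pd : PData p ((resZ W hΔ p).baseChange (ResidueField O)) b), IsEmpty pd.ε ∧
      ∀ k : ℕ, ∃ D : ℕ, ∀ n : ℕ, ∃ S₀ : Finset ℕ, ∀ G : GLev hΔ pd A pl u plB k n S₀,
        Nonempty (TWModPart O ϖ p (numB (Tset T) (Tset (∅ : Finset ℕ)) pd.ε k) n D G.D.R
          (fun t : Tset T => ∏ z ∈ Zset O p T t, (G.r (pl t).σ 0 0 + G.r (pl t).σ 1 1 -
            algebraMap O G.D.R ((z : O) + (z⁻¹ : Oˣ))))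
          ((G.r (pl t₀).φ 0 0 + G.r (pl t₀).φ 1 1) ^ 2 - ((t₀.1 : G.D.R) + 1) ^ 2))

end Fermat.Agent.H85.C
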