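import Fermat.Agent.H85C0
import Fermat.Agent.H70Lev11
import Fermat.Agent.H79PtFa
import Fermat.Agent.H35Rk
import Fermat.Agent.H30S59b
import Fermat.Agent.H30Lev
import Fermat.Agent.H10NE
import Fermat.Agent.H59LL6
import Fermat.Agent.H86In1

set_option autoImplicit false
set_option linter.style.haveILetI false
set_option linter.unusedSectionVars false

/-!
# The inner statement of level lowering: the level
-/

noncomputable section

open IsLocalRing Polynomial CuspForm GaloisRep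
open Fermat.Agent.H53
open Fermat.Agent.H59 (Tset CoeffChoice Zset thetaW thetaW_X thetaW_C evHA evHA_X IsLocIdem Loc)
open Fermat.Agent.H87.Glue (resZ)
open Fermat.Agent.H87.S58 (tO)
open Fermat.Agent.H69.EG (TWModPart)
open Fermat.Agent.H86.In (GLev)
open Fermat.Agent.H37.Rank Fermat.Agent.H70.Coh Fermat.Agent.H70.Mod Fermat.Agent.H30
open Fermat.Agent.H4 Fermat.Agent.H94.BR
open Fermat.Agent.H31 (trace_eq_of_charpoly)
open Fermat.Agent.H68.Tw (ptRep ptRep_isAttached ptRep_residual_irreducible aOf aOf_idx)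

namespace Fermat.Agent.H85.C

section HElt

variable {𝒪 : Type} [CommRing 𝒪] [IsDomain 𝒪] [IsDiscreteValuationRing 𝒪]
    [IsAdicComplete (maximalIdeal 𝒪) 𝒪] [Finite (ResidueField 𝒪)] [CharZero 𝒪]
  {p : ℕ} [Fact p.Prime] {ρbar : ResidualGaloisRep (ResidueField 𝒪)}
  {b : Module.Basis (Fin 2) (ResidueField 𝒪) ρbar.V} {pd : PData p ρbar b} {A : Finset ℕ}
  {τ ι : Type} [Fintype τ] [Fintype ι] {qT : τ → ℕ} {pl : ∀ t, PlaceData p (qT t)} {u : τ → 𝒪}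
  {qB : ι → ℕ} {plB : ∀ i, PlaceData p (qB i)} {uB : ι → 𝒪} {k n : ℕ} {S₀ : Finset ℕ}
  (E : GalLevelB p ρbar b pd A qT pl u qB plB uB k n S₀)
  {L : ℕ} [NeZero L] {S : Finset ℕ} (hpS : p ∈ S) (hLS : ∀ q : ℕ, q.Prime → q ∣ L → q ∈ S)
  {θ : heckeAlgebra L 2 (↑S : Set ℕ) →+* ResidueField 𝒪}
  (π : E.D.R →ₐ[𝒪] heckeLocal L (↑S : Set ℕ) 𝒪 θ) (hπ : Function.Surjective π)
  {H : HeckeGaloisRepDatum L (↑S : Set ℕ) 𝒪 θ (heckeLocal L (↑S : Set ℕ) 𝒪 θ)}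
  (hH : H.π = heckeLocal.π L (↑S : Set ℕ) 𝒪 θ)
  (b₂ : Module.Basis (Fin 2) (heckeLocal L (↑S : Set ℕ) 𝒪 θ) H.ρ.V)
  (hb₂ : toMat H.ρ.ρ b₂ =
    mapMat (π : E.D.R →+* heckeLocal L (↑S : Set ℕ) 𝒪 θ) (toMat E.D.ρ.ρ E.b₁))
  {O' : Type} [CommRing O'] [IsDomain O'] [IsDiscreteValuationRing O']
  [IsAdicComplete (maximalIdeal O') O'] [Finite (ResidueField O')] [CharZero O']
  [Algebra 𝒪 O'] [Module.Finite 𝒪 O'] [IsLocalHom (algebraMap 𝒪 O')]

include hpS hLS hπ hH hb₂ in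
/-- the trace of Frobenius at the new points, at the primes of `T` -/
theorem lam_hElt (hp2 : p ≠ 2) (G : GeomInputs p) (t : τ) {N M : ℕ} [NeZero M] [NeZero (qT t)]
    (hsq : Squarefree N) (hex : ∀ r : ℕ, r.Prime → r ∣ N → ¬ r * r ∣ M) (hM : N ∣ M)
    (hqT : (qT t).Prime) (hqp : qT t ≠ p) (hqM : ¬ qT t ∣ M)
    (hS : Away (M * qT t) (↑S : Set ℕ))
    (lam : heckeLocal L (↑S : Set ℕ) 𝒪 θ →ₐ[𝒪] O') (η : (ZMod N)ˣ →* O'ˣ)
    (x : H1 (gam N (M * qT t) (hM.mul_right (qT t))) (psiRep (η ^ 2) O'))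
    (hη : ∃ m, Odd m ∧ η ^ m = 1) (hx : ∀ c : O', c ≠ 0 → c • x ≠ 0)
    (hlam : ∀ i : Idx (↑S : Set ℕ), tw (hM.mul_right (qT t)) hS (η ^ 2) η i x =
      lam (heckeLocal.π L (↑S : Set ℕ) 𝒪 θ (TIdx L (↑S : Set ℕ) hLS i)) • x)
    (h1 : (trFam hM).opH (psiRep (η ^ 2) O') x = 0)
    (h2 : (nuFam hM hqT).opH (psiRep (η ^ 2) O') x = 0) :
    lam (π ((E.r (pl t).φ 0 0 + E.r (pl t).φ 1 1) ^ 2 - ((qT t : E.D.R) + 1) ^ 2)) = 0 := by
  obtain ⟨m', hm', hηm⟩ := hη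
  obtain ⟨hf, hatt, hirr, hp𝒪'⟩ := H79.PtB.pt_facts E hpS hLS π hπ hH b₂ hb₂ lam
  have hT' : ∀ j : Idx (↑S : Set ℕ), tw (dvd_mul_q hM) hS (η ^ 2) η j x = aOf lam j.1 • x :=
    fun j => by
    rw [aOf_idx hLS lam j]
    exact hlam j
  obtain ⟨v, hv, h3⟩ := EA_steinberg hp2 hpS hp𝒪' G hsq hex hM hS η hm' hηm _ hatt hirr
    hx hT' hqT hqp hqM h1 h2
  have h4 := h3 _ (pl t).lies _ (pl t).frob
  have h5 : LinearMap.charpoly ((ptRep E.D (lam.comp π) hf).ρ (pl t).φ) =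
      X ^ 2 - C (v * ((qT t : O') + 1)) * X + C ((qT t : O')) := by
    rw [h4]
    have hv2 : v * v = 1 := by rcases hv with rfl | rfl <;> norm_num
    have hC : (C v : O'[X]) * C v = 1 := by rw [← C_mul, hv2, C_1]
    rw [C_mul, C_mul, C_add, C_1]
    linear_combination (C ((qT t : O')) : O'[X]) * hC
  have h6 := trace_eq_of_charpoly (ptRep E.D (lam.comp π) hf).finrank_eq _ _ _ h5
  rw [LinearMap.trace_eq_matrix_trace O' (bcBasis ((lam.comp π : E.D.R →ₐ[𝒪] O') : E.D.R →+* O')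
    hf E.D.ρ E.b₁), ← toMat_apply, toMat_bcBasis, mapMat_apply', Matrix.trace_fin_two] at h6
  have h7 : lam (π (E.r (pl t).φ 0 0)) + lam (π (E.r (pl t).φ 1 1)) =
      v * ((qT t : O') + 1) := h6
  rw [map_sub, map_sub, map_pow, map_pow, map_add, map_add, map_pow, map_pow, map_add, map_add,
    map_natCast, map_natCast, map_one, map_one, h7, mul_pow]
  rcases hv with rfl | rfl <;> ring

end HElt

section Level

variable {W : WeierstrassCurve ℤ} {p : ℕ} [hp : Fact p.Prime]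

/-- **`H²` vanishes** for the multiples of the auxiliary prime. -/
theorem good_of_aux {s₁ : ℕ} (haux : H30.S59.Aux W p s₁) (hp2 : p ≠ 2) {R : Type*} [CommRing R]
    [IsLocalRing R] [CharP (ResidueField R) p] (M : ℕ) (hM : p = 3 → s₁ ∣ M) : Good M R := by
  have h2 : IsUnit (2 : R) := by
    have := H10.NE.isUnit_natCast_of_ne (p := p) (R := R) Nat.prime_two hp2.symm
    exact_mod_cast this
  by_cases h3 : p = 3
  · obtain ⟨hs, hs3, -, -⟩ := haux.1 h3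
    exact good_of_noThree (hM h3) h2 (H10.NE.no_root_of_mod hs hs3)
  · refine good_of_six M h2 ?_
    have := H10.NE.isUnit_natCast_of_ne (p := p) (R := R) Nat.prime_three (Ne.symm h3)
    exact_mod_cast this

variable (hΔ : W.Δ ≠ 0)
  {O : Type} [CommRing O] [IsDomain O] [IsDiscreteValuationRing O]
  [IsAdicComplete (maximalIdeal O) O] [CharZero O] [Finite (ResidueField O)]
  [CharP (ResidueField O) p] [Algebra (ZMod p) (ResidueField O)]

/-- **A level of the Taylor-Wiles system of level lowering.** -/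
theorem level (hp2 : p ≠ 2) (hirrp : W.ModRepIsIrreducible p)
    (hirr : ((resZ W hΔ p).baseChange (ResidueField O)).IsIrreducible)
    (h29 : H96.StatementS29) (h34 : StatementS34) (GI : GeomInputs p)
    {A T : Finset ℕ} {ϖ : O} {a : ℕ} {ζ : O} (hO : CoeffChoice p T O ϖ a ζ)
    (hA : ∀ q ∈ A, q.Prime) (hAT : ∀ q ∈ A, q ∉ T) (hTp : ∀ t ∈ T, t.Prime)
    (hTd : ∀ t ∈ T, p ∣ t - 1) (hTu : ∀ t ∈ T, (resZ W hΔ p).IsUnramifiedAt t)
    {s₁ : ℕ} (haux : H30.S59.Aux W p s₁)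
    {M : ℕ} (hM : Squarefree M) (hmod : W.IsResiduallyModularOfLevel p M)
    (hMpr : ∀ q : ℕ, q.Prime → q ∣ M → q = p ∨ q ∈ A ∨ q ∈ T ∨ q = s₁)
    (hTM : ∀ t ∈ T, t ∣ M) (hsM : p = 3 → s₁ ∣ M)
    (t₀ : Tset T) (hnot : ¬ W.IsResiduallyModularOfLevel p (M / t₀.1))
    {b : Module.Basis (Fin 2) (ResidueField O) ((resZ W hΔ p).baseChange (ResidueField O)).V}
    {pd : PData p ((resZ W hΔ p).baseChange (ResidueField O)) b}
    {pl : ∀ t : Tset T, PlaceData p t.1} {u : Tset T → O}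
    {plB : ∀ i : Tset (∅ : Finset ℕ), PlaceData p i.1}
    (hD : ∀ {L : ℕ} [NeZero L] {S : Finset ℕ}, p ∈ S → (∀ q : ℕ, q.Prime → q ∣ L → q ∈ S) →
      ¬ p ^ 2 ∣ L → (p ∣ L ↔ p ∣ M) → ∀ {θ : heckeAlgebra L 2 (↑S : Set ℕ) →+* ResidueField O}
      (H : HeckeGaloisRepDatum L (↑S : Set ℕ) O θ (heckeLocal L (↑S : Set ℕ) O θ)),
      H.ρ.residual.IsEquiv (((resZ W hΔ p).baseChange (ResidueField O)).baseChangeAlong
        (ResidueField.map (algebraMap O (heckeLocal L (↑S : Set ℕ) O θ)))) → pd.𝒟p H.ρ)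
    {S₀ : Finset ℕ} (hpS₀ : p ∈ S₀) (hMS₀ : ∀ q : ℕ, q.Prime → q ∣ M → q ∈ S₀)
    (hWS₀ : ∀ q : ℕ, q.Prime → q ∉ S₀ → W.IsGoodPrimeFor q)
    {k n : ℕ} (G : GLev hΔ pd A pl u plB k n S₀) :
    Nonempty (TWModPart O ϖ p (numB (Tset T) (Tset (∅ : Finset ℕ)) pd.ε k) n
      (H35.Rk.bnd O (numB (Tset T) (Tset (∅ : Finset ℕ)) pd.ε k) M) G.D.R
      (fun t : Tset T => ∏ z ∈ Zset O p T t, (G.r (pl t).σ 0 0 + G.r (pl t).σ 1 1 -
        algebraMap O G.D.R ((z : O) + (z⁻¹ : Oˣ))))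
      ((G.r (pl t₀).φ 0 0 + G.r (pl t₀).φ 1 1) ^ 2 - ((t₀.1 : G.D.R) + 1) ^ 2)) := by
  classical
  haveI : NeZero M := ⟨hM.ne_zero⟩
  have hTne : ∀ t ∈ T, t ≠ p := fun t ht h => by
    have h1 := hTd t ht
    have h2 := (hTp t ht).two_le
    have h3 := Nat.le_of_dvd (by omega) h1
    omega
  have ht₀ : (t₀.1).Prime := hTp _ t₀.2
  have hMt : M / t₀.1 * t₀.1 = M := Nat.div_mul_cancel (hTM _ t₀.2)
  haveI : NeZero (M / t₀.1) := ⟨fun h => NeZero.ne M (by rw [← hMt, h, zero_mul])⟩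
  haveI : NeZero t₀.1 := ⟨ht₀.ne_zero⟩
  have ht₀M : ¬ t₀.1 ∣ M / t₀.1 := fun h => by
    have h2 : t₀.1 * t₀.1 ∣ M := by
      rw [← hMt]
      exact Nat.mul_dvd_mul_right h _
    exact ht₀.not_isUnit (hM _ h2)
  -- the numbers
  have hQM : ∀ i, ¬ G.qv i ∣ M := fun i h => G.not_mem_S i (hMS₀ _ (G.prime i) h)
  set P : ℕ := ∏ i, G.qv i with hP
  set T1 : ℕ := ∏ t : Tset T, t.1 with hT1
  set S : Finset ℕ := H59.Sset S₀ G.qv with hSdef
  have hM₀q : M / t₀.1 * P * t₀.1 = M * P := by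
    conv_rhs => rw [← hMt]
    ring
  have hP0 : P ≠ 0 := Finset.prod_ne_zero_iff.mpr fun i _ => (G.prime i).ne_zero
  have hT0 : T1 ≠ 0 := Finset.prod_ne_zero_iff.mpr fun t _ => (hTp _ t.2).ne_zero
  haveI : NeZero (M / t₀.1 * P) := ⟨mul_ne_zero (NeZero.ne _) hP0⟩
  haveI : NeZero (M * P) := ⟨mul_ne_zero (NeZero.ne _) hP0⟩
  haveI hL0 : NeZero (M / t₀.1 * P * t₀.1 * (P * T1)) :=
    ⟨mul_ne_zero (mul_ne_zero (NeZero.ne _) ht₀.ne_zero) (mul_ne_zero hP0 hT0)⟩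
  have hLeq : M / t₀.1 * P * t₀.1 * (P * T1) = M * P * (P * T1) := by rw [hM₀q]
  have hprL : ∀ q : ℕ, q.Prime → q ∣ M / t₀.1 * P * t₀.1 * (P * T1) →
      q ∣ M ∨ ∃ i, G.qv i = q := by
    intro q hq h
    rw [hLeq] at h
    exact H59.prime_dvd_level G.prime hTp hTM hq h
  have hLS : Adm (↑S : Set ℕ) (M / t₀.1 * P * t₀.1 * (P * T1)) := H59.adm_of hMS₀ hprL
  have hSW : ∀ ℓ : ℕ, ℓ.Prime → ℓ ∉ S → W.IsGoodPrimeFor ℓ := fun ℓ hℓ hℓS =>
    hWS₀ ℓ hℓ fun h => hℓS (H59.mem_Sset.mpr (Or.inl h))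
  have hpS : p ∈ S := H59.mem_Sset.mpr (Or.inl hpS₀)
  have hSWp : ∀ ℓ : ℕ, ℓ.Prime → ℓ ∉ (↑S : Set ℕ) → W.IsGoodPrimeFor ℓ ∧ ℓ ≠ p :=
    fun ℓ hℓ hℓS => ⟨hSW ℓ hℓ (by exact_mod_cast hℓS), fun h => hℓS (by rw [h]; exact hpS)⟩
  have hML : M ∣ M / t₀.1 * P * t₀.1 * (P * T1) := by
    rw [hLeq, mul_assoc]
    exact Dvd.intro _ rfl
  have hsq2 : ∀ q : ℕ, q.Prime → (∀ i, G.qv i ≠ q) → q ∉ T →
      ¬ q ^ 2 ∣ M / t₀.1 * P * t₀.1 * (P * T1) := by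
    intro q hq h1 h2
    rw [hLeq]
    exact H59.not_sq_dvd_level hM G.prime hTp hq h1 h2
  have hpT : p ∉ T := fun h => hTne p h rfl
  have hpL2 := hsq2 p hp.out G.ne_p hpT
  have hpL : p ∣ M / t₀.1 * P * t₀.1 * (P * T1) ↔ p ∣ M := by
    constructor
    · intro h
      rcases hprL p hp.out h with h | ⟨i, hi⟩
      · exact h
      · exact absurd hi (G.ne_p i)
    · intro h
      exact h.trans hML
  -- the Hecke side
  obtain ⟨χ, hχ, Hd, π, b₂, hH, hπ, hb₂, -⟩ := H30.S59.exists_hecke_all hΔ hO.mem h34 hp2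
    (H30.S59.tO_residual_baseChange hΔ hO.mem) hirr hmod hML S hpS hLS hSW G
    (fun χ H hres => hD hpS (fun q hq h => by exact_mod_cast hLS q hq h) hpL2 hpL H hres)
    haux
    (by
      intro q hq h
      rcases hprL q hq h with h | h
      · rcases hMpr q hq h with h | h | h | h
        · exact Or.inl h
        · exact Or.inr (Or.inl h)
        · exact Or.inr (Or.inr (Or.inl ⟨⟨q, h⟩, rfl⟩))
        · exact Or.inr (Or.inr (Or.inr (Or.inr (Or.inr h))))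
      · exact Or.inr (Or.inr (Or.inr (Or.inr (Or.inl h)))))
    (fun q hq => hsq2 q (hA q hq) (fun j h => G.not_mem_A j (h ▸ hq)) (hAT q hq))
    (fun i => absurd i.2 (Finset.notMem_empty _))
    (fun h3 => hsq2 s₁ (haux.1 h3).1 (fun j h => hQM j (h ▸ hsM h3)) fun hsT => by
      have h4 := hTd s₁ hsT
      have h5 := (haux.1 h3).2.1
      have h6 := (haux.1 h3).1.two_le
      rw [h3] at h4
      omega)
  -- the auxiliary prime and the residual eigensystem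
  have hLS' : ∀ q : ℕ, q.Prime → q ∣ M / t₀.1 * P * t₀.1 * (P * T1) → q ∈ (↑S : Set ℕ) := hLS
  have hχT : ∀ i : Pr (↑S : Set ℕ), χ (H30.TIdx _ (↑S : Set ℕ) hLS' i) =
      ((W.apOfModel i.1 : ℤ) : ResidueField O) := fun i => by
    have h1 := hχ i
    rw [evHA_X] at h1
    exact h1
  have hθ : H30.thetaPoly _ (↑S : Set ℕ) hLS' O χ = thetaW W (↑S : Set ℕ) O := by
    refine MvPolynomial.ringHom_ext (fun x => ?_) fun i => ?_
    · rw [H30.thetaPoly_C, thetaW_C]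
    · rw [H30.thetaPoly_X, thetaW_X, hχT]
  obtain ⟨i₀, hi₀1, hi₀⟩ := H10.NE.exists_i0 hΔ hp2 hirrp S (ResidueField O)
    (θ := thetaW W (↑S : Set ℕ) O) (fun i => thetaW_X W _ i)
    (M / t₀.1 * P * t₀.1 * (P * T1)) (NeZero.ne _)
  obtain ⟨ζp, hζp1, hζp2⟩ := H59.exists_zeta hO.one_le hO.prim
  -- arithmetic of the levels
  have hT1M : T1 ∣ M := by
    rw [hT1, Finset.prod_coe_sort T (fun t => t)]
    exact Finset.prod_primes_dvd M (fun t ht => (hTp t ht).prime) hTM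
  have hPsq : Squarefree P := H59.squarefree_prod_primes G.prime G.inj
  have hcop : Nat.Coprime M P := by
    refine Nat.Coprime.symm (Nat.Coprime.prod_left fun i _ => ?_)
    exact (Nat.Prime.coprime_iff_not_dvd (G.prime i)).mpr (hQM i)
  have hMPsq : Squarefree (M * P) := (Nat.squarefree_mul hcop).mpr ⟨hM, hPsq⟩
  have hN1sq : Squarefree (P * T1) := by
    rw [mul_comm]
    exact hMPsq.squarefree_of_dvd (Nat.mul_dvd_mul_right hT1M P)
  have hex : ∀ q : ℕ, q.Prime → ¬ q * q ∣ M / t₀.1 * P * t₀.1 := fun q hq h => by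
    rw [hM₀q] at h
    exact hq.not_isUnit (hMPsq q h)
  have hN1 : P * T1 ∣ M / t₀.1 * P * t₀.1 := by
    rw [hM₀q, mul_comm P T1]
    exact Nat.mul_dvd_mul_right hT1M P
  have hSM : Adm (↑S : Set ℕ) (M / t₀.1 * P * t₀.1) := hLS.of_dvd (Dvd.intro _ rfl)
  have ht₀M₀ : ¬ t₀.1 ∣ M / t₀.1 * P := fun h => by
    rcases ht₀.dvd_mul.mp h with h | h
    · exact ht₀M h
    · exact H59.not_dvd_prod_primes G.prime ht₀ (fun i hi => G.ne_qT i t₀ hi) h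
  have hsMt : p = 3 → s₁ ∣ M / t₀.1 := fun h3 => by
    have h4 : s₁ ∣ M / t₀.1 * t₀.1 := by
      rw [hMt]
      exact hsM h3
    rcases (haux.1 h3).1.dvd_mul.mp h4 with h | h
    · exact h
    · exfalso
      have h5 := (Nat.prime_dvd_prime_iff_eq (haux.1 h3).1 ht₀).mp h
      have h6 := hTd _ t₀.2
      have h7 := (haux.1 h3).2.1
      have h8 := ht₀.two_le
      rw [h5] at h7
      rw [h3] at h6
      omega
  have hg : ∀ M' : ℕ, M / t₀.1 ∣ M' → Good M' O := fun M' h =>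
    good_of_aux haux hp2 M' fun h3 => (hsMt h3).trans h
  refine H70.Mod.exists_twModPart (p := p) hp2 hLS' π hO.unif G.e G.le_e G.c G.c_mem
    G.one_add_c_pow G.qv G.prime G.inj (fun j => ?_) (fun t : Tset T => t.1)
    (fun t => hTp t.1 t.2) Subtype.val_injective (fun t => hTd t.1 t.2)
    (fun j t => G.ne_qT j t) ζp hζp1 hζp2 (M₀ := M / t₀.1 * P) (q₀ := t₀.1) (N1 := P * T1)
    (N2 := P) ht₀ ht₀M₀ (Dvd.intro_left _ rfl)
    (fun j => Finset.dvd_prod_of_mem _ (Finset.mem_univ j)) hN1 (Dvd.intro _ rfl)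
    (fun t => (Finset.dvd_prod_of_mem (fun t : Tset T => t.1) (Finset.mem_univ t)).trans
      (Dvd.intro_left _ rfl)) hN1sq (fun q hq _ => hex q hq) rfl hSM
    (fun M' h => hg M' ((Dvd.intro _ rfl).trans h)) i₀ (by exact_mod_cast hi₀1) ?_
    (fun e he h₁ h₀ => ?_) ?_ ?_
  · obtain ⟨m, hm, -⟩ := G.e_spec j
    exact ⟨m, hm⟩
  · rw [thetaW_X] at hi₀
    rw [hχT]
    exact hi₀
  · -- the ranks
    rw [hθ] at he
    have hMP : Adm (↑S : Set ℕ) (M * P) := by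
      rw [← hM₀q]
      exact hSM
    have hatt : H37.NN.IsAtt S (thetaW W (↑S : Set ℕ) O)
        ((resZ W hΔ p).baseChange (ResidueField O)) :=
      H30.S59.isAtt_thetaW hΔ hO.mem (H30.S59.tO_residual_baseChange hΔ hO.mem) S hSWp
    refine ⟨?_, ?_, ?_⟩
    · rw [H59.finrank_loc_congr e hM₀q h₁ hMP]
      exact H35.Rk.finrank_pos hmod (Dvd.intro _ rfl) hMP hSWp
        (hg _ ((Nat.div_dvd_of_dvd (hTM _ t₀.2)).mul_right _))
        (he _ hMP (by rw [hLeq]; exact Dvd.intro _ rfl)) i₀ hi₀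
    · exact H35.Rk.finrank_le_bnd hp2 hO.mem hpS (thetaW_C W _) _ hirr hatt G.qv G.prime
        hQM G.inj (H35.Rk.dvd_sub_one G) (H35.Rk.frobDist G) dvd_rfl hM₀q h₁
        (he _ h₁ (Dvd.intro _ rfl))
    · refine H35.Rk.finrank_eq_zero hp2 hO.mem hpS (thetaW_C W _) _ hirr hatt G.qv G.prime
        hQM G.inj (H35.Rk.dvd_sub_one G) (H35.Rk.frobDist G)
        (Nat.div_dvd_of_dvd (hTM _ t₀.2)) rfl h₀
        (he _ h₀ ((Dvd.intro _ rfl : M / t₀.1 * P ∣ M / t₀.1 * P * t₀.1).mul_right _)) ?_ ?_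
      · exact h₀.of_dvd (Dvd.intro _ rfl)
      refine H59.finrank_loc_eq_zero hΔ h29 _ (hg _ dvd_rfl) hnot (thetaW_X W _)
        (he _ _ (((Dvd.intro _ rfl : M / t₀.1 ∣ M / t₀.1 * P).mul_right _).mul_right _)) i₀ ?_ hi₀
      refine dvd_trans ?_ hi₀1
      exact Int.natCast_dvd_natCast.mpr ⟨P * t₀.1 * (P * T1), by ring⟩
  · intro O' _ _ _ _ _ _ _ _ _ hinj lam η x hη hT hx hlam
    have hpt : IsPt hN1 hSM η (fun i => lam (heckeLocal.π _ (↑S : Set ℕ) O χ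
      (TIdx _ (↑S : Set ℕ) hLS i))) x := ⟨hx, hlam⟩
    refine ⟨fun t => ?_, fun j => ?_⟩
    · have hq2 := (hTp t.1 t.2).two_le
      exact H79.PtB.lam_prodElt G hpS hLS' π hπ hH b₂ hb₂ hN1sq (Nat.pos_of_ne_zero
        (mul_ne_zero (NeZero.ne _) ht₀.ne_zero)) (fun r hr _ => hex r hr) hN1 hSM lam η x hη hpt
        hp2 GI hinj (hTp t.1 t.2) ((H45.isUnramifiedAt_baseChange_iff _ _).mpr (hTu t.1 t.2))
        (a := padicValNat p (t.1 - 1)) (m := (t.1 - 1) / p ^ padicValNat p (t.1 - 1))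
        (Nat.mul_div_cancel' pow_padicValNat_dvd).symm (H59.not_dvd_div_pow hq2)
        (H59.padicValNat_pos hq2 (hTd t.1 t.2))
        (ζ := ζ ^ p ^ (a - padicValNat p (t.1 - 1)))
        (H59.primitive_pow hO.prim (hO.le t.1 t.2)) (hT t)
    · exact H79.PtB.lam_c_iff G hpS hLS' π hπ hH b₂ hb₂ hN1sq (Nat.pos_of_ne_zero
        (mul_ne_zero (NeZero.ne _) ht₀.ne_zero)) (fun r hr _ => hex r hr) hN1 hSM lam η x hη hpt
        hp2 GI j ((Finset.dvd_prod_of_mem _ (Finset.mem_univ j)).trans (Dvd.intro _ rfl))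
  · intro O' _ _ _ _ _ _ _ _ _ hinj lam η x hη hx hlam h1 h2
    exact lam_hElt G hpS hLS' π hπ hH b₂ hb₂ hp2 GI t₀ hPsq
      (fun r hr _ h => hex r hr (h.mul_right _)) (Dvd.intro_left _ rfl) ht₀ (hTne _ t₀.2) ht₀M₀
      hSM lam η x hη hx hlam h1 h2

end Level

end Fermat.Agent.H85.C
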