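import Fermat.Agent.H70Lev10
import Fermat.Agent.H86InFa

/-!
# The module part of a Taylor–Wiles level, with elements killing the module

`exists_twModPart_kill`: as `H70.Mod.exists_twModPart`; the elements which vanish at all points of
the level kill the module with non-trivial character.
-/

set_option autoImplicit false
set_option linter.style.haveILetI false
set_option linter.unusedSectionVars false

open Matrix CongruenceSubgroup IsLocalRing CuspForm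
open scoped MatrixGroups TensorProduct

namespace Fermat.Agent.H85.C

open Fermat.Agent.H70.Mod Fermat.Agent.H70.Coh Fermat.Agent.H59 Fermat.Agent.H37.Rank
  Fermat.Agent.H30 Fermat.Agent.H69.EG Fermat.Agent.H86.In

set_option synthInstance.maxHeartbeats 400000
set_option maxHeartbeats 4000000

attribute [local instance] TWModPart.instAddCommGroup TWModPart.instModule

/-- restriction of the family of killing elements of a module part -/
theorem exists_of_sum {O : Type} [CommRing O] [IsLocalRing O] {ϖ : O} {p r n D : ℕ} {T : Type}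
    {R : Type} [CommRing R] [IsLocalRing R] [Algebra O R] {prodElt : T → R} {hElt : R} {U : Set R}
    (h : Nonempty (TWModPart O ϖ p r n D R
      (Sum.elim prodElt (fun a : U => (a : R))) hElt)) :
    ∃ mp : TWModPart O ϖ p r n D R prodElt hElt, ∀ a ∈ U, ∀ x : mp.M, a • x = 0 := by
  obtain ⟨m⟩ := h
  exact ⟨{ M := m.M
           instAddCommGroup := m.instAddCommGroup
           instModule := m.instModule
           d := m.d
           d_pos := m.d_pos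
           d_le := m.d_le
           e := m.e
           le_e := m.le_e
           φ := m.φ
           φ_mem := m.φ_mem
           b := m.b
           b_span := m.b_span
           b_rel := m.b_rel
           prod_smul := fun t => m.prod_smul (Sum.inl t)
           h_smul := m.h_smul }, fun a ha x => m.prod_smul (Sum.inr ⟨a, ha⟩) x⟩

/-- **The module part of a Taylor–Wiles level**, with elements killing the module. -/
theorem exists_twModPart_kill {O : Type} [CommRing O] [IsDomain O] [IsDiscreteValuationRing O]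
    [IsAdicComplete (maximalIdeal O) O] [Finite (ResidueField O)] [CharZero O]
    {p : ℕ} [Fact p.Prime] [CharP (ResidueField O) p] (hp2 : p ≠ 2)
    {R : Type} [CommRing R] [IsLocalRing R] [Algebra O R] [IsAdicComplete (maximalIdeal R) R]
    {L : ℕ} [NeZero L] {S : Set ℕ} (hSL : ∀ q : ℕ, q.Prime → q ∣ L → q ∈ S)
    {θ : heckeAlgebra L 2 S →+* ResidueField O} (π : R →ₐ[O] heckeLocal L S O θ)
    {ϖ : O} (hϖ : maximalIdeal O = Ideal.span {ϖ})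
    {r n D : ℕ} {T : Type} [Finite T] {prodElt : T → R} {hElt : R}
    -- the diamond operators on the Galois side
    (e : Fin r → ℕ) (hne : ∀ j, n ≤ e j) (c : Fin r → R) (hcm : ∀ j, c j ∈ maximalIdeal R)
    (hc : ∀ j, (1 + c j) ^ (p ^ e j) = 1)
    -- the Taylor–Wiles primes
    (Q : Fin r → ℕ) (hQ : ∀ j, (Q j).Prime) (hQinj : Function.Injective Q)
    (hQe : ∀ j, p ^ e j ∣ Q j - 1)
    -- the primes of `T`
    (qT : T → ℕ) (hqT : ∀ t, (qT t).Prime) (hqTinj : Function.Injective qT)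
    (hqTp : ∀ t, p ∣ qT t - 1) (hQT : ∀ j t, Q j ≠ qT t)
    (ζ : Oˣ) (hζ : ζ ^ p = 1) (hζ1 : ζ ≠ 1)
    -- the levels
    {M₀ q₀ N1 N2 : ℕ} [NeZero M₀] [NeZero q₀] (hq₀ : q₀.Prime) (hqM₀ : ¬ q₀ ∣ M₀)
    (hN2 : N2 ∣ M₀) (hQN2 : ∀ j, Q j ∣ N2) (hN1 : N1 ∣ M₀ * q₀) (hN21 : N2 ∣ N1)
    (hTN1 : ∀ t, qT t ∣ N1) (hsq : Squarefree N1)
    (hex : ∀ q : ℕ, q.Prime → q ∣ N1 → ¬ q * q ∣ M₀ * q₀) (hL : L = M₀ * q₀ * N1)
    (hSM : Away (M₀ * q₀) S)
    (hg : ∀ M' : ℕ, M₀ ∣ M' → Good M' O)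
    -- a non-Eisenstein prime
    (i₀ : Idx S) (hi₀1 : (L : ℤ) ∣ (i₀.1 : ℤ) - 1)
    (hi₀ : θ (TIdx L S hSL i₀) ≠ 1 + (i₀.1 : ResidueField O))
    -- ranks
    (hrk : ∀ e : MvPolynomial (Idx S) O,
      (∀ (L' : ℕ) (hL' : Adm S L'), L' ∣ L →
        IsLocIdem (TT O hL') (TT_comm hL') (thetaPoly L S hSL O θ) e) →
      ∀ (h₁ : Adm S (M₀ * q₀)) (h₀ : Adm S M₀),
        0 < Module.finrank O (Loc (TT O h₁) (TT_comm h₁) e) ∧
        Module.finrank O (Loc (TT O h₁) (TT_comm h₁) e) ≤ D ∧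
        Module.finrank O (Loc (TT O h₀) (TT_comm h₀) e) = 0)
    -- eigenclasses: the non-trivial character
    (hA : ∀ (O' : Type) [CommRing O'] [IsDomain O'] [IsDiscreteValuationRing O']
      [IsAdicComplete (maximalIdeal O') O'] [Finite (ResidueField O')] [CharZero O']
      [Algebra O O'] [Module.Finite O O'] [IsLocalHom (algebraMap O O')],
      Function.Injective (algebraMap O O') → ∀ (lam : heckeLocal L S O θ →ₐ[O] O')
      (η : (ZMod N1)ˣ →* O'ˣ) (x : H1 (gam N1 (M₀ * q₀) hN1) (psiRep (η ^ 2) O')),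
      (∃ m, Odd m ∧ η ^ m = 1) → (∀ t, ¬ TrivAt N1 (qT t) η) → (∀ c : O', c ≠ 0 → c • x ≠ 0) →
      (∀ i, tw hN1 hSM (η ^ 2) η i x = lam (heckeLocal.π L S O θ (TIdx L S hSL i)) • x) →
      (∀ t, lam (π (prodElt t)) = 0) ∧ ∀ j, (TrivAt N1 (Q j) η ↔ lam (π (1 + c j)) = 1))
    -- eigenclasses: the trivial character
    (hA3 : ∀ (O' : Type) [CommRing O'] [IsDomain O'] [IsDiscreteValuationRing O']
      [IsAdicComplete (maximalIdeal O') O'] [Finite (ResidueField O')] [CharZero O']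
      [Algebra O O'] [Module.Finite O O'] [IsLocalHom (algebraMap O O')],
      Function.Injective (algebraMap O O') → ∀ (lam : heckeLocal L S O θ →ₐ[O] O')
      (η : (ZMod N2)ˣ →* O'ˣ)
      (x : H1 (gam N2 (M₀ * q₀) (hN2.mul_right q₀)) (psiRep (η ^ 2) O')),
      (∃ m, Odd m ∧ η ^ m = 1) → (∀ c : O', c ≠ 0 → c • x ≠ 0) →
      (∀ i, tw (hN2.mul_right q₀) hSM (η ^ 2) η i x =
        lam (heckeLocal.π L S O θ (TIdx L S hSL i)) • x) →
      (trFam hN2).opH (psiRep (η ^ 2) O') x = 0 → (nuFam hN2 hq₀).opH (psiRep (η ^ 2) O') x = 0 →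
      lam (π hElt) = 0)
    -- the elements killing the module
    (hpN1 : ¬ p ∣ N1) (U : Set R) (hU : ∀ a ∈ U, VanishAt p hSL π (M₀ * q₀) a) :
    ∃ mp : TWModPart O ϖ p r n D R prodElt hElt, ∀ a ∈ U, ∀ x : mp.M, a • x = 0 := by
  have hp : p.Prime := Fact.out
  have hpO : (p : O) ∈ maximalIdeal O := by
    rw [← residue_eq_zero_iff, map_natCast, CharP.cast_eq_zero]
  haveI : NeZero (M₀ * q₀) := ⟨mul_ne_zero (NeZero.ne _) (NeZero.ne _)⟩
  haveI : NeZero N1 := ⟨hsq.ne_zero⟩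
  have hQN1 : ∀ j, Q j ∣ N1 := fun j => (hQN2 j).trans hN21
  choose u hu using fun j => exists_pchar (hQ j) (hQe j)
  obtain ⟨τ, hτp, hτT, hτQ'⟩ := exists_tau hsq qT hqT hqTinj hTN1 hqTp ζ hζ hζ1
  have hτQ : ∀ j, TrivAt N1 (Q j) τ := fun j => hτQ' (Q j) (hQ j) fun t => (hQT j t).symm
  obtain ⟨s, hs1, hs⟩ := exists_exponent e
  have hτs : τ ^ p ^ s = 1 := hom_pow_exponent hs1 hτp
  have hηs := etaL_pow hQN1 u hs hτs
  have hη₁s := etaL_pow hQN1 u hs (τ := (1 : (ZMod N1)ˣ →* Oˣ)) (hom_one_pow _)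
  have hη₂s := etaL_pow hQN2 u hs (τ := (1 : (ZMod N2)ˣ →* Oˣ)) (hom_one_pow _)
  have hgO : Good (M₀ * q₀) O := hg _ (Dvd.intro _ rfl)
  have hgO₀ : Good M₀ O := hg _ dvd_rfl
  have hgL : Good L O := hg _ (hL ▸ (Dvd.intro _ rfl : M₀ ∣ M₀ * q₀).mul_right N1)
  have hgΛ : Good (M₀ * q₀) (MonoidAlgebra O (Dlt p e)) := good_map (algebraMap O _) hgO
  have hgΛ₀ : Good M₀ (MonoidAlgebra O (Dlt p e)) := good_map (algebraMap O _) hgO₀
  have hτϖ : ∀ a, ϖ ∣ ((τ a : Oˣ) : O) - 1 := fun a => by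
    have h1 := resTriv_of_pow hp hpO hτs a
    rwa [hϖ, Ideal.mem_span_singleton] at h1
  have hm : Odd (p ^ s) := (hp.odd_of_ne_two hp2).pow
  have hi₀' : thetaPoly L S hSL O θ (MvPolynomial.X i₀) ≠ 1 + (i₀.1 : ResidueField O) := by
    rw [thetaPoly_X]; exact hi₀
  obtain ⟨ē, hē1, hē2, hē3⟩ := exists_common_idem₂ hN1 hN2 hSM hSM.left hgΛ hgΛ₀
    (thetaPoly L S hSL O θ) (thetaPoly_surj hSL θ) hSL
    (fun b => (etaL hQN1 u (if b then τ else (1 : (ZMod N1)ˣ →* Oˣ))) ^ 2)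
    (fun b => etaL hQN1 u (if b then τ else (1 : (ZMod N1)ˣ →* Oˣ)))
    (fun b => sq_neg_one _) ((etaL hQN2 u (1 : (ZMod N2)ˣ →* Oˣ)) ^ 2)
    (etaL hQN2 u (1 : (ZMod N2)ˣ →* Oˣ)) (sq_neg_one _)
  have he : IsLocIdem (tw hN1 hSM ((etaL hQN1 u τ) ^ 2) (etaL hQN1 u τ))
    (tw_comm hN1 hSM _ _) (thetaPoly L S hSL O θ) ē := hē1 true
  have he₁ : IsLocIdem (tw hN1 hSM ((etaL hQN1 u (1 : (ZMod N1)ˣ →* Oˣ)) ^ 2)
    (etaL hQN1 u (1 : (ZMod N1)ˣ →* Oˣ))) (tw_comm hN1 hSM _ _) (thetaPoly L S hSL O θ) ē :=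
    hē1 false
  clear hē1
  obtain ⟨hpos, hle, hvan⟩ := hrk ē hē2 hSM hSM.left
  have heL := hē2 L hSL dvd_rfl
  have heM := hē2 (M₀ * q₀) hSM (hL ▸ Dvd.intro _ rfl)
  have heM₀ := hē2 M₀ hSM.left (hL ▸ (Dvd.intro _ rfl : M₀ ∣ M₀ * q₀).mul_right N1)
  clear hē2 hrk
  -- freeness
  obtain ⟨i1, i2⟩ := mloc_free_O hN1 hSM hp hpO isPGroup_dlt hgΛ (sq_neg_one _) he i₀ hi₀'
    (sq_pow_eq_one hηs) hηs
  obtain ⟨i3, i4⟩ := mloc_free_O hN1 hSM hp hpO isPGroup_dlt hgΛ (sq_neg_one _) he₁ i₀ hi₀'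
    (sq_pow_eq_one hη₁s) hη₁s
  -- the actions
  obtain ⟨Φ, hΦ⟩ := exists_hecke_act hN1 hSM hSL θ hsq hex hL rfl hm hηs hgΛ (sq_neg_one _) hgL
    he heL i₀ hi₀1 hi₀
  obtain ⟨Φ₁, hΦ₁⟩ := exists_hecke_act hN1 hSM hSL θ hsq hex hL rfl hm hη₁s hgΛ (sq_neg_one _) hgL
    he₁ heL i₀ hi₀1 hi₀
  -- the basis
  obtain ⟨b, hb⟩ := exists_mloc_basis hN1 hSM hp hpO isPGroup_dlt hgΛ (sq_neg_one _) he i₀ hi₀'
    (sq_pow_eq_one hηs) hηs hgO hSM heM rfl
  -- the congruence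
  obtain ⟨N', f, hN', hf, hfΦ⟩ := exists_congr_hecke hN1 hSM hgΛ he₁ he hΦ₁ hΦ ϖ
    (etaL_sub hQN1 u τ ϖ hτϖ) (etaL_sq_sub hQN1 u τ ϖ hτϖ)
  haveI := isReduced_heckeLocal' hSL θ
  -- the eigensystems
  have hEA1 := forallEigen_diam hpO hN1 hSM hgΛ he i₀ hi₀ hΦ hηs (fun j => π (1 + c j))
    (fun O' _ _ _ _ _ _ _ _ _ hOO' lam χ z hz _ =>
      (ea_chi hQ hQinj hqT hQT hN1 hQN1 hsq hSM hu hτT hτQ hp2 hηs (fun t => π (prodElt t))
        (fun j => π (1 + c j)) hA O' hOO' lam χ z hz).2)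
  have hEA2 : ∀ t : T ⊕ U, ForallEigen Φ fun _ _ _ _ _ _ _ _ _ _ lam _ =>
      lam (π (Sum.elim prodElt (fun a : U => (a : R)) t)) = 0 := by
    rintro (t | a)
    · exact forallEigen_of_pt hpO hN1 hSM hgΛ he i₀ hi₀ hΦ hηs (π (prodElt t))
        (fun O' _ _ _ _ _ _ _ _ _ hOO' lam χ z hz _ =>
          (ea_chi hQ hQinj hqT hQT hN1 hQN1 hsq hSM hu hτT hτQ hp2 hηs (fun t => π (prodElt t))
            (fun j => π (1 + c j)) hA O' hOO' lam χ z hz).1 t)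
    · exact forallEigen_of_pt hpO hN1 hSM hgΛ he i₀ hi₀ hΦ hηs (π (a : R))
        (fun O' _ _ _ _ _ _ _ _ _ hOO' lam χ z hz _ =>
          hU a a.2 O' hOO' hN1 hpN1 hSM lam _ z ⟨s, psiMap_pow_eq_one _ hηs⟩ hz)
  have hEA3 := forallEigen_of_pt hpO hN1 hSM hgΛ he₁ i₀ hi₀ hΦ₁ hη₁s (π hElt)
    (fun O' _ _ _ _ _ _ _ _ _ hOO' lam χ z hz hez =>
      ea_one hq₀ hqM₀ hN2 hQN2 hN1 hN21 hQN1 hSM hp2 hη₂s i₀ hi₀ hgΛ₀ hgO₀ hē3 hSM.left heM₀ hvan
        (π hElt) hA3 O' (natCast_mem_of_isLocalHom hpO) hOO' lam χ z hz hez)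
  exact exists_of_sum (exists_modPart π e hne c hcm hc Φ (diam hN1 hSM _ _ ē)
    (phi_diam hN1 hSM hΦ) hpos hle b hb hEA1 hEA2 Φ₁ hEA3 N' hN' f hf hfΦ)

end Fermat.Agent.H85.C
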