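import Fermat.Agent.H7ZMod
import Fermat.Agent.H96TDef

/-!
# S47, package C21-INV: the unit-diagonal points and `Γ₀(N)` (helper85)

`L : Level (𝓞 K) K`.  A point `y : XF L.fam` is *unit-diagonal* (`UD L y`) if every coordinate is the
class of `diag(t, 1)` with `t` a unit at the place.  If at every place either the level is maximal
(and `s` is a unit there) or the condition `LOW` holds, then there are finitely many unit-diagonal
points, and there is `N₀` such that every `(a, b/s; s c, d)` of determinant one with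
`a b c d ∈ 𝓞 K`, `N₀ ∣ c`, permutes the unit-diagonal points.
-/

set_option autoImplicit false
set_option linter.unusedSectionVars false
set_option linter.unusedVariables false

noncomputable section

open IsDedekindDomain HeightOneSpectrum WithZero NumberField Matrix MeasureTheory
open scoped MatrixGroups

namespace Fermat.Agent.H85I

open Fermat.Agent.H59XF Fermat.Agent.H59D Fermat.Agent.H7.Z
open Fermat.Agent.H51Z (bm bm_mul bm_one_zero bm_inv gl_ext)

variable {K : Type*} [Field K] [NumberField K]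

/-- A matrix of determinant one. -/
def sG {K : Type*} [Field K] (a b c d : K) (h : a * d - b * c = 1) : GL (Fin 2) K :=
  GeneralLinearGroup.mkOfDetNeZero !![a, b; c, d] (by
    rw [Matrix.det_fin_two_of, h]; exact one_ne_zero)

@[simp] theorem coe_sG {K : Type*} [Field K] (a b c d : K) (h : a * d - b * c = 1) :
    ((sG a b c d h : GL (Fin 2) K) : Matrix (Fin 2) (Fin 2) K) = !![a, b; c, d] := rfl

/-- The matrix `(1 b; c 1)`. -/
def lG {K : Type*} [Field K] (b c : K) (h : 1 - b * c ≠ 0) : GL (Fin 2) K :=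
  GeneralLinearGroup.mkOfDetNeZero !![1, b; c, 1] (by
    rw [Matrix.det_fin_two_of, one_mul]; exact h)

@[simp] theorem coe_lG {K : Type*} [Field K] (b c : K) (h : 1 - b * c ≠ 0) :
    ((lG b c h : GL (Fin 2) K) : Matrix (Fin 2) (Fin 2) K) = !![1, b; c, 1] := rfl

/-- Unit-diagonal points. -/
def UD (L : Level (𝓞 K) K) (y : XF L.fam) : Prop :=
  ∀ w, ∃ t : Kˣ, w.valuation K (t : K) = 1 ∧
    y w = (((borP K).d t : PGL(2, K)) : PGL(2, K) ⧸ L.fam.U w)

/-- The condition at the bad places. -/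
def LOW (L : Level (𝓞 K) K) (w : HeightOneSpectrum (𝓞 K)) : Prop :=
  ∃ k : ℕ, ∀ b c : K, (∀ r : K, w.valuation K r ≤ 1 → psi w (b * r) = 1) →
    w.valuation K c ≤ exp (-(k : ℤ)) → ∀ g : GL (Fin 2) K,
      (g : Matrix (Fin 2) (Fin 2) K) = !![1, b; c, 1] → (ProjGenLinGroup.mk g : PGL(2, K)) ∈ L.U w

theorem val_le_one (v : HeightOneSpectrum (𝓞 K)) (x : 𝓞 K) : v.valuation K (x : K) ≤ 1 :=
  v.valuation_le_one x

/-- If `a d ≡ 1` modulo something small at `v`, then `v d = 1`. -/
theorem val_eq_one_of_mul {v : HeightOneSpectrum (𝓞 K)} {a d y : 𝓞 K} (h : a * d = 1 + y)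
    (hy : v.valuation K (y : K) < 1) : v.valuation K (d : K) = 1 := by
  have h1 : v.valuation K ((a : K) * d) = 1 := by
    have : ((a : K) * d) = 1 + y := by exact_mod_cast congrArg (fun x : 𝓞 K => (x : K)) h
    rw [this]
    exact (v.valuation K).map_one_add_of_lt hy
  rw [map_mul] at h1
  refine le_antisymm (val_le_one v d) ?_
  by_contra hlt
  push Not at hlt
  have : v.valuation K (a : K) * v.valuation K (d : K) < 1 :=
    lt_of_le_of_lt (mul_le_of_le_one_left' (val_le_one v a)) hlt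
  rw [h1] at this
  exact lt_irrefl _ this

/-- The torus part of the level is open (from `LOW`). -/
theorem LOW.d_mem {L : Level (𝓞 K) K} {w : HeightOneSpectrum (𝓞 K)} (h : LOW L w) :
    ∃ k : ℕ, ∀ a : Kˣ, w.valuation K ((a : K) - 1) ≤ exp (-(k : ℤ)) →
      (borP K).d a ∈ L.U w := by
  obtain ⟨k, hk⟩ := h
  refine ⟨k, fun a ha => ?_⟩
  have hψ : ∀ r : K, w.valuation K r ≤ 1 → psi w (1 * r) = 1 := fun r hr => by
    rw [one_mul]; exact psi_of_integral w hr
  have hψ0 : ∀ r : K, w.valuation K r ≤ 1 → psi w (0 * r) = 1 := fun r hr => by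
    rw [zero_mul]; exact AddChar.map_zero_eq_one _
  have hc : w.valuation K (1 - (a : K)) ≤ exp (-(k : ℤ)) := by
    rw [Valuation.map_sub_swap]; exact ha
  have ha0 := a.ne_zero
  have h1 := hk 1 (1 - a) hψ hc (lG 1 (1 - (a : K)) (by simp)) rfl
  have h2 := hk 0 (1 - a) hψ0 hc (lG 0 (1 - (a : K)) (by simp)) rfl
  have h3 := hk 1 0 hψ (by simp) (lG 1 0 (by simp)) rfl
  have hd : (borP K).d a = (ProjGenLinGroup.mk (lG (1 : K) 0 (by simp)) : PGL(2, K))⁻¹ *
      ProjGenLinGroup.mk (lG 1 (1 - (a : K)) (by simp)) *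
      (ProjGenLinGroup.mk (lG (0 : K) (1 - (a : K)) (by simp)))⁻¹ := by
    rw [eq_mul_inv_iff_mul_eq, eq_inv_mul_iff_mul_eq, borP_d, ← map_mul, ← map_mul]
    congr 1
    apply Units.ext
    rw [Units.val_mul, Units.val_mul, coe_lG, coe_lG, coe_lG]
    ext i j
    fin_cases i <;> fin_cases j <;> simp [Matrix.mul_apply, Fin.sum_univ_two, bm]
  rw [hd]
  exact mul_mem (mul_mem (inv_mem h3) h1) (inv_mem h2)

/-- The hypotheses on the level. -/
def LevelOK (L : Level (𝓞 K) K) (s : K) : Prop :=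
  ∀ w, (L.U w = U0 w ∧ w.valuation K s = 1) ∨ LOW L w

/-- the classes of `diag(t, 1)`, `t` a unit at `w` -/
def udSet (L : Level (𝓞 K) K) (w : HeightOneSpectrum (𝓞 K)) : Set (PGL(2, K) ⧸ L.fam.U w) :=
  {c | ∃ t : Kˣ, w.valuation K (t : K) = 1 ∧
    c = (((borP K).d t : PGL(2, K)) : PGL(2, K) ⧸ L.fam.U w)}

theorem mk_eq_of_mem {L : Level (𝓞 K) K} {w : HeightOneSpectrum (𝓞 K)} {g h : PGL(2, K)}
    (H : h⁻¹ * g ∈ L.U w) : ((g : PGL(2, K)) : PGL(2, K) ⧸ L.fam.U w) = (h : PGL(2, K)) := by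
  rw [eq_comm, QuotientGroup.eq]
  exact H

theorem udSet_good {L : Level (𝓞 K) K} {w : HeightOneSpectrum (𝓞 K)} (h : L.U w = U0 w) :
    udSet L w = {((1 : PGL(2, K)) : PGL(2, K) ⧸ L.fam.U w)} := by
  ext c
  constructor
  · rintro ⟨t, ht, rfl⟩
    apply mk_eq_of_mem
    rw [h, inv_one, one_mul]
    exact d_mem_U0 ht
  · rintro rfl
    exact ⟨1, by simp, by rw [(borP K).d_one]⟩

theorem udSet_finite {L : Level (𝓞 K) K} {w : HeightOneSpectrum (𝓞 K)} (h : LOW L w) :
    (udSet L w).Finite := by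
  classical
  obtain ⟨k, hk⟩ := h.d_mem
  have hfin : Finite (𝓞 K ⧸ w.asIdeal ^ (k + 1)) := by
    apply Ideal.finiteQuotientOfFreeOfNeBot
    exact pow_ne_zero _ w.ne_bot
  let f : 𝓞 K ⧸ w.asIdeal ^ (k + 1) → PGL(2, K) ⧸ L.fam.U w := fun q =>
    if hq : ((Quotient.out q : 𝓞 K) : K) ≠ 0 then
      (((borP K).d (Units.mk0 _ hq) : PGL(2, K)) : PGL(2, K) ⧸ L.fam.U w)
    else ((1 : PGL(2, K)) : PGL(2, K) ⧸ L.fam.U w)
  refine (Set.finite_range f).subset ?_
  rintro c ⟨t, ht, rfl⟩
  -- approximate `t` by an integral element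
  obtain ⟨β, hβ1, hβ2⟩ := exists_approx {w} (fun _ => (t : K)) (fun _ => k + 1)
  have hβw : w.valuation K (β - t) ≤ exp (-((k + 1 : ℕ) : ℤ)) := hβ1 w (Finset.mem_singleton_self w)
  have hlt1 : (exp (-((k + 1 : ℕ) : ℤ)) : WithZero (Multiplicative ℤ)) < 1 := by
    rw [← exp_zero, exp_lt_exp]; push_cast; omega
  have hβt : w.valuation K β = 1 := by
    have h1 : β = (β - t) + t := by ring
    rw [h1, Valuation.map_add_eq_of_lt_right _ (by rw [ht]; exact hβw.trans_lt hlt1), ht]
  have hβint : ∀ v : HeightOneSpectrum (𝓞 K), v.valuation K β ≤ 1 := by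
    intro v
    by_cases hv : v = w
    · subst hv; exact hβt.le
    · exact hβ2 v (by simpa using hv)
  obtain ⟨r, hr⟩ : ∃ r : 𝓞 K, (r : K) = β :=
    HeightOneSpectrum.mem_integers_of_valuation_le_one K β hβint
  refine ⟨Ideal.Quotient.mk _ r, ?_⟩
  set q : 𝓞 K := Quotient.out (Ideal.Quotient.mk (w.asIdeal ^ (k + 1)) r) with hq
  have h1 : Ideal.Quotient.mk (w.asIdeal ^ (k + 1)) q = Ideal.Quotient.mk (w.asIdeal ^ (k + 1)) r :=
    Quotient.out_eq _
  rw [Ideal.Quotient.mk_eq_mk_iff_sub_mem] at h1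
  have h2 : w.valuation K ((q : K) - r) ≤ exp (-((k + 1 : ℕ) : ℤ)) := by
    have h3 := (w.intValuation_le_pow_iff_mem (q - r) (k + 1)).mpr h1
    have h4 : (q : K) - r = algebraMap (𝓞 K) K (q - r) := (map_sub (algebraMap (𝓞 K) K) q r).symm
    rw [h4, w.valuation_of_algebraMap]
    exact h3
  have h3 : w.valuation K ((q : K) - t) ≤ exp (-((k + 1 : ℕ) : ℤ)) := by
    have h4 : (q : K) - t = ((q : K) - r) + (β - t) := by rw [hr]; ring
    rw [h4]
    exact (Valuation.map_add _ _ _).trans (max_le h2 hβw)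
  have h5 : w.valuation K (q : K) = 1 := by
    have h6 : (q : K) = ((q : K) - t) + t := by ring
    rw [h6, Valuation.map_add_eq_of_lt_right _ (by rw [ht]; exact h3.trans_lt hlt1), ht]
  have h7 : (q : K) ≠ 0 := by
    intro h0
    rw [h0, map_zero] at h5
    exact zero_ne_one h5
  change f _ = _
  simp only [f]
  rw [dif_pos h7]
  apply mk_eq_of_mem
  rw [← (borP K).d_inv, ← (borP K).d_mul]
  apply hk
  have h8 : (((t⁻¹ * Units.mk0 (q : K) h7 : Kˣ) : K) - 1) = ((q : K) - t) / t := by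
    have := t.ne_zero
    push_cast
    rw [Units.val_mk0]
    field_simp
  rw [h8, map_div₀, ht, div_one]
  refine h3.trans ?_
  rw [exp_le_exp]
  push_cast
  omega

/-- There are finitely many unit-diagonal points. -/
theorem finite_UD {L : Level (𝓞 K) K} {s : K} (h : LevelOK L s) : {y : XF L.fam | UD L y}.Finite := by
  classical
  let T : Finset (HeightOneSpectrum (𝓞 K)) := L.fin.toFinset
  have hfin : ∀ w ∈ T, (udSet L w).Finite := by
    intro w hw
    have h1 : L.U w ≠ U0 w := by simpa [T] using hw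
    rcases h w with h2 | h2
    · exact absurd h2.1 h1
    · exact udSet_finite h2
  have hfin' : ∀ w : T, Finite (udSet L w.1) := fun w => (hfin w.1 w.2).to_subtype
  let F : {y : XF L.fam | UD L y} → ((w : T) → udSet L w.1) := fun y w => ⟨y.1 w.1, y.2 w.1⟩
  have hF : Function.Injective F := by
    intro y y' hyy
    apply Subtype.ext
    apply XF.ext
    intro w
    by_cases hw : w ∈ T
    · have := congrFun hyy ⟨w, hw⟩
      exact congrArg Subtype.val this
    · have h1 : L.U w = U0 w := by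
        by_contra hcon
        exact hw (by simpa [T] using hcon)
      have h2 : y.1 w ∈ udSet L w := y.2 w
      have h3 : y'.1 w ∈ udSet L w := y'.2 w
      rw [udSet_good h1] at h2 h3
      rw [Set.mem_singleton_iff] at h2 h3
      rw [h2, h3]
  exact Set.finite_coe_iff.mp (Finite.of_injective F hF)

/-- The local condition on `N₀`. -/
theorem exists_N0 (T : Finset (HeightOneSpectrum (𝓞 K))) (k : HeightOneSpectrum (𝓞 K) → ℕ)
    (q : ℕ) (hq : 0 < q) : ∃ N₀ : ℕ, 0 < N₀ ∧ q ∣ N₀ ∧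
      ∀ w ∈ T, w.valuation K ((N₀ : 𝓞 K) : K) ≤ exp (-((k w + 1 : ℕ) : ℤ)) := by
  classical
  have hp : ∀ w : HeightOneSpectrum (𝓞 K), ∃ p : ℕ, 0 < p ∧ w.valuation K ((p : 𝓞 K) : K) < 1 := by
    intro w
    refine ⟨Ideal.absNorm w.asIdeal, ?_, ?_⟩
    · rw [Nat.pos_iff_ne_zero, Ne, Ideal.absNorm_eq_zero_iff]
      exact w.ne_bot
    · rw [w.valuation_lt_one_iff_mem]
      exact Ideal.absNorm_mem w.asIdeal
  choose p hp0 hp1 using hp
  refine ⟨q * ∏ w ∈ T, p w ^ (k w + 1), ?_, Dvd.intro _ rfl, ?_⟩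
  · exact Nat.mul_pos hq (Finset.prod_pos fun w _ => pow_pos (hp0 w) _)
  · intro w hw
    have h1 : p w ^ (k w + 1) ∣ q * ∏ w ∈ T, p w ^ (k w + 1) :=
      (Finset.dvd_prod_of_mem _ hw).mul_left q
    obtain ⟨m, hm⟩ := h1
    rw [hm]
    have h2 : (((p w ^ (k w + 1) * m : ℕ) : 𝓞 K) : K) = (((p w : 𝓞 K) : K)) ^ (k w + 1) *
        ((m : 𝓞 K) : K) := by
      push_cast
      rfl
    rw [h2, map_mul, map_pow]
    have h3 : w.valuation K ((p w : 𝓞 K) : K) ≤ exp (-(1 : ℤ)) := by
      rw [← Fermat.Agent.H51Z.lt_one_iff]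
      exact hp1 w
    refine (mul_le_of_le_one_right' (val_le_one w _)).trans ?_
    refine (pow_le_pow_left' h3 _).trans ?_
    rw [← WithZero.exp_nsmul, exp_le_exp]
    simp

/-- The computation at one place. -/
theorem move_local {t : Kˣ} {a d : Kˣ} {b c : K} (h : (a : K) * d - b * c = 1) :
    ((borP K).d (t * a / d))⁻¹ * (ProjGenLinGroup.mk (sG (a : K) b c d h) * (borP K).d t) =
      ProjGenLinGroup.mk (lG (b / (t * a)) (c * t / d) (by
        have ht := t.ne_zero
        have ha := a.ne_zero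
        have hd := d.ne_zero
        intro h0
        have h1 : b / (t * a) * (c * t / d) = b * c / (a * d) := by field_simp
        rw [h1] at h0
        have h2 : (a : K) * d - b * c = 0 := by
          field_simp at h0
          linear_combination h0
        rw [h] at h2
        exact one_ne_zero h2)) := by
  rw [← (borP K).d_inv, borP_d, borP_d, ← map_mul, ← map_mul, ProjGenLinGroup.mk_eq_mk_iff]
  refine ⟨d⁻¹, ?_⟩
  apply Units.ext
  have ht : (t : K) ≠ 0 := t.ne_zero
  have ha : (a : K) ≠ 0 := a.ne_zero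
  have hd : (d : K) ≠ 0 := d.ne_zero
  have hscal : ((GeneralLinearGroup.scalar (Fin 2) d⁻¹ : GL (Fin 2) K) :
      Matrix (Fin 2) (Fin 2) K) = ((d : K)⁻¹ : K) • (1 : Matrix (Fin 2) (Fin 2) K) := by
    rw [GeneralLinearGroup.coe_scalar]
    ext i j
    simp [Matrix.scalar_apply, Matrix.diagonal_apply, Matrix.one_apply]
  rw [Units.val_mul, Units.val_mul, Units.val_mul, hscal, Matrix.mul_smul, Matrix.mul_one]
  simp only [bm_coe, coe_lG, coe_sG]
  ext i j
  simp only [Matrix.smul_apply, Matrix.mul_apply, Fin.sum_univ_two, smul_eq_mul]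
  fin_cases i <;> fin_cases j <;> simp <;> field_simp

/-- `psi w` is trivial on the local inverse different `s⁻¹ 𝒪_w`. -/
theorem psi_of_dual {s : 𝓞 K} (hs : s ≠ 0)
    (hdual : ∀ o : 𝓞 K, ∃ n : ℤ, Algebra.trace ℚ K ((o : K) / s) = n)
    (w : HeightOneSpectrum (𝓞 K)) {β : K} (hβ : w.valuation K (β * s) ≤ 1) : psi w β = 1 := by
  have hs0 : (s : K) ≠ 0 := by exact_mod_cast hs
  obtain ⟨h1, h2⟩ := part_spec w β
  set β' := part w β
  rw [psi_eq w h1 h2]
  have h3 : ∀ v : HeightOneSpectrum (𝓞 K), v.valuation K (β' * s) ≤ 1 := by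
    intro v
    by_cases hv : v = w
    · subst hv
      have h4 : β' * s = β * s - (β - β') * s := by ring
      rw [h4]
      refine (Valuation.map_sub _ _ _).trans (max_le hβ ?_)
      rw [map_mul]
      exact mul_le_one' h1 (val_le_one v s)
    · rw [map_mul]
      exact mul_le_one' (h2 v hv) (val_le_one v s)
  obtain ⟨o, ho⟩ : ∃ o : 𝓞 K, (o : K) = β' * s :=
    HeightOneSpectrum.mem_integers_of_valuation_le_one K _ h3
  obtain ⟨n, hn⟩ := hdual o
  have h5 : β' = (o : K) / s := by rw [ho]; field_simp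
  rw [h5, hn, ← Int.cast_neg]
  exact ee_int (-n)

/-- The matrices `(a, b/s; s N₀ x, d)` of determinant one preserve the set of unit-diagonal
points. -/
theorem exists_level {L : Level (𝓞 K) K} {s : 𝓞 K} (hL : LevelOK L (s : K)) (hs : s ≠ 0)
    (hdual : ∀ o : 𝓞 K, ∃ n : ℤ, Algebra.trace ℚ K ((o : K) / s) = n) (q : ℕ) (hq : 0 < q) :
    ∃ N₀ : ℕ, 0 < N₀ ∧ q ∣ N₀ ∧ ∀ (a b x d : 𝓞 K)
      (h : (a : K) * d - (b / s : K) * (s * (((N₀ : 𝓞 K) : K) * x) : K) = 1) (y : XF L.fam),
      UD L y → UD L ((ProjGenLinGroup.mk (sG (a : K) (b / s) (s * (((N₀ : 𝓞 K) : K) * x)) d h) :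
        PGL(2, K)) • y) := by
  classical
  have hs0 : (s : K) ≠ 0 := by exact_mod_cast hs
  have hfin2 : {w : HeightOneSpectrum (𝓞 K) | w.valuation K (s : K) ≠ 1}.Finite := by
    refine (HeightOneSpectrum.Support.finite (𝓞 K) ((s : K)⁻¹)).subset ?_
    intro w hw
    have h1 : w.valuation K (s : K) < 1 := lt_of_le_of_ne (val_le_one w s) hw
    change 1 < w.valuation K ((s : K)⁻¹)
    rw [map_inv₀]
    exact (one_lt_inv₀ (zero_lt_iff.mpr ((Valuation.ne_zero_iff _).mpr hs0))).mpr h1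
  let T : Finset (HeightOneSpectrum (𝓞 K)) := (L.fin.union hfin2).toFinset
  let k : HeightOneSpectrum (𝓞 K) → ℕ := fun w => if hw : LOW L w then hw.choose else 0
  obtain ⟨N₀, hN0, hqN, hN⟩ := exists_N0 T k q hq
  refine ⟨N₀, hN0, hqN, ?_⟩
  intro a b x d h y hy w
  obtain ⟨t, ht, hyt⟩ := hy w
  by_cases hgood : L.U w = U0 w ∧ w.valuation K (s : K) = 1
  · -- good places
    refine ⟨1, by simp, ?_⟩
    have hy1 : y w ∈ udSet L w := hy w
    rw [udSet_good hgood.1, Set.mem_singleton_iff] at hy1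
    rw [XF.smul_apply, hy1, (borP K).d_one]
    change ((_ * 1 : PGL(2, K)) : PGL(2, K) ⧸ L.fam.U w) = _
    apply mk_eq_of_mem
    rw [inv_one, one_mul, mul_one, hgood.1]
    refine ⟨sG (a : K) (b / s) (s * (((N₀ : 𝓞 K) : K) * x)) d h, ⟨?_, ?_⟩, rfl⟩
    · intro i j
      change w.valuation K ((!![(a : K), b / s; s * (((N₀ : 𝓞 K) : K) * x), (d : K)] :
        Matrix (Fin 2) (Fin 2) K) i j) ≤ 1
      fin_cases i <;> fin_cases j
      · exact val_le_one w a
      · change w.valuation K (b / s : K) ≤ 1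
        rw [map_div₀, hgood.2, div_one]
        exact val_le_one w b
      · change w.valuation K (s * (((N₀ : 𝓞 K) : K) * x) : K) ≤ 1
        rw [map_mul, map_mul]
        exact mul_le_one' (val_le_one w s) (mul_le_one' (val_le_one w _) (val_le_one w x))
      · exact val_le_one w d
    · rw [coe_sG, Matrix.det_fin_two_of, h, map_one]
  · have hlow : LOW L w := by
      rcases hL w with h1 | h1
      · exact absurd h1 hgood
      · exact h1
    have hwT : w ∈ T := by
      simp only [T, Set.Finite.mem_toFinset, Set.mem_union, Set.mem_ofPred_eq]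
      by_contra hcon
      push Not at hcon
      exact hgood hcon
    have hkw : k w = hlow.choose := dif_pos hlow
    have hNw := hN w hwT
    have hlt1 : (exp (-((k w + 1 : ℕ) : ℤ)) : WithZero (Multiplicative ℤ)) < 1 := by
      rw [← exp_zero, exp_lt_exp]; push_cast; omega
    have hdet : (a : K) * d = 1 + b * (((N₀ : 𝓞 K) : K) * x) := by
      have h2 : (b / s : K) * (s * (((N₀ : 𝓞 K) : K) * x) : K) = b * (((N₀ : 𝓞 K) : K) * x) := by
        field_simp
      rw [h2] at h
      linear_combination h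
    have hdet' : a * d = 1 + b * ((N₀ : 𝓞 K) * x) := by exact_mod_cast hdet
    have hy' : w.valuation K ((b * ((N₀ : 𝓞 K) * x) : 𝓞 K) : K) < 1 := by
      have h3 : ((b * ((N₀ : 𝓞 K) * x) : 𝓞 K) : K) = (b : K) * (((N₀ : 𝓞 K) : K) * x) := rfl
      rw [h3, map_mul, map_mul]
      refine lt_of_le_of_lt ?_ (hNw.trans_lt hlt1)
      refine le_trans (mul_le_of_le_one_left' (val_le_one w b)) ?_
      exact mul_le_of_le_one_right' (val_le_one w x)
    have hd1 : w.valuation K (d : K) = 1 := val_eq_one_of_mul hdet' hy'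
    have ha1 : w.valuation K (a : K) = 1 := val_eq_one_of_mul (a := d) (by
      rw [mul_comm]; exact hdet') hy'
    have hd0 : (d : K) ≠ 0 := by
      intro h0; rw [h0, map_zero] at hd1; exact zero_ne_one hd1
    have ha0 : (a : K) ≠ 0 := by
      intro h0; rw [h0, map_zero] at ha1; exact zero_ne_one ha1
    refine ⟨t * Units.mk0 (a : K) ha0 / Units.mk0 (d : K) hd0, ?_, ?_⟩
    · rw [Units.val_div_eq_div_val, Units.val_mul, Units.val_mk0, Units.val_mk0, map_div₀, map_mul,
        ht, ha1, hd1, one_mul, div_one]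
    · rw [XF.smul_apply, hyt]
      change ((ProjGenLinGroup.mk (sG (a : K) (b / s) (s * (((N₀ : 𝓞 K) : K) * x)) d h) *
        (borP K).d t : PGL(2, K)) : PGL(2, K) ⧸ L.fam.U w) = _
      apply mk_eq_of_mem
      have h4 := move_local (t := t) (a := Units.mk0 (a : K) ha0) (d := Units.mk0 (d : K) hd0)
        (b := (b / s : K)) (c := s * (((N₀ : 𝓞 K) : K) * x)) h
      have h5 : sG ((Units.mk0 (a : K) ha0 : Kˣ) : K) (b / s) (s * (((N₀ : 𝓞 K) : K) * x))
        ((Units.mk0 (d : K) hd0 : Kˣ) : K) h = sG (a : K) (b / s) (s * (((N₀ : 𝓞 K) : K) * x)) d h :=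
        rfl
      rw [h5] at h4
      rw [h4]
      refine hlow.choose_spec _ _ ?_ ?_ _ rfl
      · intro r hr
        apply psi_of_dual hs hdual
        have h6 : (b : K) / s / (t * ((Units.mk0 (a : K) ha0 : Kˣ) : K)) * r * s =
            (b : K) * r / (t * a) := by
          rw [Units.val_mk0]
          have := t.ne_zero
          field_simp
        rw [h6, map_div₀, map_mul, map_mul, ht, ha1, one_mul, div_one]
        exact mul_le_one' (val_le_one w b) hr
      · rw [Units.val_mk0, map_div₀, hd1, div_one, map_mul, ht, mul_one, map_mul, map_mul]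
        refine le_trans (mul_le_of_le_one_left' (val_le_one w s)) ?_
        refine le_trans (mul_le_of_le_one_right' (val_le_one w x)) ?_
        refine hNw.trans ?_
        rw [exp_le_exp, hkw]
        push_cast
        omega

end Fermat.Agent.H85I
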