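import Fermat.Agent.H85I1
import Fermat.Agent.H19W5
import Fermat.Agent.H83ZEis

/-!
# S47, package C21-INV: `Γ₀(N)`-invariance of the sum over the unit-diagonal points (helper85)

`K = ℚ(ω)` (one complex place), `Φ : m.X → ℂ` invariant under `PGL(2, K)`.  The function
`f1 w = ∑ᶠ y unit-diagonal, Φ (diag(1/√-3, 1) w, y)` is invariant under `S47T.Gam N₀`.
-/

set_option autoImplicit false
set_option linter.unusedSectionVars false
set_option linter.unusedVariables false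

noncomputable section

open IsDedekindDomain HeightOneSpectrum WithZero NumberField Matrix MeasureTheory
open scoped MatrixGroups

namespace Fermat.Agent.H85I

open Fermat.Agent.H59XF Fermat.Agent.H59D Fermat.Agent.H7.Z Fermat.Agent.S47T
open Fermat.Agent.H83Z

variable {K : Type*} [Field K] [NumberField K] [IsCyclotomicExtension {3} ℚ K]
  {J : Type*} [Fintype J] [Unique J]

/-- `√-3` in `𝓞 K`. -/
def sqO (e : K →+* ℂ) : 𝓞 K := (eisO e).symm sq3E

theorem e_sqO (e : K →+* ℂ) : e ((sqO e : 𝓞 K) : K) = sq3 := e_symm e sq3E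

theorem sqO_ne_zero (e : K →+* ℂ) : sqO e ≠ 0 := by
  intro h
  have h1 := e_sqO e
  rw [h] at h1
  apply sq3_ne_zero
  rw [← h1]
  simp

/-- The trace of `o / √-3` is an integer. -/
theorem trace_sqO (m : Model K J) (o : 𝓞 K) :
    ∃ n : ℤ, Algebra.trace ℚ K ((o : K) / (sqO (m.e default) : 𝓞 K)) = n := by
  have h1 := H19W.trr_eq_trace' m ((o : K) / (sqO (m.e default) : 𝓞 K))
  obtain ⟨a, b, hab⟩ := (eisO (m.e default) o).2
  rw [coe_eisO] at hab
  refine ⟨b, ?_⟩
  have h2 : H19W.trr m.e ((o : K) / (sqO (m.e default) : 𝓞 K)) = b := by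
    rw [H19W.trr, Fintype.sum_unique, map_div₀, e_sqO, hab]
    have h3 : ((a : ℂ) + b * om) / sq3 = (b : ℂ) / 2 + ((-(a : ℝ) / 3 + (b : ℝ) / 6 : ℝ) : ℂ) * sq3 := by
      rw [div_eq_iff sq3_ne_zero, om]
      push_cast
      linear_combination ((-(a : ℂ) / 3 + (b : ℂ) / 6)) * (-sq3_mul_sq3)
    rw [h3, sq3]
    simp
    ring
  rw [h2] at h1
  exact_mod_cast h1.symm

/-- `diag(1/√-3, 1)` in `GL₂(ℂ)`. -/
def dl : GL (Fin 2) ℂ := GeneralLinearGroup.mkOfDetNeZero !![1 / sq3, 0; 0, 1] (by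
  rw [Matrix.det_fin_two_of]; simp [sq3_ne_zero])

/-- The point of `X` with archimedean component `w`. -/
def ptX (m : Model K J) (w : H3) (y : XF m.L.fam) : m.X := (fun _ => w, y)

/-- The sum over the unit-diagonal points. -/
def f1 (m : Model K J) (Φ : m.X → ℂ) (w : H3) : ℂ :=
  ∑ᶠ y : {y : XF m.L.fam // UD m.L y}, Φ (ptX m (dl • w) y.1)

theorem f1_eq_sum {m : Model K J} {s : K} (hL : LevelOK m.L s) (Φ : m.X → ℂ) (w : H3) :
    f1 m Φ w = ∑ y ∈ (finite_UD hL).toFinset, Φ (ptX m (dl • w) y) := by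
  rw [← finsum_mem_eq_finite_toFinset_sum _ (finite_UD hL)]
  exact finsum_subtype_eq_finsum_cond (f := fun y => Φ (ptX m (dl • w) y)) (fun y => UD m.L y)

/-- **Invariance under `Γ₀(N₀)`**. -/
theorem exists_Gam_inv (m : Model K J) (hL : LevelOK m.L ((sqO (m.e default) : 𝓞 K) : K)) (q : ℕ)
    (hq : 0 < q) : ∃ N₀ : ℕ, 0 < N₀ ∧ q ∣ N₀ ∧ ∀ Φ : m.X → ℂ,
      (∀ (g : PGL(2, K)) (x : m.X), Φ (g • x) = Φ x) →
      ∀ γ ∈ Gam N₀, ∀ w : H3, f1 m Φ (γ • w) = f1 m Φ w := by
  obtain ⟨N₀, hN0, hqN, hmove⟩ := exists_level hL (sqO_ne_zero _) (trace_sqO m) q hq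
  refine ⟨N₀, hN0, hqN, ?_⟩
  intro Φ hΦ γ hγ w
  obtain ⟨hdet, hent, x', hx', hγ10⟩ := hγ
  set e : K →+* ℂ := m.e default with he
  set s : 𝓞 K := sqO e with hsdef
  -- lift the entries
  set A : 𝓞 K := (eisO e).symm ⟨_, hent 0 0⟩
  set B : 𝓞 K := (eisO e).symm ⟨_, hent 0 1⟩
  set D : 𝓞 K := (eisO e).symm ⟨_, hent 1 1⟩
  set X : 𝓞 K := (eisO e).symm ⟨_, hx'⟩
  have hA : e (A : K) = (γ : Matrix (Fin 2) (Fin 2) ℂ) 0 0 := e_symm e _
  have hB : e (B : K) = (γ : Matrix (Fin 2) (Fin 2) ℂ) 0 1 := e_symm e _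
  have hD : e (D : K) = (γ : Matrix (Fin 2) (Fin 2) ℂ) 1 1 := e_symm e _
  have hX : e (X : K) = x' := e_symm e _
  have hs3 : e (s : K) = sq3 := e_sqO e
  have hs0 : (s : K) ≠ 0 := by
    intro h0
    rw [h0, map_zero] at hs3
    exact sq3_ne_zero hs3.symm
  have hNc : ((N₀ : 𝓞 K) : K) = (N₀ : K) := by push_cast; rfl
  have hdet2 : (A : K) * D - B * (N₀ * X) = 1 := by
    apply e.injective
    rw [map_sub, map_mul, map_mul, map_mul, hA, hD, hB, hX, map_natCast, ← hγ10, map_one]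
    rw [Matrix.det_fin_two] at hdet
    exact hdet
  -- the matrix over `K` and its inverse
  have hg : (A : K) * D - (B / s : K) * (s * (((N₀ : 𝓞 K) : K) * X) : K) = 1 := by
    rw [hNc, ← hdet2]
    field_simp
  have hgi : (D : K) * A - ((-B : 𝓞 K) / s : K) * (s * (((N₀ : 𝓞 K) : K) * (-X : 𝓞 K)) : K) =
      1 := by
    rw [hNc, ← hdet2]
    push_cast
    field_simp
  set g : GL (Fin 2) K := sG (A : K) (B / s) (s * (((N₀ : 𝓞 K) : K) * X)) D hg with hgdef
  set gi : GL (Fin 2) K := sG (D : K) ((-B : 𝓞 K) / s) (s * (((N₀ : 𝓞 K) : K) * (-X : 𝓞 K))) A hgi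
    with hgidef
  have hggi : (ProjGenLinGroup.mk gi : PGL(2, K)) = (ProjGenLinGroup.mk g)⁻¹ := by
    rw [eq_inv_iff_mul_eq_one, ← map_mul]
    have : gi * g = 1 := by
      apply Units.ext
      rw [Units.val_mul, hgdef, hgidef, coe_sG, coe_sG, hNc]
      ext i j
      simp only [Matrix.mul_apply, Fin.sum_univ_two]
      fin_cases i <;> fin_cases j
      · simp
        field_simp
        linear_combination hdet2
      · simp
        field_simp
        ring
      · simp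
        ring
      · simp
        field_simp
        linear_combination hdet2
    rw [this, map_one]
  -- the action on the hyperbolic space
  have hact : ∀ w : H3, dl • γ • w = (ProjGenLinGroup.map (m.e default)
      (ProjGenLinGroup.mk g) : PGL(2, ℂ)) • (dl • w) := by
    intro w
    have h1 : (ProjGenLinGroup.map (m.e default) (ProjGenLinGroup.mk g) : PGL(2, ℂ)) =
        ProjGenLinGroup.mk (GeneralLinearGroup.map (m.e default) g) := rfl
    rw [h1, mk_smul, smul_smul, smul_smul]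
    congr 1
    apply Units.ext
    rw [Units.val_mul, Units.val_mul]
    have h2 : ((GeneralLinearGroup.map (m.e default) g : GL (Fin 2) ℂ) :
        Matrix (Fin 2) (Fin 2) ℂ) = !![(γ : Matrix (Fin 2) (Fin 2) ℂ) 0 0,
          (γ : Matrix (Fin 2) (Fin 2) ℂ) 0 1 / sq3; sq3 * (γ : Matrix (Fin 2) (Fin 2) ℂ) 1 0,
          (γ : Matrix (Fin 2) (Fin 2) ℂ) 1 1] := by
      ext i j
      rw [GeneralLinearGroup.map_apply]
      fin_cases i <;> fin_cases j
      · exact hA
      · change e ((B : K) / s) = _ / sq3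
        rw [map_div₀, hB, hs3]
      · change e ((s : K) * (((N₀ : 𝓞 K) : K) * X)) = sq3 * _
        rw [map_mul, map_mul, hX, hs3, hγ10, hNc, map_natCast]
      · exact hD
    rw [h2]
    ext i j
    have h3 := sq3_ne_zero
    change ((!![1 / sq3, 0; 0, 1] : Matrix (Fin 2) (Fin 2) ℂ) * (γ : Matrix (Fin 2) (Fin 2) ℂ)) i j =
      ((!![(γ : Matrix (Fin 2) (Fin 2) ℂ) 0 0,
          (γ : Matrix (Fin 2) (Fin 2) ℂ) 0 1 / sq3; sq3 * (γ : Matrix (Fin 2) (Fin 2) ℂ) 1 0,
          (γ : Matrix (Fin 2) (Fin 2) ℂ) 1 1] : Matrix (Fin 2) (Fin 2) ℂ) *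
        (!![1 / sq3, 0; 0, 1] : Matrix (Fin 2) (Fin 2) ℂ)) i j
    rw [Matrix.mul_apply, Matrix.mul_apply, Fin.sum_univ_two, Fin.sum_univ_two]
    fin_cases i <;> fin_cases j <;> simp <;> field_simp
  -- the permutation of the unit-diagonal points
  have hUg : ∀ y : XF m.L.fam, UD m.L y → UD m.L ((ProjGenLinGroup.mk g : PGL(2, K)) • y) :=
    fun y hy => hmove A B X D hg y hy
  have hUgi : ∀ y : XF m.L.fam, UD m.L y → UD m.L ((ProjGenLinGroup.mk gi : PGL(2, K)) • y) :=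
    fun y hy => hmove D (-B) (-X) A hgi y hy
  let E : {y : XF m.L.fam // UD m.L y} ≃ {y : XF m.L.fam // UD m.L y} :=
    { toFun := fun y => ⟨(ProjGenLinGroup.mk g : PGL(2, K)) • y.1, hUg y.1 y.2⟩
      invFun := fun y => ⟨(ProjGenLinGroup.mk gi : PGL(2, K)) • y.1, hUgi y.1 y.2⟩
      left_inv := fun y => Subtype.ext (by
        change (ProjGenLinGroup.mk gi : PGL(2, K)) • (ProjGenLinGroup.mk g : PGL(2, K)) • y.1 = y.1
        rw [hggi, inv_smul_smul])
      right_inv := fun y => Subtype.ext (by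
        change (ProjGenLinGroup.mk g : PGL(2, K)) • (ProjGenLinGroup.mk gi : PGL(2, K)) • y.1 = y.1
        rw [hggi, smul_inv_smul]) }
  rw [f1, f1, ← finsum_comp_equiv E]
  refine finsum_congr fun y => ?_
  have h1 : ptX m (dl • γ • w) (E y).1 =
      (ProjGenLinGroup.mk g : PGL(2, K)) • ptX m (dl • w) y.1 := by
    apply Prod.ext
    · funext j
      rw [Model.smul_fst, Unique.eq_default j]
      exact hact w
    · rfl
  exact (congrArg Φ h1).trans (hΦ _ _)

end Fermat.Agent.H85I
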