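import Fermat.Agent.H85I4
import Fermat.Agent.H83ZEis2
import Fermat.Agent.H79SBlk

/-!
# S47, package C21: from `PreICT` to `IctOut` (helper85)
-/

set_option autoImplicit false
set_option linter.unusedSectionVars false
set_option linter.unusedVariables false

noncomputable section

open IsDedekindDomain HeightOneSpectrum WithZero NumberField Matrix MeasureTheory
open scoped MatrixGroups

namespace Fermat.Agent.H85I

open Fermat.Agent.H59XF Fermat.Agent.H59D Fermat.Agent.H7.Z Fermat.Agent.S47T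
open Fermat.Agent.H83Z Fermat.Agent.H76U Fermat.Agent.H69I Fermat.Agent.H79S

section Fin

variable {K : Type*} [Field K] [NumberField K] [IsCyclotomicExtension {3} ℚ K]

open Classical in
/-- The eigenvalue at a prime of `ℤ[ω]`. -/
def lamE (e : K →+* ℂ) (a : HeightOneSpectrum (𝓞 K) → ℝ) (ϖ : Eis) : ℝ :=
  if h : ∃ v : HeightOneSpectrum (𝓞 K), v.asIdeal = Ideal.span {(eisO e).symm ϖ} then
    a h.choose else 0

theorem lamE_eq (e : K →+* ℂ) (a : HeightOneSpectrum (𝓞 K) → ℝ) {ϖ : Eis}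
    {v : HeightOneSpectrum (𝓞 K)} (hv : v.asIdeal = Ideal.span {(eisO e).symm ϖ}) :
    lamE e a ϖ = a v := by
  have h : ∃ v : HeightOneSpectrum (𝓞 K), v.asIdeal = Ideal.span {(eisO e).symm ϖ} := ⟨v, hv⟩
  rw [lamE, dif_pos h]
  congr 1
  exact HeightOneSpectrum.ext (h.choose_spec.trans hv.symm)

theorem prime_of_span (e : K →+* ℂ) {ϖ : Eis}
    {v : HeightOneSpectrum (𝓞 K)} (hv : v.asIdeal = Ideal.span {(eisO e).symm ϖ}) :
    Prime ϖ := by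
  have h0 : (eisO e).symm ϖ ≠ 0 := by
    intro h
    apply v.ne_bot
    rw [hv, h, Ideal.span_singleton_eq_bot]
  have h1 : Prime ((eisO e).symm ϖ) := (Ideal.span_singleton_prime h0).1 (hv ▸ v.isPrime)
  exact (MulEquiv.prime_iff (eisO e).symm.toMulEquiv).1 h1

theorem coprime_of_notMem (e : K →+* ℂ) {ϖ : Eis}
    {v : HeightOneSpectrum (𝓞 K)} (hv : v.asIdeal = Ideal.span {(eisO e).symm ϖ}) {N : ℕ}
    (hN : (N : 𝓞 K) ∉ v.asIdeal) : IsCoprime ϖ (N : Eis) := by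
  have hp := prime_of_span e hv
  have h1 : ¬ ϖ ∣ (N : Eis) := by
    intro h
    apply hN
    rw [hv, Ideal.mem_span_singleton]
    obtain ⟨c, hc⟩ := h
    refine ⟨(eisO e).symm c, ?_⟩
    apply (eisO e).injective
    rw [map_mul, RingEquiv.apply_symm_apply, RingEquiv.apply_symm_apply, map_natCast, hc]
  exact (Irreducible.coprime_iff_not_dvd hp.irreducible).2 h1

/-- The final choice of the level. -/
theorem exists_ict {e : K →+* ℂ} {S : Finset (HeightOneSpectrum (𝓞 K))}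
    {v0 : HeightOneSpectrum (𝓞 K)} {a : HeightOneSpectrum (𝓞 K) → ℝ} {q : ℕ} (hq : q ≠ 0)
    {c : Eis → ℂ} {f : H3 → ℂ}
    (h : ∀ q' : ℕ, 0 < q' → ∃ N : ℕ, q' ∣ N ∧
      ((∀ v ∈ S, (N : 𝓞 K) ∈ v.asIdeal) → (N : 𝓞 K) ∈ v0.asIdeal →
        H40K.PreICT N (lamE e a) c f)) :
    ∃ (N : ℕ) (c : Eis → ℝ) (F : H3 → ℂ), 3 ∣ N ∧ q ∣ N ∧ ICT N c F ∧
      (∀ v ∈ S, (N : 𝓞 K) ∈ v.asIdeal) ∧ (N : 𝓞 K) ∈ v0.asIdeal ∧
      ∀ v : HeightOneSpectrum (𝓞 K), (N : 𝓞 K) ∉ v.asIdeal → ∀ ϖ : Eis,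
        v.asIdeal = Ideal.span {(eisO e).symm ϖ} → c ϖ = a v := by
  classical
  set P : ℕ := ∏ v ∈ S, Ideal.absNorm v.asIdeal with hP
  have hP0 : P ≠ 0 := Finset.prod_ne_zero_iff.2 fun v _ => by
    rw [Ne, Ideal.absNorm_eq_zero_iff]; exact v.ne_bot
  have h00 : Ideal.absNorm v0.asIdeal ≠ 0 := by
    rw [Ne, Ideal.absNorm_eq_zero_iff]; exact v0.ne_bot
  set q' : ℕ := 3 * q * P * Ideal.absNorm v0.asIdeal with hq'
  have hq'0 : 0 < q' := Nat.pos_of_ne_zero (by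
    rw [hq']; exact mul_ne_zero (mul_ne_zero (mul_ne_zero (by norm_num) hq) hP0) h00)
  obtain ⟨N, hqN, hpre⟩ := h q' hq'0
  have hmem : ∀ (v : HeightOneSpectrum (𝓞 K)) (M : ℕ), Ideal.absNorm v.asIdeal ∣ M →
      (M : 𝓞 K) ∈ v.asIdeal := by
    rintro v M ⟨t, rfl⟩
    rw [Nat.cast_mul]
    exact Ideal.mul_mem_right _ _ (Ideal.absNorm_mem _)
  have hdP : P ∣ q' := ⟨3 * q * Ideal.absNorm v0.asIdeal, by rw [hq']; ring⟩
  have hd0 : Ideal.absNorm v0.asIdeal ∣ q' := ⟨3 * q * P, by rw [hq']; ring⟩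
  have hS : ∀ v ∈ S, (N : 𝓞 K) ∈ v.asIdeal := fun v hv =>
    hmem v N (((Finset.dvd_prod_of_mem _ hv).trans hdP).trans hqN)
  have h0 : (N : 𝓞 K) ∈ v0.asIdeal := hmem v0 N (hd0.trans hqN)
  obtain ⟨c', F, hI, hc'⟩ := H40K.ict_of_pre (hpre hS h0)
  have hNd : N ∣ N ^ 3 := dvd_pow_self N (by norm_num)
  have hup : ∀ v : HeightOneSpectrum (𝓞 K), (N : 𝓞 K) ∈ v.asIdeal →
      ((N ^ 3 : ℕ) : 𝓞 K) ∈ v.asIdeal := by
    intro v hv
    rw [Nat.cast_pow]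
    exact Ideal.pow_mem_of_mem _ hv 3 (by norm_num)
  refine ⟨N ^ 3, c', F, ?_, ?_, hI, fun v hv => hup v (hS v hv), hup v0 h0, ?_⟩
  · refine (Dvd.dvd.trans ?_ hqN).trans hNd
    exact ⟨q * P * Ideal.absNorm v0.asIdeal, by rw [hq']; ring⟩
  · refine (Dvd.dvd.trans ?_ hqN).trans hNd
    exact ⟨3 * P * Ideal.absNorm v0.asIdeal, by rw [hq']; ring⟩
  · intro v hv ϖ hϖ
    rw [hc' ϖ (prime_of_span e hϖ) (coprime_of_notMem e hϖ hv)]
    exact lamE_eq e a hϖ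

end Fin

end Fermat.Agent.H85I
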