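import Fermat.Agent.H85I5

/-!
# S47, package C21: the Fourier expansion over `ℤ[ω]`, the recursion, `IctOut` (helper85)
-/

set_option autoImplicit false
set_option linter.unusedSectionVars false
set_option linter.unusedVariables false

noncomputable section

open IsDedekindDomain HeightOneSpectrum WithZero NumberField Matrix MeasureTheory
open scoped MatrixGroups

namespace Fermat.Agent.H85I

open Fermat.Agent.H59XF Fermat.Agent.H59D Fermat.Agent.H7.Z Fermat.Agent.S47T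
open Fermat.Agent.H83Z Fermat.Agent.H76U Fermat.Agent.H69I Fermat.Agent.H79S

section Exp

variable {K : Type*} [Field K] [NumberField K] [IsCyclotomicExtension {3} ℚ K]
  {J : Type*} [Fintype J] [Unique J]

/-- The element of `K` with image `α`. -/
def xE (e : K →+* ℂ) (α : Eis) : K := (((eisO e).symm α : 𝓞 K) : K)

@[simp] theorem e_xE (e : K →+* ℂ) (α : Eis) : e (xE e α) = (α : ℂ) := e_symm e α

@[simp] theorem xE_zero (e : K →+* ℂ) : xE e 0 = 0 := by simp [xE]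

@[simp] theorem xE_one (e : K →+* ℂ) : xE e 1 = 1 := by simp [xE]

@[simp] theorem xE_mul (e : K →+* ℂ) (α β : Eis) : xE e (α * β) = xE e α * xE e β := by
  simp [xE]

theorem xE_injective (e : K →+* ℂ) : Function.Injective (xE e) := by
  intro α β h
  have h1 := congrArg e h
  rw [e_xE, e_xE] at h1
  exact Subtype.ext h1

theorem xE_ne_zero (e : K →+* ℂ) {α : Eis} (h : α ≠ 0) : xE e α ≠ 0 := by
  intro h0
  exact h (xE_injective e (by rw [h0, xE_zero]))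

/-- the unit of `K` -/
def uE (e : K →+* ℂ) (α : Eis) (h : α ≠ 0) : Kˣ := Units.mk0 (xE e α) (xE_ne_zero e h)

@[simp] theorem coe_uE (e : K →+* ℂ) (α : Eis) (h : α ≠ 0) : ((uE e α h : Kˣ) : K) = xE e α := rfl

theorem K0_eq (x : ℝ) : S47T.K0 x = H22Z.K0 x := by
  simp only [S47T.K0, H22Z.K0, neg_mul]

theorem dl_smul (w : H3) : (dl • w).z = w.z / sq3 ∧ (dl • w).y = w.y / Real.sqrt 3 := by
  have h0 : (1 / sq3 : ℂ) ≠ 0 := one_div_ne_zero sq3_ne_zero
  have h1 : dl = H3.dMat (1 / sq3) h0 := by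
    apply Units.ext; rfl
  rw [h1, H3.dMat_smul]
  have h2 : ‖(1 / sq3 : ℂ)‖ = 1 / Real.sqrt 3 := by
    rw [norm_div, norm_one, sq3, norm_mul, Complex.norm_I, one_mul, Complex.norm_real,
      Real.norm_of_nonneg (Real.sqrt_nonneg _)]
  constructor
  · change 1 / sq3 * w.z = _
    ring
  · change ‖(1 / sq3 : ℂ)‖ * w.y = _
    rw [h2]
    ring

variable {m : Model K J}

/-- The sum of the Whittaker function over the unit diagonal points. -/
def bE (m : Model K J) (κ : XF m.L.fam → ℂ) (hfin : {y : XF m.L.fam | UD m.L y}.Finite)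
    (x : K) : ℂ :=
  ∑ y ∈ hfin.toFinset, H19W.coef (fun (a : Kˣ) (y : XF m.L.fam) => (borP K).d a • y) κ y x

/-- The coefficients. -/
def aE (m : Model K J) (κ : XF m.L.fam → ℂ) (hfin : {y : XF m.L.fam | UD m.L y}.Finite)
    (α : Eis) : ℂ :=
  ((‖(α : ℂ)‖ / Real.sqrt 3 : ℝ) : ℂ) * bE m κ hfin (xE (m.e default) α)

theorem bE_zero (κ : XF m.L.fam → ℂ) (hfin : {y : XF m.L.fam | UD m.L y}.Finite) :
    bE m κ hfin 0 = 0 := by
  rw [bE]
  exact Finset.sum_eq_zero fun y _ => H19W.coef_zero _ _ _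

theorem bE_unit (κ : XF m.L.fam → ℂ) (hfin : {y : XF m.L.fam | UD m.L y}.Finite) (u : Kˣ) :
    bE m κ hfin (u : K) = ∑ y ∈ hfin.toFinset, κ ((borP K).d u • y) := by
  rw [bE]
  exact Finset.sum_congr rfl fun y _ => H19W.coef_unit _ _ _ _

variable [DecidableEq (HeightOneSpectrum (𝓞 K))] {S : Finset (HeightOneSpectrum (𝓞 K))}
  {v0 : HeightOneSpectrum (𝓞 K)} {lam : HeightOneSpectrum (𝓞 K) → ℝ} {κ : XF m.L.fam → ℂ}
  {Φ : m.X → ℂ}

theorem bE_eq_zero (hC : H40K.CoefData m.L κ S v0 lam)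
    (hfin : {y : XF m.L.fam | UD m.L y}.Finite) {u : Kˣ}
    (hu : ¬ ((∀ w ∈ S, w.valuation K (u : K) = 1) ∧
      ∀ w : HeightOneSpectrum (𝓞 K), w.valuation K (u : K) ≤ 1)) : bE m κ hfin (u : K) = 0 := by
  rw [bE_unit]
  refine Finset.sum_eq_zero fun y hy => ?_
  exact hC.eq_zero_of_not (fun w _ a ha => val_eq_one_of_d_mem m.L w a ha)
    (hfin.mem_toFinset.1 hy) hu

theorem bE_eq_zpt (hC : H40K.CoefData m.L κ S v0 lam)
    (hfin : {y : XF m.L.fam | UD m.L y}.Finite) {u : Kˣ}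
    (hu : ∀ w ∈ S, w.valuation K (u : K) = 1) : bE m κ hfin (u : K) = κ (H40K.zpt m.L S u) := by
  rw [bE_unit]
  exact hC.sum_UD hfin hu

/-- **The expansion.** -/
theorem hasSum_f1 {s : K} (hL : LevelOK m.L s) (hC : H40K.CoefData m.L κ S v0 lam)
    (hW : H19W.IsWM m (fun u => H22Z.K0 (4 * Real.pi * u)) Φ κ) (w : H3) :
    HasSum (fun α : Eis => aE m κ (finite_UD hL) α *
      ((w.y * S47T.K0 (4 * Real.pi * ‖(α : ℂ)‖ * w.y / Real.sqrt 3) : ℝ) : ℂ) *
      S47T.ee ((2 * ((α : ℂ) * w.z / sq3).re : ℝ))) (f1 m Φ w) := by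
  obtain ⟨hz, hy⟩ := dl_smul w
  set hfin := finite_UD hL
  -- the expansion over `K`
  have h1 : HasSum (fun x : K => bE m κ hfin x *
      (H19W.wt m.e (fun u => u * H22Z.K0 (4 * Real.pi * u)) x (fun _ => dl • w) : ℂ) *
      H19W.chi m.e x (fun _ => (dl • w).z)) (f1 m Φ w) := by
    rw [f1_eq_sum hL]
    have h2 : ∀ y ∈ hfin.toFinset, HasSum (fun x : K =>
        H19W.coef (fun (a : Kˣ) (y : XF m.L.fam) => (borP K).d a • y) κ y x *
        (H19W.wt m.e (fun u => u * H22Z.K0 (4 * Real.pi * u)) x (fun _ => dl • w) : ℂ) *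
        H19W.chi m.e x (fun _ => (dl • w).z)) (Φ (ptX m (dl • w) y)) := fun y _ =>
      (hW y).sum (fun _ => dl • w)
    convert hasSum_sum h2 using 1
    funext x
    rw [bE, Finset.sum_mul, Finset.sum_mul]
  rw [← (xE_injective (m.e default)).hasSum_iff] at h1
  · convert h1 using 1
    funext α
    have e1 : H19W.wt m.e (fun u => u * H22Z.K0 (4 * Real.pi * u)) (xE (m.e default) α)
        (fun _ => dl • w) = ‖(α : ℂ)‖ * (w.y / Real.sqrt 3) *
          H22Z.K0 (4 * Real.pi * (‖(α : ℂ)‖ * (w.y / Real.sqrt 3))) := by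
      rw [H19W.wt, Fintype.prod_unique, e_xE, hy]
    have e2 : H19W.chi m.e (xE (m.e default) α) (fun _ => (dl • w).z) =
        S47T.ee ((2 * ((α : ℂ) * w.z / sq3).re : ℝ)) := by
      rw [H19W.chi, H19W.pair, Fintype.sum_unique, e_xE, hz, S47T.ee, mul_div_assoc]
    rw [Function.comp_apply, e1, e2, K0_eq, aE]
    have e3 : 4 * Real.pi * ‖(α : ℂ)‖ * w.y / Real.sqrt 3 =
        4 * Real.pi * (‖(α : ℂ)‖ * (w.y / Real.sqrt 3)) := by ring
    rw [e3]
    push_cast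
    ring
  · intro x hx
    have h3 : bE m κ hfin x = 0 := by
      by_cases h0 : x = 0
      · rw [h0, bE_zero]
      · have h4 := bE_eq_zero hC hfin (u := Units.mk0 x h0) (by
          rintro ⟨-, hint⟩
          obtain ⟨r, hr⟩ := HeightOneSpectrum.mem_integers_of_valuation_le_one K x hint
          apply hx
          refine ⟨eisO (m.e default) r, ?_⟩
          rw [xE, RingEquiv.symm_apply_apply]
          exact hr)
        rwa [Units.val_mk0] at h4
    rw [h3, zero_mul, zero_mul]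

theorem aE_zero (κ : XF m.L.fam → ℂ) (hfin : {y : XF m.L.fam | UD m.L y}.Finite) :
    aE m κ hfin 0 = 0 := by
  rw [aE, xE_zero, bE_zero, mul_zero]

theorem aE_eq (hC : H40K.CoefData m.L κ S v0 lam)
    (hfin : {y : XF m.L.fam | UD m.L y}.Finite) {α : Eis} (h0 : α ≠ 0)
    (hα : ∀ w ∈ S, w.valuation K (xE (m.e default) α) = 1) :
    aE m κ hfin α = ((‖(α : ℂ)‖ / Real.sqrt 3 : ℝ) : ℂ) *
      κ (H40K.zpt m.L S (uE (m.e default) α h0)) := by
  rw [aE, ← coe_uE _ α h0, bE_eq_zpt hC hfin (u := uE (m.e default) α h0) hα]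

theorem aE_one_ne_zero (hC : H40K.CoefData m.L κ S v0 lam)
    (hfin : {y : XF m.L.fam | UD m.L y}.Finite) : aE m κ hfin 1 ≠ 0 := by
  rw [aE_eq hC hfin one_ne_zero (fun w _ => by rw [xE_one, map_one])]
  have h1 : uE (m.e default) (1 : Eis) one_ne_zero = 1 := by
    apply Units.ext
    rw [coe_uE, xE_one, Units.val_one]
  rw [h1, H40K.CoefData.zpt_one]
  refine mul_ne_zero ?_ hC.base
  rw [OneMemClass.coe_one, norm_one]
  have h3 : Real.sqrt 3 ≠ 0 := by positivity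
  exact_mod_cast one_div_ne_zero h3

omit [DecidableEq (HeightOneSpectrum (𝓞 K))] in
theorem val_unit (e : K →+* ℂ) {u : Eis} (hu : IsUnit u) (w : HeightOneSpectrum (𝓞 K)) :
    w.valuation K (xE e u) = 1 := by
  have h0 : (eisO e).symm u ≠ 0 := by
    rw [Ne, map_eq_zero_iff _ (eisO e).symm.injective]
    exact hu.ne_zero
  exact (isUnit_iff_val (e := e) h0).1 (by rwa [RingEquiv.apply_symm_apply]) w

theorem aE_unit (hC : H40K.CoefData m.L κ S v0 lam)
    (hfin : {y : XF m.L.fam | UD m.L y}.Finite) {u α : Eis} (hu : IsUnit u) :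
    aE m κ hfin (u * α) = aE m κ hfin α := by
  by_cases h0 : α = 0
  · rw [h0, mul_zero]
  have hu0 : u ≠ 0 := hu.ne_zero
  have hn : ‖((u * α : Eis) : ℂ)‖ = ‖(α : ℂ)‖ := by
    rw [Subring.coe_mul, norm_mul]
    have h1 := normSq_eq_one_of_isUnit hu
    rw [Complex.normSq_eq_norm_sq] at h1
    have h2 : ‖(u : ℂ)‖ = 1 := by
      have h3 := norm_nonneg (u : ℂ)
      nlinarith
    rw [h2, one_mul]
  have huα : uE (m.e default) (u * α) (mul_ne_zero hu0 h0) =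
      uE (m.e default) u hu0 * uE (m.e default) α h0 := by
    apply Units.ext
    rw [Units.val_mul, coe_uE, coe_uE, coe_uE, xE_mul]
  have hb : bE m κ hfin (xE (m.e default) (u * α)) = bE m κ hfin (xE (m.e default) α) := by
    rw [← coe_uE _ _ (mul_ne_zero hu0 h0), ← coe_uE _ _ h0]
    have hval : ∀ w : HeightOneSpectrum (𝓞 K),
        w.valuation K ((uE (m.e default) (u * α) (mul_ne_zero hu0 h0) : Kˣ) : K) =
          w.valuation K ((uE (m.e default) α h0 : Kˣ) : K) := by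
      intro w
      rw [huα, Units.val_mul, map_mul, coe_uE, val_unit _ hu, one_mul]
    by_cases hS : ∀ w ∈ S, w.valuation K ((uE (m.e default) α h0 : Kˣ) : K) = 1
    · rw [bE_eq_zpt hC hfin (fun w hw => by rw [hval]; exact hS w hw), bE_eq_zpt hC hfin hS, huα,
        hC.zpt_unit (fun w _ => val_unit _ hu w)]
    · rw [bE_eq_zero hC hfin (fun h => hS fun w hw => by rw [← hval]; exact h.1 w hw),
        bE_eq_zero hC hfin (fun h => hS h.1)]
  rw [aE, aE, hn, hb]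

omit [DecidableEq (HeightOneSpectrum (𝓞 K))] in
theorem norm_prime (e : K →+* ℂ) {w : HeightOneSpectrum (𝓞 K)} {ϖ : Eis}
    (hv : w.asIdeal = Ideal.span {(eisO e).symm ϖ}) :
    (Ideal.absNorm w.asIdeal : ℝ) = ‖(ϖ : ℂ)‖ ^ 2 ∧
      Real.sqrt (Ideal.absNorm w.asIdeal) = ‖(ϖ : ℂ)‖ := by
  have h1 := absNorm_eq hv
  rw [Complex.normSq_eq_norm_sq] at h1
  exact ⟨h1, by rw [h1, Real.sqrt_sq (norm_nonneg _)]⟩

omit [DecidableEq (HeightOneSpectrum (𝓞 K))] in
/-- a generator of `w` is a unit at the other places -/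
theorem val_other (e : K →+* ℂ) {w : HeightOneSpectrum (𝓞 K)} {ϖ : Eis} (hϖ : Prime ϖ)
    (hv : w.asIdeal = Ideal.span {(eisO e).symm ϖ}) {w' : HeightOneSpectrum (𝓞 K)} (hne : w' ≠ w) :
    w'.valuation K (xE e ϖ) = 1 := by
  obtain ⟨ϖ', hϖ', hv'⟩ := exists_prime_gen e w'
  refine (val_eq_one_iff hv' ((eisO e).symm ϖ)).2 ?_
  rw [RingEquiv.apply_symm_apply]
  intro hd
  have hass : Associated ϖ' ϖ := hϖ'.associated_of_dvd hϖ hd
  apply hne
  apply HeightOneSpectrum.ext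
  rw [hv', hv, Ideal.span_singleton_eq_span_singleton]
  exact hass.map (eisO e).symm

/-- The recursion before division. -/
theorem zpt_rec' (hC : H40K.CoefData m.L κ S v0 lam) {w : HeightOneSpectrum (𝓞 K)} (hw : w ∉ S)
    (hw0 : w ≠ v0) {ϖ : Eis} (hϖ : Prime ϖ)
    (hv : w.asIdeal = Ideal.span {(eisO (m.e default)).symm ϖ}) {β : Kˣ}
    (hβ : w.valuation K (β : K) ≤ 1) :
    ((‖(ϖ : ℂ)‖ : ℝ) : ℂ) * (lam w : ℂ) * κ (H40K.zpt m.L S β) =
      ((‖(ϖ : ℂ)‖ : ℝ) : ℂ) ^ 2 * κ (H40K.zpt m.L S (uE (m.e default) ϖ hϖ.ne_zero * β)) +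
        κ (H40K.zpt m.L S ((uE (m.e default) ϖ hϖ.ne_zero)⁻¹ * β)) := by
  have h1 := hC.zpt_rec hw hw0 (ϖ := uE (m.e default) ϖ hϖ.ne_zero) (α := β)
    (val_gen hϖ hv) (fun w' _ hne => val_other _ hϖ hv hne) hβ
  obtain ⟨h2, h3⟩ := norm_prime (m.e default) hv
  rw [h3, Complex.ofReal_mul] at h1
  rw [h1]
  have h4 : (Ideal.absNorm w.asIdeal : ℂ) = ((‖(ϖ : ℂ)‖ : ℝ) : ℂ) ^ 2 := by
    rw [← Complex.ofReal_pow, ← h2]
    simp
  rw [h4]

theorem aE_rec (hC : H40K.CoefData m.L κ S v0 lam)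
    (hfin : {y : XF m.L.fam | UD m.L y}.Finite) {w : HeightOneSpectrum (𝓞 K)} (hw : w ∉ S)
    (hw0 : w ≠ v0) {ϖ : Eis} (hϖ : Prime ϖ)
    (hv : w.asIdeal = Ideal.span {(eisO (m.e default)).symm ϖ}) {α : Eis} (h0 : α ≠ 0)
    (hα : ∀ w ∈ S, w.valuation K (xE (m.e default) α) = 1)
    (hϖS : ∀ w ∈ S, w.valuation K (xE (m.e default) ϖ) = 1) :
    aE m κ hfin (ϖ * (ϖ * α)) = (lam w : ℂ) * aE m κ hfin (ϖ * α) - aE m κ hfin α := by
  have hϖ0 := hϖ.ne_zero
  have h1 := zpt_rec' hC hw hw0 hϖ hv (β := uE (m.e default) (ϖ * α) (mul_ne_zero hϖ0 h0))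
    (val_le_one w _)
  have e1 : uE (m.e default) ϖ hϖ0 * uE (m.e default) (ϖ * α) (mul_ne_zero hϖ0 h0) =
      uE (m.e default) (ϖ * (ϖ * α)) (mul_ne_zero hϖ0 (mul_ne_zero hϖ0 h0)) := by
    apply Units.ext
    rw [Units.val_mul, coe_uE, coe_uE, coe_uE, xE_mul _ ϖ (ϖ * α)]
  have e2 : (uE (m.e default) ϖ hϖ0)⁻¹ * uE (m.e default) (ϖ * α) (mul_ne_zero hϖ0 h0) =
      uE (m.e default) α h0 := by
    rw [inv_mul_eq_iff_eq_mul]
    apply Units.ext
    rw [Units.val_mul, coe_uE, coe_uE, coe_uE, xE_mul]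
  rw [e1, e2] at h1
  have hα1 : ∀ w ∈ S, w.valuation K (xE (m.e default) (ϖ * α)) = 1 := fun v hv' => by
    rw [xE_mul, map_mul, hϖS v hv', hα v hv', one_mul]
  have hα2 : ∀ w ∈ S, w.valuation K (xE (m.e default) (ϖ * (ϖ * α))) = 1 := fun v hv' => by
    rw [xE_mul, map_mul, hϖS v hv', hα1 v hv', one_mul]
  rw [aE_eq hC hfin h0 hα, aE_eq hC hfin (mul_ne_zero hϖ0 h0) hα1,
    aE_eq hC hfin (mul_ne_zero hϖ0 (mul_ne_zero hϖ0 h0)) hα2, Subring.coe_mul, Subring.coe_mul,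
    norm_mul, norm_mul]
  push_cast
  linear_combination (-(‖(α : ℂ)‖ : ℂ) / (Real.sqrt 3 : ℂ)) * h1

theorem aE_rec0 (hC : H40K.CoefData m.L κ S v0 lam)
    (hfin : {y : XF m.L.fam | UD m.L y}.Finite) {w : HeightOneSpectrum (𝓞 K)} (hw : w ∉ S)
    (hw0 : w ≠ v0) {ϖ : Eis} (hϖ : Prime ϖ)
    (hv : w.asIdeal = Ideal.span {(eisO (m.e default)).symm ϖ}) {α : Eis} (h0 : α ≠ 0)
    (hα : ∀ w ∈ S, w.valuation K (xE (m.e default) α) = 1)
    (hϖS : ∀ w ∈ S, w.valuation K (xE (m.e default) ϖ) = 1) (hd : ¬ ϖ ∣ α) :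
    aE m κ hfin (ϖ * α) = (lam w : ℂ) * aE m κ hfin α := by
  have hϖ0 := hϖ.ne_zero
  have h1 := zpt_rec' hC hw hw0 hϖ hv (β := uE (m.e default) α h0) (val_le_one w _)
  have e1 : uE (m.e default) ϖ hϖ0 * uE (m.e default) α h0 =
      uE (m.e default) (ϖ * α) (mul_ne_zero hϖ0 h0) := by
    apply Units.ext
    rw [Units.val_mul, coe_uE, coe_uE, coe_uE, xE_mul]
  have hvα : w.valuation K (xE (m.e default) α) = 1 := by
    refine (val_eq_one_iff hv ((eisO (m.e default)).symm α)).2 ?_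
    rwa [RingEquiv.apply_symm_apply]
  have e2 : κ (H40K.zpt m.L S ((uE (m.e default) ϖ hϖ0)⁻¹ * uE (m.e default) α h0)) = 0 := by
    refine hC.zpt_vanish hw ?_
    rw [Units.val_mul, map_mul, Units.val_inv_eq_inv_val, map_inv₀, coe_uE, coe_uE, hvα, mul_one]
    have h5 : w.valuation K (xE (m.e default) ϖ) = exp (-1 : ℤ) := val_gen hϖ hv
    rw [h5, ← WithZero.exp_neg, neg_neg, not_le, ← exp_zero, exp_lt_exp]
    norm_num
  rw [e1, e2, add_zero] at h1
  have hα1 : ∀ w ∈ S, w.valuation K (xE (m.e default) (ϖ * α)) = 1 := fun v hv' => by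
    rw [xE_mul, map_mul, hϖS v hv', hα v hv', one_mul]
  rw [aE_eq hC hfin h0 hα, aE_eq hC hfin (mul_ne_zero hϖ0 h0) hα1, Subring.coe_mul, norm_mul]
  have hn : ((‖(ϖ : ℂ)‖ : ℝ) : ℂ) ≠ 0 := by
    have h6 : (ϖ : ℂ) ≠ 0 := by
      intro h
      exact hϖ0 (Subtype.ext h)
    exact_mod_cast (norm_pos_iff.2 h6).ne'
  have h7 : ((‖(ϖ : ℂ)‖ : ℝ) : ℂ) * κ (H40K.zpt m.L S (uE (m.e default) (ϖ * α)
      (mul_ne_zero hϖ0 h0))) = (lam w : ℂ) * κ (H40K.zpt m.L S (uE (m.e default) α h0)) := by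
    apply mul_left_cancel₀ hn
    linear_combination -h1
  push_cast
  linear_combination ((‖(α : ℂ)‖ : ℂ) / (Real.sqrt 3 : ℂ)) * h7

end Exp

/-- **C21.** -/
theorem ictOut : IctOut := by
  intro K _ _ _ e' S v0 a q hq h
  classical
  obtain ⟨m, T, Φ, he, hv0, hS, h0, hg, hur, hpsi, hdual, hlow, hM⟩ := h
  subst he
  have hL := levelOK_of hv0 hS h0 hg hur hpsi hlow
  obtain ⟨κ, hW, hC⟩ := coefData_of hv0 hS h0 hg hur hpsi hdual hM
  set e : K →+* ℂ := m.e 0 with he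
  have hed : m.e default = e := rfl
  refine exists_ict (e := e) (S := S) (v0 := v0) (a := a) hq
    (c := aE m κ (finite_UD hL)) (f := f1 m Φ) fun q' hq' => ?_
  obtain ⟨N, hN0, hqN, hcont, hbdd, hinv, heig⟩ :=
    exists_fields hv0 hS h0 hg hur hpsi hlow hM q' hq'
  refine ⟨N, hqN, fun hNS hN00 => ?_⟩
  -- primes prime to `N`
  have hltN : ∀ v : HeightOneSpectrum (𝓞 K), (N : 𝓞 K) ∈ v.asIdeal →
      v.valuation K (N : K) < 1 := by
    intro v hv
    have h1 := (HeightOneSpectrum.valuation_lt_one_iff_mem (K := K) v (N : 𝓞 K)).2 hv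
    simpa using h1
  have hcop : ∀ α : Eis, IsCoprime α (N : Eis) → ∀ v : HeightOneSpectrum (𝓞 K),
      (N : 𝓞 K) ∈ v.asIdeal → v.valuation K (xE e α) = 1 := by
    intro α hα v hv
    exact (isCoprime_iff (e := e) (β := (eisO e).symm α) (N := N)).1
      (by rwa [RingEquiv.apply_symm_apply]) v (hltN v hv)
  have hne0 : ∀ α : Eis, IsCoprime α (N : Eis) → α ≠ 0 := by
    rintro α hα rfl
    have h1 := hcop 0 hα v0 hN00
    rw [xE_zero, map_zero] at h1
    exact zero_ne_one h1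
  have hplace : ∀ ϖ : Eis, Prime ϖ → IsCoprime ϖ (N : Eis) →
      ∃ w : HeightOneSpectrum (𝓞 K), w.asIdeal = Ideal.span {(eisO e).symm ϖ} ∧ w ∉ S ∧ w ≠ v0 := by
    intro ϖ hϖ hc
    have hv := placeOf_asIdeal e ϖ hϖ
    have h2 : (N : 𝓞 K) ∉ (placeOf e ϖ hϖ).asIdeal := by
      intro h3
      have h4 := hcop ϖ hc _ h3
      have h5 : (placeOf e ϖ hϖ).valuation K (xE e ϖ) = exp (-1 : ℤ) := val_gen hϖ hv
      rw [h5, ← exp_zero, exp_inj] at h4
      norm_num at h4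
    refine ⟨placeOf e ϖ hϖ, hv, fun h3 => h2 (hNS _ h3), fun h3 => h2 ?_⟩
    rw [h3]
    exact hN00
  exact
    { pos := hN0
      cont := hcont
      bdd := hbdd
      inv := hinv
      eig := heig
      expn := hasSum_f1 hL hC hW
      a_zero := aE_zero κ _
      a_one := aE_one_ne_zero hC _
      a_unit := fun u α hu => aE_unit hC _ hu
      a_rec := by
        intro ϖ hϖ hc α hα
        obtain ⟨w, hv, hw, hw0⟩ := hplace ϖ hϖ hc
        rw [lamE_eq e a hv]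
        exact aE_rec hC _ hw hw0 hϖ hv (hne0 α hα) (fun v hv' => hcop α hα v (hNS v hv'))
          (fun v hv' => hcop ϖ hc v (hNS v hv'))
      a_rec0 := by
        intro ϖ hϖ hc α hα hd
        obtain ⟨w, hv, hw, hw0⟩ := hplace ϖ hϖ hc
        rw [lamE_eq e a hv]
        exact aE_rec0 hC _ hw hw0 hϖ hv (hne0 α hα) (fun v hv' => hcop α hα v (hNS v hv'))
          (fun v hv' => hcop ϖ hc v (hNS v hv')) hd }

end Fermat.Agent.H85I
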