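import Fermat.Agent.H86In3
import Fermat.Agent.H57S59Fin
import Fermat.Agent.H69Fin
import Fermat.Agent.H85InA2

set_option autoImplicit false
set_option linter.style.haveILetI false
set_option linter.unusedSectionVars false

/-!
# The levels of S59: the second layer
-/

noncomputable section

open IsLocalRing GaloisRep CuspForm
open Fermat.Agent.H53 (GQ M2 toMat mapMat PData PlaceData GalLevelB numB)
open Fermat.Agent.H59 (Tset CoeffChoice Zset thetaW thetaW_X thetaW_C)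
open Fermat.Agent.H87.Glue (resZ)
open Fermat.Agent.H87.S58 (tO)
open Fermat.Agent.H73LT (nodeSign)
open Fermat.Agent.H69.Red Fermat.Agent.H21M Fermat.Agent.H86.In Fermat.Agent.H37.Rank
open Fermat.Agent.H69.EG (FullModPart)
open Fermat.Agent.H57.Full
open Fermat.Agent.H70.Coh (Good)
open ExtCitation

namespace Fermat.Agent.H85.InL

attribute [local instance] FullLevel.instAddCommGroup FullLevel.instModule

section Main

variable {W : WeierstrassCurve ℤ} {hΔ : W.Δ ≠ 0} {p : ℕ} [hp : Fact p.Prime]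
  {A T B : Finset ℕ} {s₁ : ℕ}

variable {O : Type} [CommRing O] [IsDomain O] [IsDiscreteValuationRing O]
  [IsAdicComplete (maximalIdeal O) O] [CharZero O] [Finite (ResidueField O)]
  [CharP (ResidueField O) p] [Algebra (ZMod p) (ResidueField O)]

/-- the irreducibility of the residual representation over `k` -/
lemma irreducible_k (St : H57.S59.Setup W hΔ p A T B s₁) :
    ((resZ W hΔ p).baseChange (ResidueField O)).IsIrreducible := by
  have hp2 : p ≠ 2 := by rcases St.h35 with h | h <;> omega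
  have h2z : (2 : ZMod p) ≠ 0 := by
    intro h
    have h1 : ((2 : ℕ) : ZMod p) = 0 := by exact_mod_cast h
    rw [ZMod.natCast_eq_zero_iff] at h1
    exact hp2 ((Nat.prime_dvd_prime_iff_eq hp.out Nat.prime_two).mp h1)
  obtain ⟨c, hc1, hc2⟩ : ∃ c : GQ, c * c = 1 ∧ c ≠ 1 :=
    ⟨complexConjugation, complexConjugation_mul_self, H87.Res.complexConjugation_ne_one⟩
  have hdetc : LinearMap.det ((resZ W hΔ p).ρ c) = -1 := H87.Glue.resZ_isOdd W hΔ p c hc1 hc2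
  exact H87.AbsIrr.isIrreducible_baseChange_of_involution h2z _
    (H87.Glue.resZ_isIrreducible W hΔ p St.irr) c hc1 hdetc

/-- **All levels at once.** -/
theorem levels (h34 : H30.StatementS34) (h35S : H87.S58.StatementS35) (Gm : H4.GeomInputs p)
    (St : H57.S59.Setup W hΔ p A T B s₁)
    {ϖ : O} {a : ℕ} {ζ : O} (hO : CoeffChoice p T O ϖ a ζ)
    {b : Module.Basis (Fin 2) (ResidueField O) ((resZ W hΔ p).baseChange (ResidueField O)).V}
    {pl : ∀ t : Tset T, PlaceData p t.1} {u : Tset T → O} {plB : ∀ i : Tset B, PlaceData p i.1}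
    (pd : PData p ((resZ W hΔ p).baseChange (ResidueField O)) b)
    (hsub : ∀ j j' : pd.ε, j = j')
    {δ : ℕ} (hδ : δ = 1 ∨ δ = p)
    (hmod : W.IsResiduallyModularOfLevel p (baseLevel A T s₁ * δ))
    {s : ℕ} (κ : Fin s → Tset B ⊕ pd.ε) (hκ : Function.Injective κ)
    (hκp : ∀ i j, κ i = Sum.inr j → δ = 1)
    {inc : Prop} (hinc : inc ↔ (δ = p ∨ ∃ i j, κ i = Sum.inr j))
    (PH : PHyp hΔ hO.mem pd A pl u plB inc) (k : ℕ) :
    ∃ (D m : ℕ) (c' : O), c' ≠ 0 ∧ ∀ n : ℕ, ∃ S₀ : Finset ℕ,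
      ∀ G : GLev hΔ pd A pl u plB k n S₀, ∀ U : Set G.D.R,
      (∀ {L : ℕ} [NeZero L] {S : Finset ℕ} {θ : heckeAlgebra L 2 (↑S : Set ℕ) →+* ResidueField O}
        (π : G.D.R →ₐ[O] heckeLocal L (↑S : Set ℕ) O θ) (hs : HSide p G.D G.b₁ π)
        (_ : ∀ ℓ : ℕ, ℓ.Prime → ℓ ∉ S → W.IsGoodPrimeFor ℓ)
        (_ : ∀ i : Pr (↑S : Set ℕ), θ (H30.TIdx L (↑S : Set ℕ) hs.hLS i) =
          ((W.apOfModel i.1 : ℤ) : ResidueField O)),
        ∀ x ∈ U, ∀ i, i ≤ s → VanishAt p hs.hLS π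
          (lvl (baseLevel A T s₁ * δ * ∏ j, G.qv j) (bfun (bq p κ)) i) x) →
      ∃ FL : FullLevel O ϖ c' p (numB (Tset T) (Tset B) pd.ε k) n D m s
        (MvPowerSeries (((Tset T × Fin 6) ⊕ ((Tset B ⊕ pd.ε) × Fin 3)) ⊕ Fin k) O)
        (fun t j => MvPowerSeries.X (Sum.inl (Sum.inl (t, j))))
        (fun i j => MvPowerSeries.X (Sum.inl (Sum.inr (κ i, j))))
        (fun t : Tset T => t.1) u (Zset O p T) (cq O W κ),
        (∀ v, G.β v ∈ U → ∀ τ (x : FL.N τ), FL.β v • x = 0) ∧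
        ∀ j : pd.ε, FL.pt (FL.β (MvPowerSeries.X (Sum.inl (Sum.inr (Sum.inr j, 0))))) = 0 ∧
          FL.pt (FL.β (MvPowerSeries.X (Sum.inl (Sum.inr (Sum.inr j, 2))))) = 0 := by
  classical
  have hp2 : p ≠ 2 := by rcases St.h35 with h | h <;> omega
  have P := St.part
  have hbb : ∀ i, (bq p κ i).Prime := bq_prime P
  have hbinj : Function.Injective (bq p κ) := bq_injective P hκ hsub
  have hN₀sq : Squarefree (baseLevel A T s₁ * δ) := base_sq P hδ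
  have hbN₀' : ∀ i, i < s → ¬ bfun (bq p κ) i ∣ baseLevel A T s₁ * δ := fun i hi => by
    rw [bfun_lt _ hi]
    exact bq_not_dvd P hδ hκp _
  have hMssq : Squarefree (lvl (baseLevel A T s₁ * δ) (bfun (bq p κ)) s) :=
    chain_squarefree (f := lvl (baseLevel A T s₁ * δ) (bfun (bq p κ))) (b := bfun (bq p κ))
      (fun _ => rfl) (bfun_prime hbb) hbN₀' (fun i hi j hj => bfun_inj hbinj i hi j hj) hN₀sq s
      le_rfl
  haveI : NeZero (lvl (baseLevel A T s₁ * δ) (bfun (bq p κ)) s) := ⟨hMssq.ne_zero⟩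
  -- the relation
  obtain ⟨S₁, hS₁⟩ : ∃ S₁ : Finset ℕ, S₁ =
    (lvl (baseLevel A T s₁ * δ) (bfun (bq p κ)) s).primeFactors ∪ W.Δ.natAbs.primeFactors ∪ {p} :=
    ⟨_, rfl⟩
  have hNS₁ : ∀ q : ℕ, q.Prime → q ∣ lvl (baseLevel A T s₁ * δ) (bfun (bq p κ)) s →
      q ∈ (↑S₁ : Set ℕ) := fun q hq h => by
    rw [Finset.mem_coe, hS₁, Finset.mem_union, Finset.mem_union]
    exact Or.inl (Or.inl (Nat.mem_primeFactors.mpr ⟨hq, h, hMssq.ne_zero⟩))
  have hWS₁ : ∀ q : ℕ, q.Prime → (q : ℤ) ∣ W.Δ → q ∈ S₁ := fun q hq h => by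
    rw [hS₁, Finset.mem_union, Finset.mem_union]
    exact Or.inl (Or.inr (Nat.mem_primeFactors.mpr
      ⟨hq, Int.natCast_dvd.mp h, Int.natAbs_ne_zero.mpr hΔ⟩))
  have hpS₁ : p ∈ S₁ := by simp [hS₁]
  obtain ⟨P₀, hP₀, hP₀W⟩ : ∃ P₀ : MvPolynomial {ℓ : ℕ // ℓ.Prime ∧ ℓ ∉ (↑S₁ : Set ℕ)} ℤ,
      H30.evZ (lvl (baseLevel A T s₁ * δ) (bfun (bq p κ)) s) (↑S₁ : Set ℕ) hNS₁ P₀ = 0 ∧
        MvPolynomial.aeval (fun i => W.apOfModel i.1) P₀ ≠ (0 : ℤ) := by
    rcases H69.Fin.exact_or_exists h35S W hΔ hMssq S₁ hNS₁ with h | h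
    · exact absurd h St.not_exact
    · exact h
  obtain ⟨m, hm⟩ := H69.Pt.exists_notMem_pow (𝒪 := O) hO.unif hP₀W
  exact ⟨_, m, _, prod_bq_ne_zero O p κ, fun n => ⟨_, fun G U hU =>
    inner_level hΔ hp2 St.ss St.irr (irreducible_k St) h34 Gm hO P PH hδ hmod κ hκ hsub hκp hinc
      hpS₁ hNS₁ hWS₁ P₀ hP₀ hm G U hU⟩⟩

end Main

section Full

variable {W : WeierstrassCurve ℤ} {hΔ : W.Δ ≠ 0} {p : ℕ} [hp : Fact p.Prime]
  {A T B : Finset ℕ} {s₁ : ℕ}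

/-- **The inner statement from the facts at `p`** (types `F`, `Pα`, `O`). -/
theorem innerFull_of (h34 : H30.StatementS34) (h35S : H87.S58.StatementS35)
    (Gm : H4.GeomInputs p) (St : H57.S59.Setup W hΔ p A T B s₁)
    {δ : ℕ} (hδ : δ = 1 ∨ δ = p)
    (hmod : W.IsResiduallyModularOfLevel p (baseLevel A T s₁ * δ))
    (hP : ∀ (O : Type) [CommRing O] [IsDomain O] [IsDiscreteValuationRing O]
      [IsAdicComplete (maximalIdeal O) O] [CharZero O] [Finite (ResidueField O)]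
      [CharP (ResidueField O) p] [Algebra (ZMod p) (ResidueField O)] (ϖ : O) (a : ℕ) (ζ : O)
      (hO : CoeffChoice p T O ϖ a ζ)
      (b : Module.Basis (Fin 2) (ResidueField O) ((resZ W hΔ p).baseChange (ResidueField O)).V)
      (pl : ∀ t : Tset T, PlaceData p t.1)
      (_ : ∀ (t : Tset T) (ht : t.1.Prime), (pl t).P = primeLocalPlace ⟨t.1, ht⟩)
      (u : Tset T → O) (_ : ∀ t, u t ^ 2 = 1)
      (_ : ∀ t, toMat ((resZ W hΔ p).baseChange (ResidueField O)).ρ b (pl t).φ =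
        residue O (u t) • (1 : M2 (ResidueField O)))
      (plB : ∀ i : Tset B, PlaceData p i.1)
      (_ : ∀ (i : Tset B) (hi : i.1.Prime), (plB i).P = primeLocalPlace ⟨i.1, hi⟩),
      ∃ (pd : PData p ((resZ W hΔ p).baseChange (ResidueField O)) b) (inc : Prop),
        (∀ j j' : pd.ε, j = j') ∧ (∀ _ : pd.ε, δ = 1) ∧ (inc ↔ (δ = p ∨ Nonempty pd.ε)) ∧
          PHyp hΔ hO.mem pd A pl u plB inc) :
    H57.S59.InnerFull W hΔ p A T B (nodeSign W) := by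
  intro O _ _ _ _ _ _ _ _ ϖ a ζ hO b pl hpl u hu hφ plB hplB
  classical
  obtain ⟨pd, inc, hsub, hε1, hinc, PH⟩ := hP O ϖ a ζ hO b pl hpl u hu hφ plB hplB
  refine ⟨pd, fun k => ?_⟩
  let κ : Fin (Fintype.card (Tset B ⊕ pd.ε)) ≃ Tset B ⊕ pd.ε := (Fintype.equivFin _).symm
  have hinc' : inc ↔ (δ = p ∨ ∃ i j, κ i = Sum.inr j) := by
    rw [hinc]
    refine or_congr_right ⟨fun ⟨j⟩ => ⟨κ.symm (Sum.inr j), j, κ.apply_symm_apply _⟩, ?_⟩
    rintro ⟨i, j, -⟩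
    exact ⟨j⟩
  obtain ⟨D, m, c', hc', h⟩ := levels h34 h35S Gm St hO pd hsub hδ hmod κ κ.injective
    (fun i j _ => hε1 j) hinc' PH k
  refine ⟨D, m, _, κ, cq O W κ, c', cq_ne_zero O W κ, hc', fun n => ?_⟩
  obtain ⟨S₀, hS₀⟩ := h n
  refine ⟨S₀, fun G => ?_⟩
  obtain ⟨FL, -⟩ := hS₀ G ∅ (fun _ _ _ _ x hx => absurd hx (Set.notMem_empty x))
  exact ⟨FL⟩

/-- **The inner statement from the facts at `p`** (type `Pβ`). -/
theorem innerBeta_of (h34 : H30.StatementS34) (h35S : H87.S58.StatementS35)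
    (Gm : H4.GeomInputs p) (St : H57.S59.Setup W hΔ p A T B s₁)
    (hmod : W.IsResiduallyModularOfLevel p (baseLevel A T s₁ * p))
    (hP : ∀ (O : Type) [CommRing O] [IsDomain O] [IsDiscreteValuationRing O]
      [IsAdicComplete (maximalIdeal O) O] [CharZero O] [Finite (ResidueField O)]
      [CharP (ResidueField O) p] [Algebra (ZMod p) (ResidueField O)] (ϖ : O) (a : ℕ) (ζ : O)
      (hO : CoeffChoice p T O ϖ a ζ)
      (b : Module.Basis (Fin 2) (ResidueField O) ((resZ W hΔ p).baseChange (ResidueField O)).V)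
      (pl : ∀ t : Tset T, PlaceData p t.1)
      (_ : ∀ (t : Tset T) (ht : t.1.Prime), (pl t).P = primeLocalPlace ⟨t.1, ht⟩)
      (u : Tset T → O) (_ : ∀ t, u t ^ 2 = 1)
      (_ : ∀ t, toMat ((resZ W hΔ p).baseChange (ResidueField O)).ρ b (pl t).φ =
        residue O (u t) • (1 : M2 (ResidueField O)))
      (plB : ∀ i : Tset B, PlaceData p i.1)
      (_ : ∀ (i : Tset B) (hi : i.1.Prime), (plB i).P = primeLocalPlace ⟨i.1, hi⟩),
      ∃ (pd : PData p ((resZ W hΔ p).baseChange (ResidueField O)) b) (inc : Prop) (j₀ : pd.ε),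
        (∀ j, j = j₀) ∧ inc ∧ PHyp hΔ hO.mem pd A pl u plB inc ∧
        ∀ {k n : ℕ} {S₀ : Finset ℕ} (G : GLev hΔ pd A pl u plB k n S₀)
          {L : ℕ} [NeZero L] {S : Finset ℕ} {θ : heckeAlgebra L 2 (↑S : Set ℕ) →+* ResidueField O}
          (π : G.D.R →ₐ[O] heckeLocal L (↑S : Set ℕ) O θ) (hs : HSide p G.D G.b₁ π)
          (_ : ∀ ℓ : ℕ, ℓ.Prime → ℓ ∉ S → W.IsGoodPrimeFor ℓ)
          (_ : ∀ i : Pr (↑S : Set ℕ), θ (H30.TIdx L (↑S : Set ℕ) hs.hLS i) =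
            ((W.apOfModel i.1 : ℤ) : ResidueField O))
          {s : ℕ} (κ : Fin s ≃ Tset B) (i : ℕ) (_ : i ≤ s),
          VanishAt p hs.hLS π (lvl (baseLevel A T s₁ * p * ∏ j, G.qv j)
            (bfun fun i => (κ i).1) i) (G.mB (Sum.inr j₀) 0) ∧
          VanishAt p hs.hLS π (lvl (baseLevel A T s₁ * p * ∏ j, G.qv j)
            (bfun fun i => (κ i).1) i) (G.mB (Sum.inr j₀) 2)) :
    H57.S59.InnerBeta W hΔ p A T B (nodeSign W) := by
  intro O _ _ _ _ _ _ _ _ ϖ a ζ hO b pl hpl u hu hφ plB hplB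
  classical
  obtain ⟨pd, inc, j₀, hj₀, hinc, PH, hV⟩ := hP O ϖ a ζ hO b pl hpl u hu hφ plB hplB
  refine ⟨pd, j₀, hj₀, fun k => ?_⟩
  let κ : Fin (Fintype.card (Tset B)) ≃ Tset B := (Fintype.equivFin _).symm
  let κ' : Fin (Fintype.card (Tset B)) → Tset B ⊕ pd.ε := fun i => Sum.inl (κ i)
  have hκ' : Function.Injective κ' := fun i j h => κ.injective (Sum.inl_injective h)
  have hbq : (bq p κ') = fun i => (κ i).1 := rfl
  have hinc' : inc ↔ (p = p ∨ ∃ i j, κ' i = Sum.inr j) := iff_of_true hinc (Or.inl rfl)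
  obtain ⟨D, m, c', hc', h⟩ := levels h34 h35S Gm St hO pd
    (fun j j' => (hj₀ j).trans (hj₀ j').symm) (Or.inr rfl) hmod κ' hκ'
    (fun i j h => absurd h Sum.inl_ne_inr) hinc' PH k
  refine ⟨D, m, _, κ, cq O W κ', c', cq_ne_zero O W κ', hc', fun n => ?_⟩
  obtain ⟨S₀, hS₀⟩ := h n
  refine ⟨S₀, fun G => ?_⟩
  obtain ⟨FL, h1, h2⟩ := hS₀ G {G.mB (Sum.inr j₀) 0, G.mB (Sum.inr j₀) 2}
    (fun π hs hSW hθ x hx i hi => by
      obtain ⟨g1, g2⟩ := hV G π hs hSW hθ κ i hi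
      rcases hx with rfl | hx
      · exact g1
      · rw [Set.mem_singleton_iff.mp hx]
        exact g2)
  refine ⟨FL, fun τ x => h1 _ ?_ τ x, fun τ x => h1 _ ?_ τ x, (h2 j₀).1, (h2 j₀).2⟩
  · rw [G.β_mB]
    exact Or.inl rfl
  · rw [G.β_mB]
    exact Or.inr rfl

end Full

end Fermat.Agent.H85.InL
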