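import Fermat.Agent.H98Family
import Fermat.Agent.H98NoRoot

set_option autoImplicit false

/-!
# The family of 5-congruent curves near a cusp at the prime 2

For a curve with `c₄ = 16 A`, `c₆ = 8 B` (good supersingular reduction at `2`) and `t = s / 4`, the
polynomials `D12`, `C20`, `C30` have integral coefficients in `A, B, s`.  They are written as
`lo + m * hi` with `lo` the residue modulo `m`.
(project LT-X, part (B): the 5-switch from good supersingular to multiplicative reduction at 2).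
-/

open Fermat.Agent.H98

namespace Fermat.Agent.H85.X

section defs

variable {R : Type*} [CommRing R]

/-- residue of `FD` modulo 2 -/
def FDlo (A B s : R) : R :=
    1 + B*s^3 + A^2*s^4 + B^2*s^6 + A^4*s^8 + B^3*s^9 + A^2*B^2*s^10 + A^4*B*s^11 + B^4*s^12 +
    A^6*s^12

/-- auxiliary chunk -/
def FDhi_0 (A B s : R) : R :=
    -33*A*s^2 + 27*B*s^3 - 743*A^2*s^4 + 198*A*B*s^5 - 83*B^2*s^6 + 2970*A^3*s^6 +
    297*A^2*B*s^7 + 495*A*B^2*s^8 - 33413*A^4*s^8 - 138*B^3*s^9 + 8910*A^3*B*s^9 +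
    1039*A^2*B^2*s^10 - 66825*A^5*s^10 - 60*A*B^3*s^11 + 3847*A^4*B*s^11 + 12*B^4*s^12 -
    1512*A^3*B^2*s^12 + 45562*A^6*s^12

/-- auxiliary polynomial -/
def FDhi (A B s : R) : R :=
    FDhi_0 A B s

/-- integral form of the family -/
def FD (A B s : R) : R := FDlo A B s + 2 * FDhi A B s

/-- residue of `F20` modulo 2 -/
def F20lo (A B s : R) : R :=
    B^2*s^4 + B^6*s^16 + A^8*B^2*s^20

/-- auxiliary chunk -/
def F20hi_0 (A B s : R) : R :=
    8*A - 20*B*s + 1520*A^2*s^2 - 1140*A*B*s^3 + 712*B^2*s^4 - 6840*A^3*s^4 - 15504*A^2*B*s^5 -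
    7980*A*B^2*s^6 + 820800*A^4*s^6 + 2850*B^3*s^7 - 259920*A^3*B*s^7 + 140790*A^2*B^2*s^8 -
    8002800*A^5*s^8 - 123500*A*B^3*s^9 + 7736040*A^4*B*s^9 + 30875*B^4*s^10 -
    702468*A^3*B^2*s^10 - 80028000*A^6*s^10 - 857090*A^2*B^3*s^11 + 54685800*A^5*B*s^11 +
    74100*A*B^4*s^12 + 900315*A^4*B^2*s^12 - 360126000*A^7*s^12 - 14250*B^5*s^13 +
    362520*A^3*B^3*s^13

/-- auxiliary chunk -/
def F20hi_1 (A B s : R) : R :=
    35089200*A^6*B*s^13 + 561450*A^2*B^4*s^14 - 61898580*A^5*B^2*s^14 + 1662120000*A^8*s^14 -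
    114000*A*B^5*s^15 + 13788414*A^4*B^3*s^15 - 415530000*A^7*B*s^15 + 17812*B^6*s^16 -
    2383740*A^3*B^4*s^16 + 89338950*A^6*B^2*s^16 - 623295000*A^9*s^16 - 88350*A^2*B^5*s^17 +
    11173140*A^5*B^3*s^17 - 353200500*A^8*B*s^17 - 19000*A*B^6*s^18 + 3957795*A^4*B^4*s^18 -
    272864700*A^7*B^2*s^18 + 6232950000*A^10*s^18 + 2500*B^7*s^19 - 489600*A^3*B^5*s^19 +
    31943970*A^6*B^3*s^19 - 694372500*A^9*B*s^19 - 5500*A^2*B^6*s^20 + 1064448*A^5*B^4*s^20 -
    68662688*A^8*B^2*s^20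

/-- auxiliary chunk -/
def F20hi_2 (A B s : R) : R :=
    1476225000*A^11*s^20

/-- auxiliary polynomial -/
def F20hi (A B s : R) : R :=
    F20hi_0 A B s + F20hi_1 A B s + F20hi_2 A B s

/-- integral form of the family -/
def F20 (A B s : R) : R := F20lo A B s + 2 * F20hi A B s

/-- residue of `F30` modulo 4 -/
def F30lo (A B s : R) : R :=
    -B^3*s^6 + 2*B^4*s^9 + 2*A^2*B^3*s^10 + B^5*s^12 + 2*A^2*B^4*s^13 + A^4*B^3*s^14 + B^7*s^18
    + 2*A^4*B^5*s^20 + 2*B^8*s^21 + 2*A^2*B^7*s^22 + A^8*B^3*s^22 - B^9*s^24 + 2*A^2*B^8*s^25 +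
    2*A^8*B^4*s^25 + A^4*B^7*s^26 + 2*A^10*B^3*s^26 + A^8*B^5*s^28 + 2*A^10*B^4*s^29 -
    A^12*B^3*s^30

/-- auxiliary chunk -/
def F30hi_0 (A B s : R) : R :=
    2*B - 480*A^2*s + 870*A*B*s^2 - 725*B^2*s^3 - 18560*A^3*s^3 + 54810*A^2*B*s^4 -
    11745*A*B^2*s^5 - 1528416*A^4*s^5 + 4894*B^3*s^6 + 874350*A^3*B*s^6 - 978750*A^2*B^2*s^7 +
    30067200*A^5*s^7 + 450225*A*B^3*s^8 - 17108550*A^4*B*s^8 - 125063*B^4*s^9 +
    10505250*A^3*B^2*s^9 - 388994400*A^6*s^9 - 6768383*A^2*B^3*s^10 + 493266510*A^5*B*s^10 +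
    5702850*A*B^4*s^11 - 338118975*A^4*B^2*s^11 - 2593296000*A^7*s^11 - 1188094*B^5*s^12 -
    50375175*A^3*B^3*s^12 + 8263429650*A^6*B*s^12

/-- auxiliary chunk -/
def F30hi_1 (A B s : R) : R :=
    47048512*A^2*B^4*s^13 - 1308804075*A^5*B^2*s^13 - 110863404000*A^8*s^13 -
    1345159744*A^4*B^3*s^14 + 86381068950*A^7*B*s^14 + 310235040*A^3*B^4*s^15 -
    19893821940*A^6*B^2*s^15 - 145422675*A^2*B^5*s^16 + 14833112850*A^5*B^3*s^16 -
    353377100250*A^8*B*s^16 + 42771375*A*B^6*s^17 - 3652675425*A^4*B^4*s^17 -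
    19401095700*A^7*B^2*s^17 + 4988853180000*A^10*s^17 - 5940469*B^7*s^18 -
    148274100*A^3*B^5*s^18 + 86766011325*A^6*B^3*s^18 - 3388262784750*A^9*B*s^18 +
    261880875*A^2*B^6*s^19 - 31643613900*A^5*B^4*s^19 + 870460062525*A^8*B^2*s^19 +
    5251424400000*A^11*s^19 - 26263125*A*B^7*s^20 + 1900444747*A^4*B^5*s^20 +
    75777729930*A^7*B^3*s^20

/-- auxiliary chunk -/
def F30hi_2 (A B s : R) : R :=
    -5749215671250*A^10*B*s^20 + 3126562*B^8*s^21 - 312856350*A^3*B^6*s^21 +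
    10582538625*A^6*B^4*s^21 - 769297206375*A^9*B^2*s^21 + 35447114700000*A^12*s^21 -
    34892438*A^2*B^7*s^22 + 3760279200*A^5*B^5*s^22 - 53890919494*A^8*B^3*s^22 -
    2806229913750*A^11*B*s^22 - 5872500*A*B^8*s^23 + 1851677550*A^4*B^6*s^23 -
    194877738000*A^7*B^4*s^23 + 8353617743250*A^10*B^2*s^23 - 123294312000000*A^13*s^23 +
    611719*B^9*s^24 - 173793375*A^3*B^7*s^24 + 17210007225*A^6*B^5*s^24 -
    708975591075*A^9*B^3*s^24 + 10178202318750*A^12*B*s^24 + 17372812*A^2*B^8*s^25 -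
    4350256389*A^5*B^6*s^25 + 412221118207*A^8*B^4*s^25 - 17524488408750*A^11*B^2*s^25 +
    282035738700000*A^14*s^25

/-- auxiliary chunk -/
def F30hi_3 (A B s : R) : R :=
    -4893750*A*B^9*s^26 + 1249721831*A^4*B^7*s^26 - 119842832340*A^7*B^5*s^26 +
    5114751798937*A^10*B^3*s^26 - 81971452743750*A^13*B*s^26 + 453125*B^10*s^27 -
    106749000*A^3*B^8*s^27 + 8777073735*A^6*B^6*s^27 - 249242876550*A^9*B^4*s^27 -
    2026008095625*A^12*B^2*s^27 + 154117890000000*A^15*s^27 - 2555625*A^2*B^9*s^28 +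
    654079050*A^5*B^7*s^28 - 62783458324*A^8*B^5*s^28 + 2678725900125*A^11*B^3*s^28 -
    42864038156250*A^14*B*s^28 - 75000*A*B^10*s^29 + 29892375*A^4*B^8*s^29 -
    4580243820*A^7*B^6*s^29 + 341386298662*A^10*B^4*s^29 - 12468380878125*A^13*B^2*s^29 +
    179361337500000*A^16*s^29 + 6250*B^11*s^30 - 2090000*A^3*B^9*s^30 + 279038925*A^6*B^7*s^30

/-- auxiliary chunk -/
def F30hi_4 (A B s : R) : R :=
    -18595676088*A^9*B^5*s^30 + 618652067344*A^12*B^3*s^30 - 8220727968750*A^15*B*s^30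

/-- auxiliary polynomial -/
def F30hi (A B s : R) : R :=
    F30hi_0 A B s + F30hi_1 A B s + F30hi_2 A B s + F30hi_3 A B s + F30hi_4 A B s

/-- integral form of the family -/
def F30 (A B s : R) : R := F30lo A B s + 4 * F30hi A B s

set_option maxHeartbeats 4000000 in
set_option maxRecDepth 100000 in
theorem FD_four (A B t : R) : FD A B (4 * t) = D12 (16 * A) (8 * B) t := by
  simp only [FD, FDlo, FDhi, FDhi_0, D12, D12_0]
  ring

set_option maxHeartbeats 4000000 in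
set_option maxRecDepth 100000 in
theorem F20_four (A B t : R) : F20 A B (4 * t) = C20 (16 * A) (8 * B) t := by
  simp only [F20, F20lo, F20hi, F20hi_0, F20hi_1, F20hi_2, C20, C20_0, C20_1, C20_2]
  ring

set_option maxHeartbeats 4000000 in
set_option maxRecDepth 100000 in
theorem F30_four (A B t : R) : F30 A B (4 * t) = C30 (16 * A) (8 * B) t := by
  simp only [F30, F30lo, F30hi, F30hi_0, F30hi_1, F30hi_2, F30hi_3, F30hi_4, C30, C30_0, C30_1, C30_2, C30_3, C30_4,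
    C30_5]
  ring

theorem FD_zero (A B : R) : FD A B 0 = 1 := by
  have h := FD_four A B 0
  rw [mul_zero] at h
  rw [h, D12_zero]

theorem F20_zero (A B : R) : F20 A B 0 = 16 * A := by
  have h := F20_four A B 0
  rw [mul_zero] at h
  rw [h, C20_zero]

theorem F30_zero (A B : R) : F30 A B 0 = 8 * B := by
  have h := F30_four A B 0
  rw [mul_zero] at h
  rw [h, C30_zero]

end defs

section map

variable {R S : Type*} [CommRing R] [CommRing S] (f : R →+* S)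

theorem map_FD (A B s : R) : FD (f A) (f B) (f s) = f (FD A B s) := by
  simp only [FD, FDlo, FDhi, FDhi_0, map_add, map_sub, map_mul, map_pow, map_neg, map_ofNat, map_one]

theorem map_F20 (A B s : R) : F20 (f A) (f B) (f s) = f (F20 A B s) := by
  simp only [F20, F20lo, F20hi, F20hi_0, F20hi_1, F20hi_2, map_add, map_sub, map_mul, map_pow, map_neg, map_ofNat, map_one]

theorem map_F30 (A B s : R) : F30 (f A) (f B) (f s) = f (F30 A B s) := by
  simp only [F30, F30lo, F30hi, F30hi_0, F30hi_1, F30hi_2, F30hi_3, F30hi_4, map_add, map_sub, map_mul, map_pow, map_neg, map_ofNat, map_one]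

end map


/-- the fundamental relation over the integers -/
theorem F_relation (A B s : ℤ) :
    F20 A B s ^ 3 - F30 A B s ^ 2 = ((16 * A) ^ 3 - (8 * B) ^ 2) * FD A B s ^ 5 := by
  have hs : ((s : ℤ) : ℚ) = 4 * ((s : ℚ) / 4) := by ring
  have h := C20_pow_sub_C30_sq (16 * (A : ℚ)) (8 * (B : ℚ)) ((s : ℚ) / 4)
  rw [← FD_four, ← F20_four, ← F30_four, ← hs] at h
  have e1 : FD (A : ℚ) (B : ℚ) (s : ℚ) = ((FD A B s : ℤ) : ℚ) := map_FD (Int.castRingHom ℚ) A B s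
  have e2 : F20 (A : ℚ) (B : ℚ) (s : ℚ) = ((F20 A B s : ℤ) : ℚ) := map_F20 (Int.castRingHom ℚ) A B s
  have e3 : F30 (A : ℚ) (B : ℚ) (s : ℚ) = ((F30 A B s : ℤ) : ℚ) := map_F30 (Int.castRingHom ℚ) A B s
  rw [e1, e2, e3] at h
  exact_mod_cast h

/-! ### congruences modulo 2 and 4 -/

theorem FD_even {A B s : ℤ} (hA : A % 2 = 1) (hB : B % 2 = 1) (hs : s % 2 = 1) : (2 : ℤ) ∣ FD A B s := by
  apply (ZMod.intCast_zmod_eq_zero_iff_dvd _ 2).mp
  have e : ((FD A B s : ℤ) : ZMod 2) = FD (A : ZMod 2) (B : ZMod 2) (s : ZMod 2) :=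
    (map_FD (Int.castRingHom (ZMod 2)) A B s).symm
  have hA' : (A : ZMod 2) = 1 := by
    have := (ZMod.intCast_eq_intCast_iff_dvd_sub 1 A 2).mpr (by push_cast; omega)
    rw [← this]; norm_num
  have hB' : (B : ZMod 2) = 1 := by
    have := (ZMod.intCast_eq_intCast_iff_dvd_sub 1 B 2).mpr (by push_cast; omega)
    rw [← this]; norm_num
  have hs' : (s : ZMod 2) = 1 := by
    have := (ZMod.intCast_eq_intCast_iff_dvd_sub 1 s 2).mpr (by push_cast; omega)
    rw [← this]; norm_num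
  rw [e, hA', hB', hs', FD]
  have h2 : (2 : ZMod 2) = 0 := rfl
  rw [h2, zero_mul, add_zero]
  simp only [FDlo, one_pow, mul_one]
  decide

theorem F20_odd {A B s : ℤ} (hA : A % 2 = 1) (hB : B % 2 = 1) (hs : s % 2 = 1) : ¬ (2 : ℤ) ∣ F20 A B s := by
  intro h
  have h' := (ZMod.intCast_zmod_eq_zero_iff_dvd _ 2).mpr h
  have e : ((F20 A B s : ℤ) : ZMod 2) = F20 (A : ZMod 2) (B : ZMod 2) (s : ZMod 2) :=
    (map_F20 (Int.castRingHom (ZMod 2)) A B s).symm
  have hA' : (A : ZMod 2) = 1 := by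
    have := (ZMod.intCast_eq_intCast_iff_dvd_sub 1 A 2).mpr (by push_cast; omega)
    rw [← this]; norm_num
  have hB' : (B : ZMod 2) = 1 := by
    have := (ZMod.intCast_eq_intCast_iff_dvd_sub 1 B 2).mpr (by push_cast; omega)
    rw [← this]; norm_num
  have hs' : (s : ZMod 2) = 1 := by
    have := (ZMod.intCast_eq_intCast_iff_dvd_sub 1 s 2).mpr (by push_cast; omega)
    rw [← this]; norm_num
  rw [e, hA', hB', hs', F20] at h'
  have h2 : (2 : ZMod 2) = 0 := rfl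
  rw [h2, zero_mul, add_zero] at h'
  simp only [F20lo, one_pow, mul_one] at h'
  revert h'
  decide

theorem F30_mod_four {A B s : ℤ} (hA : A % 2 = 1) (hB : B % 4 = 1) (hs : s % 2 = 1) : F30 A B s % 4 = 3 := by
  have key : ∀ A s : ZMod 4, (A = 1 ∨ A = 3) → (s = 1 ∨ s = 3) → F30lo A 1 s = 3 := by
    unfold F30lo
    decide
  have e : ((F30 A B s : ℤ) : ZMod 4) = F30 (A : ZMod 4) (B : ZMod 4) (s : ZMod 4) :=
    (map_F30 (Int.castRingHom (ZMod 4)) A B s).symm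
  have hodd : ∀ x : ℤ, x % 2 = 1 → ((x : ZMod 4) = 1 ∨ (x : ZMod 4) = 3) := by
    intro x hx
    have : x % 4 = 1 ∨ x % 4 = 3 := by omega
    rcases this with h | h
    · left
      have := (ZMod.intCast_eq_intCast_iff_dvd_sub 1 x 4).mpr (by push_cast; omega)
      rw [← this]; norm_num
    · right
      have := (ZMod.intCast_eq_intCast_iff_dvd_sub 3 x 4).mpr (by push_cast; omega)
      rw [← this]; norm_num
  have hB' : (B : ZMod 4) = 1 := by
    have := (ZMod.intCast_eq_intCast_iff_dvd_sub 1 B 4).mpr (by push_cast; omega)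
    rw [← this]; norm_num
  have h4 : (4 : ZMod 4) = 0 := rfl
  have e' : F30 (A : ZMod 4) 1 (s : ZMod 4) = 3 := by
    rw [F30, h4, zero_mul, add_zero, key _ _ (hodd A hA) (hodd s hs)]
  rw [hB', e'] at e
  have h3 : ((3 : ℤ) : ZMod 4) = ((F30 A B s : ℤ) : ZMod 4) := by rw [e]; norm_num
  have := (ZMod.intCast_eq_intCast_iff_dvd_sub 3 (F30 A B s) 4).mp h3
  push_cast at this
  omega

/-! ### congruences modulo divisors of `s` -/

theorem FD_congr {A B s M : ℤ} (h : M ∣ s) : M ∣ FD A B s - 1 := by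
  have h1 : (s : ZMod M.natAbs) = 0 := (ZMod.intCast_zmod_eq_zero_iff_dvd s M.natAbs).mpr (Int.natAbs_dvd.mpr h)
  have h3 : ((FD A B s - 1 : ℤ) : ZMod M.natAbs) = 0 := by
    have e : ((FD A B s : ℤ) : ZMod M.natAbs) = FD (A : ZMod M.natAbs) (B : ZMod M.natAbs) (s : ZMod M.natAbs) :=
      (map_FD (Int.castRingHom (ZMod M.natAbs)) A B s).symm
    push_cast
    rw [e, h1, FD_zero, sub_self]
  exact Int.natAbs_dvd.mp ((ZMod.intCast_zmod_eq_zero_iff_dvd _ _).mp h3)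

theorem F20_congr {A B s M : ℤ} (h : M ∣ s) : M ∣ F20 A B s - 16 * A := by
  have h1 : (s : ZMod M.natAbs) = 0 := (ZMod.intCast_zmod_eq_zero_iff_dvd s M.natAbs).mpr (Int.natAbs_dvd.mpr h)
  have h3 : ((F20 A B s - 16 * A : ℤ) : ZMod M.natAbs) = 0 := by
    have e : ((F20 A B s : ℤ) : ZMod M.natAbs) = F20 (A : ZMod M.natAbs) (B : ZMod M.natAbs) (s : ZMod M.natAbs) :=
      (map_F20 (Int.castRingHom (ZMod M.natAbs)) A B s).symm
    push_cast
    rw [e, h1, F20_zero, sub_self]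
  exact Int.natAbs_dvd.mp ((ZMod.intCast_zmod_eq_zero_iff_dvd _ _).mp h3)

theorem F30_congr {A B s M : ℤ} (h : M ∣ s) : M ∣ F30 A B s - 8 * B := by
  have h1 : (s : ZMod M.natAbs) = 0 := (ZMod.intCast_zmod_eq_zero_iff_dvd s M.natAbs).mpr (Int.natAbs_dvd.mpr h)
  have h3 : ((F30 A B s - 8 * B : ℤ) : ZMod M.natAbs) = 0 := by
    have e : ((F30 A B s : ℤ) : ZMod M.natAbs) = F30 (A : ZMod M.natAbs) (B : ZMod M.natAbs) (s : ZMod M.natAbs) :=
      (map_F30 (Int.castRingHom (ZMod M.natAbs)) A B s).symm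
    push_cast
    rw [e, h1, F30_zero, sub_self]
  exact Int.natAbs_dvd.mp ((ZMod.intCast_zmod_eq_zero_iff_dvd _ _).mp h3)

end Fermat.Agent.H85.X
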