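import Fermat.Agent.H86Kum

/-!
# Leading reductions along a component
-/

set_option autoImplicit false

open AlgebraicCurve WithZero Fermat.Agent.H3RR Module Fermat.Agent.H89SS Fermat.Agent.H86.Slope

namespace Fermat.Agent.H86

/-- A component. -/
structure Cmp (K F k κ : Type*) [Field K] [Field F] [Algebra K F] [Field k] [Field κ]
    [Algebra k κ] (A : ValuationSubring K) (π : A →+* k) where
  V : ValuationSubring F
  ρ : V →+* κ
  loc : IsLocalHom ρ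
  mem : ∀ a : A, algebraMap K F a ∈ V
  ρ_mem : ∀ a : A, ρ ⟨algebraMap K F a, mem a⟩ = algebraMap k κ (π a)
  scale : ∀ f : F, f ≠ 0 → ∃ (c : K) (_ : c ≠ 0) (h : algebraMap K F c * f ∈ V), ρ ⟨_, h⟩ ≠ 0

namespace Cmp

variable {K F k κ : Type*} [Field K] [Field F] [Algebra K F] [Field k] [Field κ]
    [Algebra k κ] {A : ValuationSubring K} {π : A →+* k} (C : Cmp K F k κ A π)

/-- `a` is a leading reduction of `f`. -/
def Lead (f : F) (a : κ) : Prop :=
  a ≠ 0 ∧ ∃ (c : K) (_ : c ≠ 0) (h : algebraMap K F c * f ∈ C.V), C.ρ ⟨_, h⟩ = a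

theorem exists_lead {f : F} (hf : f ≠ 0) : ∃ a, C.Lead f a := by
  obtain ⟨c, hc, h, h1⟩ := C.scale f hf
  exact ⟨_, h1, c, hc, h, rfl⟩

variable {C}

theorem Lead.mul {f g : F} {a b : κ} (hf : C.Lead f a) (hg : C.Lead g b) :
    C.Lead (f * g) (a * b) := by
  obtain ⟨ha, c, hc, h, h1⟩ := hf
  obtain ⟨hb, c', hc', h', h1'⟩ := hg
  have e : algebraMap K F (c * c') * (f * g) = (algebraMap K F c * f) * (algebraMap K F c' * g) := by
    rw [map_mul]; ring
  have hm : algebraMap K F (c * c') * (f * g) ∈ C.V := by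
    rw [e]; exact C.V.mul_mem _ _ h h'
  refine ⟨mul_ne_zero ha hb, c * c', mul_ne_zero hc hc', hm, ?_⟩
  have h2 : (⟨_, hm⟩ : C.V) = ⟨_, h⟩ * ⟨_, h'⟩ := Subtype.ext e
  rw [h2, map_mul, h1, h1']

theorem inv_mem {f : F} (h : f ∈ C.V) (h1 : C.ρ ⟨f, h⟩ ≠ 0) :
    ∃ h' : f⁻¹ ∈ C.V, C.ρ ⟨f⁻¹, h'⟩ = (C.ρ ⟨f, h⟩)⁻¹ :=
  TwoComp.inv_mem_of_ρ_ne_zero h h1 C.loc

theorem Lead.inv {f : F} {a : κ} (hf : C.Lead f a) : C.Lead f⁻¹ a⁻¹ := by
  obtain ⟨ha, c, hc, h, h1⟩ := hf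
  obtain ⟨h', h1'⟩ := inv_mem h (by rw [h1]; exact ha)
  have e : algebraMap K F c⁻¹ * f⁻¹ = (algebraMap K F c * f)⁻¹ := by
    rw [map_inv₀, mul_inv]
  have hm : algebraMap K F c⁻¹ * f⁻¹ ∈ C.V := by rw [e]; exact h'
  refine ⟨inv_ne_zero ha, c⁻¹, inv_ne_zero hc, hm, ?_⟩
  have h2 : (⟨_, hm⟩ : C.V) = ⟨_, h'⟩ := Subtype.ext e
  rw [h2, h1', h1]

theorem Lead.pow {f : F} {a : κ} (hf : C.Lead f a) (n : ℕ) : C.Lead (f ^ n) (a ^ n) := by
  induction n with
  | zero =>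
    have e : algebraMap K F 1 * f ^ 0 = 1 := by simp
    refine ⟨by simp, 1, one_ne_zero, by rw [e]; exact C.V.one_mem, ?_⟩
    have h2 : (⟨algebraMap K F 1 * f ^ 0, by rw [e]; exact C.V.one_mem⟩ : C.V) = 1 :=
      Subtype.ext e
    rw [h2, map_one, pow_zero]
  | succ n ih => rw [pow_succ, pow_succ]; exact ih.mul hf

theorem Lead.of_mem {f : F} (h : f ∈ C.V) (h1 : C.ρ ⟨f, h⟩ ≠ 0) : C.Lead f (C.ρ ⟨f, h⟩) := by
  have e : algebraMap K F 1 * f = f := by simp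
  refine ⟨h1, 1, one_ne_zero, by rw [e]; exact h, ?_⟩
  congr 1
  exact Subtype.ext e

/-- Leading reductions are unique up to constants. -/
theorem Lead.unique [IsLocalHom π] {f : F} {a b : κ} (ha : C.Lead f a) (hb : C.Lead f b) :
    ∃ u : k, u ≠ 0 ∧ a = algebraMap k κ u * b := by
  obtain ⟨ha0, c, hc, h, h1⟩ := ha
  obtain ⟨hb0, c', hc', h', h1'⟩ := hb
  obtain ⟨h2, h2'⟩ := inv_mem h' (by rw [h1']; exact hb0)
  have hcF : algebraMap K F c ≠ 0 := (map_ne_zero _).mpr hc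
  have hcF' : algebraMap K F c' ≠ 0 := (map_ne_zero _).mpr hc'
  have hf0 : f ≠ 0 := by
    rintro rfl
    apply ha0
    rw [← h1]
    have : (⟨algebraMap K F c * 0, h⟩ : C.V) = 0 := Subtype.ext (mul_zero _)
    rw [this, map_zero]
  have hA : c / c' ∈ A := by
    by_contra hnA
    have hinv : (c / c')⁻¹ ∈ A := (A.mem_or_inv_mem _).resolve_left hnA
    have e1 : (⟨_, h⟩ * ⟨_, h2⟩ * ⟨_, C.mem ⟨_, hinv⟩⟩ : C.V) = 1 := by
      apply Subtype.ext
      change algebraMap K F c * f * (algebraMap K F c' * f)⁻¹ * algebraMap K F (c / c')⁻¹ = 1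
      rw [map_inv₀, map_div₀]
      field_simp
    have e3 := congrArg C.ρ e1
    rw [map_mul, map_mul, map_one, C.ρ_mem] at e3
    have e4 : π ⟨_, hinv⟩ = 0 := by
      by_contra hne
      have hu : IsUnit (⟨_, hinv⟩ : A) := (isUnit_map_iff π _).mp (isUnit_iff_ne_zero.mpr hne)
      obtain ⟨u, hu'⟩ := hu
      apply hnA
      have h3 : ((u⁻¹ : Aˣ).val : K) * (c / c')⁻¹ = 1 := by
        have : (u⁻¹ : Aˣ).val * (⟨_, hinv⟩ : A) = 1 := by rw [← hu', Units.inv_mul]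
        exact congrArg Subtype.val this
      have h4 : ((u⁻¹ : Aˣ).val : K) = c / c' := (mul_inv_eq_one₀ (div_ne_zero hc hc')).mp h3
      rw [← h4]
      exact (u⁻¹ : Aˣ).val.2
    rw [e4, map_zero, mul_zero] at e3
    exact zero_ne_one e3
  have e5 : (⟨_, h⟩ : C.V) = ⟨_, C.mem ⟨_, hA⟩⟩ * ⟨_, h'⟩ := by
    apply Subtype.ext
    change algebraMap K F c * f = algebraMap K F (c / c') * (algebraMap K F c' * f)
    rw [map_div₀]
    field_simp
  have e6 : a = algebraMap k κ (π ⟨_, hA⟩) * b := by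
    rw [← h1, e5, map_mul, C.ρ_mem, h1']
  refine ⟨π ⟨_, hA⟩, ?_, e6⟩
  intro h0
  rw [h0, map_zero, zero_mul] at e6
  exact ha0 e6

variable (C)

/-- A chosen leading reduction. -/
noncomputable def lead (f : Fˣ) : κˣ :=
  Units.mk0 (C.exists_lead f.ne_zero).choose (C.exists_lead f.ne_zero).choose_spec.1

theorem lead_spec (f : Fˣ) : C.Lead (f : F) (C.lead f : κ) :=
  (C.exists_lead f.ne_zero).choose_spec

variable [IsAlgClosed k] [IsLocalHom π]

theorem mk_eq_of_lead {d : ℕ} (hd : 0 < d) {f : F} {a b : κˣ} (ha : C.Lead f a)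
    (hb : C.Lead f b) : (QuotientGroup.mk a : κˣ ⧸ pw κ d) = QuotientGroup.mk b := by
  obtain ⟨u, hu, h⟩ := ha.unique hb
  rw [QuotientGroup.eq]
  have h1 : a⁻¹ * b = Units.mk0 (algebraMap k κ u⁻¹) ((map_ne_zero _).mpr (inv_ne_zero hu)) := by
    apply Units.ext
    rw [Units.val_mul, Units.val_inv_eq_inv_val, h, Units.val_mk0, map_inv₀, mul_inv, mul_assoc,
      inv_mul_cancel₀ b.ne_zero, mul_one]
  rw [h1]
  exact const_mem_pw (K := k) hd rfl

/-- The reduction homomorphism to `κˣ / (κˣ)^d`. -/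
noncomputable def L {d : ℕ} (hd : 0 < d) : Fˣ →* κˣ ⧸ pw κ d where
  toFun f := QuotientGroup.mk (C.lead f)
  map_one' := by
    have h1 := C.lead_spec 1
    have h2 : C.Lead (1 : F) ((1 : κˣ) : κ) := by
      have := (C.lead_spec 1).pow 0
      simpa using this
    exact C.mk_eq_of_lead hd h1 h2
  map_mul' f g := by
    have h1 := C.lead_spec (f * g)
    have h2 : C.Lead ((f * g : Fˣ) : F) ((C.lead f * C.lead g : κˣ) : κ) :=
      (C.lead_spec f).mul (C.lead_spec g)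
    exact C.mk_eq_of_lead hd h1 h2

theorem L_eq {d : ℕ} (hd : 0 < d) {f : Fˣ} {a : κˣ} (ha : C.Lead f a) :
    C.L hd f = QuotientGroup.mk a := C.mk_eq_of_lead hd (C.lead_spec f) ha

theorem L_eq_one_iff {d : ℕ} (hd : 0 < d) {f : Fˣ} :
    C.L hd f = 1 ↔ C.lead f ∈ pw κ d := by
  change (QuotientGroup.mk (C.lead f) : κˣ ⧸ pw κ d) = 1 ↔ _
  rw [QuotientGroup.eq_one_iff]

theorem pw_le_ker_L {d : ℕ} (hd : 0 < d) : pw F d ≤ (C.L hd).ker := by
  rintro _ ⟨g, rfl⟩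
  rw [MonoidHom.mem_ker]
  change C.L hd (g ^ d) = 1
  rw [map_pow]
  change (QuotientGroup.mk (C.lead g) : κˣ ⧸ pw κ d) ^ d = 1
  rw [← QuotientGroup.mk_pow, QuotientGroup.eq_one_iff]
  exact pow_mem_pw d _

variable [IsFF k κ]

omit [IsAlgClosed k] [IsFF k κ] in
theorem ord_eq_of_lead [IsAlgClosed k] [IsFF k κ] {f : F} {a b : κ} (ha : C.Lead f a)
    (hb : C.Lead f b) (v : Place k κ) : v.ord a = v.ord b := by
  obtain ⟨u, hu, h⟩ := ha.unique hb
  rw [h, v.ord_mul ((map_ne_zero _).mpr hu) hb.1, ord_const, zero_add]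

/-- The slope homomorphism. -/
noncomputable def slope (v : Place k κ) : Fˣ →* Multiplicative ℤ where
  toFun f := Multiplicative.ofAdd (v.ord (C.lead f : κ))
  map_one' := by
    have h1 := C.lead_spec 1
    have h2 : C.Lead (1 : F) (1 : κ) := by
      have := (C.lead_spec 1).pow 0
      simpa using this
    rw [C.ord_eq_of_lead h1 h2, v.ord_one]
    rfl
  map_mul' f g := by
    have h1 := C.lead_spec (f * g)
    have h2 : C.Lead ((f * g : Fˣ) : F) ((C.lead f : κ) * (C.lead g : κ)) :=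
      (C.lead_spec f).mul (C.lead_spec g)
    rw [C.ord_eq_of_lead h1 h2, v.ord_mul (Units.ne_zero _) (Units.ne_zero _)]
    rfl

theorem slope_apply (v : Place k κ) (f : Fˣ) :
    Multiplicative.toAdd (C.slope v f) = v.ord (C.lead f : κ) := rfl

end Cmp

end Fermat.Agent.H86
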