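import Fermat.Agent.H86Cmp

/-!
# Windings of torsion classes: the filtration of the Kummer group
-/

set_option autoImplicit false
set_option linter.unusedSectionVars false

open AlgebraicCurve WithZero Fermat.Agent.H3RR Module Fermat.Agent.H89SS Fermat.Agent.H86.Slope

namespace Fermat.Agent.H86.Ex

theorem dvd_of_degree_zero {k κ : Type*} [Field k] [Field κ] [Algebra k κ] [IsAlgClosed k]
    [IsFF k κ] {D : Divisor k κ} (hD : Divisor.degree D = 0) {v₀ : Place k κ} {d : ℕ}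
    (h : ∀ w, w ≠ v₀ → (d : ℤ) ∣ D w) : (d : ℤ) ∣ D v₀ := by
  classical
  have h1 : Divisor.degree (Finsupp.single v₀ (D v₀) + D.erase v₀) = 0 := by
    rw [Finsupp.single_add_erase]; exact hD
  rw [map_add, Divisor.degree_single, deg_eq_one, degree_eq_sum] at h1
  have h2 : (d : ℤ) ∣ ∑ w ∈ (D.erase v₀).support, (D.erase v₀) w := by
    refine Finset.dvd_sum fun w hw => ?_
    have h3 : w ≠ v₀ := by
      rintro rfl
      rw [Finsupp.mem_support_iff, Finsupp.erase_same] at hw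
      exact hw rfl
    rw [Finsupp.erase_ne h3]
    exact h w h3
  have h4 : D v₀ = -∑ w ∈ (D.erase v₀).support, (D.erase v₀) w := by
    push_cast at h1
    linarith
  rw [h4]
  exact dvd_neg.mpr h2

variable {K F k κ : Type*} [Field K] [Field F] [Algebra K F] [Field k] [Field κ]
    [Algebra k κ] {A : ValuationSubring K} {π : A →+* k} {q : ℕ} (T : TwoComp K F k κ A π q)

/-- first component -/
def C₁ : Cmp K F k κ A π := ⟨T.V₁, T.ρ₁, T.local₁, T.mem₁, T.ρ₁_mem, T.scale₁⟩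

/-- second component -/
def C₂ : Cmp K F k κ A π := ⟨T.V₂, T.ρ₂, T.local₂, T.mem₂, T.ρ₂_mem, T.scale₂⟩

variable (hπ : Function.Surjective π) [IsAlgClosed K] [IsFF K F] [IsAlgClosed k] [IsFF k κ]
  [IsLocalHom π]

include hπ in
omit [IsFF K F] in
/-- Make `f` a unit on both components by multiplying with a `d`-th power. -/
theorem exists_adjust (hq : 2 ≤ q) (arch : ∀ a b : A, π a = 0 → b ≠ 0 → ∃ n, b ∣ a ^ n)
    {d : ℕ} (hd : 0 < d) (f : Fˣ) : ∃ (χ : Fˣ) (h : ((f * χ ^ d : Fˣ) : F) ∈ T.red.O),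
      (C₁ T).Lead (f : F) (T.red.ρ ⟨_, h⟩).1 ∧ (C₂ T).Lead (f : F) (T.red.ρ ⟨_, h⟩).2 := by
  obtain ⟨c₁, hc₁, h₁, hρ₁⟩ := T.scale₁ f f.ne_zero
  obtain ⟨c₂, hc₂, h₂, hρ₂⟩ := T.scale₂ f f.ne_zero
  obtain ⟨r₁, hr₁⟩ := IsAlgClosed.exists_pow_nat_eq c₁ hd
  obtain ⟨r₂, hr₂⟩ := IsAlgClosed.exists_pow_nat_eq c₂ hd
  have hr₁0 : r₁ ≠ 0 := by
    rintro rfl
    rw [zero_pow hd.ne'] at hr₁
    exact hc₁ hr₁.symm
  have hr₂0 : r₂ ≠ 0 := by
    rintro rfl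
    rw [zero_pow hd.ne'] at hr₂
    exact hc₂ hr₂.symm
  have hr₁F : algebraMap K F r₁ ≠ 0 := (map_ne_zero _).mpr hr₁0
  have hr₂F : algebraMap K F r₂ ≠ 0 := (map_ne_zero _).mpr hr₂0
  obtain ⟨χ, hχ₁, hχ₂⟩ := T.weak_approx hπ hq arch (inv_ne_zero hr₁F) (inv_ne_zero hr₂F)
  have hχ0 : χ ≠ 0 := by
    rintro rfl
    obtain ⟨h, h'⟩ := hχ₁
    have h3 : (⟨0 * (algebraMap K F r₁)⁻¹, h⟩ : T.V₁) = 0 := Subtype.ext (zero_mul _)
    rw [h3, map_zero] at h'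
    exact zero_ne_one h'
  obtain ⟨m₁, e₁⟩ := hχ₁.pow d
  obtain ⟨m₂, e₂⟩ := hχ₂.pow d
  have k₁ : (f : F) * χ ^ d = algebraMap K F c₁ * f * (χ * (algebraMap K F r₁)⁻¹) ^ d := by
    rw [mul_pow, inv_pow, ← map_pow, hr₁]
    have : algebraMap K F c₁ ≠ 0 := (map_ne_zero _).mpr hc₁
    field_simp
  have k₂ : (f : F) * χ ^ d = algebraMap K F c₂ * f * (χ * (algebraMap K F r₂)⁻¹) ^ d := by
    rw [mul_pow, inv_pow, ← map_pow, hr₂]
    have : algebraMap K F c₂ ≠ 0 := (map_ne_zero _).mpr hc₂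
    field_simp
  have n₁ : (f : F) * χ ^ d ∈ T.V₁ := by rw [k₁]; exact T.V₁.mul_mem _ _ h₁ m₁
  have n₂ : (f : F) * χ ^ d ∈ T.V₂ := by rw [k₂]; exact T.V₂.mul_mem _ _ h₂ m₂
  refine ⟨Units.mk0 χ hχ0, ⟨n₁, n₂⟩, ?_, ?_⟩
  · have e : (⟨(f : F) * χ ^ d, n₁⟩ : T.V₁) = ⟨_, h₁⟩ * ⟨_, m₁⟩ := Subtype.ext k₁
    have e' : T.ρ₁ ⟨(f : F) * χ ^ d, n₁⟩ = T.ρ₁ ⟨_, h₁⟩ := by rw [e, map_mul, e₁, mul_one]
    exact ⟨by change T.ρ₁ ⟨(f : F) * χ ^ d, n₁⟩ ≠ 0; rw [e']; exact hρ₁, c₁, hc₁, h₁, e'.symm⟩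
  · have e : (⟨(f : F) * χ ^ d, n₂⟩ : T.V₂) = ⟨_, h₂⟩ * ⟨_, m₂⟩ := Subtype.ext k₂
    have e' : T.ρ₂ ⟨(f : F) * χ ^ d, n₂⟩ = T.ρ₂ ⟨_, h₂⟩ := by rw [e, map_mul, e₂, mul_one]
    exact ⟨by change T.ρ₂ ⟨(f : F) * χ ^ d, n₂⟩ ≠ 0; rw [e']; exact hρ₂, c₂, hc₂, h₂, e'.symm⟩

/-- The slope theorem for the Kummer group. -/
theorem slopes' (hq : 2 ≤ q) (arch : ∀ a b : A, π a = 0 → b ≠ 0 → ∃ n, b ∣ a ^ n)
    {d : ℕ} (hd : 0 < d) {f : Fˣ} (hf : f ∈ kum K F d) :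
    (∀ v, v ∉ T.SS hπ → (d : ℤ) ∣ v.ord ((C₁ T).lead f : κ)) ∧
    (∀ v ∈ T.SS hπ, ((d : ℤ) ∣ v.ord ((C₁ T).lead f : κ) ↔
      (d : ℤ) ∣ (T.fr • v).ord ((C₂ T).lead f : κ))) ∧
    (∀ w, (∀ v ∈ T.SS hπ, w ≠ T.fr • v) → (d : ℤ) ∣ w.ord ((C₂ T).lead f : κ)) := by
  obtain ⟨χ, h, h1, h2⟩ := exists_adjust T hπ hq arch hd f
  have hf' : f * χ ^ d ∈ kum K F d :=
    (kum K F d).mul_mem hf (pw_le_kum K F d (pow_mem_pw d χ))
  have h3 := slopes T hπ hq hd (degree_fl_divOf hd hf') (fun v => (fl_divOf hf' v).symm) h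
    h1.1 h2.1
  have e1 : ∀ v : Place k κ, v.ord (T.red.ρ ⟨_, h⟩).1 = v.ord ((C₁ T).lead f : κ) :=
    fun v => (C₁ T).ord_eq_of_lead h1 ((C₁ T).lead_spec f) v
  have e2 : ∀ v : Place k κ, v.ord (T.red.ρ ⟨_, h⟩).2 = v.ord ((C₂ T).lead f : κ) :=
    fun v => (C₂ T).ord_eq_of_lead h2 ((C₂ T).lead_spec f) v
  simp only [e1, e2] at h3
  exact h3

/-- Kummer functions with trivial slopes. -/
def S1 (d : ℕ) : Subgroup Fˣ where
  carrier := {f | f ∈ kum K F d ∧ (C₁ T).lead f ∈ kum k κ d}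
  one_mem' := by
    refine ⟨(kum K F d).one_mem, fun v => ?_⟩
    have h := congrArg Multiplicative.toAdd (((C₁ T).slope v).map_one)
    rw [(C₁ T).slope_apply] at h
    rw [h]
    exact dvd_zero _
  mul_mem' {f g} hf hg := by
    refine ⟨(kum K F d).mul_mem hf.1 hg.1, fun v => ?_⟩
    have h := congrArg Multiplicative.toAdd (((C₁ T).slope v).map_mul f g)
    rw [(C₁ T).slope_apply, toAdd_mul, (C₁ T).slope_apply, (C₁ T).slope_apply] at h
    rw [h]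
    exact dvd_add (hf.2 v) (hg.2 v)
  inv_mem' {f} hf := by
    refine ⟨(kum K F d).inv_mem hf.1, fun v => ?_⟩
    have h := congrArg Multiplicative.toAdd (((C₁ T).slope v).map_inv f)
    rw [(C₁ T).slope_apply, toAdd_inv, (C₁ T).slope_apply] at h
    rw [h]
    exact dvd_neg.mpr (hf.2 v)

theorem mem_S1 {d : ℕ} {f : Fˣ} : f ∈ S1 T d ↔ f ∈ kum K F d ∧ (C₁ T).lead f ∈ kum k κ d :=
  Iff.rfl

include hπ in
theorem S1_lead₂ (hq : 2 ≤ q) (arch : ∀ a b : A, π a = 0 → b ≠ 0 → ∃ n, b ∣ a ^ n)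
    {d : ℕ} (hd : 0 < d) {f : Fˣ} (hf : f ∈ S1 T d) : (C₂ T).lead f ∈ kum k κ d := by
  obtain ⟨h1, h2, h3⟩ := slopes' T hπ hq arch hd hf.1
  intro w
  by_cases hw : ∀ v ∈ T.SS hπ, w ≠ T.fr • v
  · exact h3 w hw
  · push Not at hw
    obtain ⟨v, hv, rfl⟩ := hw
    exact (h2 v hv).mp (hf.2 v)

/-- Kummer functions which are `d`-th powers on both components. -/
noncomputable def S2 {d : ℕ} (hd : 0 < d) : Subgroup Fˣ :=
  kum K F d ⊓ (((C₁ T).L hd).ker ⊓ ((C₂ T).L hd).ker)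

theorem S2_le_S1 {d : ℕ} (hd : 0 < d) : S2 T hd ≤ S1 T d := by
  rintro f ⟨hf, h1, -⟩
  refine ⟨hf, ?_⟩
  exact pw_le_kum k κ d (((C₁ T).L_eq_one_iff hd).mp h1)

theorem pw_le_S2 {d : ℕ} (hd : 0 < d) : pw F d ≤ S2 T hd :=
  le_inf (pw_le_kum K F d) (le_inf ((C₁ T).pw_le_ker_L hd) ((C₂ T).pw_le_ker_L hd))

theorem S1_le (d : ℕ) : S1 T d ≤ kum K F d := fun _ h => h.1

/-- the image of the Kummer group in `κˣ / (κˣ)^d` -/
noncomputable def kumQ (k κ : Type*) [Field k] [Field κ] [Algebra k κ] (d : ℕ) :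
    Subgroup (κˣ ⧸ pw κ d) := (kum k κ d).map (QuotientGroup.mk' (pw κ d))

theorem card_kumQ {k κ : Type*} [Field k] [Field κ] [Algebra k κ] [IsAlgClosed k] [IsFF k κ]
    {d : ℕ} (hd : 0 < d) : Nat.card (kumQ k κ d) = Nat.card (Pic0.torsion k κ d) := by
  rw [← relIndex_kum hd]
  have h1 : (pw κ d).subgroupOf (kum k κ d) =
      ((QuotientGroup.mk' (pw κ d)).comp (kum k κ d).subtype).ker := by
    ext f
    rw [MonoidHom.mem_ker, Subgroup.mem_subgroupOf]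
    exact (QuotientGroup.eq_one_iff _).symm
  rw [Subgroup.relIndex, h1, Subgroup.index_ker, MonoidHom.range_comp, Subgroup.range_subtype]
  rfl

include hπ in
theorem relIndex_S2 (hq : 2 ≤ q) (arch : ∀ a b : A, π a = 0 → b ≠ 0 → ∃ n, b ∣ a ^ n)
    {d : ℕ} (hd : 0 < d) [Finite (Pic0.torsion k κ d)] :
    (S2 T hd).relIndex (S1 T d) ≤ Nat.card (Pic0.torsion k κ d) ^ 2 := by
  let φ : S1 T d →* kumQ k κ d × kumQ k κ d :=
    MonoidHom.prod
      ((((C₁ T).L hd).comp (S1 T d).subtype).codRestrict (kumQ k κ d) fun f =>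
        ⟨(C₁ T).lead f, f.2.2, rfl⟩)
      ((((C₂ T).L hd).comp (S1 T d).subtype).codRestrict (kumQ k κ d) fun f =>
        ⟨(C₂ T).lead f, S1_lead₂ T hπ hq arch hd f.2, rfl⟩)
  have hker : (S2 T hd).subgroupOf (S1 T d) = φ.ker := by
    ext f
    rw [MonoidHom.mem_ker, Subgroup.mem_subgroupOf]
    constructor
    · rintro ⟨-, h1, h2⟩
      exact Prod.ext (Subtype.ext h1) (Subtype.ext h2)
    · intro h
      refine ⟨f.2.1, ?_, ?_⟩
      · exact congrArg (fun x => (x.1 : κˣ ⧸ pw κ d)) h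
      · exact congrArg (fun x => (x.2 : κˣ ⧸ pw κ d)) h
  have : Finite (kumQ k κ d) := by
    refine Nat.finite_of_card_ne_zero ?_
    rw [card_kumQ hd]
    exact Nat.card_pos.ne'
  rw [Subgroup.relIndex, hker, Subgroup.index_ker]
  calc Nat.card φ.range ≤ Nat.card (kumQ k κ d × kumQ k κ d) := Subgroup.card_le_card_group _
    _ = _ := by rw [Nat.card_prod, card_kumQ hd, sq]

theorem relIndex_S1 (hq : 2 ≤ q) (arch : ∀ a b : A, π a = 0 → b ≠ 0 → ∃ n, b ∣ a ^ n)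
    {d : ℕ} (hd : 0 < d) {v₀ : Place k κ} (hv₀ : v₀ ∈ T.SS hπ) :
    (S1 T d).relIndex (kum K F d) ≤ d ^ ((T.finite_SS hπ hq).toFinset.card - 1) := by
  classical
  have : NeZero d := ⟨hd.ne'⟩
  set S := (T.finite_SS hπ hq).toFinset with hS
  have hSm : ∀ v, v ∈ S ↔ v ∈ T.SS hπ := fun v => Set.Finite.mem_toFinset _
  set S' : Finset (Place k κ) := S.erase v₀ with hS'
  let φ : kum K F d →* (S' → Multiplicative (ZMod d)) :=
    { toFun := fun f v => Multiplicative.ofAdd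
        ((Multiplicative.toAdd ((C₁ T).slope (v : Place k κ) (f : Fˣ)) : ℤ) : ZMod d)
      map_one' := by
        funext v
        change Multiplicative.ofAdd ((Multiplicative.toAdd
          ((C₁ T).slope (v : Place k κ) (1 : Fˣ)) : ℤ) : ZMod d) = 1
        rw [map_one]
        simp
      map_mul' := by
        intro f g
        funext v
        change Multiplicative.ofAdd ((Multiplicative.toAdd
          ((C₁ T).slope (v : Place k κ) ((f : Fˣ) * (g : Fˣ))) : ℤ) : ZMod d) = _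
        rw [map_mul, toAdd_mul, Int.cast_add]
        rfl }
  have hker : (S1 T d).subgroupOf (kum K F d) = φ.ker := by
    ext f
    rw [MonoidHom.mem_ker, Subgroup.mem_subgroupOf, mem_S1]
    constructor
    · rintro ⟨-, h1⟩
      funext v
      change Multiplicative.ofAdd ((v : Place k κ).ord ((C₁ T).lead f : κ) : ZMod d) = 1
      rw [(ZMod.intCast_zmod_eq_zero_iff_dvd _ d).mpr (h1 v), ofAdd_zero]
    · intro h
      refine ⟨f.2, ?_⟩
      obtain ⟨s1, s2, s3⟩ := slopes' T hπ hq arch hd f.2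
      have h1 : ∀ v ∈ S', (d : ℤ) ∣ v.ord ((C₁ T).lead f : κ) := by
        intro v hv
        have h2 := congrFun h ⟨v, hv⟩
        change Multiplicative.ofAdd ((v : Place k κ).ord ((C₁ T).lead f : κ) : ZMod d) = 1 at h2
        rw [ofAdd_eq_one] at h2
        exact (ZMod.intCast_zmod_eq_zero_iff_dvd _ d).mp h2
      have h2 : ∀ v, v ≠ v₀ → (d : ℤ) ∣ v.ord ((C₁ T).lead f : κ) := by
        intro v hv
        by_cases hvS : v ∈ T.SS hπ
        · exact h1 v (Finset.mem_erase.mpr ⟨hv, (hSm v).mpr hvS⟩)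
        · exact s1 v hvS
      intro v
      by_cases hv : v = v₀
      · subst hv
        have h3 := dvd_of_degree_zero (D := (divOf (((C₁ T).lead (f : Fˣ) : κˣ) : κ) :
          Divisor k κ)) (degree_divOf (Units.ne_zero _)) (v₀ := v) (d := d) (fun w hw => by
            rw [divOf_apply (Units.ne_zero _)]
            exact h2 w hw)
        rwa [divOf_apply (Units.ne_zero _)] at h3
      · exact h2 v hv
  rw [Subgroup.relIndex, hker, Subgroup.index_ker]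
  calc Nat.card φ.range ≤ Nat.card (S' → Multiplicative (ZMod d)) :=
        Subgroup.card_le_card_group _
    _ = d ^ (S.card - 1) := by
        rw [Nat.card_fun, Nat.card_eq_fintype_card (α := S'),
          Fintype.card_coe, Finset.card_erase_of_mem ((hSm v₀).mpr hv₀)]
        congr 1
        change Nat.card (ZMod d) = d
        exact Nat.card_zmod d

end Fermat.Agent.H86.Ex
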