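import Fermat.Agent.H86Ex1

/-!
# Windings of torsion classes: all windings occur
-/

set_option autoImplicit false
set_option linter.unusedSectionVars false

open AlgebraicCurve WithZero Fermat.Agent.H3RR Module Fermat.Agent.H89SS Fermat.Agent.H86.Slope

namespace Fermat.Agent.H86.Ex

section Frac

variable {k κ : Type*} [Field k] [Field κ] [Algebra k κ] [IsAlgClosed k] [IsFF k κ]

/-- Every function is a quotient of functions regular away from `P`. -/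
theorem exists_reg_mul (P : Place k κ) (b : κ) :
    ∃ a ∈ reg P, a ≠ 0 ∧ a * b ∈ reg P := by
  rcases eq_or_ne b 0 with rfl | hb
  · exact ⟨1, (reg P).one_mem, one_ne_zero, by rw [mul_zero]; exact (reg P).zero_mem⟩
  set D : Divisor k κ := poleDiv b with hD
  have hD0 : 0 ≤ D := poleDiv_nonneg b
  have hDb : 0 ≤ D + divOf b := by
    rw [hD, poleDiv]
    intro v
    have h1 : -((divOf b : Divisor k κ)⁻) ≤ divOf b := by
      rw [neg_le]; exact neg_le_negPart _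
    have h2 := h1 v
    rw [Finsupp.neg_apply] at h2
    rw [Finsupp.add_apply, Finsupp.coe_zero, Pi.zero_apply]
    omega
  set n : ℕ := (Divisor.degree D + genusFF k κ).toNat with hn
  have hdeg : Divisor.degree (Finsupp.single P (n : ℤ) - D) = n - Divisor.degree D := by
    rw [map_sub, Divisor.degree_single, deg_eq_one]; simp
  have h1 := riemann_inequality (Finsupp.single P (n : ℤ) - D : Divisor k κ)
  rw [hdeg] at h1
  have h2 := Int.self_le_toNat (Divisor.degree D + genusFF k κ)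
  rw [← hn] at h2
  obtain ⟨a, ha0, ha⟩ := exists_mem_L_of_ell_pos (D := (Finsupp.single P (n : ℤ) - D :
    Divisor k κ)) (by omega)
  have h3 : ∀ v, v ≠ P → v.adicValuation a ≤ exp (-D v) := by
    intro v hv
    have := ha v
    rwa [Finsupp.sub_apply, Finsupp.single_eq_of_ne hv, zero_sub] at this
  refine ⟨a, fun v hv => (h3 v hv).trans ?_, ha0, fun v hv => ?_⟩
  · rw [← exp_zero, exp_le_exp]
    have := hD0 v
    simp only [Finsupp.coe_zero, Pi.zero_apply] at this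
    omega
  · rw [map_mul]
    have h4 : v.adicValuation b ≤ exp (D v) := by
      rw [v.adicValuation_eq_exp_neg_ord hb, exp_le_exp]
      have := hDb v
      rw [Finsupp.add_apply, divOf_apply hb] at this
      simp only [Finsupp.coe_zero, Pi.zero_apply] at this
      omega
    calc v.adicValuation a * v.adicValuation b ≤ exp (-D v) * exp (D v) :=
          mul_le_mul' (h3 v hv) h4
      _ = 1 := by rw [← exp_add, neg_add_cancel, exp_zero]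

end Frac

variable {K F k κ : Type*} [Field K] [Field F] [Algebra K F] [Field k] [Field κ]
    [Algebra k κ] {A : ValuationSubring K} {π : A →+* k} {q : ℕ} (T : TwoComp K F k κ A π q)

variable (hπ : Function.Surjective π) [IsAlgClosed K] [IsFF K F] [IsAlgClosed k] [IsFF k κ]
  [IsLocalHom π]

include hπ in
/-- `ρ₁` is surjective. -/
theorem exists_ρ₁ (b : κ) : ∃ (x : F) (h : x ∈ T.V₁), T.ρ₁ ⟨x, h⟩ = b := by
  obtain ⟨a, ha, ha0, hab⟩ := exists_reg_mul T.P b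
  obtain ⟨n, x, hx, hxρ⟩ := T.lift_mem₁ hπ ha
  obtain ⟨m, y, hy, hyρ⟩ := T.lift_mem₁ hπ hab
  have h1 : T.ρ₁ ⟨x, x.2.1⟩ = a := congrArg Prod.fst hxρ
  have h2 : T.ρ₁ ⟨y, y.2.1⟩ = a * b := congrArg Prod.fst hyρ
  obtain ⟨h3, h4⟩ := TwoComp.mem_V₁_of_ρ (T := T) x.2.1 (by rw [h1]; exact ha0)
  refine ⟨y * (x : F)⁻¹, T.V₁.mul_mem _ _ y.2.1 h3, ?_⟩
  have h5 : (⟨y * (x : F)⁻¹, T.V₁.mul_mem _ _ y.2.1 h3⟩ : T.V₁) = ⟨y, y.2.1⟩ * ⟨_, h3⟩ := rfl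
  rw [h5, map_mul, h2, h4, h1]
  field_simp

include hπ in
/-- `ρ₂` is surjective. -/
theorem exists_ρ₂ (b : κ) : ∃ (x : F) (h : x ∈ T.V₂), T.ρ₂ ⟨x, h⟩ = b := by
  obtain ⟨a, ha, ha0, hab⟩ := exists_reg_mul T.P b
  obtain ⟨n, x, hx, hxρ⟩ := T.lift_mem₂ hπ ha
  obtain ⟨m, y, hy, hyρ⟩ := T.lift_mem₂ hπ hab
  have h1 : T.ρ₂ ⟨x, x.2.2⟩ = a := congrArg Prod.snd hxρ
  have h2 : T.ρ₂ ⟨y, y.2.2⟩ = a * b := congrArg Prod.snd hyρ
  obtain ⟨h3, h4⟩ := TwoComp.mem_V₂_of_ρ (T := T) x.2.2 (by rw [h1]; exact ha0)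
  refine ⟨y * (x : F)⁻¹, T.V₂.mul_mem _ _ y.2.2 h3, ?_⟩
  have h5 : (⟨y * (x : F)⁻¹, T.V₂.mul_mem _ _ y.2.2 h3⟩ : T.V₂) = ⟨y, y.2.2⟩ * ⟨_, h3⟩ := rfl
  rw [h5, map_mul, h2, h4, h1]
  field_simp

/-- A leading reduction in `(κˣ)^d` has the form `b^d`. -/
theorem exists_pow_of_lead {C : Cmp K F k κ A π} {d : ℕ} (hd : 0 < d) {f : Fˣ} {a : κ}
    (ha : C.Lead (f : F) a) (h : C.lead f ∈ pw κ d) : ∃ b : κ, b ≠ 0 ∧ b ^ d = a := by
  obtain ⟨g, hg⟩ := h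
  obtain ⟨u, hu, hau⟩ := ha.unique (C.lead_spec f)
  obtain ⟨r, hr⟩ := IsAlgClosed.exists_pow_nat_eq u hd
  have hr0 : r ≠ 0 := by
    rintro rfl
    rw [zero_pow hd.ne'] at hr
    exact hu hr.symm
  refine ⟨algebraMap k κ r * g, mul_ne_zero ((map_ne_zero _).mpr hr0) g.ne_zero, ?_⟩
  rw [mul_pow, ← map_pow, hr, hau, ← hg]
  rfl

include hπ in
/-- Elements of `S2` are unit pairs up to `d`-th powers. -/
theorem exists_unitPair' (hq : 2 ≤ q) (arch : ∀ a b : A, π a = 0 → b ≠ 0 → ∃ n, b ∣ a ^ n)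
    {d : ℕ} (hd : 0 < d) {f : Fˣ} (hf : f ∈ S2 T hd) :
    ∃ (χ : Fˣ) (E : Divisor K F), T.UnitPair d E ((f * χ ^ d : Fˣ) : F) := by
  obtain ⟨χ₀, h, h1, h2⟩ := exists_adjust T hπ hq arch hd f
  obtain ⟨b₁, hb₁, e₁⟩ := exists_pow_of_lead hd h1 (((C₁ T).L_eq_one_iff hd).mp hf.2.1)
  obtain ⟨b₂, hb₂, e₂⟩ := exists_pow_of_lead hd h2 (((C₂ T).L_eq_one_iff hd).mp hf.2.2)
  obtain ⟨ψ₁, m₁, r₁⟩ := exists_ρ₁ T hπ b₁
  obtain ⟨ψ₂, m₂, r₂⟩ := exists_ρ₂ T hπ b₂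
  have hψ₁ : ψ₁ ≠ 0 := by
    rintro rfl
    apply hb₁
    rw [← r₁]
    have : (⟨0, m₁⟩ : T.V₁) = 0 := rfl
    rw [this, map_zero]
  have hψ₂ : ψ₂ ≠ 0 := by
    rintro rfl
    apply hb₂
    rw [← r₂]
    have : (⟨0, m₂⟩ : T.V₂) = 0 := rfl
    rw [this, map_zero]
  obtain ⟨χ, hχ₁, hχ₂⟩ := T.weak_approx hπ hq arch hψ₁ hψ₂
  have hχ0 : χ ≠ 0 := by
    rintro rfl
    obtain ⟨h, h'⟩ := hχ₁
    have h3 : (⟨0 * ψ₁, h⟩ : T.V₁) = 0 := Subtype.ext (zero_mul _)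
    rw [h3, map_zero] at h'
    exact zero_ne_one h'
  set f' : Fˣ := f * (χ₀ * Units.mk0 χ hχ0) ^ d with hf'
  have hf'k : f' ∈ kum K F d :=
    (kum K F d).mul_mem hf.1 (pw_le_kum K F d (pow_mem_pw d _))
  have hf'e : (f' : F) = ((f * χ₀ ^ d : Fˣ) : F) * χ ^ d := by
    rw [hf']
    push_cast
    rw [Units.val_mk0, mul_pow]
    ring
  refine ⟨χ₀ * Units.mk0 χ hχ0, fl d (divOf (f' : F)), degree_fl_divOf hd hf'k,
    fun v => (fl_divOf hf'k v).symm, ?_⟩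
  -- reductions
  have key₁ : T.Eq1 (f' : F) := by
    obtain ⟨n₁, s₁⟩ := TwoComp.inv_mem_of_ρ_ne_zero m₁ (by rw [r₁]; exact hb₁) T.local₁
    obtain ⟨a₁, t₁⟩ := hχ₁
    have hm : χ ∈ T.V₁ := by
      have : χ = (χ * ψ₁) * ψ₁⁻¹ := by field_simp
      rw [this]; exact T.V₁.mul_mem _ _ a₁ n₁
    have hρ : T.ρ₁ ⟨χ, hm⟩ = b₁⁻¹ := by
      have : (⟨χ, hm⟩ : T.V₁) = ⟨_, a₁⟩ * ⟨_, n₁⟩ := Subtype.ext (by
        change χ = (χ * ψ₁) * ψ₁⁻¹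
        field_simp)
      rw [this, map_mul, t₁, s₁, r₁, one_mul]
    refine ⟨by rw [hf'e]; exact T.V₁.mul_mem _ _ h.1 (pow_mem hm d), ?_⟩
    have : (⟨(f' : F), by rw [hf'e]; exact T.V₁.mul_mem _ _ h.1 (pow_mem hm d)⟩ : T.V₁) =
      ⟨_, h.1⟩ * ⟨_, hm⟩ ^ d := Subtype.ext hf'e
    rw [this, map_mul, map_pow, hρ]
    change (T.red.ρ ⟨_, h⟩).1 * _ = 1
    rw [← e₁, inv_pow, mul_inv_cancel₀ (pow_ne_zero _ hb₁)]
  have key₂ : T.Eq2 (f' : F) := by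
    obtain ⟨n₁, s₁⟩ := TwoComp.inv_mem_of_ρ_ne_zero m₂ (by rw [r₂]; exact hb₂) T.local₂
    obtain ⟨a₁, t₁⟩ := hχ₂
    have hm : χ ∈ T.V₂ := by
      have : χ = (χ * ψ₂) * ψ₂⁻¹ := by field_simp
      rw [this]; exact T.V₂.mul_mem _ _ a₁ n₁
    have hρ : T.ρ₂ ⟨χ, hm⟩ = b₂⁻¹ := by
      have : (⟨χ, hm⟩ : T.V₂) = ⟨_, a₁⟩ * ⟨_, n₁⟩ := Subtype.ext (by
        change χ = (χ * ψ₂) * ψ₂⁻¹
        field_simp)
      rw [this, map_mul, t₁, s₁, r₂, one_mul]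
    refine ⟨by rw [hf'e]; exact T.V₂.mul_mem _ _ h.2 (pow_mem hm d), ?_⟩
    have : (⟨(f' : F), by rw [hf'e]; exact T.V₂.mul_mem _ _ h.2 (pow_mem hm d)⟩ : T.V₂) =
      ⟨_, h.2⟩ * ⟨_, hm⟩ ^ d := Subtype.ext hf'e
    rw [this, map_mul, map_pow, hρ]
    change (T.red.ρ ⟨_, h⟩).2 * _ = 1
    rw [← e₂, inv_pow, mul_inv_cancel₀ (pow_ne_zero _ hb₂)]
  exact ⟨⟨key₁.1, key₂.1⟩, Prod.ext key₁.2 key₂.2⟩

end Fermat.Agent.H86.Ex
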