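import Fermat.Agent.H86Ex2

/-!
# Windings of torsion classes: the counting argument
-/

set_option autoImplicit false
set_option linter.unusedSectionVars false

open AlgebraicCurve WithZero Fermat.Agent.H3RR Module Fermat.Agent.H89SS Fermat.Agent.H86.Slope

namespace Fermat.Agent.H86.Ex

variable {K F k κ : Type*} [Field K] [Field F] [Algebra K F] [Field k] [Field κ]
    [Algebra k κ] {A : ValuationSubring K} {π : A →+* k} {q : ℕ} (T : TwoComp K F k κ A π q)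

variable (hπ : Function.Surjective π) [IsAlgClosed K] [IsFF K F] [IsAlgClosed k] [IsFF k κ]
  [IsLocalHom π]

/-- Multiplying the windings by a constant. -/
theorem scale_zeta (hq : 2 ≤ q) (arch : ∀ a b : A, π a = 0 → b ≠ 0 → ∃ n, b ∣ a ^ n)
    {d : ℕ} (hd : 0 < d) {E : Divisor K F} {f : F} (hf : T.UnitPair d E f)
    {ζ : Place k κ → k} (hζ : T.IsZeta hπ E ζ) {c : k} (hc : c ^ d = 1) :
    ∃ χ : F, χ ≠ 0 ∧ T.UnitPair d (E + divOf χ) (f * χ ^ d) ∧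
      T.IsZeta hπ (E + divOf χ) (fun v => c * ζ v) := by
  have hc0 : c ≠ 0 := by
    rintro rfl
    rw [zero_pow hd.ne'] at hc
    exact zero_ne_one hc
  obtain ⟨a, ha⟩ := hπ c⁻¹
  have haF : algebraMap K F a ≠ 0 := by
    intro h0
    have h1 : (a : K) = 0 := (map_eq_zero (algebraMap K F)).mp h0
    have h2 : a = 0 := Subtype.ext h1
    rw [h2, map_zero] at ha
    exact inv_ne_zero hc0 ha.symm
  obtain ⟨χ, hχ₁, hχ₂⟩ := T.weak_approx hπ hq arch one_ne_zero haF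
  have hχ0 : χ ≠ 0 := by
    rintro rfl
    obtain ⟨h, h'⟩ := hχ₁
    have h3 : (⟨0 * 1, h⟩ : T.V₁) = 0 := Subtype.ext (zero_mul _)
    rw [h3, map_zero] at h'
    exact zero_ne_one h'
  -- `ρ₁ χ = 1`, `ρ₂ χ = c`
  rw [mul_one] at hχ₁
  obtain ⟨m₁, e₁⟩ := hχ₁
  obtain ⟨n₂, s₂⟩ := TwoComp.inv_mem_of_ρ_ne_zero (T.mem₂ a) (by
    rw [T.ρ₂_mem, ha]; exact (map_ne_zero _).mpr (inv_ne_zero hc0)) T.local₂
  rw [T.ρ₂_mem, ha, map_inv₀, inv_inv] at s₂
  obtain ⟨a₂, t₂⟩ := hχ₂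
  have m₂ : χ ∈ T.V₂ := by
    have : χ = (χ * algebraMap K F a) * (algebraMap K F a)⁻¹ := by field_simp
    rw [this]; exact T.V₂.mul_mem _ _ a₂ n₂
  have e₂ : T.ρ₂ ⟨χ, m₂⟩ = algebraMap k κ c := by
    have : (⟨χ, m₂⟩ : T.V₂) = ⟨_, a₂⟩ * ⟨_, n₂⟩ := Subtype.ext (by
      change χ = (χ * algebraMap K F a) * (algebraMap K F a)⁻¹
      field_simp)
    rw [this, map_mul, t₂, s₂, one_mul]
  have hχO : χ ∈ T.red.O := ⟨m₁, m₂⟩
  have hχρ : T.red.ρ ⟨χ, hχO⟩ = (1, algebraMap k κ c) := Prod.ext e₁ e₂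
  have hdegE : Divisor.degree (E + divOf χ) = 0 := by
    rw [map_add, hf.degree, degree_divOf hχ0, add_zero]
  refine ⟨χ, hχ0, ⟨hdegE, fun v => ?_, ?_⟩, ⟨hdegE, fun n => ?_⟩⟩
  · rw [v.ord_mul hf.ne_zero (pow_ne_zero _ hχ0), ord_pow', hf.ord, Finsupp.add_apply,
      divOf_apply hχ0]
    ring
  · obtain ⟨h1, h2⟩ := hf.ρ
    refine ⟨T.red.O.mul_mem h1 (T.red.O.pow_mem hχO d), ?_⟩
    have h3 : (⟨f * χ ^ d, T.red.O.mul_mem h1 (T.red.O.pow_mem hχO d)⟩ : T.red.O) =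
      ⟨f, h1⟩ * ⟨χ, hχO⟩ ^ d := rfl
    rw [h3, map_mul, map_pow, h2, hχρ, one_mul, Prod.pow_mk, one_pow, ← map_pow, hc, map_one]
    rfl
  · rintro _ ⟨x, hx, rfl⟩
    have hxχ : ((x * ⟨χ, hχO⟩ : T.red.O) : F) ∈ riemannRochSpace (T.Dv n n + E) := by
      have h1 : χ ∈ riemannRochSpace (-divOf χ : Divisor K F) := by
        refine mem_L_of_ord fun v h0 => ?_
        rw [Finsupp.neg_apply, divOf_apply h0, neg_neg]
      have h2 := mul_mem_L hx h1
      have h3 : T.Dv n n + (E + divOf χ) + -divOf χ = T.Dv n n + E := by abel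
      rwa [h3] at h2
    have h4 := hζ.le n ⟨_, hxχ, rfl⟩
    rw [map_mul, hχρ] at h4
    set t := T.red.ρ x with ht
    have hU := T.mem_U.mp h4.1
    have ht1 : (t * (1, algebraMap k κ c)).1 = t.1 := mul_one _
    have ht2 : (t * (1, algebraMap k κ c)).2 = c • t.2 := by
      rw [Prod.snd_mul, Algebra.smul_def, mul_comm]
    rw [ht1, ht2] at hU
    have ht2' : t.2 = c⁻¹ • (c • t.2) := by rw [smul_smul, inv_mul_cancel₀ hc0, one_smul]
    have hreg2 : t.2 ∈ reg T.P := by rw [ht2']; exact (reg T.P).smul_mem hU.2.1 c⁻¹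
    have hP2 : T.P.adicValuation t.2 ≤ exp (n : ℤ) := by
      rw [ht2', Algebra.smul_def, map_mul,
        adicValuation_algebraMap _ (inv_ne_zero hc0), one_mul]
      exact hU.2.2
    refine ⟨T.mem_U.mpr ⟨hU.1, hreg2, hP2⟩, fun v hv => ?_⟩
    have h5 := h4.2 v hv
    rw [ht1, ht2, val_smul (hreg2 _ (smul_ne T.fr_P hv.1))] at h5
    rw [h5]
    ring

/-- Unit pairs with proportional windings differ by a principal divisor. -/
theorem unitPair_inj [CharZero K] [Fact q.Prime] [CharP k q]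
    (arch : ∀ a b : A, π a = 0 → b ≠ 0 → ∃ n, b ∣ a ^ n)
    {d : ℕ} (hd : (d : k) ≠ 0) {E E' : Divisor K F} {f f' : F} (hf : T.UnitPair d E f)
    (hf' : T.UnitPair d E' f') {ζ ζ' : Place k κ → k} (hζ : T.IsZeta hπ E ζ)
    (hζ' : T.IsZeta hπ E' ζ') {c : k} (hc : c ^ d = 1)
    (h : ∀ v ∈ T.SS hπ, ζ v = c * ζ' v) (hζ'0 : ∀ v ∈ T.SS hπ, ζ' v ≠ 0) :
    ∃ g : F, g ≠ 0 ∧ ∀ v : Place K F, (E - E') v = v.ord g := by
  have hqp : q.Prime := Fact.out
  have hq : 2 ≤ q := hqp.two_le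
  have hd0 : 0 < d := Nat.pos_of_ne_zero (by rintro rfl; simp at hd)
  have hc0 : c ≠ 0 := by
    rintro rfl
    rw [zero_pow hd0.ne'] at hc
    exact zero_ne_one hc
  have hff' : T.UnitPair d (E + -E') (f * f'⁻¹) := hf.add hf'.neg
  obtain ⟨ζ₁, h₁, -⟩ := hff'.exists_isZeta hπ hd0.ne'
  have h2 : ∀ v ∈ T.SS hπ, ζ₁ v = c := by
    intro v hv
    have h3 : E + -E' + E' = E := by abel
    have h4 := h₁.mul hπ hq hζ' (h3 ▸ hζ) v hv
    rw [h v hv] at h4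
    exact (mul_right_cancel₀ (hζ'0 v hv) h4).symm
  obtain ⟨χ, hχ0, hu, hz⟩ := scale_zeta T hπ hq arch hd0 hff' h₁ (c := c⁻¹)
    (by rw [inv_pow, hc, inv_one])
  obtain ⟨g, hg, hgv⟩ := hu.principal hπ arch hd hz (fun v hv => by
    rw [h2 v hv, inv_mul_cancel₀ hc0])
  refine ⟨g * χ⁻¹, mul_ne_zero hg (inv_ne_zero hχ0), fun v => ?_⟩
  have h5 := hgv v
  rw [Finsupp.add_apply, divOf_apply hχ0] at h5
  rw [v.ord_mul hg (inv_ne_zero hχ0), v.ord_inv, ← h5, sub_eq_add_neg]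
  ring

/-- The choice of windings. -/
theorem exists_data (hq : 2 ≤ q) (arch : ∀ a b : A, π a = 0 → b ≠ 0 → ∃ n, b ∣ a ^ n)
    {d : ℕ} (hd : 0 < d) (f : S2 T hd) :
    ∃ (χ : Fˣ) (E : Divisor K F) (ζ : Place k κ → kˣ),
      T.UnitPair d E (((f : Fˣ) * χ ^ d : Fˣ) : F) ∧ T.IsZeta hπ E (fun v => (ζ v : k)) ∧
        ∀ v ∈ T.SS hπ, ζ v ^ d = 1 := by
  classical
  obtain ⟨χ, E, h⟩ := exists_unitPair' T hπ hq arch hd f.2
  obtain ⟨ζ, hζ, hζd⟩ := h.exists_isZeta hπ hd.ne'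
  refine ⟨χ, E, fun v => if h : ζ v = 0 then 1 else Units.mk0 (ζ v) h, h, ⟨hζ.degree, fun n => ?_⟩,
    fun v hv => ?_⟩
  · intro t ht
    refine ⟨(hζ.le n ht).1, fun v hv => ?_⟩
    have h0 : ζ v ≠ 0 := by
      intro h0
      have := hζd v hv
      rw [h0, zero_pow hd.ne'] at this
      exact zero_ne_one this
    simp only [dif_neg h0, Units.val_mk0]
    exact (hζ.le n ht).2 v hv
  · have h0 : ζ v ≠ 0 := by
      intro h0
      have := hζd v hv
      rw [h0, zero_pow hd.ne'] at this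
      exact zero_ne_one this
    simp only [dif_neg h0]
    apply Units.ext
    rw [Units.val_pow_eq_pow_val, Units.val_mk0, hζd v hv, Units.val_one]

/-- **All windings occur.** -/
theorem exists_winding [CharZero K] [Fact q.Prime] [CharP k q]
    (arch : ∀ a b : A, π a = 0 → b ≠ 0 → ∃ n, b ∣ a ^ n)
    {d : ℕ} (hd : (d : k) ≠ 0)
    (hF : Nat.card (Pic0.torsion K F d) = d ^ (2 * genusFF K F))
    (hκ : Nat.card (Pic0.torsion k κ d) = d ^ (2 * genusFF k κ))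
    (ζ₀ : Place k κ → k) (hζ₀ : ∀ v ∈ T.SS hπ, ζ₀ v ^ d = 1) :
    ∃ (E : Divisor K F) (f : F), T.UnitPair d E f ∧ T.IsZeta hπ E ζ₀ := by
  classical
  have hqp : q.Prime := Fact.out
  have hq : 2 ≤ q := hqp.two_le
  have hd0 : 0 < d := Nat.pos_of_ne_zero (by rintro rfl; simp at hd)
  by_cases hSS : ∃ v₀, v₀ ∈ T.SS hπ
  swap
  · refine ⟨0, 1, TwoComp.UnitPair.zero d, (TwoComp.IsZeta.one (T := T) hπ).degree,
      fun n t ht => ?_⟩
    exact ⟨((TwoComp.IsZeta.one (T := T) hπ).le n ht).1, fun v hv => absurd ⟨v, hv⟩ hSS⟩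
  obtain ⟨v₀, hv₀⟩ := hSS
  set S := (T.finite_SS hπ hq).toFinset with hS
  have hSm : ∀ v, v ∈ S ↔ v ∈ T.SS hπ := fun v => Set.Finite.mem_toFinset _
  have hSpos : 0 < S.card := Finset.card_pos.mpr ⟨v₀, (hSm v₀).mpr hv₀⟩
  set n := S.card - 1 with hn
  have hcard := card_SS T hπ hq
  rw [← hS] at hcard
  -- index computations
  have hdpos : ∀ m : ℕ, 0 < d ^ m := fun m => pow_pos hd0 m
  have : Finite (Pic0.torsion k κ d) := by
    refine Nat.finite_of_card_ne_zero ?_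
    rw [hκ]; exact (hdpos _).ne'
  have i1 : (pw F d).relIndex (kum K F d) = d ^ (2 * genusFF K F) := by
    rw [relIndex_kum hd0, hF]
  have i2 := relIndex_S2 T hπ hq arch hd0
  rw [hκ] at i2
  have i3 := relIndex_S1 T hπ hq arch hd0 hv₀
  rw [← hS, ← hn] at i3
  have i4 := Subgroup.relIndex_mul_relIndex (pw F d) (S2 T hd0) (S1 T d) (pw_le_S2 T hd0)
    (S2_le_S1 T hd0)
  have i5 := Subgroup.relIndex_mul_relIndex (pw F d) (S1 T d) (kum K F d)
    ((pw_le_S2 T hd0).trans (S2_le_S1 T hd0)) (S1_le T d)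
  rw [i1, ← i4] at i5
  set x := (pw F d).relIndex (S2 T hd0) with hx
  have i6 : d ^ n ≤ x := by
    have h1 : d ^ (2 * genusFF K F) ≤ x * (d ^ (2 * genusFF k κ)) ^ 2 * d ^ n := by
      rw [← i5]
      exact Nat.mul_le_mul (Nat.mul_le_mul_left _ i2) i3
    have h2 : 2 * genusFF K F = n + (2 * genusFF k κ) * 2 + n := by omega
    rw [h2, pow_add, pow_add, pow_mul] at h1
    exact Nat.le_of_mul_le_mul_right
      (Nat.le_of_mul_le_mul_right h1 (hdpos n)) (by positivity)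
  have hxpos : 0 < x := (hdpos n).trans_le i6
  -- the winding map
  choose χ E ζ hu hz hζd using fun f : S2 T hd0 => exists_data T hπ hq arch hd0 f
  set S' := S.erase v₀ with hS'
  have hS'm : ∀ v ∈ S', v ∈ T.SS hπ := fun v hv => (hSm v).mp (Finset.mem_of_mem_erase hv)
  let Q := (S2 T hd0) ⧸ (pw F d).subgroupOf (S2 T hd0)
  have hQcard : Nat.card Q = x := rfl
  let w : S2 T hd0 → (S' → rootsOfUnity d k) := fun f v =>
    ⟨ζ f v / ζ f v₀, by
      rw [mem_rootsOfUnity, div_pow, hζd f v (hS'm v v.2), hζd f v₀ hv₀, div_one]⟩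
  let W : Q → (S' → rootsOfUnity d k) := fun x => w (Quotient.out x)
  have hWinj : Function.Injective W := by
    intro a b hab
    set f := Quotient.out a with hf
    set g := Quotient.out b with hg
    have hfa : (QuotientGroup.mk f : Q) = a := Quotient.out_eq' a
    have hgb : (QuotientGroup.mk g : Q) = b := Quotient.out_eq' b
    set c : kˣ := ζ f v₀ / ζ g v₀ with hc
    have h1 : ∀ v ∈ T.SS hπ, (ζ f v : k) = c * ζ g v := by
      intro v hv
      rw [← Units.val_mul]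
      congr 1
      by_cases hvv : v = v₀
      · rw [hvv, hc, div_mul_cancel]
      · have h2 := congrArg Subtype.val
          (congrFun hab ⟨v, Finset.mem_erase.mpr ⟨hvv, (hSm v).mpr hv⟩⟩)
        have h3 : ζ f v / ζ f v₀ = ζ g v / ζ g v₀ := h2
        rw [hc]
        have h4 : ζ f v = ζ f v / ζ f v₀ * ζ f v₀ := (div_mul_cancel _ _).symm
        rw [h4, h3]
        rw [div_mul_comm, mul_comm]
    have hc1 : (c : k) ^ d = 1 := by
      rw [← Units.val_pow_eq_pow_val, hc, div_pow, hζd f v₀ hv₀, hζd g v₀ hv₀, div_one,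
        Units.val_one]
    obtain ⟨r, hr, hrv⟩ := unitPair_inj T hπ arch hd (hu f) (hu g) (hz f) (hz g) hc1 h1
      (fun v _ => Units.ne_zero _)
    rw [← hfa, ← hgb, eq_comm, QuotientGroup.eq, Subgroup.mem_subgroupOf]
    -- `(g⁻¹ f)`
    have h5 : ((g⁻¹ * f : S2 T hd0) : Fˣ) =
        (((f : Fˣ) * χ f ^ d) / ((g : Fˣ) * χ g ^ d)) * (χ g / χ f) ^ d := by
      push_cast
      rw [div_pow, div_mul_div_comm]
      rw [div_eq_mul_inv, mul_inv, mul_inv]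
      have e1 : (f : Fˣ) * χ f ^ d * χ g ^ d * (((g : Fˣ)⁻¹ * (χ g ^ d)⁻¹) * (χ f ^ d)⁻¹) =
        (g : Fˣ)⁻¹ * f * ((χ f ^ d) * (χ f ^ d)⁻¹) * ((χ g ^ d) * (χ g ^ d)⁻¹) := by
        rw [mul_comm (g : Fˣ)⁻¹ (f : Fˣ)]
        ac_rfl
      rw [e1, mul_inv_cancel, mul_inv_cancel, mul_one, mul_one]
    rw [h5]
    refine (pw F d).mul_mem ?_ (pow_mem_pw d _)
    refine mem_pw_of_ord (K := K) hd0 hr fun v => ?_
    rw [← hrv v, Finsupp.sub_apply, Units.val_div_eq_div_val, div_eq_mul_inv,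
      v.ord_mul (Units.ne_zero _) (inv_ne_zero (Units.ne_zero _)), v.ord_inv, (hu f).ord v,
      (hu g).ord v]
    ring
  have : NeZero d := ⟨hd0.ne'⟩
  have hWcard : Nat.card (S' → rootsOfUnity d k) ≤ Nat.card Q := by
    rw [hQcard, Nat.card_fun]
    refine le_trans ?_ i6
    have h7 : Nat.card S' = n := by
      rw [Nat.card_eq_fintype_card, Fintype.card_coe, Finset.card_erase_of_mem ((hSm v₀).mpr hv₀)]
    rw [h7]
    exact Nat.pow_le_pow_left (card_rootsOfUnity k d) n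
  have hWbij := hWinj.bijective_of_nat_card_le hWcard
  -- the target
  have hζ₀0 : ∀ v ∈ T.SS hπ, ζ₀ v ≠ 0 := by
    intro v hv h0
    have := hζ₀ v hv
    rw [h0, zero_pow hd0.ne'] at this
    exact zero_ne_one this
  obtain ⟨a, ha⟩ := hWbij.2 (fun v => ⟨Units.mk0 (ζ₀ v) (hζ₀0 v (hS'm v v.2)) /
    Units.mk0 (ζ₀ v₀) (hζ₀0 v₀ hv₀), by
      rw [mem_rootsOfUnity, div_pow]
      have h8 : Units.mk0 (ζ₀ v) (hζ₀0 v (hS'm v v.2)) ^ d = 1 :=
        Units.ext (by rw [Units.val_pow_eq_pow_val, Units.val_mk0, hζ₀ v (hS'm v v.2),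
          Units.val_one])
      have h9 : Units.mk0 (ζ₀ v₀) (hζ₀0 v₀ hv₀) ^ d = 1 :=
        Units.ext (by rw [Units.val_pow_eq_pow_val, Units.val_mk0, hζ₀ v₀ hv₀, Units.val_one])
      rw [h8, h9, div_one]⟩)
  set f := Quotient.out a with hf
  set c : k := ζ₀ v₀ / ζ f v₀ with hc
  have hc1 : c ^ d = 1 := by
    rw [hc, div_pow, hζ₀ v₀ hv₀, ← Units.val_pow_eq_pow_val, hζd f v₀ hv₀, Units.val_one, div_one]
  obtain ⟨χ', hχ', hu', hz'⟩ := scale_zeta T hπ hq arch hd0 (hu f) (hz f) hc1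
  refine ⟨_, _, hu', hz'.degree, fun n t ht => ⟨(hz'.le n ht).1, fun v hv => ?_⟩⟩
  rw [(hz'.le n ht).2 v hv]
  congr 1
  change c * (ζ f v : k) = ζ₀ v
  by_cases hvv : v = v₀
  · rw [hvv, hc, div_mul_cancel₀ _ (Units.ne_zero _)]
  · have h2 := congrArg (fun u : rootsOfUnity d k => ((u : kˣ) : k))
      (congrFun ha ⟨v, Finset.mem_erase.mpr ⟨hvv, (hSm v).mpr hv⟩⟩)
    have h3 : ((ζ f v / ζ f v₀ : kˣ) : k) =
      ((Units.mk0 (ζ₀ v) (hζ₀0 v hv) / Units.mk0 (ζ₀ v₀) (hζ₀0 v₀ hv₀) : kˣ) : k) := h2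
    rw [Units.val_div_eq_div_val, Units.val_div_eq_div_val, Units.val_mk0, Units.val_mk0] at h3
    rw [hc]
    have h4 := Units.ne_zero (ζ f v₀)
    have h5 := hζ₀0 v₀ hv₀
    field_simp at h3 ⊢
    rw [mul_comm, ← h3, mul_comm]

end Fermat.Agent.H86.Ex
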