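import Fermat.Agent.H4EAK
import Fermat.Agent.H59ES

/-!
# The witness of non-modularity

`exists_poly`: if a system `a` of integers does not define a character of the Hecke algebra then
some integral relation between the Hecke operators does not hold for `a`.
`eval_eq_zero`: such a relation holds for all eigensystems occurring in the cohomology of
`Γ₀(N ∏ Q)`, if the primes of `Q` do not occur in the relation and `Q` consists of Taylor-Wiles
primes.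
-/

set_option autoImplicit false
set_option linter.style.haveILetI false
set_option linter.unusedSectionVars false

noncomputable section

open CongruenceSubgroup Matrix.SpecialLinearGroup Polynomial
open scoped MatrixGroups
open Fermat.Agent.H4 Fermat.Agent.H70.Coh Fermat.Agent.H37.Rank Fermat.Agent.H59

namespace Fermat.Agent.H86.FM

section Poly

variable {N : ℕ} [NeZero N] {S : Set ℕ} (hS : Adm S N)

/-- the integral relations between Hecke operators determine the Hecke algebra -/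
lemma evHA_surjective : Function.Surjective (evHA hS) := by
  rintro ⟨t, ht⟩
  induction ht using Algebra.adjoin_induction with
  | mem x hx =>
    rcases hx with ⟨ℓ, hℓ, hℓN, hℓS, rfl⟩ | ⟨q, hqN, hq, hqS, rfl⟩
    · exact ⟨MvPolynomial.X ⟨ℓ, hℓ, hℓS⟩, by rw [evHA_X]; rfl⟩
    · exact absurd (hS q hq hqN) hqS
  | algebraMap a => exact ⟨MvPolynomial.C a, by rw [evHA_C]; rfl⟩
  | add x y hx hy h1 h2 =>
    obtain ⟨a, ha⟩ := h1
    obtain ⟨b, hb⟩ := h2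
    exact ⟨a + b, by rw [map_add, ha, hb]; rfl⟩
  | mul x y hx hy h1 h2 =>
    obtain ⟨a, ha⟩ := h1
    obtain ⟨b, hb⟩ := h2
    exact ⟨a * b, by rw [map_mul, ha, hb]; rfl⟩

/-- **A system of integers which is not modular violates an integral relation.** -/
theorem exists_poly {A : Type*} [CommRing A] (a : Pr S → ℤ)
    (h : ¬ ∃ lam : CuspForm.heckeAlgebra N 2 S →+* A, ∀ i : Pr S,
      lam (CuspForm.heckeAlgebra.T i.2.1 (fun h => i.2.2 (hS i.1 i.2.1 h)) i.2.2) = (a i : A)) :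
    ∃ P : MvPolynomial (Pr S) ℤ, evHA hS P = 0 ∧ MvPolynomial.eval a P ≠ 0 := by
  by_contra hcon
  push Not at hcon
  apply h
  let g : MvPolynomial (Pr S) ℤ →+* ℤ := MvPolynomial.eval a
  refine ⟨(Int.castRingHom A).comp ((evHA hS).liftOfSurjective (evHA_surjective hS)
    ⟨g, fun P hP => hcon P ((RingHom.mem_ker).mp hP)⟩), fun i => ?_⟩
  have h1 : (evHA hS).liftOfSurjective (evHA_surjective hS)
      ⟨g, fun P hP => hcon P ((RingHom.mem_ker).mp hP)⟩ (evHA hS (MvPolynomial.X i)) =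
        g (MvPolynomial.X i) :=
    RingHom.liftOfRightInverse_comp_apply _ _ _ _ _
  rw [evHA_X] at h1
  rw [RingHom.comp_apply, h1]
  simp [g]

end Poly

section Eval

variable {N : ℕ} [NeZero N] {S : Set ℕ} (hS : Adm S N) {K : Type} [Field K] [CharZero K]

/-- a polynomial in commuting operators acts on an eigenvector of the operators which occur -/
lemma act_eigen (P : MvPolynomial (Pr S) ℤ) (lam : Pr S → K) (x : HH K N)
    (hx : ∀ i ∈ P.vars, TT K hS i x = lam i • x) :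
    act (O := ℤ) (TT K hS) (TT_comm hS) P x = MvPolynomial.aeval lam P • x := by
  have hP : P ∈ MvPolynomial.supported ℤ {i : Pr S | TT K hS i x = lam i • x} :=
    MvPolynomial.mem_supported.mpr hx
  clear hx
  rw [MvPolynomial.supported] at hP
  induction hP using Algebra.adjoin_induction with
  | mem p hp =>
    obtain ⟨i, hi, rfl⟩ := hp
    rw [act_X, MvPolynomial.aeval_X]
    exact hi
  | algebraMap a =>
    rw [AlgHom.commutes, AlgHom.commutes]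
    change (algebraMap ℤ (Module.End K (HH K N)) a) x = _
    rw [algebraMap_int_eq, algebraMap_int_eq, eq_intCast, eq_intCast, Module.End.intCast_apply,
      Int.cast_smul_eq_zsmul]
  | add p q _ _ h1 h2 => rw [map_add, map_add, LinearMap.add_apply, h1, h2, add_smul]
  | mul p q _ _ h1 h2 =>
    rw [map_mul, map_mul, Module.End.mul_apply, h2, map_smul, h1, smul_smul, mul_comm]

/-- **Integral relations hold for the non-Eisenstein eigensystems in the cohomology.** -/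
theorem aeval_eq_zero (P : MvPolynomial (Pr S) ℤ) (hP : evHA hS P = 0) (lam : Pr S → K)
    (x : HH K N) (hx0 : x ≠ 0) (hx : ∀ i ∈ P.vars, TT K hS i x = lam i • x) (i₀ : Pr S)
    (hi₀1 : (N : ℤ) ∣ (i₀.1 : ℤ) - 1) {μ : K} (hμ : TT K hS i₀ x = μ • x)
    (hi₀ : μ ≠ 1 + (i₀.1 : K)) : MvPolynomial.aeval lam P = 0 := by
  haveI : Fact i₀.1.Prime := ⟨i₀.2.1⟩
  have hi : ¬ i₀.1 ∣ N := fun h => i₀.2.2 (hS i₀.1 i₀.2.1 h)
  obtain ⟨z, hz⟩ : ∃ z, x = TT K hS i₀ z - (1 + (i₀.1 : K)) • z := by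
    refine ⟨(μ - (1 + (i₀.1 : K)))⁻¹ • x, ?_⟩
    rw [map_smul, hμ, smul_comm _ ((μ - (1 + (i₀.1 : K)))⁻¹) x, ← smul_sub, ← sub_smul,
      smul_smul, inv_mul_cancel₀ (sub_ne_zero.mpr hi₀), one_smul]
  obtain ⟨ψ, hψ⟩ : ∃ ψ, latHH N K ψ = x := by
    obtain ⟨φ, hφ⟩ := (homH1 (one_dvd N) K K).surjective z
    have h2 : TT K hS i₀ (homH1 (one_dvd N) K K φ) = homH1 (one_dvd N) K K (heckeHom hi φ) :=
      homH1_heckeHom (one_dvd N) K hi φ
    obtain ⟨ψ, hψ⟩ := exists_factor _ (isPE_eis hi hi₀1 φ)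
    refine ⟨ψ, ?_⟩
    rw [latHH_apply, hψ, hz, ← hφ, h2, ← map_smul, ← map_sub]
    congr 2
    refine AddMonoidHom.ext fun γ => ?_
    rw [AddMonoidHom.smul_apply, AddMonoidHom.smul_apply, zsmul_eq_mul, smul_eq_mul]
    push_cast
    rfl
  have h1 := act_latHH (O := ℤ) hS P ψ
  rw [hP, map_zero] at h1
  have h4 : ψ.comp (0 : Module.End ℤ (Lat N)).toAddMonoidHom = 0 := by
    refine AddMonoidHom.ext fun γ => ?_
    simp
  have h5 : P.map (Int.castRingHom ℤ) = P := by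
    have : Int.castRingHom ℤ = RingHom.id ℤ := RingHom.ext_int _ _
    rw [this, MvPolynomial.map_id]
  rw [h4, map_zero, h5, hψ, act_eigen hS P lam x hx] at h1
  exact (smul_eq_zero.mp h1).resolve_right hx0

end Eval

section Descent

variable {p : ℕ} [Fact p.Prime] {S : Finset ℕ}
    {𝒪' : Type} [CommRing 𝒪'] [IsDomain 𝒪'] [IsDiscreteValuationRing 𝒪']
    [IsAdicComplete (IsLocalRing.maximalIdeal 𝒪') 𝒪'] [Finite (IsLocalRing.ResidueField 𝒪')]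
    [CharZero 𝒪'] {K₁ : Type} [Field K₁] [Algebra 𝒪' K₁] [IsFractionRing 𝒪' K₁]

/-- residually the characteristic polynomial of Frobenius is not a square -/
def TWAt (ρ : GaloisRepAdic 𝒪') (q : ℕ) : Prop :=
  (q : IsLocalRing.ResidueField 𝒪') = 1 ∧
  ∃ (A : ValuationSubring (AlgebraicClosure ℚ)) (_ : A.LiesOverPrime q)
    (σ : H53.GQ) (_ : A.IsFrobeniusAt σ q), ∀ v : IsLocalRing.ResidueField 𝒪',
      (LinearMap.charpoly (ρ.ρ σ)).map (IsLocalRing.residue 𝒪') ≠ (X - C v) ^ 2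

/-- an eigensystem of level `M` without twist -/
abbrev Eig {M : ℕ} (S : Finset ℕ) (lam : ℕ → 𝒪') (y : HH K₁ M) : Prop :=
  IsEigTw (one_dvd M) S lam (1 : (ZMod 1)ˣ →* K₁ˣ) (1 : (ZMod 1)ˣ →* K₁ˣ) y

/-- one step -/
theorem step (hp2 : p ≠ 2) (hpS : p ∈ S)
    (hp𝒪' : (p : 𝒪') ∈ IsLocalRing.maximalIdeal 𝒪') (G : GeomInputs p)
    {M₀ q : ℕ} [NeZero M₀] [NeZero q] (hMS : ∀ r : ℕ, r.Prime → r ∣ M₀ * q → r ∈ S)
    {lam : ℕ → 𝒪'} (ρ : GaloisRepAdic 𝒪') (hρ : H62.IsAttached S lam ρ)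
    (hirr : ρ.residual.IsIrreducible) (hq : q.Prime) (hqp : q ≠ p) (hqM : ¬ q ∣ M₀)
    (hTW : TWAt ρ q) {y : HH K₁ (M₀ * q)} (hy : y ≠ 0) (hT : Eig S lam y) :
    ∃ y₀ : HH K₁ M₀, y₀ ≠ 0 ∧ Eig S lam y₀ := by
  have hqS : q ∈ S := hMS q hq (dvd_mul_left q M₀)
  by_cases h1 : tr1 K₁ M₀ q y = 0
  · by_cases h2 : tr2 K₁ M₀ hq y = 0
    · exfalso
      obtain ⟨u, hu, h⟩ := EAc (K₁ := K₁) hp2 hpS hp𝒪' G (N' := 1) (M₀ := M₀) (q := q)
        squarefree_one (fun r hr h => absurd (Nat.dvd_one.mp h) hr.one_lt.ne') (one_dvd M₀) hMS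
        1 1 (MonoidHom.ext fun _ => (one_pow 2).symm) (m := 1) odd_one
        (MonoidHom.ext fun _ => one_pow 1) ρ hρ hirr (y := y) hy hT hq hqp hqM
        h1 h2
      obtain ⟨hq1, A, hA, σ, hσ, hv⟩ := hTW
      apply hv (IsLocalRing.residue 𝒪' u)
      rw [h A hA σ hσ, Polynomial.map_mul, Polynomial.map_sub, Polynomial.map_sub,
        Polynomial.map_X, Polynomial.map_C, Polynomial.map_C, map_mul, map_natCast, hq1, mul_one,
        sq]
    · refine ⟨tr2 K₁ M₀ hq y, h2, ?_⟩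
      intro ℓ hℓ hℓM hc hℓS
      have hℓM' : ¬ ℓ ∣ M₀ * q := fun h => hℓS (hMS ℓ hℓ h)
      have h3 := hT ℓ hℓ hℓM' hc hℓS
      have h4 := H37.Tr.tFam_nuFam (ρ := psiRep (1 : (ZMod 1)ˣ →* K₁ˣ) K₁) (one_dvd M₀) hq hqM hℓ hℓM' y
      rw [show tr2 K₁ M₀ hq y = (nuFam (one_dvd M₀) hq).opH (psiRep (1 : (ZMod 1)ˣ →* K₁ˣ) K₁) y
        from rfl, ← h4]
      rw [show (tFam ((one_dvd M₀).mul_right q) hℓ hℓM').opH (psiRep (1 : (ZMod 1)ˣ →* K₁ˣ) K₁) y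
        = _ from h3, map_smul]
  · refine ⟨tr1 K₁ M₀ q y, h1, ?_⟩
    intro ℓ hℓ hℓM hc hℓS
    have hℓM' : ¬ ℓ ∣ M₀ * q := fun h => hℓS (hMS ℓ hℓ h)
    have h3 := hT ℓ hℓ hℓM' hc hℓS
    have h4 := H37.Tr.tFam_trFam' (ρ := psiRep (1 : (ZMod 1)ˣ →* K₁ˣ) K₁) (one_dvd M₀) hq hqM hℓ hℓM' y
    rw [show tr1 K₁ M₀ q y = (trFam (q := q) (one_dvd M₀)).opH
      (psiRep (1 : (ZMod 1)ˣ →* K₁ˣ) K₁) y from rfl, ← h4]
    rw [show (tFam ((one_dvd M₀).mul_right q) hℓ hℓM').opH (psiRep (1 : (ZMod 1)ˣ →* K₁ˣ) K₁) y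
      = _ from h3, map_smul]

/-- **Descent of an eigensystem through the Taylor-Wiles primes.** -/
theorem descend (hp2 : p ≠ 2) (hpS : p ∈ S)
    (hp𝒪' : (p : 𝒪') ∈ IsLocalRing.maximalIdeal 𝒪') (G : GeomInputs p)
    {N : ℕ} (hN : 0 < N) {lam : ℕ → 𝒪'} (ρ : GaloisRepAdic 𝒪') (hρ : H62.IsAttached S lam ρ)
    (hirr : ρ.residual.IsIrreducible) (Q : Finset ℕ) :
    ∀ (_ : ∀ q ∈ Q, q.Prime ∧ q ≠ p ∧ ¬ q ∣ N ∧ TWAt ρ q) {M : ℕ} (_ : M = N * ∏ q ∈ Q, q)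
      (_ : ∀ r : ℕ, r.Prime → r ∣ M → r ∈ S) (y : HH K₁ M), y ≠ 0 → Eig S lam y →
      ∃ y₀ : HH K₁ N, y₀ ≠ 0 ∧ Eig S lam y₀ := by
  induction Q using Finset.induction_on with
  | empty =>
    intro _ M hM _ y hy hT
    obtain rfl : M = N := by simpa using hM
    exact ⟨y, hy, hT⟩
  | insert q Q hqQ ih =>
    intro hQ M hM hMS y hy hT
    obtain rfl : M = (N * ∏ q ∈ Q, q) * q := by
      rw [hM, Finset.prod_insert hqQ]; ring
    have hpos : 0 < ∏ q ∈ Q, q :=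
      Finset.prod_pos fun r hr => (hQ r (Finset.mem_insert_of_mem hr)).1.pos
    obtain ⟨hq, hqp, hqN, hTW⟩ := hQ q (Finset.mem_insert_self q Q)
    haveI : NeZero (N * ∏ q ∈ Q, q) := ⟨(Nat.mul_pos hN hpos).ne'⟩
    haveI : NeZero q := ⟨hq.ne_zero⟩
    have hqM : ¬ q ∣ N * ∏ q ∈ Q, q := by
      intro h
      rcases hq.dvd_mul.mp h with h | h
      · exact hqN h
      · obtain ⟨r, hr, h⟩ := (Nat.Prime.prime hq).exists_mem_finset_dvd h
        have hrp := (hQ r (Finset.mem_insert_of_mem hr)).1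
        exact hqQ (((Nat.prime_dvd_prime_iff_eq hq hrp).mp h) ▸ hr)
    obtain ⟨y₁, hy₁, hT₁⟩ := step hp2 hpS hp𝒪' G hMS ρ hρ hirr hq hqp hqM hTW hy hT
    exact ih (fun r hr => hQ r (Finset.mem_insert_of_mem hr)) rfl
      (fun r hr h => hMS r hr (h.mul_right q)) y₁ hy₁ hT₁

/-- **The relation holds for all eigensystems of level `N ∏ Q`.** -/
theorem relation (hp2 : p ≠ 2) (hpS : p ∈ S)
    (hp𝒪' : (p : 𝒪') ∈ IsLocalRing.maximalIdeal 𝒪') (G : GeomInputs p)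
    {N : ℕ} [NeZero N] {S₀ : Set ℕ} (hS₀ : Adm S₀ N) (hSS : ∀ ℓ ∈ S₀, ℓ ∈ S)
    (P : MvPolynomial (Pr S₀) ℤ) (hP : evHA hS₀ P = 0) (hvars : ∀ i ∈ P.vars, i.1 ∉ S)
    {lam : ℕ → 𝒪'} (ρ : GaloisRepAdic 𝒪') (hρ : H62.IsAttached S lam ρ)
    (hirr : ρ.residual.IsIrreducible) (Q : Finset ℕ)
    (hQ : ∀ q ∈ Q, q.Prime ∧ q ≠ p ∧ ¬ q ∣ N ∧ TWAt ρ q) {M : ℕ} (hM : M = N * ∏ q ∈ Q, q)
    (hMS : ∀ r : ℕ, r.Prime → r ∣ M → r ∈ S) (y : HH K₁ M) (hy : y ≠ 0) (hT : Eig S lam y) :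
    MvPolynomial.aeval (fun i : Pr S₀ => lam i.1) P = 0 := by
  haveI : CharZero K₁ := charZero_of_injective_algebraMap (IsFractionRing.injective 𝒪' K₁)
  obtain ⟨y₀, hy₀, hT₀⟩ := descend hp2 hpS hp𝒪' G (NeZero.pos N) ρ hρ hirr Q hQ hM hMS y hy hT
  obtain ⟨ℓ, hℓ, hℓS, hℓ1, hℓu⟩ := H4.exists_nonEis hp2 hp𝒪' S lam ρ hρ hirr (NeZero.pos N)
  have hN : ∀ i : Pr S₀, ¬ i.1 ∣ N := fun i h => i.2.2 (hS₀ i.1 i.2.1 h)
  have heig : ∀ i : Pr S₀, i.1 ∉ S → TT K₁ hS₀ i y₀ = algebraMap 𝒪' K₁ (lam i.1) • y₀ := by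
    intro i hi
    have h1 := hT₀ i.1 i.2.1 (hN i) (Nat.coprime_one_right _) hi
    rw [MonoidHom.one_apply, Units.val_one, one_mul] at h1
    exact h1
  have h2 := aeval_eq_zero hS₀ P hP (fun i => algebraMap 𝒪' K₁ (lam i.1)) y₀ hy₀
    (fun i hi => heig i (hvars i hi)) ⟨ℓ, hℓ, fun h => hℓS (hSS ℓ h)⟩ (by
      have h3 : ((ℓ - 1 : ℤ) : ZMod N) = 0 := by
        push_cast
        rw [hℓ1, sub_self]
      exact (ZMod.intCast_zmod_eq_zero_iff_dvd _ N).mp h3) (heig _ hℓS) (by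
      intro h
      have h4 : algebraMap 𝒪' K₁ (lam ℓ - (1 + ℓ)) = 0 := by
        rw [map_sub, map_add, map_one, map_natCast, sub_eq_zero]
        exact h
      exact (hℓu.map (algebraMap 𝒪' K₁)).ne_zero h4)
  have h5 : algebraMap 𝒪' K₁ (MvPolynomial.aeval (fun i : Pr S₀ => lam i.1) P) = 0 := by
    rw [← h2]
    have := MvPolynomial.aeval_algebraMap_apply K₁ (fun i : Pr S₀ => lam i.1) P (R := ℤ)
    exact this.symm
  exact (FaithfulSMul.algebraMap_injective 𝒪' K₁) (h5.trans (map_zero _).symm)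

end Descent

end Fermat.Agent.H86.FM

end
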