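import Fermat.Agent.H21MChain
import Fermat.Agent.H86In1
import Fermat.Agent.H86InFa

/-!
# The core of the composition of the levels of S59

The module part of a level of the endgame, made from the local facts of `H86InFa`.
-/

set_option autoImplicit false
set_option linter.style.haveILetI false
set_option linter.unusedSectionVars false

open Matrix CongruenceSubgroup IsLocalRing CuspForm
open scoped MatrixGroups TensorProduct

namespace Fermat.Agent.H86.In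

open Fermat.Agent.H70.Coh Fermat.Agent.H70.Mod Fermat.Agent.H59 Fermat.Agent.H37.Rank
  Fermat.Agent.H30 Fermat.Agent.H69.EG Fermat.Agent.H57.Full Fermat.Agent.H21M

section Core

/-- **The module part of a level from the local facts.** -/
theorem core {O : Type} [CommRing O] [IsDomain O] [IsDiscreteValuationRing O]
    [IsAdicComplete (maximalIdeal O) O] [Finite (ResidueField O)] [CharZero O]
    {p : ℕ} [Fact p.Prime] [CharP (ResidueField O) p] (hp2 : p ≠ 2)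
    {R : Type} [CommRing R] [IsLocalRing R] [Algebra O R] [IsAdicComplete (maximalIdeal R) R]
    {L : ℕ} [NeZero L] {S : Set ℕ} (hSL : ∀ q : ℕ, q.Prime → q ∣ L → q ∈ S)
    {θ : heckeAlgebra L 2 S →+* ResidueField O} (π : R →ₐ[O] heckeLocal L S O θ)
    {ϖ c' : O} (hϖ : maximalIdeal O = Ideal.span {ϖ})
    {r n D m s : ℕ} {T : Type} [Fintype T] {prodElt uniElt : T → R}
    {y : Fin s → Fin 3 → R} {cb : Fin s → O}
    -- the diamond operators on the Galois side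
    (e : Fin r → ℕ) (hne : ∀ j, n ≤ e j) (c : Fin r → R) (hcm : ∀ j, c j ∈ maximalIdeal R)
    (hc : ∀ j, (1 + c j) ^ (p ^ e j) = 1)
    -- the Taylor–Wiles primes
    (Q : Fin r → ℕ) (hQ : ∀ j, (Q j).Prime) (hQinj : Function.Injective Q)
    (hQe : ∀ j, p ^ e j ∣ Q j - 1) (hQp : ∀ j, Q j ≠ p)
    -- the primes of `T`
    (qT : T → ℕ) (hqT : ∀ t, (qT t).Prime) (hqTinj : Function.Injective qT)
    (hqTp : ∀ t, p ∣ qT t - 1) (ζ : Oˣ) (hζ : ζ ^ p = 1) (hζ1 : ζ ≠ 1)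
    -- the levels
    {N₀ : ℕ} (hN₀ : Squarefree N₀) (hTN₀ : ∀ t, qT t ∣ N₀) (hQN₀ : ∀ j, ¬ Q j ∣ N₀)
    (bb : Fin s → ℕ) (hbb : ∀ i, (bb i).Prime) (hbinj : Function.Injective bb)
    (hbN₀ : ∀ i, ¬ bb i ∣ N₀) (hbQ : ∀ i j, bb i ≠ Q j) (hbc : ∀ i, ((bb i : O) + 1) ∣ c')
    (hL : L = lvl (N₀ * ∏ j, Q j) (bfun bb) s * ((∏ j, Q j) * ∏ t, qT t))
    (hg : ∀ M' : ℕ, N₀ ∣ M' → Good M' O)
    -- non-Eisenstein primes
    (hNE1 : ∃ i : Idx S, (θ (TIdx L S hSL i)) ^ 2 ≠ ((i.1 : ResidueField O) + 1) ^ 2)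
    (hNE2 : ∀ D : ℕ, D ≠ 0 → ∃ i : Idx S, (D : ℤ) ∣ (i.1 : ℤ) - 1 ∧
      θ (TIdx L S hSL i) ≠ (i.1 : ResidueField O) + 1)
    -- ranks
    (hrk : ∀ e : MvPolynomial (Idx S) O,
      (∀ (L' : ℕ) (hL' : Adm S L'), L' ∣ L →
        IsLocIdem (TT O hL') (TT_comm hL') (thetaPoly L S hSL O θ) e) →
      (∀ h : Adm S (N₀ * ∏ j, Q j), 0 < Module.finrank O (Loc (TT O h) (TT_comm h) e)) ∧
      ∀ i, i ≤ s → ∀ h : Adm S (lvl (N₀ * ∏ j, Q j) (bfun bb) i),
        Module.finrank O (Loc (TT O h) (TT_comm h) e) ≤ D)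
    -- the local facts
    (tb : Fin s → R) (hM : ∀ i, MarkFacts p hSL π (bb i) (y i 0) (y i 1) (y i 2) (cb i) (tb i))
    (hT : ∀ t, TFacts p hSL π (qT t) (prodElt t) (uniElt t))
    (hTW : ∀ j, TWFacts p hSL π (Q j) (c j))
    (U : Set R) (hU : ∀ a ∈ U, ∀ i, i ≤ s →
      VanishAt p hSL π (lvl (N₀ * ∏ j, Q j) (bfun bb) i) a)
    -- the point
    (pt : R →ₐ[O] O) (hpt : ∀ j, pt (c j) = 0) (hptu : ∀ t, pt (uniElt t) = 0)
    (hptt : ∀ i, pt (y i 0) = 0) (hptz : ∀ i, pt (y i 2) = 0)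
    (f : R) (hf : pt f ∉ Ideal.span {ϖ ^ m})
    (hE : VanishAt₁ hSL π (lvl (N₀ * ∏ j, Q j) (bfun bb) s) f) :
    ∃ mp : FullModPart O ϖ c' p r n D m s R prodElt uniElt y cb,
      mp.pt = pt ∧ letI := mp.instAddCommGroup; letI := mp.instModule;
      ∀ a ∈ U, ∀ τ (x : mp.N τ), a • x = 0 := by
  classical
  set M₀ : ℕ := N₀ * ∏ j, Q j with hM₀
  set N1 : ℕ := (∏ j, Q j) * ∏ t, qT t with hN1
  have hN₀pos : 0 < N₀ := Nat.pos_of_ne_zero hN₀.ne_zero
  have hQpos : 0 < ∏ j, Q j := Finset.prod_pos fun j _ => (hQ j).pos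
  haveI : NeZero M₀ := ⟨(Nat.mul_pos hN₀pos hQpos).ne'⟩
  have hM₀sq : Squarefree M₀ := squarefree_mul_prod hQ hQinj hN₀ hQN₀
  have hbp : ∀ i, i < s → (bfun bb i).Prime := bfun_prime hbb
  have hb0 : ∀ i, bfun bb i ≠ 0 := bfun_ne_zero hbb
  have hbinj' : ∀ i, i < s → ∀ j, j < i → bfun bb i ≠ bfun bb j := fun i hi j hj =>
    bfun_inj hbinj i hi j hj
  have hbM₀ : ∀ i, i < s → ¬ bfun bb i ∣ M₀ := by
    intro i hi h
    rw [bfun_lt bb hi] at h
    rcases (hbb _).dvd_mul.mp h with h | h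
    · exact hbN₀ _ h
    · obtain ⟨j, hj⟩ := prime_dvd_prod hQ (hbb _) h
      exact hbQ _ j hj.symm
  have hlv0 : lvl M₀ (bfun bb) 0 = M₀ := rfl
  have hlvs : ∀ i, lvl M₀ (bfun bb) (i + 1) = lvl M₀ (bfun bb) i * bfun bb i := fun _ => rfl
  have hlvsq : ∀ i, i ≤ s → Squarefree (lvl M₀ (bfun bb) i) :=
    chain_squarefree hlvs hbp hbM₀ hbinj' hM₀sq
  have hM₀lv : ∀ i, M₀ ∣ lvl M₀ (bfun bb) i := fun i => chain_dvd hlvs (Nat.zero_le i)
  have hTdvd : (∏ t, qT t) ∣ N₀ := prod_primes_dvd hqT hqTinj hTN₀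
  have hQT : ∀ j t, Q j ≠ qT t := fun j t h => hQN₀ j (h ▸ hTN₀ t)
  have hN1M : N1 ∣ M₀ := by
    rw [hN1, hM₀, mul_comm N₀]
    exact Nat.mul_dvd_mul_left _ hTdvd
  have hN1sq : Squarefree N1 := hM₀sq.squarefree_of_dvd hN1M
  have hbN1 : ∀ i, i < s → ¬ bfun bb i ∣ N1 := fun i hi h => hbM₀ i hi (h.trans hN1M)
  have hQN1 : ∀ j, Q j ∣ N1 := fun j =>
    (Finset.dvd_prod_of_mem Q (Finset.mem_univ j)).mul_right _
  have hTN1 : ∀ t, qT t ∣ N1 := fun t =>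
    (Finset.dvd_prod_of_mem qT (Finset.mem_univ t)).mul_left _
  have hTM : ∀ t i, qT t ∣ lvl M₀ (bfun bb) i := fun t i =>
    ((hTN₀ t).mul_right _).trans (hM₀lv i)
  have hTQ : ∀ t, ¬ qT t ∣ ∏ j, Q j := by
    intro t h
    obtain ⟨j, hj⟩ := prime_dvd_prod hQ (hqT t) h
    exact hQT j t hj
  have hbQ' : ∀ i, i < s → ¬ bfun bb i ∣ ∏ j, Q j := fun i hi h => hbM₀ i hi (h.mul_left _)
  have hpQ : ¬ p ∣ ∏ j, Q j := by
    intro h
    obtain ⟨j, hj⟩ := prime_dvd_prod hQ Fact.out h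
    exact hQp j hj
  have hpN1 : ¬ p ∣ N1 := by
    intro h
    rcases (Fact.out : p.Prime).dvd_mul.mp h with h | h
    · exact hpQ h
    · obtain ⟨t, ht⟩ := prime_dvd_prod' hqT Fact.out h
      have h1 := hqTp t
      rw [ht] at h1
      have h2 := (Fact.out : p.Prime).two_le
      have h3 := Nat.le_of_dvd (by omega) h1
      omega
  refine exists_fullModPart_chain (M₀ := M₀) (N1 := N1) (N2 := ∏ j, Q j) hp2 hSL π hϖ e hne c hcm
    hc Q hQ hQinj hQe qT hqT hqTinj hqTp hQT ζ hζ hζ1 (bfun bb) hb0 hbp hbM₀ hbinj'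
    (fun i hi => by rw [bfun_lt bb hi]; exact hbc _) hN1M (Dvd.intro _ rfl)
    (fun j => Finset.dvd_prod_of_mem Q (Finset.mem_univ j)) hTN1 hN1sq
    (fun q hq _ h => hq.not_isUnit (hM₀sq q h)) (by rw [hL])
    (fun M' h => hg M' ((Dvd.intro _ rfl).trans h)) hNE1 hNE2 hrk U ?_ ?_ tb ?_ ?_ ?_ pt hpt hptu
    hptt hptz f hf ?_
  · -- the module with characters
    intro O' _ _ _ _ _ _ _ _ _ hinj hN hS lam η x hη hηT hx
    refine ⟨fun t => (hT t).prod O' hinj hN hS hM₀sq lam η x hη hx (hTN1 t) (hηT t),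
      fun j => hTW j O' hinj hN hS hM₀sq lam η x hη hx (hQN1 j),
      fun i => (hM i).nr O' hinj hN hS hM₀sq lam η x hη hx ?_, fun a ha => ?_⟩
    · have := hbM₀ i i.2
      rwa [bfun_fin] at this
    · exact hU a ha 0 (Nat.zero_le _) O' hinj hN hpN1 hS lam η x hη hx
  · -- the unipotent modules
    intro i hi O' _ _ _ _ _ _ _ _ _ hinj hN hS lam η x hη hx
    refine ⟨fun t => (hT t).uni O' hinj hN hS (hlvsq i hi) lam η x hη hx (hTM t i) (hTQ t),
      fun j => hTW j O' hinj hN hS (hlvsq i hi) lam η x hη hx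
        (Finset.dvd_prod_of_mem Q (Finset.mem_univ j)),
      fun j hij => (hM j).nr O' hinj hN hS (hlvsq i hi) lam η x hη hx ?_,
      fun j hji => (hM j).un O' hinj hN hS (hlvsq i hi) lam η x hη hx ?_ ?_,
      fun a ha => hU a ha i hi O' hinj hN hpQ hS lam η x hη hx⟩
    · have := chain_not_dvd hlvs hbp hbM₀ hbinj' j.2 hij
      rwa [bfun_fin] at this
    · have := chain_dvd_of_lt hlvs hji
      rwa [bfun_fin] at this
    · have := hbQ' j j.2
      rwa [bfun_fin] at this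
  · -- the relation with the trace of Frobenius
    intro i
    rw [bfun_fin]
    exact (hM i).tr
  · -- the eigenvalue of `T_b`
    intro i O' _ _ _ _ _ _ _ _ _ hinj hN hS hbpi hbM hbN lam η x hη hx μ hμ
    have key : ∀ (q : ℕ) (_ : q = bfun bb i) (hq : q.Prime) (hqM : ¬ q ∣ lvl M₀ (bfun bb) i)
        (hqN : q.Coprime N1), (tFam hN hq hqM).opH (psiRep (η ^ 2) O') x =
        (((η (ZMod.unitOfCoprime q hqN) : O'ˣ) : O') * μ) • x := by
      rintro _ rfl hq hqM hqN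
      exact hμ
    have hbi := bfun_fin bb i
    exact (hM i).frob O' hinj hN hS (hlvsq i i.2.le) (hbb i) (by rwa [hbi] at hbM)
      (by rwa [hbi] at hbN) lam η x hη hx μ (key (bb i) hbi.symm _ _ _)
  · -- new points
    intro i _ _ O' _ _ _ _ _ _ _ _ _ hinj hN hS hbpi hbM lam η x hη hx h1 h2
    have key : ∀ (q : ℕ) (_ : q = bfun bb i) [NeZero q]
        (_ : MarkFacts p hSL π q (y i 0) (y i 1) (y i 2) (cb i) (tb i)),
        lam (π (y i 0 * (y i 0 + algebraMap O R (cb i)))) = 0 := by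
      rintro _ rfl _ hMF
      exact hMF.new O' hinj hN hS (hlvs i ▸ hlvsq (i + 1) i.2) hbpi hbM lam η x hη hx h1 h2
    haveI : NeZero (bb i) := ⟨(hbb i).ne_zero⟩
    exact key (bb i) (bfun_fin bb i).symm (hM i)
  · -- the witness
    intro O' _ _ _ _ _ _ _ _ _ hinj hN hS lam η x hη hx
    exact hE O' hinj hN hS lam η x hη hx

end Core

end Fermat.Agent.H86.In
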