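import Fermat.Agent.H86In3
import Fermat.Agent.H69Fin

/-!
# The inner statements of S59

`innerFull_of` : the tail of `InnerFull`, `innerBeta_of` : the tail of `InnerBeta`, from the
hypotheses at `p`.
-/

set_option autoImplicit false
set_option linter.style.haveILetI false
set_option linter.unusedSectionVars false

noncomputable section

open IsLocalRing CuspForm GaloisRep
open Fermat.Agent.H53 (toMat mapMat PData PlaceData GalLevelB numB)
open Fermat.Agent.H59 (Tset Zset CoeffChoice)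
open Fermat.Agent.H87.Glue
open Fermat.Agent.H87.S58 (tO)
open Fermat.Agent.H73LT (nodeSign)
open Fermat.Agent.H69.Red (Partition baseLevel)
open Fermat.Agent.H70.Coh Fermat.Agent.H70.Mod Fermat.Agent.H37.Rank
open Fermat.Agent.H30 Fermat.Agent.H69.EG Fermat.Agent.H57.Full Fermat.Agent.H21M

namespace Fermat.Agent.H86.In

section Irr

/-- the base change of an irreducible `W[p]` is irreducible -/
theorem irr_baseChange {W : WeierstrassCurve ℤ} (hΔ : W.Δ ≠ 0) {p : ℕ} [hp : Fact p.Prime]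
    (hp2 : p ≠ 2) (hirr : W.ModRepIsIrreducible p) (k : Type) [Field k] [Algebra (ZMod p) k] :
    ((resZ W hΔ p).baseChange k).IsIrreducible := by
  have h2z : (2 : ZMod p) ≠ 0 := by
    intro h
    have h1 : ((2 : ℕ) : ZMod p) = 0 := by exact_mod_cast h
    rw [ZMod.natCast_eq_zero_iff] at h1
    exact hp2 ((Nat.prime_dvd_prime_iff_eq hp.out Nat.prime_two).mp h1)
  obtain ⟨c, hc1, hc2⟩ : ∃ c : AlgebraicClosure ℚ ≃ₐ[ℚ] AlgebraicClosure ℚ, c * c = 1 ∧ c ≠ 1 :=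
    ⟨complexConjugation, complexConjugation_mul_self, H87.Res.complexConjugation_ne_one⟩
  have hdetc : LinearMap.det ((resZ W hΔ p).ρ c) = -1 := resZ_isOdd W hΔ p c hc1 hc2
  exact H87.AbsIrr.isIrreducible_baseChange_of_involution h2z _
    (resZ_isIrreducible W hΔ p hirr) c hc1 hdetc

end Irr

section Rel

variable {W : WeierstrassCurve ℤ} (hΔ : W.Δ ≠ 0) (p : ℕ)
  {O : Type} [CommRing O] [IsDomain O] [IsDiscreteValuationRing O]
  [IsAdicComplete (maximalIdeal O) O] [CharZero O]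

include hΔ in
/-- **The witness of non-modularity**: the exceptional primes and an integral relation between the
Hecke operators of level `N` which does not hold for the `a_ℓ(W)`. -/
theorem exists_relation (hS35 : H87.S58.StatementS35)
    (hnot : ¬ Mlc1IsModularModelOfExactConductorLevel W) {N : ℕ} [NeZero N] (hsq : Squarefree N)
    {ϖ : O} (hϖ : maximalIdeal O = Ideal.span {ϖ}) :
    ∃ (S₁ : Finset ℕ) (hNS₁ : ∀ q : ℕ, q.Prime → q ∣ N → q ∈ (↑S₁ : Set ℕ))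
      (P₀ : MvPolynomial {ℓ : ℕ // ℓ.Prime ∧ ℓ ∉ (↑S₁ : Set ℕ)} ℤ) (m : ℕ),
      p ∈ S₁ ∧ (∀ q : ℕ, q.Prime → (q : ℤ) ∣ W.Δ → q ∈ S₁) ∧
      evZ N (↑S₁ : Set ℕ) hNS₁ P₀ = 0 ∧
      ((MvPolynomial.aeval (fun i => W.apOfModel i.1) P₀ : ℤ) : O) ∉ Ideal.span {ϖ ^ m} := by
  classical
  obtain ⟨S₁, hS₁⟩ : ∃ S₁ : Finset ℕ,
      S₁ = N.primeFactors ∪ W.Δ.natAbs.primeFactors ∪ {p} := ⟨_, rfl⟩
  have hNS₁ : ∀ q : ℕ, q.Prime → q ∣ N → q ∈ (↑S₁ : Set ℕ) := by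
    intro q hq h
    rw [Finset.mem_coe, hS₁]
    exact Finset.mem_union_left _ (Finset.mem_union_left _
      (Nat.mem_primeFactors.mpr ⟨hq, h, NeZero.ne N⟩))
  rcases H69.Fin.exact_or_exists hS35 W hΔ hsq S₁ hNS₁ with h | ⟨P₀, h1, h2⟩
  · exact absurd h hnot
  · obtain ⟨m, hm⟩ := H69.Pt.exists_notMem_pow hϖ h2
    refine ⟨S₁, hNS₁, P₀, m, ?_, fun q hq h => ?_, h1, hm⟩
    · rw [hS₁]
      exact Finset.mem_union_right _ (Finset.mem_singleton_self p)
    · rw [hS₁]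
      exact Finset.mem_union_left _ (Finset.mem_union_right _
        (Nat.mem_primeFactors.mpr ⟨hq, Int.natCast_dvd.mp h, Int.natAbs_ne_zero.mpr hΔ⟩))

end Rel

section Sq

variable {W : WeierstrassCurve ℤ} {hΔ : W.Δ ≠ 0} {p : ℕ} [hp : Fact p.Prime] {A T B : Finset ℕ}
  {s' : ℕ} (P : Partition W hΔ p A T B s') {δ : ℕ} (hδ : δ = 1 ∨ δ = p)
  {E : Type} {s : ℕ} {ε : Fin s → Tset B ⊕ E} (hε : Function.Injective ε)
  (hsub : ∀ j j' : E, j = j') (hε1 : ∀ i j, ε i = Sum.inr j → δ = 1)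

include P hδ hε hsub hε1

/-- the level without the Taylor-Wiles primes is squarefree -/
lemma lvl_sq₀ : Squarefree (lvl (baseLevel A T s' * δ) (bfun (bq p ε)) s) :=
  chain_squarefree (f := lvl (baseLevel A T s' * δ) (bfun (bq p ε))) (b := bfun (bq p ε))
    (fun _ => rfl) (bfun_prime (bq_prime P))
    (fun i hi h => by
      have h' : bfun (bq p ε) i ∣ baseLevel A T s' * δ := h
      rw [bfun_lt _ hi] at h'
      exact bq_not_dvd P hδ hε1 _ h')
    (fun i hi j hj => bfun_inj (bq_injective P hε hsub) i hi j hj) (base_sq P hδ) s le_rfl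

end Sq

section Main

variable {W : WeierstrassCurve ℤ} (hΔ : W.Δ ≠ 0) {p : ℕ} [hp : Fact p.Prime]
  {O : Type} [CommRing O] [IsDomain O] [IsDiscreteValuationRing O]
  [IsAdicComplete (maximalIdeal O) O] [CharZero O] [Finite (ResidueField O)]
  [CharP (ResidueField O) p] [Algebra (ZMod p) (ResidueField O)]

attribute [local instance] H57.NM.RPart.instCommRing H57.NM.RPart.instLocal
  H57.NM.RPart.instAlgebra
attribute [local instance] FullLevel.instAddCommGroup FullLevel.instModule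

/-- **The tail of `InnerFull`** from the hypotheses at `p` (types `F`, `O`, `Pα`). -/
theorem innerFull_of (hp2 : p ≠ 2) (hW : W.IsSemistableModel) (hirr : W.ModRepIsIrreducible p)
    (hnot : ¬ Mlc1IsModularModelOfExactConductorLevel W)
    (hS34 : StatementS34) (hS35 : H87.S58.StatementS35) (GI : H4.GeomInputs p)
    {A T B : Finset ℕ} {s' : ℕ} (P : Partition W hΔ p A T B s')
    {ϖ : O} {a : ℕ} {ζ : O} (hO : CoeffChoice p T O ϖ a ζ)
    {b : Module.Basis (Fin 2) (ResidueField O) ((resZ W hΔ p).baseChange (ResidueField O)).V}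
    (pl : ∀ t : Tset T, PlaceData p t.1) (u : Tset T → O) (plB : ∀ i : Tset B, PlaceData p i.1)
    (pd : PData p ((resZ W hΔ p).baseChange (ResidueField O)) b) (hsub : ∀ j j' : pd.ε, j = j')
    {δ : ℕ} (hδ : δ = 1 ∨ δ = p) (hε1 : Nonempty pd.ε → δ = 1)
    (hmod : W.IsResiduallyModularOfLevel p (baseLevel A T s' * δ))
    (ph : PHyp hΔ hO.mem pd A pl u plB (δ = p ∨ Nonempty pd.ε)) :
    ∀ k : ℕ, ∃ (D m s : ℕ) (ε : Fin s ≃ Tset B ⊕ pd.ε) (cb : Fin s → O) (c' : O),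
      (∀ i, cb i ≠ 0) ∧ c' ≠ 0 ∧ ∀ n : ℕ, ∃ S₀ : Finset ℕ,
      ∀ _ : GalLevelB p ((resZ W hΔ p).baseChange (ResidueField O)) b pd A
        (fun t : Tset T => t.1) pl u (fun i : Tset B => i.1) plB
        (fun i => (nodeSign W i.1 : O)) k n S₀,
        Nonempty (FullLevel O ϖ c' p (numB (Tset T) (Tset B) pd.ε k) n D m s
          (MvPowerSeries (((Tset T × Fin 6) ⊕ ((Tset B ⊕ pd.ε) × Fin 3)) ⊕ Fin k) O)
          (fun t j => MvPowerSeries.X (Sum.inl (Sum.inl (t, j))))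
          (fun i j => MvPowerSeries.X (Sum.inl (Sum.inr (ε i, j))))
          (fun t : Tset T => t.1) u (Zset O p T) cb) := by
  classical
  intro k
  obtain ⟨s, ⟨ε⟩⟩ : ∃ s : ℕ, Nonempty (Fin s ≃ Tset B ⊕ pd.ε) :=
    ⟨_, ⟨(Fintype.equivFin (Tset B ⊕ pd.ε)).symm⟩⟩
  have hε1' : ∀ i j, ε i = Sum.inr j → δ = 1 := fun i j _ => hε1 ⟨j⟩
  have hinc : (δ = p ∨ Nonempty pd.ε) ↔ (δ = p ∨ ∃ i j, ε i = Sum.inr j) := by
    constructor
    · rintro (h | ⟨⟨j⟩⟩)
      · exact Or.inl h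
      · exact Or.inr ⟨ε.symm (Sum.inr j), j, ε.apply_symm_apply _⟩
    · rintro (h | ⟨_, j, _⟩)
      · exact Or.inl h
      · exact Or.inr ⟨j⟩
  have hsq := lvl_sq₀ P hδ ε.injective hsub hε1'
  haveI : NeZero (lvl (baseLevel A T s' * δ) (bfun (bq p ε)) s) := ⟨hsq.ne_zero⟩
  obtain ⟨S₁, hNS₁, P₀, m, hpS₁, hWS₁, hP₀, hm⟩ := exists_relation hΔ p hS35 hnot hsq hO.unif
  refine ⟨H35.Rk.bnd O (numB (Tset T) (Tset B) pd.ε k)
    (lvl (baseLevel A T s' * δ) (bfun (bq p ε)) s), m, s, ε, cq O W ε,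
    ∏ i, ((bq p ε i : O) + 1), cq_ne_zero O W ε, prod_bq_ne_zero O p ε, fun n =>
    ⟨S₁ ∪ P₀.vars.image fun i => i.1, fun G => ?_⟩⟩
  obtain ⟨FL, -⟩ := inner_level hΔ hp2 hW hirr (irr_baseChange hΔ hp2 hirr _) hS34 GI hO P ph hδ
    hmod ε ε.injective hsub hε1' hinc hpS₁ hNS₁ hWS₁ P₀ hP₀ hm G ∅
    (fun _ _ _ _ a ha => absurd ha (Set.notMem_empty a))
  exact ⟨FL⟩

/-- the levels of the chain as products over subsets of `B` -/
lemma exists_lvl_eq {B : Finset ℕ} {N Q : ℕ} (b : ℕ → ℕ) {s : ℕ} (hb : ∀ i, i < s → b i ∈ B)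
    (hinj : ∀ i, i < s → ∀ j, j < i → b i ≠ b j) {i : ℕ} (hi : i ≤ s) :
    ∃ B' ⊆ B, lvl (N * Q) b i = N * (∏ r ∈ B', r) * Q := by
  classical
  induction i with
  | zero => exact ⟨∅, Finset.empty_subset _, by rw [Finset.prod_empty, mul_one]; rfl⟩
  | succ i ih =>
    refine ⟨(Finset.range (i + 1)).image b, ?_, ?_⟩
    · intro r hr
      obtain ⟨j, hj, rfl⟩ := Finset.mem_image.mp hr
      exact hb j (by have := Finset.mem_range.mp hj; omega)
    · have hprod : ∀ j, lvl (N * Q) b j = N * Q * ∏ r ∈ Finset.range j, b r := by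
        intro j
        induction j with
        | zero => rw [Finset.range_zero, Finset.prod_empty, mul_one]; rfl
        | succ j ihj =>
          rw [Finset.prod_range_succ, ← mul_assoc, ← ihj]
          rfl
      rw [hprod, Finset.prod_image]
      · ring
      · intro j hj j' hj' h
        have h1 : j < i + 1 := Finset.mem_range.mp (Finset.mem_coe.mp hj)
        have h2 : j' < i + 1 := Finset.mem_range.mp (Finset.mem_coe.mp hj')
        rcases lt_trichotomy j j' with h3 | h3 | h3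
        · exact absurd h.symm (hinj j' (by omega) j h3)
        · exact h3
        · exact absurd h (hinj j (by omega) j' h3)

/-- **The tail of `InnerBeta`** from the hypotheses at `p` (type `Pβ`). -/
theorem innerBeta_of (hp2 : p ≠ 2) (hW : W.IsSemistableModel) (hirr : W.ModRepIsIrreducible p)
    (hnot : ¬ Mlc1IsModularModelOfExactConductorLevel W)
    (hS34 : StatementS34) (hS35 : H87.S58.StatementS35) (GI : H4.GeomInputs p)
    {A T B : Finset ℕ} {s' : ℕ} (P : Partition W hΔ p A T B s')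
    {ϖ : O} {a : ℕ} {ζ : O} (hO : CoeffChoice p T O ϖ a ζ)
    {b : Module.Basis (Fin 2) (ResidueField O) ((resZ W hΔ p).baseChange (ResidueField O)).V}
    (pl : ∀ t : Tset T, PlaceData p t.1) (u : Tset T → O) (plB : ∀ i : Tset B, PlaceData p i.1)
    (pd : PData p ((resZ W hΔ p).baseChange (ResidueField O)) b) (j₀ : pd.ε)
    (hj₀ : ∀ j : pd.ε, j = j₀)
    (hmod : W.IsResiduallyModularOfLevel p (baseLevel A T s' * p))
    {inc : Prop} (hinc : inc) (ph : PHyp hΔ hO.mem pd A pl u plB inc)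
    (hU : ∀ {k n : ℕ} {S₀ : Finset ℕ} (G : GLev hΔ pd A pl u plB k n S₀)
      {L : ℕ} [NeZero L] {S : Finset ℕ} {θ : heckeAlgebra L 2 (↑S : Set ℕ) →+* ResidueField O}
      (π : G.D.R →ₐ[O] heckeLocal L (↑S : Set ℕ) O θ) (hs : HSide p G.D G.b₁ π)
      (_ : ∀ ℓ : ℕ, ℓ.Prime → ℓ ∉ S → W.IsGoodPrimeFor ℓ)
      (_ : ∀ i : Idx (↑S : Set ℕ), θ (TIdx L (↑S : Set ℕ) hs.hLS i) =
        ((W.apOfModel i.1 : ℤ) : ResidueField O)) {B1 : Finset ℕ} (_ : B1 ⊆ B),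
      VanishAt p hs.hLS π (baseLevel A T s' * p * (∏ q ∈ B1, q) * ∏ j, G.qv j)
          (G.mB (Sum.inr j₀) 0) ∧
        VanishAt p hs.hLS π (baseLevel A T s' * p * (∏ q ∈ B1, q) * ∏ j, G.qv j)
          (G.mB (Sum.inr j₀) 2)) :
    ∀ k : ℕ, ∃ (D m s : ℕ) (ε : Fin s ≃ Tset B) (cb : Fin s → O) (c' : O),
      (∀ i, cb i ≠ 0) ∧ c' ≠ 0 ∧ ∀ n : ℕ, ∃ S₀ : Finset ℕ,
      ∀ _ : GalLevelB p ((resZ W hΔ p).baseChange (ResidueField O)) b pd A
        (fun t : Tset T => t.1) pl u (fun i : Tset B => i.1) plB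
        (fun i => (nodeSign W i.1 : O)) k n S₀,
        ∃ L : FullLevel O ϖ c' p (numB (Tset T) (Tset B) pd.ε k) n D m s
          (MvPowerSeries (((Tset T × Fin 6) ⊕ ((Tset B ⊕ pd.ε) × Fin 3)) ⊕ Fin k) O)
          (fun t j => MvPowerSeries.X (Sum.inl (Sum.inl (t, j))))
          (fun i j => MvPowerSeries.X (Sum.inl (Sum.inr (Sum.inl (ε i), j))))
          (fun t : Tset T => t.1) u (Zset O p T) cb,
          (∀ τ (x : L.N τ),
            L.β (MvPowerSeries.X (Sum.inl (Sum.inr (Sum.inr j₀, 0)))) • x = 0) ∧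
          (∀ τ (x : L.N τ),
            L.β (MvPowerSeries.X (Sum.inl (Sum.inr (Sum.inr j₀, 2)))) • x = 0) ∧
          L.pt (L.β (MvPowerSeries.X (Sum.inl (Sum.inr (Sum.inr j₀, 0))))) = 0 ∧
          L.pt (L.β (MvPowerSeries.X (Sum.inl (Sum.inr (Sum.inr j₀, 2))))) = 0 := by
  classical
  intro k
  obtain ⟨s, ⟨ε⟩⟩ : ∃ s : ℕ, Nonempty (Fin s ≃ Tset B) :=
    ⟨_, ⟨(Fintype.equivFin (Tset B)).symm⟩⟩
  have hδ : p = 1 ∨ p = p := Or.inr rfl
  have hsub : ∀ j j' : pd.ε, j = j' := fun j j' => (hj₀ j).trans (hj₀ j').symm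
  have hεi : Function.Injective fun i => (Sum.inl (ε i) : Tset B ⊕ pd.ε) := fun i j h =>
    ε.injective (Sum.inl_injective h)
  have hε1' : ∀ i j, (fun i => (Sum.inl (ε i) : Tset B ⊕ pd.ε)) i = Sum.inr j → p = 1 :=
    fun i j h => absurd h Sum.inl_ne_inr
  have hinc' : inc ↔ (p = p ∨ ∃ i j, (fun i => (Sum.inl (ε i) : Tset B ⊕ pd.ε)) i = Sum.inr j) :=
    ⟨fun _ => Or.inl rfl, fun _ => hinc⟩
  have hsq := lvl_sq₀ P hδ hεi hsub hε1'
  haveI : NeZero (lvl (baseLevel A T s' * p)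
    (bfun (bq p fun i => (Sum.inl (ε i) : Tset B ⊕ pd.ε))) s) := ⟨hsq.ne_zero⟩
  obtain ⟨S₁, hNS₁, P₀, m, hpS₁, hWS₁, hP₀, hm⟩ := exists_relation hΔ p hS35 hnot hsq hO.unif
  refine ⟨H35.Rk.bnd O (numB (Tset T) (Tset B) pd.ε k)
    (lvl (baseLevel A T s' * p) (bfun (bq p fun i => (Sum.inl (ε i) : Tset B ⊕ pd.ε))) s), m, s, ε,
    cq O W fun i => (Sum.inl (ε i) : Tset B ⊕ pd.ε),
    ∏ i, ((bq p (fun i => (Sum.inl (ε i) : Tset B ⊕ pd.ε)) i : O) + 1),
    cq_ne_zero O W _, prod_bq_ne_zero O p _, fun n =>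
    ⟨S₁ ∪ P₀.vars.image fun i => i.1, fun G => ?_⟩⟩
  obtain ⟨FL, hFL1, hFL2⟩ := inner_level hΔ hp2 hW hirr (irr_baseChange hΔ hp2 hirr _) hS34 GI hO P
    ph hδ hmod (fun i => (Sum.inl (ε i) : Tset B ⊕ pd.ε)) hεi hsub hε1' hinc' hpS₁ hNS₁ hWS₁ P₀
    hP₀ hm G {G.mB (Sum.inr j₀) 0, G.mB (Sum.inr j₀) 2} (by
      intro L _ S θ π hs hSW hθ a' ha' i hi
      obtain ⟨B1, hB1, hlv⟩ := exists_lvl_eq (B := B) (N := baseLevel A T s' * p)
        (Q := ∏ j, G.qv j) (bfun (bq p fun i => (Sum.inl (ε i) : Tset B ⊕ pd.ε)))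
        (fun i hi => by
          rw [bfun_lt _ hi, bq_inl p (q := ε ⟨i, hi⟩) rfl]
          exact (ε ⟨i, hi⟩).2)
        (fun i hi j hj => bfun_inj (bq_injective P hεi hsub) i hi j hj) hi
      rw [hlv]
      rcases ha' with rfl | rfl
      · exact (hU G π hs hSW hθ hB1).1
      · exact (hU G π hs hSW hθ hB1).2)
  refine ⟨FL, hFL1 _ ?_, hFL1 _ ?_, (hFL2 j₀).1, (hFL2 j₀).2⟩
  · rw [G.β_mB]
    exact Or.inl rfl
  · rw [G.β_mB]
    exact Or.inr rfl

end Main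

end Fermat.Agent.H86.In

end
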