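import Fermat.Agent.H86Slope3
import Fermat.Agent.H89SS10

/-!
# Kummer group of a function field and the torsion of `Pic0`
-/

set_option autoImplicit false

open AlgebraicCurve WithZero Fermat.Agent.H3RR Module Fermat.Agent.H89SS Fermat.Agent.H86.Slope

namespace Fermat.Agent.H86

section Kum

variable (K F : Type*) [Field K] [Field F] [Algebra K F]

/-- The Kummer group: functions whose divisor is divisible by `d`. -/
def kum (d : ℕ) : Subgroup Fˣ where
  carrier := {f | ∀ v : Place K F, (d : ℤ) ∣ v.ord (f : F)}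
  one_mem' v := by simp
  mul_mem' {f g} hf hg v := by
    rw [Units.val_mul, v.ord_mul f.ne_zero g.ne_zero]
    exact dvd_add (hf v) (hg v)
  inv_mem' {f} hf v := by
    rw [Units.val_inv_eq_inv_val, v.ord_inv]
    exact (dvd_neg).mpr (hf v)

variable {K F}

theorem mem_kum {d : ℕ} {f : Fˣ} : f ∈ kum K F d ↔ ∀ v : Place K F, (d : ℤ) ∣ v.ord (f : F) :=
  Iff.rfl

variable (F) in
/-- `d`-th powers. -/
def pw (d : ℕ) : Subgroup Fˣ := (powMonoidHom d : Fˣ →* Fˣ).range

theorem mem_pw {d : ℕ} {f : Fˣ} : f ∈ pw F d ↔ ∃ g : Fˣ, g ^ d = f := Iff.rfl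

theorem pow_mem_pw (d : ℕ) (f : Fˣ) : f ^ d ∈ pw F d := ⟨f, rfl⟩

variable (K F) in
theorem pw_le_kum (d : ℕ) : pw F d ≤ kum K F d := by
  rintro _ ⟨g, rfl⟩ v
  change (d : ℤ) ∣ v.ord ((g ^ d : Fˣ) : F)
  rw [Units.val_pow_eq_pow_val, ord_pow']
  exact dvd_mul_right _ _

variable [IsAlgClosed K] [IsFF K F]

omit [IsFF K F] in
theorem const_mem_pw {d : ℕ} (hd : 0 < d) {f : Fˣ} {c : K} (h : algebraMap K F c = f) :
    f ∈ pw F d := by
  obtain ⟨r, hr⟩ := IsAlgClosed.exists_pow_nat_eq c hd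
  have hc : c ≠ 0 := by
    rintro rfl
    rw [map_zero] at h
    exact f.ne_zero h.symm
  have hr0 : r ≠ 0 := by
    rintro rfl
    rw [zero_pow hd.ne'] at hr
    exact hc hr.symm
  refine ⟨Units.mk0 (algebraMap K F r) ((map_ne_zero _).mpr hr0), Units.ext ?_⟩
  change (algebraMap K F r) ^ d = f
  rw [← map_pow, hr, h]

/-- Functions with the same divisor up to `d`-th powers. -/
theorem mem_pw_of_ord {d : ℕ} (hd : 0 < d) {f : Fˣ} {g : F} (hg : g ≠ 0)
    (h : ∀ v : Place K F, v.ord (f : F) = d * v.ord g) : f ∈ pw F d := by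
  obtain ⟨c, hc, hf⟩ := exists_const_mul (K := K) f.ne_zero (pow_ne_zero d hg) (fun v => by
    rw [h v, ord_pow'])
  have h1 : f = Units.mk0 (algebraMap K F c) ((map_ne_zero _).mpr hc) * (Units.mk0 g hg) ^ d :=
    Units.ext hf
  rw [h1]
  exact (pw F d).mul_mem (const_mem_pw hd rfl) (pow_mem_pw d _)

theorem fl_divOf {d : ℕ} {f : Fˣ} (hf : f ∈ kum K F d) (v : Place K F) :
    (d : ℤ) * (fl d (divOf (f : F)) : Divisor K F) v = v.ord (f : F) := by
  rw [fl_apply, divOf_apply f.ne_zero, Int.mul_ediv_cancel' (hf v)]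

theorem degree_fl_divOf {d : ℕ} (hd : 0 < d) {f : Fˣ} (hf : f ∈ kum K F d) :
    Divisor.degree (fl d (divOf (f : F)) : Divisor K F) = 0 := by
  have h1 : (d : ℤ) • (fl d (divOf (f : F)) : Divisor K F) = divOf (f : F) := by
    ext v
    rw [Finsupp.smul_apply, smul_eq_mul, fl_divOf hf, divOf_apply f.ne_zero]
  have h2 := degree_divOf (K := K) f.ne_zero
  rw [← h1, map_zsmul, smul_eq_mul] at h2
  rcases mul_eq_zero.mp h2 with h3 | h3
  · exact absurd (by exact_mod_cast h3) hd.ne'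
  · exact h3

variable (K F) in
/-- `f ↦ [div f / d]`. -/
noncomputable def kumHom {d : ℕ} (hd : 0 < d) : kum K F d →* Multiplicative (Pic0 K F) where
  toFun f := Multiplicative.ofAdd (Pic0.mk ⟨fl d (divOf ((f : Fˣ) : F)), degree_fl_divOf hd f.2⟩)
  map_one' := by
    apply Multiplicative.toAdd.injective
    change Pic0.mk _ = 0
    rw [mk_eq_zero]
    refine ⟨1, one_ne_zero, fun v => ?_⟩
    rw [fl_apply]
    have : (((1 : kum K F d) : Fˣ) : F) = 1 := rfl
    rw [this, divOf_apply one_ne_zero]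
    simp
  map_mul' f g := by
    apply Multiplicative.toAdd.injective
    change Pic0.mk _ = Pic0.mk _ + Pic0.mk _
    have h1 : ∀ (D D' : Divisor.degZero (K := K) (F := F)), Pic0.mk D + Pic0.mk D' =
      Pic0.mk (D + D') := fun _ _ => rfl
    rw [h1, mk_eq_mk]
    refine ⟨1, one_ne_zero, fun v => ?_⟩
    have hd' : (d : ℤ) ≠ 0 := by exact_mod_cast hd.ne'
    have h2 := fl_divOf (f * g).2 v
    have h3 := fl_divOf f.2 v
    have h4 := fl_divOf g.2 v
    have h5 : (((f * g : kum K F d) : Fˣ) : F) = (f : Fˣ) * (g : Fˣ) := rfl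
    rw [h5, v.ord_mul (Units.ne_zero _) (Units.ne_zero _), ← h3, ← h4] at h2
    change (fl d (divOf (((f * g : kum K F d) : Fˣ) : F)) : Divisor K F) v -
      ((fl d (divOf ((f : Fˣ) : F)) : Divisor K F) v +
      (fl d (divOf ((g : Fˣ) : F)) : Divisor K F) v) = _
    rw [v.ord_one, h5]
    rw [← mul_add] at h2
    have h6 := mul_left_cancel₀ hd' h2
    rw [h6, sub_self]

theorem kumHom_eq_one_iff {d : ℕ} (hd : 0 < d) (f : kum K F d) :
    kumHom K F hd f = 1 ↔ (f : Fˣ) ∈ pw F d := by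
  have h1 : kumHom K F hd f = 1 ↔ Pic0.mk ⟨fl d (divOf ((f : Fˣ) : F)),
      degree_fl_divOf hd f.2⟩ = 0 := Multiplicative.toAdd.injective.eq_iff.symm
  rw [h1, mk_eq_zero]
  constructor
  · rintro ⟨g, hg, h⟩
    refine mem_pw_of_ord (K := K) hd hg fun v => ?_
    rw [← fl_divOf f.2 v, ← h v]
  · rintro ⟨g, hg⟩
    refine ⟨g, g.ne_zero, fun v => ?_⟩
    have hd' : (d : ℤ) ≠ 0 := by exact_mod_cast hd.ne'
    apply mul_left_cancel₀ hd'
    change (d : ℤ) * (fl d (divOf ((f : Fˣ) : F)) : Divisor K F) v = _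
    rw [fl_divOf f.2 v, ← hg]
    change v.ord ((g ^ d : Fˣ) : F) = _
    rw [Units.val_pow_eq_pow_val, ord_pow']

theorem mem_range_kumHom {d : ℕ} (hd : 0 < d) (x : Pic0 K F) :
    Multiplicative.ofAdd x ∈ (kumHom K F hd).range ↔ x ∈ Pic0.torsion K F d := by
  rw [Pic0.mem_torsion]
  constructor
  · rintro ⟨f, hf⟩
    have h1 : Pic0.mk ⟨fl d (divOf ((f : Fˣ) : F)), degree_fl_divOf hd f.2⟩ = x :=
      Multiplicative.toAdd.injective.eq_iff.mpr hf
    rw [← h1]
    change Pic0.mk ((d : ℤ) • (⟨fl d (divOf ((f : Fˣ) : F)), degree_fl_divOf hd f.2⟩ :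
      Divisor.degZero (K := K) (F := F))) = 0
    rw [mk_eq_zero]
    refine ⟨(f : Fˣ), Units.ne_zero _, fun v => ?_⟩
    exact fl_divOf f.2 v
  · intro h
    obtain ⟨D, rfl⟩ := QuotientAddGroup.mk_surjective x
    have h1 : Pic0.mk ((d : ℤ) • D) = 0 := h
    rw [mk_eq_zero] at h1
    obtain ⟨f, hf, h2⟩ := h1
    have h2' : ∀ v, (d : ℤ) * (D : Divisor K F) v = v.ord f := h2
    have hfk : Units.mk0 f hf ∈ kum K F d := fun v => by
      rw [Units.val_mk0, ← h2' v]; exact dvd_mul_right _ _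
    refine ⟨⟨Units.mk0 f hf, hfk⟩, ?_⟩
    apply Multiplicative.toAdd.injective
    change Pic0.mk _ = Pic0.mk D
    rw [mk_eq_mk]
    refine ⟨1, one_ne_zero, fun v => ?_⟩
    have hd' : (d : ℤ) ≠ 0 := by exact_mod_cast hd.ne'
    have h3 := fl_divOf hfk v
    rw [Units.val_mk0, ← h2' v] at h3
    change (fl d (divOf (f : F)) : Divisor K F) v - (D : Divisor K F) v = _
    rw [mul_left_cancel₀ hd' h3, sub_self, v.ord_one]

theorem relIndex_kum {d : ℕ} (hd : 0 < d) :
    (pw F d).relIndex (kum K F d) = Nat.card (Pic0.torsion K F d) := by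
  have h1 : (pw F d).subgroupOf (kum K F d) = (kumHom K F hd).ker := by
    ext f
    rw [MonoidHom.mem_ker, kumHom_eq_one_iff, Subgroup.mem_subgroupOf]
  rw [Subgroup.relIndex, h1, Subgroup.index_ker]
  refine Nat.card_congr (Equiv.subtypeEquiv Multiplicative.toAdd ?_)
  intro x
  exact (mem_range_kumHom hd (Multiplicative.toAdd x))

end Kum

end Fermat.Agent.H86
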