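import Fermat.Agent.H89SS9

/-!
# Slopes of Kummer functions at the nodes, part 1: leading coefficients
-/

set_option autoImplicit false

open AlgebraicCurve WithZero Fermat.Agent.H3RR Module Fermat.Agent.H89SS

namespace Fermat.Agent.H86.Slope

section Lc

variable {k κ : Type*} [Field k] [Field κ] [Algebra k κ] [IsAlgClosed k] [IsFF k κ]

/-- Leading coefficient functional on `L D` at `v`. -/
noncomputable def lc (D : Divisor k κ) (v : Place k κ) (a : κ) : k :=
  val v (unif v (-D v) * a)

omit [IsAlgClosed k] [IsFF k κ] in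
theorem lc_adic {D : Divisor k κ} (v : Place k κ) {a : κ} (ha : v.adicValuation a ≤ exp (D v)) :
    v.adicValuation (unif v (-D v) * a) ≤ 1 := by
  rw [map_mul, adicValuation_unif]
  calc exp (-D v) * v.adicValuation a ≤ exp (-D v) * exp (D v) := mul_le_mul_right ha _
    _ = 1 := by rw [← exp_add, neg_add_cancel, exp_zero]

theorem lc_add {D : Divisor k κ} (v : Place k κ) {a b : κ} (ha : v.adicValuation a ≤ exp (D v))
    (hb : v.adicValuation b ≤ exp (D v)) : lc D v (a + b) = lc D v a + lc D v b := by
  rw [lc, mul_add, val_add (lc_adic v ha) (lc_adic v hb)]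
  rfl

theorem lc_smul {D : Divisor k κ} (v : Place k κ) (c : k) {a : κ}
    (ha : v.adicValuation a ≤ exp (D v)) : lc D v (c • a) = c * lc D v a := by
  rw [lc, mul_smul_comm, val_smul (lc_adic v ha)]
  rfl

theorem lc_zero (D : Divisor k κ) (v : Place k κ) : lc D v 0 = 0 := by
  rw [lc, mul_zero, val_zero]

theorem lc_eq_zero_iff {D : Divisor k κ} (v : Place k κ) {a : κ}
    (ha : v.adicValuation a ≤ exp (D v)) : lc D v a = 0 ↔ v.adicValuation a < exp (D v) := by
  rw [lc, val_eq_zero_iff (lc_adic v ha), map_mul, adicValuation_unif]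
  constructor
  · intro h
    have h2 := mul_lt_mul_of_pos_left h (exp_pos (a := D v))
    rwa [← mul_assoc, ← exp_add, add_neg_cancel, exp_zero, one_mul, mul_one] at h2
  · intro h
    have h2 := mul_lt_mul_of_pos_left h (exp_pos (a := -D v))
    rwa [← exp_add, neg_add_cancel, exp_zero] at h2

/-- Surjectivity of the leading coefficients. -/
theorem lc_surj (D : Divisor k κ) (S : Finset (Place k κ))
    (h : 2 * (genusFF k κ : ℤ) - 2 < Divisor.degree D - S.card) (c : Place k κ → k) :
    ∃ a ∈ riemannRochSpace D, ∀ v ∈ S, lc D v a = c v := by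
  classical
  let ev : riemannRochSpace D →ₗ[k] (S → k) :=
    { toFun := fun a v => lc D v a.1
      map_add' := by
        rintro ⟨a, ha⟩ ⟨b, hb⟩
        funext v
        exact lc_add _ (ha v) (hb v)
      map_smul' := by
        rintro c ⟨a, ha⟩
        funext v
        exact lc_smul _ c (ha v) }
  set D' : Divisor k κ := D - ∑ v ∈ S, Finsupp.single v 1 with hD'
  have hsum : ∀ w : Place k κ, (∑ v ∈ S, Finsupp.single v (1 : ℤ) : Divisor k κ) w =
      if w ∈ S then 1 else 0 := by
    intro w
    rw [Finsupp.finsetSum_apply]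
    simp only [Finsupp.single_apply]
    rw [Finset.sum_ite_eq' S w (fun _ => (1 : ℤ))]
  have hdeg' : Divisor.degree D' = Divisor.degree D - S.card := by
    rw [hD', map_sub, map_sum]
    simp [Divisor.degree_single, deg_eq_one]
  have hker : (LinearMap.ker ev).map (riemannRochSpace D).subtype = riemannRochSpace D' := by
    ext a
    rw [Submodule.mem_map]
    constructor
    · rintro ⟨⟨a', ha'⟩, hker, rfl⟩
      intro v
      rw [hD', Finsupp.sub_apply, hsum]
      split_ifs with hv
      · rw [LinearMap.mem_ker] at hker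
        have h1 : lc D v a' = 0 := congrFun hker ⟨v, hv⟩
        rw [lc_eq_zero_iff v (ha' v)] at h1
        change v.adicValuation a' ≤ _
        rcases eq_or_ne a' 0 with rfl | h0
        · rw [map_zero]; exact zero_le
        rw [v.adicValuation_eq_exp_neg_ord h0] at h1 ⊢
        rw [exp_lt_exp] at h1
        rw [exp_le_exp]
        omega
      · rw [sub_zero]
        exact ha' v
    · intro ha
      have hle : D' ≤ D := by
        rw [hD']
        refine sub_le_self _ ?_
        intro w
        rw [hsum]
        split_ifs <;> simp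
      have haD := L_mono hle ha
      refine ⟨⟨a, haD⟩, ?_, rfl⟩
      rw [LinearMap.mem_ker]
      funext v
      change lc D v a = 0
      rw [lc_eq_zero_iff (v : Place k κ) (haD v)]
      refine (ha v).trans_lt ?_
      rw [exp_lt_exp, hD', Finsupp.sub_apply, hsum, if_pos v.2]
      omega
  have h1 := ell_of_degree_gt (D := D) (by omega)
  have h2 := ell_of_degree_gt (D := D') (by rw [hdeg']; exact h)
  rw [ell] at h1 h2
  rw [← hker, Submodule.finrank_map_subtype_eq, hdeg'] at h2
  have h3 := LinearMap.finrank_range_add_finrank_ker ev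
  have h4 : finrank k (LinearMap.range ev) = finrank k (S → k) := by
    rw [Module.finrank_fintype_fun_eq_card, Fintype.card_coe]
    omega
  have h5 : LinearMap.range ev = ⊤ := Submodule.eq_top_of_finrank_eq h4
  obtain ⟨a, ha⟩ := LinearMap.range_eq_top.mp h5 (fun v => c v)
  exact ⟨a.1, a.2, fun v hv => congrFun ha ⟨v, hv⟩⟩

end Lc

end Fermat.Agent.H86.Slope
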