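import Fermat.Agent.H86Slope1

/-!
# Slopes of Kummer functions at the nodes, part 2: the dimension inequality
-/

set_option autoImplicit false

open AlgebraicCurve WithZero Fermat.Agent.H3RR Module Fermat.Agent.H89SS

namespace Fermat.Agent.H86.Slope

section Floor

variable {k κ : Type*} [Field k] [Field κ] [Algebra k κ]

/-- `⌊D / d⌋`. -/
noncomputable def fl (d : ℕ) (D : Divisor k κ) : Divisor k κ :=
  D.mapRange (fun m => m / (d : ℤ)) (by simp)

theorem fl_apply (d : ℕ) (D : Divisor k κ) (v : Place k κ) : fl d D v = D v / d := rfl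

variable [IsAlgClosed k] [IsFF k κ]

theorem mem_L_of_pow {P : Place k κ} {α a : κ} (hα : α ≠ 0) {d : ℕ} (hd : 0 < d) {n : ℕ}
    (h : a ^ d * α ∈ reg P) (hP : P.adicValuation (a ^ d * α) ≤ exp ((d * n : ℕ) : ℤ)) :
    a ∈ riemannRochSpace (fl d (divOf α) + Finsupp.single P (n : ℤ) : Divisor k κ) := by
  intro v
  rcases eq_or_ne a 0 with rfl | ha
  · rw [map_zero]; exact zero_le
  have hd' : (0 : ℤ) < d := by exact_mod_cast hd
  have h1 : v.ord (a ^ d * α) = d * v.ord a + v.ord α := by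
    rw [v.ord_mul (pow_ne_zero _ ha) hα, ord_pow']
  have h0 : a ^ d * α ≠ 0 := mul_ne_zero (pow_ne_zero _ ha) hα
  rw [v.adicValuation_eq_exp_neg_ord ha, exp_le_exp, Finsupp.add_apply, fl_apply,
    divOf_apply hα]
  rcases eq_or_ne v P with rfl | hv
  · rw [v.adicValuation_eq_exp_neg_ord h0, exp_le_exp, h1] at hP
    rw [Finsupp.single_eq_same]
    have h2 : (-v.ord a - n) ≤ v.ord α / d := by
      rw [Int.le_ediv_iff_mul_le hd']
      push_cast at hP
      nlinarith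
    omega
  · have h2 := h v hv
    rw [v.adicValuation_eq_exp_neg_ord h0, ← exp_zero, exp_le_exp, h1] at h2
    rw [Finsupp.single_eq_of_ne hv, add_zero, Int.le_ediv_iff_mul_le hd']
    nlinarith

/-- Values of `a ^ d * α` in terms of leading coefficients. -/
theorem exists_gamma {α : κ} (hα : α ≠ 0) {d : ℕ} (hd : 0 < d) {D : Divisor k κ} {v : Place k κ}
    (hD : D v = v.ord α / d) : ∃ γ : k, (γ ≠ 0 ↔ (d : ℤ) ∣ v.ord α) ∧
      ∀ a : κ, v.adicValuation a ≤ exp (D v) → val v (a ^ d * α) = γ * lc D v a ^ d := by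
  have hd' : (0 : ℤ) < d := by exact_mod_cast hd
  have hu0 : unif v (-D v) ≠ 0 := unif_ne_zero v (-D v)
  by_cases hdvd : (d : ℤ) ∣ v.ord α
  · have hm : v.ord α = d * D v := by rw [hD, Int.mul_ediv_cancel' hdvd]
    have h1 : v.adicValuation (α * ((unif v (-D v)) ^ d)⁻¹) = 1 := by
      rw [map_mul, map_inv₀, map_pow, adicValuation_unif, v.adicValuation_eq_exp_neg_ord hα, hm,
        ← exp_nsmul, ← exp_neg, ← exp_add, ← exp_zero, exp_inj]
      simp
    refine ⟨val v (α * ((unif v (-D v)) ^ d)⁻¹), ?_, fun a ha => ?_⟩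
    · refine ⟨fun _ => hdvd, fun _ h0 => ?_⟩
      rw [val_eq_zero_iff h1.le, h1] at h0
      exact lt_irrefl _ h0
    · have h2 : a ^ d * α = (α * ((unif v (-D v)) ^ d)⁻¹) * (unif v (-D v) * a) ^ d := by
        rw [mul_pow]
        field_simp
      have h3 := lc_adic v ha
      rw [h2, val_mul h1.le (by rw [map_pow]; exact pow_le_one₀ zero_le h3), val_pow h3]
      rfl
  · refine ⟨0, by simp [hdvd], fun a ha => ?_⟩
    rw [zero_mul]
    rcases eq_or_ne a 0 with rfl | ha0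
    · rw [zero_pow hd.ne', zero_mul, val_zero]
    have h0 : a ^ d * α ≠ 0 := mul_ne_zero (pow_ne_zero _ ha0) hα
    have h1 : v.ord (a ^ d * α) = d * v.ord a + v.ord α := by
      rw [v.ord_mul (pow_ne_zero _ ha0) hα, ord_pow']
    rw [v.adicValuation_eq_exp_neg_ord ha0, exp_le_exp, hD, Int.le_ediv_iff_mul_le hd'] at ha
    have h2 : 0 < v.ord (a ^ d * α) := by
      rw [h1]
      rcases lt_or_ge 0 ((d : ℤ) * v.ord a + v.ord α) with h | h
      · exact h
      · exfalso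
        apply hdvd
        have : v.ord α = d * (-v.ord a) := by nlinarith
        exact ⟨_, this⟩
    have h3 : v.adicValuation (a ^ d * α) < 1 := by
      rw [v.adicValuation_eq_exp_neg_ord h0, ← exp_zero, exp_lt_exp]
      omega
    exact (val_eq_zero_iff h3.le).mpr h3

end Floor

section Ineq

variable {K F k κ : Type*} [Field K] [Field F] [Algebra K F] [Field k] [Field κ]
    [Algebra k κ] {A : ValuationSubring K} {π : A →+* k} {q : ℕ} (T : TwoComp K F k κ A π q)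
    (hπ : Function.Surjective π)

theorem pow_mul_mem_V {d : ℕ} {E : Divisor K F} {f : F} (hf : f ∈ T.red.O)
    (hord : ∀ v : Place K F, v.ord f = d * E v) {n : ℕ}
    {t : κ × κ} (ht : t ∈ T.VE hπ E n) : t ^ d * T.red.ρ ⟨f, hf⟩ ∈ T.V hπ (d * n) := by
  obtain ⟨x, hxL, rfl⟩ := ht
  refine ⟨x ^ d * ⟨f, hf⟩, ?_, by rw [map_mul, map_pow]⟩
  have h3 : f ∈ riemannRochSpace (-(d • E)) := by
    refine mem_L_of_ord fun v _ => ?_
    rw [hord, Finsupp.neg_apply, Finsupp.smul_apply, nsmul_eq_mul, neg_neg]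
  have h4 := mul_mem_L (pow_mem_L hxL d) h3
  rw [smul_add, T.nsmul_Dv, add_neg_cancel_right] at h4
  exact h4

variable [IsAlgClosed K] [IsFF K F] [IsAlgClosed k] [IsFF k κ]

omit [IsAlgClosed K] [IsFF K F] [IsAlgClosed k] [IsFF k κ] in
theorem exists_large (g g' s : ℕ) (c₁ c₂ : ℤ) : ∃ n : ℕ, g ≤ n ∧
    2 * (g' : ℤ) - 2 < n + c₁ - s ∧ 2 * (g' : ℤ) - 2 < n + c₂ - s := by
  exact ⟨g + 2 * g' + c₁.natAbs + c₂.natAbs + s, by omega, by omega, by omega⟩

/-- The nodes at which one of the slopes is divisible by `d`. -/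
def intNodes (d : ℕ) (α β : κ) : Set (Place k κ) :=
  {v ∈ T.SS hπ | (d : ℤ) ∣ v.ord α ∨ (d : ℤ) ∣ (T.fr • v).ord β}

theorem slope_ineq [IsLocalHom π] {d : ℕ} (hd : 0 < d) {E : Divisor K F} {f : F}
    (hE : Divisor.degree E = 0) (hord : ∀ v : Place K F, v.ord f = d * E v)
    (hf : f ∈ T.red.O) (h1 : (T.red.ρ ⟨f, hf⟩).1 ≠ 0) (h2 : (T.red.ρ ⟨f, hf⟩).2 ≠ 0)
    (S : Finset (Place k κ))
    (hS : ∀ v, v ∈ S ↔ v ∈ intNodes T hπ d (T.red.ρ ⟨f, hf⟩).1 (T.red.ρ ⟨f, hf⟩).2) :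
    (S.card : ℤ) + 2 * genusFF k κ ≤ 1 + genusFF K F +
      Divisor.degree (fl d (divOf (T.red.ρ ⟨f, hf⟩).1) : Divisor k κ) +
      Divisor.degree (fl d (divOf (T.red.ρ ⟨f, hf⟩).2) : Divisor k κ) := by
  classical
  set α := (T.red.ρ ⟨f, hf⟩).1 with hα
  set β := (T.red.ρ ⟨f, hf⟩).2 with hβ
  set c₁ : ℤ := Divisor.degree (fl d (divOf α) : Divisor k κ) with hc₁
  set c₂ : ℤ := Divisor.degree (fl d (divOf β) : Divisor k κ) with hc₂
  obtain ⟨n, hn₀, hn₁, hn₂⟩ := exists_large (genusFF K F) (genusFF k κ) S.card c₁ c₂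
  set D₁ : Divisor k κ := fl d (divOf α) + Finsupp.single T.P (n : ℤ) with hD₁
  set D₂ : Divisor k κ := fl d (divOf β) + Finsupp.single T.P (n : ℤ) with hD₂
  have hdeg₁ : Divisor.degree D₁ = n + c₁ := by
    rw [hD₁, map_add, Divisor.degree_single, deg_eq_one, ← hc₁]; simp [add_comm]
  have hdeg₂ : Divisor.degree D₂ = n + c₂ := by
    rw [hD₂, map_add, Divisor.degree_single, deg_eq_one, ← hc₂]; simp [add_comm]
  have hD₁v : ∀ v, v ≠ T.P → D₁ v = v.ord α / d := by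
    intro v hv
    rw [hD₁, Finsupp.add_apply, fl_apply, divOf_apply h1, Finsupp.single_eq_of_ne hv, add_zero]
  have hD₂v : ∀ v, v ≠ T.P → D₂ v = v.ord β / d := by
    intro v hv
    rw [hD₂, Finsupp.add_apply, fl_apply, divOf_apply h2, Finsupp.single_eq_of_ne hv, add_zero]
  -- elements of `VE`
  have hglue : ∀ t ∈ T.VE hπ E n, (t.1 ^ d * α, t.2 ^ d * β) ∈ T.V hπ (d * n) := fun t ht =>
    pow_mul_mem_V T hπ hf hord ht
  have hmem₁ : ∀ t ∈ T.VE hπ E n, t.1 ∈ riemannRochSpace D₁ := by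
    intro t ht
    have h3 := (T.mem_U.mp (T.V_le_U hπ _ (hglue t ht))).1
    exact mem_L_of_pow h1 hd h3.1 h3.2
  have hmem₂ : ∀ t ∈ T.VE hπ E n, t.2 ∈ riemannRochSpace D₂ := by
    intro t ht
    have h3 := (T.mem_U.mp (T.V_le_U hπ _ (hglue t ht))).2
    exact mem_L_of_pow h2 hd h3.1 h3.2
  have hSS : ∀ v ∈ S, v ∈ T.SS hπ := fun v hv => ((hS v).mp hv).1
  -- the functionals
  have hfun : ∀ v ∈ S, ∃ g g' : k, ¬ (g = 0 ∧ g' = 0) ∧ ∀ t ∈ T.VE hπ E n,
      g * lc D₁ v t.1 = g' * lc D₂ (T.fr • v) t.2 := by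
    intro v hv
    have hvSS := hSS v hv
    have hv' := smul_ne T.fr_P hvSS.1
    obtain ⟨γ, hγ0, hγ⟩ := exists_gamma h1 hd (hD₁v v hvSS.1)
    obtain ⟨γ', hγ'0, hγ'⟩ := exists_gamma h2 hd (hD₂v _ hv')
    obtain ⟨g, hg⟩ := IsAlgClosed.exists_pow_nat_eq γ hd
    obtain ⟨g', hg'⟩ := IsAlgClosed.exists_pow_nat_eq γ' hd
    have hne : ¬ (g = 0 ∧ g' = 0) := by
      rintro ⟨rfl, rfl⟩
      rw [zero_pow hd.ne'] at hg hg'
      rcases ((hS v).mp hv).2 with h | h
      · exact hγ0.mpr h hg.symm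
      · exact hγ'0.mpr h hg'.symm
    obtain ⟨ζ, hζ, hζX⟩ := exists_zeta (T.VE hπ E n) (fun t => g * lc D₁ v t.1)
      (fun t => g' * lc D₂ (T.fr • v) t.2)
      (fun x hx y hy => by
        change g * lc D₁ v (x.1 + y.1) = _
        rw [lc_add v (hmem₁ x hx v) (hmem₁ y hy v), mul_add])
      (fun c x hx => by
        change g * lc D₁ v (c • x.1) = _
        rw [lc_smul v c (hmem₁ x hx v)]; ring)
      (fun x hx y hy => by
        change g' * lc D₂ (T.fr • v) (x.2 + y.2) = _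
        rw [lc_add _ (hmem₂ x hx _) (hmem₂ y hy _), mul_add])
      (fun c x hx => by
        change g' * lc D₂ (T.fr • v) (c • x.2) = _
        rw [lc_smul _ c (hmem₂ x hx _)]; ring)
      hd.ne' (fun x hx => by
        have h4 : val v (x.1 ^ d * α) = val (T.fr • v) (x.2 ^ d * β) :=
          hvSS.2.2 _ ⟨_, hglue x hx⟩
        rw [hγ _ (hmem₁ x hx v), hγ' _ (hmem₂ x hx _)] at h4
        rw [mul_pow, mul_pow, hg, hg', h4])
    have hζ0 : ζ ≠ 0 := by
      rintro rfl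
      rw [zero_pow hd.ne'] at hζ
      exact zero_ne_one hζ
    refine ⟨g, ζ * g', ?_, fun t ht => ?_⟩
    · rintro ⟨h5, h6⟩
      exact hne ⟨h5, (mul_eq_zero.mp h6).resolve_left hζ0⟩
    · rw [hζX t ht, mul_assoc]
  choose! g g' hgne hgg using hfun
  -- the evaluation map
  let ev : (riemannRochSpace D₁ × riemannRochSpace D₂) →ₗ[k] (S → k) :=
    { toFun := fun t v => g v * lc D₁ v t.1.1 - g' v * lc D₂ (T.fr • (v : Place k κ)) t.2.1
      map_add' := by
        rintro ⟨⟨a, ha⟩, ⟨b, hb⟩⟩ ⟨⟨a', ha'⟩, ⟨b', hb'⟩⟩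
        funext v
        change g v * lc D₁ v (a + a') - g' v * lc D₂ (T.fr • (v : Place k κ)) (b + b') =
          (g v * lc D₁ v a - g' v * lc D₂ (T.fr • (v : Place k κ)) b) +
          (g v * lc D₁ v a' - g' v * lc D₂ (T.fr • (v : Place k κ)) b')
        rw [lc_add _ (ha _) (ha' _), lc_add _ (hb _) (hb' _)]
        ring
      map_smul' := by
        rintro c ⟨⟨a, ha⟩, ⟨b, hb⟩⟩
        funext v
        change g v * lc D₁ v (c • a) - g' v * lc D₂ (T.fr • (v : Place k κ)) (c • b) =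
          c * (g v * lc D₁ v a - g' v * lc D₂ (T.fr • (v : Place k κ)) b)
        rw [lc_smul _ _ (ha _), lc_smul _ _ (hb _)]
        ring }
  have hsurj : LinearMap.range ev = ⊤ := by
    rw [LinearMap.range_eq_top]
    intro c
    obtain ⟨a, ha, hav⟩ := lc_surj D₁ S (by rw [hdeg₁]; exact hn₁)
      (fun v => if g v = 0 then 0 else (if h : v ∈ S then c ⟨v, h⟩ else 0) / g v)
    obtain ⟨b, hb, hbv⟩ := lc_surj D₂ (S.image fun v => T.fr • v)
      (by
        rw [hdeg₂]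
        have := Finset.card_image_le (s := S) (f := fun v => T.fr • v)
        omega)
      (fun w => if g (T.fr⁻¹ • w) = 0 then
        -(if h : (T.fr⁻¹ • w) ∈ S then c ⟨_, h⟩ else 0) / g' (T.fr⁻¹ • w) else 0)
    refine ⟨(⟨a, ha⟩, ⟨b, hb⟩), ?_⟩
    funext v
    change g v * lc D₁ v a - g' v * lc D₂ (T.fr • (v : Place k κ)) b = c v
    rw [hav v v.2, hbv _ (Finset.mem_image_of_mem _ v.2)]
    simp only [inv_smul_smul]
    have h5 := hgne v v.2
    by_cases hg0 : g v = 0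
    · have hg'0 : g' v ≠ 0 := fun h => h5 ⟨hg0, h⟩
      rw [if_pos hg0, if_pos hg0, dif_pos v.2, mul_zero, zero_sub]
      field_simp
    · rw [if_neg hg0, if_neg hg0, dif_pos v.2, mul_zero, sub_zero]
      field_simp
  -- the inclusion of `VE`
  let inc : T.VE hπ E n →ₗ[k] LinearMap.ker ev :=
    { toFun := fun t => ⟨(⟨t.1.1, hmem₁ _ t.2⟩, ⟨t.1.2, hmem₂ _ t.2⟩), by
        rw [LinearMap.mem_ker]
        funext v
        change g v * lc D₁ v t.1.1 - g' v * lc D₂ (T.fr • (v : Place k κ)) t.1.2 = 0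
        rw [hgg v v.2 _ t.2, sub_self]⟩
      map_add' := fun _ _ => rfl
      map_smul' := fun _ _ => rfl }
  have hinc : Function.Injective inc := by
    rintro ⟨⟨a, b⟩, h⟩ ⟨⟨a', b'⟩, h'⟩ heq
    have h3 : a = a' := congrArg (fun x => (x.1.1.1 : κ)) heq
    have h4 : b = b' := congrArg (fun x => (x.1.2.1 : κ)) heq
    subst h3; subst h4; rfl
  have h3 := LinearMap.finrank_le_finrank_of_injective hinc
  have h4 := LinearMap.finrank_range_add_finrank_ker ev
  rw [hsurj, finrank_top, Module.finrank_fintype_fun_eq_card, Fintype.card_coe,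
    Module.finrank_prod] at h4
  have h5 := T.finrank_VE hπ hE hn₀
  have h6 := ell_of_degree_gt (D := D₁) (by rw [hdeg₁]; omega)
  have h7 := ell_of_degree_gt (D := D₂) (by rw [hdeg₂]; omega)
  rw [ell] at h6 h7
  omega

end Ineq

end Fermat.Agent.H86.Slope
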