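import Fermat.Agent.H86Slope2

/-!
# Slopes of Kummer functions at the nodes, part 3: the slope theorem
-/

set_option autoImplicit false

open AlgebraicCurve WithZero Fermat.Agent.H3RR Module Fermat.Agent.H89SS

namespace Fermat.Agent.H86.Slope

theorem ediv_add_neg_ediv {d : ℕ} (hd : 0 < d) (a : ℤ) :
    a / (d : ℤ) + (-a) / (d : ℤ) = if (d : ℤ) ∣ a then 0 else -1 := by
  have hd' : (0 : ℤ) < d := by exact_mod_cast hd
  split_ifs with h
  · rw [Int.neg_ediv_of_dvd h]; ring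
  · have h1 := Int.emod_add_mul_ediv a d
    have h2 := Int.emod_nonneg a hd'.ne'
    have h3 := Int.emod_lt_of_pos a hd'
    have h4 : a % d ≠ 0 := fun h0 => h (Int.dvd_of_emod_eq_zero h0)
    have h5 : (-a) / (d : ℤ) = -(a / d) - 1 := by
      apply le_antisymm
      · have h6 : (-a) / (d : ℤ) < -(a / d) := by
          rw [Int.ediv_lt_iff_lt_mul hd']
          have : 0 < a % d := lt_of_le_of_ne h2 (Ne.symm h4)
          nlinarith
        omega
      · rw [Int.le_ediv_iff_mul_le hd']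
        nlinarith
    rw [h5]; ring

section Floor

variable {k κ : Type*} [Field k] [Field κ] [Algebra k κ] [IsAlgClosed k] [IsFF k κ]

theorem degree_fl_add {d : ℕ} (hd : 0 < d) (D : Divisor k κ) :
    Divisor.degree (fl d D) + Divisor.degree (fl d (-D)) =
      -((D.support.filter fun v => ¬ (d : ℤ) ∣ D v).card : ℤ) := by
  classical
  have h1 : Divisor.degree (fl d D + fl d (-D)) =
      ∑ v ∈ D.support, (fl d D + fl d (-D)) v := by
    rw [degree_eq_sum]
    refine Finset.sum_subset ?_ ?_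
    · intro v hv
      rw [Finsupp.mem_support_iff] at hv ⊢
      intro h0
      apply hv
      rw [Finsupp.add_apply, fl_apply, fl_apply, Finsupp.neg_apply, h0]
      simp
    · intro v _ hv
      rwa [Finsupp.notMem_support_iff] at hv
  rw [← map_add, h1, Finset.card_filter]
  push_cast
  rw [← Finset.sum_neg_distrib]
  refine Finset.sum_congr rfl fun v _ => ?_
  change fl d D v + fl d (-D) v = _
  rw [fl_apply, fl_apply, Finsupp.neg_apply, ediv_add_neg_ediv hd]
  by_cases h : (d : ℤ) ∣ D v <;> simp [h]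

theorem divOf_inv' {α : κ} (hα : α ≠ 0) : (divOf α⁻¹ : Divisor k κ) = -divOf α := by
  ext v
  rw [divOf_apply (inv_ne_zero hα), Finsupp.neg_apply, divOf_apply hα, v.ord_inv]

end Floor

variable {K F k κ : Type*} [Field K] [Field F] [Algebra K F] [Field k] [Field κ]
    [Algebra k κ] {A : ValuationSubring K} {π : A →+* k} {q : ℕ} (T : TwoComp K F k κ A π q)
    (hπ : Function.Surjective π)

variable [IsAlgClosed k] [IsFF k κ]

theorem finrank_U (n : ℕ) (hn : 2 * (genusFF k κ : ℤ) - 2 < n) :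
    (finrank k (T.U n) : ℤ) = 2 * (n + 1 - genusFF k κ) := by
  set L : Submodule k κ := riemannRochSpace (Finsupp.single T.P (n : ℤ) : Divisor k κ) with hL
  have h1 : Divisor.degree (Finsupp.single T.P (n : ℤ) : Divisor k κ) = n := by
    rw [Divisor.degree_single, deg_eq_one]; simp
  have h2 := ell_of_degree_gt (D := (Finsupp.single T.P (n : ℤ) : Divisor k κ))
    (by rw [h1]; exact hn)
  rw [ell, h1, ← hL] at h2
  have e : T.U n ≃ₗ[k] (L × L) :=
    { toFun := fun t => (⟨t.1.1, t.2.1⟩, ⟨t.1.2, t.2.2⟩)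
      invFun := fun t => ⟨(t.1.1, t.2.1), ⟨t.1.2, t.2.2⟩⟩
      left_inv := fun t => rfl
      right_inv := fun t => rfl
      map_add' := fun _ _ => rfl
      map_smul' := fun _ _ => rfl }
  rw [e.finrank_eq, Module.finrank_prod]
  push_cast
  rw [h2]
  ring

variable [IsAlgClosed K] [IsFF K F]

/-- The number of nodes. -/
theorem card_SS [IsLocalHom π] (hq : 2 ≤ q) :
    ((T.finite_SS hπ hq).toFinset.card : ℤ) + 2 * genusFF k κ = 1 + genusFF K F := by
  obtain ⟨N, hN⟩ := T.exists_level hπ hq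
  obtain ⟨n₂, h₂⟩ := T.finrank_Uz hπ hq
  set n := max (max N n₂) (2 * genusFF k κ) with hn
  have hn1 : N ≤ n := (le_max_left _ _).trans (le_max_left _ _)
  have hn2 : n₂ ≤ n := (le_max_right _ _).trans (le_max_left _ _)
  have hn3 : 2 * genusFF k κ ≤ n := le_max_right _ _
  have hV : T.V hπ n = T.Uz hπ (fun _ => 1) n := by
    apply le_antisymm
    · intro t ht
      refine ⟨T.V_le_U hπ n ht, fun v hv => ?_⟩
      rw [one_mul]
      exact hv.2.2 t ⟨n, ht⟩
    · rintro t ⟨ht, htv⟩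
      refine (hN.2 n hn1).2.2 t ?_ ht
      rw [T.mem_glueRing_iff hπ hq]
      have h3 := T.mem_U.mp ht
      refine ⟨h3.1.1, h3.2.1, fun v hv => ?_⟩
      rw [htv v hv, one_mul]
  have h4 := h₂ n hn2 (fun _ => 1)
  rw [← hV] at h4
  have h5 := T.finrank_V hπ (hN.1.trans hn1)
  have h6 := finrank_U T n (by omega)
  omega

/-- **The slope theorem.** -/
theorem slopes [IsLocalHom π] (hq : 2 ≤ q) {d : ℕ} (hd : 0 < d) {E : Divisor K F} {f : F}
    (hE : Divisor.degree E = 0) (hord : ∀ v : Place K F, v.ord f = d * E v)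
    (hf : f ∈ T.red.O) (h1 : (T.red.ρ ⟨f, hf⟩).1 ≠ 0) (h2 : (T.red.ρ ⟨f, hf⟩).2 ≠ 0) :
    (∀ v, v ∉ T.SS hπ → (d : ℤ) ∣ v.ord (T.red.ρ ⟨f, hf⟩).1) ∧
    (∀ v ∈ T.SS hπ, ((d : ℤ) ∣ v.ord (T.red.ρ ⟨f, hf⟩).1 ↔
      (d : ℤ) ∣ (T.fr • v).ord (T.red.ρ ⟨f, hf⟩).2)) ∧
    (∀ w, (∀ v ∈ T.SS hπ, w ≠ T.fr • v) → (d : ℤ) ∣ w.ord (T.red.ρ ⟨f, hf⟩).2) := by
  classical
  set α := (T.red.ρ ⟨f, hf⟩).1 with hα
  set β := (T.red.ρ ⟨f, hf⟩).2 with hβ
  have hf0 : f ≠ 0 := by
    rintro rfl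
    apply h1
    have h3 : (⟨0, hf⟩ : T.red.O) = 0 := rfl
    rw [hα, h3, map_zero]
    rfl
  -- the inverse
  obtain ⟨h5, h6⟩ := TwoComp.mem_V₁_of_ρ (T := T) hf.1 h1
  obtain ⟨h7, h8⟩ := TwoComp.mem_V₂_of_ρ (T := T) hf.2 h2
  have hf' : f⁻¹ ∈ T.red.O := ⟨h5, h7⟩
  have hα' : (T.red.ρ ⟨f⁻¹, hf'⟩).1 = α⁻¹ := h6
  have hβ' : (T.red.ρ ⟨f⁻¹, hf'⟩).2 = β⁻¹ := h8
  -- finite sets
  set SSf := (T.finite_SS hπ hq).toFinset with hSSf
  have hSSm : ∀ v, v ∈ SSf ↔ v ∈ T.SS hπ := fun v => Set.Finite.mem_toFinset _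
  set S := SSf.filter (fun v => (d : ℤ) ∣ v.ord α ∨ (d : ℤ) ∣ (T.fr • v).ord β) with hS
  set B := SSf.filter (fun v => ¬ ((d : ℤ) ∣ v.ord α ∨ (d : ℤ) ∣ (T.fr • v).ord β)) with hB
  have hSm : ∀ v, v ∈ S ↔ v ∈ intNodes T hπ d α β := by
    intro v
    rw [hS, Finset.mem_filter, hSSm]
    rfl
  have hcard : S.card + B.card = SSf.card := Finset.card_filter_add_card_filter_not _
  have i1 := slope_ineq T hπ hd hE hord hf h1 h2 S hSm
  have i2 := slope_ineq T hπ hd (E := -E) (f := f⁻¹) (by rw [map_neg, hE, neg_zero])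
    (fun v => by rw [v.ord_inv, hord, Finsupp.neg_apply]; ring) hf'
    (by rw [hα']; exact inv_ne_zero h1) (by rw [hβ']; exact inv_ne_zero h2) S
    (by
      intro v
      rw [hSm, hα', hβ']
      simp only [intNodes, Set.mem_setOf_eq, Place.ord_inv, dvd_neg])
  rw [hα', hβ', divOf_inv' h1, divOf_inv' h2] at i2
  rw [← hα, ← hβ] at i1
  have i3 := degree_fl_add hd (divOf α : Divisor k κ)
  have i4 := degree_fl_add hd (divOf β : Divisor k κ)
  set N₁ := ((divOf α : Divisor k κ).support.filter fun v => ¬ (d : ℤ) ∣ (divOf α : Divisor k κ) v)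
    with hN₁
  set N₂ := ((divOf β : Divisor k κ).support.filter fun v => ¬ (d : ℤ) ∣ (divOf β : Divisor k κ) v)
    with hN₂
  have i5 := card_SS T hπ hq
  rw [← hSSf] at i5
  have hN₁m : ∀ v, v ∈ N₁ ↔ ¬ (d : ℤ) ∣ v.ord α := by
    intro v
    rw [hN₁, Finset.mem_filter, Finsupp.mem_support_iff, divOf_apply h1]
    constructor
    · exact fun h => h.2
    · exact fun h => ⟨fun h0 => h (h0 ▸ dvd_zero _), h⟩
  have hN₂m : ∀ v, v ∈ N₂ ↔ ¬ (d : ℤ) ∣ v.ord β := by
    intro v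
    rw [hN₂, Finset.mem_filter, Finsupp.mem_support_iff, divOf_apply h2]
    constructor
    · exact fun h => h.2
    · exact fun h => ⟨fun h0 => h (h0 ▸ dvd_zero _), h⟩
  have hB₁ : B ⊆ N₁ := by
    intro v hv
    rw [hB, Finset.mem_filter, not_or] at hv
    rw [hN₁m]
    exact hv.2.1
  have hB₂ : B.image (fun v => T.fr • v) ⊆ N₂ := by
    intro w hw
    obtain ⟨v, hv, rfl⟩ := Finset.mem_image.mp hw
    rw [hB, Finset.mem_filter, not_or] at hv
    rw [hN₂m]
    exact hv.2.2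
  have hBc : (B.image (fun v => T.fr • v)).card = B.card :=
    Finset.card_image_of_injective _ (MulAction.injective T.fr)
  have c1 := Finset.card_le_card hB₁
  have c2 := Finset.card_le_card hB₂
  have e1 : B = N₁ := Finset.eq_of_subset_of_card_le hB₁ (by omega)
  have e2 : B.image (fun v => T.fr • v) = N₂ := Finset.eq_of_subset_of_card_le hB₂ (by omega)
  have hBm : ∀ v, v ∈ B ↔ v ∈ T.SS hπ ∧ ¬ (d : ℤ) ∣ v.ord α ∧ ¬ (d : ℤ) ∣ (T.fr • v).ord β := by
    intro v
    rw [hB, Finset.mem_filter, hSSm, not_or]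
  refine ⟨fun v hv => ?_, fun v hv => ?_, fun w hw => ?_⟩
  · by_contra hcon
    rw [← hN₁m, ← e1, hBm] at hcon
    exact hv hcon.1
  · constructor
    · intro h3
      by_contra hcon
      rw [← hN₂m, ← e2] at hcon
      obtain ⟨v', hv', h9⟩ := Finset.mem_image.mp hcon
      have h10 : v' = v := smul_left_cancel _ h9
      rw [h10, hBm] at hv'
      exact hv'.2.1 h3
    · intro h3
      by_contra hcon
      rw [← hN₁m, ← e1, hBm] at hcon
      exact hcon.2.2 h3
  · by_contra hcon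
    rw [← hN₂m, ← e2] at hcon
    obtain ⟨v', hv', h9⟩ := Finset.mem_image.mp hcon
    rw [hBm] at hv'
    exact hw v' hv'.1 h9.symm

end Fermat.Agent.H86.Slope
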