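/-
H87Sch1: local rings of an integral scheme inside its function field, points with values in
local rings (project S26, job J3).
-/
import Mathlib

set_option autoImplicit false

noncomputable section

open CategoryTheory CategoryTheory.Limits AlgebraicGeometry IsLocalRing

namespace Fermat.Agent.H87Sch

universe u

variable {K : Type u} [Field K] {A : Scheme.{u}} (f : A ⟶ Spec (CommRingCat.of K))

/-- structure map of the stalk -/
def kStalk (x : A) : CommRingCat.of K ⟶ A.presheaf.stalk x :=
  Spec.preimage (A.fromSpecStalk x ≫ f)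

@[simp] theorem specMap_kStalk (x : A) : Spec.map (kStalk f x) = A.fromSpecStalk x ≫ f :=
  Spec.map_preimage _

theorem kStalk_specializes {x y : A} (h : x ⤳ y) :
    kStalk f y ≫ A.presheaf.stalkSpecializes h = kStalk f x := by
  apply Spec.map_injective
  rw [Spec.map_comp, specMap_kStalk, specMap_kStalk,
    Scheme.SpecMap_stalkSpecializes_fromSpecStalk_assoc]

variable [IsIntegral A]

/-- the map from a stalk to the function field -/
def toFF (x : A) : A.presheaf.stalk x ⟶ A.functionField :=
  A.presheaf.stalkSpecializes ((genericPoint_spec A).specializes trivial)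

theorem toFF_injective (x : A) : Function.Injective (toFF x).hom :=
  IsFractionRing.injective (A.presheaf.stalk x) A.functionField

/-- the function field -/
def FF (_f : A ⟶ Spec (CommRingCat.of K)) : Type u := A.functionField

instance : Field (FF f) := inferInstanceAs (Field A.functionField)

/-- the `K`-algebra structure of the function field -/
instance : Algebra K (FF f) :=
  letI : CommRing (FF f) := inferInstanceAs (CommRing A.functionField)
  RingHom.toAlgebra (S := FF f) (kStalk f (genericPoint A)).hom

theorem algebraMap_FF (c : K) : algebraMap K (FF f) c = (kStalk f (genericPoint A)).hom c := rfl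

theorem kStalk_toFF (x : A) : kStalk f x ≫ toFF x = kStalk f (genericPoint A) :=
  kStalk_specializes f _

theorem specializes_toFF {x y : A} (h : x ⤳ y) :
    A.presheaf.stalkSpecializes h ≫ toFF x = toFF y := by
  rw [toFF, toFF, TopCat.Presheaf.stalkSpecializes_comp]

theorem specMap_toFF (x : A) :
    Spec.map (toFF x) ≫ A.fromSpecStalk x = A.fromSpecStalk (genericPoint A) :=
  Scheme.SpecMap_stalkSpecializes_fromSpecStalk _

/-- the map from the stalk to the function field as a ring homomorphism to `FF f` -/
def toF (x : A) : A.presheaf.stalk x →+* FF f := (toFF x).hom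

theorem toF_injective (x : A) : Function.Injective (toF f x) := toFF_injective x

theorem toF_kStalk (x : A) (c : K) : toF f x ((kStalk f x).hom c) = algebraMap K (FF f) c :=
  congrArg (fun φ => φ.hom c) (kStalk_toFF f x)

/-- the local ring of the point `x` as a subalgebra of the function field -/
def lr (x : A) : Subalgebra K (FF f) where
  carrier := Set.range (toF f x)
  mul_mem' := by
    rintro _ _ ⟨a, rfl⟩ ⟨b, rfl⟩
    exact ⟨a * b, map_mul _ _ _⟩
  add_mem' := by
    rintro _ _ ⟨a, rfl⟩ ⟨b, rfl⟩
    exact ⟨a + b, map_add _ _ _⟩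
  algebraMap_mem' c := ⟨(kStalk f x).hom c, toF_kStalk f x c⟩

theorem mem_lr {x : A} {w : FF f} : w ∈ lr f x ↔ ∃ a, toF f x a = w := Iff.rfl

/-- the stalk is isomorphic to the local ring inside the function field -/
def stalkEquiv (x : A) : A.presheaf.stalk x ≃+* lr f x :=
  RingEquiv.ofBijective
    ({ toFun := fun a => ⟨toF f x a, a, rfl⟩
       map_one' := Subtype.ext (map_one _)
       map_mul' := fun a b => Subtype.ext (map_mul _ _ _)
       map_zero' := Subtype.ext (map_zero _)
       map_add' := fun a b => Subtype.ext (map_add _ _ _) } : A.presheaf.stalk x →+* lr f x)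
    ⟨fun a b h => toF_injective f x (congrArg Subtype.val h), by
      rintro ⟨_, a, rfl⟩; exact ⟨a, rfl⟩⟩

@[simp] theorem coe_stalkEquiv (x : A) (a : A.presheaf.stalk x) :
    (stalkEquiv f x a : FF f) = toF f x a := rfl

@[simp] theorem toF_stalkEquiv_symm (x : A) (w : lr f x) :
    toF f x ((stalkEquiv f x).symm w) = w := by
  conv_rhs => rw [← (stalkEquiv f x).apply_symm_apply w]
  rfl

instance (x : A) : IsLocalRing (lr f x) := (stalkEquiv f x).isLocalRing

/-- the isomorphism as a morphism of `CommRingCat` -/
def sE (x : A) : A.presheaf.stalk x ⟶ CommRingCat.of (lr f x) :=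
  CommRingCat.ofHom (stalkEquiv f x).toRingHom

theorem sE_apply (x : A) (a : A.presheaf.stalk x) : (sE f x).hom a = stalkEquiv f x a := rfl

/-- the tautological point -/
def T (x : A) : Spec (CommRingCat.of (lr f x)) ⟶ A :=
  Spec.map (sE f x) ≫ A.fromSpecStalk x

instance isIso_sE (x : A) : IsIso (sE f x) :=
  inferInstanceAs (IsIso (stalkEquiv f x).toCommRingCatIso.hom)

instance mono_T (x : A) : Mono (T f x) := by
  unfold T; infer_instance

theorem ofHom_stalkEquiv_val (x : A) :
    sE f x ≫ CommRingCat.ofHom (lr f x).val.toRingHom = toFF x := rfl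

/-- the generic point -/
def etaHom : Spec (CommRingCat.of (FF f)) ⟶ A := A.fromSpecStalk (genericPoint A)

theorem specMap_val_T (x : A) :
    Spec.map (CommRingCat.ofHom (lr f x).val.toRingHom) ≫ T f x = etaHom f := by
  rw [T, ← Spec.map_comp_assoc, ofHom_stalkEquiv_val]
  exact specMap_toFF x

theorem etaHom_comp : etaHom f ≫ f = Spec.map (CommRingCat.ofHom (algebraMap K (FF f))) :=
  (specMap_kStalk f (genericPoint A)).symm

theorem T_comp (x : A) :
    T f x ≫ f = Spec.map (CommRingCat.ofHom (algebraMap K (lr f x))) := by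
  rw [T, Category.assoc, ← specMap_kStalk, ← Spec.map_comp]
  congr 1
  ext c
  exact toF_kStalk f x c

/-- the closed point of the spectrum of a local ring -/
abbrev cp (R : Type u) [CommRing R] [IsLocalRing R] : Spec (CommRingCat.of R) := closedPoint R

theorem T_closedPoint (x : A) : T f x (cp (lr f x)) = x := by
  have h : Spec.map (sE f x)
      (cp (lr f x)) = closedPoint (A.presheaf.stalk x) := by
    have : IsLocalHom (sE f x).hom :=
      ⟨fun a ha => by
        have := ha.map (stalkEquiv f x).symm
        rwa [sE_apply, RingEquiv.symm_apply_apply] at this⟩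
    exact Spec_closedPoint
  rw [T, Scheme.Hom.comp_apply, h, Scheme.fromSpecStalk_closedPoint]

/-! ### points with values in local rings -/

section points

variable {R : Type u} [CommRing R] [IsLocalRing R]

/-- evaluation of functions at a point -/
def evR (P : Spec (CommRingCat.of R) ⟶ A) : lr f (P (cp R)) →+* R :=
  (Scheme.stalkClosedPointTo P).hom.comp (stalkEquiv f (P (cp R))).symm.toRingHom

theorem specMap_evR_T (P : Spec (CommRingCat.of R) ⟶ A) :
    Spec.map (CommRingCat.ofHom (evR f P)) ≫ T f (P (cp R)) = P := by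
  rw [T, ← Spec.map_comp_assoc]
  have : sE f (P (cp R)) ≫
      CommRingCat.ofHom (evR f P) = Scheme.stalkClosedPointTo P := by
    ext a
    show (Scheme.stalkClosedPointTo P).hom ((stalkEquiv f _).symm (stalkEquiv f _ a)) = _
    rw [RingEquiv.symm_apply_apply]
  rw [this]
  exact Scheme.Spec_stalkClosedPointTo_fromSpecStalk P

instance isLocalHom_evR (P : Spec (CommRingCat.of R) ⟶ A) : IsLocalHom (evR f P) := by
  have h1 := Scheme.isLocalHom_stalkClosedPointTo' (R := R) P
  have h2 : IsLocalHom (stalkEquiv f (P (cp R))).symm.toRingHom :=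
    ⟨fun a ha => by
      have := ha.map (stalkEquiv f (P (cp R)))
      simpa using this⟩
  exact RingHom.isLocalHom_comp _ _

/-- evaluation is a map of `K`-algebras -/
theorem evR_algebraMap [Algebra K R] (P : Spec (CommRingCat.of R) ⟶ A)
    (hP : P ≫ f = Spec.map (CommRingCat.ofHom (algebraMap K R))) (c : K) :
    evR f P (algebraMap K (lr f (P (cp R))) c) = algebraMap K R c := by
  have h : CommRingCat.ofHom (algebraMap K (lr f (P (cp R)))) ≫ CommRingCat.ofHom (evR f P) =
      CommRingCat.ofHom (algebraMap K R) := by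
    apply Spec.map_injective
    rw [Spec.map_comp, ← T_comp, ← Category.assoc, specMap_evR_T, hP]
  exact congrArg (fun φ => φ.hom c) h

end points

/-! ### specialisation -/

theorem lr_mono {x y : A} (h : y ⤳ x) : lr f x ≤ lr f y := by
  rintro _ ⟨a, rfl⟩
  refine ⟨(A.presheaf.stalkSpecializes h).hom a, ?_⟩
  exact congrArg (fun φ => φ.hom a) (specializes_toFF h)

theorem toF_specializes {x y : A} (h : y ⤳ x) (a : A.presheaf.stalk x) :
    toF f y ((A.presheaf.stalkSpecializes h).hom a) = toF f x a :=
  congrArg (fun φ => φ.hom a) (specializes_toFF h)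

theorem specMap_inclusion_T {x y : A} (h : y ⤳ x) :
    Spec.map (CommRingCat.ofHom (Subalgebra.inclusion (lr_mono f h)).toRingHom) ≫ T f x =
      T f y := by
  have h1 : sE f x ≫ CommRingCat.ofHom (Subalgebra.inclusion (lr_mono f h)).toRingHom =
      A.presheaf.stalkSpecializes h ≫ sE f y := by
    ext a
    exact (toF_specializes f h a).symm
  rw [T, T, ← Spec.map_comp_assoc, h1, Spec.map_comp, Category.assoc,
    Scheme.SpecMap_stalkSpecializes_fromSpecStalk]

section comp

variable {R S : Type u} [CommRing R] [IsLocalRing R] [CommRing S] [IsLocalRing S]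
  (ι : R →+* S) (P : Spec (CommRingCat.of R) ⟶ A)

omit [IsIntegral A] in
theorem specializes_comp :
    (Spec.map (CommRingCat.ofHom ι) ≫ P) (cp S) ⤳ P (cp R) := by
  rw [Scheme.Hom.comp_apply]
  exact (IsLocalRing.specializes_closedPoint (R := R)
    (Spec.map (CommRingCat.ofHom ι) (cp S))).map P.continuous

theorem evR_comp (a : lr f (P (cp R))) :
    evR f (Spec.map (CommRingCat.ofHom ι) ≫ P)
      (Subalgebra.inclusion (lr_mono f (specializes_comp ι P)) a) = ι (evR f P a) := by
  have h : CommRingCat.ofHom (Subalgebra.inclusion (lr_mono f (specializes_comp ι P))).toRingHom ≫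
      CommRingCat.ofHom (evR f (Spec.map (CommRingCat.ofHom ι) ≫ P)) =
      CommRingCat.ofHom (evR f P) ≫ CommRingCat.ofHom ι := by
    apply Spec.map_injective
    rw [← cancel_mono (T f (P (cp R))), Spec.map_comp, Spec.map_comp, Category.assoc,
      specMap_inclusion_T f (specializes_comp ι P), specMap_evR_T, Category.assoc, specMap_evR_T]
  exact congrArg (fun φ => φ.hom a) h

theorem exists_mul_eq {x y : A} (h : y ⤳ x) {w : FF f} (hw : w ∈ lr f y) :
    ∃ (a b : lr f x), IsUnit (Subalgebra.inclusion (lr_mono f h) b) ∧ w * b = a := by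
  obtain ⟨_, ⟨U, hU, rfl⟩, hxU, -⟩ :=
    A.isBasis_affineOpens.exists_subset_of_mem_open (Set.mem_univ x) isOpen_univ
  have hyU : y ∈ U := h.mem_open U.2 hxU
  obtain ⟨c, rfl⟩ := hw
  let _ : Algebra Γ(A, U) (A.presheaf.stalk y) := (A.presheaf.germ U y hyU).hom.toAlgebra
  have hloc := hU.isLocalization_stalk ⟨y, hyU⟩
  obtain ⟨⟨s, t⟩, hst⟩ := IsLocalization.surj (hU.primeIdealOf ⟨y, hyU⟩).asIdeal.primeCompl c
  have hgerm : ∀ r : Γ(A, U), toF f y ((A.presheaf.germ U y hyU).hom r) =
      toF f x ((A.presheaf.germ U x hxU).hom r) := by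
    intro r
    rw [← toF_specializes f h]
    congr 1
    exact (congrArg (fun φ => φ.hom r) (A.presheaf.germ_stalkSpecializes hxU h)).symm
  refine ⟨stalkEquiv f x ((A.presheaf.germ U x hxU).hom s),
    stalkEquiv f x ((A.presheaf.germ U x hxU).hom t), ?_, ?_⟩
  · have h1 : IsUnit ((A.presheaf.germ U y hyU).hom (t : Γ(A, U))) :=
      IsLocalization.map_units (A.presheaf.stalk y) t
    have h2 := h1.map (stalkEquiv f y)
    convert h2 using 1
    apply Subtype.ext
    exact (hgerm t).symm
  · have h1 := congrArg (toF f y) hst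
    rw [map_mul] at h1
    show toF f y c * toF f x ((A.presheaf.germ U x hxU).hom t) =
      toF f x ((A.presheaf.germ U x hxU).hom s)
    rw [← hgerm, ← hgerm]
    exact h1

theorem mem_lr_comp (w : FF f) :
    w ∈ lr f ((Spec.map (CommRingCat.ofHom ι) ≫ P) (cp S)) ↔
      ∃ a b : lr f (P (cp R)), IsUnit (ι (evR f P b)) ∧ w * b = a := by
  constructor
  · intro hw
    obtain ⟨a, b, hb, e⟩ := exists_mul_eq f (specializes_comp ι P) hw
    refine ⟨a, b, ?_, e⟩
    rw [← evR_comp]
    exact hb.map (evR f (Spec.map (CommRingCat.ofHom ι) ≫ P))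
  · rintro ⟨a, b, hb, e⟩
    rw [← evR_comp] at hb
    have hb' : IsUnit (Subalgebra.inclusion (lr_mono f (specializes_comp ι P)) b) :=
      isUnit_of_map_unit _ _ hb
    obtain ⟨⟨u, v, huv, hvu⟩, hu⟩ := hb'
    have hu' : u = Subalgebra.inclusion (lr_mono f (specializes_comp ι P)) b := hu
    have h1 : (b : FF f) * v = 1 := by
      rw [hu'] at huv
      exact congrArg Subtype.val huv
    have h2 : w = a * v := by rw [← e, mul_assoc, h1, mul_one]
    rw [h2]
    exact mul_mem (lr_mono f (specializes_comp ι P) a.2) v.2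

end comp

end Fermat.Agent.H87Sch
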