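/-
H87Sch3: affine charts of an integral scheme inside its function field (project S26, job J3/J4).
-/
import Mathlib
import Fermat.Agent.H87Sch1

set_option autoImplicit false

noncomputable section

open CategoryTheory CategoryTheory.Limits AlgebraicGeometry IsLocalRing

namespace Fermat.Agent.H87Sch

universe u

variable {K : Type u} [Field K] {A : Scheme.{u}} (f : A ⟶ Spec (CommRingCat.of K))

theorem le_pre (U : A.Opens) : U ≤ f ⁻¹ᵁ (⊤ : (Spec (CommRingCat.of K)).Opens) := le_top

/-- structure map of sections -/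
def kSec (U : A.Opens) : CommRingCat.of K ⟶ Γ(A, U) :=
  (Scheme.ΓSpecIso (CommRingCat.of K)).inv ≫ f.appLE ⊤ U (le_pre f U)

theorem kSec_res {U V : A.Opens} (h : U ≤ V) :
    kSec f V ≫ A.presheaf.map (homOfLE h).op = kSec f U := by
  rw [kSec, kSec, Category.assoc, Scheme.Hom.appLE_map]

theorem kSec_top : kSec f ⊤ = (Scheme.ΓSpecIso (CommRingCat.of K)).inv ≫ f.appTop := by
  rw [kSec]
  congr 1
  exact Scheme.Hom.appLE_eq_app f (U := ⊤)

theorem kSec_top_germ (x : A) : kSec f ⊤ ≫ A.presheaf.germ ⊤ x trivial = kStalk f x := by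
  apply Spec.map_injective
  rw [specMap_kStalk, Spec.map_comp, ← Scheme.fromSpecStalk_toSpecΓ, kSec_top, Spec.map_comp,
    Category.assoc, ← Scheme.toSpecΓ_naturality_assoc, toSpecΓ_SpecMap_ΓSpecIso_inv,
    Category.comp_id]

theorem kSec_germ (U : A.Opens) (x : A) (hx : x ∈ U) :
    kSec f U ≫ A.presheaf.germ U x hx = kStalk f x := by
  rw [← kSec_top_germ, ← kSec_res f (le_top : U ≤ ⊤), Category.assoc]
  congr 1
  exact A.presheaf.germ_res _ _ _

theorem kSec_finiteType [LocallyOfFiniteType f] {U : A.Opens} (hU : IsAffineOpen U) :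
    (kSec f U).hom.FiniteType := by
  have h1 := f.finiteType_appLE (isAffineOpen_top _) hU (le_pre f U)
  rw [kSec, CommRingCat.hom_comp]
  refine h1.comp (RingHom.FiniteType.of_surjective _ ?_)
  exact (Scheme.ΓSpecIso (CommRingCat.of K)).symm.commRingCatIsoToRingEquiv.surjective

variable [IsIntegral A]

theorem mem_of_nonempty (U : A.Opens) {x : A} (hx : x ∈ U) : genericPoint A ∈ U :=
  ((genericPoint_spec A).specializes trivial : genericPoint A ⤳ x).mem_open U.2 hx

/-- sections as rational functions -/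
def secHom (U : A.Opens) {x : A} (hx : x ∈ U) : Γ(A, U) →+* FF f :=
  (A.presheaf.germ U (genericPoint A) (mem_of_nonempty U hx)).hom

theorem secHom_eq (U : A.Opens) {x y : A} (hx : x ∈ U) (hy : y ∈ U) (s : Γ(A, U)) :
    secHom f U hx s = toF f y ((A.presheaf.germ U y hy).hom s) :=
  (congrArg (fun φ => φ.hom s) (A.presheaf.germ_stalkSpecializes hy
    ((genericPoint_spec A).specializes trivial))).symm

theorem secHom_injective (U : A.Opens) {x : A} (hx : x ∈ U) :
    Function.Injective (secHom f U hx) :=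
  germ_injective_of_isIntegral _ _ _

theorem secHom_kSec (U : A.Opens) {x : A} (hx : x ∈ U) (c : K) :
    secHom f U hx ((kSec f U).hom c) = algebraMap K (FF f) c :=
  congrArg (fun φ => φ.hom c) (kSec_germ f U (genericPoint A) (mem_of_nonempty U hx))

/-- sections over `U` as a subalgebra of the function field -/
def chart (U : A.Opens) {x : A} (hx : x ∈ U) : Subalgebra K (FF f) where
  carrier := Set.range (secHom f U hx)
  mul_mem' := by
    rintro _ _ ⟨a, rfl⟩ ⟨b, rfl⟩
    exact ⟨a * b, map_mul _ _ _⟩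
  add_mem' := by
    rintro _ _ ⟨a, rfl⟩ ⟨b, rfl⟩
    exact ⟨a + b, map_add _ _ _⟩
  algebraMap_mem' c := ⟨_, secHom_kSec f U hx c⟩

theorem chart_le_lr (U : A.Opens) {x y : A} (hx : x ∈ U) (hy : y ∈ U) :
    chart f U hx ≤ lr f y := by
  rintro _ ⟨s, rfl⟩
  exact ⟨_, (secHom_eq f U hx hy s).symm⟩

/-- sections over `U` are isomorphic to the chart algebra -/
def chartEquiv (U : A.Opens) {x : A} (hx : x ∈ U) : Γ(A, U) ≃+* chart f U hx :=
  RingEquiv.ofBijective
    ({ toFun := fun a => ⟨secHom f U hx a, a, rfl⟩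
       map_one' := Subtype.ext (map_one _)
       map_mul' := fun a b => Subtype.ext (map_mul _ _ _)
       map_zero' := Subtype.ext (map_zero _)
       map_add' := fun a b => Subtype.ext (map_add _ _ _) } : Γ(A, U) →+* chart f U hx)
    ⟨fun a b h => secHom_injective f U hx (congrArg Subtype.val h), by
      rintro ⟨_, a, rfl⟩; exact ⟨a, rfl⟩⟩

@[simp] theorem coe_chartEquiv (U : A.Opens) {x : A} (hx : x ∈ U) (s : Γ(A, U)) :
    (chartEquiv f U hx s : FF f) = secHom f U hx s := rfl

theorem chart_finiteType [LocallyOfFiniteType f] {U : A.Opens} (hU : IsAffineOpen U) {x : A}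
    (hx : x ∈ U) : Algebra.FiniteType K (chart f U hx) := by
  have h1 := kSec_finiteType f hU
  have h2 : ((chartEquiv f U hx).toRingHom.comp (kSec f U).hom).FiniteType :=
    (RingHom.FiniteType.of_surjective _ (chartEquiv f U hx).surjective).comp h1
  have h3 : (chartEquiv f U hx).toRingHom.comp (kSec f U).hom = algebraMap K (chart f U hx) := by
    ext c
    exact secHom_kSec f U hx c
  rw [h3] at h2
  exact h2

/-- the local ring of a point of an affine chart is a localisation of the chart algebra -/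
theorem exists_chart_mul {U : A.Opens} (hU : IsAffineOpen U) {x y : A} (hx : x ∈ U) (hy : y ∈ U)
    (w : lr f y) : ∃ a b : chart f U hx,
      IsUnit (Subalgebra.inclusion (chart_le_lr f U hx hy) b) ∧ (w : FF f) * b = a := by
  obtain ⟨_, c, rfl⟩ := w
  let _ : Algebra Γ(A, U) (A.presheaf.stalk y) := (A.presheaf.germ U y hy).hom.toAlgebra
  have hloc := hU.isLocalization_stalk ⟨y, hy⟩
  obtain ⟨⟨s, t⟩, hst⟩ := IsLocalization.surj (hU.primeIdealOf ⟨y, hy⟩).asIdeal.primeCompl c
  refine ⟨chartEquiv f U hx s, chartEquiv f U hx t, ?_, ?_⟩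
  · have h1 : IsUnit ((A.presheaf.germ U y hy).hom (t : Γ(A, U))) :=
      IsLocalization.map_units (A.presheaf.stalk y) t
    have h2 := h1.map (stalkEquiv f y)
    convert h2 using 1
    apply Subtype.ext
    exact secHom_eq f U hx hy t
  · have h1 := congrArg (toF f y) hst
    rw [map_mul] at h1
    rw [coe_chartEquiv, coe_chartEquiv, secHom_eq f U hx hy, secHom_eq f U hx hy]
    exact h1

theorem essFiniteType_lr [LocallyOfFiniteType f] (x : A) : Algebra.EssFiniteType K (lr f x) := by
  obtain ⟨_, ⟨U, hU, rfl⟩, hxU, -⟩ :=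
    A.isBasis_affineOpens.exists_subset_of_mem_open (Set.mem_univ x) isOpen_univ
  have h1 := chart_finiteType f hU hxU
  obtain ⟨σ, hσ⟩ := h1.out
  rw [Algebra.essFiniteType_iff]
  classical
  let j : chart f U hxU →ₐ[K] lr f x := Subalgebra.inclusion (chart_le_lr f U hxU hxU)
  have hj : ∀ b : chart f U hxU, j b ∈ Algebra.adjoin K ((σ.image j : Finset (lr f x)) : Set (lr f x)) := by
    intro b
    have hb : b ∈ Algebra.adjoin K (σ : Set (chart f U hxU)) := by rw [hσ]; exact Algebra.mem_top
    have h2 : j b ∈ (Algebra.adjoin K (σ : Set (chart f U hxU))).map j := ⟨b, hb, rfl⟩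
    rwa [AlgHom.map_adjoin, ← Finset.coe_image] at h2
  refine ⟨σ.image j, fun w => ?_⟩
  obtain ⟨a, b, hb, e⟩ := exists_chart_mul f hU hxU hxU w
  refine ⟨j b, hj b, hb, ?_⟩
  have : w * j b = j a := Subtype.ext e
  rw [this]
  exact hj a

end Fermat.Agent.H87Sch
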