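/-
H87Sch2: the abstract group variety attached to a proper integral commutative group scheme
(project S26, job J3).
-/
import Mathlib
import Fermat.Agent.H26AV
import Fermat.Agent.H87Sch1
import Fermat.Agent.H87Sch3
import Fermat.Prelude.Def_JacJ1Iface
import Fermat.Prelude.Def_GoodReductionJacobian_RelativeGroupLawKernel

set_option autoImplicit false
set_option linter.unusedSectionVars false

noncomputable section

open CategoryTheory CategoryTheory.Limits AlgebraicGeometry IsLocalRing NeronModelInfra
  GoodReductionJacobian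

namespace Fermat.Agent.H87Sch

universe u

variable {K : Type u} [Field K] {A : Scheme.{u}} (f : A ⟶ Spec (CommRingCat.of K))

/-- structure map of the spectrum of a `K`-algebra -/
def sp (K : Type u) [Field K] (R : Type u) [CommRing R] [Algebra K R] :
    Spec (CommRingCat.of R) ⟶ Spec (CommRingCat.of K) :=
  Spec.map (CommRingCat.ofHom (algebraMap K R))

/-- points with values in a `K`-algebra -/
def Pts (R : Type u) [CommRing R] [Algebra K R] : Type u := SchemeHomOver (sp K R) f

variable {f} in
/-- the underlying morphism of a point -/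
def Pts.hom {R : Type u} [CommRing R] [Algebra K R] (P : Pts f R) :
    Spec (CommRingCat.of R) ⟶ A := Subtype.val P

variable {f} in
theorem Pts.hom_comp {R : Type u} [CommRing R] [Algebra K R] (P : Pts f R) :
    P.hom ≫ f = sp K R := Subtype.property P

variable {f} in
theorem Pts.ext {R : Type u} [CommRing R] [Algebra K R] {P Q : Pts f R} (h : P.hom = Q.hom) :
    P = Q := Subtype.ext h

theorem specMap_sp {R S : Type u} [CommRing R] [Algebra K R] [CommRing S] [Algebra K S]
    (α : R →ₐ[K] S) : Spec.map (CommRingCat.ofHom α.toRingHom) ≫ sp K R = sp K S := by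
  rw [sp, sp, ← Spec.map_comp, ← CommRingCat.ofHom_comp]
  congr 2
  exact α.comp_algebraMap

/-- functoriality of points -/
def ptsMap {R S : Type u} [CommRing R] [Algebra K R] [CommRing S] [Algebra K S]
    (α : R →ₐ[K] S) (P : Pts f R) : Pts f S :=
  schemeHomOverComp (Spec.map (CommRingCat.ofHom α.toRingHom)) (specMap_sp α) P

theorem ptsMap_coe {R S : Type u} [CommRing R] [Algebra K R] [CommRing S] [Algebra K S]
    (α : R →ₐ[K] S) (P : Pts f R) :
    (ptsMap f α P).hom = Spec.map (CommRingCat.ofHom α.toRingHom) ≫ P.hom := rfl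

section group

variable (L : RelativeGroupLaw K f) (hc : L.IsCommutative)

/-- the group structure on points -/
@[reducible] def ptsGroup (R : Type u) [CommRing R] [Algebra K R] : AddCommGroup (Pts f R) :=
  letI : Add (Pts f R) := ⟨L.mul (sp K R)⟩
  letI : Zero (Pts f R) := ⟨L.one (sp K R)⟩
  letI : Neg (Pts f R) := ⟨L.inv (sp K R)⟩
  { AddGroup.ofLeftAxioms (G := Pts f R) (L.mul_assoc (sp K R)) (L.one_mul (sp K R))
      (L.inv_mul_cancel (sp K R)) with
    add_comm := hc (sp K R) }

end group

section injective

variable [IsSeparated f]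

theorem isDominant_specMap {R S : Type u} [CommRing R] [CommRing S] (ι : R →+* S)
    (hι : Function.Injective ι) : IsDominant (Spec.map (CommRingCat.ofHom ι)) := by
  refine ⟨?_⟩
  have h : DenseRange (PrimeSpectrum.comap ι) := by
    rw [PrimeSpectrum.denseRange_comap_iff_ker_le_nilRadical, (RingHom.injective_iff_ker_eq_bot ι).mp hι]
    exact bot_le
  exact h

theorem ptsMap_injective {R L : Type u} [CommRing R] [Algebra K R] [Field L] [Algebra K L]
    (ι : R →ₐ[K] L) (hι : Function.Injective ι) : Function.Injective (ptsMap f ι) := by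
  intro P Q h
  have hR : IsDomain R := hι.isDomain ι.toRingHom
  have h' : Spec.map (CommRingCat.ofHom ι.toRingHom) ≫ P.hom =
      Spec.map (CommRingCat.ofHom ι.toRingHom) ≫ Q.hom := congrArg Pts.hom h
  apply Pts.ext
  have hdom : IsDominant (Spec.map (CommRingCat.ofHom ι.toRingHom)) :=
    isDominant_specMap ι.toRingHom hι
  have hR' : IsDomain (CommRingCat.of R) := hR
  have hred : IsReduced (Spec (CommRingCat.of R)) := inferInstance
  exact ext_of_isDominant_of_isSeparated f (P.hom_comp.trans Q.hom_comp.symm) _ h'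

end injective

section proper

variable [IsProper f]

theorem bij_of_valuation {L : Type u} [Field L] [Algebra K L] (V : Subalgebra K L)
    (hV : ∀ x : L, x ∈ V ∨ x⁻¹ ∈ V) : Function.Bijective (ptsMap f V.val) := by
  refine ⟨ptsMap_injective f V.val Subtype.val_injective, fun X => ?_⟩
  let V' : ValuationSubring L := { V.toSubring with mem_or_inv_mem' := hV }
  have h1 : ValuationRing V := inferInstanceAs (ValuationRing V')
  have h2 : IsFractionRing V L := inferInstanceAs (IsFractionRing V' L)
  have hcrit : ValuativeCriterion f := by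
    have : IsProper f := inferInstance
    rw [IsProper.eq_valuativeCriterion] at this
    exact this.1.1.1
  have hw : CommSq X.hom (Spec.map (CommRingCat.ofHom (algebraMap V L))) f (sp K V) := ⟨by
    rw [X.hom_comp]
    exact (specMap_sp V.val).symm⟩
  let S : ValuativeCommSq f := { R := V, K := L, i₁ := X.hom, i₂ := sp K V, commSq := hw }
  obtain ⟨⟨l, hl1, hl2⟩⟩ := (hcrit.existence S).exists_lift
  exact ⟨⟨l, hl2⟩, Pts.ext hl1⟩

end proper

section AV

open Fermat.Agent.H26

variable (L : RelativeGroupLaw K f) (hc : L.IsCommutative) [IsIntegral A] [IsProper f]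

theorem ptsMap_add {R S : Type u} [CommRing R] [Algebra K R] [CommRing S] [Algebra K S]
    (α : R →ₐ[K] S) (P Q : Pts f R) :
    ptsMap f α (L.mul (sp K R) P Q) = L.mul (sp K S) (ptsMap f α P) (ptsMap f α Q) :=
  L.mul_natural (sp K R) (sp K S) _ (specMap_sp α) P Q

/-- the centre of a point with values in a local ring -/
abbrev ctr {R : Type u} [CommRing R] [Algebra K R] [IsLocalRing R] (P : Pts f R) : A :=
  P.hom (cp R)

/-- the local ring of the centre of a point -/
abbrev domP {R : Type u} [CommRing R] [Algebra K R] [IsLocalRing R] (P : Pts f R) :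
    Subalgebra K (FF f) := lr f (ctr f P)

/-- evaluation at a point -/
def evP {R : Type u} [CommRing R] [Algebra K R] [IsLocalRing R] (P : Pts f R) :
    domP f P →ₐ[K] R :=
  { evR f P.hom with commutes' := evR_algebraMap f P.hom P.hom_comp }

theorem evP_apply {R : Type u} [CommRing R] [Algebra K R] [IsLocalRing R] (P : Pts f R)
    (a : domP f P) : evP f P a = evR f P.hom a := rfl

/-- the tautological point of the local ring of `x` -/
def tautP (x : A) : Pts f (lr f x) := ⟨T f x, T_comp f x⟩

/-- the generic point -/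
def etaP : Pts f (FF f) := ⟨etaHom f, etaHom_comp f⟩

theorem ptsMap_val_tautP (x : A) : ptsMap f (lr f x).val (tautP f x) = etaP f :=
  Pts.ext (specMap_val_T f x)

theorem ptsMap_evP_tautP {R : Type u} [CommRing R] [Algebra K R] [IsLocalRing R] (P : Pts f R) :
    ptsMap f (evP f P) (tautP f (ctr f P)) = P :=
  Pts.ext (specMap_evR_T f P.hom)

theorem ptsMap_id {R : Type u} [CommRing R] [Algebra K R] (P : Pts f R) :
    ptsMap f (AlgHom.id K R) P = P := by
  apply Pts.ext
  have : CommRingCat.ofHom (AlgHom.id K R).toRingHom = 𝟙 (CommRingCat.of R) := rfl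
  rw [ptsMap_coe, this, Spec.map_id, Category.id_comp]

theorem ptsMap_comp {R S T : Type u} [CommRing R] [Algebra K R] [CommRing S] [Algebra K S]
    [CommRing T] [Algebra K T] (α : R →ₐ[K] S) (β : S →ₐ[K] T) (P : Pts f R) :
    ptsMap f (β.comp α) P = ptsMap f β (ptsMap f α P) := by
  apply Pts.ext
  rw [ptsMap_coe, ptsMap_coe, ptsMap_coe, ← Category.assoc, ← Spec.map_comp]
  rfl

theorem pts_ext {R : Type u} [CommRing R] [Algebra K R] [IsLocalRing R] (P Q : Pts f R)
    (h : domP f P = domP f Q)
    (h' : ∀ w (h1 : w ∈ domP f P) (h2 : w ∈ domP f Q), evP f P ⟨w, h1⟩ = evP f Q ⟨w, h2⟩) :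
    P = Q := by
  let e : lr f (ctr f Q) →ₐ[K] lr f (ctr f P) := Subalgebra.inclusion h.symm.le
  have h1 : ptsMap f e (tautP f (ctr f Q)) = tautP f (ctr f P) := by
    apply ptsMap_injective f (lr f (ctr f P)).val Subtype.val_injective
    rw [← ptsMap_comp, ptsMap_val_tautP]
    have : (lr f (ctr f P)).val.comp e = (lr f (ctr f Q)).val := rfl
    rw [this, ptsMap_val_tautP]
  have h2 : (evP f P).comp e = evP f Q := by
    ext w
    exact h' w.1 (h.symm.le w.2) w.2
  calc P = ptsMap f (evP f P) (tautP f (ctr f P)) := (ptsMap_evP_tautP f P).symm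
    _ = ptsMap f (evP f P) (ptsMap f e (tautP f (ctr f Q))) := by rw [h1]
    _ = ptsMap f ((evP f P).comp e) (tautP f (ctr f Q)) := (ptsMap_comp f _ _ _).symm
    _ = ptsMap f (evP f Q) (tautP f (ctr f Q)) := by rw [h2]
    _ = Q := ptsMap_evP_tautP f Q

theorem lr_genericPoint : lr f (genericPoint A) = ⊤ := by
  refine eq_top_iff.mpr fun w _ => ⟨w, ?_⟩
  show (toFF (genericPoint A)).hom w = w
  rw [toFF, TopCat.Presheaf.stalkSpecializes_refl]
  rfl

theorem ctr_etaP : ctr f (etaP f) = genericPoint A :=
  Scheme.fromSpecStalk_closedPoint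

theorem domP_etaP : domP f (etaP f) = ⊤ := by
  rw [domP, ctr_etaP, lr_genericPoint]

theorem evP_etaP (w : domP f (etaP f)) : evP f (etaP f) w = w := by
  have h1 : Spec.map (CommRingCat.ofHom (evR f (etaP f).hom)) ≫ T f (ctr f (etaP f)) =
      etaHom f := specMap_evR_T f (etaP f).hom
  have h2 := specMap_val_T f (ctr f (etaP f))
  rw [← h2, cancel_mono] at h1
  have h3 := Spec.map_injective h1
  exact congrArg (fun φ => φ.hom w) h3

/-- The abstract group variety attached to a proper integral commutative group scheme. -/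
def avOfIntegral : AV K where
  F := FF f
  Pt R _ _ := Pts f R
  grp R _ _ := ptsGroup f L hc R
  map {R S} _ _ _ _ α :=
    letI := ptsGroup f L hc R
    letI := ptsGroup f L hc S
    AddMonoidHom.mk' (ptsMap f α) (ptsMap_add f L α)
  map_id' P := ptsMap_id f P
  map_comp' α β P := ptsMap_comp f α β P
  dom P := domP f P
  ev P := evP f P
  isUnit_of_ev P w hw := (isLocalHom_evR f P.hom).map_nonunit w hw
  mem_dom_map ι P w := mem_lr_comp f ι.toRingHom P.hom w
  ev_map ι P a _ := evR_comp f ι.toRingHom P.hom a
  η := etaP f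
  dom_η := domP_etaP f
  ev_η := evP_etaP f
  exists_taut P := ⟨tautP f _, ptsMap_evP_tautP f P, ptsMap_val_tautP f _⟩
  ext' P Q h h' := pts_ext f P Q h h'
  bij_of_valuation V hV := bij_of_valuation f V hV
  map_injective ι hι := ptsMap_injective f ι hι
  essFiniteType_dom _ := essFiniteType_lr f _

end AV

end Fermat.Agent.H87Sch
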