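/-
H87Smooth: smooth algebras over a field are locally domains (project S26, job J3).
-/
import Mathlib

set_option autoImplicit false

noncomputable section

open scoped TensorProduct

namespace Fermat.Agent.H87Smooth

universe u

theorem isIntegral_of_idem {S D : Type*} [CommRing S] [CommRing D] [Algebra S D] {d : D}
    (hd : d * d = d) : IsIntegral S d := by
  nontriviality S
  refine ⟨Polynomial.X ^ 2 - Polynomial.X, ?_, ?_⟩
  · exact Polynomial.monic_X_pow_sub (by rw [Polynomial.degree_X]; exact_mod_cast one_lt_two)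
  · rw [Polynomial.eval₂_sub, Polynomial.eval₂_X_pow, Polynomial.eval₂_X, pow_two, hd, sub_self]

theorem exists_idem_aux {S D I : Type*} [CommRing S] [CommRing D] [Algebra S D] [Finite I]
    (Ai : I → Type*) [∀ i, Field (Ai i)] (e : D ≃+* ∀ i, Ai i)
    (hinj : Function.Injective (algebraMap S D))
    (hint : ∀ d : D, IsIntegral S d → ∃ s : S, algebraMap S D s = d) (q : Ideal S) [q.IsPrime] :
    ∃ ε : S, ε ∉ q ∧ ε * ε = ε ∧ ∀ a b : S, ε * (a * b) = 0 → ε * a = 0 ∨ ε * b = 0 := by
  classical
  have := Fintype.ofFinite I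
  let j : S →+* ∀ i, Ai i := e.toRingHom.comp (algebraMap S D)
  have hj : Function.Injective j := e.injective.comp hinj
  have hidem : ∀ i : I, ∃ s : S, j s = Pi.single i 1 := by
    intro i
    let d : D := e.symm (Pi.single i 1)
    have hd : d * d = d := by
      show e.symm _ * e.symm _ = e.symm _
      rw [← map_mul, ← Pi.single_mul, one_mul]
    have hdint : IsIntegral S d := isIntegral_of_idem hd
    obtain ⟨s, hs⟩ := hint d hdint
    refine ⟨s, ?_⟩
    show e (algebraMap S D s) = _
    rw [hs]
    exact e.apply_symm_apply _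
  choose ε hε using hidem
  have hsum : ∑ i, ε i = 1 := by
    apply hj
    rw [map_sum, map_one]
    simp_rw [hε]
    exact Finset.univ_sum_single (1 : ∀ i, Ai i)
  obtain ⟨i, hi⟩ : ∃ i, ε i ∉ q := by
    by_contra h
    push Not at h
    have : (1 : S) ∈ q := by
      rw [← hsum]; exact sum_mem fun i _ => h i
    exact (Ideal.IsPrime.ne_top ‹_›) ((Ideal.eq_top_iff_one q).mpr this)
  refine ⟨ε i, hi, ?_, ?_⟩
  · apply hj
    rw [map_mul, hε, ← Pi.single_mul, one_mul]
  · intro a b hab
    have h1 : j a i * j b i = 0 := by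
      have := congrFun (congrArg j hab) i
      rw [map_mul, map_mul, hε, map_zero] at this
      simpa using this
    have key : ∀ c : S, j c i = 0 → ε i * c = 0 := by
      intro c hc
      apply hj
      rw [map_mul, hε, map_zero]
      funext k
      by_cases hk : k = i
      · subst hk; simp [hc]
      · simp [hk]
    rcases mul_eq_zero.mp h1 with h | h
    · exact Or.inl (key a h)
    · exact Or.inr (key b h)

theorem algebraMap_tensor_injective {R S L : Type*} [CommRing R] [CommRing S] [CommRing L]
    [Algebra R S] [Algebra R L] [Module.Flat R S] (h : Function.Injective (algebraMap R L)) :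
    Function.Injective (algebraMap S (S ⊗[R] L)) := by
  have h1 := Module.Flat.lTensor_preserves_injective_linearMap (M := S)
      (Algebra.linearMap R L) h
  intro a b hab
  have h2 : (TensorProduct.rid R S).symm a = (TensorProduct.rid R S).symm b := by
    apply h1
    rw [Algebra.TensorProduct.algebraMap_apply, Algebra.TensorProduct.algebraMap_apply] at hab
    simpa using hab
  exact (TensorProduct.rid R S).symm.injective h2

theorem exists_of_isIntegral {R S : Type*} (L : Type*) [CommRing R] [IsDomain R]
    [IsIntegrallyClosed R] [Field L] [Algebra R L] [IsFractionRing R L]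
    [CommRing S] [Algebra R S] [Algebra.Smooth R S] (d : S ⊗[R] L) (hd : IsIntegral S d) :
    ∃ s : S, algebraMap S (S ⊗[R] L) s = d := by
  obtain ⟨t, ht⟩ := (TensorProduct.toIntegralClosure_bijective_of_smooth (R := R) (S := S)
      (B := L)).2 ⟨d, hd⟩
  have ht' : (Algebra.TensorProduct.map (AlgHom.id S S) (integralClosure R L).val) t = d :=
    congrArg Subtype.val ht
  rw [← ht']
  clear ht ht'
  induction t with
  | zero => exact ⟨0, by simp⟩
  | add x y hx hy =>
    obtain ⟨s, hs⟩ := hx
    obtain ⟨s', hs'⟩ := hy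
    exact ⟨s + s', by rw [map_add, map_add, hs, hs']⟩
  | tmul s l =>
    obtain ⟨r, hr⟩ := IsIntegrallyClosed.isIntegral_iff.mp l.2
    refine ⟨r • s, ?_⟩
    rw [Algebra.TensorProduct.map_tmul, Algebra.TensorProduct.algebraMap_apply]
    have : (integralClosure R L).val l = r • (1 : L) := by
      rw [← Algebra.algebraMap_eq_smul_one]; exact hr.symm
    rw [this, TensorProduct.tmul_smul, TensorProduct.smul_tmul']
    simp

/-- an étale algebra over a normal domain is locally a domain: every prime avoids an idempotent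
`ε` whose annihilator is prime. -/
theorem exists_idem_of_etale {R S : Type u} [CommRing R] [IsDomain R] [IsIntegrallyClosed R]
    [CommRing S] [Algebra R S] [Algebra.Etale R S] (q : Ideal S) [q.IsPrime] :
    ∃ ε : S, ε ∉ q ∧ ε * ε = ε ∧ ∀ a b : S, ε * (a * b) = 0 → ε * a = 0 ∨ ε * b = 0 := by
  obtain ⟨I, hI, Ai, _, _, e, -⟩ :=
    (Algebra.Etale.iff_exists_algEquiv_prod (FractionRing R) (FractionRing R ⊗[R] S)).mp
      inferInstance
  exact exists_idem_aux (D := S ⊗[R] FractionRing R) Ai
    ((Algebra.TensorProduct.comm R S (FractionRing R)).toRingEquiv.trans e.toRingEquiv)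
    (algebraMap_tensor_injective (IsFractionRing.injective R (FractionRing R)))
    (exists_of_isIntegral (FractionRing R)) q

theorem isDomain_away {S : Type*} (T : Type*) [CommRing S] [CommRing T] [Algebra S T] {ε : S}
    [IsLocalization.Away ε T] {q : Ideal S} [q.IsPrime] (hq : ε ∉ q) (hε : ε * ε = ε)
    (h : ∀ a b : S, ε * (a * b) = 0 → ε * a = 0 ∨ ε * b = 0) : IsDomain T := by
  have hpow : ∀ n : ℕ, ε ^ (n + 1) = ε := by
    intro n
    induction n with
    | zero => rw [zero_add, pow_one]
    | succ n ih => rw [pow_succ, ih, hε]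
  have hzero : ∀ a : S, algebraMap S T a = 0 ↔ ε * a = 0 := by
    intro a
    rw [IsLocalization.map_eq_zero_iff (Submonoid.powers ε)]
    constructor
    · rintro ⟨⟨_, n, rfl⟩, hn⟩
      have h1 : ε * (ε ^ n * a) = 0 := by rw [hn, mul_zero]
      rw [← mul_assoc, ← pow_succ', hpow] at h1
      exact h1
    · intro ha
      exact ⟨⟨ε, 1, pow_one _⟩, ha⟩
  have hnt : Nontrivial T := by
    refine ⟨⟨1, 0, fun h1 => ?_⟩⟩
    rw [← map_one (algebraMap S T), hzero, mul_one] at h1
    exact hq (h1 ▸ q.zero_mem)
  have : NoZeroDivisors T := by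
    refine ⟨fun {x y} hxy => ?_⟩
    obtain ⟨⟨a, s⟩, ha⟩ := IsLocalization.surj (Submonoid.powers ε) x
    obtain ⟨⟨b, t⟩, hb⟩ := IsLocalization.surj (Submonoid.powers ε) y
    have hs := IsLocalization.map_units T s
    have ht := IsLocalization.map_units T t
    have hab : algebraMap S T (a * b) = 0 := by
      rw [map_mul, ← ha, ← hb]
      linear_combination (algebraMap S T s * algebraMap S T t) * hxy
    rw [hzero] at hab
    rcases h a b hab with h' | h'
    · left
      rw [← hzero, ← ha] at h'
      exact (hs.mul_left_eq_zero).mp h'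
    · right
      rw [← hzero, ← hb] at h'
      exact (ht.mul_left_eq_zero).mp h'
  exact NoZeroDivisors.to_isDomain T

/-- a topological lemma: a connected space locally irreducible is irreducible -/
theorem preirreducibleSpace_of_local {X : Type*} [TopologicalSpace X] [ConnectedSpace X]
    (h : ∀ x : X, ∃ U : Set X, IsOpen U ∧ x ∈ U ∧ IsPreirreducible U) : PreirreducibleSpace X := by
  refine ⟨?_⟩
  have key : ∀ V : Set X, IsOpen V → V.Nonempty → closure V = Set.univ := by
    intro V hV hVne
    refine IsClopen.eq_univ ⟨isClosed_closure, ?_⟩ (hVne.mono subset_closure)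
    rw [isOpen_iff_mem_nhds]
    intro x hx
    obtain ⟨U, hU, hxU, hirr⟩ := h x
    have hne : (U ∩ V).Nonempty := by
      rw [mem_closure_iff] at hx
      exact hx U hU hxU
    refine Filter.mem_of_superset (hU.mem_nhds hxU) fun y hy => ?_
    rw [mem_closure_iff]
    intro W hW hyW
    obtain ⟨z, hz1, hz2, hz3⟩ := hirr W V hW hV ⟨y, hy, hyW⟩ ⟨hne.some, hne.some_mem.1, hne.some_mem.2⟩
    exact ⟨z, hz2, hz3⟩
  intro V W hV hW hVne hWne
  obtain ⟨x, -, hx⟩ := hVne
  obtain ⟨y, -, hy⟩ := hWne
  have h1 := key V hV ⟨x, hx⟩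
  have h2 : y ∈ closure V := h1 ▸ Set.mem_univ y
  rw [mem_closure_iff] at h2
  obtain ⟨z, hz1, hz2⟩ := h2 W hW hy
  exact ⟨z, trivial, hz2, hz1⟩

end Fermat.Agent.H87Smooth
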