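/-
H87Sch4: a smooth connected scheme over a field is integral (project S26, job J3).
-/
import Mathlib
import Fermat.Agent.H87Smooth

set_option autoImplicit false

noncomputable section

open CategoryTheory CategoryTheory.Limits AlgebraicGeometry IsLocalRing

namespace Fermat.Agent.H87Sch

universe u

variable {K : Type u} [Field K] {A : Scheme.{u}} (f : A ⟶ Spec (CommRingCat.of K))

theorem eq_top_of_mem {U : (Spec (CommRingCat.of K)).Opens} {y : Spec (CommRingCat.of K)}
    (hy : y ∈ U) : U = ⊤ := by
  have hs : Subsingleton (PrimeSpectrum K) := inferInstance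
  refine eq_top_iff.mpr fun z _ => ?_
  have : z = y := hs.elim _ _
  rwa [this]

/-- sections of `Spec K` over a nonempty open -/
def secEquiv {U : (Spec (CommRingCat.of K)).Opens} (hU : U = ⊤) :
    K ≃+* Γ(Spec (CommRingCat.of K), U) := by
  subst hU
  exact (Scheme.ΓSpecIso (CommRingCat.of K)).symm.commRingCatIsoToRingEquiv

/-- a smooth scheme over a field has a basis of integral affine opens -/
theorem exists_integral_nhds [Smooth f] (x : A) :
    ∃ V : A.Opens, IsAffineOpen V ∧ x ∈ V ∧ IsDomain Γ(A, V) := by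
  obtain ⟨U, hU, V, hV, hx, e, hs⟩ := Smooth.exists_isStandardSmooth f x
  have hUt : U = ⊤ := eq_top_of_mem (e hx)
  have h1 : IsDomain Γ(Spec (CommRingCat.of K), U) := (secEquiv hUt).symm.toMulEquiv.isDomain K
  have h2 : UniqueFactorizationMonoid Γ(Spec (CommRingCat.of K), U) :=
    (secEquiv hUt).toMulEquiv.uniqueFactorizationMonoid inferInstance
  obtain ⟨n, g, -, hg⟩ := hs.exists_etale_mvPolynomial
  let _ : Algebra (MvPolynomial (Fin n) Γ(Spec (CommRingCat.of K), U)) Γ(A, V) := g.toAlgebra
  have hg' : Algebra.Etale (MvPolynomial (Fin n) Γ(Spec (CommRingCat.of K), U)) Γ(A, V) := hg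
  obtain ⟨ε, hε, hid, hdom⟩ := Fermat.Agent.H87Smooth.exists_idem_of_etale
    (R := MvPolynomial (Fin n) Γ(Spec (CommRingCat.of K), U)) (S := Γ(A, V))
    (hV.primeIdealOf ⟨x, hx⟩).asIdeal
  have hloc := hV.isLocalization_basicOpen ε
  have hx' : x ∈ A.basicOpen ε := by
    rw [Scheme.mem_basicOpen A ε x hx]
    let _ : Algebra Γ(A, V) (A.presheaf.stalk x) := (A.presheaf.germ V x hx).hom.toAlgebra
    have hloc := hV.isLocalization_stalk ⟨x, hx⟩
    exact IsLocalization.map_units (A.presheaf.stalk x)
      (⟨ε, hε⟩ : (hV.primeIdealOf ⟨x, hx⟩).asIdeal.primeCompl)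
  exact ⟨A.basicOpen ε, hV.basicOpen ε, hx',
    Fermat.Agent.H87Smooth.isDomain_away Γ(A, A.basicOpen ε) hε hid hdom⟩

theorem isIntegral_opens {V : A.Opens} (hV : IsAffineOpen V) {x : A} (hx : x ∈ V)
    [IsDomain Γ(A, V)] : IsIntegral V.toScheme := by
  have h1 : IsAffine V.toScheme := hV
  have h2 : Nonempty V.toScheme := ⟨⟨x, hx⟩⟩
  have h3 : IsDomain Γ(V.toScheme, ⊤) :=
    (V.topIso.symm.commRingCatIsoToRingEquiv.toMulEquiv.symm).isDomain _
  exact isIntegral_of_isAffine_of_isDomain _

theorem isIntegral_of_smooth [Smooth f] [ConnectedSpace A] : IsIntegral A := by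
  have hred : IsReduced A := by
    have : ∀ x : A, _root_.IsReduced (A.presheaf.stalk x) := by
      intro x
      obtain ⟨V, hV, hx, hdom⟩ := exists_integral_nhds f x
      let _ : Algebra Γ(A, V) (A.presheaf.stalk x) := (A.presheaf.germ V x hx).hom.toAlgebra
      have hloc := hV.isLocalization_stalk ⟨x, hx⟩
      exact isReduced_localizationPreserves (hV.primeIdealOf ⟨x, hx⟩).asIdeal.primeCompl
        (A.presheaf.stalk x) inferInstance
    exact isReduced_of_isReduced_stalk A
  have hirr : PreirreducibleSpace A := by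
    apply Fermat.Agent.H87Smooth.preirreducibleSpace_of_local
    intro x
    obtain ⟨V, hV, hx, hdom⟩ := exists_integral_nhds f x
    have h1 := isIntegral_opens hV hx
    have h2 : PreirreducibleSpace V.toScheme := inferInstance
    refine ⟨V, V.2, hx, ?_⟩
    have h3 := (PreirreducibleSpace.isPreirreducible_univ (X := V.toScheme)).image
      V.ι V.ι.continuous.continuousOn
    rw [Set.image_univ, Scheme.Opens.range_ι] at h3
    exact h3
  have : IrreducibleSpace A := ⟨inferInstance⟩
  exact isIntegral_of_irreducibleSpace_of_isReduced A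

end Fermat.Agent.H87Sch
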