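/-
H87AVScheme: the abstract variety `AV.ofScheme` of an abelian scheme over a field
(project S26, job J3).
-/
import Mathlib
import Fermat.Agent.H26AV
import Fermat.Agent.H87Sch2
import Fermat.Agent.H87Sch4

set_option autoImplicit false

noncomputable section

open CategoryTheory CategoryTheory.Limits AlgebraicGeometry NeronModelInfra GoodReductionJacobian
open GoodReductionJacobian.RelativeGroupLaw

namespace Fermat.Agent.H26

universe u

variable (K : Type u) [Field K] {A : Scheme.{u}}
    (f : A ⟶ Spec (CommRingCat.of K))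
    (L : RelativeGroupLaw K f) (hc : L.IsCommutative) (hA : AbelianSchemePropertyBundle K f)

variable {K f} in
theorem connectedSpace_of_bundle (hA : AbelianSchemePropertyBundle K f) : ConnectedSpace A := by
  have h := hA.connectedFibres (IsLocalRing.closedPoint K)
  have h1 : (f.base ⁻¹' {(IsLocalRing.closedPoint K : Spec (CommRingCat.of K))} : Set A) =
      Set.univ := by
    refine Set.eq_univ_of_forall fun x => ?_
    exact (inferInstance : Subsingleton (PrimeSpectrum K)).elim _ _
  exact connectedSpace_iff_univ.mpr (h1 ▸ h)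

variable {K f} in
theorem isIntegral_of_bundle (hA : AbelianSchemePropertyBundle K f) : IsIntegral A := by
  have := hA.smooth
  have := connectedSpace_of_bundle hA
  exact H87Sch.isIntegral_of_smooth f

/-- J3: the abstract variety of an abelian scheme -/
def AV.ofScheme [IsAlgClosed K] (f : A ⟶ Spec (CommRingCat.of K))
    (L : RelativeGroupLaw K f) (hc : L.IsCommutative) (hA : AbelianSchemePropertyBundle K f) :
    AV K :=
  haveI := isIntegral_of_bundle hA
  haveI := hA.proper
  H87Sch.avOfIntegral f L hc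

/-- points over the identity and points with values in `K` -/
def ptEquiv : SchemeHomOver (𝟙 (Spec (CommRingCat.of K))) f ≃ H87Sch.Pts f K where
  toFun x := ⟨x.1, by
    rw [x.2, H87Sch.sp]
    exact (Spec.map_id _).symm⟩
  invFun x := ⟨x.hom, by
    rw [x.hom_comp, H87Sch.sp]
    exact Spec.map_id _⟩
  left_inv _ := rfl
  right_inv _ := rfl

theorem one_natural' {T : Scheme.{u}} {t t' : T ⟶ Spec (CommRingCat.of K)} (h : t = t') :
    (L.one t).1 = (L.one t').1 := by subst h; rfl

theorem nsmul_congr {T : Scheme.{u}} {t t' : T ⟶ Spec (CommRingCat.of K)} (h : t = t') (n : ℕ)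
    (x : SchemeHomOver t f) (x' : SchemeHomOver t' f) (hx : x.1 = x'.1) :
    (L.nsmul t n x).1 = (L.nsmul t' n x').1 := by
  subst h
  have : x = x' := Subtype.ext hx
  rw [this]

theorem AV.exists_equiv_ofScheme [IsAlgClosed K] (n : ℕ) :
    Nonempty ({x : SchemeHomOver (𝟙 (Spec (CommRingCat.of K))) f //
        L.IsTorsionPoint (𝟙 (Spec (CommRingCat.of K))) n x} ≃
        {x : (AV.ofScheme K f L hc hA).Pt K // n • x = 0}) := by
  have hsp : 𝟙 (Spec (CommRingCat.of K)) = H87Sch.sp K K := (Spec.map_id _).symm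
  let e : SchemeHomOver (𝟙 (Spec (CommRingCat.of K))) f ≃ (AV.ofScheme K f L hc hA).Pt K :=
    ptEquiv K f
  have hn : ∀ (m : ℕ) (x : SchemeHomOver (𝟙 (Spec (CommRingCat.of K))) f),
      H87Sch.Pts.hom (f := f) (m • e x) = (L.nsmul (H87Sch.sp K K) m (ptEquiv K f x)).1 := by
    intro m x
    have h1 : ∀ y : (AV.ofScheme K f L hc hA).Pt K,
        m • y = (L.nsmul (H87Sch.sp K K) m y : H87Sch.Pts f K) := by
      intro y
      induction m with
      | zero => rw [zero_nsmul]; rfl
      | succ m ih => rw [succ_nsmul, ih]; rfl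
    rw [h1]
    rfl
  have h0 : H87Sch.Pts.hom (f := f) (0 : (AV.ofScheme K f L hc hA).Pt K) =
      (L.one (H87Sch.sp K K)).1 := rfl
  refine ⟨e.subtypeEquiv fun x => ?_⟩
  constructor
  · intro h
    have h1 : L.nsmul (𝟙 (Spec (CommRingCat.of K))) n x = L.one _ := h
    apply H87Sch.Pts.ext (f := f)
    rw [hn, h0, ← nsmul_congr K f L hsp n x (ptEquiv K f x) rfl, h1]
    exact one_natural' K f L hsp
  · intro h
    have h1 : (L.nsmul (H87Sch.sp K K) n (ptEquiv K f x)).1 = (L.one (H87Sch.sp K K)).1 := by
      rw [← hn, ← h0, h]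
    apply Subtype.ext
    rw [nsmul_congr K f L hsp n x (ptEquiv K f x) rfl, h1]
    exact (one_natural' K f L hsp).symm

end Fermat.Agent.H26
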