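/-
H87Sch5: points with values in local rings defined by homomorphisms from chart algebras; smooth
charts (project S26, job J4).
-/
import Mathlib
import Fermat.Agent.H87Sch2
import Fermat.Agent.H87Sch3
import Fermat.Agent.H87Sch4

set_option autoImplicit false
set_option linter.unusedSectionVars false

noncomputable section

open CategoryTheory CategoryTheory.Limits AlgebraicGeometry IsLocalRing

namespace Fermat.Agent.H87Sch

universe u

variable {K : Type u} [Field K] {A : Scheme.{u}} (f : A ⟶ Spec (CommRingCat.of K))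

theorem fromSpec_comp {V : A.Opens} (hV : IsAffineOpen V) :
    hV.fromSpec ≫ f = Spec.map (kSec f V) := by
  rw [kSec, Spec.map_comp, ← IsAffineOpen.SpecMap_appLE_fromSpec f (isAffineOpen_top _) hV (le_pre f V),
    IsAffineOpen.fromSpec_top, Scheme.isoSpec_Spec_inv]

variable [IsIntegral A] [IsProper f]

section chart

variable {V : A.Opens} (hV : IsAffineOpen V) {x : A} (hx : x ∈ V)

/-- chart algebra isomorphism as a morphism -/
def cE : Γ(A, V) ⟶ CommRingCat.of (chart f V hx) :=
  CommRingCat.ofHom (chartEquiv f V hx).toRingHom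

instance isIso_cE : IsIso (cE f hx) :=
  inferInstanceAs (IsIso (chartEquiv f V hx).toCommRingCatIso.hom)

/-- spectrum of the chart algebra -/
def chartMap : Spec (CommRingCat.of (chart f V hx)) ⟶ A :=
  Spec.map (cE f hx) ≫ hV.fromSpec

instance mono_chartMap : Mono (chartMap f hV hx) := by
  unfold chartMap; infer_instance

theorem chartMap_mem (z : Spec (CommRingCat.of (chart f V hx))) :
    (chartMap f hV hx) z ∈ V := by
  have h : (chartMap f hV hx) z = hV.fromSpec (Spec.map (cE f hx) z) := by
    rw [chartMap, Scheme.Hom.comp_apply]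
  rw [h]
  have h1 := hV.range_fromSpec
  have h2 : hV.fromSpec (Spec.map (cE f hx) z) ∈ Set.range hV.fromSpec := ⟨_, rfl⟩
  rw [h1] at h2
  exact h2

theorem kSec_cE : kSec f V ≫ cE f hx = CommRingCat.ofHom (algebraMap K (chart f V hx)) := by
  ext c
  exact secHom_kSec f V hx c

theorem chartMap_comp : chartMap f hV hx ≫ f = sp K (chart f V hx) := by
  rw [chartMap, Category.assoc, fromSpec_comp, ← Spec.map_comp, kSec_cE]
  rfl

theorem T_eq_chartMap {y : A} (hy : y ∈ V) :
    T f y = Spec.map (CommRingCat.ofHom (Subalgebra.inclusion (chart_le_lr f V hx hy)).toRingHom) ≫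
      chartMap f hV hx := by
  have h1 : cE f hx ≫ CommRingCat.ofHom (Subalgebra.inclusion (chart_le_lr f V hx hy)).toRingHom =
      A.presheaf.germ V y hy ≫ sE f y := by
    ext s
    exact secHom_eq f V hx hy s
  rw [chartMap, ← Spec.map_comp_assoc, h1, T, Spec.map_comp, Category.assoc,
    ← hV.fromSpecStalk_eq_fromSpecStalk hy]
  rfl

/-- the point with values in a local ring defined by a homomorphism from the chart algebra -/
def chartPt {R : Type u} [CommRing R] [Algebra K R] (φ : chart f V hx →ₐ[K] R) : Pts f R :=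
  ptsMap f φ ⟨chartMap f hV hx, chartMap_comp f hV hx⟩

theorem chartPt_hom {R : Type u} [CommRing R] [Algebra K R] (φ : chart f V hx →ₐ[K] R) :
    (chartPt f hV hx φ).hom = Spec.map (CommRingCat.ofHom φ.toRingHom) ≫ chartMap f hV hx := rfl

theorem ptsMap_chartPt {R S : Type u} [CommRing R] [Algebra K R] [CommRing S] [Algebra K S]
    (φ : chart f V hx →ₐ[K] R) (ι : R →ₐ[K] S) :
    ptsMap f ι (chartPt f hV hx φ) = chartPt f hV hx (ι.comp φ) :=
  (ptsMap_comp f φ ι _).symm

section localR

variable {R : Type u} [CommRing R] [Algebra K R] [IsLocalRing R]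

theorem ctr_chartPt_mem (φ : chart f V hx →ₐ[K] R) : ctr f (chartPt f hV hx φ) ∈ V := by
  have h : ctr f (chartPt f hV hx φ) =
      (chartMap f hV hx) (Spec.map (CommRingCat.ofHom φ.toRingHom) (cp R)) := by
    show (chartPt f hV hx φ).hom (cp R) = _
    rw [chartPt_hom, Scheme.Hom.comp_apply]
  rw [h]
  exact chartMap_mem f hV hx _

/-- a point whose centre lies in the chart comes from a homomorphism -/
theorem eq_chartPt (P : Pts f R) (h : ctr f P ∈ V) :
    P = chartPt f hV hx ((evP f P).comp (Subalgebra.inclusion (chart_le_lr f V hx h))) := by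
  apply Pts.ext
  rw [chartPt_hom]
  have h1 : CommRingCat.ofHom ((evP f P).comp
      (Subalgebra.inclusion (chart_le_lr f V hx h))).toRingHom =
      CommRingCat.ofHom (Subalgebra.inclusion (chart_le_lr f V hx h)).toRingHom ≫
        CommRingCat.ofHom (evR f P.hom) := rfl
  rw [h1, Spec.map_comp, Category.assoc, ← T_eq_chartMap f hV hx h, specMap_evR_T]

theorem evP_chartPt (φ : chart f V hx →ₐ[K] R) (c : chart f V hx) :
    evP f (chartPt f hV hx φ) (Subalgebra.inclusion
      (chart_le_lr f V hx (ctr_chartPt_mem f hV hx φ)) c) = φ c := by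
  have h := congrArg Pts.hom (eq_chartPt f hV hx (chartPt f hV hx φ) (ctr_chartPt_mem f hV hx φ))
  rw [chartPt_hom, chartPt_hom, cancel_mono] at h
  exact (congrArg (fun ψ => ψ.hom c) (Spec.map_injective h)).symm

end localR

end chart

section smooth

variable (g : ℕ) [SmoothOfRelativeDimension g f]

theorem exists_smooth_chart (x : A) : ∃ (V : A.Opens) (_ : IsAffineOpen V) (hx : x ∈ V),
    Algebra.IsStandardSmoothOfRelativeDimension g K (chart f V hx) := by
  obtain ⟨U, hU, V, hV, hx, e, hs⟩ :=
    SmoothOfRelativeDimension.exists_isStandardSmoothOfRelativeDimension (n := g) (f := f) x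
  refine ⟨V, hV, hx, ?_⟩
  have hUt : U = ⊤ := eq_top_of_mem (e hx)
  subst hUt
  have h1 : (kSec f V).hom.IsStandardSmoothOfRelativeDimension g := by
    rw [kSec, CommRingCat.hom_comp]
    exact RingHom.isStandardSmoothOfRelativeDimension_respectsIso.2 _
      (Scheme.ΓSpecIso (CommRingCat.of K)).symm.commRingCatIsoToRingEquiv hs
  have h2 : (CommRingCat.ofHom (algebraMap K (chart f V hx))).hom.IsStandardSmoothOfRelativeDimension g := by
    rw [← kSec_cE, CommRingCat.hom_comp]
    exact RingHom.isStandardSmoothOfRelativeDimension_respectsIso.1 _ (chartEquiv f V hx) h1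
  exact (RingHom.isStandardSmoothOfRelativeDimension_algebraMap g).mp h2

end smooth

end Fermat.Agent.H87Sch
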