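/-
H87Pole: generators of colon ideals in local subalgebras of the function field (project S26, J4).
-/
import Mathlib
import Fermat.Agent.H87Sch5
import Fermat.Agent.H76Colon

set_option autoImplicit false
set_option linter.unusedSectionVars false

noncomputable section

open CategoryTheory CategoryTheory.Limits AlgebraicGeometry IsLocalRing

namespace Fermat.Agent.H87Sch

universe u

section PG

variable {K F : Type*} [Field K] [Field F] [Algebra K F]

/-- `d` generates the ideal of denominators of `φ` in `B` -/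
def PG (φ : F) (B : Subalgebra K F) (d : F) : Prop :=
  d ≠ 0 ∧ ∀ c : F, (c ∈ B ∧ c * φ ∈ B) ↔ ∃ e ∈ B, c = e * d

variable {φ : F} {B B' : Subalgebra K F} {d d' : F}

theorem PG.self_mem (h : PG φ B d) : d ∈ B ∧ d * φ ∈ B :=
  (h.2 d).mpr ⟨1, one_mem _, (one_mul d).symm⟩

theorem PG.loc (h : PG φ B d) (hle : B ≤ B')
    (hloc : ∀ w ∈ B', ∃ a ∈ B, ∃ b ∈ B, b ≠ 0 ∧ b⁻¹ ∈ B' ∧ w * b = a) : PG φ B' d := by
  refine ⟨h.1, fun c => ⟨?_, ?_⟩⟩
  · rintro ⟨h1, h2⟩
    obtain ⟨a, ha, b, hb, hb0, hbi, e1⟩ := hloc _ h1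
    obtain ⟨a', ha', b', hb', hb0', hbi', e2⟩ := hloc _ h2
    have h3 : c * b * b' ∈ B ∧ c * b * b' * φ ∈ B := by
      constructor
      · rw [e1]; exact mul_mem ha hb'
      · have : c * b * b' * φ = a' * b := by rw [← e2]; ring
        rw [this]; exact mul_mem ha' hb
    obtain ⟨e, he, e3⟩ := (h.2 _).mp h3
    refine ⟨e * b⁻¹ * b'⁻¹, mul_mem (mul_mem (hle he) hbi) hbi', ?_⟩
    field_simp
    rw [← e3]
  · rintro ⟨e, he, rfl⟩
    obtain ⟨h1, h2⟩ := h.self_mem
    exact ⟨mul_mem he (hle h1), by rw [mul_assoc]; exact mul_mem he (hle h2)⟩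

theorem PG.unit (h : PG φ B d) (h' : PG φ B d') : d / d' ≠ 0 ∧ d / d' ∈ B ∧ (d / d')⁻¹ ∈ B := by
  obtain ⟨e, he, e1⟩ := (h'.2 d).mp h.self_mem
  obtain ⟨e', he', e2⟩ := (h.2 d').mp h'.self_mem
  have h1 : d / d' = e := by rw [div_eq_iff h'.1, e1]
  have h2 : (d / d')⁻¹ = e' := by rw [inv_div, div_eq_iff h.1, e2]
  exact ⟨div_ne_zero h.1 h'.1, by rw [h1]; exact he, by rw [h2]; exact he'⟩

open Classical in
/-- the local equation of the pole divisor -/
def pgen (φ : F) (B : Subalgebra K F) : F := if h : ∃ d, PG φ B d then h.choose else 1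

theorem pgen_spec (h : ∃ d, PG φ B d) : PG φ B (pgen φ B) := by
  rw [pgen, dif_pos h]; exact h.choose_spec

theorem pgen_ne_zero (φ : F) (B : Subalgebra K F) : pgen φ B ≠ 0 := by
  by_cases h : ∃ d, PG φ B d
  · exact (pgen_spec h).1
  · rw [pgen, dif_neg h]; exact one_ne_zero

/-- spreading out -/
theorem PG.spread {C : Subalgebra K F} [IsNoetherianRing C] (h : PG φ B d) (hCB : C ≤ B)
    (hloc : ∀ w ∈ B, ∃ a ∈ C, ∃ b ∈ C, b ≠ 0 ∧ b⁻¹ ∈ B ∧ w * b = a) :
    ∃ s ∈ C, s ≠ 0 ∧ s⁻¹ ∈ B ∧ ∀ B' : Subalgebra K F, C ≤ B' →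
      (∀ w ∈ B', ∃ a ∈ C, ∃ b ∈ C, b ≠ 0 ∧ b⁻¹ ∈ B' ∧ w * b = a) → s⁻¹ ∈ B' → PG φ B' d := by
  classical
  -- the ideal of denominators in `C`
  let I : Ideal C :=
    { carrier := {c | (c : F) * φ ∈ C}
      add_mem' := by
        intro a b ha hb
        show ((a + b : C) : F) * φ ∈ C
        push_cast
        rw [add_mul]; exact add_mem ha hb
      zero_mem' := by
        show ((0 : C) : F) * φ ∈ C
        rw [ZeroMemClass.coe_zero, zero_mul]; exact zero_mem _
      smul_mem' := by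
        intro c x hx
        show ((c * x : C) : F) * φ ∈ C
        push_cast
        rw [mul_assoc]; exact mul_mem c.2 hx }
  obtain ⟨S, hS⟩ := (isNoetherianRing_iff_ideal_fg C).mp inferInstance I
  -- common denominators
  have key : ∀ (T : Finset F), (∀ w ∈ T, w ∈ B) →
      ∃ s ∈ C, s ≠ 0 ∧ s⁻¹ ∈ B ∧ ∀ w ∈ T, s * w ∈ C := by
    intro T
    induction T using Finset.induction_on with
    | empty => intro _; exact ⟨1, one_mem _, one_ne_zero, by rw [inv_one]; exact one_mem _, by simp⟩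
    | insert w T hw ih =>
      intro hT
      obtain ⟨s, hs, hs0, hsi, hsT⟩ := ih fun w' hw' => hT w' (Finset.mem_insert_of_mem hw')
      obtain ⟨a, ha, b, hb, hb0, hbi, e⟩ := hloc w (hT w (Finset.mem_insert_self _ _))
      refine ⟨s * b, mul_mem hs hb, mul_ne_zero hs0 hb0, by
        rw [mul_inv]; exact mul_mem hsi hbi, fun w' hw' => ?_⟩
      rcases Finset.mem_insert.mp hw' with rfl | hw'
      · have : s * b * w' = s * a := by rw [← e]; ring
        rw [this]; exact mul_mem hs ha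
      · have : s * b * w' = b * (s * w') := by ring
        rw [this]; exact mul_mem hb (hsT w' hw')
  obtain ⟨hd1, hd2⟩ := h.self_mem
  have hex : ∀ c ∈ S, ∃ e ∈ B, (c : F) = e * d := by
    intro c hc
    have hcI : c ∈ I := by rw [← hS]; exact Ideal.subset_span hc
    exact (h.2 c).mp ⟨hCB c.2, hCB hcI⟩
  choose! ee hee1 hee2 using hex
  obtain ⟨s, hs, hs0, hsi, hsT⟩ := key (insert d (insert (d * φ) (S.image ee))) (by
    intro w hw
    simp only [Finset.mem_insert, Finset.mem_image] at hw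
    rcases hw with rfl | rfl | ⟨c, hc, rfl⟩
    · exact hd1
    · exact hd2
    · exact hee1 c hc)
  refine ⟨s, hs, hs0, hsi, fun B' hCB' hloc' hsi' => ⟨h.1, fun c => ⟨?_, ?_⟩⟩⟩
  · rintro ⟨h1, h2⟩
    obtain ⟨a, ha, b, hb, hb0, hbi, e1⟩ := hloc' _ h1
    obtain ⟨a', ha', b', hb', hb0', hbi', e2⟩ := hloc' _ h2
    have hmem : c * b * b' ∈ C := by rw [e1]; exact mul_mem ha hb'
    have hmem2 : c * b * b' * φ ∈ C := by
      have : c * b * b' * φ = a' * b := by rw [← e2]; ring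
      rw [this]; exact mul_mem ha' hb
    have hI : (⟨c * b * b', hmem⟩ : C) ∈ I := hmem2
    rw [← hS] at hI
    -- every element of I is e * d with s * e ∈ C
    have hall : ∀ x ∈ Ideal.span (S : Set C), ∃ e : F, s * e ∈ C ∧ (x : F) = e * d := by
      intro x hx
      induction hx using Submodule.span_induction with
      | mem x hx =>
        exact ⟨ee x, hsT _ (by
          simp only [Finset.mem_insert, Finset.mem_image]
          exact Or.inr (Or.inr ⟨x, hx, rfl⟩)), hee2 x hx⟩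
      | zero => exact ⟨0, by rw [mul_zero]; exact zero_mem _, by simp⟩
      | add x y _ _ hx hy =>
        obtain ⟨e, he, e3⟩ := hx
        obtain ⟨e', he', e4⟩ := hy
        exact ⟨e + e', by rw [mul_add]; exact add_mem he he', by push_cast; rw [e3, e4]; ring⟩
      | smul r x _ hx =>
        obtain ⟨e, he, e3⟩ := hx
        refine ⟨r * e, ?_, ?_⟩
        · have : s * ((r : F) * e) = r * (s * e) := by ring
          rw [this]; exact mul_mem r.2 he
        · rw [smul_eq_mul]; push_cast; rw [e3]; ring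
    obtain ⟨e, he, e3⟩ := hall _ hI
    have e3' : c * b * b' = e * d := e3
    refine ⟨e * b⁻¹ * b'⁻¹, mul_mem (mul_mem ?_ hbi) hbi', ?_⟩
    · have : e = s⁻¹ * (s * e) := by rw [inv_mul_cancel_left₀ hs0]
      rw [this]; exact mul_mem hsi' (hCB' he)
    · field_simp
      rw [← e3']
  · rintro ⟨e, he, rfl⟩
    have h1 : d ∈ B' := by
      have : d = s⁻¹ * (s * d) := by rw [inv_mul_cancel_left₀ hs0]
      rw [this]
      exact mul_mem hsi' (hCB' (hsT d (Finset.mem_insert_self _ _)))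
    have h2 : d * φ ∈ B' := by
      have : d * φ = s⁻¹ * (s * (d * φ)) := by rw [inv_mul_cancel_left₀ hs0]
      rw [this]
      exact mul_mem hsi' (hCB' (hsT _ (Finset.mem_insert_of_mem (Finset.mem_insert_self _ _))))
    exact ⟨mul_mem he h1, by rw [mul_assoc]; exact mul_mem he h2⟩

/-- existence of generators in a localisation of a standard smooth algebra -/
theorem exists_PG_of_smooth {K F : Type u} [Field K] [IsAlgClosed K] [Field F] [Algebra K F]
    {C B : Subalgebra K F} [IsLocalRing B] (g : ℕ)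
    [Algebra.IsStandardSmoothOfRelativeDimension g K C] (hCB : C ≤ B)
    (hloc : ∀ w ∈ B, ∃ a ∈ C, ∃ b ∈ C, b ≠ 0 ∧ b⁻¹ ∈ B ∧ w * b = a)
    (φ : F) (hφ : ∃ a ∈ B, ∃ b ∈ B, b ≠ 0 ∧ φ * b = a) : ∃ d, PG φ B d := by
  let _ : Algebra C B := (Subalgebra.inclusion hCB).toRingHom.toAlgebra
  let p : Ideal C := (maximalIdeal B).comap (algebraMap C B)
  have hp : p.IsPrime := Ideal.IsPrime.comap _
  have hunit : ∀ c : C, c ∉ p → IsUnit (algebraMap C B c) := by
    intro c hc
    by_contra h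
    exact hc ((mem_maximalIdeal _).mpr h)
  have hinj : Function.Injective (algebraMap C B) := fun a b h => Subtype.ext (congrArg (fun z : B => (z : F)) h)
  have hcoe : ∀ c : C, ((algebraMap C B c : B) : F) = c := fun _ => rfl
  have hl : IsLocalization.AtPrime B p := by
    refine ⟨⟨fun y => hunit y y.2, fun z => ?_, fun {x y} h => ⟨1, ?_⟩⟩⟩
    · obtain ⟨a, ha, b, hb, hb0, hbi, e⟩ := hloc z z.2
      have hbp : (⟨b, hb⟩ : C) ∈ p.primeCompl := by
        intro h
        have h1 : ¬ IsUnit (algebraMap C B ⟨b, hb⟩) := (mem_maximalIdeal _).mp h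
        apply h1
        exact IsUnit.of_mul_eq_one ⟨b⁻¹, hbi⟩ (Subtype.ext (mul_inv_cancel₀ hb0))
      exact ⟨(⟨a, ha⟩, ⟨⟨b, hb⟩, hbp⟩), Subtype.ext e⟩
    · rw [hinj h]
  let e : Localization.AtPrime p ≃ₐ[C] B := IsLocalization.algEquiv p.primeCompl _ _
  obtain ⟨a, ha, b, hb, hb0, hab⟩ := hφ
  obtain ⟨d, hd⟩ := H76.colon_principal (K := K) g p (e.symm ⟨a, ha⟩) (e.symm ⟨b, hb⟩)
  have hd' : ∀ c : B, (⟨b, hb⟩ : B) ∣ c * ⟨a, ha⟩ ↔ e d ∣ c := by
    intro c
    have h1 := hd (e.symm c)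
    rw [← map_mul, map_dvd_iff] at h1
    rw [h1]
    constructor
    · intro h2
      have := map_dvd e h2
      rwa [AlgEquiv.apply_symm_apply] at this
    · intro h2
      have := map_dvd e.symm h2
      rwa [AlgEquiv.symm_apply_apply] at this
  have hd0 : (e d : F) ≠ 0 := by
    have h1 : e d ∣ (⟨b, hb⟩ : B) := (hd' _).mp (Dvd.intro _ rfl)
    obtain ⟨k, hk⟩ := h1
    intro h2
    apply hb0
    have := congrArg (fun z : B => (z : F)) hk
    simpa [h2] using this
  refine ⟨e d, hd0, fun c => ⟨?_, ?_⟩⟩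
  · rintro ⟨h1, h2⟩
    have h3 : (⟨b, hb⟩ : B) ∣ ⟨c, h1⟩ * ⟨a, ha⟩ := by
      refine ⟨⟨c * φ, h2⟩, Subtype.ext ?_⟩
      show c * a = b * (c * φ)
      rw [← hab]; ring
    obtain ⟨k, hk⟩ := (hd' _).mp h3
    refine ⟨k, k.2, ?_⟩
    have := congrArg (fun z : B => (z : F)) hk
    rw [mul_comm]
    exact this
  · rintro ⟨k, hk, rfl⟩
    have h1 : (⟨b, hb⟩ : B) ∣ (e d * ⟨k, hk⟩) * ⟨a, ha⟩ := (hd' _).mpr (Dvd.intro _ rfl)
    obtain ⟨l, hl⟩ := h1
    refine ⟨mul_mem hk (e d).2, ?_⟩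
    have h2 : (e d : F) * k * a = b * l := congrArg (fun z : B => (z : F)) hl
    have h3 : k * (e d : F) * φ = l := by
      apply mul_right_cancel₀ hb0
      rw [mul_assoc, hab, mul_comm (l : F) b, ← h2]; ring
    rw [h3]; exact l.2

end PG

end Fermat.Agent.H87Sch
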