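/-
H87AVGood: the abstract variety of an abelian scheme satisfies `Good g` (project S26, job J4).
-/
import Mathlib
import Fermat.Agent.H26CDiv
import Fermat.Agent.H87AVScheme
import Fermat.Agent.H87Sch5
import Fermat.Agent.H87Pole
import Fermat.Agent.H43Smooth

set_option autoImplicit false
set_option linter.unusedSectionVars false

noncomputable section

open CategoryTheory CategoryTheory.Limits AlgebraicGeometry NeronModelInfra GoodReductionJacobian
open GoodReductionJacobian.RelativeGroupLaw AlgebraicCurve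

namespace Fermat.Agent.H87Sch

open Fermat.Agent.H26 Fermat.Agent

universe u

section geom

variable {K : Type u} [Field K] {A : Scheme.{u}} (f : A ⟶ Spec (CommRingCat.of K)) [IsIntegral A]
  [IsProper f]

theorem inv_mem_lr {y : A} {b : lr f y} (h : IsUnit b) : (b : FF f) ≠ 0 ∧ (b : FF f)⁻¹ ∈ lr f y := by
  obtain ⟨⟨u, v, huv, hvu⟩, rfl⟩ := h
  have h1 : (u : FF f) * v = 1 := congrArg Subtype.val huv
  refine ⟨left_ne_zero_of_mul_eq_one h1, ?_⟩
  show (u : FF f)⁻¹ ∈ lr f y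
  rw [← eq_inv_of_mul_eq_one_right h1]
  exact v.2

theorem chart_loc {V : A.Opens} (hV : IsAffineOpen V) {x y : A} (hx : x ∈ V) (hy : y ∈ V) :
    ∀ w ∈ lr f y, ∃ a ∈ chart f V hx, ∃ b ∈ chart f V hx, b ≠ 0 ∧ b⁻¹ ∈ lr f y ∧ w * b = a := by
  intro w hw
  obtain ⟨a, b, hb, e⟩ := exists_chart_mul f hV hx hy ⟨w, hw⟩
  obtain ⟨h1, h2⟩ := inv_mem_lr f hb
  exact ⟨a, a.2, b, b.2, h1, h2, e⟩

theorem lr_loc {x y : A} (h : y ⤳ x) :
    ∀ w ∈ lr f y, ∃ a ∈ lr f x, ∃ b ∈ lr f x, b ≠ 0 ∧ b⁻¹ ∈ lr f y ∧ w * b = a := by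
  intro w hw
  obtain ⟨a, b, hb, e⟩ := exists_mul_eq f h hw
  obtain ⟨h1, h2⟩ := inv_mem_lr f hb
  exact ⟨a, a.2, b, b.2, h1, h2, e⟩

theorem exists_fraction (x : A) (φ : FF f) :
    ∃ a ∈ lr f x, ∃ b ∈ lr f x, b ≠ 0 ∧ φ * b = a := by
  obtain ⟨a, ha, b, hb, hb0, -, e⟩ := lr_loc f
    ((genericPoint_spec A).specializes trivial : genericPoint A ⤳ x) φ
    (by rw [lr_genericPoint]; exact Algebra.mem_top)
  exact ⟨a, ha, b, hb, hb0, e⟩

end geom

section alg

variable {K : Type u} [Field K] [IsAlgClosed K] {A : Scheme.{u}} (f : A ⟶ Spec (CommRingCat.of K))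
  (L : RelativeGroupLaw K f) (hc : L.IsCommutative) [IsIntegral A] [IsProper f] (g : ℕ)
  [SmoothOfRelativeDimension g f]

include g in
theorem exists_PG (x : A) (φ : FF f) : ∃ d, PG φ (lr f x) d := by
  obtain ⟨V, hV, hx, hs⟩ := exists_smooth_chart f g x
  exact exists_PG_of_smooth g (chart_le_lr f V hx hx) (chart_loc f hV hx hx) φ
    (exists_fraction f x φ)

/-- the pole divisor of a function -/
def poleDiv (φ : FF f) : (avOfIntegral f L hc).CDiv where
  eqn := pgen φ
  eqn_ne_zero := pgen_ne_zero φ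
  unitIn_map {R S} _ _ _ _ _ _ ι P := by
    have h1 : PG φ (domP f P) (pgen φ (domP f P)) := pgen_spec (exists_PG f g _ φ)
    have h2 : PG φ (domP f (ptsMap f ι P)) (pgen φ (domP f (ptsMap f ι P))) :=
      pgen_spec (exists_PG f g _ φ)
    have hsp : ctr f (ptsMap f ι P) ⤳ ctr f P := specializes_comp ι.toRingHom P.hom
    have h3 : PG φ (domP f (ptsMap f ι P)) (pgen φ (domP f P)) :=
      h1.loc (lr_mono f hsp) (lr_loc f hsp)
    exact h3.unit h2
  exists_finset {E} _ _ P := by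
    classical
    let P' : Pts f E := P
    obtain ⟨V, hV, hx, hs⟩ := exists_smooth_chart f g (ctr f P')
    have hft : Algebra.FiniteType K (chart f V hx) := chart_finiteType f hV hx
    have hnoeth : IsNoetherianRing (chart f V hx) := Algebra.FiniteType.isNoetherianRing K _
    have hPG : PG φ (lr f (ctr f P')) (pgen φ (lr f (ctr f P'))) := pgen_spec (exists_PG f g _ φ)
    obtain ⟨s, hsC, hs0, hsi, hspread⟩ := hPG.spread (chart_le_lr f V hx hx)
      (chart_loc f hV hx hx)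
    obtain ⟨G, hG⟩ := hft.out
    let ev : chart f V hx →ₐ[K] E :=
      (evP f P').comp (Subalgebra.inclusion (chart_le_lr f V hx hx))
    refine ⟨insert (ev ⟨s, hsC⟩)⁻¹ (G.image ev), fun W hW => ?_⟩
    have hmem : ∀ c : chart f V hx, ev c ∈ W.toSubalgebra := by
      intro c
      have h1 : c ∈ Algebra.adjoin K (G : Set (chart f V hx)) := by rw [hG]; exact Algebra.mem_top
      have h2 : (G : Set (chart f V hx)) ⊆ (W.toSubalgebra.comap ev : Set (chart f V hx)) := by
        intro z hz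
        exact hW _ (Finset.mem_insert_of_mem (Finset.mem_image_of_mem _ hz))
      exact (Algebra.adjoin_le h2) h1
    let ψ : chart f V hx →ₐ[K] W.toSubalgebra := ev.codRestrict W.toSubalgebra hmem
    let Q : Pts f W.toSubalgebra := chartPt f hV hx ψ
    have hQ : ptsMap f W.toSubalgebra.val Q = P' := by
      rw [ptsMap_chartPt]
      have : W.toSubalgebra.val.comp ψ = ev := AlgHom.val_comp_codRestrict _ _ _
      rw [this]
      exact (eq_chartPt f hV hx P' hx).symm
    have hlift : (avOfIntegral f L hc).lift W P = Q :=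
      (avOfIntegral f L hc).lift_eq_of_map_eq hQ
    have hy : ctr f Q ∈ V := ctr_chartPt_mem f hV hx ψ
    have hsy : s⁻¹ ∈ lr f (ctr f Q) := by
      have h1 : IsUnit (ψ ⟨s, hsC⟩) := by
        have h2 : ev ⟨s, hsC⟩ ≠ 0 := by
          have h3 : IsUnit (⟨s, chart_le_lr f V hx hx hsC⟩ : lr f (ctr f P')) :=
            IsUnit.of_mul_eq_one ⟨s⁻¹, hsi⟩ (Subtype.ext (mul_inv_cancel₀ hs0))
          exact (h3.map (evP f P')).ne_zero
        exact IsUnit.of_mul_eq_one ⟨(ev ⟨s, hsC⟩)⁻¹, hW _ (Finset.mem_insert_self _ _)⟩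
          (Subtype.ext (mul_inv_cancel₀ h2))
      rw [← evP_chartPt f hV hx ψ] at h1
      have h2 := (isLocalHom_evR f Q.hom).map_nonunit _ h1
      exact (inv_mem_lr f h2).2
    have h1 : PG φ (lr f (ctr f Q)) (pgen φ (lr f (ctr f P'))) :=
      hspread _ (chart_le_lr f V hx hy) (chart_loc f hV hx hy) hsy
    have h2 : PG φ (lr f (ctr f Q)) (pgen φ (lr f (ctr f Q))) := pgen_spec (exists_PG f g _ φ)
    rw [hlift]
    exact h2.unit h1

theorem one_mem_poleDiv (φ : FF f) : (1 : FF f) ∈ (poleDiv f L hc g φ).sections := by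
  intro R _ _ _ P
  have h1 : PG φ (domP f P) (pgen φ (domP f P)) := pgen_spec (exists_PG f g _ φ)
  have h2 := h1.self_mem.1
  show (1 : FF f) * pgen φ (domP f P) ∈ domP f P
  rw [_root_.one_mul]; exact h2

theorem self_mem_poleDiv (φ : FF f) : φ ∈ (poleDiv f L hc g φ).sections := by
  intro R _ _ _ P
  have h1 : PG φ (domP f P) (pgen φ (domP f P)) := pgen_spec (exists_PG f g _ φ)
  have h2 := h1.self_mem.2
  show φ * pgen φ (domP f P) ∈ domP f P
  rw [mul_comm]; exact h2

include g in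
theorem exists_algInd_FF : ∃ φ : Fin g → FF f, AlgebraicIndependent K φ := by
  obtain ⟨V, hV, hx, hs⟩ := exists_smooth_chart f g (genericPoint A)
  obtain ⟨φ, hφ⟩ := H43.Sm.exists_algInd (K := K) (B := chart f V hx) g
  exact ⟨fun i => φ i, hφ.map' (f := (chart f V hx).val) Subtype.val_injective⟩

theorem ringKrullDim_le_of_loc {K F : Type*} [Field K] [Field F] [Algebra K F]
    {C B : Subalgebra K F} (hCB : C ≤ B)
    (hloc : ∀ w ∈ B, ∃ a ∈ C, ∃ b ∈ C, b ≠ 0 ∧ b⁻¹ ∈ B ∧ w * b = a) :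
    ringKrullDim B ≤ ringKrullDim C := by
  let j : C →+* B := (Subalgebra.inclusion hCB).toRingHom
  have key : ∀ P Q : PrimeSpectrum B, PrimeSpectrum.comap j P ≤ PrimeSpectrum.comap j Q → P ≤ Q := by
    intro P Q h w hw
    obtain ⟨a, ha, b, hb, hb0, hbi, e⟩ := hloc w w.2
    have h1 : (j ⟨a, ha⟩ : B) = w * j ⟨b, hb⟩ := Subtype.ext e.symm
    have h2 : (⟨a, ha⟩ : C) ∈ (PrimeSpectrum.comap j P).asIdeal := by
      show j ⟨a, ha⟩ ∈ P.asIdeal
      rw [h1]; exact Ideal.mul_mem_right _ _ hw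
    have h3 : j ⟨a, ha⟩ ∈ Q.asIdeal := h h2
    have h4 : w = j ⟨a, ha⟩ * ⟨b⁻¹, hbi⟩ := by
      rw [h1]
      apply Subtype.ext
      show (w : F) = w * b * b⁻¹
      rw [mul_inv_cancel_right₀ hb0]
    rw [h4]; exact Ideal.mul_mem_right _ _ h3
  refine Order.krullDim_le_of_strictMono (PrimeSpectrum.comap j) fun P Q h => ?_
  refine lt_of_le_not_ge (Ideal.comap_mono h.le) fun h' => ?_
  exact h.not_ge (key _ _ h')

include g in
theorem ringKrullDim_lr_le (x : A) : ringKrullDim (lr f x) ≤ g := by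
  obtain ⟨V, hV, hx, hs⟩ := exists_smooth_chart f g x
  exact (ringKrullDim_le_of_loc (chart_le_lr f V hx hx) (chart_loc f hV hx hx)).trans
    (H43.Sm.krullDim_le (K := K) (B := chart f V hx) g)

theorem val_avOf {R : Type u} [CommRing R] [Algebra K R] [IsLocalRing R] (Y : Pts f R) (w : FF f)
    (hw : w ∈ lr f (ctr f Y)) : (avOfIntegral f L hc).val Y w = evP f Y ⟨w, hw⟩ :=
  AV.val_eq (𝒜 := avOfIntegral f L hc) (P := Y) (w := w) hw

include g in
theorem exists_curve_avOfIntegral (φ : FF f)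
    (hφ : φ ∈ (avOfIntegral f L hc).dom (0 : (avOfIntegral f L hc).Pt K)) (hφ0 : φ ≠ 0) :
    ∃ (E : Type u) (_ : Field E) (_ : Algebra K E) (_ : H3RR.IsFF K E) (c : Place K E)
      (X : (avOfIntegral f L hc).Pt E) (π : (plV K c).toSubalgebra →ₐ[K] K),
      (avOfIntegral f L hc).map π ((avOfIntegral f L hc).lift (plV K c) X) = 0 ∧
      (avOfIntegral f L hc).val X φ ≠ 0 := by
  let O : Pts f K := (0 : (avOfIntegral f L hc).Pt K)
  obtain ⟨V, hV, hx, hs⟩ := exists_smooth_chart f g (ctr f O)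
  let C := chart f V hx
  let χ : C →ₐ[K] K := (evP f O).comp (Subalgebra.inclusion (chart_le_lr f V hx hx))
  obtain ⟨a, ha, b, hb, hb0, hbi, e⟩ := chart_loc f hV hx hx φ hφ
  have ha0 : (⟨a, ha⟩ : C) ≠ 0 := by
    intro h
    have h1 : a = 0 := congrArg Subtype.val h
    rw [h1] at e
    rcases mul_eq_zero.mp e with h2 | h2
    · exact hφ0 h2
    · exact hb0 h2
  obtain ⟨E, _, _, _, c, h, π, hπ, hh⟩ :=
    H43.Sm.exists_curve_through (K := K) (B := C) g χ ⟨a, ha⟩ ha0
  let Y : Pts f (plV K c).toSubalgebra := chartPt f hV hx h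
  let X : Pts f E := ptsMap f (plV K c).toSubalgebra.val Y
  have hlift : (avOfIntegral f L hc).lift (plV K c) X = Y :=
    (avOfIntegral f L hc).lift_eq_of_map_eq rfl
  refine ⟨E, inferInstance, inferInstance, inferInstance, c, X, π, ?_, ?_⟩
  · rw [hlift]
    show ptsMap f π (chartPt f hV hx h) = O
    rw [ptsMap_chartPt, hπ]
    exact (eq_chartPt f hV hx O hx).symm
  · -- b is a unit at the centre of Y
    have hy : ctr f Y ∈ V := ctr_chartPt_mem f hV hx h
    have hbu : IsUnit (h ⟨b, hb⟩) := by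
      by_contra hnu
      have h1 : χ ⟨b, hb⟩ ≠ 0 := by
        have h3 : IsUnit (⟨b, chart_le_lr f V hx hx hb⟩ : lr f (ctr f O)) :=
          IsUnit.of_mul_eq_one ⟨b⁻¹, hbi⟩ (Subtype.ext (mul_inv_cancel₀ hb0))
        exact (h3.map (evP f O)).ne_zero
      apply h1
      rw [← hπ]
      -- π kills non units
      have h4 : h ⟨b, hb⟩ - algebraMap K _ (π (h ⟨b, hb⟩)) ∈ RingHom.ker π.toRingHom := by
        rw [RingHom.mem_ker]
        show π (h ⟨b, hb⟩ - algebraMap K _ (π (h ⟨b, hb⟩))) = 0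
        rw [map_sub, AlgHom.commutes, Algebra.algebraMap_self, RingHom.id_apply, sub_self]
      by_contra h5
      have h6 : ¬ IsUnit (h ⟨b, hb⟩ - algebraMap K _ (π (h ⟨b, hb⟩))) := by
        intro hu
        have := hu.map π
        rw [show π (h ⟨b, hb⟩ - algebraMap K _ (π (h ⟨b, hb⟩))) = 0 from h4] at this
        exact not_isUnit_zero this
      have h7 : IsUnit (algebraMap K (plV K c).toSubalgebra (π (h ⟨b, hb⟩))) :=
        (isUnit_iff_ne_zero.mpr h5).map (algebraMap K (plV K c).toSubalgebra)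
      have h8 : algebraMap K (plV K c).toSubalgebra (π (h ⟨b, hb⟩)) =
          h ⟨b, hb⟩ - (h ⟨b, hb⟩ - algebraMap K _ (π (h ⟨b, hb⟩))) := by ring
      rw [h8] at h7
      exact (IsLocalRing.mem_maximalIdeal _).mp (sub_mem ((IsLocalRing.mem_maximalIdeal _).mpr hnu)
        ((IsLocalRing.mem_maximalIdeal _).mpr h6)) h7
    have hbY : b⁻¹ ∈ lr f (ctr f Y) := by
      have hbu' := hbu
      rw [← evP_chartPt f hV hx h] at hbu'
      exact (inv_mem_lr f ((isLocalHom_evR f Y.hom).map_nonunit _ hbu')).2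
    have haY : a ∈ lr f (ctr f Y) := chart_le_lr f V hx hy ha
    have hbY' : b ∈ lr f (ctr f Y) := chart_le_lr f V hx hy hb
    have hφe : φ = a * b⁻¹ := by rw [← e, mul_inv_cancel_right₀ hb0]
    have hφY : φ ∈ lr f (ctr f Y) := by
      rw [hφe]; exact mul_mem haY hbY
    have h1 : (avOfIntegral f L hc).val X φ =
        (plV K c).toSubalgebra.val ((avOfIntegral f L hc).val Y φ) :=
      AV.val_map (𝒜 := avOfIntegral f L hc) hφY
    rw [h1, val_avOf f L hc Y φ hφY]
    have h2 : evP f Y ⟨φ, hφY⟩ * evP f Y ⟨b, hbY'⟩ = evP f Y ⟨a, haY⟩ := by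
      rw [← map_mul]
      congr 1
      exact Subtype.ext e
    have h3 : evP f Y ⟨a, haY⟩ = h ⟨a, ha⟩ := evP_chartPt f hV hx h ⟨a, ha⟩
    intro h0
    have h4 : evP f Y ⟨φ, hφY⟩ = 0 := Subtype.ext h0
    rw [h4, zero_mul, h3] at h2
    exact hh h2.symm

/-- J4 for proper integral smooth group schemes -/
theorem good_avOfIntegral : (avOfIntegral f L hc).Good g where
  exists_pole φ := ⟨poleDiv f L hc g φ, one_mem_poleDiv f L hc g φ, self_mem_poleDiv f L hc g φ⟩
  exists_algInd := exists_algInd_FF f g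
  dim_le := ringKrullDim_lr_le f g _
  exists_curve φ hφ hφ0 := exists_curve_avOfIntegral f L hc g φ hφ hφ0

end alg

end Fermat.Agent.H87Sch

namespace Fermat.Agent.H26

universe u

/-- J4 -/
theorem AV.good_ofScheme (K : Type u) [Field K] [IsAlgClosed K] {A : Scheme.{u}}
    (f : A ⟶ Spec (CommRingCat.of K)) (L : RelativeGroupLaw K f) (hc : L.IsCommutative)
    (hA : AbelianSchemePropertyBundle K f) (g : ℕ) [SmoothOfRelativeDimension g f] :
    (AV.ofScheme K f L hc hA).Good g := by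
  have := isIntegral_of_bundle hA
  have := hA.proper
  exact H87Sch.good_avOfIntegral f L hc g

end Fermat.Agent.H26
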