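import Mathlib.AlgebraicGeometry.EllipticCurve.Affine.AddSubMap
import Mathlib.AlgebraicGeometry.EllipticCurve.DivisionPolynomial.Degree
import Mathlib.Tactic

set_option autoImplicit false

/-!
# The x-coordinate of `P + Q` and `P - Q` (H87)
-/

namespace Fermat.Agent.H87

open WeierstrassCurve WeierstrassCurve.Affine WeierstrassCurve.Affine.Point

variable {K : Type*} [Field K] [DecidableEq K] (W : Affine K)

/-- first coordinate of the addition-subtraction map -/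
def aS0 (s t u : K) : K := s ^ 2 - W.b₄ * s * u - W.b₆ * t * u - W.b₈ * u ^ 2
/-- second coordinate of the addition-subtraction map -/
def aS1 (s t u : K) : K := 2 * t * s + W.b₂ * s * u + W.b₄ * t * u + W.b₆ * u ^ 2
/-- third coordinate of the addition-subtraction map -/
def aS2 (s t u : K) : K := t ^ 2 - 4 * s * u

variable {W}

/-- The relation: `addSubMap (sym2x P Q) = c • sym2x (P + Q) (P - Q)` with `c ≠ 0`. -/
def AddSubRel (P Q : W.Point) : Prop :=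
  ∃ c : K, c ≠ 0 ∧
    aS0 W (P.sym2x Q 0) (P.sym2x Q 1) (P.sym2x Q 2) = c * (P + Q).sym2x (P - Q) 0 ∧
    aS1 W (P.sym2x Q 0) (P.sym2x Q 1) (P.sym2x Q 2) = c * (P + Q).sym2x (P - Q) 1 ∧
    aS2 (P.sym2x Q 0) (P.sym2x Q 1) (P.sym2x Q 2) = c * (P + Q).sym2x (P - Q) 2

lemma addSubRel_neg {P Q : W.Point} (h : AddSubRel P Q) : AddSubRel P (-Q) := by
  obtain ⟨c, hc, h0, h1, h2⟩ := h
  refine ⟨c, hc, ?_, ?_, ?_⟩ <;>
    rw [sub_neg_eq_add, sym2x_neg_right, ← sub_eq_add_neg, sym2x_comm (P - Q) (P + Q)] <;>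
    assumption

lemma addSubRel_zero_left (Q : W.Point) : AddSubRel 0 Q := by
  refine ⟨1, one_ne_zero, ?_⟩
  rw [zero_add, zero_sub, sym2x_neg_right]
  rcases Q with _ | ⟨x, y, h⟩
  · rw [← zero_def]
    simp [aS0, aS1, aS2]
  · simp [aS0, aS1, aS2]
    refine ⟨?_, ?_⟩ <;> ring

lemma addSubRel_zero_right (P : W.Point) : AddSubRel P 0 := by
  refine ⟨1, one_ne_zero, ?_⟩
  rw [add_zero, sub_zero]
  rcases P with _ | ⟨x, y, h⟩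
  · rw [← zero_def]
    simp [aS0, aS1, aS2]
  · simp [aS0, aS1, aS2]
    refine ⟨?_, ?_⟩ <;> ring

lemma addSubRel_self {x y : K} (h : W.Nonsingular x y) :
    AddSubRel (some x y h) (some x y h) := by
  have heq := (equation_iff ..).mp h.1
  by_cases hy : y = W.negY x y
  · have h2 : (some x y h : W.Point) + some x y h = 0 := add_self_of_Y_eq hy
    rw [AddSubRel, h2, sub_self]
    rw [negY] at hy
    have hx : W.a₁ * y - (3 * x ^ 2 + 2 * W.a₂ * x + W.a₄) ≠ 0 := by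
      intro h0
      rw [nonsingular_iff'] at h
      rcases h.2 with h3 | h3
      · exact h3 h0
      · exact h3 (by linear_combination hy)
    refine ⟨(W.a₁ * y - (3 * x ^ 2 + 2 * W.a₂ * x + W.a₄)) ^ 2, pow_ne_zero 2 hx, ?_, ?_, ?_⟩
    · simp only [aS0, sym2x_some_some, sym2x_zero_zero, Matrix.cons_val_zero, Matrix.cons_val_one,
        Matrix.cons_val, b₄, b₆, b₈]
      linear_combination (W.a₁ * (3 * x ^ 2 + 2 * W.a₂ * x + W.a₄ - W.a₁ * y) - (W.a₂ + 2 * x) *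
        (2 * y + W.a₁ * x + W.a₃)) * hy + (W.a₁ ^ 2 + 4 * W.a₂ + 8 * x) * heq
    · simp only [aS1, sym2x_some_some, sym2x_zero_zero, Matrix.cons_val_zero, Matrix.cons_val_one,
        Matrix.cons_val, b₂, b₄, b₆]
      linear_combination (2 * y + W.a₁ * x + W.a₃) * hy - 4 * heq
    · simp only [aS2, sym2x_some_some, sym2x_zero_zero, Matrix.cons_val_zero, Matrix.cons_val_one,
        Matrix.cons_val]
      ring
  · have h2 : (some x y h : W.Point) + some x y h = some _ _ _ := add_self_of_Y_ne hy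
    rw [AddSubRel, h2, sub_self]
    have hy' : 2 * y + W.a₁ * x + W.a₃ ≠ 0 := by
      intro h0
      apply hy
      rw [negY]
      linear_combination h0
    have hsl : W.slope x x y y * (2 * y + W.a₁ * x + W.a₃) =
        3 * x ^ 2 + 2 * W.a₂ * x + W.a₄ - W.a₁ * y := by
      rw [slope_of_Y_ne rfl hy, negY]
      have : y - (-y - W.a₁ * x - W.a₃) = 2 * y + W.a₁ * x + W.a₃ := by ring
      rw [this, div_mul_cancel₀ _ hy']
    refine ⟨(2 * y + W.a₁ * x + W.a₃) ^ 2, pow_ne_zero 2 hy', ?_, ?_, ?_⟩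
    · simp only [aS0, sym2x_some_some, sym2x_some_zero, Matrix.cons_val_zero, Matrix.cons_val_one,
        Matrix.cons_val, addX, b₄, b₆, b₈]
      linear_combination -(W.slope x x y y * (2 * y + W.a₁ * x + W.a₃) +
        (3 * x ^ 2 + 2 * W.a₂ * x + W.a₄ - W.a₁ * y) +
        W.a₁ * (2 * y + W.a₁ * x + W.a₃)) * hsl + (W.a₁ ^ 2 + 4 * W.a₂ + 8 * x) * heq
    · simp only [aS1, sym2x_some_some, sym2x_some_zero, Matrix.cons_val_zero, Matrix.cons_val_one,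
        Matrix.cons_val, b₂, b₄, b₆]
      linear_combination - 4 * heq
    · simp only [aS2, sym2x_some_some, sym2x_some_zero, Matrix.cons_val_zero, Matrix.cons_val_one,
        Matrix.cons_val]
      ring

omit [DecidableEq K] in
private lemma aux_sum (a₁ a₂ a₃ a₄ a₆ x₁ x₂ y₁ y₂ : K)
    (heq₁ : y₁ ^ 2 + a₁ * x₁ * y₁ + a₃ * y₁ = x₁ ^ 3 + a₂ * x₁ ^ 2 + a₄ * x₁ + a₆)
    (heq₂ : y₂ ^ 2 + a₁ * x₂ * y₂ + a₃ * y₂ = x₂ ^ 3 + a₂ * x₂ ^ 2 + a₄ * x₂ + a₆) :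
    2 * (x₁ + x₂) * (x₁ * x₂) + (a₁ ^ 2 + 4 * a₂) * (x₁ * x₂) +
      (2 * a₄ + a₁ * a₃) * (x₁ + x₂) + (a₃ ^ 2 + 4 * a₆) =
    ((y₁ - y₂) ^ 2 + a₁ * (y₁ - y₂) * (x₁ - x₂) - (a₂ + x₁ + x₂) * (x₁ - x₂) ^ 2) +
      ((y₁ + y₂ + a₁ * x₂ + a₃) ^ 2 + a₁ * (y₁ + y₂ + a₁ * x₂ + a₃) * (x₁ - x₂)
        - (a₂ + x₁ + x₂) * (x₁ - x₂) ^ 2) := by
  linear_combination -2 * heq₁ - 2 * heq₂

omit [DecidableEq K] in
private lemma aux_prod (a₁ a₂ a₃ a₄ a₆ x₁ x₂ y₁ y₂ : K)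
    (heq₁ : y₁ ^ 2 + a₁ * x₁ * y₁ + a₃ * y₁ = x₁ ^ 3 + a₂ * x₁ ^ 2 + a₄ * x₁ + a₆)
    (heq₂ : y₂ ^ 2 + a₁ * x₂ * y₂ + a₃ * y₂ = x₂ ^ 3 + a₂ * x₂ ^ 2 + a₄ * x₂ + a₆) :
    (x₁ - x₂) ^ 2 * ((x₁ * x₂) ^ 2 - (2 * a₄ + a₁ * a₃) * (x₁ * x₂) -
      (a₃ ^ 2 + 4 * a₆) * (x₁ + x₂) -
      (a₁ ^ 2 * a₆ + 4 * a₂ * a₆ - a₁ * a₃ * a₄ + a₂ * a₃ ^ 2 - a₄ ^ 2)) =
    ((y₁ - y₂) ^ 2 + a₁ * (y₁ - y₂) * (x₁ - x₂) - (a₂ + x₁ + x₂) * (x₁ - x₂) ^ 2) *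
      ((y₁ + y₂ + a₁ * x₂ + a₃) ^ 2 + a₁ * (y₁ + y₂ + a₁ * x₂ + a₃) * (x₁ - x₂)
        - (a₂ + x₁ + x₂) * (x₁ - x₂) ^ 2) := by
  grind

lemma addSubRel_of_X_ne {x₁ y₁ x₂ y₂ : K} (h₁ : W.Nonsingular x₁ y₁) (h₂ : W.Nonsingular x₂ y₂)
    (hx : x₁ ≠ x₂) : AddSubRel (some x₁ y₁ h₁) (some x₂ y₂ h₂) := by
  have heq₁ := (equation_iff ..).mp h₁.1
  have heq₂ := (equation_iff ..).mp h₂.1
  have hx' : x₁ - x₂ ≠ 0 := sub_ne_zero.mpr hx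
  rw [AddSubRel, sub_eq_add_neg, neg_some, add_of_X_ne hx, add_of_X_ne hx]
  have hs1 : W.slope x₁ x₂ y₁ y₂ * (x₁ - x₂) = y₁ - y₂ := by
    rw [slope_of_X_ne hx, div_mul_cancel₀ _ hx']
  have hs2 : W.slope x₁ x₂ y₁ (W.negY x₂ y₂) * (x₁ - x₂) = y₁ + y₂ + W.a₁ * x₂ + W.a₃ := by
    rw [slope_of_X_ne hx, div_mul_cancel₀ _ hx', negY]
    ring
  have e1 : (x₁ - x₂) ^ 2 * W.addX x₁ x₂ (W.slope x₁ x₂ y₁ y₂) =
    (y₁ - y₂) ^ 2 + W.a₁ * (y₁ - y₂) * (x₁ - x₂) - (W.a₂ + x₁ + x₂) * (x₁ - x₂) ^ 2 := by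
    rw [addX]
    linear_combination (W.slope x₁ x₂ y₁ y₂ * (x₁ - x₂) + (y₁ - y₂) + W.a₁ * (x₁ - x₂)) * hs1
  have e2 : (x₁ - x₂) ^ 2 * W.addX x₁ x₂ (W.slope x₁ x₂ y₁ (W.negY x₂ y₂)) =
    (y₁ + y₂ + W.a₁ * x₂ + W.a₃) ^ 2 + W.a₁ * (y₁ + y₂ + W.a₁ * x₂ + W.a₃) * (x₁ - x₂)
      - (W.a₂ + x₁ + x₂) * (x₁ - x₂) ^ 2 := by
    rw [addX]
    linear_combination (W.slope x₁ x₂ y₁ (W.negY x₂ y₂) * (x₁ - x₂) +
      (y₁ + y₂ + W.a₁ * x₂ + W.a₃) + W.a₁ * (x₁ - x₂)) * hs2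
  refine ⟨(x₁ - x₂) ^ 2, pow_ne_zero 2 hx', ?_, ?_, ?_⟩
  · simp only [aS0, sym2x_some_some, Matrix.cons_val_zero, Matrix.cons_val_one,
      Matrix.cons_val, b₄, b₆, b₈]
    have hxx : (x₁ - x₂) ^ 2 ≠ 0 := pow_ne_zero 2 hx'
    apply mul_left_cancel₀ hxx
    calc _ = ((x₁ - x₂) ^ 2 * W.addX x₁ x₂ (W.slope x₁ x₂ y₁ y₂)) *
          ((x₁ - x₂) ^ 2 * W.addX x₁ x₂ (W.slope x₁ x₂ y₁ (W.negY x₂ y₂))) := by
            rw [e1, e2, ← aux_prod _ _ _ _ _ _ _ _ _ heq₁ heq₂]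
            ring
      _ = _ := by ring
  · simp only [aS1, sym2x_some_some, Matrix.cons_val_zero, Matrix.cons_val_one,
      Matrix.cons_val, b₂, b₄, b₆]
    linear_combination aux_sum _ _ _ _ _ _ _ _ _ heq₁ heq₂ - e1 - e2
  · simp only [aS2, sym2x_some_some, Matrix.cons_val_zero, Matrix.cons_val_one,
      Matrix.cons_val]
    ring

theorem addSubRel (P Q : W.Point) : AddSubRel P Q := by
  rcases P with _ | ⟨x₁, y₁, h₁⟩
  · exact addSubRel_zero_left Q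
  rcases Q with _ | ⟨x₂, y₂, h₂⟩
  · exact addSubRel_zero_right _
  by_cases hx : x₁ = x₂
  · subst hx
    rcases Y_eq_of_X_eq h₁.1 h₂.1 rfl with hy | hy
    · subst hy
      exact addSubRel_self h₁
    · have : (some x₁ y₂ h₂ : W.Point) = - some x₁ y₁ h₁ := by
        rw [neg_some]
        subst hy
        simp only [Point.some.injEq, true_and]
        rw [negY_negY]
      rw [this]
      exact addSubRel_neg (addSubRel_self h₁)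
  · exact addSubRel_of_X_ne h₁ h₂ hx

end Fermat.Agent.H87
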