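import Mathlib.Tactic
import Mathlib.NumberTheory.EllipticDivisibilitySequence
set_option autoImplicit false

namespace Fermat.Agent.H87

section chain

variable {K : Type*} [Field K]

private lemma step_aux {T A B U V D en em em1 em0 s s1 s0 d d1 d0 : K}
    (hA : A * en ^ 2 * em0 ^ 2 = -(s0 * d1)) (hB : B * em ^ 2 = -(em1 * em0))
    (hU : U * s ^ 2 = s1 * s0) (hV : V * d ^ 2 = d1 * d0) (hD : D * en ^ 2 * em ^ 2 = -(s * d))
    (star : T * A * B ^ 2 = U * V * D ^ 2)
    (h0 : s0 ≠ 0) (h1 : d1 ≠ 0) (h2 : s ≠ 0) (h3 : d ≠ 0) (h4 : em0 ≠ 0) :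
    T * en ^ 2 * em1 ^ 2 = -(s1 * d0) := by
  have hne : s0 * d1 * s ^ 2 * d ^ 2 * em0 ^ 2 ≠ 0 := by positivity
  apply mul_left_cancel₀ hne
  calc (s0 * d1 * s ^ 2 * d ^ 2 * em0 ^ 2) * (T * en ^ 2 * em1 ^ 2)
      = -(T * (-(s0 * d1)) * (-(em1 * em0)) ^ 2 * (en ^ 2 * s ^ 2 * d ^ 2)) := by ring
    _ = -(T * (A * en ^ 2 * em0 ^ 2) * (B * em ^ 2) ^ 2 * (en ^ 2 * s ^ 2 * d ^ 2)) := by
        rw [hA, hB]
    _ = -((T * A * B ^ 2) * (en ^ 4 * em0 ^ 2 * em ^ 4 * s ^ 2 * d ^ 2)) := by ring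
    _ = -((U * V * D ^ 2) * (en ^ 4 * em0 ^ 2 * em ^ 4 * s ^ 2 * d ^ 2)) := by rw [star]
    _ = -((U * s ^ 2) * (V * d ^ 2) * (D * en ^ 2 * em ^ 2) ^ 2 * em0 ^ 2) := by ring
    _ = -((s1 * s0) * (d1 * d0) * (-(s * d)) ^ 2 * em0 ^ 2) := by rw [hU, hV, hD]
    _ = (s0 * d1 * s ^ 2 * d ^ 2 * em0 ^ 2) * (-(s1 * d0)) := by ring

/-- Abstract chain lemma: from the "difference with `P`" formulas up to `M`, and the two kinds of
symmetric relations between x-coordinates, deduce the general difference formula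
`(X (m+j) - X m) e(m+j)^2 e(m)^2 = - e(2m+j) e(j)` for `2m+j ≤ M+1`. -/
lemma chain (X e : ℕ → K) (M : ℕ) (he1 : e 1 = 1)
    (hne : ∀ k, 1 ≤ k → k ≤ M → e k ≠ 0)
    (h1 : ∀ i, i + 1 ≤ M → (X 1 - X (i + 1)) * e (i + 1) ^ 2 = e (i + 2) * e i)
    (star1 : ∀ j, 1 ≤ j → j + 3 ≤ M → (X (j + 2) - X 2) * e 2 ^ 2 =
      -((X 1 - X (j + 3)) * (X 1 - X (j + 1)) * (X (j + 2) - X 1) ^ 2))
    (star : ∀ i j, 2 ≤ j → 2 * i + 4 + j ≤ M →
      (X (i + 2 + j) - X (i + 3)) * (X (i + 2 + j) - X (i + 1)) * (X (i + 2) - X 1) ^ 2 =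
      (X 1 - X (2 * i + 4 + j)) * (X 1 - X j) * (X (i + 2 + j) - X (i + 2)) ^ 2) :
    ∀ m j, 1 ≤ m → 1 ≤ j → 2 * m + j ≤ M + 1 →
      (X (m + j) - X m) * e (m + j) ^ 2 * e m ^ 2 = -(e (2 * m + j) * e j) := by
  intro m
  induction m using Nat.strong_induction_on with
  | _ m ih =>
    intro j hm hj hM
    rcases m with _ | _ | _ | i
    · omega
    · have := h1 j (by omega)
      simp only [zero_add, he1, one_pow, mul_one]
      rw [show 1 + j = j + 1 by ring, show 2 + j = j + 2 by ring]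
      linear_combination -this
    · have hs := star1 j hj (by omega)
      have ha := h1 (j + 2) (by omega)
      have hb := h1 j (by omega)
      have hc := h1 (j + 1) (by omega)
      simp only [zero_add, one_add_one_eq_two]
      rw [show 2 + j = j + 2 by ring, show 2 * 2 + j = j + 4 by ring]
      simp only [add_assoc, Nat.reduceAdd] at ha hb hc hs
      have n1 : e (j + 1) ≠ 0 := hne _ (by omega) (by omega)
      have n2 : e (j + 2) ≠ 0 := hne _ (by omega) (by omega)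
      have n3 : e (j + 3) ≠ 0 := hne _ (by omega) (by omega)
      have hn : e (j + 3) ^ 2 * e (j + 1) ^ 2 * e (j + 2) ^ 2 ≠ 0 := by positivity
      apply mul_left_cancel₀ hn
      calc e (j + 3) ^ 2 * e (j + 1) ^ 2 * e (j + 2) ^ 2 *
            ((X (j + 2) - X 2) * e (j + 2) ^ 2 * e 2 ^ 2)
          = ((X (j + 2) - X 2) * e 2 ^ 2) *
            (e (j + 3) ^ 2 * e (j + 1) ^ 2 * e (j + 2) ^ 4) := by ring
        _ = -(((X 1 - X (j + 3)) * e (j + 3) ^ 2) * ((X 1 - X (j + 1)) * e (j + 1) ^ 2) *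
            ((X 1 - X (j + 2)) * e (j + 2) ^ 2) ^ 2) := by rw [hs]; ring
        _ = _ := by rw [ha, hb, hc]; ring
    · rcases Nat.lt_or_ge j 1 with h | h
      · omega
      -- m = i + 3, n = i + 3 + j ; use j' = j + 1 for m' = i + 2, and j'' = j + 2 for i + 1
      have hs := star i (j + 1) (by omega) (by omega)
      have hD := ih (i + 2) (by omega) (j + 1) (by omega) (by omega) (by omega)
      have hA := ih (i + 1) (by omega) (j + 2) (by omega) (by omega) (by omega)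
      have hB := h1 (i + 1) (by omega)
      have hU := h1 (2 * i + 4 + j) (by omega)
      have hV := h1 j (by omega)
      rw [show i + 1 + 1 = i + 2 by ring, show i + 1 + 2 = i + 3 by ring] at hB
      rw [show 2 * i + 4 + j + 1 = 2 * i + 5 + j by ring,
        show 2 * i + 4 + j + 2 = 2 * i + 6 + j by ring] at hU
      rw [show i + 1 + (j + 2) = i + 3 + j by ring,
        show 2 * (i + 1) + (j + 2) = 2 * i + 4 + j by ring] at hA
      rw [show i + 2 + (j + 1) = i + 3 + j by ring,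
        show 2 * (i + 2) + (j + 1) = 2 * i + 5 + j by ring] at hD
      rw [show i + 2 + (j + 1) = i + 3 + j by ring,
        show 2 * i + 4 + (j + 1) = 2 * i + 5 + j by ring] at hs
      rw [show i + 1 + 1 + 1 = i + 3 by ring, show 2 * (i + 3) + j = 2 * i + 6 + j by ring]
      exact step_aux hA (B := X (i + 2) - X 1) (em := e (i + 2)) (by linear_combination -hB)
        hU hV hD hs (hne _ (by omega) (by omega)) (hne _ (by omega) (by omega))
        (hne _ (by omega) (by omega)) (hne _ (by omega) (by omega)) (hne _ (by omega) (by omega))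

end chain

end Fermat.Agent.H87
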