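import Fermat.Agent.H87AddSub
import Fermat.Agent.H87Chain

set_option autoImplicit false

/-!
# Multiples of a generic point (H87)
-/

namespace Fermat.Agent.H87

open WeierstrassCurve WeierstrassCurve.Affine WeierstrassCurve.Affine.Point

variable {K : Type*} [Field K] [DecidableEq K] {W : Affine K}

omit [DecidableEq K] in
lemma xRep_one {A : W.Point} (h : A ≠ 0) : A.xRep 1 = 1 := by
  rcases A with _ | ⟨x, y, hA⟩
  · exact absurd zero_def h
  · simp

lemma sym2x_eq {A B : W.Point} (hA : A ≠ 0) (hB : B ≠ 0) :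
    A.sym2x B 0 = A.xRep 0 * B.xRep 0 ∧ A.sym2x B 1 = A.xRep 0 + B.xRep 0 ∧
      A.sym2x B 2 = 1 := by
  simp [sym2x, xRep_one hA, xRep_one hB]

/-- `H a b c = (a-x(Q+R))(a-x(Q-R))(b-c)^2` for `b=x(Q), c=x(R)`. -/
def HH (W : Affine K) (a b c : K) : K :=
  a ^ 2 * aS2 (b * c) (b + c) 1 - a * aS1 W (b * c) (b + c) 1 + aS0 W (b * c) (b + c) 1

omit [DecidableEq K] in
lemma HH_symm (a b c : K) : HH W a b c = HH W c a b := by
  simp only [HH, aS0, aS1, aS2]
  ring

lemma HH_eq {A B : W.Point} (hA : A ≠ 0) (hB : B ≠ 0) (hAB : A + B ≠ 0) (hAB' : A - B ≠ 0)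
    (a : K) : HH W a (A.xRep 0) (B.xRep 0) =
      (a - (A + B).xRep 0) * (a - (A - B).xRep 0) * (A.xRep 0 - B.xRep 0) ^ 2 := by
  obtain ⟨c, hc, h0, h1, h2⟩ := addSubRel A B
  obtain ⟨s0, s1, s2⟩ := sym2x_eq hA hB
  obtain ⟨t0, t1, t2⟩ := sym2x_eq hAB hAB'
  rw [s0, s1, s2] at h0 h1 h2
  rw [t0] at h0
  rw [t1] at h1
  rw [t2] at h2
  rw [HH, h0, h1, h2]
  have hc' : c = (A.xRep 0 - B.xRep 0) ^ 2 := by
    rw [aS2] at h2
    linear_combination -h2
  rw [hc']
  ring

lemma HH_self {A : W.Point} (hA : A ≠ 0) (hAA : A + A ≠ 0)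
    (a : K) : HH W a (A.xRep 0) (A.xRep 0) =
      -((a - (A + A).xRep 0) * (W.Ψ₂Sq.eval (A.xRep 0))) := by
  obtain ⟨c, hc, h0, h1, h2⟩ := addSubRel A A
  obtain ⟨s0, s1, s2⟩ := sym2x_eq hA hA
  rw [sub_self] at h0 h1 h2
  have t0 : (A + A).sym2x 0 0 = (A + A).xRep 0 := by simp [sym2x]
  have t1 : (A + A).sym2x 0 1 = 1 := by simp [sym2x, xRep_one hAA]
  have t2 : (A + A).sym2x 0 2 = 0 := by simp [sym2x]
  rw [s0, s1, s2] at h0 h1 h2
  rw [t0] at h0
  rw [t1] at h1
  rw [t2] at h2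
  rw [HH, h0, h1, h2]
  have hc' : c = W.Ψ₂Sq.eval (A.xRep 0) := by
    rw [aS1] at h1
    simp only [Ψ₂Sq, Polynomial.eval_add, Polynomial.eval_mul, Polynomial.eval_C,
      Polynomial.eval_pow, Polynomial.eval_X]
    linear_combination -h1
  rw [hc']
  ring

end Fermat.Agent.H87

namespace Fermat.Agent.H87

open WeierstrassCurve WeierstrassCurve.Affine WeierstrassCurve.Affine.Point

section seq

variable {R : Type*} [CommRing R] (W : WeierstrassCurve R) (x y : R)

/-- the value of the `n`-th division polynomial at `(x, y)` -/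
noncomputable def ev (n : ℤ) : R :=
  normEDS (2 * y + W.a₁ * x + W.a₃) (W.Ψ₃.eval x) (W.preΨ₄.eval x) n

lemma ev_zero : ev W x y 0 = 0 := by simp [ev]
lemma ev_one : ev W x y 1 = 1 := by simp [ev]
lemma ev_two : ev W x y 2 = 2 * y + W.a₁ * x + W.a₃ := by simp [ev]
lemma ev_three : ev W x y 3 = W.Ψ₃.eval x := by simp [ev]
lemma ev_four : ev W x y 4 = W.preΨ₄.eval x * (2 * y + W.a₁ * x + W.a₃) := by simp [ev]

lemma ev_even (m : ℤ) : ev W x y (2 * m) * ev W x y 2 =
    ev W x y (m - 1) ^ 2 * ev W x y m * ev W x y (m + 2) -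
      ev W x y (m - 2) * ev W x y m * ev W x y (m + 1) ^ 2 := by
  rw [ev_two]
  exact normEDS_even ..

lemma ev_odd (m : ℤ) : ev W x y (2 * m + 1) =
    ev W x y (m + 2) * ev W x y m ^ 3 - ev W x y (m - 1) * ev W x y (m + 1) ^ 3 :=
  normEDS_odd ..

variable {W x y}

lemma ev_two_sq (h : W.toAffine.Equation x y) : ev W x y 2 ^ 2 = W.Ψ₂Sq.eval x := by
  have heq := (equation_iff ..).mp h
  rw [ev_two]
  simp only [Ψ₂Sq, Polynomial.eval_add, Polynomial.eval_mul, Polynomial.eval_C,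
      Polynomial.eval_pow, Polynomial.eval_X, b₂, b₄, b₆]
  linear_combination 4 * heq

lemma ev_eq (h : W.toAffine.Equation x y) (n : ℤ) :
    ev W x y n = (W.preΨ n).eval x * if Even n then ev W x y 2 else 1 := by
  have h2 := ev_two_sq h
  rw [ev, normEDS, preΨ]
  have : (preNormEDS (W.Ψ₂Sq ^ 2) W.Ψ₃ W.preΨ₄ n).eval x =
      preNormEDS ((W.Ψ₂Sq.eval x) ^ 2) (W.Ψ₃.eval x) (W.preΨ₄.eval x) n := by
    rw [← Polynomial.coe_evalRingHom, map_preNormEDS, map_pow]
  rw [this, ← h2, ev_two]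
  congr 2
  ring

lemma ev_sq (h : W.toAffine.Equation x y) (n : ℤ) :
    ev W x y n ^ 2 = (W.ΨSq n).eval x := by
  rw [ev_eq h, ΨSq]
  split_ifs with hn
  · simp [mul_pow, ev_two_sq h]
  · simp

lemma eval_Φ (h : W.toAffine.Equation x y) (n : ℤ) :
    (W.Φ n).eval x = x * ev W x y n ^ 2 - ev W x y (n + 1) * ev W x y (n - 1) := by
  rw [ev_sq h, ev_eq h (n + 1), ev_eq h (n - 1), WeierstrassCurve.Φ]
  have h2 := ev_two_sq h
  by_cases hn : Even n
  · have h1 : ¬ Even (n + 1) := by simpa [Int.even_add_one] using hn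
    have h3 : ¬ Even (n - 1) := by simpa [Int.even_sub_one] using hn
    simp [hn, h1, h3]
  · have h1 : Even (n + 1) := by simpa [Int.even_add_one] using hn
    have h3 : Even (n - 1) := by simpa [Int.even_sub_one] using hn
    simp [hn, h1, h3]
    rw [← h2]
    ring

lemma map_ev {S : Type*} [CommRing S] (f : R →+* S) (n : ℤ) :
    ev (W.map f) (f x) (f y) n = f (ev W x y n) := by
  rw [ev, ev, map_normEDS]
  simp only [map_a₁, map_a₃, map_add, map_mul, map_ofNat]
  rw [map_Ψ₃, map_preΨ₄, Polynomial.eval_map_apply, Polynomial.eval_map_apply]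

end seq

section generic

variable {K : Type*} [Field K] [DecidableEq K] {W : Affine K} {x y : K}

/-- x-coordinate of the `k`-th multiple -/
noncomputable def XX (h : W.Nonsingular x y) (k : ℕ) : K :=
  (k • (some x y h : W.Point)).xRep 0

lemma XX_one (h : W.Nonsingular x y) : XX h 1 = x := by simp [XX]

lemma star_of (h : W.Nonsingular x y) (M : ℕ) (hP : ∀ k, 1 ≤ k → k ≤ M → k • (some x y h : W.Point) ≠ 0)
    (i j : ℕ) (hj : 2 ≤ j) (hM : 2 * i + 4 + j ≤ M) :
    (XX h (i + 2 + j) - XX h (i + 3)) * (XX h (i + 2 + j) - XX h (i + 1)) *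
      (XX h (i + 2) - XX h 1) ^ 2 =
    (XX h 1 - XX h (2 * i + 4 + j)) * (XX h 1 - XX h j) *
      (XX h (i + 2 + j) - XX h (i + 2)) ^ 2 := by
  set P : W.Point := some x y h with hPdef
  have e1 : (i + 2) • P + 1 • P = (i + 3) • P := by rw [← add_nsmul]
  have e2 : (i + 2) • P - 1 • P = (i + 1) • P := by
    rw [sub_eq_iff_eq_add, ← add_nsmul]
  have e3 : (i + 2 + j) • P + (i + 2) • P = (2 * i + 4 + j) • P := by
    rw [← add_nsmul]; congr 1; ring
  have e4 : (i + 2 + j) • P - (i + 2) • P = j • P := by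
    rw [sub_eq_iff_eq_add, ← add_nsmul]; congr 1; ring
  have r1 := HH_eq (A := (i + 2) • P) (B := 1 • P) (hP _ (by omega) (by omega))
    (hP _ (by omega) (by omega)) (by rw [e1]; exact hP _ (by omega) (by omega))
    (by rw [e2]; exact hP _ (by omega) (by omega)) (XX h (i + 2 + j))
  have r2 := HH_eq (A := (i + 2 + j) • P) (B := (i + 2) • P) (hP _ (by omega) (by omega))
    (hP _ (by omega) (by omega)) (by rw [e3]; exact hP _ (by omega) (by omega))
    (by rw [e4]; exact hP _ (by omega) (by omega)) (XX h 1)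
  rw [e1, e2] at r1
  rw [e3, e4] at r2
  have r3 := HH_symm (W := W) (XX h (i + 2 + j)) (XX h (i + 2)) (XX h 1)
  simp only [XX, ← hPdef] at r1 r2 r3 ⊢
  rw [← r1, ← r2, r3]

lemma star1_of (h : W.Nonsingular x y) (M : ℕ) (hP : ∀ k, 1 ≤ k → k ≤ M → k • (some x y h : W.Point) ≠ 0)
    (j : ℕ) (hj : 1 ≤ j) (hM : j + 3 ≤ M) :
    (XX h (j + 2) - XX h 2) * ev W x y 2 ^ 2 =
    -((XX h 1 - XX h (j + 3)) * (XX h 1 - XX h (j + 1)) * (XX h (j + 2) - XX h 1) ^ 2) := by
  set P : W.Point := some x y h with hPdef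
  have e1 : 1 • P + 1 • P = 2 • P := by rw [← add_nsmul]
  have e3 : (j + 2) • P + 1 • P = (j + 3) • P := by
    rw [← add_nsmul]
  have e4 : (j + 2) • P - 1 • P = (j + 1) • P := by
    rw [sub_eq_iff_eq_add, ← add_nsmul]
  have r1 := HH_self (A := 1 • P) (hP _ (by omega) (by omega))
    (by rw [e1]; exact hP _ (by omega) (by omega)) (XX h (j + 2))
  have r2 := HH_eq (A := (j + 2) • P) (B := 1 • P) (hP _ (by omega) (by omega))
    (hP _ (by omega) (by omega)) (by rw [e3]; exact hP _ (by omega) (by omega))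
    (by rw [e4]; exact hP _ (by omega) (by omega)) (XX h 1)
  rw [e1] at r1
  rw [e3, e4] at r2
  have r3 := HH_symm (W := W) (XX h (j + 2)) x x
  have hx : (1 • P).xRep 0 = x := by simp [hPdef]
  rw [hx, ← ev_two_sq h.1] at r1
  simp only [XX, ← hPdef, hx] at r1 r2 r3 ⊢
  rw [← r2, ← r3, r1, neg_neg]

omit [DecidableEq K] in
/-- duplication step in terms of `ev` -/
lemma poly3 (h : W.Equation x y) {X2 : K}
    (hX2 : (x - X2) * ev W x y 2 ^ 2 = ev W x y 3) :
    aS1 W (X2 * x) (X2 + x) 1 * ev W x y 2 ^ 4 =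
      2 * x * ev W x y 3 ^ 2 - ev W x y 4 * ev W x y 2 := by
  have hS : ev W x y 2 ^ 2 = W.Ψ₂Sq.eval x := ev_two_sq h
  have h4 : ev W x y 4 * ev W x y 2 = W.preΨ₄.eval x * W.Ψ₂Sq.eval x := by
    rw [ev_four, ← hS, ev_two]; ring
  rw [h4]
  have h3 : ev W x y 3 = W.Ψ₃.eval x := ev_three ..
  have hX : X2 * W.Ψ₂Sq.eval x = x ^ 4 - W.b₄ * x ^ 2 - 2 * W.b₆ * x - W.b₈ := by
    rw [hS, h3] at hX2
    simp only [Ψ₂Sq, Ψ₃, Polynomial.eval_add, Polynomial.eval_mul, Polynomial.eval_C,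
      Polynomial.eval_pow, Polynomial.eval_X] at hX2 ⊢
    simp only [Polynomial.eval_ofNat] at hX2
    linear_combination -hX2
  calc aS1 W (X2 * x) (X2 + x) 1 * ev W x y 2 ^ 4
      = 2 * (X2 * W.Ψ₂Sq.eval x + x * W.Ψ₂Sq.eval x) * (X2 * W.Ψ₂Sq.eval x) * x +
        W.b₂ * (X2 * W.Ψ₂Sq.eval x) * x * W.Ψ₂Sq.eval x +
        W.b₄ * (X2 * W.Ψ₂Sq.eval x + x * W.Ψ₂Sq.eval x) * W.Ψ₂Sq.eval x +
        W.b₆ * W.Ψ₂Sq.eval x ^ 2 := by rw [← hS, aS1]; ring
    _ = _ := by
      rw [hX, h3]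
      simp only [Ψ₂Sq, Ψ₃, preΨ₄, Polynomial.eval_add, Polynomial.eval_mul, Polynomial.eval_C,
        Polynomial.eval_pow, Polynomial.eval_X, Polynomial.eval_ofNat, b₂, b₄, b₆, b₈]
      ring

lemma XX_ne_of (h : W.Nonsingular x y) (N : ℕ) (h0 : (N + 1) • (some x y h : W.Point) = 0) :
    XX h N = x := by
  have h1 : N • (some x y h : W.Point) = -some x y h := by
    rw [add_nsmul, one_nsmul] at h0
    exact eq_neg_of_add_eq_zero_left h0
  rw [XX, h1, xRep_neg]
  simp

lemma generic_two (h : W.Nonsingular x y) (h2 : ev W x y 2 ≠ 0) :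
    2 • (some x y h : W.Point) ≠ 0 ∧ (x - XX h 2) * ev W x y 2 ^ 2 = ev W x y 3 := by
  have hne : (some x y h : W.Point) + some x y h ≠ 0 := by
    rw [add_self_of_Y_ne]
    · exact some_ne_zero _
    · rw [negY]
      intro h0
      apply h2
      rw [ev_two]
      linear_combination h0
  refine ⟨by rwa [two_nsmul], ?_⟩
  have r := HH_self (some_ne_zero h) hne x
  have hx : (some x y h : W.Point).xRep 0 = x := by simp
  rw [hx, ← ev_two_sq h.1, ← two_nsmul] at r
  have r' : HH W x x x = - ev W x y 3 := by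
    rw [ev_three]
    simp only [HH, aS0, aS1, aS2, Ψ₃, Polynomial.eval_add, Polynomial.eval_mul, Polynomial.eval_C,
        Polynomial.eval_pow, Polynomial.eval_X, Polynomial.eval_ofNat]
    ring
  rw [r'] at r
  rw [XX]
  linear_combination r

lemma generic_three (h : W.Nonsingular x y) (h2 : ev W x y 2 ≠ 0) (h3 : ev W x y 3 ≠ 0) :
    3 • (some x y h : W.Point) ≠ 0 ∧
      (x - XX h 3) * ev W x y 3 ^ 2 = ev W x y 4 * ev W x y 2 := by
  obtain ⟨hP2, hX2⟩ := generic_two h h2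
  have hP3 : 3 • (some x y h : W.Point) ≠ 0 := by
    intro h0
    have := XX_ne_of h 2 h0
    rw [this, sub_self, zero_mul] at hX2
    exact h3 hX2.symm
  refine ⟨hP3, ?_⟩
  set P : W.Point := some x y h with hPdef
  have hP : P ≠ 0 := some_ne_zero h
  obtain ⟨c, hc, k0, k1, k2⟩ := addSubRel (2 • P) P
  have e1 : 2 • P + P = 3 • P := by rw [← succ_nsmul]
  have e2 : 2 • P - P = P := by rw [two_nsmul, add_sub_cancel_right]
  rw [e1, e2] at k0 k1 k2
  obtain ⟨s0, s1, s2⟩ := sym2x_eq hP2 hP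
  obtain ⟨t0, t1, t2⟩ := sym2x_eq hP3 hP
  have hx : P.xRep 0 = x := by simp [hPdef]
  rw [s0, s1, s2, t1, hx] at k1
  rw [s0, s1, s2, t2, hx] at k2
  have hpoly := poly3 h.1 hX2
  simp only [XX, ← hPdef] at hX2 hpoly ⊢
  have hc' : c = ((2 • P).xRep 0 - x) ^ 2 := by
    rw [aS2] at k2
    linear_combination -k2
  rw [hc'] at k1
  rw [k1] at hpoly
  have : ev W x y 3 ^ 2 = ((2 • P).xRep 0 - x) ^ 2 * ev W x y 2 ^ 4 := by
    rw [← hX2]; ring
  linear_combination (x - (3 • P).xRep 0) * this - 2 * x * this - hpoly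
  
/-- main generic induction -/
theorem generic_mul (h : W.Nonsingular x y) (hne : ∀ k : ℕ, 1 ≤ k → ev W x y k ≠ 0) (N : ℕ) :
    ∀ i : ℕ, i + 1 ≤ N → (i + 1) • (some x y h : W.Point) ≠ 0 ∧
      (x - XX h (i + 1)) * ev W x y ((i + 1 : ℕ) : ℤ) ^ 2 =
        ev W x y ((i + 2 : ℕ) : ℤ) * ev W x y ((i : ℕ) : ℤ) := by
  induction N with
  | zero => intro i hi; omega
  | succ N ih =>
    intro i hi
    rcases Nat.lt_or_ge i N with hlt | hge
    · exact ih i (by omega)
    obtain rfl : i = N := by omega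
    clear hi hge
    rcases i with _ | _ | _ | n
    · refine ⟨by simp, ?_⟩
      simp [XX_one, ev_zero]
    · have := generic_two h (hne 2 (by norm_num))
      refine ⟨by simpa using this.1, ?_⟩
      have h2 := this.2
      norm_num
      rw [h2, ev_one, mul_one]
    · have := generic_three h (hne 2 (by norm_num)) (hne 3 (by norm_num))
      refine ⟨by simpa using this.1, ?_⟩
      have h2 := this.2
      norm_num
      rw [h2]
    · -- N = n + 3
      set P : W.Point := some x y h with hPdef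
      have hX : ∀ i, 1 ≤ i → i + 1 ≤ n + 3 → XX h (i + 1) ≠ x := by
        intro i hi1 hi hx
        have := (ih i hi).2
        rw [hx, sub_self, zero_mul] at this
        exact mul_ne_zero (hne _ (by omega)) (hne _ (by omega)) this.symm
      have hP4 : (n + 3 + 1) • P ≠ 0 := by
        intro h0
        exact hX (n + 2) (by omega) (by omega) (XX_ne_of h (n + 3) h0)
      refine ⟨hP4, ?_⟩
      have hPk : ∀ k, 1 ≤ k → k ≤ n + 4 → k • P ≠ 0 := by
        intro k hk hk2
        rcases Nat.lt_or_ge k (n + 4) with hlt | hge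
        · obtain ⟨i, rfl⟩ : ∃ i, k = i + 1 := ⟨k - 1, by omega⟩
          exact (ih i (by omega)).1
        · obtain rfl : k = n + 4 := by omega
          exact hP4
      set e' : ℕ → K := fun k => if k = n + 5 then
        (x - XX h (n + 4)) * ev W x y ((n + 4 : ℕ) : ℤ) ^ 2 / ev W x y ((n + 3 : ℕ) : ℤ)
        else ev W x y (k : ℤ) with he'
      have he'_lt : ∀ k, k < n + 5 → e' k = ev W x y (k : ℤ) := by
        intro k hk
        simp only [he']
        rw [if_neg (by omega)]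
      have he'_eq : e' (n + 5) * ev W x y ((n + 3 : ℕ) : ℤ) =
          (x - XX h (n + 4)) * ev W x y ((n + 4 : ℕ) : ℤ) ^ 2 := by
        simp only [he', if_true]
        rw [div_mul_cancel₀ _ (hne _ (by omega))]
      have hch := chain (XX h) e' (n + 4) (by rw [he'_lt 1 (by omega)]; exact ev_one ..)
        (fun k hk1 hk2 => by rw [he'_lt k (by omega)]; exact hne k hk1)
        (fun i hi => by
          rw [XX_one]
          rcases Nat.lt_or_ge i (n + 3) with hlt | hge
          · rw [he'_lt _ (by omega), he'_lt _ (by omega), he'_lt _ (by omega)]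
            exact (ih i (by omega)).2
          · obtain rfl : i = n + 3 := by omega
            rw [he'_lt (n + 3 + 1) (by omega), he'_lt (n + 3) (by omega)]
            exact he'_eq.symm)
        (fun j hj hjM => by
          rw [he'_lt 2 (by omega)]
          exact star1_of h (n + 4) hPk j hj hjM)
        (fun i j hj hjM => star_of h (n + 4) hPk i j hj hjM)
      have key : e' (n + 5) = ev W x y ((n + 5 : ℕ) : ℤ) := by
        rcases Nat.even_or_odd' n with ⟨r, hr | hr⟩
        · -- n = 2 r, n + 5 = 2 (r + 2) + 1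
          have h1 := hch (r + 2) 1 (by omega) le_rfl (by omega)
          have ha := (ih (r + 1) (by omega)).2
          have hb := (ih (r + 2) (by omega)).2
          rw [show 2 * (r + 2) + 1 = n + 5 by omega, he'_lt 1 (by omega),
            he'_lt (r + 2 + 1) (by omega), he'_lt (r + 2) (by omega)] at h1
          have hodd := ev_odd W x y ((r + 2 : ℕ) : ℤ)
          rw [show (2 * ((r + 2 : ℕ) : ℤ) + 1) = ((n + 5 : ℕ) : ℤ) by rw [hr]; push_cast; ring,
            show (((r + 2 : ℕ) : ℤ) + 2) = ((r + 4 : ℕ) : ℤ) by push_cast; ring,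
            show (((r + 2 : ℕ) : ℤ) - 1) = ((r + 1 : ℕ) : ℤ) by push_cast; ring,
            show (((r + 2 : ℕ) : ℤ) + 1) = ((r + 3 : ℕ) : ℤ) by push_cast; ring] at hodd
          rw [hodd]
          simp only [add_assoc, Nat.reduceAdd] at h1 ha hb
          rw [show ((1 : ℕ) : ℤ) = 1 from rfl, ev_one] at h1
          linear_combination h1 - ev W x y ((r + 3 : ℕ) : ℤ) ^ 2 * ha +
            ev W x y ((r + 2 : ℕ) : ℤ) ^ 2 * hb
        · -- n = 2 r + 1, n + 5 = 2 (r + 2) + 2
          have h1 := hch (r + 2) 2 (by omega) (by omega) (by omega)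
          have ha := (ih (r + 1) (by omega)).2
          have hb := (ih (r + 3) (by omega)).2
          rw [show 2 * (r + 2) + 2 = n + 5 by omega, he'_lt 2 (by omega),
            he'_lt (r + 2 + 2) (by omega), he'_lt (r + 2) (by omega)] at h1
          have heven := ev_even W x y ((r + 3 : ℕ) : ℤ)
          rw [show (2 * ((r + 3 : ℕ) : ℤ)) = ((n + 5 : ℕ) : ℤ) by rw [hr]; push_cast; ring,
            show (((r + 3 : ℕ) : ℤ) + 2) = ((r + 5 : ℕ) : ℤ) by push_cast; ring,
            show (((r + 3 : ℕ) : ℤ) - 1) = ((r + 2 : ℕ) : ℤ) by push_cast; ring,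
            show (((r + 3 : ℕ) : ℤ) - 2) = ((r + 1 : ℕ) : ℤ) by push_cast; ring,
            show (((r + 3 : ℕ) : ℤ) + 1) = ((r + 4 : ℕ) : ℤ) by push_cast; ring] at heven
          have h2 : ev W x y 2 ≠ 0 := hne 2 (by norm_num)
          apply mul_right_cancel₀ h2
          rw [heven]
          simp only [add_assoc, Nat.reduceAdd] at h1 ha hb
          rw [show ((2 : ℕ) : ℤ) = 2 from rfl] at h1
          linear_combination h1 - ev W x y ((r + 4 : ℕ) : ℤ) ^ 2 * ha +
            ev W x y ((r + 2 : ℕ) : ℤ) ^ 2 * hb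
      rw [← he'_eq, key]

end generic

end Fermat.Agent.H87
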