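import Mathlib.NumberTheory.Padics.RingHoms
import Mathlib.LinearAlgebra.Matrix.ToLin
import Mathlib.LinearAlgebra.Matrix.Charpoly.Coeff
import Mathlib.LinearAlgebra.Charpoly.ToMatrix
import Mathlib.Algebra.Module.Torsion.Basic
import Mathlib.Tactic

/-!
# Abstract Tate modules through compatible bases

* `exists_compat_basis` : if `p` is surjective on an abelian group `A` and `A[p]` has a basis over
  `ZMod p`, then the groups `A[p^n]` have compatible bases.
* `exists_padic_rep` : compatible representations of a monoid on `(ZMod p^n)^d` give a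
  representation on `ℤ_[p]^d`.
-/

set_option autoImplicit false

open PadicInt

namespace Fermat.Agent.H87.Tate

variable {p : ℕ} [Fact p.Prime]

/-- inverse limit description of the `p`-adic integers, for plain sequences -/
theorem exists_padic_of_compat (f : ∀ n : ℕ, ZMod (p ^ n))
    (hf : ∀ n, ZMod.castHom (pow_dvd_pow p n.le_succ) (ZMod (p ^ n)) (f (n + 1)) = f n) :
    ∃ z : ℤ_[p], ∀ n, toZModPow n z = f n := by
  have hex : ∀ n, ∃ m : ℤ, (m : ZMod (p ^ n)) = f n := fun n => ZMod.intCast_surjective _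
  choose m hm using hex
  have hi : ∀ i, (p : ℤ) ^ i ∣ m (i + 1) - m i := by
    intro i
    have h1 : ((m (i + 1) : ℤ) : ZMod (p ^ i)) = (m i : ZMod (p ^ i)) := by
      rw [hm i, ← hf i, ← hm (i + 1), map_intCast]
    have h2 := (ZMod.intCast_eq_intCast_iff_dvd_sub (m i) (m (i + 1)) (p ^ i)).mp h1.symm
    rwa [Nat.cast_pow] at h2
  exact ⟨_, fun n => (toZModPow_ofIntSeq_of_pow_dvd_sub m p hi n).trans (hm n)⟩

theorem padic_ext {x y : ℤ_[p]} (h : ∀ n, toZModPow n x = toZModPow n y) : x = y :=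
  ext_of_toZModPow.mp h

theorem matrix_ext {ι κ : Type*} {M N : Matrix ι κ ℤ_[p]}
    (h : ∀ n, M.map (toZModPow n) = N.map (toZModPow n)) : M = N := by
  ext i j
  exact padic_ext fun n => congrFun (congrFun (h n) i) j

theorem polynomial_ext {f g : Polynomial ℤ_[p]}
    (h : ∀ n, f.map (toZModPow n) = g.map (toZModPow n)) : f = g := by
  ext i
  refine padic_ext fun n => ?_
  rw [← Polynomial.coeff_map, h, Polynomial.coeff_map]

section System

variable {V : ℕ → Type*} [∀ n, AddCommGroup (V n)] [∀ n, Module (ZMod (p ^ n)) (V n)]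
  (t : ∀ n, V (n + 1) →+ V n) {ι : Type*} [Fintype ι] [DecidableEq ι]
  (b : ∀ n, Module.Basis ι (ZMod (p ^ n)) (V n)) (hb : ∀ n i, t n (b (n + 1) i) = b n i)

omit [Fact p.Prime] in
lemma map_smul_cast (n : ℕ) (a : ZMod (p ^ (n + 1))) (x : V (n + 1)) :
    t n (a • x) = ZMod.castHom (pow_dvd_pow p n.le_succ) (ZMod (p ^ n)) a • t n x := by
  obtain ⟨m, rfl⟩ := ZMod.intCast_surjective a
  rw [map_intCast, Int.cast_smul_eq_zsmul, Int.cast_smul_eq_zsmul, map_zsmul]

omit [Fact p.Prime] in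
include hb in
theorem toMatrix_castHom (n : ℕ) (g' : Module.End (ZMod (p ^ (n + 1))) (V (n + 1)))
    (g : Module.End (ZMod (p ^ n)) (V n)) (h : ∀ x, t n (g' x) = g (t n x)) :
    (LinearMap.toMatrix (b (n + 1)) (b (n + 1)) g').map
      (ZMod.castHom (pow_dvd_pow p n.le_succ) (ZMod (p ^ n))) = LinearMap.toMatrix (b n) (b n) g := by
  have hkey : ∀ j, g (b n j) = ∑ i, ZMod.castHom (pow_dvd_pow p n.le_succ) (ZMod (p ^ n))
      (LinearMap.toMatrix (b (n + 1)) (b (n + 1)) g' i j) • b n i := by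
    intro j
    have h1 : g' (b (n + 1) j) =
        ∑ i, LinearMap.toMatrix (b (n + 1)) (b (n + 1)) g' i j • b (n + 1) i := by
      conv_lhs => rw [← (b (n + 1)).sum_repr (g' (b (n + 1) j))]
      simp only [LinearMap.toMatrix_apply]
    rw [← hb n j, ← h, h1, map_sum]
    refine Finset.sum_congr rfl fun i _ => ?_
    rw [map_smul_cast, hb]
  ext i j
  rw [Matrix.map_apply]
  conv_rhs => rw [LinearMap.toMatrix_apply, hkey j]
  rw [map_sum, Finsupp.finsetSum_apply]
  simp only [map_smul, Module.Basis.repr_self, Finsupp.smul_apply, smul_eq_mul,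
    Finsupp.single_apply, mul_ite, mul_one, mul_zero, Finset.sum_ite_eq', Finset.mem_univ, if_true]

include hb in
theorem exists_padic_matrix (g : ∀ n, Module.End (ZMod (p ^ n)) (V n))
    (hg : ∀ n x, t n (g (n + 1) x) = g n (t n x)) :
    ∃ M : Matrix ι ι ℤ_[p], ∀ n, M.map (toZModPow n) = LinearMap.toMatrix (b n) (b n) (g n) := by
  have hex : ∀ i j, ∃ z : ℤ_[p], ∀ n,
      toZModPow n z = LinearMap.toMatrix (b n) (b n) (g n) i j := by
    intro i j
    refine exists_padic_of_compat _ fun n => ?_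
    rw [← toMatrix_castHom t b hb n (g (n + 1)) (g n) (hg n), Matrix.map_apply]
  choose z hz using hex
  exact ⟨fun i j => z i j, fun n => by ext i j; exact hz i j n⟩

include hb in
/-- compatible representations on `(ZMod p^n)^d` give a representation on `ℤ_[p]^d` -/
theorem exists_padic_rep {G : Type*} [Monoid G] (ρ : ∀ n, G →* Module.End (ZMod (p ^ n)) (V n))
    (hρ : ∀ n σ x, t n (ρ (n + 1) σ x) = ρ n σ (t n x)) :
    ∃ r : G →* Matrix ι ι ℤ_[p], ∀ n σ,
      (r σ).map (toZModPow n) = LinearMap.toMatrix (b n) (b n) (ρ n σ) := by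
  have hex : ∀ σ : G, ∃ M : Matrix ι ι ℤ_[p], ∀ n,
      M.map (toZModPow n) = LinearMap.toMatrix (b n) (b n) (ρ n σ) := fun σ =>
    exists_padic_matrix t b hb (fun n => ρ n σ) fun n x => hρ n σ x
  choose M hM using hex
  refine ⟨{ toFun := M, map_one' := ?_, map_mul' := ?_ }, fun n σ => hM σ n⟩
  · refine matrix_ext fun n => ?_
    rw [hM, map_one, LinearMap.toMatrix_one, Matrix.map_one _ (map_zero _) (map_one _)]
  · intro σ τ
    refine matrix_ext fun n => ?_
    rw [hM, map_mul, LinearMap.toMatrix_mul, Matrix.map_mul, hM, hM]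

include hb in
/-- ring version -/
theorem exists_padic_ringHom {R : Type*} [Ring R] (ρ : ∀ n, R →+* Module.End (ZMod (p ^ n)) (V n))
    (hρ : ∀ n σ x, t n (ρ (n + 1) σ x) = ρ n σ (t n x)) :
    ∃ r : R →+* Matrix ι ι ℤ_[p], ∀ n σ,
      (r σ).map (toZModPow n) = LinearMap.toMatrix (b n) (b n) (ρ n σ) := by
  obtain ⟨r, hr⟩ := exists_padic_rep t b hb (fun n => (ρ n : R →* Module.End (ZMod (p ^ n)) (V n)))
    fun n σ x => hρ n σ x
  refine ⟨{ toFun := r, map_one' := map_one r, map_mul' := map_mul r, map_zero' := ?_,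
            map_add' := ?_ }, fun n σ => hr n σ⟩
  · refine matrix_ext fun n => ?_
    rw [hr]
    simp
  · intro σ τ
    refine matrix_ext fun n => ?_
    rw [hr, Matrix.map_add _ (map_add _), hr, hr]
    simp

/-- two compatible bases differ by an invertible `p`-adic matrix -/
theorem exists_change_of_basis (b' : ∀ n, Module.Basis ι (ZMod (p ^ n)) (V n))
    (hb : ∀ n i, t n (b (n + 1) i) = b n i) (hb' : ∀ n i, t n (b' (n + 1) i) = b' n i) :
    ∃ U U' : Matrix ι ι ℤ_[p], U * U' = 1 ∧ U' * U = 1 ∧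
      (∀ n, U.map (toZModPow n) = (b' n).toMatrix (b n)) ∧
      (∀ n, U'.map (toZModPow n) = (b n).toMatrix (b' n)) := by
  have key : ∀ b b' : ∀ n, Module.Basis ι (ZMod (p ^ n)) (V n),
      (∀ n i, t n (b (n + 1) i) = b n i) → (∀ n i, t n (b' (n + 1) i) = b' n i) →
      ∃ U : Matrix ι ι ℤ_[p], ∀ n, U.map (toZModPow n) = (b' n).toMatrix (b n) := by
    intro b b' hb hb'
    have hex : ∀ i j, ∃ z : ℤ_[p], ∀ n, toZModPow n z = (b' n).toMatrix (b n) i j := by
      intro i j
      refine exists_padic_of_compat _ fun n => ?_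
      have h1 : b n j = ∑ i, ZMod.castHom (pow_dvd_pow p n.le_succ) (ZMod (p ^ n))
          ((b' (n + 1)).toMatrix (b (n + 1)) i j) • b' n i := by
        rw [← hb n j]
        conv_lhs => rw [← (b' (n + 1)).sum_repr (b (n + 1) j)]
        rw [map_sum]
        refine Finset.sum_congr rfl fun i _ => ?_
        rw [map_smul_cast, hb', Module.Basis.toMatrix_apply]
      conv_rhs => rw [Module.Basis.toMatrix_apply, h1]
      rw [map_sum, Finsupp.finsetSum_apply]
      simp only [map_smul, Module.Basis.repr_self, Finsupp.smul_apply, smul_eq_mul,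
        Finsupp.single_apply, mul_ite, mul_one, mul_zero, Finset.sum_ite_eq', Finset.mem_univ,
        if_true]
    choose z hz using hex
    exact ⟨fun i j => z i j, fun n => by ext i j; exact hz i j n⟩
  obtain ⟨U, hU⟩ := key b b' hb hb'
  obtain ⟨U', hU'⟩ := key b' b hb' hb
  refine ⟨U, U', matrix_ext fun n => ?_, matrix_ext fun n => ?_, hU, hU'⟩
  · rw [Matrix.map_mul, hU, hU', Module.Basis.toMatrix_mul_toMatrix_flip,
      Matrix.map_one _ (map_zero _) (map_one _)]
  · rw [Matrix.map_mul, hU, hU', Module.Basis.toMatrix_mul_toMatrix_flip,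
      Matrix.map_one _ (map_zero _) (map_one _)]

end System

section Basis

variable {A : Type*} [AddCommGroup A] {ι : Type*} [Fintype ι]

omit [Fact p.Prime] in
/-- integral form of linear independence -/
lemma dvd_of_sum_eq_zero (s : ℕ → ι → A)
    (hs : ∀ n i, p • s (n + 1) i = s n i)
    (h1 : ∀ c : ι → ℤ, ∑ i, c i • s 1 i = 0 → ∀ i, (p : ℤ) ∣ c i) (n : ℕ) (c : ι → ℤ)
    (hc : ∑ i, c i • s n i = 0) (i : ι) : (p : ℤ) ^ n ∣ c i := by
  have hpow : ∀ n i, (p ^ n) • s (n + 1) i = s 1 i := by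
    intro n
    induction n with
    | zero => intro i; simp
    | succ n ih =>
      intro i
      rw [pow_succ, mul_smul, hs, ih]
  induction n generalizing c i with
  | zero => simp
  | succ n ih =>
    have h2 : ∑ i, c i • s n i = 0 := by
      have := congrArg (fun x => p • x) hc
      simp only [smul_zero, Finset.smul_sum] at this
      rw [← this]
      refine Finset.sum_congr rfl fun i _ => ?_
      rw [smul_comm, hs]
    have h3 : ∀ i, ∃ d, c i = (p : ℤ) ^ n * d := fun i => ih c h2 i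
    choose d hd using h3
    have h4 : ∑ i, d i • s 1 i = 0 := by
      rw [← hc]
      refine Finset.sum_congr rfl fun i _ => ?_
      rw [hd, ← hpow n i, mul_comm, mul_smul, ← Nat.cast_pow, natCast_zsmul]
    obtain ⟨e, he⟩ := h1 d h4 i
    exact ⟨e, by rw [hd, he]; ring⟩

omit [Fact p.Prime] in
/-- integral form of generation -/
lemma exists_sum_eq (s : ℕ → ι → A) (hs : ∀ n i, p • s (n + 1) i = s n i)
    (h1 : ∀ x : A, p • x = 0 → ∃ c : ι → ℤ, ∑ i, c i • s 1 i = x) (n : ℕ) (x : A)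
    (hx : p ^ n • x = 0) : ∃ c : ι → ℤ, ∑ i, c i • s n i = x := by
  have hpow : ∀ n i, (p ^ n) • s (n + 1) i = s 1 i := by
    intro n
    induction n with
    | zero => intro i; simp
    | succ n ih =>
      intro i
      rw [pow_succ, mul_smul, hs, ih]
  induction n generalizing x with
  | zero =>
    rw [pow_zero, one_smul] at hx
    exact ⟨fun _ => 0, by simp [hx]⟩
  | succ n ih =>
    obtain ⟨d, hd⟩ := h1 (p ^ n • x) (by rw [← mul_smul, ← pow_succ', hx])
    obtain ⟨e, he⟩ := ih (x - ∑ i, d i • s (n + 1) i) (by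
      rw [smul_sub, ← hd, Finset.smul_sum, sub_eq_zero]
      refine Finset.sum_congr rfl fun i _ => ?_
      rw [smul_comm, hpow])
    refine ⟨fun i => d i + p * e i, ?_⟩
    have h5 : ∑ i, (d i + p * e i) • s (n + 1) i =
        ∑ i, d i • s (n + 1) i + ∑ i, e i • s n i := by
      rw [← Finset.sum_add_distrib]
      refine Finset.sum_congr rfl fun i _ => ?_
      rw [add_smul, mul_comm, mul_smul, natCast_zsmul, hs]
    rw [h5, he]; abel

/-- **Compatible bases** of the `p^n`-torsion, adapted to given `p`-divisible subsets. -/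
theorem exists_compat_basis_adapted
    [∀ n : ℕ, Module (ZMod n) (Submodule.torsionBy ℤ A (n : ℤ))]
    (D : ι → Set A) (hsurj : ∀ i, ∀ x ∈ D i, ∃ y ∈ D i, p • y = x)
    (b₁ : Module.Basis ι (ZMod p) (Submodule.torsionBy ℤ A (p : ℤ)))
    (hb₁ : ∀ i, (b₁ i : A) ∈ D i) :
    ∃ b : ∀ n : ℕ, Module.Basis ι (ZMod (p ^ n)) (Submodule.torsionBy ℤ A ((p ^ n : ℕ) : ℤ)),
      (∀ n i, p • (b (n + 1) i : A) = b n i) ∧ (∀ i, (b 1 i : A) = b₁ i) ∧
      ∀ n i, (b (n + 1) i : A) ∈ D i := by
  classical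
  choose! div hdivD hdiv using hsurj
  -- the sequence
  let s' : ℕ → ι → A := fun n => Nat.rec (fun i => (b₁ i : A)) (fun _ f i => div i (f i)) n
  let s : ℕ → ι → A := fun n => Nat.casesOn n (fun _ => 0) s'
  have hsD : ∀ n i, s' n i ∈ D i := by
    intro n
    induction n with
    | zero => exact hb₁
    | succ n ih => exact fun i => hdivD i _ (ih i)
  have hs0 : ∀ i, s 0 i = 0 := fun i => rfl
  have hs1 : ∀ i, s 1 i = b₁ i := fun i => rfl
  have hp1 : ∀ i, p • (b₁ i : A) = 0 := by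
    intro i
    have := (Submodule.mem_torsionBy_iff _ _).mp (b₁ i).2
    rwa [natCast_zsmul] at this
  have hs : ∀ n i, p • s (n + 1) i = s n i := by
    intro n i
    cases n with
    | zero => exact hp1 i
    | succ n => exact hdiv i _ (hsD n i)
  have hp0 : p ≠ 0 := (Fact.out : p.Prime).ne_zero
  have h1 : ∀ c : ι → ℤ, ∑ i, c i • s 1 i = 0 → ∀ i, (p : ℤ) ∣ c i := by
    intro c hc i
    have h2 : ∑ i, (c i : ZMod p) • b₁ i = 0 := by
      apply Subtype.ext
      rw [Submodule.coe_zero, AddSubmonoidClass.coe_finsetSum, ← hc]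
      refine Finset.sum_congr rfl fun i _ => ?_
      rw [Int.cast_smul_eq_zsmul, hs1]; rfl
    have h3 := Fintype.linearIndependent_iff.mp b₁.linearIndependent _ h2 i
    exact (ZMod.intCast_zmod_eq_zero_iff_dvd _ p).mp h3
  have h1' : ∀ x : A, p • x = 0 → ∃ c : ι → ℤ, ∑ i, c i • s 1 i = x := by
    intro x hx
    let y : Submodule.torsionBy ℤ A (p : ℤ) :=
      ⟨x, (Submodule.mem_torsionBy_iff _ _).mpr (by rw [natCast_zsmul]; exact hx)⟩
    have h2 := b₁.sum_repr y
    have h3 : ∀ i, ∃ m : ℤ, (m : ZMod p) = b₁.repr y i := fun i => ZMod.intCast_surjective _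
    choose c hc using h3
    refine ⟨c, ?_⟩
    have h4 := congrArg (fun z : Submodule.torsionBy ℤ A (p : ℤ) => (z : A)) h2
    simp only [AddSubmonoidClass.coe_finsetSum] at h4
    rw [show x = (y : A) from rfl, ← h4]
    refine Finset.sum_congr rfl fun i _ => ?_
    rw [← hc, Int.cast_smul_eq_zsmul, hs1]; rfl
  have htor : ∀ n i, s n i ∈ Submodule.torsionBy ℤ A ((p ^ n : ℕ) : ℤ) := by
    intro n
    induction n with
    | zero => intro i; rw [hs0]; exact Submodule.zero_mem _
    | succ n ih =>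
      intro i
      rw [Submodule.mem_torsionBy_iff, natCast_zsmul, pow_succ, mul_smul, hs, ← natCast_zsmul]
      exact (Submodule.mem_torsionBy_iff _ _).mp (ih i)
  have hli : ∀ n, LinearIndependent (ZMod (p ^ n)) (fun i => (⟨s n i, htor n i⟩ :
      Submodule.torsionBy ℤ A ((p ^ n : ℕ) : ℤ))) := by
    intro n
    rw [Fintype.linearIndependent_iff]
    intro g hg i
    have h3 : ∀ i, ∃ m : ℤ, (m : ZMod (p ^ n)) = g i := fun i => ZMod.intCast_surjective _
    choose c hc using h3
    have h4 := congrArg (fun z : Submodule.torsionBy ℤ A ((p ^ n : ℕ) : ℤ) => (z : A)) hg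
    simp only [AddSubmonoidClass.coe_finsetSum] at h4
    have h5 : ∑ i, c i • s n i = 0 := by
      rw [show (0 : A) = ((0 : Submodule.torsionBy ℤ A ((p ^ n : ℕ) : ℤ)) : A) from rfl, ← h4]
      refine Finset.sum_congr rfl fun i _ => ?_
      rw [← hc, Int.cast_smul_eq_zsmul]; rfl
    have h6 := dvd_of_sum_eq_zero s hs h1 n c h5 i
    rw [← hc]
    rw [ZMod.intCast_zmod_eq_zero_iff_dvd, Nat.cast_pow]
    exact h6
  have hsp : ∀ n, ⊤ ≤ Submodule.span (ZMod (p ^ n)) (Set.range (fun i => (⟨s n i, htor n i⟩ :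
      Submodule.torsionBy ℤ A ((p ^ n : ℕ) : ℤ)))) := by
    intro n x _
    have hx := (Submodule.mem_torsionBy_iff _ _).mp x.2
    rw [natCast_zsmul] at hx
    obtain ⟨c, hc⟩ := exists_sum_eq s hs h1' n x hx
    have h7 : x = ∑ i, (c i : ZMod (p ^ n)) • (⟨s n i, htor n i⟩ :
        Submodule.torsionBy ℤ A ((p ^ n : ℕ) : ℤ)) := by
      apply Subtype.ext
      rw [AddSubmonoidClass.coe_finsetSum, ← hc]
      refine Finset.sum_congr rfl fun i _ => ?_
      rw [Int.cast_smul_eq_zsmul]; rfl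
    rw [h7]
    exact Submodule.sum_mem _ fun i _ => Submodule.smul_mem _ _ (Submodule.subset_span ⟨i, rfl⟩)
  refine ⟨fun n => Module.Basis.mk (hli n) (hsp n), fun n i => ?_, fun i => ?_, fun n i => ?_⟩
  · rw [Module.Basis.mk_apply, Module.Basis.mk_apply]
    exact hs n i
  · rw [Module.Basis.mk_apply]
    rfl
  · rw [Module.Basis.mk_apply]
    exact hsD n i

/-- **Compatible bases** of the `p^n`-torsion. -/
theorem exists_compat_basis [∀ n : ℕ, Module (ZMod n) (Submodule.torsionBy ℤ A (n : ℤ))]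
    (hsurj : ∀ x : A, ∃ y, p • y = x)
    (b₁ : Module.Basis ι (ZMod p) (Submodule.torsionBy ℤ A (p : ℤ))) :
    ∃ b : ∀ n : ℕ, Module.Basis ι (ZMod (p ^ n)) (Submodule.torsionBy ℤ A ((p ^ n : ℕ) : ℤ)),
      (∀ n i, p • (b (n + 1) i : A) = b n i) ∧ ∀ i, (b 1 i : A) = b₁ i := by
  obtain ⟨b, h1, h2, -⟩ := exists_compat_basis_adapted (p := p) (fun _ => Set.univ)
    (fun _ x _ => (hsurj x).imp fun y hy => ⟨trivial, hy⟩) b₁ (fun _ => trivial)
  exact ⟨b, h1, h2⟩

/-- multiplication by `p` from `A[p^(n+1)]` to `A[p^n]` -/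
def mulP (A : Type*) [AddCommGroup A] (p : ℕ) (n : ℕ) :
    Submodule.torsionBy ℤ A ((p ^ (n + 1) : ℕ) : ℤ) →+
      Submodule.torsionBy ℤ A ((p ^ n : ℕ) : ℤ) where
  toFun x := ⟨p • (x : A), by
    have hx := (Submodule.mem_torsionBy_iff _ _).mp x.2
    rw [natCast_zsmul] at hx
    rw [Submodule.mem_torsionBy_iff, natCast_zsmul, ← mul_smul, ← pow_succ, hx]⟩
  map_zero' := Subtype.ext (smul_zero _)
  map_add' x y := Subtype.ext (smul_add _ _ _)

@[simp] lemma coe_mulP (n : ℕ) (x : Submodule.torsionBy ℤ A ((p ^ (n + 1) : ℕ) : ℤ)) :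
    (mulP A p n x : A) = p • (x : A) := rfl

end Basis

end Fermat.Agent.H87.Tate
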