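import Fermat.Agent.H87TateEC
import Fermat.Agent.H39WeilDet
import Fermat.Agent.H31Cyclo

/-!
# Determinant of the Tate module; unconditional versions
-/

set_option autoImplicit false

noncomputable section

open WeierstrassCurve WeierstrassCurve.Affine WeierstrassCurve.Affine.Point PadicInt
open Fermat.Agent.H53 (GQ M2)

namespace Fermat.Agent.H87.Tate

variable (W : WeierstrassCurve ℚ) (hΔ : W.Δ ≠ 0)

include hΔ in
/-- `det = cyclotomic`, pointwise form: if `σ μ = μ^a` on `m`-th roots of unity then the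
determinant on `W[m]` is `a`. -/
theorem det_rep_eq {m : ℕ} (hm : m ≠ 0) (σ : GQ) (a : ℕ)
    (ha : ∀ μ : AlgebraicClosure ℚ, μ ^ m = 1 → σ μ = μ ^ a) :
    LinearMap.det (rep W m σ) = (a : ZMod m) := by
  have : NeZero m := ⟨hm⟩
  have hr : Nat.card (rootsOfUnity m (AlgebraicClosure ℚ)) = m :=
    IsAlgClosed.card_rootsOfUnity_eq (AlgebraicClosure ℚ) m
  rw [H39.det_galoisRepModuleEnd_rat W hΔ hr σ]
  symm
  refine modularCyclotomicCharacter.unique _ hr _ (c := (a : ZMod m)) ?_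
  intro t ht
  have h1 : (t : AlgebraicClosure ℚ) ^ m = 1 := by
    have := (mem_rootsOfUnity m t).mp ht
    rw [← Units.val_pow_eq_pow_val, this, Units.val_one]
  refine (ha t h1).trans ?_
  rw [← Nat.mod_add_div a m, pow_add, pow_mul, h1, one_pow, mul_one, ZMod.val_natCast,
    Nat.mod_add_div]

variable (p : ℕ) [hp : Fact p.Prime]

/-- **The determinant of the Tate module is the cyclotomic character.** -/
theorem detIsCyclotomic : (tate W hΔ p).DetIsCyclotomic p :=
  detIsCyclotomic_tate W hΔ p fun n σ a ha =>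
    det_rep_eq W hΔ (pow_ne_zero n hp.out.ne_zero) σ a ha

include hΔ in
/-- **The mod `p` representation is odd.** -/
theorem residual_isOdd
    (hcard : Nat.card (Submodule.torsionBy ℤ (W⁄(AlgebraicClosure ℚ)).Point p) = p ^ 2)
    (hker : GaloisFactorsThroughFiniteLevel
      (WeierstrassCurve.Affine.Point.galoisRepModuleEnd (K := AlgebraicClosure ℚ) ℚ W p)) :
    (W.residualGaloisRepOf p hcard hker).IsOdd :=
  Res.isOdd_of_det hcard hker fun σ => H39.det_galoisRepModuleEnd_rat W hΔ _ σ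

include hΔ in
/-- **Irreducible mod `p` representations, `p` odd, are absolutely irreducible.** -/
theorem residual_isAbsolutelyIrreducible (hp2 : p ≠ 2)
    (hcard : Nat.card (Submodule.torsionBy ℤ (W⁄(AlgebraicClosure ℚ)).Point p) = p ^ 2)
    (hker : GaloisFactorsThroughFiniteLevel
      (WeierstrassCurve.Affine.Point.galoisRepModuleEnd (K := AlgebraicClosure ℚ) ℚ W p))
    (h : GaloisRepIsIrreducible (K := AlgebraicClosure ℚ) ℚ W p) :
    (W.residualGaloisRepOf p hcard hker).IsAbsolutelyIrreducible :=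
  Res.isAbsolutelyIrreducible_of_det hcard hker hp2
    (fun σ => H39.det_galoisRepModuleEnd_rat W hΔ _ σ) h

include hΔ in
/-- inertia at `q ∤ m` has determinant one on `W[m]` -/
theorem det_rep_inertia {q m : ℕ} (hm : Nat.Coprime q m) (hm0 : m ≠ 0)
    {P : ValuationSubring (AlgebraicClosure ℚ)} (hP : P.LiesOverPrime q) {σ : GQ}
    (hσ : σ ∈ P.inertiaSubgroupIn ℚ) : LinearMap.det (rep W m σ) = 1 := by
  have := det_rep_eq W hΔ hm0 σ 1 (fun μ hμ => by
    rw [pow_one]
    exact H31.inertia_apply_rootOfUnity P hP hm (Nat.pos_of_ne_zero hm0) hσ hμ)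
  simpa using this

include hΔ in
/-- Frobenius at `ℓ ∤ m` has determinant `ℓ` on `W[m]` -/
theorem det_rep_frobenius {ℓ m : ℕ} (hm : Nat.Coprime ℓ m) (hm0 : m ≠ 0)
    {P : ValuationSubring (AlgebraicClosure ℚ)} (hP : P.LiesOverPrime ℓ) {σ : GQ}
    (hσ : P.IsFrobeniusAt σ ℓ) : LinearMap.det (rep W m σ) = (ℓ : ZMod m) :=
  det_rep_eq W hΔ hm0 σ ℓ fun _ hμ =>
    H31.frobenius_apply_rootOfUnity P hP hm (Nat.pos_of_ne_zero hm0) hσ hμ

/-- the characteristic polynomial of Frobenius on the Tate module from the quadratic relation -/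
theorem charpoly_tate_frobenius {ℓ : ℕ} (hℓ : ℓ.Prime) (hℓp : ℓ ≠ p)
    {P : ValuationSubring (AlgebraicClosure ℚ)} (hP : P.LiesOverPrime ℓ) {σ : GQ}
    (hσ : P.IsFrobeniusAt σ ℓ) {a : ℤ}
    (ha : ∀ n, ∀ x : Tor W (p ^ n), σ • σ • x - a • (σ • x) + (ℓ : ℤ) • x = 0) :
    LinearMap.charpoly ((tate W hΔ p).ρ σ) =
      Polynomial.X ^ 2 - Polynomial.C (a : ℤ_[p]) * Polynomial.X + Polynomial.C (ℓ : ℤ_[p]) := by
  have h := charpoly_tate_eq_of_relation W hΔ p (σ := σ) (a := a) (d := ℓ) ha (fun n => by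
    rw [det_rep_frobenius W hΔ (Nat.Coprime.pow_right n
      ((Nat.coprime_primes hℓ hp.out).mpr hℓp)) (pow_ne_zero n hp.out.ne_zero) hP hσ]
    simp)
  rw [h, Int.cast_natCast]

end Fermat.Agent.H87.Tate
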