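import Fermat.Agent.H87Tate
import Fermat.Agent.H87ECTorsion
import Fermat.Agent.H87Res
import Fermat.Agent.H53Matrix
import Fermat.Prelude.Def_GaloisRep_LocalConditions
import Fermat.Prelude.Def_GaloisRep_StrictOrdinary
import Fermat.Prelude.Def_GaloisRep_Flat

/-!
# The `p`-adic Tate module of an elliptic curve over `ℚ` as a `GaloisRepAdic ℤ_[p]`
-/

set_option autoImplicit false

noncomputable section

open WeierstrassCurve WeierstrassCurve.Affine WeierstrassCurve.Affine.Point PadicInt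
open Fermat.Agent.H53 (GQ M2)

namespace Fermat.Agent.H87.Tate

variable (W : WeierstrassCurve ℚ) (hΔ : W.Δ ≠ 0) (p : ℕ) [hp : Fact p.Prime]

/-- The `m`-torsion of `W` over `AlgebraicClosure ℚ`, as in the Prelude. -/
abbrev Tor (W : WeierstrassCurve ℚ) (m : ℕ) :=
  Submodule.torsionBy ℤ (W⁄(AlgebraicClosure ℚ)).Point (m : ℤ)

/-- The Galois representation on `W[m]`, as in the Prelude. -/
abbrev rep (W : WeierstrassCurve ℚ) (m : ℕ) : GQ →* Module.End (ZMod m) (Tor W m) :=
  galoisRepModuleEnd (K := AlgebraicClosure ℚ) ℚ W m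

include hΔ in
/-- **Tate module** in matrix form. -/
theorem exists_tate :
    ∃ (b : ∀ n : ℕ, Module.Basis (Fin 2) (ZMod (p ^ n)) (Tor W (p ^ n))) (r : GQ →* M2 ℤ_[p]),
      (∀ n i, p • (b (n + 1) i : (W⁄(AlgebraicClosure ℚ)).Point) = b n i) ∧
      ∀ n σ, (r σ).map (toZModPow n) = LinearMap.toMatrix (b n) (b n) (rep W (p ^ n) σ) := by
  obtain ⟨b₁⟩ := EC.exists_basis_torsionBy_rat W hΔ (n := p) hp.out.ne_zero
  obtain ⟨b, hb, -⟩ := exists_compat_basis (p := p)
    (fun x => EC.exists_nsmul_eq W (EC.algebraMap_Δ_ne_zero hΔ) hp.out.ne_zero x) b₁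
  obtain ⟨r, hr⟩ := exists_padic_rep (p := p)
    (fun n => mulP (W⁄(AlgebraicClosure ℚ)).Point p n) b
    (fun n i => Subtype.ext (hb n i)) (fun n => rep W (p ^ n)) (fun n σ x => by
      apply Subtype.ext
      change p • (σ • (x : (W⁄(AlgebraicClosure ℚ)).Point)) =
        σ • (p • (x : (W⁄(AlgebraicClosure ℚ)).Point))
      exact smul_comm _ _ _)
  exact ⟨b, r, hb, hr⟩

/-- compatible bases of the `p^n`-torsion -/
def tateBasis (n : ℕ) : Module.Basis (Fin 2) (ZMod (p ^ n)) (Tor W (p ^ n)) :=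
  (exists_tate W hΔ p).choose n

/-- the `p`-adic representation in matrix form -/
def tateMat : GQ →* M2 ℤ_[p] := (exists_tate W hΔ p).choose_spec.choose

theorem tateBasis_compat (n : ℕ) (i : Fin 2) :
    p • (tateBasis W hΔ p (n + 1) i : (W⁄(AlgebraicClosure ℚ)).Point) = tateBasis W hΔ p n i :=
  (exists_tate W hΔ p).choose_spec.choose_spec.1 n i

theorem tateMat_map (n : ℕ) (σ : GQ) : (tateMat W hΔ p σ).map (toZModPow n) =
    LinearMap.toMatrix (tateBasis W hΔ p n) (tateBasis W hΔ p n) (rep W (p ^ n) σ) :=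
  (exists_tate W hΔ p).choose_spec.choose_spec.2 n σ

theorem mem_maximalIdeal_pow_iff {x : ℤ_[p]} {n : ℕ} :
    x ∈ IsLocalRing.maximalIdeal ℤ_[p] ^ n ↔ toZModPow n x = 0 := by
  rw [PadicInt.maximalIdeal_eq_span_p, Ideal.span_singleton_pow, ← ker_toZModPow,
    RingHom.mem_ker]

theorem mcont_tateMat : H53.MCont ℤ_[p] (tateMat W hΔ p) := by
  intro n
  obtain ⟨L, hL, h⟩ := EC.galoisFactorsThroughFiniteLevel W hΔ (n := p ^ n)
    (pow_ne_zero n hp.out.ne_zero)
  refine ⟨L, hL, fun σ hσ i j => ?_⟩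
  rw [mem_maximalIdeal_pow_iff, map_sub, sub_eq_zero]
  have h1 := tateMat_map W hΔ p n σ
  rw [show rep W (p ^ n) σ = 1 from h σ hσ, LinearMap.toMatrix_one] at h1
  have h2 := congrFun (congrFun h1 i) j
  rw [Matrix.map_apply] at h2
  rw [h2, Matrix.one_apply, Matrix.one_apply]
  split_ifs <;> simp

/-- **The `p`-adic Tate module of `W`** -/
def tate : GaloisRepAdic ℤ_[p] := H53.ofMatrix (tateMat W hΔ p) (mcont_tateMat W hΔ p)

theorem tate_ρ (σ : GQ) : (tate W hΔ p).ρ σ = Matrix.toLin' (tateMat W hΔ p σ) := rfl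

/-- the standard basis of the Tate module -/
def tateStd : Module.Basis (Fin 2) ℤ_[p] (tate W hΔ p).V :=
  H53.stdBasis (tateMat W hΔ p) (mcont_tateMat W hΔ p)

theorem toMat_tateStd : H53.toMat (tate W hΔ p).ρ (tateStd W hΔ p) = tateMat W hΔ p :=
  H53.toMat_stdBasis _ _

theorem charpoly_tate (σ : GQ) :
    LinearMap.charpoly ((tate W hΔ p).ρ σ) = (tateMat W hΔ p σ).charpoly := by
  rw [tate_ρ]
  exact Matrix.charpoly_toLin' _

theorem det_tate (σ : GQ) :
    LinearMap.det ((tate W hΔ p).ρ σ) = (tateMat W hΔ p σ).det := by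
  rw [tate_ρ]
  exact LinearMap.det_toLin' _

theorem det_tate_map (n : ℕ) (σ : GQ) :
    toZModPow n (LinearMap.det ((tate W hΔ p).ρ σ)) = LinearMap.det (rep W (p ^ n) σ) := by
  rw [det_tate, RingHom.map_det, RingHom.mapMatrix_apply, tateMat_map, LinearMap.det_toMatrix]

theorem trace_tateMat_map (n : ℕ) (σ : GQ) :
    toZModPow n (tateMat W hΔ p σ).trace =
      LinearMap.trace (ZMod (p ^ n)) (Tor W (p ^ n)) (rep W (p ^ n) σ) := by
  rw [LinearMap.trace_eq_matrix_trace (ZMod (p ^ n)) (tateBasis W hΔ p n), ← tateMat_map,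
    Matrix.trace_fin_two, Matrix.trace_fin_two, _root_.map_add]
  rfl

/-- trace and determinant on all finite levels give the characteristic polynomial on the Tate
module -/
theorem charpoly_tate_eq {σ : GQ} {a d : ℤ_[p]}
    (ha : ∀ n, LinearMap.trace (ZMod (p ^ n)) (Tor W (p ^ n)) (rep W (p ^ n) σ) = toZModPow n a)
    (hd : ∀ n, LinearMap.det (rep W (p ^ n) σ) = toZModPow n d) :
    LinearMap.charpoly ((tate W hΔ p).ρ σ) =
      Polynomial.X ^ 2 - Polynomial.C a * Polynomial.X + Polynomial.C d := by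
  rw [charpoly_tate, Matrix.charpoly_fin_two]
  have h1 : (tateMat W hΔ p σ).trace = a :=
    padic_ext fun n => by rw [trace_tateMat_map, ha]
  have h2 : (tateMat W hΔ p σ).det = d :=
    padic_ext fun n => by rw [← det_tate, det_tate_map, hd]
  rw [h1, h2]

/-- quadratic relation and determinant give the trace -/
theorem trace_eq_of_quadratic {R : Type*} [CommRing R] {M : Matrix (Fin 2) (Fin 2) R}
    (hM : IsUnit M) {a d : R} (h : M * M - a • M + d • 1 = 0) (hd : M.det = d) : M.trace = a := by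
  have h1 : M * M - M.trace • M + M.det • 1 = 0 := by
    ext i j
    fin_cases i <;> fin_cases j <;>
      simp [Matrix.mul_apply, Fin.sum_univ_two, Matrix.trace_fin_two, Matrix.det_fin_two] <;> ring
  have h2 : (M.trace - a) • M = 0 := by
    rw [hd] at h1
    calc (M.trace - a) • M = (M * M - a • M + d • 1) - (M * M - M.trace • M + d • 1) := by
          rw [sub_smul]; abel
      _ = 0 := by rw [h, h1, sub_zero]
  obtain ⟨N, hN⟩ := hM.exists_right_inv
  have h3 : (M.trace - a) • (1 : Matrix (Fin 2) (Fin 2) R) = 0 := by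
    rw [← hN, ← smul_mul_assoc, h2, zero_mul]
  have h4 := congrFun (congrFun h3 0) 0
  simpa [sub_eq_zero] using h4

/-- quadratic relation and determinant on all finite levels give the characteristic polynomial on
the Tate module -/
theorem charpoly_tate_eq_of_relation {σ : GQ} {a d : ℤ}
    (ha : ∀ n, ∀ x : Tor W (p ^ n), σ • σ • x - a • (σ • x) + d • x = 0)
    (hd : ∀ n, LinearMap.det (rep W (p ^ n) σ) = (d : ZMod (p ^ n))) :
    LinearMap.charpoly ((tate W hΔ p).ρ σ) =
      Polynomial.X ^ 2 - Polynomial.C (a : ℤ_[p]) * Polynomial.X + Polynomial.C (d : ℤ_[p]) := by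
  have hdet : (tateMat W hΔ p σ).det = d :=
    padic_ext fun n => by rw [← det_tate, det_tate_map, hd, map_intCast]
  have hrel : tateMat W hΔ p σ * tateMat W hΔ p σ - (a : ℤ_[p]) • tateMat W hΔ p σ +
      (d : ℤ_[p]) • 1 = 0 := by
    refine matrix_ext fun n => ?_
    have h1 : (rep W (p ^ n) σ) * (rep W (p ^ n) σ) - a • rep W (p ^ n) σ +
        d • (1 : Module.End (ZMod (p ^ n)) (Tor W (p ^ n))) = 0 :=
      LinearMap.ext fun x => ha n x
    have h2 := congrArg (LinearMap.toMatrix (tateBasis W hΔ p n) (tateBasis W hΔ p n)) h1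
    rw [_root_.map_add, map_sub, map_zsmul, map_zsmul, LinearMap.toMatrix_mul,
      LinearMap.toMatrix_one, ← tateMat_map, _root_.map_zero] at h2
    rw [← RingHom.mapMatrix_apply] at h2 ⊢
    rw [_root_.map_add, map_sub, _root_.map_mul, Int.cast_smul_eq_zsmul, Int.cast_smul_eq_zsmul,
      map_zsmul, map_zsmul, _root_.map_one, h2, ← RingHom.mapMatrix_apply, _root_.map_zero]
  have hunit : IsUnit (tateMat W hΔ p σ) := by
    refine IsUnit.of_mul_eq_one (tateMat W hΔ p σ⁻¹) ?_
    rw [← _root_.map_mul, mul_inv_cancel, _root_.map_one]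
  rw [charpoly_tate, Matrix.charpoly_fin_two, hdet,
    trace_eq_of_quadratic hunit hrel hdet]

theorem tate_eq_one {σ : GQ} (h : ∀ n, rep W (p ^ n) σ = 1) : (tate W hΔ p).ρ σ = 1 := by
  have h1 : tateMat W hΔ p σ = 1 := by
    refine matrix_ext fun n => ?_
    rw [tateMat_map, h, LinearMap.toMatrix_one, Matrix.map_one _ (_root_.map_zero _) (_root_.map_one _)]
  rw [tate_ρ, h1]
  exact Matrix.toLin'_one

/-- unramifiedness of the Tate module from the finite levels -/
theorem isUnramifiedAt_tate {q : ℕ}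
    (h : ∀ n, GaloisRepUnramifiedAt (K := AlgebraicClosure ℚ) ℚ W (p ^ n) q) :
    (tate W hΔ p).IsUnramifiedAt q := by
  intro P hP σ hσ
  refine tate_eq_one W hΔ p fun n => LinearMap.ext fun x => ?_
  exact h n P hP σ hσ x

/-- unipotence of inertia from the finite levels -/
theorem isUnipotentOnInertiaAt_tate {q : ℕ}
    (h : ∀ n, ∀ P : ValuationSubring (AlgebraicClosure ℚ), P.LiesOverPrime q →
      ∀ σ ∈ P.inertiaSubgroupIn ℚ,
        LinearMap.trace (ZMod (p ^ n)) (Tor W (p ^ n)) (rep W (p ^ n) σ) = 2 ∧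
        LinearMap.det (rep W (p ^ n) σ) = 1) :
    (tate W hΔ p).IsUnipotentOnInertiaAt q := by
  intro P hP σ hσ
  rw [charpoly_tate_eq W hΔ p (a := 2) (d := 1) (fun n => ?_) (fun n => ?_)]
  · rw [map_ofNat, _root_.map_one]; ring
  · rw [(h n P hP σ hσ).1, map_ofNat]
  · rw [(h n P hP σ hσ).2, _root_.map_one]

/-- cyclotomic determinant -/
theorem detIsCyclotomic_tate
    (h : ∀ n (σ : GQ) (a : ℕ), (∀ μ : AlgebraicClosure ℚ, μ ^ p ^ n = 1 → σ μ = μ ^ a) →
      LinearMap.det (rep W (p ^ n) σ) = (a : ZMod (p ^ n))) :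
    (tate W hΔ p).DetIsCyclotomic p := by
  refine ⟨?_, fun n σ a ha => ?_⟩
  · rw [PadicInt.maximalIdeal_eq_span_p]; exact Ideal.mem_span_singleton_self _
  · have h1 := det_tate_map W hΔ p n σ
    rw [h n σ a ha] at h1
    rw [Nat.cast_pow, ← ker_toZModPow, RingHom.mem_ker, map_sub, h1, map_natCast, sub_self]

/-! ### change of compatible basis -/

/-- matrix continuity for a compatible system -/
theorem mcont_of_compat {b : ∀ n : ℕ, Module.Basis (Fin 2) (ZMod (p ^ n)) (Tor W (p ^ n))}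
    {r : GQ →* M2 ℤ_[p]}
    (hr : ∀ n σ, (r σ).map (toZModPow n) = LinearMap.toMatrix (b n) (b n) (rep W (p ^ n) σ))
    (hΔ : W.Δ ≠ 0) : H53.MCont ℤ_[p] r := by
  intro n
  obtain ⟨L, hL, h⟩ := EC.galoisFactorsThroughFiniteLevel W hΔ (n := p ^ n)
    (pow_ne_zero n hp.out.ne_zero)
  refine ⟨L, hL, fun σ hσ i j => ?_⟩
  rw [mem_maximalIdeal_pow_iff, map_sub, sub_eq_zero]
  have h1 := hr n σ
  rw [show rep W (p ^ n) σ = 1 from h σ hσ, LinearMap.toMatrix_one] at h1
  have h2 := congrFun (congrFun h1 i) j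
  rw [Matrix.map_apply] at h2
  rw [h2, Matrix.one_apply, Matrix.one_apply]
  split_ifs <;> simp

/-- every compatible basis gives a matrix form of the Tate module -/
theorem exists_ofMatrix_of_compat
    (b : ∀ n : ℕ, Module.Basis (Fin 2) (ZMod (p ^ n)) (Tor W (p ^ n)))
    (hb : ∀ n i, p • (b (n + 1) i : (W⁄(AlgebraicClosure ℚ)).Point) = b n i) :
    ∃ (r : GQ →* M2 ℤ_[p]) (hr : H53.MCont ℤ_[p] r),
      (∀ n σ, (r σ).map (toZModPow n) = LinearMap.toMatrix (b n) (b n) (rep W (p ^ n) σ)) ∧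
      (tate W hΔ p).IsEquiv (H53.ofMatrix r hr) := by
  have hcomp : ∀ n (σ : GQ) (x : Tor W (p ^ (n + 1))),
      mulP (W⁄(AlgebraicClosure ℚ)).Point p n (rep W (p ^ (n + 1)) σ x) =
        rep W (p ^ n) σ (mulP (W⁄(AlgebraicClosure ℚ)).Point p n x) := fun n σ x => by
      apply Subtype.ext
      change p • (σ • (x : (W⁄(AlgebraicClosure ℚ)).Point)) =
        σ • (p • (x : (W⁄(AlgebraicClosure ℚ)).Point))
      exact smul_comm _ _ _
  obtain ⟨r, hr⟩ := exists_padic_rep (p := p)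
    (fun n => mulP (W⁄(AlgebraicClosure ℚ)).Point p n) b
    (fun n i => Subtype.ext (hb n i)) (fun n => rep W (p ^ n)) hcomp
  have hrc := mcont_of_compat W p hr hΔ
  refine ⟨r, hrc, hr, ?_⟩
  obtain ⟨U, U', hU1, hU2, hU, hU'⟩ := exists_change_of_basis (p := p)
    (fun n => mulP (W⁄(AlgebraicClosure ℚ)).Point p n) (tateBasis W hΔ p) b
    (fun n i => Subtype.ext (tateBasis_compat W hΔ p n i)) (fun n i => Subtype.ext (hb n i))
  rw [H53.isEquiv_iff_conj _ _ (tateStd W hΔ p) (H53.stdBasis r hrc)]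
  refine ⟨U, IsUnit.of_mul_eq_one U' hU1, fun σ => ?_⟩
  rw [H53.toMat_stdBasis, toMat_tateStd]
  refine matrix_ext fun n => ?_
  rw [Matrix.map_mul, Matrix.map_mul, hU, hr, tateMat_map, basis_toMatrix_mul_linearMap_toMatrix,
    linearMap_toMatrix_mul_basis_toMatrix]

/-! ### The residual representation -/

/-- ring homomorphisms from `ℤ_[p]` to a ring killed by `p` are equal -/
theorem padic_ringHom_ext {R : Type*} [CommRing R] (hR : (p : R) = 0) (f g : ℤ_[p] →+* R) :
    f = g := by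
  ext x
  have h := PadicInt.appr_spec 1 x
  rw [pow_one, Ideal.mem_span_singleton] at h
  obtain ⟨y, hy⟩ := h
  have hx : x = (x.appr 1 : ℤ_[p]) + p * y := by rw [← hy]; ring
  rw [hx, _root_.map_add, _root_.map_add, _root_.map_mul, _root_.map_mul, map_natCast, map_natCast,
    map_natCast, map_natCast, hR, zero_mul, zero_mul]

theorem exists_level_one (m : ℕ) (hm : p ^ 1 = m) :
    ∃ b : Module.Basis (Fin 2) (ZMod m) (Tor W m), ∀ σ,
      (tateMat W hΔ p σ).map (((ZMod.ringEquivCongr hm : ZMod (p ^ 1) ≃+* ZMod m) :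
        ZMod (p ^ 1) →+* ZMod m).comp (toZModPow 1)) =
        LinearMap.toMatrix b b (rep W m σ) := by
  subst hm
  refine ⟨tateBasis W hΔ p 1, fun σ => ?_⟩
  rw [← tateMat_map]
  ext i j
  simp

/-- **The residual representation of the Tate module** (with coefficients extended along
`f : ℤ_[p] → O`) is the `p`-torsion. -/
theorem residual_tate_baseChange {O : Type} [CommRing O] [IsLocalRing O] (f : ℤ_[p] →+* O)
    (hf : IsLocalHom f) (φ : ZMod p →+* IsLocalRing.ResidueField O)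
    (hcard : Nat.card (Submodule.torsionBy ℤ (W⁄(AlgebraicClosure ℚ)).Point p) = p ^ 2)
    (hker : GaloisFactorsThroughFiniteLevel
      (WeierstrassCurve.Affine.Point.galoisRepModuleEnd (K := AlgebraicClosure ℚ) ℚ W p)) :
    ((W.residualGaloisRepOf p hcard hker).baseChangeAlong φ).IsEquiv
      ((tate W hΔ p).baseChangeAlong f hf).residual := by
  obtain ⟨b, hb⟩ : ∃ b : Module.Basis (Fin 2) (ZMod p) (W.residualGaloisRepOf p hcard hker).V,
      ∀ σ, (tateMat W hΔ p σ).map (((ZMod.ringEquivCongr (pow_one p) : ZMod (p ^ 1) ≃+* ZMod p) :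
        ZMod (p ^ 1) →+* ZMod p).comp (toZModPow 1)) =
        H53.toMat (W.residualGaloisRepOf p hcard hker).ρ b σ :=
    exists_level_one W hΔ p p (pow_one p)
  refine (H53.residual_isEquiv_iff_conj _ _
    (H53.rbcBasis φ (W.residualGaloisRepOf p hcard hker) b)
    (H53.resBasis _ (H53.bcBasis f hf _ (tateStd W hΔ p)))).mpr ⟨1, isUnit_one, fun σ => ?_⟩
  rw [one_mul, mul_one, H53.toMat_rbcBasis, H53.toMat_resBasis, H53.toMat_bcBasis,
    toMat_tateStd, ← H53.mapMat_comp, H53.mapMat_apply', H53.mapMat_apply']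
  have h0 : (p : IsLocalRing.ResidueField O) = 0 := by
    rw [← map_natCast φ, ZMod.natCast_self, _root_.map_zero]
  have h1 := hb σ
  have h2 : φ.comp (((ZMod.ringEquivCongr (pow_one p) : ZMod (p ^ 1) ≃+* ZMod p) :
      ZMod (p ^ 1) →+* ZMod p).comp (toZModPow 1)) = (IsLocalRing.residue O).comp f :=
    padic_ringHom_ext p h0 _ _
  rw [← h2, ← h1, Matrix.map_map]
  rfl

/-! ### Finite levels -/

/-- The level `p^n` quotient of the Tate module is the `p^n`-torsion. -/
theorem exists_levelEquiv (n : ℕ) (I : Ideal ℤ_[p])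
    (hI : I = RingHom.ker (toZModPow n : ℤ_[p] →+* ZMod (p ^ n))) :
    ∃ e : ((tate W hΔ p).V ⧸ (I • (⊤ : Submodule ℤ_[p] (tate W hΔ p).V))) ≃+ Tor W (p ^ n),
      ∀ (σ : GQ) v, e ((tate W hΔ p).levelAction I σ v) = σ • e v := by
  classical
  letI : Module ℤ_[p] (Tor W (p ^ n)) := Module.compHom _ (toZModPow n : ℤ_[p] →+* ZMod (p ^ n))
  have hsm : ∀ (a : ℤ_[p]) (x : Tor W (p ^ n)), a • x = toZModPow n a • x := fun a x => rfl
  set b := tateBasis W hΔ p n with hb
  let φ : (Fin 2 → ℤ_[p]) →ₗ[ℤ_[p]] Tor W (p ^ n) := Fintype.linearCombination ℤ_[p] b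
  have hφ : ∀ v : Fin 2 → ℤ_[p], φ v = ∑ i, toZModPow n (v i) • b i := fun v => by
    simp only [φ, Fintype.linearCombination_apply, hsm]
  have hker : LinearMap.ker φ = I • (⊤ : Submodule ℤ_[p] (Fin 2 → ℤ_[p])) := by
    ext v
    rw [LinearMap.mem_ker, hφ, H53.mem_smul_top_pi]
    constructor
    · intro h i
      rw [hI, RingHom.mem_ker]
      exact Fintype.linearIndependent_iff.mp b.linearIndependent _ h i
    · intro h
      refine Finset.sum_eq_zero fun i _ => ?_
      have h1 := h i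
      rw [hI, RingHom.mem_ker] at h1
      rw [h1, zero_smul]
  have hsurj : Function.Surjective φ := by
    intro x
    have h1 : ∀ i, ∃ z : ℤ_[p], toZModPow n z = b.repr x i := fun i => by
      obtain ⟨m, hm⟩ := ZMod.intCast_surjective (b.repr x i)
      exact ⟨m, by rw [map_intCast, hm]⟩
    choose z hz using h1
    refine ⟨z, ?_⟩
    rw [hφ]
    simp only [hz]
    exact b.sum_repr x
  have hequiv : ∀ (σ : GQ) (v : Fin 2 → ℤ_[p]),
      φ ((tateMat W hΔ p σ).mulVec v) = rep W (p ^ n) σ (φ v) := by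
    intro σ v
    rw [hφ, hφ, map_sum]
    have h1 : ∀ j, rep W (p ^ n) σ (toZModPow n (v j) • b j) =
        ∑ i, (toZModPow n (tateMat W hΔ p σ i j) * toZModPow n (v j)) • b i := by
      intro j
      rw [_root_.map_smul]
      have h2 : rep W (p ^ n) σ (b j) = ∑ i, toZModPow n (tateMat W hΔ p σ i j) • b i := by
        conv_lhs => rw [← b.sum_repr (rep W (p ^ n) σ (b j))]
        refine Finset.sum_congr rfl fun i _ => ?_
        have h3 := congrFun (congrFun (tateMat_map W hΔ p n σ) i) j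
        rw [Matrix.map_apply, LinearMap.toMatrix_apply] at h3
        rw [h3]
      rw [h2, Finset.smul_sum]
      refine Finset.sum_congr rfl fun i _ => ?_
      rw [smul_smul, mul_comm]
    simp only [h1]
    rw [Finset.sum_comm]
    refine Finset.sum_congr rfl fun i _ => ?_
    rw [← Finset.sum_smul]
    congr 1
    simp only [Matrix.mulVec, dotProduct, map_sum, _root_.map_mul]
  let e₁ := (Submodule.quotEquivOfEq _ _ hker.symm).trans
    (LinearMap.quotKerEquivOfSurjective φ hsurj)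
  refine ⟨e₁.toAddEquiv, fun σ v => ?_⟩
  obtain ⟨v, rfl⟩ := Submodule.Quotient.mk_surjective _ v
  exact hequiv σ v

/-- ideals of `ℤ_[p]` of finite index -/
theorem exists_eq_ker_toZModPow (I : Ideal ℤ_[p]) (hI : Finite (ℤ_[p] ⧸ I)) :
    ∃ n, I = RingHom.ker (toZModPow n : ℤ_[p] →+* ZMod (p ^ n)) := by
  have hbot : I ≠ ⊥ := by
    rintro rfl
    have h1 : Finite ℤ_[p] := Finite.of_equiv _ (RingEquiv.quotientBot ℤ_[p]).toEquiv
    exact (Infinite.of_injective (fun n : ℕ => (n : ℤ_[p])) Nat.cast_injective).not_finite h1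
  obtain ⟨n, hn⟩ := PadicInt.ideal_eq_span_pow_p hbot
  exact ⟨n, by rw [hn, ker_toZModPow]⟩

/-- **Flatness of the Tate module from flat models of all `p^n`-torsion groups.** -/
theorem isFlatAt_tate
    (h : ∀ n, ∃ (H : Type) (_ : CommRing H) (_ : HopfAlgebra (GaloisRep.ratLocalizedAt p) H),
      Module.Finite (GaloisRep.ratLocalizedAt p) H ∧
      Module.Flat (GaloisRep.ratLocalizedAt p) H ∧
      Coalgebra.IsCocomm (GaloisRep.ratLocalizedAt p) H ∧
      ∃ e : WithConv (H →ₐ[GaloisRep.ratLocalizedAt p] AlgebraicClosure ℚ) ≃ Tor W (p ^ n),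
        (∀ f g : WithConv (H →ₐ[GaloisRep.ratLocalizedAt p] AlgebraicClosure ℚ),
          e (f * g) = e f + e g) ∧
        ∀ (σ : AlgebraicClosure ℚ ≃ₐ[ℚ] AlgebraicClosure ℚ)
          (f g : WithConv (H →ₐ[GaloisRep.ratLocalizedAt p] AlgebraicClosure ℚ)),
          (∀ h : H, g h = σ (f h)) → e g = σ • e f) :
    (tate W hΔ p).IsFlatAt p := by
  refine ⟨?_, fun I hI => ?_⟩
  · exact Finite.of_equiv _ (PadicInt.residueField (p := p)).symm.toEquiv
  · obtain ⟨n, hn⟩ := exists_eq_ker_toZModPow p I hI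
    obtain ⟨e₀, he₀⟩ := exists_levelEquiv W hΔ p n I hn
    obtain ⟨H, i1, i2, h1, h2, h3, e, he1, he2⟩ := h n
    refine ⟨H, i1, i2, h1, h2, h3, e.trans e₀.symm.toEquiv, fun f g => ?_, fun σ f g hfg => ?_⟩
    · exact (congrArg e₀.symm (he1 f g)).trans (_root_.map_add e₀.symm _ _)
    · apply e₀.injective
      rw [he₀]
      change e₀ (e₀.symm (e g)) = σ • e₀ (e₀.symm (e f))
      rw [AddEquiv.apply_symm_apply, AddEquiv.apply_symm_apply, he2 σ f g hfg]

end Fermat.Agent.H87.Tate
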