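import Fermat.Agent.H87VRel
import Fermat.Agent.H33DConj
import Fermat.Agent.H33DChiF
import Fermat.Agent.H71U2

/-!
# S47, block (D), DE5 (helper87): the vanishing case and (NBAR-ser)

* `exists_isNm_of_cf_ne_zero` : if the coefficient of the explicit series at `α` is not zero, then
  `α A D` is a norm (up to the places in `S`);
* `zeroSer` : the series vanishes if no `α A D` is a norm;
* `nbarSer` : (NBAR-ser) from (NBAR-theta) and the coefficient identity `HCoef`.
-/

set_option autoImplicit false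

open IsDedekindDomain NumberField WithZero FractionalIdeal MeasureTheory
open scoped nonZeroDivisors Pointwise

noncomputable section

namespace Fermat.Agent.H87V

open Fermat.Agent Fermat.Agent.H53Z Fermat.Agent.H71D
open Fermat.Agent.H47 (smulPlace below)
open Fermat.Agent.H82 (above aboveSet NonSplit)

section Places

variable {E B : Type*} [Field E] [NumberField E] [Field B] [NumberField B] [Algebra E B]

omit [NumberField E] in
theorem smulPlace_smulPlace {τ : B ≃ₐ[E] B} (hτ : τ * τ = 1) (P : HeightOneSpectrum (𝓞 B)) :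
    smulPlace τ (smulPlace τ P) = P := by
  apply HeightOneSpectrum.ext
  rw [H47.smulPlace_asIdeal, H47.smulPlace_asIdeal, ← mul_smul, hτ, one_smul]

theorem below_smulPlace (τ : B ≃ₐ[E] B) (P : HeightOneSpectrum (𝓞 B)) :
    below E (smulPlace τ P) = below E P :=
  (H47.eq_below_of_mem_above (H47.smulPlace_mem_above τ (H47.mem_above_below P))).symm

/-- orders of an ideal `K` with `K * conj τ K = up J` -/
theorem count_add_count {τ : B ≃ₐ[E] B} (hτ : τ * τ = 1) {K : FractionalIdeal (𝓞 B)⁰ B}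
    {J : FI E} (hK : K * H33D.conj τ K = H33D.up B (J : FractionalIdeal (𝓞 E)⁰ E))
    (P : HeightOneSpectrum (𝓞 B)) :
    count B P K + count B (smulPlace τ P) K =
      (below E P).asIdeal.ramificationIdx' P.asIdeal * cE J (below E P) := by
  have hK0 : K * H33D.conj τ K ≠ 0 := hK ▸ H33D.up_ne_zero J.ne_zero
  have h1 := H33D.count_up (H47.mem_above_below (K := E) P) (J : FractionalIdeal (𝓞 E)⁰ E)
  rw [← hK, count_mul B P (left_ne_zero_of_mul hK0) (right_ne_zero_of_mul hK0)] at h1
  have h2 := H33D.count_conj τ (smulPlace τ P) K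
  rw [smulPlace_smulPlace hτ] at h2
  rw [← h2]
  exact h1

end Places

section Zero

variable {E B : Type*} [Field E] [NumberField E] [Field B] [NumberField B] [Algebra E B]
  {J : Type*} [Fintype J]

/-- if the coefficient of the explicit series at `α` is not zero, then `α A D` is a norm -/
theorem exists_isNm_of_cf_ne_zero {d : DD E B J} (hG : d.Good) {A D : FI E}
    (hS : ∀ w ∈ d.S, cE A w = 0 ∧ cE D w = 0) {α : Eˣ} (hα : α ∈ d.US)
    (h : H33D.cf d.chi (spanSingleton (𝓞 E)⁰ (α : E) *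
      ((A * D⁻¹ : FI E) : FractionalIdeal (𝓞 E)⁰ E)) ≠ 0) :
    ∃ h₀ : FI B, IsNm d.S d.tau h₀ (cE (pE α * (A * D))) := by
  have hfd : FiniteDimensional E B := Module.Finite.of_restrictScalars_finite ℚ E B
  have hgal : IsGalois E B := H73U.isGalois d.tau hG.tau_ne hG.deg
  have hττ : d.tau * d.tau = 1 := H77.Z.aut_mul_self hG.deg hG.tau_ne
  have hJ : spanSingleton (𝓞 E)⁰ (α : E) * ((A * D⁻¹ : FI E) : FractionalIdeal (𝓞 E)⁰ E) =
      ((pE α * (A * D⁻¹) : FI E) : FractionalIdeal (𝓞 E)⁰ E) := by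
    rw [Units.val_mul (pE α), coe_pE]
  rw [hJ, H33D.cf_eq_finsum hG.deg hG.tau_ne d.chi (Units.ne_zero _)] at h
  obtain ⟨K, ⟨hK1, hK2⟩, -⟩ := exists_ne_zero_of_finsum_mem_ne_zero h
  have hK0 : K ≠ 0 := by
    rintro rfl
    rw [zero_mul] at hK2
    exact H33D.up_ne_zero (Units.ne_zero _) hK2.symm
  have hD0 : H33D.up B (D : FractionalIdeal (𝓞 E)⁰ E) ≠ 0 := H33D.up_ne_zero D.ne_zero
  have hcount := count_add_count hττ hK2
  have hc : ∀ P, cE (Units.mk0 (K * H33D.up B (D : FractionalIdeal (𝓞 E)⁰ E))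
      (mul_ne_zero hK0 hD0)) P = count B P K +
        (below E P).asIdeal.ramificationIdx' P.asIdeal * cE D (below E P) := fun P => by
    rw [cE, Units.val_mk0, count_mul B P hK0 hD0, H33D.count_up (H47.mem_above_below P)]
    rfl
  refine ⟨Units.mk0 (K * H33D.up B (D : FractionalIdeal (𝓞 E)⁰ E)) (mul_ne_zero hK0 hD0),
    ⟨fun P hP => ?_, fun P hP => ?_⟩⟩
  · obtain ⟨w, hw, hPw⟩ := hP
    have hb : below E P = w := (H47.eq_below_of_mem_above hPw).symm
    have h1 := hcount P
    rw [hb, cE_mul, cE_mul, cE_inv, cE_pE_of_US hG hα hw, (hS w hw).1, (hS w hw).2] at h1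
    have h2 := H33D.count_nonneg_of_le_one hK0 hK1 P
    have h3 := H33D.count_nonneg_of_le_one hK0 hK1 (smulPlace d.tau P)
    rw [hc, hb, (hS w hw).2]
    simp only [neg_zero, add_zero, mul_zero] at h1 ⊢
    omega
  · have hw := not_mem_of_not_mem_aboveSet hP
    have he := hG.unr _ hw P (H47.mem_above_below P)
    have he' := hG.unr _ hw (smulPlace d.tau P)
      (H47.smulPlace_mem_above d.tau (H47.mem_above_below P))
    have h1 := hcount P
    rw [he, cE_mul, cE_mul, cE_inv] at h1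
    rw [hc, hc, below_smulPlace, he, he', cE_mul, cE_mul]
    push_cast at h1 ⊢
    linarith

/-- (ZERO) -/
theorem zeroSer {d : DD E B J} (hG : d.Good) : ZeroSer d := by
  intro A D hS hno u w
  rw [DD.ser]
  have h : ∀ α : Eˣ, d.sco (A * D⁻¹) u α = 0 := by
    intro α
    rw [DD.sco]
    split_ifs with hα
    · by_cases h0 : H33D.cf d.chi (spanSingleton (𝓞 E)⁰ (α : E) *
        ((A * D⁻¹ : FI E) : FractionalIdeal (𝓞 E)⁰ E)) = 0
      · rw [h0, zero_mul]
      · obtain ⟨h₀, hh⟩ := exists_isNm_of_cf_ne_zero hG hS hα h0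
        exact absurd hh (hno α hα h₀)
    · rfl
  simp only [h, zero_mul, tsum_zero, mul_zero]

end Zero

section Final

variable {E B : Type} [Field E] [NumberField E] [Field B] [NumberField B] [Algebra E B]
  {J : Type*} [Fintype J]

/-- (UNFOLD) from the coefficient identity -/
theorem unfold_of {d : DD E B J} (hG : d.Good)
    (hc : ∀ n : HeightOneSpectrum (𝓞 E) → ℤ, (∃ h₀ : FI B, IsNm d.S d.tau h₀ n) → HCoef d n) :
    Unfold d := by
  intro n hn
  obtain ⟨ι, hι, h, g, c, R, -, hh, hser⟩ := H71D.unfold hG (hc n hn)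
  exact ⟨ι, hι, h, g, c, hh, hser⟩

/-- **(NBAR-ser)** from (NBAR-theta) and the coefficient identity. -/
theorem nbarSer {d : DD E B J} (hG : d.Good)
    (hc : ∀ n : HeightOneSpectrum (𝓞 E) → ℤ, (∃ h₀ : FI B, IsNm d.S d.tau h₀ n) → HCoef d n)
    {CS : Set E} (hCS : ∀ α ∈ d.US, ∀ c ∈ CS, ((α⁻¹ : Eˣ) : E) * c ∈ CS)
    (hθ : NbarTheta d CS) : NbarSer d CS :=
  nbarSer_of hG hCS hθ (unfold_of hG hc) (zeroSer hG)

end Final

end Fermat.Agent.H87V
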