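import Mathlib
import Fermat.Agent.H88GS1

/-! # The quadratic Gauss sum of the norm form at an unramified prime (helper88, S47 DE2b)

`R ⊆ S` rings with an involution `σ` of `S`, `N x = x σ x`, `tr x = x + σ x`, `w` a nonzero prime
of `R` with `tr (x S) ⊆ w → x ∈ w S` (unramified) and `|S / w S| = |R / w| ^ 2`.
For an additive character `κ` of `R` of conductor `w ^ k`:
`mean_{x ∈ S} κ (N x) = (ε / q) ^ k`, `ε = -1` if `w S` is prime and `ε = 1` otherwise. -/

set_option autoImplicit false
set_option linter.style.haveILetI false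

namespace Fermat.Agent.H88T

open Fermat.Agent.H78G

/-- the data of a quadratic extension of rings at an unramified prime -/
structure UnrQ (R S : Type*) [CommRing R] [CommRing S] [Algebra R S] (σ : S ≃ₐ[R] S)
    (N tr : S → R) (w : Ideal R) : Prop where
  inj : Function.Injective (algebraMap R S)
  N_eq : ∀ x, algebraMap R S (N x) = x * σ x
  tr_eq : ∀ x, algebraMap R S (tr x) = x + σ x
  invol : ∀ x, σ (σ x) = x
  prime : w.IsPrime
  max : w.IsMaximal
  ne : w.map (algebraMap R S) ≠ ⊤
  fin : Finite (R ⧸ w)
  dual : ∀ x : S, (∀ y, tr (x * y) ∈ w) → x ∈ w.map (algebraMap R S)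
  finS : Finite (S ⧸ w.map (algebraMap R S))
  card : Nat.card (S ⧸ w.map (algebraMap R S)) = Nat.card (R ⧸ w) ^ 2

namespace UnrQ

variable {R S : Type*} [CommRing R] [CommRing S] [Algebra R S] {σ : S ≃ₐ[R] S}
    {N tr : S → R} {w : Ideal R} (h : UnrQ R S σ N tr w)

include h

theorem tr_add (x y : S) : tr (x + y) = tr x + tr y := by
  apply h.inj
  rw [map_add, h.tr_eq, h.tr_eq, h.tr_eq, map_add]
  ring

theorem tr_smul (a : R) (x : S) : tr (algebraMap R S a * x) = a * tr x := by
  apply h.inj
  rw [map_mul, h.tr_eq, h.tr_eq, map_mul, AlgEquiv.commutes]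
  ring

theorem N_add (x y : S) : N (x + y) = N x + tr (x * σ y) + N y := by
  apply h.inj
  rw [map_add, map_add, h.tr_eq, h.N_eq, h.N_eq, h.N_eq, map_add, map_mul, h.invol]
  ring

theorem N_smul (a : R) (x : S) : N (algebraMap R S a * x) = a ^ 2 * N x := by
  apply h.inj
  rw [map_mul, map_pow, h.N_eq, h.N_eq, map_mul, AlgEquiv.commutes]
  ring

theorem N_mul (x y : S) : N (x * y) = N x * N y := by
  apply h.inj
  rw [map_mul, h.N_eq, h.N_eq, h.N_eq, map_mul]
  ring

theorem N_zero : N 0 = 0 := by
  have := h.N_smul 0 0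
  simpa using this

/-- the ideal generated by a power of `w` is stable under `σ` -/
theorem sigma_mem_map {I : Ideal R} {x : S} (hx : x ∈ I.map (algebraMap R S)) :
    σ x ∈ I.map (algebraMap R S) := by
  have h1 : (I.map (algebraMap R S)).map (σ : S ≃ₐ[R] S) = I.map (algebraMap R S) := by
    have e : ((σ : S ≃ₐ[R] S) : S →+* S).comp (algebraMap R S) = algebraMap R S := by
      ext a
      simp
    show Ideal.map ((σ : S ≃ₐ[R] S) : S →+* S) _ = _
    rw [Ideal.map_map, e]
  have h2 := Ideal.mem_map_of_mem ((σ : S ≃ₐ[R] S) : S →+* S) hx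
  have h3 : Ideal.map ((σ : S ≃ₐ[R] S) : S →+* S) (I.map (algebraMap R S)) =
    I.map (algebraMap R S) := h1
  rw [h3] at h2
  exact h2

/-- `tr (x) ∈ I` for `x ∈ I S` -/
theorem tr_mem {I : Ideal R} {x : S} (hx : x ∈ I.map (algebraMap R S)) : tr x ∈ I := by
  have : ∀ y ∈ Submodule.span S ((algebraMap R S) '' (I : Set R)), tr y ∈ I := by
    intro y hy
    induction hy using Submodule.span_induction with
    | mem y hy =>
      obtain ⟨a, ha, rfl⟩ := hy
      have := h.tr_smul a 1
      rw [mul_one] at this
      rw [this]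
      exact I.mul_mem_right _ ha
    | zero =>
      have := h.tr_smul 0 1
      rw [map_zero, zero_mul, zero_mul] at this
      rw [this]
      exact I.zero_mem
    | add x y _ _ hx hy =>
      rw [h.tr_add]
      exact I.add_mem hx hy
    | smul a x hx' hx =>
      clear hx
      induction hx' using Submodule.span_induction generalizing a with
      | mem y hy =>
        obtain ⟨b, hb, rfl⟩ := hy
        rw [smul_eq_mul, mul_comm, h.tr_smul]
        exact I.mul_mem_right _ hb
      | zero =>
        have := h.tr_smul 0 1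
        rw [map_zero, zero_mul, zero_mul] at this
        rw [smul_zero, this]
        exact I.zero_mem
      | add x y _ _ hx hy =>
        rw [smul_add, h.tr_add]
        exact I.add_mem (hx a) (hy a)
      | smul b y _ hy =>
        rw [smul_smul]
        exact hy _
  exact this x hx

theorem N_mem {I : Ideal R} {x : S} (hx : x ∈ I.map (algebraMap R S)) : N x ∈ I := by
  have : ∀ y ∈ Submodule.span S ((algebraMap R S) '' (I : Set R)), N y ∈ I := by
    intro y hy
    induction hy using Submodule.span_induction with
    | mem y hy =>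
      obtain ⟨a, ha, rfl⟩ := hy
      have := h.N_smul a 1
      rw [mul_one] at this
      rw [this, pow_two, mul_assoc]
      exact I.mul_mem_right _ ha
    | zero =>
      rw [h.N_zero]
      exact I.zero_mem
    | add x y hx' hy' hx hy =>
      rw [h.N_add]
      refine I.add_mem (I.add_mem hx (h.tr_mem ?_)) hy
      exact Ideal.mul_mem_right _ _ hx'
    | smul a x hx' hx =>
      rw [smul_eq_mul, h.N_mul]
      exact I.mul_mem_left _ hx
  exact this x hx

theorem mem_map_iff (a : R) : algebraMap R S a ∈ w.map (algebraMap R S) ↔ a ∈ w := by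
  constructor
  · intro ha
    have h1 : w ≤ (w.map (algebraMap R S)).comap (algebraMap R S) := Ideal.le_comap_map
    have h2 : (w.map (algebraMap R S)).comap (algebraMap R S) ≠ ⊤ := by
      intro h3
      apply h.ne
      rw [Ideal.eq_top_iff_one] at h3 ⊢
      simpa using h3
    have h3 := h.max.eq_of_le h2 h1
    rw [h3]
    exact ha
  · exact fun ha => Ideal.mem_map_of_mem _ ha

end UnrQ

end Fermat.Agent.H88T
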