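import Mathlib

/-! # The Gauss sum of the norm of a quadratic extension of finite fields (helper88, S47 DE2b) -/

set_option autoImplicit false

namespace Fermat.Agent.H88T

/-- sum of a function of the image under a surjective homomorphism of finite groups -/
theorem sum_comp_surjective {G H : Type*} [Group G] [Group H] [Fintype G] [Fintype H]
    (φ : G →* H) (hφ : Function.Surjective φ) (f : H → ℂ) :
    ∑ x, f (φ x) = (Nat.card φ.ker : ℂ) * ∑ y, f y := by
  classical
  rw [← Finset.sum_fiberwise Finset.univ φ, Finset.mul_sum]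
  refine Finset.sum_congr rfl fun q _ => ?_
  have hcard : (Finset.univ.filter (fun x => φ x = q)).card = Nat.card φ.ker := by
    obtain ⟨x₀, rfl⟩ := hφ q
    rw [← Fintype.card_subtype, ← Nat.card_eq_fintype_card]
    refine Nat.card_congr ?_
    refine
      { toFun := fun x => ⟨x.1 * x₀⁻¹, by
          rw [MonoidHom.mem_ker, map_mul, x.2, map_inv, mul_inv_cancel]⟩
        invFun := fun k => ⟨k.1 * x₀, by
          rw [map_mul, MonoidHom.mem_ker.mp k.2, one_mul]⟩
        left_inv := fun x => by simp
        right_inv := fun k => by simp }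
  rw [Finset.sum_congr rfl (g := fun _ => f q), Finset.sum_const, hcard, nsmul_eq_mul]
  intro x hx
  rw [Finset.mem_filter] at hx
  rw [hx.2]

/-- `∑_{x ∈ K} κ (N x) = -q` for a quadratic extension `K / k` of finite fields -/
theorem inert_sum {k K : Type*} [Field k] [Field K] [Fintype k] [Fintype K] [Algebra k K]
    (hd : Fintype.card K = Fintype.card k ^ 2) (s : K ≃ₐ[k] K) (hs : s ≠ 1) (N : K → k)
    (hN : ∀ x, algebraMap k K (N x) = x * s x) (κ : AddChar k ℂ) (hκ : κ ≠ 1) :
    ∑ x, κ (N x) = -(Fintype.card k : ℂ) := by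
  classical
  have hfr : Module.finrank k K = 2 := by
    have h1 := Module.card_eq_pow_finrank (K := k) (V := K)
    rw [hd] at h1
    exact (Nat.pow_right_injective Fintype.one_lt_card h1).symm
  have hNn : ∀ x, N x = Algebra.norm k x := by
    intro x
    apply (algebraMap k K).injective
    rw [hN, Algebra.norm_eq_prod_automorphisms]
    have hcard : Nat.card (K ≃ₐ[k] K) = 2 := by
      rw [IsGalois.card_aut_eq_finrank, hfr]
    have huniv : (Finset.univ : Finset (K ≃ₐ[k] K)) = {1, s} := by
      symm
      apply Finset.eq_univ_of_card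
      rw [Finset.card_pair (Ne.symm hs), ← Nat.card_eq_fintype_card, hcard]
    rw [huniv, Finset.prod_pair (Ne.symm hs)]
    rfl
  have hsum : ∑ x, κ (N x) = κ (N 0) + ∑ x : Kˣ, κ (N x) := by
    rw [← Finset.add_sum_erase _ _ (Finset.mem_univ (0 : K))]
    congr 1
    refine (Finset.sum_bij' (fun (x : Kˣ) _ => (x : K))
      (fun (x : K) hx => Units.mk0 x (Finset.ne_of_mem_erase hx)) ?_ ?_ ?_ ?_ ?_).symm
    · intro x _
      exact Finset.mem_erase.mpr ⟨x.ne_zero, Finset.mem_univ _⟩
    · intro x _
      exact Finset.mem_univ _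
    · intro x _
      exact Units.ext rfl
    · intro x _
      rfl
    · intro x _
      rfl
  have hksum : ∑ a : k, κ a = κ 0 + ∑ a : kˣ, κ a := by
    rw [← Finset.add_sum_erase _ _ (Finset.mem_univ (0 : k))]
    congr 1
    refine (Finset.sum_bij' (fun (x : kˣ) _ => (x : k))
      (fun (x : k) hx => Units.mk0 x (Finset.ne_of_mem_erase hx)) ?_ ?_ ?_ ?_ ?_).symm
    · intro x _
      exact Finset.mem_erase.mpr ⟨x.ne_zero, Finset.mem_univ _⟩
    · intro x _
      exact Finset.mem_univ _
    · intro x _
      exact Units.ext rfl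
    · intro x _
      rfl
    · intro x _
      rfl
  have hN0 : N 0 = 0 := by rw [hNn, Algebra.norm_zero]
  set φ : Kˣ →* kˣ := Units.map (Algebra.norm k (S := K)) with hφdef
  have hφ : Function.Surjective φ := FiniteField.unitsMap_norm_surjective k K
  have h1 : ∑ x : Kˣ, κ (N x) = (Nat.card φ.ker : ℂ) * ∑ a : kˣ, κ (a : k) := by
    rw [← sum_comp_surjective φ hφ (fun a : kˣ => κ (a : k))]
    refine Finset.sum_congr rfl fun x _ => ?_
    rw [hNn]
    rfl
  have h2 : (Nat.card φ.ker) * (Fintype.card k - 1) = Fintype.card K - 1 := by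
    have h3 := Subgroup.card_eq_card_quotient_mul_card_subgroup φ.ker
    rw [Nat.card_congr (QuotientGroup.quotientKerEquivOfSurjective φ hφ).toEquiv] at h3
    rw [Nat.card_units, Nat.card_units] at h3
    rw [Nat.card_eq_fintype_card, Nat.card_eq_fintype_card] at h3
    rw [h3, mul_comm]
  have hq : 1 < Fintype.card k := Fintype.one_lt_card
  have h4 : (Nat.card φ.ker : ℕ) = Fintype.card k + 1 := by
    have h5 : Fintype.card K - 1 = (Fintype.card k + 1) * (Fintype.card k - 1) := by
      rw [hd, show (1 : ℕ) = 1 ^ 2 by norm_num, Nat.sq_sub_sq]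
      norm_num
    rw [h5] at h2
    exact Nat.eq_of_mul_eq_mul_right (by omega) h2
  have h6 : ∑ a : kˣ, κ (a : k) = -1 := by
    have h7 := AddChar.sum_eq_zero_of_ne_one hκ
    rw [hksum, AddChar.map_zero_eq_one] at h7
    linear_combination h7
  rw [hsum, h1, h4, h6, hN0, AddChar.map_zero_eq_one]
  push_cast
  ring

end Fermat.Agent.H88T
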