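import Mathlib
import Fermat.Agent.H88GS2
import Fermat.Agent.H88GS3

/-! # The Gauss sum of the norm form at an unramified prime: the local value (helper88, S47 DE2b) -/

set_option autoImplicit false
set_option linter.style.haveILetI false
set_option linter.unusedSectionVars false

namespace Fermat.Agent.H88T

open Fermat.Agent.H78G

theorem mean_inf {B : Type*} [AddCommGroup B] (L L' : AddSubgroup B) (f : B → ℂ) :
    mean L (L' ⊓ L) f = mean L L' f := by
  unfold mean
  rw [AddSubgroup.inf_addSubgroupOf_right]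

theorem finite_quot {S : Type*} [CommRing S] (I : Ideal S) [Finite (S ⧸ I)] (L : AddSubgroup S) :
    Finite (L ⧸ I.toAddSubgroup.addSubgroupOf L) := by
  let φ : (L ⧸ I.toAddSubgroup.addSubgroupOf L) → S ⧸ I :=
    Quotient.lift (fun l : L => Ideal.Quotient.mk I l) (by
      intro a b hab
      have h1 : (QuotientAddGroup.mk a : L ⧸ I.toAddSubgroup.addSubgroupOf L) =
        QuotientAddGroup.mk b := Quotient.sound hab
      rw [QuotientAddGroup.eq, AddSubgroup.mem_addSubgroupOf] at h1
      rw [Ideal.Quotient.eq]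
      have h2 : ((-a + b : L) : S) ∈ I := h1
      push_cast at h2
      have h3 := I.neg_mem h2
      have e : -(-(a : S) + b) = a - b := by ring
      rwa [e] at h3)
  refine Finite.of_injective φ ?_
  intro a b hab
  induction a using QuotientAddGroup.induction_on with
  | H a =>
    induction b using QuotientAddGroup.induction_on with
    | H b =>
      have h1 : Ideal.Quotient.mk I (a : S) = Ideal.Quotient.mk I (b : S) := hab
      rw [Ideal.Quotient.eq] at h1
      rw [QuotientAddGroup.eq, AddSubgroup.mem_addSubgroupOf]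
      show ((-a + b : L) : S) ∈ I
      push_cast
      have h3 := I.neg_mem h1
      have e : -((a : S) - b) = -a + b := by ring
      rwa [e] at h3

theorem mean_top_quot {S : Type*} [CommRing S] (I : Ideal S) [Finite (S ⧸ I)] (g : S ⧸ I → ℂ) :
    mean ⊤ I.toAddSubgroup (fun x => g (Ideal.Quotient.mk I x)) =
      (Nat.card (S ⧸ I) : ℂ)⁻¹ * ∑ᶠ q, g q := by
  have hper : Per (⊤ : AddSubgroup S) I.toAddSubgroup (fun x => g (Ideal.Quotient.mk I x)) := by
    intro l _ l' hl'
    show g (Ideal.Quotient.mk I (l + l')) = g (Ideal.Quotient.mk I l)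
    congr 1
    rw [Ideal.Quotient.eq, add_sub_cancel_left]
    exact hl'
  rw [mean_eq hper]
  let φ : ((⊤ : AddSubgroup S) ⧸ I.toAddSubgroup.addSubgroupOf ⊤) → S ⧸ I :=
    Quotient.lift (fun l : (⊤ : AddSubgroup S) => Ideal.Quotient.mk I l) (by
      intro a b hab
      have h1 : (QuotientAddGroup.mk a : (⊤ : AddSubgroup S) ⧸ I.toAddSubgroup.addSubgroupOf ⊤) =
        QuotientAddGroup.mk b := Quotient.sound hab
      rw [QuotientAddGroup.eq, AddSubgroup.mem_addSubgroupOf] at h1
      rw [Ideal.Quotient.eq]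
      have h2 : ((-a + b : (⊤ : AddSubgroup S)) : S) ∈ I := h1
      push_cast at h2
      have h3 := I.neg_mem h2
      have e : -(-(a : S) + b) = a - b := by ring
      rwa [e] at h3)
  have hφ : Function.Bijective φ := by
    constructor
    · intro a b hab
      induction a using QuotientAddGroup.induction_on with
      | H a =>
        induction b using QuotientAddGroup.induction_on with
        | H b =>
          have h1 : Ideal.Quotient.mk I (a : S) = Ideal.Quotient.mk I (b : S) := hab
          rw [Ideal.Quotient.eq] at h1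
          rw [QuotientAddGroup.eq, AddSubgroup.mem_addSubgroupOf]
          show ((-a + b : (⊤ : AddSubgroup S)) : S) ∈ I
          push_cast
          have h3 := I.neg_mem h1
          have e : -((a : S) - b) = -a + b := by ring
          rwa [e] at h3
    · intro q
      obtain ⟨x, rfl⟩ := Ideal.Quotient.mk_surjective q
      exact ⟨QuotientAddGroup.mk ⟨x, AddSubgroup.mem_top _⟩, rfl⟩
  congr 1
  · rw [Nat.card_congr (Equiv.ofBijective φ hφ)]
  · refine finsum_eq_of_bijective φ hφ ?_
    intro q
    induction q using QuotientAddGroup.induction_on with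
    | H l => rfl

theorem relIndex_top_ideal {S : Type*} [CommRing S] (I : Ideal S) :
    I.toAddSubgroup.relIndex ⊤ = Nat.card (S ⧸ I) := by
  rw [AddSubgroup.relIndex_top_right]
  rfl

namespace UnrQ

variable {R S : Type*} [CommRing R] [CommRing S] [Algebra R S] {σ : S ≃ₐ[R] S}
    {N tr : S → R} {w : Ideal R} (h : UnrQ R S σ N tr w)

include h

/-- `N x ∈ I ^ 2` for `x ∈ I S` -/
theorem N_mem_sq {I : Ideal R} {x : S} (hx : x ∈ I.map (algebraMap R S)) : N x ∈ I ^ 2 := by
  have : ∀ y ∈ Submodule.span S ((algebraMap R S) '' (I : Set R)), N y ∈ I ^ 2 := by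
    intro y hy
    induction hy using Submodule.span_induction with
    | mem y hy =>
      obtain ⟨a, ha, rfl⟩ := hy
      have := h.N_smul a 1
      rw [mul_one] at this
      rw [this]
      exact Ideal.mul_mem_right _ _ (Ideal.pow_mem_pow ha 2)
    | zero =>
      rw [h.N_zero]
      exact Ideal.zero_mem _
    | add x y hx' hy' hx hy =>
      rw [h.N_add]
      refine Ideal.add_mem _ (Ideal.add_mem _ hx (h.tr_mem ?_)) hy
      rw [Ideal.map_pow, pow_two]
      exact Ideal.mul_mem_mul hx' (h.sigma_mem_map hy')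
    | smul a x hx' hx =>
      rw [smul_eq_mul, h.N_mul]
      exact Ideal.mul_mem_left _ _ hx
  exact this x hx

theorem tr_mul_mem {I J : Ideal R} {x y : S} (hx : x ∈ I.map (algebraMap R S))
    (hy : y ∈ J.map (algebraMap R S)) : tr (x * σ y) ∈ I * J := by
  refine h.tr_mem ?_
  rw [Ideal.map_mul]
  exact Ideal.mul_mem_mul hx (h.sigma_mem_map hy)

/-- the nontrivial value of a character from a trace outside `w` -/
theorem exists_char {κ : AddChar R ℂ} {k : ℕ} (hκ : ∀ a ∈ w ^ (k + 1), κ a = 1)
    (hκ' : ∃ a ∈ w ^ k, κ a ≠ 1) {t : R} (ht : t ∉ w) : ∃ a ∈ w ^ k, κ (a * t) ≠ 1 := by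
  by_contra hcon
  push Not at hcon
  obtain ⟨a, ha, hne⟩ := hκ'
  apply hne
  obtain ⟨s, m, hm, hs⟩ := h.max.exists_inv ht
  have e : a = (a * s) * t + a * m := by
    linear_combination (-a) * hs
  rw [e, AddChar.map_add_eq_mul, hcon _ (Ideal.mul_mem_right _ _ ha), hκ _, mul_one]
  rw [pow_succ]
  exact Ideal.mul_mem_mul ha hm

theorem per {κ : AddChar R ℂ} {k : ℕ} (hκ : ∀ a ∈ w ^ k, κ a = 1) (L : AddSubgroup S) :
    Per L ((w ^ k).map (algebraMap R S)).toAddSubgroup (fun x => κ (N x)) := by
  intro l _ l' hl'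
  have hl'' : l' ∈ (w ^ k).map (algebraMap R S) := hl'
  show κ (N (l + l')) = κ (N l)
  rw [h.N_add, AddChar.map_add_eq_mul, AddChar.map_add_eq_mul, hκ _ (h.N_mem hl''), mul_one,
    hκ _ (h.tr_mem (Ideal.mul_mem_left _ _ (h.sigma_mem_map hl''))), mul_one]

/-- **Split primes.** -/
theorem mean_split (hw : ¬ (w.map (algebraMap R S)).IsPrime) {κ : AddChar R ℂ}
    (hκ : ∀ a ∈ w, κ a = 1) (hκ' : ∃ a, κ a ≠ 1) :
    mean ⊤ (w.map (algebraMap R S)).toAddSubgroup (fun x => κ (N x)) =
      (Nat.card (R ⧸ w) : ℂ)⁻¹ := by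
  classical
  set W := w.map (algebraMap R S) with hW
  haveI := h.finS
  haveI := h.fin
  obtain ⟨P, hP, hWP⟩ := Ideal.exists_le_maximal W h.ne
  have hcon : ∀ a : R, algebraMap R S a ∈ P → a ∈ w := by
    intro a ha
    have h1 : w ≤ P.comap (algebraMap R S) := (Ideal.map_le_iff_le_comap).mp hWP
    have h2 : P.comap (algebraMap R S) ≠ ⊤ := by
      intro h3
      apply hP.ne_top
      rw [Ideal.eq_top_iff_one] at h3 ⊢
      simpa using h3
    have h3 := h.max.eq_of_le h2 h1
    rw [h3]
    exact ha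
  have hmem : ∀ x, x ∈ P → σ x ∈ P → x ∈ W := by
    intro x hx hsx
    refine h.dual x fun y => hcon _ ?_
    rw [h.tr_eq, map_mul]
    exact P.add_mem (P.mul_mem_right _ hx) (P.mul_mem_right _ hsx)
  have hex : ∃ e ∈ P, σ e ∉ P := by
    by_contra hc
    push Not at hc
    apply hw
    have : W = P := le_antisymm hWP fun x hx => hmem x hx (hc x hx)
    rw [this]
    exact hP.isPrime
  obtain ⟨e, he, hse⟩ := hex
  have hPN : ∀ x ∈ P, κ (N x) = 1 := by
    intro x hx
    refine hκ _ (hcon _ ?_)
    rw [h.N_eq]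
    exact P.mul_mem_right _ hx
  have hPT : ∀ x ∈ P, ∀ y ∈ P, κ (tr (x * σ y)) = 1 := by
    intro x hx y hy
    refine hκ _ (hcon _ ?_)
    rw [h.tr_eq, map_mul, h.invol]
    exact P.add_mem (P.mul_mem_right _ hx) (P.mul_mem_left _ hy)
  haveI hf1 : Finite ((⊤ : AddSubgroup S) ⧸ W.toAddSubgroup.addSubgroupOf ⊤) := finite_quot W ⊤
  haveI hf2 : Finite (P.toAddSubgroup ⧸ W.toAddSubgroup.addSubgroupOf P.toAddSubgroup) :=
    finite_quot W _
  have hper : Per (⊤ : AddSubgroup S) W.toAddSubgroup (fun x => κ (N x)) := by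
    have := h.per (κ := κ) (k := 1) (by rw [pow_one]; exact hκ) ⊤
    rw [pow_one] at this
    exact this
  have hiso := mean_isotropic (I := P.toAddSubgroup) (J := P.toAddSubgroup) (L := ⊤)
    (L' := W.toAddSubgroup) le_top (fun x hx => hWP hx) le_top hper
    (by
      intro x hx y hy
      show κ (N (x + y)) = κ (N x)
      rw [hPN _ (P.add_mem hx hy), hPN _ hx])
    (by
      intro x _ hx
      have ht : tr (x * σ e) ∉ w := by
        intro htw
        have h1 : algebraMap R S (tr (x * σ e)) ∈ P := hWP (Ideal.mem_map_of_mem _ htw)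
        rw [h.tr_eq, map_mul, h.invol] at h1
        have h2 : x * σ e ∈ P := by
          have := P.sub_mem h1 (P.mul_mem_left (σ x) he)
          rwa [add_sub_cancel_right] at this
        rcases hP.isPrime.mem_or_mem h2 with h3 | h3
        · exact hx h3
        · exact hse h3
      obtain ⟨a, -, ha⟩ := h.exists_char (κ := κ) (k := 0) (by rw [zero_add, pow_one]; exact hκ)
        (by
          obtain ⟨a, ha⟩ := hκ'
          exact ⟨a, by simp, ha⟩) ht
      refine ⟨algebraMap R S a * e, P.mul_mem_left _ he, κ (a * tr (x * σ e)), ha, ?_⟩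
      intro y hy
      have hy0 : algebraMap R S a * e ∈ P := P.mul_mem_left _ he
      show κ (N (x + (y + algebraMap R S a * e))) = _ * κ (N (x + y))
      rw [← add_assoc, h.N_add (x + y), add_mul, h.tr_add, AddChar.map_add_eq_mul,
        AddChar.map_add_eq_mul, AddChar.map_add_eq_mul, hPN _ hy0, hPT _ hy _ hy0]
      have e1 : x * σ (algebraMap R S a * e) = algebraMap R S a * (x * σ e) := by
        rw [map_mul, AlgEquiv.commutes]
        ring
      rw [e1, h.tr_smul]
      ring)
  rw [hiso]
  have hone : mean P.toAddSubgroup W.toAddSubgroup (fun x => κ (N x)) = 1 := by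
    rw [mean_congr (g := fun _ => (1 : ℂ)) (fun x hx => hPN x hx), mean_const]
  rw [hone, mul_one, relIndex_top_ideal]
  congr 2
  -- the count
  let P' : Ideal S := P.comap (σ : S →+* S)
  have hinf : W = P ⊓ P' := by
    apply le_antisymm
    · intro x hx
      refine ⟨hWP hx, ?_⟩
      show σ x ∈ P
      exact hWP (h.sigma_mem_map hx)
    · rintro x ⟨hx, hx'⟩
      exact hmem x hx hx'
  have hcop : IsCoprime P P' := by
    rw [Ideal.isCoprime_iff_exists]
    obtain ⟨s, m, hm, hs⟩ := hP.exists_inv hse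
    refine ⟨m, hm, s * σ e, ?_, by rw [← hs]; ring⟩
    show σ (s * σ e) ∈ P
    rw [map_mul, h.invol]
    exact P.mul_mem_left _ he
  have hc1 : Nat.card (S ⧸ W) = Nat.card (S ⧸ P) * Nat.card (S ⧸ P') := by
    rw [hinf, ← Nat.card_prod]
    exact Nat.card_congr (Ideal.quotientInfEquivQuotientProd P P' hcop).toEquiv
  have hc2 : Nat.card (S ⧸ P') = Nat.card (S ⧸ P) := by
    refine Nat.card_congr (Ideal.quotientEquiv P' P σ.toRingEquiv ?_).toEquiv
    show P = Ideal.map (σ.toRingEquiv : S →+* S) (P.comap (σ : S →+* S))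
    exact (Ideal.map_comap_of_surjective (σ.toRingEquiv : S →+* S) σ.surjective P).symm
  rw [h.card, hc2, ← pow_two] at hc1
  exact_mod_cast (Nat.pow_left_injective (n := 2) (by norm_num) hc1).symm

end UnrQ

end Fermat.Agent.H88T
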