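import Mathlib
import Fermat.Agent.H88GS4

/-! # The Gauss sum of the norm form at an unramified prime: inert primes, induction
(helper88, S47 DE2b) -/

set_option autoImplicit false
set_option linter.style.haveILetI false
set_option linter.unusedSectionVars false

namespace Fermat.Agent.H88T

open Fermat.Agent.H78G

namespace UnrQ

variable {R S : Type*} [CommRing R] [CommRing S] [Algebra R S] {σ : S ≃ₐ[R] S}
    {N tr : S → R} {w : Ideal R} (h : UnrQ R S σ N tr w)

include h

/-- **Inert primes.** -/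
theorem mean_inert (hw : (w.map (algebraMap R S)).IsPrime) {κ : AddChar R ℂ}
    (hκ : ∀ a ∈ w, κ a = 1) (hκ' : ∃ a, κ a ≠ 1) :
    mean ⊤ (w.map (algebraMap R S)).toAddSubgroup (fun x => κ (N x)) =
      -(Nat.card (R ⧸ w) : ℂ)⁻¹ := by
  classical
  set W := w.map (algebraMap R S) with hW
  haveI := h.finS
  haveI := h.fin
  haveI := h.max
  haveI : W.IsPrime := hw
  haveI hWm : W.IsMaximal := by
    apply Ideal.Quotient.maximal_of_isField
    exact Finite.isField_of_domain (S ⧸ W)
  letI fk : Field (R ⧸ w) := Ideal.Quotient.field w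
  letI fK : Field (S ⧸ W) := Ideal.Quotient.field W
  letI : Fintype (R ⧸ w) := Fintype.ofFinite _
  letI : Fintype (S ⧸ W) := Fintype.ofFinite _
  letI alg : Algebra (R ⧸ w) (S ⧸ W) :=
    (Ideal.quotientMap W (algebraMap R S) Ideal.le_comap_map).toAlgebra
  have halg : ∀ a : R, algebraMap (R ⧸ w) (S ⧸ W) (Ideal.Quotient.mk w a) =
      Ideal.Quotient.mk W (algebraMap R S a) := fun a => rfl
  have hσW : W = W.map (σ.toRingEquiv : S →+* S) := by
    apply le_antisymm
    · intro x hx
      have h1 : σ x ∈ W := h.sigma_mem_map hx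
      have h2 := Ideal.mem_map_of_mem (σ.toRingEquiv : S →+* S) h1
      have h3 : (σ.toRingEquiv : S →+* S) (σ x) = x := h.invol x
      rwa [h3] at h2
    · rw [Ideal.map_le_iff_le_comap]
      intro x hx
      exact h.sigma_mem_map hx
  let s0 : (S ⧸ W) ≃+* (S ⧸ W) := Ideal.quotientEquiv W W σ.toRingEquiv hσW
  have hs0 : ∀ x : S, s0 (Ideal.Quotient.mk W x) = Ideal.Quotient.mk W (σ x) := fun x => rfl
  let s : (S ⧸ W) ≃ₐ[R ⧸ w] (S ⧸ W) := AlgEquiv.ofRingEquiv (f := s0) (by
    intro r
    obtain ⟨a, rfl⟩ := Ideal.Quotient.mk_surjective r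
    rw [halg, hs0, AlgEquiv.commutes])
  have hs : ∀ x : S, s (Ideal.Quotient.mk W x) = Ideal.Quotient.mk W (σ x) := fun x => rfl
  -- the norm
  let N0 : (S ⧸ W) → (R ⧸ w) := Quotient.lift (fun x : S => Ideal.Quotient.mk w (N x)) (by
    intro a b hab
    have h1 : Ideal.Quotient.mk W a = Ideal.Quotient.mk W b := Quotient.sound hab
    rw [Ideal.Quotient.eq] at h1
    rw [Ideal.Quotient.eq]
    have e : a = b + (a - b) := by ring
    rw [e, h.N_add]
    have e2 : N b + tr (b * σ (a - b)) + N (a - b) - N b = tr (b * σ (a - b)) + N (a - b) := by ring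
    rw [e2]
    refine w.add_mem ?_ (h.N_mem h1)
    exact h.tr_mem (Ideal.mul_mem_left _ _ (h.sigma_mem_map h1)))
  have hN0 : ∀ x : S, N0 (Ideal.Quotient.mk W x) = Ideal.Quotient.mk w (N x) := fun x => rfl
  have hN : ∀ x : S ⧸ W, algebraMap (R ⧸ w) (S ⧸ W) (N0 x) = x * s x := by
    intro q
    obtain ⟨x, rfl⟩ := Ideal.Quotient.mk_surjective q
    rw [hN0, hs, halg, h.N_eq, map_mul]
  -- the character
  let κ0 : AddChar (R ⧸ w) ℂ :=
    { toFun := Quotient.lift (fun a : R => κ a) (by
        intro a b hab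
        have h1 : Ideal.Quotient.mk w a = Ideal.Quotient.mk w b := Quotient.sound hab
        rw [Ideal.Quotient.eq] at h1
        show κ a = κ b
        have e : a = b + (a - b) := by ring
        rw [e, AddChar.map_add_eq_mul, hκ _ h1, mul_one])
      map_zero_eq_one' := AddChar.map_zero_eq_one κ
      map_add_eq_mul' := by
        intro x y
        obtain ⟨a, rfl⟩ := Ideal.Quotient.mk_surjective x
        obtain ⟨b, rfl⟩ := Ideal.Quotient.mk_surjective y
        exact AddChar.map_add_eq_mul κ a b }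
  have hκ0 : ∀ a : R, κ0 (Ideal.Quotient.mk w a) = κ a := fun a => rfl
  have hκ01 : κ0 ≠ 1 := by
    intro h1
    obtain ⟨a, ha⟩ := hκ'
    apply ha
    rw [← hκ0, h1, AddChar.one_apply]
  have hs1 : s ≠ 1 := by
    intro h1
    have h2 : ∀ x : S, σ x - x ∈ W := by
      intro x
      rw [← Ideal.Quotient.eq, ← hs, h1]
      rfl
    by_cases h2w : (2 : R) ∈ w
    · apply h.ne
      rw [← hW, Ideal.eq_top_iff_one]
      refine h.dual 1 fun y => ?_
      rw [one_mul, ← h.mem_map_iff, h.tr_eq]
      have e : y + σ y = algebraMap R S 2 * y + (σ y - y) := by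
        rw [map_ofNat]
        ring
      rw [e]
      exact W.add_mem (W.mul_mem_right _ (Ideal.mem_map_of_mem _ h2w)) (h2 y)
    · obtain ⟨u, m, hm, hu⟩ := h.max.exists_inv h2w
      have hsurj : Function.Surjective (algebraMap (R ⧸ w) (S ⧸ W)) := by
        intro q
        obtain ⟨x, rfl⟩ := Ideal.Quotient.mk_surjective q
        refine ⟨Ideal.Quotient.mk w (u * tr x), ?_⟩
        rw [halg, Ideal.Quotient.eq, map_mul, h.tr_eq]
        have hu' : algebraMap R S u * 2 + algebraMap R S m = 1 := by
          rw [← map_ofNat (algebraMap R S) 2, ← map_mul, ← map_add, hu, map_one]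
        have e : algebraMap R S u * (x + σ x) - x =
            algebraMap R S u * (σ x - x) + (-x) * algebraMap R S m := by
          linear_combination x * hu'
        rw [e]
        exact W.add_mem (W.mul_mem_left _ (h2 x)) (W.mul_mem_left _ (Ideal.mem_map_of_mem _ hm))
      have h3 := Nat.card_le_card_of_surjective _ hsurj
      rw [h.card] at h3
      have h4 : 1 < Nat.card (R ⧸ w) := Finite.one_lt_card
      nlinarith
  have hcard : Fintype.card (S ⧸ W) = Fintype.card (R ⧸ w) ^ 2 := by
    rw [← Nat.card_eq_fintype_card, ← Nat.card_eq_fintype_card]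
    exact h.card
  have hsum := inert_sum hcard s hs1 N0 hN κ0 hκ01
  have h5 : (fun x : S => κ (N x)) = fun x => (fun q => κ0 (N0 q)) (Ideal.Quotient.mk W x) := by
    funext x
    rfl
  rw [h5, mean_top_quot W (fun q => κ0 (N0 q)), finsum_eq_sum_of_fintype, hsum, h.card,
    ← Nat.card_eq_fintype_card]
  have h6 : (Nat.card (R ⧸ w) : ℂ) ≠ 0 := by
    exact_mod_cast (Nat.card_pos).ne'
  push_cast
  field_simp

variable (hfin : ∀ k, Finite (S ⧸ (w ^ k).map (algebraMap R S))) {π : R} (hπw : π ∈ w)
  (hπ : w ≤ Ideal.span {π} ⊔ w ^ 2)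
  (hπ0 : ∀ x : S, algebraMap R S π * x = 0 → x = 0)

omit h in
include hπ in
/-- `w ≤ (π) + w ^ k` for all `k` -/
theorem le_sup_pow (k : ℕ) : w ≤ Ideal.span {π} ⊔ w ^ k := by
  induction k with
  | zero => rw [pow_zero, Ideal.one_eq_top]; exact le_top.trans (le_sup_right)
  | succ k ih =>
    have h1 : w * w ≤ Ideal.span {π} ⊔ w ^ (k + 1) := by
      refine (Ideal.mul_mono_right ih).trans ?_
      rw [Ideal.mul_sup]
      refine sup_le ?_ ?_
      · have h2 : w * Ideal.span {π} ≤ Ideal.span {π} := Ideal.mul_le_right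
        exact h2.trans le_sup_left
      · rw [← pow_succ']
        exact le_sup_right
    refine hπ.trans (sup_le le_sup_left ?_)
    rw [pow_two]
    exact h1

omit h in
include hπ hπw in
/-- `w ^ (k + 1) ≤ (π ^ 2) w ^ (k - 1) + w ^ (k + 2)` -/
theorem pow_le_sup (k : ℕ) :
    w ^ (k + 2) ≤ Ideal.span {π ^ 2} * w ^ k ⊔ w ^ (k + 3) := by
  have h2 : w ^ 2 ≤ Ideal.span {π ^ 2} ⊔ w ^ 3 := by
    have hs : Ideal.span {π} ≤ w := (Ideal.span_singleton_le_iff_mem w).mpr hπw
    calc w ^ 2 = w * w := pow_two w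
      _ ≤ (Ideal.span {π} ⊔ w ^ 2) * (Ideal.span {π} ⊔ w ^ 2) := Ideal.mul_mono hπ hπ
      _ ≤ Ideal.span {π ^ 2} ⊔ w ^ 3 := by
        rw [Ideal.sup_mul, Ideal.mul_sup, Ideal.mul_sup]
        refine sup_le (sup_le ?_ ?_) (sup_le ?_ ?_)
        · rw [Ideal.span_singleton_mul_span_singleton, ← pow_two]
          exact le_sup_left
        · refine le_trans ?_ le_sup_right
          rw [pow_succ' w 2]
          exact Ideal.mul_mono_left hs
        · refine le_trans ?_ le_sup_right
          rw [pow_succ w 2]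
          exact Ideal.mul_mono_right hs
        · refine le_trans ?_ le_sup_right
          rw [← pow_add]
          exact Ideal.pow_le_pow_right (by norm_num)
  calc w ^ (k + 2) = w ^ 2 * w ^ k := by rw [← pow_add, add_comm]
    _ ≤ (Ideal.span {π ^ 2} ⊔ w ^ 3) * w ^ k := Ideal.mul_mono_left h2
    _ = Ideal.span {π ^ 2} * w ^ k ⊔ w ^ (k + 3) := by
      rw [Ideal.sup_mul, ← pow_add, add_comm 3 k]

include hfin hπw hπ hπ0 in
/-- the descent step -/
theorem mean_step {κ : AddChar R ℂ} {k : ℕ} (hκ : ∀ a ∈ w ^ (k + 2), κ a = 1)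
    (hκ' : ∃ a ∈ w ^ (k + 1), κ a ≠ 1) :
    mean ⊤ ((w ^ (k + 2)).map (algebraMap R S)).toAddSubgroup (fun x => κ (N x)) =
      ((Nat.card (R ⧸ w) : ℂ) ^ 2)⁻¹ *
        mean ⊤ ((w ^ k).map (algebraMap R S)).toAddSubgroup
          (fun x => (κ.mulShift (π ^ 2)) (N x)) := by
  set W : ℕ → Ideal S := fun j => (w ^ j).map (algebraMap R S) with hW
  have hWmono : ∀ i j, i ≤ j → W j ≤ W i := fun i j hij => Ideal.map_mono (Ideal.pow_le_pow_right hij)
  haveI := hfin (k + 2)
  haveI := hfin (k + 1)
  haveI := hfin k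
  haveI hf0 : ∀ L : AddSubgroup S, Finite (L ⧸ (W (k + 2)).toAddSubgroup.addSubgroupOf L) :=
    fun L => finite_quot (W (k + 2)) L
  haveI hf1 : ∀ L : AddSubgroup S, Finite (L ⧸ (W (k + 1)).toAddSubgroup.addSubgroupOf L) :=
    fun L => finite_quot (W (k + 1)) L
  have hper := h.per hκ ⊤
  have hW1 : W 1 = w.map (algebraMap R S) := by
    show (w ^ 1).map _ = _
    rw [pow_one]
  -- the isotropic reduction
  have hiso := mean_isotropic (I := (W (k + 1)).toAddSubgroup) (J := (W 1).toAddSubgroup) (L := ⊤)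
    (L' := (W (k + 2)).toAddSubgroup) le_top (fun x hx => hWmono 1 (k + 2) (by omega) hx) le_top hper
    (by
      intro x hx y hy
      show κ (N (x + y)) = κ (N x)
      have hx' : x ∈ w.map (algebraMap R S) := hW1 ▸ hx
      have hy' : y ∈ (w ^ (k + 1)).map (algebraMap R S) := hy
      rw [h.N_add, AddChar.map_add_eq_mul, AddChar.map_add_eq_mul, hκ (tr (x * σ y)), mul_one,
        hκ (N y), mul_one]
      · have := h.N_mem_sq hy'
        rw [← pow_mul] at this
        exact Ideal.pow_le_pow_right (by omega) this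
      · have := h.tr_mul_mem hx' hy'
        rwa [← pow_succ'] at this)
    (by
      intro x _ hx
      have hx' : x ∉ w.map (algebraMap R S) := fun hh => hx (by
        show x ∈ W 1
        rw [hW1]
        exact hh)
      have hex : ∃ y, tr (x * y) ∉ w := by
        by_contra hc
        push Not at hc
        exact hx' (h.dual x hc)
      obtain ⟨y, hy⟩ := hex
      obtain ⟨a, haw, ha⟩ := h.exists_char (κ := κ) (k := k + 1) hκ hκ' hy
      have hy0 : algebraMap R S a * σ y ∈ (w ^ (k + 1)).map (algebraMap R S) :=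
        Ideal.mul_mem_right _ _ (Ideal.mem_map_of_mem _ haw)
      refine ⟨algebraMap R S a * σ y, hy0, κ (a * tr (x * y)), ha, ?_⟩
      intro z hz
      have hz' : z ∈ (w ^ (k + 1)).map (algebraMap R S) := hz
      show κ (N (x + (z + algebraMap R S a * σ y))) = _ * κ (N (x + z))
      rw [← add_assoc, h.N_add (x + z), add_mul, h.tr_add, AddChar.map_add_eq_mul,
        AddChar.map_add_eq_mul, AddChar.map_add_eq_mul, hκ (N (algebraMap R S a * σ y)),
        hκ (tr (z * σ (algebraMap R S a * σ y)))]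
      · have e1 : x * σ (algebraMap R S a * σ y) = algebraMap R S a * (x * y) := by
          rw [map_mul, AlgEquiv.commutes, h.invol]
          ring
        rw [e1, h.tr_smul]
        ring
      · have := h.tr_mul_mem hz' hy0
        rw [← pow_add] at this
        exact Ideal.pow_le_pow_right (by omega) this
      · have := h.N_mem_sq hy0
        rw [← pow_mul] at this
        exact Ideal.pow_le_pow_right (by omega) this)
  rw [hiso, relIndex_top_ideal, hW1, h.card]
  push_cast
  congr 1
  -- the substitution `x = π y`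
  let φ : S →+ S := AddMonoidHom.mulLeft (algebraMap R S π)
  have hφ : Function.Injective φ := by
    rw [injective_iff_map_eq_zero]
    intro x hx
    exact hπ0 x hx
  have hL0 : (⊤ : AddSubgroup S).map φ ≤ (w.map (algebraMap R S)).toAddSubgroup := by
    rintro _ ⟨x, -, rfl⟩
    show algebraMap R S π * x ∈ w.map (algebraMap R S)
    exact Ideal.mul_mem_right _ _ (Ideal.mem_map_of_mem _ hπw)
  have hsup : ∀ l ∈ (w.map (algebraMap R S)).toAddSubgroup, ∃ l₀ ∈ (⊤ : AddSubgroup S).map φ,
      l - l₀ ∈ (W (k + 2)).toAddSubgroup := by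
    intro l hl
    have h1 : l ∈ (Ideal.span {π} ⊔ w ^ (k + 2)).map (algebraMap R S) :=
      Ideal.map_mono (le_sup_pow hπ (k + 2)) hl
    rw [Ideal.map_sup, Ideal.map_span, Set.image_singleton, Submodule.mem_sup] at h1
    obtain ⟨y, hy, z, hz, rfl⟩ := h1
    obtain ⟨c, rfl⟩ := Ideal.mem_span_singleton'.mp hy
    refine ⟨algebraMap R S π * c, ⟨c, AddSubgroup.mem_top _, rfl⟩, ?_⟩
    have e : c * algebraMap R S π + z - algebraMap R S π * c = z := by ring
    rw [e]
    exact hz
  have hperW := h.per hκ (w.map (algebraMap R S)).toAddSubgroup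
  rw [← mean_of_sup hperW hL0 hsup, ← mean_inf, inf_comm]
  have e1 : (⊤ : AddSubgroup S).map φ ⊓ ((w ^ (k + 2)).map (algebraMap R S)).toAddSubgroup =
      (((w ^ (k + 2)).map (algebraMap R S)).toAddSubgroup.comap φ).map φ := by
    rw [AddSubgroup.map_comap_eq, ← AddMonoidHom.range_eq_map]
  rw [e1, mean_map φ hφ]
  · have hfun : (fun x => κ (N (φ x))) = fun x => (κ.mulShift (π ^ 2)) (N x) := by
      funext x
      rw [AddChar.mulShift_apply]
      show κ (N (algebraMap R S π * x)) = _
      rw [h.N_smul]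
    rw [hfun]
    have hp1 : Per (⊤ : AddSubgroup S)
        (((w ^ (k + 2)).map (algebraMap R S)).toAddSubgroup.comap φ)
        (fun x => (κ.mulShift (π ^ 2)) (N x)) := by
      rw [← hfun]
      intro l _ l' hl'
      show κ (N (φ (l + l'))) = κ (N (φ l))
      rw [map_add]
      exact hper _ (AddSubgroup.mem_top _) _ hl'
    have hp2 : Per (⊤ : AddSubgroup S) ((w ^ k).map (algebraMap R S)).toAddSubgroup
        (fun x => (κ.mulShift (π ^ 2)) (N x)) := by
      refine h.per ?_ ⊤
      intro a ha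
      rw [AddChar.mulShift_apply]
      refine hκ _ ?_
      rw [add_comm, pow_add]
      exact Ideal.mul_mem_mul (Ideal.pow_mem_pow hπw 2) ha
    have hle1 : (W (k + 1)).toAddSubgroup ≤
        (((w ^ (k + 2)).map (algebraMap R S)).toAddSubgroup.comap φ) := by
      intro x hx
      show algebraMap R S π * x ∈ (w ^ (k + 2)).map (algebraMap R S)
      have hx' : x ∈ (w ^ (k + 1)).map (algebraMap R S) := hx
      rw [pow_succ', Ideal.map_mul]
      exact Ideal.mul_mem_mul (Ideal.mem_map_of_mem _ hπw) hx'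
    have hle2 : (W (k + 1)).toAddSubgroup ≤ ((w ^ k).map (algebraMap R S)).toAddSubgroup :=
      fun x hx => hWmono k (k + 1) (by omega) hx
    rw [← mean_of_le hp1 hle1, mean_of_le hp2 hle2]
  · intro l _ l' hl'
    have hl'' : l' ∈ ((w ^ (k + 2)).map (algebraMap R S)).toAddSubgroup := by
      obtain ⟨x, hx, rfl⟩ := hl'
      exact hx
    exact hper _ (AddSubgroup.mem_top _) _ hl''

/-- the sign of the prime `w` -/
noncomputable def eps (R S : Type*) [CommRing R] [CommRing S] [Algebra R S] (w : Ideal R) : ℂ :=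
  open scoped Classical in if (w.map (algebraMap R S)).IsPrime then -1 else 1

include hfin hπw hπ hπ0 in
/-- **Lemma GS (local form).** -/
theorem mean_local (k : ℕ) : ∀ {κ : AddChar R ℂ} (_ : ∀ a ∈ w ^ k, κ a = 1)
    (_ : k = 0 ∨ ∃ a ∈ w ^ (k - 1), κ a ≠ 1),
    mean ⊤ ((w ^ k).map (algebraMap R S)).toAddSubgroup (fun x => κ (N x)) =
      (eps R S w / (Nat.card (R ⧸ w) : ℂ)) ^ k := by
  induction k using Nat.strong_induction_on with
  | _ k ih =>
    intro κ hκ hκ'
    rcases k with _ | _ | k
    · haveI := hfin 0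
      haveI : Finite ((⊤ : AddSubgroup S) ⧸
          ((w ^ 0).map (algebraMap R S)).toAddSubgroup.addSubgroupOf ⊤) := finite_quot _ ⊤
      rw [mean_congr (g := fun _ => (1 : ℂ)) (fun x _ => hκ _ (by simp)), mean_const, pow_zero]
    · rw [zero_add, pow_one, pow_one]
      have hκ1 : ∀ a ∈ w, κ a = 1 := by
        intro a ha
        exact hκ a (by rw [zero_add, pow_one]; exact ha)
      have hκ1' : ∃ a, κ a ≠ 1 := by
        rcases hκ' with h0 | ⟨a, -, ha⟩
        · omega
        · exact ⟨a, ha⟩
      unfold eps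
      split_ifs with hp
      · rw [h.mean_inert hp hκ1 hκ1']
        ring
      · rw [h.mean_split hp hκ1 hκ1']
        ring
    · have hκ1' : ∃ a ∈ w ^ (k + 1), κ a ≠ 1 := by
        rcases hκ' with h0 | h1
        · omega
        · exact h1
      rw [h.mean_step hfin hπw hπ hπ0 hκ hκ1', ih k (by omega)]
      · unfold eps
        rw [pow_add]
        split_ifs <;> ring
      · intro a ha
        rw [AddChar.mulShift_apply]
        refine hκ _ ?_
        rw [show k + 1 + 1 = 2 + k by omega, pow_add]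
        exact Ideal.mul_mem_mul (Ideal.pow_mem_pow hπw 2) ha
      · rcases k with _ | k
        · left; rfl
        · right
          by_contra hc
          push Not at hc
          obtain ⟨a, ha, hne⟩ := hκ1'
          apply hne
          have h1 := pow_le_sup hπw hπ k ha
          rw [Submodule.mem_sup] at h1
          obtain ⟨y, hy, z, hz, rfl⟩ := h1
          rw [Ideal.mem_span_singleton_mul] at hy
          obtain ⟨c, hc', rfl⟩ := hy
          rw [AddChar.map_add_eq_mul, hκ z hz, mul_one]
          exact hc c hc'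

end UnrQ

end Fermat.Agent.H88T
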