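import Fermat.Agent.H88GS5
import Fermat.Agent.H36Psi
import Fermat.Agent.H71UDefs
import Fermat.Agent.H33DConj
import Fermat.Agent.H65FirstB

/-! # The Gauss sum of the norm form: number fields, one place (helper88, S47 DE2b) -/

set_option autoImplicit false
set_option linter.style.haveILetI false
set_option linter.unusedSectionVars false

open IsDedekindDomain NumberField WithZero FractionalIdeal
open scoped nonZeroDivisors

noncomputable section

namespace Fermat.Agent.H88T

open Fermat.Agent Fermat.Agent.H78G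
open Fermat.Agent.H47 (smulPlace below)
open Fermat.Agent.H82 (above aboveSet NonSplit)
open Fermat.Agent.H7.Z (ee psi Unram exists_approx exists_le_exp psi_congr psi_of_integral)

variable {E B : Type*} [Field E] [NumberField E] [Field B] [NumberField B] [Algebra E B]

/-! ### The involution, the norm and the trace on integers -/

/-- the restriction of an automorphism to the integers -/
def sg (τ : B ≃ₐ[E] B) : 𝓞 B ≃ₐ[𝓞 E] 𝓞 B := galRestrict (𝓞 E) E B (𝓞 B) τ

theorem sg_coe (τ : B ≃ₐ[E] B) (x : 𝓞 B) : ((sg τ x : 𝓞 B) : B) = τ x :=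
  algebraMap_galRestrict_apply (𝓞 E) τ x

/-- the norm of an integer -/
def nI (E : Type*) {B : Type*} [Field E] [NumberField E] [Field B] [NumberField B] [Algebra E B]
    (x : 𝓞 B) : 𝓞 E := ⟨Algebra.norm E (x : B), Algebra.isIntegral_norm E x.2⟩

/-- the trace of an integer -/
def tI (E : Type*) {B : Type*} [Field E] [NumberField E] [Field B] [NumberField B] [Algebra E B]
    (x : 𝓞 B) : 𝓞 E := ⟨Algebra.trace E B (x : B), Algebra.isIntegral_trace x.2⟩

@[simp]
theorem nI_coe (x : 𝓞 B) : ((nI E x : 𝓞 E) : E) = Algebra.norm E (x : B) := rfl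

@[simp]
theorem tI_coe (x : 𝓞 B) : ((tI E x : 𝓞 E) : E) = Algebra.trace E B (x : B) := rfl

section quad

variable (τ : B ≃ₐ[E] B) (hτ : τ ≠ 1) (h2 : Module.finrank E B = 2)

include hτ h2

theorem univ_gal [DecidableEq (B ≃ₐ[E] B)] [Fintype (B ≃ₐ[E] B)] :
    (Finset.univ : Finset (B ≃ₐ[E] B)) = {1, τ} := by
  ext σ
  simp only [Finset.mem_univ, Finset.mem_insert, Finset.mem_singleton, true_iff]
  exact H73U.eq_one_or τ hτ h2 σ

theorem norm_tau (x : B) : algebraMap E B (Algebra.norm E x) = x * τ x := by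
  classical
  have := H73U.isGalois τ hτ h2
  have h3 : FiniteDimensional E B := Module.finite_of_finrank_pos (by omega)
  rw [Algebra.norm_eq_prod_automorphisms E x, univ_gal τ hτ h2, Finset.prod_pair (Ne.symm hτ)]
  rfl

theorem trace_tau (x : B) : algebraMap E B (Algebra.trace E B x) = x + τ x := by
  classical
  have := H73U.isGalois τ hτ h2
  have h3 : FiniteDimensional E B := Module.finite_of_finrank_pos (by omega)
  rw [trace_eq_sum_automorphisms, univ_gal τ hτ h2, Finset.sum_pair (Ne.symm hτ)]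
  rfl

end quad

/-! ### Ideals above `w` -/

theorem mem_above_of_le {w : HeightOneSpectrum (𝓞 E)} {P : HeightOneSpectrum (𝓞 B)} {k : ℕ}
    (h : (w.asIdeal ^ k).map (algebraMap (𝓞 E) (𝓞 B)) ≤ P.asIdeal) : P ∈ above B w := by
  have h1 : w.asIdeal ^ k ≤ P.asIdeal.under (𝓞 E) := Ideal.map_le_iff_le_comap.mp h
  have h2 : w.asIdeal ≤ P.asIdeal.under (𝓞 E) := by
    haveI : (P.asIdeal.under (𝓞 E)).IsPrime := inferInstance
    exact Ideal.IsPrime.le_of_pow_le h1
  have h3 : w.asIdeal = P.asIdeal.under (𝓞 E) :=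
    w.isMaximal.eq_of_le (Ideal.IsPrime.ne_top inferInstance) h2
  exact h3.symm

/-- membership in `w ^ k 𝓞_B` by valuations, `w` unramified -/
theorem mem_map_of_val {w : HeightOneSpectrum (𝓞 E)}
    (hunr : ∀ P ∈ above B w, w.asIdeal.ramificationIdx' P.asIdeal = 1) (k : ℕ) {x : 𝓞 B}
    (h : ∀ P ∈ above B w, P.valuation B (x : B) ≤ exp (-(k : ℤ))) :
    x ∈ (w.asIdeal ^ k).map (algebraMap (𝓞 E) (𝓞 B)) := by
  have hm0 : w.asIdeal ^ k ≠ 0 := pow_ne_zero _ w.ne_bot
  have hm : (w.asIdeal ^ k).map (algebraMap (𝓞 E) (𝓞 B)) ≠ 0 := by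
    intro h0
    exact hm0 ((Ideal.map_eq_bot_iff_of_injective
      (FaithfulSMul.algebraMap_injective (𝓞 E) (𝓞 B))).mp h0)
  refine H33D.mem_of_valuation_le (K := B) hm fun P hP => ?_
  have hPw : P ∈ above B w := mem_above_of_le hP
  have h1 := H33D.count_up (B := B) hPw ((w.asIdeal ^ k : Ideal (𝓞 E)) : FractionalIdeal (𝓞 E)⁰ E)
  rw [H33D.up_coe, H33D.count_coe_eq hm, hunr P hPw, FractionalIdeal.coeIdeal_pow, count_pow,
    count_self] at h1
  rw [h1]
  simpa using h P hPw

theorem val_le_of_mem_map {w : HeightOneSpectrum (𝓞 E)} {k : ℕ} {x : 𝓞 B}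
    (hx : x ∈ (w.asIdeal ^ k).map (algebraMap (𝓞 E) (𝓞 B))) {P : HeightOneSpectrum (𝓞 B)}
    (hP : P ∈ above B w) : P.valuation B (x : B) ≤ exp (-(k : ℤ)) := by
  have h2 : x ∈ P.asIdeal ^ k := by
    have h3 : Ideal.map (algebraMap (𝓞 E) (𝓞 B)) (w.asIdeal ^ k) ≤ P.asIdeal ^ k := by
      rw [Ideal.map_pow]
      have h4 : w.asIdeal = P.asIdeal.under (𝓞 E) := (show _ = _ from hP).symm
      rw [h4]
      exact Ideal.pow_right_mono (Ideal.map_le_iff_le_comap.mpr le_rfl) k
    exact h3 hx
  refine (P.valuation_of_algebraMap (K := B) _).le.trans ?_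
  rwa [HeightOneSpectrum.intValuation_le_pow_iff_mem]

theorem val_algebraMap {w : HeightOneSpectrum (𝓞 E)}
    (hunr : ∀ P ∈ above B w, w.asIdeal.ramificationIdx' P.asIdeal = 1)
    {P : HeightOneSpectrum (𝓞 B)} (hP : P ∈ above B w) (z : E) :
    P.valuation B (algebraMap E B z) = w.valuation E z := by
  haveI h1 : P.asIdeal.LiesOver w.asIdeal := ⟨(show _ = _ from hP).symm⟩
  have h2 := HeightOneSpectrum.valuation_liesOver (L := B) (v := w) (w := P) z
  rw [hunr P hP, pow_one] at h2
  exact h2.symm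

/-- **Duality of the trace at an unramified place.** -/
theorem dual_unr {w : HeightOneSpectrum (𝓞 E)}
    (hunr : ∀ P ∈ above B w, w.asIdeal.ramificationIdx' P.asIdeal = 1)
    (hB : ∀ P ∈ above B w, Unram P) {x : 𝓞 B}
    (hx : ∀ y : 𝓞 B, tI E (x * y) ∈ w.asIdeal) :
    x ∈ w.asIdeal.map (algebraMap (𝓞 E) (𝓞 B)) := by
  classical
  have key : ∀ P ∈ above B w, P.valuation B (x : B) ≤ exp (-((1 : ℕ) : ℤ)) := by
    intro P hP
    obtain ⟨t, ht⟩ := H36.Psi.exists_val_eq_exp w 1
    have hP1 : P.valuation B (algebraMap E B t * x) ≤ 1 := by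
      refine hB P hP _ fun r hr => ?_
      let T : Finset (HeightOneSpectrum (𝓞 B)) := (H65.finite_above (L := B) w).toFinset
      have hT : ∀ P', P' ∈ T ↔ P' ∈ above B w := fun P' => Set.Finite.mem_toFinset _
      choose m hm using fun P' : HeightOneSpectrum (𝓞 B) =>
        exists_le_exp P' (algebraMap E B t * x)
      obtain ⟨r', h1, h2⟩ := exists_approx (R := 𝓞 B) T (fun P' => if P' = P then r else 0) m
      have hrP : P.valuation B (r' - r) ≤ exp (-(m P : ℤ)) := by
        have := h1 P ((hT P).mpr hP)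
        simpa using this
      have hr0 : ∀ P' ∈ T, P' ≠ P → P'.valuation B r' ≤ exp (-(m P' : ℤ)) := by
        intro P' hP' hne
        have := h1 P' hP'
        simpa [hne] using this
      have hexp : ∀ n : ℕ, exp (-(n : ℤ)) ≤ (1 : WithZero (Multiplicative ℤ)) := fun n => by
        rw [← exp_zero, exp_le_exp]; simp
      have hall : ∀ P' : HeightOneSpectrum (𝓞 B), P'.valuation B r' ≤ 1 := by
        intro P'
        by_cases h3 : P' ∈ T
        · by_cases h4 : P' = P
          · subst h4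
            have h5 : r' = (r' - r) + r := by ring
            rw [h5]
            exact (Valuation.map_add _ _ _).trans (max_le (hrP.trans (hexp _)) hr)
          · exact (hr0 P' h3 h4).trans (hexp _)
        · exact h2 P' h3
      obtain ⟨r'', hr''⟩ := HeightOneSpectrum.mem_integers_of_valuation_le_one B r' hall
      have hr2 : (r'' : B) = r' := hr''
      have e1 : psi P (algebraMap E B t * x * r) = psi P (algebraMap E B t * x * r') := by
        refine psi_congr P ?_
        rw [← mul_sub, map_mul, Valuation.map_sub_swap]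
        calc _ ≤ exp (m P : ℤ) * exp (-(m P : ℤ)) := mul_le_mul' (hm P) hrP
          _ = 1 := by rw [← exp_add, add_neg_cancel, exp_zero]
      have e2 : ∏ P' ∈ T, psi P' (algebraMap E B t * x * r') = psi P (algebraMap E B t * x * r') := by
        refine Finset.prod_eq_single P ?_ ?_
        · intro P' hP' hne
          refine psi_of_integral P' ?_
          rw [map_mul]
          calc _ ≤ exp (m P' : ℤ) * exp (-(m P' : ℤ)) := mul_le_mul' (hm P') (hr0 P' hP' hne)
            _ = 1 := by rw [← exp_add, add_neg_cancel, exp_zero]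
        · intro hne
          exact absurd ((hT P).mpr hP) hne
      rw [e1, ← e2, H36.Psi.prod_psi_above w _ T hT]
      refine psi_of_integral w ?_
      have e3 : algebraMap E B (t : E) * x * r' = (t : E) • ((x * r'' : 𝓞 B) : B) := by
        rw [Algebra.smul_def, mul_assoc, ← hr2]
        congr 1
      rw [e3, map_smul, smul_eq_mul, map_mul, ht]
      have h6 := hx r''
      have h7 : w.valuation E (Algebra.trace E B ((x * r'' : 𝓞 B) : B)) ≤ exp (-1) := by
        have h8 : w.intValuation (tI E (x * r'')) ≤ exp (-((1 : ℕ) : ℤ)) := by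
          rw [HeightOneSpectrum.intValuation_le_pow_iff_mem, pow_one]
          exact h6
        have h9 := (w.valuation_of_algebraMap (K := E) (tI E (x * r''))).le.trans h8
        simpa using h9
      calc _ ≤ exp 1 * exp (-1) := mul_le_mul' le_rfl h7
        _ = 1 := by rw [← exp_add, add_neg_cancel, exp_zero]
    rw [map_mul, val_algebraMap hunr hP, ht] at hP1
    calc P.valuation B (x : B) = exp (-1) * (exp 1 * P.valuation B (x : B)) := by
          rw [← mul_assoc, ← exp_add, neg_add_cancel, exp_zero, one_mul]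
      _ ≤ exp (-1) * 1 := mul_le_mul' le_rfl hP1
      _ = exp (-((1 : ℕ) : ℤ)) := by simp
  have := mem_map_of_val hunr 1 key
  rwa [pow_one] at this

theorem finite_quot_of_ne {K : Type*} [Field K] [NumberField K] {I : Ideal (𝓞 K)} (hI : I ≠ ⊥) :
    Finite (𝓞 K ⧸ I) := Ideal.finiteQuotientOfFreeOfNeBot I hI

theorem map_ne_bot {I : Ideal (𝓞 E)} (hI : I ≠ ⊥) :
    I.map (algebraMap (𝓞 E) (𝓞 B)) ≠ ⊥ := by
  intro h0
  exact hI ((Ideal.map_eq_bot_iff_of_injective
    (FaithfulSMul.algebraMap_injective (𝓞 E) (𝓞 B))).mp h0)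

/-- the data of the abstract lemma at an unramified place -/
theorem unrQ (τ : B ≃ₐ[E] B) (hτ : τ ≠ 1) (h2 : Module.finrank E B = 2)
    {w : HeightOneSpectrum (𝓞 E)}
    (hunr : ∀ P ∈ above B w, w.asIdeal.ramificationIdx' P.asIdeal = 1)
    (hB : ∀ P ∈ above B w, Unram P) :
    UnrQ (𝓞 E) (𝓞 B) (sg τ) (nI E) (tI E) w.asIdeal where
  inj := FaithfulSMul.algebraMap_injective (𝓞 E) (𝓞 B)
  N_eq x := by
    apply RingOfIntegers.coe_injective
    change algebraMap E B (Algebra.norm E (x : B)) = (x : B) * ((sg τ x : 𝓞 B) : B)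
    rw [norm_tau τ hτ h2]
    congr 1
    exact (sg_coe τ x).symm
  tr_eq x := by
    apply RingOfIntegers.coe_injective
    change algebraMap E B (Algebra.trace E B (x : B)) = (x : B) + ((sg τ x : 𝓞 B) : B)
    rw [trace_tau τ hτ h2]
    congr 1
    exact (sg_coe τ x).symm
  invol x := by
    apply RingOfIntegers.coe_injective
    have h1 := sg_coe τ (sg τ x)
    rw [sg_coe τ x, H73U.tau_tau τ hτ h2] at h1
    exact h1
  prime := w.isPrime
  max := w.isMaximal
  ne := by
    intro h0
    obtain ⟨P, hP⟩ := H47.above_nonempty (L := B) w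
    have h1 : w.asIdeal.map (algebraMap (𝓞 E) (𝓞 B)) ≤ P.asIdeal :=
      Ideal.map_le_iff_le_comap.mpr (show _ = _ from hP).symm.le
    rw [h0, top_le_iff] at h1
    exact P.isPrime.ne_top h1
  fin := finite_quot_of_ne w.ne_bot
  dual x hx := dual_unr hunr hB hx
  finS := finite_quot_of_ne (map_ne_bot w.ne_bot)
  card := by
    have h1 : Ideal.absNorm (w.asIdeal.map (algebraMap (𝓞 E) (𝓞 B))) = _ :=
      Ideal.absNorm_algebraMap (𝓞 E) (𝓞 B) w.asIdeal
    rw [Ideal.absNorm_apply, Ideal.absNorm_apply, Submodule.cardQuot_apply,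
      Submodule.cardQuot_apply] at h1
    have h3 : Module.finrank (𝓞 E) (𝓞 B) = 2 := by
      rw [← h2]
      exact (IsFractionRing.finrank_eq (𝓞 E) E (𝓞 B) B).symm
    rw [h1, h3]

end Fermat.Agent.H88T
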