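import Fermat.Agent.H88GS6
import Fermat.Agent.H78RL

/-! # The Gauss sum of the norm form: integers of a number field, finitely many places
(helper88, S47 DE2b) -/

set_option autoImplicit false
set_option linter.style.haveILetI false
set_option linter.unusedSectionVars false

open IsDedekindDomain NumberField WithZero FractionalIdeal
open scoped nonZeroDivisors Pointwise

noncomputable section

namespace Fermat.Agent.H88T

open Fermat.Agent Fermat.Agent.H78G
open Fermat.Agent.H47 (smulPlace below)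
open Fermat.Agent.H82 (above aboveSet NonSplit)
open Fermat.Agent.H7.Z (ee psi Unram exists_approx exists_le_exp psi_congr psi_of_integral)

variable {E B : Type*} [Field E] [NumberField E] [Field B] [NumberField B] [Algebra E B]

/-- `w 𝓞_B` is prime iff there is only one place above `w` (`w` unramified). -/
theorem isPrime_iff_nonSplit (τ : B ≃ₐ[E] B) (hτ : τ ≠ 1) (h2 : Module.finrank E B = 2)
    {w : HeightOneSpectrum (𝓞 E)}
    (hunr : ∀ P ∈ above B w, w.asIdeal.ramificationIdx' P.asIdeal = 1)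
    (hB : ∀ P ∈ above B w, Unram P) :
    (w.asIdeal.map (algebraMap (𝓞 E) (𝓞 B))).IsPrime ↔ NonSplit B w := by
  have hle : ∀ P ∈ above B w, w.asIdeal.map (algebraMap (𝓞 E) (𝓞 B)) ≤ P.asIdeal := fun P hP =>
    Ideal.map_le_iff_le_comap.mpr (show _ = _ from hP).symm.le
  constructor
  · intro hp
    have hmax : (w.asIdeal.map (algebraMap (𝓞 E) (𝓞 B))).IsMaximal :=
      hp.isMaximal (map_ne_bot w.ne_bot)
    have hall : ∀ P ∈ above B w, P.asIdeal = w.asIdeal.map (algebraMap (𝓞 E) (𝓞 B)) :=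
      fun P hP => (hmax.eq_of_le P.isPrime.ne_top (hle P hP)).symm
    obtain ⟨P, hP⟩ := H47.above_nonempty (L := B) w
    show (above B w).ncard = 1
    rw [Set.ncard_eq_one]
    refine ⟨P, Set.eq_singleton_iff_unique_mem.mpr ⟨hP, fun P' hP' => ?_⟩⟩
    exact HeightOneSpectrum.ext ((hall P' hP').trans (hall P hP).symm)
  · intro hn
    have hn' : (above B w).ncard = 1 := hn
    rw [Set.ncard_eq_one] at hn'
    obtain ⟨P, hP⟩ := hn'
    have hPw : P ∈ above B w := by rw [hP]; exact Set.mem_singleton P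
    have hτP : smulPlace τ P = P := by
      have h1 := H47.smulPlace_mem_above τ hPw
      rw [hP] at h1
      exact h1
    have hst : ∀ x ∈ P.asIdeal, sg τ x ∈ P.asIdeal := by
      intro x hx
      have h1 : τ • x ∈ τ • P.asIdeal := Ideal.smul_mem_pointwise_smul _ _ _ hx
      have h2 : (smulPlace τ P).asIdeal = P.asIdeal := by rw [hτP]
      rw [H47.smulPlace_asIdeal] at h2
      rw [h2] at h1
      have h3 : sg τ x = τ • x := by
        apply RingOfIntegers.coe_injective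
        exact sg_coe τ x
      rw [h3]
      exact h1
    have hQ := unrQ τ hτ h2 hunr hB
    have h4 : w.asIdeal.map (algebraMap (𝓞 E) (𝓞 B)) = P.asIdeal := by
      refine le_antisymm (hle P hPw) fun x hx => dual_unr hunr hB fun y => ?_
      have h5 : algebraMap (𝓞 E) (𝓞 B) (tI E (x * y)) ∈ P.asIdeal := by
        rw [hQ.tr_eq, map_mul]
        exact P.asIdeal.add_mem (P.asIdeal.mul_mem_right _ hx)
          (P.asIdeal.mul_mem_right _ (hst x hx))
      have h6 : tI E (x * y) ∈ P.asIdeal.under (𝓞 E) := h5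
      rwa [show P.asIdeal.under (𝓞 E) = w.asIdeal from hPw] at h6
    rw [h4]
    exact P.isPrime

open Classical in
/-- the sign of a place -/
def sgn (B : Type*) [Field B] [NumberField B] [Algebra E B] (w : HeightOneSpectrum (𝓞 E)) : ℂ :=
  if NonSplit B w then -1 else 1

theorem eps_eq (τ : B ≃ₐ[E] B) (hτ : τ ≠ 1) (h2 : Module.finrank E B = 2)
    {w : HeightOneSpectrum (𝓞 E)}
    (hunr : ∀ P ∈ above B w, w.asIdeal.ramificationIdx' P.asIdeal = 1)
    (hB : ∀ P ∈ above B w, Unram P) :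
    UnrQ.eps (𝓞 E) (𝓞 B) w.asIdeal = sgn B w := by
  have h1 := isPrime_iff_nonSplit τ hτ h2 hunr hB
  unfold UnrQ.eps sgn
  by_cases h : NonSplit B w
  · rw [if_pos h, if_pos (h1.mpr h)]
  · rw [if_neg h, if_neg (mt h1.mp h)]

/-! ### The characters -/

/-- the character `r ↦ psi w (z r)` of the integers -/
def kap (w : HeightOneSpectrum (𝓞 E)) (z : E) : AddChar (𝓞 E) ℂ where
  toFun r := psi w (z * (r : E))
  map_zero_eq_one' := by
    show psi w (z * algebraMap (𝓞 E) E 0) = 1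
    rw [map_zero, mul_zero, AddChar.map_zero_eq_one]
  map_add_eq_mul' a b := by
    show psi w (z * algebraMap (𝓞 E) E (a + b)) = _
    rw [map_add, mul_add, AddChar.map_add_eq_mul]

theorem kap_apply (w : HeightOneSpectrum (𝓞 E)) (z : E) (r : 𝓞 E) :
    kap w z r = psi w (z * (r : E)) := rfl

theorem val_int_le {w : HeightOneSpectrum (𝓞 E)} {k : ℕ} {r : 𝓞 E} :
    w.valuation E (r : E) ≤ exp (-(k : ℤ)) ↔ r ∈ w.asIdeal ^ k := by
  have h1 := w.valuation_of_algebraMap (K := E) r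
  have h2 : w.valuation E (r : E) = w.intValuation r := h1
  rw [h2, HeightOneSpectrum.intValuation_le_pow_iff_mem]

theorem kap_trivial {w : HeightOneSpectrum (𝓞 E)} {z : E} {k : ℕ}
    (hz : w.valuation E z ≤ exp (k : ℤ)) : ∀ a ∈ w.asIdeal ^ k, kap w z a = 1 := by
  intro a ha
  refine psi_of_integral w ?_
  rw [map_mul]
  calc _ ≤ exp (k : ℤ) * exp (-(k : ℤ)) := mul_le_mul' hz (val_int_le.mpr ha)
    _ = 1 := by rw [← exp_add, add_neg_cancel, exp_zero]

theorem kap_nontrivial {w : HeightOneSpectrum (𝓞 E)} (hw : Unram w) {z : E} {k : ℕ}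
    (hz : w.valuation E z = exp (k : ℤ)) (hk : k ≠ 0) :
    ∃ a ∈ w.asIdeal ^ (k - 1), kap w z a ≠ 1 := by
  obtain ⟨t, ht⟩ := H36.Psi.exists_val_eq_exp w (-((k : ℤ) - 1))
  have h1 : ¬ w.valuation E (z * t) ≤ 1 := by
    rw [map_mul, hz, ht, ← exp_add, not_le, ← exp_zero, exp_lt_exp]
    omega
  have h2 := mt (hw (z * t)) h1
  push Not at h2
  obtain ⟨r, hr, hne⟩ := h2
  obtain ⟨r', h3, h4⟩ := exists_approx (R := 𝓞 E) {w} (fun _ => (t : E) * r) (fun _ => k)
  have h5 := h3 w (Finset.mem_singleton_self w)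
  have hrt : w.valuation E ((t : E) * r) ≤ exp (-((k : ℤ) - 1)) := by
    rw [map_mul, ht]
    calc _ ≤ exp (-((k : ℤ) - 1)) * 1 := mul_le_mul' le_rfl hr
      _ = _ := mul_one _
  have h6 : w.valuation E r' ≤ exp (-((k : ℤ) - 1)) := by
    have e : r' = (r' - (t : E) * r) + (t : E) * r := by ring
    rw [e]
    refine (Valuation.map_add _ _ _).trans (max_le (h5.trans ?_) hrt)
    rw [exp_le_exp]
    omega
  have hall : ∀ w' : HeightOneSpectrum (𝓞 E), w'.valuation E r' ≤ 1 := by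
    intro w'
    by_cases hw' : w' = w
    · rw [hw']
      refine h6.trans ?_
      rw [← exp_zero, exp_le_exp]
      omega
    · exact h4 w' (by simpa using hw')
  obtain ⟨a, ha⟩ := HeightOneSpectrum.mem_integers_of_valuation_le_one E r' hall
  have ha' : (a : E) = r' := ha
  refine ⟨a, ?_, ?_⟩
  · rw [← val_int_le, ha']
    refine h6.trans ?_
    rw [exp_le_exp]
    omega
  · rw [kap_apply, ha']
    intro h7
    apply hne
    rw [← h7]
    refine psi_congr w ?_
    rw [mul_assoc, ← mul_sub, map_mul, hz, Valuation.map_sub_swap]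
    calc _ ≤ exp (k : ℤ) * exp (-(k : ℤ)) := mul_le_mul' le_rfl h5
      _ = 1 := by rw [← exp_add, add_neg_cancel, exp_zero]

/-- the local value -/
theorem mean_kap (τ : B ≃ₐ[E] B) (hτ : τ ≠ 1) (h2 : Module.finrank E B = 2)
    {w : HeightOneSpectrum (𝓞 E)} (hE : Unram w)
    (hunr : ∀ P ∈ above B w, w.asIdeal.ramificationIdx' P.asIdeal = 1)
    (hB : ∀ P ∈ above B w, Unram P) {z : E} {k : ℕ}
    (hz : (k = 0 ∧ w.valuation E z ≤ 1) ∨ w.valuation E z = exp (k : ℤ)) :
    mean ⊤ ((w.asIdeal ^ k).map (algebraMap (𝓞 E) (𝓞 B))).toAddSubgroup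
      (fun x => kap w z (nI E x)) = (sgn B w / (Nat.card (𝓞 E ⧸ w.asIdeal) : ℂ)) ^ k := by
  have hQ := unrQ τ hτ h2 hunr hB
  obtain ⟨π, hπ⟩ := w.intValuation_exists_uniformizer
  have hπw : π ∈ w.asIdeal := by
    have := (w.intValuation_le_pow_iff_mem π 1).mp (by rw [hπ]; simp)
    rwa [pow_one] at this
  have hπ2 : π ∉ w.asIdeal ^ (1 + 1) := by
    intro h3
    have h4 := (w.intValuation_le_pow_iff_mem π 2).mpr h3
    rw [hπ, exp_le_exp] at h4
    norm_num at h4
  have hsup : w.asIdeal ≤ Ideal.span {π} ⊔ w.asIdeal ^ 2 := by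
    intro c hc
    haveI := w.isPrime
    obtain ⟨d, e, he, hde⟩ := Ideal.exists_mul_add_mem_pow_succ w.ne_bot (i := 1) π c
      (by rwa [pow_one]) hπ2 (by rwa [pow_one])
    rw [← hde]
    exact Ideal.add_mem _ (Ideal.mem_sup_left (Ideal.mul_mem_right _ _
      (Ideal.mem_span_singleton_self π))) (Ideal.mem_sup_right he)
  have hπ0 : ∀ x : 𝓞 B, algebraMap (𝓞 E) (𝓞 B) π * x = 0 → x = 0 := by
    intro x hx
    rcases mul_eq_zero.mp hx with h3 | h3
    · exfalso
      have h4 : π = 0 := FaithfulSMul.algebraMap_injective (𝓞 E) (𝓞 B) (by rw [h3, map_zero])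
      rw [h4, map_zero] at hπ
      exact exp_ne_zero hπ.symm
    · exact h3
  have hzle : w.valuation E z ≤ exp (k : ℤ) := by
    rcases hz with ⟨rfl, h3⟩ | h3
    · simpa using h3
    · exact h3.le
  rw [← eps_eq τ hτ h2 hunr hB]
  refine hQ.mean_local (fun k => finite_quot_of_ne (map_ne_bot (pow_ne_zero k w.ne_bot))) hπw hsup
    hπ0 k (kap_trivial hzle) ?_
  by_cases hk : k = 0
  · exact Or.inl hk
  · refine Or.inr (kap_nontrivial hE ?_ hk)
    rcases hz with ⟨h3, -⟩ | h3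
    · exact absurd h3 hk
    · exact h3

/-! ### Finitely many places -/

/-- the product of the periods -/
def JT (B : Type*) [Field B] [NumberField B] [Algebra E B]
    (T : Finset (HeightOneSpectrum (𝓞 E))) (k : HeightOneSpectrum (𝓞 E) → ℕ) : Ideal (𝓞 B) :=
  (∏ w ∈ T, w.asIdeal ^ k w).map (algebraMap (𝓞 E) (𝓞 B))

theorem prod_ne_bot (T : Finset (HeightOneSpectrum (𝓞 E))) (k : HeightOneSpectrum (𝓞 E) → ℕ) :
    ∏ w ∈ T, w.asIdeal ^ k w ≠ ⊥ := by
  rw [← Ideal.zero_eq_bot, Finset.prod_ne_zero_iff]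
  exact fun w _ => pow_ne_zero _ w.ne_bot

theorem JT_insert {T : Finset (HeightOneSpectrum (𝓞 E))} {k : HeightOneSpectrum (𝓞 E) → ℕ}
    {w : HeightOneSpectrum (𝓞 E)} (hw : w ∉ T) [DecidableEq (HeightOneSpectrum (𝓞 E))] :
    IsCoprime (JT B T k) ((w.asIdeal ^ k w).map (algebraMap (𝓞 E) (𝓞 B))) ∧
    JT B (insert w T) k = JT B T k ⊓ (w.asIdeal ^ k w).map (algebraMap (𝓞 E) (𝓞 B)) := by
  have hc : IsCoprime (∏ w' ∈ T, w'.asIdeal ^ k w') (w.asIdeal ^ k w) := by
    refine IsCoprime.prod_left fun w' hw' => ?_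
    exact HeightOneSpectrum.isCoprime_pow_of_ne w' w (fun h => hw (by rw [← h]; exact hw')) _ _
  have hc' : IsCoprime (JT B T k) ((w.asIdeal ^ k w).map (algebraMap (𝓞 E) (𝓞 B))) :=
    hc.map (Ideal.mapHom (algebraMap (𝓞 E) (𝓞 B)))
  refine ⟨hc', ?_⟩
  rw [← Ideal.mul_eq_inf_of_isCoprime hc', JT, JT, Finset.prod_insert hw, Ideal.map_mul, mul_comm]

/-- product formula -/
theorem mean_prod_nI (κ : HeightOneSpectrum (𝓞 E) → AddChar (𝓞 E) ℂ)
    (k : HeightOneSpectrum (𝓞 E) → ℕ) (T : Finset (HeightOneSpectrum (𝓞 E)))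
    (hper : ∀ w ∈ T, Per (⊤ : AddSubgroup (𝓞 B))
      ((w.asIdeal ^ k w).map (algebraMap (𝓞 E) (𝓞 B))).toAddSubgroup (fun x => κ w (nI E x))) :
    Per (⊤ : AddSubgroup (𝓞 B)) (JT B T k).toAddSubgroup (fun x => ∏ w ∈ T, κ w (nI E x)) ∧
    mean ⊤ (JT B T k).toAddSubgroup (fun x => ∏ w ∈ T, κ w (nI E x)) =
      ∏ w ∈ T, mean ⊤ ((w.asIdeal ^ k w).map (algebraMap (𝓞 E) (𝓞 B))).toAddSubgroup
        (fun x => κ w (nI E x)) := by
  classical
  induction T using Finset.induction_on with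
  | empty =>
    have h0 : Finite (𝓞 B ⧸ JT B (∅ : Finset (HeightOneSpectrum (𝓞 E))) k) :=
      finite_quot_of_ne (map_ne_bot (prod_ne_bot _ _))
    have h1 : Finite ((⊤ : AddSubgroup (𝓞 B)) ⧸
      (JT B (∅ : Finset (HeightOneSpectrum (𝓞 E))) k).toAddSubgroup.addSubgroupOf ⊤) :=
      finite_quot _ ⊤
    refine ⟨fun _ _ _ _ => by simp, ?_⟩
    simp only [Finset.prod_empty]
    exact mean_const _ _ _
  | insert w T hw ih =>
    obtain ⟨hp, hm⟩ := ih fun w' hw' => hper w' (Finset.mem_insert_of_mem hw')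
    have hpw := hper w (Finset.mem_insert_self w T)
    obtain ⟨hc, hJ⟩ := JT_insert (B := B) (k := k) hw
    have e : (fun x : 𝓞 B => ∏ w' ∈ insert w T, κ w' (nI E x)) =
        fun x => (∏ w' ∈ T, κ w' (nI E x)) * κ w (nI E x) := by
      funext x
      rw [Finset.prod_insert hw, mul_comm]
    have hJ' : (JT B (insert w T) k).toAddSubgroup = (JT B T k).toAddSubgroup ⊓
        ((w.asIdeal ^ k w).map (algebraMap (𝓞 E) (𝓞 B))).toAddSubgroup := by
      rw [hJ]
      rfl
    have hf1 : Finite (𝓞 B ⧸ JT B T k) := finite_quot_of_ne (map_ne_bot (prod_ne_bot _ _))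
    have hf2 : Finite (𝓞 B ⧸ (w.asIdeal ^ k w).map (algebraMap (𝓞 E) (𝓞 B))) :=
      finite_quot_of_ne (map_ne_bot (pow_ne_zero _ w.ne_bot))
    have hf1' : Finite ((⊤ : AddSubgroup (𝓞 B)) ⧸ (JT B T k).toAddSubgroup.addSubgroupOf ⊤) :=
      finite_quot _ ⊤
    have hf2' : Finite ((⊤ : AddSubgroup (𝓞 B)) ⧸ ((w.asIdeal ^ k w).map
        (algebraMap (𝓞 E) (𝓞 B))).toAddSubgroup.addSubgroupOf ⊤) := finite_quot _ ⊤
    rw [hJ', e]
    refine ⟨?_, ?_⟩
    · intro l hl l' hl'
      have h1 := hp l hl l' (AddSubgroup.mem_inf.mp hl').1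
      have h2 := hpw l hl l' (AddSubgroup.mem_inf.mp hl').2
      exact congr (congrArg HMul.hMul h1) h2
    · rw [mean_mul le_top ?_ hp hpw, hm, Finset.prod_insert hw, mul_comm]
      intro l _
      obtain ⟨a, ha, b, hb, hab⟩ := Ideal.isCoprime_iff_exists.mp hc
      refine ⟨l * a, Ideal.mul_mem_left _ _ ha, ?_⟩
      have e2 : l - l * a = l * b := by
        linear_combination (-l) * hab
      rw [e2]
      exact Ideal.mul_mem_left _ _ hb

end Fermat.Agent.H88T
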