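import Fermat.Agent.H88GS7

/-! # The Gauss sum of the norm form on a lattice (helper88, S47 DE2b) -/

set_option autoImplicit false
set_option linter.style.haveILetI false
set_option linter.unusedSectionVars false

open IsDedekindDomain NumberField WithZero FractionalIdeal
open scoped nonZeroDivisors Pointwise

noncomputable section

namespace Fermat.Agent.H88T

open Fermat.Agent Fermat.Agent.H78G Fermat.Agent.H71D
open Fermat.Agent.H47 (smulPlace below)
open Fermat.Agent.H82 (above aboveSet NonSplit)
open Fermat.Agent.H7.Z (ee psi Unram exists_approx exists_le_exp psi_congr psi_of_integral)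

variable {E B : Type*} [Field E] [NumberField E] [Field B] [NumberField B] [Algebra E B]

theorem mem_RB' {S : Finset (HeightOneSpectrum (𝓞 E))} {δ : HeightOneSpectrum (𝓞 B) → ℤ} {x : B} :
    x ∈ RB B S δ ↔ ∀ P, below E P ∉ S → P.valuation B x ≤ exp (-δ P) := by
  rw [mem_RB]
  simp only [H78R.mem_aboveSet_iff, Finset.mem_coe]

theorem mem_above_iff {w : HeightOneSpectrum (𝓞 E)} {P : HeightOneSpectrum (𝓞 B)} :
    P ∈ above B w ↔ below E P = w :=
  ⟨fun h => (H47.eq_below_of_mem_above h).symm, fun h => h ▸ H47.mem_above_below P⟩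

/-- `psS` as a product over the places outside `S` -/
theorem psS_eq_prod {S T : Finset (HeightOneSpectrum (𝓞 E))} (hST : ∀ w ∈ T, w ∉ S) {y : E}
    (hy : ∀ w ∉ S, w ∉ T → w.valuation E y ≤ 1) : psS S y = ∏ w ∈ T, psi w y := by
  classical
  have h1 := H7.Z.prod_psi (S ∪ T) y (by
    intro w hw
    rw [Finset.mem_union, not_or] at hw
    exact hy w hw.1 hw.2)
  have hd : Disjoint S T := by
    rw [Finset.disjoint_left]
    exact fun w hw hw' => hST w hw' hw
  rw [Finset.prod_union hd] at h1
  have h2 : ∏ w ∈ S, psi w y ≠ 0 := by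
    rw [Finset.prod_ne_zero_iff]
    exact fun w _ => H7.Z.psi_ne_zero w y
  rw [psS_apply, ← h1]
  field_simp

/-- the trace of an element of a lattice -/
theorem trace_le {w : HeightOneSpectrum (𝓞 E)}
    (hunr : ∀ P ∈ above B w, w.asIdeal.ramificationIdx' P.asIdeal = 1) {m : ℤ} {y : B}
    (hy : ∀ P ∈ above B w, P.valuation B y ≤ exp m) :
    w.valuation E (Algebra.trace E B y) ≤ exp m := by
  obtain ⟨t, ht⟩ := H36.Psi.exists_val_eq_exp w (-m)
  have h1 : w.valuation E (Algebra.trace E B ((t : E) • y)) ≤ 1 := by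
    refine H36.Psi.trace_le_one fun P hP => ?_
    rw [Algebra.smul_def, map_mul, val_algebraMap hunr hP, ht]
    calc _ ≤ exp (-m) * exp m := mul_le_mul' le_rfl (hy P hP)
      _ = 1 := by rw [← exp_add, neg_add_cancel, exp_zero]
  rw [map_smul, smul_eq_mul, map_mul, ht] at h1
  calc w.valuation E (Algebra.trace E B y) =
        exp m * (exp (-m) * w.valuation E (Algebra.trace E B y)) := by
        rw [← mul_assoc, ← exp_add, add_neg_cancel, exp_zero, one_mul]
    _ ≤ exp m * 1 := mul_le_mul' le_rfl h1
    _ = exp m := mul_one _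

/-- the hypotheses on the lattice -/
structure LatU (τ : B ≃ₐ[E] B) (S : Finset (HeightOneSpectrum (𝓞 E)))
    (c : HeightOneSpectrum (𝓞 B) → ℤ) (n : HeightOneSpectrum (𝓞 E) → ℤ) (u : E)
    (k : HeightOneSpectrum (𝓞 E) → ℕ) (T : Finset (HeightOneSpectrum (𝓞 E))) : Prop where
  ne : τ ≠ 1
  deg : Module.finrank E B = 2
  ram : ∀ P : HeightOneSpectrum (𝓞 B), below E P ∉ S →
    (below E P).asIdeal.ramificationIdx' P.asIdeal = 1
  unE : ∀ w ∉ S, Unram w
  unB : ∀ P : HeightOneSpectrum (𝓞 B), below E P ∉ S → Unram P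
  cfin : {P | below E P ∉ S ∧ c P ≠ 0}.Finite
  nrm : ∀ P, below E P ∉ S → c P + c (smulPlace τ P) = n (below E P)
  hk : ∀ w ∉ S, exp (k w : ℤ) = max 1 (w.valuation E u * exp (-n w))
  hT : ∀ w ∈ T, w ∉ S
  hT' : ∀ w ∉ S, w ∉ T → k w = 0

namespace LatU

variable {τ : B ≃ₐ[E] B} {S : Finset (HeightOneSpectrum (𝓞 E))}
    {c : HeightOneSpectrum (𝓞 B) → ℤ} {n : HeightOneSpectrum (𝓞 E) → ℤ} {u : E}
    {k : HeightOneSpectrum (𝓞 E) → ℕ} {T : Finset (HeightOneSpectrum (𝓞 E))}
    (h : LatU τ S c n u k T)

include h

theorem hunr {w : HeightOneSpectrum (𝓞 E)} (hw : w ∉ S) :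
    ∀ P ∈ above B w, w.asIdeal.ramificationIdx' P.asIdeal = 1 := by
  intro P hP
  rw [mem_above_iff] at hP
  subst hP
  exact h.ram P hw

theorem hBw {w : HeightOneSpectrum (𝓞 E)} (hw : w ∉ S) : ∀ P ∈ above B w, Unram P := by
  intro P hP
  rw [mem_above_iff] at hP
  subst hP
  exact h.unB P hw

/-- the valuation of a product `x τ(y)` of lattice elements -/
theorem val_mul_tau {m₁ m₂ : ℤ} {x y : B} {P : HeightOneSpectrum (𝓞 B)}
    (hx : P.valuation B x ≤ exp (-c P - m₁))
    (hy : (smulPlace τ P).valuation B y ≤ exp (-c (smulPlace τ P) - m₂))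
    (hP : below E P ∉ S) :
    P.valuation B (x * τ y) ≤ exp (-n (below E P) - m₁ - m₂) := by
  haveI := H73U.isGalois τ h.ne h.deg
  rw [map_mul, H78R.val_tau h.deg h.ne]
  refine (mul_le_mul' hx hy).trans (le_of_eq ?_)
  rw [← exp_add, ← h.nrm P hP]
  congr 1
  ring

theorem val_norm_le {m : ℤ} {x : B} {w : HeightOneSpectrum (𝓞 E)} (hw : w ∉ S)
    (hx : ∀ P, below E P = w → P.valuation B x ≤ exp (-c P - m)) :
    w.valuation E (Algebra.norm E x) ≤ exp (-n w - m - m) := by
  haveI := H73U.isGalois τ h.ne h.deg
  obtain ⟨P, hP⟩ := H47.above_nonempty (L := B) w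
  rw [mem_above_iff] at hP
  subst hP
  rw [H78R.val_norm h.deg h.ne (h.ram P hw)]
  refine (mul_le_mul' (hx P rfl) (hx _ (H78R.below_smulPlace P))).trans (le_of_eq ?_)
  rw [← exp_add, ← h.nrm P hw]
  congr 1
  ring

theorem val_u_le {w : HeightOneSpectrum (𝓞 E)} (hw : w ∉ S) :
    w.valuation E u * exp (-n w) ≤ exp (k w : ℤ) := by
  rw [h.hk w hw]
  exact le_max_right _ _

/-- the period lattice -/
theorem per_f (K : ℕ) (hK : ∀ w ∈ T, k w ≤ K) [DecidableEq (HeightOneSpectrum (𝓞 E))] :
    Per (RB B S c) (RB B S (fun P => c P + if below E P ∈ T then (K : ℤ) else 0))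
      (fun x => psS S (u * Algebra.norm E x)) := by
  haveI := H73U.isGalois τ h.ne h.deg
  intro l hl l' hl'
  rw [mem_RB'] at hl hl'
  show psS S (u * Algebra.norm E (l + l')) = psS S (u * Algebra.norm E l)
  have e : Algebra.norm E (l + l') = Algebra.norm E l + Algebra.trace E B (l * τ l') +
      Algebra.norm E l' := by
    apply (algebraMap E B).injective
    rw [map_add (algebraMap E B), map_add (algebraMap E B), norm_tau τ h.ne h.deg,
      norm_tau τ h.ne h.deg, norm_tau τ h.ne h.deg, trace_tau τ h.ne h.deg, map_add, map_mul,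
      H73U.tau_tau τ h.ne h.deg]
    ring
  rw [e, mul_add, mul_add, add_assoc, AddChar.map_add_eq_mul]
  have h1 : psS S (u * Algebra.trace E B (l * τ l') + u * Algebra.norm E l') = 1 := by
    refine psS_eq_one fun w hw => ?_
    have hu := h.val_u_le hw
    have key : ∀ m : ℤ, (k w : ℤ) ≤ m → w.valuation E u * exp (-n w - m) ≤ 1 := by
      intro m hm
      have e1 : -n w - m = -n w + -m := by ring
      rw [e1, exp_add, ← mul_assoc]
      calc _ ≤ exp (k w : ℤ) * exp (-m) := mul_le_mul' hu le_rfl
        _ ≤ 1 := by rw [← exp_add, ← exp_zero, exp_le_exp]; omega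
    by_cases hwT : w ∈ T
    · have hl1 : ∀ P, below E P = w → P.valuation B l ≤ exp (-c P - 0) := by
        intro P hP
        rw [sub_zero]
        exact hl P (by rw [hP]; exact hw)
      have hl2 : ∀ P, below E P = w → P.valuation B l' ≤ exp (-c P - K) := by
        intro P hP
        have := hl' P (by rw [hP]; exact hw)
        rw [if_pos (by rw [hP]; exact hwT)] at this
        refine this.trans (le_of_eq ?_)
        congr 1
        ring
      refine (Valuation.map_add _ _ _).trans (max_le ?_ ?_)
      · rw [map_mul]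
        have ht : w.valuation E (Algebra.trace E B (l * τ l')) ≤ exp (-n w - 0 - K) := by
          refine trace_le (h.hunr hw) fun P hP => ?_
          rw [mem_above_iff] at hP
          subst hP
          exact h.val_mul_tau (hl1 P rfl) (hl2 _ (H78R.below_smulPlace P)) hw
        refine (mul_le_mul' le_rfl ht).trans ?_
        rw [sub_zero]
        exact key K (by exact_mod_cast hK w hwT)
      · rw [map_mul]
        refine (mul_le_mul' le_rfl (h.val_norm_le hw hl2)).trans ?_
        have e2 : -n w - (K : ℤ) - K = -n w - (K + K) := by ring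
        rw [e2]
        have := hK w hwT
        exact key _ (by omega)
    · have hk0 := h.hT' w hw hwT
      have hl1 : ∀ P, below E P = w → P.valuation B l ≤ exp (-c P - 0) := by
        intro P hP
        rw [sub_zero]
        exact hl P (by rw [hP]; exact hw)
      have hl2 : ∀ P, below E P = w → P.valuation B l' ≤ exp (-c P - 0) := by
        intro P hP
        have := hl' P (by rw [hP]; exact hw)
        rw [if_neg (by rw [hP]; exact hwT), add_zero] at this
        rw [sub_zero]
        exact this
      refine (Valuation.map_add _ _ _).trans (max_le ?_ ?_)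
      · rw [map_mul]
        have ht : w.valuation E (Algebra.trace E B (l * τ l')) ≤ exp (-n w - 0 - 0) := by
          refine trace_le (h.hunr hw) fun P hP => ?_
          rw [mem_above_iff] at hP
          subst hP
          exact h.val_mul_tau (hl1 P rfl) (hl2 _ (H78R.below_smulPlace P)) hw
        refine (mul_le_mul' le_rfl ht).trans ?_
        rw [sub_zero]
        exact key 0 (by rw [hk0]; simp)
      · rw [map_mul]
        refine (mul_le_mul' le_rfl (h.val_norm_le hw hl2)).trans ?_
        rw [sub_zero]
        exact key 0 (by rw [hk0]; simp)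
  rw [h1, mul_one]

/-- the local generator -/
theorem exists_gen : ∃ β : B, (∀ P, below E P ∈ T → P.valuation B β = exp (-c P)) ∧
    ∀ P, below E P ∉ S → P.valuation B β ≤ exp (-c P) := by
  classical
  have hf1 : {P : HeightOneSpectrum (𝓞 B) | below E P ∈ T}.Finite := by
    have h1 : (⋃ w ∈ T, above B w).Finite :=
      T.finite_toSet.biUnion (fun w _ => H65.finite_above (L := B) w)
    refine h1.subset fun P hP => ?_
    simp only [Set.mem_iUnion]
    exact ⟨_, hP, H47.mem_above_below P⟩
  have hfin := hf1.union h.cfin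
  choose t ht using fun P : HeightOneSpectrum (𝓞 B) => H36.Psi.exists_val_eq_exp P (-c P)
  obtain ⟨β, h1, h2⟩ := exists_approx (R := 𝓞 B) hfin.toFinset
    (fun P => if below E P ∈ T then (t P : B) else 0) (fun P => (c P).natAbs + 1)
  refine ⟨β, fun P hP => ?_, fun P hP => ?_⟩
  · have h3 := h1 P (by
      rw [Set.Finite.mem_toFinset]
      exact Or.inl hP)
    rw [if_pos hP] at h3
    have h4 : P.valuation B (β - t P) < P.valuation B (t P : B) := by
      rw [ht]
      refine h3.trans_lt ?_
      rw [exp_lt_exp]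
      push_cast
      have := neg_abs_le (c P)
      have := le_abs_self (c P)
      omega
    have e : β = (β - t P) + t P := by ring
    rw [e, Valuation.map_add_eq_of_lt_right _ h4, ht]
  · by_cases hF : P ∈ hfin.toFinset
    · have h3 := h1 P hF
      by_cases hPT : below E P ∈ T
      · rw [if_pos hPT] at h3
        have e : β = (β - t P) + t P := by ring
        rw [e]
        refine (Valuation.map_add _ _ _).trans (max_le (h3.trans ?_) (ht P).le)
        rw [exp_le_exp]
        push_cast
        have := le_abs_self (c P)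
        omega
      · rw [if_neg hPT, sub_zero] at h3
        refine h3.trans ?_
        rw [exp_le_exp]
        push_cast
        have := le_abs_self (c P)
        omega
    · have hc : c P = 0 := by
        by_contra hc
        apply hF
        rw [Set.Finite.mem_toFinset]
        exact Or.inr ⟨hP, hc⟩
      rw [hc, neg_zero, exp_zero]
      exact h2 P hF

end LatU

end Fermat.Agent.H88T
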