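import Fermat.Agent.H88GS8

/-! # The Gauss sum of the norm form on a lattice: the value (helper88, S47 DE2b) -/

set_option autoImplicit false
set_option linter.style.haveILetI false
set_option linter.unusedSectionVars false

open IsDedekindDomain NumberField WithZero FractionalIdeal
open scoped nonZeroDivisors Pointwise

noncomputable section

namespace Fermat.Agent.H88T

open Fermat.Agent Fermat.Agent.H78G Fermat.Agent.H71D
open Fermat.Agent.H47 (smulPlace below)
open Fermat.Agent.H82 (above aboveSet NonSplit)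
open Fermat.Agent.H7.Z (ee psi Unram exists_approx exists_le_exp psi_congr psi_of_integral)

variable {E B : Type*} [Field E] [NumberField E] [Field B] [NumberField B] [Algebra E B]

theorem JT_le_of_le {T : Finset (HeightOneSpectrum (𝓞 E))} {k k' : HeightOneSpectrum (𝓞 E) → ℕ}
    (hk : ∀ w ∈ T, k w ≤ k' w) : JT B T k' ≤ JT B T k := by
  refine Ideal.map_mono (Ideal.le_of_dvd ?_)
  exact Finset.prod_dvd_prod_of_dvd _ _ fun w hw => pow_dvd_pow _ (hk w hw)

theorem JT_le_single {T : Finset (HeightOneSpectrum (𝓞 E))} {k : HeightOneSpectrum (𝓞 E) → ℕ}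
    {w : HeightOneSpectrum (𝓞 E)} (hw : w ∈ T) :
    JT B T k ≤ (w.asIdeal ^ k w).map (algebraMap (𝓞 E) (𝓞 B)) := by
  refine Ideal.map_mono (Ideal.le_of_dvd ?_)
  exact Finset.dvd_prod_of_mem _ hw

theorem finite_JT (T : Finset (HeightOneSpectrum (𝓞 E))) (k : HeightOneSpectrum (𝓞 E) → ℕ) :
    Finite (𝓞 B ⧸ JT B T k) := finite_quot_of_ne (map_ne_bot (prod_ne_bot _ _))

/-- comparison of two lattices through a map from a third one -/
theorem finite_of_map {A B' : Type*} [AddCommGroup A] [AddCommGroup B'] (φ : A →+ B')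
    {J : AddSubgroup A} (hJ : Finite (A ⧸ J)) {L L' : AddSubgroup B'}
    (hsup : ∀ l ∈ L, ∃ a : A, φ a ∈ L ∧ l - φ a ∈ L') (hJL : ∀ a ∈ J, φ a ∈ L')
    (hL : ∀ a, φ a ∈ L) :
    Finite (L ⧸ L'.addSubgroupOf L) := by
  let ψ : (A ⧸ J) → (L ⧸ L'.addSubgroupOf L) :=
    Quotient.lift (fun a : A => (QuotientAddGroup.mk ⟨φ a, hL a⟩ : L ⧸ L'.addSubgroupOf L)) (by
      intro a b hab
      have h1 : (QuotientAddGroup.mk a : A ⧸ J) = QuotientAddGroup.mk b := Quotient.sound hab
      rw [QuotientAddGroup.eq] at h1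
      show (QuotientAddGroup.mk ⟨φ a, hL a⟩ : L ⧸ L'.addSubgroupOf L) =
        QuotientAddGroup.mk ⟨φ b, hL b⟩
      rw [QuotientAddGroup.eq, AddSubgroup.mem_addSubgroupOf]
      have h2 := hJL _ h1
      rw [map_add, map_neg] at h2
      exact h2)
  refine Finite.of_surjective ψ ?_
  intro q
  induction q using QuotientAddGroup.induction_on with
  | H l =>
    obtain ⟨a, -, ha⟩ := hsup l l.2
    refine ⟨QuotientAddGroup.mk a, ?_⟩
    show (QuotientAddGroup.mk ⟨φ a, hL a⟩ : L ⧸ L'.addSubgroupOf L) = QuotientAddGroup.mk l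
    rw [QuotientAddGroup.eq, AddSubgroup.mem_addSubgroupOf, AddSubgroup.coe_add,
      NegMemClass.coe_neg, neg_add_eq_sub]
    exact ha

theorem mean_indep {B' : Type*} [AddCommGroup B'] {L L₁ L₂ : AddSubgroup B'} {f : B' → ℂ}
    (h₁ : Per L L₁ f) (h₂ : Per L L₂ f) [hf1 : Finite (L ⧸ L₁.addSubgroupOf L)]
    [hf2 : Finite (L ⧸ L₂.addSubgroupOf L)] : mean L L₁ f = mean L L₂ f := by
  haveI : Finite (L ⧸ (L₁ ⊓ L₂).addSubgroupOf L) := by
    have h3 : (L₁ ⊓ L₂).relIndex L ≠ 0 := by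
      refine AddSubgroup.relIndex_inf_ne_zero ?_ ?_
      · exact Nat.card_ne_zero.mpr ⟨⟨QuotientAddGroup.mk 0⟩, hf1⟩
      · exact Nat.card_ne_zero.mpr ⟨⟨QuotientAddGroup.mk 0⟩, hf2⟩
    exact (Nat.card_ne_zero.mp h3).2
  rw [← mean_of_le h₁ (L'' := L₁ ⊓ L₂) inf_le_left, ← mean_of_le h₂ (L'' := L₁ ⊓ L₂) inf_le_right]

namespace LatU

variable {τ : B ≃ₐ[E] B} {S : Finset (HeightOneSpectrum (𝓞 E))}
    {c : HeightOneSpectrum (𝓞 B) → ℤ} {n : HeightOneSpectrum (𝓞 E) → ℤ} {u : E}
    {k : HeightOneSpectrum (𝓞 E) → ℕ} {T : Finset (HeightOneSpectrum (𝓞 E))}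
    (h : LatU τ S c n u k T)

include h

/-- **Lemma GS.** -/
theorem mean_lattice {L₂ : AddSubgroup B}
    (hper : Per (RB B S c) L₂ (fun x => psS S (u * Algebra.norm E x)))
    [hfin : Finite (RB B S c ⧸ L₂.addSubgroupOf (RB B S c))] :
    mean (RB B S c) L₂ (fun x => psS S (u * Algebra.norm E x)) =
      ∏ w ∈ T, (sgn B w / (Nat.card (𝓞 E ⧸ w.asIdeal) : ℂ)) ^ k w := by
  classical
  haveI := H73U.isGalois τ h.ne h.deg
  rcases T.eq_empty_or_nonempty with hT0 | ⟨w₀, hw₀⟩
  · subst hT0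
    rw [Finset.prod_empty, mean_congr (g := fun _ => (1 : ℂ)), mean_const]
    intro x hx
    rw [mem_RB'] at hx
    refine psS_eq_one fun w hw => ?_
    have h1 := h.val_norm_le (m := 0) (x := x) hw (by
      intro P hP
      rw [sub_zero]
      exact hx P (by rw [hP]; exact hw))
    rw [sub_zero, sub_zero] at h1
    rw [map_mul]
    refine (mul_le_mul' le_rfl h1).trans ((h.val_u_le hw).trans ?_)
    rw [h.hT' w hw (Finset.notMem_empty w)]
    simp
  obtain ⟨β, hβ1, hβ2⟩ := h.exists_gen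
  set f : B → ℂ := fun x => psS S (u * Algebra.norm E x) with hf
  have hβ0 : β ≠ 0 := by
    obtain ⟨P, hP⟩ := H47.above_nonempty (L := B) w₀
    rw [mem_above_iff] at hP
    intro h0
    have h1 := hβ1 P (by rw [hP]; exact hw₀)
    rw [h0, map_zero] at h1
    exact exp_ne_zero h1.symm
  let K : ℕ := T.sup k
  have hK : ∀ w ∈ T, k w ≤ K := fun w hw => Finset.le_sup hw
  set L'' : AddSubgroup B := RB B S (fun P => c P + if below E P ∈ T then (K : ℤ) else 0) with hL''
  have hperK : Per (RB B S c) L'' f := h.per_f K hK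
  let φ : 𝓞 B →+ B := (AddMonoidHom.mulLeft β).comp (algebraMap (𝓞 B) B).toAddMonoidHom
  have hφa : ∀ x : 𝓞 B, φ x = β * (x : B) := fun x => rfl
  have hφ : Function.Injective φ := by
    intro x y hxy
    rw [hφa, hφa] at hxy
    exact RingOfIntegers.coe_injective (mul_left_cancel₀ hβ0 hxy)
  have hφL : ∀ x, φ x ∈ RB B S c := by
    intro x
    rw [mem_RB']
    intro P hP
    rw [hφa, map_mul]
    calc _ ≤ exp (-c P) * 1 := mul_le_mul' (hβ2 P hP) (P.valuation_le_one _)
      _ = _ := mul_one _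
  have hsup : ∀ l ∈ RB B S c, ∃ a : 𝓞 B, φ a ∈ RB B S c ∧ l - φ a ∈ L'' := by
    intro l hl
    have hTB : (⋃ w ∈ T, above B w).Finite :=
      T.finite_toSet.biUnion (fun w _ => H65.finite_above (L := B) w)
    have hTB' : ∀ P : HeightOneSpectrum (𝓞 B), P ∈ hTB.toFinset ↔ below E P ∈ T := by
      intro P
      rw [Set.Finite.mem_toFinset]
      simp only [Set.mem_iUnion, mem_above_iff]
      constructor
      · rintro ⟨w, hw, rfl⟩
        exact hw
      · exact fun hP => ⟨_, hP, rfl⟩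
    obtain ⟨r, h1, h2⟩ := exists_approx (R := 𝓞 B) hTB.toFinset (fun _ => l * β⁻¹) (fun _ => K)
    have hl' := mem_RB'.mp hl
    have hexp : exp (-(K : ℤ)) ≤ (1 : WithZero (Multiplicative ℤ)) := by
      rw [← exp_zero, exp_le_exp]; simp
    have hlβ : ∀ P : HeightOneSpectrum (𝓞 B), below E P ∈ T → P.valuation B (l * β⁻¹) ≤ 1 := by
      intro P hP
      rw [map_mul, map_inv₀, hβ1 P hP, ← exp_neg, neg_neg]
      calc _ ≤ exp (-c P) * exp (c P) := mul_le_mul' (hl' P (h.hT _ hP)) le_rfl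
        _ = 1 := by rw [← exp_add, neg_add_cancel, exp_zero]
    have hall : ∀ P : HeightOneSpectrum (𝓞 B), P.valuation B r ≤ 1 := by
      intro P
      by_cases hP : P ∈ hTB.toFinset
      · have e : r = (r - l * β⁻¹) + l * β⁻¹ := by ring
        rw [e]
        exact (Valuation.map_add _ _ _).trans (max_le ((h1 P hP).trans hexp)
          (hlβ P ((hTB' P).mp hP)))
      · exact h2 P hP
    obtain ⟨a, ha⟩ := HeightOneSpectrum.mem_integers_of_valuation_le_one B r hall
    have ha' : (a : B) = r := ha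
    refine ⟨a, hφL a, ?_⟩
    rw [hL'', mem_RB']
    intro P hP
    by_cases hPT : below E P ∈ T
    · rw [if_pos hPT, hφa, ha']
      have e : l - β * r = -(β * (r - l * β⁻¹)) := by
        field_simp
        ring
      rw [e, Valuation.map_neg, map_mul, hβ1 P hPT]
      refine (mul_le_mul' le_rfl (h1 P ((hTB' P).mpr hPT))).trans (le_of_eq ?_)
      rw [← exp_add]
      congr 1
      ring
    · rw [if_neg hPT, add_zero]
      have h3 := (RB B S c).sub_mem hl (hφL a)
      exact mem_RB'.mp h3 P hP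
  -- the ideal period
  have hJK : ∀ a ∈ (JT B T (fun _ => K)).toAddSubgroup, φ a ∈ L'' := by
    intro a ha
    rw [hL'', mem_RB']
    intro P hP
    by_cases hPT : below E P ∈ T
    · rw [if_pos hPT, hφa, map_mul, hβ1 P hPT]
      have h1 : a ∈ ((below E P).asIdeal ^ K).map (algebraMap (𝓞 E) (𝓞 B)) :=
        JT_le_single (k := fun _ => K) hPT ha
      have h2 := val_le_of_mem_map h1 (H47.mem_above_below P)
      refine (mul_le_mul' le_rfl h2).trans (le_of_eq ?_)
      rw [← exp_add]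
      congr 1
      ring
    · rw [if_neg hPT, add_zero]
      exact mem_RB'.mp (hφL a) P hP
  haveI hfJK : Finite (𝓞 B ⧸ JT B T (fun _ => K)) := finite_JT T _
  haveI hfJ : Finite (𝓞 B ⧸ JT B T k) := finite_JT T _
  haveI hfL : Finite (RB B S c ⧸ L''.addSubgroupOf (RB B S c)) :=
    finite_of_map φ (J := (JT B T (fun _ => K)).toAddSubgroup) hfJK hsup hJK hφL
  rw [mean_indep hper hperK]
  -- transport to the integers
  have hmap : (⊤ : AddSubgroup (𝓞 B)).map φ ≤ RB B S c := by
    rintro _ ⟨x, -, rfl⟩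
    exact hφL x
  have hsup' : ∀ l ∈ RB B S c, ∃ l₀ ∈ (⊤ : AddSubgroup (𝓞 B)).map φ, l - l₀ ∈ L'' := by
    intro l hl
    obtain ⟨a, -, ha⟩ := hsup l hl
    exact ⟨φ a, ⟨a, AddSubgroup.mem_top a, rfl⟩, ha⟩
  rw [← mean_of_sup hperK hmap hsup', ← mean_inf, inf_comm]
  have e1 : (⊤ : AddSubgroup (𝓞 B)).map φ ⊓ L'' = (L''.comap φ).map φ := by
    rw [AddSubgroup.map_comap_eq, ← AddMonoidHom.range_eq_map]
  have hper0 : Per ((⊤ : AddSubgroup (𝓞 B)).map φ) ((L''.comap φ).map φ) f := by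
    intro l hl l' hl'
    refine hperK l (hmap hl) l' ?_
    obtain ⟨x, hx, rfl⟩ := hl'
    exact hx
  rw [e1, mean_map φ hφ _ _ hper0]
  -- the function on the integers
  let z : E := u * Algebra.norm E β
  have hNβ : ∀ w ∈ T, w.valuation E (Algebra.norm E β) = exp (-n w) := by
    intro w hw
    obtain ⟨P, hP⟩ := H47.above_nonempty (L := B) w
    rw [mem_above_iff] at hP
    subst hP
    have hP' : below E P ∉ S := h.hT _ hw
    rw [H78R.val_norm h.deg h.ne (h.ram P hP'), hβ1 P hw, hβ1 _ (by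
      rw [H78R.below_smulPlace]; exact hw), ← exp_add, ← h.nrm P hP']
    congr 1
    ring
  have hfun : ∀ x : 𝓞 B, f (φ x) = ∏ w ∈ T, kap w z (nI E x) := by
    intro x
    show psS S (u * Algebra.norm E (β * (x : B))) = _
    have e2 : u * Algebra.norm E (β * (x : B)) = z * ((nI E x : 𝓞 E) : E) := by
      rw [map_mul, nI_coe, mul_assoc]
    rw [e2, psS_eq_prod h.hT]
    · rfl
    · intro w hw hwT
      rw [map_mul]
      refine mul_le_one' ?_ (w.valuation_le_one _)
      show w.valuation E (u * Algebra.norm E β) ≤ 1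
      have h1 := h.val_norm_le (m := 0) (x := β) hw (by
        intro P hP
        rw [sub_zero]
        exact hβ2 P (by rw [hP]; exact hw))
      rw [sub_zero, sub_zero] at h1
      rw [map_mul]
      refine (mul_le_mul' le_rfl h1).trans ((h.val_u_le hw).trans ?_)
      rw [h.hT' w hw hwT]
      simp
  have hz : ∀ w ∈ T, (k w = 0 ∧ w.valuation E z ≤ 1) ∨ w.valuation E z = exp (k w : ℤ) := by
    intro w hw
    have hw' := h.hT w hw
    have h1 : w.valuation E z = w.valuation E u * exp (-n w) := by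
      show w.valuation E (u * Algebra.norm E β) = _
      rw [map_mul, hNβ w hw]
    rw [h1]
    have h2 := h.hk w hw'
    by_cases hk0 : k w = 0
    · left
      refine ⟨hk0, ?_⟩
      rw [hk0] at h2
      have h3 : (exp ((0 : ℕ) : ℤ) : WithZero (Multiplicative ℤ)) = 1 := by simp
      rw [h3] at h2
      rw [h2]
      exact le_max_right _ _
    · right
      rcases le_total (w.valuation E u * exp (-n w)) 1 with h3 | h3
      · rw [max_eq_left h3] at h2
        exfalso
        apply hk0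
        rw [← exp_zero, exp_inj] at h2
        exact_mod_cast h2
      · rw [max_eq_right h3] at h2
        exact h2.symm
  have hperw : ∀ w ∈ T, Per (⊤ : AddSubgroup (𝓞 B))
      ((w.asIdeal ^ k w).map (algebraMap (𝓞 E) (𝓞 B))).toAddSubgroup
      (fun x => kap w z (nI E x)) := by
    intro w hw
    have hw' := h.hT w hw
    have hQ := unrQ τ h.ne h.deg (h.hunr hw') (h.hBw hw')
    refine hQ.per (kap_trivial ?_) ⊤
    rcases hz w hw with ⟨h3, h4⟩ | h3
    · rw [h3]
      simpa using h4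
    · exact h3.le
  obtain ⟨hpp, hmm⟩ := mean_prod_nI (fun w => kap w z) k T hperw
  have hfun' : (fun x : 𝓞 B => f (φ x)) = fun x => ∏ w ∈ T, kap w z (nI E x) := funext hfun
  rw [hfun']
  have hp1 : Per (⊤ : AddSubgroup (𝓞 B)) (L''.comap φ) (fun x => ∏ w ∈ T, kap w z (nI E x)) := by
    rw [← hfun']
    intro l _ l' hl'
    show f (φ (l + l')) = f (φ l)
    rw [map_add]
    exact hperK _ (hφL l) _ hl'
  haveI hf3 : Finite ((⊤ : AddSubgroup (𝓞 B)) ⧸
      (JT B T (fun _ => K)).toAddSubgroup.addSubgroupOf ⊤) := finite_quot _ ⊤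
  haveI hf4 : Finite ((⊤ : AddSubgroup (𝓞 B)) ⧸
      (JT B T k).toAddSubgroup.addSubgroupOf ⊤) := finite_quot _ ⊤
  have h5 := mean_of_le hp1 (L'' := (JT B T (fun _ => K)).toAddSubgroup) hJK
  have h6 := mean_of_le hpp (L'' := (JT B T (fun _ => K)).toAddSubgroup)
    (fun x hx => JT_le_of_le hK hx)
  rw [← h5, h6, hmm]
  refine Finset.prod_congr rfl fun w hw => ?_
  have hw' := h.hT w hw
  exact mean_kap τ h.ne h.deg (h.unE w hw') (h.hunr hw') (h.hBw hw') (hz w hw)

end LatU

end Fermat.Agent.H88T
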