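import Mathlib
import Fermat.Agent.H44OldForm
import Fermat.Agent.H61Bound

/-!
# `U_q f = ± f` implies `f | W_q = ∓ f` and both traces vanish (exact prime divisor `q`)
-/

set_option autoImplicit false

noncomputable section

open Matrix.SpecialLinearGroup UpperHalfPlane ModularForm CongruenceSubgroup ModularFormClass
open Filter Topology
open scoped MatrixGroups ModularForm

namespace Fermat.Agent.H88.RealP

open Fermat.Agent.H44 Fermat.Agent.H61.Bound

theorem smul_slash_det_pos (c : ℂ) (f : ℍ → ℂ) (g : GL (Fin 2) ℝ) (hg : 0 < (g.det : ℝ)) :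
    (c • f) ∣[(2 : ℤ)] g = c • (f ∣[(2 : ℤ)] g) := by
  rw [ModularForm.smul_slash]
  congr 1
  rw [UpperHalfPlane.σ, if_pos hg]
  rfl

/-- a cusp form with `q g(q τ) = ± g(τ)` is zero. -/
theorem eq_zero_of_slash_heckeDiag {M q : ℕ} [NeZero M] (hq : q.Prime)
    (g : CuspForm (Gamma0 M) 2) (s : ℂ) (hs : s ^ 2 = 1)
    (h : (⇑g : ℍ → ℂ) ∣[(2 : ℤ)] heckeDiagMatrix q = s • ⇑g) : g = 0 := by
  have hq0 := hq.ne_zero
  have hsn : ‖s‖ = 1 := by
    have h1 : ‖s‖ ^ 2 = 1 := by rw [← norm_pow, hs, norm_one]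
    nlinarith [norm_nonneg s]
  have hstep : ∀ τ, phi g (heckeDiagMatrix q • τ) = phi g τ := by
    intro τ
    have h1 := congrFun h τ
    rw [slash_heckeDiagMatrix_apply 2 hq0, Pi.smul_apply, smul_eq_mul,
      show (2 - 1 : ℤ) = 1 from rfl, zpow_one] at h1
    have h2 := congrArg norm h1
    rw [norm_mul, norm_mul, hsn, one_mul, Complex.norm_natCast] at h2
    rw [phi, phi, im_heckeDiagMatrix_smul hq0, ← h2]
    ring
  apply DFunLike.coe_injective
  funext τ₀
  set D : ℕ → ℍ := fun n => (heckeDiagMatrix q) ^ n • τ₀ with hD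
  have hDphi : ∀ n, phi g (D n) = phi g τ₀ := by
    intro n
    induction n with
    | zero => simp [hD]
    | succ n ih =>
      have : D (n + 1) = heckeDiagMatrix q • D n := by
        simp only [hD, pow_succ', mul_smul]
      rw [this, hstep, ih]
  have hDim : ∀ n, (D n).im = q ^ n * τ₀.im := by
    intro n
    induction n with
    | zero => simp [hD]
    | succ n ih =>
      have : D (n + 1) = heckeDiagMatrix q • D n := by
        simp only [hD, pow_succ', mul_smul]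
      rw [this, im_heckeDiagMatrix_smul hq0, ih]
      ring
  have hDtend : Tendsto D atTop atImInfty := by
    rw [atImInfty, tendsto_comap_iff]
    have : (UpperHalfPlane.im ∘ D) = fun n : ℕ => (q : ℝ) ^ n * τ₀.im := funext hDim
    rw [this]
    exact (tendsto_pow_atTop_atTop_of_one_lt (by exact_mod_cast hq.one_lt)).atTop_mul_const
      τ₀.im_pos
  have h5 := (tendsto_phi g 1).comp hDtend
  have h6 : ((fun τ : ℍ => phi g ((1 : SL(2, ℤ)) • τ)) ∘ D) = fun _ => phi g τ₀ := by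
    funext n
    simp only [Function.comp_apply, one_smul, hDphi]
  rw [h6] at h5
  have h7 : phi g τ₀ = 0 := tendsto_nhds_unique tendsto_const_nhds h5
  rw [phi, mul_eq_zero] at h7
  rcases h7 with h7 | h7
  · simpa using h7
  · exact absurd h7 τ₀.im_pos.ne'

/-- **The form-level statement.** -/
theorem slash_W_and_trace {q M L : ℕ} [NeZero L] [NeZero M] (hL : L = q * M) (hq : q.Prime)
    (hqM : ¬ q ∣ M) (D : ALData q M) (f : CuspForm (Gamma0 L) 2) (s : ℂ) (hs : s ^ 2 = 1)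
    (hU : heckeU 2 q (⇑f : ℍ → ℂ) = s • (⇑f : ℍ → ℂ)) :
    (⇑f : ℍ → ℂ) ∣[(2 : ℤ)] D.W = (-s) • (⇑f : ℍ → ℂ) ∧
      (haveI : Fact q.Prime := ⟨hq⟩; D.tr 2 (⇑f : ℍ → ℂ) = 0) := by
  subst hL
  have : Fact q.Prime := ⟨hq⟩
  have hU' : CuspForm.heckeULin 2 (dvd_mul_right q M) f = s • f := DFunLike.coe_injective hU
  set g := D.trCusp (D.wCusp 2 f) with hg
  have hg1 : g = D.wCusp 2 f + s • f := by
    rw [hg, ALData.trCusp, D.wCusp_wCusp, hU']
  have hgW : D.wCusp 2 g = s • g := by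
    have h1 : D.wCusp 2 (D.wCusp 2 f + s • f) = D.wCusp 2 (D.wCusp 2 f) + D.wCusp 2 (s • f) := by
      apply DFunLike.coe_injective
      show (⇑(D.wCusp 2 f) + ⇑(s • f)) ∣[(2 : ℤ)] D.W = _
      rw [SlashAction.add_slash]
      rfl
    rw [hg1, h1, D.wCusp_wCusp, D.wCusp_smul, smul_add, smul_smul, ← pow_two, hs, one_smul,
      add_comm]
  have hinv := D.trCusp_slash hq hqM (D.wCusp 2 f)
  rw [← hg] at hinv
  have hgamM : D.gam ∈ Gamma0 M := by
    rw [Gamma0_mem]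
    show (((M : ℕ) : ℤ) : ZMod M) = 0
    simp
  have hdiag : (⇑(lowerCusp (M' := M) 2 g hinv) : ℍ → ℂ) ∣[(2 : ℤ)] heckeDiagMatrix q =
      s • ⇑(lowerCusp (M' := M) 2 g hinv) := by
    have h1 : (⇑g : ℍ → ℂ) ∣[(2 : ℤ)] D.W = s • (⇑g : ℍ → ℂ) :=
      congrArg (fun x : CuspForm (Gamma0 (q * M)) 2 => (⇑x : ℍ → ℂ)) hgW
    rw [ALData.W, SlashAction.slash_mul, hinv _ hgamM] at h1
    exact h1
  have h0 := eq_zero_of_slash_heckeDiag hq _ s hs hdiag
  have hg0 : g = 0 := by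
    apply DFunLike.coe_injective
    exact congrArg (fun x : CuspForm (Gamma0 M) 2 => (⇑x : ℍ → ℂ)) h0
  have hw : D.wCusp 2 f = (-s) • f := by
    rw [_root_.neg_smul]
    exact eq_neg_of_add_eq_zero_left (hg1.symm.trans hg0)
  refine ⟨congrArg (fun x : CuspForm (Gamma0 (q * M)) 2 => (⇑x : ℍ → ℂ)) hw, ?_⟩
  rw [D.tr_eq]
  have h2 : (⇑f : ℍ → ℂ) ∣[(2 : ℤ)] D.W = (-s) • (⇑f : ℍ → ℂ) :=
    congrArg (fun x : CuspForm (Gamma0 (q * M)) 2 => (⇑x : ℍ → ℂ)) hw
  rw [h2, heckeU_smul, hU, smul_smul, neg_mul, ← pow_two, hs, _root_.neg_smul, one_smul,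
    add_neg_cancel]

end Fermat.Agent.H88.RealP
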