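import Fermat.Agent.H88RealA
import Fermat.Agent.H94BRJ
import Fermat.Agent.H48Per
import Fermat.Agent.H37TrEq

/-!
# Periods and Hecke families; the class of `f` with `U_q f = ± f`
-/

set_option autoImplicit false
set_option linter.unusedSectionVars false
set_option linter.style.haveILetI false

noncomputable section

open Matrix.SpecialLinearGroup UpperHalfPlane ModularForm CongruenceSubgroup ModularFormClass
open Filter Topology
open scoped MatrixGroups ModularForm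

namespace Fermat.Agent.H88.RealP

open Fermat.Agent.H70.Coh Fermat.Agent.H94.BR Fermat.Agent.H22.Gen Fermat.Agent.H22

variable {N M : ℕ}

/-- additive compatibility with primitives -/
theorem sum_smul_fam (h : HFam (gm N) (gm M)) {A : Type*} [AddCommGroup A] (F : ℍ → A)
    (φ : Additive (Gamma0 N) →+ A)
    (hF : ∀ (γ : Gamma0 N) (τ : ℍ), F ((γ : SL(2, ℤ)) • τ) = F τ + φ (Additive.ofMul γ))
    (γ : Gamma0 M) (τ : ℍ) :
    ∑ i : h.J, F (h.α i • ((γ : SL(2, ℤ)) • τ)) =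
      (∑ i : h.J, F (h.α i • τ)) + homOp A h φ (Additive.ofMul γ) := by
  rw [homOp_apply, ← Equiv.sum_comp (h.σ γ) (fun i => F (h.α i • τ)),
    ← Finset.sum_add_distrib]
  refine Finset.sum_congr rfl fun i _ => ?_
  rw [← gm_smul, ← mul_smul, h.spec, mul_smul, gm_smul, hF]

/-- **Hecke families and periods.** -/
theorem per_hfam [NeZero N] [NeZero M] (h : HFam (gm N) (gm M)) (f : CuspForm (Gamma0 N) 2)
    (g : CuspForm (Gamma0 M) 2)
    (hg : (g : ℍ → ℂ) = ∑ i : h.J, (f : ℍ → ℂ) ∣[(2 : ℤ)] toGL (h.α i)) :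
    H48.per g = homOp ℂ h (H48.per f) := by
  have h1 : H22.IsPrim (fun τ => ∑ i : h.J, prim f (h.α i • τ)) (g : ℍ → ℂ) := by
    intro τ
    have e : ((fun τ => ∑ i : h.J, prim f (h.α i • τ)) ∘ ofComplex) =
      fun w => ∑ i : h.J, ((fun τ => prim (f : ℍ → ℂ) (toGL (h.α i) • τ)) ∘ ofComplex) w := rfl
    rw [e, hg, Finset.sum_apply]
    exact HasDerivAt.fun_sum fun i _ => (H48.good_of_cuspForm f).isPrim_prim.comp_slash
      (det_toGL_pos' (h.α i)) τ
  have h2 : H22.IsPrim (prim (g : ℍ → ℂ)) (g : ℍ → ℂ) := (H48.good_of_cuspForm g).isPrim_prim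
  have h3 := h2.sub h1
  rw [sub_self] at h3
  refine AddMonoidHom.ext fun γ => ?_
  obtain ⟨γ, rfl⟩ := Additive.ofMul.surjective γ
  have h4 := sum_smul_fam h (prim f) (H48.per f) (fun γ τ => H48.prim_smul_eq' f γ τ) γ
    UpperHalfPlane.I
  have h5 := H48.prim_smul_eq' g γ UpperHalfPlane.I
  have h6 := h3.const_of_zero ((γ : SL(2, ℤ)) • UpperHalfPlane.I) UpperHalfPlane.I
  simp only [Pi.sub_apply] at h6
  linear_combination h6 + h4 - h5

theorem homOp_trFam_eq {q : ℕ} [NeZero M] [NeZero q] (hq : q.Prime) (hqM : ¬ q ∣ M)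
    (w : H37.Tr.AL M q) {A : Type*} [AddCommGroup A] (φ : Additive (Gamma0 (M * q)) →+ A) :
    homOp A (trF M q) φ = homOp A (ι := gm (M * q)) (ι' := gm M)
      (H37.Tr.trFam w (one_dvd M) hq hqM) φ :=
  DFunLike.congr_fun (homOp_eq_of_opH (H37.Tr.trFam_eq w (one_dvd M) hq hqM).symm) φ

theorem homOp_nuFam_eq {q : ℕ} [NeZero M] [NeZero q] (hq : q.Prime) (hqM : ¬ q ∣ M)
    (w : H37.Tr.AL M q) {A : Type*} [AddCommGroup A] (φ : Additive (Gamma0 (M * q)) →+ A) :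
    homOp A (nuF M hq) φ = homOp A (ι := gm (M * q)) (ι' := gm M)
      (H37.Tr.trFam w (one_dvd M) hq hqM) (homOp A (ι := gm (M * q)) (ι' := gm (M * q))
        (H37.Tr.wFam (one_dvd M) hq.pos w) φ) := by
  rw [← homOp_comp (ι := gm (M * q)) (ι' := gm (M * q)) (ι'' := gm M)]
  refine DFunLike.congr_fun (homOp_eq_of_opH (LinearMap.ext fun x => ?_)) φ
  rw [HFam.opH_comp]
  exact (H37.Tr.trFam_wFam w (one_dvd M) hq hqM x).symm

theorem toGL_injective_of {g : GL (Fin 2) ℝ} {α : DN 1}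
    (h : α.1.map (Int.cast : ℤ → ℝ) = (g : Matrix (Fin 2) (Fin 2) ℝ)) : toGL α = g :=
  Units.ext (by rw [toGL_val]; exact h)

/-- **Periods of a form with `U_q f = s f`, `s² = 1`, `q ∤ M`.** -/
theorem period_facts {q : ℕ} [NeZero M] [NeZero (M * q)] [NeZero q] (hq : q.Prime)
    (hqM : ¬ q ∣ M) (f : CuspForm (Gamma0 (M * q)) 2) (s : ℂ) (hs : s ^ 2 = 1)
    (hU : heckeU 2 q (⇑f : ℍ → ℂ) = s • (⇑f : ℍ → ℂ)) :
    ∃ w : H37.Tr.AL M q,
      homOp ℂ (ι := gm (M * q)) (ι' := gm (M * q)) (H37.Tr.wFam (one_dvd M) hq.pos w)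
        (H48.per f) = (-s) • H48.per f ∧
      homOp ℂ (trF M q) (H48.per f) = 0 ∧ homOp ℂ (nuF M hq) (H48.per f) = 0 := by
  haveI : Fact q.Prime := ⟨hq⟩
  obtain ⟨D⟩ := H44.ALData.exists hq hqM
  obtain ⟨hW, hTr⟩ := slash_W_and_trace (mul_comm M q) hq hqM D f s hs hU
  let w : H37.Tr.AL M q := ⟨D.a, D.b, 1, 1, by linear_combination D.h⟩
  have hwmat : toGL (w.mat (one_dvd M) hq.pos) = D.W := by
    apply toGL_injective_of
    rw [D.val_W hq.ne_zero, H37.Tr.AL.mat_val]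
    ext i j
    fin_cases i <;> fin_cases j <;> simp [w, mul_comm]
  have e1 : homOp ℂ (ι := gm (M * q)) (ι' := gm (M * q)) (H37.Tr.wFam (one_dvd M) hq.pos w)
        (H48.per f) = (-s) • H48.per f := by
    rw [← H48.per_smul]
    symm
    apply per_hfam
    show _ = ∑ i : Unit, _
    rw [Fintype.sum_unique]
    show ((-s) • (⇑f : ℍ → ℂ)) = (⇑f : ℍ → ℂ) ∣[(2 : ℤ)] toGL (w.mat (one_dvd M) hq.pos)
    rw [hwmat, hW]
  have e2 : homOp ℂ (ι := gm (M * q)) (ι' := gm M) (H37.Tr.trFam w (one_dvd M) hq hqM)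
      (H48.per f) = 0 := by
    have h0 : H48.per (0 : CuspForm (Gamma0 M) 2) = 0 := by
      have := H48.per_smul (0 : ℂ) (0 : CuspForm (Gamma0 M) 2)
      rw [zero_smul, zero_smul] at this
      exact this
    rw [← h0]
    symm
    apply per_hfam
    show (0 : ℍ → ℂ) = ∑ i : Option (ZMod q), (⇑f : ℍ → ℂ) ∣[(2 : ℤ)]
      toGL (gam 1 M (one_dvd M) (H37.Tr.trRep w i))
    rw [← hTr, H44.ALData.tr]
    refine Fintype.sum_equiv (Equiv.refl _) _ _ fun x => ?_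
    congr 1
    symm
    apply toGL_injective_of
    rcases x with _ | j
    · show ((gam 1 M (one_dvd M) (1 : Gamma0 M)).1.map (Int.cast : ℤ → ℝ)) =
        ((mapGL ℝ (1 : SL(2, ℤ)) : GL (Fin 2) ℝ) : Matrix (Fin 2) (Fin 2) ℝ)
      rw [map_one, map_one]
      ext i k
      fin_cases i <;> fin_cases k <;> simp
    · show ((gam 1 M (one_dvd M) (H37.Tr.trRep w (some j))).1.map (Int.cast : ℤ → ℝ)) =
        ((mapGL ℝ (D.gamT j.val) : GL (Fin 2) ℝ) : Matrix (Fin 2) (Fin 2) ℝ)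
      rw [gam_val, H37.Tr.trRep_some_val]
      ext i k
      rw [H44.mapGL_apply]
      fin_cases i <;> fin_cases k <;> simp [w, H44.ALData.gamT]
  refine ⟨w, e1, ?_, ?_⟩
  · rw [homOp_trFam_eq hq hqM w, e2]
  · rw [homOp_nuFam_eq hq hqM w, e1, homOp_smul, e2, smul_zero]

/-- `T_ℓ` on periods -/
theorem per_hecke [NeZero N] {ℓ : ℕ} (hℓ : ℓ.Prime) (hℓN : ¬ ℓ ∣ N) (f : CuspForm (Gamma0 N) 2) :
    homOp ℂ (tF hℓ hℓN) (H48.per f) = H48.per (CuspForm.heckeTLin 2 hℓ hℓN f) := by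
  haveI : Fact ℓ.Prime := ⟨hℓ⟩
  haveI : NeZero ℓ := ⟨hℓ.ne_zero⟩
  symm
  apply per_hfam
  show heckeT 2 ℓ (⇑f : ℍ → ℂ) = ∑ i : Option (ZMod ℓ), _
  rw [H44.heckeT_eq_sum_hRep]
  refine Fintype.sum_equiv (Equiv.refl _) _ _ fun x => ?_
  congr 1
  symm
  apply toGL_injective_of
  refine (tRep_map (one_dvd N) hℓ hℓN x).trans ?_
  rcases x with _ | j <;> rfl

end Fermat.Agent.H88.RealP
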