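import Mathlib

/-!
# Transfer of eigenvectors from `ℂ` to the fraction field of a coefficient ring
-/

set_option autoImplicit false
set_option linter.style.haveILetI false

noncomputable section

namespace Fermat.Agent.H88.RealP

theorem injective_of_charZero {F : Type*} [Field F] [CharZero F]
    (ι : integralClosure ℤ ℂ →+* F) : Function.Injective ι := by
  rw [RingHom.injective_iff_ker_eq_bot]
  refine Ideal.eq_bot_of_comap_eq_bot (R := ℤ) ?_
  rw [eq_bot_iff]
  intro n hn
  rw [Ideal.mem_comap, RingHom.mem_ker, eq_intCast, map_intCast] at hn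
  rw [Ideal.mem_bot]
  exact_mod_cast hn

/-- an additive map `ℂ → Frac O'` which is linear for all algebraic integers `a` with
`ι a = j α`. -/
theorem exists_transfer {O' : Type*} [CommRing O'] [IsDomain O'] {F : Type*} [Field F] [CharZero F]
    (j : O' →+* F) (hj : Function.Injective j) (ι : integralClosure ℤ ℂ →+* F) {x₀ : ℂ}
    (hx₀ : x₀ ≠ 0) :
    ∃ μ : ℂ →+ FractionRing O', μ x₀ ≠ 0 ∧
      ∀ (a : integralClosure ℤ ℂ) (α : O'), ι a = j α → ∀ x : ℂ,
        μ ((a : ℂ) * x) = algebraMap O' (FractionRing O') α * μ x := by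
  have hι := injective_of_charZero ι
  let Zb := integralClosure ℤ ℂ
  let K₀ := FractionRing Zb
  have hc : Function.Injective (algebraMap Zb ℂ) := Subtype.val_injective
  letI : Algebra K₀ ℂ := (IsFractionRing.lift hc : K₀ →+* ℂ).toAlgebra
  have hK₀ : ∀ (a : Zb) (x : ℂ), algebraMap Zb K₀ a • x = (a : ℂ) * x := by
    intro a x
    rw [Algebra.smul_def]
    congr 1
    exact IsFractionRing.lift_algebraMap hc a
  obtain ⟨lam, hlam⟩ : ∃ lam : Module.Dual K₀ ℂ, lam x₀ ≠ 0 := by
    by_contra hcon
    push Not at hcon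
    exact hx₀ ((Module.forall_dual_apply_eq_zero_iff K₀ x₀).mp hcon)
  let ι' : K₀ →+* F := IsFractionRing.lift hι
  let K := FractionRing O'
  letI : Algebra K F := (IsFractionRing.lift hj : K →+* F).toAlgebra
  have hK : ∀ (α : O') (y : F), algebraMap O' K α • y = j α * y := by
    intro α y
    rw [Algebra.smul_def]
    congr 1
    exact IsFractionRing.lift_algebraMap hj α
  have hy : ι' (lam x₀) ≠ 0 := by
    rw [ne_eq, map_eq_zero]; exact hlam
  obtain ⟨lam', hlam'⟩ : ∃ lam' : Module.Dual K F, lam' (ι' (lam x₀)) ≠ 0 := by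
    by_contra hcon
    push Not at hcon
    exact hy ((Module.forall_dual_apply_eq_zero_iff K _).mp hcon)
  refine ⟨(lam'.toAddMonoidHom.comp ι'.toAddMonoidHom).comp lam.toAddMonoidHom, hlam', ?_⟩
  intro a α h x
  show lam' (ι' (lam ((a : ℂ) * x))) = algebraMap O' K α * lam' (ι' (lam x))
  rw [← hK₀, map_smul, smul_eq_mul, map_mul]
  have h1 : ι' (algebraMap Zb K₀ a) = ι a := IsFractionRing.lift_algebraMap hι a
  rw [h1, h, ← hK, map_smul, smul_eq_mul]

end Fermat.Agent.H88.RealP
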