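import Fermat.Agent.H94BRJ
import Fermat.Agent.H4EAPE

/-!
# From eigenclasses in `H¹(Γ₀(N), K)` to eigenvectors in `O ⊗ T_p J₀(N)`
-/

set_option autoImplicit false
set_option linter.unusedSectionVars false
set_option linter.style.haveILetI false

noncomputable section

namespace Fermat.Agent.H94.BR

open Fermat.Agent.H70.Coh CongruenceSubgroup ModularCurve Fermat.Agent.H24 Fermat.Agent.H61
open AlgebraicCurve Fermat.Agent.H90 Fermat.Agent.H4 Fermat.Agent.H67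
open Fermat.Agent.H30 Fermat.Agent.H35 Fermat.Agent.H31
open UpperHalfPlane hiding I
open scoped MatrixGroups Manifold TensorProduct

section Frac

variable {R : Type*} [CommRing R] [IsDomain R] {K : Type*} [Field K] [Algebra R K]
  [IsFractionRing R K]
variable {N M : ℕ} [NeZero N] [NeZero M]

/-- clearing denominators -/
theorem exists_clear (φ : Additive (Gamma0 N) →+ K) :
    ∃ (c : R) (φ' : Additive (Gamma0 N) →+ R), c ≠ 0 ∧
      (algebraMap R K).toAddMonoidHom.comp φ' = c • φ := by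
  classical
  have h0 : AddGroup.FG (Additive (Gamma0 N)) := GroupFG.iff_add_fg.1 inferInstance
  obtain ⟨S, hS⟩ := (AddGroup.fg_iff_addSubgroup_fg _).mp (AddGroup.fg_range φ)
  obtain ⟨b, hb⟩ := IsLocalization.exist_integer_multiples_of_finset (nonZeroDivisors R) S
  have hmem : ∀ γ, ∃ r : R, algebraMap R K r = (b : R) • φ γ := by
    intro γ
    let W : AddSubgroup K := (algebraMap R K).toAddMonoidHom.range.comap
      (DistribSMul.toAddMonoidHom K (b : R))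
    have h1 : AddSubgroup.closure (S : Set K) ≤ W := by
      rw [AddSubgroup.closure_le]
      intro a ha
      exact hb a ha
    rw [hS] at h1
    exact h1 ⟨γ, rfl⟩
  choose f hf using hmem
  have hinj : Function.Injective (algebraMap R K) := IsFractionRing.injective R K
  refine ⟨b, AddMonoidHom.mk' f fun x y => hinj ?_, nonZeroDivisors.coe_ne_zero b,
    AddMonoidHom.ext fun γ => hf γ⟩
  rw [map_add, hf, hf, hf, map_add, smul_add]

theorem homOp_eq_zero_of_frac {h : HFam (gm N) (gm M)} {φ' : Additive (Gamma0 N) →+ R}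
    {φ : Additive (Gamma0 N) →+ K} {c : R}
    (h1 : (algebraMap R K).toAddMonoidHom.comp φ' = c • φ) (h2 : homOp K h φ = 0) :
    homOp R h φ' = 0 := by
  have h3 : (algebraMap R K).toAddMonoidHom.comp (homOp R h φ') = 0 := by
    rw [← homOp_map, h1, homOp_smul, h2, smul_zero]
  refine AddMonoidHom.ext fun γ => IsFractionRing.injective R K ?_
  have := DFunLike.congr_fun h3 γ
  rw [AddMonoidHom.zero_apply, map_zero]
  exact this

theorem homOp_eq_smul_of_frac {h : HFam (gm N) (gm N)} {φ' : Additive (Gamma0 N) →+ R}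
    {φ : Additive (Gamma0 N) →+ K} {c : R} {a : R}
    (h1 : (algebraMap R K).toAddMonoidHom.comp φ' = c • φ) (h2 : homOp K h φ = a • φ) :
    homOp R h φ' = a • φ' := by
  have h3 : (algebraMap R K).toAddMonoidHom.comp (homOp R h φ') =
      a • (algebraMap R K).toAddMonoidHom.comp φ' := by
    rw [← homOp_map, h1, homOp_smul, h2, smul_comm]
  refine AddMonoidHom.ext fun γ => IsFractionRing.injective R K ?_
  have := DFunLike.congr_fun h3 γ
  rw [AddMonoidHom.smul_apply, smul_eq_mul, map_mul]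
  refine this.trans ?_
  rw [AddMonoidHom.smul_apply, Algebra.smul_def]
  rfl

variable {p : ℕ} [hp : Fact p.Prime] [Algebra ℤ_[p] R]
variable (hinj : Function.Injective (algebraMap ℤ_[p] R))
include hinj

/-- **The consumer theorem, with coefficients in the fraction field.** -/
theorem exists_eigenvector_frac {S : Set ℕ} (χ : MvPolynomial (GoodPrimes N S) ℤ →+* R)
    {φ : Additive (Gamma0 N) →+ K} (hφ0 : φ ≠ 0) (hφ : IsPE φ)
    (hT : ∀ (ℓ : ℕ) [hℓ : Fact ℓ.Prime] (hℓN : ¬ ℓ ∣ N) (hℓS : ℓ ∉ S),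
      heckeHom hℓN φ = χ (MvPolynomial.X ⟨⟨ℓ, hℓ.out⟩, hℓN, hℓS⟩) • φ) :
    letI := heckeModuleBar N
    ∃ w : R ⊗[ℤ_[p]] TateMod p (JZero N), w ≠ 0 ∧
      w ∈ chiSub (actTate p (JZero N) N S) χ ∧
      ∃ c : R, c ≠ 0 ∧ (algebraMap R K).toAddMonoidHom.comp (thetaJ N hinj w).1 = c • φ := by
  letI := heckeModuleBar N
  obtain ⟨c, φ', hc, h1⟩ := exists_clear (R := R) φ
  have hI : Function.Injective (algebraMap R K) := IsFractionRing.injective R K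
  have hφ'0 : φ' ≠ 0 := by
    rintro rfl
    apply hφ0
    refine AddMonoidHom.ext fun γ => ?_
    have h2 := DFunLike.congr_fun h1 γ
    rw [AddMonoidHom.comp_apply, AddMonoidHom.zero_apply, map_zero, AddMonoidHom.smul_apply,
      Algebra.smul_def, eq_comm, mul_eq_zero] at h2
    rcases h2 with h2 | h2
    · exact absurd ((map_eq_zero_iff _ hI).mp h2) hc
    · exact h2
  have hφ' : IsPE φ' := by
    intro γ hγ
    apply hI
    have h2 := DFunLike.congr_fun h1 (Additive.ofMul γ)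
    rw [AddMonoidHom.smul_apply, hφ γ hγ, smul_zero] at h2
    rw [map_zero]
    exact h2
  obtain ⟨w, hw0, hw, hw2⟩ := exists_eigenvector hinj χ hφ'0 hφ' (by
    intro ℓ hℓ hℓN hℓS
    have h2 := hT ℓ hℓN hℓS
    rw [← homOp_tF] at h2 ⊢
    exact homOp_eq_smul_of_frac h1 h2)
  exact ⟨w, hw0, hw, c, hc, by rw [hw2, h1]⟩

/-- **The consumer theorem, for classes in `H¹(Γ₀(N), K)` with trivial character.** -/
theorem exists_eigenvector_H1 {N₀ : ℕ} (hN : N₀ ∣ N) {S : Set ℕ}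
    (χ : MvPolynomial (GoodPrimes N S) ℤ →+* R)
    {y : H1 (gam N₀ N hN) (psiRep (1 : (ZMod N₀)ˣ →* Kˣ) K)} (hy0 : y ≠ 0)
    (hT : ∀ (ℓ : ℕ) (hℓ : ℓ.Prime) (hℓN : ¬ ℓ ∣ N) (hℓS : ℓ ∉ S),
      (tFam hN hℓ hℓN).opH (psiRep (1 : (ZMod N₀)ˣ →* Kˣ) K) y =
        algebraMap R K (χ (MvPolynomial.X ⟨⟨ℓ, hℓ⟩, hℓN, hℓS⟩)) • y)
    (hne : ∃ (ℓ : ℕ) (hℓ : ℓ.Prime) (hℓN : ¬ ℓ ∣ N) (hℓS : ℓ ∉ S), (N : ℤ) ∣ (ℓ : ℤ) - 1 ∧
      χ (MvPolynomial.X ⟨⟨ℓ, hℓ⟩, hℓN, hℓS⟩) ≠ 1 + (ℓ : R)) :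
    letI := heckeModuleBar N
    ∃ w : R ⊗[ℤ_[p]] TateMod p (JZero N), w ≠ 0 ∧
      w ∈ chiSub (actTate p (JZero N) N S) χ ∧
      ∀ {M : ℕ} [NeZero M] (hM : N₀ ∣ M) (T : JZero N →+ JZero M) (h : HFam (gm N) (gm M))
        (_ : RealJ T h) (h' : HFam (gam N₀ N hN) (gam N₀ M hM)) (e : h'.J ≃ h.J)
        (_ : ∀ i, (h'.α i).1 = (h.α (e i)).1),
        h'.opH (psiRep (1 : (ZMod N₀)ˣ →* Kˣ) K) y = 0 → (tateMap T).baseChange R w = 0 := by
  letI := heckeModuleBar N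
  have hI : Function.Injective (algebraMap R K) := IsFractionRing.injective R K
  haveI : CharZero R := charZero_of_injective_algebraMap hinj
  haveI : CharZero K := charZero_of_injective_algebraMap hI
  obtain ⟨φ, rfl⟩ := (homH1 hN K K).surjective y
  have hφ0 : φ ≠ 0 := by
    rintro rfl
    exact hy0 (map_zero _)
  have hT' : ∀ (ℓ : ℕ) [hℓ : Fact ℓ.Prime] (hℓN : ¬ ℓ ∣ N) (hℓS : ℓ ∉ S),
      heckeHom hℓN φ = χ (MvPolynomial.X ⟨⟨ℓ, hℓ.out⟩, hℓN, hℓS⟩) • φ := by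
    intro ℓ hℓ hℓN hℓS
    apply (homH1 hN K K).injective
    rw [← homH1_heckeHom hN K hℓN φ, hT ℓ hℓ.out hℓN hℓS, ← map_smul]
    congr 1
    refine AddMonoidHom.ext fun γ => ?_
    exact algebraMap_smul K _ (φ γ)
  have hφ : IsPE φ := by
    obtain ⟨ℓ, hℓ, hℓN, hℓS, h1, h2⟩ := hne
    haveI : Fact ℓ.Prime := ⟨hℓ⟩
    refine isPE_of_heckeHom_eq (R := R) hℓN h1 φ _ (hT' ℓ hℓN hℓS) fun a ha => ?_
    rw [Algebra.smul_def, mul_eq_zero] at ha
    rcases ha with ha | ha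
    · exact absurd (sub_eq_zero.mp ((map_eq_zero_iff _ hI).mp ha)) h2
    · exact ha
  obtain ⟨w, hw0, hw, c, hc, hw2⟩ := exists_eigenvector_frac hinj χ hφ0 hφ hT'
  refine ⟨w, hw0, hw, ?_⟩
  intro M _ hM T h H h' e he h0
  rw [baseChange_eq_zero_iff hinj H]
  refine homOp_eq_zero_of_frac hw2 ?_
  rw [opH_homH1 hN hM h' h e he, LinearEquiv.map_eq_zero_iff] at h0
  exact h0

/-- **The consumer theorem at level `M q`**: a nonzero eigenclass killed by both traces gives a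
nonzero eigenvector killed by both degeneracy maps. -/
theorem exists_newvector_H1 {q : ℕ} [NeZero q] [NeZero (M * q)] (hq : q.Prime) {N₀ : ℕ}
    (hM : N₀ ∣ M) {S : Set ℕ} (χ : MvPolynomial (GoodPrimes (M * q) S) ℤ →+* R)
    {y : H1 (gam N₀ (M * q) (dvd_mul_q hM)) (psiRep (1 : (ZMod N₀)ˣ →* Kˣ) K)} (hy0 : y ≠ 0)
    (hT : ∀ (ℓ : ℕ) (hℓ : ℓ.Prime) (hℓN : ¬ ℓ ∣ M * q) (hℓS : ℓ ∉ S),
      (tFam (dvd_mul_q hM) hℓ hℓN).opH (psiRep (1 : (ZMod N₀)ˣ →* Kˣ) K) y =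
        algebraMap R K (χ (MvPolynomial.X ⟨⟨ℓ, hℓ⟩, hℓN, hℓS⟩)) • y)
    (hne : ∃ (ℓ : ℕ) (hℓ : ℓ.Prime) (hℓN : ¬ ℓ ∣ M * q) (hℓS : ℓ ∉ S),
      ((M * q : ℕ) : ℤ) ∣ (ℓ : ℤ) - 1 ∧
      χ (MvPolynomial.X ⟨⟨ℓ, hℓ⟩, hℓN, hℓS⟩) ≠ 1 + (ℓ : R))
    (h1 : (trFam hM).opH (psiRep (1 : (ZMod N₀)ˣ →* Kˣ) K) y = 0)
    (h2 : (nuFam hM hq).opH (psiRep (1 : (ZMod N₀)ˣ →* Kˣ) K) y = 0) :
    letI := heckeModuleBar (M * q)
    ∃ w : R ⊗[ℤ_[p]] TateMod p (JZero (M * q)), w ≠ 0 ∧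
      w ∈ chiSub (actTate p (JZero (M * q)) (M * q) S) χ ∧
      (∀ h : M * 1 ∣ M * q, (tateMap (degPush (M := M) (N := M * q) 1 h)).baseChange R w = 0) ∧
      (∀ h : M * q ∣ M * q, (tateMap (degPush (M := M) (N := M * q) q h)).baseChange R w = 0) := by
  letI := heckeModuleBar (M * q)
  obtain ⟨w, hw0, hw, hw2⟩ := exists_eigenvector_H1 (K := K) hinj (dvd_mul_q hM) χ hy0 hT hne
  refine ⟨w, hw0, hw, fun h => ?_, fun h => ?_⟩
  · refine hw2 hM _ (trF M q) (realJ_degPush_one hq h) (trFam hM) (Equiv.refl _) (fun i => ?_) h1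
    rfl
  · refine hw2 hM _ (nuF M hq) (realJ_degPush_prime hq h) (nuFam hM hq) (Equiv.refl _)
      (fun i => ?_) h2
    rfl

end Frac

end Fermat.Agent.H94.BR
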