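import Fermat.Agent.H88RealB
import Fermat.Agent.H88RealC0
import Fermat.Agent.H94BRUse

/-!
# The eigenvector in `O' ⊗ T_p J₀(M q)` of an eigenform with `a_q = ± 1`
-/

set_option autoImplicit false
set_option linter.unusedSectionVars false
set_option linter.style.haveILetI false

noncomputable section

open Matrix.SpecialLinearGroup UpperHalfPlane ModularForm CongruenceSubgroup ModularFormClass
open scoped MatrixGroups ModularForm TensorProduct

namespace Fermat.Agent.H88.RealP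

open Fermat.Agent.H70.Coh Fermat.Agent.H94.BR ModularCurve AlgebraicCurve Fermat.Agent.H4
  Fermat.Agent.H67 Fermat.Agent.H30 Fermat.Agent.H35 Fermat.Agent.H31 Fermat.Agent.H90

variable {p : ℕ} [Fact p.Prime] {M q : ℕ} [NeZero M] [NeZero q] [NeZero (M * q)]

set_option maxHeartbeats 1600000 in
/-- **The eigenvector.** -/
theorem exists_vector (hq : q.Prime) (hqM : ¬ q ∣ M) (hc : M.Coprime q)
    {f : CuspForm (Gamma0 (M * q)) 2} (hf : f.IsNormalizedEigenform) {s : ℤ}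
    (hs : s = 1 ∨ s = -1) (hfs : qCoeff f q = (s : ℂ))
    {O' : Type*} [CommRing O'] [IsDomain O'] [CharZero O'] [Algebra ℤ_[p] O']
    (hinj : Function.Injective (algebraMap ℤ_[p] O'))
    {F : Type*} [Field F] [CharZero F] {j : O' →+* F} (hj : Function.Injective j)
    {ι : integralClosure ℤ ℂ →+* F} {S : Finset ℕ}
    (χ : MvPolynomial (GoodPrimes (M * q) (↑S : Set ℕ)) ℤ →+* O')
    (hχ : ∀ (ℓ : ℕ) (hℓ : ℓ.Prime) (hℓN : ¬ ℓ ∣ M * q) (hℓS : ℓ ∉ (↑S : Set ℕ)),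
      ∃ a : integralClosure ℤ ℂ, (a : ℂ) = qCoeff f ℓ ∧
        ι a = j (χ (MvPolynomial.X ⟨⟨ℓ, hℓ⟩, hℓN, hℓS⟩))) :
    letI := heckeModuleBar (M * q)
    ∃ w : O' ⊗[ℤ_[p]] TateMod p (JZero (M * q)), w ≠ 0 ∧
      w ∈ chiSub (actTate p (JZero (M * q)) (M * q) (↑S : Set ℕ)) χ ∧
      (∀ h : M * 1 ∣ M * q, (tateMap (degPush (M := M) (N := M * q) 1 h)).baseChange O' w = 0) ∧
      (∀ h : M * q ∣ M * q, (tateMap (degPush (M := M) (N := M * q) q h)).baseChange O' w = 0) ∧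
      (tateMap (wJ (R := M * q) M q rfl hc)).baseChange O' w = ((-s : ℤ) : O') • w := by
  letI := heckeModuleBar (M * q)
  have hs2 : (s : ℂ) ^ 2 = 1 := by rcases hs with rfl | rfl <;> norm_num
  have hev := hf.isHeckeEigenvector_H49
  have hU : heckeU 2 q (⇑f : ℍ → ℂ) = (s : ℂ) • (⇑f : ℍ → ℂ) := by
    have h1 := hev.U q hq (dvd_mul_left q M)
    simp only [hfs] at h1
    exact congrArg (fun g : CuspForm (Gamma0 (M * q)) 2 => (⇑g : ℍ → ℂ)) h1
  obtain ⟨w₀, hw₀, htr, hnu⟩ := period_facts hq hqM f (s : ℂ) hs2 hU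
  set φ := H48.per f with hφ
  have hφ0 : φ ≠ 0 := fun h => hf.ne_zero (H48.eq_zero_of_per f h)
  obtain ⟨γ₀, hγ₀⟩ : ∃ γ, φ γ ≠ 0 := by
    by_contra hcon
    push Not at hcon
    exact hφ0 (AddMonoidHom.ext hcon)
  obtain ⟨μ, hμ0, hμ⟩ := exists_transfer j hj ι hγ₀
  set K := FractionRing O' with hK
  set φK : Additive (Gamma0 (M * q)) →+ K := μ.comp φ with hφK
  have hφK0 : φK ≠ 0 := fun h => hμ0 (DFunLike.congr_fun h γ₀)
  have hPE : Fermat.Agent.H4.IsPE φK := by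
    intro γ hγ
    have h1 : φ (Additive.ofMul γ) = 0 := H48.isPE_per f γ hγ
    rw [hφK, AddMonoidHom.comp_apply, h1, map_zero]
  have hT : ∀ (ℓ : ℕ) [hℓ : Fact ℓ.Prime] (hℓN : ¬ ℓ ∣ M * q) (hℓS : ℓ ∉ (↑S : Set ℕ)),
      heckeHom hℓN φK = χ (MvPolynomial.X ⟨⟨ℓ, hℓ.out⟩, hℓN, hℓS⟩) • φK := by
    intro ℓ hℓ hℓN hℓS
    obtain ⟨a, ha, hja⟩ := hχ ℓ hℓ.out hℓN hℓS
    rw [← homOp_tF, hφK, homOp_map, hφ, per_hecke, hev.T ℓ hℓ.out hℓN, H48.per_smul]
    refine AddMonoidHom.ext fun γ => ?_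
    have h1 := hμ a _ hja (H48.per f γ)
    rw [ha] at h1
    refine h1.trans ?_
    exact (Algebra.smul_def _ _).symm
  obtain ⟨w, hw0, hw, c, hc0, hth⟩ := exists_eigenvector_frac (K := K) hinj χ hφK0 hPE hT
  refine ⟨w, hw0, hw, fun h => ?_, fun h => ?_, ?_⟩
  · rw [baseChange_eq_zero_iff hinj (realJ_degPush_one hq h)]
    refine homOp_eq_zero_of_frac hth ?_
    rw [hφK, homOp_map, htr]
    exact AddMonoidHom.ext fun γ => map_zero μ
  · rw [baseChange_eq_zero_iff hinj (realJ_degPush_prime hq h)]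
    refine homOp_eq_zero_of_frac hth ?_
    rw [hφK, homOp_map, hnu]
    exact AddMonoidHom.ext fun γ => map_zero μ
  · apply (thetaJ (M * q) hinj).injective
    apply Subtype.ext
    rw [thetaJ_baseChange hinj (realJ_wJ hc w₀ hq.pos), map_smul]
    refine (homOp_eq_smul_of_frac (a := ((-s : ℤ) : O')) hth ?_).trans rfl
    rw [hφK, homOp_map]
    refine AddMonoidHom.ext fun γ => ?_
    have h1 := DFunLike.congr_fun hw₀ γ
    show μ _ = ((-s : ℤ) : O') • μ (φ γ)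
    refine (congrArg μ h1).trans ?_
    rw [AddMonoidHom.smul_apply, smul_eq_mul, ← Int.cast_neg, ← zsmul_eq_mul, map_zsmul,
      Algebra.smul_def, map_intCast, zsmul_eq_mul]

end Fermat.Agent.H88.RealP
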