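import Mathlib
import Fermat.Agent.H32BLR

/-!
# Saturated equivariant embeddings from the quadratic relation
-/

set_option autoImplicit false

noncomputable section

open IsLocalRing TensorProduct

namespace Fermat.Agent.H88.RealP

/-- a saturated submodule contains all `y` with `π y` in it. -/
theorem exists_saturated_embedding {A : Type} [CommRing A] [IsDomain A]
    [IsDiscreteValuationRing A] {G : Type*} [Group G] {X : Type*} [AddCommGroup X] [Module A X]
    [Module.Finite A X] [Module.IsTorsionFree A X]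
    (ρ : G →* Module.End A (Fin 2 → A)) (hspan : Submodule.span A (Set.range ρ) = ⊤)
    (σX : G →* Module.End A X) (E : Submodule A X) (hstab : ∀ g, ∀ x ∈ E, σX g x ∈ E)
    (hsat : ∀ (a : A) (x : X), a ≠ 0 → a • x ∈ E → x ∈ E) {w : X} (hw : w ∈ E) (hw0 : w ≠ 0)
    (hquad : ∀ g, ∀ x ∈ E, σX g (σX g x) - LinearMap.trace A (Fin 2 → A) (ρ g) • σX g x +
      LinearMap.det (ρ g) • x = 0) :
    ∃ Φ : (Fin 2 → A) →ₗ[A] X, Function.Injective Φ ∧
      (∀ x, Φ x ∈ (maximalIdeal A • ⊤ : Submodule A X) → ∀ i, x i ∈ maximalIdeal A) ∧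
      (∀ g x, Φ (ρ g x) = σX g (Φ x)) ∧ ∀ x, Φ x ∈ E := by
  let μ : G →* Module.End A E :=
    { toFun := fun g => (σX g).restrict (fun x hx => hstab g x hx)
      map_one' := LinearMap.ext fun x => Subtype.ext (by
        rw [LinearMap.coe_restrict_apply, map_one]; rfl)
      map_mul' := fun g h => LinearMap.ext fun x => Subtype.ext (by
        rw [LinearMap.coe_restrict_apply, map_mul]; rfl) }
  have hμ : ∀ g (x : E), ((μ g x : E) : X) = σX g x := fun g x => rfl
  have hQ : H32.Quadratic ρ μ := by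
    intro g
    refine LinearMap.ext fun x => Subtype.ext ?_
    exact hquad g x x.2
  let b := Pi.basisFun A (Fin 2)
  obtain ⟨M₀, e, he, -⟩ := H32.exists_equiv_tensor_of_quadratic ρ μ b hspan hQ
  haveI : IsNoetherian A X := isNoetherian_of_isNoetherianRing_of_finite A X
  -- `M₀ ≠ 0`
  have hM₀ : (⊤ : Submodule A M₀) ≠ ⊥ := by
    intro htop
    have hz : ∀ m : M₀, m = 0 := fun m => by
      have : m ∈ (⊤ : Submodule A M₀) := trivial
      rw [htop] at this
      exact (Submodule.mem_bot A).mp this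
    have h1 : ∀ x : (Fin 2 → A) ⊗[A] M₀, x = 0 := by
      intro x
      induction x using TensorProduct.induction_on with
      | zero => rfl
      | tmul v m => rw [hz m, TensorProduct.tmul_zero]
      | add x y hx hy => rw [hx, hy, add_zero]
    have h2 : (⟨w, hw⟩ : E) = 0 := by
      rw [← e.apply_symm_apply ⟨w, hw⟩, h1 (e.symm ⟨w, hw⟩), map_zero]
    exact hw0 (congrArg Subtype.val h2)
  obtain ⟨m, hm⟩ : ∃ m : M₀, m ∉ (maximalIdeal A • ⊤ : Submodule A M₀) := by
    by_contra hcon
    push Not at hcon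
    apply hM₀
    refine Submodule.eq_bot_of_le_smul_of_le_jacobson_bot (maximalIdeal A) ⊤
      (IsNoetherian.noetherian _) (fun m _ => hcon m)
      (IsLocalRing.maximalIdeal_le_jacobson _)
  have hm0 : m ≠ 0 := by
    rintro rfl
    exact hm (Submodule.zero_mem _)
  have hinj : ∀ a : A, a • m = 0 → a = 0 := by
    intro a ha
    by_contra ha0
    have h1 : a • (((m : E) : X)) = 0 := congrArg (fun z : M₀ => ((z : E) : X)) ha
    have h2 : ((m : E) : X) = 0 := (smul_eq_zero.mp h1).resolve_left ha0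
    exact hm0 (Subtype.ext (Subtype.ext h2))
  let Φ : (Fin 2 → A) →ₗ[A] X :=
    E.subtype ∘ₗ e.toLinearMap ∘ₗ ((TensorProduct.mk A (Fin 2 → A) M₀).flip m)
  have hΦ : ∀ v, Φ v = ((e (v ⊗ₜ[A] m) : E) : X) := fun v => rfl
  let c : ∀ i : Fin 2, (Fin 2 → A) ⊗[A] M₀ →ₗ[A] M₀ := fun i =>
    (TensorProduct.lid A M₀).toLinearMap ∘ₗ (LinearMap.rTensor M₀ (LinearMap.proj i))
  have hc : ∀ i (v : Fin 2 → A), c i (v ⊗ₜ m) = v i • m := fun i v => by
    simp only [c, LinearMap.comp_apply, LinearMap.rTensor_tmul, LinearEquiv.coe_coe,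
      TensorProduct.lid_tmul, LinearMap.proj_apply]
  refine ⟨Φ, ?_, ?_, ?_, ?_⟩
  · rw [injective_iff_map_eq_zero]
    intro v hv
    have h1 : v ⊗ₜ[A] m = 0 := by
      apply e.injective
      rw [map_zero]
      exact Subtype.ext hv
    funext i
    have h2 := congrArg (c i) h1
    rw [hc, map_zero] at h2
    exact hinj _ h2
  · intro v hv i
    obtain ⟨ϖ, hϖ⟩ := IsDiscreteValuationRing.exists_irreducible A
    rw [hϖ.maximalIdeal_eq, Submodule.ideal_span_singleton_smul] at hv
    obtain ⟨y, -, hy⟩ := hv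
    have hy' : ϖ • y = Φ v := hy
    have hyE : y ∈ E := hsat ϖ y hϖ.ne_zero (by rw [hy']; exact (e _).2)
    have h1 : v ⊗ₜ[A] m = ϖ • e.symm ⟨y, hyE⟩ := by
      apply e.injective
      rw [map_smul, LinearEquiv.apply_symm_apply]
      exact Subtype.ext hy'.symm
    have h2 := congrArg (c i) h1
    rw [hc, map_smul] at h2
    by_contra hcon
    have hu : IsUnit (v i) := by
      by_contra h
      exact hcon ((mem_maximalIdeal _).mpr h)
    apply hm
    have h3 : v i • m ∈ (maximalIdeal A • ⊤ : Submodule A M₀) := by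
      rw [h2]
      exact Submodule.smul_mem_smul ((mem_maximalIdeal _).mpr hϖ.not_isUnit) trivial
    obtain ⟨u, hu⟩ := hu
    have h4 := Submodule.smul_mem _ ((u⁻¹ : Aˣ) : A) h3
    rw [← hu, smul_smul, Units.inv_mul, one_smul] at h4
    exact h4
  · intro g v
    rw [hΦ, hΦ]
    have h1 := he g (v ⊗ₜ[A] m)
    rw [LinearMap.rTensor_tmul] at h1
    rw [h1, hμ]
  · intro v
    exact (e (v ⊗ₜ[A] m)).2

end Fermat.Agent.H88.RealP
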