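import Fermat.Agent.H99Three2

/-!
# CARAYOL C4, part 3: the three components at level `m q²`
-/

set_option autoImplicit false
set_option linter.unusedSectionVars false

noncomputable section

open ModularCurve Polynomial IntermediateField AlgebraicCurve Module Fermat.Agent.H60
  Fermat.Agent.H66 Fermat.Agent.H42

namespace Fermat.Agent.H99

variable {K K' k : Type*} [Field K] [Field K'] [Algebra K K'] [Field k]
  {A : ValuationSubring K} {π : A →+* k} {A' : ValuationSubring K'} {π' : A' →+* k} {q : ℕ}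

/-- The Galois group of `K' / K` acts transitively on the primitive `q`-th roots of unity and
trivially on the residue field. -/
def RamData.Gal (D : RamData A π A' π' q) : Prop :=
  ∀ i : ℕ, ¬ q ∣ i → ∃ (σ : K' →+* K') (σA : A' →+* A'),
    (∀ c : K, σ (algebraMap K K' c) = algebraMap K K' c) ∧ (∀ a : A', ((σA a : A') : K') = σ a) ∧
      (∀ a, π' (σA a) = π' a) ∧ σ (D.ζ : K') = (D.ζ : K') ^ i

section Emb

variable [Algebra ℚ K] [Algebra ℚ K'] [CharZero K'] [hL : Fact (HasRoots K')]
variable {m : ℕ} [NeZero m] [NeZero q] (hq : q.Prime) (hqm : ¬ q ∣ m)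
variable {w : AL K m q} (w' : AL K' m q) (w₂ : AL2 K m q w) (w₂' : AL2 K' m q w')
variable (D : RamData A π A' π' q)

/-- the middle embedding of the function field over `K`, with values in `K'((t))` -/
def midK {v : K'ˣ} (hv : IsPrimitiveRoot v q) : FX K (m * q * q) →+* LaurentSeries K' :=
  (midEmb hq hqm w' hv : FX K' (m * q * q) →+* LaurentSeries K').comp (H90.baseIncl K K' _)

theorem midK_apply {v : K'ˣ} (hv : IsPrimitiveRoot v q) (x : FX K (m * q * q)) :
    midK (K := K) hq hqm w' hv x = midEmb hq hqm w' hv (H90.baseIncl K K' _ x) := rfl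

theorem midK_alpha {v : K'ˣ} (hv : IsPrimitiveRoot v q) (x : FX K (m * q)) :
    midK hq hqm w' hv (heckeAlphaBar K (m * q) q x) =
      coeffMap (algebraMap K K') (x : LaurentSeries K) := by
  rw [midK_apply, baseIncl_alpha, midEmb_alpha, H90.coe_baseIncl]

theorem midK_beta (w : AL K m q) {v : K'ˣ} (hv : IsPrimitiveRoot v q) (x : FX K (m * q)) :
    midK hq hqm w' hv (heckeBetaBar K (m * q) q x) =
      twist v (coeffMap (algebraMap K K') (w.W x : LaurentSeries K)) := by
  rw [midK_apply, baseIncl_beta, midEmb_beta, ← baseIncl_W hq w w', H90.coe_baseIncl]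

/-- the three embeddings -/
def emb3 : Fin 3 → (FX K (m * q * q) →+* LaurentSeries K')
  | 0 => (coeffMap (algebraMap K K')).comp (FX K (m * q * q)).val.toRingHom
  | 1 => midK hq hqm w' D.prim
  | 2 => (coeffMap (algebraMap K K')).comp
      ((FX K (m * q * q)).val.toRingHom.comp (w₂.W₂ : FX K (m * q * q) →+* _))

@[simp] theorem emb3_zero (x : FX K (m * q * q)) :
    emb3 hq hqm w' w₂ D 0 x = coeffMap (algebraMap K K') (x : LaurentSeries K) := rfl

@[simp] theorem emb3_one (x : FX K (m * q * q)) :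
    emb3 hq hqm w' w₂ D 1 x = midK hq hqm w' D.prim x := rfl

@[simp] theorem emb3_two (x : FX K (m * q * q)) :
    emb3 hq hqm w' w₂ D 2 x = coeffMap (algebraMap K K') (w₂.W₂ x : LaurentSeries K) := rfl

include D in
theorem coeff_mem_Bdd {N : ℕ} (hN : N ≠ 0) (x : FX K N) :
    coeffMap (algebraMap K K') (x : LaurentSeries K) ∈ Bdd A' :=
  FX_le_Bdd A' N hN (H90.baseIncl K K' _ x).2

theorem emb3_mem (i : Fin 3) (x : FX K (m * q * q)) : emb3 hq hqm w' w₂ D i x ∈ Bdd A' := by
  fin_cases i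
  · exact coeff_mem_Bdd D (NeZero.ne _) x
  · exact midEmb_mem_Bdd hq hqm w' A' D.prim D.u D.coe_u.symm _
  · exact coeff_mem_Bdd D (NeZero.ne _) (w₂.W₂ x)

include D in
/-- Galois conjugation of the middle embeddings -/
theorem midK_conj (hG : D.Gal) (w : AL K m q) {v : K'ˣ} (hv : IsPrimitiveRoot v q) {i : ℕ}
    (hi : v = D.ζ ^ i) (hi' : ¬ q ∣ i) : ∃ G : SeriesHom A' π' A' π',
      (∀ x, G.gk x = x) ∧ ∀ x : FX K (m * q * q), midK hq hqm w' hv x =
        G.g (midK hq hqm w' D.prim x) := by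
  obtain ⟨σ, σA, h1, h2, h3, h4⟩ := hG i hi'
  let G : SeriesHom A' π' A' π' :=
    { g := coeffMap σ
      gA := coeffMap σA
      gk := RingHom.id _
      comm := fun y => by
        ext n
        simp only [coeffMap_coeff]
        exact (h2 _).symm
      comm' := fun y => by
        ext n
        simp only [coeffMap_coeff, RingHom.id_apply]
        exact (h3 _).symm }
  refine ⟨G, fun x => rfl, fun x => ?_⟩
  have hcoeff : ∀ y : LaurentSeries K, coeffMap σ (coeffMap (algebraMap K K') y) =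
      coeffMap (algebraMap K K') y := by
    intro y
    ext n
    simp only [coeffMap_coeff]
    exact h1 _
  have h : midK hq hqm w' hv = (coeffMap σ).comp (midK (K := K) hq hqm w' D.prim) := by
    apply ringHom_ext' (m * q) q hq
    · intro y
      show _ = coeffMap σ (midK hq hqm w' D.prim (heckeAlphaBar K (m * q) q y))
      rw [midK_alpha, midK_alpha, hcoeff]
    · intro y
      show _ = coeffMap σ (midK hq hqm w' D.prim (heckeBetaBar K (m * q) q y))
      rw [midK_beta hq hqm w' w, midK_beta hq hqm w' w, coeffMap_twist σ D.ζ, hcoeff]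
      congr 2
      rw [hi]
      apply Units.ext
      rw [Units.val_pow_eq_pow_val, ← h4]
      rfl
  exact RingHom.congr_fun h x

include D in
theorem midK_mem (hG : D.Gal) (w : AL K m q) {v : K'ˣ} (hv : IsPrimitiveRoot v q) {i : ℕ}
    (hi : v = D.ζ ^ i) (hi' : ¬ q ∣ i) {x : FX K (m * q * q)}
    (hx : midK hq hqm w' D.prim x ∈ GR A' π') : midK hq hqm w' hv x ∈ GR A' π' := by
  obtain ⟨G, -, h⟩ := midK_conj hq hqm w' D hG w hv hi hi'
  rw [h]
  exact G.mem hx

include D in
theorem gres_midK (hG : D.Gal) (w : AL K m q) {v : K'ˣ} (hv : IsPrimitiveRoot v q) {i : ℕ}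
    (hi : v = D.ζ ^ i) (hi' : ¬ q ∣ i) {x : FX K (m * q * q)}
    (hx : midK hq hqm w' D.prim x ∈ GR A' π') :
    gres A' π' (midK hq hqm w' hv x) = gres A' π' (midK hq hqm w' D.prim x) := by
  obtain ⟨G, h0, h⟩ := midK_conj hq hqm w' D hG w hv hi hi'
  rw [h, G.gres hx, h0]

/-- the middle component is stable under `w_{q²}` -/
theorem midK_W₂_mem (hG : D.Gal) (w₂' : AL2 K' m q w') {x : FX K (m * q * q)}
    (hx : midK hq hqm w' D.prim x ∈ GR A' π') :
    midK hq hqm w' D.prim (w₂.W₂ x) ∈ GR A' π' ∧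
      gres A' π' (midK hq hqm w' D.prim (w₂.W₂ x)) = gres A' π' (midK hq hqm w' D.prim x) := by
  have hq1 := hq.one_lt
  have hinv : (D.ζ)⁻¹ = D.ζ ^ (q - 1) := by
    rw [inv_eq_iff_mul_eq_one, ← pow_succ', Nat.sub_add_cancel hq.one_lt.le, D.prim.pow_eq_one]
  have hnd : ¬ q ∣ (q - 1) := fun h => by
    have := Nat.le_of_dvd (by omega) h
    omega
  have h1 : midK hq hqm w' D.prim (w₂.W₂ x) = twist D.ζ (midK hq hqm w' D.prim.inv x) := by
    rw [midK_apply, baseIncl_W₂ hq w w' w₂ w₂', midEmb_W₂ hq hqm w' w₂', midK_apply]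
  have h2 := midK_mem hq hqm w' D hG w D.prim.inv hinv hnd hx
  have h3 := gres_midK hq hqm w' D hG w D.prim.inv hinv hnd hx
  rw [h1]
  refine ⟨twist_mem D.u D.map_u D.coe_u.symm h2, ?_⟩
  rw [gres_twist D.u D.map_u D.coe_u.symm h2, h3]

/-- multiplicities of the components -/
def e3 (q : ℕ) : Fin 3 → ℕ
  | 0 => 1
  | 1 => q - 1
  | 2 => 1

theorem emb3_natCast (i : Fin 3) (n : ℕ) :
    emb3 hq hqm w' w₂ D i (n : FX K (m * q * q)) = (n : LaurentSeries K') := map_natCast _ n

include D in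
theorem coeff_div_q_mem {N : ℕ} (hN : N ≠ 0) {x : FX K N}
    (hx : coeffMap (algebraMap K K') (x : LaurentSeries K) ∈ GR A' π')
    (h0 : gres A' π' (coeffMap (algebraMap K K') (x : LaurentSeries K)) = 0) :
    coeffMap (algebraMap K K') (x : LaurentSeries K) / (q : LaurentSeries K') ∈ GR A' π' := by
  have hB : (x : LaurentSeries K) ∈ Bdd A := FX_le_Bdd A N hN x.2
  have h1 := (D.coeff_mem_iff hB).1 hx
  rw [D.gres_coeff' hB] at h0
  have h2 := D.coeff_mem (div_mem_of_gres_eq_zero D.unif h1 h0)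
  rw [map_div₀] at h2
  have h3 : coeffMap (algebraMap K K') (algebraMap K (LaurentSeries K) ((q : A) : K)) =
      (q : LaurentSeries K') := by
    have : ((q : A) : K) = (q : K) := by simp
    rw [this, map_natCast, map_natCast]
  rwa [h3] at h2

/-- **The system of the three components.** -/
def threeSys [CharP k q] [CharZero K] :
    H83.CompSys (FX K (m * q * q)) (LaurentSeries k) q (Fin 3) where
  hor := H68.hor K (m * q * q)
  hor_closed := H68.hor_closed
  V i := gV D.unif' (emb3 hq hqm w' w₂ D i) (emb3_mem hq hqm w' w₂ D i)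
  ρ i := gρ D.unif' (emb3 hq hqm w' w₂ D i) (emb3_mem hq hqm w' w₂ D i)
  ρ_unit i x h := gρ_unit D.unif' (emb3 hq hqm w' w₂ D i) (emb3_mem hq hqm w' w₂ D i) x h
  q_ne := by
    have : CharZero (FX K (m * q * q)) :=
      charZero_of_injective_algebraMap (algebraMap K (FX K (m * q * q))).injective
    exact Nat.cast_ne_zero.mpr (NeZero.ne q)
  qinv_mem := by
    have h := H68.algebraMap_mem_hor (K := K) (N := m * q * q) ((q : K)⁻¹)
    rwa [map_inv₀, map_natCast] at h
  ρ_q i := by
    rw [map_natCast]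
    have : (q : k) = 0 := CharP.cast_eq_zero k q
    rw [← map_natCast (algebraMap k (LaurentSeries k)), this, map_zero]
  e := e3 q
  pow_div i x hx := by
    have hx' : emb3 hq hqm w' w₂ D i x ∈ GR A' π' := x.2
    have hx0 : gres A' π' (emb3 hq hqm w' w₂ D i x) = 0 := hx
    rw [mem_gV]
    fin_cases i
    · show emb3 hq hqm w' w₂ D 0 ((x : FX K (m * q * q)) ^ 1 / (q : FX K (m * q * q))) ∈ _
      rw [pow_one, map_div₀, emb3_natCast]
      exact coeff_div_q_mem D (NeZero.ne _) hx' hx0
    · obtain ⟨v, -, hv⟩ := D.exists_pow_eq hq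
      refine pow_div_mem D.unif' (emb3 hq hqm w' w₂ D 1) (n := q - 1) ⟨v, ?_⟩ hx' hx0
      rw [emb3_natCast]
      have h1 : ((D.ϖ : A') : K') ^ (q - 1) = (q : K') * (v : K') := by
        have := congrArg Subtype.val hv
        simpa using this
      rw [h1, map_mul, map_natCast]
    · show emb3 hq hqm w' w₂ D 2 ((x : FX K (m * q * q)) ^ 1 / (q : FX K (m * q * q))) ∈ _
      rw [pow_one, map_div₀, emb3_natCast]
      exact coeff_div_q_mem D (NeZero.ne _) hx' hx0

variable [CharP k q] [CharZero K]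

theorem mem_threeSys_V {i : Fin 3} {x : FX K (m * q * q)} :
    x ∈ (threeSys hq hqm w' w₂ D).V i ↔ emb3 hq hqm w' w₂ D i x ∈ GR A' π' := Iff.rfl

theorem threeSys_res (i : Fin 3) (x : FX K (m * q * q)) :
    (threeSys hq hqm w' w₂ D).res i x = gres A' π' (emb3 hq hqm w' w₂ D i x) := by
  by_cases h : x ∈ (threeSys hq hqm w' w₂ D).V i
  · rw [H83.CompSys.res_of_mem _ h]
    rfl
  · rw [H83.CompSys.res, dif_neg h]
    by_contra hne
    exact h (mem_of_gres_ne_zero (Ne.symm hne))

theorem threeSys_r (i : Fin 3) (b : (threeSys hq hqm w' w₂ D).B) :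
    (threeSys hq hqm w' w₂ D).r i b = gres A' π' (emb3 hq hqm w' w₂ D i b) := rfl

end Emb

end Fermat.Agent.H99

end
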