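import Fermat.Agent.H68TwoHyp
import Fermat.Agent.H99Three3

/-!
# CARAYOL C4: technical hypotheses on the level `m q²` system
-/

set_option autoImplicit false
set_option linter.unusedSectionVars false

noncomputable section

open ModularCurve Polynomial IntermediateField AlgebraicCurve Module Fermat.Agent.H60
  Fermat.Agent.H66 Fermat.Agent.H42

namespace Fermat.Agent.H99

variable {K K' k : Type*} [Field K] [Field K'] [Algebra K K'] [Field k]
  {A : ValuationSubring K} {π : A →+* k} {A' : ValuationSubring K'} {π' : A' →+* k} {q : ℕ}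
variable [Algebra ℚ K] [Algebra ℚ K'] [CharZero K'] [hL : Fact (HasRoots K')]
variable {m : ℕ} [NeZero m] [NeZero q] (hq : q.Prime) (hqm : ¬ q ∣ m)
variable {w : AL K m q} (w' : AL K' m q) (w₂ : AL2 K m q w)
variable (D : RamData A π A' π' q)

theorem emb3_algebraMap (i : Fin 3) (c : K) :
    emb3 hq hqm w' w₂ D i (algebraMap K (FX K (m * q * q)) c) =
      algebraMap K' (LaurentSeries K') (algebraMap K K' c) := by
  fin_cases i
  · exact H90.coeffMap_algebraMap' c
  · show midK hq hqm w' D.prim (algebraMap K (FX K (m * q * q)) c) = _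
    rw [midK_apply, baseIncl_algebraMap, AlgHom.commutes]
  · show coeffMap (algebraMap K K') ((w₂.W₂ (algebraMap K (FX K (m * q * q)) c) :
      FX K (m * q * q)) : LaurentSeries K) = _
    rw [AlgEquiv.commutes]
    exact H90.coeffMap_algebraMap' c

include hq D in
/-- every element of `Bdd A'` is in the Gauss ring up to a power of `q` -/
theorem RamData.exists_pow_mul_mem_GR [CharP k q] {x : LaurentSeries K'} (hx : x ∈ Bdd A') :
    ∃ n : ℕ, ∀ M, n ≤ M → (q : LaurentSeries K') ^ M * x ∈ GR A' π' := by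
  obtain ⟨n, hn⟩ := H68.exists_pow_mul_mem_GR D.unif' hx
  obtain ⟨v, hv1, hv⟩ := D.exists_pow_eq hq
  obtain ⟨V, hV⟩ := D.unif'.isUnit (u := v) (by
    rw [hv1]
    exact neg_ne_zero.2 one_ne_zero)
  refine ⟨n, fun M hM => ?_⟩
  have h1 : (q : A') = D.ϖ ^ (q - 1) * ((V⁻¹ : A'ˣ) : A') := by
    rw [hv, ← hV, mul_assoc, Units.mul_inv, mul_one]
  have h2 : (q : LaurentSeries K') = algebraMap K' (LaurentSeries K') ((D.ϖ : A') : K') ^ (q - 1) *
      algebraMap K' (LaurentSeries K') ((((V⁻¹ : A'ˣ) : A')) : K') := by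
    rw [← map_pow, ← map_mul]
    have h3 := congrArg (fun a : A' => algebraMap K' (LaurentSeries K') (a : K')) h1
    simpa using h3
  have h4 : n ≤ (q - 1) * M := by
    have : 1 ≤ q - 1 := by have := hq.two_le; omega
    calc n ≤ M := hM
      _ = 1 * M := (one_mul M).symm
      _ ≤ (q - 1) * M := Nat.mul_le_mul_right M this
  rw [h2, mul_pow, ← pow_mul, mul_right_comm]
  refine Subring.mul_mem _ (hn _ h4) (Subring.pow_mem _ (const_mem _) M)

variable [CharP k q] [CharZero K]

theorem threeSys_consts : (threeSys hq hqm w' w₂ D).Consts A π where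
  hor := H68.algebraMap_mem_hor
  mem i o := by
    rw [mem_threeSys_V, emb3_algebraMap]
    exact const_mem (⟨_, D.mem o⟩ : A')
  res i o := by
    rw [threeSys_res, emb3_algebraMap]
    have h := gres_const (A := A') (π := π') (⟨_, D.mem o⟩ : A')
    rw [D.map] at h
    exact h

theorem exists_pow_mul_mem_V3 (i : Fin 3) (x : FX K (m * q * q)) :
    ∃ n : ℕ, ∀ M, n ≤ M → (q : FX K (m * q * q)) ^ M * x ∈ (threeSys hq hqm w' w₂ D).V i := by
  obtain ⟨n, hn⟩ := D.exists_pow_mul_mem_GR hq (emb3_mem hq hqm w' w₂ D i x)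
  refine ⟨n, fun M hM => ?_⟩
  rw [mem_threeSys_V, map_mul, map_pow, emb3_natCast]
  exact hn M hM

theorem threeSys_arch : (threeSys hq hqm w' w₂ D).Arch := by
  intro i x
  obtain ⟨n, hn⟩ := exists_pow_mul_mem_V3 hq hqm w' w₂ D i x
  exact ⟨n, hn n le_rfl⟩

theorem threeSys_frac (x : FX K (m * q * q)) : ∃ b : (threeSys hq hqm w' w₂ D).B,
    (b : FX K (m * q * q)) ≠ 0 ∧ x * b ∈ (threeSys hq hqm w' w₂ D).B := by
  obtain ⟨P, hP, hPx⟩ := H68.exists_poly_mul_mem_hor x
  set a := aeval (H68.jF K (m * q * q)) P with ha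
  choose n hn using fun i => exists_pow_mul_mem_V3 hq hqm w' w₂ D i a
  choose n' hn' using fun i => exists_pow_mul_mem_V3 hq hqm w' w₂ D i (a * x)
  set M := (∑ i, n i) + ∑ i, n' i with hM
  have hq' : (q : FX K (m * q * q)) ≠ 0 := (threeSys hq hqm w' w₂ D).q_ne
  have hnM : ∀ i, n i ≤ M := fun i =>
    (Finset.single_le_sum (f := n) (fun _ _ => Nat.zero_le _) (Finset.mem_univ i)).trans
      (Nat.le_add_right _ _)
  have hnM' : ∀ i, n' i ≤ M := fun i =>
    (Finset.single_le_sum (f := n') (fun _ _ => Nat.zero_le _) (Finset.mem_univ i)).trans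
      (Nat.le_add_left _ _)
  have hqhor : (q : FX K (m * q * q)) ^ M ∈ (threeSys hq hqm w' w₂ D).hor := by
    refine Subring.pow_mem _ ?_ M
    exact natCast_mem _ q
  refine ⟨⟨(q : FX K (m * q * q)) ^ M * a, ?_⟩, mul_ne_zero (pow_ne_zero _ hq') hP, ?_⟩
  · rw [H83.CompSys.mem_B]
    exact ⟨Subring.mul_mem _ hqhor (H68.aeval_mem_hor P), fun i => hn i M (hnM i)⟩
  · have e : x * ((q : FX K (m * q * q)) ^ M * a) = (q : FX K (m * q * q)) ^ M * (a * x) := by ring
    show x * ((q : FX K (m * q * q)) ^ M * a) ∈ _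
    rw [e, H83.CompSys.mem_B]
    exact ⟨Subring.mul_mem _ hqhor hPx, fun i => hn' i M (hnM' i)⟩

end Fermat.Agent.H99

end
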