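import Fermat.Agent.H89Car
import Fermat.Agent.H99Three6

/-!
# CARAYOL C4: `S.Hyp` for the `ThreeData` of level `m q²`
-/

set_option autoImplicit false
set_option linter.unusedSectionVars false

noncomputable section

open ModularCurve Polynomial IntermediateField AlgebraicCurve Module Fermat.Agent.H60
  Fermat.Agent.H66 Fermat.Agent.H42

namespace Fermat.Agent.H99

variable {K K' k : Type*} [Field K] [Field K'] [Algebra K K'] [Field k]
  {A : ValuationSubring K} {π : A →+* k} {A' : ValuationSubring K'} {π' : A' →+* k} {q : ℕ}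
variable [Algebra ℚ K] [Algebra ℚ K'] [CharZero K'] [hL : Fact (HasRoots K')]
variable {m : ℕ} [NeZero m] [NeZero q] (hq : q.Prime) (hqm : ¬ q ∣ m)
variable {w : AL K m q} (w' : AL K' m q) (w₂ : AL2 K m q w) (w₂' : AL2 K' m q w')
variable (D : RamData A π A' π' q) (hG : D.Gal)
variable [CharP k q] [CharZero K]
variable {R : H83.ResData k (LaurentSeries k) q} {T : H83.TwoData R (FX K (m * q))}
  {X₀ : LaurentSeries ℤ} (hT : TwoSpec T w π X₀)

/-- All technical hypotheses for `threeData`, when `T` has underlying system `twoSys`. -/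
theorem threeData_hyp (hTs : T.toCompSys = H68.twoSys w D.unif)
    (hN : IsNoetherianRing (threeSys hq hqm w' w₂ D).B) :
    (threeData hq hqm w' w₂ w₂' D hG hT hN).Hyp A π where
  cT := by rw [hTs]; exact H68.twoSys_consts w D.unif
  cS := threeSys_consts hq hqm w' w₂ D
  aT := by rw [hTs]; exact H68.twoSys_arch w D.unif
  aS := threeSys_arch hq hqm w' w₂ D
  fT := by
    rw [hTs]
    exact H68.twoSys_frac w D.unif
  fS := threeSys_frac hq hqm w' w₂ D
  α_alg c := (heckeAlphaBar K (m * q) q).commutes c
  β_alg c := (heckeBetaBar K (m * q) q).commutes c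

end Fermat.Agent.H99

end
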