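import Fermat.Agent.H97MdL
import Fermat.Agent.H31Eq3
import Fermat.Agent.H31Scale

/-!
# Equivariance data of the concrete two-sheet structure: `lift_inf`, `scale`, `Tors`
-/

set_option autoImplicit false
set_option linter.unusedSectionVars false
set_option linter.style.haveILetI false

noncomputable section

open AlgebraicCurve ModularCurve IntermediateField Fermat.Agent.H34.Two Fermat.Agent.H97
open Fermat.Agent.H31 Fermat.Agent.H31.In

namespace Fermat.Agent.H89Eq

section Inst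

variable {L : Type*} [Field L] [Algebra ℚ L] {A : ValuationSubring L} {k : Type*} [Field k]
  {π : A →+* k} {m q : ℕ} [NeZero m] [NeZero q] [hq : Fact q.Prime]
  [CharP k q] [IsAlgClosed k] [Infinite k] (w : H99.AL L m q)
  (hπ : Function.Surjective π)
  (hdeg : H42.DegLE L k m) (hqm : ¬ q ∣ m)
  [IsAlgClosed L] [CharZero L] [IsLocalHom π] (arch : Arch A)

include arch in
/-- **`lift_inf`** -/
theorem lift_inf {r : Place L (H99.FX L m) → Place k (modularFunctionFieldFullC k m)} {c : ℕ}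
    (hr1 : ∀ D : Divisor L (H99.FX L m), (c : ℤ) < Divisor.degree D →
      (H42.modReductionData A π m hπ hdeg).IsRed D (Finsupp.mapDomain r D))
    {G : Subgroup (L ≃ₐ[ℚ] L)} (hG : Triv π G) {P₀ : Place L (H99.FX L m)} (hP₀ : IsInf P₀) :
    ∃ n₀ : ℤ, ∀ n : ℤ, n₀ < n → ∀ h : modularFunctionFieldFullC k m,
      h ∈ riemannRochSpace (Finsupp.single (r P₀) n :
        Divisor k (modularFunctionFieldFullC k m)) →
      ∃ b : H99.FX L m, MP.Fix (⊤ : Subgroup G) b ∧
        v0 A π w hπ (H42.degreeFact L) hdeg hqm b ≤ 1 ∧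
        b ∈ riemannRochSpace (Finsupp.single P₀ n : Divisor L (H99.FX L m)) ∧
        (comp0 A π w hπ (H42.degreeFact L) hdeg hqm).red b = h := by
  have i1 : H3RR.IsFF L (H99.FX L m) := isFF_FF L m
  have i2 : H94.FunField L (H99.FX L m) := H3RR.funField_of_isFF
  refine ⟨c, fun n hn h hh => ?_⟩
  have hD : (c : ℤ) < Divisor.degree (Finsupp.single P₀ n : Divisor L (H99.FX L m)) := by
    rw [Divisor.degree_single, H94.deg_eq_one]
    simpa using hn
  have h1 := (hr1 _ hD).2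
  rw [Finsupp.mapDomain_single] at h1
  rw [← h1] at hh
  obtain ⟨b, hb, hρ, hfix⟩ := exists_fixed hπ arch hdeg hG hP₀ hh
  refine ⟨b, fun σ _ => hfix σ σ.2, v0_le_of_mem_R A π w hπ _ hdeg hqm b, hb, ?_⟩
  obtain ⟨h', hρ'⟩ := mem_R_of_v0 A π w hπ (H42.degreeFact L) hdeg hqm
    (v0_le_of_mem_R A π w hπ (H42.degreeFact L) hdeg hqm b)
  rw [← hρ', ← hρ]

/-- the first component has values of constants -/
theorem v1_scale {f : H99.FX L (m * q)} (hf : f ≠ 0) :
    ∃ c : L, c ≠ 0 ∧ v1 A π w hπ (H42.degreeFact L) hdeg hqm f = A.valuation c := by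
  obtain ⟨c, r, hc, -, hv, -⟩ := hasG1 A π w hπ (H42.degreeFact L) hdeg hqm hf
  exact ⟨c, hc, hv⟩

theorem gaussInt_of_v1 {f : H99.FX L (m * q)}
    (hf : v1 A π w hπ (H42.degreeFact L) hdeg hqm f ≤ 1) :
    GaussInt π (f : LaurentSeries L) := by
  have h1 : f ∈ (comp1 A π w hπ (H42.degreeFact L) hdeg hqm).V := (compVal_le_one_iff hπ _).mp hf
  exact (mem_locL_iff A π).mp h1

theorem red_ne_of_v1 {f : H99.FX L (m * q)} {y : LaurentSeries A}
    (hy : coeffMap A.subtype y = f) (hf : v1 A π w hπ (H42.degreeFact L) hdeg hqm f = 1) :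
    coeffMap π y ≠ 0 := by
  have h1 := (compVal_eq_one_iff hπ _).mp hf
  intro h0
  apply h1
  apply Subtype.ext
  rw [coe_red1]
  have h2 := red_gaussComp_mul A π (isQuot_FX (m * q)) (f := f) (z := 1) (y := y)
    (by rw [map_one]; exact one_ne_zero) (by rw [map_one, mul_one]; exact hy.symm)
  rw [map_one, mul_one, h0] at h2
  exact h2

include arch in
/-- **`scale`** -/
theorem scale {G : Subgroup (L ≃ₐ[ℚ] L)} (H : Subgroup G) (f : H99.FX L (m * q))
    (hf : MP.Fix H f) (hf0 : f ≠ 0) :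
    ∃ c : L, c ≠ 0 ∧ MP.Fix H c ∧
      v1 A π w hπ (H42.degreeFact L) hdeg hqm f = A.valuation c := by
  obtain ⟨P₁, hP₁⟩ := exists_isInf (H99.FX L (m * q)) (jqModC_mem_bar L (m * q))
  obtain ⟨c, hc, hcH, hv⟩ := exists_fixed_scale (π := π) arch hP₁
    (v1 A π w hπ (H42.degreeFact L) hdeg hqm) (fun f hf => v1_scale w hπ hdeg hqm hf)
    (compVal_algebraMap hπ _) (fun f hf => gaussInt_of_v1 w hπ hdeg hqm hf)
    (fun f y hy hf => red_ne_of_v1 w hπ hdeg hqm hy hf) (H := H.map G.subtype) hf0 (by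
      rintro σ ⟨τ, hτ, rfl⟩
      exact hf τ hτ)
  exact ⟨c, hc, fun σ hσ => hcH σ ⟨σ, hσ, rfl⟩, hv⟩

end Inst

section Sheets

variable {L : Type*} [Field L] [Algebra ℚ L] {A : ValuationSubring L} {k : Type*} [Field k]
  {π : A →+* k} {m q : ℕ} [NeZero m] [NeZero q] [hq : Fact q.Prime]
  [CharP k q] [IsAlgClosed k] [Infinite k] (w : H99.AL L m q)
  (hπ : Function.Surjective π)
  (hdeg : H42.DegLE L k m) (hqm : ¬ q ∣ m)
  [IsAlgClosed L] [CharZero L] [IsLocalHom π] (arch : Arch A)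
  (r : Place L (H99.FX L m) → Place k (modularFunctionFieldFullC k m)) {c : ℕ}
  (hr1 : ∀ D : Divisor L (H99.FX L m), (c : ℤ) < Divisor.degree D →
    (H42.modReductionData A π m hπ hdeg).IsRed D (Finsupp.mapDomain r D))
  (hr2 : H34.GR.DivCompat (H42.modReductionData A π m hπ hdeg) r)

/-- `lift_inf` for the sheets, literally the field of `H31.Eq.Equi`. -/
theorem sheets_lift_inf {G : Subgroup (L ≃ₐ[ℚ] L)} (hG : Triv π G)
    {P₀ : Place L (H99.FX L m)} (hP₀ : IsInf P₀) :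
    ∃ n₀ : ℤ, ∀ n : ℤ, n₀ < n → ∀ h : modularFunctionFieldFullC k m,
      h ∈ riemannRochSpace (Finsupp.single ((sheets w hπ hdeg hqm arch r hr1 hr2).r P₀) n :
        Divisor k (modularFunctionFieldFullC k m)) →
      ∃ b : H99.FX L m, MP.Fix (⊤ : Subgroup G) b ∧
        (sheets w hπ hdeg hqm arch r hr1 hr2).v₀ b ≤ 1 ∧
        b ∈ riemannRochSpace (Finsupp.single P₀ n : Divisor L (H99.FX L m)) ∧
        (sheets w hπ hdeg hqm arch r hr1 hr2).ρ₀ b = h :=
  lift_inf w hπ hdeg hqm arch hr1 hG hP₀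

/-- `scale` for the sheets, literally the field of `H31.Eq.Equi`. -/
theorem sheets_scale {G : Subgroup (L ≃ₐ[ℚ] L)} (H : Subgroup G) (f : H99.FX L (m * q))
    (hf : MP.Fix H f) (hf0 : f ≠ 0) :
    ∃ c : L, c ≠ 0 ∧ MP.Fix H c ∧ (sheets w hπ hdeg hqm arch r hr1 hr2).v false f =
      (sheets w hπ hdeg hqm arch r hr1 hr2).vK c :=
  scale w hπ hdeg hqm arch H f hf hf0

end Sheets

section Tors

variable {A : ValuationSubring (AlgebraicClosure ℚ)} {k : Type*} [Field k]
  {π : A →+* k} {m q : ℕ} [NeZero m] [NeZero q] [hq : Fact q.Prime]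
  [CharP k q] [IsAlgClosed k] [Infinite k] (w : H99.AL (AlgebraicClosure ℚ) m q)
  (hπ : Function.Surjective π)
  (hdeg : H42.DegLE (AlgebraicClosure ℚ) k m) (hqm : ¬ q ∣ m)
  [IsLocalHom π] (arch : Arch A)
  (r : Place (AlgebraicClosure ℚ) (H99.FX (AlgebraicClosure ℚ) m) →
    Place k (modularFunctionFieldFullC k m)) {c : ℕ}
  (hr1 : ∀ D : Divisor (AlgebraicClosure ℚ) (H99.FX (AlgebraicClosure ℚ) m),
    (c : ℤ) < Divisor.degree D →
    (H42.modReductionData A π m hπ hdeg).IsRed D (Finsupp.mapDomain r D))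
  (hr2 : H34.GR.DivCompat (H42.modReductionData A π m hπ hdeg) r)

/-- **`Tors`** -/
theorem sheets_tors (hA : A.LiesOverPrime q) :
    Eq.Equi.Tors (sheets w hπ hdeg hqm arch r hr1 hr2) := by
  intro a ha
  exact exists_pow_eq_zpow hA ha

end Tors

end Fermat.Agent.H89Eq
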