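import Fermat.Agent.H89Inst

/-!
# The kernel of the two reductions: `φ x + q w x = 0`
-/

set_option autoImplicit false
set_option linter.style.haveILetI false

noncomputable section

open AlgebraicCurve WithZero Fermat.Agent.H3RR Module

namespace Fermat.Agent.H89SS

section Dense

variable {k κ : Type*} [Field k] [Field κ] [Algebra k κ] [IsAlgClosed k] [IsFF k κ]

/-- every function is a quotient of functions with a pole only at `P` -/
theorem exists_mul_mem_L (P : Place k κ) (g : κ) : ∃ i₀ : ℕ, ∀ i ≥ i₀, ∃ b : κ, b ≠ 0 ∧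
    b ∈ riemannRochSpace (Finsupp.single P (i : ℤ) : Divisor k κ) ∧
    b * g ∈ riemannRochSpace (Finsupp.single P (i : ℤ) : Divisor k κ) := by
  classical
  rcases eq_or_ne g 0 with rfl | hg
  · refine ⟨0, fun i _ => ⟨1, one_ne_zero, fun v => ?_, ?_⟩⟩
    · rw [map_one, ← exp_zero, exp_le_exp]
      exact Finsupp.single_nonneg.mpr (Int.natCast_nonneg i) v
    · rw [mul_zero]
      exact Submodule.zero_mem _
  let N : Divisor k κ := (divOf g).mapRange (fun n => max (-n) 0) (by simp)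
  have hN : ∀ v, N v = max (-(v.ord g)) 0 := fun v => by
    rw [Finsupp.mapRange_apply, divOf_apply hg]
  refine ⟨(2 * (genusFF k κ : ℤ) + Divisor.degree N).toNat, fun i hi => ?_⟩
  have hdeg : 2 * (genusFF k κ : ℤ) ≤ Divisor.degree (Finsupp.single P (i : ℤ) - N) := by
    rw [map_sub, Divisor.degree_single, deg_eq_one]
    have h1 : (2 * (genusFF k κ : ℤ) + Divisor.degree N).toNat ≤ (i : ℤ) := by exact_mod_cast hi
    have h2 := Int.self_le_toNat (2 * (genusFF k κ : ℤ) + Divisor.degree N)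
    push_cast
    linarith
  obtain ⟨b, hb, hbP⟩ := exists_mem_L_eq hdeg P
  have hb0 : b ≠ 0 := by
    rintro rfl
    rw [map_zero] at hbP
    exact exp_ne_zero hbP.symm
  refine ⟨b, hb0, fun v => ?_, fun v => ?_⟩
  · have h1 := hb v
    refine h1.trans ?_
    rw [exp_le_exp, Finsupp.sub_apply, hN]
    have : 0 ≤ max (-(v.ord g)) 0 := le_max_right _ _
    linarith
  · have h1 := hb v
    rw [v.adicValuation_eq_exp_neg_ord hb0, exp_le_exp, Finsupp.sub_apply, hN] at h1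
    rw [v.adicValuation_eq_exp_neg_ord (mul_ne_zero hb0 hg), exp_le_exp, v.ord_mul hb0 hg]
    have : -(v.ord g) ≤ max (-(v.ord g)) 0 := le_max_left _ _
    linarith

end Dense

namespace TwoComp

variable {K F k κ : Type*} [Field K] [Field F] [Algebra K F] [Field k] [Field κ]
    [Algebra k κ] {A : ValuationSubring K} {π : A →+* k} {q : ℕ}
    [IsAlgClosed K] [IsFF K F] [IsAlgClosed k] [IsFF k κ]

omit [IsAlgClosed K] [IsFF K F] in
/-- The reduction `ρ₁` is surjective. -/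
theorem exists_ρ₁_eq (T : TwoComp K F k κ A π q) (g : κ) : ∃ (y : F) (h : y ∈ T.V₁),
    T.ρ₁ ⟨y, h⟩ = g := by
  obtain ⟨i₀, hi₀⟩ := T.lift
  obtain ⟨i₁, hi₁⟩ := exists_mul_mem_L T.P g
  obtain ⟨b, hb0, hb, hbg⟩ := hi₁ (max i₀ i₁) (le_max_right _ _)
  obtain ⟨x, hx, -, -, hxb, -⟩ := (hi₀ (max i₀ i₁) (le_max_left _ _) b hb).1
  obtain ⟨y, hy, -, -, hyb, -⟩ := (hi₀ (max i₀ i₁) (le_max_left _ _) _ hbg).1
  obtain ⟨h1, h2⟩ := mem_V₁_of_ρ hx (by rw [hxb]; exact hb0)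
  refine ⟨y * x⁻¹, T.V₁.mul_mem _ _ hy h1, ?_⟩
  have h3 : (⟨y * x⁻¹, T.V₁.mul_mem _ _ hy h1⟩ : T.V₁) = ⟨y, hy⟩ * ⟨x⁻¹, h1⟩ := rfl
  rw [h3, map_mul, h2, hyb, hxb, mul_comm b g, mul_assoc, mul_inv_cancel₀ hb0, mul_one]

omit [IsFF K F] in
/-- a function whose reduction is a `d`-th power is `≡ 1` modulo `d`-th powers -/
theorem exists_eq1 (T : TwoComp K F k κ A π q) {d : ℕ} (hd : d ≠ 0) {u : F}
    (h : ∃ (c : K) (_ : c ≠ 0) (h : algebraMap K F c * u ∈ T.V₁) (g : κ),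
      g ≠ 0 ∧ T.ρ₁ ⟨_, h⟩ = g ^ d) : ∃ y : F, y ≠ 0 ∧ T.Eq1 (u * y ^ d) := by
  obtain ⟨c, hc, hcu, g, hg, hρ⟩ := h
  obtain ⟨y, hy, hyg⟩ := T.exists_ρ₁_eq g⁻¹
  obtain ⟨r, hr⟩ := IsAlgClosed.exists_pow_nat_eq c (Nat.pos_of_ne_zero hd)
  have hr0 : r ≠ 0 := by
    rintro rfl
    rw [zero_pow hd] at hr
    exact hc hr.symm
  have hy0 : y ≠ 0 := by
    rintro rfl
    have : (⟨0, hy⟩ : T.V₁) = 0 := rfl
    rw [this, map_zero] at hyg
    exact inv_ne_zero hg hyg.symm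
  refine ⟨algebraMap K F r * y, mul_ne_zero ((map_ne_zero _).mpr hr0) hy0, ?_⟩
  have e : u * (algebraMap K F r * y) ^ d = (algebraMap K F c * u) * y ^ d := by
    rw [mul_pow, ← map_pow, hr]
    ring
  rw [e]
  refine ⟨T.V₁.mul_mem _ _ hcu (pow_mem hy d), ?_⟩
  have h5 : (⟨algebraMap K F c * u * y ^ d, T.V₁.mul_mem _ _ hcu (pow_mem hy d)⟩ : T.V₁) =
    ⟨_, hcu⟩ * ⟨y, hy⟩ ^ d := rfl
  rw [h5, map_mul, map_pow, hρ, hyg, ← mul_pow, mul_inv_cancel₀ hg, one_pow]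

/-- **The kernel statement.** If both reductions of the Kummer function of a `d`-torsion class are
`d`-th powers, then the class satisfies `φ x + q w x = 0`. -/
theorem frobenius_of_pow [IsLocalHom π] [CharZero K] [Fact q.Prime] [CharP k q]
    (T : TwoComp K F k κ A π q) (hπ : Function.Surjective π)
    (arch : ∀ a b : A, π a = 0 → b ≠ 0 → ∃ n, b ∣ a ^ n)
    {d : ℕ} (hd : (d : k) ≠ 0) {w : F ≃ₐ[K] F} (hw : T.Swap w) {φ : SemilinearAut K F}
    (hφ : T.Compat φ T.fr) {E₀ : Divisor.degZero (K := K) (F := F)} {u : F} (hu : u ≠ 0)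
    (hord : ∀ v : Place K F, v.ord u = d * (E₀ : Divisor K F) v)
    (h₁ : ∃ (c : K) (_ : c ≠ 0) (h : algebraMap K F c * u ∈ T.V₁) (g : κ),
      g ≠ 0 ∧ T.ρ₁ ⟨_, h⟩ = g ^ d)
    (h₂ : ∃ (c : K) (_ : c ≠ 0) (h : algebraMap K F c * w u ∈ T.V₁) (g : κ),
      g ≠ 0 ∧ T.ρ₁ ⟨_, h⟩ = g ^ d) :
    φ • Pic0.mk E₀ + q • (SemilinearAut.ofAlgAut w • Pic0.mk E₀) = 0 := by
  have hqp : q.Prime := Fact.out
  have hq : 2 ≤ q := hqp.two_le
  have hd0 : d ≠ 0 := by
    rintro rfl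
    simp at hd
  obtain ⟨y₁, hy₁, heq₁⟩ := T.exists_eq1 hd0 h₁
  obtain ⟨y₂, hy₂, heq₂⟩ := T.exists_eq1 hd0 h₂
  have heq₂' : T.Eq2 (u * (w y₂) ^ d) := by
    obtain ⟨h, h'⟩ := heq₂
    have e : w (w u * y₂ ^ d) = u * (w y₂) ^ d := by
      rw [map_mul, map_pow, hw.invol]
    have hm : u * (w y₂) ^ d ∈ T.V₂ := by
      rw [← e]
      exact hw.mem _ h
    refine ⟨hm, ?_⟩
    have e2 : (⟨u * (w y₂) ^ d, hm⟩ : T.V₂) = ⟨w (w u * y₂ ^ d), hw.mem _ h⟩ :=
      Subtype.ext e.symm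
    rw [e2, hw.ρ _ h, h']
  obtain ⟨E, f, hE, hEE₀⟩ := T.exists_unitPair hπ hq arch
    (Divisor.mem_degZero.mp E₀.2) hu hord hy₁ ((map_ne_zero w).mpr hy₂) heq₁ heq₂'
  have hprin := hE.frobenius hπ arch hd hw hφ
  have hmk : Pic0.mk E₀ = Pic0.mk ⟨E, hE.degree⟩ := by
    rw [eq_comm, mk_eq_mk]
    exact hEE₀
  rw [hmk, SemilinearAut.pic0_smul_mk, SemilinearAut.pic0_smul_mk]
  have h3 : Pic0.mk (SemilinearAut.degZeroSMulHom φ ⟨E, hE.degree⟩) +
      q • Pic0.mk (SemilinearAut.degZeroSMulHom (SemilinearAut.ofAlgAut w) ⟨E, hE.degree⟩) =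
      Pic0.mk (SemilinearAut.degZeroSMulHom φ ⟨E, hE.degree⟩ +
        q • SemilinearAut.degZeroSMulHom (SemilinearAut.ofAlgAut w) ⟨E, hE.degree⟩) := rfl
  rw [h3, mk_eq_zero]
  exact hprin

end TwoComp

end Fermat.Agent.H89SS

namespace Fermat.Agent.H89J

open ModularCurve IntermediateField HahnSeries Fermat.Agent.H60
  Fermat.Agent.H34.Two Fermat.Agent.H67 Fermat.Agent.H89HU Fermat.Agent.H89SS

local notation "Qb" => AlgebraicClosure ℚ
local notation "GQ" => AlgebraicClosure ℚ ≃ₐ[ℚ] AlgebraicClosure ℚ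

variable {m q : ℕ} [NeZero m] [NeZero q] [NeZero (m * q)]

/-- The Gauss reduction of a constant multiple of `u` is a `d`-th power in the function field of
the special fibre of `X₀(m)`. -/
def RedPow (m q : ℕ) [NeZero m] [NeZero q] [NeZero (m * q)] (A : ValuationSubring Qb) {k : Type*}
    [Field k] (π : A →+* k) (d : ℕ) (u : FF Qb (m * q)) : Prop :=
  ∃ (c : Qb) (_ : c ≠ 0) (h : ((algebraMap Qb (FF Qb (m * q)) c * u : FF Qb (m * q)) :
      LaurentSeries Qb) ∈ locL A π) (g : modularFunctionFieldFullC k m),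
    g ≠ 0 ∧ resL A π ⟨_, h⟩ = (g : LaurentSeries k) ^ d

section Generic

variable {A : ValuationSubring (AlgebraicClosure ℚ)} {k : Type*} [Field k] {π : A →+* k}

theorem ModTwo.redPow (D : ModTwo m q A k π) {d : ℕ} {u : FF Qb (m * q)}
    (h : RedPow m q A π d u) : ∃ (c : Qb) (_ : c ≠ 0)
      (h : algebraMap Qb (FF Qb (m * q)) c * u ∈ D.T.V₁) (g : modularFunctionFieldFullC k m),
      g ≠ 0 ∧ D.T.ρ₁ ⟨_, h⟩ = g ^ d := by
  obtain ⟨c, hc, hcu, g, hg, hgd⟩ := h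
  refine ⟨c, hc, (D.V₁_mem _).mpr hcu, g, hg, ?_⟩
  apply Subtype.ext
  rw [D.ρ₁_eq, hgd]
  rfl

theorem ker_aux [Fact q.Prime] [CharP k q] [IsAlgClosed k] [IsLocalHom π]
    (hπ : Function.Surjective π) (arch : ∀ a b : A, π a = 0 → b ≠ 0 → ∃ n, b ∣ a ^ n)
    (hFF : H94.FunField k (modularFunctionFieldFullC k m)) (D : ModTwo m q A k π)
    {d : ℕ} (hd : (d : k) ≠ 0) {σ : GQ} (hσ : A.IsFrobeniusAt σ q)
    {W : FF Qb (m * q) ≃ₐ[Qb] FF Qb (m * q)} (hW : IsAL m q W) (hinv : ∀ f, W (W f) = f)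
    {E₀ : Divisor.degZero (K := Qb) (F := FF Qb (m * q))} {u : FF Qb (m * q)} (hu : u ≠ 0)
    (hord : ∀ v : Place Qb (FF Qb (m * q)), v.ord u = d * (E₀ : Divisor Qb (FF Qb (m * q))) v)
    (h₁ : RedPow m q A π d u) (h₂ : RedPow m q A π d (W u)) :
    arithmeticGalois (modularFunctionFieldFull (m * q)) σ • Pic0.mk E₀ +
      q • (pushP W.toAlgHom (Pic0.mk E₀)) = 0 := by
  haveI := hFF
  rw [pushP_eq_smul hinv]
  exact D.T.frobenius_of_pow hπ arch hd (D.swap W hW) (D.frobenius σ hσ) hu hord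
    (D.redPow h₁) (D.redPow h₂)

end Generic

/-- **The kernel statement of Mazur's principle** (`q ∤ m`, `q ∤ d`): if the Gauss reductions of
the Kummer function `u` of `x = [E₀]` and of `w_q u` are `d`-th powers up to constants, then
`φ x + q w x = 0`. -/
theorem frobenius_ker (hq : q.Prime) (hqm : ¬ q ∣ m) (hc : m.Coprime q)
    {A : ValuationSubring (AlgebraicClosure ℚ)} (hA : A.LiesOverPrime q) {σ : GQ}
    (hσ : A.IsFrobeniusAt σ q) {d : ℕ} (hd : ¬ q ∣ d)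
    {E₀ : Divisor.degZero (K := Qb) (F := FF Qb (m * q))} {u : FF Qb (m * q)} (hu : u ≠ 0)
    (hord : ∀ v : Place Qb (FF Qb (m * q)), v.ord u = d * (E₀ : Divisor Qb (FF Qb (m * q))) v)
    {x : JZero (m * q)} (hx : Pic0.mk E₀ = x)
    (h₁ : RedPow m q A (IsLocalRing.residue A) d u)
    (h₂ : RedPow m q A (IsLocalRing.residue A) d (atkin (L := Qb) embQbar m q rfl hc u)) :
    σ • x + q • wJ m q rfl hc x = 0 := by
  subst hx
  obtain ⟨D⟩ := nonempty_modTwo hq hqm A hA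
  haveI : Fact q.Prime := ⟨hq⟩
  haveI : CharP (IsLocalRing.ResidueField A) q := H05.charP_residueField hq hA
  haveI : IsAlgClosed (IsLocalRing.ResidueField A) := H18.isAlgClosed_residueField A
  have hW : IsAL m q (atkin (L := Qb) embQbar m q rfl hc) := isAL_atkin embQbar m q rfl hc
  exact ker_aux IsLocalRing.residue_surjective (H89Arch.arch' hq hA)
    (H42.funField_res hq hA hqm) D
    (by rw [Ne, CharP.cast_eq_zero_iff (IsLocalRing.ResidueField A) q]; exact hd) hσ hW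
    (hW.involutive rfl hc) hu hord h₁ h₂

end Fermat.Agent.H89J
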