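import Fermat.Agent.H35Geo0
import Fermat.Agent.H89Ker
import Fermat.Agent.H33Final

/-!
# The kernel relation of Mazur's principle in the language of `H35Geo0`
-/

set_option autoImplicit false
set_option linter.unusedSectionVars false
set_option linter.style.haveILetI false

noncomputable section

open AlgebraicCurve ModularCurve IntermediateField HahnSeries
open Fermat.Agent.H67 Fermat.Agent.H34.Two Fermat.Agent.H89J Fermat.Agent.H35.Geo

namespace Fermat.Agent.H89Ker2

local notation "Qb" => AlgebraicClosure ℚ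
local notation "GQ" => AlgebraicClosure ℚ ≃ₐ[ℚ] AlgebraicClosure ℚ

section Generic

variable {A : ValuationSubring Qb} {k : Type} [Field k] {π : A →+* k}

theorem hasG_pow {f : LaurentSeries Qb} {a : Qb} {r : LaurentSeries k} (h : H97.HasG π f a r)
    (n : ℕ) : H97.HasG π (f ^ n) (a ^ n) (r ^ n) := by
  induction n with
  | zero => simpa using H97.HasG.one
  | succ n ih => rw [pow_succ, pow_succ, pow_succ]; exact ih.mul h

/-- `HasG` gives `RedPow`. -/
theorem redPow_of_hasG {m q : ℕ} [NeZero m] [NeZero q] [NeZero (m * q)] {d : ℕ} (hd : d ≠ 0)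
    {u : FB Qb (m * q)} {c : Qb} (hc : c ≠ 0) {r : LaurentSeries k}
    (h : H97.HasG π (u : LaurentSeries Qb) c r) {g : modularFunctionFieldFullC k m}
    (hg : r = (g : LaurentSeries k) ^ d) : RedPow m q A π d u := by
  have hr := h.ne_zero
  obtain ⟨y, z, hy, hz, h1, h2⟩ := h
  have hmul : ((algebraMap Qb (FB Qb (m * q)) c⁻¹ * u : FB Qb (m * q)) : LaurentSeries Qb) *
      coeffMap A.subtype z = coeffMap A.subtype y := by
    have e : ((algebraMap Qb (FB Qb (m * q)) c⁻¹ * u : FB Qb (m * q)) : LaurentSeries Qb) =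
      algebraMap Qb (LaurentSeries Qb) c⁻¹ * u := rfl
    rw [e, mul_assoc, h1, ← mul_assoc, ← map_mul, inv_mul_cancel₀ hc, map_one, one_mul]
  have hm : ((algebraMap Qb (FB Qb (m * q)) c⁻¹ * u : FB Qb (m * q)) : LaurentSeries Qb) ∈
      locL A π := (mem_locL_iff A π).mpr ⟨y, z, hz, hmul⟩
  refine ⟨c⁻¹, inv_ne_zero hc, hm, g, ?_, ?_⟩
  · rintro rfl
    apply hr
    rw [hg]
    exact zero_pow hd
  · have h3 := resL_mul_eq A π hm hz hmul
    rw [← hg]
    exact mul_right_cancel₀ hz (h3.trans h2.symm)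

theorem pow_of_smul [IsAlgClosed k] {M d : ℕ} (hd : d ≠ 0)
    {R c₁ h' : modularFunctionFieldFullC k M} (hc₁ : c₁ ≠ 0) {e : k}
    (he : ((R * c₁ ^ d : modularFunctionFieldFullC k M) : LaurentSeries k) =
      algebraMap k (LaurentSeries k) e * (h' : LaurentSeries k) ^ d) :
    ∃ g : modularFunctionFieldFullC k M, R = g ^ d := by
  obtain ⟨ε, hε⟩ := IsAlgClosed.exists_pow_nat_eq e (Nat.pos_of_ne_zero hd)
  have he' : R * c₁ ^ d = (algebraMap k (modularFunctionFieldFullC k M) ε * h') ^ d := by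
    apply Subtype.ext
    rw [he, ← hε, map_pow, ← mul_pow]
    rfl
  refine ⟨algebraMap k (modularFunctionFieldFullC k M) ε * h' / c₁, ?_⟩
  rw [div_pow, ← he', mul_div_assoc, div_self (pow_ne_zero d hc₁), mul_one]

end Generic

section Main

variable {A : ValuationSubring Qb}

local notation "kA" => IsLocalRing.ResidueField A
local notation "πA" => IsLocalRing.residue A

/-- Every function of level `M` has a reduction in the function field of level `M`. -/
theorem exists_red_full {M q : ℕ} [NeZero M] (hq : q.Prime) (hqM : ¬ q ∣ M)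
    (hA : A.LiesOverPrime q) {f : FB Qb M} (hf : f ≠ 0) :
    ∃ r : modularFunctionFieldFullC kA M,
      H33.Red A πA (f : LaurentSeries Qb) (r : LaurentSeries kA) := by
  have : Fact q.Prime := ⟨hq⟩
  have : NeZero q := ⟨hq.ne_zero⟩
  have hk : IsAlgClosed kA := H18.isAlgClosed_residueField A
  have hch : CharP kA q := H60.charP_residue hq hA
  have hi : Infinite kA := IsAlgClosed.instInfinite
  have hcop : M.Coprime q := ((Nat.Prime.coprime_iff_not_dvd hq).mpr hqM).symm
  obtain ⟨w⟩ := H99.nonempty_AL (L := Qb) embQbar hcop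
  have hπ := IsLocalRing.residue_surjective (R := A)
  have hf0 : (f : LaurentSeries Qb) ≠ 0 := fun h => hf (Subtype.ext h)
  have hfm : (f : LaurentSeries Qb) ∈ modularFunctionFieldFullC Qb M := by
    rw [← H42.laurentBaseChange_full]
    exact f.2
  obtain ⟨ω, hω⟩ := H33.exists_red hπ M hfm hf0
  obtain ⟨hω0, c₀, hc₀, hm, hms⟩ := id hω
  have hfX : (f : LaurentSeries Qb) ∈ H99.FX Qb (M * q) := by
    have h4 := (heckeAlphaBar Qb M q f).2
    rwa [coe_heckeAlphaBar] at h4
  set F₀ : H99.FX Qb (M * q) := algebraMap Qb (H99.FX Qb (M * q)) c₀ * ⟨f, hfX⟩ with hF₀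
  have hF₀L : (F₀ : LaurentSeries Qb) = H33.cst c₀ * f := H33.coe_const_mul _ _
  have hF₀V : (F₀ : LaurentSeries Qb) ∈ H33.valRing A πA := by
    rw [hF₀L]; exact hm
  have hF₀r : (H34.Two.gC A πA (M * q)).red F₀ = ω := by
    rw [H33.red_gC_eq hF₀V, ← hms]
    congr 1
  have h1 := (H34.Two.red_mem_full w hπ (H42.degreeFact Qb)
    (H18.degLE_of_not_dvd M hqM A hA) hqM F₀).1
  rw [hF₀r] at h1
  exact ⟨⟨ω, h1⟩, hω⟩

/-- If the lift of `r' ^ c` has trivial class then `r' ^ c` is a `d`-th power. -/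
theorem pow_of_red {M q : ℕ} [NeZero M] (hq : q.Prime) (hqM : ¬ q ∣ M)
    (hA : A.LiesOverPrime q) {d : ℕ} (hd : d ≠ 0) {g₀ : FB Qb M} (hg₀ : Cls d M g₀ 0)
    {R c₁ : modularFunctionFieldFullC kA M}
    (hred : H33.Red A πA (g₀ : LaurentSeries Qb)
      ((R * c₁ ^ d : modularFunctionFieldFullC kA M) : LaurentSeries kA)) :
    ∃ g : modularFunctionFieldFullC kA M, R = g ^ d := by
  have hk : IsAlgClosed kA := H18.isAlgClosed_residueField A
  have hπ := IsLocalRing.residue_surjective (R := A)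
  have hg₀0 : g₀ ≠ 0 := fun h => hred.ne_zero (by rw [h]; rfl)
  obtain ⟨h, hh0, hgh⟩ := hg₀.exists_root hd hg₀0
  obtain ⟨h', hh'⟩ := exists_red_full hq hqM hA hh0
  have h1 : H33.Red A πA (g₀ : LaurentSeries Qb) ((h' : LaurentSeries kA) ^ d) := by
    have := hh'.pow d
    have e : (g₀ : LaurentSeries Qb) = (h : LaurentSeries Qb) ^ d := by
      rw [hgh]; rfl
    rw [e]
    exact this
  obtain ⟨e, he0, he⟩ := h1.unique hπ hred
  have hc₁ : c₁ ≠ 0 := by
    rintro rfl
    apply hred.res_ne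
    rw [zero_pow hd, mul_zero]
    rfl
  exact pow_of_smul hd hc₁ he

/-- **The kernel relation**: if the classes attached to both reductions of `u ^ c` vanish then
`φ (c x) + q w (c x) = 0`. -/
theorem ker_rel {M q : ℕ} [NeZero M] [NeZero q] [NeZero (M * q)] (hq : q.Prime)
    (hqM : ¬ q ∣ M) (hc : M.Coprime q) (hA : A.LiesOverPrime q) {σ : GQ}
    (hσ : A.IsFrobeniusAt σ q) {d : ℕ} (hd : ¬ q ∣ d) (c : ℕ) {x : JZero (M * q)}
    {u : FB Qb (M * q)} (hu : u ≠ 0) (hx : Cls d (M * q) u x) {a b : Qb} (ha : a ≠ 0)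
    (hb : b ≠ 0) {r s : LaurentSeries kA} (hr : H97.HasG πA (u : LaurentSeries Qb) a r)
    (hs : H97.HasG πA ((atkin (L := Qb) embQbar M q rfl hc u : FB Qb (M * q)) :
      LaurentSeries Qb) b s)
    {r' s' : modularFunctionFieldFullC kA M} (hr' : (r' : LaurentSeries kA) = r)
    (hs' : (s' : LaurentSeries kA) = s) {g₁ g₂ : FB Qb M}
    {c₁ c₂ : modularFunctionFieldFullC kA M}
    (h₁ : H33.Red A πA (g₁ : LaurentSeries Qb)
      ((r' ^ c * c₁ ^ d : modularFunctionFieldFullC kA M) : LaurentSeries kA))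
    (h₂ : H33.Red A πA (g₂ : LaurentSeries Qb)
      ((s' ^ c * c₂ ^ d : modularFunctionFieldFullC kA M) : LaurentSeries kA))
    (hy₁ : Cls d M g₁ 0) (hy₂ : Cls d M g₂ 0) :
    σ • (c • x) + q • wJ M q rfl hc (c • x) = 0 := by
  have hd0 : d ≠ 0 := by
    rintro rfl
    exact hd (dvd_zero q)
  obtain ⟨G₁, hG₁⟩ := pow_of_red hq hqM hA hd0 hy₁ h₁
  obtain ⟨G₂, hG₂⟩ := pow_of_red hq hqM hA hd0 hy₂ h₂
  obtain ⟨D, hD, hDu⟩ := hx.pow hu c
  refine frobenius_ker hq hqM hc hA hσ hd (u := u ^ c) (pow_ne_zero c hu) hDu hD ?_ ?_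
  · refine redPow_of_hasG hd0 (pow_ne_zero c ha) (r := r ^ c) (g := G₁) ?_ ?_
    · exact hasG_pow hr c
    · rw [← hr']
      exact congrArg Subtype.val hG₁
  · rw [map_pow]
    refine redPow_of_hasG hd0 (pow_ne_zero c hb) (r := s ^ c) (g := G₂) ?_ ?_
    · exact hasG_pow hs c
    · rw [← hs']
      exact congrArg Subtype.val hG₂

end Main

end Fermat.Agent.H89Ker2
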