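import Mathlib

set_option autoImplicit false

/-!
# Relative dimension calculus of submodules (values in `ℕ∞`)
-/

noncomputable section

namespace Fermat.Agent.H89

section QD

variable {K M : Type*} [Field K] [AddCommGroup M] [Module K M]

/-- relative dimension of `V` over `U` (meaningful when `U ≤ V`). -/
def qd (U V : Submodule K M) : ℕ∞ := Module.length K (V ⧸ U.comap V.subtype)

theorem qd_add {U V W : Submodule K M} (h1 : U ≤ V) (h2 : V ≤ W) :
    qd U W = qd U V + qd V W := by
  let f : (V ⧸ U.comap V.subtype) →ₗ[K] (W ⧸ U.comap W.subtype) :=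
    Submodule.mapQ _ _ (Submodule.inclusion h2) (by
      intro x hx
      simpa using hx)
  let g : (W ⧸ U.comap W.subtype) →ₗ[K] (W ⧸ V.comap W.subtype) :=
    Submodule.mapQ _ _ LinearMap.id (by
      intro x hx
      simp only [Submodule.mem_comap, Submodule.subtype_apply, LinearMap.id_coe, id_eq] at hx ⊢
      exact h1 hx)
  have hf : Function.Injective f := by
    rw [← LinearMap.ker_eq_bot, LinearMap.ker_eq_bot']
    intro x hx
    obtain ⟨y, rfl⟩ := Submodule.mkQ_surjective _ x
    simp only [f, Submodule.mkQ_apply, Submodule.mapQ_apply, Submodule.Quotient.mk_eq_zero,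
      Submodule.mem_comap, Submodule.subtype_apply, Submodule.coe_inclusion] at hx ⊢
    exact hx
  have hg : Function.Surjective g := by
    intro x
    obtain ⟨y, rfl⟩ := Submodule.mkQ_surjective _ x
    exact ⟨Submodule.Quotient.mk y, by simp [g]⟩
  have hfg : Function.Exact f g := by
    intro x
    obtain ⟨y, rfl⟩ := Submodule.mkQ_surjective _ x
    constructor
    · intro hx
      simp only [g, Submodule.mkQ_apply, Submodule.mapQ_apply, LinearMap.id_coe, id_eq,
        Submodule.Quotient.mk_eq_zero, Submodule.mem_comap, Submodule.subtype_apply] at hx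
      exact ⟨Submodule.Quotient.mk ⟨y, hx⟩, by
        simp only [f, Submodule.mkQ_apply, Submodule.mapQ_apply]; rfl⟩
    · rintro ⟨z, hz⟩
      obtain ⟨z, rfl⟩ := Submodule.mkQ_surjective _ z
      rw [← hz]
      simp only [f, g, Submodule.mkQ_apply, Submodule.mapQ_apply, LinearMap.id_coe, id_eq,
        Submodule.Quotient.mk_eq_zero, Submodule.mem_comap, Submodule.subtype_apply,
        Submodule.coe_inclusion]
      exact z.2
  exact Module.length_eq_add_of_exact f g hf hg hfg

theorem qd_inf_sup (U V : Submodule K M) : qd (V ⊓ U) V = qd U (V ⊔ U) :=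
  (LinearMap.quotientInfEquivSupQuotient V U).length_eq

theorem qd_self (U : Submodule K M) : qd U U = 0 := by
  rw [qd, Module.length_eq_zero_iff, Submodule.Quotient.subsingleton_iff]
  simp

theorem qd_eq_zero_iff {U V : Submodule K M} : qd U V = 0 ↔ V ≤ U := by
  rw [qd, Module.length_eq_zero_iff, Submodule.Quotient.subsingleton_iff]
  constructor
  · intro h x hx
    have : (⟨x, hx⟩ : V) ∈ U.comap V.subtype := by rw [h]; trivial
    simpa using this
  · intro h
    rw [eq_top_iff]
    intro x _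
    exact h x.2

theorem qd_top (U : Submodule K M) : qd U ⊤ = Module.length K (M ⧸ U) := by
  refine LinearEquiv.length_eq (Submodule.Quotient.equiv _ _ Submodule.topEquiv ?_)
  ext x
  simp only [Submodule.mem_map, Submodule.mem_comap, Submodule.subtype_apply]
  constructor
  · rintro ⟨y, hy, rfl⟩
    exact hy
  · intro hx
    exact ⟨⟨x, trivial⟩, hx, rfl⟩

theorem qd_bot (V : Submodule K M) : qd ⊥ V = Module.length K V := by
  have h : (⊥ : Submodule K M).comap V.subtype = ⊥ := by
    simp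
  rw [qd, h]
  exact LinearEquiv.length_eq (Submodule.quotEquivOfEqBot _ rfl)

/-- the fundamental identity: for `A ≤ A'` and any `P`. -/
theorem qd_inf_add_qd_sup {A A' : Submodule K M} (P : Submodule K M) (h : A ≤ A') :
    qd A A' = qd (A ⊓ P) (A' ⊓ P) + qd (A ⊔ P) (A' ⊔ P) := by
  have hmod : A ⊔ (A' ⊓ P) = A' ⊓ (A ⊔ P) := by
    rw [inf_comm, inf_comm A', sup_inf_assoc_of_le P h]
  have h1 : qd A A' = qd A (A ⊔ (A' ⊓ P)) + qd (A ⊔ (A' ⊓ P)) A' :=
    qd_add le_sup_left (sup_le h inf_le_left)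
  have h2 : qd A (A ⊔ (A' ⊓ P)) = qd (A ⊓ P) (A' ⊓ P) := by
    have := qd_inf_sup A (A' ⊓ P)
    rw [sup_comm] at this
    rw [← this]
    congr 1
    rw [inf_comm, ← inf_assoc, inf_eq_left.mpr h]
  have h3 : qd (A ⊔ (A' ⊓ P)) A' = qd (A ⊔ P) (A' ⊔ P) := by
    have := qd_inf_sup (A ⊔ P) A'
    rw [hmod, this]
    congr 1
    rw [← sup_assoc, sup_eq_left.mpr h]
  rw [h1, h2, h3]

/-- Euler characteristic bookkeeping: for `A ≤ A'` and any `P`:
`dim (A' ⊓ P) + dim M/(A ⊔ P) = dim (A ⊓ P) + dim M/(A' ⊔ P) + dim (A'/A)`. -/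
theorem length_inf_add_length_quotient_sup {A A' : Submodule K M} (P : Submodule K M)
    (h : A ≤ A') :
    Module.length K ↥(A' ⊓ P) + Module.length K (M ⧸ (A ⊔ P)) =
      Module.length K ↥(A ⊓ P) + Module.length K (M ⧸ (A' ⊔ P)) + qd A A' := by
  have h1 : Module.length K ↥(A' ⊓ P) = Module.length K ↥(A ⊓ P) + qd (A ⊓ P) (A' ⊓ P) := by
    rw [← qd_bot, ← qd_bot, qd_add (U := ⊥) (V := A ⊓ P) bot_le (inf_le_inf_right P h)]
  have h2 : Module.length K (M ⧸ (A ⊔ P)) =
      qd (A ⊔ P) (A' ⊔ P) + Module.length K (M ⧸ (A' ⊔ P)) := by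
    rw [← qd_top, ← qd_top, qd_add (U := A ⊔ P) (V := A' ⊔ P) (sup_le_sup_right h P) le_top]
  rw [h1, h2, qd_inf_add_qd_sup P h]
  ac_rfl

end QD

end Fermat.Agent.H89
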