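import Mathlib
import Fermat.Prelude.Def_AlgebraicCurve_Repartitions
import Fermat.Agent.H89RR1

set_option autoImplicit false

/-!
# Riemann-Roch, part 2: local computations
-/

noncomputable section

open WithZero IsLocalRing AlgebraicCurve

namespace Fermat.Agent.H89

variable {K F : Type*} [Field K] [Field F] [Algebra K F]

section LocalPlace

variable (v : Place K F)

/-- a uniformizer in F at a place -/
theorem exists_ord_eq_one : ∃ t : F, t ≠ 0 ∧ v.ord t = 1 := by
  obtain ⟨π, hπ⟩ := IsDiscreteValuationRing.exists_irreducible v.toValuationSubring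
  refine ⟨(π : F), ?_, v.ord_coe_irreducible hπ⟩
  simpa [ne_eq, ZeroMemClass.coe_eq_zero] using hπ.ne_zero

/-- A chosen uniformizer. -/
def unif : F := (exists_ord_eq_one v).choose

theorem unif_ne_zero : unif v ≠ 0 := (exists_ord_eq_one v).choose_spec.1

@[simp] theorem ord_unif : v.ord (unif v) = 1 := (exists_ord_eq_one v).choose_spec.2

theorem mem_toValuationSubring_iff (f : F) :
    f ∈ v.toValuationSubring ↔ v.adicValuation f ≤ 1 := by
  constructor
  · exact v.adicValuation_le_one_of_mem
  · intro h
    by_contra hf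
    have hf0 : f ≠ 0 := fun h0 => hf (h0 ▸ v.toValuationSubring.zero_mem)
    have hinv : f⁻¹ ∈ v.toValuationSubring := (v.toValuationSubring.mem_or_inv_mem f).resolve_left hf
    have h1 : v.adicValuation f⁻¹ ≤ 1 := v.adicValuation_le_one_of_mem hinv
    have h2 : v.adicValuation f⁻¹ = 1 := by
      apply le_antisymm h1
      rw [map_inv₀]
      rw [one_le_inv₀ (by
        rw [zero_lt_iff]; exact v.adicValuation_ne_zero hf0)]
      exact h
    have h3 : IsUnit (⟨f⁻¹, hinv⟩ : v.toValuationSubring) :=
      (v.adicValuation_coe_eq_one_iff ⟨f⁻¹, hinv⟩).mp h2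
    obtain ⟨u, hu⟩ := h3
    apply hf
    have h4 : ((u⁻¹ : v.toValuationSubringˣ) : v.toValuationSubring) * ⟨f⁻¹, hinv⟩ = 1 := by
      rw [← hu]; exact u.inv_mul
    have h5 : (((u⁻¹ : v.toValuationSubringˣ) : v.toValuationSubring) : F) * f⁻¹ = 1 := by
      have := congrArg (Subtype.val) h4
      simpa using this
    have h6 : (((u⁻¹ : v.toValuationSubringˣ) : v.toValuationSubring) : F) = f := by
      field_simp at h5
      exact h5
    rw [← h6]
    exact SetLike.coe_mem _

theorem mem_toValuationSubring_iff_ord (f : F) :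
    f ∈ v.toValuationSubring ↔ f = 0 ∨ 0 ≤ v.ord f := by
  rw [mem_toValuationSubring_iff, v.adicValuation_le_one_iff]

theorem residue_eq_zero_iff_ord (a : v.toValuationSubring) :
    residue v.toValuationSubring a = 0 ↔ (a : F) = 0 ∨ 1 ≤ v.ord (a : F) := by
  rw [IsLocalRing.residue_eq_zero_iff, IsLocalRing.mem_maximalIdeal, mem_nonunits_iff,
    ← v.adicValuation_coe_eq_one_iff]
  have hle : v.adicValuation (a : F) ≤ 1 := v.adicValuation_le_one_of_mem a.2
  rcases eq_or_ne (a : F) 0 with h | h
  · simp [h]
  · rw [v.adicValuation_eq_exp_neg_ord h] at hle ⊢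
    rw [← exp_zero, exp_le_exp] at hle
    rw [← exp_zero, exp_inj]
    constructor
    · intro h'
      right
      omega
    · rintro (h' | h')
      · exact absurd h' h
      · omega

/-- the ball `{f : v(f) ≤ exp n}`. -/
def ball (n : ℤ) : Submodule K F where
  carrier := {f | v.adicValuation f ≤ exp n}
  zero_mem' := by simp
  add_mem' := by
    intro f g hf hg
    have hf' : v.adicValuation f ≤ exp n := hf
    have hg' : v.adicValuation g ≤ exp n := hg
    exact (Valuation.map_add _ _ _).trans (max_le hf' hg')
  smul_mem' := by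
    intro c f hf
    have hf' : v.adicValuation f ≤ exp n := hf
    show v.adicValuation (c • f) ≤ exp n
    rw [Algebra.smul_def, map_mul]
    exact (mul_le_of_le_one_left' (v.adicValuation_algebraMap_le_one c)).trans hf'

theorem mem_ball {n : ℤ} {f : F} : f ∈ ball v n ↔ v.adicValuation f ≤ exp n := Iff.rfl

theorem mem_ball_iff {n : ℤ} {f : F} : f ∈ ball v n ↔ f = 0 ∨ -n ≤ v.ord f :=
  v.adicValuation_le_exp_iff

theorem mul_zpow_mem {n : ℤ} {f : F} (hf : f ∈ ball v n) :
    f * unif v ^ n ∈ v.toValuationSubring := by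
  rw [mem_toValuationSubring_iff_ord]
  rcases eq_or_ne f 0 with h | h
  · left; simp [h]
  · right
    rw [v.ord_mul h (zpow_ne_zero _ (unif_ne_zero v)), v.ord_zpow, ord_unif]
    rcases (mem_ball_iff v).mp hf with h' | h'
    · exact absurd h' h
    · omega

/-- leading coefficient map on the ball. -/
def leadBall (n : ℤ) : ball v n →ₗ[K] v.ResidueField where
  toFun f := residue v.toValuationSubring ⟨(f : F) * unif v ^ n, mul_zpow_mem v f.2⟩
  map_add' f g := by
    rw [← map_add]
    congr 1
    ext
    simp [add_mul]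
  map_smul' c f := by
    rw [RingHom.id_apply, Algebra.smul_def, IsScalarTower.algebraMap_apply K v.toValuationSubring
      v.ResidueField, IsLocalRing.ResidueField.algebraMap_eq, ← map_mul]
    congr 1
    ext
    simp [Algebra.smul_def, mul_assoc]

theorem leadBall_apply (n : ℤ) (f : ball v n) :
    leadBall v n f = residue v.toValuationSubring ⟨(f : F) * unif v ^ n, mul_zpow_mem v f.2⟩ := rfl

theorem leadBall_eq_zero_iff {n : ℤ} (f : ball v (n + 1)) :
    leadBall v (n + 1) f = 0 ↔ (f : F) ∈ ball v n := by
  rw [leadBall_apply, residue_eq_zero_iff_ord, mem_ball_iff]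
  have ht : unif v ^ (n + 1) ≠ 0 := zpow_ne_zero _ (unif_ne_zero v)
  rcases eq_or_ne (f : F) 0 with h | h
  · simp [h]
  · simp only [mul_eq_zero, h, ht, or_self, false_or]
    rw [v.ord_mul h ht, v.ord_zpow, ord_unif]
    constructor <;> intro h' <;> omega

theorem leadBall_surjective (n : ℤ) : Function.Surjective (leadBall v n) := by
  intro c
  obtain ⟨a, rfl⟩ := IsLocalRing.residue_surjective c
  have ht : unif v ^ n ≠ 0 := zpow_ne_zero _ (unif_ne_zero v)
  have hmem : (a : F) * (unif v ^ n)⁻¹ ∈ ball v n := by
    rw [mem_ball_iff]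
    rcases eq_or_ne (a : F) 0 with h | h
    · left; simp [h]
    · right
      rw [v.ord_mul h (inv_ne_zero ht), v.ord_inv, v.ord_zpow, ord_unif]
      have := (mem_toValuationSubring_iff_ord v (a : F)).mp a.2
      rcases this with h' | h'
      · exact absurd h' h
      · omega
  refine ⟨⟨_, hmem⟩, ?_⟩
  rw [leadBall_apply]
  congr 1
  ext
  simp [ht]

end LocalPlace

section Repart

variable (D : Divisor K F) (v : Place K F)

theorem repartitionsOf_le_add_single :
    repartitionsOf D ≤ repartitionsOf (D + Finsupp.single v 1) :=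
  repartitionsOf_mono (by
    intro w
    simp only [Finsupp.coe_add, Pi.add_apply]
    by_cases h : w = v
    · subst h; simp
    · rw [Finsupp.single_eq_of_ne h]; simp)

/-- evaluation at `v` of a repartition in `A(D)`. -/
def evRep : ↥(repartitionsOf D) →ₗ[K] ball v (D v) where
  toFun := fun α => ⟨((α : ↥(repartitions K F)) : Place K F → F) v, α.2 v⟩
  map_add' := fun _ _ => Subtype.ext rfl
  map_smul' := fun _ _ => Subtype.ext rfl

theorem ball_congr {m n : ℤ} (h : m = n) : ball v m = ball v n := by rw [h]

/-- leading coefficient at `v` of a repartition in `A(D+v)`. -/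
def leadRep : ↥(repartitionsOf (D + Finsupp.single v 1)) →ₗ[K] v.ResidueField :=
  (leadBall v (D v + 1)).comp
    ((LinearEquiv.ofEq _ _ (ball_congr v (by simp))).toLinearMap.comp
      (evRep (D + Finsupp.single v 1) v))

theorem leadRep_eq_zero_iff (α : ↥(repartitionsOf (D + Finsupp.single v 1))) :
    leadRep D v α = 0 ↔ (α : ↥(repartitions K F)) ∈ repartitionsOf D := by
  have h1 : leadRep D v α = 0 ↔ (((α : ↥(repartitions K F)) : Place K F → F) v) ∈ ball v (D v) := by
    rw [leadRep, LinearMap.comp_apply, leadBall_eq_zero_iff v]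
    rfl
  rw [h1]
  constructor
  · intro h w
    by_cases hw : w = v
    · subst hw; exact h
    · have h2 := α.2 w
      rw [Finsupp.add_apply, Finsupp.single_eq_of_ne hw, add_zero] at h2
      exact h2
  · intro h
    exact h v

theorem leadRep_surjective : Function.Surjective (leadRep D v) := by
  classical
  intro c
  obtain ⟨f, hf⟩ := leadBall_surjective v (D v + 1) c
  have hα : ∀ w : Place K F, w.adicValuation ((Pi.single v (f : F) : Place K F → F) w) ≤
      exp ((D + Finsupp.single v 1 : Divisor K F) w) := by
    intro w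
    by_cases hw : w = v
    · subst hw
      rw [Pi.single_eq_same, Finsupp.add_apply, Finsupp.single_eq_same]
      exact f.2
    · rw [Pi.single_eq_of_ne hw]; simp
  refine ⟨⟨⟨Pi.single v (f : F), mem_repartitions_of_forall_le_exp _ _ hα⟩, hα⟩, ?_⟩
  rw [← hf, leadRep, LinearMap.comp_apply]
  congr 1
  ext
  show (Pi.single v (f : F) : Place K F → F) v = f
  rw [Pi.single_eq_same]

theorem qd_add_single :
    qd (repartitionsOf D) (repartitionsOf (D + Finsupp.single v 1)) =
      Module.length K v.ResidueField := by
  have hker : LinearMap.ker (leadRep D v) =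
      (repartitionsOf D).comap (repartitionsOf (D + Finsupp.single v 1)).subtype := by
    ext α
    rw [LinearMap.mem_ker, leadRep_eq_zero_iff]
    rfl
  rw [qd, ← hker]
  exact (LinearMap.quotKerEquivOfSurjective _ (leadRep_surjective D v)).length_eq

end Repart

end Fermat.Agent.H89
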