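import Mathlib

/-!
# Orthonormalisable reductions and the approximation lemma

`K` a field with a valuation ring `A`, residue map `π : A → k`, `F/K` a field, `O ⊆ F` a subring
with a reduction map `ρ : O → T` to a commutative `k`-algebra such that every finite dimensional
`K`-subspace of `F` has a basis in `O` with `k`-independent reductions.
-/

set_option autoImplicit false

open Module

namespace Fermat.Agent.H89SS

/-- Reduction ring such that every finite dimensional subspace has an orthonormal basis. -/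
structure ORed {K k : Type*} [Field K] [Field k] (F T : Type*) [Field F] [Algebra K F]
    [CommRing T] [Algebra k T] (A : ValuationSubring K) (π : A →+* k) where
  /-- the subring of integral elements -/
  O : Subring F
  /-- the reduction -/
  ρ : O →+* T
  mem : ∀ a : A, algebraMap K F a ∈ O
  ρ_mem : ∀ a : A, ρ ⟨algebraMap K F a, mem a⟩ = algebraMap k T (π a)
  exists_basis : ∀ (W : Submodule K F) [FiniteDimensional K W],
    ∃ (d : ℕ) (w : Fin d → O), Submodule.span K (Set.range fun i => (w i : F)) = W ∧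
      LinearIndependent k (fun i => ρ (w i))

namespace ORed

variable {K k F T : Type*} [Field K] [Field k] [Field F] [Algebra K F]
    [CommRing T] [Algebra k T] {A : ValuationSubring K} {π : A →+* k} (R : ORed F T A π)

/-- The constants. -/
def const : A →+* R.O where
  toFun a := ⟨algebraMap K F a, R.mem a⟩
  map_zero' := Subtype.ext (by simp)
  map_one' := Subtype.ext (by simp)
  map_add' a b := Subtype.ext (by simp)
  map_mul' a b := Subtype.ext (by simp)

@[simp] theorem coe_const (a : A) : (R.const a : F) = algebraMap K F a := rfl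

@[simp] theorem ρ_const (a : A) : R.ρ (R.const a) = algebraMap k T (π a) := R.ρ_mem a

theorem ρ_const_mul (a : A) (x : R.O) : R.ρ (R.const a * x) = π a • R.ρ x := by
  rw [map_mul, ρ_const, Algebra.smul_def]

/-- Scaling a finite family. -/
theorem exists_scale {κ : Type*} [Finite κ] (f : κ → K) (h : f ≠ 0) :
    ∃ i, f i ≠ 0 ∧ ∀ j, (f i)⁻¹ * f j ∈ A := by
  have hne : Nonempty κ := by
    by_contra h0
    rw [not_nonempty_iff] at h0
    exact h (Subsingleton.elim _ _)
  obtain ⟨i, hi⟩ := Finite.exists_max (fun i => A.valuation (f i))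
  have hfi : f i ≠ 0 := by
    intro h0
    apply h
    funext j
    have h1 := hi j
    rw [h0, map_zero, le_zero_iff, map_eq_zero] at h1
    exact h1
  refine ⟨i, hfi, fun j => ?_⟩
  rw [← A.valuation_le_one_iff, map_mul, map_inv₀]
  have h2 : A.valuation (f i) ≠ 0 := (Valuation.ne_zero_iff _).mpr hfi
  calc (A.valuation (f i))⁻¹ * A.valuation (f j) ≤ (A.valuation (f i))⁻¹ * A.valuation (f i) :=
        mul_le_mul_right (hi j) _
    _ = 1 := inv_mul_cancel₀ h2

/-- Coordinates of an integral element with respect to an orthonormal family are integral. -/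
theorem coeff_mem [IsLocalHom π] {ι : Type*} [Fintype ι] (w : ι → R.O)
    (hw : LinearIndependent k (fun i => R.ρ (w i))) (c : ι → K) (x : R.O)
    (hx : (x : F) = ∑ i, c i • (w i : F)) : ∀ i, c i ∈ A := by
  classical
  by_cases hc : c = 0
  · intro i
    rw [hc]
    exact A.zero_mem
  obtain ⟨i₀, hi₀, hA⟩ := exists_scale (A := A) c hc
  rcases A.mem_or_inv_mem (c i₀) with h | h
  · intro j
    have h1 : c j = c i₀ * ((c i₀)⁻¹ * c j) := by rw [← mul_assoc, mul_inv_cancel₀ hi₀, one_mul]
    rw [h1]
    exact A.mul_mem _ _ h (hA j)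
  · -- `c i₀ ∉ A` possibly: then contradiction unless unit
    by_cases hu : π ⟨(c i₀)⁻¹, h⟩ = 0
    · exfalso
      have h2 : R.const ⟨(c i₀)⁻¹, h⟩ * x = ∑ j, R.const ⟨(c i₀)⁻¹ * c j, hA j⟩ * w j := by
        apply Subtype.ext
        push_cast
        rw [coe_const, hx, Finset.mul_sum]
        refine Finset.sum_congr rfl fun j _ => ?_
        rw [coe_const, Algebra.smul_def, map_mul]
        ring
      have h3 := congrArg R.ρ h2
      rw [ρ_const_mul, hu, zero_smul, map_sum] at h3
      have h4 : ∑ j, π ⟨(c i₀)⁻¹ * c j, hA j⟩ • R.ρ (w j) = 0 := by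
        rw [h3]
        exact Finset.sum_congr rfl fun j _ => (R.ρ_const_mul _ _).symm
      have h5 := Fintype.linearIndependent_iff.mp hw _ h4 i₀
      have h6 : (⟨(c i₀)⁻¹ * c i₀, hA i₀⟩ : A) = 1 := Subtype.ext (inv_mul_cancel₀ hi₀)
      rw [h6, map_one] at h5
      exact one_ne_zero h5
    · have h7 : IsUnit (⟨(c i₀)⁻¹, h⟩ : A) := (isUnit_map_iff π _).mp (isUnit_iff_ne_zero.mpr hu)
      obtain ⟨u, hu'⟩ := h7
      have h8 : ((u⁻¹ : Aˣ).val : K) = c i₀ := by
        have h9 : (u⁻¹ : Aˣ).val * (⟨(c i₀)⁻¹, h⟩ : A) = 1 := by rw [← hu', Units.inv_mul]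
        have h10 : ((u⁻¹ : Aˣ).val : K) * (c i₀)⁻¹ = 1 := congrArg Subtype.val h9
        exact (mul_inv_eq_one₀ hi₀).mp h10
      have h11 : c i₀ ∈ A := h8 ▸ (u⁻¹ : Aˣ).val.2
      intro j
      have h1 : c j = c i₀ * ((c i₀)⁻¹ * c j) := by
        rw [← mul_assoc, mul_inv_cancel₀ hi₀, one_mul]
      rw [h1]
      exact A.mul_mem _ _ h11 (hA j)

theorem linearIndependent [IsLocalHom π] {ι : Type*} [Finite ι] (w : ι → R.O)
    (hw : LinearIndependent k (fun i => R.ρ (w i))) :
    LinearIndependent K (fun i => (w i : F)) := by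
  classical
  have := Fintype.ofFinite ι
  rw [Fintype.linearIndependent_iff]
  intro g hg
  by_contra hne
  push Not at hne
  have hg0 : g ≠ 0 := fun h => by
    obtain ⟨i, hi⟩ := hne
    exact hi (congrFun h i)
  obtain ⟨i₀, hi₀, hA⟩ := exists_scale (A := A) g hg0
  have h2 : (0 : R.O) = ∑ j, R.const ⟨(g i₀)⁻¹ * g j, hA j⟩ * w j := by
    apply Subtype.ext
    push_cast
    have : (∑ j, algebraMap K F ((g i₀)⁻¹ * g j) * (w j : F)) =
        algebraMap K F (g i₀)⁻¹ * ∑ j, g j • (w j : F) := by
      rw [Finset.mul_sum]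
      refine Finset.sum_congr rfl fun j _ => ?_
      rw [Algebra.smul_def, map_mul]
      ring
    simp only [coe_const]
    rw [this, hg, mul_zero]
  have h3 := congrArg R.ρ h2
  rw [map_zero, map_sum] at h3
  have h4 : ∑ j, π ⟨(g i₀)⁻¹ * g j, hA j⟩ • R.ρ (w j) = 0 := by
    rw [h3]
    exact Finset.sum_congr rfl fun j _ => (R.ρ_const_mul _ _).symm
  have h5 := Fintype.linearIndependent_iff.mp hw _ h4 i₀
  have h6 : (⟨(g i₀)⁻¹ * g i₀, hA i₀⟩ : A) = 1 := Subtype.ext (inv_mul_cancel₀ hi₀)
  rw [h6, map_one] at h5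
  exact one_ne_zero h5

/-- The reduction of a subspace. -/
def red (hπ : Function.Surjective π) (W : Submodule K F) : Submodule k T where
  carrier := {t | ∃ x : R.O, (x : F) ∈ W ∧ R.ρ x = t}
  zero_mem' := ⟨0, W.zero_mem, map_zero _⟩
  add_mem' := by
    rintro _ _ ⟨x, hx, rfl⟩ ⟨y, hy, rfl⟩
    exact ⟨x + y, W.add_mem hx hy, map_add _ _ _⟩
  smul_mem' := by
    rintro c _ ⟨x, hx, rfl⟩
    obtain ⟨a, rfl⟩ := hπ c
    refine ⟨R.const a * x, ?_, R.ρ_const_mul a x⟩
    have : ((R.const a * x : R.O) : F) = (a : K) • (x : F) := by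
      push_cast
      rw [coe_const, Algebra.smul_def]
    rw [this]
    exact W.smul_mem _ hx

variable {hπ : Function.Surjective π}

theorem mem_red {W : Submodule K F} {t : T} :
    t ∈ R.red hπ W ↔ ∃ x : R.O, (x : F) ∈ W ∧ R.ρ x = t := Iff.rfl

theorem ρ_mem_red {W : Submodule K F} (x : R.O) (hx : (x : F) ∈ W) : R.ρ x ∈ R.red hπ W :=
  ⟨x, hx, rfl⟩

theorem red_mono {W W' : Submodule K F} (h : W ≤ W') : R.red hπ W ≤ R.red hπ W' := by
  rintro _ ⟨x, hx, rfl⟩
  exact ⟨x, h hx, rfl⟩

theorem red_eq_span [IsLocalHom π] {W : Submodule K F} {ι : Type*} [Fintype ι] (w : ι → R.O)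
    (hw : LinearIndependent k (fun i => R.ρ (w i)))
    (hW : Submodule.span K (Set.range fun i => (w i : F)) = W) :
    R.red hπ W = Submodule.span k (Set.range fun i => R.ρ (w i)) := by
  apply le_antisymm
  · rintro _ ⟨x, hx, rfl⟩
    rw [← hW, Submodule.mem_span_range_iff_exists_fun] at hx
    obtain ⟨c, hc⟩ := hx
    have hA := R.coeff_mem w hw c x hc.symm
    have h1 : x = ∑ i, R.const ⟨c i, hA i⟩ * w i := by
      apply Subtype.ext
      push_cast
      rw [← hc]
      exact Finset.sum_congr rfl fun i _ => by rw [coe_const, Algebra.smul_def]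
    rw [h1, map_sum]
    refine Submodule.sum_mem _ fun i _ => ?_
    rw [ρ_const_mul]
    exact Submodule.smul_mem _ _ (Submodule.subset_span ⟨i, rfl⟩)
  · rw [Submodule.span_le]
    rintro _ ⟨i, rfl⟩
    exact ⟨w i, hW ▸ Submodule.subset_span ⟨i, rfl⟩, rfl⟩

instance finiteDimensional_red [IsLocalHom π] (W : Submodule K F) [FiniteDimensional K W] :
    FiniteDimensional k (R.red hπ W) := by
  obtain ⟨d, w, hW, hw⟩ := R.exists_basis W
  rw [R.red_eq_span w hw hW]
  exact FiniteDimensional.span_of_finite k (Set.finite_range _)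

theorem finrank_red [IsLocalHom π] (W : Submodule K F) [FiniteDimensional K W] :
    finrank k (R.red hπ W) = finrank K W := by
  obtain ⟨d, w, hW, hw⟩ := R.exists_basis W
  rw [R.red_eq_span w hw hW, finrank_span_eq_card hw]
  have h1 := finrank_span_eq_card (R.linearIndependent w hw)
  rw [← h1, hW]

/-- Extension of an orthonormal basis. -/
theorem exists_basis_extend [IsLocalHom π] (hπ : Function.Surjective π) {W W' : Submodule K F}
    [FiniteDimensional K W'] (h : W ≤ W') :
    ∃ (a b : ℕ) (w : Fin a → R.O) (z : Fin b → R.O),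
      Submodule.span K (Set.range fun i => (w i : F)) = W ∧
      Submodule.span K (Set.range fun i => ((Sum.elim w z i : R.O) : F)) = W' ∧
      LinearIndependent k (fun i => R.ρ (Sum.elim w z i)) := by
  classical
  have : FiniteDimensional K W := Submodule.finiteDimensional_of_le h
  obtain ⟨a, w, hW, hw⟩ := R.exists_basis W
  -- extend the independent set `ρ (w i)` inside `red W'`
  have hle : R.red hπ W ≤ R.red hπ W' := R.red_mono h
  obtain ⟨C₀, hC₀⟩ := Submodule.exists_isCompl (R.red hπ W)
  set C : Submodule k T := C₀ ⊓ R.red hπ W' with hCdef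
  have hCfin : FiniteDimensional k C := Submodule.finiteDimensional_of_le inf_le_right
  have hdisj : Disjoint (R.red hπ W) C := hC₀.disjoint.mono_right inf_le_left
  have hsup : R.red hπ W ⊔ C = R.red hπ W' := by
    rw [hCdef, ← sup_inf_assoc_of_le _ hle, hC₀.sup_eq_top, top_inf_eq]
  obtain ⟨b, hb⟩ : ∃ b, b = finrank k C := ⟨_, rfl⟩
  let bC : Basis (Fin b) k C := Module.finBasisOfFinrankEq k C hb.symm
  have hz : ∀ l, ∃ x : R.O, (x : F) ∈ W' ∧ R.ρ x = (bC l : T) := fun l =>
    (bC l).2.2
  choose z hzW hzρ using hz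
  have hind : LinearIndependent k (fun i => R.ρ (Sum.elim w z i)) := by
    have hfun : (fun i => R.ρ (Sum.elim w z i)) =
        Sum.elim (fun i => R.ρ (w i)) (fun l => R.ρ (z l)) := by
      funext i
      cases i <;> rfl
    rw [hfun]
    have h1 : (fun l => R.ρ (z l)) = fun l => C.subtype (bC l) := by
      funext l
      rw [hzρ]
      rfl
    refine LinearIndependent.sum_type hw ?_ ?_
    · rw [h1]
      exact bC.linearIndependent.map' _ (Submodule.ker_subtype C)
    · rw [← R.red_eq_span (hπ := hπ) w hw hW]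
      refine hdisj.mono_right ?_
      rw [Submodule.span_le]
      rintro _ ⟨l, rfl⟩
      simp only [hzρ]
      exact (bC l).2
  refine ⟨a, b, w, z, hW, ?_, hind⟩
  have hle' : Submodule.span K (Set.range fun i => ((Sum.elim w z i : R.O) : F)) ≤ W' := by
    rw [Submodule.span_le]
    rintro _ ⟨i | l, rfl⟩
    · exact h (hW ▸ Submodule.subset_span ⟨i, rfl⟩)
    · exact hzW l
  refine Submodule.eq_of_le_of_finrank_eq hle' ?_
  have h5 : finrank k (R.red hπ W) = a := by
    rw [R.red_eq_span w hw hW, finrank_span_eq_card hw, Fintype.card_fin]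
  have h6 : finrank k (R.red hπ W) + finrank k C = finrank k (R.red hπ W') := by
    have h7 := Submodule.finrank_sup_add_finrank_inf_eq (R.red hπ W) C
    rw [hdisj.eq_bot, finrank_bot, add_zero, hsup] at h7
    exact h7.symm
  rw [finrank_span_eq_card (R.linearIndependent _ hind), Fintype.card_sum, Fintype.card_fin,
    Fintype.card_fin, hb, ← h5, h6, R.finrank_red]

end ORed

end Fermat.Agent.H89SS
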