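import Fermat.Agent.H89SS1

/-!
# The approximation lemma
-/

set_option autoImplicit false

open Module

namespace Fermat.Agent.H89SS

theorem exists_add_mul_pow {R : Type*} [CommRing R] (X Y b : R) (n : ℕ) :
    ∃ Z : R, (X + b * Y) ^ (n + 1) = X ^ (n + 1) + b * ((n + 1 : ℕ) * X ^ n * Y) + b ^ 2 * Z := by
  induction n with
  | zero => exact ⟨0, by push_cast; ring⟩
  | succ n ih =>
    obtain ⟨Z, hZ⟩ := ih
    refine ⟨Z * (X + b * Y) + (n + 1 : ℕ) * X ^ n * Y ^ 2, ?_⟩
    rw [pow_succ, hZ]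
    push_cast
    ring

namespace ORed

variable {K k F T : Type*} [Field K] [Field k] [Field F] [Algebra K F]
    [CommRing T] [Algebra k T] {A : ValuationSubring K} {π : A →+* k} (R : ORed F T A π)
    {hπ : Function.Surjective π}

/-- **One step**: the distance of `u y` to `L₁` is at most the distance of `y ^ d` to `f`. -/
theorem one_step [IsLocalHom π] (hπ : Function.Surjective π) {e : ℕ} (hd : ((e + 2 : ℕ) : k) ≠ 0)
    (L₁ L₁' L₂ L₂' Ld : Submodule K F) [FiniteDimensional K L₁] [FiniteDimensional K L₁']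
    (f : R.O)
    (h11 : ∀ u ∈ L₁', ∀ l ∈ L₁, u * l ∈ L₂')
    (hfd : ∀ u ∈ L₁', ∀ v ∈ L₁', u * v ^ (e + 1) * (f : F) ∈ Ld)
    (hld : ∀ u ∈ L₁, ∀ v ∈ L₁, u * v ^ (e + 1) ∈ Ld)
    (h2d : ∀ c ∈ R.red hπ L₂, ∀ v ∈ R.red hπ L₁, v ^ e * c ∈ R.red hπ Ld)
    (hred1 : R.red hπ L₁' = R.red hπ L₁) (hred2 : R.red hπ L₂' ≤ R.red hπ L₂)
    (hsat : ∀ t : T, (∀ v ∈ R.red hπ L₁, v ^ (e + 1) * t ∈ R.red hπ Ld) → t ∈ R.red hπ L₁)
    (y : R.O) (hy : R.ρ y = 1) (c₀ : A) (hc₀ : c₀ ≠ 0)
    (hyd : ∃ z : R.O, y ^ (e + 2) = f + R.const c₀ * z)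
    (u : R.O) (hu : (u : F) ∈ L₁') :
    ∃ l : R.O, (l : F) ∈ L₁ ∧ ∃ z : R.O, u * y = l + R.const c₀ * z := by
  classical
  obtain ⟨r, us, hus, hus'⟩ := R.exists_basis L₁'
  -- the ambient finite dimensional space
  let Z : Submodule K F := L₁ ⊔ Submodule.span K (Set.range fun i => ((us i * y : R.O) : F))
  have : FiniteDimensional K (Submodule.span K (Set.range fun i => ((us i * y : R.O) : F))) :=
    FiniteDimensional.span_of_finite K (Set.finite_range _)
  have : FiniteDimensional K Z := inferInstance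
  obtain ⟨a, b, w, z, hw, hwz, hind⟩ := R.exists_basis_extend hπ (W := L₁) (W' := Z) le_sup_left
  -- coordinates of `us i * y`
  have hcoord : ∀ i, ∃ c : Fin a ⊕ Fin b → A,
      us i * y = ∑ j, R.const (c j) * (Sum.elim w z j) := by
    intro i
    have h1 : ((us i * y : R.O) : F) ∈ Z :=
      (le_sup_right : _ ≤ Z) (Submodule.subset_span ⟨i, rfl⟩)
    rw [← hwz, Submodule.mem_span_range_iff_exists_fun] at h1
    obtain ⟨c, hc⟩ := h1
    have hA := R.coeff_mem _ hind c _ hc.symm
    refine ⟨fun j => ⟨c j, hA j⟩, Subtype.ext ?_⟩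
    rw [← hc]
    push_cast
    exact Finset.sum_congr rfl fun j _ => by rw [coe_const, Algebra.smul_def]
  choose c hc using hcoord
  -- it suffices to show that all complementary coordinates are divisible by `c₀`
  by_cases hall : ∀ i l, c₀ ∣ c i (Sum.inr l)
  · choose m hm using hall
    have h2 : (u : F) ∈ Submodule.span K (Set.range fun i => (us i : F)) := hus ▸ hu
    rw [Submodule.mem_span_range_iff_exists_fun] at h2
    obtain ⟨g, hg⟩ := h2
    have hgA := R.coeff_mem _ hus' g u hg.symm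
    let g' : Fin r → A := fun i => ⟨g i, hgA i⟩
    have h3 : u = ∑ i, R.const (g' i) * us i := by
      apply Subtype.ext
      rw [← hg]
      push_cast
      exact Finset.sum_congr rfl fun i _ => by rw [coe_const, Algebra.smul_def]
    refine ⟨∑ i, R.const (g' i) * ∑ j, R.const (c i (Sum.inl j)) * w j, ?_,
      ∑ i, R.const (g' i) * ∑ l, R.const (m i l) * z l, ?_⟩
    · push_cast
      refine Submodule.sum_mem _ fun i _ => ?_
      rw [coe_const, ← Algebra.smul_def]
      refine Submodule.smul_mem _ _ (Submodule.sum_mem _ fun j _ => ?_)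
      rw [coe_const, ← Algebra.smul_def]
      exact Submodule.smul_mem _ _ (hw ▸ Submodule.subset_span ⟨j, rfl⟩)
    · rw [h3, Finset.sum_mul, Finset.mul_sum, ← Finset.sum_add_distrib]
      refine Finset.sum_congr rfl fun i _ => ?_
      rw [mul_assoc, hc i, Fintype.sum_sum_type]
      simp only [Sum.elim_inl, Sum.elim_inr]
      have h4 : ∑ l, R.const (c i (Sum.inr l)) * z l
          = R.const c₀ * ∑ l, R.const (m i l) * z l := by
        rw [Finset.mul_sum]
        refine Finset.sum_congr rfl fun l _ => ?_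
        rw [hm i l, map_mul, mul_assoc]
      rw [h4]
      ring
  -- otherwise pick the largest complementary coordinate
  exfalso
  push Not at hall
  obtain ⟨i₁, l₁, hil⟩ := hall
  let cc : Fin r × Fin b → K := fun p => (c p.1 (Sum.inr p.2) : K)
  have hcc : cc ≠ 0 := by
    intro h0
    apply hil
    have h5 : (c i₁ (Sum.inr l₁) : K) = 0 := congrFun h0 (i₁, l₁)
    have h6 : c i₁ (Sum.inr l₁) = 0 := Subtype.ext h5
    rw [h6]
    exact dvd_zero _
  obtain ⟨⟨i₀, l₀⟩, hb0, hbA⟩ := exists_scale (A := A) cc hcc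
  set β : A := c i₀ (Sum.inr l₀) with hβ
  have hβ0 : β ≠ 0 := fun h => hb0 (by
    change ((c i₀ (Sum.inr l₀) : A) : K) = 0
    rw [← hβ, h]
    rfl)
  -- all coordinates are divisible by `β`
  have hdvd : ∀ i l, β ∣ c i (Sum.inr l) := fun i l => by
    refine ⟨⟨_, hbA (i, l)⟩, Subtype.ext ?_⟩
    change (c i (Sum.inr l) : K) = (c i₀ (Sum.inr l₀) : K) * ((cc (i₀, l₀))⁻¹ * cc (i, l))
    change (c i (Sum.inr l) : K) =
      (c i₀ (Sum.inr l₀) : K) * (((c i₀ (Sum.inr l₀) : A) : K)⁻¹ * (c i (Sum.inr l) : K))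
    rw [← mul_assoc, mul_inv_cancel₀ hb0, one_mul]
  choose m hm using hdvd
  have hm₀ : m i₀ l₀ = 1 := by
    have h7 := hm i₀ l₀
    rw [← hβ] at h7
    exact (mul_right_injective₀ hβ0 (by simpa using h7)).symm
  -- `c₀ = β * γ` with `γ` in the maximal ideal
  obtain ⟨γ, hγ, hγ0⟩ : ∃ γ : A, c₀ = β * γ ∧ π γ = 0 := by
    have h8 : ¬ c₀ ∣ β := fun h => hil (h.trans ⟨_, hm i₁ l₁⟩)
    rcases A.mem_or_inv_mem ((c₀ : K) * (β : K)⁻¹) with h | h
    · have h9 : c₀ = β * ⟨_, h⟩ := Subtype.ext (by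
        change (c₀ : K) = (β : K) * ((c₀ : K) * (β : K)⁻¹)
        rw [mul_comm (c₀ : K), ← mul_assoc, mul_inv_cancel₀ (fun h0 => hβ0 (Subtype.ext h0)),
          one_mul])
      refine ⟨_, h9, ?_⟩
      by_contra h10
      have h11 : IsUnit (⟨_, h⟩ : A) := (isUnit_map_iff π _).mp (isUnit_iff_ne_zero.mpr h10)
      obtain ⟨v, hv⟩ := h11
      apply h8
      refine ⟨(v⁻¹ : Aˣ).val, ?_⟩
      rw [h9, ← hv, mul_assoc, Units.mul_inv, mul_one]
    · exfalso
      apply h8
      refine ⟨⟨_, h⟩, Subtype.ext ?_⟩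
      change (β : K) = (c₀ : K) * ((c₀ : K) * (β : K)⁻¹)⁻¹
      have hc0K : (c₀ : K) ≠ 0 := fun h0 => hc₀ (Subtype.ext h0)
      rw [mul_inv, inv_inv, ← mul_assoc, mul_inv_cancel₀ hc0K, one_mul]
  -- `β` is in the maximal ideal
  have hρus : ∀ i, R.ρ (us i) = ∑ j, π (c i j) • R.ρ (Sum.elim w z j) := by
    intro i
    have h12 := congrArg R.ρ (hc i)
    rw [map_mul, hy, mul_one, map_sum] at h12
    rw [h12]
    exact Finset.sum_congr rfl fun j _ => R.ρ_const_mul _ _
  have hβπ : π β = 0 := by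
    have h13 : R.ρ (us i₀) ∈ R.red hπ L₁ := by
      rw [← hred1]
      exact R.ρ_mem_red _ (hus ▸ Submodule.subset_span ⟨i₀, rfl⟩)
    have hwind : LinearIndependent k (fun i => R.ρ (w i)) :=
      hind.comp Sum.inl Sum.inl_injective
    rw [R.red_eq_span w hwind hw, Submodule.mem_span_range_iff_exists_fun] at h13
    obtain ⟨g, hg⟩ := h13
    have h14 : ∑ j, (π (c i₀ j) - Sum.elim g (fun _ => 0) j) • R.ρ (Sum.elim w z j) = 0 := by
      simp only [sub_smul, Finset.sum_sub_distrib]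
      rw [← hρus, ← hg, Fintype.sum_sum_type]
      simp
    have h15 := Fintype.linearIndependent_iff.mp hind _ h14 (Sum.inr l₀)
    simpa using h15
  -- decomposition `us i * y = lam i + β * rho i`
  let lam : Fin r → R.O := fun i => ∑ j, R.const (c i (Sum.inl j)) * w j
  let rho : Fin r → R.O := fun i => ∑ l, R.const (m i l) * z l
  have hdec : ∀ i, us i * y = lam i + R.const β * rho i := by
    intro i
    rw [hc i, Fintype.sum_sum_type]
    simp only [Sum.elim_inl, Sum.elim_inr, lam, rho]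
    congr 1
    rw [Finset.mul_sum]
    refine Finset.sum_congr rfl fun l _ => ?_
    rw [hm i l, map_mul, mul_assoc]
  have hlamL : ∀ i, (lam i : F) ∈ L₁ := by
    intro i
    simp only [lam]
    push_cast
    refine Submodule.sum_mem _ fun j _ => ?_
    rw [coe_const, ← Algebra.smul_def]
    exact Submodule.smul_mem _ _ (hw ▸ Submodule.subset_span ⟨j, rfl⟩)
  -- key: `ρ (rho i₀) ∈ red L₁`
  have key : R.ρ (rho i₀) ∈ R.red hπ L₁ := by
    apply hsat
    intro v hv
    rw [← hred1] at hv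
    obtain ⟨u', hu', rfl⟩ := hv
    -- write `u'` in terms of the basis
    have h2 : (u' : F) ∈ Submodule.span K (Set.range fun i => (us i : F)) := hus ▸ hu'
    rw [Submodule.mem_span_range_iff_exists_fun] at h2
    obtain ⟨g, hg⟩ := h2
    have hgA := R.coeff_mem _ hus' g u' hg.symm
    let g' : Fin r → A := fun i => ⟨g i, hgA i⟩
    have h3 : u' = ∑ i, R.const (g' i) * us i := by
      apply Subtype.ext
      rw [← hg]
      push_cast
      exact Finset.sum_congr rfl fun i _ => by rw [coe_const, Algebra.smul_def]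
    let lam' : R.O := ∑ i, R.const (g' i) * lam i
    let rho' : R.O := ∑ i, R.const (g' i) * rho i
    have hdec' : u' * y = lam' + R.const β * rho' := by
      simp only [lam', rho']
      rw [h3, Finset.sum_mul, Finset.mul_sum, ← Finset.sum_add_distrib]
      refine Finset.sum_congr rfl fun i _ => ?_
      rw [mul_assoc, hdec i]
      ring
    have hlam' : (lam' : F) ∈ L₁ := by
      simp only [lam']
      push_cast
      refine Submodule.sum_mem _ fun i _ => ?_
      rw [coe_const, ← Algebra.smul_def]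
      exact Submodule.smul_mem _ _ (hlamL i)
    have hρβ : ∀ x : R.O, R.ρ (R.const β * x) = 0 := fun x => by
      rw [ρ_const_mul, hβπ, zero_smul]
    have hρlam : R.ρ (lam i₀) = R.ρ (us i₀) := by
      have h16 := congrArg R.ρ (hdec i₀)
      rw [map_mul, hy, mul_one, map_add, hρβ, add_zero] at h16
      exact h16.symm
    have hρlam' : R.ρ lam' = R.ρ u' := by
      have h16 := congrArg R.ρ hdec'
      rw [map_mul, hy, mul_one, map_add, hρβ, add_zero] at h16
      exact h16.symm
    -- (I)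
    have hI : R.ρ u' * R.ρ (rho i₀) - R.ρ (us i₀) * R.ρ rho' ∈ R.red hπ L₂ := by
      apply hred2
      have h17 : us i₀ * lam' - u' * lam i₀ = R.const β * (u' * rho i₀ - us i₀ * rho') := by
        have h18 : us i₀ * (u' * y) = u' * (us i₀ * y) := by ring
        rw [hdec', hdec i₀] at h18
        linear_combination h18
      have h19 : ((us i₀ * lam' - u' * lam i₀ : R.O) : F) ∈ L₂' := by
        push_cast
        refine L₂'.sub_mem (h11 _ ?_ _ hlam') (h11 _ hu' _ (hlamL i₀))
        exact hus ▸ Submodule.subset_span ⟨i₀, rfl⟩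
      rw [h17] at h19
      have h20 : ((u' * rho i₀ - us i₀ * rho' : R.O) : F) ∈ L₂' := by
        have h21 : ((R.const β * (u' * rho i₀ - us i₀ * rho') : R.O) : F) =
            (β : K) • ((u' * rho i₀ - us i₀ * rho' : R.O) : F) := by
          rw [Subring.coe_mul, coe_const, Algebra.smul_def]
        rw [h21] at h19
        exact (Submodule.smul_mem_iff _ (fun h0 => hβ0 (Subtype.ext h0))).mp h19
      have h22 := R.ρ_mem_red (hπ := hπ) _ h20
      rwa [map_sub, map_mul, map_mul] at h22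
    -- (II)
    have hII : R.ρ (rho i₀) * R.ρ u' ^ (e + 1) +
        ((e + 1 : ℕ) : T) * R.ρ (us i₀) * R.ρ u' ^ e * R.ρ rho' ∈ R.red hπ Ld := by
      obtain ⟨zz, hzz⟩ := hyd
      obtain ⟨Z₁, hZ₁⟩ := exists_add_mul_pow lam' rho' (R.const β) e
      set X : R.O := rho i₀ * lam' ^ (e + 1) + (e + 1 : ℕ) * lam i₀ * lam' ^ e * rho' +
        R.const β * (lam i₀ * Z₁ + rho i₀ * ((e + 1 : ℕ) * lam' ^ e * rho') +
          R.const β * rho i₀ * Z₁) - R.const γ * (us i₀ * u' ^ (e + 1) * zz) with hX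
      have h23 : us i₀ * u' ^ (e + 1) * f - lam i₀ * lam' ^ (e + 1) = R.const β * X := by
        have h24 : (us i₀ * y) * (u' * y) ^ (e + 1) =
            us i₀ * u' ^ (e + 1) * y ^ (e + 2) := by ring
        rw [hdec i₀, hdec', hZ₁, hzz, hγ, map_mul] at h24
        rw [hX]
        linear_combination (-1 : R.O) * h24
      have h25 : ((us i₀ * u' ^ (e + 1) * f - lam i₀ * lam' ^ (e + 1) : R.O) : F) ∈ Ld := by
        push_cast
        refine Ld.sub_mem (hfd _ ?_ _ hu') (hld _ (hlamL i₀) _ hlam')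
        exact hus ▸ Submodule.subset_span ⟨i₀, rfl⟩
      rw [h23] at h25
      have h26 : (X : F) ∈ Ld := by
        have h21 : ((R.const β * X : R.O) : F) = (β : K) • (X : F) := by
          rw [Subring.coe_mul, coe_const, Algebra.smul_def]
        rw [h21] at h25
        exact (Submodule.smul_mem_iff _ (fun h0 => hβ0 (Subtype.ext h0))).mp h25
      have h27 := R.ρ_mem_red (hπ := hπ) _ h26
      have h28 : R.ρ X = R.ρ (rho i₀) * R.ρ u' ^ (e + 1) +
          ((e + 1 : ℕ) : T) * R.ρ (us i₀) * R.ρ u' ^ e * R.ρ rho' := by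
        rw [hX, map_sub, map_add, hρβ, ρ_const_mul, hγ0, zero_smul, sub_zero, add_zero]
        simp only [map_add, map_mul, map_pow, map_natCast, hρlam, hρlam']
      rwa [h28] at h27
    -- (III)
    have hu'red : R.ρ u' ∈ R.red hπ L₁ := by
      rw [← hred1]
      exact R.ρ_mem_red _ hu'
    have hIII := h2d _ hI _ hu'red
    have hIII' := (R.red hπ Ld).smul_mem ((e + 1 : ℕ) : k) hIII
    have hsum := (R.red hπ Ld).add_mem hII hIII'
    have h29 : R.ρ (rho i₀) * R.ρ u' ^ (e + 1) +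
        ((e + 1 : ℕ) : T) * R.ρ (us i₀) * R.ρ u' ^ e * R.ρ rho' +
        ((e + 1 : ℕ) : k) • (R.ρ u' ^ e * (R.ρ u' * R.ρ (rho i₀) - R.ρ (us i₀) * R.ρ rho')) =
        ((e + 2 : ℕ) : k) • (R.ρ u' ^ (e + 1) * R.ρ (rho i₀)) := by
      simp only [Algebra.smul_def, map_natCast]
      push_cast
      ring
    rw [h29] at hsum
    exact ((R.red hπ Ld).smul_mem_iff hd).mp hsum
  -- contradiction
  have hwind : LinearIndependent k (fun i => R.ρ (w i)) :=
    hind.comp Sum.inl Sum.inl_injective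
  rw [R.red_eq_span w hwind hw, Submodule.mem_span_range_iff_exists_fun] at key
  obtain ⟨g, hg⟩ := key
  have h30 : ∑ j, (Sum.elim (fun j => -g j) (fun l => π (m i₀ l)) j) •
      R.ρ (Sum.elim w z j) = 0 := by
    rw [Fintype.sum_sum_type]
    simp only [Sum.elim_inl, Sum.elim_inr, neg_smul, Finset.sum_neg_distrib]
    rw [hg]
    simp only [rho, map_sum, ρ_const_mul]
    rw [neg_add_cancel]
  have h31 := Fintype.linearIndependent_iff.mp hind _ h30 (Sum.inr l₀)
  simp only [Sum.elim_inr, hm₀, map_one] at h31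
  exact one_ne_zero h31

end ORed

end Fermat.Agent.H89SS
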