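import Fermat.Agent.H89SS2

/-!
# From approximate to exact solutions
-/

set_option autoImplicit false

open Module

namespace Fermat.Agent.H89SS

namespace ORed

variable {K k F T : Type*} [Field K] [Field k] [Field F] [Algebra K F]
    [CommRing T] [Algebra k T] {A : ValuationSubring K} {π : A →+* k} (R : ORed F T A π)
    {hπ : Function.Surjective π}

/-- Every element of `F` is integral after scaling. -/
theorem exists_const_mul_mem (x : F) : ∃ c : K, c ≠ 0 ∧ c • x ∈ R.O := by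
  by_cases hx : x = 0
  · exact ⟨1, one_ne_zero, by rw [hx, smul_zero]; exact R.O.zero_mem⟩
  obtain ⟨d, w, hW, hw⟩ := R.exists_basis (Submodule.span K {x})
  have hd : d ≠ 0 := by
    rintro rfl
    have h1 : x ∈ Submodule.span K (Set.range fun i => (w i : F)) := by
      rw [hW]; exact Submodule.mem_span_singleton_self x
    rw [Set.range_eq_empty, Submodule.span_empty, Submodule.mem_bot] at h1
    exact hx h1
  obtain ⟨d, rfl⟩ := Nat.exists_eq_succ_of_ne_zero hd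
  have h2 : (w 0 : F) ∈ Submodule.span K {x} := by
    rw [← hW]; exact Submodule.subset_span ⟨0, rfl⟩
  obtain ⟨c, hc⟩ := Submodule.mem_span_singleton.mp h2
  refine ⟨c, ?_, ?_⟩
  · rintro rfl
    rw [zero_smul] at hc
    have h3 : R.ρ (w 0) ≠ 0 := hw.ne_zero 0
    apply h3
    have h4 : w 0 = 0 := Subtype.ext hc.symm
    rw [h4, map_zero]
  · rw [hc]
    exact (w 0).2

/-- A common scaling for a finite family. -/
theorem exists_const_mul_mem_finite {ι : Type*} [Finite ι] (x : ι → F) :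
    ∃ c : K, c ≠ 0 ∧ ∀ i, c • x i ∈ R.O := by
  classical
  have := Fintype.ofFinite ι
  choose c hc hx using fun i => R.exists_const_mul_mem (x i)
  by_cases hne : Nonempty ι
  swap
  · rw [not_nonempty_iff] at hne
    exact ⟨1, one_ne_zero, fun i => isEmptyElim i⟩
  -- take the `c i` of minimal valuation
  obtain ⟨i₀, hi₀⟩ := Finite.exists_min (fun i => A.valuation (c i))
  refine ⟨c i₀, hc i₀, fun i => ?_⟩
  have h1 : c i₀ * (c i)⁻¹ ∈ A := by
    rw [← A.valuation_le_one_iff, map_mul, map_inv₀]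
    have h2 : A.valuation (c i) ≠ 0 := (Valuation.ne_zero_iff _).mpr (hc i)
    calc A.valuation (c i₀) * (A.valuation (c i))⁻¹
        ≤ A.valuation (c i) * (A.valuation (c i))⁻¹ := mul_le_mul_left (hi₀ i) _
      _ = 1 := mul_inv_cancel₀ h2
  have h3 : c i₀ • x i = algebraMap K F (c i₀ * (c i)⁻¹) * (c i • x i) := by
    rw [Algebra.smul_def, Algebra.smul_def, ← mul_assoc, ← map_mul, mul_assoc,
      inv_mul_cancel₀ (hc i), mul_one]
  rw [h3]
  exact R.O.mul_mem (R.mem ⟨_, h1⟩) (hx i)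

/-- An injective linear map between (finite dimensional) spaces is bounded below. -/
theorem exists_bound [IsLocalHom π] {r s : ℕ} (L : Submodule K F) [FiniteDimensional K L]
    (Ψ : (Fin r → L) →ₗ[K] (Fin s → F)) (hΨ : Function.Injective Ψ) :
    ∃ c : K, c ≠ 0 ∧ ∀ w : Fin r → L, (∀ i, Ψ w i ∈ R.O) → ∀ i, c • (w i : F) ∈ R.O := by
  classical
  -- finite dimensional space containing all components
  let P : Submodule K F := ⨆ i, LinearMap.range ((LinearMap.proj i : (Fin s → F) →ₗ[K] F) ∘ₗ Ψ)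
  have hP : FiniteDimensional K P := by
    refine Submodule.finiteDimensional_iSup _
  have hmemP : ∀ w i, Ψ w i ∈ P := fun w i =>
    (le_iSup (fun i => LinearMap.range ((LinearMap.proj i : (Fin s → F) →ₗ[K] F) ∘ₗ Ψ)) i)
      ⟨w, rfl⟩
  obtain ⟨d, p, hp, hpind⟩ := R.exists_basis P
  obtain ⟨G, hG⟩ := LinearMap.exists_leftInverse_of_injective Ψ (LinearMap.ker_eq_bot.mpr hΨ)
  obtain ⟨c, hc, hcO⟩ := R.exists_const_mul_mem_finite
    (fun x : Fin s × Fin d × Fin r => (G (Pi.single x.1 (p x.2.1 : F)) x.2.2 : F))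
  refine ⟨c, hc, fun w hw j => ?_⟩
  have h1 : ∀ i, ∃ a : Fin d → A, Ψ w i = ∑ l, (a l : K) • (p l : F) := by
    intro i
    have h2 := hmemP w i
    rw [← hp, Submodule.mem_span_range_iff_exists_fun] at h2
    obtain ⟨a, ha⟩ := h2
    have hA := R.coeff_mem p hpind a ⟨Ψ w i, hw i⟩ ha.symm
    exact ⟨fun l => ⟨a l, hA l⟩, ha.symm⟩
  choose a ha using h1
  have h3 : w = ∑ i, ∑ l, (a i l : K) • G (Pi.single i (p l : F)) := by
    have h4 : w = G (Ψ w) := by
      have := LinearMap.congr_fun hG w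
      simpa using this.symm
    have h5 : Ψ w = ∑ i, ∑ l, (a i l : K) • (Pi.single i (p l : F) : Fin s → F) := by
      funext i
      rw [ha i, Finset.sum_apply, Finset.sum_eq_single i]
      · rw [Finset.sum_apply]
        refine Finset.sum_congr rfl fun l _ => ?_
        rw [Pi.smul_apply, Pi.single_eq_same]
      · intro i' _ hi'
        rw [Finset.sum_apply]
        refine Finset.sum_eq_zero fun l _ => ?_
        rw [Pi.smul_apply, Pi.single_eq_of_ne hi'.symm, smul_zero]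
      · intro h
        exact absurd (Finset.mem_univ _) h
    conv_lhs => rw [h4, h5]
    rw [map_sum]
    refine Finset.sum_congr rfl fun i _ => ?_
    rw [map_sum]
    exact Finset.sum_congr rfl fun l _ => map_smul _ _ _
  have h6 : (w j : F) = ∑ i, ∑ l, (a i l : K) • (G (Pi.single i (p l : F)) j : F) := by
    conv_lhs => rw [h3]
    rw [Finset.sum_apply, AddSubmonoidClass.coe_finsetSum]
    refine Finset.sum_congr rfl fun i _ => ?_
    rw [Finset.sum_apply, AddSubmonoidClass.coe_finsetSum]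
    exact Finset.sum_congr rfl fun l _ => rfl
  rw [h6, Finset.smul_sum]
  refine R.O.sum_mem fun i _ => ?_
  rw [Finset.smul_sum]
  refine R.O.sum_mem fun l _ => ?_
  rw [smul_comm, Algebra.smul_def]
  exact R.O.mul_mem (R.mem _) (hcO (i, l, j))

/-- If `L₁'` is approximately `y⁻¹ L₁` for arbitrarily good `y`, then it is exactly
`h⁻¹ L₁` for some `h ∈ F`. -/
theorem exists_mul_mem [IsLocalHom π] (L₁ L₁' : Submodule K F)
    [FiniteDimensional K L₁] [FiniteDimensional K L₁']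
    (hnt : ∃ a : A, a ≠ 0 ∧ π a = 0)
    (happ : ∀ c₀ : A, c₀ ≠ 0 → ∃ y : R.O, R.ρ y = 1 ∧ ∀ u : R.O, (u : F) ∈ L₁' →
      ∃ l : R.O, (l : F) ∈ L₁ ∧ ∃ z : R.O, u * y = l + R.const c₀ * z) :
    ∃ h : F, h ≠ 0 ∧ ∀ u ∈ L₁', h * u ∈ L₁ := by
  classical
  obtain ⟨r, us, hus, hus'⟩ := R.exists_basis L₁'
  rcases Nat.eq_zero_or_pos r with rfl | hr
  · refine ⟨1, one_ne_zero, fun u hu => ?_⟩
    rw [← hus, Set.range_eq_empty, Submodule.span_empty, Submodule.mem_bot] at hu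
    rw [hu, mul_zero]
    exact L₁.zero_mem
  let i₀ : Fin r := ⟨0, hr⟩
  have hu0 : (us i₀ : F) ≠ 0 := fun h => by
    have h1 : R.ρ (us i₀) ≠ 0 := hus'.ne_zero i₀
    apply h1
    have h2 : us i₀ = 0 := Subtype.ext h
    rw [h2, map_zero]
  let Ψ : (Fin r → L₁) →ₗ[K] (Fin r → F) := LinearMap.pi fun i =>
    (LinearMap.mulLeft K (us i : F) ∘ₗ L₁.subtype ∘ₗ LinearMap.proj i₀) -
    (LinearMap.mulLeft K (us i₀ : F) ∘ₗ L₁.subtype ∘ₗ LinearMap.proj i)
  have hΨ : ∀ w i, Ψ w i = us i * (w i₀ : F) - us i₀ * (w i : F) := fun w i => rfl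
  by_cases hinj : Function.Injective Ψ
  · exfalso
    obtain ⟨c, hc, hcO⟩ := R.exists_bound L₁ Ψ hinj
    obtain ⟨a, ha0, haπ⟩ := hnt
    -- `c₀ = a c` if `c ∈ A`, else `c₀ = a`; in both cases `c₀ / c` is in the maximal ideal
    obtain ⟨c₀, hc₀, h12, γ, hγ, hcγ⟩ : ∃ c₀ : A, c₀ ≠ 0 ∧ π c₀ = 0 ∧
        ∃ γ : A, π γ = 0 ∧ (c₀ : K) = γ * c := by
      rcases A.mem_or_inv_mem c with h | h
      · refine ⟨a * ⟨c, h⟩, ?_, by rw [map_mul, haπ, zero_mul], a, haπ, rfl⟩
        refine mul_ne_zero ha0 fun h0 => hc (congrArg Subtype.val h0)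
      · refine ⟨a, ha0, haπ, a * ⟨c⁻¹, h⟩, by rw [map_mul, haπ, zero_mul], ?_⟩
        change (a : K) = (a : K) * c⁻¹ * c
        rw [mul_assoc, inv_mul_cancel₀ hc, mul_one]
    obtain ⟨y, hy, hyu⟩ := happ c₀ hc₀
    choose l hl z hz using fun i => hyu (us i) (hus ▸ Submodule.subset_span ⟨i, rfl⟩)
    -- apply the bound to `c₀⁻¹ • l`
    let w : Fin r → L₁ := fun i => (c₀ : K)⁻¹ • ⟨(l i : F), hl i⟩
    have hc₀K : (c₀ : K) ≠ 0 := fun h0 => hc₀ (Subtype.ext h0)
    have h1 : ∀ i, Ψ w i ∈ R.O := by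
      intro i
      have h2 : Ψ w i = ((us i₀ * z i - us i * z i₀ : R.O) : F) := by
        rw [hΨ]
        have h3 : (us i : F) * ((w i₀ : L₁) : F) - us i₀ * ((w i : L₁) : F) =
            algebraMap K F (c₀ : K)⁻¹ * (us i * l i₀ - us i₀ * l i) := by
          simp only [w, Submodule.coe_smul, Algebra.smul_def]
          ring
        rw [h3]
        have h4 : us i * l i₀ - us i₀ * l i = R.const c₀ * (us i₀ * z i - us i * z i₀) := by
          have h5 := hz i₀
          have h6 := hz i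
          linear_combination us i₀ * h6 - us i * h5
        have h7 := congrArg Subtype.val h4
        push_cast at h7
        rw [h7, coe_const, ← mul_assoc, ← map_mul, inv_mul_cancel₀ hc₀K, map_one, one_mul]
        push_cast
        rfl
      rw [h2]
      exact (us i₀ * z i - us i * z i₀ : R.O).2
    have h8 := hcO w h1 i₀
    -- hence `l i₀ = γ * integral`
    have h9 : l i₀ = R.const γ * ⟨_, h8⟩ := by
      apply Subtype.ext
      push_cast
      rw [coe_const]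
      change (l i₀ : F) = algebraMap K F (γ : K) * (c • ((c₀ : K)⁻¹ • (l i₀ : F)))
      rw [Algebra.smul_def, Algebra.smul_def, ← mul_assoc, ← mul_assoc, ← map_mul, ← map_mul,
        ← hcγ, mul_inv_cancel₀ hc₀K, map_one, one_mul]
    have h10 : R.ρ (us i₀) = 0 := by
      have h11 := congrArg R.ρ (hz i₀)
      rw [map_mul, hy, mul_one, map_add, h9, ρ_const_mul, ρ_const_mul, hγ, zero_smul, zero_add]
        at h11
      rw [h11, h12, zero_smul]
    exact (hus'.ne_zero i₀) h10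
  · -- a nonzero element of the kernel
    rw [← LinearMap.ker_eq_bot, Submodule.eq_bot_iff] at hinj
    push Not at hinj
    obtain ⟨w, hw, hw0⟩ := hinj
    have hwi : ∀ i, (us i : F) * (w i₀ : F) = us i₀ * (w i : F) := fun i => by
      have h1 := congrFun (LinearMap.mem_ker.mp hw) i
      rw [hΨ] at h1
      exact sub_eq_zero.mp h1
    have hw₀ : (w i₀ : F) ≠ 0 := by
      intro h0
      apply hw0
      funext i
      have h1 := hwi i
      rw [h0, mul_zero] at h1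
      exact Subtype.ext ((mul_eq_zero.mp h1.symm).resolve_left hu0)
    refine ⟨(w i₀ : F) / us i₀, div_ne_zero hw₀ hu0, fun u hu => ?_⟩
    rw [← hus, Submodule.mem_span_range_iff_exists_fun] at hu
    obtain ⟨g, rfl⟩ := hu
    rw [Finset.mul_sum]
    refine Submodule.sum_mem _ fun i _ => ?_
    rw [mul_smul_comm]
    refine Submodule.smul_mem _ _ ?_
    have h2 : (w i₀ : F) / us i₀ * us i = w i := by
      rw [div_mul_eq_mul_div, mul_comm (w i₀ : F), hwi i, mul_div_cancel_left₀ _ hu0]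
    rw [h2]
    exact (w i).2

/-- Powers of an element congruent to `1`. -/
theorem exists_pow_eq_one_add {q : ℕ} (a : A) (hqa : a ∣ (q : A)) (hq : 2 ≤ q) (x : R.O)
    (hx : ∃ z : R.O, x = 1 + R.const a * z) (n : ℕ) :
    ∃ z : R.O, x ^ q ^ n = 1 + R.const (a ^ (n + 1)) * z := by
  induction n with
  | zero => simpa using hx
  | succ n ih =>
    obtain ⟨z, hz⟩ := ih
    obtain ⟨e, rfl⟩ := Nat.exists_eq_add_of_le hq
    obtain ⟨b, hb⟩ := hqa
    obtain ⟨Z, hZ⟩ := exists_add_mul_pow (1 : R.O) z (R.const (a ^ (n + 1))) (1 + e)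
    have h1 : x ^ (2 + e) ^ (n + 1) = (1 + R.const (a ^ (n + 1)) * z) ^ (1 + e + 1) := by
      rw [pow_succ, pow_mul, hz]
      congr 1
      omega
    rw [h1, hZ]
    have h2 : ((1 + e + 1 : ℕ) : R.O) = R.const a * R.const b := by
      rw [← map_mul, ← hb, map_natCast]
      congr 1
      omega
    rw [h2]
    refine ⟨R.const b * z + R.const (a ^ n) * Z, ?_⟩
    simp only [one_pow, map_pow]
    ring

/-- **Main theorem of this section.** If `f ≡ 1` and `L₁', L₂'` are the `f`-twisted versions of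
`L₁, L₂` with the same reductions then there is `h ∈ F` with `h L₁' ⊆ L₁`. -/
theorem exists_mul_mem_of_twist [IsLocalHom π] (hπ : Function.Surjective π) {q : ℕ}
    (hq : 2 ≤ q) (hqk : (q : k) = 0) (hq0 : (q : A) ≠ 0)
    (arch : ∀ a b : A, π a = 0 → b ≠ 0 → ∃ n, b ∣ a ^ n)
    {e : ℕ} (hd : ((e + 2 : ℕ) : k) ≠ 0) (hcop : Nat.Coprime (e + 2) q)
    (L₁ L₁' L₂ L₂' Ld : Submodule K F) [FiniteDimensional K L₁] [FiniteDimensional K L₁']
    (f : R.O) (hf : R.ρ f = 1)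
    (h11 : ∀ u ∈ L₁', ∀ l ∈ L₁, u * l ∈ L₂')
    (hfd : ∀ u ∈ L₁', ∀ v ∈ L₁', u * v ^ (e + 1) * (f : F) ∈ Ld)
    (hld : ∀ u ∈ L₁, ∀ v ∈ L₁, u * v ^ (e + 1) ∈ Ld)
    (h2d : ∀ c ∈ R.red hπ L₂, ∀ v ∈ R.red hπ L₁, v ^ e * c ∈ R.red hπ Ld)
    (hred1 : R.red hπ L₁' = R.red hπ L₁) (hred2 : R.red hπ L₂' ≤ R.red hπ L₂)
    (hsat : ∀ t : T, (∀ v ∈ R.red hπ L₁, v ^ (e + 1) * t ∈ R.red hπ Ld) → t ∈ R.red hπ L₁)
    (hker : ∀ x : R.O, R.ρ x = 0 → ∃ (a : A) (z : R.O), π a = 0 ∧ x = R.const a * z) :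
    ∃ h : F, h ≠ 0 ∧ ∀ u ∈ L₁', h * u ∈ L₁ := by
  have hπq : π (q : A) = 0 := by rw [map_natCast, hqk]
  refine R.exists_mul_mem L₁ L₁' ⟨q, hq0, hπq⟩ fun c₀ hc₀ => ?_
  -- `f = 1 + a z`
  obtain ⟨a₀, z₀, ha₀, hz₀⟩ := hker (f - 1) (by rw [map_sub, hf, map_one, sub_self])
  -- a common divisor of `a₀` and `q`
  obtain ⟨a, ha, haq, haa⟩ : ∃ a : A, π a = 0 ∧ a ∣ (q : A) ∧ a ∣ a₀ := by
    rcases ValuationRing.dvd_total a₀ (q : A) with h | h
    · exact ⟨a₀, ha₀, h, dvd_rfl⟩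
    · exact ⟨q, hπq, dvd_rfl, h⟩
  obtain ⟨a₁, ha₁⟩ := haa
  have hf1 : ∃ z : R.O, f = 1 + R.const a * z := ⟨R.const a₁ * z₀, by
    rw [← mul_assoc, ← map_mul, ← ha₁, ← hz₀]; ring⟩
  obtain ⟨n, hn⟩ := arch a c₀ ha hc₀
  obtain ⟨z₁, hz₁⟩ := R.exists_pow_eq_one_add a haq hq f hf1 n
  -- `(e + 2) M = 1 + q ^ n s`
  obtain ⟨M, s, hMs⟩ : ∃ M s : ℕ, (e + 2) * M = 1 + q ^ n * s := by
    rcases Nat.eq_zero_or_pos n with rfl | hn0
    · exact ⟨1, e + 1, by ring⟩
    have hcop' : Nat.Coprime (e + 2) (q ^ n) := Nat.Coprime.pow_right n hcop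
    obtain ⟨M, -, hM⟩ := Nat.exists_mul_mod_eq_one_of_coprime hcop'
      (Nat.one_lt_pow hn0.ne' (by omega))
    refine ⟨M, (e + 2) * M / q ^ n, ?_⟩
    have h3 := Nat.mod_add_div ((e + 2) * M) (q ^ n)
    rw [hM] at h3
    exact h3.symm
  refine ⟨f ^ M, by rw [map_pow, hf, one_pow], fun u hu => ?_⟩
  refine R.one_step hπ hd L₁ L₁' L₂ L₂' Ld f h11 hfd hld h2d hred1 hred2 hsat (f ^ M)
    (by rw [map_pow, hf, one_pow]) c₀ hc₀ ?_ u hu
  have h1 : (f ^ M) ^ (e + 2) = f * (f ^ q ^ n) ^ s := by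
    rw [← pow_mul, mul_comm M, hMs, pow_add, pow_one, pow_mul]
  obtain ⟨b, hb⟩ := hn
  obtain ⟨Z, hZ⟩ : ∃ Z, (f ^ q ^ n) ^ s = 1 + R.const c₀ * Z := by
    rw [hz₁, pow_succ, hb]
    have h2 : (1 + R.const (c₀ * b * a) * z₁) = 1 + R.const c₀ * (R.const (b * a) * z₁) := by
      simp only [map_mul]; ring
    rw [h2]
    clear hMs h1
    induction s with
    | zero => exact ⟨0, by simp⟩
    | succ s ih =>
      obtain ⟨Z, hZ⟩ := ih
      refine ⟨Z * (1 + R.const c₀ * (R.const (b * a) * z₁)) + R.const (b * a) * z₁, ?_⟩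
      rw [pow_succ, hZ]
      ring
  exact ⟨f * Z, by rw [h1, hZ]; ring⟩

end ORed

end Fermat.Agent.H89SS
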