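import Fermat.Agent.H3RR_Duality
import Fermat.Agent.H3RR_Special
import Fermat.Prelude.Def_AlgebraicCurve_BaseChangeGalois

/-!
# Functions regular outside one place: values, strong approximation, an ideal lemma
-/

set_option autoImplicit false

open AlgebraicCurve WithZero Fermat.Agent.H3RR

namespace Fermat.Agent.H89SS

section Val

variable {k κ : Type*} [Field k] [Field κ] [Algebra k κ] [IsAlgClosed k] [IsFF k κ]

open Classical in
/-- The value of a function at a place (`0` if it has a pole). -/
noncomputable def val (v : Place k κ) (f : κ) : k :=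
  if h : v.adicValuation f ≤ 1 then (exists_const_sub_lt_one v h).choose else 0

theorem val_spec {v : Place k κ} {f : κ} (h : v.adicValuation f ≤ 1) :
    v.adicValuation (f - algebraMap k κ (val v f)) < 1 := by
  rw [val, dif_pos h]
  exact (exists_const_sub_lt_one v h).choose_spec

theorem val_eq {v : Place k κ} {f : κ} {c : k}
    (h : v.adicValuation (f - algebraMap k κ c) < 1) : val v f = c := by
  have hf : v.adicValuation f ≤ 1 := by
    have h1 : f = (f - algebraMap k κ c) + algebraMap k κ c := by ring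
    rw [h1]
    exact (Valuation.map_add _ _ _).trans (max_le h.le (v.adicValuation_algebraMap_le_one c))
  by_contra hne
  have h2 := val_spec hf
  have h3 : v.adicValuation (algebraMap k κ (val v f - c)) < 1 := by
    have h4 : algebraMap k κ (val v f - c) =
        (f - algebraMap k κ c) - (f - algebraMap k κ (val v f)) := by rw [map_sub]; ring
    rw [h4]
    exact (Valuation.map_sub _ _ _).trans_lt (max_lt h h2)
  rw [adicValuation_algebraMap v (sub_ne_zero.mpr hne)] at h3
  exact lt_irrefl _ h3

theorem val_algebraMap (v : Place k κ) (c : k) : val v (algebraMap k κ c) = c :=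
  val_eq (by rw [sub_self, map_zero]; exact zero_lt_one)

theorem val_one (v : Place k κ) : val v (1 : κ) = 1 := by
  have := val_algebraMap v (1 : k)
  rwa [map_one] at this

theorem val_zero (v : Place k κ) : val v (0 : κ) = 0 := by
  have := val_algebraMap v (0 : k)
  rwa [map_zero] at this

theorem val_eq_zero_iff {v : Place k κ} {f : κ} (h : v.adicValuation f ≤ 1) :
    val v f = 0 ↔ v.adicValuation f < 1 := by
  constructor
  · intro h0
    have := val_spec h
    rwa [h0, map_zero, sub_zero] at this
  · intro h0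
    exact val_eq (by rwa [map_zero, sub_zero])

theorem val_add {v : Place k κ} {f g : κ} (hf : v.adicValuation f ≤ 1)
    (hg : v.adicValuation g ≤ 1) : val v (f + g) = val v f + val v g := by
  apply val_eq
  have h1 : f + g - algebraMap k κ (val v f + val v g) =
      (f - algebraMap k κ (val v f)) + (g - algebraMap k κ (val v g)) := by rw [map_add]; ring
  rw [h1]
  exact (Valuation.map_add _ _ _).trans_lt (max_lt (val_spec hf) (val_spec hg))

theorem val_sub {v : Place k κ} {f g : κ} (hf : v.adicValuation f ≤ 1)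
    (hg : v.adicValuation g ≤ 1) : val v (f - g) = val v f - val v g := by
  apply val_eq
  have h1 : f - g - algebraMap k κ (val v f - val v g) =
      (f - algebraMap k κ (val v f)) - (g - algebraMap k κ (val v g)) := by rw [map_sub]; ring
  rw [h1]
  exact (Valuation.map_sub _ _ _).trans_lt (max_lt (val_spec hf) (val_spec hg))

theorem val_mul {v : Place k κ} {f g : κ} (hf : v.adicValuation f ≤ 1)
    (hg : v.adicValuation g ≤ 1) : val v (f * g) = val v f * val v g := by
  apply val_eq
  have h1 : f * g - algebraMap k κ (val v f * val v g) =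
      (f - algebraMap k κ (val v f)) * g +
        algebraMap k κ (val v f) * (g - algebraMap k κ (val v g)) := by rw [map_mul]; ring
  rw [h1]
  refine (Valuation.map_add _ _ _).trans_lt (max_lt ?_ ?_)
  · rw [map_mul]
    calc v.adicValuation (f - algebraMap k κ (val v f)) * v.adicValuation g
        ≤ v.adicValuation (f - algebraMap k κ (val v f)) * 1 := mul_le_mul_right hg _
      _ < 1 := by rw [mul_one]; exact val_spec hf
  · rw [map_mul]
    calc v.adicValuation (algebraMap k κ (val v f)) *
          v.adicValuation (g - algebraMap k κ (val v g))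
        ≤ 1 * v.adicValuation (g - algebraMap k κ (val v g)) :=
          mul_le_mul_left (v.adicValuation_algebraMap_le_one _) _
      _ < 1 := by rw [one_mul]; exact val_spec hg

theorem val_pow {v : Place k κ} {f : κ} (hf : v.adicValuation f ≤ 1) (n : ℕ) :
    val v (f ^ n) = val v f ^ n := by
  induction n with
  | zero => simp [val_one]
  | succ n ih =>
    rw [pow_succ, val_mul _ hf, ih, pow_succ]
    rw [map_pow]
    exact pow_le_one₀ zero_le hf

theorem val_smul {v : Place k κ} {f : κ} (hf : v.adicValuation f ≤ 1) (c : k) :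
    val v (c • f) = c * val v f := by
  rw [Algebra.smul_def, val_mul (v.adicValuation_algebraMap_le_one c) hf, val_algebraMap]

end Val

section Approx

variable {k κ : Type*} [Field k] [Field κ] [Algebra k κ] [IsAlgClosed k] [IsFF k κ]

/-- **Strong approximation** (one place `P` is free). -/
theorem strong_approx (P : Place k κ) (S : Finset (Place k κ)) (hPS : P ∉ S)
    (g : Place k κ → κ) (n : ℕ) :
    ∃ r : κ, (∀ v ∈ S, v.adicValuation (r - g v) ≤ exp (-(n : ℤ))) ∧
      ∀ v, v ∉ S → v ≠ P → v.adicValuation r ≤ 1 := by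
  classical
  set D : Divisor k κ := Finsupp.single P (2 * (genusFF k κ : ℤ) + n * S.card) +
    ∑ v ∈ S, Finsupp.single v (-(n : ℤ)) with hD
  have hdeg : Divisor.degree D = 2 * (genusFF k κ : ℤ) := by
    rw [hD, map_add, map_sum, Divisor.degree_single, deg_eq_one]
    simp only [Divisor.degree_single, deg_eq_one]
    simp
    ring
  have h1 : h1 D = 0 := h1_eq_zero_of_degree_gt (by rw [hdeg]; omega)
  have hsub : Subsingleton (H1 D) := Module.finrank_zero_iff.mp h1
  have htop : repartitionsOf D ⊔ principalRepartitions k κ = ⊤ := by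
    exact Submodule.Quotient.subsingleton_iff.mp hsub
  let α : Place k κ → κ := fun v => if v ∈ S then g v else 0
  have hα : α ∈ repartitions k κ := by
    apply mem_repartitions_of_finite
    refine S.finite_toSet.subset fun v hv => ?_
    by_contra hvS
    apply hv
    have : α v = 0 := if_neg (by simpa using hvS)
    rw [this, map_zero]
    exact zero_le_one
  have hmem : (⟨α, hα⟩ : ↥(repartitions k κ)) ∈ repartitionsOf D ⊔ principalRepartitions k κ := by
    rw [htop]; trivial
  obtain ⟨β, hβ, γ, hγ, hsum⟩ := Submodule.mem_sup.mp hmem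
  obtain ⟨r, hr⟩ := mem_principalRepartitions_iff.mp hγ
  have hval : ∀ v, r = α v - (β : Place k κ → κ) v := fun v => by
    have h2 := congrFun (congrArg Subtype.val hsum) v
    have h3 : (β : Place k κ → κ) v + (γ : Place k κ → κ) v = α v := h2
    rw [hr] at h3
    rw [← h3]
    ring
  have hDS : ∀ v ∈ S, D v = -(n : ℤ) := by
    intro v hv
    have hvP : v ≠ P := fun h => hPS (h ▸ hv)
    rw [hD, Finsupp.add_apply, Finsupp.single_eq_of_ne hvP,
      Finsupp.finsetSum_apply, Finset.sum_eq_single v]
    · simp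
    · intro w _ hw
      exact Finsupp.single_eq_of_ne (Ne.symm hw)
    · intro h
      exact absurd hv h
  have hDo : ∀ v, v ∉ S → v ≠ P → D v = 0 := by
    intro v hv hvP
    rw [hD, Finsupp.add_apply, Finsupp.single_eq_of_ne hvP,
      Finsupp.finsetSum_apply, Finset.sum_eq_zero, add_zero]
    intro w hw
    exact Finsupp.single_eq_of_ne (fun h => hv (h ▸ hw))
  refine ⟨r, fun v hv => ?_, fun v hv hvP => ?_⟩
  · have h2 : r - g v = -(β : Place k κ → κ) v := by
      rw [hval v]
      simp only [α, if_pos hv]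
      ring
    rw [h2, Valuation.map_neg, ← hDS v hv]
    exact hβ v
  · have h2 : r = -(β : Place k κ → κ) v := by
      rw [hval v]
      simp only [α, if_neg hv]
      ring
    rw [h2, Valuation.map_neg, ← exp_zero, ← hDo v hv hvP]
    exact hβ v

/-- The ring of functions regular outside `P`. -/
def reg (P : Place k κ) : Subalgebra k κ where
  carrier := {f | ∀ v, v ≠ P → v.adicValuation f ≤ 1}
  mul_mem' := by
    intro f g hf hg v hv
    rw [map_mul]
    exact mul_le_one' (hf v hv) (hg v hv)
  add_mem' := by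
    intro f g hf hg v hv
    exact (Valuation.map_add _ _ _).trans (max_le (hf v hv) (hg v hv))
  algebraMap_mem' c v _ := v.adicValuation_algebraMap_le_one c

omit [IsAlgClosed k] [IsFF k κ] in
theorem mem_reg {P : Place k κ} {f : κ} : f ∈ reg P ↔ ∀ v, v ≠ P → v.adicValuation f ≤ 1 :=
  Iff.rfl

/-- Strong approximation inside `reg P`. -/
theorem exists_reg_approx (P : Place k κ) (S : Finset (Place k κ)) (hPS : P ∉ S)
    (g : Place k κ → κ) (hg : ∀ v ∈ S, v.adicValuation (g v) ≤ 1) (n : ℕ) :
    ∃ r ∈ reg P, ∀ v ∈ S, v.adicValuation (r - g v) ≤ exp (-(n : ℤ)) := by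
  obtain ⟨r, hr, hr'⟩ := strong_approx P S hPS g n
  refine ⟨r, fun v hv => ?_, hr⟩
  by_cases hvS : v ∈ S
  · have h1 : r = (r - g v) + g v := by ring
    rw [h1]
    refine (Valuation.map_add _ _ _).trans (max_le ((hr v hvS).trans ?_) (hg v hvS))
    rw [← exp_zero, exp_le_exp]
    omega
  · exact hr' v hvS hv

/-- The finite set of zeros. -/
theorem finite_lt_one {f : κ} (hf : f ≠ 0) : {v : Place k κ | v.adicValuation f < 1}.Finite := by
  refine (finite_support_ord (K := k) hf).subset fun v hv => ?_
  rw [Function.mem_support]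
  intro h0
  have h1 : v.adicValuation f < 1 := hv
  rw [v.adicValuation_eq_exp_neg_ord hf, h0, neg_zero, exp_zero] at h1
  exact lt_irrefl _ h1

/-- **Ideal lemma.** An ideal of `reg P` which at every place `≠ P` contains an element of
valuation `exp (-1)` or `1` (according to membership in `B`) contains every function which
vanishes at the places in `B`. -/
theorem mem_of_vanish (P : Place k κ) (I : AddSubgroup κ) (hI : ∀ x ∈ I, x ∈ reg P)
    (hmul : ∀ x ∈ I, ∀ r ∈ reg P, r * x ∈ I) (B : Set (Place k κ))
    (hB : ∀ v, v ≠ P → v ∈ B → ∃ b ∈ I, v.adicValuation b = exp (-1 : ℤ))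
    (hB' : ∀ v, v ≠ P → v ∉ B → ∃ b ∈ I, v.adicValuation b = 1)
    (hne : ∃ b ∈ I, b ≠ 0) {c : κ} (hc : c ∈ reg P)
    (hcB : ∀ v, v ≠ P → v ∈ B → v.adicValuation c < 1) : c ∈ I := by
  classical
  obtain ⟨b₁, hb₁, hb₁0⟩ := hne
  -- zeros of `b₁` outside `P`
  set Z : Finset (Place k κ) := (finite_lt_one (k := k) hb₁0).toFinset.erase P with hZ
  have hPZ : P ∉ Z := Finset.notMem_erase _ _
  have hZmem : ∀ v, v ≠ P → v ∉ Z → v.adicValuation b₁ = 1 := by
    intro v hv hvZ
    apply le_antisymm (hI _ hb₁ v hv)
    by_contra hlt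
    apply hvZ
    rw [hZ, Finset.mem_erase]
    exact ⟨hv, (Set.Finite.mem_toFinset _).mpr (not_le.mp hlt)⟩
  have hZP : ∀ v ∈ Z, v ≠ P := fun v hv h => hPZ (h ▸ hv)
  -- local generators
  have hloc : ∀ v, v ≠ P → ∃ b ∈ I, v.adicValuation b = if v ∈ B then exp (-1 : ℤ) else 1 := by
    intro v hv
    by_cases hvB : v ∈ B
    · simpa [hvB] using hB v hv hvB
    · simpa [hvB] using hB' v hv hvB
  choose! b hbI hbv using hloc
  -- idempotents
  have hid : ∀ v ∈ Z, ∃ r ∈ reg P, v.adicValuation (r - 1) ≤ exp (-2 : ℤ) ∧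
      ∀ w ∈ Z, w ≠ v → w.adicValuation r ≤ exp (-2 : ℤ) := by
    intro v hv
    obtain ⟨r, hr, hr'⟩ := exists_reg_approx P Z hPZ (fun w => if w = v then 1 else 0)
      (fun w _ => by
        by_cases h : w = v
        · simp [h]
        · simp [h]) 2
    refine ⟨r, hr, ?_, fun w hw hwv => ?_⟩
    · have := hr' v hv
      simpa using this
    · have := hr' w hw
      simpa [hwv] using this
  choose! r hr hr1 hr2 using hid
  set b₂ : κ := ∑ v ∈ Z, r v * b v with hb₂
  have hb₂I : b₂ ∈ I := I.sum_mem fun v hv => hmul _ (hbI v (hZP v hv)) _ (hr v hv)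
  have hε : ∀ w : Place k κ, exp (-2 : ℤ) < (if w ∈ B then exp (-1 : ℤ) else (1 : ℤᵐ⁰)) := by
    intro w
    split_ifs
    · rw [exp_lt_exp]; norm_num
    · rw [← exp_zero, exp_lt_exp]; norm_num
  have hb₂v : ∀ w ∈ Z, w.adicValuation b₂ = if w ∈ B then exp (-1 : ℤ) else 1 := by
    intro w hw
    have h1 : b₂ = b w + ((r w - 1) * b w + ∑ v ∈ Z.erase w, r v * b v) := by
      rw [hb₂, ← Finset.add_sum_erase Z _ hw]
      ring
    have h2 : w.adicValuation ((r w - 1) * b w + ∑ v ∈ Z.erase w, r v * b v) ≤ exp (-2 : ℤ) := by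
      refine (Valuation.map_add _ _ _).trans (max_le ?_ ?_)
      · rw [map_mul]
        calc w.adicValuation (r w - 1) * w.adicValuation (b w)
            ≤ exp (-2 : ℤ) * 1 := mul_le_mul' (hr1 w hw) (hI _ (hbI w (hZP w hw)) w (hZP w hw))
          _ = exp (-2 : ℤ) := mul_one _
      · apply Valuation.map_sum_le
        intro v hv
        have hvZ := Finset.mem_of_mem_erase hv
        rw [map_mul]
        calc w.adicValuation (r v) * w.adicValuation (b v)
            ≤ exp (-2 : ℤ) * 1 := mul_le_mul' (hr2 v hvZ w hw (Finset.ne_of_mem_erase hv).symm)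
              (hI _ (hbI v (hZP v hvZ)) w (hZP w hw))
          _ = exp (-2 : ℤ) := mul_one _
    rw [h1, Valuation.map_add_eq_of_lt_left, hbv w (hZP w hw)]
    rw [hbv w (hZP w hw)]
    exact h2.trans_lt (hε w)
  -- `c / b₂` is integral at the zeros of `b₁`
  have hcb : ∀ w ∈ Z, w.adicValuation (c / b₂) ≤ 1 := by
    intro w hw
    rw [map_div₀, hb₂v w hw]
    split_ifs with hwB
    · have h3 := hcB w (hZP w hw) hwB
      rw [adicValuation_lt_one_iff] at h3
      exact div_le_one_of_le₀ h3 zero_le
    · rw [div_one]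
      exact hc w (hZP w hw)
  -- choose the precision
  obtain ⟨n, hn⟩ : ∃ n : ℕ, ∀ w ∈ Z, exp (-(n : ℤ)) ≤ w.adicValuation b₁ := by
    refine ⟨∑ w ∈ Z, (w.ord b₁).toNat, fun w hw => ?_⟩
    rw [w.adicValuation_eq_exp_neg_ord hb₁0, exp_le_exp, neg_le_neg_iff]
    have h4 : (w.ord b₁).toNat ≤ ∑ w ∈ Z, (w.ord b₁).toNat :=
      Finset.single_le_sum (f := fun w : Place k κ => (w.ord b₁).toNat)
        (fun _ _ => Nat.zero_le _) hw
    have := Int.self_le_toNat (w.ord b₁)
    omega
  obtain ⟨s, hs, hs'⟩ := exists_reg_approx P Z hPZ (fun _ => c / b₂) hcb n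
  have hquot : (c - s * b₂) / b₁ ∈ reg P := by
    intro w hwP
    rw [map_div₀]
    by_cases hw : w ∈ Z
    · have hb₂0 : b₂ ≠ 0 := by
        intro h0
        have h5 := hb₂v w hw
        rw [h0, map_zero] at h5
        split_ifs at h5
        · exact exp_ne_zero h5.symm
        · exact zero_ne_one h5
      have h6 : c - s * b₂ = -((s - c / b₂) * b₂) := by
        field_simp
        ring
      have h7 : w.adicValuation (c - s * b₂) ≤ w.adicValuation b₁ := by
        rw [h6, Valuation.map_neg, map_mul]
        calc w.adicValuation (s - c / b₂) * w.adicValuation b₂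
            ≤ exp (-(n : ℤ)) * 1 := mul_le_mul' (hs' w hw) (hI _ hb₂I w hwP)
          _ ≤ w.adicValuation b₁ := by rw [mul_one]; exact hn w hw
      exact div_le_one_of_le₀ h7 zero_le
    · rw [hZmem w hwP hw, div_one]
      exact (reg P).sub_mem hc ((reg P).mul_mem hs (hI _ hb₂I)) w hwP
  have hfin : c = (c - s * b₂) / b₁ * b₁ + s * b₂ := by
    field_simp
    ring
  rw [hfin]
  exact I.add_mem (hmul _ hb₁ _ hquot) (hmul _ hb₂I _ hs)

end Approx

end Fermat.Agent.H89SS
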