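import Fermat.Agent.H89SSDef
import Fermat.Agent.H89SS3
import Fermat.Agent.H89SS5

/-!
# Two-component reduction: filtrations
-/

set_option autoImplicit false

open AlgebraicCurve WithZero Fermat.Agent.H3RR Module

namespace Fermat.Agent.H89SS

section General

variable {K F : Type*} [Field K] [Field F] [Algebra K F]

theorem mul_mem_L {D D' : Divisor K F} {f g : F} (hf : f ∈ riemannRochSpace D)
    (hg : g ∈ riemannRochSpace D') : f * g ∈ riemannRochSpace (D + D') := by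
  intro v
  rw [map_mul, Finsupp.add_apply, exp_add]
  exact mul_le_mul' (hf v) (hg v)

theorem pow_mem_L {D : Divisor K F} {f : F} (hf : f ∈ riemannRochSpace D) (n : ℕ) :
    f ^ n ∈ riemannRochSpace (n • D) := by
  induction n with
  | zero => intro v; simp
  | succ n ih =>
    rw [pow_succ, succ_nsmul]
    exact mul_mem_L ih hf

theorem one_mem_L {D : Divisor K F} (hD : 0 ≤ D) : (1 : F) ∈ riemannRochSpace D := by
  intro v
  rw [map_one, ← exp_zero, exp_le_exp]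
  exact hD v

end General

namespace TwoComp

variable {K F k κ : Type*} [Field K] [Field F] [Algebra K F] [Field k] [Field κ]
    [Algebra k κ] {A : ValuationSubring K} {π : A →+* k} {q : ℕ} (T : TwoComp K F k κ A π q)

/-- The orthonormalisable reduction attached to `T`. -/
def red : ORed F (κ × κ) A π where
  O := T.V₁.toSubring ⊓ T.V₂.toSubring
  ρ := (T.ρ₁.comp (Subring.inclusion inf_le_left)).prod (T.ρ₂.comp (Subring.inclusion inf_le_right))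
  mem a := ⟨T.mem₁ a, T.mem₂ a⟩
  ρ_mem a := Prod.ext (T.ρ₁_mem a) (T.ρ₂_mem a)
  exists_basis W _ := by
    obtain ⟨d, w, h₁, h₂, hW, hw⟩ := T.exists_basis W
    exact ⟨d, fun i => ⟨w i, h₁ i, h₂ i⟩, hW, hw⟩

theorem mem_O {x : F} : x ∈ T.red.O ↔ x ∈ T.V₁ ∧ x ∈ T.V₂ := Iff.rfl

theorem ρ_fst (x : T.red.O) : (T.red.ρ x).1 = T.ρ₁ ⟨x, x.2.1⟩ := rfl

theorem ρ_snd (x : T.red.O) : (T.red.ρ x).2 = T.ρ₂ ⟨x, x.2.2⟩ := rfl

/-- `n P₁ + m P₂`. -/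
noncomputable def Dv (n m : ℕ) : Divisor K F :=
  Finsupp.single T.P₁ (n : ℤ) + Finsupp.single T.P₂ (m : ℤ)

theorem Dv_add (n m n' m' : ℕ) : T.Dv (n + n') (m + m') = T.Dv n m + T.Dv n' m' := by
  simp only [Dv]
  push_cast
  rw [Finsupp.single_add, Finsupp.single_add]
  abel

theorem Dv_nonneg (n m : ℕ) : 0 ≤ T.Dv n m :=
  add_nonneg (Finsupp.single_nonneg.mpr (by positivity)) (Finsupp.single_nonneg.mpr (by positivity))

theorem Dv_mono {n m n' m' : ℕ} (hn : n ≤ n') (hm : m ≤ m') : T.Dv n m ≤ T.Dv n' m' := by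
  obtain ⟨a, rfl⟩ := Nat.exists_eq_add_of_le hn
  obtain ⟨b, rfl⟩ := Nat.exists_eq_add_of_le hm
  rw [Dv_add]
  exact le_add_of_nonneg_right (T.Dv_nonneg a b)

theorem nsmul_Dv (e n m : ℕ) : e • T.Dv n m = T.Dv (e * n) (e * m) := by
  induction e with
  | zero =>
    rw [zero_nsmul, zero_mul, zero_mul, Dv]
    simp
  | succ e ih => rw [succ_nsmul, ih, ← Dv_add, Nat.succ_mul, Nat.succ_mul]

variable (hπ : Function.Surjective π)

/-- The reductions `V_n` of `L (n P₁ + n P₂)`. -/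
noncomputable def V (n : ℕ) : Submodule k (κ × κ) :=
  T.red.red hπ (riemannRochSpace (T.Dv n n))

/-- The twisted version. -/
noncomputable def VE (E : Divisor K F) (n : ℕ) : Submodule k (κ × κ) :=
  T.red.red hπ (riemannRochSpace (T.Dv n n + E))

/-- `U_n`. -/
noncomputable def U (n : ℕ) : Submodule k (κ × κ) :=
  (riemannRochSpace (Finsupp.single T.P (n : ℤ) : Divisor k κ)).prod
    (riemannRochSpace (Finsupp.single T.P (n : ℤ) : Divisor k κ))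

theorem VE_zero (n : ℕ) : T.VE hπ 0 n = T.V hπ n := by rw [VE, add_zero, V]

theorem V_mono {n m : ℕ} (h : n ≤ m) : T.V hπ n ≤ T.V hπ m :=
  T.red.red_mono (L_mono (T.Dv_mono h h))

theorem VE_mono (E : Divisor K F) {n m : ℕ} (h : n ≤ m) : T.VE hπ E n ≤ T.VE hπ E m :=
  T.red.red_mono (L_mono (add_le_add_left (T.Dv_mono h h) _))

theorem mem_single_iff {n : ℕ} {a : κ} :
    a ∈ riemannRochSpace (Finsupp.single T.P (n : ℤ) : Divisor k κ) ↔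
      a ∈ reg T.P ∧ T.P.adicValuation a ≤ exp (n : ℤ) := by
  constructor
  · intro h
    refine ⟨fun v hv => ?_, ?_⟩
    · have := h v
      rwa [Finsupp.single_eq_of_ne hv, exp_zero] at this
    · have := h T.P
      rwa [Finsupp.single_eq_same] at this
  · rintro ⟨h1, h2⟩ v
    rcases eq_or_ne v T.P with rfl | hv
    · rwa [Finsupp.single_eq_same]
    · rw [Finsupp.single_eq_of_ne hv, exp_zero]
      exact h1 v hv

theorem mem_U {n : ℕ} {t : κ × κ} : t ∈ T.U n ↔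
    (t.1 ∈ reg T.P ∧ T.P.adicValuation t.1 ≤ exp (n : ℤ)) ∧
    (t.2 ∈ reg T.P ∧ T.P.adicValuation t.2 ≤ exp (n : ℤ)) := by
  rw [U, Submodule.mem_prod, mem_single_iff, mem_single_iff]

theorem U_mono {n m : ℕ} (h : n ≤ m) : T.U n ≤ T.U m := by
  intro t ht
  rw [mem_U] at ht ⊢
  have : (exp (n : ℤ) : ℤᵐ⁰) ≤ exp (m : ℤ) := by rw [exp_le_exp]; exact_mod_cast h
  exact ⟨⟨ht.1.1, ht.1.2.trans this⟩, ht.2.1, ht.2.2.trans this⟩

theorem V_le_U (n : ℕ) : T.V hπ n ≤ T.U n := by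
  rintro _ ⟨x, hx, rfl⟩
  have := T.red_mem n n x x.2.1 x.2.2 hx
  exact this

theorem mul_mem_VE {E E' : Divisor K F} {n m : ℕ} {s t : κ × κ} (hs : s ∈ T.VE hπ E n)
    (ht : t ∈ T.VE hπ E' m) : s * t ∈ T.VE hπ (E + E') (n + m) := by
  obtain ⟨x, hx, rfl⟩ := hs
  obtain ⟨y, hy, rfl⟩ := ht
  refine ⟨x * y, ?_, map_mul _ _ _⟩
  have h := mul_mem_L hx hy
  rw [Dv_add]
  have h2 : T.Dv n n + E + (T.Dv m m + E') = T.Dv n n + T.Dv m m + (E + E') := by abel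
  rw [h2] at h
  exact h

theorem mul_mem_V {n m : ℕ} {s t : κ × κ} (hs : s ∈ T.V hπ n)
    (ht : t ∈ T.V hπ m) : s * t ∈ T.V hπ (n + m) := by
  rw [← VE_zero] at hs ht ⊢
  have := T.mul_mem_VE hπ hs ht
  rwa [add_zero] at this

theorem one_mem_V (n : ℕ) : (1 : κ × κ) ∈ T.V hπ n :=
  ⟨1, one_mem_L (T.Dv_nonneg n n), map_one _⟩

theorem pow_mem_V {n : ℕ} {s : κ × κ} (hs : s ∈ T.V hπ n) (e : ℕ) :
    s ^ e ∈ T.V hπ (e * n) := by
  induction e with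
  | zero => rw [pow_zero]; exact T.one_mem_V hπ _
  | succ e ih =>
    rw [pow_succ, Nat.succ_mul]
    exact T.mul_mem_V hπ ih hs

/-- The ring of all reductions of functions regular outside `P₁, P₂`. -/
noncomputable def glueRing : Subring (κ × κ) where
  carrier := {t | ∃ n, t ∈ T.V hπ n}
  mul_mem' := by
    rintro s t ⟨n, hs⟩ ⟨m, ht⟩
    exact ⟨_, T.mul_mem_V hπ hs ht⟩
  one_mem' := ⟨0, T.one_mem_V hπ 0⟩
  add_mem' := by
    rintro s t ⟨n, hs⟩ ⟨m, ht⟩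
    exact ⟨max n m, Submodule.add_mem _ (T.V_mono hπ (le_max_left _ _) hs)
      (T.V_mono hπ (le_max_right _ _) ht)⟩
  zero_mem' := ⟨0, Submodule.zero_mem _⟩
  neg_mem' := by
    rintro s ⟨n, hs⟩
    exact ⟨n, Submodule.neg_mem _ hs⟩

theorem mem_glueRing {t : κ × κ} : t ∈ T.glueRing hπ ↔ ∃ n, t ∈ T.V hπ n := Iff.rfl

theorem glueRing_reg {t : κ × κ} (ht : t ∈ T.glueRing hπ) : t.1 ∈ reg T.P ∧ t.2 ∈ reg T.P := by
  obtain ⟨n, hn⟩ := ht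
  have := T.mem_U.mp (T.V_le_U hπ n hn)
  exact ⟨this.1.1, this.2.1⟩

theorem exists_mem_single {a : κ} (ha : a ∈ reg T.P) (i₀ : ℕ) : ∃ i ≥ i₀,
    a ∈ riemannRochSpace (Finsupp.single T.P (i : ℤ) : Divisor k κ) := by
  refine ⟨max i₀ (-T.P.ord a).toNat, le_max_left _ _, ?_⟩
  rw [mem_single_iff]
  refine ⟨ha, ?_⟩
  rcases eq_or_ne a 0 with rfl | h0
  · simp
  rw [T.P.adicValuation_eq_exp_neg_ord h0, exp_le_exp]
  have h1 := Int.self_le_toNat (-T.P.ord a)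
  have h2 : ((-T.P.ord a).toNat : ℤ) ≤ ((max i₀ (-T.P.ord a).toNat : ℕ) : ℤ) := by
    exact_mod_cast le_max_right _ _
  omega

theorem lift_mem₁ {a : κ} (ha : a ∈ reg T.P) : (a, T.Φ a) ∈ T.glueRing hπ := by
  obtain ⟨i₀, hi₀⟩ := T.lift
  obtain ⟨i, hi, hai⟩ := T.exists_mem_single ha i₀
  obtain ⟨⟨x, h₁, h₂, hx, hρ₁, hρ₂⟩, -⟩ := hi₀ i hi a hai
  refine ⟨max i (q * i), ⟨x, h₁, h₂⟩, ?_, Prod.ext hρ₁ hρ₂⟩
  exact L_mono (T.Dv_mono (le_max_left _ _) (le_max_right _ _)) hx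

theorem lift_mem₂ {a : κ} (ha : a ∈ reg T.P) : (T.Φ a, a) ∈ T.glueRing hπ := by
  obtain ⟨i₀, hi₀⟩ := T.lift
  obtain ⟨i, hi, hai⟩ := T.exists_mem_single ha i₀
  obtain ⟨-, ⟨x, h₁, h₂, hx, hρ₁, hρ₂⟩⟩ := hi₀ i hi a hai
  refine ⟨max (q * i) i, ⟨x, h₁, h₂⟩, ?_, Prod.ext hρ₁ hρ₂⟩
  exact L_mono (T.Dv_mono (le_max_left _ _) (le_max_right _ _)) hx

variable [IsAlgClosed k] [IsFF k κ]

/-- The set of glued places ("supersingular points"). -/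
def SS : Set (Place k κ) := SSset T.P T.fr (T.glueRing hπ : Set (κ × κ))

theorem finite_SS (hq : 2 ≤ q) : (T.SS hπ).Finite :=
  (finite_fix hq T.Φ_fr T.fr_P).subset fun _ hv => ⟨hv.1, hv.2.1⟩

theorem mem_glueRing_iff (hq : 2 ≤ q) {t : κ × κ} : t ∈ T.glueRing hπ ↔
    t.1 ∈ reg T.P ∧ t.2 ∈ reg T.P ∧ ∀ v ∈ T.SS hπ, val v t.1 = val (T.fr • v) t.2 := by
  constructor
  · intro ht
    have h := T.glueRing_reg hπ ht
    exact ⟨h.1, h.2, fun v hv => hv.2.2 t ht⟩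
  · rintro ⟨h1, h2, h3⟩
    exact mem_glue hq T.Φ_fr T.fr_P (T.glueRing hπ) (fun t ht => T.glueRing_reg hπ ht)
      (fun a ha => T.lift_mem₁ hπ ha) (fun a ha => T.lift_mem₂ hπ ha) h1 h2 h3

/-- Elements with prescribed pole on the first component and zero on the second. -/
theorem exists_pole₁ (hq : 2 ≤ q) : ∃ j₀ : ℕ, ∀ j ≥ j₀,
    (∃ s ∈ T.V hπ j, T.P.adicValuation s.1 = exp (j : ℤ) ∧ s.2 = 0) ∧
    (∃ s ∈ T.V hπ j, T.P.adicValuation s.2 = exp (j : ℤ) ∧ s.1 = 0) := by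
  obtain ⟨i₀, hi₀⟩ := T.lift
  set B : ℕ := max i₀ (2 * genusFF k κ + 1) with hB
  refine ⟨B + q ^ 2 * (B + q ^ 2), fun j hj => ?_⟩
  -- choose `i` and `l`
  have hq2 : 0 < q ^ 2 := by positivity
  obtain ⟨i, l, hjil, hiB, hlB, hBl⟩ : ∃ i l : ℕ, j = q ^ 2 * i + l ∧ B + q ^ 2 ≤ i ∧
      l < B + q ^ 2 ∧ B ≤ l := by
    refine ⟨(j - B) / q ^ 2, B + (j - B) % q ^ 2, ?_, ?_, ?_, Nat.le_add_right _ _⟩
    · have := Nat.div_add_mod (j - B) (q ^ 2)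
      have hBj : B ≤ j := (Nat.le_add_right _ _).trans hj
      omega
    · rw [Nat.le_div_iff_mul_le hq2]
      have : (B + q ^ 2) * q ^ 2 = q ^ 2 * (B + q ^ 2) := by ring
      omega
    · have := Nat.mod_lt (j - B) hq2
      omega
  have hi₀i : i₀ ≤ i := by have := le_max_left i₀ (2 * genusFF k κ + 1); omega
  have hgi : 2 * genusFF k κ + 1 ≤ i := by have := le_max_right i₀ (2 * genusFF k κ + 1); omega
  have hi₀l : i₀ ≤ l := by have := le_max_left i₀ (2 * genusFF k κ + 1); omega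
  have hgl : 2 * genusFF k κ + 1 ≤ l := by have := le_max_right i₀ (2 * genusFF k κ + 1); omega
  have hqi : i ≤ q * i := Nat.le_mul_of_pos_left i (by omega)
  have hlqi : l ≤ q * i := by omega
  have hqq : q * (q * i) = q ^ 2 * i := by ring
  have hbig : q * i + q * l ≤ j := by
    rw [hjil]
    -- (q-1) l ≤ (q-1) q i
    obtain ⟨e, rfl⟩ := Nat.exists_eq_add_of_le hq
    have h1 : (1 + e) * l ≤ (1 + e) * ((2 + e) * i) := Nat.mul_le_mul_left _ hlqi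
    nlinarith
  obtain ⟨a, ha, haP⟩ := exists_pole T.P (n := i) (by omega)
  obtain ⟨b, hb, hbP⟩ := exists_pole T.P (n := l) (by omega)
  have hai : a ∈ riemannRochSpace (Finsupp.single T.P (i : ℤ) : Divisor k κ) :=
    T.mem_single_iff.mpr ⟨ha, haP.le⟩
  have hbl : b ∈ riemannRochSpace (Finsupp.single T.P (l : ℤ) : Divisor k κ) :=
    T.mem_single_iff.mpr ⟨hb, hbP.le⟩
  have hΦa : T.Φ a ∈ riemannRochSpace (Finsupp.single T.P ((q * i : ℕ) : ℤ) : Divisor k κ) := by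
    rw [mem_single_iff]
    refine ⟨Φ_mem_reg T.Φ_fr T.fr_P ha, ?_⟩
    rw [adic_Φ T.Φ_fr, T.fr_P, haP, ← exp_nsmul, exp_le_exp]
    simp
  obtain ⟨⟨xa, xa₁, xa₂, hxa, hxaρ₁, hxaρ₂⟩, ⟨ya, ya₁, ya₂, hya, hyaρ₁, hyaρ₂⟩⟩ :=
    hi₀ i hi₀i a hai
  obtain ⟨⟨xb, xb₁, xb₂, hxb, hxbρ₁, hxbρ₂⟩, ⟨yb, yb₁, yb₂, hyb, hybρ₁, hybρ₂⟩⟩ :=
    hi₀ l hi₀l b hbl
  obtain ⟨⟨xc, xc₁, xc₂, hxc, hxcρ₁, hxcρ₂⟩, ⟨yc, yc₁, yc₂, hyc, hycρ₁, hycρ₂⟩⟩ :=
    hi₀ (q * i) (by omega) (T.Φ a) hΦa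
  have hord : T.P.adicValuation (b * (a - T.Φ (T.Φ a))) = exp (j : ℤ) := by
    have h1 : T.P.adicValuation (T.Φ (T.Φ a)) = exp ((q ^ 2 * i : ℕ) : ℤ) := by
      rw [adic_Φ T.Φ_fr, adic_Φ T.Φ_fr, T.fr_P, T.fr_P, haP, ← exp_nsmul, ← exp_nsmul, exp_inj]
      simp only [nsmul_eq_mul]
      push_cast
      ring
    have h2 : T.P.adicValuation (a - T.Φ (T.Φ a)) = exp ((q ^ 2 * i : ℕ) : ℤ) := by
      rw [Valuation.map_sub_swap, sub_eq_add_neg, Valuation.map_add_eq_of_lt_left, h1]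
      rw [Valuation.map_neg, haP, h1, exp_lt_exp]
      have : i < q ^ 2 * i := by
        have h3 : 4 * i ≤ q ^ 2 * i := Nat.mul_le_mul_right _ (by nlinarith)
        omega
      exact_mod_cast this
    rw [map_mul, hbP, h2, ← exp_add, exp_inj, hjil]
    push_cast
    ring
  constructor
  · refine ⟨(b * (a - T.Φ (T.Φ a)), 0), ?_, hord, rfl⟩
    -- xa xb - yc xb
    let z : T.red.O := ⟨xb, xb₁, xb₂⟩ * (⟨xa, xa₁, xa₂⟩ - ⟨yc, yc₁, yc₂⟩)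
    refine ⟨z, ?_, ?_⟩
    · have h1 : (z : F) = xb * (xa - yc) := rfl
      rw [h1]
      have hsub : xa - yc ∈ riemannRochSpace (T.Dv (q * (q * i)) (q * i)) := by
        refine Submodule.sub_mem _ (L_mono (T.Dv_mono ?_ le_rfl) hxa) hyc
        rw [hqq]
        exact Nat.le_mul_of_pos_left i hq2
      have := mul_mem_L hxb hsub
      refine L_mono ?_ this
      change T.Dv l (q * l) + _ ≤ _
      rw [← Dv_add]
      exact T.Dv_mono (by rw [hqq]; omega) (by omega)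
    · rw [map_mul, map_sub]
      refine Prod.ext ?_ ?_
      · change T.ρ₁ ⟨xb, xb₁⟩ * (T.ρ₁ ⟨xa, xa₁⟩ - T.ρ₁ ⟨yc, yc₁⟩) = _
        rw [hxbρ₁, hxaρ₁, hycρ₁]
      · change T.ρ₂ ⟨xb, xb₂⟩ * (T.ρ₂ ⟨xa, xa₂⟩ - T.ρ₂ ⟨yc, yc₂⟩) = _
        rw [hxaρ₂, hycρ₂, sub_self, mul_zero]
  · refine ⟨(0, b * (a - T.Φ (T.Φ a))), ?_, hord, rfl⟩
    let z : T.red.O := ⟨yb, yb₁, yb₂⟩ * (⟨ya, ya₁, ya₂⟩ - ⟨xc, xc₁, xc₂⟩)
    refine ⟨z, ?_, ?_⟩
    · have h1 : (z : F) = yb * (ya - xc) := rfl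
      rw [h1]
      have hsub : ya - xc ∈ riemannRochSpace (T.Dv (q * i) (q * (q * i))) := by
        refine Submodule.sub_mem _ (L_mono (T.Dv_mono le_rfl ?_) hya) hxc
        rw [hqq]
        exact Nat.le_mul_of_pos_left i hq2
      have := mul_mem_L hyb hsub
      refine L_mono ?_ this
      change T.Dv (q * l) l + _ ≤ _
      rw [← Dv_add]
      exact T.Dv_mono (by omega) (by rw [hqq]; omega)
    · rw [map_mul, map_sub]
      refine Prod.ext ?_ ?_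
      · change T.ρ₁ ⟨yb, yb₁⟩ * (T.ρ₁ ⟨ya, ya₁⟩ - T.ρ₁ ⟨xc, xc₁⟩) = _
        rw [hyaρ₁, hxcρ₁, sub_self, mul_zero]
      · change T.ρ₂ ⟨yb, yb₂⟩ * (T.ρ₂ ⟨ya, ya₂⟩ - T.ρ₂ ⟨xc, xc₂⟩) = _
        rw [hybρ₂, hyaρ₂, hxcρ₂]

end TwoComp

end Fermat.Agent.H89SS
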