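import Fermat.Agent.H89SS6

/-!
# Two-component reduction: structure of the reductions `V_n` and of their twists
-/

set_option autoImplicit false

open AlgebraicCurve WithZero Fermat.Agent.H3RR Module

namespace Fermat.Agent.H89SS

theorem ORed.exists_const_mul_of_ρ_eq_zero {K k F T : Type*} [Field K] [Field k] [Field F]
    [Algebra K F] [CommRing T] [Algebra k T] {A : ValuationSubring K} {π : A →+* k}
    (R : ORed F T A π) [IsLocalHom π] (x : R.O) (hx : R.ρ x = 0) :
    ∃ (a : A) (z : R.O), π a = 0 ∧ x = R.const a * z := by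
  classical
  by_cases hx0 : x = 0
  · exact ⟨0, 0, map_zero _, by rw [hx0, mul_zero]⟩
  obtain ⟨d, w, hW, hw⟩ := R.exists_basis (Submodule.span K {(x : F)})
  have h1 : (x : F) ∈ Submodule.span K (Set.range fun i => (w i : F)) := by
    rw [hW]; exact Submodule.mem_span_singleton_self _
  rw [Submodule.mem_span_range_iff_exists_fun] at h1
  obtain ⟨c, hc⟩ := h1
  have hA := R.coeff_mem w hw c x hc.symm
  have hx1 : x = ∑ i, R.const ⟨c i, hA i⟩ * w i := by
    apply Subtype.ext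
    push_cast
    rw [← hc]
    exact Finset.sum_congr rfl fun i _ => by rw [ORed.coe_const, Algebra.smul_def]
  have hπc : ∀ i, π ⟨c i, hA i⟩ = 0 := by
    have h2 : ∑ i, π ⟨c i, hA i⟩ • R.ρ (w i) = 0 := by
      rw [← hx, hx1, map_sum]
      exact Finset.sum_congr rfl fun i _ => (R.ρ_const_mul _ _).symm
    exact Fintype.linearIndependent_iff.mp hw _ h2
  have hc0 : c ≠ 0 := by
    rintro rfl
    apply hx0
    apply Subtype.ext
    rw [← hc]
    simp
  obtain ⟨i, hi, hiA⟩ := ORed.exists_scale (A := A) c hc0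
  refine ⟨⟨c i, hA i⟩, ∑ j, R.const ⟨(c i)⁻¹ * c j, hiA j⟩ * w j, hπc i, ?_⟩
  rw [Finset.mul_sum, hx1]
  refine Finset.sum_congr rfl fun j _ => ?_
  rw [← mul_assoc, ← map_mul]
  congr 2
  apply Subtype.ext
  change c j = c i * ((c i)⁻¹ * c j)
  rw [← mul_assoc, mul_inv_cancel₀ hi, one_mul]

section Line

/-- The "line lemma". -/
theorem exists_zeta {k M : Type*} [Field k] [AddCommGroup M] [Module k M] (X : Submodule k M)
    (e e' : M → k) (hadd : ∀ x ∈ X, ∀ y ∈ X, e (x + y) = e x + e y)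
    (hsmul : ∀ (c : k), ∀ x ∈ X, e (c • x) = c * e x)
    (hadd' : ∀ x ∈ X, ∀ y ∈ X, e' (x + y) = e' x + e' y)
    (hsmul' : ∀ (c : k), ∀ x ∈ X, e' (c • x) = c * e' x) {d : ℕ} (hd : d ≠ 0)
    (h : ∀ x ∈ X, e x ^ d = e' x ^ d) : ∃ ζ : k, ζ ^ d = 1 ∧ ∀ x ∈ X, e x = ζ * e' x := by
  by_cases h0 : ∀ x ∈ X, e x = 0
  · refine ⟨1, one_pow _, fun x hx => ?_⟩
    have h1 := h x hx
    rw [h0 x hx, zero_pow hd] at h1
    rw [h0 x hx, one_mul]
    exact (pow_eq_zero_iff hd).mp h1.symm |>.symm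
  · push Not at h0
    obtain ⟨x₀, hx₀, hne⟩ := h0
    have hne' : e' x₀ ≠ 0 := by
      intro h1
      have h2 := h x₀ hx₀
      rw [h1, zero_pow hd] at h2
      exact hne ((pow_eq_zero_iff hd).mp h2)
    refine ⟨e x₀ / e' x₀, by rw [div_pow, h x₀ hx₀, div_self (pow_ne_zero _ hne')],
      fun x hx => ?_⟩
    -- `y = x - (e x / e x₀) x₀` lies in the kernels
    set c : k := -(e x / e x₀) with hc
    have hy : x + c • x₀ ∈ X := X.add_mem hx (X.smul_mem _ hx₀)
    have h1 : e (x + c • x₀) = 0 := by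
      rw [hadd _ hx _ (X.smul_mem _ hx₀), hsmul _ _ hx₀, hc]
      field_simp
      ring
    have h2 := h _ hy
    rw [h1, zero_pow hd] at h2
    have h3 := (pow_eq_zero_iff hd).mp h2.symm
    rw [hadd' _ hx _ (X.smul_mem _ hx₀), hsmul' _ _ hx₀, hc] at h3
    field_simp
    field_simp at h3
    linear_combination -h3

end Line

section Prescribed

variable {k κ : Type*} [Field k] [Field κ] [Algebra k κ] [IsAlgClosed k] [IsFF k κ]

/-- Functions with prescribed values. -/
theorem exists_prescribed (P : Place k κ) (S : Finset (Place k κ)) (hPS : P ∉ S) :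
    ∃ n₂ : ℕ, ∀ n ≥ n₂, ∀ c : Place k κ → k,
      ∃ r ∈ riemannRochSpace (Finsupp.single P (n : ℤ) : Divisor k κ),
        ∀ v ∈ S, val v r = c v := by
  classical
  have h1 : ∀ u : Place k κ, ∃ r ∈ reg P, ∀ v ∈ S, val v r = if v = u then 1 else 0 := by
    intro u
    obtain ⟨r, hr, hr'⟩ := exists_reg_approx P S hPS (fun v => if v = u then 1 else 0)
      (fun v _ => by by_cases h : v = u <;> simp [h]) 1
    refine ⟨r, hr, fun v hv => val_eq ?_⟩
    have h2 := hr' v hv
    have h3 : algebraMap k κ (if v = u then 1 else 0) = if v = u then 1 else 0 := by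
      split_ifs <;> simp
    rw [h3]
    refine h2.trans_lt ?_
    rw [← exp_zero, exp_lt_exp]
    norm_num
  choose e he hev using h1
  refine ⟨∑ u ∈ S, (-P.ord (e u)).toNat, fun n hn c => ⟨∑ u ∈ S, c u • e u, ?_, ?_⟩⟩
  · refine Submodule.sum_mem _ fun u hu => Submodule.smul_mem _ _ ?_
    intro v
    rcases eq_or_ne v P with rfl | hv
    · rw [Finsupp.single_eq_same]
      rcases eq_or_ne (e u) 0 with h0 | h0
      · rw [h0, map_zero]; exact zero_le
      rw [v.adicValuation_eq_exp_neg_ord h0, exp_le_exp]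
      have h4 : (-v.ord (e u)).toNat ≤ ∑ u ∈ S, (-v.ord (e u)).toNat :=
        Finset.single_le_sum (f := fun u : Place k κ => (-v.ord (e u)).toNat)
          (fun _ _ => Nat.zero_le _) hu
      have := Int.self_le_toNat (-v.ord (e u))
      omega
    · rw [Finsupp.single_eq_of_ne hv, exp_zero]
      exact he u v hv
  · intro v hv
    have hvP : v ≠ P := fun h => hPS (h ▸ hv)
    have hsum : ∀ S' : Finset (Place k κ), val v (∑ u ∈ S', c u • e u) =
        ∑ u ∈ S', c u * val v (e u) := by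
      intro S'
      induction S' using Finset.induction_on with
      | empty => simp [val_zero]
      | insert a s ha ih =>
        rw [Finset.sum_insert ha, Finset.sum_insert ha, val_add, val_smul (he a v hvP), ih]
        · exact (reg P).smul_mem (he a) (c a) v hvP
        · exact (reg P).sum_mem (fun u _ => (reg P).smul_mem (he u) (c u)) v hvP
    rw [hsum, Finset.sum_eq_single v]
    · rw [hev v v hv, if_pos rfl, mul_one]
    · intro u _ huv
      rw [hev u v hv, if_neg (Ne.symm huv), mul_zero]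
    · intro h
      exact absurd hv h

end Prescribed

namespace TwoComp

variable {K F k κ : Type*} [Field K] [Field F] [Algebra K F] [Field k] [Field κ]
    [Algebra k κ] {A : ValuationSubring K} {π : A →+* k} {q : ℕ} (T : TwoComp K F k κ A π q)
    (hπ : Function.Surjective π) [IsAlgClosed K] [IsAlgClosed k] [IsFF K F] [IsFF k κ]

omit [IsAlgClosed k] [IsFF k κ] in
theorem degree_Dv (n m : ℕ) : Divisor.degree (T.Dv n m) = n + m := by
  rw [Dv, map_add, Divisor.degree_single, Divisor.degree_single, deg_eq_one, deg_eq_one]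
  simp

omit [IsAlgClosed k] [IsFF k κ] in
theorem finrank_VE [IsLocalHom π] {E : Divisor K F} (hE : Divisor.degree E = 0) {n : ℕ}
    (hn : genusFF K F ≤ n) : (finrank k (T.VE hπ E n) : ℤ) = 2 * n + 1 - genusFF K F := by
  have h1 : Divisor.degree (T.Dv n n + E) = 2 * n := by
    rw [map_add, hE, degree_Dv]; ring
  have h2 := ell_of_degree_gt (D := T.Dv n n + E) (by rw [h1]; omega)
  rw [VE, T.red.finrank_red]
  rw [ell, h1] at h2
  exact h2

omit [IsAlgClosed k] [IsFF k κ] in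
theorem finrank_V [IsLocalHom π] {n : ℕ}
    (hn : genusFF K F ≤ n) : (finrank k (T.V hπ n) : ℤ) = 2 * n + 1 - genusFF K F := by
  rw [← VE_zero]
  exact T.finrank_VE hπ (map_zero _) hn

omit [IsAlgClosed k] [IsFF k κ] in
theorem finiteDimensional_VE [IsLocalHom π] (E : Divisor K F) (n : ℕ) :
    FiniteDimensional k (T.VE hπ E n) := T.red.finiteDimensional_red _

omit [IsAlgClosed k] [IsFF k κ] in
theorem finiteDimensional_V [IsLocalHom π] (n : ℕ) :
    FiniteDimensional k (T.V hπ n) := T.red.finiteDimensional_red _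

omit [IsAlgClosed K] [IsFF K F] in
theorem finiteDimensional_U (n : ℕ) : FiniteDimensional k (T.U n) := by
  have h := finite_L (Finsupp.single T.P (n : ℤ) : Divisor k κ)
  exact Module.Finite.iff_fg.mpr
    ((Module.Finite.iff_fg.mp h).prod (Module.Finite.iff_fg.mp h))

/-- (C3) for one step. -/
theorem mem_V_of_step [IsLocalHom π] (hq : 2 ≤ q) : ∃ n₁ : ℕ, genusFF K F ≤ n₁ ∧ ∀ n ≥ n₁,
    (∃ s ∈ T.V hπ n, T.P.adicValuation s.1 = exp (n : ℤ) ∧ s.2 = 0) ∧
    (∃ s ∈ T.V hπ n, T.P.adicValuation s.2 = exp (n : ℤ) ∧ s.1 = 0) ∧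
    ∀ t ∈ T.V hπ (n + 1), t ∈ T.U n → t ∈ T.V hπ n := by
  obtain ⟨j₀, hj₀⟩ := T.exists_pole₁ hπ hq
  refine ⟨max j₀ (genusFF K F), le_max_right _ _, fun n hn => ⟨(hj₀ n
    ((le_max_left _ _).trans hn)).1, (hj₀ n ((le_max_left _ _).trans hn)).2,
    fun t ht htU => ?_⟩⟩
  have hng : genusFF K F ≤ n := (le_max_right _ _).trans hn
  have hfin := T.finiteDimensional_V hπ (n + 1)
  obtain ⟨⟨s, hs, hsP, hs0⟩, ⟨s', hs', hs'P, hs'0⟩⟩ := hj₀ (n + 1)
    (((le_max_left _ _).trans hn).trans (Nat.le_succ n))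
  set M : Submodule k (κ × κ) := T.V hπ (n + 1) ⊓ T.U n with hM
  have hMfin : FiniteDimensional k M := Submodule.finiteDimensional_of_le inf_le_left
  have hle : T.V hπ n ≤ M := le_inf (T.V_mono hπ (Nat.le_succ n)) (T.V_le_U hπ n)
  -- key: a combination in `U n` is trivial
  have key : ∀ a b : k, a • s + b • s' ∈ T.U n → a = 0 ∧ b = 0 := by
    intro a b hab
    rw [mem_U] at hab
    have h1 : (a • s + b • s').1 = a • s.1 := by
      rw [Prod.fst_add, Prod.smul_fst, Prod.smul_fst, hs'0, smul_zero, add_zero]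
    have h2 : (a • s + b • s').2 = b • s'.2 := by
      rw [Prod.snd_add, Prod.smul_snd, Prod.smul_snd, hs0, smul_zero, zero_add]
    rw [h1, h2] at hab
    constructor
    · by_contra ha
      have h3 := hab.1.2
      rw [Algebra.smul_def, map_mul, adicValuation_algebraMap _ ha, one_mul, hsP, exp_le_exp] at h3
      push_cast at h3
      omega
    · by_contra hb
      have h3 := hab.2.2
      rw [Algebra.smul_def, map_mul, adicValuation_algebraMap _ hb, one_mul, hs'P, exp_le_exp] at h3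
      push_cast at h3
      omega
  set N : Submodule k (κ × κ) := Submodule.span k (Set.range ![s, s']) with hN
  have hNfin : FiniteDimensional k N := FiniteDimensional.span_of_finite k (Set.finite_range _)
  have hind : LinearIndependent k ![s, s'] := by
    rw [LinearIndependent.pair_iff]
    intro a b hab
    exact key a b (by rw [hab]; exact Submodule.zero_mem _)
  have hN2 : finrank k N = 2 := by
    rw [hN, finrank_span_eq_card hind, Fintype.card_fin]
  have hdisj : M ⊓ N = ⊥ := by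
    rw [eq_bot_iff]
    rintro x ⟨hxM, hxN⟩
    rw [SetLike.mem_coe, hN, Submodule.mem_span_range_iff_exists_fun] at hxN
    obtain ⟨c, hc⟩ := hxN
    rw [Fin.sum_univ_two] at hc
    simp only [Matrix.cons_val_zero, Matrix.cons_val_one] at hc
    have h3 : c 0 • s + c 1 • s' ∈ T.U n := by rw [hc]; exact hxM.2
    obtain ⟨h4, h5⟩ := key _ _ h3
    rw [h4, h5, zero_smul, zero_smul, add_zero] at hc
    exact hc.symm
  have hsup : M ⊔ N ≤ T.V hπ (n + 1) := by
    refine sup_le inf_le_left ?_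
    rw [hN, Submodule.span_le]
    rintro _ ⟨i, rfl⟩
    fin_cases i
    · exact hs
    · exact hs'
  have h6 := Submodule.finrank_sup_add_finrank_inf_eq M N
  rw [hdisj, finrank_bot, add_zero, hN2] at h6
  have h7 := Submodule.finrank_mono hsup
  have h8 := T.finrank_V hπ hng
  have h9 := T.finrank_V hπ (n := n + 1) (hng.trans (Nat.le_succ n))
  push_cast at h9
  have h10 : T.V hπ n = M := Submodule.eq_of_le_of_finrank_le hle (by omega)
  rw [h10]
  exact ⟨ht, htU⟩

/-- (C3): the filtration of the ring of glued pairs is the filtration by pole orders. -/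
theorem exists_level [IsLocalHom π] (hq : 2 ≤ q) : ∃ n₁ : ℕ, genusFF K F ≤ n₁ ∧ ∀ n ≥ n₁,
    (∃ s ∈ T.V hπ n, T.P.adicValuation s.1 = exp (n : ℤ) ∧ s.2 = 0) ∧
    (∃ s ∈ T.V hπ n, T.P.adicValuation s.2 = exp (n : ℤ) ∧ s.1 = 0) ∧
    ∀ t ∈ T.glueRing hπ, t ∈ T.U n → t ∈ T.V hπ n := by
  obtain ⟨n₁, hg, h⟩ := T.mem_V_of_step hπ hq
  refine ⟨n₁, hg, fun n hn => ⟨(h n hn).1, (h n hn).2.1, ?_⟩⟩
  rintro t ⟨m, hm⟩ ht
  obtain ⟨c, hc⟩ : ∃ c, m ≤ n + c := ⟨m, Nat.le_add_left _ _⟩
  have hm' := T.V_mono hπ hc hm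
  clear hc hm
  induction c with
  | zero => exact hm'
  | succ c ih => exact ih ((h (n + c) (by omega)).2.2 t hm' (T.U_mono (by omega) ht))


section Twist

variable (ζ : Place k κ → k)

/-- The twisted gluing subspaces. -/
def Uz (n : ℕ) : Submodule k (κ × κ) where
  carrier := {t | t ∈ T.U n ∧ ∀ v ∈ T.SS hπ, val v t.1 = ζ v * val (T.fr • v) t.2}
  zero_mem' := ⟨Submodule.zero_mem _, fun v _ => by simp [val_zero]⟩
  add_mem' := by
    rintro s t ⟨hs, hs'⟩ ⟨ht, ht'⟩
    refine ⟨Submodule.add_mem _ hs ht, fun v hv => ?_⟩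
    rw [mem_U] at hs ht
    have hv' := smul_ne T.fr_P hv.1
    rw [Prod.fst_add, Prod.snd_add, val_add (hs.1.1 v hv.1) (ht.1.1 v hv.1),
      val_add (hs.2.1 _ hv') (ht.2.1 _ hv'), hs' v hv, ht' v hv]
    ring
  smul_mem' := by
    rintro c t ⟨ht, ht'⟩
    refine ⟨Submodule.smul_mem _ _ ht, fun v hv => ?_⟩
    rw [mem_U] at ht
    have hv' := smul_ne T.fr_P hv.1
    rw [Prod.smul_fst, Prod.smul_snd, val_smul (ht.1.1 v hv.1), val_smul (ht.2.1 _ hv'), ht' v hv]
    ring

omit [IsAlgClosed K] [IsFF K F] in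
theorem mem_Uz {n : ℕ} {t : κ × κ} : t ∈ T.Uz hπ ζ n ↔
    t ∈ T.U n ∧ ∀ v ∈ T.SS hπ, val v t.1 = ζ v * val (T.fr • v) t.2 := Iff.rfl

omit [IsAlgClosed K] [IsFF K F] in
theorem finiteDimensional_Uz (n : ℕ) : FiniteDimensional k (T.Uz hπ ζ n) := by
  have := T.finiteDimensional_U n
  exact Submodule.finiteDimensional_of_le (S₂ := T.U n) fun t ht => ht.1

omit [IsAlgClosed K] [IsFF K F] in
/-- For `n` large the dimension of `Uz` is independent of `ζ`. -/
theorem finrank_Uz (hq : 2 ≤ q) : ∃ n₂ : ℕ, ∀ n ≥ n₂, ∀ ζ : Place k κ → k,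
    finrank k (T.Uz hπ ζ n) + (T.finite_SS hπ hq).toFinset.card = finrank k (T.U n) := by
  classical
  set S := (T.finite_SS hπ hq).toFinset with hS
  have hSm : ∀ v, v ∈ S ↔ v ∈ T.SS hπ := fun v => Set.Finite.mem_toFinset _
  have hPS : T.P ∉ S := fun h => ((hSm _).mp h).1 rfl
  obtain ⟨n₂, hn₂⟩ := exists_prescribed T.P S hPS
  refine ⟨n₂, fun n hn ζ => ?_⟩
  have := T.finiteDimensional_U n
  -- the evaluation map
  let ev : T.U n →ₗ[k] (S → k) :=
    { toFun := fun t v => val (v : Place k κ) t.1.1 - ζ v * val (T.fr • (v : Place k κ)) t.1.2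
      map_add' := by
        rintro ⟨s, hs⟩ ⟨t, ht⟩
        funext v
        rw [mem_U] at hs ht
        have hv := (hSm v).mp v.2
        have hv' := smul_ne T.fr_P hv.1
        simp only [Pi.add_apply]
        change val (v : Place k κ) (s.1 + t.1) - ζ v * val (T.fr • (v : Place k κ)) (s.2 + t.2) = _
        rw [val_add (hs.1.1 v hv.1) (ht.1.1 v hv.1), val_add (hs.2.1 _ hv') (ht.2.1 _ hv')]
        ring
      map_smul' := by
        rintro c ⟨t, ht⟩
        funext v
        rw [mem_U] at ht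
        have hv := (hSm v).mp v.2
        have hv' := smul_ne T.fr_P hv.1
        simp only [Pi.smul_apply, RingHom.id_apply, smul_eq_mul]
        change val (v : Place k κ) (c • t.1) - ζ v * val (T.fr • (v : Place k κ)) (c • t.2) = _
        rw [val_smul (ht.1.1 v hv.1), val_smul (ht.2.1 _ hv')]
        ring }
  have hsurj : LinearMap.range ev = ⊤ := by
    rw [LinearMap.range_eq_top]
    intro c
    obtain ⟨r, hr, hrv⟩ := hn₂ n hn (fun v => if h : v ∈ S then c ⟨v, h⟩ else 0)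
    refine ⟨⟨(r, 0), ⟨hr, Submodule.zero_mem _⟩⟩, ?_⟩
    funext v
    change val (v : Place k κ) r - ζ v * val (T.fr • (v : Place k κ)) (0 : κ) = _
    rw [val_zero, mul_zero, sub_zero, hrv v v.2, dif_pos v.2]
  have hker : T.Uz hπ ζ n = (LinearMap.ker ev).map (T.U n).subtype := by
    ext t
    rw [Submodule.mem_map]
    constructor
    · rintro ⟨htU, ht⟩
      refine ⟨⟨t, htU⟩, ?_, rfl⟩
      rw [LinearMap.mem_ker]
      funext v
      change val (v : Place k κ) t.1 - ζ v * val (T.fr • (v : Place k κ)) t.2 = 0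
      rw [ht v ((hSm v).mp v.2), sub_self]
    · rintro ⟨⟨t', ht'⟩, hker, rfl⟩
      refine ⟨ht', fun v hv => ?_⟩
      rw [LinearMap.mem_ker] at hker
      have h1 := congrFun hker ⟨v, (hSm v).mpr hv⟩
      exact sub_eq_zero.mp h1
  have h2 := LinearMap.finrank_range_add_finrank_ker ev
  rw [hsurj, finrank_top, Module.finrank_fintype_fun_eq_card, Fintype.card_coe] at h2
  rw [hker, Submodule.finrank_map_subtype_eq]
  omega

/-- `ζ` is the toric coordinate of `E`. -/
structure IsZeta (E : Divisor K F) (ζ : Place k κ → k) : Prop where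
  degree : Divisor.degree E = 0
  le : ∀ n, T.VE hπ E n ≤ T.Uz hπ ζ n

theorem IsZeta.eventually_eq [IsLocalHom π] (hq : 2 ≤ q) : ∃ N : ℕ, ∀ n ≥ N,
    ((∃ s ∈ T.V hπ n, T.P.adicValuation s.1 = exp (n : ℤ) ∧ s.2 = 0) ∧
    (∃ s ∈ T.V hπ n, T.P.adicValuation s.2 = exp (n : ℤ) ∧ s.1 = 0) ∧
    ∀ t ∈ T.glueRing hπ, t ∈ T.U n → t ∈ T.V hπ n) ∧
    ∀ (E : Divisor K F) (ζ : Place k κ → k), T.IsZeta hπ E ζ →
      T.VE hπ E n = T.Uz hπ ζ n := by
  obtain ⟨n₁, hg, h₁⟩ := T.exists_level hπ hq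
  obtain ⟨n₂, h₂⟩ := T.finrank_Uz hπ hq
  refine ⟨max n₁ n₂, fun n hn => ⟨h₁ n ((le_max_left _ _).trans hn), fun E ζ hE => ?_⟩⟩
  have hn₁ := (le_max_left _ _).trans hn
  have hn₂ := (le_max_right _ _).trans hn
  have := T.finiteDimensional_Uz hπ ζ n
  refine Submodule.eq_of_le_of_finrank_eq (hE.le n) ?_
  have hV : T.V hπ n = T.Uz hπ (fun _ => 1) n := by
    apply le_antisymm
    · intro t ht
      refine ⟨T.V_le_U hπ n ht, fun v hv => ?_⟩
      rw [one_mul]
      exact hv.2.2 t ⟨n, ht⟩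
    · rintro t ⟨ht, htv⟩
      refine (h₁ n hn₁).2.2 t ?_ ht
      rw [mem_glueRing_iff T hπ hq]
      have := T.mem_U.mp ht
      exact ⟨this.1.1, this.2.1, fun v hv => by rw [htv v hv, one_mul]⟩
  have h3 := h₂ n hn₂ ζ
  have h4 := h₂ n hn₂ (fun _ => 1)
  rw [← hV] at h4
  have h5 := T.finrank_V hπ (hg.trans hn₁)
  have h6 := T.finrank_VE hπ hE.degree (hg.trans hn₁)
  omega

end Twist

end TwoComp

end Fermat.Agent.H89SS
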