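import Fermat.Agent.H89SS7

/-!
# Toric coordinates of torsion classes with trivial reductions
-/

set_option autoImplicit false

open AlgebraicCurve WithZero Fermat.Agent.H3RR Module

namespace Fermat.Agent.H89SS

section General

variable {K F : Type*} [Field K] [Field F] [Algebra K F]

theorem smul_mem_L (g : SemilinearAut K F) {D : Divisor K F} {f : F}
    (hf : f ∈ riemannRochSpace D) : g • f ∈ riemannRochSpace (g • D) := by
  intro v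
  have h1 : v = g • (g⁻¹ • v) := by rw [smul_inv_smul]
  have h2 := hf (g⁻¹ • v)
  rw [SemilinearAut.divisor_smul_apply]
  conv_lhs => rw [h1]
  rw [adicValuation_smul]
  exact h2

theorem mem_L_of_ord {D : Divisor K F} {f : F} (h : ∀ v : Place K F, f ≠ 0 → -D v ≤ v.ord f) :
    f ∈ riemannRochSpace D := by
  intro v
  rcases eq_or_ne f 0 with rfl | h0
  · rw [map_zero]; exact zero_le
  rw [v.adicValuation_eq_exp_neg_ord h0, exp_le_exp]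
  have := h v h0
  omega

theorem ord_pow' (v : Place K F) (f : F) (n : ℕ) : v.ord (f ^ n) = n * v.ord f := by
  have := v.ord_zpow f (n : ℤ)
  rwa [zpow_natCast] at this

end General

namespace TwoComp

variable {K F k κ : Type*} [Field K] [Field F] [Algebra K F] [Field k] [Field κ]
    [Algebra k κ] {A : ValuationSubring K} {π : A →+* k} {q : ℕ} (T : TwoComp K F k κ A π q)

/-- A degree `0` divisor with `d E = div f` and `f ≡ (1, 1)`. -/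
structure UnitPair (d : ℕ) (E : Divisor K F) (f : F) : Prop where
  degree : Divisor.degree E = 0
  ord : ∀ v : Place K F, v.ord f = d * E v
  ρ : ∃ h : f ∈ T.red.O, T.red.ρ ⟨f, h⟩ = 1

variable {T}

theorem UnitPair.ne_zero {d : ℕ} {E : Divisor K F} {f : F} (h : T.UnitPair d E f) : f ≠ 0 := by
  rintro rfl
  obtain ⟨h1, h2⟩ := h.ρ
  have h3 : (⟨0, h1⟩ : T.red.O) = 0 := rfl
  rw [h3, map_zero] at h2
  exact zero_ne_one h2

theorem UnitPair.add {d : ℕ} {E E' : Divisor K F} {f f' : F} (h : T.UnitPair d E f)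
    (h' : T.UnitPair d E' f') : T.UnitPair d (E + E') (f * f') where
  degree := by rw [map_add, h.degree, h'.degree, add_zero]
  ord v := by
    rw [v.ord_mul h.ne_zero h'.ne_zero, h.ord, h'.ord, Finsupp.add_apply]
    ring
  ρ := by
    obtain ⟨h1, h2⟩ := h.ρ
    obtain ⟨h1', h2'⟩ := h'.ρ
    refine ⟨T.red.O.mul_mem h1 h1', ?_⟩
    have h3 : (⟨f * f', T.red.O.mul_mem h1 h1'⟩ : T.red.O) = ⟨f, h1⟩ * ⟨f', h1'⟩ := rfl
    rw [h3, map_mul, h2, h2', one_mul]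

theorem UnitPair.zero (d : ℕ) : T.UnitPair d 0 1 where
  degree := map_zero _
  ord v := by simp
  ρ := ⟨T.red.O.one_mem, map_one _⟩

theorem UnitPair.nsmul {d : ℕ} {E : Divisor K F} {f : F} (h : T.UnitPair d E f) (m : ℕ) :
    T.UnitPair d (m • E) (f ^ m) := by
  induction m with
  | zero => rw [zero_nsmul, pow_zero]; exact UnitPair.zero d
  | succ m ih => rw [succ_nsmul, pow_succ]; exact ih.add h

theorem inv_mem_of_ρ_ne_zero {V : ValuationSubring F} {κ' : Type*} [Field κ'] {ρ : V →+* κ'}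
    {f : F} (h : f ∈ V) (h1 : ρ ⟨f, h⟩ ≠ 0) (hloc : IsLocalHom ρ) :
    ∃ h' : f⁻¹ ∈ V, ρ ⟨f⁻¹, h'⟩ = (ρ ⟨f, h⟩)⁻¹ := by
  have h2 : IsUnit (⟨f, h⟩ : V) := (isUnit_map_iff ρ _).mp (isUnit_iff_ne_zero.mpr h1)
  obtain ⟨u, hu⟩ := h2
  have hf0 : f ≠ 0 := by
    rintro rfl
    exact h1 (map_zero ρ)
  have h3 : ((u⁻¹ : Vˣ).val : F) = f⁻¹ := by
    have h4 : (u⁻¹ : Vˣ).val * (⟨f, h⟩ : V) = 1 := by rw [← hu, Units.inv_mul]
    have h5 : ((u⁻¹ : Vˣ).val : F) * f = 1 := congrArg Subtype.val h4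
    exact eq_inv_of_mul_eq_one_left h5
  have h6 : f⁻¹ ∈ V := h3 ▸ (u⁻¹ : Vˣ).val.2
  refine ⟨h6, ?_⟩
  have h7 : (⟨f, h⟩ : V) * ⟨f⁻¹, h6⟩ = 1 := Subtype.ext (mul_inv_cancel₀ hf0)
  have h8 := congrArg ρ h7
  rw [map_mul, map_one] at h8
  exact eq_inv_of_mul_eq_one_right h8

theorem mem_V₁_of_ρ {f : F} (h : f ∈ T.V₁) (h1 : T.ρ₁ ⟨f, h⟩ ≠ 0) :
    ∃ h' : f⁻¹ ∈ T.V₁, T.ρ₁ ⟨f⁻¹, h'⟩ = (T.ρ₁ ⟨f, h⟩)⁻¹ :=
  inv_mem_of_ρ_ne_zero h h1 T.local₁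

theorem mem_V₂_of_ρ {f : F} (h : f ∈ T.V₂) (h1 : T.ρ₂ ⟨f, h⟩ ≠ 0) :
    ∃ h' : f⁻¹ ∈ T.V₂, T.ρ₂ ⟨f⁻¹, h'⟩ = (T.ρ₂ ⟨f, h⟩)⁻¹ :=
  inv_mem_of_ρ_ne_zero h h1 T.local₂

theorem UnitPair.neg {d : ℕ} {E : Divisor K F} {f : F} (h : T.UnitPair d E f) :
    T.UnitPair d (-E) f⁻¹ where
  degree := by rw [map_neg, h.degree, neg_zero]
  ord v := by rw [v.ord_inv, h.ord, Finsupp.neg_apply]; ring
  ρ := by
    obtain ⟨h1, h2⟩ := h.ρ
    have h3 : T.ρ₁ ⟨f, h1.1⟩ = 1 := congrArg Prod.fst h2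
    have h4 : T.ρ₂ ⟨f, h1.2⟩ = 1 := congrArg Prod.snd h2
    obtain ⟨h5, h6⟩ := mem_V₁_of_ρ h1.1 (by rw [h3]; exact one_ne_zero)
    obtain ⟨h7, h8⟩ := mem_V₂_of_ρ h1.2 (by rw [h4]; exact one_ne_zero)
    refine ⟨⟨h5, h7⟩, Prod.ext ?_ ?_⟩
    · change T.ρ₁ ⟨f⁻¹, h5⟩ = 1
      rw [h6, h3, inv_one]
    · change T.ρ₂ ⟨f⁻¹, h7⟩ = 1
      rw [h8, h4, inv_one]

theorem Compat.smul_mem {g : SemilinearAut K F} {τ : SemilinearAut k κ} (hg : T.Compat g τ)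
    {f : F} (h : f ∈ T.red.O) : g • f ∈ T.red.O := ⟨hg.mem₁ f h.1, hg.mem₂ f h.2⟩

theorem Compat.ρ_smul {g : SemilinearAut K F} {τ : SemilinearAut k κ} (hg : T.Compat g τ)
    {f : F} (h : f ∈ T.red.O) :
    T.red.ρ ⟨g • f, hg.smul_mem h⟩ = (τ • (T.red.ρ ⟨f, h⟩).1, τ • (T.red.ρ ⟨f, h⟩).2) :=
  Prod.ext (hg.ρ₁ f h.1 _) (hg.ρ₂ f h.2 _)

theorem UnitPair.smul {d : ℕ} {E : Divisor K F} {f : F} (h : T.UnitPair d E f)
    {g : SemilinearAut K F} {τ : SemilinearAut k κ} (hg : T.Compat g τ) :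
    T.UnitPair d (g • E) (g • f) where
  degree := by rw [SemilinearAut.degree_smul, h.degree]
  ord v := by
    rw [SemilinearAut.divisor_smul_apply, ← h.ord]
    have := SemilinearAut.ord_smul g (g⁻¹ • v) f
    rwa [smul_inv_smul] at this
  ρ := by
    obtain ⟨h1, h2⟩ := h.ρ
    refine ⟨hg.smul_mem h1, ?_⟩
    rw [hg.ρ_smul h1, h2]
    exact Prod.ext (smul_one τ) (smul_one τ)

theorem Compat.smul_Dv {g : SemilinearAut K F} {τ : SemilinearAut k κ} (hg : T.Compat g τ)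
    (n m : ℕ) : g • T.Dv n m = T.Dv n m := by
  rw [Dv, smul_add, SemilinearAut.smul_single, SemilinearAut.smul_single, hg.P₁, hg.P₂]

variable (hπ : Function.Surjective π)

theorem Compat.smul_mem_VE {g : SemilinearAut K F} {τ : SemilinearAut k κ} (hg : T.Compat g τ)
    {E : Divisor K F} {n : ℕ} {t : κ × κ} (ht : t ∈ T.VE hπ E n) :
    (τ • t.1, τ • t.2) ∈ T.VE hπ (g • E) n := by
  obtain ⟨⟨x, hx⟩, hxL, rfl⟩ := ht
  refine ⟨⟨g • x, hg.smul_mem hx⟩, ?_, hg.ρ_smul hx⟩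
  have := smul_mem_L g hxL
  rwa [smul_add, hg.smul_Dv] at this

/-! ### Swap -/

theorem Swap.ρ' {w : F ≃ₐ[K] F} (hw : T.Swap w) (f : F) (h : f ∈ T.V₂) (h' : w f ∈ T.V₁) :
    T.ρ₁ ⟨w f, h'⟩ = T.ρ₂ ⟨f, h⟩ := by
  have h1 : w (w f) ∈ T.V₂ := by rw [hw.invol]; exact h
  have h2 := hw.ρ (w f) h' h1
  rw [← h2]
  congr 1
  exact Subtype.ext (hw.invol f)

theorem Swap.swap_mem {w : F ≃ₐ[K] F} (hw : T.Swap w) {f : F} (h : f ∈ T.red.O) :
    w f ∈ T.red.O := ⟨hw.mem' f h.2, hw.mem f h.1⟩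

theorem Swap.ρ_swap {w : F ≃ₐ[K] F} (hw : T.Swap w) {f : F} (h : f ∈ T.red.O) :
    T.red.ρ ⟨w f, hw.swap_mem h⟩ = ((T.red.ρ ⟨f, h⟩).2, (T.red.ρ ⟨f, h⟩).1) :=
  Prod.ext (hw.ρ' f h.2 _) (hw.ρ f h.1 _)

theorem Swap.P₂ {w : F ≃ₐ[K] F} (hw : T.Swap w) : SemilinearAut.ofAlgAut w • T.P₂ = T.P₁ := by
  rw [← hw.P₁, ← mul_smul, ← map_mul]
  have : w * w = 1 := by
    ext f
    exact hw.invol f
  rw [this, map_one, one_smul]

theorem Swap.smul_Dv {w : F ≃ₐ[K] F} (hw : T.Swap w) (n m : ℕ) :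
    SemilinearAut.ofAlgAut w • T.Dv n m = T.Dv m n := by
  rw [Dv, smul_add, SemilinearAut.smul_single, SemilinearAut.smul_single, hw.P₁, hw.P₂, Dv,
    add_comm]

theorem Swap.swap_mem_VE {w : F ≃ₐ[K] F} (hw : T.Swap w)
    {E : Divisor K F} {n : ℕ} {t : κ × κ} (ht : t ∈ T.VE hπ E n) :
    (t.2, t.1) ∈ T.VE hπ (SemilinearAut.ofAlgAut w • E) n := by
  obtain ⟨⟨x, hx⟩, hxL, rfl⟩ := ht
  refine ⟨⟨w x, hw.swap_mem hx⟩, ?_, hw.ρ_swap hx⟩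
  have := smul_mem_L (SemilinearAut.ofAlgAut w) hxL
  rwa [smul_add, hw.smul_Dv] at this

theorem UnitPair.swap {d : ℕ} {E : Divisor K F} {f : F} (h : T.UnitPair d E f)
    {w : F ≃ₐ[K] F} (hw : T.Swap w) :
    T.UnitPair d (SemilinearAut.ofAlgAut w • E) (w f) where
  degree := by rw [SemilinearAut.degree_smul, h.degree]
  ord v := by
    rw [SemilinearAut.divisor_smul_apply, ← h.ord]
    have := SemilinearAut.ord_smul (SemilinearAut.ofAlgAut w)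
      ((SemilinearAut.ofAlgAut w)⁻¹ • v) f
    rwa [smul_inv_smul] at this
  ρ := by
    obtain ⟨h1, h2⟩ := h.ρ
    refine ⟨hw.swap_mem h1, ?_⟩
    rw [hw.ρ_swap h1, h2]
    rfl

variable [IsAlgClosed k] [IsFF k κ]

theorem Swap.smul_mem_SS {w : F ≃ₐ[K] F} (hw : T.Swap w) {v : Place k κ} (hv : v ∈ T.SS hπ) :
    T.fr • v ∈ T.SS hπ := by
  refine ⟨smul_ne T.fr_P hv.1, by rw [hv.2.1], fun t ht => ?_⟩
  rw [hv.2.1]
  obtain ⟨n, hn⟩ := ht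
  rw [← VE_zero] at hn
  have h1 := hw.swap_mem_VE hπ hn
  rw [smul_zero, VE_zero] at h1
  exact (hv.2.2 _ ⟨n, h1⟩).symm

variable [IsAlgClosed K] [IsFF K F]

/-! ### existence of the toric coordinate -/

omit [IsAlgClosed k] [IsFF k κ] [IsAlgClosed K] [IsFF K F] in
theorem UnitPair.pow_mem_V {d : ℕ} {E : Divisor K F} {f : F} (h : T.UnitPair d E f) {n : ℕ}
    {t : κ × κ} (ht : t ∈ T.VE hπ E n) : t ^ d ∈ T.V hπ (d * n) := by
  obtain ⟨x, hxL, rfl⟩ := ht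
  obtain ⟨h1, h2⟩ := h.ρ
  refine ⟨x ^ d * ⟨f, h1⟩, ?_, by rw [map_mul, map_pow, h2, mul_one]⟩
  have h3 : f ∈ riemannRochSpace (-(d • E)) := by
    refine mem_L_of_ord fun v _ => ?_
    rw [h.ord, Finsupp.neg_apply, Finsupp.smul_apply, nsmul_eq_mul, neg_neg]
  have h4 := mul_mem_L (pow_mem_L hxL d) h3
  rw [smul_add, nsmul_Dv, add_neg_cancel_right] at h4
  exact h4

omit [IsAlgClosed k] [IsFF k κ] [IsAlgClosed K] [IsFF K F] in
theorem UnitPair.VE_le_U {d : ℕ} (hd : d ≠ 0) {E : Divisor K F} {f : F} (h : T.UnitPair d E f)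
    (n : ℕ) : T.VE hπ E n ≤ T.U n := by
  intro t ht
  have h1 := T.mem_U.mp (T.V_le_U hπ _ (h.pow_mem_V hπ ht))
  have hroot : ∀ x : κ, x ^ d ∈ reg T.P ∧ T.P.adicValuation (x ^ d) ≤ exp ((d * n : ℕ) : ℤ) →
      x ∈ reg T.P ∧ T.P.adicValuation x ≤ exp (n : ℤ) := by
    rintro x ⟨hx1, hx2⟩
    constructor
    · intro v hv
      have := hx1 v hv
      rw [map_pow] at this
      exact (pow_le_one_iff hd).mp this
    · rw [map_pow] at hx2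
      have h3 : (exp ((d * n : ℕ) : ℤ) : ℤᵐ⁰) = exp (n : ℤ) ^ d := by
        rw [← exp_nsmul]
        congr 1
      rw [h3] at hx2
      exact (pow_le_pow_iff_left₀ zero_le zero_le hd).mp hx2
  exact T.mem_U.mpr ⟨hroot _ h1.1, hroot _ h1.2⟩

theorem UnitPair.exists_isZeta {d : ℕ} (hd : d ≠ 0) {E : Divisor K F} {f : F}
    (h : T.UnitPair d E f) :
    ∃ ζ : Place k κ → k, T.IsZeta hπ E ζ ∧ ∀ v ∈ T.SS hπ, ζ v ^ d = 1 := by
  -- the union of the `VE`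
  let X : Submodule k (κ × κ) :=
    { carrier := {t | ∃ n, t ∈ T.VE hπ E n}
      zero_mem' := ⟨0, Submodule.zero_mem _⟩
      add_mem' := by
        rintro s t ⟨n, hn⟩ ⟨m, hm⟩
        exact ⟨max n m, Submodule.add_mem _ (T.VE_mono hπ E (le_max_left _ _) hn)
          (T.VE_mono hπ E (le_max_right _ _) hm)⟩
      smul_mem' := by
        rintro c t ⟨n, hn⟩
        exact ⟨n, Submodule.smul_mem _ _ hn⟩ }
  have hXreg : ∀ t ∈ X, t.1 ∈ reg T.P ∧ t.2 ∈ reg T.P := by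
    rintro t ⟨n, hn⟩
    have := T.mem_U.mp (h.VE_le_U hπ hd n hn)
    exact ⟨this.1.1, this.2.1⟩
  have key : ∀ v ∈ T.SS hπ, ∃ ζ : k, ζ ^ d = 1 ∧ ∀ t ∈ X, val v t.1 = ζ * val (T.fr • v) t.2 := by
    intro v hv
    have hv' := smul_ne T.fr_P hv.1
    refine exists_zeta X (fun t => val v t.1) (fun t => val (T.fr • v) t.2) ?_ ?_ ?_ ?_ hd ?_
    · intro x hx y hy
      exact val_add ((hXreg x hx).1 v hv.1) ((hXreg y hy).1 v hv.1)
    · intro c x hx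
      exact val_smul ((hXreg x hx).1 v hv.1) c
    · intro x hx y hy
      exact val_add ((hXreg x hx).2 _ hv') ((hXreg y hy).2 _ hv')
    · intro c x hx
      exact val_smul ((hXreg x hx).2 _ hv') c
    · rintro x ⟨n, hn⟩
      have h1 := hv.2.2 _ ⟨_, h.pow_mem_V hπ hn⟩
      rw [Prod.pow_fst, Prod.pow_snd, val_pow ((hXreg x ⟨n, hn⟩).1 v hv.1),
        val_pow ((hXreg x ⟨n, hn⟩).2 _ hv')] at h1
      exact h1
  choose! ζ hζ1 hζ2 using key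
  exact ⟨ζ, ⟨h.degree, fun n t ht => ⟨h.VE_le_U hπ hd n ht, fun v hv => hζ2 v hv t ⟨n, ht⟩⟩⟩, hζ1⟩


/-! ### Elements with prescribed values -/

omit [IsAlgClosed K] [IsFF K F] in
variable (T) in
theorem exists_mem_Uz (hq : 2 ≤ q) : ∃ n₃ : ℕ, ∀ n ≥ n₃, ∀ ζ : Place k κ → k, ∀ v ∈ T.SS hπ,
    ∃ t ∈ T.Uz hπ ζ n, val v t.1 = ζ v ∧ val (T.fr • v) t.2 = 1 := by
  classical
  set S := (T.finite_SS hπ hq).toFinset with hS
  have hSm : ∀ v, v ∈ S ↔ v ∈ T.SS hπ := fun v => Set.Finite.mem_toFinset _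
  set S' := S ∪ S.image (fun v => T.fr • v) with hS'
  have hPS : T.P ∉ S' := by
    intro h
    rw [hS', Finset.mem_union, Finset.mem_image] at h
    rcases h with h | ⟨v, hv, hvP⟩
    · exact ((hSm _).mp h).1 rfl
    · exact smul_ne T.fr_P ((hSm _).mp hv).1 hvP
  obtain ⟨n₂, hn₂⟩ := exists_prescribed T.P S' hPS
  refine ⟨n₂, fun n hn ζ v hv => ?_⟩
  obtain ⟨a, ha, hav⟩ := hn₂ n hn (fun w => if w = v then ζ v else 0)
  obtain ⟨b, hb, hbv⟩ := hn₂ n hn (fun w => if w = T.fr • v then 1 else 0)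
  have hmem : ∀ w ∈ T.SS hπ, w ∈ S' ∧ T.fr • w ∈ S' := fun w hw =>
    ⟨Finset.mem_union_left _ ((hSm w).mpr hw),
      Finset.mem_union_right _ (Finset.mem_image_of_mem _ ((hSm w).mpr hw))⟩
  refine ⟨(a, b), ⟨⟨ha, hb⟩, fun w hw => ?_⟩, ?_, ?_⟩
  · change val w a = ζ w * val (T.fr • w) b
    rw [hav w (hmem w hw).1, hbv _ (hmem w hw).2]
    by_cases h : w = v
    · subst h; simp
    · rw [if_neg h, if_neg (fun h' => h (smul_left_cancel _ h')), mul_zero]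
  · change val v a = ζ v
    rw [hav v (hmem v hv).1, if_pos rfl]
  · change val (T.fr • v) b = 1
    rw [hbv _ (hmem v hv).2, if_pos rfl]

variable (T) in
/-- test elements -/
theorem IsZeta.exists_test [IsLocalHom π] (hq : 2 ≤ q) : ∃ N : ℕ, ∀ n ≥ N,
    ∀ (E : Divisor K F) (ζ : Place k κ → k), T.IsZeta hπ E ζ → ∀ v ∈ T.SS hπ,
      ∃ t ∈ T.VE hπ E n, val v t.1 = ζ v ∧ val (T.fr • v) t.2 = 1 := by
  obtain ⟨N, hN⟩ := IsZeta.eventually_eq T hπ hq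
  obtain ⟨n₃, h₃⟩ := T.exists_mem_Uz hπ hq
  refine ⟨max N n₃, fun n hn E ζ hE v hv => ?_⟩
  obtain ⟨t, ht, h⟩ := h₃ n ((le_max_right _ _).trans hn) ζ v hv
  exact ⟨t, by rwa [(hN n ((le_max_left _ _).trans hn)).2 E ζ hE], h⟩

theorem IsZeta.unique [IsLocalHom π] (hq : 2 ≤ q) {E : Divisor K F} {ζ ζ' : Place k κ → k}
    (h : T.IsZeta hπ E ζ) (h' : T.IsZeta hπ E ζ') : ∀ v ∈ T.SS hπ, ζ v = ζ' v := by
  intro v hv
  obtain ⟨N, hN⟩ := IsZeta.exists_test T hπ hq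
  obtain ⟨t, ht, h1, h2⟩ := hN N le_rfl E ζ h v hv
  have h3 := (h'.le N ht).2 v hv
  rwa [h1, h2, mul_one] at h3

theorem IsZeta.mul [IsLocalHom π] (hq : 2 ≤ q) {E E' : Divisor K F} {ζ ζ' ζ'' : Place k κ → k}
    (h : T.IsZeta hπ E ζ) (h' : T.IsZeta hπ E' ζ') (h'' : T.IsZeta hπ (E + E') ζ'') :
    ∀ v ∈ T.SS hπ, ζ'' v = ζ v * ζ' v := by
  intro v hv
  obtain ⟨N, hN⟩ := IsZeta.exists_test T hπ hq
  obtain ⟨t, ht, h1, h2⟩ := hN N le_rfl E ζ h v hv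
  obtain ⟨t', ht', h1', h2'⟩ := hN N le_rfl E' ζ' h' v hv
  have h3 := (h''.le _ (T.mul_mem_VE hπ ht ht')).2 v hv
  have hU := T.mem_U.mp (h.le _ ht).1
  have hU' := T.mem_U.mp (h'.le _ ht').1
  have hv' := smul_ne T.fr_P hv.1
  rw [Prod.fst_mul, Prod.snd_mul, val_mul (hU.1.1 v hv.1) (hU'.1.1 v hv.1),
    val_mul (hU.2.1 _ hv') (hU'.2.1 _ hv'), h1, h2, h1', h2', mul_one, mul_one] at h3
  exact h3.symm

omit [IsAlgClosed K] [IsFF K F] in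
theorem IsZeta.one [IsLocalHom π] : T.IsZeta hπ 0 (fun _ => 1) where
  degree := map_zero _
  le n := by
    rw [VE_zero]
    intro t ht
    refine ⟨T.V_le_U hπ n ht, fun v hv => ?_⟩
    rw [one_mul]
    exact hv.2.2 t ⟨n, ht⟩

theorem IsZeta.nsmul [IsLocalHom π] (hq : 2 ≤ q) {d : ℕ} (hd : d ≠ 0) {E : Divisor K F} {f : F}
    (hf : T.UnitPair d E f) {ζ : Place k κ → k} (h : T.IsZeta hπ E ζ) (m : ℕ) :
    ∀ ζ' : Place k κ → k, T.IsZeta hπ (m • E) ζ' → ∀ v ∈ T.SS hπ, ζ' v = ζ v ^ m := by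
  induction m with
  | zero =>
    intro ζ' h' v hv
    rw [zero_nsmul] at h'
    rw [pow_zero]
    exact (IsZeta.one hπ).unique hπ hq h' v hv |>.symm
  | succ m ih =>
    intro ζ' h' v hv
    obtain ⟨ζ₁, h₁, -⟩ := (hf.nsmul m).exists_isZeta hπ hd
    rw [succ_nsmul] at h'
    rw [h₁.mul hπ hq h h' v hv, ih ζ₁ h₁ v hv, pow_succ]

theorem IsZeta.compat_one [IsLocalHom π] (hq : 2 ≤ q) {g : SemilinearAut K F}
    (hg : T.Compat g 1) {E : Divisor K F} {ζ ζ' : Place k κ → k}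
    (h : T.IsZeta hπ E ζ) (h' : T.IsZeta hπ (g • E) ζ') : ∀ v ∈ T.SS hπ, ζ' v = ζ v := by
  intro v hv
  obtain ⟨N, hN⟩ := IsZeta.exists_test T hπ hq
  obtain ⟨t, ht, h1, h2⟩ := hN N le_rfl E ζ h v hv
  have h3 := (h'.le N (hg.smul_mem_VE hπ ht)).2 v hv
  simp only [one_smul] at h3
  rw [h1, h2, mul_one] at h3
  exact h3.symm

omit [IsAlgClosed k] [IsFF k κ] [IsAlgClosed K] [IsFF K F] in
variable (T) in
theorem baseAut_fr (c : k) : SemilinearAut.baseAut T.fr c = c ^ q := by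
  have h1 := T.Φ_fr (algebraMap k κ c)
  rw [SemilinearAut.smul_algebraMap, AlgHom.commutes, ← map_pow] at h1
  exact (algebraMap k κ).injective h1

omit [IsAlgClosed K] [IsFF K F] in
variable (T) in
theorem val_fr {v : Place k κ} {a : κ} (ha : v.adicValuation a ≤ 1) :
    val (T.fr • v) (T.fr • a) = val v a ^ q := by
  apply val_eq
  have h1 : T.fr • a - algebraMap k κ (val v a ^ q) = T.fr • (a - algebraMap k κ (val v a)) := by
    rw [smul_sub, SemilinearAut.smul_algebraMap, baseAut_fr]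
  rw [h1, adicValuation_smul]
  exact val_spec ha

theorem IsZeta.compat_fr [IsLocalHom π] (hq : 2 ≤ q) {g : SemilinearAut K F}
    (hg : T.Compat g T.fr) {E : Divisor K F} {ζ ζ' : Place k κ → k}
    (h : T.IsZeta hπ E ζ) (h' : T.IsZeta hπ (g • E) ζ') :
    ∀ v ∈ T.SS hπ, T.fr • v ∈ T.SS hπ → ζ' (T.fr • v) = ζ v ^ q := by
  intro v hv hfv
  obtain ⟨N, hN⟩ := IsZeta.exists_test T hπ hq
  obtain ⟨t, ht, h1, h2⟩ := hN N le_rfl E ζ h v hv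
  have hU := T.mem_U.mp (h.le _ ht).1
  have hv' := smul_ne T.fr_P hv.1
  have h3 := (h'.le N (hg.smul_mem_VE hπ ht)).2 _ hfv
  simp only at h3
  rw [T.val_fr (hU.1.1 v hv.1), T.val_fr (hU.2.1 _ hv'), h1, h2, one_pow, mul_one] at h3
  exact h3.symm

theorem IsZeta.swap [IsLocalHom π] (hq : 2 ≤ q) {w : F ≃ₐ[K] F} (hw : T.Swap w)
    {E : Divisor K F} {ζ ζ' : Place k κ → k}
    (h : T.IsZeta hπ E ζ) (h' : T.IsZeta hπ (SemilinearAut.ofAlgAut w • E) ζ') :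
    ∀ v ∈ T.SS hπ, ζ' v * ζ (T.fr • v) = 1 := by
  intro v hv
  have hfv := hw.smul_mem_SS hπ hv
  obtain ⟨N, hN⟩ := IsZeta.exists_test T hπ hq
  obtain ⟨t, ht, h1, h2⟩ := hN N le_rfl E ζ h _ hfv
  have h3 := (h'.le N (hw.swap_mem_VE hπ ht)).2 _ hv
  simp only at h3
  rw [hv.2.1] at h2
  rw [h1, h2] at h3
  exact h3.symm

end TwoComp

end Fermat.Agent.H89SS
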