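import Fermat.Agent.H89SS8
import Fermat.Agent.H89SS3

/-!
# Principality criterion, weak approximation, and the two main theorems
-/

set_option autoImplicit false

open AlgebraicCurve WithZero Fermat.Agent.H3RR Module

namespace Fermat.Agent.H89SS

section General

variable {K F : Type*} [Field K] [Field F] [Algebra K F] [IsAlgClosed K] [IsFF K F]

/-- Divisors of large degree are base point free. -/
theorem exists_mem_L_eq {D : Divisor K F} (h : 2 * (genusFF K F : ℤ) ≤ Divisor.degree D)
    (v : Place K F) : ∃ u ∈ riemannRochSpace D, v.adicValuation u = exp (D v) := by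
  classical
  have hdeg : Divisor.degree (D - Finsupp.single v 1) = Divisor.degree D - 1 := by
    rw [map_sub, Divisor.degree_single, deg_eq_one]; simp
  have h1 := ell_of_degree_gt (D := D) (by omega)
  have h2 := ell_of_degree_gt (D := D - Finsupp.single v 1) (by rw [hdeg]; omega)
  rw [hdeg] at h2
  have hle : riemannRochSpace (D - Finsupp.single v 1) ≤ riemannRochSpace D :=
    L_mono (sub_le_self _ (Finsupp.single_nonneg.mpr zero_le_one))
  have hne : ¬ riemannRochSpace D ≤ riemannRochSpace (D - Finsupp.single v 1) := by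
    intro h3
    have h4 := le_antisymm hle h3
    rw [ell, h4] at h2
    rw [ell] at h1
    omega
  obtain ⟨u, hu, hu'⟩ := SetLike.not_le_iff_exists.mp hne
  refine ⟨u, hu, ?_⟩
  have hu0 : u ≠ 0 := by
    rintro rfl
    exact hu' (Submodule.zero_mem _)
  have h5 := hu v
  rw [v.adicValuation_eq_exp_neg_ord hu0] at h5 ⊢
  rw [exp_le_exp] at h5
  by_contra hcon
  apply hu'
  intro w
  rcases eq_or_ne w v with rfl | hw
  · rw [w.adicValuation_eq_exp_neg_ord hu0, exp_le_exp, Finsupp.sub_apply, Finsupp.single_eq_same]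
    have : -w.ord u ≠ D w := fun h => hcon (by rw [h])
    omega
  · rw [Finsupp.sub_apply, Finsupp.single_eq_of_ne hw, sub_zero]
    exact hu w

theorem eq_zero_of_nonneg {D : Divisor K F} (h : 0 ≤ D) (hdeg : Divisor.degree D = 0) :
    D = 0 := by
  rw [degree_eq_sum] at hdeg
  rw [Finset.sum_eq_zero_iff_of_nonneg (fun v _ => h v)] at hdeg
  ext v
  by_cases hv : v ∈ D.support
  · exact hdeg v hv
  · rwa [Finsupp.mem_support_iff, not_not] at hv

end General

namespace TwoComp

variable {K F k κ : Type*} [Field K] [Field F] [Algebra K F] [Field k] [Field κ]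
    [Algebra k κ] {A : ValuationSubring K} {π : A →+* k} {q : ℕ} {T : TwoComp K F k κ A π q}
    (hπ : Function.Surjective π) [IsAlgClosed K] [IsFF K F] [IsAlgClosed k] [IsFF k κ]

/-- **Principality criterion.** -/
theorem UnitPair.principal [IsLocalHom π] [CharZero K] [Fact q.Prime] [CharP k q]
    (arch : ∀ a b : A, π a = 0 → b ≠ 0 → ∃ n, b ∣ a ^ n)
    {d : ℕ} (hd : (d : k) ≠ 0) {E : Divisor K F} {f : F} (h : T.UnitPair d E f)
    {ζ : Place k κ → k} (hζ : T.IsZeta hπ E ζ) (hζ1 : ∀ v ∈ T.SS hπ, ζ v = 1) :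
    E ∈ Divisor.principal (K := K) (F := F) := by
  have hqp : q.Prime := Fact.out
  have hq : 2 ≤ q := hqp.two_le
  obtain _ | _ | e := d
  · simp at hd
  · refine ⟨f, h.ne_zero, fun v => ?_⟩
    rw [h.ord v]; simp
  obtain ⟨N, hN⟩ := IsZeta.eventually_eq T hπ hq
  set n := max N (genusFF K F) with hn
  have hnN : N ≤ n := le_max_left _ _
  have hng : genusFF K F ≤ n := le_max_right _ _
  have hVE : ∀ m ≥ N, T.VE hπ E m = T.V hπ m := by
    intro m hm
    rw [← VE_zero, (hN m hm).2 E ζ hζ, (hN m hm).2 0 _ (IsZeta.one hπ)]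
    ext t
    rw [mem_Uz, mem_Uz]
    refine and_congr_right fun _ => forall₂_congr fun v hv => ?_
    rw [hζ1 v hv]
  obtain ⟨hfO, hfρ⟩ := h.ρ
  have hqA : ((q : ℕ) : A) ≠ 0 := by
    intro h0
    have h1 := congrArg Subtype.val h0
    simp at h1
    omega
  have hcop : Nat.Coprime (e + 2) q := by
    rw [Nat.coprime_comm]
    refine (Nat.Prime.coprime_iff_not_dvd hqp).mpr fun hdvd => hd ?_
    exact (CharP.cast_eq_zero_iff k q _).mpr hdvd
  obtain ⟨g, hg0, hg⟩ := T.red.exists_mul_mem_of_twist hπ hq (CharP.cast_eq_zero k q) hqA arch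
    hd hcop (riemannRochSpace (T.Dv n n)) (riemannRochSpace (T.Dv n n + E))
    (riemannRochSpace (T.Dv (n + n) (n + n))) (riemannRochSpace (T.Dv (n + n) (n + n) + E))
    (riemannRochSpace (T.Dv ((e + 2) * n) ((e + 2) * n))) ⟨f, hfO⟩ hfρ
    (by
      intro u hu l hl
      have h1 := mul_mem_L hu hl
      rw [Dv_add]
      have h2 : T.Dv n n + E + T.Dv n n = T.Dv n n + T.Dv n n + E := by abel
      rwa [h2] at h1)
    (by
      intro u hu v hv
      have h3 : f ∈ riemannRochSpace (-((e + 2) • E)) := by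
        refine mem_L_of_ord fun v _ => ?_
        rw [h.ord, Finsupp.neg_apply, Finsupp.smul_apply, nsmul_eq_mul, neg_neg]
      have h4 := mul_mem_L (mul_mem_L hu (pow_mem_L hv (e + 1))) h3
      have h5 : T.Dv n n + E + (e + 1) • (T.Dv n n + E) + -((e + 2) • E) =
          T.Dv ((e + 2) * n) ((e + 2) * n) := by
        rw [← nsmul_Dv, ← succ_nsmul', smul_add]
        abel
      rwa [h5] at h4)
    (by
      intro u hu v hv
      have h4 := mul_mem_L hu (pow_mem_L hv (e + 1))
      have h5 : T.Dv n n + (e + 1) • (T.Dv n n) = T.Dv ((e + 2) * n) ((e + 2) * n) := by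
        rw [← nsmul_Dv, ← succ_nsmul']
      rwa [h5] at h4)
    (by
      intro c hc v hv
      have h4 := T.mul_mem_V hπ (T.pow_mem_V hπ hv e) hc
      have h5 : e * n + (n + n) = (e + 2) * n := by ring
      rwa [h5] at h4)
    (hVE n hnN) (hVE (n + n) (by omega)).le
    (by
      intro t ht
      obtain ⟨⟨s, hs, hsP, hs0⟩, ⟨s', hs', hs'P, hs'0⟩, hlev⟩ := (hN n hnN).1
      have h1 := ht 1 (T.one_mem_V hπ n)
      rw [one_pow, one_mul] at h1
      refine hlev t ⟨_, h1⟩ ?_
      have h2 := T.mem_U.mp (T.V_le_U hπ _ (ht (s + s') (Submodule.add_mem _ hs hs')))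
      have h3 := T.mem_U.mp (T.V_le_U hπ _ h1)
      refine T.mem_U.mpr ⟨⟨h3.1.1, ?_⟩, ⟨h3.2.1, ?_⟩⟩
      · have h4 := h2.1.2
        rw [Prod.fst_mul, Prod.pow_fst, Prod.fst_add, hs'0, add_zero, map_mul, map_pow, hsP] at h4
        have h5 : (exp (((e + 2) * n : ℕ) : ℤ) : ℤᵐ⁰) = exp (n : ℤ) ^ (e + 1) * exp (n : ℤ) := by
          rw [← exp_nsmul, ← exp_add]
          congr 1
          simp only [nsmul_eq_mul]
          push_cast
          ring
        rw [h5] at h4
        exact le_of_mul_le_mul_left h4 (pow_pos exp_pos _)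
      · have h4 := h2.2.2
        rw [Prod.snd_mul, Prod.pow_snd, Prod.snd_add, hs0, zero_add, map_mul, map_pow, hs'P] at h4
        have h5 : (exp (((e + 2) * n : ℕ) : ℤ) : ℤᵐ⁰) = exp (n : ℤ) ^ (e + 1) * exp (n : ℤ) := by
          rw [← exp_nsmul, ← exp_add]
          congr 1
          simp only [nsmul_eq_mul]
          push_cast
          ring
        rw [h5] at h4
        exact le_of_mul_le_mul_left h4 (pow_pos exp_pos _))
    T.red.exists_const_mul_of_ρ_eq_zero
  -- `div g ≥ E`
  have hdegD : Divisor.degree (T.Dv n n + E) = 2 * n := by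
    rw [map_add, h.degree, degree_Dv]; ring
  have hge : 0 ≤ divOf g - E := by
    intro v
    obtain ⟨u, hu, huv⟩ := exists_mem_L_eq (D := T.Dv n n + E) (by rw [hdegD]; omega) v
    have h1 := hg u hu v
    rw [map_mul, huv, v.adicValuation_eq_exp_neg_ord hg0, ← exp_add, exp_le_exp,
      Finsupp.add_apply] at h1
    rw [Finsupp.coe_zero, Pi.zero_apply, Finsupp.sub_apply, divOf_apply hg0]
    omega
  have h0 := eq_zero_of_nonneg hge (by rw [map_sub, degree_divOf hg0, h.degree, sub_zero])
  refine ⟨g, hg0, fun v => ?_⟩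
  rw [← divOf_apply hg0, sub_eq_zero.mp h0]

end TwoComp

end Fermat.Agent.H89SS
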