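import Fermat.Agent.H8CEll
import Fermat.Agent.H99Emb2

/-!
# Elliptic points of order three and degeneracy maps: other forms

Forms of `restrictAlong_alpha_eq_beta` for any description of the two function fields, the mirror
statement (places with `ord_v j(q^ℓ) = 1`), and the case of `FX L (Mℓ)`.
-/

set_option autoImplicit false
set_option linter.unusedSectionVars false

noncomputable section

open ModularCurve AlgebraicCurve

namespace Fermat.Agent.H8C

section General

variable {K : Type*} [Field K] [Algebra K ℂ] {M ℓ : ℕ} [NeZero M] [NeZero ℓ] [IsAlgClosed K]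

/-- `restrictAlong_alpha_eq_beta` for any description of the fields and of the maps. -/
theorem restrictAlong_eq_of_eq (hℓ : ℓ.Prime) {E E' : IntermediateField K (LaurentSeries K)}
    (hE : E = modularFunctionFieldFullC K M) (hE' : E' = modularFunctionFieldFullC K (M * ℓ))
    (φ ψ : E →ₐ[K] E') (hφ : ∀ x, (φ x : LaurentSeries K) = x)
    (hψ : ∀ x, (ψ x : LaurentSeries K) = qExpand K ℓ x)
    (hφi : φ.toRingHom.IsIntegral) (hψi : ψ.toRingHom.IsIntegral) {j : E'}
    (hj : (j : LaurentSeries K) = jqModC K) (v : Place K E') (hv : v.ord j = 1) :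
    v.restrictAlong φ hφi = v.restrictAlong ψ hψi := by
  subst hE hE'
  have h1 : φ = H17.alphaC K M ℓ := by
    ext1 x
    apply Subtype.ext
    rw [hφ, H17.coe_alphaC]
  have h2 : ψ = H17.betaC K M ℓ := by
    ext1 x
    apply Subtype.ext
    rw [hψ, H17.coe_betaC]
  have h3 : j = H24.jF K (M * ℓ) := Subtype.ext hj
  subst h1 h2 h3
  exact restrictAlong_alpha_eq_beta K M ℓ hℓ hφi hψi v hv

end General

section Swap

variable {K E E' : Type*} [Field K] [Field E] [Field E'] [Algebra K E] [Algebra K E']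

theorem restrictAlong_mem {φ : E →ₐ[K] E'} {hφ : φ.toRingHom.IsIntegral} {v : Place K E'} {f : E} :
    f ∈ (v.restrictAlong φ hφ).toValuationSubring ↔ φ f ∈ v.toValuationSubring := by
  let := algebraAlong φ
  have := isScalarTower_along φ
  have := isIntegral_along φ hφ
  exact Place.mem_restrict_iff v

/-- Mirror form: if `w` exchanges `α` and `β` and `α`, `β` have the same restriction at all places
with `ord_v (α x) = 1`, then also at the places with `ord_v (β x) = 1`. -/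
theorem restrictAlong_eq_swap (φ ψ : E →ₐ[K] E') (hφ : φ.toRingHom.IsIntegral)
    (hψ : ψ.toRingHom.IsIntegral) (w : E' ≃ₐ[K] E') (h1 : ∀ x, w (φ x) = ψ x)
    (h2 : ∀ x, w (ψ x) = φ x) {x : E}
    (H : ∀ v : Place K E', v.ord (φ x) = 1 → v.restrictAlong φ hφ = v.restrictAlong ψ hψ)
    (v : Place K E') (hv : v.ord (ψ x) = 1) : v.restrictAlong φ hφ = v.restrictAlong ψ hψ := by
  have hw : (w : E' →ₐ[K] E').toRingHom.IsIntegral := by
    intro y
    obtain ⟨z, rfl⟩ := w.surjective y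
    exact (w : E' →ₐ[K] E').toRingHom.isIntegralElem_map
  set v' := v.restrictAlong (w : E' →ₐ[K] E') hw with hv'
  have h3 : v.ord (w (φ x)) = Place.ramificationIndexAlong (w : E' →ₐ[K] E') v * v'.ord (φ x) :=
    Place.ord_restrictAlong (w : E' →ₐ[K] E') hw v (φ x)
  rw [h1, hv] at h3
  have h4 : v'.ord (φ x) = 1 := by
    rcases Int.eq_one_or_neg_one_of_mul_eq_one' h3.symm with h | h
    · exact h.2
    · exact absurd h.1 (by omega)
  have h5 := H v' h4
  have h6 : ∀ f : E, (φ f ∈ v'.toValuationSubring ↔ ψ f ∈ v.toValuationSubring) := by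
    intro f
    rw [hv', restrictAlong_mem]
    show w (φ f) ∈ _ ↔ _
    rw [h1]
  have h7 : ∀ f : E, (ψ f ∈ v'.toValuationSubring ↔ φ f ∈ v.toValuationSubring) := by
    intro f
    rw [hv', restrictAlong_mem]
    show w (ψ f) ∈ _ ↔ _
    rw [h2]
  apply Place.ext
  ext f
  rw [restrictAlong_mem, restrictAlong_mem, ← h6, ← h7, ← restrictAlong_mem (hφ := hφ),
    ← restrictAlong_mem (hφ := hψ), h5]

end Swap

section FX

variable {L : Type*} [Field L] [Algebra ℚ L] [Algebra L ℂ] [IsAlgClosed L] {M ℓ : ℕ} [NeZero M]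
  [NeZero ℓ]

/-- form for `FX L (Mℓ)` -/
theorem restrictAlong_FX (hℓ : ℓ.Prime)
    (hα : (heckeAlphaBar L M ℓ).toRingHom.IsIntegral)
    (hβ : (heckeBetaBar L M ℓ).toRingHom.IsIntegral) {j : H99.FX L (M * ℓ)}
    (hj : (j : LaurentSeries L) = jqModC L) (v : Place L (H99.FX L (M * ℓ))) (hv : v.ord j = 1) :
    v.restrictAlong (heckeAlphaBar L M ℓ) hα = v.restrictAlong (heckeBetaBar L M ℓ) hβ :=
  restrictAlong_eq_of_eq hℓ (H99.FX_eq M) (H99.FX_eq (M * ℓ)) _ _ (coe_heckeAlphaBar M ℓ)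
    (coe_heckeBetaBar M ℓ) hα hβ hj v hv

/-- **Mirror form for `FX L (Mℓ)`**: places with `ord_v j(q^ℓ) = 1`. -/
theorem restrictAlong_FX' (hℓ : ℓ.Prime) (hMℓ : ¬ ℓ ∣ M)
    (hα : (heckeAlphaBar L M ℓ).toRingHom.IsIntegral)
    (hβ : (heckeBetaBar L M ℓ).toRingHom.IsIntegral) {j : H99.FX L M}
    (hj : (j : LaurentSeries L) = jqModC L) (v : Place L (H99.FX L (M * ℓ)))
    (hv : v.ord (heckeBetaBar L M ℓ j) = 1) :
    v.restrictAlong (heckeAlphaBar L M ℓ) hα = v.restrictAlong (heckeBetaBar L M ℓ) hβ := by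
  obtain ⟨w⟩ := H99.nonempty_AL (L := L) (m := M) (q := ℓ) (algebraMap L ℂ)
    ((Nat.Prime.coprime_iff_not_dvd hℓ).2 hMℓ).symm
  refine restrictAlong_eq_swap _ _ hα hβ w.W w.alpha w.beta (x := j) (fun v' hv' => ?_) v hv
  exact restrictAlong_FX hℓ hα hβ (by rw [coe_heckeAlphaBar, hj]) v' hv'

end FX

section AlphaC

variable {K : Type*} [Field K] [Algebra ℚ K] [Algebra K ℂ] [IsAlgClosed K] {M ℓ : ℕ} [NeZero M]
  [NeZero ℓ]

/-- **Mirror form**: a place `v` of `X₀(Mℓ)` with `ord_v j(q^ℓ) = 1` has the same image under the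
two degeneracy maps to `X₀(M)`. -/
theorem restrictAlong_alpha_eq_beta' (hℓ : ℓ.Prime) (hMℓ : ¬ ℓ ∣ M)
    (hα : (H17.alphaC K M ℓ).toRingHom.IsIntegral) (hβ : (H17.betaC K M ℓ).toRingHom.IsIntegral)
    (v : Place K (modularFunctionFieldFullC K (M * ℓ)))
    (hv : v.ord (H17.betaC K M ℓ (H24.jF K M)) = 1) :
    v.restrictAlong (H17.alphaC K M ℓ) hα = v.restrictAlong (H17.betaC K M ℓ) hβ := by
  obtain ⟨w⟩ := H99.nonempty_AL (L := K) (m := M) (q := ℓ) (algebraMap K ℂ)
    ((Nat.Prime.coprime_iff_not_dvd hℓ).2 hMℓ).symm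
  let e : H99.FX K (M * ℓ) ≃ₐ[K] modularFunctionFieldFullC K (M * ℓ) :=
    IntermediateField.equivOfEq (H99.FX_eq (M * ℓ))
  let e0 : H99.FX K M ≃ₐ[K] modularFunctionFieldFullC K M :=
    IntermediateField.equivOfEq (H99.FX_eq M)
  have ha : ∀ x, e (heckeAlphaBar K M ℓ x) = H17.alphaC K M ℓ (e0 x) := fun x => Subtype.ext rfl
  have hb : ∀ x, e (heckeBetaBar K M ℓ x) = H17.betaC K M ℓ (e0 x) := fun x => Subtype.ext rfl
  let W : modularFunctionFieldFullC K (M * ℓ) ≃ₐ[K] modularFunctionFieldFullC K (M * ℓ) :=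
    (e.symm.trans w.W).trans e
  refine restrictAlong_eq_swap _ _ hα hβ W (fun x => ?_) (fun x => ?_) (x := H24.jF K M)
    (fun v' hv' => ?_) v hv
  · obtain ⟨x, rfl⟩ := e0.surjective x
    show e (w.W (e.symm (H17.alphaC K M ℓ (e0 x)))) = _
    rw [← ha, e.symm_apply_apply, w.alpha, hb]
  · obtain ⟨x, rfl⟩ := e0.surjective x
    show e (w.W (e.symm (H17.betaC K M ℓ (e0 x)))) = _
    rw [← hb, e.symm_apply_apply, w.beta, ha]
  · exact restrictAlong_alpha_eq_beta K M ℓ hℓ hα hβ v' hv'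

end AlphaC

end Fermat.Agent.H8C
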