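import Fermat.Agent.H40CDef
import Fermat.Agent.H98CT3
import Fermat.Agent.H26CEll
import Fermat.Agent.H8CThree
import Fermat.Agent.H60Bridge

/-!
# S39 / S40, `p = 3`: descent of the divisibility from `X₀(M)` to `X₀(M₀)`
-/

set_option autoImplicit false
set_option linter.unusedSectionVars false
set_option maxHeartbeats 1000000
set_option synthInstance.maxHeartbeats 200000

noncomputable section

open AlgebraicCurve ModularCurve
open Fermat.Agent.H40C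

namespace Fermat.Agent.H8C

local notation "Qb" => AlgebraicClosure ℚ

theorem natCast_ne_zero_residue {A : ValuationSubring Qb} {p : ℕ} (hp : p.Prime)
    (hA : A.LiesOverPrime p) {n : ℕ} (hn : ¬ p ∣ n) : (n : kA A) ≠ 0 :=
  H18.natCast_residueField_ne_zero A hp hA hn

/-- **[T3]**: descent of the divisibility by `3` from `X₀(M)` to `X₀(M₀)`. -/
theorem inT3 : InT3 := by
  intro A hA M₀ M _ _ hM hM4 hM4' hM3 g₀ hg₀ g hg hdvd S hS a hR ⟨ℓ, hℓ, hℓS, hℓM, hℓa⟩ w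
  have : NeZero ℓ := ⟨hℓ.ne_zero⟩
  have hk : IsAlgClosed (kA A) := H18.isAlgClosed_residueField A
  have hM₀3 : ¬ 3 ∣ M₀ := fun h => hM3 (h.trans hM)
  have hℓ3 : ¬ 3 ∣ ℓ := by
    intro h
    apply hℓM
    have : ℓ = 3 := ((Nat.prime_dvd_prime_iff_eq Nat.prime_three hℓ).mp h).symm
    rw [this]
    exact dvd_mul_left 3 M₀
  have hℓM₀ : ¬ ℓ ∣ M₀ := fun h => hℓM (h.mul_right 3)
  have h3ℓ : ¬ 3 ∣ M₀ * ℓ := fun h => ((Nat.prime_three.dvd_mul).mp h).elim hM₀3 hℓ3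
  have hF0 : H94.FunField (kA A) (FC (kA A) M₀) :=
    H60.funField_fullC (kA A) M₀ (natCast_ne_zero_residue Nat.prime_three hA hM₀3)
  have hF1 : H94.FunField (kA A) (FC (kA A) (M₀ * ℓ)) :=
    H60.funField_fullC (kA A) (M₀ * ℓ) (natCast_ne_zero_residue Nat.prime_three hA h3ℓ)
  have hα := H17.isIntegral_of_funField (H17.alphaC (kA A) M₀ ℓ)
  have hβ := H17.isIntegral_of_funField (H17.betaC (kA A) M₀ ℓ)
  obtain ⟨h, hh, hrel⟩ := hR ℓ hℓ hℓS hℓM
  let D : Divisor (kA A) (FC (kA A) M₀) := H3RR.divOf g₀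
  have hD : ∀ w, D w = w.ord g₀ := fun w => H3RR.divOf_apply hg₀ w
  have key := dvd_ord_of_eisenstein Nat.prime_three (a := a ℓ) (d := ℓ + 1)
    (Divisor.correspondence (H17.betaC (kA A) M₀ ℓ) (H17.alphaC (kA A) M₀ ℓ) hβ hα) hℓa D
    (fun s hs w => ?_) (fun w => ?_) w
  · rwa [hD] at key
  · rw [hD] at hs
    have h1 : ¬ (0 < s.ord (H8.jC (kA A) M₀) → (3 : ℤ) ∣ s.ord (H8.jC (kA A) M₀)) :=
      fun h => hs (H98C.three_dvd_ord hA hM hM4 hM4' hM3 hg hdvd s h)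
    push Not at h1
    exact H26C.dvd_TC_single hℓ hℓM₀ Nat.prime_three hA h3ℓ hα hβ s h1.1.le h1.2 w
  · rw [hrel hβ hα D hD w, hD]
    exact ⟨w.ord h, by push_cast; ring⟩

end Fermat.Agent.H8C
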