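import Fermat.Agent.H88Norm

/-!
# Places above a place in an extension containing a cube root

`exists_place_three`: let `F ⊆ F₂` be function fields over the algebraically closed field `K`
(`char K ≠ 3`) and `γ ∈ F₂` with `γ ^ 3 = a ∈ F`, `a` not a cube in `F`, `[F₂ : F]` not divisible
by `9`.  Over every place `w` of `F` with `3 ∣ w.ord a` there is a place of `F₂` whose
ramification index is prime to `3`.
-/

set_option autoImplicit false

open AlgebraicCurve WithZero Polynomial IntermediateField Fermat.Agent.H3RR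

namespace Fermat.Agent.H8

section Place

variable {K F : Type*} [Field K] [Field F] [Algebra K F]

theorem isFF_of_finite {F' : Type*} [Field F'] [Algebra K F'] [Algebra F F']
    [IsScalarTower K F F'] [Module.Finite F F'] [IsFF K F] : IsFF K F' := by
  obtain ⟨x, hx, hfin⟩ := IsFF.exists_gen (K := K) (F := F)
  refine ⟨algebraMap F F' x, (transcendental_algebraMap_iff (algebraMap F F').injective).mpr hx,
    ?_⟩
  have h1 : 0 < Module.finrank K⟮algebraMap F F' x⟯ F' := by
    rw [H88.finrank_adjoin_algebraMap]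
    exact Nat.mul_pos Module.finrank_pos Module.finrank_pos
  exact Module.finite_of_finrank_pos h1

end Place

section Abs

variable {F F' : Type*} [Field F] [Field F']
  [Algebra F F'] [Module.Finite F F']

/-- the norm of `v - b` for a generator `v` of a pure cubic extension, `v ^ 3 = u` -/
theorem norm_sub_of_cube {v : F'} {u : F} (hv : v ^ 3 = algebraMap F F' u)
    (hdeg : Module.finrank F F' = 3) (hgen : F⟮v⟯ = ⊤) (b : F) :
    Algebra.norm F (v - algebraMap F F' b) = u - b ^ 3 := by
  have hint : IsIntegral F (v - algebraMap F F' b) := Algebra.IsIntegral.isIntegral _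
  have hgen' : F⟮v - algebraMap F F' b⟯ = ⊤ := by
    rw [eq_top_iff, ← hgen, adjoin_simple_le_iff]
    have h1 : v - algebraMap F F' b ∈ F⟮v - algebraMap F F' b⟯ := mem_adjoin_simple_self _ _
    have h2 : algebraMap F F' b ∈ F⟮v - algebraMap F F' b⟯ :=
      IntermediateField.algebraMap_mem _ b
    simpa using add_mem h1 h2
  have hnat : (minpoly F (v - algebraMap F F' b)).natDegree = 3 := by
    rw [← IntermediateField.adjoin.finrank hint, hgen', IntermediateField.finrank_top', hdeg]
  have hroot : aeval (v - algebraMap F F' b) ((X + C b) ^ 3 - C u : F[X]) = 0 := by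
    simp only [map_sub, map_pow, map_add, aeval_X, aeval_C, sub_add_cancel, hv, sub_self]
  have hmonic : ((X + C b) ^ 3 - C u : F[X]).Monic := by
    refine Monic.sub_of_left ((monic_X_add_C b).pow 3) ?_
    refine lt_of_le_of_lt degree_C_le ?_
    rw [degree_pow, degree_X_add_C]
    norm_num
  have hnd : ((X + C b) ^ 3 - C u : F[X]).natDegree = 3 := by
    rw [natDegree_sub_C, natDegree_pow, natDegree_X_add_C]
  have hmin : minpoly F (v - algebraMap F F' b) = (X + C b) ^ 3 - C u := by
    have hdvd := minpoly.dvd F _ hroot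
    exact (Polynomial.eq_of_monic_of_dvd_of_natDegree_le (minpoly.monic hint) hmonic hdvd
      (by rw [hnd, hnat])).symm
  have hfr : Module.finrank F⟮v - algebraMap F F' b⟯ F' = 1 := by
    rw [hgen', IntermediateField.finrank_top]
  have h3 : Algebra.norm F (v - algebraMap F F' b) =
      (-1) ^ 3 * (minpoly F (v - algebraMap F F' b)).coeff 0 := by
    rw [Algebra.norm_eq_norm_adjoin, hfr, pow_one, ← adjoin.powerBasis_gen hint,
      Algebra.PowerBasis.norm_gen_eq_coeff_zero_minpoly, adjoin.powerBasis_dim, hnat,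
      adjoin.powerBasis_gen hint, minpoly_gen]
  rw [h3, hmin, coeff_zero_eq_eval_zero]
  simp only [eval_sub, eval_pow, eval_add, eval_X, zero_add, eval_C]
  ring

end Abs

section Main

variable {K F F₁ : Type*} [Field K] [IsAlgClosed K] [Field F] [Field F₁] [Algebra K F]
  [Algebra K F₁] [Algebra F F₁] [IsScalarTower K F F₁] [Module.Finite F F₁] [IsFF K F]
  [IsFF K F₁]

/-- pure cubic extensions are unramified where the radicand has order divisible by `3` -/
theorem not_three_dvd_ramificationIndex (h3 : (3 : K) ≠ 0) {γ : F₁} {a : F}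
    (hγ : γ ^ 3 = algebraMap F F₁ a) (ha : a ≠ 0) (hdeg : Module.finrank F F₁ = 3)
    (hgen : F⟮γ⟯ = ⊤) (w : Place K F) (hw : (3 : ℤ) ∣ w.ord a) (w₁ : Place K F₁)
    (hw₁ : w₁.restrict F = w) : ¬ 3 ∣ w₁.ramificationIndex F := by
  classical
  intro hdvd
  obtain ⟨S, hS⟩ : ∃ S : Finset (Place K F₁), ∀ w', w' ∈ S ↔ w'.restrict F = w :=
    ⟨(Place.restrict_fiber_finite (K := K) (F := F) (F' := F₁) w).toFinset, fun w => by simp⟩
  have hsum := H88.sum_ramificationIndex w S hS
  rw [hdeg] at hsum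
  have hw₁S : w₁ ∈ S := (hS w₁).mpr hw₁
  -- `w₁` is the only place above `w`
  have huniq : ∀ w' : Place K F₁, w'.restrict F = w → w' = w₁ := by
    intro w' hw'
    by_contra hne
    have h1 : ∑ x ∈ ({w₁, w'} : Finset (Place K F₁)), x.ramificationIndex F ≤
        ∑ x ∈ S, x.ramificationIndex F := by
      refine Finset.sum_le_sum_of_subset ?_
      intro x hx
      rw [Finset.mem_insert, Finset.mem_singleton] at hx
      rcases hx with rfl | rfl
      · exact hw₁S
      · exact (hS _).mpr hw'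
    rw [Finset.sum_pair (Ne.symm hne), hsum] at h1
    have h2 := w'.ramificationIndex_pos (F := F)
    have h3 := w₁.ramificationIndex_pos (F := F)
    have h4 := Nat.le_of_dvd h3 hdvd
    omega
  -- normalise
  obtain ⟨m, hm⟩ := hw
  obtain ⟨t, ht0, ht⟩ : ∃ t : F, t ≠ 0 ∧ w.ord t = m := by
    obtain ⟨t, ht0, ht⟩ := adicValuation_surjective_exp w (-m)
    exact ⟨t, ht0, by rw [Place.ord, ht, WithZero.log_exp, neg_neg]⟩
  have ht0' : algebraMap F F₁ t ≠ 0 := (_root_.map_ne_zero _).mpr ht0
  set u : F := a / t ^ 3 with hu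
  have ht3 : t ^ 3 ≠ 0 := pow_ne_zero _ ht0
  have hu0 : u ≠ 0 := div_ne_zero ha ht3
  have hv1 : w.adicValuation u = 1 := by
    have h1 : w.ord u = 0 := by
      have h2 : u * t ^ 3 = a := div_mul_cancel₀ _ ht3
      have h3 := w.ord_mul hu0 ht3
      have h4 := w.ord_zpow t 3
      rw [zpow_ofNat] at h4
      rw [h2, h4, hm, ht] at h3
      omega
    have h2 := w.adicValuation_ne_zero hu0
    have h3 : WithZero.log (w.adicValuation u) = 0 := by
      have : w.ord u = -(WithZero.log (w.adicValuation u)) := rfl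
      omega
    rw [← WithZero.exp_log h2, h3, WithZero.exp_zero]
  set v : F₁ := γ / algebraMap F F₁ t with hv
  have hv3 : v ^ 3 = algebraMap F F₁ u := by
    rw [hv, hu, div_pow, hγ, map_div₀, map_pow]
  have hle : ∀ {w' : Place K F₁}, w'.restrict F = w → ∀ f : F, w.adicValuation f = 1 →
      w'.adicValuation (algebraMap F F₁ f) = 1 := by
    intro w' hw' f hf
    have hf0 : f ≠ 0 := by rintro rfl; rw [map_zero] at hf; exact zero_ne_one hf
    have h1 := w'.ord_restrict (F := F) f
    rw [hw'] at h1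
    have h2 : w.ord f = 0 := by rw [Place.ord, hf, WithZero.log_one, neg_zero]
    rw [h2, mul_zero] at h1
    have h3 := w'.adicValuation_ne_zero ((_root_.map_ne_zero (algebraMap F F₁)).mpr hf0)
    have h4 : WithZero.log (w'.adicValuation (algebraMap F F₁ f)) = 0 := by
      have : w'.ord (algebraMap F F₁ f) = -(WithZero.log (w'.adicValuation (algebraMap F F₁ f))) :=
        rfl
      omega
    rw [← WithZero.exp_log h3, h4, WithZero.exp_zero]
  have hvv : w₁.adicValuation v = 1 := by
    have h1 := hle hw₁ u hv1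
    rw [← hv3, map_pow] at h1
    exact (pow_eq_one_iff_of_nonneg zero_le (by norm_num)).mp h1
  obtain ⟨c, hc⟩ := exists_const_sub_lt_one w₁ hvv.le
  have hc0 : c ≠ 0 := by
    rintro rfl
    rw [map_zero, sub_zero, hvv] at hc
    exact lt_irrefl _ hc
  -- a primitive cube root of unity
  obtain ⟨ω, hω⟩ : ∃ ω : K, ω ^ 2 + ω + 1 = 0 := by
    obtain ⟨x, hx⟩ := IsAlgClosed.exists_root (X ^ 2 + X + 1 : K[X]) (by
      have : (X ^ 2 + X + 1 : K[X]).degree = 2 := by compute_degree!
      rw [this]; norm_num)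
    exact ⟨x, by simpa [IsRoot.def] using hx⟩
  have hω1 : ω - 1 ≠ 0 := by
    intro h
    rw [sub_eq_zero] at h
    rw [h] at hω
    apply h3
    linear_combination hω
  have hω3 : ω ^ 3 = 1 := by linear_combination (ω - 1) * hω
  set b : F := algebraMap K F (ω * c) with hb
  have hsep : Algebra.IsSeparable F F₁ := by
    have h1 : IsSeparable F γ := by
      have h2 : (X ^ 3 - C a : F[X]).Separable :=
        Polynomial.separable_X_pow_sub_C a (by
          have h4 : algebraMap K F 3 ≠ 0 := (_root_.map_ne_zero _).mpr h3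
          rw [map_ofNat] at h4
          exact_mod_cast h4) ha
      exact h2.of_dvd (minpoly.dvd F γ (by simp [hγ]))
    have h2 := (IntermediateField.isSeparable_adjoin_simple_iff_isSeparable F F₁ (x := γ)).mpr h1
    rw [hgen] at h2
    exact Algebra.IsSeparable.of_algHom F (⊤ : IntermediateField F F₁)
      (IntermediateField.topEquiv.symm : F₁ ≃ₐ[F] (⊤ : IntermediateField F F₁)).toAlgHom
  have hgenv : F⟮v⟯ = ⊤ := by
    rw [eq_top_iff, ← hgen, adjoin_simple_le_iff]
    have h1 : v ∈ F⟮v⟯ := mem_adjoin_simple_self _ _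
    have h2 : algebraMap F F₁ t ∈ F⟮v⟯ := IntermediateField.algebraMap_mem _ t
    have h4 : γ = v * algebraMap F F₁ t := by rw [hv, div_mul_cancel₀ _ ht0']
    rw [h4]
    exact mul_mem h1 h2
  have hnorm := norm_sub_of_cube (b := b) hv3 hdeg hgenv
  have hb3 : b ^ 3 = algebraMap K F (c ^ 3) := by
    rw [hb, ← map_pow, mul_pow, hω3, one_mul]
  have hone : w.adicValuation (Algebra.norm F (v - algebraMap F F₁ b)) = 1 := by
    refine H88.norm_eq_one w fun w' hw' => ?_
    rw [huniq w' hw']
    have h1 : v - algebraMap F F₁ b = (v - algebraMap K F₁ c) - algebraMap K F₁ ((ω - 1) * c) := by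
      rw [hb, ← IsScalarTower.algebraMap_apply]
      simp only [map_mul, map_sub, map_one]
      ring
    have h2 : w₁.adicValuation (algebraMap K F₁ ((ω - 1) * c)) = 1 :=
      H3RR.adicValuation_algebraMap w₁ (mul_ne_zero hω1 hc0)
    rw [h1, Valuation.map_sub_swap, ← h2]
    refine Valuation.map_sub_eq_of_lt_left _ ?_
    rw [h2]
    exact hc
  rw [hnorm, hb3] at hone
  have h5 : w₁.adicValuation (algebraMap F F₁ (u - algebraMap K F (c ^ 3))) = 1 :=
    hle hw₁ _ hone
  have h6 : algebraMap F F₁ (u - algebraMap K F (c ^ 3)) =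
      (v - algebraMap K F₁ c) * (v ^ 2 + v * algebraMap K F₁ c + algebraMap K F₁ c ^ 2) := by
    rw [map_sub, ← hv3, ← IsScalarTower.algebraMap_apply, map_pow]
    ring
  rw [h6, map_mul] at h5
  have hcc : w₁.adicValuation (algebraMap K F₁ c) = 1 := H3RR.adicValuation_algebraMap w₁ hc0
  have h7 : w₁.adicValuation (v ^ 2 + v * algebraMap K F₁ c + algebraMap K F₁ c ^ 2) ≤ 1 := by
    refine Valuation.map_add_le _ (Valuation.map_add_le _ ?_ ?_) ?_
    · rw [map_pow, hvv, one_pow]
    · rw [map_mul, hvv, hcc, one_mul]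
    · rw [map_pow, hcc, one_pow]
  have h8 : w₁.adicValuation (v - algebraMap K F₁ c) *
      w₁.adicValuation (v ^ 2 + v * algebraMap K F₁ c + algebraMap K F₁ c ^ 2) < 1 :=
    lt_of_le_of_lt (mul_le_of_le_one_right zero_le h7) hc
  exact absurd h5 h8.ne

end Main

section Ext

variable {K F F₂ : Type*} [Field K] [IsAlgClosed K] [Field F] [Field F₂] [Algebra K F]
  [Algebra K F₂] [Algebra F F₂] [IsScalarTower K F F₂] [Module.Finite F F₂] [IsFF K F]

/-- some place above `w` has ramification index prime to `p` if `p ∤ [F₂ : F]` -/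
theorem exists_place_of_not_dvd {p : ℕ} (hp : ¬ p ∣ Module.finrank F F₂) (w : Place K F) :
    ∃ w₂ : Place K F₂, w₂.restrict F = w ∧ ¬ p ∣ w₂.ramificationIndex F := by
  classical
  have : IsFF K F₂ := isFF_of_finite (F := F)
  obtain ⟨S, hS⟩ : ∃ S : Finset (Place K F₂), ∀ w', w' ∈ S ↔ w'.restrict F = w :=
    ⟨(Place.restrict_fiber_finite (K := K) (F := F) (F' := F₂) w).toFinset, fun w => by simp⟩
  have hsum := H88.sum_ramificationIndex w S hS
  by_contra hcon
  push Not at hcon
  apply hp
  rw [← hsum]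
  exact Finset.dvd_sum fun x hx => hcon x ((hS x).mp hx)

/-- **Main lemma**: over every place `w` with `3 ∣ w.ord a` there is a place of `F₂` with
ramification index prime to `3`. -/
theorem exists_place_three (h3 : (3 : K) ≠ 0) {γ : F₂} {a : F} (hγ : γ ^ 3 = algebraMap F F₂ a)
    (ha : a ≠ 0) (hcube : ∀ b : F, b ^ 3 ≠ a) (hdeg : ¬ 9 ∣ Module.finrank F F₂)
    (w : Place K F) (hw : (3 : ℤ) ∣ w.ord a) :
    ∃ w₂ : Place K F₂, ∃ e : ℕ, w₂.restrict F = w ∧ ¬ 3 ∣ e ∧
      ∀ f : F, w₂.ord (algebraMap F F₂ f) = e * w.ord f := by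
  classical
  have hirr : Irreducible (X ^ 3 - C a : F[X]) :=
    X_pow_sub_C_irreducible_of_prime Nat.prime_three hcube
  have hint : IsIntegral F γ := Algebra.IsIntegral.isIntegral _
  have hmin : minpoly F γ = X ^ 3 - C a :=
    (minpoly.eq_of_irreducible_of_monic hirr (by simp [hγ])
      (monic_X_pow_sub_C a (by norm_num))).symm
  have hfr : Module.finrank F F⟮γ⟯ = 3 := by
    rw [IntermediateField.adjoin.finrank hint, hmin, natDegree_X_pow_sub_C]
  have hmul : 3 * Module.finrank F⟮γ⟯ F₂ = Module.finrank F F₂ := by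
    rw [← hfr]; exact Module.finrank_mul_finrank F F⟮γ⟯ F₂
  have hn3 : ¬ 3 ∣ Module.finrank F⟮γ⟯ F₂ := by
    rintro ⟨k, hk⟩
    exact hdeg ⟨k, by rw [← hmul, hk]; ring⟩
  have hFF : IsFF K F⟮γ⟯ := isFF_of_finite (F := F)
  have htow : IsScalarTower K F⟮γ⟯ F₂ := IsScalarTower.of_algebraMap_eq fun x => by
    rw [IsScalarTower.algebraMap_apply K F F₂, IsScalarTower.algebraMap_apply K F F⟮γ⟯]
    rfl
  obtain ⟨w₁, hw₁⟩ := H88.exists_restrict_eq (F' := F⟮γ⟯) w
  have hgen : F⟮AdjoinSimple.gen F γ⟯ = (⊤ : IntermediateField F F⟮γ⟯) := by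
    have := (adjoin.powerBasis hint).adjoin_gen_eq_top
    rw [adjoin.powerBasis_gen] at this
    rw [eq_top_iff]
    intro x _
    have hx : x ∈ Algebra.adjoin F {AdjoinSimple.gen F γ} := by rw [this]; trivial
    exact algebra_adjoin_le_adjoin F _ hx
  have he₁ := not_three_dvd_ramificationIndex h3 (γ := AdjoinSimple.gen F γ) (a := a)
    (by
      apply (algebraMap F⟮γ⟯ F₂).injective
      rw [map_pow, AdjoinSimple.algebraMap_gen, hγ]
      rfl) ha hfr hgen w hw w₁ hw₁
  obtain ⟨w₂, hw₂, he₂⟩ := exists_place_of_not_dvd (K := K) (F₂ := F₂) hn3 w₁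
  have hord : ∀ f : F, w₂.ord (algebraMap F F₂ f) =
      (w₂.ramificationIndex F⟮γ⟯ * w₁.ramificationIndex F : ℕ) * w.ord f := by
    intro f
    have h1 := w₂.ord_restrict (F := F⟮γ⟯) (algebraMap F F⟮γ⟯ f)
    rw [hw₂, w₁.ord_restrict (F := F) f, hw₁] at h1
    rw [IsScalarTower.algebraMap_apply F F⟮γ⟯ F₂, h1]
    push_cast
    ring
  refine ⟨w₂, w₂.ramificationIndex F⟮γ⟯ * w₁.ramificationIndex F, ?_, ?_, hord⟩
  · rw [← hw₁]
    apply Place.ext
    ext f
    rw [Place.mem_restrict_iff, Place.mem_restrict_iff, ← hw₂, Place.mem_restrict_iff]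
    rfl
  · intro h
    rcases (Nat.prime_three.dvd_mul).mp h with h | h
    · exact he₂ h
    · exact he₁ h

end Ext

end Fermat.Agent.H8
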