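import Fermat.Agent.H97MdE

/-!
# Smooth points: divisibility of the order of the reduction
-/

set_option autoImplicit false
set_option linter.unusedSectionVars false

open AlgebraicCurve WithZero IntermediateField Fermat.Agent.H97

namespace Fermat.Agent.H8

variable {K F₀ F k κ Γ : Type*} [Field K] [Field F₀] [Field F] [Algebra K F₀] [Algebra K F]
  [Field k] [Field κ] [Algebra k κ] [LinearOrderedCommGroupWithZero Γ] {q : ℕ}
  [IsAlgClosed K] [CharZero K] [H3RR.IsFF K F₀] [H3RR.IsFF K F] [IsAlgClosed k] [H3RR.IsFF k κ]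
  [H94.FunField K F₀] [H94.FunField K F] [Fact q.Prime] [CharP k q]
  (S : Sheets K F₀ F k κ Γ q)

theorem dvd_ord_of_not_node {d : ℕ} {x : Place k κ} (hx : ¬ S.Node x) {u : F} (hu0 : u ≠ 0)
    (hdiv : ∀ v : Place K F, (d : ℤ) ∣ v.ord u) (hv : S.v false u = 1) :
    (d : ℤ) ∣ x.ord (S.ρ false u) := by
  classical
  by_cases hd : d = 0
  · subst hd
    have h0 : ∀ v : Place K F, (0 : Divisor K F) v = v.ord u := fun v => by
      have := hdiv v
      rw [Nat.cast_zero, zero_dvd_iff] at this
      rw [this]; rfl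
    have h1 := S.deg_smooth hx false hv h0
    have h2 : cls S.sp (0 : Divisor K F) (Sum.inl (false, S.pt false x)) = 0 := by
      rw [cls, Finsupp.mapDomain_zero]; rfl
    rw [h2] at h1
    exact ⟨0, by rw [mul_zero]; exact h1.symm⟩
  let D : Divisor K F := (H3RR.divOf u : Divisor K F).mapRange (fun n : ℤ => n / d) (by simp)
  have hD : ∀ v : Place K F, ((d : ℤ) • D) v = v.ord u := fun v => by
    rw [Finsupp.smul_apply, smul_eq_mul]
    show (d : ℤ) * ((H3RR.divOf u : Divisor K F) v / d) = _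
    rw [H3RR.divOf_apply hu0, Int.mul_ediv_cancel' (hdiv v)]
  have h1 := S.deg_smooth hx false hv hD
  rw [cls_smul] at h1
  exact ⟨_, h1.symm⟩

end Fermat.Agent.H8
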