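import Fermat.Agent.H8V3
import Fermat.Agent.H8Smooth
import Fermat.Agent.H29Wire3
import Fermat.Agent.H61NdB
import Fermat.Agent.H31EqL

/-!
# The node formula for `p = 3` (input of Mazur's principle)

`nodeInput_three_of_aux`: `NodeInput 3 1 q M A π` for `q ≠ 3`, `q ∤ M`, if a prime `s ≡ 2 mod 3`
divides `M`, from the node formula at levels divisible by `9`.
-/

set_option autoImplicit false
set_option linter.unusedSectionVars false
set_option linter.style.haveILetI false
set_option maxHeartbeats 2000000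
set_option synthInstance.maxHeartbeats 400000

noncomputable section

open AlgebraicCurve ModularCurve IntermediateField HahnSeries Fermat.Agent.H67
open Fermat.Agent.H35.Geo Fermat.Agent.H34.Two Fermat.Agent.H97 Fermat.Agent.H29.Wire

namespace Fermat.Agent.H8

local notation "Qb" => AlgebraicClosure ℚ

section Gen

variable {M q : ℕ} [NeZero M] [NeZero q] [NeZero (M * q)] [hq : Fact q.Prime]
  {A : ValuationSubring Qb} {k : Type} [Field k] [CharP k q] [Infinite k] [IsAlgClosed k]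
  {π : A →+* k} [IsLocalHom π] (w : H99.AL Qb M q) (hπ : Function.Surjective π)
  (hdeg : H42.DegLE Qb k M) (hqM : ¬ q ∣ M) (arch : Arch A)
  (r : Place Qb (H99.FX Qb M) → Place k (modularFunctionFieldFullC k M)) {c : ℕ}
  (hr1 : ∀ D : Divisor Qb (H99.FX Qb M), (c : ℤ) < Divisor.degree D →
      (H42.modReductionData A π M hπ hdeg).IsRed D (Finsupp.mapDomain r D))
  (hr2 : H34.GR.DivCompat (H42.modReductionData A π M hπ hdeg) r)

include arch hr1 hr2 in
set_option maxHeartbeats 1000000 in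
/-- Cusps are smooth points. -/
theorem dvd_ord_cusp {d : ℕ} {u : FB Qb (M * q)} (hu0 : u ≠ 0)
    (hdiv : ∀ v : Place Qb (FB Qb (M * q)), (d : ℤ) ∣ v.ord u)
    (hv : v1 A π w hπ (H42.degreeFact Qb) hdeg hqM u = 1)
    {P : Place k (modularFunctionFieldFullC k M)} (hP : P.ord (jk k M) < 0) :
    (d : ℤ) ∣ P.ord ((comp1 A π w hπ (H42.degreeFact Qb) hdeg hqM).red u) := by
  have i1 : H3RR.IsFF Qb (H99.FX Qb M) := isFF_FF Qb M
  have i2 : H3RR.IsFF Qb (H99.FX Qb (M * q)) := isFF_FF Qb (M * q)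
  have i3 : H94.FunField Qb (H99.FX Qb M) := H3RR.funField_of_isFF
  have i4 : H94.FunField Qb (H99.FX Qb (M * q)) := H3RR.funField_of_isFF
  have i5 : H3RR.IsFF k (modularFunctionFieldFullC k M) := isFF_right (L := Qb) hdeg
  have hx : ¬ (sheets w hπ hdeg hqM arch r hr1 hr2).Node P := fun h =>
    absurd (H61.Nd.node_ord_jk w hπ hdeg hqM arch r hr1 hr2 h) (not_le.mpr hP)
  exact dvd_ord_of_not_node (sheets w hπ hdeg hqM arch r hr1 hr2) hx hu0 hdiv hv

end Gen

section Main

/-- The node formula for `3`-power exponents at level `M` from level `9 M'`. -/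
theorem nodeInput_three {M m M' q : ℕ} [NeZero M] [NeZero m] [NeZero q] [NeZero (M * q)]
    [NeZero (m * q)] [hq : Fact q.Prime] {A : ValuationSubring Qb} {k : Type} [Field k]
    [CharP k q] [Infinite k] [IsAlgClosed k] {π : A →+* k} [IsLocalHom π]
    (w : H99.AL Qb M q) (hπ : Function.Surjective π) (hdeg : H42.DegLE Qb k M)
    (hqM : ¬ q ∣ M) (arch : Arch A)
    (r : Place Qb (H99.FX Qb M) → Place k (modularFunctionFieldFullC k M)) {c : ℕ}
    (hr1 : ∀ D : Divisor Qb (H99.FX Qb M), (c : ℤ) < Divisor.degree D →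
      (H42.modReductionData A π M hπ hdeg).IsRed D (Finsupp.mapDomain r D))
    (hr2 : H34.GR.DivCompat (H42.modReductionData A π M hπ hdeg) r)
    (h3k : (3 : k) ≠ 0) (hmk : (m : k) ≠ 0) (h3 : ¬ 3 ∣ M') (hM : M = M' ∨ M = 3 * M')
    (hm : m = 9 * M') (hord3 : ∀ P : Place k (modularFunctionFieldFullC k M),
      0 ≤ P.ord (jC k M) → (3 : ℤ) ∣ P.ord (jC k M)) {j : ℕ}
    (h : NodeInput (3 ^ j) 1 q m A π) : NodeInput (3 ^ j) 1 q M A π := by
  intro hc u hu a b r₀ s₀ hr hs hdvd r' hr' P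
  rw [Nat.cast_one, one_mul]
  by_cases hP : 0 ≤ P.ord (jC k M)
  · have hMm : M * 3 ∣ m := by
      rcases hM with rfl | rfl
      · exact ⟨3, by rw [hm]; ring⟩
      · exact ⟨1, by rw [hm]; ring⟩
    have hqm : ¬ q ∣ m := by
      intro hd
      obtain ⟨t, ht⟩ := hd
      apply hmk
      rw [ht, Nat.cast_mul, CharP.cast_eq_zero, zero_mul]
    have hmq : m.Coprime q := ((Nat.Prime.coprime_iff_not_dvd hq.out).mpr hqm).symm
    obtain ⟨P', e, he, hord⟩ := exists_place_V3 h3k h3 hM hm hmk P (hord3 P hP)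
    have h1 := dvd_of_nodeInput 3 hMm hmq h hc hu hr hs hdvd hr' (P := P) (P' := P') (e' := e)
      hord
    rw [Nat.cast_one, one_mul] at h1
    have hcop : IsCoprime (((3 ^ j : ℕ)) : ℤ) (e : ℤ) := by
      rw [Nat.isCoprime_iff_coprime]
      exact Nat.Coprime.pow_left j ((Nat.Prime.coprime_iff_not_dvd Nat.prime_three).mpr he)
    exact hcop.dvd_of_dvd_mul_left h1
  · have hq0 : (q : Qb) ≠ 0 := Nat.cast_ne_zero.mpr hq.out.ne_zero
    have hqa : ((q : Qb) ^ (-a)) ≠ 0 := zpow_ne_zero _ hq0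
    have hfix : ∀ σ : Qb ≃ₐ[ℚ] Qb, σ ((q : Qb) ^ (-a)) = (q : Qb) ^ (-a) := fun σ => by
      rw [map_zpow₀, map_natCast]
    set u' : FB Qb (M * q) := algebraMap Qb (FB Qb (M * q)) ((q : Qb) ^ (-a)) * u with hu'def
    have hu' : IsU A (3 ^ j) (M * q) u' := isU_const_mul hu hqa hfix
    have hg1 : HasG π (u' : LaurentSeries Qb) 1 r₀ := by
      have h1 := hasG_const_mul hr ((q : Qb) ^ (-a))
      rw [← zpow_add₀ hq0, neg_add_cancel, zpow_zero] at h1
      exact h1
    have hv1 : v1 A π w hπ (H42.degreeFact Qb) hdeg hqM u' = 1 := by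
      rw [v1_of_hasG w hπ (H42.degreeFact Qb) hdeg hqM hu'.ne one_ne_zero hg1, map_one]
    have hjk : P.ord (jk k M) < 0 := by
      have : jk k M = jC k M := Subtype.ext (by rw [coe_jk]; rfl)
      rw [this]
      exact not_le.mp hP
    have h3 := dvd_ord_cusp w hπ hdeg hqM arch r hr1 hr2 hu'.ne hu'.div hv1 hjk
    have h4 : (comp1 A π w hπ (H42.degreeFact Qb) hdeg hqM).red u' = r' := by
      apply Subtype.ext
      rw [red1_of_hasG_one w hπ (H42.degreeFact Qb) hdeg hqM hg1, hr']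
    rw [h4] at h3
    exact h3

end Main

end Fermat.Agent.H8
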