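import Fermat.Agent.H94Export
import Fermat.Agent.H31Inputs
import Fermat.Agent.H66Degree

/-!
# `3 ∣ ord j` on `X₀(M)` in characteristic `ℓ` if some prime `s ≡ 2 mod 3` divides `M`
-/

set_option autoImplicit false
set_option linter.unusedSectionVars false

noncomputable section

open AlgebraicCurve WithZero IntermediateField ModularCurve Fermat.Agent.H3RR

namespace Fermat.Agent.H8

theorem nuThree_eq_zero {M s : ℕ} (hs : s.Prime) (hs3 : s % 3 = 2) (h : s ∣ M) :
    nuThree M = 0 := by
  rw [nuThree]
  have : Fact s.Prime := ⟨hs⟩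
  have hempty : IsEmpty {x : ZMod M // x ^ 2 + x + 1 = 0} := by
    constructor
    rintro ⟨x, hx⟩
    have h1 : (ZMod.castHom h (ZMod s) x) ^ 2 + ZMod.castHom h (ZMod s) x + 1 = 0 := by
      rw [← map_pow, ← map_add, ← map_one (ZMod.castHom h (ZMod s)), ← map_add, hx, map_zero]
    set y := ZMod.castHom h (ZMod s) x
    have hy3 : y ^ 3 = 1 := by linear_combination (y - 1) * h1
    have hy0 : y ≠ 0 := by
      rintro h0
      rw [h0] at hy3
      norm_num at hy3
    have h2 := ZMod.pow_card_sub_one_eq_one hy0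
    have h3 : orderOf y ∣ 3 := orderOf_dvd_of_pow_eq_one hy3
    have h4 : orderOf y ∣ s - 1 := orderOf_dvd_of_pow_eq_one h2
    have h5 : orderOf y ∣ 1 := by
      have h6 : Nat.Coprime 3 (s - 1) := by
        rw [Nat.Prime.coprime_iff_not_dvd Nat.prime_three]
        intro h7
        have := hs.two_le
        omega
      have := Nat.dvd_gcd h3 h4
      rwa [h6.gcd_eq_one] at this
    have h6 : y = 1 := by
      rw [Nat.dvd_one, orderOf_eq_one_iff] at h5
      exact h5
    rw [h6] at h1
    have h7 : ((3 : ℕ) : ZMod s) = 0 := by push_cast; linear_combination h1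
    rw [ZMod.natCast_eq_zero_iff] at h7
    have := (Nat.prime_dvd_prime_iff_eq hs Nat.prime_three).mp h7
    omega
  exact Nat.card_of_isEmpty

section CharZero

variable {K F : Type*} [Field K] [Field F] [Algebra K F] [CharZero K] [IsAlgClosed K]
  [H94.FunField K F] {M : ℕ} [NeZero M] {j : F}

/-- all the zeros of `j` are triple if there are no elliptic points of order `3` -/
theorem ord_eq_three (D : H94.X0PlaceData K F M j) (hM : nuThree M = 0) (v : Place K F)
    (hv : 0 < v.ord j) : v.ord j = 3 := by
  classical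
  obtain ⟨hfin, hsum⟩ := H18.sum_ord_pos D.transcendental
  obtain ⟨k, hk1, hk2⟩ := H45.exists_orbits_ST M
  rw [hM, zero_add] at hk1 hk2
  have hcard : hfin.toFinset.card = k := by
    rw [← hk2]
    have h1 := D.card_zero
    rw [← Set.ncard_eq_toFinset_card _ hfin]
    exact h1
  rw [D.finrank_eq, hk1] at hsum
  by_contra hne
  have hlt : v.ord j < 3 := lt_of_le_of_ne (D.ord_le_three v) hne
  have h2 : ∑ v ∈ hfin.toFinset, v.ord j < ∑ _v ∈ hfin.toFinset, (3 : ℤ) := by
    refine Finset.sum_lt_sum (fun w _ => D.ord_le_three w) ⟨v, ?_, hlt⟩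
    rw [Set.Finite.mem_toFinset]
    exact hv
  rw [hsum, Finset.sum_const, hcard, nsmul_eq_mul] at h2
  push_cast at h2
  linarith

end CharZero

section Red

local notation "Qb" => AlgebraicClosure ℚ

variable {A : ValuationSubring Qb} {M : ℕ} [NeZero M] {k : Type*} [Field k] [IsAlgClosed k]

/-- `j` as an element of the function field over `k` -/
def jC (k : Type*) [Field k] (M : ℕ) : modularFunctionFieldFullC k M :=
  ⟨jqModC k, jqModC_mem_full k M⟩

theorem funField_fullC (hM : (M : k) ≠ 0) : H94.FunField k (modularFunctionFieldFullC k M) := by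
  apply H42.funField_full
  rw [(H66.relfinrank_full_of_hasRoots (H66.hasRoots_of_isAlgClosed k) M hM).1]
  exact (H66.relfinrank_full_of_hasRoots (H66.hasRoots_of_isAlgClosed k) M hM).2

theorem transcendental_jC : Transcendental k (jC k M) := H42.transcendental_jFull k M

theorem finrank_jC (hM : (M : k) ≠ 0) :
    Module.finrank k⟮jC k M⟯ (modularFunctionFieldFullC k M) = dedekindPsi M := by
  rw [← H66.relfinrank_full k M hM]
  exact (H42.relfinrank_eq_finrank_adjoin _ (jqModC_mem_full k M)).symm

/-- **Divisibility of the order of `j` in characteristic `ℓ`.** -/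
theorem three_dvd_ord_j (hM : (M : k) ≠ 0) (h3 : nuThree M = 0) {π : A →+* k}
    {r : Place Qb (laurentBaseChange Qb (modularFunctionFieldFull M)) →
      Place k (modularFunctionFieldFullC k M)} (hr : IsPlaceReductionAlong A π M r)
    (Q : Place k (modularFunctionFieldFullC k M)) (hQ : 0 ≤ Q.ord (jC k M)) :
    (3 : ℤ) ∣ Q.ord (jC k M) := by
  classical
  have hff : H94.FunField Qb (modularFunctionFieldBar M) := H94.funField_bar M
  have hffk : H94.FunField k (modularFunctionFieldFullC k M) := funField_fullC hM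
  have D := H94.x0PlaceData_bar M
  obtain ⟨jL, hjL⟩ : ∃ jL, jL = H94.jBar M := ⟨_, rfl⟩
  rw [← hjL] at D
  have hj0 : jL ≠ 0 := transcendental_ne_zero D.transcendental
  have hy1 : coeffMap A.subtype (jqModC A) = jqModC Qb := map_jqModC A.subtype
  have hy2 : coeffMap π (jqModC A) = jqModC k := map_jqModC π
  have hjQ0 : jC k M ≠ 0 := transcendental_ne_zero transcendental_jC
  -- the divisor of `j`
  have hred : ∀ Q, Finsupp.mapDomain r (divOf jL : Divisor Qb (modularFunctionFieldBar M)) Q =
      Q.ord (jC k M) := by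
    intro Q
    have h1 : coeffMap A.subtype (jqModC A) ∈
        laurentBaseChange Qb (modularFunctionFieldFull M) := by
      rw [hy1]; exact H94.jqModC_mem_bar M
    have h2 : coeffMap π (jqModC A) ∈ modularFunctionFieldFullC k M := by
      rw [hy2]; exact jqModC_mem_full k M
    have h3 := hr.2 (jqModC A) h1 h2 (by
      rw [hy2]
      intro h
      exact hjQ0 (Subtype.ext h)) (divOf jL) (fun P => by
        rw [divOf_apply hj0, hjL]
        congr 1
        exact Subtype.ext hy1.symm) Q
    rw [h3]
    congr 1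
    exact Subtype.ext hy2
  -- zeros and poles
  set Z : Divisor Qb (modularFunctionFieldBar M) := (divOf jL)⁺ with hZ
  set E : Divisor Qb (modularFunctionFieldBar M) := poleDiv jL with hE
  have hZE : (divOf jL : Divisor Qb (modularFunctionFieldBar M)) = Z - E :=
    (posPart_sub_negPart _).symm
  have hZ3 : ∃ Z' : Divisor Qb (modularFunctionFieldBar M), Z = (3 : ℤ) • Z' := by
    refine ⟨Finsupp.mapRange (fun n : ℤ => n / 3) (by norm_num) Z, ?_⟩
    ext P
    rw [Finsupp.smul_apply, Finsupp.mapRange_apply]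
    have h1 : Z P = max (P.ord jL) 0 := by
      rw [hZ, posPart_def, Finsupp.sup_apply, divOf_apply hj0]
      rfl
    rcases lt_or_ge 0 (P.ord jL) with h2 | h2
    · rw [h1, max_eq_left h2.le, ord_eq_three D h3 P h2]
      norm_num
    · rw [h1, max_eq_right h2]
      norm_num
  have hEn : ∀ P, 0 ≤ E P := fun P => by
    rw [hE, poleDiv_apply hj0]
    exact le_max_right _ _
  have hZn : ∀ P, 0 ≤ Z P := fun P => by
    rw [hZ, posPart_def, Finsupp.sup_apply]
    exact le_max_right _ _
  have hredQ : ∀ Q, Finsupp.mapDomain r Z Q - Finsupp.mapDomain r E Q = Q.ord (jC k M) := by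
    intro Q
    rw [← hred Q, hZE]
    exact (H18.mapDomain_sub_apply Z E Q).symm
  have hE0 : ∀ Q, 0 ≤ Finsupp.mapDomain r E Q := fun Q =>
    H18.mapDomain_apply_nonneg E Q fun P _ => hEn P
  have hZ0 : ∀ Q, 0 ≤ Finsupp.mapDomain r Z Q := fun Q =>
    H18.mapDomain_apply_nonneg Z Q fun P _ => hZn P
  have hle : (poleDiv (jC k M) : Divisor k (modularFunctionFieldFullC k M)) ≤
      Finsupp.mapDomain r E := by
    rw [Finsupp.le_def]
    intro Q
    rw [poleDiv_apply hjQ0]
    have h1 := hredQ Q
    have h2 := hE0 Q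
    have h4 := hZ0 Q
    exact max_le (by omega) h2
  have hdeg : Divisor.degree (poleDiv (jC k M) : Divisor k (modularFunctionFieldFullC k M)) =
      Divisor.degree (Finsupp.mapDomain r E) := by
    rw [degree_poleDiv transcendental_jC, finrank_jC hM, degree_mapDomain_of_deg_eq hr.1, hE,
      degree_poleDiv D.transcendental, D.finrank_eq]
  have heq : (poleDiv (jC k M) : Divisor k (modularFunctionFieldFullC k M)) =
      Finsupp.mapDomain r E :=
    H40.eq_of_le_of_degree_le H94.deg_eq_one hle hdeg.ge
  have h4 : Finsupp.mapDomain r E Q = 0 := by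
    rw [← heq, poleDiv_apply hjQ0]
    exact max_eq_right (by omega)
  obtain ⟨Z', hZ'⟩ := hZ3
  have h5 := hredQ Q
  rw [h4, sub_zero, hZ', Finsupp.mapDomain_smul, Finsupp.smul_apply] at h5
  exact ⟨_, h5.symm⟩

end Red

end Fermat.Agent.H8
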