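import Mathlib
import Fermat.Agent.H8ShimMain
import Fermat.Agent.H16Alg
import Fermat.Agent.H80S20
import Fermat.Agent.H23Main

/-!
Reduction of S16 to the upper bound `EisCong p m → m ∣ eisensteinNumerator p`.
-/

set_option autoImplicit false

open ModularCurve CuspForm

namespace Fermat.Agent.H8

open Fermat.Agent.H16 Fermat.Agent.H16.Alg

theorem eisensteinNumerator_dvd_evHom (p : ℕ) [Fact p.Prime] (P : HeckeAlg) (hP : piHom p P = 0) :
    (eisensteinNumerator p : ℤ) ∣ evHom p P := by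
  have h1 : heckeEvalForms p 2 P = 0 := by
    have h2 := (latticeRestrictHom_bijective p ∅ (H23.hasIntegralStructure p 2)).1
    apply h2
    rw [map_zero]
    exact hP
  exact eisensteinNumerator_dvd_aeval p (H80.finrank_eq_genusFormula p) P h1

theorem exists_card (p : ℕ) [Fact p.Prime] :
    ∃ m : ℕ, Nat.card (↥(heckeLatticeAlgebra p ∅) ⧸
        Ideal.map ((latticeRestrictHom p ∅).toRingHom.comp (heckeEvalForms p 2))
          (eisensteinIdeal p)) = m ∧ (∃ P : HeckeAlg, piHom p P = 0 ∧ evHom p P = m) ∧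
      ∃ f : CuspForm (CongruenceSubgroup.Gamma0 p) 2, ∀ k : ℕ, ∃ a : ℤ,
        ModularFormClass.qCoeff f k = a ∧ (1 ≤ k → (m : ℤ) ∣ a - sigmaP p k) := by
  obtain ⟨m, e', he', P, hP, hPm⟩ := exists_equiv_zmod (piHom p) (evHom p) (piHom_surjective p)
    (evHom_surjective p)
  refine ⟨m, ?_, ⟨P, hP, hPm⟩, ?_⟩
  · rw [← Nat.card_zmod m]
    exact Nat.card_congr e'.toEquiv
  · let g : ↥(heckeLatticeAlgebra p ∅) →ₗ[ℤ] ZMod m :=
      (e'.toRingHom.comp (Ideal.Quotient.mk _)).toIntAlgHom.toLinearMap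
    obtain ⟨φ, hφ⟩ := Module.projective_lifting_property (Algebra.linearMap ℤ (ZMod m)) g
      (ZMod.intCast_surjective)
    obtain ⟨f, hf⟩ := exists_dual p φ
    refine ⟨f, fun k => ⟨coeffLin p k f, coeffLin_spec p k f, fun hk => ?_⟩⟩
    obtain ⟨P, hP1, hP2⟩ := exists_coeff_op p k hk
    have h3 : (coeffLin p k f : ℂ) = (φ (piHom p P) : ℂ) := by
      rw [← coeffLin_spec, ← hP2, ← coe_piHom_apply, coeffLin_spec, ← pair_apply, hf]
    have h4 : coeffLin p k f = φ (piHom p P) := by exact_mod_cast h3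
    have h5 : ((φ (piHom p P) : ℤ) : ZMod m) = ((evHom p P : ℤ) : ZMod m) := by
      rw [← he']
      exact LinearMap.congr_fun hφ (piHom p P)
    rw [h4, ← hP1]
    exact (ZMod.intCast_eq_intCast_iff_dvd_sub _ _ _).mp h5.symm

theorem eisensteinNumerator_pos (p : ℕ) [Fact p.Prime] : 0 < eisensteinNumerator p := by
  rw [← natCard_shimB]
  exact Nat.card_pos

/-- S16 from the upper bound. -/
theorem natCard_eq_of_upper (p : ℕ) [Fact p.Prime]
    (hU : ∀ m : ℕ, 0 < m → EisCong p m → m ∣ eisensteinNumerator p) :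
    Nat.card (↥(heckeLatticeAlgebra p ∅) ⧸
        Ideal.map ((latticeRestrictHom p ∅).toRingHom.comp (heckeEvalForms p 2))
          (eisensteinIdeal p)) = eisensteinNumerator p := by
  obtain ⟨m, hm, ⟨P, hP, hPm⟩, hf⟩ := exists_card p
  rw [hm]
  have h1 : eisensteinNumerator p ∣ m := by
    have := eisensteinNumerator_dvd_evHom p P hP
    rw [hPm] at this
    exact_mod_cast this
  have hn := eisensteinNumerator_pos p
  rcases Nat.eq_zero_or_pos m with hm0 | hmpos
  · exfalso
    have : EisCong p (eisensteinNumerator p + 1) := by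
      obtain ⟨f, hf⟩ := hf
      refine ⟨f, fun k => ?_⟩
      obtain ⟨a, ha, ha'⟩ := hf k
      refine ⟨a, ha, fun hk => ?_⟩
      have := ha' hk
      rw [hm0, Nat.cast_zero, zero_dvd_iff] at this
      rw [this]
      exact dvd_zero _
    have := Nat.le_of_dvd hn (hU _ (Nat.succ_pos _) this)
    omega
  · exact Nat.dvd_antisymm (hU m hmpos hf) h1

end Fermat.Agent.H8
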