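import Mathlib

/-!
# S47, (T2b): majorants for the theta kernel of signature (3,1)

Hermitian matrices `X = (a b; b̄ d)`, `Q(X) = |b|² - ad`, a point `w = (z, y)` of hyperbolic space,
`t = (X, X_w) = (2 Re(b̄ z) - a - d (|z|² + y²)) / (2 y)`, `Q_w(X) = Q(X) + 2 t²`.
-/

set_option autoImplicit false
set_option linter.unusedSectionVars false

noncomputable section

open Complex

namespace Fermat.Agent.H8T

/-- `Q(X) = |b|² - a d` -/
def qf (a d : ℝ) (b : ℂ) : ℝ := ‖b‖ ^ 2 - a * d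

/-- `(X, X_w)` -/
def tf (z : ℂ) (y : ℝ) (a d : ℝ) (b : ℂ) : ℝ :=
  (2 * (conj' b * z).re - a - d * (‖z‖ ^ 2 + y ^ 2)) / (2 * y)
  where conj' (b : ℂ) : ℂ := (starRingEnd ℂ) b

/-- `Q_w(X) = Q(X) + 2 (X, X_w)²` -/
def mf (z : ℂ) (y : ℝ) (a d : ℝ) (b : ℂ) : ℝ := qf a d b + 2 * tf z y a d b ^ 2

theorem mf_eq {z : ℂ} {y : ℝ} (hy : 0 < y) (a d : ℝ) (b : ℂ) :
    mf z y a d b = ‖b - d * z‖ ^ 2 +
      (a - 2 * ((starRingEnd ℂ) b * z).re + d * ‖z‖ ^ 2) ^ 2 / (2 * y ^ 2) +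
      d ^ 2 * y ^ 2 / 2 := by
  have h1 : ‖b - d * z‖ ^ 2 = ‖b‖ ^ 2 - 2 * d * ((starRingEnd ℂ) b * z).re + d ^ 2 * ‖z‖ ^ 2 := by
    rw [← Complex.normSq_eq_norm_sq, ← Complex.normSq_eq_norm_sq, ← Complex.normSq_eq_norm_sq]
    simp only [Complex.normSq_apply, Complex.sub_re, Complex.sub_im, Complex.mul_re,
      Complex.mul_im, Complex.ofReal_re, Complex.ofReal_im, Complex.conj_re, Complex.conj_im]
    ring
  rw [mf, qf, tf, tf.conj', h1]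
  field_simp
  ring

theorem neg_qf_le_mf {z : ℂ} {y : ℝ} (hy : 0 < y) (a d : ℝ) (b : ℂ) :
    |qf a d b| ≤ mf z y a d b := by
  rw [abs_le]
  constructor
  · -- `Q + 2 t² ≥ -Q`: `Q + t² ≥ 0`
    have h1 : 0 ≤ qf a d b + tf z y a d b ^ 2 := by
      have h2 : qf a d b + tf z y a d b ^ 2 = ‖b - d * z‖ ^ 2 +
          ((a - 2 * ((starRingEnd ℂ) b * z).re + d * ‖z‖ ^ 2) / (2 * y) - d * y / 2) ^ 2 := by
        have h1 : ‖b - d * z‖ ^ 2 =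
            ‖b‖ ^ 2 - 2 * d * ((starRingEnd ℂ) b * z).re + d ^ 2 * ‖z‖ ^ 2 := by
          rw [← Complex.normSq_eq_norm_sq, ← Complex.normSq_eq_norm_sq,
            ← Complex.normSq_eq_norm_sq]
          simp only [Complex.normSq_apply, Complex.sub_re, Complex.sub_im, Complex.mul_re,
            Complex.mul_im, Complex.ofReal_re, Complex.ofReal_im, Complex.conj_re,
            Complex.conj_im]
          ring
        rw [qf, tf, tf.conj', h1]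
        field_simp
        ring
      rw [h2]
      positivity
    rw [mf]
    linarith
  · rw [mf]
    have := sq_nonneg (tf z y a d b)
    linarith

theorem mf_nonneg {z : ℂ} {y : ℝ} (hy : 0 < y) (a d : ℝ) (b : ℂ) : 0 ≤ mf z y a d b :=
  (abs_nonneg _).trans (neg_qf_le_mf hy a d b)

/-- size of `X` -/
def nf (a d : ℝ) (b : ℂ) : ℝ := |a| + |d| + ‖b‖

theorem nf_nonneg (a d : ℝ) (b : ℂ) : 0 ≤ nf a d b := by unfold nf; positivity

/-- the constant of `nf_le` -/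
def cR (R y₀ : ℝ) : ℝ := 3 / 2 + (1 + 2 * R + 3 / (2 * y₀) * (1 + R + 3 * R ^ 2)) / y₀

theorem cR_pos {R y₀ : ℝ} (hR : 0 ≤ R) (hy₀ : 0 < y₀) : 0 < cR R y₀ := by
  unfold cR; positivity

theorem le_of_sq_le_sq {x y : ℝ} (h : x ^ 2 ≤ y ^ 2) (hy : 0 ≤ y) : x ≤ y := by
  refine (le_abs_self x).trans ?_
  rw [← abs_of_nonneg hy]
  exact sq_le_sq.mp h

theorem nf_le {z : ℂ} {y R y₀ : ℝ} (hy₀ : 0 < y₀) (hy : y₀ ≤ y) (hz : ‖z‖ ≤ R) (a d : ℝ) (b : ℂ) :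
    nf a d b ≤ cR R y₀ * y * √(mf z y a d b) := by
  have hy0 : 0 < y := by linarith
  have hR : 0 ≤ R := (norm_nonneg z).trans hz
  set m := mf z y a d b with hm
  have hm0 : 0 ≤ m := mf_nonneg hy0 a d b
  set s := √m with hs
  have hs0 : 0 ≤ s := Real.sqrt_nonneg _
  have hs2 : s ^ 2 = m := Real.sq_sqrt hm0
  have hmeq := mf_eq (z := z) hy0 a d b
  rw [← hm] at hmeq
  set a' := a - 2 * ((starRingEnd ℂ) b * z).re + d * ‖z‖ ^ 2 with ha'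
  have e1 : 0 ≤ ‖b - d * z‖ ^ 2 := by positivity
  have e2 : 0 ≤ a' ^ 2 / (2 * y ^ 2) := by positivity
  have e3 : 0 ≤ d ^ 2 * y ^ 2 / 2 := by positivity
  have hQd : d ^ 2 * y ^ 2 / 2 ≤ s ^ 2 := by rw [hs2, hmeq]; linarith
  have hQb : ‖b - d * z‖ ^ 2 ≤ s ^ 2 := by rw [hs2, hmeq]; linarith
  have hQa : a' ^ 2 / (2 * y ^ 2) ≤ s ^ 2 := by rw [hs2, hmeq]; linarith
  set k := 3 / (2 * y₀) with hk
  have hk0 : 0 < k := by positivity
  -- bound for `d`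
  have hd : |d| ≤ k * s := by
    have h1 : (|d| * y) ^ 2 ≤ (3 / 2 * s) ^ 2 := by
      rw [mul_pow, sq_abs]
      nlinarith
    have h2 : |d| * y ≤ 3 / 2 * s := le_of_sq_le_sq h1 (by positivity)
    have h3 : |d| * y₀ ≤ 3 / 2 * s := (mul_le_mul_of_nonneg_left hy (abs_nonneg d)).trans h2
    have h4 : k * s = 3 / 2 * s / y₀ := by rw [hk]; field_simp
    rw [h4, le_div_iff₀ hy₀]
    exact h3
  have hb : ‖b‖ ≤ s + k * R * s := by
    have h1 : ‖b - d * z‖ ≤ s := le_of_sq_le_sq hQb hs0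
    have h2 : ‖b‖ ≤ ‖b - d * z‖ + ‖(d : ℂ) * z‖ := by
      calc ‖b‖ = ‖(b - d * z) + d * z‖ := by rw [sub_add_cancel]
        _ ≤ _ := norm_add_le _ _
    rw [norm_mul, Complex.norm_real, Real.norm_eq_abs] at h2
    have h3 : |d| * ‖z‖ ≤ k * s * R := mul_le_mul hd hz (norm_nonneg _) (by positivity)
    linarith
  have ha0 : |a'| ≤ 3 / 2 * y * s := by
    refine le_of_sq_le_sq ?_ (by positivity)
    rw [sq_abs]
    rw [div_le_iff₀ (by positivity)] at hQa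
    have : 0 ≤ s ^ 2 * y ^ 2 := by positivity
    nlinarith
  have ha1 : |a| ≤ 3 / 2 * y * s + 2 * ((s + k * R * s) * R) + k * s * R ^ 2 := by
    have h1 : a = a' + 2 * ((starRingEnd ℂ) b * z).re - d * ‖z‖ ^ 2 := by rw [ha']; ring
    have h2 : |((starRingEnd ℂ) b * z).re| ≤ (s + k * R * s) * R := by
      refine (Complex.abs_re_le_norm _).trans ?_
      rw [norm_mul, RCLike.norm_conj]
      exact mul_le_mul hb hz (norm_nonneg _) (by positivity)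
    have h3 : |d * ‖z‖ ^ 2| ≤ k * s * R ^ 2 := by
      rw [abs_mul, abs_of_nonneg (by positivity : (0:ℝ) ≤ ‖z‖ ^ 2)]
      exact mul_le_mul hd (pow_le_pow_left₀ (norm_nonneg _) hz 2) (by positivity) (by positivity)
    rw [h1]
    have h4 := abs_sub (a' + 2 * ((starRingEnd ℂ) b * z).re) (d * ‖z‖ ^ 2)
    have h5 := abs_add_le a' (2 * ((starRingEnd ℂ) b * z).re)
    rw [abs_mul, abs_two] at h5
    linarith
  have hK : 0 ≤ (1 + 2 * R + k * (1 + R + 3 * R ^ 2)) / y₀ * s := by positivity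
  have h6 : (1 + 2 * R + k * (1 + R + 3 * R ^ 2)) * s ≤
      (1 + 2 * R + k * (1 + R + 3 * R ^ 2)) / y₀ * s * y := by
    have h7 : (1 + 2 * R + k * (1 + R + 3 * R ^ 2)) * s =
      (1 + 2 * R + k * (1 + R + 3 * R ^ 2)) / y₀ * s * y₀ := by field_simp
    rw [h7]
    exact mul_le_mul_of_nonneg_left hy hK
  calc nf a d b = |a| + |d| + ‖b‖ := rfl
    _ ≤ 3 / 2 * y * s + (1 + 2 * R + k * (1 + R + 3 * R ^ 2)) * s := by nlinarith
    _ ≤ 3 / 2 * y * s + (1 + 2 * R + k * (1 + R + 3 * R ^ 2)) / y₀ * s * y := by linarith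
    _ = cR R y₀ * y * s := by rw [cR, ← hk]; ring

/-! ### Lattice sums -/

theorem summable_int : Summable (fun n : ℤ => 1 / (1 + (n : ℝ) ^ 2)) := by
  refine Summable.of_norm_bounded_eventually (g := fun n : ℤ => 1 / (n : ℝ) ^ 2)
    (Real.summable_one_div_int_pow.mpr one_lt_two) ?_
  rw [Filter.eventually_cofinite]
  refine (Set.finite_singleton (0 : ℤ)).subset fun n hn => ?_
  by_contra h0
  apply hn
  have h1 : (0 : ℝ) < (n : ℝ) ^ 2 := by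
    have : (n : ℝ) ≠ 0 := by exact_mod_cast h0
    positivity
  rw [Real.norm_eq_abs, abs_of_pos (by positivity)]
  exact one_div_le_one_div_of_le h1 (by linarith)

/-- `ℤ⁴` -/
abbrev Z4 : Type := ℤ × ℤ × ℤ × ℤ

/-- product majorant on `ℤ⁴` -/
def w4 (x : Z4) : ℝ := 1 / (1 + (x.1 : ℝ) ^ 2) * (1 / (1 + (x.2.1 : ℝ) ^ 2) *
  (1 / (1 + (x.2.2.1 : ℝ) ^ 2) * (1 / (1 + (x.2.2.2 : ℝ) ^ 2))))

theorem w4_nonneg (x : Z4) : 0 ≤ w4 x := by unfold w4; positivity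

theorem summable_w4 : Summable w4 := by
  have h0 : (0 : ℤ → ℝ) ≤ fun n : ℤ => 1 / (1 + (n : ℝ) ^ 2) := fun n => by
    show (0 : ℝ) ≤ _; positivity
  have h1 := summable_int.mul_of_nonneg summable_int h0 h0
  have h1' : (0 : ℤ × ℤ → ℝ) ≤ fun x : ℤ × ℤ => 1 / (1 + (x.1 : ℝ) ^ 2) * (1 / (1 + (x.2 : ℝ) ^ 2)) :=
    fun n => by show (0 : ℝ) ≤ _; positivity
  have h2 := summable_int.mul_of_nonneg h1 h0 h1'
  have h2' : (0 : ℤ × ℤ × ℤ → ℝ) ≤ fun x : ℤ × ℤ × ℤ => 1 / (1 + (x.1 : ℝ) ^ 2) *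
      (1 / (1 + (x.2.1 : ℝ) ^ 2) * (1 / (1 + (x.2.2 : ℝ) ^ 2))) :=
    fun n => by show (0 : ℝ) ≤ _; positivity
  exact summable_int.mul_of_nonneg h2 h0 h2'

/-- A family `(a, d, b)` indexed by `ι` has lattice growth: there is an injection `κ` to `ℤ⁴` whose
coordinates are bounded by `c * nf`. -/
def IsLatt {ι : Type*} (a d : ι → ℝ) (b : ι → ℂ) : Prop :=
  ∃ c : ℝ, ∃ κ : ι → Z4, Function.Injective κ ∧ ∀ x,
    |((κ x).1 : ℝ)| ≤ c * nf (a x) (d x) (b x) ∧ |((κ x).2.1 : ℝ)| ≤ c * nf (a x) (d x) (b x) ∧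
    |((κ x).2.2.1 : ℝ)| ≤ c * nf (a x) (d x) (b x) ∧
    |((κ x).2.2.2 : ℝ)| ≤ c * nf (a x) (d x) (b x)

theorem IsLatt.summable {ι : Type*} {a d : ι → ℝ} {b : ι → ℂ} (h : IsLatt a d b) :
    Summable fun x => ((1 + nf (a x) (d x) (b x) ^ 2) ^ 4)⁻¹ := by
  obtain ⟨c, κ, hκ, hc⟩ := h
  have h1 : Summable fun x => (1 + c ^ 2) ^ 4 * w4 (κ x) :=
    (summable_w4.comp_injective hκ).mul_left _
  refine Summable.of_nonneg_of_le (fun x => by positivity) (fun x => ?_) h1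
  obtain ⟨e1, e2, e3, e4⟩ := hc x
  set n := nf (a x) (d x) (b x) with hn
  have key : ∀ k : ℤ, |(k : ℝ)| ≤ c * n → (1 + n ^ 2)⁻¹ ≤ (1 + c ^ 2) * (1 / (1 + (k : ℝ) ^ 2)) := by
    intro k hk
    have h2 : (k : ℝ) ^ 2 ≤ c ^ 2 * n ^ 2 := by
      rw [← sq_abs, ← mul_pow]
      exact pow_le_pow_left₀ (abs_nonneg _) hk 2
    rw [mul_one_div, inv_eq_one_div, div_le_div_iff₀ (by positivity) (by positivity)]
    nlinarith [sq_nonneg c, sq_nonneg n]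
  have p0 : 0 ≤ (1 + n ^ 2)⁻¹ := by positivity
  calc ((1 + n ^ 2) ^ 4)⁻¹ = (1 + n ^ 2)⁻¹ * ((1 + n ^ 2)⁻¹ * ((1 + n ^ 2)⁻¹ * (1 + n ^ 2)⁻¹)) := by
        rw [← inv_pow]; ring
    _ ≤ ((1 + c ^ 2) * (1 / (1 + ((κ x).1 : ℝ) ^ 2))) *
        (((1 + c ^ 2) * (1 / (1 + ((κ x).2.1 : ℝ) ^ 2))) *
        (((1 + c ^ 2) * (1 / (1 + ((κ x).2.2.1 : ℝ) ^ 2))) *
        ((1 + c ^ 2) * (1 / (1 + ((κ x).2.2.2 : ℝ) ^ 2))))) := by
        refine mul_le_mul (key _ e1) (mul_le_mul (key _ e2) (mul_le_mul (key _ e3) (key _ e4) p0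
          (by positivity)) (by positivity) (by positivity)) (by positivity) (by positivity)
    _ = _ := by rw [w4]; ring

theorem pow_mul_exp_le (k : ℕ) {ε : ℝ} (hε : 0 < ε) {m : ℝ} (hm : 0 ≤ m) :
    (1 + m) ^ k * Real.exp (-(ε * m)) ≤ k.factorial * Real.exp ε / ε ^ k := by
  have h1 : (ε * (1 + m)) ^ k / k.factorial ≤ Real.exp (ε * (1 + m)) :=
    Real.pow_div_factorial_le_exp _ (by positivity) k
  have h2 : Real.exp (ε * (1 + m)) = Real.exp ε * Real.exp (ε * m) := by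
    rw [← Real.exp_add]; ring_nf
  rw [h2, div_le_iff₀ (by positivity), mul_pow] at h1
  rw [le_div_iff₀ (by positivity), Real.exp_neg]
  have hE : 0 < Real.exp (ε * m) := Real.exp_pos _
  calc (1 + m) ^ k * (Real.exp (ε * m))⁻¹ * ε ^ k
      = (ε ^ k * (1 + m) ^ k) * (Real.exp (ε * m))⁻¹ := by ring
    _ ≤ (Real.exp ε * Real.exp (ε * m) * k.factorial) * (Real.exp (ε * m))⁻¹ :=
        mul_le_mul_of_nonneg_right h1 (by positivity)
    _ = _ := by field_simp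

/-- the constant of `term_le` -/
def cT (R y₀ : ℝ) (j : ℕ) (ε : ℝ) : ℝ :=
  ((j + 4).factorial * Real.exp ε / ε ^ (j + 4)) * (1 / y₀ ^ 2 + cR R y₀ ^ 2) ^ 4

theorem cT_pos {R y₀ : ℝ} (hy₀ : 0 < y₀) (j : ℕ) {ε : ℝ} (hε : 0 < ε) : 0 < cT R y₀ j ε := by
  unfold cT
  have : 0 < (1 / y₀ ^ 2 + cR R y₀ ^ 2) := by positivity
  positivity

/-- pointwise majorant -/
theorem term_le {z : ℂ} {y R y₀ : ℝ} (hy₀ : 0 < y₀) (hy : y₀ ≤ y) (hz : ‖z‖ ≤ R) (j : ℕ)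
    {ε : ℝ} (hε : 0 < ε) (a d : ℝ) (b : ℂ) :
    (1 + mf z y a d b) ^ j * Real.exp (-(ε * mf z y a d b)) ≤
      cT R y₀ j ε * y ^ 8 * ((1 + nf a d b ^ 2) ^ 4)⁻¹ := by
  have hy0 : 0 < y := by linarith
  set m := mf z y a d b with hm
  have hm0 : 0 ≤ m := mf_nonneg hy0 a d b
  set n := nf a d b with hn
  have hn0 : 0 ≤ n := nf_nonneg a d b
  have h1 : n ^ 2 ≤ cR R y₀ ^ 2 * y ^ 2 * m := by
    have h2 := pow_le_pow_left₀ hn0 (nf_le hy₀ hy hz a d b) 2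
    rw [mul_pow, mul_pow, ← hm, Real.sq_sqrt hm0] at h2
    exact h2
  have h3 : 1 ≤ 1 / y₀ ^ 2 * y ^ 2 := by
    rw [one_div, inv_mul_eq_div, le_div_iff₀ (by positivity), one_mul]
    exact pow_le_pow_left₀ hy₀.le hy 2
  have h4 : 1 + n ^ 2 ≤ (1 / y₀ ^ 2 + cR R y₀ ^ 2) * y ^ 2 * (1 + m) := by
    have h5 : 0 ≤ 1 / y₀ ^ 2 * y ^ 2 * m := by positivity
    have h6 : 0 ≤ cR R y₀ ^ 2 * y ^ 2 := by positivity
    nlinarith
  have h5 : (1 + n ^ 2) ^ 4 ≤ (1 / y₀ ^ 2 + cR R y₀ ^ 2) ^ 4 * y ^ 8 * (1 + m) ^ 4 := by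
    refine (pow_le_pow_left₀ (by positivity) h4 4).trans (le_of_eq ?_)
    ring
  have h6 := pow_mul_exp_le (j + 4) hε hm0
  have h7 : 0 < (1 + n ^ 2) ^ 4 := by positivity
  rw [← div_eq_mul_inv, le_div_iff₀ h7]
  calc (1 + m) ^ j * Real.exp (-(ε * m)) * (1 + n ^ 2) ^ 4
      ≤ (1 + m) ^ j * Real.exp (-(ε * m)) *
        ((1 / y₀ ^ 2 + cR R y₀ ^ 2) ^ 4 * y ^ 8 * (1 + m) ^ 4) :=
        mul_le_mul_of_nonneg_left h5 (by positivity)
    _ = ((1 + m) ^ (j + 4) * Real.exp (-(ε * m))) *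
        ((1 / y₀ ^ 2 + cR R y₀ ^ 2) ^ 4 * y ^ 8) := by ring
    _ ≤ ((j + 4).factorial * Real.exp ε / ε ^ (j + 4)) *
        ((1 / y₀ ^ 2 + cR R y₀ ^ 2) ^ 4 * y ^ 8) :=
        mul_le_mul_of_nonneg_right h6 (by positivity)
    _ = cT R y₀ j ε * y ^ 8 := by rw [cT]; ring

variable {ι : Type*} {a d : ι → ℝ} {b : ι → ℂ}

/-- **Majorant**: the theta series with polynomial weights grows at most like `y ^ 8` on
`{‖z‖ ≤ R, y₀ ≤ y}`. -/
theorem IsLatt.maj (h : IsLatt a d b) (j : ℕ) {ε : ℝ} (hε : 0 < ε) (R : ℝ) {y₀ : ℝ}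
    (hy₀ : 0 < y₀) : ∃ C : ℝ, 0 < C ∧ ∀ (z : ℂ) (y : ℝ), ‖z‖ ≤ R → y₀ ≤ y →
    Summable (fun x => (1 + mf z y (a x) (d x) (b x)) ^ j *
      Real.exp (-(ε * mf z y (a x) (d x) (b x)))) ∧
    ∑' x, (1 + mf z y (a x) (d x) (b x)) ^ j *
      Real.exp (-(ε * mf z y (a x) (d x) (b x))) ≤ C * y ^ 8 := by
  have hs := h.summable
  set S := ∑' x, ((1 + nf (a x) (d x) (b x) ^ 2) ^ 4)⁻¹ with hS
  have hS0 : 0 ≤ S := tsum_nonneg fun x => by positivity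
  refine ⟨cT R y₀ j ε * (S + 1), mul_pos (cT_pos hy₀ j hε) (by linarith), fun z y hz hy => ?_⟩
  have hy0 : 0 < y := by linarith
  have h0 : ∀ x, 0 ≤ (1 + mf z y (a x) (d x) (b x)) ^ j *
      Real.exp (-(ε * mf z y (a x) (d x) (b x))) := fun x => by
    have := mf_nonneg (z := z) hy0 (a x) (d x) (b x)
    positivity
  have h1 : Summable fun x => cT R y₀ j ε * y ^ 8 * ((1 + nf (a x) (d x) (b x) ^ 2) ^ 4)⁻¹ :=
    hs.mul_left _
  have h2 : Summable (fun x => (1 + mf z y (a x) (d x) (b x)) ^ j *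
      Real.exp (-(ε * mf z y (a x) (d x) (b x)))) :=
    Summable.of_nonneg_of_le h0 (fun x => term_le hy₀ hy hz j hε _ _ _) h1
  refine ⟨h2, (h2.tsum_le_tsum (fun x => term_le hy₀ hy hz j hε _ _ _) h1).trans ?_⟩
  rw [tsum_mul_left, ← hS]
  have h3 := cT_pos (R := R) hy₀ j hε
  have h4 : 0 ≤ cT R y₀ j ε * y ^ 8 := by positivity
  nlinarith

/-- Uniform summable majorant on bounded sets `{‖z‖ ≤ R, y₀ ≤ y ≤ Y}`. -/
theorem IsLatt.maj_unif (h : IsLatt a d b) (j : ℕ) {ε : ℝ} (hε : 0 < ε) (R : ℝ) {y₀ : ℝ}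
    (hy₀ : 0 < y₀) (Y : ℝ) : ∃ u : ι → ℝ, Summable u ∧ ∀ (z : ℂ) (y : ℝ), ‖z‖ ≤ R → y₀ ≤ y →
      y ≤ Y → ∀ x, (1 + mf z y (a x) (d x) (b x)) ^ j *
      Real.exp (-(ε * mf z y (a x) (d x) (b x))) ≤ u x := by
  refine ⟨fun x => cT R y₀ j ε * Y ^ 8 * ((1 + nf (a x) (d x) (b x) ^ 2) ^ 4)⁻¹,
    h.summable.mul_left _, fun z y hz hy hY x => (term_le hy₀ hy hz j hε _ _ _).trans ?_⟩
  have h3 := cT_pos (R := R) hy₀ j hε
  have hy0 : 0 < y := by linarith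
  refine mul_le_mul_of_nonneg_right ?_ (by positivity)
  exact mul_le_mul_of_nonneg_left (pow_le_pow_left₀ hy0.le hY 8) h3.le

theorem summable_mf (h : IsLatt a d b) (j : ℕ) {ε : ℝ} (hε : 0 < ε) (z : ℂ) {y : ℝ}
    (hy : 0 < y) : Summable (fun x => (1 + mf z y (a x) (d x) (b x)) ^ j *
      Real.exp (-(ε * mf z y (a x) (d x) (b x)))) := by
  obtain ⟨C, -, hC⟩ := h.maj j hε ‖z‖ hy
  exact (hC z y le_rfl le_rfl).1

/-- **Decay** of the part with `δ ≤ |Q|`, uniformly for `v₀ ≤ v`. -/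
theorem IsLatt.maj_decay (h : IsLatt a d b) (j : ℕ) {c : ℝ} (hc : 0 < c) (R : ℝ) {y₀ : ℝ}
    (hy₀ : 0 < y₀) {δ : ℝ} {v₀ : ℝ} (hv₀ : 0 < v₀) :
    ∃ C : ℝ, 0 < C ∧ ∀ (z : ℂ) (y v : ℝ), ‖z‖ ≤ R → y₀ ≤ y → v₀ ≤ v → ∀ s : Set ι,
      (∀ x ∈ s, δ ≤ |qf (a x) (d x) (b x)|) →
    ∑' x : s, (1 + mf z y (a x) (d x) (b x)) ^ j *
      Real.exp (-(c * v * mf z y (a x) (d x) (b x))) ≤
      C * y ^ 8 * Real.exp (-(c * δ / 2 * v)) := by
  obtain ⟨C, hC, hmaj⟩ := h.maj j (ε := c * v₀ / 2) (by positivity) R hy₀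
  refine ⟨C, hC, fun z y v hz hy hv s hs => ?_⟩
  obtain ⟨h1, h2⟩ := hmaj z y hz hy
  have hy0 : 0 < y := by linarith
  have hv0 : 0 < v := by linarith
  have hle : ∀ x : s, (1 + mf z y (a x) (d x) (b x)) ^ j *
      Real.exp (-(c * v * mf z y (a x) (d x) (b x))) ≤ Real.exp (-(c * δ / 2 * v)) *
      ((1 + mf z y (a x) (d x) (b x)) ^ j *
      Real.exp (-(c * v₀ / 2 * mf z y (a x) (d x) (b x)))) := by
    intro x
    have h3 := neg_qf_le_mf (z := z) hy0 (a x) (d x) (b x)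
    have h4 := hs x x.2
    set m := mf z y (a x) (d x) (b x)
    have hm : δ ≤ m := h4.trans h3
    have hm0 : 0 ≤ m := (abs_nonneg _).trans h3
    rw [mul_left_comm, ← Real.exp_add]
    refine mul_le_mul_of_nonneg_left (Real.exp_le_exp.mpr ?_) (by positivity)
    have h5 : 0 ≤ c * v / 2 * (m - δ) := mul_nonneg (by positivity) (by linarith)
    have h6 : 0 ≤ c / 2 * m * (v - v₀) := mul_nonneg (by positivity) (by linarith)
    nlinarith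
  have h1s : Summable fun x : s => Real.exp (-(c * δ / 2 * v)) *
      ((1 + mf z y (a x) (d x) (b x)) ^ j *
      Real.exp (-(c * v₀ / 2 * mf z y (a x) (d x) (b x)))) := (h1.subtype s).mul_left _
  have h0 : ∀ x : ι, 0 ≤ (1 + mf z y (a x) (d x) (b x)) ^ j *
      Real.exp (-(c * v₀ / 2 * mf z y (a x) (d x) (b x))) := fun x => by
    have := mf_nonneg (z := z) hy0 (a x) (d x) (b x)
    positivity
  have h0' : ∀ x : s, 0 ≤ (1 + mf z y (a x) (d x) (b x)) ^ j *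
      Real.exp (-(c * v * mf z y (a x) (d x) (b x))) := fun x => by
    have := mf_nonneg (z := z) hy0 (a x) (d x) (b x)
    positivity
  have h7 := (Summable.of_nonneg_of_le h0' hle h1s).tsum_le_tsum hle h1s
  refine h7.trans ?_
  rw [tsum_mul_left, mul_comm (C * y ^ 8)]
  refine mul_le_mul_of_nonneg_left (le_trans ?_ h2) (Real.exp_pos _).le
  exact h1.tsum_subtype_le _ s h0

end Fermat.Agent.H8T
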