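import Fermat.Agent.H8T3
import Fermat.Agent.H31Hyp2

/-!
# S47, (T2a), part 1: translates of an automorphic function
-/

set_option autoImplicit false
set_option linter.unusedSectionVars false

noncomputable section

open MeasureTheory
open scoped ComplexConjugate Real

namespace Fermat.Agent.H8T

open S47T H47.Red

variable {F : H3 → ℂ}

/-- the eigenfunction property of (I-CT) -/
def Eig (F : H3 → ℂ) : Prop := ∀ κ : ℝ → ℝ, ContDiff ℝ ((⊤ : ℕ∞) : WithTop ℕ∞) κ →
  HasCompactSupport κ → ∀ w, ∫ w', (κ (H3.ch w w') : ℂ) * F w' = kap0 κ * F w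

theorem Eig.smul (h : Eig F) (g : GL (Fin 2) ℂ) : Eig fun w => F (g • w) := by
  intro κ h1 h2 w
  have h3 := (H3.measurePreserving_smul g).integral_comp
    ((MeasurableEquiv.smul g : H3 ≃ᵐ H3).measurableEmbedding)
    (fun w' => (κ (H3.ch (g • w) w') : ℂ) * F w')
  rw [← h κ h1 h2 (g • w), ← h3]
  simp only [H3.ch_smul]

/-- translates by elements of `Gam 1` are periodic -/
theorem periodic_smul {N : ℕ} (hinv : ∀ g ∈ GamP N, ∀ w, F (g • w) = F w) {g : GL (Fin 2) ℂ}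
    (hg : g ∈ Gam 1) (β : Eis) (w : H3) : F (g • (H3.nMat (N * β) • w)) = F (g • w) := by
  have hn : H3.nMat (N * β) ∈ Gam 1 := by
    refine ⟨by simp [H3.nMat, Matrix.GeneralLinearGroup.mkOfDetNeZero, Matrix.det_fin_two], ?_,
      0, Eis.zero_mem, by simp [H3.nMat, Matrix.GeneralLinearGroup.mkOfDetNeZero]⟩
    intro i j
    have h1 : (N : ℂ) * β ∈ Eis := Eis.mul_mem (natCast_mem _ _) β.2
    fin_cases i <;> fin_cases j
    · simp [H3.nMat, Matrix.GeneralLinearGroup.mkOfDetNeZero]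
    · simpa [H3.nMat, Matrix.GeneralLinearGroup.mkOfDetNeZero] using h1
    · simp [H3.nMat, Matrix.GeneralLinearGroup.mkOfDetNeZero]
    · simp [H3.nMat, Matrix.GeneralLinearGroup.mkOfDetNeZero]
  have h1 : g * H3.nMat (N * β) * g⁻¹ ∈ GamP N := by
    refine mul_inv_mem_GamP ((Gam 1).mul_mem hg hn) hg fun i j => ?_
    refine ⟨(g : Matrix (Fin 2) (Fin 2) ℂ) i 0 * (if j = 1 then (β : ℂ) else 0), ?_, ?_⟩
    · refine Eis.mul_mem (hg.2.1 _ _) ?_
      split_ifs
      · exact β.2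
      · exact Eis.zero_mem
    · rw [Units.val_mul, Matrix.mul_apply, Fin.sum_univ_two]
      fin_cases j <;> simp [H3.nMat, Matrix.GeneralLinearGroup.mkOfDetNeZero] <;> ring
  have h2 := hinv _ h1 (g • w)
  rw [← mul_smul] at h2
  rw [← mul_smul, ← h2]
  congr 2
  group

theorem inv_GamP {N m : ℕ} (hNm : N ∣ m) (hinv : ∀ g ∈ Gam N, ∀ w, F (g • w) = F w) :
    ∀ g ∈ GamP m, ∀ w, F (g • w) = F w := by
  intro g hg
  apply hinv
  obtain ⟨h1, h2, x, hx, h3⟩ := GamP_le_Gam m hg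
  obtain ⟨k, rfl⟩ := hNm
  exact ⟨h1, h2, k * x, Eis.mul_mem (natCast_mem _ _) hx, by rw [h3]; push_cast; ring⟩

end Fermat.Agent.H8T
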