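import Fermat.Agent.H8U

/-!
# S47: eigenvalues of `U = (P - 1) W`
-/

set_option autoImplicit false

noncomputable section

namespace Fermat.Agent.H8U

variable {V : Type*} [NormedAddCommGroup V] [InnerProductSpace ℂ V]

/-- The version of `eigenvalue` for `U = (P - 1) W`. -/
theorem eigenvalue_right {q : ℝ} {W P U : V →ₗ[ℂ] V} (hq : 1 ≤ q) (hW : W.IsSymmetric)
    (hW2 : ∀ v, W (W v) = v) (hP : P.IsSymmetric)
    (hP2 : ∀ v, P (P v) = ((q + 1 : ℝ) : ℂ) • P v) (hU : ∀ v, U v = P (W v) - W v) {u : ℂ} {v : V}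
    (hv : v ≠ 0) (huv : U v = u • v) : (u.im = 0 ∧ ‖u‖ ≤ q) ∨ ‖u‖ ^ 2 = q := by
  have hU' : ∀ x, (W ∘ₗ U ∘ₗ W) x = W (P x - x) := by
    intro x
    simp only [LinearMap.comp_apply, hU, hW2]
  refine eigenvalue (U := W ∘ₗ U ∘ₗ W) (v := W v) hq hW hW2 hP hP2 hU' ?_ ?_
  · intro h0
    apply hv
    rw [← hW2 v, h0, map_zero]
  · simp only [LinearMap.comp_apply, hW2, huv, map_smul]

end Fermat.Agent.H8U
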