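import Fermat.Agent.H8Kum3
import Fermat.Agent.H8Ord3
import Fermat.Agent.H9Beta
import Fermat.Agent.H1HauptMem
import Fermat.Agent.H28Tower

/-!
# The embedding `f(t) ↦ f(t³)` of the function field of `X₀(M)` into that of `X₀(9M')`

Over every place of `X₀(M)` (char `≠ 3`) with `3 ∣ ord j` there is a place of `X₀(9M')` with
ramification index prime to `3`.
-/

set_option autoImplicit false
set_option linter.unusedSectionVars false
set_option linter.style.haveILetI false

noncomputable section

open AlgebraicCurve WithZero IntermediateField ModularCurve Fermat.Agent.H3RR Fermat.Agent.H1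
open Fermat.Agent.H66 Fermat.Agent.H28

namespace Fermat.Agent.H8

variable {k : Type*} [Field k]

/-- `f(t) ↦ f(t³)` -/
def V3 (k : Type*) [Field k] {M m : ℕ} [NeZero M] [NeZero m] (h : M * 3 ∣ m) :
    modularFunctionFieldFullC k M →ₐ[k] modularFunctionFieldFullC k m :=
  haveI : NeZero (M * 3) := ⟨mul_ne_zero (NeZero.ne M) three_ne_zero⟩
  (IntermediateField.inclusion ((full_degeneracyC_map_le k M 3).trans
    (full_degeneracyC_le k h))).comp
    ((modularFunctionFieldFullC k M).equivMap (qExpandAlgHomC k 3)).toAlgHom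

theorem coe_V3 {M m : ℕ} [NeZero M] [NeZero m] (h : M * 3 ∣ m)
    (f : modularFunctionFieldFullC k M) :
    (V3 k h f : LaurentSeries k) = qExpand k 3 (f : LaurentSeries k) := rfl

/-- the cube root of `j(t³)` -/
def gam (k : Type*) [Field k] : LaurentSeries k :=
  (X9 k + 9) * (X9 k + 3) * (X9 k ^ 2 + 27) / (X9 k * (X9 k ^ 2 + 9 * X9 k + 27))

theorem gam_cube : gam k ^ 3 = qExpand k 3 (jqModC k) := by
  have h := X9_j3 k
  have h1 : X9 k ≠ 0 := (isUnit_X9 k).ne_zero
  have h2 : X9 k ^ 2 + 9 * X9 k + 27 ≠ 0 := (isUnit_W9 k).ne_zero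
  rw [gam, div_pow, div_eq_iff (pow_ne_zero _ (mul_ne_zero h1 h2))]
  linear_combination h

theorem gam_mem [IsAlgClosed k] (h3 : (3 : k) ≠ 0) {m : ℕ} [NeZero m] (h9 : 9 ∣ m) :
    gam k ∈ modularFunctionFieldFullC k m := by
  have hX : X9 k ∈ modularFunctionFieldFullC k m := by
    have h := Xc_mem_full k (c := 9) (Or.inr rfl) (NeZero.ne m) h9 (by
      have : ((9 : ℕ) : k) = 3 * 3 := by norm_num
      rw [this]; exact mul_ne_zero h3 h3)
    rwa [Xc_nine] at h
  have hnum : ∀ n : ℕ, (n : LaurentSeries k) ∈ modularFunctionFieldFullC k m := fun n =>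
    _root_.natCast_mem _ n
  have h3 := hnum 3
  have h9 := hnum 9
  have h27 := hnum 27
  push_cast at h3 h9 h27
  exact div_mem (mul_mem (mul_mem (add_mem hX h9) (add_mem hX h3)) (add_mem (pow_mem hX 2) h27))
    (mul_mem hX (add_mem (add_mem (pow_mem hX 2) (mul_mem h9 hX)) h27))

theorem order_jqModC' : (jqModC k).order = -1 := by
  have h1 : (jqModC k).coeff (-1) ≠ 0 := by
    rw [coeff_jqModC_neg_one]; exact one_ne_zero
  apply le_antisymm
  · exact HahnSeries.order_le_of_coeff_ne_zero h1
  · rw [HahnSeries.le_order_iff_forall (HahnSeries.ne_zero_of_coeff_ne_zero h1)]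
    intro i hi
    exact coeff_jqModC_of_lt k hi

theorem not_cube_jC {M : ℕ} (b : modularFunctionFieldFullC k M) : b ^ 3 ≠ jC k M := by
  intro h
  have h1 : (b : LaurentSeries k) ^ 3 = jqModC k := congrArg Subtype.val h
  have hb : (b : LaurentSeries k) ≠ 0 := by
    intro h0
    rw [h0] at h1
    have := order_jqModC' (k := k)
    rw [← h1] at this
    simp at this
  have h2 := congrArg HahnSeries.order h1
  rw [HahnSeries.order_pow, order_jqModC', nsmul_eq_mul] at h2
  push_cast at h2
  omega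

section Deg

variable [IsAlgClosed k] {M m M' : ℕ} [NeZero M] [NeZero m]

theorem psi_rel (h3 : ¬ 3 ∣ M') (hM' : M' ≠ 0) (hM : M = M' ∨ M = 3 * M') (hm : m = 9 * M') :
    ∃ n : ℕ, dedekindPsi m = n * dedekindPsi M ∧ n ≠ 0 ∧ ¬ 9 ∣ n := by
  have h1 : dedekindPsi (3 * M') = 4 * dedekindPsi M' :=
    H45.dedekindPsi_mul_of_not_dvd Nat.prime_three hM' h3
  have h2 : dedekindPsi (3 * (3 * M')) = 3 * dedekindPsi (3 * M') :=
    H45.dedekindPsi_mul_of_dvd Nat.prime_three (mul_ne_zero three_ne_zero hM') (dvd_mul_right 3 M')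
  have h4 : m = 3 * (3 * M') := by rw [hm]; ring
  rcases hM with rfl | rfl
  · exact ⟨12, by rw [h4, h2, h1]; ring, by norm_num, by norm_num⟩
  · exact ⟨3, by rw [h4, h2], by norm_num, by norm_num⟩

theorem relfinrank_map_V3 (h3k : (3 : k) ≠ 0) (h : M * 3 ∣ m) (hmk : (m : k) ≠ 0)
    (hM : (M : k) ≠ 0) (h9 : 9 ∣ m) :
    dedekindPsi M * relfinrank ((modularFunctionFieldFullC k M).map (qExpandAlgHomC k 3))
        (modularFunctionFieldFullC k m) = dedekindPsi m := by
  haveI : NeZero (M * 3) := ⟨mul_ne_zero (NeZero.ne M) three_ne_zero⟩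
  haveI : Fact (Nat.Prime 3) := ⟨Nat.prime_three⟩
  have hle : (modularFunctionFieldFullC k M).map (qExpandAlgHomC k 3) ≤
      modularFunctionFieldFullC k m :=
    (full_degeneracyC_map_le k M 3).trans (full_degeneracyC_le k h)
  have h1 : (k⟮jqModC k⟯).map (qExpandAlgHomC k 3) ≤
      (modularFunctionFieldFullC k M).map (qExpandAlgHomC k 3) :=
    IntermediateField.map_mono _ (adjoin_j_le_full k M)
  have h2 := relfinrank_mul_relfinrank h1 hle
  rw [relfinrank_map_map, relfinrank_full k M hM] at h2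
  rw [h2]
  have h3 : (k⟮jqModC k⟯).map (qExpandAlgHomC k 3) = k⟮J k 3⟯ := by
    rw [adjoin_map, Set.image_singleton, J_eq]
    rfl
  obtain ⟨N, hN⟩ : ∃ N, m = N * 3 := by
    obtain ⟨t, ht⟩ := h9
    exact ⟨3 * t, by rw [ht]; ring⟩
  have hN0 : NeZero N := ⟨by rintro rfl; exact NeZero.ne m (by simpa using hN)⟩
  subst hN
  rw [h3, H9.relfinrank_J_p_full k 3 (by exact_mod_cast h3k) N]
  exact relfinrank_full k (N * 3) hmk

/-- **Ramification of `V₃`**: over a place `P` with `3 ∣ ord j` there is a place of level `9M'`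
with ramification index prime to `3`. -/
theorem exists_place_V3 (h3k : (3 : k) ≠ 0) (h3 : ¬ 3 ∣ M') (hM : M = M' ∨ M = 3 * M')
    (hm : m = 9 * M') (hmk : (m : k) ≠ 0) (P : Place k (modularFunctionFieldFullC k M))
    (hP : (3 : ℤ) ∣ P.ord (jC k M)) :
    ∃ (P' : Place k (modularFunctionFieldFullC k m)) (e : ℕ), ¬ 3 ∣ e ∧
      ∀ (f : modularFunctionFieldFullC k M) (f' : modularFunctionFieldFullC k m),
        (f' : LaurentSeries k) = qExpand k 3 (f : LaurentSeries k) → P'.ord f' = e * P.ord f := by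
  have hM'0 : M' ≠ 0 := by rintro rfl; exact h3 (dvd_zero 3)
  have h9 : 9 ∣ m := ⟨M', hm⟩
  have h : M * 3 ∣ m := by
    rcases hM with rfl | rfl
    · exact ⟨3, by rw [hm]; ring⟩
    · exact ⟨1, by rw [hm]; ring⟩
  have hMk : (M : k) ≠ 0 := by
    obtain ⟨t, ht⟩ := h
    intro h0
    rw [ht, Nat.cast_mul, Nat.cast_mul, h0, zero_mul, zero_mul] at hmk
    exact hmk rfl
  have i1 : IsFF k (modularFunctionFieldFullC k M) := by
    have := funField_fullC hMk
    infer_instance
  have i2 : H94.FunField k (modularFunctionFieldFullC k M) := funField_fullC hMk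
  have i3 : H94.FunField k (modularFunctionFieldFullC k m) := funField_fullC hmk
  let V := V3 k h
  letI : Algebra (modularFunctionFieldFullC k M) (modularFunctionFieldFullC k m) :=
    V.toRingHom.toAlgebra
  haveI : IsScalarTower k (modularFunctionFieldFullC k M) (modularFunctionFieldFullC k m) :=
    IsScalarTower.of_algebraMap_eq fun x => (V.commutes x).symm
  have hfr : Module.finrank (modularFunctionFieldFullC k M) (modularFunctionFieldFullC k m) =
      relfinrank ((modularFunctionFieldFullC k M).map (qExpandAlgHomC k 3))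
        (modularFunctionFieldFullC k m) := by
    have hle : (modularFunctionFieldFullC k M).map (qExpandAlgHomC k 3) ≤
        modularFunctionFieldFullC k m := by
      haveI : NeZero (M * 3) := ⟨mul_ne_zero (NeZero.ne M) three_ne_zero⟩
      exact (full_degeneracyC_map_le k M 3).trans (full_degeneracyC_le k h)
    rw [relfinrank_eq_finrank_of_le hle]
    refine Algebra.finrank_eq_of_equiv_equiv
      ((modularFunctionFieldFullC k M).equivMap (qExpandAlgHomC k 3)).toRingEquiv
      (RingEquiv.refl _) ?_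
    ext x
    rfl
  obtain ⟨n, hn, hn0, hn9⟩ := psi_rel h3 hM'0 hM hm
  have hdeg := relfinrank_map_V3 h3k h hmk hMk h9
  have hpsi : 0 < dedekindPsi M := H67.dedekindPsi_pos M
  have hfn : Module.finrank (modularFunctionFieldFullC k M) (modularFunctionFieldFullC k m) =
      n := by
    rw [hfr]
    rw [hn, mul_comm] at hdeg
    exact Nat.eq_of_mul_eq_mul_right hpsi hdeg
  haveI : Module.Finite (modularFunctionFieldFullC k M) (modularFunctionFieldFullC k m) :=
    Module.finite_of_finrank_pos (by rw [hfn]; exact Nat.pos_of_ne_zero hn0)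
  obtain ⟨P', e, -, he, hord⟩ := exists_place_three (K := k) h3k
    (γ := (⟨gam k, gam_mem h3k h9⟩ : modularFunctionFieldFullC k m)) (a := jC k M)
    (Subtype.ext gam_cube) (transcendental_ne_zero transcendental_jC) not_cube_jC
    (by rw [hfn]; exact hn9) P hP
  refine ⟨P', e, he, fun f f' hf => ?_⟩
  rw [← hord f]
  congr 1
  exact Subtype.ext hf

end Deg

end Fermat.Agent.H8
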