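import Mathlib
import Fermat.Agent.H91Arith
import Fermat.Agent.H64KumRam

set_option autoImplicit false
set_option maxSynthPendingDepth 3

/-!
# Unramified places: the decomposition group modulo a level is cyclic
-/

namespace Fermat.Agent.H91

open NumberField Fermat.Agent.H63
open scoped Pointwise

section

variable (E : Type*) [Field E] [NumberField E] [IsGalois ℚ E] {L : Type*} [Field L] [CharZero L]
  [IsGalois ℚ L] [Algebra E L]

/-- decomposition group at an unramified place is cyclic -/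
theorem isCyclic_stabilizer {q : ℕ} (hq : q.Prime) (A : ValuationSubring L)
    (hA : A.LiesOverPrime q)
    (hI : ∀ σ ∈ A.inertiaSubgroupIn ℚ, ∀ x : E, σ (algebraMap E L x) = algebraMap E L x) :
    IsCyclic (MulAction.stabilizer (E ≃ₐ[ℚ] E)
      ((center A).comap (algebraMap (𝓞 E) (𝓞 L)))) := by
  set P := (center A).comap (algebraMap (𝓞 E) (𝓞 L)) with hP
  have hPne : P ≠ ⊥ := H64.comap_center_ne_bot hq hA
  have hPprime : P.IsPrime := inferInstance
  have hPmax : P.IsMaximal := hPprime.isMaximal hPne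
  have hPover : P.LiesOver (P.under ℤ) := inferInstance
  have : IsGalois E L := IsGalois.tower_top_of_isGalois ℚ E L
  have hbot : P.inertia (E ≃ₐ[ℚ] E) = ⊥ := by
    rw [Subgroup.eq_bot_iff_forall]
    intro σ₀ hσ₀
    obtain ⟨τ, hτ, rfl⟩ := exists_mem_inertiaSubgroupIn_restrict (F := E) A σ₀ hσ₀
    ext x
    apply (algebraMap E L).injective
    have h1 := AlgEquiv.restrictNormal_commutes τ E x
    have h2 : AlgEquiv.restrictNormalHom E τ = τ.restrictNormal E := rfl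
    rw [h2, h1, hI τ hτ]; rfl
  have hpmax : (P.under ℤ).IsMaximal := Ideal.IsMaximal.under ℤ P
  let _ : Field (𝓞 E ⧸ P) := Ideal.Quotient.field P
  let _ : Field (ℤ ⧸ P.under ℤ) := Ideal.Quotient.field (P.under ℤ)
  have hfin : Finite (𝓞 E ⧸ P) := Ideal.finiteQuotientOfFreeOfNeBot P hPne
  have hcyc : IsCyclic ((𝓞 E ⧸ P) ≃ₐ[ℤ ⧸ P.under ℤ] (𝓞 E ⧸ P)) := inferInstance
  refine isCyclic_of_injective (Ideal.Quotient.stabilizerHom P (P.under ℤ) (E ≃ₐ[ℚ] E)) ?_
  rw [← MonoidHom.ker_eq_bot_iff, Ideal.Quotient.ker_stabilizerHom, Subgroup.eq_bot_iff_forall]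
  intro σ hσ
  have h1 : (σ : E ≃ₐ[ℚ] E) ∈ P.inertia (E ≃ₐ[ℚ] E) := hσ
  rw [hbot, Subgroup.mem_bot] at h1
  exact Subtype.ext h1

/-- A group of automorphisms stabilising a place which is unramified in `E` is cyclic modulo the
automorphisms trivial on `E`. -/
theorem exists_gen_generic {q : ℕ} (hq : q.Prime) (A : ValuationSubring L)
    (hA : A.LiesOverPrime q)
    (hI : ∀ σ ∈ A.inertiaSubgroupIn ℚ, ∀ x : E, σ (algebraMap E L x) = algebraMap E L x)
    {D : Type*} [Group D] (r : D →* (L ≃ₐ[ℚ] L)) (hr : ∀ s, r s • A = A) (W : Subgroup D) :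
    ∃ σ ∈ W, ∀ s ∈ W, ∃ k : ℕ, ∀ x : E,
      r ((σ ^ k)⁻¹ * s) (algebraMap E L x) = algebraMap E L x := by
  have hcyc := isCyclic_stabilizer E hq A hA hI
  set P := (center A).comap (algebraMap (𝓞 E) (𝓞 L)) with hP
  let ψ : D →* (E ≃ₐ[ℚ] E) := (AlgEquiv.restrictNormalHom E).comp r
  have hψ : ∀ s (x : E), algebraMap E L (ψ s x) = r s (algebraMap E L x) := fun s x =>
    AlgEquiv.restrictNormal_commutes (r s) E x
  have hmem : ∀ s, ∀ x ∈ P, ψ s • x ∈ P := by
    intro s x hx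
    rw [hP, Ideal.mem_comap] at hx ⊢
    have h1 : algebraMap (𝓞 E) (𝓞 L) (ψ s • x) = r s • algebraMap (𝓞 E) (𝓞 L) x := by
      apply RingOfIntegers.ext
      exact hψ s x
    rw [h1]
    have h2 : r s • algebraMap (𝓞 E) (𝓞 L) x ∈ r s • center A :=
      Ideal.smul_mem_pointwise_smul _ _ _ hx
    rwa [← center_smul, hr] at h2
  have hstab : ∀ s, ψ s ∈ MulAction.stabilizer (E ≃ₐ[ℚ] E) P := by
    intro s
    rw [MulAction.mem_stabilizer_iff]
    ext x
    rw [Ideal.mem_pointwise_smul_iff_inv_smul_mem]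
    constructor
    · intro h
      have := hmem s _ h
      rwa [smul_inv_smul] at this
    · intro h
      have := hmem s⁻¹ _ h
      rwa [map_inv] at this
  let ψ' : D →* MulAction.stabilizer (E ≃ₐ[ℚ] E) P := ψ.codRestrict _ hstab
  have hfin : Finite (MulAction.stabilizer (E ≃ₐ[ℚ] E) P) := inferInstance
  have hcycW : IsCyclic (W.map ψ') := inferInstance
  obtain ⟨⟨τ, hτ⟩, hgen⟩ := hcycW.exists_generator
  obtain ⟨σ, hσ, rfl⟩ := hτ
  refine ⟨σ, hσ, fun s hs => ?_⟩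
  have h1 := hgen ⟨ψ' s, ⟨s, hs, rfl⟩⟩
  rw [← mem_powers_iff_mem_zpowers] at h1
  obtain ⟨k, hk⟩ := h1
  have hk' : (ψ' σ) ^ k = ψ' s := congrArg Subtype.val hk
  have hk'' : (ψ σ) ^ k = ψ s := congrArg Subtype.val hk'
  refine ⟨k, fun x => ?_⟩
  rw [← hψ, map_mul, map_inv, map_pow, hk'', inv_mul_cancel]
  rfl

end

open ExtCitation Fermat.Agent.H54

local instance factNatPrimes' (q : Nat.Primes) : Fact (q : ℕ).Prime := ⟨q.2⟩

lemma rloc_smul_place (q : Nat.Primes) (g : GQ) (s : primeLocalGaloisGroup q) :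
    rloc q g s • (g⁻¹ • padicPlace (q : ℕ)) = g⁻¹ • padicPlace (q : ℕ) := by
  have h1 : localGaloisToGlobal (q : ℕ) s ∈ (padicPlace (q : ℕ)).decompositionSubgroup ℚ :=
    localGaloisToGlobal_mem_decompositionSubgroup (q : ℕ) s
  have h2 : localGaloisToGlobal (q : ℕ) s • padicPlace (q : ℕ) = padicPlace (q : ℕ) := h1
  have h3 : rloc q g s = g⁻¹ * localGaloisToGlobal (q : ℕ) s * g := rfl
  rw [h3, smul_smul, mul_inv_cancel_right, mul_smul, h2]

/-- For `q ∉ S`, a subgroup of the local group at `q` is cyclic modulo a level unramified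
outside `S`. -/
theorem exists_gen_unram {S : Finset Nat.Primes} {q : Nat.Primes} (hq : q ∉ S) (g : GQ)
    {V : Subgroup GQ} (hV : V ∈ (ramFam S).carrier) (hVn : V.Normal)
    (W : Subgroup (primeLocalGaloisGroup q)) :
    ∃ σ ∈ W, ∀ s ∈ W, ∃ k : ℕ, ∃ v ∈ V.comap (rloc q g), s = σ ^ k * v := by
  obtain ⟨E, hE, rfl⟩ := hV
  have hEfd : FiniteDimensional ℚ E := hE.1
  have hEnf : NumberField E := numberField_of_finite E
  have hEgal' : IsGalois ℚ E := (InfiniteGalois.normal_iff_isGalois E).1 hVn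
  have hEgal : @IsGalois ℚ _ E _ DivisionRing.toRatAlgebra := by
    convert hEgal'
  have hA : (g⁻¹ • padicPlace (q : ℕ)).LiesOverPrime (q : ℕ) :=
    liesOverPrime_smul' (liesOverPrime_padicPlace (q := (q : ℕ))) g⁻¹
  obtain ⟨σ, hσ, h⟩ := exists_gen_generic E q.2 (g⁻¹ • padicPlace (q : ℕ)) hA
    (fun τ hτ x => (IntermediateField.mem_fixingSubgroup_iff E _).1 (hE.2 q hq _ hA hτ) x x.2)
    (rloc q g) (rloc_smul_place q g) W
  refine ⟨σ, hσ, fun s hs => ?_⟩
  obtain ⟨k, hk⟩ := h s hs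
  refine ⟨k, (σ ^ k)⁻¹ * s, ?_, by group⟩
  rw [Subgroup.mem_comap, IntermediateField.mem_fixingSubgroup_iff]
  exact fun x hx => hk ⟨x, hx⟩

end Fermat.Agent.H91
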