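import Fermat.Agent.H92T5
import Fermat.Agent.H43Z5

/-!
# S47, block (C), bad nonsplit places (helper92), part 1: from `E` to the completion

`Hat j v s σ i` (H92T4): completion of `E` at a nonsplit place.  A self-dual normal generator
`e : E` and radii `a b c` give helper43's datum `VD` over the completion `L`, the lattices
correspond, and the groups of the types over `E`, `F` are the traces of the groups over `L`.
-/

set_option autoImplicit false

namespace Fermat.Agent.H92B

open WithZero Matrix IsDedekindDomain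
open scoped MatrixGroups
open Fermat.Agent.H92T Fermat.Agent.H43Z2 Fermat.Agent.H43Z3 Fermat.Agent.H43Z5

variable {E L F : Type*} [Field E] [Field L] [Field F] {j : E →+* L}
    {v : Valuation L ℤᵐ⁰} {s : E ≃+* E} {σ : L ≃+* L} {i : F →+* E}

theorem tr3_hat (H : Hat j v s σ i) (x : E) : tr3 σ (j x) = j (tr3 s x) := by
  simp only [tr3, map_add, H.sh_j]

/-- The self-dual normal generator in the completion. -/
theorem nb_hat (H : Hat j v s σ i) {e : E} (N : Nb s e) : Nb σ (j e) where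
  s3 := H.sh3
  eC x := Commute.all _ _
  t0 := by
    have h := congrArg j N.t0
    rw [map_add, map_add, map_mul, map_mul, map_mul, map_one] at h
    rw [H.sh_j, H.sh_j]
    exact h
  t1 := by
    have h := congrArg j N.t1
    rw [map_add, map_add, map_mul, map_mul, map_mul, map_zero] at h
    rw [H.sh_j, H.sh_j]
    exact h
  tr := by
    have h := congrArg j N.tr
    rw [map_add, map_add, map_one] at h
    rw [H.sh_j, H.sh_j]
    exact h

theorem iterate_hat (H : Hat j v s σ i) (n : ℕ) (x : E) : σ^[n] (j x) = j (s^[n] x) := by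
  induction n with
  | zero => rfl
  | succ n ih => rw [Function.iterate_succ_apply', Function.iterate_succ_apply', ih, H.sh_j]

/-- helper43's datum over the completion. -/
theorem vd_hat (H : Hat j v s σ i) {e π : E} {κ a b c : ℤᵐ⁰} (N : Nb s e) (hπ : s π = π)
    (hπ0 : π ≠ 0) (hπ1 : v (j π) < 1) (κ1 : 1 ≤ κ)
    (str : ∀ k l m : ℕ, v (j (tr3 s ((s^[k] e) * (s^[l] e) * (s^[m] e)))) ≤ κ)
    (a0 : a ≠ 0) (b0 : b ≠ 0) (c0 : c ≠ 0) (κa : κ * a ≤ v (j π)) (bc : b * c ≤ a * a) :
    VD v σ (j e) (j π) κ a b c where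
  toNb := nb_hat H N
  vσ := H.sh_v
  complete := fun f hf => H.compl f hf
  sπ := by rw [H.sh_j, hπ]
  π0 := (map_ne_zero j).2 hπ0
  π1 := hπ1
  κ1 := κ1
  str k l m := by
    rw [iterate_hat H, iterate_hat H, iterate_hat H, ← map_mul, ← map_mul, tr3_hat H]
    exact str k l m
  a0 := a0
  b0 := b0
  c0 := c0
  κa := κa
  bc := bc

/-- The lattices over `E` are the traces of the lattices over `L`. -/
theorem mem_Lat_hat (H : Hat j v s σ i) {e x : E} {r : ℤᵐ⁰} :
    j x ∈ Lat v σ (j e) r ↔ v (j (tr3 s (e * x))) ≤ r ∧ v (j (tr3 s (s e * x))) ≤ r ∧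
      v (j (tr3 s (s (s e) * x))) ≤ r := by
  rw [mem_Lat, H.sh_j, H.sh_j, ← map_mul, ← map_mul, ← map_mul, tr3_hat H, tr3_hat H, tr3_hat H]

variable {e π : L} {κ a b c : ℤᵐ⁰}

/-- small elements are in the lattices -/
theorem exists_small (D : VD v σ e π κ a b c) {r : ℤᵐ⁰} (hr : r ≠ 0) :
    ∃ n : ℕ, ∀ x, v x ≤ exp (-(n : ℤ)) → x ∈ Lat v σ e r := by
  obtain ⟨B, hB⟩ : ∃ B : ℕ, v e ≤ exp (B : ℤ) := exists_le_exp' v e
  obtain ⟨n, hn⟩ := exists_exp_lt hr
  refine ⟨n + B, fun x hx => ?_⟩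
  have key : ∀ u : L, v u ≤ exp (B : ℤ) → v (tr3 σ (u * x)) ≤ r := by
    intro u hu
    refine D.tr_le _ ?_
    rw [map_mul]
    refine (mul_le_mul' hu hx).trans (le_trans ?_ hn.le)
    rw [← exp_add, exp_le_exp]
    push_cast
    linarith
  exact ⟨key e hB, key _ (by rw [D.vσ]; exact hB), key _ (by rw [D.vσ, D.vσ]; exact hB)⟩

/-- the group of the type is open -/
theorem exists_Gam_le (D : VD v σ e π κ a b c) : ∃ n : ℕ, Gam v (n + 1) ≤ GH D := by
  obtain ⟨na, ha⟩ := exists_small D D.a0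
  obtain ⟨nb, hb⟩ := exists_small D D.b0
  obtain ⟨nc, hc⟩ := exists_small D D.c0
  refine ⟨na + nb + nc, fun g hg => ?_⟩
  rw [mem_GH_iff]
  have h1 : ∀ k l : Fin 2, v (g.1 k l - (1 : Matrix (Fin 2) (Fin 2) L) k l) ≤
      exp (-((na + nb + nc + 1 : ℕ) : ℤ)) := hg.1
  have hle : ∀ m : ℕ, m ≤ na + nb + nc → exp (-((na + nb + nc + 1 : ℕ) : ℤ)) ≤
      exp (-(m : ℤ)) := by
    intro m hm
    rw [exp_le_exp]
    push_cast
    have : (m : ℤ) ≤ na + nb + nc := by exact_mod_cast hm
    linarith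
  have h00 := h1 0 0
  have h01 := h1 0 1
  have h10 := h1 1 0
  have h11 := h1 1 1
  simp only [Matrix.one_apply_eq, Matrix.one_apply_ne (show (0 : Fin 2) ≠ 1 by decide),
    Matrix.one_apply_ne (show (1 : Fin 2) ≠ 0 by decide), sub_zero] at h00 h01 h10 h11
  exact ⟨ha _ (h00.trans (hle na (by omega))), hb _ (h01.trans (hle nb (by omega))),
    hc _ (h10.trans (hle nc (by omega))), ha _ (h11.trans (hle na (by omega)))⟩

end Fermat.Agent.H92B
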