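import Fermat.Agent.H67J

/-!
# Auxiliary level for the `fixed` clause of Carayol's theorem

`fixedIn_of_dvd` : `FixedIn p q (m' * q)` implies `FixedIn p q (m * q)` if
`m ∣ m'` and `q ∤ m'` (`FixedIn` is `H35.FixedInput`).
-/

set_option autoImplicit false
set_option linter.unusedSectionVars false
set_option linter.style.haveILetI false

noncomputable section

open AlgebraicCurve IntermediateField HahnSeries ModularCurve Fermat.Agent.H66 Fermat.Agent.H67

namespace Fermat.Agent.H92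

section Gen

variable {K : Type*} [Field K]

theorem cases_dvd_mul_prime {q n d : ℕ} (hq : q.Prime) (h : d ∣ n * q) (hd : ¬ d ∣ n) :
    ∃ e, d = q * e ∧ e ∣ n := by
  have hqd : q ∣ d := by
    by_contra hqd
    exact hd (Nat.Coprime.dvd_of_dvd_mul_right ((Nat.Prime.coprime_iff_not_dvd hq).mpr hqd).symm h)
  obtain ⟨e, rfl⟩ := hqd
  refine ⟨e, rfl, ?_⟩
  rw [mul_comm n q] at h
  exact Nat.dvd_of_mul_dvd_mul_left hq.pos h

/-- `j(q² d)` for `d ∣ m'` from `j(q²)` and all `j(q d)`, `d ∣ m'`. -/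
theorem J_mem_aux_sq (hK : HasRoots K) (hchar : ∀ p : ℕ, p.Prime → (p : K) ≠ 0)
    (T : IntermediateField K (LaurentSeries K)) {m' q : ℕ} (hm' : m' ≠ 0) (hq : q.Prime)
    (hqm' : ¬ q ∣ m') (h0 : J K (q * q) ∈ T) (h1 : ∀ d, d ∣ m' → J K (q * d) ∈ T) :
    ∀ d, d ∣ m' → J K (q * (q * d)) ∈ T := by
  intro d
  induction d using Nat.strong_induction_on with
  | _ d ih =>
    intro hd
    rcases eq_or_ne d 1 with rfl | hd1
    · rwa [mul_one]
    · obtain ⟨r, hr, hrd⟩ := Nat.exists_prime_and_dvd hd1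
      obtain ⟨e, rfl⟩ := hrd
      have hd0 : r * e ≠ 0 := fun h => hm' (Nat.eq_zero_of_zero_dvd (h ▸ hd))
      have he0 : e ≠ 0 := right_ne_zero_of_mul hd0
      have hqr : q ≠ r := by
        rintro rfl
        exact hqm' ((dvd_mul_right _ _).trans hd)
      haveI : Fact q.Prime := ⟨hq⟩
      haveI : Fact r.Prime := ⟨hr⟩
      haveI : NeZero (q * e) := ⟨mul_ne_zero hq.ne_zero he0⟩
      have h2 := ih e (lt_mul_of_one_lt_left (Nat.pos_of_ne_zero he0) hr.one_lt)
        ((dvd_mul_left _ _).trans hd)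
      have h3 : J K (r * (q * e)) ∈ T := by
        have := h1 _ hd
        rwa [show q * (r * e) = r * (q * e) by ring] at this
      have h4 := J_mem_step hK T hqr (hchar q hq) (hchar r hr) h3 h2
      rwa [show q * (r * (q * e)) = q * (q * (r * e)) by ring] at h4

/-- `j(d)` for `d ∣ m'` from `j` and all `j(q d)`, `d ∣ m'`. -/
theorem J_mem_aux_low (hK : HasRoots K) (hchar : ∀ p : ℕ, p.Prime → (p : K) ≠ 0)
    (T : IntermediateField K (LaurentSeries K)) {m' q : ℕ} (hm' : m' ≠ 0) (hq : q.Prime)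
    (h0 : J K 1 ∈ T) (h1 : ∀ d, d ∣ m' → J K (q * d) ∈ T) :
    ∀ d, d ∣ m' → J K d ∈ T := by
  intro d
  induction d using Nat.strong_induction_on with
  | _ d ih =>
    intro hd
    rcases eq_or_ne d 1 with rfl | hd1
    · exact h0
    · obtain ⟨r, hr, hrd⟩ := Nat.exists_prime_and_dvd hd1
      obtain ⟨e, rfl⟩ := hrd
      have hd0 : r * e ≠ 0 := fun h => hm' (Nat.eq_zero_of_zero_dvd (h ▸ hd))
      have he0 : e ≠ 0 := right_ne_zero_of_mul hd0
      haveI : Fact q.Prime := ⟨hq⟩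
      haveI : Fact r.Prime := ⟨hr⟩
      haveI : NeZero e := ⟨he0⟩
      have h2 := ih e (lt_mul_of_one_lt_left (Nat.pos_of_ne_zero he0) hr.one_lt)
        ((dvd_mul_left _ _).trans hd)
      exact J_mem_mid hK T (hchar r hr) (hchar q hq) h2 (h1 _ hd)

/-- Generation of `F_{m'qq}` by the images of `F_{m'q}` (through `a ∈ {1, q}`) and of
`F_{mqq}`, where `m ∣ m'` and `q ∤ m'`. -/
theorem J_mem_aux (hK : HasRoots K) (hchar : ∀ p : ℕ, p.Prime → (p : K) ≠ 0)
    (T : IntermediateField K (LaurentSeries K)) {m m' q a : ℕ} (hm' : m' ≠ 0) (hq : q.Prime)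
    (hqm' : ¬ q ∣ m') (ha : a = 1 ∨ a = q)
    (h1 : ∀ d, d ∣ m' * q → J K (a * d) ∈ T) (h2 : ∀ e, e ∣ m * q * q → J K e ∈ T) :
    ∀ d, d ∣ m' * q * q → J K d ∈ T := by
  have hsq : J K (q * q) ∈ T := h2 _ ⟨m, by ring⟩
  have hone : J K 1 ∈ T := h2 _ (one_dvd _)
  have hq1 : ∀ d, d ∣ m' → J K (q * d) ∈ T := by
    intro d hd
    rcases ha with rfl | rfl
    · have := h1 (q * d) (by rw [mul_comm m' q]; exact mul_dvd_mul_left q hd)
      rwa [one_mul] at this
    · exact h1 d (hd.mul_right _)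
  have hq0 : ∀ d, d ∣ m' → J K d ∈ T := J_mem_aux_low hK hchar T hm' hq hone hq1
  have hq2 := J_mem_aux_sq hK hchar T hm' hq hqm' hsq hq1
  intro d hd
  by_cases hd1 : d ∣ m' * q
  · by_cases hd2 : d ∣ m'
    · exact hq0 d hd2
    · obtain ⟨e, rfl, he⟩ := cases_dvd_mul_prime hq hd1 hd2
      exact hq1 e he
  · obtain ⟨e, rfl, he⟩ := cases_dvd_mul_prime hq hd hd1
    by_cases he2 : e ∣ m'
    · exact hq1 e he2
    · obtain ⟨e', rfl, he'⟩ := cases_dvd_mul_prime hq he he2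
      exact hq2 e' he'

end Gen

section Aux

variable {m m' q a : ℕ} [NeZero m] [NeZero m'] [NeZero q] [NeZero (m * q)] [NeZero (m' * q)]
  [NeZero (m * q * q)] [NeZero (m' * q * q)] [NeZero a]

local notation "Qb" => AlgebraicClosure ℚ

theorem square_gen_aux (hq : q.Prime) (hqm' : ¬ q ∣ m') (ha : a = 1 ∨ a = q)
    (h1 : m' * q * a ∣ m' * q * q) (h2 : m * q * q * 1 ∣ m' * q * q) :
    Subfield.closure (Set.range (dg Qb a h1) ∪ Set.range (dg Qb 1 h2)) = ⊤ := by
  refine closure_eq_top (m' * q * q) _ ?_ ?_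
  · intro x
    exact Subfield.subset_closure (Or.inl ⟨algebraMap Qb _ x, AlgHom.commutes _ _⟩)
  · intro T hT
    refine J_mem_aux (m := m) (hasRoots_of_isAlgClosed Qb) prime_cast_ne_zero T
      (NeZero.ne m') hq hqm' ha ?_ ?_
    · intro d hd
      have h := hT (dg Qb a h1 ⟨J Qb d, J_mem_FB hd⟩)
        (Subfield.subset_closure (Or.inl ⟨_, rfl⟩))
      rwa [coe_dg, qExpand_J] at h
    · intro e he
      have h := hT (dg Qb 1 h2 ⟨J Qb e, J_mem_FB he⟩)
        (Subfield.subset_closure (Or.inr ⟨_, rfl⟩))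
      rwa [coe_dg, qExpand_J, one_mul] at h

/-- **Base change** for the degeneracy maps to the auxiliary level. -/
theorem degPull_degPush_aux (hq : q.Prime) (hqm' : ¬ q ∣ m') (ha : a = 1 ∨ a = q)
    (hmm : m * q * 1 ∣ m' * q) (h0 : m * q * a ∣ m * q * q)
    (h1 : m' * q * a ∣ m' * q * q) (h2 : m * q * q * 1 ∣ m' * q * q) (x : JZero (m * q * q)) :
    degPull 1 hmm (degPush a h0 x) = degPush a h1 (degPull 1 h2 x) := by
  have h3 : m * q * a ∣ m' * q * q := by
    refine (mul_dvd_mul_right ?_ a).trans h1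
    simpa using hmm
  refine pullP_pushP ?_ ?_ (square_gen_aux hq hqm' ha h1 h2) x
  · rw [dg_comp 1 a a hmm h1 h3 (mul_one a), dg_comp a 1 a h0 h2 h3 (one_mul a)]
  · rw [finrank_dg_prime embQbar hq a h1 rfl, finrank_dg_prime embQbar hq a h0 rfl, cdeg, cdeg,
      if_pos (dvd_mul_left q m'), if_pos (dvd_mul_left q m)]

/-- A bounded multiple of a `p`-power torsion element is killed by a power of `p`. -/
theorem pow_smul_eq_zero_of_smul {J : Type*} [AddCommGroup J] {p : ℕ} (hp : p.Prime) {c : ℕ}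
    (hc : c ≠ 0) {x : J} {n : ℕ} (hx : p ^ n • x = 0) (h : c • x = 0) :
    p ^ (c.factorization p) • x = 0 := by
  have h1 : (p ^ n).gcd c • x = 0 := by
    rw [← Nat.cast_smul_eq_nsmul ℤ, Nat.gcd_eq_gcd_ab, add_smul, mul_comm, mul_smul,
      Nat.cast_smul_eq_nsmul, hx, smul_zero, zero_add, mul_comm, mul_smul,
      Nat.cast_smul_eq_nsmul, h, smul_zero]
  have h2 : (p ^ n).gcd c ∣ p ^ (c.factorization p) := by
    obtain ⟨k, hk, hk'⟩ := (Nat.dvd_prime_pow hp).mp (Nat.gcd_dvd_left (p ^ n) c)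
    rw [hk']
    refine pow_dvd_pow p ?_
    rw [← Nat.Prime.pow_dvd_iff_le_factorization hp hc, ← hk']
    exact Nat.gcd_dvd_right _ _
  obtain ⟨k, hk⟩ := h2
  rw [hk, mul_comm, mul_smul, h1, smul_zero]

/-- The same as `H35.FixedInput`. -/
def FixedIn (p q M : ℕ) [NeZero M] [NeZero (M * q)] [NeZero q] : Prop :=
  ∃ c : ℕ, ∃ A : ValuationSubring (AlgebraicClosure ℚ), A.LiesOverPrime q ∧
    ∀ x : JZero (M * q), (∃ n : ℕ, p ^ n • x = 0) →
      (∀ σ ∈ A.inertiaSubgroupIn ℚ, σ • x = x) →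
      degPush (M := M) 1 (by simp) x = 0 → degPush (M := M) q (dvd_refl _) x = 0 → p ^ c • x = 0

/-- **The auxiliary level.** -/
theorem fixedIn_of_dvd {p : ℕ} (hp : p.Prime) (hq : q.Prime) (hqm' : ¬ q ∣ m') (hmm : m ∣ m')
    (h : FixedIn p q (m' * q)) : FixedIn p q (m * q) := by
  obtain ⟨c, A, hA, h⟩ := h
  have hmm1 : m * q * 1 ∣ m' * q := by
    rw [mul_one]; exact mul_dvd_mul_right hmm q
  have h2 : m * q * q * 1 ∣ m' * q * q := by
    rw [mul_one]; exact mul_dvd_mul_right (mul_dvd_mul_right hmm q) q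
  set e := finrankAlong Qb (dg Qb 1 h2) with he
  have he0 : e ≠ 0 := by
    have h3 := finrank_dg embQbar 1 h2
    intro h4
    rw [← he, h4, zero_mul] at h3
    exact (dedekindPsi_pos (m' * q * q)).ne h3
  refine ⟨(e * p ^ c).factorization p, A, hA, ?_⟩
  rintro x ⟨n, hn⟩ hfix hx1 hxq
  refine pow_smul_eq_zero_of_smul hp (mul_ne_zero he0 (pow_ne_zero _ hp.ne_zero)) hn ?_
  have h3 := h (degPull 1 h2 x) ⟨n, by rw [← map_nsmul, hn, map_zero]⟩
    (fun σ hσ => by rw [← degPull_galois, hfix σ hσ]) (by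
      have := degPull_degPush_aux (a := 1) hq hqm' (Or.inl rfl) hmm1 (by simp) (by simp) h2 x
      rw [← this]
      erw [hx1]
      rw [map_zero]) (by
      have := degPull_degPush_aux (a := q) hq hqm' (Or.inr rfl) hmm1 (dvd_refl _) (dvd_refl _) h2 x
      rw [← this]
      erw [hxq]
      rw [map_zero])
  have h4 := congrArg (degPush 1 h2) h3
  rw [map_nsmul, map_zero, degPush_degPull, ← he, natCast_zsmul] at h4
  rw [mul_comm e, mul_smul]
  exact h4

end Aux

end Fermat.Agent.H92
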