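import Fermat.Agent.H92CarAux
import Fermat.Agent.H40Rep
import Fermat.Agent.H90Field

/-!
# The `fixed` clause of Carayol's theorem from a statement on functions

`CoreQ m q d C I` : the core statement for functions on `X_0(q² m)` over `Qbar` which are invariant
by the subgroup `I` of the Galois group.

`fixedIn_of_coreQ` : the core statement for all `d = p ^ n` implies `FixedIn`.
-/

set_option autoImplicit false
set_option linter.unusedSectionVars false
set_option linter.style.haveILetI false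

noncomputable section

open AlgebraicCurve IntermediateField HahnSeries ModularCurve Fermat.Agent.H66 Fermat.Agent.H67
open Fermat.Agent.H40

namespace Fermat.Agent.H92

local notation "Qb" => AlgebraicClosure ℚ
local notation "GQ" => AlgebraicClosure ℚ ≃ₐ[ℚ] AlgebraicClosure ℚ

/-- `j⁻¹` has order one. -/
theorem exists_order_one_full (N : ℕ) [NeZero N] :
    ∃ x ∈ modularFunctionFieldFull N, x.order = 1 := by
  refine ⟨jq⁻¹, inv_mem (modularFunctionField_le_full N (jq_mem N)), ?_⟩
  have h1 : jq.order = -1 := by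
    apply le_antisymm
    · refine HahnSeries.order_le_of_coeff_ne_zero ?_
      rw [coeff_jq_neg_one]
      exact one_ne_zero
    · by_contra hlt
      push Not at hlt
      have h2 := coeff_jq_of_lt hlt
      rw [HahnSeries.coeff_order_eq_zero] at h2
      exact jq_ne_zero h2
  have h2 := HahnSeries.order_mul jq_ne_zero (inv_ne_zero jq_ne_zero)
  rw [mul_inv_cancel₀ jq_ne_zero, HahnSeries.order_one, h1] at h2
  linarith

section Norm

variable {K F F' : Type*} [Field K] [Field F] [Field F'] [Algebra K F] [Algebra K F']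
  (g : SemilinearAut K F) (g' : SemilinearAut K F') (φ : F →ₐ[K] F')
  (h : ∀ x : F, g' • φ x = φ (g • x))

include h in
/-- Equivariance of norms. -/
theorem normAlong_smul (z : F') :
    H60.normAlong φ (g' • z) = g • H60.normAlong φ z := by
  have h1 := @Algebra.norm_eq_of_equiv_equiv F F' F F' _ _ _ _ (algebraAlong φ) (algebraAlong φ)
    (SemilinearAut.toRingAut g) (SemilinearAut.toRingAut g')
    (by
      refine RingHom.ext fun x => ?_
      exact (h x).symm) z
  unfold H60.normAlong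
  rw [h1]
  exact ((SemilinearAut.toRingAut g).apply_symm_apply _).symm

end Norm

/-- A power root of an invariant function with leading coefficient one is invariant. -/
theorem eq_of_pow_eq_of_lc {L : Type*} [Field L] [Algebra ℚ L] [IsAlgClosed L]
    {F₀ : IntermediateField ℚ (LaurentSeries ℚ)} {d : ℕ} (hd : d ≠ 0)
    {g h : laurentBaseChange L F₀} (hg : lc g = 1) (hh : lc h = 1) (hgh : g ^ d = h ^ d) :
    g = h := by
  have hh0 : h ≠ 0 := by
    rintro rfl
    rw [lc] at hh
    simp at hh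
  have h1 : (g / h) ^ d = 1 := by
    rw [div_pow, hgh, div_self (pow_ne_zero _ hh0)]
  have h2 : IsIntegral L (g / h) := by
    refine ⟨Polynomial.X ^ d - 1, Polynomial.monic_X_pow_sub_C 1 hd, ?_⟩
    simp [h1]
  obtain ⟨c, hc⟩ := minpoly.mem_range_of_degree_eq_one L (g / h)
    (IsAlgClosed.degree_eq_one_of_irreducible L (minpoly.irreducible h2))
  have h3 : lc (g / h) = 1 := by
    rw [div_eq_mul_inv, lc_mul, lc_inv, hg, hh, inv_one, one_mul]
  rw [← hc, lc_algebraMap] at h3
  rw [h3, map_one] at hc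
  exact (div_eq_one_iff_eq hh0).mp hc.symm

theorem smul_eq_of_pow {L : Type*} [Field L] [Algebra ℚ L] [IsAlgClosed L]
    {F₀ : IntermediateField ℚ (LaurentSeries ℚ)} {d : ℕ} (hd : d ≠ 0)
    {g v : laurentBaseChange L F₀} (hg : lc g = 1)
    (hgv : algebraMap L (laurentBaseChange L F₀) (lc v)⁻¹ * v = g ^ d) {σ : L ≃ₐ[ℚ] L}
    (hσ : arithmeticGalois F₀ σ • v = v) : arithmeticGalois F₀ σ • g = g := by
  refine eq_of_pow_eq_of_lc hd (by rw [lc_galois, hg, map_one]) hg ?_
  have hl : σ (lc v) = lc v := by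
    have := congrArg lc hσ
    rwa [lc_galois] at this
  rw [← smul_pow', ← hgv, smul_mul', hσ, SemilinearAut.smul_algebraMap]
  have h3 : SemilinearAut.baseAut (arithmeticGalois F₀ σ) (lc v)⁻¹ = σ (lc v)⁻¹ := rfl
  rw [h3, map_inv₀, hl]

section Core

variable (m q : ℕ) [NeZero m] [NeZero q] [NeZero (m * q)] [NeZero (m * q * q)]

/-- `z` is, up to a constant, the `d`-th power of an `I`-invariant function. -/
def IsPowInv (N : ℕ) (I : Subgroup GQ) (d : ℕ) (z : FB Qb N) : Prop :=
  ∃ (g : FB Qb N) (a : Qb), (∀ σ ∈ I, arithmeticGalois (modularFunctionFieldFull N) σ • g = g) ∧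
    (∀ σ ∈ I, σ a = a) ∧ z = algebraMap Qb _ a * g ^ d

/-- The core statement. -/
def CoreQ (d C : ℕ) (I : Subgroup GQ) : Prop :=
  ∀ u : FB Qb (m * q * q), u ≠ 0 →
    (∀ σ ∈ I, arithmeticGalois (modularFunctionFieldFull (m * q * q)) σ • u = u) →
    (∀ v : Place Qb (FB Qb (m * q * q)), (d : ℤ) ∣ v.ord u) →
    IsPowInv (m * q) I d (H60.normAlong (dg Qb 1 (by simp : m * q * 1 ∣ m * q * q)) u) →
    IsPowInv (m * q) I d (H60.normAlong (dg Qb q (dvd_refl (m * q * q))) u) →
    ∃ (h : FB Qb (m * q * q)) (a : Qb), u ^ C = algebraMap Qb _ a * h ^ d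

end Core

/-- Push forward of representatives. -/
theorem isPowInv_norm {M N : ℕ} [NeZero M] [NeZero N] {a : ℕ} [NeZero a] (h : M * a ∣ N)
    {d : ℕ} (hd : d ≠ 0) {I : Subgroup GQ} {x : JZero N} {u : FB Qb N} (hu : IsRep d x u)
    (hI : ∀ σ ∈ I, arithmeticGalois (modularFunctionFieldFull N) σ • u = u)
    (hx : degPush a h x = 0) : IsPowInv M I d (H60.normAlong (dg Qb a h) u) := by
  obtain ⟨D, rfl, hD⟩ := hu.exists_div
  set v := H60.normAlong (dg Qb a h) u with hv
  have hv0 : v ≠ 0 := normAlong_ne_zero' _ hu.ne_zero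
  have h1 : divF (K := Qb) u hu.ne_zero = (d : ℤ) • (D : Divisor Qb (FB Qb N)) :=
    Finsupp.ext fun w => by rw [divF_apply, hD w, Finsupp.smul_apply, smul_eq_mul]
  have h2 : divF (K := Qb) v hv0 = (d : ℤ) • pushD (dg Qb a h) (D : Divisor Qb (FB Qb N)) := by
    rw [← map_zsmul, ← h1, pushD_divF]
  have h3 := isRep_normalise (n := d) (D := ⟨pushD (dg Qb a h) (D : Divisor Qb (FB Qb N)),
    (degree_pushD _ _).trans D.2⟩) hv0 (fun w => by
      rw [← divF_apply v hv0 w, h2, Finsupp.smul_apply, smul_eq_mul])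
  have h4 : Pic0.mk ⟨pushD (dg Qb a h) (D : Divisor Qb (FB Qb N)),
    (degree_pushD _ _).trans D.2⟩ = 0 := hx
  rw [h4] at h3
  obtain ⟨g, hg, hgv⟩ := h3.exists_pow_of_zero (exists_order_one_full M)
  have hlv := lc_ne_zero hv0
  have hvg : v = algebraMap Qb _ (lc v) * g ^ d := by
    rw [← hgv, ← mul_assoc, ← map_mul, mul_inv_cancel₀ hlv, map_one, one_mul]
  have hσv : ∀ σ ∈ I, arithmeticGalois (modularFunctionFieldFull M) σ • v = v := by
    intro σ hσ
    rw [hv, ← normAlong_smul (arithmeticGalois (modularFunctionFieldFull M) σ)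
      (arithmeticGalois (modularFunctionFieldFull N) σ) (dg Qb a h) (dg_smul a h σ), hI σ hσ]
  have hσl : ∀ σ ∈ I, σ (lc v) = lc v := by
    intro σ hσ
    have := congrArg lc (hσv σ hσ)
    rwa [lc_galois] at this
  exact ⟨g, lc v, fun σ hσ => smul_eq_of_pow hd hg hgv (hσv σ hσ), hσl, hvg⟩

section Final

variable {m q p : ℕ} [NeZero m] [NeZero q] [NeZero (m * q)] [NeZero (m * q * q)]

/-- The `fixed` clause from the core statement. -/
theorem fixedIn_of_coreQ (hp : p.Prime) (A : ValuationSubring Qb) (hA : A.LiesOverPrime q)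
    {C : ℕ} (hC : C ≠ 0) (hcore : ∀ n : ℕ, CoreQ m q (p ^ n) C (A.inertiaSubgroupIn ℚ)) :
    FixedIn p q (m * q) := by
  refine ⟨C.factorization p, A, hA, ?_⟩
  rintro x ⟨n, hn⟩ hfix hx1 hxq
  refine pow_smul_eq_zero_of_smul hp hC hn ?_
  obtain ⟨u, hu, huI⟩ := exists_isRep (n := p ^ n) (exists_order_one_full (m * q * q)) hn
  have hd : p ^ n ≠ 0 := pow_ne_zero _ hp.ne_zero
  have hI : ∀ σ ∈ A.inertiaSubgroupIn ℚ,
      arithmeticGalois (modularFunctionFieldFull (m * q * q)) σ • u = u :=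
    fun σ hσ => huI σ (hfix σ hσ)
  obtain ⟨h, a, hh⟩ := hcore n u hu.ne_zero hI hu.dvd_ord (isPowInv_norm _ hd hu hI hx1)
    (isPowInv_norm _ hd hu hI hxq)
  have h0 : a ≠ 0 := by
    rintro rfl
    rw [map_zero, zero_mul] at hh
    exact pow_ne_zero _ hu.ne_zero hh
  obtain ⟨b, hb⟩ := IsAlgClosed.exists_pow_nat_eq a (Nat.pos_of_ne_zero hd)
  refine (hu.pow C).eq_zero_of_pow hd (g := algebraMap Qb _ b * h) ?_
  rw [hh, mul_pow, ← map_pow, hb]

end Final

end Fermat.Agent.H92
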