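import Fermat.Agent.H92CarOrd
import Fermat.Agent.H90Descent

/-!
# Base change of modular function fields along an algebraic extension of constants

`ord_baseIncl` : for every place `P` of `F_N / L0` there is a place `v` of `F_N / L1` with
`v.ord (baseIncl f) = P.ord f`.
-/

set_option autoImplicit false
set_option linter.unusedSectionVars false
set_option linter.style.haveILetI false

noncomputable section

open AlgebraicCurve Polynomial IntermediateField ModularCurve Fermat.Agent.H67 Fermat.Agent.H90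

namespace Fermat.Agent.H92

section Prim

variable {K K' F F' : Type*} [Field K] [Field K'] [Field F] [Field F'] [Algebra K K'] [Algebra K F]
  [Algebra K' F'] [Algebra F F'] [Algebra K F'] [IsScalarTower K K' F'] [IsScalarTower K F F']

/-- Two elements are polynomials in a third one. -/
theorem exists_common [CharZero K] [Algebra.IsIntegral K K'] (α β : K') :
    ∃ (γ : K') (p r : K[X]), aeval γ p = α ∧ aeval γ r = β := by
  set E : IntermediateField K K' := IntermediateField.adjoin K {α, β} with hE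
  have hα : α ∈ E := subset_adjoin K _ (by simp)
  have hβ : β ∈ E := subset_adjoin K _ (by simp)
  haveI : FiniteDimensional K E := by
    refine finiteDimensional_adjoin ?_
    intro x _
    exact Algebra.IsIntegral.isIntegral x
  obtain ⟨γ, hγ⟩ := Field.exists_primitive_element K E
  have h1 : ∀ x : E, ∃ p : K[X], aeval γ p = x := by
    intro x
    have h2 : x ∈ K⟮γ⟯ := by
      rw [hγ]
      trivial
    have h3 : x ∈ (K⟮γ⟯).toSubalgebra := h2
    rw [adjoin_simple_toSubalgebra_of_isAlgebraic (Algebra.IsIntegral.isIntegral γ).isAlgebraic,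
      Algebra.adjoin_singleton_eq_range_aeval] at h3
    exact h3
  obtain ⟨p, hp⟩ := h1 ⟨α, hα⟩
  obtain ⟨r, hr⟩ := h1 ⟨β, hβ⟩
  refine ⟨γ, p, r, ?_, ?_⟩
  · have := congrArg (algebraMap E K') hp
    rwa [← aeval_algebraMap_apply] at this
  · have := congrArg (algebraMap E K') hr
    rwa [← aeval_algebraMap_apply] at this

theorem exists_aeval_of_mem [CharZero K] [Algebra.IsIntegral K K'] {z : F'}
    (hz : z ∈ Algebra.adjoin F (Set.range (algebraMap K' F'))) :
    ∃ (α : K') (Z : F[X]), z = aeval (algebraMap K' F' α) Z := by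
  have key : ∀ (α : K') (Z : F[X]) (γ : K') (p : K[X]), aeval γ p = α →
      aeval (algebraMap K' F' α) Z =
        aeval (algebraMap K' F' γ) (Z.comp (p.map (algebraMap K F))) := by
    intro α Z γ p hp
    rw [aeval_comp]
    congr 1
    rw [← hp, aeval_map_algebraMap, aeval_algebraMap_apply]
  induction hz using Algebra.adjoin_induction with
  | mem z hz =>
      obtain ⟨α, rfl⟩ := hz
      exact ⟨α, X, by rw [aeval_X]⟩
  | algebraMap r => exact ⟨0, C r, by rw [aeval_C]⟩
  | add x y _ _ hx hy =>
      obtain ⟨α, Z, rfl⟩ := hx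
      obtain ⟨β, Y, rfl⟩ := hy
      obtain ⟨γ, p, r, hp, hr⟩ := exists_common (K := K) α β
      refine ⟨γ, Z.comp (p.map (algebraMap K F)) + Y.comp (r.map (algebraMap K F)), ?_⟩
      rw [map_add, ← key α Z γ p hp, ← key β Y γ r hr]
  | mul x y _ _ hx hy =>
      obtain ⟨α, Z, rfl⟩ := hx
      obtain ⟨β, Y, rfl⟩ := hy
      obtain ⟨γ, p, r, hp, hr⟩ := exists_common (K := K) α β
      refine ⟨γ, Z.comp (p.map (algebraMap K F)) * Y.comp (r.map (algebraMap K F)), ?_⟩
      rw [map_mul, ← key α Z γ p hp, ← key β Y γ r hr]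

end Prim

section Modular

variable {L0 L1 : Type*} [Field L0] [Field L1] [Algebra L0 L1] [Algebra ℚ L0] [Algebra ℚ L1]
  (F₀ : IntermediateField ℚ (LaurentSeries ℚ))

variable (L0 L1) in
/-- the algebra structure given by the inclusion -/
abbrev baseAlg : Algebra (laurentBaseChange L0 F₀) (laurentBaseChange L1 F₀) :=
  (baseIncl L0 L1 F₀).toAlgebra

theorem baseIncl_algebraMap (a : L0) :
    baseIncl L0 L1 F₀ (algebraMap L0 _ a) = algebraMap L1 _ (algebraMap L0 L1 a) :=
  Subtype.ext (coeffMap_algebraMap' a)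

theorem mem_adjoin_baseIncl [Algebra.IsIntegral L0 L1] (z : laurentBaseChange L1 F₀) :
    letI := baseAlg L0 L1 F₀
    z ∈ Algebra.adjoin (laurentBaseChange L0 F₀)
      (Set.range (algebraMap L1 (laurentBaseChange L1 F₀))) := by
  letI := baseAlg L0 L1 F₀
  set S := IntermediateField.adjoin (laurentBaseChange L0 F₀)
    (Set.range (algebraMap L1 (laurentBaseChange L1 F₀))) with hS
  have hint : ∀ x ∈ Set.range (algebraMap L1 (laurentBaseChange L1 F₀)),
      IsAlgebraic (laurentBaseChange L0 F₀) x := by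
    rintro _ ⟨a, rfl⟩
    have ha : IsIntegral L0 a := Algebra.IsIntegral.isIntegral a
    refine IsIntegral.isAlgebraic ?_
    obtain ⟨p, hp, hpa⟩ := ha
    refine ⟨p.map (algebraMap L0 (laurentBaseChange L0 F₀)), hp.map _, ?_⟩
    rw [eval₂_map]
    have h1 : (algebraMap (laurentBaseChange L0 F₀) (laurentBaseChange L1 F₀)).comp
        (algebraMap L0 (laurentBaseChange L0 F₀)) =
        (algebraMap L1 (laurentBaseChange L1 F₀)).comp (algebraMap L0 L1) :=
      RingHom.ext fun c => baseIncl_algebraMap F₀ c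
    rw [h1, ← hom_eval₂, hpa, map_zero]
  have hsub : S.toSubalgebra = Algebra.adjoin (laurentBaseChange L0 F₀)
      (Set.range (algebraMap L1 (laurentBaseChange L1 F₀))) :=
    adjoin_toSubalgebra_of_isAlgebraic hint
  rw [← hsub]
  show z ∈ S
  have hz := z.2
  have hle : (laurentBaseChange L1 F₀).toSubfield ≤
      S.toSubfield.map (algebraMap (laurentBaseChange L1 F₀) (LaurentSeries L1)) := by
    intro x hx
    replace hx : x ∈ laurentBaseChange L1 F₀ := hx
    rw [mem_laurentBaseChange_iff] at hx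
    induction hx using Subfield.closure_induction with
    | mem y hy =>
        rcases hy with ⟨a, rfl⟩ | ⟨z, hz, rfl⟩
        · exact ⟨algebraMap L1 _ a, subset_adjoin _ _ ⟨a, rfl⟩, rfl⟩
        · have h1 : coeffEmb L0 z ∈ laurentBaseChange L0 F₀ := coeffEmb_mem_laurentBaseChange L0 hz
          exact ⟨baseIncl L0 L1 F₀ ⟨_, h1⟩, S.algebraMap_mem ⟨_, h1⟩, coeffMap_coeffEmb' z⟩
    | one => exact one_mem _
    | add x y _ _ hx hy => exact add_mem hx hy
    | neg x _ hx => exact neg_mem hx
    | inv x _ hx => exact inv_mem hx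
    | mul x y _ _ hx hy => exact mul_mem hx hy
  obtain ⟨s, hs, hsz⟩ := hle hz
  have : s = z := Subtype.ext hsz
  rw [← this]
  exact hs

/-- Places of the base change. -/
theorem exists_place_baseIncl [Algebra.IsIntegral L0 L1]
    [H3RR.IsFF L1 (laurentBaseChange L1 F₀)] (P : Place L0 (laurentBaseChange L0 F₀)) :
    ∃ v : Place L1 (laurentBaseChange L1 F₀), ∀ f : laurentBaseChange L0 F₀,
      v.ord (baseIncl L0 L1 F₀ f) = P.ord f := by
  letI := baseAlg L0 L1 F₀
  letI : Algebra L0 (laurentBaseChange L1 F₀) :=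
    ((algebraMap L1 (laurentBaseChange L1 F₀)).comp (algebraMap L0 L1)).toAlgebra
  haveI : IsScalarTower L0 L1 (laurentBaseChange L1 F₀) := IsScalarTower.of_algebraMap_eq fun _ => rfl
  haveI : IsScalarTower L0 (laurentBaseChange L0 F₀) (laurentBaseChange L1 F₀) :=
    IsScalarTower.of_algebraMap_eq fun c => by
      show algebraMap L1 (laurentBaseChange L1 F₀) (algebraMap L0 L1 c) =
        baseIncl L0 L1 F₀ (algebraMap L0 _ c)
      rw [baseIncl_algebraMap]
  haveI : CharZero L0 := algebraRat.charZero L0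
  obtain ⟨v, hv⟩ := exists_above (K' := L1) (F' := laurentBaseChange L1 F₀) P
  refine ⟨v, fun f => hv.ord_eq (fun z => ?_) f⟩
  exact exists_aeval_of_mem (K := L0) (mem_adjoin_baseIncl F₀ z)

/-- Divisibility of orders descends. -/
theorem dvd_ord_of_baseIncl [Algebra.IsIntegral L0 L1]
    [H3RR.IsFF L1 (laurentBaseChange L1 F₀)] {d : ℤ} {f : laurentBaseChange L0 F₀}
    (h : ∀ v : Place L1 (laurentBaseChange L1 F₀), d ∣ v.ord (baseIncl L0 L1 F₀ f))
    (P : Place L0 (laurentBaseChange L0 F₀)) : d ∣ P.ord f := by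
  obtain ⟨v, hv⟩ := exists_place_baseIncl (L1 := L1) F₀ P
  rw [← hv f]
  exact h v

end Modular

end Fermat.Agent.H92
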