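import Fermat.Agent.H99Base
import Fermat.Agent.H99Emb3
import Fermat.Agent.H34Two2

/-!
# Base change of norms, traces and characteristic polynomials; base change of `w_q`, `w_{q²}`
-/

set_option autoImplicit false
set_option linter.unusedSectionVars false

noncomputable section

open ModularCurve Polynomial IntermediateField AlgebraicCurve Module Fermat.Agent.H60
  Fermat.Agent.H66

namespace Fermat.Agent.H99

section Matrix

variable {R S R' S' ι : Type*} [CommRing R] [CommRing S] [CommRing R'] [CommRing S']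
  [Algebra R S] [Algebra R' S'] [Fintype ι] [DecidableEq ι]

theorem leftMulMatrix_map (ρ : R →+* R') (σ : S →+* S')
    (h : ∀ r, σ (algebraMap R S r) = algebraMap R' S' (ρ r)) (b : Basis ι R S)
    (b' : Basis ι R' S') (hb : ∀ i, σ (b i) = b' i) (z : S) :
    Algebra.leftMulMatrix b' (σ z) = (Algebra.leftMulMatrix b z).map ρ := by
  ext i j
  rw [Matrix.map_apply, Algebra.leftMulMatrix_eq_repr_mul, Algebra.leftMulMatrix_eq_repr_mul]
  have h1 : ∀ y : S, b'.repr (σ y) i = ρ (b.repr y i) := by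
    intro y
    have h2 : σ y = ∑ l, ρ (b.repr y l) • b' l := by
      conv_lhs => rw [← b.sum_repr y]
      rw [map_sum]
      refine Finset.sum_congr rfl fun l _ => ?_
      rw [Algebra.smul_def, map_mul, h, hb, Algebra.smul_def]
    rw [h2, b'.repr_sum_self]
  rw [← hb j, ← map_mul, h1]

theorem norm_map (ρ : R →+* R') (σ : S →+* S')
    (h : ∀ r, σ (algebraMap R S r) = algebraMap R' S' (ρ r)) (b : Basis ι R S)
    (b' : Basis ι R' S') (hb : ∀ i, σ (b i) = b' i) (z : S) :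
    Algebra.norm R' (σ z) = ρ (Algebra.norm R z) := by
  rw [Algebra.norm_eq_matrix_det b, Algebra.norm_eq_matrix_det b',
    leftMulMatrix_map ρ σ h b b' hb, RingHom.map_det]
  rfl

theorem trace_map (ρ : R →+* R') (σ : S →+* S')
    (h : ∀ r, σ (algebraMap R S r) = algebraMap R' S' (ρ r)) (b : Basis ι R S)
    (b' : Basis ι R' S') (hb : ∀ i, σ (b i) = b' i) (z : S) :
    Algebra.trace R' S' (σ z) = ρ (Algebra.trace R S z) := by
  rw [Algebra.trace_eq_matrix_trace b, Algebra.trace_eq_matrix_trace b',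
    leftMulMatrix_map ρ σ h b b' hb]
  exact (AddMonoidHom.map_trace (ρ : R →+ R') _).symm

end Matrix

section Alpha

variable {L L' : Type*} [Field L] [Field L'] [Algebra ℚ L] [Algebra ℚ L'] [Algebra L L']

/-- the finiteness of `F_{Nℓ}` over `F_N`, over `ℚ` -/
theorem exists_isBas_alpha (N ℓ : ℕ) [NeZero N] [NeZero ℓ] :
    ∃ (n : ℕ) (b : Fin n → LaurentSeries ℚ),
      IsBas (modularFunctionFieldFull N) (modularFunctionFieldFull (N * ℓ)) b := by
  have hle : modularFunctionFieldFull N ≤ modularFunctionFieldFull (N * ℓ) :=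
    full_degeneracy_le (dvd_mul_right N ℓ)
  have hfin : FiniteDimensional (modularFunctionFieldFull N) (extendScalars hle) := by
    apply finite_of_baseChange (AlgebraicClosure ℚ)
    rw [H67.laurentBaseChange_full, H67.laurentBaseChange_full]
    intro h
    have h2 := H67.relfinrank_full_mul (H67.degreeFact (AlgebraicClosure ℚ)) N ℓ
    rw [h, mul_zero] at h2
    exact (H67.dedekindPsi_pos (N * ℓ)).ne h2
  obtain ⟨b, hb⟩ := exists_isBas hle
  exact ⟨_, b, hb⟩

/-- a basis of `F_{Nℓ}` over `F_N` from a basis over `ℚ` -/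
theorem exists_basis_alpha (L : Type*) [Field L] [Algebra ℚ L] (N ℓ : ℕ) [NeZero N] [NeZero ℓ]
    {n : ℕ} {b : Fin n → LaurentSeries ℚ}
    (hb : IsBas (modularFunctionFieldFull N) (modularFunctionFieldFull (N * ℓ)) b) :
    ∃ c : @Basis (Fin n) (FX L N) (FX L (N * ℓ)) _ _
        (@Algebra.toModule _ _ _ _ (algebraAlong (heckeAlphaBar L N ℓ))),
      ∀ i, ((c i : FX L (N * ℓ)) : LaurentSeries L) = coeffEmb L (b i) := by
  let _ := algebraAlong (heckeAlphaBar L N ℓ)
  exact (hb.baseChange L).exists_basis (R := FX L N) (S := FX L (N * ℓ)) (RingEquiv.refl _)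
    (RingEquiv.refl _) (fun x => coe_heckeAlphaBar N ℓ x)

/-- compatible bases of `F_{Nℓ}` over `F_N`, over `L` and `L'` -/
theorem exists_bases (L L' : Type*) [Field L] [Field L'] [Algebra ℚ L] [Algebra ℚ L']
    [Algebra L L'] (N ℓ : ℕ) [NeZero N] [NeZero ℓ] :
    ∃ (n : ℕ) (c : @Basis (Fin n) (FX L N) (FX L (N * ℓ)) _ _
        (@Algebra.toModule _ _ _ _ (algebraAlong (heckeAlphaBar L N ℓ))))
      (c' : @Basis (Fin n) (FX L' N) (FX L' (N * ℓ)) _ _
        (@Algebra.toModule _ _ _ _ (algebraAlong (heckeAlphaBar L' N ℓ)))),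
      ∀ i, H90.baseIncl L L' (modularFunctionFieldFull (N * ℓ)) (c i) = c' i := by
  obtain ⟨n, b, hb⟩ := exists_isBas_alpha N ℓ
  obtain ⟨c, hc⟩ := exists_basis_alpha L N ℓ hb
  obtain ⟨c', hc'⟩ := exists_basis_alpha L' N ℓ hb
  refine ⟨n, c, c', fun i => Subtype.ext ?_⟩
  rw [H90.coe_baseIncl, hc i, hc' i, H90.coeffMap_coeffEmb']

theorem baseIncl_alpha (N ℓ : ℕ) [NeZero N] [NeZero ℓ] (x : FX L N) :
    H90.baseIncl L L' _ (heckeAlphaBar L N ℓ x) =
      heckeAlphaBar L' N ℓ (H90.baseIncl L L' _ x) := by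
  apply Subtype.ext
  rw [H90.coe_baseIncl, coe_heckeAlphaBar, coe_heckeAlphaBar, H90.coe_baseIncl]

/-- **Base change of the norm.** -/
theorem baseIncl_normAlong (N ℓ : ℕ) [NeZero N] [NeZero ℓ] (z : FX L (N * ℓ)) :
    normAlong (heckeAlphaBar L' N ℓ) (H90.baseIncl L L' _ z) =
      H90.baseIncl L L' _ (normAlong (heckeAlphaBar L N ℓ) z) := by
  obtain ⟨n, c, c', hc⟩ := exists_bases L L' N ℓ
  exact @norm_map (FX L N) (FX L (N * ℓ)) (FX L' N) (FX L' (N * ℓ)) (Fin n) _ _ _ _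
    (algebraAlong (heckeAlphaBar L N ℓ)) (algebraAlong (heckeAlphaBar L' N ℓ)) _ _
    (H90.baseIncl L L' _) (H90.baseIncl L L' _) (fun x => baseIncl_alpha N ℓ x) c c' hc z

/-- **Base change of the trace.** -/
theorem baseIncl_traceAlong (N ℓ : ℕ) [NeZero N] [NeZero ℓ] (z : FX L (N * ℓ)) :
    H34.Two.traceAlong (heckeAlphaBar L' N ℓ) (H90.baseIncl L L' _ z) =
      H90.baseIncl L L' _ (H34.Two.traceAlong (heckeAlphaBar L N ℓ) z) := by
  obtain ⟨n, c, c', hc⟩ := exists_bases L L' N ℓ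
  exact @trace_map (FX L N) (FX L (N * ℓ)) (FX L' N) (FX L' (N * ℓ)) (Fin n) _ _ _ _
    (algebraAlong (heckeAlphaBar L N ℓ)) (algebraAlong (heckeAlphaBar L' N ℓ)) _ _
    (H90.baseIncl L L' _) (H90.baseIncl L L' _) (fun x => baseIncl_alpha N ℓ x) c c' hc z

theorem finrank_alpha_of_dvd (N q : ℕ) [NeZero N] [NeZero q] (hq : q.Prime) (h : q ∣ N) :
    finrankAlong L (heckeAlphaBar L N q) = q := by
  rw [H67.finrank_alpha_prime (degreeFact L) N q hq, if_pos h]

theorem baseIncl_beta (N ℓ : ℕ) [NeZero N] [NeZero ℓ] (x : FX L N) :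
    H90.baseIncl L L' _ (heckeBetaBar L N ℓ x) =
      heckeBetaBar L' N ℓ (H90.baseIncl L L' _ x) := by
  apply Subtype.ext
  rw [H90.coe_baseIncl, coe_heckeBetaBar, coe_heckeBetaBar, H90.coe_baseIncl,
    coeffMap_qExpand_H60]

end Alpha

section Ext

variable {L : Type*} [Field L] [Algebra ℚ L]

/-- ring homomorphisms out of `F_M` are determined by their values on constants and the
`j(dτ)` -/
theorem ringHom_ext_J {M : ℕ} (hM : M ≠ 0) {E : Type*} [Field E] (φ ψ : FX L M →+* E)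
    (h0 : ∀ c : L, φ (algebraMap L _ c) = ψ (algebraMap L _ c))
    (h : ∀ (d : ℕ) (hd : d ∣ M), φ ⟨J L d, J_mem_FX hM hd⟩ = ψ ⟨J L d, J_mem_FX hM hd⟩) :
    φ = ψ := by
  let _ : Algebra L E := (φ.comp (algebraMap L (FX L M))).toAlgebra
  let φ' : FX L M →ₐ[L] E := { φ with commutes' := fun _ => rfl }
  let ψ' : FX L M →ₐ[L] E := { ψ with commutes' := fun c => (h0 c).symm }
  have h1 : φ' = ψ' := algHom_ext_J (φ := φ') (ψ := ψ') hM h
  ext x
  exact DFunLike.congr_fun h1 x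

/-- ring homomorphisms out of `F_{Nℓ}` are determined by their values on the images of the two
degeneracy maps -/
theorem ringHom_ext' (N ℓ : ℕ) [NeZero N] [NeZero ℓ] (hℓ : ℓ.Prime) {E : Type*} [Field E]
    (φ ψ : FX L (N * ℓ) →+* E)
    (h1 : ∀ x, φ (heckeAlphaBar L N ℓ x) = ψ (heckeAlphaBar L N ℓ x))
    (h2 : ∀ x, φ (heckeBetaBar L N ℓ x) = ψ (heckeBetaBar L N ℓ x)) : φ = ψ := by
  let _ : Algebra L E := (φ.comp (algebraMap L (FX L (N * ℓ)))).toAlgebra
  have h0 : ∀ c : L, φ (algebraMap L _ c) = ψ (algebraMap L _ c) := by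
    intro c
    have := h1 (algebraMap L _ c)
    rwa [AlgHom.commutes] at this
  let φ' : FX L (N * ℓ) →ₐ[L] E := { φ with commutes' := fun _ => rfl }
  let ψ' : FX L (N * ℓ) →ₐ[L] E := { ψ with commutes' := fun c => (h0 c).symm }
  have h3 : φ' = ψ' := algHom_ext' N ℓ hℓ (φ := φ') (ψ := ψ') h1 h2
  ext x
  exact DFunLike.congr_fun h3 x

end Ext

section AL

variable {L L' : Type*} [Field L] [Field L'] [Algebra ℚ L] [Algebra ℚ L'] [Algebra L L']
variable {m q : ℕ} [NeZero m] [NeZero q]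

theorem baseIncl_algebraMap {N : ℕ} (c : L) :
    H90.baseIncl L L' (modularFunctionFieldFull N) (algebraMap L _ c) =
      algebraMap L' _ (algebraMap L L' c) := by
  apply Subtype.ext
  rw [H90.coe_baseIncl]
  exact H90.coeffMap_algebraMap' c

theorem coeffMap_J (d : ℕ) : coeffMap (algebraMap L L') (J L d) = J L' d := by
  by_cases hd : d = 0
  · rw [J, dif_pos hd, J, dif_pos hd, map_zero]
  · have : NeZero d := ⟨hd⟩
    rw [J_eq, J_eq, coeffMap_qExpand_H60, coeffMap_jqModC]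

theorem baseIncl_J {N : ℕ} (hN : N ≠ 0) {d : ℕ} (hd : d ∣ N) :
    H90.baseIncl L L' (modularFunctionFieldFull N) ⟨J L d, J_mem_FX hN hd⟩ =
      ⟨J L' d, J_mem_FX hN hd⟩ := by
  apply Subtype.ext
  rw [H90.coe_baseIncl]
  exact coeffMap_J d

/-- **Base change of `w_q`.** -/
theorem baseIncl_W (hq : q.Prime) (w : AL L m q) (w' : AL L' m q) (x : FX L (m * q)) :
    H90.baseIncl L L' _ (w.W x) = w'.W (H90.baseIncl L L' _ x) := by
  have hmq : m * q ≠ 0 := mul_ne_zero (NeZero.ne m) (NeZero.ne q)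
  have h : (H90.baseIncl L L' (modularFunctionFieldFull (m * q))).comp
      (w.W : FX L (m * q) →+* FX L (m * q)) =
      (w'.W : FX L' (m * q) →+* FX L' (m * q)).comp (H90.baseIncl L L' _) := by
    apply ringHom_ext_J hmq
    · intro c
      show H90.baseIncl L L' _ (w.W (algebraMap L _ c)) =
        w'.W (H90.baseIncl L L' _ (algebraMap L _ c))
      rw [AlgEquiv.commutes, baseIncl_algebraMap, AlgEquiv.commutes]
    · intro d hd
      show H90.baseIncl L L' _ (w.W ⟨J L d, J_mem_FX hmq hd⟩) =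
        w'.W (H90.baseIncl L L' _ ⟨J L d, J_mem_FX hmq hd⟩)
      rw [baseIncl_J hmq hd]
      rcases dvd_cases hq hd with hd' | ⟨e, he, rfl⟩
      · have hd'' : q * d ∣ m * q := by rw [mul_comm m q]; exact mul_dvd_mul_left q hd'
        rw [w.W_J hd' _ (J_mem_FX hmq hd''), w'.W_J hd' _ (J_mem_FX hmq hd''), baseIncl_J hmq hd'']
      · have he' : e ∣ m * q := he.trans (dvd_mul_right _ _)
        rw [w.W_Jq he (J_mem_FX hmq he') _, w'.W_Jq he (J_mem_FX hmq he') _, baseIncl_J hmq he']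
  exact RingHom.congr_fun h x

/-- **Base change of `w_{q²}`.** -/
theorem baseIncl_W₂ (hq : q.Prime) (w : AL L m q) (w' : AL L' m q) (w₂ : AL2 L m q w)
    (w₂' : AL2 L' m q w') (x : FX L (m * q * q)) :
    H90.baseIncl L L' _ (w₂.W₂ x) = w₂'.W₂ (H90.baseIncl L L' _ x) := by
  have h : (H90.baseIncl L L' (modularFunctionFieldFull (m * q * q))).comp
      (w₂.W₂ : FX L (m * q * q) →+* FX L (m * q * q)) =
      (w₂'.W₂ : FX L' (m * q * q) →+* FX L' (m * q * q)).comp (H90.baseIncl L L' _) := by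
    apply ringHom_ext' (m * q) q hq
    · intro x
      show H90.baseIncl L L' _ (w₂.W₂ (heckeAlphaBar L (m * q) q x)) =
        w₂'.W₂ (H90.baseIncl L L' _ (heckeAlphaBar L (m * q) q x))
      rw [w₂.alpha, baseIncl_beta, baseIncl_alpha, w₂'.alpha, baseIncl_W hq w w']
    · intro x
      show H90.baseIncl L L' _ (w₂.W₂ (heckeBetaBar L (m * q) q x)) =
        w₂'.W₂ (H90.baseIncl L L' _ (heckeBetaBar L (m * q) q x))
      rw [w₂.beta, baseIncl_alpha, baseIncl_beta, w₂'.beta, baseIncl_W hq w w']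
  exact RingHom.congr_fun h x

end AL

end Fermat.Agent.H99

end
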