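import Fermat.Agent.H92CarB
import Fermat.Agent.H92CarBase
import Fermat.Agent.H99Base2
import Fermat.Agent.H99Emb3

/-!
# Descent of the core statement to the fixed field of inertia
-/

set_option autoImplicit false
set_option linter.unusedSectionVars false
set_option linter.style.haveILetI false

noncomputable section

open AlgebraicCurve IntermediateField HahnSeries ModularCurve Fermat.Agent.H67
open Fermat.Agent.H40 Fermat.Agent.H99 Fermat.Agent.H60

namespace Fermat.Agent.H92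

local notation "Qb" => AlgebraicClosure ℚ
local notation "GQ" => AlgebraicClosure ℚ ≃ₐ[ℚ] AlgebraicClosure ℚ

/-- The core statement over `K`. -/
def CoreK (K : Type*) [Field K] [Algebra ℚ K] (m q d C : ℕ) [NeZero m] [NeZero q]
    [NeZero (m * q)] [NeZero (m * q * q)] : Prop :=
  ∀ f : FX K (m * q * q), f ≠ 0 → (∀ P : Place K (FX K (m * q * q)), (d : ℤ) ∣ P.ord f) →
    ∀ (c c' : K) (g g' : FX K (m * q)), c ≠ 0 → c' ≠ 0 → g ≠ 0 → g' ≠ 0 →
      normAlong (heckeAlphaBar K (m * q) q) f = algebraMap K _ c * g ^ d →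
      normAlong (heckeBetaBar K (m * q) q) f = algebraMap K _ c' * g' ^ d →
      ∃ (c₁ : K) (g₁ : FX K (m * q * q)), c₁ ≠ 0 ∧ g₁ ≠ 0 ∧
        f ^ C = algebraMap K _ c₁ * g₁ ^ d

section Descent

variable (K : Type*) [Field K] [Algebra ℚ K] [Algebra K Qb] {I : Subgroup GQ}
  (hK : ∀ a : Qb, (∀ σ ∈ I, σ a = a) → ∃ c : K, algebraMap K Qb c = a)

include hK in
/-- Invariant functions come from `K`. -/
theorem exists_baseIncl_eq {N : ℕ} (u : FX Qb N)
    (hu : ∀ σ ∈ I, arithmeticGalois (modularFunctionFieldFull N) σ • u = u) :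
    ∃ f : FX K N, H90.baseIncl K Qb _ f = u := by
  have h1 : ∀ n : ℤ, ∃ c : K, algebraMap K Qb c = (u : LaurentSeries Qb).coeff n := by
    intro n
    apply hK
    intro σ hσ
    have h2 := congrArg (fun z : FX Qb N => (z : LaurentSeries Qb).coeff n) (hu σ hσ)
    simp only [coe_arithmeticGalois_smul, coeffMap_coeff] at h2
    exact h2
  choose c hc using h1
  have h3 : ∃ y : LaurentSeries K, coeffMap (algebraMap K Qb) y = (u : LaurentSeries Qb) := by
    refine ⟨⟨c, ?_⟩, ?_⟩
    · refine (u : LaurentSeries Qb).isPWO_support.mono ?_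
      intro n hn hn'
      apply hn
      apply (algebraMap K Qb).injective
      rw [hc, map_zero]
      exact hn'
    · ext n
      rw [coeffMap_coeff]
      exact hc n
  obtain ⟨y, hy⟩ := h3
  have h4 : y ∈ FX K N := by
    refine H90.exists_of_coeff_mem (L1 := Qb) _ ?_
    rw [hy]
    exact u.2
  exact ⟨⟨y, h4⟩, Subtype.ext hy⟩

variable {m q : ℕ} [NeZero m] [NeZero q] [NeZero (m * q)] [NeZero (m * q * q)]

include hK in
theorem coreQ_of_coreK [Algebra.IsIntegral K Qb] {d C : ℕ} (hd : d ≠ 0)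
    (hβ : ∀ f : FX K (m * q * q), normAlong (heckeBetaBar Qb (m * q) q) (H90.baseIncl K Qb _ f) =
      H90.baseIncl K Qb _ (normAlong (heckeBetaBar K (m * q) q) f))
    (hcore : CoreK K m q d C) : CoreQ m q d C I := by
  intro u hu0 hI hord hα hβ'
  obtain ⟨f, rfl⟩ := exists_baseIncl_eq K hK u hI
  have hf0 : f ≠ 0 := by
    rintro rfl
    exact hu0 (map_zero _)
  have hP : ∀ P : Place K (FX K (m * q * q)), (d : ℤ) ∣ P.ord f := fun P =>
    dvd_ord_of_baseIncl (L1 := Qb) _ hord P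
  have key : ∀ (z : FX K (m * q)), H90.baseIncl K Qb (modularFunctionFieldFull (m * q)) z ≠ 0 →
      IsPowInv (m * q) I d (H90.baseIncl K Qb _ z) →
      ∃ (c : K) (g : FX K (m * q)), c ≠ 0 ∧ g ≠ 0 ∧ z = algebraMap K _ c * g ^ d := by
    rintro z hz ⟨g, a, hg, ha, h⟩
    obtain ⟨g', rfl⟩ := exists_baseIncl_eq K hK g hg
    obtain ⟨a', rfl⟩ := hK a ha
    have h2 : z = algebraMap K _ a' * g' ^ d := by
      apply (H90.baseIncl K Qb (modularFunctionFieldFull (m * q))).injective
      rw [h, map_mul, map_pow, H99.baseIncl_algebraMap]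
    refine ⟨a', g', ?_, ?_, h2⟩
    · rintro rfl
      rw [map_zero, zero_mul] at h2
      rw [h2, map_zero] at hz
      exact hz rfl
    · rintro rfl
      rw [zero_pow hd, mul_zero] at h2
      rw [h2, map_zero] at hz
      exact hz rfl
  rw [← alpha_eq_dg] at hα
  rw [← beta_eq_dg] at hβ'
  have hn1 := normAlong_ne_zero' (heckeAlphaBar Qb (m * q) q) hu0
  have hn2 := normAlong_ne_zero' (heckeBetaBar Qb (m * q) q) hu0
  rw [baseIncl_normAlong] at hα hn1
  rw [hβ] at hβ' hn2
  obtain ⟨c, g, hc, hg, h1⟩ := key _ hn1 hα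
  obtain ⟨c', g', hc', hg', h2⟩ := key _ hn2 hβ'
  obtain ⟨c₁, g₁, -, -, h3⟩ := hcore f hf0 hP c c' g g' hc hc' hg hg' h1 h2
  refine ⟨H90.baseIncl K Qb _ g₁, algebraMap K Qb c₁, ?_⟩
  rw [← map_pow, h3, map_mul, map_pow, H99.baseIncl_algebraMap]

end Descent

end Fermat.Agent.H92
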