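import Fermat.Agent.H67Norm
import Fermat.Agent.H3RR_FF

/-!
# Places of constant field extensions are unramified (characteristic zero)

`F/K`, `F' = F K'`, `K'/K` algebraic: every place `P` of `F/K` lies below a place `v` of `F'/K'`,
and `v.ord f = P.ord f` for `f` in `F`.
-/

set_option autoImplicit false
set_option linter.unusedSectionVars false

noncomputable section

open AlgebraicCurve Polynomial IsLocalRing Fermat.Agent.H67

namespace Fermat.Agent.H92

section OrdAbs

variable {K K' F F' : Type*} [Field K] [Field K'] [Field F] [Field F'] [Algebra K K'] [Algebra K F]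
  [Algebra K' F'] [Algebra F F'] [Algebra K F'] [IsScalarTower K K' F'] [IsScalarTower K F F']

/-- `v` lies above `P` -/
def Above (P : Place K F) (v : Place K' F') : Prop :=
  ∀ x : F, x ∈ P.toValuationSubring ↔ algebraMap F F' x ∈ v.toValuationSubring

variable {P : Place K F} {v : Place K' F'}

namespace Above

/-- the inclusion of valuation rings -/
def incl (h : Above P v) : P.toValuationSubring →+* v.toValuationSubring where
  toFun x := ⟨algebraMap F F' x, (h x).1 x.2⟩
  map_one' := Subtype.ext (map_one _)
  map_mul' _ _ := Subtype.ext (map_mul _ _ _)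
  map_zero' := Subtype.ext (map_zero _)
  map_add' _ _ := Subtype.ext (map_add _ _ _)

@[simp] theorem coe_incl (h : Above P v) (x : P.toValuationSubring) :
    ((h.incl x : v.toValuationSubring) : F') = algebraMap F F' x := rfl

theorem ord_pos (h : Above P v) {π : F} (hπ : P.ord π = 1) :
    0 < v.ord (algebraMap F F' π) := by
  have hπ0 : π ≠ 0 := by
    rintro rfl
    simp at hπ
  have h1 : algebraMap F F' π⁻¹ ∉ v.toValuationSubring := by
    rw [← h]
    intro h2
    have h3 := ord_nonneg_of_mem P h2
    rw [P.ord_inv, hπ] at h3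
    omega
  by_contra hle
  push Not at hle
  apply h1
  apply mem_of_ord_nonneg
  · simpa using hπ0
  · rw [map_inv₀, v.ord_inv]
    omega

theorem ord_eq_zero (h : Above P v) {f : F} (hf : P.ord f = 0) :
    v.ord (algebraMap F F' f) = 0 := by
  rcases eq_or_ne f 0 with rfl | hf0
  · simp
  have h1 := (h f).1 (mem_of_ord_nonneg P hf0 hf.ge)
  have h2 := (h f⁻¹).1 (mem_of_ord_nonneg P (inv_ne_zero hf0) (by rw [P.ord_inv, hf, neg_zero]))
  have h3 := ord_nonneg_of_mem v h1
  have h4 := ord_nonneg_of_mem v h2
  rw [map_inv₀, v.ord_inv] at h4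
  omega

theorem ord_algebraMap (h : Above P v) {π : F} (hπ : P.ord π = 1) (f : F) :
    v.ord (algebraMap F F' f) = P.ord f * v.ord (algebraMap F F' π) := by
  rcases eq_or_ne f 0 with rfl | hf0
  · simp
  have hπ0 : π ≠ 0 := by
    rintro rfl
    simp at hπ
  have h1 : P.ord (f * π ^ (-P.ord f)) = 0 := by
    rw [P.ord_mul hf0 (zpow_ne_zero _ hπ0), P.ord_zpow, hπ]
    ring
  have h2 := h.ord_eq_zero h1
  rw [map_mul, map_zpow₀, v.ord_mul (by simpa using hf0) (zpow_ne_zero _ (by simpa using hπ0)),
    v.ord_zpow] at h2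
  linarith

theorem isUnit_of_incl (h : Above P v) {x : P.toValuationSubring} (hx : IsUnit (h.incl x)) :
    IsUnit x := by
  obtain ⟨y, hy⟩ := hx.exists_right_inv
  have hx0 : (x : F) ≠ 0 := by
    intro h0
    have h1 : x = 0 := Subtype.ext h0
    rw [h1, map_zero] at hx
    exact not_isUnit_zero hx
  have h1 : algebraMap F F' (x : F) * (y : F') = 1 := congrArg Subtype.val hy
  have h2 : algebraMap F F' ((x : F)⁻¹) = y := by
    rw [map_inv₀]
    exact (eq_inv_of_mul_eq_one_right h1).symm
  have h3 : (x : F)⁻¹ ∈ P.toValuationSubring := by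
    rw [h, h2]
    exact y.2
  exact IsUnit.of_mul_eq_one ⟨_, h3⟩ (Subtype.ext (mul_inv_cancel₀ hx0))

instance (h : Above P v) : IsLocalHom h.incl := ⟨fun _ hx => h.isUnit_of_incl hx⟩

/-- evaluation of polynomials with coefficients in the valuation ring -/
def ev (h : Above P v) (α : K') : P.toValuationSubring[X] →+* v.toValuationSubring :=
  eval₂RingHom h.incl (algebraMap K' v.toValuationSubring α)

theorem ev_minpoly (h : Above P v) (α : K') (g : K[X]) (hg : aeval α g = 0) :
    h.ev α (g.map (algebraMap K P.toValuationSubring)) = 0 := by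
  have h1 : h.incl.comp (algebraMap K P.toValuationSubring) =
      (algebraMap K' v.toValuationSubring).comp (algebraMap K K') := by
    refine RingHom.ext fun c => Subtype.ext ?_
    show algebraMap F F' (algebraMap K F c) = algebraMap K' F' (algebraMap K K' c)
    rw [← IsScalarTower.algebraMap_apply, ← IsScalarTower.algebraMap_apply]
  show eval₂ h.incl _ (g.map _) = 0
  rw [eval₂_map, h1, ← hom_eval₂, ← aeval_def, hg, map_zero]

theorem residue_ev (h : Above P v) (α : K') (X : P.toValuationSubring[X]) :
    residue v.toValuationSubring (h.ev α X) =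
      eval₂ (ResidueField.map h.incl) (residue v.toValuationSubring
        (algebraMap K' v.toValuationSubring α)) (X.map (residue P.toValuationSubring)) := by
  show residue _ (eval₂ h.incl _ X) = _
  rw [hom_eval₂, eval₂_map]
  rfl

/-- Key lemma: a unit `y` such that `y * b` is divisible by the uniformizer of `P` for every
nonunit `b` in `O_P[α]`. -/
theorem exists_unit (h : Above P v) [CharZero K] {α : K'} (hα : IsIntegral K α)
    {ϖ : P.toValuationSubring} (hϖ : Irreducible ϖ) :
    ∃ y : v.toValuationSubring, IsUnit y ∧ ∀ X : P.toValuationSubring[X],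
      ¬ IsUnit (h.ev α X) → ∃ R : P.toValuationSubring[X],
        h.ev α X * y = h.incl ϖ * h.ev α R := by
  set a := residue v.toValuationSubring (algebraMap K' v.toValuationSubring α) with ha
  set τ := ResidueField.map h.incl with hτ
  let E : (ResidueField P.toValuationSubring)[X] →+* ResidueField v.toValuationSubring := eval₂RingHom τ a
  have hE : ∀ X : P.toValuationSubring[X], residue v.toValuationSubring (h.ev α X) = E (X.map (residue P.toValuationSubring)) :=
    fun X => h.residue_ev α X
  obtain ⟨g₁, hg₁⟩ := (IsPrincipalIdealRing.principal (RingHom.ker E)).principal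
  have hker : ∀ X : (ResidueField P.toValuationSubring)[X], E X = 0 ↔ g₁ ∣ X := by
    intro X
    rw [← RingHom.mem_ker, hg₁]
    exact Ideal.mem_span_singleton
  set g := minpoly K α with hg
  set g' : P.toValuationSubring[X] := g.map (algebraMap K P.toValuationSubring) with hg'
  have hev0 : h.ev α g' = 0 := h.ev_minpoly α g (minpoly.aeval K α)
  have hsep : (g'.map (residue P.toValuationSubring)).Separable := by
    rw [hg', Polynomial.map_map]
    exact ((minpoly.irreducible hα).separable).map
  have hdvd : g₁ ∣ g'.map (residue P.toValuationSubring) := by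
    rw [← hker, ← hE, hev0, map_zero]
  obtain ⟨g₂, hg₂⟩ := hdvd
  have hg2ne : E g₂ ≠ 0 := by
    intro h0
    obtain ⟨c, hc⟩ := (hker g₂).1 h0
    have h1 : g₁ * g₁ ∣ g'.map (residue P.toValuationSubring) := ⟨c, by rw [hg₂, hc]; ring⟩
    have h2 := hsep.squarefree g₁ h1
    have h3 : g₁ ∣ 1 := isUnit_iff_dvd_one.1 h2
    rw [← hker, map_one] at h3
    exact one_ne_zero h3
  obtain ⟨G₂, hG₂⟩ := Polynomial.map_surjective (residue P.toValuationSubring) residue_surjective g₂
  refine ⟨h.ev α G₂, ?_, ?_⟩
  · by_contra hn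
    apply hg2ne
    rw [← hG₂, ← hE, residue_eq_zero_iff]
    exact hn
  · intro X hX
    have h1 : E (X.map (residue P.toValuationSubring)) = 0 := by
      rw [← hE, residue_eq_zero_iff]
      exact hX
    obtain ⟨c, hc⟩ := (hker _).1 h1
    obtain ⟨C', hC'⟩ := Polynomial.map_surjective (residue P.toValuationSubring) residue_surjective c
    have h2 : (X * G₂ - g' * C').map (residue P.toValuationSubring) = 0 := by
      rw [Polynomial.map_sub, Polynomial.map_mul, Polynomial.map_mul, hc, hG₂, hC', hg₂]
      ring
    have h3 : C ϖ ∣ X * G₂ - g' * C' := by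
      rw [C_dvd_iff_dvd_coeff]
      intro i
      have h4 := congrArg (fun p => coeff p i) h2
      simp only [coeff_map, coeff_zero] at h4
      rw [residue_eq_zero_iff,
        (IsDiscreteValuationRing.irreducible_iff_uniformizer ϖ).1 hϖ, Ideal.mem_span_singleton]
        at h4
      exact h4
    obtain ⟨R, hR⟩ := h3
    refine ⟨R, ?_⟩
    have h5 := congrArg (h.ev α) hR
    rw [map_sub, map_mul, map_mul, map_mul, hev0, zero_mul, sub_zero] at h5
    rw [h5]
    congr 1
    show eval₂ h.incl _ (C ϖ) = _
    rw [eval₂_C]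

theorem dvd_ord_ev (h : Above P v) [CharZero K] {α : K'} (hα : IsIntegral K α)
    {ϖ : P.toValuationSubring} (hϖ : Irreducible ϖ) (X : P.toValuationSubring[X])
    (hX : h.ev α X ≠ 0) :
    v.ord (algebraMap F F' ϖ) ∣ v.ord (h.ev α X : F') := by
  obtain ⟨y, hy, hyX⟩ := h.exists_unit hα hϖ
  have he := h.ord_pos (P.ord_coe_irreducible hϖ)
  generalize hn : (v.ord (h.ev α X : F')).toNat = n
  induction n using Nat.strong_induction_on generalizing X with
  | _ n ih =>
    by_cases hu : IsUnit (h.ev α X)
    · have h1 := v.ord_coe_unit hu.unit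
      rw [IsUnit.unit_spec] at h1
      rw [h1]
      exact dvd_zero _
    · obtain ⟨R, hR⟩ := hyX X hu
      have hX' : (h.ev α X : F') ≠ 0 := fun h0 => hX (Subtype.ext h0)
      have hy0 : (y : F') ≠ 0 := by
        intro h0
        have : y = 0 := Subtype.ext h0
        rw [this] at hy
        exact not_isUnit_zero hy
      have hyord : v.ord (y : F') = 0 := by
        have h1 := v.ord_coe_unit hy.unit
        rwa [IsUnit.unit_spec] at h1
      have hR0 : h.ev α R ≠ 0 := by
        intro h0
        rw [h0, mul_zero] at hR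
        rcases mul_eq_zero.1 hR with h1 | h1
        · exact hX h1
        · exact hy0 (by rw [h1]; rfl)
      have hR0' : (h.ev α R : F') ≠ 0 := fun h0 => hR0 (Subtype.ext h0)
      have hϖ0 : algebraMap F F' (ϖ : F) ≠ 0 := by
        intro h0
        rw [h0, v.ord_zero] at he
        exact lt_irrefl _ he
      have h1 := congrArg (fun z : v.toValuationSubring => v.ord (z : F')) hR
      have h2 : v.ord ((h.ev α X : F') * (y : F')) =
        v.ord (algebraMap F F' (ϖ : F) * (h.ev α R : F')) := h1
      rw [v.ord_mul hX' hy0, v.ord_mul hϖ0 hR0', hyord, add_zero] at h2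
      have h3 : 0 ≤ v.ord (h.ev α R : F') := ord_nonneg_of_mem v (h.ev α R).2
      have h4 := ih (v.ord (h.ev α R : F')).toNat (by omega) R hR0 rfl
      rw [h2]
      exact (dvd_refl _).add h4

theorem dvd_ord_aeval (h : Above P v) [CharZero K] {α : K'} (hα : IsIntegral K α)
    {π : F} (hπ : P.ord π = 1) (Z : F[X]) :
    v.ord (algebraMap F F' π) ∣ v.ord (aeval (algebraMap K' F' α) Z) := by
  obtain ⟨ϖ, hϖ⟩ := IsDiscreteValuationRing.exists_irreducible P.toValuationSubring
  have hπϖ : v.ord (algebraMap F F' π) = v.ord (algebraMap F F' (ϖ : F)) := by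
    rw [h.ord_algebraMap (P.ord_coe_irreducible hϖ) π, hπ, one_mul]
  rw [hπϖ]
  rcases eq_or_ne (aeval (algebraMap K' F' α) Z) 0 with h0 | h0
  · rw [h0, v.ord_zero]
    exact dvd_zero _
  obtain ⟨b', hb', hb⟩ := IsLocalization.integerNormalization_spec
    (nonZeroDivisors P.toValuationSubring) Z
  let b : nonZeroDivisors P.toValuationSubring := ⟨b', hb'⟩
  change map (algebraMap P.toValuationSubring F) _ = (b : P.toValuationSubring) • Z at hb
  set X := IsLocalization.integerNormalization (nonZeroDivisors P.toValuationSubring) Z with hX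
  have hb0 : ((b : P.toValuationSubring) : F) ≠ 0 := by
    intro h1
    exact nonZeroDivisors.coe_ne_zero b (Subtype.ext h1)
  have h1 : (h.ev α X : F') = algebraMap F F' (b : P.toValuationSubring) *
      aeval (algebraMap K' F' α) Z := by
    have h2 : (h.ev α X : F') = aeval (algebraMap K' F' α) (X.map (algebraMap _ F)) := by
      rw [aeval_def, eval₂_map]
      show v.toValuationSubring.subtype (eval₂ h.incl _ X) = _
      rw [hom_eval₂]
      rfl
    rw [h2, hb]
    have h3 : ((b : P.toValuationSubring) • Z : F[X]) = C ((b : P.toValuationSubring) : F) * Z := by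
      rw [← smul_eq_C_mul]
      rfl
    rw [h3, map_mul, aeval_C]
  have h2 : h.ev α X ≠ 0 := by
    intro h3
    rw [h3] at h1
    exact mul_ne_zero (by simp [hb0]) h0 h1.symm
  have h3 := h.dvd_ord_ev hα hϖ X h2
  have h4 := h.ord_algebraMap (P.ord_coe_irreducible hϖ) ((b : P.toValuationSubring) : F)
  rw [h1, v.ord_mul (by simp [hb0]) h0, h4] at h3
  exact (dvd_add_right (dvd_mul_left _ _)).1 h3

/-- Constant field extensions are unramified. -/
theorem ord_eq (h : Above P v) [CharZero K] [Algebra.IsIntegral K K']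
    (hgen : ∀ z : F', ∃ (α : K') (Z : F[X]), z = aeval (algebraMap K' F' α) Z) (f : F) :
    v.ord (algebraMap F F' f) = P.ord f := by
  obtain ⟨π, -, hπ⟩ := exists_ord_eq_one P
  obtain ⟨z, -, hz⟩ := exists_ord_eq_one v
  obtain ⟨α, Z, rfl⟩ := hgen z
  have h1 := h.dvd_ord_aeval (Algebra.IsIntegral.isIntegral α) hπ Z
  rw [hz] at h1
  have h2 := h.ord_pos hπ
  have h3 : v.ord (algebraMap F F' π) = 1 := by
    have := Int.le_of_dvd one_pos h1
    omega
  rw [h.ord_algebraMap hπ, h3, mul_one]

end Above

/-- Existence of a place above. -/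
theorem exists_above [H3RR.IsFF K' F'] [Algebra.IsIntegral K K'] (P : Place K F) :
    ∃ v : Place K' F', Above P v := by
  let f : P.toValuationSubring →+* F' := (algebraMap F F').comp P.toValuationSubring.subtype
  obtain ⟨B, hB1, hB2⟩ := (LocalSubring.range f).exists_le_valuationSubring
  have hO : ∀ x : F, x ∈ P.toValuationSubring → algebraMap F F' x ∈ B := by
    intro x hx
    exact hB1 ⟨⟨x, hx⟩, rfl⟩
  have hO' : ∀ x : F, x ∈ P.toValuationSubring ↔ algebraMap F F' x ∈ B := by
    intro x
    refine ⟨hO x, fun hx => ?_⟩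
    by_contra hxP
    have hx0 : x ≠ 0 := by
      rintro rfl
      exact hxP (zero_mem _)
    have hxi : x⁻¹ ∈ P.toValuationSubring := (P.toValuationSubring.mem_or_inv_mem x).resolve_left hxP
    have h1 : ¬ IsUnit (⟨x⁻¹, hxi⟩ : P.toValuationSubring) := by
      intro hu
      obtain ⟨y, hy⟩ := hu.exists_right_inv
      apply hxP
      have h2 : x⁻¹ * (y : F) = 1 := congrArg Subtype.val hy
      have h3 : x = y := by
        field_simp at h2
        exact h2.symm
      rw [h3]
      exact y.2
    apply h1
    have h2 : IsUnit (f.rangeRestrict ⟨x⁻¹, hxi⟩) := by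
      refine hB2.1 _ ?_
      refine IsUnit.of_mul_eq_one (⟨algebraMap F F' x, hx⟩ : B.toLocalSubring.toSubring)
        (Subtype.ext ?_)
      show algebraMap F F' x⁻¹ * algebraMap F F' x = 1
      rw [← map_mul, inv_mul_cancel₀ hx0, map_one]
    obtain ⟨y, hy⟩ := h2.exists_right_inv
    obtain ⟨z, hz⟩ := y.2
    refine IsUnit.of_mul_eq_one z (Subtype.ext ?_)
    apply (algebraMap F F').injective
    have h3 := congrArg Subtype.val hy
    have h4 : algebraMap F F' x⁻¹ * (y : F') = 1 := h3
    rw [← hz] at h4
    show algebraMap F F' (x⁻¹ * z) = algebraMap F F' 1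
    rw [map_mul, map_one]
    exact h4
  have hK : ∀ a : K', algebraMap K' F' a ∈ B := by
    intro a
    have ha : IsIntegral K a := Algebra.IsIntegral.isIntegral a
    have h1 : IsIntegral K (algebraMap K' F' a) := ha.map (IsScalarTower.toAlgHom K K' F')
    have hKB : ∀ c : K, algebraMap K F' c ∈ B := by
      intro c
      rw [IsScalarTower.algebraMap_apply K F F', ← hO']
      exact P.algebraMap_mem' c
    let φ : K →+* B := (algebraMap K F').codRestrict B.toSubring hKB
    have h2 : IsIntegral B (algebraMap K' F' a) := by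
      obtain ⟨p, hp, hpa⟩ := h1
      refine ⟨p.map φ, hp.map _, ?_⟩
      rw [eval₂_map]
      exact hpa
    obtain ⟨y, hy⟩ := IsIntegrallyClosed.isIntegral_iff.mp h2
    exact hy ▸ y.2
  have htop : B ≠ ⊤ := by
    intro h
    obtain ⟨π, hπ0, hπ⟩ := exists_ord_eq_one P
    have h1 : π⁻¹ ∈ P.toValuationSubring := by
      rw [hO', h]
      trivial
    have h2 := ord_nonneg_of_mem P h1
    rw [P.ord_inv, hπ] at h2
    omega
  exact ⟨H3RR.placeOf B hK htop, hO'⟩

end OrdAbs

end Fermat.Agent.H92
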