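import Mathlib
import Fermat.Agent.H92LevNat

set_option autoImplicit false
set_option maxHeartbeats 400000
set_option synthInstance.maxHeartbeats 400000

/-!
# Bridges between the level cohomology `LH1`, `LH2` and the Prelude

* `continuousH1S S M ≃ₗ LH1 (ramFam S) M.ρ`, `continuousH2S S M ≃ₗ LH2 (ramFam S) M.ρ`
* `continuousH1 r M ≃ₗ LH1 (krullFam.comap r) M.ρ`, `continuousH2 r M ≃ₗ LH2 (krullFam.comap r) M.ρ`
* `sha₁`, `sha₂`.
-/

namespace Fermat.Agent.H92

open Fermat.Agent.H91 Function CategoryTheory groupCohomology ExtCitation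

universe u

section General

variable {k G : Type u} [CommRing k] [Group G] (𝓥 : LevelFam G) (M : Rep k G)

lemma mem_cocycles₁_iff_d1 (f : G → M) : f ∈ cocycles₁ M ↔ d1 M.ρ f = 0 := by
  rw [mem_cocycles₁_iff]
  constructor
  · intro h
    funext ⟨x, y⟩
    rw [d1_apply, h x y]
    simp
  · intro h x y
    have := congrFun h (x, y)
    rw [d1_apply, Pi.zero_apply, sub_add_eq_add_sub] at this
    exact (sub_eq_zero.1 this).symm

lemma mem_cocycles₂_iff_d2 (f : G × G → M) : f ∈ cocycles₂ M ↔ d2 M.ρ f = 0 := by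
  rw [mem_cocycles₂_iff]
  constructor
  · intro h
    funext ⟨x, y, z⟩
    have := h x y z
    rw [← sub_eq_zero] at this
    rw [d2_apply, Pi.zero_apply]
    rw [← neg_eq_zero, ← this]
    abel
  · intro h x y z
    have := congrFun h (x, y, z)
    rw [d2_apply, Pi.zero_apply] at this
    rw [← sub_eq_zero, ← neg_eq_zero, ← this]
    abel

lemma d₁₂_eq (f : G → M) : (d₁₂ M).hom f = d1 M.ρ f := by
  funext ⟨x, y⟩
  rfl

lemma coe_mem_coboundaries₁_iff (f : G → M) : f ∈ coboundaries₁ M ↔ f ∈ B1 M.ρ := by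
  constructor
  · rintro ⟨x, rfl⟩
    exact ⟨x, rfl⟩
  · rintro ⟨x, rfl⟩
    exact ⟨x, rfl⟩

/-- inclusion of level-constant cocycles in cocycles -/
def Z1ToCocycles₁ : ↥(Z1 𝓥 M.ρ) →ₗ[k] ↥(cocycles₁ M) where
  toFun c := ⟨(c : G → M), (mem_cocycles₁_iff_d1 M _).2 (mem_Z1_iff.1 c.2).1⟩
  map_add' _ _ := rfl
  map_smul' _ _ := rfl

/-- inclusion of level-constant cocycles in cocycles -/
def Z2ToCocycles₂ : ↥(Z2 𝓥 M.ρ) →ₗ[k] ↥(cocycles₂ M) where
  toFun c := ⟨(c : G × G → M), (mem_cocycles₂_iff_d2 M _).2 (mem_Z2_iff.1 c.2).1⟩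
  map_add' _ _ := rfl
  map_smul' _ _ := rfl

/-- The canonical map from level cohomology to cohomology -/
noncomputable def LH1ToH1 : LH1 𝓥 M.ρ →ₗ[k] H1 M :=
  factor (mk1 𝓥 M.ρ) (mk1_surjective 𝓥 M.ρ) ((H1π M).hom ∘ₗ Z1ToCocycles₁ 𝓥 M) (fun c hc => by
    rw [LinearMap.comp_apply]
    refine (H1π_eq_zero_iff _).2 ?_
    exact (coe_mem_coboundaries₁_iff M _).2 (mk1_eq_zero_iff.1 hc))

lemma LH1ToH1_mk (c : ↥(Z1 𝓥 M.ρ)) :
    LH1ToH1 𝓥 M (mk1 𝓥 M.ρ c) = (H1π M).hom (Z1ToCocycles₁ 𝓥 M c) :=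
  factor_apply _ _ _ _ _

lemma LH1ToH1_injective : Injective (LH1ToH1 𝓥 M) := by
  rw [injective_iff_map_eq_zero]
  intro x hx
  obtain ⟨c, rfl⟩ := mk1_surjective _ _ x
  rw [LH1ToH1_mk] at hx
  exact mk1_eq_zero_iff.2 ((coe_mem_coboundaries₁_iff M _).1 ((H1π_eq_zero_iff _).1 hx))

lemma mem_range_LH1ToH1 (x : H1 M) : x ∈ LinearMap.range (LH1ToH1 𝓥 M) ↔
    ∃ c : cocycles₁ M, 𝓥.IsConst₁ (c : G → M) ∧ (H1π M).hom c = x := by
  constructor
  · rintro ⟨y, rfl⟩
    obtain ⟨c, rfl⟩ := mk1_surjective _ _ y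
    exact ⟨Z1ToCocycles₁ 𝓥 M c, c.2.2, (LH1ToH1_mk 𝓥 M c).symm⟩
  · rintro ⟨c, hc, rfl⟩
    refine ⟨mk1 𝓥 M.ρ ⟨c, mem_Z1_iff.2 ⟨(mem_cocycles₁_iff_d1 M _).1 c.2, hc⟩⟩, ?_⟩
    rw [LH1ToH1_mk]
    rfl

/-- compatibility with restriction maps -/
lemma LH1ToH1_res {H : Type u} [Group H] (𝓦 : LevelFam H) (r : H →* G)
    (h : ∀ V ∈ 𝓥.carrier, ∃ W ∈ 𝓦.carrier, ∀ s ∈ W, r s ∈ V) (x : LH1 𝓥 M.ρ) :
    (groupCohomology.map r (𝟙 (Rep.res r M)) 1).hom (LH1ToH1 𝓥 M x) =
      LH1ToH1 𝓦 (Rep.res r M) ((PairHom.res 𝓥 M.ρ 𝓦 r h).H1 x) := by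
  obtain ⟨c, rfl⟩ := mk1_surjective _ _ x
  rw [PairHom.H1_mk, LH1ToH1_mk]
  refine Eq.trans ?_ (LH1ToH1_mk 𝓦 (Rep.res r M) _).symm
  exact H1π_comp_map_apply (A := M) (B := Rep.res r M) r (𝟙 (Rep.res r M)) _

end General

section S

variable (S : Finset Nat.Primes) {k : Type} [CommRing k] (M : Rep k GQ)

lemma range_LH1ToH1_ramFam : LinearMap.range (LH1ToH1 (ramFam S) M) = continuousH1S S M := by
  ext x
  rw [mem_range_LH1ToH1, mem_continuousH1S_iff]
  refine exists_congr fun c => and_congr_left fun _ => ?_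
  exact (isLevelConstantS₁_iff S _).symm

/-- `continuousH1S` is level cohomology -/
noncomputable def equivH1S : LH1 (ramFam S) M.ρ ≃ₗ[k] continuousH1S S M :=
  (LinearEquiv.ofInjective _ (LH1ToH1_injective (ramFam S) M)).trans
    (LinearEquiv.ofEq _ _ (range_LH1ToH1_ramFam S M))

@[simp] lemma equivH1S_coe (x : LH1 (ramFam S) M.ρ) :
    (equivH1S S M x : H1 M) = LH1ToH1 (ramFam S) M x := rfl

lemma levelCocyclesS₂_eq : levelCocyclesS₂ S M = Z2 (ramFam S) M.ρ := by
  ext f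
  rw [mem_levelCocyclesS₂_iff, mem_Z2_iff, mem_cocycles₂_iff_d2, isLevelConstantS₂_iff]

lemma levelCoboundariesS₂_eq : levelCoboundariesS₂ S M = B2 (ramFam S) M.ρ := by
  ext f
  rw [mem_levelCoboundariesS₂_iff, mem_B2_iff]
  exact exists_congr fun x => and_congr (isLevelConstantS₁_iff S x) Iff.rfl

/-- `continuousH2S` is level cohomology -/
noncomputable def equivH2S : continuousH2S S M ≃ₗ[k] LH2 (ramFam S) M.ρ :=
  Submodule.Quotient.equiv _ _ (LinearEquiv.ofEq _ _ (levelCocyclesS₂_eq S M)) (by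
    ext x
    constructor
    · rintro ⟨y, hy, rfl⟩
      exact (levelCoboundariesS₂_eq S M) ▸ hy
    · intro hx
      refine ⟨(LinearEquiv.ofEq _ _ (levelCocyclesS₂_eq S M)).symm x, ?_, rfl⟩
      have : (x : GQ × GQ → M) ∈ levelCoboundariesS₂ S M := by
        rw [levelCoboundariesS₂_eq S M]; exact hx
      exact this)

lemma equivH2S_mk (c : ↥(levelCocyclesS₂ S M)) :
    equivH2S S M (continuousH2Sπ S M c) =
      mk2 (ramFam S) M.ρ ⟨c, (levelCocyclesS₂_eq S M).le c.2⟩ := rfl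

end S

section krull

variable {k G : Type u} [CommRing k] [Group G] (r : G →* GQ) (M : Rep k G)

lemma range_LH1ToH1_krullFam : LinearMap.range (LH1ToH1 (krullFam.comap r) M) =
    continuousH1 r M := by
  ext x
  rw [mem_range_LH1ToH1, mem_continuousH1_iff]
  refine exists_congr fun c => and_congr_left fun _ => ?_
  exact (isLevelConstant₁_iff r _).symm

/-- `continuousH1` is level cohomology -/
noncomputable def equivH1 : LH1 (krullFam.comap r) M.ρ ≃ₗ[k] continuousH1 r M :=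
  (LinearEquiv.ofInjective _ (LH1ToH1_injective (krullFam.comap r) M)).trans
    (LinearEquiv.ofEq _ _ (range_LH1ToH1_krullFam r M))

@[simp] lemma equivH1_coe (x : LH1 (krullFam.comap r) M.ρ) :
    (equivH1 r M x : H1 M) = LH1ToH1 (krullFam.comap r) M x := rfl

lemma levelCocycles₂_eq : levelCocycles₂ r M = Z2 (krullFam.comap r) M.ρ := by
  ext f
  rw [mem_levelCocycles₂_iff, mem_Z2_iff, mem_cocycles₂_iff_d2, isLevelConstant₂_iff]

lemma levelCoboundaries₂_eq : levelCoboundaries₂ r M = B2 (krullFam.comap r) M.ρ := by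
  ext f
  rw [mem_levelCoboundaries₂_iff, mem_B2_iff]
  exact exists_congr fun x => and_congr (isLevelConstant₁_iff r x) Iff.rfl

/-- `continuousH2` is level cohomology -/
noncomputable def equivH2 : continuousH2 r M ≃ₗ[k] LH2 (krullFam.comap r) M.ρ :=
  Submodule.Quotient.equiv _ _ (LinearEquiv.ofEq _ _ (levelCocycles₂_eq r M)) (by
    ext x
    constructor
    · rintro ⟨y, hy, rfl⟩
      exact (levelCoboundaries₂_eq r M) ▸ hy
    · intro hx
      refine ⟨(LinearEquiv.ofEq _ _ (levelCocycles₂_eq r M)).symm x, ?_, rfl⟩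
      have : (x : G × G → M) ∈ levelCoboundaries₂ r M := by
        rw [levelCoboundaries₂_eq r M]; exact hx
      exact this)

lemma equivH2_mk (c : ↥(levelCocycles₂ r M)) :
    equivH2 r M (continuousH2π r M c) =
      mk2 (krullFam.comap r) M.ρ ⟨c, (levelCocycles₂_eq r M).le c.2⟩ := rfl

end krull

/-! ### Localisation maps and Tate–Shafarevich groups -/

section Sha

variable (S : Finset Nat.Primes)

lemma ramFam_level {H : Type*} [Group H] (r : H →* GQ) :
    ∀ V ∈ (ramFam S).carrier, ∃ W ∈ (krullFam.comap r).carrier, ∀ s ∈ W, r s ∈ V := by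
  rintro _ ⟨F, hF, rfl⟩
  exact ⟨_, ⟨_, ⟨F, hF.1, rfl⟩, rfl⟩, fun s hs => hs⟩

/-- restriction from `G_S` to a local group -/
noncomputable abbrev locP {k : Type*} [CommRing k] {A : Type*} [AddCommGroup A] [Module k A]
    {H : Type*} [Group H] (r : H →* GQ) (ρ : Representation k GQ A) :
    PairHom (ramFam S) ρ (krullFam.comap r) (ρ.comp r) :=
  PairHom.res (ramFam S) ρ (krullFam.comap r) r (ramFam_level S r)

/-- `Sha¹` in terms of level cohomology -/
noncomputable def absSha1 {k : Type*} [CommRing k] {A : Type*} [AddCommGroup A] [Module k A]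
    (ρ : Representation k GQ A) : Submodule k (LH1 (ramFam S) ρ) :=
  LinearMap.ker (LinearMap.pi (fun v : extArithIndex S => (locP S (extArithLoc S v) ρ).H1))

/-- `Sha²` in terms of level cohomology -/
noncomputable def absSha2 {k : Type*} [CommRing k] {A : Type*} [AddCommGroup A] [Module k A]
    (ρ : Representation k GQ A) : Submodule k (LH2 (ramFam S) ρ) :=
  LinearMap.ker (LinearMap.pi (fun v : extArithIndex S => (locP S (extArithLoc S v) ρ).H2))

lemma mem_absSha1_iff {k : Type*} [CommRing k] {A : Type*} [AddCommGroup A] [Module k A]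
    {ρ : Representation k GQ A} {x : LH1 (ramFam S) ρ} :
    x ∈ absSha1 S ρ ↔ ∀ v : extArithIndex S, (locP S (extArithLoc S v) ρ).H1 x = 0 := by
  rw [absSha1, LinearMap.mem_ker, funext_iff]
  rfl

lemma mem_absSha2_iff {k : Type*} [CommRing k] {A : Type*} [AddCommGroup A] [Module k A]
    {ρ : Representation k GQ A} {x : LH2 (ramFam S) ρ} :
    x ∈ absSha2 S ρ ↔ ∀ v : extArithIndex S, (locP S (extArithLoc S v) ρ).H2 x = 0 := by
  rw [absSha2, LinearMap.mem_ker, funext_iff]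
  rfl

variable {K : Type} [Field K] (M : Rep K GQ)

lemma equivH1S_mem_ker_iff (x : LH1 (ramFam S) M.ρ) :
    LH1ToH1 (ramFam S) M x ∈ LinearMap.ker (locTotal (extArithLoc S) M) ↔ x ∈ absSha1 S M.ρ := by
  rw [mem_absSha1_iff, LinearMap.mem_ker, funext_iff]
  refine forall_congr' fun v => ?_
  rw [locTotal_apply]
  have h1 : (locRes (extArithLoc S) M v).hom (LH1ToH1 (ramFam S) M x) =
      LH1ToH1 (krullFam.comap (extArithLoc S v)) (Rep.res (extArithLoc S v) M)
        ((locP S (extArithLoc S v) M.ρ).H1 x) :=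
    LH1ToH1_res (ramFam S) M (krullFam.comap (extArithLoc S v)) (extArithLoc S v)
      (ramFam_level S (extArithLoc S v)) x
  rw [h1]
  constructor
  · intro h
    exact LH1ToH1_injective (krullFam.comap (extArithLoc S v)) (Rep.res (extArithLoc S v) M)
      (h.trans (map_zero _).symm)
  · intro h
    rw [h]
    exact map_zero _

/-- `sha₁` as a subspace of level cohomology -/
noncomputable def equivSha1 : absSha1 S M.ρ ≃ₗ[K] sha₁ S M := by
  refine LinearEquiv.ofBijective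
    (LinearMap.codRestrict (sha₁ S M) (LH1ToH1 (ramFam S) M ∘ₗ (absSha1 S M.ρ).subtype)
      (fun x => ⟨?_, ?_⟩)) ⟨?_, ?_⟩
  · rw [← range_LH1ToH1_ramFam]
    exact ⟨_, rfl⟩
  · exact (equivH1S_mem_ker_iff S M _).2 x.2
  · intro x y h
    exact Subtype.ext (LH1ToH1_injective (ramFam S) M (congrArg Subtype.val h))
  · rintro ⟨y, hy1, hy2⟩
    rw [← range_LH1ToH1_ramFam] at hy1
    obtain ⟨x, rfl⟩ := hy1
    exact ⟨⟨x, (equivH1S_mem_ker_iff S M x).1 hy2⟩, rfl⟩

lemma equivH2_locRes₂S {H : Type} [Group H] (r : H →* GQ) (x : continuousH2S S M) :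
    equivH2 r (Rep.res r M) (locRes₂S S M r x) = (locP S r M.ρ).H2 (equivH2S S M x) := by
  obtain ⟨c, rfl⟩ := Submodule.mkQ_surjective _ x
  have h1 : equivH2S S M (Submodule.mkQ _ c) =
      mk2 (ramFam S) M.ρ ⟨c, (levelCocyclesS₂_eq S M).le c.2⟩ := rfl
  rw [h1, PairHom.H2_mk]
  rfl

lemma mem_sha₂_iff (x : continuousH2S S M) :
    x ∈ sha₂ S M ↔ equivH2S S M x ∈ absSha2 S M.ρ := by
  rw [mem_absSha2_iff, sha₂, LinearMap.mem_ker, funext_iff]
  refine forall_congr' fun v => ?_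
  rw [locTotal₂S_apply, ← equivH2_locRes₂S]
  constructor
  · intro h
    rw [h]
    exact map_zero _
  · intro h
    exact (equivH2 (extArithLoc S v) (Rep.res (extArithLoc S v) M)).injective
      (h.trans (map_zero _).symm)

/-- `sha₂` as a subspace of level cohomology -/
noncomputable def equivSha2 : sha₂ S M ≃ₗ[K] absSha2 S M.ρ :=
  (equivH2S S M).submoduleMap (sha₂ S M) |>.trans (LinearEquiv.ofEq _ _ (by
    ext x
    constructor
    · rintro ⟨y, hy, rfl⟩
      exact (mem_sha₂_iff S M y).1 hy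
    · intro hx
      refine ⟨(equivH2S S M).symm x, (mem_sha₂_iff S M _).2 ?_, ?_⟩
      · rwa [LinearEquiv.apply_symm_apply]
      · exact LinearEquiv.apply_symm_apply _ _))

end Sha

/-! ### Reduction of the pairing statement to dimensions -/

section Pairing

variable {K : Type*} [Field K] {X Y : Type*} [AddCommGroup X] [Module K X] [AddCommGroup Y]
  [Module K Y]

/-- two finite dimensional spaces of the same dimension admit a perfect pairing -/
lemma exists_perfect_pairing [Module.Finite K X] [Module.Finite K Y]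
    (h : Module.finrank K X = Module.finrank K Y) :
    ∃ B : X →ₗ[K] Y →ₗ[K] K, (∀ y, (∀ x, B y x = 0) → y = 0) ∧ (∀ x, (∀ y, B y x = 0) → x = 0) := by
  have h' : Module.finrank K X = Module.finrank K (Module.Dual K Y) := by
    rw [Subspace.dual_finrank_eq, h]
  let e : X ≃ₗ[K] Module.Dual K Y := LinearEquiv.ofFinrankEq _ _ h'
  refine ⟨e.toLinearMap, fun y hy => ?_, fun x hx => ?_⟩
  · apply e.injective
    rw [map_zero]
    exact LinearMap.ext hy
  · rw [← Module.forall_dual_apply_eq_zero_iff K x]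
    intro φ
    have := hx (e.symm φ)
    simpa using this

end Pairing

end Fermat.Agent.H92
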