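import Mathlib
import Fermat.Agent.H92LevNat

set_option autoImplicit false

/-!
# Inner automorphisms, semi-local Shapiro lemma
-/

namespace Fermat.Agent.H92

open Fermat.Agent.H91 Function

/-! ### Inner automorphisms act trivially -/

section Inner

variable {k : Type*} [CommRing k] {G : Type*} [Group G] {A : Type*} [AddCommGroup A] [Module k A]
variable (𝓥 : LevelFam G) (ρ : Representation k G A)

/-- the pair `(g ↦ t⁻¹ g t, ρ t)` -/
def PairHom.inner (t : G) : PairHom 𝓥 ρ 𝓥 ρ where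
  r := (MulAut.conj t⁻¹).toMonoidHom
  φ := ρ t
  compat h a := by
    simp only [MulEquiv.toMonoidHom_eq_coe, MonoidHom.coe_coe, MulAut.conj_apply, inv_inv]
    rw [← rho_mul, ← rho_mul]
    congr 2
    group
  level V hV := by
    obtain ⟨W, hW, hle, hn, -⟩ := 𝓥.core' V hV
    exact ⟨W, hW, fun s hs => hle (hn.conj_mem s hs t⁻¹)⟩

@[simp] lemma PairHom.inner_r (t g : G) : (PairHom.inner 𝓥 ρ t).r g = t⁻¹ * g * t := by
  simp [PairHom.inner]

@[simp] lemma PairHom.inner_φ (t : G) (a : A) : (PairHom.inner 𝓥 ρ t).φ a = ρ t a := rfl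

lemma PairHom.inner_H0 (t : G) (a : ρ.invariants) : (PairHom.inner 𝓥 ρ t).H0 a = a :=
  Subtype.ext (a.2 t)

lemma PairHom.inner_H1 (t : G) (a : LH1 𝓥 ρ) : (PairHom.inner 𝓥 ρ t).H1 a = a := by
  obtain ⟨f, rfl⟩ := mk1_surjective 𝓥 ρ a
  rw [PairHom.H1_mk, mk1_eq_mk1_iff, mem_B1_iff]
  refine ⟨(f : G → A) t, fun g => ?_⟩
  have hf := (mem_Z1_iff'.1 f.2).1
  simp only [z1_coe, Pi.sub_apply, c1_apply, inner_r, inner_φ]
  have h1 := hf t⁻¹ (g * t)
  have h2 := hf g t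
  have h3 := Z1_inv (mem_Z1_iff.1 f.2).1 t
  rw [← mul_assoc] at h1
  rw [h1, h2, map_add, map_add, map_add, h3, rho_self_inv, rho_self_inv]
  abel

lemma PairHom.inner_H2 (t : G) (a : LH2 𝓥 ρ) : (PairHom.inner 𝓥 ρ t).H2 a = a := by
  obtain ⟨f, rfl⟩ := mk2_surjective 𝓥 ρ a
  rw [PairHom.H2_mk, mk2_eq_mk2_iff, mem_B2_iff']
  have hf := (mem_Z2_iff'.1 f.2).1
  refine ⟨fun g => (f : G × G → A) (t, t⁻¹ * g * t) - (f : G × G → A) (g, t), ?_, fun g h => ?_⟩
  · have h1 : 𝓥.IsConst₁ (fun g => (f : G × G → A) (t, g)) := isConst₂_curry_left f.2.2 t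
    have h2 : 𝓥.IsConst₁ (fun g => (f : G × G → A) (t, t⁻¹ * g * t)) :=
      isConst₁_mul_left (isConst₁_mul_right h1 t) t⁻¹
    exact h2.map₂ (isConst₂_curry_right f.2.2 t) (fun x y => x - y)
  · simp only [z2_coe, Pi.sub_apply, c2_apply, inner_r, inner_φ]
    have e1 := hf t (t⁻¹ * g * t) (t⁻¹ * h * t)
    have e2 := hf g t (t⁻¹ * h * t)
    have e3 := hf g h t
    have r1 : t⁻¹ * g * t * (t⁻¹ * h * t) = t⁻¹ * (g * h) * t := by group
    have r2 : t * (t⁻¹ * g * t) = g * t := by group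
    have r3 : t * (t⁻¹ * h * t) = h * t := by group
    rw [r1, r2] at e1
    rw [r3] at e2
    rw [← eq_sub_iff_add_eq] at e1 e2 e3
    rw [map_sub, e1, e2, e3]
    abel

end Inner

/-! ### Functions on a `G`-set -/

section Fn

variable {k : Type*} [CommRing k] {G : Type*} [Group G] {A : Type*} [AddCommGroup A] [Module k A]

/-- functions from a `G`-set `Ω` to a representation, with the diagonal action
`(g F)(x) = g F(g⁻¹ x)` -/
def fnRep (ρ : Representation k G A) (Ω : Type*) [MulAction G Ω] : Representation k G (Ω → A) where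
  toFun g :=
    { toFun F := fun x => ρ g (F (g⁻¹ • x))
      map_add' _ _ := by funext; simp
      map_smul' _ _ := by funext; simp }
  map_one' := by
    ext F x
    simp
  map_mul' g h := by
    ext F x
    simp [mul_smul]

@[simp] lemma fnRep_apply (ρ : Representation k G A) (Ω : Type*) [MulAction G Ω] (g : G)
    (F : Ω → A) (x : Ω) : fnRep ρ Ω g F x = ρ g (F (g⁻¹ • x)) := rfl

/-- restriction of a representation to a subgroup -/
abbrev rst (ρ : Representation k G A) (U : Subgroup G) : Representation k U A := ρ.comp U.subtype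

/-- evaluation at a point, restricted to the stabiliser -/
def evP (𝓥 : LevelFam G) (ρ : Representation k G A) (Ω : Type*) [MulAction G Ω] (x : Ω) :
    PairHom 𝓥 (fnRep ρ Ω) (𝓥.restrict (MulAction.stabilizer G x))
      (rst ρ (MulAction.stabilizer G x)) where
  r := (MulAction.stabilizer G x).subtype
  φ := LinearMap.proj x
  compat h F := by
    have h1 : ((MulAction.stabilizer G x).subtype h)⁻¹ • x = x := by
      have := (MulAction.stabilizer G x).inv_mem h.2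
      exact this
    simp only [LinearMap.coe_proj, eval, fnRep_apply, h1]
    rfl
  level V hV := ⟨_, ⟨V, hV, rfl⟩, fun _ hs => hs⟩

@[simp] lemma evP_r (𝓥 : LevelFam G) (ρ : Representation k G A) (Ω : Type*) [MulAction G Ω] (x : Ω)
    (h : MulAction.stabilizer G x) : (evP 𝓥 ρ Ω x).r h = h := rfl

@[simp] lemma evP_φ (𝓥 : LevelFam G) (ρ : Representation k G A) (Ω : Type*) [MulAction G Ω] (x : Ω)
    (F : Ω → A) : (evP 𝓥 ρ Ω x).φ F = F x := rfl

/-- `Ω` is acted on trivially by a level subgroup -/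
def OpenKernel (𝓥 : LevelFam G) (Ω : Type*) [MulAction G Ω] : Prop :=
  ∃ V ∈ 𝓥.carrier, ∀ s ∈ V, ∀ x : Ω, s • x = x

lemma OpenKernel.of_finite {𝓥 : LevelFam G} {Ω : Type*} [MulAction G Ω] [Finite Ω]
    (h : ∀ x : Ω, 𝓥.IsOpenSubgroup (MulAction.stabilizer G x)) : OpenKernel 𝓥 Ω := by
  have key : ∀ S : Set Ω, S.Finite → ∃ V ∈ 𝓥.carrier, ∀ s ∈ V, ∀ x ∈ S, s • x = x := by
    intro S hS
    induction S, hS using Set.Finite.induction_on with
    | empty =>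
      obtain ⟨V, hV⟩ := 𝓥.nonempty'
      exact ⟨V, hV, fun _ _ a ha => absurd ha (Set.notMem_empty a)⟩
    | @insert a S _ _ ih =>
      obtain ⟨V, hV, h1⟩ := ih
      obtain ⟨W, hW, h2⟩ := h a
      obtain ⟨X, hX, hle⟩ := 𝓥.inf_mem' V hV W hW
      refine ⟨X, hX, fun s hs b hb => ?_⟩
      rcases Set.mem_insert_iff.1 hb with rfl | hb
      · exact h2 (hle hs).2
      · exact h1 s (hle hs).1 b hb
  obtain ⟨V, hV, h'⟩ := key Set.univ Set.finite_univ
  exact ⟨V, hV, fun s hs x => h' s hs x (Set.mem_univ x)⟩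

lemma OpenKernel.stabilizer {𝓥 : LevelFam G} {Ω : Type*} [MulAction G Ω] (h : OpenKernel 𝓥 Ω)
    (x : Ω) : 𝓥.IsOpenSubgroup (MulAction.stabilizer G x) := by
  obtain ⟨V, hV, h'⟩ := h
  exact ⟨V, hV, fun s hs => h' s hs x⟩

lemma OpenKernel.exists_normal {𝓥 : LevelFam G} {Ω : Type*} [MulAction G Ω]
    (h : OpenKernel 𝓥 Ω) : ∃ V ∈ 𝓥.carrier, V.Normal ∧ ∀ s ∈ V, ∀ x : Ω, s • x = x := by
  obtain ⟨V, hV, h'⟩ := h
  obtain ⟨X, hX, hle, hn, -⟩ := 𝓥.core' V hV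
  exact ⟨X, hX, hn, fun s hs => h' s (hle hs)⟩

lemma OpenKernel.comap {𝓥 : LevelFam G} {H : Type*} [Group H] (r : H →* G) {Ω : Type*}
    [MulAction G Ω] [MulAction H Ω] (hr : ∀ h (x : Ω), h • x = r h • x)
    (h : OpenKernel 𝓥 Ω) : OpenKernel (𝓥.comap r) Ω := by
  obtain ⟨V, hV, h'⟩ := h
  exact ⟨_, ⟨V, hV, rfl⟩, fun s hs x => by rw [hr]; exact h' _ hs x⟩

lemma smooth_fnRep {𝓥 : LevelFam G} {ρ : Representation k G A} {Ω : Type*} [MulAction G Ω]
    [Finite Ω] (hs : Smooth 𝓥 ρ) (hΩ : OpenKernel 𝓥 Ω) : Smooth 𝓥 (fnRep ρ Ω) := by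
  intro F
  obtain ⟨V, hV, h⟩ := hs.exists_fix (Set.finite_range F)
  obtain ⟨W, hW, h'⟩ := hΩ
  obtain ⟨X, hX, hle⟩ := 𝓥.inf_mem' V hV W hW
  refine ⟨X, hX, fun s hs => ?_⟩
  funext x
  rw [fnRep_apply, h' s⁻¹ (inv_mem (hle hs).2), h s (hle hs).1 _ ⟨x, rfl⟩]

end Fn

/-! ### Representatives of orbits -/

/-- A system of representatives for the orbits of `G` on `Ω`, with elements transporting the
representative to any given point. -/
structure OrbitReps (G : Type*) [Group G] (Ω : Type*) [MulAction G Ω] (I : Type*) where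
  /-- the representative -/
  pt : I → Ω
  /-- the orbit of a point -/
  idx : Ω → I
  /-- the transporting element -/
  τ : Ω → G
  τ_smul : ∀ x, τ x • pt (idx x) = x
  idx_smul : ∀ (g : G) x, idx (g • x) = idx x
  idx_pt : ∀ i, idx (pt i) = i
  τ_pt : ∀ i, τ (pt i) = 1

namespace OrbitReps

variable {G : Type*} [Group G] {Ω : Type*} [MulAction G Ω]

lemma exists_smul_out (x : Ω) :
    ∃ g : G, g • (Quotient.mk'' x : MulAction.orbitRel.Quotient G Ω).out = x := by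
  have h1 : (Quotient.mk'' (Quotient.mk'' x : MulAction.orbitRel.Quotient G Ω).out :
      MulAction.orbitRel.Quotient G Ω) = Quotient.mk'' x := Quotient.out_eq' _
  have h2 := Quotient.exact' h1.symm
  exact MulAction.orbitRel_apply.1 h2

open Classical in
/-- canonical representatives -/
noncomputable def canonical (G : Type*) [Group G] (Ω : Type*) [MulAction G Ω] :
    OrbitReps G Ω (MulAction.orbitRel.Quotient G Ω) where
  pt i := i.out
  idx x := Quotient.mk'' x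
  τ x := if (Quotient.mk'' x : MulAction.orbitRel.Quotient G Ω).out = x then 1 else
    (exists_smul_out (G := G) x).choose
  τ_smul x := by
    split_ifs with h
    · rw [one_smul, h]
    · exact (exists_smul_out (G := G) x).choose_spec
  idx_smul g x := Quotient.sound' (MulAction.orbitRel_apply.2 ⟨g, rfl⟩)
  idx_pt i := Quotient.out_eq' i
  τ_pt i := by
    refine if_pos ?_
    congr 1
    exact Quotient.out_eq' i

open Classical in
/-- representatives for a transitive action -/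
noncomputable def transitive (x₀ : Ω) (h : ∀ x : Ω, ∃ g : G, g • x₀ = x) :
    OrbitReps G Ω Unit where
  pt _ := x₀
  idx _ := ()
  τ x := if x = x₀ then 1 else (h x).choose
  τ_smul x := by
    split_ifs with h'
    · rw [one_smul, h']
    · exact (h x).choose_spec
  idx_smul _ _ := rfl
  idx_pt _ := rfl
  τ_pt _ := if_pos rfl

variable {I : Type*} (R : OrbitReps G Ω I)

/-- the induced elements of the stabilisers -/
def u (g : G) (x : Ω) : G := (R.τ x)⁻¹ * g * R.τ (g⁻¹ • x)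

lemma idx_inv_smul (g : G) (x : Ω) : R.idx (g⁻¹ • x) = R.idx x := R.idx_smul _ _

lemma τ_inv_smul (x : Ω) : (R.τ x)⁻¹ • x = R.pt (R.idx x) := by
  rw [inv_smul_eq_iff, R.τ_smul]

lemma u_mem (g : G) (x : Ω) : R.u g x ∈ MulAction.stabilizer G (R.pt (R.idx x)) := by
  rw [MulAction.mem_stabilizer_iff, u, mul_smul, mul_smul, ← R.idx_inv_smul g x, R.τ_smul,
    smul_inv_smul, R.τ_inv_smul, R.idx_inv_smul]

lemma τ_mul_u (g : G) (x : Ω) : R.τ x * R.u g x = g * R.τ (g⁻¹ • x) := by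
  rw [u]; group

lemma u_mul (g h : G) (x : Ω) : R.u (g * h) x = R.u g x * R.u h (g⁻¹ • x) := by
  simp only [u, mul_inv_rev, mul_smul]
  group

lemma u_pt {i : I} {g : G} (hg : g ∈ MulAction.stabilizer G (R.pt i)) : R.u g (R.pt i) = g := by
  have h1 : g⁻¹ • R.pt i = R.pt i := (MulAction.stabilizer G (R.pt i)).inv_mem hg
  rw [u, h1, R.τ_pt]
  group

lemma u_mul_of_fix (g s : G) (x : Ω) (hs : ∀ y : Ω, s • y = y) :
    R.u (g * s) x = R.u g x * ((R.τ (g⁻¹ • x))⁻¹ * s * R.τ (g⁻¹ • x)) := by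
  have h1 : (g * s)⁻¹ • x = g⁻¹ • x := by
    rw [mul_inv_rev, mul_smul, inv_smul_eq_iff, hs]
  rw [u, u, h1]
  group

end OrbitReps

/-! ### Extension by zero -/

section Ext

variable {G : Type*} [Group G] {A : Type*} [AddCommGroup A] (U : Subgroup G)

open Classical in
/-- extension by zero of a 1-cochain on a subgroup -/
noncomputable def ext1 (f : U → A) (g : G) : A := if h : g ∈ U then f ⟨g, h⟩ else 0

open Classical in
/-- extension by zero of a 2-cochain on a subgroup -/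
noncomputable def ext2 (f : U × U → A) (g : G × G) : A :=
  if h : g.1 ∈ U ∧ g.2 ∈ U then f (⟨g.1, h.1⟩, ⟨g.2, h.2⟩) else 0

variable {U}

lemma ext1_apply (f : U → A) {g : G} (h : g ∈ U) : ext1 U f g = f ⟨g, h⟩ := dif_pos h

lemma ext2_apply (f : U × U → A) {g g' : G} (h : g ∈ U) (h' : g' ∈ U) :
    ext2 U f (g, g') = f (⟨g, h⟩, ⟨g', h'⟩) := dif_pos ⟨h, h'⟩

end Ext

/-- a finite intersection of level subgroups contains a level subgroup -/
lemma exists_level_forall {G : Type*} [Group G] (𝓥 : LevelFam G) {I : Type*} [Finite I]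
    {p : I → Subgroup G → Prop} (hp : ∀ i V W, W ≤ V → p i V → p i W)
    (h : ∀ i, ∃ V ∈ 𝓥.carrier, p i V) : ∃ V ∈ 𝓥.carrier, ∀ i, p i V := by
  have key : ∀ S : Set I, S.Finite → ∃ V ∈ 𝓥.carrier, ∀ i ∈ S, p i V := by
    intro S hS
    induction S, hS using Set.Finite.induction_on with
    | empty =>
      obtain ⟨V, hV⟩ := 𝓥.nonempty'
      exact ⟨V, hV, fun a ha => absurd ha (Set.notMem_empty a)⟩
    | @insert a S _ _ ih =>
      obtain ⟨V, hV, h1⟩ := ih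
      obtain ⟨W, hW, h2⟩ := h a
      obtain ⟨X, hX, hle⟩ := 𝓥.inf_mem' V hV W hW
      refine ⟨X, hX, fun b hb => ?_⟩
      rcases Set.mem_insert_iff.1 hb with rfl | hb
      · exact hp _ _ _ (hle.trans inf_le_right) h2
      · exact hp _ _ _ (hle.trans inf_le_left) (h1 b hb)
  obtain ⟨V, hV, h'⟩ := key Set.univ Set.finite_univ
  exact ⟨V, hV, fun i => h' i (Set.mem_univ i)⟩

section Shapiro

variable {k : Type*} [CommRing k] {G : Type*} [Group G] {A : Type*} [AddCommGroup A] [Module k A]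
variable (𝓥 : LevelFam G) (ρ : Representation k G A) {Ω : Type*} [MulAction G Ω] {I : Type*}
  (R : OrbitReps G Ω I)

/-- the semi-local Shapiro map in degree 0 -/
noncomputable def sh0 : (fnRep ρ Ω).invariants →ₗ[k]
    (∀ i, (rst ρ (MulAction.stabilizer G (R.pt i))).invariants) :=
  LinearMap.pi (fun i => (evP 𝓥 ρ Ω (R.pt i)).H0)

/-- the semi-local Shapiro map in degree 1 -/
noncomputable def sh1 : LH1 𝓥 (fnRep ρ Ω) →ₗ[k]
    (∀ i, LH1 (𝓥.restrict (MulAction.stabilizer G (R.pt i)))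
      (rst ρ (MulAction.stabilizer G (R.pt i)))) :=
  LinearMap.pi (fun i => (evP 𝓥 ρ Ω (R.pt i)).H1)

/-- the semi-local Shapiro map in degree 2 -/
noncomputable def sh2 : LH2 𝓥 (fnRep ρ Ω) →ₗ[k]
    (∀ i, LH2 (𝓥.restrict (MulAction.stabilizer G (R.pt i)))
      (rst ρ (MulAction.stabilizer G (R.pt i)))) :=
  LinearMap.pi (fun i => (evP 𝓥 ρ Ω (R.pt i)).H2)

lemma sh0_apply (x : (fnRep ρ Ω).invariants) (i : I) :
    (sh0 𝓥 ρ R x i : A) = (x : Ω → A) (R.pt i) := rfl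

lemma sh1_apply (x : LH1 𝓥 (fnRep ρ Ω)) (i : I) :
    sh1 𝓥 ρ R x i = (evP 𝓥 ρ Ω (R.pt i)).H1 x := rfl

lemma sh2_apply (x : LH2 𝓥 (fnRep ρ Ω)) (i : I) :
    sh2 𝓥 ρ R x i = (evP 𝓥 ρ Ω (R.pt i)).H2 x := rfl

theorem sh0_bijective : Bijective (sh0 𝓥 ρ R) := by
  constructor
  · intro F F' h
    apply Subtype.ext
    funext x
    have h1 : ∀ i, (F : Ω → A) (R.pt i) = (F' : Ω → A) (R.pt i) := fun i =>
      congrArg Subtype.val (congrFun h i)
    have h2 := congrFun (F.2 (R.τ x)) x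
    have h3 := congrFun (F'.2 (R.τ x)) x
    rw [fnRep_apply, R.τ_inv_smul] at h2 h3
    rw [← h2, ← h3, h1]
  · intro a
    refine ⟨⟨fun x => ρ (R.τ x) (a (R.idx x) : A), fun g => ?_⟩, ?_⟩
    · funext x
      rw [fnRep_apply, ← rho_mul, ← R.τ_mul_u, rho_mul, R.idx_inv_smul]
      congr 1
      exact (a (R.idx x)).2 ⟨R.u g x, R.u_mem g x⟩
    · funext i
      apply Subtype.ext
      rw [sh0_apply]
      simp only [R.τ_pt, rho_one]
      rw [R.idx_pt]

variable {𝓥 ρ}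

lemma sh1_injective : Injective (sh1 𝓥 ρ R) := by
  rw [injective_iff_map_eq_zero]
  intro z hz
  obtain ⟨F, rfl⟩ := mk1_surjective 𝓥 (fnRep ρ Ω) z
  have h1 : ∀ i, ∃ a : A, ∀ g ∈ MulAction.stabilizer G (R.pt i),
      (F : G → Ω → A) g (R.pt i) = ρ g a - a := by
    intro i
    have h2 := congrFun hz i
    rw [sh1_apply, PairHom.H1_mk] at h2
    obtain ⟨a, ha⟩ := mk1_eq_zero_iff'.1 h2
    exact ⟨a, fun g hg => ha ⟨g, hg⟩⟩
  choose a ha using h1
  have hF := (mem_Z1_iff'.1 F.2).1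
  rw [mk1_eq_zero_iff']
  refine ⟨fun x => ρ (R.τ x) (a (R.idx x)) - (F : G → Ω → A) (R.τ x) x, fun g => ?_⟩
  funext x
  have e1 := congrFun (hF g (R.τ (g⁻¹ • x))) x
  have e2 := congrFun (hF (R.τ x) (R.u g x)) x
  rw [R.τ_mul_u, e1] at e2
  simp only [Pi.add_apply, fnRep_apply, R.τ_inv_smul, ha _ _ (R.u_mem g x)] at e2
  simp only [Pi.sub_apply, fnRep_apply, map_sub]
  rw [← rho_mul ρ g, ← R.τ_mul_u, rho_mul, R.idx_inv_smul]
  rw [map_sub] at e2
  rw [eq_comm, ← sub_eq_zero]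
  rw [eq_comm, ← sub_eq_zero] at e2
  rw [← e2]
  abel

lemma sh1_surjective [Finite I] (hΩ : OpenKernel 𝓥 Ω) : Surjective (sh1 𝓥 ρ R) := by
  intro z
  choose c hc using fun i => mk1_surjective _ _ (z i)
  set c' : I → G → A := fun i => ext1 (MulAction.stabilizer G (R.pt i)) (c i : _ → A) with hc'
  have hcoc : ∀ i, ∀ a ∈ MulAction.stabilizer G (R.pt i), ∀ b ∈ MulAction.stabilizer G (R.pt i),
      c' i (a * b) = ρ a (c' i b) + c' i a := by
    intro i a ha b hb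
    have := (mem_Z1_iff'.1 (c i).2).1 ⟨a, ha⟩ ⟨b, hb⟩
    rw [hc']
    simp only
    rw [ext1_apply _ ha, ext1_apply _ hb, ext1_apply _ (mul_mem ha hb)]
    exact this
  obtain ⟨V, hV, hVc⟩ : ∃ V ∈ 𝓥.carrier, ∀ i, ∀ a ∈ MulAction.stabilizer G (R.pt i), ∀ s ∈ V,
      s ∈ MulAction.stabilizer G (R.pt i) → c' i (a * s) = c' i a := by
    refine exists_level_forall 𝓥 (fun i V W hVW h a ha s hs hs' => h a ha s (hVW hs) hs')
      (fun i => ?_)
    obtain ⟨_, ⟨V, hV, rfl⟩, h⟩ := (c i).2.2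
    refine ⟨V, hV, fun a ha s hs hs' => ?_⟩
    have := h ⟨a, ha⟩ ⟨s, hs'⟩ hs
    rw [hc']
    simp only
    rw [ext1_apply _ ha, ext1_apply _ (mul_mem ha hs')]
    exact this
  obtain ⟨W, hW, hWn, hWfix⟩ := hΩ.exists_normal
  let C : G → Ω → A := fun g x => ρ (R.τ x) (c' (R.idx x) (R.u g x))
  have hCdef : ∀ g x, C g x = ρ (R.τ x) (c' (R.idx x) (R.u g x)) := fun _ _ => rfl
  have hC : C ∈ Z1 𝓥 (fnRep ρ Ω) := by
    rw [mem_Z1_iff']
    constructor
    · intro g h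
      funext x
      rw [Pi.add_apply, fnRep_apply, hCdef, hCdef, hCdef, R.u_mul, R.idx_inv_smul,
        hcoc _ _ (R.u_mem g x) _ (by rw [← R.idx_inv_smul g x]; exact R.u_mem h (g⁻¹ • x)),
        map_add, ← rho_mul, R.τ_mul_u, rho_mul]
    · obtain ⟨X, hX, hle⟩ := 𝓥.inf_mem' V hV W hW
      obtain ⟨Y, hY, hYX, hYn, -⟩ := 𝓥.core' X hX
      refine ⟨Y, hY, fun g s hs => ?_⟩
      funext x
      have hfix : ∀ y : Ω, s • y = y := hWfix s (hle (hYX hs)).2
      have hconj : (R.τ (g⁻¹ • x))⁻¹ * s * R.τ (g⁻¹ • x) ∈ Y := by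
        simpa using hYn.conj_mem s hs (R.τ (g⁻¹ • x))⁻¹
      rw [hCdef, hCdef, R.u_mul_of_fix g s x hfix, hVc _ _ (R.u_mem g x) _ (hle (hYX hconj)).1]
      rw [MulAction.mem_stabilizer_iff]
      exact hWfix _ (hle (hYX hconj)).2 _
  refine ⟨mk1 _ _ ⟨C, hC⟩, ?_⟩
  funext i
  rw [sh1_apply, PairHom.H1_mk, ← hc i]
  congr 1
  apply Subtype.ext
  funext g
  have h1 : C g (R.pt i) = (c i : _ → A) g := by
    rw [hCdef, R.τ_pt, rho_one, R.idx_pt, R.u_pt g.2]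
    exact ext1_apply _ g.2
  exact h1

theorem sh1_bijective [Finite I] (hΩ : OpenKernel 𝓥 Ω) : Bijective (sh1 𝓥 ρ R) :=
  ⟨sh1_injective R, sh1_surjective R hΩ⟩

lemma sh2_injective [Finite I] (hΩ : OpenKernel 𝓥 Ω) : Injective (sh2 𝓥 ρ R) := by
  rw [injective_iff_map_eq_zero]
  intro z hz
  obtain ⟨F, rfl⟩ := mk2_surjective 𝓥 (fnRep ρ Ω) z
  have h1 : ∀ i, ∃ b : MulAction.stabilizer G (R.pt i) → A,
      (𝓥.restrict (MulAction.stabilizer G (R.pt i))).IsConst₁ b ∧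
      ∀ g h : MulAction.stabilizer G (R.pt i),
        (F : G × G → Ω → A) ((g : G), (h : G)) (R.pt i) = ρ g (b h) - b (g * h) + b g := by
    intro i
    have h2 := congrFun hz i
    rw [sh2_apply, PairHom.H2_mk, Pi.zero_apply, mk2_eq_zero_iff, mem_B2_iff'] at h2
    exact h2
  choose b hbc hb using h1
  set b' : I → G → A := fun i => ext1 (MulAction.stabilizer G (R.pt i)) (b i) with hb'
  have hcob : ∀ i, ∀ a ∈ MulAction.stabilizer G (R.pt i), ∀ c ∈ MulAction.stabilizer G (R.pt i),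
      (F : G × G → Ω → A) (a, c) (R.pt i) = ρ a (b' i c) - b' i (a * c) + b' i a := by
    intro i a ha c hc
    have := hb i ⟨a, ha⟩ ⟨c, hc⟩
    rw [hb']
    simp only
    rw [ext1_apply _ ha, ext1_apply _ hc, ext1_apply _ (mul_mem ha hc)]
    exact this
  obtain ⟨V, hV, hVc⟩ : ∃ V ∈ 𝓥.carrier, ∀ i, ∀ a ∈ MulAction.stabilizer G (R.pt i), ∀ s ∈ V,
      s ∈ MulAction.stabilizer G (R.pt i) → b' i (a * s) = b' i a := by
    refine exists_level_forall 𝓥 (fun i V W hVW h a ha s hs hs' => h a ha s (hVW hs) hs')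
      (fun i => ?_)
    obtain ⟨_, ⟨V, hV, rfl⟩, h⟩ := hbc i
    refine ⟨V, hV, fun a ha s hs hs' => ?_⟩
    have := h ⟨a, ha⟩ ⟨s, hs'⟩ hs
    rw [hb']
    simp only
    rw [ext1_apply _ ha, ext1_apply _ (mul_mem ha hs')]
    exact this
  obtain ⟨W, hW, hWn, hWfix⟩ := hΩ.exists_normal
  have hF := (mem_Z2_iff'.1 F.2).1
  rw [mk2_eq_zero_iff, mem_B2_iff']
  let B : G → Ω → A := fun g x => ρ (R.τ x) (b' (R.idx x) (R.u g x))
    - (F : G × G → Ω → A) (R.τ x, R.u g x) x + (F : G × G → Ω → A) (g, R.τ (g⁻¹ • x)) x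
  have hBdef : ∀ g x, B g x = ρ (R.τ x) (b' (R.idx x) (R.u g x))
    - (F : G × G → Ω → A) (R.τ x, R.u g x) x + (F : G × G → Ω → A) (g, R.τ (g⁻¹ • x)) x :=
    fun _ _ => rfl
  refine ⟨B, ?_, fun g h => ?_⟩
  · obtain ⟨V', hV', hVF⟩ := (mem_Z2_iff'.1 F.2).2
    obtain ⟨X, hX, hle⟩ := 𝓥.inf_mem' V hV W hW
    obtain ⟨X', hX', hle'⟩ := 𝓥.inf_mem' X hX V' hV'
    obtain ⟨Y, hY, hYX, hYn, -⟩ := 𝓥.core' X' hX'
    refine ⟨Y, hY, fun g s hs => ?_⟩
    funext x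
    have hfix : ∀ y : Ω, s • y = y := hWfix s (hle (hle' (hYX hs)).1).2
    have hconj : (R.τ (g⁻¹ • x))⁻¹ * s * R.τ (g⁻¹ • x) ∈ Y := by
      simpa using hYn.conj_mem s hs (R.τ (g⁻¹ • x))⁻¹
    have h1 : (g * s)⁻¹ • x = g⁻¹ • x := by
      rw [mul_inv_rev, mul_smul, inv_smul_eq_iff, hfix]
    have h2 := hVF (R.τ x) (R.u g x) 1 V'.one_mem _ (hle' (hYX hconj)).2
    rw [mul_one] at h2
    have h3 := hVF g (R.τ (g⁻¹ • x)) s (hle' (hYX hs)).2 1 V'.one_mem
    rw [mul_one] at h3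
    rw [hBdef, hBdef, R.u_mul_of_fix g s x hfix, h1, h2, h3,
      hVc _ _ (R.u_mem g x) _ (hle (hle' (hYX hconj)).1).1]
    rw [MulAction.mem_stabilizer_iff]
    exact hWfix _ (hle (hle' (hYX hconj)).1).2 _
  · funext x
    simp only [Pi.add_apply, Pi.sub_apply, fnRep_apply, hBdef]
    have hy : R.idx (g⁻¹ • x) = R.idx x := R.idx_inv_smul g x
    have hum := R.u_mem h (g⁻¹ • x)
    rw [hy] at hum
    have e0 := hcob (R.idx x) (R.u g x) (R.u_mem g x) (R.u h (g⁻¹ • x)) hum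
    have e1 := congrFun (hF (R.τ x) (R.u g x) (R.u h (g⁻¹ • x))) x
    have e2 := congrFun (hF g h (R.τ (h⁻¹ • g⁻¹ • x))) x
    have e3 := congrFun (hF g (R.τ (g⁻¹ • x)) (R.u h (g⁻¹ • x))) x
    simp only [Pi.add_apply, fnRep_apply, R.τ_inv_smul] at e1 e2 e3
    have t1 : ρ g (ρ (R.τ (g⁻¹ • x)) (b' (R.idx x) (R.u h (g⁻¹ • x)))) =
        ρ (R.τ x) (ρ (R.u g x) (b' (R.idx x) (R.u h (g⁻¹ • x)))) := by
      rw [← rho_mul, ← R.τ_mul_u, rho_mul]
    rw [e0, ← R.u_mul, R.τ_mul_u] at e1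
    rw [R.τ_mul_u] at e3
    rw [mul_inv_rev, mul_smul, hy]
    simp only [map_add, map_sub, t1] at e1 e2 e3 ⊢
    rw [← eq_sub_iff_add_eq] at e1 e2 e3
    have e4 : (F : G × G → Ω → A) (g, h) x = ρ g ((F : G × G → Ω → A) (h, R.τ (h⁻¹ • g⁻¹ • x))
      (g⁻¹ • x)) + (F : G × G → Ω → A) (g, h * R.τ (h⁻¹ • g⁻¹ • x)) x
      - (F : G × G → Ω → A) (g * h, R.τ (h⁻¹ • g⁻¹ • x)) x := by
      rw [e2]; abel
    have e5 : ρ (R.τ x) (b' (R.idx x) (R.u g x)) = (F : G × G → Ω → A)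
      (g * R.τ (g⁻¹ • x), R.u h (g⁻¹ • x)) x + (F : G × G → Ω → A) (R.τ x, R.u g x) x
      - (F : G × G → Ω → A) (R.τ x, R.u (g * h) x) x
      - ρ (R.τ x) (ρ (R.u g x) (b' (R.idx x) (R.u h (g⁻¹ • x))))
      + ρ (R.τ x) (b' (R.idx x) (R.u (g * h) x)) := by
      rw [eq_sub_iff_add_eq] at e1
      rw [← e1]; abel
    rw [e4, e5, e3]
    abel

lemma sh2_surjective [Finite I] (hΩ : OpenKernel 𝓥 Ω) : Surjective (sh2 𝓥 ρ R) := by
  intro z
  choose c hc using fun i => mk2_surjective _ _ (z i)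
  set c' : I → G × G → A := fun i => ext2 (MulAction.stabilizer G (R.pt i)) (c i : _ → A) with hc'
  have hcoc : ∀ i, ∀ a ∈ MulAction.stabilizer G (R.pt i), ∀ b ∈ MulAction.stabilizer G (R.pt i),
      ∀ d ∈ MulAction.stabilizer G (R.pt i),
      ρ a (c' i (b, d)) + c' i (a, b * d) = c' i (a * b, d) + c' i (a, b) := by
    intro i a ha b hb d hd
    have := (mem_Z2_iff'.1 (c i).2).1 ⟨a, ha⟩ ⟨b, hb⟩ ⟨d, hd⟩
    rw [hc']
    simp only
    rw [ext2_apply _ hb hd, ext2_apply _ ha (mul_mem hb hd), ext2_apply _ (mul_mem ha hb) hd,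
      ext2_apply _ ha hb]
    exact this
  obtain ⟨V, hV, hVc⟩ : ∃ V ∈ 𝓥.carrier, ∀ i, ∀ a ∈ MulAction.stabilizer G (R.pt i),
      ∀ b ∈ MulAction.stabilizer G (R.pt i), ∀ s ∈ V, s ∈ MulAction.stabilizer G (R.pt i) →
      ∀ t ∈ V, t ∈ MulAction.stabilizer G (R.pt i) →
      c' i (a * s, b * t) = c' i (a, b) := by
    refine exists_level_forall 𝓥
      (fun i V W hVW h a ha b hb s hs hs' t ht ht' =>
        h a ha b hb s (hVW hs) hs' t (hVW ht) ht') (fun i => ?_)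
    obtain ⟨_, ⟨V, hV, rfl⟩, h⟩ := (c i).2.2
    refine ⟨V, hV, fun a ha b hb s hs hs' t ht ht' => ?_⟩
    have := h ⟨a, ha⟩ ⟨b, hb⟩ ⟨s, hs'⟩ hs ⟨t, ht'⟩ ht
    rw [hc']
    simp only
    rw [ext2_apply _ ha hb, ext2_apply _ (mul_mem ha hs') (mul_mem hb ht')]
    exact this
  obtain ⟨W, hW, hWn, hWfix⟩ := hΩ.exists_normal
  let C : G × G → Ω → A := fun p x =>
    ρ (R.τ x) (c' (R.idx x) (R.u p.1 x, R.u p.2 (p.1⁻¹ • x)))
  have hCdef : ∀ g h x, C (g, h) x = ρ (R.τ x) (c' (R.idx x) (R.u g x, R.u h (g⁻¹ • x))) :=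
    fun _ _ _ => rfl
  have hC : C ∈ Z2 𝓥 (fnRep ρ Ω) := by
    rw [mem_Z2_iff']
    constructor
    · intro g h j
      funext x
      have hy : R.idx (g⁻¹ • x) = R.idx x := R.idx_inv_smul g x
      have hz : R.idx (h⁻¹ • g⁻¹ • x) = R.idx x := by rw [R.idx_inv_smul, hy]
      have hum := R.u_mem h (g⁻¹ • x)
      rw [hy] at hum
      have huz := R.u_mem j (h⁻¹ • g⁻¹ • x)
      rw [hz] at huz
      rw [Pi.add_apply, Pi.add_apply, fnRep_apply, hCdef, hCdef, hCdef, hCdef, hy, ← rho_mul,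
        ← R.τ_mul_u, rho_mul, R.u_mul, R.u_mul, mul_inv_rev, mul_smul, ← map_add, ← map_add,
        hcoc _ _ (R.u_mem g x) _ hum _ huz]
    · obtain ⟨X, hX, hle⟩ := 𝓥.inf_mem' V hV W hW
      obtain ⟨Y, hY, hYX, hYn, -⟩ := 𝓥.core' X hX
      refine ⟨Y, hY, fun g h s hs t ht => ?_⟩
      funext x
      have hfix : ∀ s ∈ Y, ∀ y : Ω, s • y = y := fun s hs => hWfix s (hle (hYX hs)).2
      have hconj : ∀ s ∈ Y, ∀ g : G, g⁻¹ * s * g ∈ Y := fun s hs g => by
        simpa using hYn.conj_mem s hs g⁻¹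
      have hy : R.idx (g⁻¹ • x) = R.idx x := R.idx_inv_smul g x
      have hum := R.u_mem h (g⁻¹ • x)
      rw [hy] at hum
      have h1 : (g * s)⁻¹ • x = g⁻¹ • x := by
        rw [mul_inv_rev, mul_smul, inv_smul_eq_iff, hfix s hs]
      rw [hCdef, hCdef, h1, R.u_mul_of_fix g s x (hfix s hs),
        R.u_mul_of_fix h t _ (hfix t ht)]
      rw [hVc _ _ (R.u_mem g x) _ hum _ (hle (hYX (hconj s hs _))).1 ?_ _
        (hle (hYX (hconj t ht _))).1 ?_]
      · rw [MulAction.mem_stabilizer_iff]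
        exact hWfix _ (hle (hYX (hconj s hs _))).2 _
      · rw [MulAction.mem_stabilizer_iff]
        exact hWfix _ (hle (hYX (hconj t ht _))).2 _
  refine ⟨mk2 _ _ ⟨C, hC⟩, ?_⟩
  funext i
  rw [sh2_apply, PairHom.H2_mk, ← hc i]
  congr 1
  apply Subtype.ext
  funext ⟨g, h⟩
  have h1 : C (g, h) (R.pt i) = (c i : _ → A) (g, h) := by
    have h2 : (g : G)⁻¹ • R.pt i = R.pt i := (MulAction.stabilizer G (R.pt i)).inv_mem g.2
    rw [hCdef, R.τ_pt, rho_one, R.idx_pt, R.u_pt g.2, h2, R.u_pt h.2]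
    exact ext2_apply _ g.2 h.2
  exact h1

theorem sh2_bijective [Finite I] (hΩ : OpenKernel 𝓥 Ω) : Bijective (sh2 𝓥 ρ R) :=
  ⟨sh2_injective R hΩ, sh2_surjective R hΩ⟩

end Shapiro

end Fermat.Agent.H92
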