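import Mathlib
import Fermat.Agent.H55Funct

set_option autoImplicit false
set_option maxSynthPendingDepth 3

/-!
# Shapiro's lemma (semi-local form) in the model of `H55Level`

* inner automorphisms act trivially,
* `IsFun a ρ σ` : `σ` is the representation on functions `Ω → A` attached to an action `a` on `Ω`
  and a representation `ρ` on `A`,
* `ev1`, `ev2` : evaluation at a point, restricted to a subgroup fixing it,
* `Reps` : representatives of the orbits; bijectivity of `∏ ev`.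
-/

namespace Fermat.Agent.H92

open Fermat.Agent.H55 Function

section Lemmas

variable {k : Type*} [CommRing k] {G : Type*} [Group G] {A : Type*} [AddCommGroup A] [Module k A]
variable {𝓛 : Levels G} (ρ : Representation k G A)

lemma rep_mul (g h : G) (a : A) : ρ (g * h) a = ρ g (ρ h a) := by
  rw [map_mul]; rfl

lemma rep_one (a : A) : ρ 1 a = a := by
  rw [map_one]; rfl

@[simp] lemma rep_inv_self (g : G) (a : A) : ρ g⁻¹ (ρ g a) = a := by
  rw [← rep_mul, inv_mul_cancel, rep_one]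

@[simp] lemma rep_self_inv (g : G) (a : A) : ρ g (ρ g⁻¹ a) = a := by
  rw [← rep_mul, mul_inv_cancel, rep_one]

lemma mkH1_eq_iff {ρ : Representation k G A} {f f' : ↥(Z1 𝓛 ρ)} :
    H1π 𝓛 ρ f = H1π 𝓛 ρ f' ↔ ∃ a, ∀ g, (f : G → A) g - (f' : G → A) g = ρ g a - a := by
  rw [← sub_eq_zero, ← map_sub, H1π_eq_zero_iff]
  refine exists_congr fun a => ?_
  rw [funext_iff]
  refine forall_congr' fun g => ?_
  exact eq_comm

lemma mkH2_eq_iff {ρ : Representation k G A} {f f' : ↥(Z2 𝓛 ρ)} :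
    H2π 𝓛 ρ f = H2π 𝓛 ρ f' ↔ ∃ b, LC1 𝓛 b ∧ ∀ g h, (f : G × G → A) (g, h)
      - (f' : G × G → A) (g, h) = ρ g (b h) - b (g * h) + b g := by
  rw [← sub_eq_zero, ← map_sub, H2π_eq_zero_iff]
  refine exists_congr fun b => and_congr_right fun _ => ?_
  rw [funext_iff]
  constructor
  · intro h x y
    exact (h (x, y)).symm
  · rintro h ⟨x, y⟩
    exact (h x y).symm

lemma mkH1_eq_zero_iff {ρ : Representation k G A} {f : ↥(Z1 𝓛 ρ)} :
    H1π 𝓛 ρ f = 0 ↔ ∃ a, ∀ g, (f : G → A) g = ρ g a - a := by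
  rw [H1π_eq_zero_iff]
  refine exists_congr fun a => ?_
  rw [funext_iff]
  refine forall_congr' fun g => ?_
  exact eq_comm

lemma mkH2_eq_zero_iff {ρ : Representation k G A} {f : ↥(Z2 𝓛 ρ)} :
    H2π 𝓛 ρ f = 0 ↔ ∃ b, LC1 𝓛 b ∧ ∀ g h, (f : G × G → A) (g, h)
      = ρ g (b h) - b (g * h) + b g := by
  rw [H2π_eq_zero_iff]
  refine exists_congr fun b => and_congr_right fun _ => ?_
  rw [funext_iff]
  constructor
  · intro h x y
    exact (h (x, y)).symm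
  · rintro h ⟨x, y⟩
    exact (h x y).symm

lemma LC2.curryL {X : Type*} {f : G × G → X} (hf : LC2 𝓛 f) (g : G) :
    LC1 𝓛 (fun h => f (g, h)) := by
  obtain ⟨V, hV, h⟩ := hf
  refine ⟨V, hV, fun x s hs => ?_⟩
  have := h g x 1 V.one_mem s hs
  rwa [mul_one] at this

lemma LC2.curryR {X : Type*} {f : G × G → X} (hf : LC2 𝓛 f) (g : G) :
    LC1 𝓛 (fun h => f (h, g)) := by
  obtain ⟨V, hV, h⟩ := hf
  refine ⟨V, hV, fun x s hs => ?_⟩
  have := h x g s hs 1 V.one_mem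
  rwa [mul_one] at this

lemma LC1.mulLeft {X : Type*} {f : G → X} (hf : LC1 𝓛 f) (t : G) :
    LC1 𝓛 (fun g => f (t * g)) := by
  obtain ⟨V, hV, h⟩ := hf
  exact ⟨V, hV, fun g s hs => by beta_reduce; rw [← mul_assoc, h _ s hs]⟩

lemma LC1.mulRight {X : Type*} {f : G → X} (hf : LC1 𝓛 f) (t : G) :
    LC1 𝓛 (fun g => f (g * t)) := by
  obtain ⟨V, hV, h⟩ := hf
  obtain ⟨N, hN, hn, hle⟩ := 𝓛.exists_normal hV
  refine ⟨N, hN, fun g s hs => ?_⟩
  have := h (g * t) (t⁻¹ * s * t) (hle (by simpa using hn.conj_mem s hs t⁻¹))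
  beta_reduce
  rw [← this]
  congr 1
  group

end Lemmas

/-! ### Inner automorphisms act trivially -/

section Inner

variable {k : Type*} [CommRing k] {G : Type*} [Group G] {A : Type*} [AddCommGroup A] [Module k A]
variable {𝓛 : Levels G} (ρ : Representation k G A)

lemma cont_conj (𝓛 : Levels G) (t : G) :
    Levels.Cont 𝓛 𝓛 (MulAut.conj t⁻¹ : G ≃* G).toMonoidHom := by
  intro U hU
  obtain ⟨N, hN, hn, hle⟩ := 𝓛.exists_normal hU
  exact 𝓛.op_mono (fun s hs => hle (hn.conj_mem s hs t⁻¹)) hN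

lemma conj_compat (t : G) (h : G) (a : A) :
    ρ t (ρ ((MulAut.conj t⁻¹ : G ≃* G).toMonoidHom h) a) = ρ h (ρ t a) := by
  simp only [MulEquiv.toMonoidHom_eq_coe, MonoidHom.coe_coe, MulAut.conj_apply, inv_inv]
  rw [← rep_mul, ← rep_mul]
  congr 2
  group

/-- conjugation acts trivially on `H1` -/
theorem H1_inner (t : G) (x : H1 𝓛 ρ) :
    H1map (f := (MulAut.conj t⁻¹ : G ≃* G).toMonoidHom) (φ := ρ t) (cont_conj 𝓛 t)
      (conj_compat ρ t) x = x := by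
  induction x using H1_ind with
  | h f =>
    rw [H1map_mk, mkH1_eq_iff]
    refine ⟨(f : G → A) t, fun g => ?_⟩
    have hf := f.2.2
    have hone : (f : G → A) 1 = 0 := by
      have := hf 1 1
      rw [mul_one, rep_one] at this
      exact left_eq_add.1 this
    have h1 := hf t⁻¹ (g * t)
    have h2 := hf g t
    have h3 := hf t t⁻¹
    rw [mul_inv_cancel, hone] at h3
    rw [← mul_assoc] at h1
    simp only [pp1_apply, MulEquiv.toMonoidHom_eq_coe, MonoidHom.coe_coe, MulAut.conj_apply,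
      inv_inv]
    rw [h1, h2, map_add, map_add, map_add, rep_self_inv, rep_self_inv, eq_neg_of_add_eq_zero_left
      h3.symm]
    abel

/-- conjugation acts trivially on `H2` -/
theorem H2_inner (t : G) (x : H2 𝓛 ρ) :
    H2map (f := (MulAut.conj t⁻¹ : G ≃* G).toMonoidHom) (φ := ρ t) (cont_conj 𝓛 t)
      (conj_compat ρ t) x = x := by
  induction x using H2_ind with
  | h f =>
    rw [H2map_mk, mkH2_eq_iff]
    have hf := f.2.2
    refine ⟨fun g => (f : G × G → A) (t, t⁻¹ * g * t) - (f : G × G → A) (g, t), ?_, fun g h => ?_⟩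
    · have h1 : LC1 𝓛 (fun g => (f : G × G → A) (t, g)) := LC2.curryL f.2.1 t
      have h2 : LC1 𝓛 (fun g => (f : G × G → A) (t, t⁻¹ * g * t)) :=
        LC1.mulLeft (LC1.mulRight h1 t) t⁻¹
      exact (h2.pair (LC2.curryR f.2.1 t)).comp' (fun p => p.1 - p.2)
    · simp only [pp2_apply, MulEquiv.toMonoidHom_eq_coe, MonoidHom.coe_coe, MulAut.conj_apply,
        inv_inv]
      have e1 := hf t (t⁻¹ * g * t) (t⁻¹ * h * t)
      have e2 := hf g t (t⁻¹ * h * t)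
      have e3 := hf g h t
      have r1 : t⁻¹ * g * t * (t⁻¹ * h * t) = t⁻¹ * (g * h) * t := by group
      have r2 : t * (t⁻¹ * g * t) = g * t := by group
      have r3 : t * (t⁻¹ * h * t) = h * t := by group
      rw [r1, r2] at e1
      rw [r3] at e2
      rw [eq_comm, ← eq_sub_iff_add_eq] at e1 e2 e3
      rw [map_sub, e1, e2, e3]
      abel

end Inner

/-! ### Functions on a `G`-set -/

section Fn

variable {k : Type*} [CommRing k] {G : Type*} [Group G] {A : Type*} [AddCommGroup A] [Module k A]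
  {Ω : Type*}

/-- `σ` is the representation on functions `Ω → A` with `(g F)(g x) = g F(x)`. -/
def IsFun (a : G →* Equiv.Perm Ω) (ρ : Representation k G A)
    (σ : Representation k G (Ω → A)) : Prop :=
  ∀ g F x, σ g F (a g x) = ρ g (F x)

lemma isFun_funRep [MulAction G Ω] (ρ : Representation k G A) :
    IsFun (MulAction.toPermHom G Ω) ρ (funRep Ω ρ) := by
  intro g F x
  simp

lemma IsFun.comp {a : G →* Equiv.Perm Ω} {ρ : Representation k G A}
    {σ : Representation k G (Ω → A)} (h : IsFun a ρ σ) {H : Type*} [Group H] (f : H →* G) :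
    IsFun (a.comp f) (ρ.comp f) (σ.comp f) := fun g F x => h (f g) F x

lemma IsFun.apply_inv {a : G →* Equiv.Perm Ω} {ρ : Representation k G A}
    {σ : Representation k G (Ω → A)} (h : IsFun a ρ σ) (g : G) (F : Ω → A) (x : Ω) :
    σ g F x = ρ g (F (a g⁻¹ x)) := by
  have h1 := h g F (a g⁻¹ x)
  rwa [← Equiv.Perm.mul_apply, ← map_mul, mul_inv_cancel, map_one, Equiv.Perm.one_apply] at h1

/-- compatibility of the evaluation at `x` with a subgroup -/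
def EvC (σ : Representation k G (Ω → A)) (x : Ω) (V : Subgroup G)
    (ρV : Representation k V A) : Prop :=
  ∀ (v : V) (F : Ω → A), σ v F x = ρV v (F x)

lemma IsFun.evC {a : G →* Equiv.Perm Ω} {ρ : Representation k G A}
    {σ : Representation k G (Ω → A)} (h : IsFun a ρ σ) {x : Ω} {V : Subgroup G}
    (hV : ∀ g ∈ V, a g x = x) {ρV : Representation k V A} (hρ : ∀ (v : V) b, ρV v b = ρ v b) :
    EvC σ x V ρV := by
  intro v F
  have := h v F x
  rw [hV v v.2] at this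
  rw [this, hρ]

variable {𝓛 : Levels G} {σ : Representation k G (Ω → A)} {x : Ω} {V : Subgroup G}
    {ρV : Representation k V A}

/-- evaluation at a point in degree 1 -/
def ev1 (𝓛 : Levels G) (h : EvC σ x V ρV) : H1 𝓛 σ →ₗ[k] H1 (𝓛.onSub V) ρV :=
  H1map (f := V.subtype) (φ := LinearMap.proj x) (𝓛.cont_onSub V) h

/-- evaluation at a point in degree 2 -/
def ev2 (𝓛 : Levels G) (h : EvC σ x V ρV) : H2 𝓛 σ →ₗ[k] H2 (𝓛.onSub V) ρV :=
  H2map (f := V.subtype) (φ := LinearMap.proj x) (𝓛.cont_onSub V) h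

lemma ev1_mk (h : EvC σ x V ρV) (z : ↥(Z1 𝓛 σ)) :
    ev1 𝓛 h (H1π 𝓛 σ z) = H1π (𝓛.onSub V) ρV ⟨fun v => (z : G → Ω → A) v x,
      pp1_mem_Z1 (f := V.subtype) (ρA := σ) (ρB := ρV) (φ := LinearMap.proj x)
        (𝓛.cont_onSub V) h z.2⟩ := rfl

lemma ev2_mk (h : EvC σ x V ρV) (z : ↥(Z2 𝓛 σ)) :
    ev2 𝓛 h (H2π 𝓛 σ z) = H2π (𝓛.onSub V) ρV ⟨fun v => (z : G × G → Ω → A) (v.1, v.2) x,
      pp2_mem_Z2 (f := V.subtype) (ρA := σ) (ρB := ρV) (φ := LinearMap.proj x)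
        (𝓛.cont_onSub V) h z.2⟩ := rfl

/-- the action on `Ω` factors through an open subgroup -/
def OpenKer (𝓛 : Levels G) (a : G →* Equiv.Perm Ω) : Prop := 𝓛.op a.ker

lemma OpenKer.exists_normal {𝓛 : Levels G} {a : G →* Equiv.Perm Ω} (h : OpenKer 𝓛 a) :
    ∃ N, 𝓛.op N ∧ N.Normal ∧ ∀ s ∈ N, ∀ x, a s x = x :=
  ⟨a.ker, h, inferInstance, fun s hs x => by rw [MonoidHom.mem_ker.1 hs]; rfl⟩

lemma OpenKer.comp {𝓛 : Levels G} {a : G →* Equiv.Perm Ω} (h : OpenKer 𝓛 a) {H : Type*} [Group H]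
    {𝓜 : Levels H} {f : H →* G} (hf : Levels.Cont 𝓜 𝓛 f) : OpenKer 𝓜 (a.comp f) := by
  have := hf _ h
  rwa [MonoidHom.comap_ker] at this

lemma op_finite_inf {𝓛 : Levels G} {I : Type*} [Finite I] {U : I → Subgroup G}
    (h : ∀ i, 𝓛.op (U i)) : 𝓛.op (⨅ i, U i) := by
  classical
  have := Fintype.ofFinite I
  have hop : ∀ s : Finset I, 𝓛.op (⨅ i ∈ s, U i) := by
    intro s
    induction s using Finset.induction_on with
    | empty => simpa using 𝓛.op_top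
    | insert i s hi ih =>
      rw [Finset.iInf_insert]
      exact 𝓛.op_inf (h i) ih
  simpa using hop Finset.univ

lemma OpenKer.of_finite {𝓛 : Levels G} {a : G →* Equiv.Perm Ω} [Finite Ω]
    (h : ∀ x : Ω, ∃ U, 𝓛.op U ∧ ∀ s ∈ U, a s x = x) : OpenKer 𝓛 a := by
  choose U hU h' using h
  refine 𝓛.op_mono ?_ (op_finite_inf hU)
  intro s hs
  rw [MonoidHom.mem_ker]
  ext x
  exact h' x s (Subgroup.mem_iInf.1 hs x)

lemma smooth_of_isFun {𝓛 : Levels G} {a : G →* Equiv.Perm Ω} {ρ : Representation k G A}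
    {σ : Representation k G (Ω → A)} [Finite Ω] (h : IsFun a ρ σ) (hs : Smooth 𝓛 ρ)
    (ha : OpenKer 𝓛 a) : Smooth 𝓛 σ := by
  intro F
  obtain ⟨V, hV, h1⟩ := hs.uniform (Set.finite_range F)
  refine ⟨V ⊓ a.ker, 𝓛.op_inf hV ha, fun s hs => ?_⟩
  funext x
  have h2 := h s F x
  rw [MonoidHom.mem_ker.1 hs.2, Equiv.Perm.one_apply, h1 s hs.1 _ ⟨x, rfl⟩] at h2
  exact h2

end Fn

/-! ### Representatives of orbits -/

/-- A system of representatives for the orbits, with transporting elements. -/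
structure Reps {G : Type*} [Group G] {Ω : Type*} (a : G →* Equiv.Perm Ω) (I : Type*) where
  /-- the representative -/
  pt : I → Ω
  /-- its stabiliser -/
  V : I → Subgroup G
  mem_V : ∀ i g, g ∈ V i ↔ a g (pt i) = pt i
  /-- the orbit of a point -/
  idx : Ω → I
  /-- the transporting element -/
  τ : Ω → G
  τ_smul : ∀ x, a (τ x) (pt (idx x)) = x
  idx_smul : ∀ (g : G) x, idx (a g x) = idx x
  idx_pt : ∀ i, idx (pt i) = i
  τ_pt : ∀ i, τ (pt i) = 1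

namespace Reps

variable {G : Type*} [Group G] {Ω : Type*} {a : G →* Equiv.Perm Ω}

lemma perm_inv (g : G) (x : Ω) : a g⁻¹ (a g x) = x := by
  rw [← Equiv.Perm.mul_apply, ← map_mul, inv_mul_cancel, map_one, Equiv.Perm.one_apply]

lemma perm_inv' (g : G) (x : Ω) : a g (a g⁻¹ x) = x := by
  rw [← Equiv.Perm.mul_apply, ← map_mul, mul_inv_cancel, map_one, Equiv.Perm.one_apply]

lemma perm_mul (g h : G) (x : Ω) : a (g * h) x = a g (a h x) := by
  rw [map_mul, Equiv.Perm.mul_apply]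

open Classical in
/-- representatives from a family meeting each orbit exactly once -/
noncomputable def mk' {I : Type*} (pt : I → Ω) (V : I → Subgroup G)
    (hV : ∀ i g, g ∈ V i ↔ a g (pt i) = pt i) (h : ∀ y, ∃! i, ∃ g, a g (pt i) = y) :
    Reps a I where
  pt := pt
  V := V
  mem_V := hV
  idx x := (h x).choose
  τ x := if x = pt (h x).choose then 1 else (h x).choose_spec.1.choose
  τ_smul x := by
    split_ifs with h'
    · rw [map_one, Equiv.Perm.one_apply]; exact h'.symm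
    · exact (h x).choose_spec.1.choose_spec
  idx_smul g x := by
    refine ((h (a g x)).choose_spec.2 _ ?_).symm
    obtain ⟨g', hg'⟩ := (h x).choose_spec.1
    exact ⟨g * g', by rw [perm_mul, hg']⟩
  idx_pt i := ((h (pt i)).choose_spec.2 i ⟨1, by rw [map_one, Equiv.Perm.one_apply]⟩).symm
  τ_pt i := by
    refine if_pos ?_
    congr 1
    exact (h (pt i)).choose_spec.2 i ⟨1, by rw [map_one, Equiv.Perm.one_apply]⟩

lemma mk'_pt {I : Type*} (pt : I → Ω) (V : I → Subgroup G)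
    (hV : ∀ i g, g ∈ V i ↔ a g (pt i) = pt i) (h : ∀ y, ∃! i, ∃ g, a g (pt i) = y) :
    (mk' pt V hV h).pt = pt := rfl

lemma mk'_V {I : Type*} (pt : I → Ω) (V : I → Subgroup G)
    (hV : ∀ i g, g ∈ V i ↔ a g (pt i) = pt i) (h : ∀ y, ∃! i, ∃ g, a g (pt i) = y) :
    (mk' pt V hV h).V = V := rfl

variable {I : Type*} (R : Reps a I)

/-- the induced elements of the stabilisers -/
def u (g : G) (x : Ω) : G := (R.τ x)⁻¹ * g * R.τ (a g⁻¹ x)

lemma idx_inv_smul (g : G) (x : Ω) : R.idx (a g⁻¹ x) = R.idx x := R.idx_smul _ _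

lemma τ_inv_smul (x : Ω) : a (R.τ x)⁻¹ x = R.pt (R.idx x) := by
  have h : a (R.τ x)⁻¹ (a (R.τ x) (R.pt (R.idx x))) = R.pt (R.idx x) := perm_inv _ _
  rwa [R.τ_smul] at h

lemma u_mem (g : G) (x : Ω) : R.u g x ∈ R.V (R.idx x) := by
  rw [R.mem_V, u, perm_mul, perm_mul, ← R.idx_inv_smul g x, R.τ_smul,
    perm_inv', R.τ_inv_smul, R.idx_inv_smul]

lemma τ_mul_u (g : G) (x : Ω) : R.τ x * R.u g x = g * R.τ (a g⁻¹ x) := by
  rw [u]; group

lemma u_mul (g h : G) (x : Ω) : R.u (g * h) x = R.u g x * R.u h (a g⁻¹ x) := by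
  simp only [u, mul_inv_rev, perm_mul]
  group

lemma V_inv {i : I} {g : G} (hg : g ∈ R.V i) : a g⁻¹ (R.pt i) = R.pt i :=
  (R.mem_V i _).1 ((R.V i).inv_mem hg)

lemma u_pt {i : I} {g : G} (hg : g ∈ R.V i) : R.u g (R.pt i) = g := by
  rw [u, R.V_inv hg, R.τ_pt]
  group

lemma u_mul_of_fix (g s : G) (x : Ω) (hs : ∀ y : Ω, a s y = y) :
    R.u (g * s) x = R.u g x * ((R.τ (a g⁻¹ x))⁻¹ * s * R.τ (a g⁻¹ x)) := by
  have h1 : a (g * s)⁻¹ x = a g⁻¹ x := by
    rw [mul_inv_rev, perm_mul]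
    have := hs (a s⁻¹ (a g⁻¹ x))
    rw [perm_inv'] at this
    exact this.symm
  rw [u, u, h1]
  group

lemma fix_inv (g s : G) (x : Ω) (hs : ∀ y : Ω, a s y = y) : a (g * s)⁻¹ x = a g⁻¹ x := by
  rw [mul_inv_rev, perm_mul]
  have := hs (a s⁻¹ (a g⁻¹ x))
  rw [perm_inv'] at this
  exact this.symm

end Reps

/-! ### Extension by zero -/

section Ext

variable {G : Type*} [Group G] {A : Type*} [AddCommGroup A] (U : Subgroup G)

open Classical in
/-- extension by zero of a 1-cochain on a subgroup -/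
noncomputable def ext0₁ (f : U → A) (g : G) : A := if h : g ∈ U then f ⟨g, h⟩ else 0

open Classical in
/-- extension by zero of a 2-cochain on a subgroup -/
noncomputable def ext0₂ (f : U × U → A) (g : G × G) : A :=
  if h : g.1 ∈ U ∧ g.2 ∈ U then f (⟨g.1, h.1⟩, ⟨g.2, h.2⟩) else 0

variable {U}

lemma ext0₁_apply (f : U → A) {g : G} (h : g ∈ U) : ext0₁ U f g = f ⟨g, h⟩ := dif_pos h

lemma ext0₂_apply (f : U × U → A) {g g' : G} (h : g ∈ U) (h' : g' ∈ U) :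
    ext0₂ U f (g, g') = f (⟨g, h⟩, ⟨g', h'⟩) := dif_pos ⟨h, h'⟩

end Ext

section Shapiro

variable {k : Type*} [CommRing k] {G : Type*} [Group G] {A : Type*} [AddCommGroup A] [Module k A]
variable {𝓛 : Levels G} {Ω : Type*} {a : G →* Equiv.Perm Ω}
  {ρ : Representation k G A} {σ : Representation k G (Ω → A)} (hσ : IsFun a ρ σ)
  {I : Type*} (R : Reps a I)
  {ρV : ∀ i, Representation k (R.V i) A} (hρ : ∀ i (v : R.V i) b, ρV i v b = ρ v b)
  (hev : ∀ i, EvC σ (R.pt i) (R.V i) (ρV i))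

/-- the semi-local Shapiro map in degree 1 -/
def sh1 (𝓛 : Levels G) {a : G →* Equiv.Perm Ω} (R : Reps a I)
    {ρV : ∀ i, Representation k (R.V i) A} (hev : ∀ i, EvC σ (R.pt i) (R.V i) (ρV i)) :
    H1 𝓛 σ →ₗ[k] ∀ i, H1 (𝓛.onSub (R.V i)) (ρV i) :=
  LinearMap.pi fun i => ev1 (ρV := ρV i) 𝓛 (hev i)

/-- the semi-local Shapiro map in degree 2 -/
def sh2 (𝓛 : Levels G) {a : G →* Equiv.Perm Ω} (R : Reps a I)
    {ρV : ∀ i, Representation k (R.V i) A} (hev : ∀ i, EvC σ (R.pt i) (R.V i) (ρV i)) :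
    H2 𝓛 σ →ₗ[k] ∀ i, H2 (𝓛.onSub (R.V i)) (ρV i) :=
  LinearMap.pi fun i => ev2 (ρV := ρV i) 𝓛 (hev i)

lemma sh1_apply (x : H1 𝓛 σ) (i : I) : sh1 𝓛 R hev x i = ev1 (ρV := ρV i) 𝓛 (hev i) x := rfl

lemma sh2_apply (x : H2 𝓛 σ) (i : I) : sh2 𝓛 R hev x i = ev2 (ρV := ρV i) 𝓛 (hev i) x := rfl

include hσ hρ

lemma shap0_bijective (hev' : ∀ (F : σ.invariants) (i : I),
      (F : Ω → A) (R.pt i) ∈ (ρV i).invariants) :
    Bijective (fun (F : σ.invariants) (i : I) => (⟨(F : Ω → A) (R.pt i), hev' F i⟩ :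
      (ρV i).invariants)) := by
  constructor
  · intro F F' h
    apply Subtype.ext
    funext x
    have h1 : ∀ i, (F : Ω → A) (R.pt i) = (F' : Ω → A) (R.pt i) := fun i =>
      congrArg Subtype.val (congrFun h i)
    have h2 := congrFun (F.2 (R.τ x)) x
    have h3 := congrFun (F'.2 (R.τ x)) x
    rw [hσ.apply_inv, R.τ_inv_smul] at h2 h3
    rw [← h2, ← h3, h1]
  · intro b
    refine ⟨⟨fun x => ρ (R.τ x) (b (R.idx x) : A), fun g => ?_⟩, ?_⟩
    · funext x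
      rw [hσ.apply_inv, ← rep_mul, ← R.τ_mul_u, rep_mul, R.idx_inv_smul]
      congr 1
      have := (b (R.idx x)).2 ⟨R.u g x, R.u_mem g x⟩
      rwa [hρ] at this
    · funext i
      apply Subtype.ext
      simp only [R.τ_pt, rep_one]
      rw [R.idx_pt]

lemma shap1_injective : Injective (sh1 𝓛 R hev) := by
  rw [injective_iff_map_eq_zero]
  intro z hz
  obtain ⟨F, rfl⟩ := H1π_surjective 𝓛 σ z
  have h1 : ∀ i, ∃ b : A, ∀ g ∈ R.V i, (F : G → Ω → A) g (R.pt i) = ρ g b - b := by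
    intro i
    have h2 := congrFun hz i
    rw [sh1_apply, ev1_mk, Pi.zero_apply, mkH1_eq_zero_iff] at h2
    obtain ⟨b, hb⟩ := h2
    exact ⟨b, fun g hg => (hb ⟨g, hg⟩).trans (by rw [hρ])⟩
  choose b hb using h1
  have hF := F.2.2
  rw [mkH1_eq_zero_iff]
  refine ⟨fun x => ρ (R.τ x) (b (R.idx x)) - (F : G → Ω → A) (R.τ x) x, fun g => ?_⟩
  funext x
  have e1 := congrFun (hF g (R.τ (a g⁻¹ x))) x
  have e2 := congrFun (hF (R.τ x) (R.u g x)) x
  rw [R.τ_mul_u, e1] at e2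
  simp only [Pi.add_apply, hσ.apply_inv, R.τ_inv_smul, hb _ _ (R.u_mem g x)] at e2
  simp only [Pi.sub_apply, hσ.apply_inv, map_sub]
  rw [← rep_mul ρ g, ← R.τ_mul_u, rep_mul, R.idx_inv_smul]
  rw [map_sub] at e2
  rw [eq_comm, ← sub_eq_zero]
  rw [eq_comm, ← sub_eq_zero] at e2
  rw [← e2]
  abel

lemma shap1_surjective [Finite I] (ha : OpenKer 𝓛 a) :
    Surjective (sh1 𝓛 R hev) := by
  intro z
  choose c hc using fun i => H1π_surjective _ _ (z i)
  set c' : I → G → A := fun i => ext0₁ (R.V i) (c i : _ → A) with hc'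
  have hcoc : ∀ i, ∀ s ∈ R.V i, ∀ t ∈ R.V i, c' i (s * t) = ρ s (c' i t) + c' i s := by
    intro i s hs t ht
    have := (c i).2.2 ⟨s, hs⟩ ⟨t, ht⟩
    rw [hρ] at this
    rw [hc']
    simp only
    rw [ext0₁_apply _ hs, ext0₁_apply _ ht, ext0₁_apply _ (mul_mem hs ht)]
    exact this
  obtain ⟨V, hV, hVc⟩ : ∃ V, 𝓛.op V ∧ ∀ i, ∀ s ∈ R.V i, ∀ t ∈ V, t ∈ R.V i →
      c' i (s * t) = c' i s := by
    have h : ∀ i, ∃ V, 𝓛.op V ∧ ∀ s ∈ R.V i, ∀ t ∈ V, t ∈ R.V i → c' i (s * t) = c' i s := by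
      intro i
      obtain ⟨W, ⟨V, hV, hle⟩, h⟩ := (c i).2.1
      refine ⟨V, hV, fun s hs t ht ht' => ?_⟩
      have := h ⟨s, hs⟩ ⟨t, ht'⟩ (hle ht)
      rw [hc']
      simp only
      rw [ext0₁_apply _ hs, ext0₁_apply _ (mul_mem hs ht')]
      exact this
    choose V hV h' using h
    exact ⟨⨅ i, V i, op_finite_inf hV, fun i s hs t ht ht' =>
      h' i s hs t (Subgroup.mem_iInf.1 ht i) ht'⟩
  obtain ⟨W, hW, hWn, hWfix⟩ := ha.exists_normal
  let C : G → Ω → A := fun g x => ρ (R.τ x) (c' (R.idx x) (R.u g x))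
  have hCdef : ∀ g x, C g x = ρ (R.τ x) (c' (R.idx x) (R.u g x)) := fun _ _ => rfl
  have hC : C ∈ Z1 𝓛 σ := by
    constructor
    · obtain ⟨Y, hY, hYn, hYX⟩ := 𝓛.exists_normal (𝓛.op_inf hV hW)
      refine ⟨Y, hY, fun g s hs => ?_⟩
      funext x
      have hfix : ∀ y : Ω, a s y = y := hWfix s (hYX hs).2
      have hconj : (R.τ (a g⁻¹ x))⁻¹ * s * R.τ (a g⁻¹ x) ∈ Y := by
        simpa using hYn.conj_mem s hs (R.τ (a g⁻¹ x))⁻¹
      rw [hCdef, hCdef, R.u_mul_of_fix g s x hfix, hVc _ _ (R.u_mem g x) _ (hYX hconj).1]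
      rw [R.mem_V]
      exact hWfix _ (hYX hconj).2 _
    · intro g h
      funext x
      rw [Pi.add_apply, hσ.apply_inv, hCdef, hCdef, hCdef, R.u_mul, R.idx_inv_smul,
        hcoc _ _ (R.u_mem g x) _ (by rw [← R.idx_inv_smul g x]; exact R.u_mem h _),
        map_add, ← rep_mul, R.τ_mul_u, rep_mul]
  refine ⟨H1π 𝓛 σ ⟨C, hC⟩, ?_⟩
  funext i
  rw [sh1_apply, ev1_mk, ← hc i]
  congr 1
  apply Subtype.ext
  funext g
  have h1 : C g (R.pt i) = (c i : _ → A) g := by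
    rw [hCdef, R.τ_pt, rep_one, R.idx_pt, R.u_pt g.2]
    exact ext0₁_apply _ g.2
  exact h1

theorem shap1_bijective [Finite I] (ha : OpenKer 𝓛 a) :
    Bijective (sh1 𝓛 R hev) :=
  ⟨shap1_injective hσ R hρ hev, shap1_surjective hσ R hρ hev ha⟩

lemma shap2_injective [Finite I] (ha : OpenKer 𝓛 a) :
    Injective (sh2 𝓛 R hev) := by
  rw [injective_iff_map_eq_zero]
  intro z hz
  obtain ⟨F, rfl⟩ := H2π_surjective 𝓛 σ z
  have h1 : ∀ i, ∃ b : R.V i → A, LC1 (𝓛.onSub (R.V i)) b ∧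
      ∀ g h : R.V i, (F : G × G → Ω → A) ((g : G), (h : G)) (R.pt i) =
        ρ g (b h) - b (g * h) + b g := by
    intro i
    have h2 := congrFun hz i
    rw [sh2_apply, ev2_mk, Pi.zero_apply, mkH2_eq_zero_iff] at h2
    simpa only [hρ] using h2
  choose b hbc hb using h1
  set b' : I → G → A := fun i => ext0₁ (R.V i) (b i) with hb'
  have hcob : ∀ i, ∀ s ∈ R.V i, ∀ c ∈ R.V i,
      (F : G × G → Ω → A) (s, c) (R.pt i) = ρ s (b' i c) - b' i (s * c) + b' i s := by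
    intro i s hs c hc
    have := hb i ⟨s, hs⟩ ⟨c, hc⟩
    rw [hb']
    simp only
    rw [ext0₁_apply _ hs, ext0₁_apply _ hc, ext0₁_apply _ (mul_mem hs hc)]
    exact this
  obtain ⟨V, hV, hVc⟩ : ∃ V, 𝓛.op V ∧ ∀ i, ∀ s ∈ R.V i, ∀ t ∈ V, t ∈ R.V i →
      b' i (s * t) = b' i s := by
    have h : ∀ i, ∃ V, 𝓛.op V ∧ ∀ s ∈ R.V i, ∀ t ∈ V, t ∈ R.V i → b' i (s * t) = b' i s := by
      intro i
      obtain ⟨W, ⟨V, hV, hle⟩, h⟩ := hbc i
      refine ⟨V, hV, fun s hs t ht ht' => ?_⟩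
      have := h ⟨s, hs⟩ ⟨t, ht'⟩ (hle ht)
      rw [hb']
      simp only
      rw [ext0₁_apply _ hs, ext0₁_apply _ (mul_mem hs ht')]
      exact this
    choose V hV h' using h
    exact ⟨⨅ i, V i, op_finite_inf hV, fun i s hs t ht ht' =>
      h' i s hs t (Subgroup.mem_iInf.1 ht i) ht'⟩
  obtain ⟨W, hW, hWn, hWfix⟩ := ha.exists_normal
  have hF := F.2.2
  rw [mkH2_eq_zero_iff]
  let B : G → Ω → A := fun g x => ρ (R.τ x) (b' (R.idx x) (R.u g x))
    - (F : G × G → Ω → A) (R.τ x, R.u g x) x + (F : G × G → Ω → A) (g, R.τ (a g⁻¹ x)) x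
  have hBdef : ∀ g x, B g x = ρ (R.τ x) (b' (R.idx x) (R.u g x))
    - (F : G × G → Ω → A) (R.τ x, R.u g x) x + (F : G × G → Ω → A) (g, R.τ (a g⁻¹ x)) x :=
    fun _ _ => rfl
  refine ⟨B, ?_, fun g h => ?_⟩
  · obtain ⟨V', hV', hVF⟩ := F.2.1
    obtain ⟨Y, hY, hYn, hYX⟩ := 𝓛.exists_normal (𝓛.op_inf (𝓛.op_inf hV hW) hV')
    refine ⟨Y, hY, fun g s hs => ?_⟩
    funext x
    have hfix : ∀ y : Ω, a s y = y := hWfix s (hYX hs).1.2
    have hconj : (R.τ (a g⁻¹ x))⁻¹ * s * R.τ (a g⁻¹ x) ∈ Y := by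
      simpa using hYn.conj_mem s hs (R.τ (a g⁻¹ x))⁻¹
    have h2 := hVF (R.τ x) (R.u g x) 1 V'.one_mem _ (hYX hconj).2
    rw [mul_one] at h2
    have h3 := hVF g (R.τ (a g⁻¹ x)) s (hYX hs).2 1 V'.one_mem
    rw [mul_one] at h3
    rw [hBdef, hBdef, R.u_mul_of_fix g s x hfix, Reps.fix_inv g s x hfix, h2, h3,
      hVc _ _ (R.u_mem g x) _ (hYX hconj).1.1]
    rw [R.mem_V]
    exact hWfix _ (hYX hconj).1.2 _
  · funext x
    simp only [Pi.add_apply, Pi.sub_apply, hσ.apply_inv, hBdef]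
    have hy : R.idx (a g⁻¹ x) = R.idx x := R.idx_inv_smul g x
    have hum := R.u_mem h (a g⁻¹ x)
    rw [hy] at hum
    have e0 := hcob (R.idx x) (R.u g x) (R.u_mem g x) (R.u h (a g⁻¹ x)) hum
    have e1 := (congrFun (hF (R.τ x) (R.u g x) (R.u h (a g⁻¹ x))) x).symm
    have e2 := (congrFun (hF g h (R.τ (a h⁻¹ (a g⁻¹ x)))) x).symm
    have e3 := (congrFun (hF g (R.τ (a g⁻¹ x)) (R.u h (a g⁻¹ x))) x).symm
    simp only [Pi.add_apply, hσ.apply_inv, R.τ_inv_smul] at e1 e2 e3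
    have t1 : ρ g (ρ (R.τ (a g⁻¹ x)) (b' (R.idx x) (R.u h (a g⁻¹ x)))) =
        ρ (R.τ x) (ρ (R.u g x) (b' (R.idx x) (R.u h (a g⁻¹ x)))) := by
      rw [← rep_mul, ← R.τ_mul_u, rep_mul]
    rw [e0, ← R.u_mul, R.τ_mul_u] at e1
    rw [R.τ_mul_u] at e3
    rw [mul_inv_rev, Reps.perm_mul, hy]
    simp only [map_add, map_sub, t1] at e1 e2 e3 ⊢
    rw [← eq_sub_iff_add_eq] at e1 e2 e3
    have e4 : (F : G × G → Ω → A) (g, h) x = ρ g ((F : G × G → Ω → A) (h, R.τ (a h⁻¹ (a g⁻¹ x)))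
      (a g⁻¹ x)) + (F : G × G → Ω → A) (g, h * R.τ (a h⁻¹ (a g⁻¹ x))) x
      - (F : G × G → Ω → A) (g * h, R.τ (a h⁻¹ (a g⁻¹ x))) x := by
      rw [e2]; abel
    have e5 : ρ (R.τ x) (b' (R.idx x) (R.u g x)) = (F : G × G → Ω → A)
      (g * R.τ (a g⁻¹ x), R.u h (a g⁻¹ x)) x + (F : G × G → Ω → A) (R.τ x, R.u g x) x
      - (F : G × G → Ω → A) (R.τ x, R.u (g * h) x) x
      - ρ (R.τ x) (ρ (R.u g x) (b' (R.idx x) (R.u h (a g⁻¹ x))))
      + ρ (R.τ x) (b' (R.idx x) (R.u (g * h) x)) := by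
      rw [eq_sub_iff_add_eq] at e1
      rw [← e1]; abel
    rw [e4, e5, e3]
    abel

lemma shap2_surjective [Finite I] (ha : OpenKer 𝓛 a) :
    Surjective (sh2 𝓛 R hev) := by
  intro z
  choose c hc using fun i => H2π_surjective _ _ (z i)
  set c' : I → G × G → A := fun i => ext0₂ (R.V i) (c i : _ → A) with hc'
  have hcoc : ∀ i, ∀ s ∈ R.V i, ∀ t ∈ R.V i, ∀ d ∈ R.V i,
      c' i (s * t, d) + c' i (s, t) = ρ s (c' i (t, d)) + c' i (s, t * d) := by
    intro i s hs t ht d hd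
    have := (c i).2.2 ⟨s, hs⟩ ⟨t, ht⟩ ⟨d, hd⟩
    rw [hρ] at this
    rw [hc']
    simp only
    rw [ext0₂_apply _ ht hd, ext0₂_apply _ hs (mul_mem ht hd), ext0₂_apply _ (mul_mem hs ht) hd,
      ext0₂_apply _ hs ht]
    exact this
  obtain ⟨V, hV, hVc⟩ : ∃ V, 𝓛.op V ∧ ∀ i, ∀ g ∈ R.V i, ∀ h ∈ R.V i,
      ∀ s ∈ V, s ∈ R.V i → ∀ t ∈ V, t ∈ R.V i → c' i (g * s, h * t) = c' i (g, h) := by
    have h : ∀ i, ∃ V, 𝓛.op V ∧ ∀ g ∈ R.V i, ∀ h ∈ R.V i,
        ∀ s ∈ V, s ∈ R.V i → ∀ t ∈ V, t ∈ R.V i → c' i (g * s, h * t) = c' i (g, h) := by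
      intro i
      obtain ⟨W, ⟨V, hV, hle⟩, h⟩ := (c i).2.1
      refine ⟨V, hV, fun x hx y hy s hs hs' t ht ht' => ?_⟩
      have := h ⟨x, hx⟩ ⟨y, hy⟩ ⟨s, hs'⟩ (hle hs) ⟨t, ht'⟩ (hle ht)
      rw [hc']
      simp only
      rw [ext0₂_apply _ hx hy, ext0₂_apply _ (mul_mem hx hs') (mul_mem hy ht')]
      exact this
    choose V hV h' using h
    exact ⟨⨅ i, V i, op_finite_inf hV, fun i x hx y hy s hs hs' t ht ht' =>
      h' i x hx y hy s (Subgroup.mem_iInf.1 hs i) hs' t (Subgroup.mem_iInf.1 ht i) ht'⟩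
  obtain ⟨W, hW, hWn, hWfix⟩ := ha.exists_normal
  let C : G × G → Ω → A := fun p x =>
    ρ (R.τ x) (c' (R.idx x) (R.u p.1 x, R.u p.2 (a p.1⁻¹ x)))
  have hCdef : ∀ g h x, C (g, h) x = ρ (R.τ x) (c' (R.idx x) (R.u g x, R.u h (a g⁻¹ x))) :=
    fun _ _ _ => rfl
  have hC : C ∈ Z2 𝓛 σ := by
    constructor
    · obtain ⟨Y, hY, hYn, hYX⟩ := 𝓛.exists_normal (𝓛.op_inf hV hW)
      refine ⟨Y, hY, fun g h s hs t ht => ?_⟩
      funext x
      have hfix : ∀ s ∈ Y, ∀ y : Ω, a s y = y := fun s hs => hWfix s (hYX hs).2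
      have hconj : ∀ s ∈ Y, ∀ g : G, g⁻¹ * s * g ∈ Y := fun s hs g => by
        simpa using hYn.conj_mem s hs g⁻¹
      have hy : R.idx (a g⁻¹ x) = R.idx x := R.idx_inv_smul g x
      have hum := R.u_mem h (a g⁻¹ x)
      rw [hy] at hum
      rw [hCdef, hCdef, Reps.fix_inv g s x (hfix s hs), R.u_mul_of_fix g s x (hfix s hs),
        R.u_mul_of_fix h t _ (hfix t ht)]
      rw [hVc _ _ (R.u_mem g x) _ hum _ (hYX (hconj s hs _)).1 ?_ _
        (hYX (hconj t ht _)).1 ?_]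
      · rw [R.mem_V]
        exact hWfix _ (hYX (hconj s hs _)).2 _
      · rw [R.mem_V]
        exact hWfix _ (hYX (hconj t ht _)).2 _
    · intro g h j
      funext x
      have hy : R.idx (a g⁻¹ x) = R.idx x := R.idx_inv_smul g x
      have hz : R.idx (a h⁻¹ (a g⁻¹ x)) = R.idx x := by rw [R.idx_inv_smul, hy]
      have hum := R.u_mem h (a g⁻¹ x)
      rw [hy] at hum
      have huz := R.u_mem j (a h⁻¹ (a g⁻¹ x))
      rw [hz] at huz
      rw [Pi.add_apply, Pi.add_apply, hσ.apply_inv, hCdef, hCdef, hCdef, hCdef, hy, ← rep_mul,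
        ← R.τ_mul_u, rep_mul, R.u_mul, R.u_mul, mul_inv_rev, Reps.perm_mul, ← map_add, ← map_add,
        hcoc _ _ (R.u_mem g x) _ hum _ huz]
  refine ⟨H2π 𝓛 σ ⟨C, hC⟩, ?_⟩
  funext i
  rw [sh2_apply, ev2_mk, ← hc i]
  congr 1
  apply Subtype.ext
  funext ⟨g, h⟩
  have h1 : C (g, h) (R.pt i) = (c i : _ → A) (g, h) := by
    rw [hCdef, R.τ_pt, rep_one, R.idx_pt, R.u_pt g.2, R.V_inv g.2, R.u_pt h.2]
    exact ext0₂_apply _ g.2 h.2
  exact h1

theorem shap2_bijective [Finite I] (ha : OpenKer 𝓛 a) :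
    Bijective (sh2 𝓛 R hev) :=
  ⟨shap2_injective hσ R hρ hev ha, shap2_surjective hσ R hρ hev ha⟩

end Shapiro

end Fermat.Agent.H92
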