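import Mathlib
import Fermat.Agent.H92ShapA

set_option autoImplicit false
set_option maxSynthPendingDepth 3

/-!
# Shapiro's lemma: corollaries, Mackey compatibility, direct summands
-/

namespace Fermat.Agent.H92

open Fermat.Agent.H55 Function Module

/-! ### Equivalences and dimensions -/

section Equiv

variable {k : Type*} [CommRing k] {G : Type*} [Group G] {A : Type*} [AddCommGroup A] [Module k A]
variable {𝓛 : Levels G} {Ω : Type*} {a : G →* Equiv.Perm Ω}
  {ρ : Representation k G A} {σ : Representation k G (Ω → A)} (hσ : IsFun a ρ σ)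
  {I : Type*} (R : Reps a I)
  {ρV : ∀ i, Representation k (R.V i) A} (hρ : ∀ i (v : R.V i) b, ρV i v b = ρ v b)
  (hev : ∀ i, EvC σ (R.pt i) (R.V i) (ρV i))

include hσ hρ in
lemma IsFun.evC_reps (i : I) : EvC σ (R.pt i) (R.V i) (ρV i) :=
  hσ.evC (fun g hg => (R.mem_V i g).1 hg) (hρ i)

lemma ev_mem_invariants {x : Ω} {V : Subgroup G} {ρV : Representation k V A}
    (h : EvC σ x V ρV) (F : σ.invariants) : (F : Ω → A) x ∈ ρV.invariants := fun v => by
  rw [← h v, F.2 v]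

/-- Shapiro in degree 0 -/
noncomputable def shapEquiv0 : σ.invariants ≃ₗ[k] ∀ i, (ρV i).invariants :=
  LinearEquiv.ofBijective
    { toFun := fun F i => ⟨(F : Ω → A) (R.pt i), ev_mem_invariants (hev i) F⟩
      map_add' := fun _ _ => rfl
      map_smul' := fun _ _ => rfl }
    (shap0_bijective hσ R hρ (fun F i => ev_mem_invariants (hev i) F))

/-- Shapiro in degree 1 -/
noncomputable def shapEquiv1 [Finite I] (ha : OpenKer 𝓛 a) :
    H1 𝓛 σ ≃ₗ[k] ∀ i, H1 (𝓛.onSub (R.V i)) (ρV i) :=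
  LinearEquiv.ofBijective _ (shap1_bijective hσ R hρ hev ha)

/-- Shapiro in degree 2 -/
noncomputable def shapEquiv2 [Finite I] (ha : OpenKer 𝓛 a) :
    H2 𝓛 σ ≃ₗ[k] ∀ i, H2 (𝓛.onSub (R.V i)) (ρV i) :=
  LinearEquiv.ofBijective _ (shap2_bijective hσ R hρ hev ha)

@[simp] lemma shapEquiv1_apply [Finite I] (ha : OpenKer 𝓛 a) (x : H1 𝓛 σ) (i : I) :
    shapEquiv1 hσ R hρ hev ha x i = ev1 𝓛 (hev i) x := rfl

@[simp] lemma shapEquiv2_apply [Finite I] (ha : OpenKer 𝓛 a) (x : H2 𝓛 σ) (i : I) :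
    shapEquiv2 hσ R hρ hev ha x i = ev2 𝓛 (hev i) x := rfl

end Equiv

section Field

variable {k : Type*} [Field k] {G : Type*} [Group G] {A : Type*} [AddCommGroup A] [Module k A]
variable {𝓛 : Levels G} {Ω : Type*} {a : G →* Equiv.Perm Ω}
  {ρ : Representation k G A} {σ : Representation k G (Ω → A)} (hσ : IsFun a ρ σ)
  {I : Type*} [Fintype I] (R : Reps a I)
  {ρV : ∀ i, Representation k (R.V i) A} (hρ : ∀ i (v : R.V i) b, ρV i v b = ρ v b)

include hσ hρ

lemma shap_finite1 (ha : OpenKer 𝓛 a) [∀ i, Module.Finite k (H1 (𝓛.onSub (R.V i)) (ρV i))] :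
    Module.Finite k (H1 𝓛 σ) :=
  Module.Finite.equiv (shapEquiv1 hσ R hρ (fun i => hσ.evC_reps R hρ i) ha).symm

lemma shap_finite2 (ha : OpenKer 𝓛 a) [∀ i, Module.Finite k (H2 (𝓛.onSub (R.V i)) (ρV i))] :
    Module.Finite k (H2 𝓛 σ) :=
  Module.Finite.equiv (shapEquiv2 hσ R hρ (fun i => hσ.evC_reps R hρ i) ha).symm

lemma shap_finrank0 [FiniteDimensional k A] :
    finrank k σ.invariants = ∑ i, finrank k (ρV i).invariants := by
  rw [(shapEquiv0 hσ R hρ (fun i => hσ.evC_reps R hρ i)).finrank_eq]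
  exact Module.finrank_pi_fintype k

lemma shap_finrank1 (ha : OpenKer 𝓛 a) [∀ i, Module.Finite k (H1 (𝓛.onSub (R.V i)) (ρV i))] :
    finrank k (H1 𝓛 σ) = ∑ i, finrank k (H1 (𝓛.onSub (R.V i)) (ρV i)) := by
  rw [(shapEquiv1 hσ R hρ (fun i => hσ.evC_reps R hρ i) ha).finrank_eq]
  exact Module.finrank_pi_fintype k

lemma shap_finrank2 (ha : OpenKer 𝓛 a) [∀ i, Module.Finite k (H2 (𝓛.onSub (R.V i)) (ρV i))] :
    finrank k (H2 𝓛 σ) = ∑ i, finrank k (H2 (𝓛.onSub (R.V i)) (ρV i)) := by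
  rw [(shapEquiv2 hσ R hρ (fun i => hσ.evC_reps R hρ i) ha).finrank_eq]
  exact Module.finrank_pi_fintype k

end Field

/-! ### The form for `MulAction` -/

section MulAct

variable {k : Type*} [CommRing k] {G : Type*} [Group G] {A : Type*} [AddCommGroup A] [Module k A]
variable {𝓛 : Levels G} {Ω : Type*} [MulAction G Ω] (ρ : Representation k G A)

lemma evC_funRep {x : Ω} {V : Subgroup G} (hV : ∀ g ∈ V, g • x = x)
    {ρV : Representation k V A} (hρ : ∀ (v : V) b, ρV v b = ρ v b) :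
    EvC (funRep Ω ρ) x V ρV :=
  (isFun_funRep (Ω := Ω) ρ).evC (a := MulAction.toPermHom G Ω) hV hρ

lemma openKer_of_finite [Finite Ω] (h : ∀ x : Ω, ∃ U, 𝓛.op U ∧ ∀ s ∈ U, s • x = x) :
    OpenKer 𝓛 (MulAction.toPermHom G Ω) := OpenKer.of_finite h

/-- representatives from a family meeting each orbit exactly once -/
noncomputable def repsOf {I : Type*} (pt : I → Ω) (V : I → Subgroup G)
    (hV : ∀ i g, g ∈ V i ↔ g • pt i = pt i) (h : ∀ y, ∃! i, ∃ g : G, g • pt i = y) :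
    Reps (MulAction.toPermHom G Ω) I := Reps.mk' pt V hV h

end MulAct

/-! ### The coset space -/

section Coset

variable {k : Type*} [CommRing k] {G : Type*} [Group G] {A : Type*} [AddCommGroup A] [Module k A]
variable {𝓛 : Levels G} (U : Subgroup G) (ρ : Representation k G A)

lemma openKer_quotient (hU : 𝓛.op U) : OpenKer 𝓛 (MulAction.toPermHom G (G ⧸ U)) := by
  obtain ⟨N, hN, hn, hle⟩ := 𝓛.exists_normal hU
  refine 𝓛.op_mono ?_ hN
  intro s hs
  rw [MonoidHom.mem_ker]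
  ext x
  induction x using Quotient.inductionOn with
  | h g =>
    show ((s * g : G) : G ⧸ U) = (g : G ⧸ U)
    rw [QuotientGroup.eq]
    have h1 : (s * g)⁻¹ * g = g⁻¹ * s⁻¹ * g := by group
    rw [h1]
    apply hle
    simpa using hn.conj_mem s⁻¹ (N.inv_mem hs) g⁻¹

lemma mem_iff_smul_one (g : G) : g ∈ U ↔ g • ((1 : G) : G ⧸ U) = ((1 : G) : G ⧸ U) := by
  rw [show g • ((1 : G) : G ⧸ U) = ((g * 1 : G) : G ⧸ U) from rfl, mul_one, eq_comm,
    QuotientGroup.eq, inv_one, one_mul]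

/-- the representative `1·U` of `G ⧸ U` -/
noncomputable def repsCoset : Reps (MulAction.toPermHom G (G ⧸ U)) Unit :=
  repsOf (fun _ => ((1 : G) : G ⧸ U)) (fun _ => U) (fun _ g => mem_iff_smul_one U g) (by
    intro y
    refine ⟨(), ?_, fun _ _ => rfl⟩
    induction y using Quotient.inductionOn with
    | h g =>
      refine ⟨g, ?_⟩
      show ((g * 1 : G) : G ⧸ U) = (g : G ⧸ U)
      rw [mul_one])

variable {U ρ} {ρU : Representation k U A} (hρU : ∀ (u : U) b, ρU u b = ρ u b)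

include hρU in
lemma evC_coset : EvC (funRep (G ⧸ U) ρ) ((1 : G) : G ⧸ U) U ρU :=
  evC_funRep ρ (fun g hg => (mem_iff_smul_one U g).1 hg) hρU

/-- Shapiro's map in degree 1, evaluation at `1·U` -/
def cosetEv1 (𝓛 : Levels G) : H1 𝓛 (funRep (G ⧸ U) ρ) →ₗ[k] H1 (𝓛.onSub U) ρU :=
  ev1 𝓛 (evC_coset hρU)

/-- Shapiro's map in degree 2, evaluation at `1·U` -/
def cosetEv2 (𝓛 : Levels G) : H2 𝓛 (funRep (G ⧸ U) ρ) →ₗ[k] H2 (𝓛.onSub U) ρU :=
  ev2 𝓛 (evC_coset hρU)

theorem cosetEv1_bijective (hU : 𝓛.op U) : Bijective (cosetEv1 hρU 𝓛) := by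
  have h := shap1_bijective (𝓛 := 𝓛) (isFun_funRep (Ω := G ⧸ U) ρ) (repsCoset U)
    (ρV := fun _ => ρU) (fun _ => hρU) (fun _ => evC_coset hρU) (openKer_quotient U hU)
  constructor
  · intro x y hxy
    exact h.1 (funext fun _ => hxy)
  · intro y
    obtain ⟨x, hx⟩ := h.2 (fun _ => y)
    exact ⟨x, congrFun hx ()⟩

theorem cosetEv2_bijective (hU : 𝓛.op U) : Bijective (cosetEv2 hρU 𝓛) := by
  have h := shap2_bijective (𝓛 := 𝓛) (isFun_funRep (Ω := G ⧸ U) ρ) (repsCoset U)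
    (ρV := fun _ => ρU) (fun _ => hρU) (fun _ => evC_coset hρU) (openKer_quotient U hU)
  constructor
  · intro x y hxy
    exact h.1 (funext fun _ => hxy)
  · intro y
    obtain ⟨x, hx⟩ := h.2 (fun _ => y)
    exact ⟨x, congrFun hx ()⟩

/-- Shapiro's isomorphism in degree 1 for `G ⧸ U` -/
noncomputable def cosetEquiv1 (hU : 𝓛.op U) :
    H1 𝓛 (funRep (G ⧸ U) ρ) ≃ₗ[k] H1 (𝓛.onSub U) ρU :=
  LinearEquiv.ofBijective _ (cosetEv1_bijective hρU hU)

/-- Shapiro's isomorphism in degree 2 for `G ⧸ U` -/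
noncomputable def cosetEquiv2 (hU : 𝓛.op U) :
    H2 𝓛 (funRep (G ⧸ U) ρ) ≃ₗ[k] H2 (𝓛.onSub U) ρU :=
  LinearEquiv.ofBijective _ (cosetEv2_bijective hρU hU)

@[simp] lemma cosetEquiv1_apply (hU : 𝓛.op U) (x : H1 𝓛 (funRep (G ⧸ U) ρ)) :
    cosetEquiv1 hρU hU x = cosetEv1 hρU 𝓛 x := rfl

@[simp] lemma cosetEquiv2_apply (hU : 𝓛.op U) (x : H2 𝓛 (funRep (G ⧸ U) ρ)) :
    cosetEquiv2 hρU hU x = cosetEv2 hρU 𝓛 x := rfl

end Coset

/-! ### Mackey -/

section Mackey

variable {k : Type*} [CommRing k] {G : Type*} [Group G] {A : Type*} [AddCommGroup A] [Module k A]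
variable {H : Type*} [Group H] {𝓛 : Levels G} {𝓜 : Levels H} {f : H →* G}

/-- a representative of a double coset -/
noncomputable def repPlace (f : H →* G) (U : Subgroup G) (w : Places f U) : G :=
  (place_surjective f U w).choose

@[simp] lemma place_repPlace (f : H →* G) (U : Subgroup G) (w : Places f U) :
    place f U (repPlace f U w) = w := (place_surjective f U w).choose_spec

lemma mem_dec_iff_smul {U : Subgroup G} {g : G} {x : H} :
    x ∈ dec f U g ↔ f x • (g : G ⧸ U) = (g : G ⧸ U) := by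
  rw [mem_dec, show f x • (g : G ⧸ U) = ((f x * g : G) : G ⧸ U) from rfl, eq_comm,
    QuotientGroup.eq, mul_assoc]

/-- representatives of the `H`-orbits on `G ⧸ U` -/
noncomputable def repsPlaces (f : H →* G) (U : Subgroup G) :
    Reps ((MulAction.toPermHom G (G ⧸ U)).comp f) (Places f U) :=
  Reps.mk' (fun w => ((repPlace f U w : G) : G ⧸ U)) (fun w => dec f U (repPlace f U w))
    (fun w g => mem_dec_iff_smul) (by
      intro y
      induction y using Quotient.inductionOn with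
      | h g =>
        have h0 : place f U (repPlace f U (place f U g)) = place f U g := place_repPlace _ _ _
        refine ⟨place f U g, ?_, ?_⟩
        · exact Quotient.exact h0
        · rintro w hw
          have h1 : place f U (repPlace f U w) = place f U g := Quotient.sound hw
          rw [← h1, place_repPlace])

lemma repsPlaces_pt (U : Subgroup G) (w : Places f U) :
    (repsPlaces f U).pt w = ((repPlace f U w : G) : G ⧸ U) := rfl

lemma repsPlaces_V (U : Subgroup G) (w : Places f U) :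
    (repsPlaces f U).V w = dec f U (repPlace f U w) := rfl

variable {U : Subgroup G} {ρ : Representation k G A}

lemma isFun_comp (f : H →* G) (U : Subgroup G) (ρ : Representation k G A) :
    IsFun ((MulAction.toPermHom G (G ⧸ U)).comp f) (ρ.comp f)
      ((funRep (G ⧸ U) ρ).comp f : Representation k H (G ⧸ U → A)) :=
  (isFun_funRep (Ω := G ⧸ U) ρ).comp f

lemma openKer_comp (hf : Levels.Cont 𝓜 𝓛 f) (hU : 𝓛.op U) :
    OpenKer 𝓜 ((MulAction.toPermHom G (G ⧸ U)).comp f) :=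
  (openKer_quotient U hU).comp hf

lemma evC_dec (g : G) {ρW : Representation k (dec f U g) A}
    (hρW : ∀ (v : dec f U g) b, ρW v b = ρ (f v) b) :
    EvC ((funRep (G ⧸ U) ρ).comp f : Representation k H (G ⧸ U → A)) (g : G ⧸ U)
      (dec f U g) ρW :=
  (isFun_comp f U ρ).evC (fun _ hx => mem_dec_iff_smul.1 hx) hρW

lemma decHom_compat (g : G) {ρW : Representation k (dec f U g) A}
    (hρW : ∀ (v : dec f U g) b, ρW v b = ρ (f v) b) {ρU : Representation k U A}
    (hρU : ∀ (u : U) b, ρU u b = ρ u b) (h : dec f U g) (b : A) :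
    ρ g (ρU (decHom f U g h) b) = ρW h (ρ g b) := by
  rw [hρU, hρW, coe_decHom, rep_mul, rep_mul, rep_self_inv]

/-- **Mackey compatibility**, degree 1 -/
theorem mackey1 (hf : Levels.Cont 𝓜 𝓛 f) (g : G) {ρW : Representation k (dec f U g) A}
    (hρW : ∀ (v : dec f U g) b, ρW v b = ρ (f v) b) {ρU : Representation k U A}
    (hρU : ∀ (u : U) b, ρU u b = ρ u b) (z : H1 𝓛 (funRep (G ⧸ U) ρ)) :
    ev1 𝓜 (evC_dec g hρW) (H1res hf (funRep (G ⧸ U) ρ) z) =
      H1map (f := decHom f U g) (φ := ρ g) (cont_decHom hf U g)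
        (decHom_compat g hρW hρU) (cosetEv1 hρU 𝓛 z) := by
  conv_lhs => rw [← H1_inner (funRep (G ⧸ U) ρ) g z]
  induction z using H1_ind with
  | h z =>
    rw [H1map_mk]
    unfold cosetEv1
    rw [ev1_mk, H1map_mk]
    change H1π (𝓜.onSub (dec f U g)) ρW ⟨_, _⟩ = H1π (𝓜.onSub (dec f U g)) ρW ⟨_, _⟩
    congr 1
    apply Subtype.ext
    funext x
    have h1 : g⁻¹ • (g : G ⧸ U) = ((1 : G) : G ⧸ U) := by
      show ((g⁻¹ * g : G) : G ⧸ U) = ((1 : G) : G ⧸ U)
      rw [inv_mul_cancel]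
    have h2 : (MulAut.conj g⁻¹ : G ≃* G).toMonoidHom (f x) = g⁻¹ * f x * g := by
      simp
    show ρ g ((z : G → G ⧸ U → A) ((MulAut.conj g⁻¹ : G ≃* G).toMonoidHom (f x))
      (g⁻¹ • (g : G ⧸ U))) = ρ g ((z : G → G ⧸ U → A) (g⁻¹ * f x * g) ((1 : G) : G ⧸ U))
    rw [h1, h2]

/-- **Mackey compatibility**, degree 2 -/
theorem mackey2 (hf : Levels.Cont 𝓜 𝓛 f) (g : G) {ρW : Representation k (dec f U g) A}
    (hρW : ∀ (v : dec f U g) b, ρW v b = ρ (f v) b) {ρU : Representation k U A}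
    (hρU : ∀ (u : U) b, ρU u b = ρ u b) (z : H2 𝓛 (funRep (G ⧸ U) ρ)) :
    ev2 𝓜 (evC_dec g hρW) (H2res hf (funRep (G ⧸ U) ρ) z) =
      H2map (f := decHom f U g) (φ := ρ g) (cont_decHom hf U g)
        (decHom_compat g hρW hρU) (cosetEv2 hρU 𝓛 z) := by
  conv_lhs => rw [← H2_inner (funRep (G ⧸ U) ρ) g z]
  induction z using H2_ind with
  | h z =>
    rw [H2map_mk]
    unfold cosetEv2
    rw [ev2_mk, H2map_mk]
    change H2π (𝓜.onSub (dec f U g)) ρW ⟨_, _⟩ = H2π (𝓜.onSub (dec f U g)) ρW ⟨_, _⟩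
    congr 1
    apply Subtype.ext
    funext x
    have h1 : g⁻¹ • (g : G ⧸ U) = ((1 : G) : G ⧸ U) := by
      show ((g⁻¹ * g : G) : G ⧸ U) = ((1 : G) : G ⧸ U)
      rw [inv_mul_cancel]
    have h2 : ∀ y : G, (MulAut.conj g⁻¹ : G ≃* G).toMonoidHom y = g⁻¹ * y * g := by
      intro y
      simp
    show ρ g ((z : G × G → G ⧸ U → A) ((MulAut.conj g⁻¹ : G ≃* G).toMonoidHom (f x.1),
      (MulAut.conj g⁻¹ : G ≃* G).toMonoidHom (f x.2)) (g⁻¹ • (g : G ⧸ U))) =
      ρ g ((z : G × G → G ⧸ U → A) (g⁻¹ * f x.1 * g, g⁻¹ * f x.2 * g) ((1 : G) : G ⧸ U))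
    rw [h1, h2, h2]

end Mackey

end Fermat.Agent.H92
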