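import Mathlib
import Fermat.Agent.H92ShapB

set_option autoImplicit false
set_option maxSynthPendingDepth 3

/-!
# Shapiro's lemma: naturality, products of coefficients, direct summands, induced covers,
and the specialisation to local data with trivial coefficients.
-/

namespace Fermat.Agent.H92

open Fermat.Agent.H55 Function Module

/-! ### Naturality in the coefficients -/

section Naturality

variable {k : Type*} [CommRing k] {G : Type*} [Group G] {A B : Type*} [AddCommGroup A] [Module k A]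
  [AddCommGroup B] [Module k B] {𝓛 : Levels G} {Ω : Type*} {a : G →* Equiv.Perm Ω}
  {ρ : Representation k G A} {ρ' : Representation k G B}
  {σ : Representation k G (Ω → A)} {σ' : Representation k G (Ω → B)}

lemma IsFun.equivar (h : IsFun a ρ σ) (h' : IsFun a ρ' σ') {φ : A →ₗ[k] B}
    (hφ : Equivar ρ ρ' φ) : Equivar σ σ' (φ.compLeft Ω) := by
  intro g F
  funext x
  rw [h'.apply_inv, LinearMap.compLeft_apply, Function.comp_apply, h.apply_inv, hφ]
  rfl

lemma equivar_funRep [MulAction G Ω] {φ : A →ₗ[k] B} (hφ : Equivar ρ ρ' φ) :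
    Equivar (funRep Ω ρ) (funRep Ω ρ') (φ.compLeft Ω) :=
  (isFun_funRep (Ω := Ω) ρ).equivar (isFun_funRep (Ω := Ω) ρ') hφ

lemma ev1_nat {x : Ω} {V : Subgroup G} {ρV : Representation k V A} {ρV' : Representation k V B}
    (hV : EvC σ x V ρV) (hV' : EvC σ' x V ρV') {φ : A →ₗ[k] B} (hφ : Equivar ρV ρV' φ)
    (hΦ : Equivar σ σ' (φ.compLeft Ω)) (z : H1 𝓛 σ) :
    ev1 𝓛 hV' (H1c 𝓛 hΦ z) = H1c (𝓛.onSub V) hφ (ev1 𝓛 hV z) := by
  induction z using H1_ind with
  | h z => rfl

lemma ev2_nat {x : Ω} {V : Subgroup G} {ρV : Representation k V A} {ρV' : Representation k V B}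
    (hV : EvC σ x V ρV) (hV' : EvC σ' x V ρV') {φ : A →ₗ[k] B} (hφ : Equivar ρV ρV' φ)
    (hΦ : Equivar σ σ' (φ.compLeft Ω)) (z : H2 𝓛 σ) :
    ev2 𝓛 hV' (H2c 𝓛 hΦ z) = H2c (𝓛.onSub V) hφ (ev2 𝓛 hV z) := by
  induction z using H2_ind with
  | h z => rfl

end Naturality

/-! ### Products of coefficients -/

section Pi

variable {k : Type*} [CommRing k] {G : Type*} [Group G] {ι : Type*} {A : ι → Type*}
  [∀ i, AddCommGroup (A i)] [∀ i, Module k (A i)] (𝓛 : Levels G)

/-- a representation on a product is the product representation -/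
def IsPi (ρ : ∀ i, Representation k G (A i)) (σ : Representation k G (∀ i, A i)) : Prop :=
  ∀ g F i, σ g F i = ρ i g (F i)

variable {ρ : ∀ i, Representation k G (A i)} {σ : Representation k G (∀ i, A i)}

lemma IsPi.equivar (h : IsPi ρ σ) (i : ι) : Equivar σ (ρ i) (LinearMap.proj i) :=
  fun g F => h g F i

lemma isPi_smooth [Finite ι] {𝓛 : Levels G} (h : IsPi ρ σ) (hs : ∀ i, Smooth 𝓛 (ρ i)) :
    Smooth 𝓛 σ := by
  intro F
  choose U hU hf using fun i => hs i (F i)
  refine ⟨⨅ i, U i, op_finite_inf hU, fun s hs => ?_⟩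
  funext i
  rw [h, hf i s (Subgroup.mem_iInf.1 hs i)]

/-- projections on the factors, degree 1 -/
def pi1 (h : IsPi ρ σ) : H1 𝓛 σ →ₗ[k] ∀ i, H1 𝓛 (ρ i) :=
  LinearMap.pi fun i => H1c 𝓛 (h.equivar i)

/-- projections on the factors, degree 2 -/
def pi2 (h : IsPi ρ σ) : H2 𝓛 σ →ₗ[k] ∀ i, H2 𝓛 (ρ i) :=
  LinearMap.pi fun i => H2c 𝓛 (h.equivar i)

lemma pi1_apply (h : IsPi ρ σ) (x : H1 𝓛 σ) (i : ι) : pi1 𝓛 h x i = H1c 𝓛 (h.equivar i) x := rfl

lemma pi2_apply (h : IsPi ρ σ) (x : H2 𝓛 σ) (i : ι) : pi2 𝓛 h x i = H2c 𝓛 (h.equivar i) x := rfl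

theorem pi1_bijective [Finite ι] (h : IsPi ρ σ) : Bijective (pi1 𝓛 h) := by
  constructor
  · rw [injective_iff_map_eq_zero]
    intro z hz
    obtain ⟨F, rfl⟩ := H1π_surjective 𝓛 σ z
    have h1 : ∀ i, ∃ b : A i, ∀ g, (F : G → ∀ i, A i) g i = ρ i g b - b := by
      intro i
      have h2 := congrFun hz i
      rw [pi1_apply, H1c_mk, Pi.zero_apply, mkH1_eq_zero_iff] at h2
      exact h2
    choose b hb using h1
    rw [mkH1_eq_zero_iff]
    refine ⟨b, fun g => ?_⟩
    funext i
    rw [hb, Pi.sub_apply, h]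
  · intro z
    choose c hc using fun i => H1π_surjective _ _ (z i)
    let C : G → ∀ i, A i := fun g i => (c i : G → A i) g
    have hC : C ∈ Z1 𝓛 σ := by
      refine ⟨LC1.pi (fun i => (c i).2.1), fun g g' => ?_⟩
      funext i
      rw [Pi.add_apply, h]
      exact (c i).2.2 g g'
    refine ⟨H1π 𝓛 σ ⟨C, hC⟩, ?_⟩
    funext i
    rw [pi1_apply, H1c_mk, ← hc i]
    rfl

theorem pi2_bijective [Finite ι] (h : IsPi ρ σ) : Bijective (pi2 𝓛 h) := by
  constructor
  · rw [injective_iff_map_eq_zero]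
    intro z hz
    obtain ⟨F, rfl⟩ := H2π_surjective 𝓛 σ z
    have h1 : ∀ i, ∃ b : G → A i, LC1 𝓛 b ∧
        ∀ g g', (F : G × G → ∀ i, A i) (g, g') i = ρ i g (b g') - b (g * g') + b g := by
      intro i
      have h2 := congrFun hz i
      rw [pi2_apply, H2c_mk, Pi.zero_apply, mkH2_eq_zero_iff] at h2
      exact h2
    choose b hbc hb using h1
    rw [mkH2_eq_zero_iff]
    refine ⟨fun g i => b i g, LC1.pi hbc, fun g g' => ?_⟩
    funext i
    rw [hb, Pi.add_apply, Pi.sub_apply, h]
  · intro z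
    choose c hc using fun i => H2π_surjective _ _ (z i)
    let C : G × G → ∀ i, A i := fun g i => (c i : G × G → A i) g
    have hC : C ∈ Z2 𝓛 σ := by
      refine ⟨LC2.pi (fun i => (c i).2.1), fun g g' j => ?_⟩
      funext i
      rw [Pi.add_apply, Pi.add_apply, h]
      exact (c i).2.2 g g' j
    refine ⟨H2π 𝓛 σ ⟨C, hC⟩, ?_⟩
    funext i
    rw [pi2_apply, H2c_mk, ← hc i]
    rfl

/-- `H¹` commutes with finite products of coefficients -/
noncomputable def piEquiv1 [Finite ι] (h : IsPi ρ σ) : H1 𝓛 σ ≃ₗ[k] ∀ i, H1 𝓛 (ρ i) :=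
  LinearEquiv.ofBijective _ (pi1_bijective 𝓛 h)

/-- `H²` commutes with finite products of coefficients -/
noncomputable def piEquiv2 [Finite ι] (h : IsPi ρ σ) : H2 𝓛 σ ≃ₗ[k] ∀ i, H2 𝓛 (ρ i) :=
  LinearEquiv.ofBijective _ (pi2_bijective 𝓛 h)

@[simp] lemma piEquiv1_apply [Finite ι] (h : IsPi ρ σ) (x : H1 𝓛 σ) (i : ι) :
    piEquiv1 𝓛 h x i = H1c 𝓛 (h.equivar i) x := rfl

@[simp] lemma piEquiv2_apply [Finite ι] (h : IsPi ρ σ) (x : H2 𝓛 σ) (i : ι) :
    piEquiv2 𝓛 h x i = H2c 𝓛 (h.equivar i) x := rfl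

/-- the product representation -/
def piRep (ρ : ∀ i, Representation k G (A i)) : Representation k G (∀ i, A i) where
  toFun g := LinearMap.pi fun i => ρ i g ∘ₗ LinearMap.proj i
  map_one' := by
    ext F i
    simp
  map_mul' g h := by
    ext F i
    simp

lemma isPi_piRep (ρ : ∀ i, Representation k G (A i)) : IsPi ρ (piRep ρ) := fun _ _ _ => rfl

end Pi

/-! ### Trivial action -/

section Trivial

variable {k : Type*} [Field k] {G : Type*} [Group G] {A : Type*} [AddCommGroup A] [Module k A]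
  [FiniteDimensional k A] (𝓛 : Levels G) {ρ : Representation k G A}

lemma isPi_trivial (n : ℕ) : IsPi (fun _ : Fin n => Representation.trivial k G k)
    (Representation.trivial k G (Fin n → k)) := fun _ _ _ => rfl

/-- coordinates are equivariant for trivial actions -/
lemma trivial_equivar (h : ∀ g b, ρ g b = b) : Equivar ρ
    (Representation.trivial k G (Fin (finrank k A) → k))
    ((Module.finBasis k A).equivFun : A →ₗ[k] (Fin (finrank k A) → k)) := by
  intro g b
  rw [h]
  rfl

/-- `H¹` of a trivial module -/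
noncomputable def trivialEquiv1 (h : ∀ g b, ρ g b = b) :
    H1 𝓛 ρ ≃ₗ[k] (Fin (finrank k A) → H1 𝓛 (Representation.trivial k G k)) :=
  (H1cEquiv 𝓛 (trivial_equivar h)).trans (piEquiv1 𝓛 (isPi_trivial (finrank k A)))

/-- `H²` of a trivial module -/
noncomputable def trivialEquiv2 (h : ∀ g b, ρ g b = b) :
    H2 𝓛 ρ ≃ₗ[k] (Fin (finrank k A) → H2 𝓛 (Representation.trivial k G k)) :=
  (H2cEquiv 𝓛 (trivial_equivar h)).trans (piEquiv2 𝓛 (isPi_trivial (finrank k A)))

lemma trivial_finite1 (h : ∀ g b, ρ g b = b)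
    [Module.Finite k (H1 𝓛 (Representation.trivial k G k))] : Module.Finite k (H1 𝓛 ρ) :=
  Module.Finite.equiv (trivialEquiv1 𝓛 h).symm

lemma trivial_finite2 (h : ∀ g b, ρ g b = b)
    [Module.Finite k (H2 𝓛 (Representation.trivial k G k))] : Module.Finite k (H2 𝓛 ρ) :=
  Module.Finite.equiv (trivialEquiv2 𝓛 h).symm

lemma trivial_finrank1 (h : ∀ g b, ρ g b = b)
    [Module.Finite k (H1 𝓛 (Representation.trivial k G k))] :
    finrank k (H1 𝓛 ρ) = finrank k A * finrank k (H1 𝓛 (Representation.trivial k G k)) := by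
  rw [(trivialEquiv1 𝓛 h).finrank_eq, Module.finrank_pi_fintype]
  simp

lemma trivial_finrank2 (h : ∀ g b, ρ g b = b)
    [Module.Finite k (H2 𝓛 (Representation.trivial k G k))] :
    finrank k (H2 𝓛 ρ) = finrank k A * finrank k (H2 𝓛 (Representation.trivial k G k)) := by
  rw [(trivialEquiv2 𝓛 h).finrank_eq, Module.finrank_pi_fintype]
  simp

end Trivial

/-! ### Direct summand of an induced module -/

section Summand

variable {k : Type*} [CommRing k] {G : Type*} [Group G] {A B : Type*} [AddCommGroup A] [Module k A]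
  [AddCommGroup B] [Module k B]
  {𝓛 : Levels G} {Ω : Type*} {a : G →* Equiv.Perm Ω}
  {ρ : Representation k G A} {σ : Representation k G (Ω → A)}
  {ρ' : Representation k G B} {σ' : Representation k G (Ω → B)}

/-- constant functions -/
def constMap (k A Ω : Type*) [CommRing k] [AddCommGroup A] [Module k A] : A →ₗ[k] (Ω → A) where
  toFun b _ := b
  map_add' _ _ := rfl
  map_smul' _ _ := rfl

/-- sum of the values -/
def sumMap (k A Ω : Type*) [CommRing k] [AddCommGroup A] [Module k A] [Fintype Ω] :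
    (Ω → A) →ₗ[k] A where
  toFun F := ∑ x, F x
  map_add' _ _ := Finset.sum_add_distrib
  map_smul' c _ := (Finset.smul_sum (r := c)).symm

@[simp] lemma constMap_apply (b : A) (x : Ω) : constMap k A Ω b x = b := rfl

@[simp] lemma sumMap_apply [Fintype Ω] (F : Ω → A) : sumMap k A Ω F = ∑ x, F x := rfl

lemma constMap_equivar (h : IsFun a ρ σ) : Equivar ρ σ (constMap k A Ω) := by
  intro g b
  funext x
  rw [h.apply_inv]
  rfl

lemma sumMap_equivar [Fintype Ω] (h : IsFun a ρ σ) : Equivar σ ρ (sumMap k A Ω) := by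
  intro g F
  rw [sumMap_apply, sumMap_apply, map_sum]
  rw [← Equiv.sum_comp (a g)]
  exact Finset.sum_congr rfl fun x _ => h g F x

lemma sum_const [Fintype Ω] :
    sumMap k A Ω ∘ₗ constMap k A Ω = (Fintype.card Ω : k) • LinearMap.id := by
  ext b
  simp only [LinearMap.comp_apply, sumMap_apply, constMap_apply, LinearMap.smul_apply,
    LinearMap.id_apply, Finset.sum_const, Finset.card_univ]
  exact (Nat.cast_smul_eq_nsmul k (Fintype.card Ω) b).symm

/-- if `|Ω|` is invertible, `H¹(G, A)` is a direct summand of `H¹(G, Ω → A)` -/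
lemma H1_summand [Fintype Ω] (h : IsFun a ρ σ) (z : H1 𝓛 ρ) :
    H1c 𝓛 (sumMap_equivar h) (H1c 𝓛 (constMap_equivar h) z) = (Fintype.card Ω : k) • z := by
  have e := LinearMap.congr_fun (H1c_congr (𝓛 := 𝓛)
    (hφ := (sumMap_equivar h).comp (constMap_equivar h))
    (hψ := (Equivar.id ρ).smul (Fintype.card Ω : k)) sum_const) z
  rw [H1c_comp (sumMap_equivar h) (constMap_equivar h),
    H1c_smul (Fintype.card Ω : k) (Equivar.id ρ), H1c_id] at e
  exact e

/-- if `|Ω|` is invertible, `H²(G, A)` is a direct summand of `H²(G, Ω → A)` -/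
lemma H2_summand [Fintype Ω] (h : IsFun a ρ σ) (z : H2 𝓛 ρ) :
    H2c 𝓛 (sumMap_equivar h) (H2c 𝓛 (constMap_equivar h) z) = (Fintype.card Ω : k) • z := by
  have e := LinearMap.congr_fun (H2c_congr (𝓛 := 𝓛)
    (hφ := (sumMap_equivar h).comp (constMap_equivar h))
    (hψ := (Equivar.id ρ).smul (Fintype.card Ω : k)) sum_const) z
  rw [H2c_comp (sumMap_equivar h) (constMap_equivar h),
    H2c_smul (Fintype.card Ω : k) (Equivar.id ρ), H2c_id] at e
  exact e

lemma compLeft_constMap (φ : A →ₗ[k] B) :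
    φ.compLeft Ω ∘ₗ constMap k A Ω = constMap k B Ω ∘ₗ φ := rfl

lemma compLeft_sumMap [Fintype Ω] (φ : A →ₗ[k] B) :
    sumMap k B Ω ∘ₗ φ.compLeft Ω = φ ∘ₗ sumMap k A Ω := by
  refine LinearMap.ext fun F => ?_
  simp

/-- if `|Ω|` is invertible in `k` and `H²(Ω → A) → H²(Ω → B)` is onto, so is `H²(A) → H²(B)` -/
lemma H2c_surjective_of_fun [Fintype Ω] (h : IsFun a ρ σ) (h' : IsFun a ρ' σ')
    (hu : IsUnit (Fintype.card Ω : k)) {φ : A →ₗ[k] B} (hφ : Equivar ρ ρ' φ)
    (hs : Surjective (H2c 𝓛 (h.equivar h' hφ))) : Surjective (H2c 𝓛 hφ) := by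
  intro y
  obtain ⟨u, hu⟩ := hu
  obtain ⟨z, hz⟩ := hs (H2c 𝓛 (constMap_equivar h') y)
  refine ⟨(↑u⁻¹ : k) • H2c 𝓛 (sumMap_equivar h) z, ?_⟩
  have e := LinearMap.congr_fun (H2c_congr (𝓛 := 𝓛)
    (hφ := (sumMap_equivar h').comp (h.equivar h' hφ))
    (hψ := hφ.comp (sumMap_equivar h)) (compLeft_sumMap φ)) z
  rw [H2c_comp (sumMap_equivar h') (h.equivar h' hφ), H2c_comp hφ (sumMap_equivar h), hz,
    H2_summand h', ← hu] at e
  rw [map_smul, ← e, smul_smul, Units.inv_mul, one_smul]

end Summand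

/-! ### Induced covers and embeddings -/

section Cover

variable {k : Type*} [CommRing k] {G : Type*} [Group G] {A : Type*} [AddCommGroup A] [Module k A]
  (ρ : Representation k G A) {N : Subgroup G} (hN : ∀ n ∈ N, ∀ b, ρ n b = b)

include hN in
lemma rep_eq_of_coset {g h : G} (hgh : g⁻¹ * h ∈ N) (b : A) : ρ h b = ρ g b := by
  have h1 : h = g * (g⁻¹ * h) := by group
  rw [h1, rep_mul, hN _ hgh]

/-- the operator attached to a coset `x ∈ G ⧸ N` when `N` acts trivially -/
def cosetAct (x : G ⧸ N) : A →ₗ[k] A :=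
  Quotient.liftOn x (fun g => ρ g) (fun g h hgh => by
    refine LinearMap.ext fun b => ?_
    exact (rep_eq_of_coset ρ hN (QuotientGroup.leftRel_apply.1 hgh) b).symm)

@[simp] lemma cosetAct_mk (g : G) (b : A) : cosetAct ρ hN (g : G ⧸ N) b = ρ g b := rfl

lemma cosetAct_smul (g : G) (x : G ⧸ N) (b : A) :
    cosetAct ρ hN (g • x) b = ρ g (cosetAct ρ hN x b) := by
  induction x using Quotient.inductionOn with
  | h h => exact rep_mul ρ g h b

/-- the operator attached to the inverse of a coset -/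
def cosetActInv (x : G ⧸ N) : A →ₗ[k] A :=
  Quotient.liftOn x (fun g => ρ g⁻¹) (fun g h hgh => by
    refine LinearMap.ext fun b => ?_
    have h1 := QuotientGroup.leftRel_apply.1 hgh
    have h2 : g⁻¹ = (g⁻¹ * h) * h⁻¹ := by group
    rw [h2, rep_mul, hN _ h1])

@[simp] lemma cosetActInv_mk (g : G) (b : A) : cosetActInv ρ hN (g : G ⧸ N) b = ρ g⁻¹ b := rfl

lemma cosetActInv_smul (g : G) (x : G ⧸ N) (b : A) :
    cosetActInv ρ hN (g⁻¹ • x) b = cosetActInv ρ hN x (ρ g b) := by
  induction x using Quotient.inductionOn with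
  | h h =>
    show ρ (g⁻¹ * h)⁻¹ b = ρ h⁻¹ (ρ g b)
    rw [← rep_mul]
    congr 2
    group

/-- the equivariant surjection from an induced trivial module: `F ↦ ∑ x · F(x)` -/
def coverMap [Fintype (G ⧸ N)] : ((G ⧸ N) → A) →ₗ[k] A where
  toFun F := ∑ x, cosetAct ρ hN x (F x)
  map_add' F F' := by simp [Finset.sum_add_distrib]
  map_smul' c F := by simp [Finset.smul_sum]

lemma coverMap_apply [Fintype (G ⧸ N)] (F : (G ⧸ N) → A) :
    coverMap ρ hN F = ∑ x, cosetAct ρ hN x (F x) := rfl

lemma coverMap_equivar [Fintype (G ⧸ N)] :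
    Equivar (funRep (G ⧸ N) (Representation.trivial k G A)) ρ (coverMap ρ hN) := by
  intro g F
  rw [coverMap_apply, coverMap_apply, map_sum, ← Equiv.sum_comp (MulAction.toPerm g)]
  refine Finset.sum_congr rfl fun x _ => ?_
  rw [MulAction.toPerm_apply, cosetAct_smul, funRep_apply, inv_smul_smul]
  rfl

lemma coverMap_surjective [Fintype (G ⧸ N)] : Surjective (coverMap ρ hN) := by
  classical
  intro b
  refine ⟨Pi.single ((1 : G) : G ⧸ N) b, ?_⟩
  rw [coverMap_apply, Finset.sum_eq_single ((1 : G) : G ⧸ N)]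
  · rw [Pi.single_eq_same, cosetAct_mk, rep_one]
  · intro x _ hx
    rw [Pi.single_eq_of_ne hx, map_zero]
  · intro h
    exact absurd (Finset.mem_univ _) h

/-- the equivariant embedding in an induced trivial module: `b ↦ (x ↦ x⁻¹ b)` -/
def embMap : A →ₗ[k] ((G ⧸ N) → A) where
  toFun b x := cosetActInv ρ hN x b
  map_add' b b' := by funext x; simp
  map_smul' c b := by funext x; simp

lemma embMap_apply (b : A) (x : G ⧸ N) : embMap ρ hN b x = cosetActInv ρ hN x b := rfl

lemma embMap_equivar :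
    Equivar ρ (funRep (G ⧸ N) (Representation.trivial k G A)) (embMap ρ hN) := by
  intro g b
  funext x
  rw [funRep_apply, embMap_apply, embMap_apply, cosetActInv_smul]
  rfl

lemma embMap_injective : Injective (embMap ρ hN) := by
  intro b b' h
  have := congrFun h ((1 : G) : G ⧸ N)
  rw [embMap_apply, embMap_apply, cosetActInv_mk, cosetActInv_mk, inv_one, rep_one, rep_one]
    at this
  exact this

end Cover

/-! ### Local data -/

section LocalData

variable {k G : Type} [CommRing k] [Group G] {𝓛 : Levels G} (D : LD 𝓛) (U : Subgroup G)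

/-- the permutation module `k[G/U]` (as functions) -/
abbrev XU (k : Type) [CommRing k] {G : Type} [Group G] (U : Subgroup G) :
    Representation k G (G ⧸ U → k) := funRep (G ⧸ U) (Representation.trivial k G k)

lemma XU_hU (u : U) (b : k) : Representation.trivial k U k u b = Representation.trivial k G k u b :=
  rfl

variable (k)

/-- Shapiro's isomorphism for `XU`, degree 1 -/
noncomputable def XUequiv1 {U : Subgroup G} (hU : 𝓛.op U) :
    H1 𝓛 (XU k U) ≃ₗ[k] H1 (𝓛.onSub U) (Representation.trivial k U k) :=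
  cosetEquiv1 (XU_hU U) hU

/-- Shapiro's isomorphism for `XU`, degree 2 -/
noncomputable def XUequiv2 {U : Subgroup G} (hU : 𝓛.op U) :
    H2 𝓛 (XU k U) ≃ₗ[k] H2 (𝓛.onSub U) (Representation.trivial k U k) :=
  cosetEquiv2 (XU_hU U) hU

lemma evC_XU (v : D.ι) (g : G) :
    EvC (D.rv (XU k U) v) (g : G ⧸ U) (dec (D.loc v) U g)
      (Representation.trivial k (dec (D.loc v) U g) k) :=
  evC_dec (f := D.loc v) (ρ := Representation.trivial k G k) g (fun _ _ => rfl)

/-- evaluation of a local class at the double coset of `g`, degree 1 -/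
noncomputable def locEv1 (v : D.ι) (g : G) :
    H1 (D.lev v) (D.rv (XU k U) v) →ₗ[k]
      H1 ((D.lev v).onSub (dec (D.loc v) U g))
        (Representation.trivial k (dec (D.loc v) U g) k) :=
  ev1 (D.lev v) (evC_XU k D U v g)

/-- evaluation of a local class at the double coset of `g`, degree 2 -/
noncomputable def locEv2 (v : D.ι) (g : G) :
    H2 (D.lev v) (D.rv (XU k U) v) →ₗ[k]
      H2 ((D.lev v).onSub (dec (D.loc v) U g))
        (Representation.trivial k (dec (D.loc v) U g) k) :=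
  ev2 (D.lev v) (evC_XU k D U v g)

variable {k U}

/-- Mackey compatibility in degree 1 -/
theorem locEv1_loc (hU : 𝓛.op U) (v : D.ι) (g : G) (z : H1 𝓛 (XU k U)) :
    locEv1 k D U v g (H1res (D.cont v) (XU k U) z) = D.locU1 k U v g (XUequiv1 k hU z) :=
  mackey1 (D.cont v) g (fun _ _ => rfl) (XU_hU U) z

/-- Mackey compatibility in degree 2 -/
theorem locEv2_loc (hU : 𝓛.op U) (v : D.ι) (g : G) (z : H2 𝓛 (XU k U)) :
    locEv2 k D U v g (H2res (D.cont v) (XU k U) z) = D.locU2 k U v g (XUequiv2 k hU z) :=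
  mackey2 (D.cont v) g (fun _ _ => rfl) (XU_hU U) z

lemma finite_places (hU : 𝓛.op U) (v : D.ι) : Finite (Places (D.loc v) U) := by
  have := 𝓛.finiteIndex hU
  have : Finite (G ⧸ U) := U.finite_quotient_of_finiteIndex
  infer_instance

variable (k) in
/-- local Shapiro for `XU`, degree 1 -/
noncomputable def locXU1 (hU : 𝓛.op U) (v : D.ι) :
    H1 (D.lev v) (D.rv (XU k U) v) ≃ₗ[k] ∀ w : Places (D.loc v) U,
      H1 ((D.lev v).onSub (dec (D.loc v) U (repPlace (D.loc v) U w)))
        (Representation.trivial k (dec (D.loc v) U (repPlace (D.loc v) U w)) k) :=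
  haveI := finite_places D hU v
  shapEquiv1 (isFun_comp (D.loc v) U (Representation.trivial k G k)) (repsPlaces (D.loc v) U)
    (ρV := fun w => Representation.trivial k (dec (D.loc v) U (repPlace (D.loc v) U w)) k)
    (fun _ _ _ => rfl) (fun w => evC_XU k D U v (repPlace (D.loc v) U w))
    (openKer_comp (D.cont v) hU)

variable (k) in
/-- local Shapiro for `XU`, degree 2 -/
noncomputable def locXU2 (hU : 𝓛.op U) (v : D.ι) :
    H2 (D.lev v) (D.rv (XU k U) v) ≃ₗ[k] ∀ w : Places (D.loc v) U,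
      H2 ((D.lev v).onSub (dec (D.loc v) U (repPlace (D.loc v) U w)))
        (Representation.trivial k (dec (D.loc v) U (repPlace (D.loc v) U w)) k) :=
  haveI := finite_places D hU v
  shapEquiv2 (isFun_comp (D.loc v) U (Representation.trivial k G k)) (repsPlaces (D.loc v) U)
    (ρV := fun w => Representation.trivial k (dec (D.loc v) U (repPlace (D.loc v) U w)) k)
    (fun _ _ _ => rfl) (fun w => evC_XU k D U v (repPlace (D.loc v) U w))
    (openKer_comp (D.cont v) hU)

lemma locXU1_apply (hU : 𝓛.op U) (v : D.ι) (x : H1 (D.lev v) (D.rv (XU k U) v))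
    (w : Places (D.loc v) U) :
    locXU1 k D hU v x w = locEv1 k D U v (repPlace (D.loc v) U w) x := rfl

lemma locXU2_apply (hU : 𝓛.op U) (v : D.ι) (x : H2 (D.lev v) (D.rv (XU k U) v))
    (w : Places (D.loc v) U) :
    locXU2 k D hU v x w = locEv2 k D U v (repPlace (D.loc v) U w) x := rfl

/-- a local class is zero iff all its evaluations are zero -/
lemma loc2_eq_zero_iff (hU : 𝓛.op U) (v : D.ι) (x : H2 (D.lev v) (D.rv (XU k U) v)) :
    x = 0 ↔ ∀ g, locEv2 k D U v g x = 0 := by
  constructor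
  · rintro rfl g
    exact map_zero _
  · intro h
    apply (locXU2 k D hU v).injective
    rw [map_zero]
    funext w
    rw [locXU2_apply, h]
    rfl

/-- `Sha²` of `XU` -/
lemma mem_Sha2_XU_iff (hU : 𝓛.op U) (z : H2 𝓛 (XU k U)) :
    z ∈ D.Sha2 (XU k U) ↔ XUequiv2 k hU z ∈ D.ShaU2 k U := by
  rw [LD.mem_ShaU2]
  unfold LD.Sha2
  rw [LinearMap.mem_ker, funext_iff]
  refine forall_congr' fun v => ?_
  rw [LD.loc2_apply, Pi.zero_apply, loc2_eq_zero_iff D hU v]
  refine forall_congr' fun g => ?_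
  rw [locEv2_loc D hU]

variable (k) in
/-- `Sha²` of `XU` -/
noncomputable def sha2XU (hU : 𝓛.op U) : D.Sha2 (XU k U) ≃ₗ[k] D.ShaU2 k U :=
  ((XUequiv2 k hU).submoduleMap (D.Sha2 (XU k U))).trans (LinearEquiv.ofEq _ _ (by
    ext x
    constructor
    · rintro ⟨y, hy, rfl⟩
      exact (mem_Sha2_XU_iff D hU y).1 hy
    · intro hx
      refine ⟨(XUequiv2 k hU).symm x, (mem_Sha2_XU_iff D hU _).2 ?_, ?_⟩
      · rwa [LinearEquiv.apply_symm_apply]
      · exact LinearEquiv.apply_symm_apply _ _))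

lemma smooth_XU (hU : 𝓛.op U) : Smooth 𝓛 (XU k U) := by
  have := 𝓛.finiteIndex hU
  have : Finite (G ⧸ U) := U.finite_quotient_of_finiteIndex
  exact smooth_of_isFun (isFun_funRep (Ω := G ⧸ U) _) (fun a => ⟨⊤, 𝓛.op_top, fun _ _ => rfl⟩)
    (openKer_quotient U hU)

end LocalData

section LocalDataField

variable {k G : Type} [Field k] [Group G] {𝓛 : Levels G} (D : LD 𝓛) {U : Subgroup G}

lemma finrank_inv_trivial (V : Type*) [Group V] :
    finrank k (Representation.trivial k V k).invariants = 1 := by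
  have : (Representation.trivial k V k).invariants = ⊤ := by
    rw [eq_top_iff]
    intro x _ g
    rfl
  rw [this, finrank_top, finrank_self]

lemma finrank_inv_XU : finrank k (XU k U).invariants = 1 := by
  rw [shap_finrank0 (isFun_funRep (Ω := G ⧸ U) (Representation.trivial k G k)) (repsCoset U)
    (ρV := fun _ => Representation.trivial k U k) (fun _ => XU_hU U)]
  exact (Finset.sum_congr rfl fun _ _ => finrank_inv_trivial U).trans (by simp)

lemma finrank_inv_loc_XU (hU : 𝓛.op U) (v : D.ι) :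
    finrank k (D.rv (XU k U) v).invariants = nPl (D.loc v) U := by
  have := finite_places D hU v
  have := Fintype.ofFinite (Places (D.loc v) U)
  have h := shap_finrank0 (isFun_comp (D.loc v) U (Representation.trivial k G k))
    (repsPlaces (D.loc v) U)
    (ρV := fun w => Representation.trivial k (dec (D.loc v) U (repPlace (D.loc v) U w)) k)
    (fun _ _ _ => rfl)
  refine h.trans ?_
  rw [nPl, Nat.card_eq_fintype_card]
  exact (Finset.sum_congr rfl fun w _ =>
    finrank_inv_trivial (dec (D.loc v) U (repPlace (D.loc v) U w))).trans (by simp)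

lemma finite_loc1_XU (hU : 𝓛.op U) (v : D.ι)
    (hfin : ∀ g, Module.Finite k (H1 ((D.lev v).onSub (dec (D.loc v) U g))
      (Representation.trivial k (dec (D.loc v) U g) k))) :
    Module.Finite k (H1 (D.lev v) (D.rv (XU k U) v)) := by
  have := finite_places D hU v
  have := hfin
  exact Module.Finite.equiv (locXU1 k D hU v).symm

lemma finite_loc2_XU (hU : 𝓛.op U) (v : D.ι)
    (hfin : ∀ g, Module.Finite k (H2 ((D.lev v).onSub (dec (D.loc v) U g))
      (Representation.trivial k (dec (D.loc v) U g) k))) :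
    Module.Finite k (H2 (D.lev v) (D.rv (XU k U) v)) := by
  have := finite_places D hU v
  have := hfin
  exact Module.Finite.equiv (locXU2 k D hU v).symm

open Classical in
lemma finrank_loc1_XU (hU : 𝓛.op U) (v : D.ι) [Fintype (Places (D.loc v) U)]
    (hfin : ∀ g, Module.Finite k (H1 ((D.lev v).onSub (dec (D.loc v) U g))
      (Representation.trivial k (dec (D.loc v) U g) k))) :
    finrank k (H1 (D.lev v) (D.rv (XU k U) v)) = ∑ w : Places (D.loc v) U,
      finrank k (H1 ((D.lev v).onSub (dec (D.loc v) U (repPlace (D.loc v) U w)))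
        (Representation.trivial k (dec (D.loc v) U (repPlace (D.loc v) U w)) k)) := by
  have := hfin
  rw [(locXU1 k D hU v).finrank_eq]
  exact Module.finrank_pi_fintype k

open Classical in
lemma finrank_loc2_XU (hU : 𝓛.op U) (v : D.ι) [Fintype (Places (D.loc v) U)]
    (hfin : ∀ g, Module.Finite k (H2 ((D.lev v).onSub (dec (D.loc v) U g))
      (Representation.trivial k (dec (D.loc v) U g) k))) :
    finrank k (H2 (D.lev v) (D.rv (XU k U) v)) = ∑ w : Places (D.loc v) U,
      finrank k (H2 ((D.lev v).onSub (dec (D.loc v) U (repPlace (D.loc v) U w)))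
        (Representation.trivial k (dec (D.loc v) U (repPlace (D.loc v) U w)) k)) := by
  have := hfin
  rw [(locXU2 k D hU v).finrank_eq]
  exact Module.finrank_pi_fintype k

/-- the indices of the stabilisers of the orbits of `Gv` on `G ⧸ U` add up to `(G : U)` -/
lemma sum_index_dec (hU : 𝓛.op U) (v : D.ι) [Fintype (Places (D.loc v) U)] :
    ∑ w : Places (D.loc v) U, (dec (D.loc v) U (repPlace (D.loc v) U w)).index = U.index := by
  classical
  have := 𝓛.finiteIndex hU
  have hfin : Finite (G ⧸ U) := U.finite_quotient_of_finiteIndex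
  let f := D.loc v
  let _ : MulAction (D.Gv v) (G ⧸ U) := MulAction.compHom (G ⧸ U) f
  let R := repsPlaces f U
  have hV : ∀ w : Places f U, R.V w = MulAction.stabilizer (D.Gv v) (R.pt w) := by
    intro w
    ext g
    rw [R.mem_V]
    rfl
  -- the quotient of `G ⧸ U` by the action of the local group
  have h1 : ∀ w : Places f U, (R.V w).index = Nat.card {x : G ⧸ U // R.idx x = w} := by
    intro w
    rw [hV w]
    rw [MulAction.index_stabilizer]
    rw [← Set.coe_ofPred, Nat.card_coe_set_eq]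
    congr 1
    ext x
    constructor
    · rintro ⟨g, rfl⟩
      exact (R.idx_smul g (R.pt w)).trans (R.idx_pt w)
    · intro hx
      have hx' : R.idx x = w := hx
      exact ⟨R.τ x, by rw [← hx']; exact R.τ_smul x⟩
  have h2 : ∑ w : Places f U, Nat.card {x : G ⧸ U // R.idx x = w} = Nat.card (G ⧸ U) := by
    rw [← Nat.card_congr (Equiv.sigmaFiberEquiv R.idx), Nat.card_sigma]
  rw [← U.index_eq_card] at h2
  rw [← h2]
  exact Finset.sum_congr rfl fun w _ => h1 w

end LocalDataField

end Fermat.Agent.H92
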