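import Fermat.Agent.H92T3
import Fermat.Agent.H10T2
import Fermat.Agent.H20S4

/-!
# S47, package C-TR (helper92), part 4: the local data of one nonsplit place

`Hat j v s σ i`: all data of a completion `j : E → L` at a place fixed by the automorphism `s` of
order three of `E` with fixed field `i : F → E`.

* `exists_Hat` : it exists for `L = w.adicCompletion E`.
* `Hat.jF : F →+* fixF σ`, density, squares, norm pairs.
* `Hat.locMatch` : **the transfer theorem** with `T` = centraliser of `γ`.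
-/

set_option autoImplicit false

namespace Fermat.Agent.H92T

open WithZero Matrix IsDedekindDomain
open scoped MatrixGroups
open Fermat.Agent.H59XF Fermat.Agent.H57C Fermat.Agent.H10T

/-- The data of a completion at a nonsplit place. -/
structure Hat {E L F : Type*} [Field E] [Field L] [Field F] (j : E →+* L)
    (v : Valuation L ℤᵐ⁰) (s : E ≃+* E) (σ : L ≃+* L) (i : F →+* E) : Prop where
  dense : DenseHom v j
  compl : Compl3 v
  surj : Function.Surjective v
  sh_j : ∀ x, σ (j x) = j (s x)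
  sh_v : ∀ x, v (σ x) = v x
  sh3 : ∀ x, σ (σ (σ x)) = x
  s3 : ∀ x, s (s (s x)) = x
  ne : ∃ x, s x ≠ x
  fix : ∀ f, s (i f) = i f
  ex : ∀ x, s x = x → ∃ f, i f = x
  three : (3 : E) ≠ 0

/-- Existence of the local data at a place of a number field (or any Dedekind domain). -/
theorem exists_Hat {R E F : Type*} [CommRing R] [IsDedekindDomain R] [Field E] [Algebra R E]
    [IsFractionRing R E] [Field F] (w : HeightOneSpectrum R) (s : E ≃+* E) (i : F →+* E)
    (hs : ∀ x, w.valuation E (s x) = w.valuation E x) (hs3 : ∀ x, s (s (s x)) = x)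
    (hne : ∃ x, s x ≠ x) (hfix : ∀ f, s (i f) = i f) (hex : ∀ x, s x = x → ∃ f, i f = x)
    (h3 : (3 : E) ≠ 0) :
    ∃ σ : w.adicCompletion E ≃+* w.adicCompletion E,
      Hat (algebraMap E (w.adicCompletion E)) (Valued.v : Valuation (w.adicCompletion E) ℤᵐ⁰)
        s σ i := by
  obtain ⟨σ, h1, h2, h4⟩ := exists_hat3 w s hs hs3
  exact ⟨σ, denseHom_adic w, compl3_adic w, adic_surj w, h1, h2, h4, hs3, hne, hfix, hex, h3⟩

namespace Hat

variable {E L F : Type*} [Field E] [Field L] [Field F] {j : E →+* L}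
    {v : Valuation L ℤᵐ⁰} {s : E ≃+* E} {σ : L ≃+* L} {i : F →+* E}

theorem fix_j (H : Hat j v s σ i) (f : F) : σ (j (i f)) = j (i f) := by
  rw [H.sh_j, H.fix]

/-- The map `F → fixF σ`. -/
def jF (H : Hat j v s σ i) : F →+* fixF σ := toFix j σ i H.fix_j

@[simp] theorem jF_coe (H : Hat j v s σ i) (f : F) : ((H.jF f : fixF σ) : L) = j (i f) := rfl

/-- the valuation of the fixed field -/
abbrev vF (v : Valuation L ℤᵐ⁰) (σ : L ≃+* L) : Valuation (fixF σ) ℤᵐ⁰ :=
  v.comap (fixF σ).subtype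

theorem denseF (H : Hat j v s σ i) : DenseHom (vF v σ) H.jF :=
  dense_toFix H.dense H.sh_v H.sh_j H.s3 H.three H.ex H.fix_j

theorem ne_hat (H : Hat j v s σ i) : ∃ x, σ x ≠ x := by
  obtain ⟨x, hx⟩ := H.ne
  refine ⟨j x, ?_⟩
  rw [H.sh_j]
  exact fun h => hx (j.injective h)

theorem three_hat (H : Hat j v s σ i) : (3 : L) ≠ 0 := by
  intro h
  apply H.three
  apply j.injective
  rw [map_ofNat, map_zero, h]

/-- the automorphism as an algebra automorphism over the fixed field -/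
def _root_.Fermat.Agent.H92T.shA (σ : L ≃+* L) : L ≃ₐ[fixF σ] L :=
  AlgEquiv.ofRingEquiv (f := σ) fun r => r.2

@[simp] theorem _root_.Fermat.Agent.H92T.shA_apply (σ : L ≃+* L) (x : L) : shA σ x = σ x := rfl

theorem _root_.Fermat.Agent.H92T.shA_fix (σ : L ≃+* L) (x : L) (h : shA σ x = x) :
    x ∈ Set.range (algebraMap (fixF σ) L) := ⟨⟨x, h⟩, rfl⟩

theorem shA_ne (H : Hat j v s σ i) : shA σ ≠ AlgEquiv.refl := by
  obtain ⟨x, hx⟩ := H.ne_hat
  intro h
  exact hx (by
    have := congrArg (fun f : L ≃ₐ[fixF σ] L => f x) h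
    exact this)

/-- The norm relation over the completion. -/
theorem norm_hat (H : Hat j v s σ i) {d : PGL(2, E)} {γ : PGL(2, F)}
    (hN : d * ProjGenLinGroup.map (s : E →+* E) d *
      ProjGenLinGroup.map (s : E →+* E) (ProjGenLinGroup.map (s : E →+* E) d) =
        ProjGenLinGroup.map i γ) :
    ProjGenLinGroup.map j d * ProjGenLinGroup.map (σ : L →+* L) (ProjGenLinGroup.map j d) *
      ProjGenLinGroup.map (σ : L →+* L)
        (ProjGenLinGroup.map (σ : L →+* L) (ProjGenLinGroup.map j d)) =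
        ProjGenLinGroup.map (fixF σ).subtype (ProjGenLinGroup.map H.jF γ) :=
  norm_local H.sh_j H.fix_j hN

/-- The norm relation over the completion, in helper20's notation. -/
theorem nP_hat {F E : Type*} [Field F] [Field E] [Algebra F E] {L : Type*} [Field L]
    {j : E →+* L} {v : Valuation L ℤᵐ⁰} {s : E ≃ₐ[F] E} {σ : L ≃+* L}
    (H : Hat j v s.toRingEquiv σ (algebraMap F E)) {d : PGL(2, E)} {γ : PGL(2, F)}
    (hN : H20.S47.nP s d = H20.S47.incP E γ) :
    H20.S47.nP (shA σ) (ProjGenLinGroup.map j d) =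
      H20.S47.incP L (ProjGenLinGroup.map H.jF γ) :=
  H.norm_hat hN

theorem map_sh (H : Hat j v s σ i) (x : PGL(2, E)) :
    ProjGenLinGroup.map (σ : L →+* L) (ProjGenLinGroup.map j x) =
      ProjGenLinGroup.map j (ProjGenLinGroup.map (s : E →+* E) x) :=
  map_sigma H.sh_j x

theorem square (H : Hat j v s σ i) (x : PGL(2, F)) :
    ProjGenLinGroup.map (fixF σ).subtype (ProjGenLinGroup.map H.jF x) =
      ProjGenLinGroup.map j (ProjGenLinGroup.map i x) :=
  H10T.square H.fix_j x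

theorem approx (H : Hat j v s σ i) {n : ℕ} {Uh : Subgroup PGL(2, L)}
    (hU : PGam v (n + 1) ≤ Uh) : Approx (ProjGenLinGroup.map (n := Fin 2) j) Uh :=
  approx_PGL H.dense n hU

theorem approxF (H : Hat j v s σ i) {n : ℕ} {Hh : Subgroup PGL(2, fixF σ)}
    (hH : PGam (vF v σ) (n + 1) ≤ Hh) : Approx (ProjGenLinGroup.map (n := Fin 2) H.jF) Hh :=
  approx_PGL H.denseF n hH

/-- The map of the centralisers. -/
def cent (H : Hat j v s σ i) (γ : PGL(2, F)) (c : Subgroup.centralizer {γ}) :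
    Subgroup.centralizer {ProjGenLinGroup.map (n := Fin 2) H.jF γ} :=
  ⟨ProjGenLinGroup.map H.jF c.1, by
    rw [Subgroup.mem_centralizer_singleton_iff, ← map_mul, ← map_mul,
      (Subgroup.mem_centralizer_singleton_iff.1 c.2)]⟩

/-- **The transfer theorem (C-TR).**  `w` is the only place over `v₀`; `Uh`, `Hh` open subgroups over
the completions; `T` the centraliser of `γ`.  A local matching over the completions gives the local
matching in the shape of `H57C.exists_locMatch`. -/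
theorem locMatch (H : Hat j v s σ i) {ι κ : Type*} {Lv : LevelFam PGL(2, E) ι} (t : Twist Lv)
    (π : ι → κ) {v₀ : κ} {w : ι} (hπ : ∀ i, π (t.σ i) = π i) (hv : ∀ i, π i = v₀ ↔ i = w)
    (hw : t.σ w = w) (a : GlobKer Lv) (d : PGL(2, E)) (γ : PGL(2, F))
    {n : ℕ} {Uh : Subgroup PGL(2, L)} (hUn : PGam v (n + 1) ≤ Uh)
    (hU : Lv.U w = Uh.comap (ProjGenLinGroup.map j))
    {m : ℕ} {Hh : Subgroup PGL(2, fixF σ)} (hHm : PGam (vF v σ) (m + 1) ≤ Hh)
    {Hv : Subgroup PGL(2, F)} (hH : Hv = Hh.comap (ProjGenLinGroup.map H.jF))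
    {φh : PGL(2, L) ⧸ Uh → ℂ} {ζh : PGL(2, fixF σ) ⧸ Hh → ℂ}
    {βh : PGL(2, L) ⧸ Uh → PGL(2, fixF σ) ⧸ Hh}
    (h : LocMatch (fun (c : Subgroup.centralizer {ProjGenLinGroup.map (n := Fin 2) H.jF γ}) x =>
        ProjGenLinGroup.map (fixF σ).subtype c.1 • x) (fun c y => c.1 • y) φh ζh βh)
    (hφ : ∀ g : PGL(2, E), (a.loc w).k (g : PGL(2, E) ⧸ Lv.U w)
        ((d * t.s g : PGL(2, E)) : PGL(2, E) ⧸ Lv.U w) =
      φh (ProjGenLinGroup.map j g : PGL(2, L) ⧸ Uh))
    {ζ : PGL(2, F) ⧸ Hv → ℂ} (hζ : ∀ g : PGL(2, F), ζ (g : PGL(2, F) ⧸ Hv) =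
      ζh (ProjGenLinGroup.map H.jF g : PGL(2, fixF σ) ⧸ Hh)) :
    ∃ β : Xv Lv π v₀ → PGL(2, F) ⧸ Hv,
      LocMatch (fun (c : Subgroup.centralizer {γ}) x => fun k => ProjGenLinGroup.map i c.1 • x k)
        (fun c y => c.1 • y) (phiv t π hπ a d v₀) ζ β :=
  locMatch_nonsplit t π (j := ProjGenLinGroup.map j) (j' := ProjGenLinGroup.map H.jF) hπ hv hw a d
    hU (H.approx hUn) hH (H.approxF hHm) (H.cent γ)
    (τ := fun c => ProjGenLinGroup.map i c.1) (τ' := fun c => c.1)
    (τh := fun c => ProjGenLinGroup.map (fixF σ).subtype c.1) (τh' := fun c => c.1)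
    (fun c => H.square c.1) (fun _ => rfl) h hφ hζ

end Hat

end Fermat.Agent.H92T
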