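/-
H93Kaehler (helper93): Riemann-Roch with Kähler differentials in characteristic zero;
`AlgebraicCurve.genus = genusFF`; regular differentials have dimension `genusFF`.
-/
import Mathlib
import Fermat.Agent.H93Weil
import Fermat.Prelude.Def_AlgebraicCurve_CanonicalDivisor

set_option autoImplicit false
set_option maxHeartbeats 400000
set_option linter.unusedSectionVars false

open AlgebraicCurve WithZero IsLocalRing IntermediateField Polynomial KaehlerDifferential

namespace Fermat.Agent.H93

open Fermat.Agent.H3RR Fermat.Agent.H94 Fermat.Agent.H93.Res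

variable {K F : Type*} [Field K] [Field F] [Algebra K F]
variable [CharZero K] [IsAlgClosed K] [FunField K F]

/-- The divisor of `dx`, together with the associated Weil differential. -/
theorem exists_div_dx {x : F} (hx : Transcendental K x) : ∃ W : Divisor K F,
    (∀ v : Place K F, W v = v.ordDifferential (D K F x)) ∧
    ∃ ω : Module.Dual K ↥(repartitions K F), ω ≠ 0 ∧ ω ∈ Om W ∧ ∀ D, ω ∈ Om D → D ≤ W := by
  have := FunField.finiteDimensional (F := F) hx
  have : CharZero K⟮x⟯ := charZero_of_injective_algebraMap (algebraMap K K⟮x⟯).injective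
  have : Algebra.IsSeparable K⟮x⟯ F := inferInstance
  obtain ⟨W, hW, hmax, h1, h2⟩ := exists_weilDiv (F := F) hx
  refine ⟨W, fun v => ?_, weilDx hx, weilDx_ne_zero hx, hW, hmax⟩
  have hx0 := H3RR.transcendental_ne_zero hx
  rcases le_one_or hx0 v with hv | hv
  · obtain ⟨a, ha⟩ := exists_const_sub_lt_one v hv
    have h3 := ord_pos_of_lt_one (sub_ne_zero' hx a) ha
    rw [h1 v a ha, ordDifferential_D_sub v h3.ne']
  · have h3 := ord_pos_of_lt_one (inv_ne_zero hx0) hv
    rw [v.ord_inv] at h3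
    rw [h2 v hv, ordDifferential_D v (by omega)]

/-- Every nonzero differential has a divisor, which is the divisor of a Weil differential. -/
theorem exists_div {ω : Ω[F⁄K]} (hω : ω ≠ 0) : ∃ W : Divisor K F,
    (∀ v : Place K F, W v = v.ordDifferential ω) ∧
    ∃ η : Module.Dual K ↥(repartitions K F), η ≠ 0 ∧ η ∈ Om W ∧ ∀ D, η ∈ Om D → D ≤ W := by
  obtain ⟨x, hx, -⟩ := FunField.out (K := K) (F := F)
  obtain ⟨W, hW, η, hη0, hη, hmax⟩ := exists_div_dx hx
  obtain ⟨g, hg⟩ := (dxEquiv hx).surjective ω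
  have hgω : g • D K F x = ω := hg
  have hg0 : g ≠ 0 := by rintro rfl; rw [zero_smul] at hgω; exact hω hgω.symm
  refine ⟨W + divOf g, fun v => ?_, fmul g η, fun h => hη0 (fmul_eq_zero hg0 h),
    fmul_mem_Om hg0 hη, fun D hD => ?_⟩
  · rw [Finsupp.add_apply, divOf_apply hg0, hW, ← hgω, ordDifferential_smul' v hg0 (D_ne_zero hx)]
    ring
  · have h1 := fmul_mem_Om (inv_ne_zero hg0) hD
    rw [fmul_fmul, mul_inv_cancel₀ hg0, fmul_one] at h1
    have h2 := hmax _ h1
    intro v
    have h3 := h2 v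
    rw [Finsupp.add_apply, divOf_apply (inv_ne_zero hg0), v.ord_inv] at h3
    rw [Finsupp.add_apply, divOf_apply hg0]
    omega

instance hasCanonicalDivisor : HasCanonicalDivisor (K := K) (F := F) where
  exists_divisor ω hω := by
    obtain ⟨W, hW, -⟩ := exists_div hω
    exact ⟨W, hW⟩

/-- **Serre duality** with Kähler differentials. -/
theorem h1_eq_of_ordDifferential {ω : Ω[F⁄K]} (hω : ω ≠ 0) {W : Divisor K F}
    (hW : ∀ v : Place K F, W v = v.ordDifferential ω) (D : Divisor K F) :
    h1 D = ell (W - D) := by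
  obtain ⟨W', hW', η, hη0, hη, hmax⟩ := exists_div hω
  have : W = W' := Finsupp.ext fun v => by rw [hW, hW']
  rw [this]
  exact h1_eq_of_maximal hη0 hη hmax D

/-- **Riemann-Roch** with Kähler differentials. -/
theorem riemann_roch_of_ordDifferential {ω : Ω[F⁄K]} (hω : ω ≠ 0) {W : Divisor K F}
    (hW : ∀ v : Place K F, W v = v.ordDifferential ω) (D : Divisor K F) :
    (ell D : ℤ) - ell (W - D) = Divisor.degree D + 1 - genusFF K F := by
  rw [← h1_eq_of_ordDifferential hω hW, riemann_roch_weak]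

theorem ell_of_ordDifferential {ω : Ω[F⁄K]} (hω : ω ≠ 0) {W : Divisor K F}
    (hW : ∀ v : Place K F, W v = v.ordDifferential ω) : ell W = genusFF K F := by
  have h := h1_eq_of_ordDifferential hω hW 0
  rw [sub_zero] at h
  rw [← h]
  rfl

theorem degree_of_ordDifferential {ω : Ω[F⁄K]} (hω : ω ≠ 0) {W : Divisor K F}
    (hW : ∀ v : Place K F, W v = v.ordDifferential ω) :
    Divisor.degree W = 2 * genusFF K F - 2 := by
  have h := riemann_roch_of_ordDifferential hω hW W
  rw [sub_self, ell_of_ordDifferential hω hW, (finite_and_ell_zero (K := K) (F := F)).2] at h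
  push_cast at h
  omega

/-- The geometric genus (via the canonical divisor) is the arithmetic genus. -/
theorem genus_eq_genusFF [HasCanonicalDivisor (K := K) (F := F)] :
    AlgebraicCurve.genus K F = genusFF K F := by
  have hex : ∃ ω : Ω[F⁄K], ω ≠ 0 := by
    have := nontrivial_kaehler (K := K) (F := F)
    exact exists_ne 0
  rw [AlgebraicCurve.genus, dif_pos hex]
  have h := degree_of_ordDifferential hex.choose_spec
    (fun v => canonicalDivisorOf_apply hex.choose_spec v)
  rw [h]
  omega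

/-- Differentials `ω` with `ord_v ω ≥ D v` for all `v`. -/
def OmegaOf (D : Divisor K F) : Submodule K Ω[F⁄K] where
  carrier := {ω | ω = 0 ∨ ∀ v : Place K F, D v ≤ v.ordDifferential ω}
  zero_mem' := Or.inl rfl
  add_mem' := by
    intro ω₁ ω₂ h₁ h₂
    by_cases h0 : ω₁ + ω₂ = 0
    · exact Or.inl h0
    by_cases hω₁ : ω₁ = 0
    · rw [hω₁, zero_add]; exact h₂
    by_cases hω₂ : ω₂ = 0
    · rw [hω₂, add_zero]; exact h₁
    have h₁' := h₁.resolve_left hω₁
    have h₂' := h₂.resolve_left hω₂
    refine Or.inr fun v => ?_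
    obtain ⟨t, ht⟩ := exists_ord_eq_one v
    have htr := transcendental_of_ord_eq_one ht
    obtain ⟨g₁, hg₁⟩ := (dxEquiv htr).surjective ω₁
    obtain ⟨g₂, hg₂⟩ := (dxEquiv htr).surjective ω₂
    have e₁ : ω₁ = g₁ • KaehlerDifferential.D K F t := hg₁.symm
    have e₂ : ω₂ = g₂ • KaehlerDifferential.D K F t := hg₂.symm
    have e₃ : ω₁ + ω₂ = (g₁ + g₂) • KaehlerDifferential.D K F t := by rw [e₁, e₂, add_smul]
    rw [ordDifferential_eq v ht e₃]
    have k₁ := h₁' v
    have k₂ := h₂' v
    rw [ordDifferential_eq v ht e₁] at k₁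
    rw [ordDifferential_eq v ht e₂] at k₂
    rcases H94.ord_add_ge v (Or.inr k₁) (Or.inr k₂) with h | h
    · exfalso; apply h0; rw [e₃, h, zero_smul]
    · exact h
  smul_mem' := by
    intro c ω h
    by_cases hc : c = 0
    · left; rw [hc, zero_smul]
    rcases h with h | h
    · left; rw [h, smul_zero]
    by_cases hω : ω = 0
    · left; rw [hω, smul_zero]
    · refine Or.inr fun v => ?_
      have hc' : algebraMap K F c ≠ 0 := by simpa using hc
      rw [← algebraMap_smul F c ω, ordDifferential_smul' v hc' hω, H94.ord_algebraMap, zero_add]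
      exact h v

theorem mem_OmegaOf {D : Divisor K F} {ω : Ω[F⁄K]} :
    ω ∈ OmegaOf D ↔ ω = 0 ∨ ∀ v : Place K F, D v ≤ v.ordDifferential ω := Iff.rfl

theorem smul_mem_OmegaOf {ω : Ω[F⁄K]} (hω : ω ≠ 0) {W : Divisor K F}
    (hW : ∀ v : Place K F, W v = v.ordDifferential ω) {D : Divisor K F} {f : F}
    (hf : f ∈ riemannRochSpace (W - D)) : f • ω ∈ OmegaOf D := by
  rw [mem_OmegaOf]
  by_cases hf0 : f = 0
  · left; rw [hf0, zero_smul]
  · right
    intro v
    have h := (mem_riemannRochSpace_iff.mp hf v).resolve_left hf0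
    rw [Finsupp.sub_apply, hW] at h
    rw [ordDifferential_smul' v hf0 hω]
    omega

/-- `L(W - D) → Ω(D)`, `f ↦ f ω`, where `W = div ω`. -/
noncomputable def omegaMap {ω : Ω[F⁄K]} (hω : ω ≠ 0) {W : Divisor K F}
    (hW : ∀ v : Place K F, W v = v.ordDifferential ω) (D : Divisor K F) :
    riemannRochSpace (W - D) →ₗ[K] OmegaOf D where
  toFun f := ⟨f.1 • ω, smul_mem_OmegaOf hω hW f.2⟩
  map_add' f g := Subtype.ext (add_smul f.1 g.1 ω)
  map_smul' c f := Subtype.ext (by
    show (c • f.1) • ω = c • (f.1 • ω)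
    rw [smul_assoc])

/-- `L(W - D) ≃ Ω(D)`, `f ↦ f ω`, where `W = div ω`. -/
noncomputable def omegaEquiv {ω : Ω[F⁄K]} (hω : ω ≠ 0) {W : Divisor K F}
    (hW : ∀ v : Place K F, W v = v.ordDifferential ω) (D : Divisor K F) :
    riemannRochSpace (W - D) ≃ₗ[K] OmegaOf D := by
  refine LinearEquiv.ofBijective (omegaMap hω hW D) ⟨?_, ?_⟩
  · intro f g hfg
    have h : f.1 • ω = g.1 • ω := congrArg Subtype.val hfg
    have h2 : (f.1 - g.1) • ω = 0 := by rw [sub_smul, h, sub_self]
    rcases smul_eq_zero.mp h2 with h3 | h3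
    · exact Subtype.ext (sub_eq_zero.mp h3)
    · exact absurd h3 hω
  · rintro ⟨η, hη⟩
    obtain ⟨x, hx, -⟩ := FunField.out (K := K) (F := F)
    obtain ⟨g, hg⟩ := (dxEquiv hx).surjective ω
    obtain ⟨k, hk⟩ := (dxEquiv hx).surjective η
    have hgω : g • KaehlerDifferential.D K F x = ω := hg
    have hkη : k • KaehlerDifferential.D K F x = η := hk
    have hg0 : g ≠ 0 := by rintro rfl; rw [zero_smul] at hgω; exact hω hgω.symm
    have hf : (k * g⁻¹) • ω = η := by
      rw [← hgω, ← hkη, smul_smul, mul_assoc, inv_mul_cancel₀ hg0, mul_one]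
    refine ⟨⟨k * g⁻¹, ?_⟩, Subtype.ext hf⟩
    rw [mem_riemannRochSpace_iff]
    intro v
    by_cases hk0 : k * g⁻¹ = 0
    · exact Or.inl hk0
    · right
      rcases hη with h0 | h0
      · exfalso
        rw [h0] at hf
        rcases smul_eq_zero.mp hf with h3 | h3
        · exact hk0 h3
        · exact hω h3
      · have := h0 v
        rw [← hf, ordDifferential_smul' v hk0 hω] at this
        rw [Finsupp.sub_apply, hW]
        omega

instance finite_OmegaOf (D : Divisor K F) : Module.Finite K (OmegaOf D) := by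
  have hex : ∃ ω : Ω[F⁄K], ω ≠ 0 := by
    have := nontrivial_kaehler (K := K) (F := F)
    exact exists_ne 0
  obtain ⟨ω, hω⟩ := hex
  obtain ⟨W, hW, -⟩ := exists_div hω
  exact Module.Finite.equiv (omegaEquiv hω hW D)

/-- `h¹(D) = dim Ω(D)`. -/
theorem finrank_OmegaOf (D : Divisor K F) : Module.finrank K (OmegaOf D) = h1 D := by
  have hex : ∃ ω : Ω[F⁄K], ω ≠ 0 := by
    have := nontrivial_kaehler (K := K) (F := F)
    exact exists_ne 0
  obtain ⟨ω, hω⟩ := hex
  obtain ⟨W, hW, -⟩ := exists_div hω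
  rw [h1_eq_of_ordDifferential hω hW, ell, (omegaEquiv hω hW D).finrank_eq]

/-- The space of regular differentials has dimension `genusFF`. -/
theorem finrank_OmegaOf_zero : Module.finrank K (OmegaOf (0 : Divisor K F)) = genusFF K F :=
  finrank_OmegaOf 0

/-- Riemann-Roch: `dim L(D) - dim Ω(D) = deg D + 1 - g`. -/
theorem riemann_roch_kaehler (D : Divisor K F) :
    (ell D : ℤ) - Module.finrank K (OmegaOf D) = Divisor.degree D + 1 - genusFF K F := by
  rw [finrank_OmegaOf, riemann_roch_weak]

end Fermat.Agent.H93
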