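import Fermat.Agent.H15Defs
import Fermat.Agent.H31Inputs
import Fermat.Agent.H31Level
import Fermat.Agent.H17DivMod
import Fermat.Agent.H42HeckeData

/-!
# MZ-J1: general facts about `J₀(N)` and its reductions (job 167)
-/

set_option autoImplicit false
set_option maxHeartbeats 400000

noncomputable section

open AlgebraicCurve ModularCurve

namespace Fermat.Agent.H93.MZ

open Fermat.Agent.H60

local notation "Qb" => AlgebraicClosure ℚ

/-- the reduction inputs hold at every good place -/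
theorem reductionInputs {N : ℕ} [NeZero N] {ℓ : ℕ} (hℓ : ℓ.Prime) (hℓN : ¬ ℓ ∣ N)
    {A : ValuationSubring Qb} (hA : A.LiesOverPrime ℓ) : ReductionInputsModL A N :=
  H42.reductionInputsModL_of_genusEq hℓ hA hℓN (H31.genusEqAt N hℓ hℓN A hA)

set_option synthInstance.maxHeartbeats 400000 in
set_option maxHeartbeats 4000000 in
/-- compatibility of the reduction with the decomposition group -/
theorem reductionModL_smul {N : ℕ} [NeZero N] {ℓ : ℕ} (hℓ : ℓ.Prime) (hℓN : ¬ ℓ ∣ N)
    {A : ValuationSubring Qb} (hA : A.LiesOverPrime ℓ) {σ : Qb ≃ₐ[ℚ] Qb}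
    (hσ : σ ∈ A.decompositionSubgroup ℚ)
    (τ : IsLocalRing.ResidueField A ≃+* IsLocalRing.ResidueField A)
    (hτ : ∀ x : IsLocalRing.ResidueField A, (⟨σ, hσ⟩ : A.decompositionSubgroup ℚ) • x = τ x)
    (x : JZero N) :
    reductionModL A N (σ • x) =
      (coeffAut N τ • reductionModL A N x : JZeroC (IsLocalRing.ResidueField A) N) := by
  have hred := reductionInputs hℓ hℓN hA
  have hr := hred.choose_spec.1
  have hgen := hred.choose_spec.2
  have hs : reductionModL A N = reductionPic0Along hred.choose hr hgen := reductionAlong_eq hred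
  have hc := compat_of_mem (A := A) hσ τ hτ
  rw [hs]
  exact reductionPic0Along_smul (H42.riemannBound _ _) (H42.deg_bar N) hr hgen hc x

set_option synthInstance.maxHeartbeats 400000 in
set_option maxHeartbeats 4000000 in
/-- inertia acts trivially on the reduction -/
theorem reductionModL_inertia {N : ℕ} [NeZero N] {ℓ : ℕ} (hℓ : ℓ.Prime) (hℓN : ¬ ℓ ∣ N)
    {A : ValuationSubring Qb} (hA : A.LiesOverPrime ℓ) {σ : Qb ≃ₐ[ℚ] Qb}
    (hσ : σ ∈ A.inertiaSubgroupIn ℚ) (x : JZero N) :
    reductionModL A N (σ • x) = reductionModL A N x := by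
  obtain ⟨σ', hσ', rfl⟩ := hσ
  have hid : ∀ x : IsLocalRing.ResidueField A, σ' • x = RingEquiv.refl _ x := by
    intro x
    have h := MonoidHom.mem_ker.mp hσ'
    exact DFunLike.congr_fun h x
  have h1 := reductionModL_smul hℓ hℓN hA σ'.2 (RingEquiv.refl _) hid x
  rw [coeffAut_refl, one_smul] at h1
  exact h1

set_option synthInstance.maxHeartbeats 400000 in
set_option maxHeartbeats 4000000 in
/-- the Eichler-Shimura congruence on `J₀(N)` -/
theorem reductionModL_hecke {N : ℕ} [NeZero N] {ℓ : ℕ} (hℓ : ℓ.Prime) (hℓN : ¬ ℓ ∣ N)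
    {A : ValuationSubring Qb} (hA : A.LiesOverPrime ℓ)
    (τ : IsLocalRing.ResidueField A ≃+* IsLocalRing.ResidueField A) (hτ : ∀ x, τ x = x ^ ℓ)
    (x : JZero N) :
    reductionModL A N (heckeOperatorBar N ⟨ℓ, hℓ⟩ x) =
      (coeffAut N τ • reductionModL A N x +
        (ℓ : ℤ) • ((coeffAut N τ)⁻¹ • reductionModL A N x) :
          JZeroC (IsLocalRing.ResidueField A) N) := by
  haveI : NeZero ℓ := ⟨hℓ.ne_zero⟩
  haveI : Fact ℓ.Prime := ⟨hℓ⟩
  haveI : CharP (IsLocalRing.ResidueField A) ℓ := charP_residue hℓ hA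
  obtain ⟨ζ, hζ, hζ1⟩ := exists_zeta hℓ hA
  have hH : HeckeData N ℓ := H42.heckeData N _ hℓ hℓN
  obtain ⟨w, hw⟩ := hH.swap
  have hred := reductionInputs hℓ hℓN hA
  have hr := hred.choose_spec.1
  have hgen := hred.choose_spec.2
  have hs : reductionModL A N = reductionPic0Along hred.choose hr hgen := reductionAlong_eq hred
  obtain ⟨hα, hβ, hPD, hfin, hFI, hNF⟩ := hH.inputs
  have hop : heckeOperatorBar N ⟨ℓ, hℓ⟩ x = heckePic0Bar hα hβ hFI hfin hNF x := by
    exact (heckeOperatorBar_apply N (⟨ℓ, hℓ⟩ : Nat.Primes) x).trans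
      (DFunLike.congr_fun (heckeOperatorAlong_eq hα hβ hFI hfin hNF) x)
  rw [hop, hs]
  exact reductionPic0Along_heckePic0Bar hw hζ hζ1 hα hβ hFI hfin hNF hH.degree_le
    (H42.riemannBound _ _) (H42.deg_bar N) hr hgen hτ x

attribute [local instance] heckeModuleBar

/-- the Galois action commutes with the Hecke operators -/
theorem smulCommClass (N : ℕ) [NeZero N] : SMulCommClass H15.GQ HeckeAlg (JZero N) :=
  H67.smulCommClass_heckeAlg N

set_option synthInstance.maxHeartbeats 400000 in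
set_option maxHeartbeats 4000000 in
/-- **MZ-J1.** -/
theorem basic : H15.T_basic := by
  intro N _
  refine ⟨?_, ?_, ?_, ?_, ?_, ?_, ?_⟩
  · intro x
    obtain ⟨K', hK', h⟩ := H31.exists_level_JZero (N := N) x
    have h1 : K'.fixingSubgroup ≤ MulAction.stabilizer (Qb ≃ₐ[ℚ] Qb) x := by
      intro σ hσ
      rw [MulAction.mem_stabilizer_iff]
      exact h σ fun x hx => (IntermediateField.mem_fixingSubgroup_iff K' σ).mp hσ x hx
    exact Subgroup.isOpen_mono h1 (IntermediateField.fixingSubgroup_isOpen K')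
  · intro m hm
    exact H90.finite_jzero N hm
  · intro m hm x
    exact H17.jzero_divisible N hm x
  · intro ℓ hℓ hℓN A hA σ hσ x
    rw [H15.KJ, AddMonoidHom.mem_ker, map_sub, reductionModL_inertia hℓ hℓN hA hσ, sub_self]
  · intro ℓ hℓ hℓN A hA σ hσ x
    obtain ⟨hσ1, hσ2⟩ := hσ
    obtain ⟨τ, hτ⟩ := exists_frobAut hℓ hA
    have hF : ∀ y : JZero N, reductionModL A N (σ • y) =
        (coeffAut N τ • reductionModL A N y : JZeroC (IsLocalRing.ResidueField A) N) :=
      fun y => reductionModL_smul hℓ hℓN hA hσ1 τ (fun x => (hσ2 x).trans (hτ x).symm) y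
    have h1 := heckeModuleBar_heckeGen_smul (H67.heckeOperatorsCommuteBar N) ⟨ℓ, hℓ⟩ (σ • x)
    rw [H15.KJ, AddMonoidHom.mem_ker, map_add, map_sub, map_nsmul, h1,
      reductionModL_hecke hℓ hℓN hA τ hτ, hF, hF]
    set y : JZeroC (IsLocalRing.ResidueField A) N := reductionModL A N x
    rw [inv_smul_smul, natCast_zsmul]
    abel
  · intro ℓ hℓ hℓN A hA σ hσ x hx
    rw [H15.KJ, AddMonoidHom.mem_ker] at hx ⊢
    have h := reductionModL_smul hℓ hℓN hA hσ
      (MulSemiringAction.toRingEquiv (A.decompositionSubgroup ℚ)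
        (IsLocalRing.ResidueField A) ⟨σ, hσ⟩) (fun _ => rfl) x
    rw [h, hx, smul_zero]
  · intro ℓ hℓ hℓN A hA m hm x hx hmx
    rw [H15.KJ, AddMonoidHom.mem_ker] at hx
    haveI : Fact ℓ.Prime := ⟨hℓ⟩
    exact H31.injectivityAt N hℓN A hA (reductionInputs hℓ hℓN hA) m hm x hmx hx

end Fermat.Agent.H93.MZ
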