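import Mathlib
import Fermat.Agent.H3RR_Degree

/-!
# Riemann–Roch library (helper93): consequences of the Riemann theorem

`RRData K F g` packages the output of the Riemann(–Roch) theorem; all results below only use it.
-/

set_option autoImplicit false
set_option maxHeartbeats 400000

noncomputable section

open AlgebraicCurve WithZero Fermat.Agent.H3RR

namespace Fermat.Agent.H93

variable {K F : Type*} [Field K] [Field F] [Algebra K F]

/-- Package of the Riemann theorem in genus `g` (algebraically closed base field). -/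
structure RRData (K F : Type*) [Field K] [Field F] [Algebra K F] (g : ℕ) : Prop where
  prin : HasPrincipalDivisors K F
  finL : ∀ D : Divisor K F, Module.Finite K (riemannRochSpace D)
  finH : ∀ D : Divisor K F, Module.Finite K (H1 D)
  deg_one : ∀ v : Place K F, v.deg = 1
  rr : ∀ D : Divisor K F, (ell D : ℤ) = h1 D + Divisor.degree D + 1 - g
  ell_zero : ell (0 : Divisor K F) = 1
  h1_large : ∀ D : Divisor K F, 2 * (g : ℤ) - 2 < Divisor.degree D → h1 D = 0

section Basic

theorem mem_L_iff {D : Divisor K F} {f : F} (hf : f ≠ 0) :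
    f ∈ riemannRochSpace D ↔ ∀ v : Place K F, 0 ≤ D v + v.ord f := by
  rw [mem_riemannRochSpace_iff]
  refine forall_congr' fun v => ?_
  rw [or_iff_right hf]
  constructor <;> intro h <;> omega

theorem degree_nonneg {D : Divisor K F} (hD : 0 ≤ D) : 0 ≤ Divisor.degree D := by
  classical
  have : Divisor.degree D = D.sum fun v n => n * (v.deg : ℤ) := rfl
  rw [this]
  exact Finset.sum_nonneg fun v _ => mul_nonneg (Finsupp.le_def.mp hD v) (Int.natCast_nonneg _)

theorem ell_eq_zero_iff (D : Divisor K F) [Module.Finite K (riemannRochSpace D)] :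
    ell D = 0 ↔ riemannRochSpace D = ⊥ := Submodule.finrank_eq_zero

theorem exists_ne_zero_of_ell_pos {D : Divisor K F} (h : 0 < ell D) :
    ∃ f ∈ riemannRochSpace D, f ≠ 0 := by
  by_contra hcon
  push Not at hcon
  have : riemannRochSpace D = ⊥ := (Submodule.eq_bot_iff _).mpr hcon
  rw [ell, this, finrank_bot] at h
  exact lt_irrefl 0 h

theorem ell_pos_of_mem {D : Divisor K F} [Module.Finite K (riemannRochSpace D)] {f : F}
    (hf : f ∈ riemannRochSpace D) (hf0 : f ≠ 0) : 0 < ell D := by
  rw [Nat.pos_iff_ne_zero, Ne, ell_eq_zero_iff]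
  intro h
  rw [h] at hf
  exact hf0 ((Submodule.mem_bot K).mp hf)

/-- If `L(D) ≠ 0` then `D` is linearly equivalent to an effective divisor. -/
theorem exists_effective_of_ell_pos [HasPrincipalDivisors K F] {D : Divisor K F} (h : 0 < ell D) :
    ∃ (f : F) (E : Divisor K F), f ≠ 0 ∧ 0 ≤ E ∧ (∀ v, E v = D v + v.ord f) ∧
      Divisor.degree E = Divisor.degree D := by
  obtain ⟨f, hf, hf0⟩ := exists_ne_zero_of_ell_pos h
  obtain ⟨Δ, hΔ, hdeg⟩ := HasPrincipalDivisors.exists_divisor (K := K) f hf0
  refine ⟨f, D + Δ, hf0, fun v => ?_, fun v => ?_, ?_⟩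
  · have := (mem_L_iff hf0).mp hf v
    rw [Finsupp.add_apply, hΔ v]; exact this
  · rw [Finsupp.add_apply, hΔ v]
  · rw [map_add, hdeg, add_zero]

theorem ell_eq_zero_of_degree_neg [HasPrincipalDivisors K F] {D : Divisor K F}
    (h : Divisor.degree D < 0) : ell D = 0 := by
  by_contra hne
  obtain ⟨f, E, -, hE, -, hdeg⟩ := exists_effective_of_ell_pos (Nat.pos_of_ne_zero hne)
  have := degree_nonneg hE
  omega

end Basic

namespace RRData

variable {g : ℕ} (R : RRData K F g)
include R

theorem ell_ge (D : Divisor K F) : Divisor.degree D + 1 - g ≤ ell D := by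
  have := R.rr D
  have h2 : (0 : ℤ) ≤ h1 D := Int.natCast_nonneg _
  omega

theorem ell_eq (D : Divisor K F) (hD : 2 * (g : ℤ) - 2 < Divisor.degree D) :
    (ell D : ℤ) = Divisor.degree D + 1 - g := by
  rw [R.rr D, R.h1_large D hD]; simp

/-- A divisor of degree at least `g` is linearly equivalent to an effective one. -/
theorem exists_effective {D : Divisor K F} (hD : (g : ℤ) ≤ Divisor.degree D) :
    ∃ (f : F) (E : Divisor K F), f ≠ 0 ∧ 0 ≤ E ∧ (∀ v, E v = D v + v.ord f) ∧
      Divisor.degree E = Divisor.degree D := by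
  have := R.prin
  apply exists_effective_of_ell_pos
  have := R.ell_ge D
  omega

/-- Every degree zero class is `[E - g P₀]` with `E` effective of degree `g`. -/
theorem exists_pic0_rep (P₀ : Place K F) (x : Pic0 K F) :
    ∃ (E : Divisor K F) (hE : E - Finsupp.single P₀ (g : ℤ) ∈ Divisor.degZero (K := K) (F := F)),
      0 ≤ E ∧ Divisor.degree E = g ∧ x = Pic0.mk ⟨_, hE⟩ := by
  classical
  obtain ⟨⟨D, hD⟩, rfl⟩ := Pic0.mk_surjective x
  have hD0 : Divisor.degree D = 0 := hD
  have hdeg : Divisor.degree (D + Finsupp.single P₀ (g : ℤ)) = g := by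
    rw [map_add, hD0, Divisor.degree_single, R.deg_one]; simp
  obtain ⟨f, E, hf, hE, hEv, hEdeg⟩ := R.exists_effective hdeg.ge
  have hE0 : E - Finsupp.single P₀ (g : ℤ) ∈ Divisor.degZero (K := K) (F := F) := by
    rw [Divisor.mem_degZero, map_sub, hEdeg, hdeg, Divisor.degree_single, R.deg_one]; simp
  refine ⟨E, hE0, hE, hEdeg.trans hdeg, ?_⟩
  refine (QuotientAddGroup.eq).mpr ?_
  rw [AddSubgroup.mem_addSubgroupOf]
  refine ⟨f, hf, fun v => ?_⟩
  show (-(D : Divisor K F) + (E - Finsupp.single P₀ (g : ℤ))) v = _
  rw [Finsupp.add_apply, Finsupp.neg_apply, Finsupp.sub_apply, hEv v, Finsupp.add_apply]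
  ring

/-- One-step formula in degree one. -/
theorem step (D : Divisor K F) (v : Place K F) :
    ell (plus D v) + h1 D = ell D + h1 (plus D v) + 1 := by
  have := R.rr D
  have h2 := R.rr (plus D v)
  rw [degree_plus, R.deg_one] at h2
  push_cast at h2
  omega

theorem ell_plus_le (D : Divisor K F) (v : Place K F) : ell (plus D v) ≤ ell D + 1 := by
  have h1 := R.finL D
  have h2 : Module.Finite K v.ResidueField :=
    Module.finite_of_finrank_eq_succ (n := 0) (R.deg_one v)
  have := H3RR.ell_plus_le D v
  rwa [R.deg_one] at this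

theorem ell_mono {D E : Divisor K F} (h : D ≤ E) : ell D ≤ ell E := by
  have := R.finL E
  exact Submodule.finrank_mono (L_mono h)

theorem h1_plus_le (D : Divisor K F) (v : Place K F) : h1 (plus D v) ≤ h1 D := by
  have h1 := R.step D v
  have h2 := R.ell_mono (le_add_single D v)
  have h3 := R.ell_plus_le D v
  omega

theorem h1_le_plus (D : Divisor K F) (v : Place K F) : h1 D ≤ h1 (plus D v) + 1 := by
  have h1 := R.step D v
  have h2 := R.ell_mono (le_add_single D v)
  omega

theorem ell_plus_of_mem {D : Divisor K F} {v : Place K F} {f : F}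
    (hf : f ∈ riemannRochSpace (plus D v)) (hf' : f ∉ riemannRochSpace D) :
    ell (plus D v) = ell D + 1 := by
  have h1 := R.ell_plus_le D v
  have := R.finL (plus D v)
  have h2 : ell D < ell (plus D v) := by
    apply Submodule.finrank_lt_finrank_of_lt
    refine lt_of_le_of_ne (L_mono (le_add_single D v)) ?_
    intro h
    rw [h] at hf'
    exact hf' hf
  omega

theorem exists_mem_of_ell_lt {D : Divisor K F} {v : Place K F} (h : ell D < ell (plus D v)) :
    ∃ f ∈ riemannRochSpace (plus D v), f ≠ 0 ∧ v.ord f = - D v - 1 := by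
  have : ∃ f ∈ riemannRochSpace (plus D v), f ∉ riemannRochSpace D := by
    by_contra hcon
    push Not at hcon
    have h2 : ell (plus D v) ≤ ell D := by
      have := R.finL D
      exact Submodule.finrank_mono hcon
    omega
  obtain ⟨f, hf, hf'⟩ := this
  have hf0 : f ≠ 0 := fun h0 => hf' (h0 ▸ Submodule.zero_mem _)
  refine ⟨f, hf, hf0, ?_⟩
  rw [mem_L_iff hf0] at hf hf'
  push Not at hf'
  obtain ⟨w, hw⟩ := hf'
  have hwv : w = v := by
    by_contra hne
    have := hf w
    rw [single_apply_of_ne' D v hne] at this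
    omega
  subst hwv
  have := hf w
  rw [single_apply_self'] at this
  omega

/-- Base point freeness: for `deg D ≥ 2g`, there is `f ∈ L(D)` with exact pole order at `v`. -/
theorem exists_ord_eq {D : Divisor K F} (hD : 2 * (g : ℤ) ≤ Divisor.degree D) (v : Place K F) :
    ∃ f ∈ riemannRochSpace D, f ≠ 0 ∧ v.ord f = - D v := by
  classical
  obtain ⟨E, hE⟩ : ∃ E : Divisor K F, E = D - Finsupp.single v 1 := ⟨_, rfl⟩
  have hpl : plus E v = D := by rw [hE, plus, sub_add_cancel]
  have hdE : Divisor.degree E = Divisor.degree D - 1 := by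
    rw [hE, map_sub, Divisor.degree_single, R.deg_one]; simp
  have h1 := R.ell_eq E (by omega)
  have h2 := R.ell_eq D (by omega)
  have h3 : ell E < ell (plus E v) := by rw [hpl]; omega
  obtain ⟨f, hf, hf0, hord⟩ := R.exists_mem_of_ell_lt h3
  rw [hpl] at hf
  refine ⟨f, hf, hf0, ?_⟩
  rw [hord, hE, Finsupp.sub_apply, Finsupp.single_eq_same]
  ring

/-- Generic decrease of `ℓ`: if `ℓ(D) > 0` then `ℓ(D - P) = ℓ(D) - 1` for all but finitely many
`P`. -/
theorem exists_finset_ell_sub {D : Divisor K F} (hD : 0 < ell D) :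
    ∃ S : Finset (Place K F), ∀ P ∉ S, ell (D - Finsupp.single P 1) + 1 = ell D := by
  classical
  obtain ⟨f, hf, hf0⟩ := exists_ne_zero_of_ell_pos hD
  have := R.prin
  obtain ⟨Δ, hΔ, -⟩ := HasPrincipalDivisors.exists_divisor (K := K) f hf0
  refine ⟨D.support ∪ Δ.support, fun P hP => ?_⟩
  rw [Finset.mem_union, not_or, Finsupp.notMem_support_iff, Finsupp.notMem_support_iff] at hP
  have hpl : plus (D - Finsupp.single P 1) P = D := by rw [plus, sub_add_cancel]
  have key := R.ell_plus_of_mem (D := D - Finsupp.single P 1) (v := P) (f := f)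
    (by rw [hpl]; exact hf) (by
      rw [mem_L_iff hf0]
      intro hcon
      have h1 := hcon P
      rw [Finsupp.sub_apply, Finsupp.single_eq_same, hP.1, ← hΔ P, hP.2] at h1
      omega)
  rw [hpl] at key
  exact key.symm

omit R in
/-- `A(D + ∑ v) = ∑ A(D + v)`: if for all `v` in a finite set the step `D → D + v` does not change
`H¹`, neither does adding all of them (without multiplicity). -/
theorem h1_eq_zero_of_forall_eq {D : Divisor K F} (T : Finset (Place K F))
    (hT : ∀ v ∈ T, repartitionsOf (plus D v) ≤ repartitionsOf D ⊔ principalRepartitions K F) :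
    repartitionsOf (D + ∑ v ∈ T, Finsupp.single v 1) ≤
      repartitionsOf D ⊔ principalRepartitions K F := by
  classical
  intro α hα
  -- decompose `α` into its components at the places of `T` and the rest
  let comp : Place K F → ↥(repartitions K F) := fun v =>
    ⟨fun w => if w = v then (α : Place K F → F) w else 0, by
      apply mem_repartitions_of_finite
      refine (Set.finite_singleton v).subset fun w hw => ?_
      by_contra hne
      apply hw
      have : w ≠ v := hne
      simp [this]⟩
  have hcomp : ∀ v w, ((comp v : ↥(repartitions K F)) : Place K F → F) w =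
      if w = v then (α : Place K F → F) w else 0 := fun v w => rfl
  have hsumapp : ∀ w, ((∑ v ∈ T, comp v : ↥(repartitions K F)) : Place K F → F) w =
      if w ∈ T then (α : Place K F → F) w else 0 := by
    intro w
    have h1 : ((∑ v ∈ T, comp v : ↥(repartitions K F)) : Place K F → F) =
        ∑ v ∈ T, ((comp v : ↥(repartitions K F)) : Place K F → F) := by
      exact map_sum (repartitions K F).val comp T
    rw [h1, Finset.sum_apply]
    simp only [hcomp]
    rw [Finset.sum_ite_eq]
  have hDT : ∀ w, (D + ∑ v ∈ T, Finsupp.single v 1 : Divisor K F) w =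
      D w + if w ∈ T then 1 else 0 := by
    intro w
    rw [Finsupp.add_apply, Finsupp.finsetSum_apply]
    congr 1
    simp only [Finsupp.single_apply]
    rw [Finset.sum_ite_eq']
  have hrest : α - ∑ v ∈ T, comp v ∈ repartitionsOf D := by
    intro w
    have h1 : ((α - ∑ v ∈ T, comp v : ↥(repartitions K F)) : Place K F → F) w =
        (α : Place K F → F) w - ((∑ v ∈ T, comp v : ↥(repartitions K F)) : Place K F → F) w := rfl
    show w.adicValuation (((α - ∑ v ∈ T, comp v : ↥(repartitions K F)) : Place K F → F) w) ≤ _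
    rw [h1, hsumapp]
    by_cases hw : w ∈ T
    · simp [hw]
    · rw [if_neg hw, sub_zero]
      have h2 := hα w
      rw [hDT, if_neg hw, add_zero] at h2
      exact h2
  have hmem : ∀ v ∈ T, comp v ∈ repartitionsOf D ⊔ principalRepartitions K F := by
    intro v hv
    apply hT v hv
    intro w
    show w.adicValuation (((comp v : ↥(repartitions K F)) : Place K F → F) w) ≤ _
    rw [hcomp]
    by_cases hw : w = v
    · subst hw
      rw [if_pos rfl, single_apply_self']
      have h2 := hα w
      rw [hDT, if_pos hv] at h2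
      exact h2
    · rw [if_neg hw, map_zero]; exact zero_le
  have h3 : α = (α - ∑ v ∈ T, comp v) + ∑ v ∈ T, comp v := by abel
  rw [h3]
  exact add_mem (Submodule.mem_sup_left hrest) (sum_mem hmem)

/-- the step `D → D + v` does not change `H¹` iff `A(D + v) ≤ A(D) + F`. -/
theorem repartitionsOf_plus_le_of_h1_eq {D : Divisor K F} {v : Place K F}
    (h : h1 (plus D v) = h1 D) :
    repartitionsOf (plus D v) ≤ repartitionsOf D ⊔ principalRepartitions K F := by
  have hfin := R.finH D
  have hfin' := R.finH (plus D v)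
  have hinj : Function.Injective (h1Map (le_add_single D v)) :=
    (LinearMap.injective_iff_surjective_of_finrank_eq_finrank h.symm).mpr
      (h1Map_surjective (le_add_single D v))
  intro α hα
  rw [← Submodule.Quotient.mk_eq_zero]
  apply hinj
  rw [map_zero]
  show (Submodule.Quotient.mk α : H1 (plus D v)) = 0
  rw [Submodule.Quotient.mk_eq_zero]
  exact Submodule.mem_sup_left hα

theorem degree_sum_single (T : Finset (Place K F)) :
    Divisor.degree (∑ v ∈ T, Finsupp.single v 1 : Divisor K F) = T.card := by
  rw [map_sum]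
  simp [R.deg_one]

/-- If `h¹(D) > 0` then `h¹(D + v) = h¹(D) - 1` for all but finitely many `v`. -/
theorem finite_setOf_h1_plus_eq {D : Divisor K F} (hD : 0 < h1 D) :
    {v : Place K F | h1 (plus D v) = h1 D}.Finite := by
  classical
  by_contra hinf
  obtain ⟨n, hn⟩ : ∃ n : ℕ, 2 * (g : ℤ) - 2 < Divisor.degree D + n :=
    ⟨(2 * (g : ℤ) - 1 - Divisor.degree D).toNat, by
      have := Int.self_le_toNat (2 * (g : ℤ) - 1 - Divisor.degree D); omega⟩
  obtain ⟨T, hTsub, hTcard⟩ := Set.Infinite.exists_subset_card_eq hinf n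
  have h2 := h1_eq_zero_of_forall_eq (D := D) T fun v hv =>
    R.repartitionsOf_plus_le_of_h1_eq (hTsub hv)
  have h3 : h1 (D + ∑ v ∈ T, Finsupp.single v 1) = 0 := by
    apply R.h1_large
    rw [map_add, R.degree_sum_single, hTcard]
    exact hn
  have hfin := R.finH (D + ∑ v ∈ T, Finsupp.single v 1)
  have h4 : (repartitionsOf (D + ∑ v ∈ T, Finsupp.single v 1) ⊔ principalRepartitions K F) = ⊤ := by
    have h5 := Module.finrank_zero_iff.mp h3
    exact Submodule.Quotient.subsingleton_iff.mp h5
  have h6 : repartitionsOf D ⊔ principalRepartitions K F = ⊤ := by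
    rw [eq_top_iff, ← h4]
    exact sup_le h2 le_sup_right
  have h7 : h1 D = 0 := by
    have : Subsingleton (H1 D) := Submodule.Quotient.subsingleton_iff.mpr h6
    exact Module.finrank_zero_of_subsingleton
  omega

theorem h1_zero : h1 (0 : Divisor K F) = g := by
  have h := R.rr 0
  rw [R.ell_zero, map_zero] at h
  push_cast at h
  omega

theorem genusFF_eq : genusFF K F = g := R.h1_zero

/-- Adding general points kills `H¹` as fast as possible. -/
theorem exists_finset_h1_eq_zero [Infinite (Place K F)] (n : ℕ) :
    ∀ (S : Finset (Place K F)) (D : Divisor K F), h1 D = n →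
      ∃ T : Finset (Place K F), T.card = n ∧ Disjoint T S ∧
        h1 (D + ∑ v ∈ T, Finsupp.single v 1) = 0 := by
  classical
  induction n with
  | zero =>
    intro S D hD
    exact ⟨∅, rfl, Finset.disjoint_empty_left _, by simpa using hD⟩
  | succ n ih =>
    intro S D hD
    have hbad := R.finite_setOf_h1_plus_eq (D := D) (by omega)
    obtain ⟨v, hv⟩ := Infinite.exists_notMem_finset (S ∪ hbad.toFinset)
    rw [Finset.mem_union, not_or] at hv
    have hv2 : h1 (plus D v) ≠ h1 D := fun h => hv.2 (by simpa using h)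
    have h3 := R.h1_plus_le D v
    have h4 := R.h1_le_plus D v
    obtain ⟨T, hT, hTS, hT0⟩ := ih (insert v S) (plus D v) (by omega)
    have hvT : v ∉ T := fun h => (Finset.disjoint_left.mp hTS h) (Finset.mem_insert_self v S)
    refine ⟨insert v T, by rw [Finset.card_insert_of_notMem hvT, hT], ?_, ?_⟩
    · rw [Finset.disjoint_insert_left]
      exact ⟨hv.1, Finset.disjoint_of_subset_right (Finset.subset_insert v S) hTS⟩
    · rw [Finset.sum_insert hvT, ← add_assoc]
      exact hT0

/-- Existence of non-special effective divisors `P₁ + ... + P_g` with distinct `Pᵢ` outside any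
given finite set. -/
theorem exists_nonspecial [Infinite (Place K F)] (S : Finset (Place K F)) :
    ∃ T : Finset (Place K F), T.card = g ∧ Disjoint T S ∧
      h1 (∑ v ∈ T, Finsupp.single v 1 : Divisor K F) = 0 ∧
      ell (∑ v ∈ T, Finsupp.single v 1 : Divisor K F) = 1 := by
  obtain ⟨T, hT, hTS, hT0⟩ := R.exists_finset_h1_eq_zero g S 0 R.h1_zero
  rw [zero_add] at hT0
  refine ⟨T, hT, hTS, hT0, ?_⟩
  have := R.rr (∑ v ∈ T, Finsupp.single v 1)
  rw [hT0, R.degree_sum_single, hT] at this
  push_cast at this
  omega

/-- If `ℓ(D) > 0`, removing `ℓ(D)` general points gives `ℓ = 0`. -/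
theorem exists_finset_ell_eq_zero [Infinite (Place K F)] (n : ℕ) :
    ∀ (S : Finset (Place K F)) (D : Divisor K F), ell D = n →
      ∃ T : Finset (Place K F), T.card = n ∧ Disjoint T S ∧
        ell (D - ∑ v ∈ T, Finsupp.single v 1) = 0 := by
  classical
  induction n with
  | zero =>
    intro S D hD
    exact ⟨∅, rfl, Finset.disjoint_empty_left _, by simpa using hD⟩
  | succ n ih =>
    intro S D hD
    obtain ⟨B, hB⟩ := R.exists_finset_ell_sub (D := D) (by omega)
    obtain ⟨v, hv⟩ := Infinite.exists_notMem_finset (S ∪ B)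
    rw [Finset.mem_union, not_or] at hv
    have h3 := hB v hv.2
    obtain ⟨T, hT, hTS, hT0⟩ := ih (insert v S) (D - Finsupp.single v 1) (by omega)
    have hvT : v ∉ T := fun h => (Finset.disjoint_left.mp hTS h) (Finset.mem_insert_self v S)
    refine ⟨insert v T, by rw [Finset.card_insert_of_notMem hvT, hT], ?_, ?_⟩
    · rw [Finset.disjoint_insert_left]
      exact ⟨hv.1, Finset.disjoint_of_subset_right (Finset.subset_insert v S) hTS⟩
    · rw [Finset.sum_insert hvT, ← sub_sub]
      exact hT0

end RRData

section Infinite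

variable [IsAlgClosed K] [IsFF K F]

variable (K F) in
theorem infinite_place : Infinite (Place K F) := by
  classical
  obtain ⟨x, hx, -⟩ := IsFF.exists_gen (K := K) (F := F)
  have htr : ∀ a : K, Transcendental K (x - algebraMap K F a) := by
    intro a h
    apply hx
    have := h.add (isAlgebraic_algebraMap (A := F) a)
    rwa [sub_add_cancel] at this
  choose v hv using fun a : K => exists_place_lt_one (htr a)
  have hinj : Function.Injective v := by
    intro a b hab
    by_contra hne
    have h1 := hv a
    have h2 := hv b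
    rw [← hab] at h2
    have h3 : (v a).adicValuation (algebraMap K F (b - a)) < 1 := by
      have : algebraMap K F (b - a) = (x - algebraMap K F a) - (x - algebraMap K F b) := by
        rw [map_sub]; ring
      rw [this]
      exact lt_of_le_of_lt (Valuation.map_sub _ _ _) (max_lt h1 h2)
    rw [adicValuation_algebraMap (v a) (sub_ne_zero.mpr (Ne.symm hne))] at h3
    exact lt_irrefl _ h3
  have : Infinite K := IsAlgClosed.instInfinite
  exact Infinite.of_injective v hinj

end Infinite

end Fermat.Agent.H93

end
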