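import Fermat.Agent.H96TC
import Fermat.Agent.H96TIface
import Fermat.Agent.H47RGamP
import Fermat.Agent.H34T1
import Fermat.Agent.H31Hyp2
import Fermat.Agent.H93THol2
import Fermat.Agent.H23TH
import Fermat.Agent.H98U4
import Fermat.Agent.H8T6

/-!
# Assembly of (T-HOL) for the theta lift (helper93)
-/

set_option autoImplicit false
set_option maxHeartbeats 400000

noncomputable section

open MeasureTheory Complex
open scoped ComplexConjugate Real MatrixGroups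

namespace Fermat.Agent.H93.TAsm

open Fermat.Agent Fermat.Agent.S47T Fermat.Agent.H47.Red

section Cut

variable {Γ Γ' : Subgroup (GL (Fin 2) ℂ)} {χ χ' : H3 → ℝ}

theorem toCut (h : S47T.IsCut Γ χ) : H34T.IsCut Γ χ := ⟨h.meas, h.nonneg, h.sum⟩

/-- the decomposition of a group in cosets of a subgroup -/
def cosetEquiv {G : Type*} [Group G] (H : Subgroup G) : (G ⧸ H) × H ≃ G where
  toFun := fun p => p.1.out * p.2
  invFun := fun g => ((g : G ⧸ H), ⟨((g : G ⧸ H)).out⁻¹ * g,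
    QuotientGroup.eq.mp (Quotient.out_eq' _)⟩)
  left_inv := by
    rintro ⟨q, k⟩
    have h1 : ((q.out * (k : G) : G) : G ⧸ H) = q := by
      rw [QuotientGroup.mk_mul_of_mem _ k.2]
      exact Quotient.out_eq' q
    refine Prod.ext h1 (Subtype.ext ?_)
    show (((q.out * (k : G) : G) : G ⧸ H)).out⁻¹ * (q.out * k) = k
    rw [h1, inv_mul_cancel_left]
  right_inv := fun g => by
    show ((g : G ⧸ H)).out * (((g : G ⧸ H)).out⁻¹ * g) = g
    rw [mul_inv_cancel_left]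

/-- a cut-off for a subgroup of finite index, divided by the index, is a cut-off -/
theorem isCut_of_subgroup (hle : Γ' ≤ Γ) [Finite (Γ ⧸ Γ'.subgroupOf Γ)] (h : S47T.IsCut Γ' χ') :
    S47T.IsCut Γ (fun w => χ' w / Nat.card (Γ ⧸ Γ'.subgroupOf Γ)) where
  meas := h.meas.div_const _
  nonneg w := div_nonneg (h.nonneg w) (Nat.cast_nonneg _)
  sum w := by
    set H := Γ'.subgroupOf Γ with hH
    have : Fintype (Γ ⧸ H) := Fintype.ofFinite _
    have hcard : (0 : ℝ) < Nat.card (Γ ⧸ H) := by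
      have : 0 < Nat.card (Γ ⧸ H) := Nat.card_pos
      exact_mod_cast this
    have key : ∀ w' : H3, HasSum (fun s : H => χ' ((((s : Γ)⁻¹ : Γ) : GL (Fin 2) ℂ) • w')) 1 := by
      intro w'
      have h1 := h.sum w'
      have e : H ≃ Γ' := (Equiv.inv H).trans (Subgroup.subgroupOfEquivOfLe hle).toEquiv
      let e' : H ≃ Γ' := (Equiv.inv H).trans (Subgroup.subgroupOfEquivOfLe hle).toEquiv
      exact (Equiv.hasSum_iff e').mpr h1
    let f : (Γ ⧸ H) × H → ℝ := fun p =>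
      χ' ((((p.1.out * (p.2 : Γ) : Γ)⁻¹ : Γ) : GL (Fin 2) ℂ) • w)
    have hf : ∀ q : Γ ⧸ H, HasSum (fun s : H => f (q, s)) 1 := by
      intro q
      refine (key (((q.out : Γ)⁻¹ : Γ) • w)).congr_fun ?_
      intro s
      show χ' ((((q.out * (s : Γ) : Γ)⁻¹ : Γ) : GL (Fin 2) ℂ) • w) =
        χ' ((((s : Γ)⁻¹ : Γ) : GL (Fin 2) ℂ) • (((q.out : Γ)⁻¹ : Γ) • w))
      rw [mul_inv_rev, Subgroup.coe_mul, mul_smul]
      rfl
    have hf0 : 0 ≤ f := fun p => h.nonneg _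
    have hs : Summable f := by
      rw [summable_prod_of_nonneg hf0]
      refine ⟨fun q => (hf q).summable, ?_⟩
      exact (hasSum_fintype _).summable
    have h2 : HasSum (fun _ : Γ ⧸ H => (1 : ℝ)) (∑' p, f p) := hs.hasSum.prod_fiberwise hf
    have h3 : ∑' p, f p = Nat.card (Γ ⧸ H) := by
      rw [h2.unique (hasSum_fintype _)]
      simp
    have h4 : HasSum f (Nat.card (Γ ⧸ H)) := h3 ▸ hs.hasSum
    have h5 : HasSum (fun g : Γ => χ' (((g⁻¹ : Γ) : GL (Fin 2) ℂ) • w)) (Nat.card (Γ ⧸ H)) :=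
      (Equiv.hasSum_iff (cosetEquiv H)).mp h4
    have h6 : HasSum (fun g : Γ => χ' ((g : GL (Fin 2) ℂ) • w)) (Nat.card (Γ ⧸ H)) := by
      refine (Equiv.hasSum_iff (Equiv.inv Γ)).mp ?_
      exact h5
    have h7 := h6.div_const (Nat.card (Γ ⧸ H) : ℝ)
    rwa [div_self hcard.ne'] at h7

/-- the integral of an invariant function for a group and a subgroup -/
theorem qint_subgroup [Countable Γ] (hle : Γ' ≤ Γ) [Finite (Γ ⧸ Γ'.subgroupOf Γ)]
    (h : S47T.IsCut Γ χ) (h' : S47T.IsCut Γ' χ') {f : H3 → ℂ}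
    (hf : AEStronglyMeasurable f volume) (hinv : ∀ g ∈ Γ, ∀ w, f (g • w) = f w)
    (hi : Integrable (fun w => (χ' w : ℂ) * f w)) :
    qint χ f = (Nat.card (Γ ⧸ Γ'.subgroupOf Γ) : ℂ)⁻¹ * qint χ' f := by
  have h1 := toCut (isCut_of_subgroup hle h')
  have hinv' : ∀ (g : Γ) w, f (g • w) = f w := fun g w => hinv g g.2 w
  set n := Nat.card (Γ ⧸ Γ'.subgroupOf Γ) with hn
  have e : ∀ w, (χ' w / n) • f w = (n : ℂ)⁻¹ * ((χ' w : ℂ) * f w) := by
    intro w
    rw [Complex.real_smul]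
    push_cast
    ring
  have hi' : Integrable (fun w => (χ' w / n) • f w) := by
    simp_rw [e]
    exact hi.const_mul _
  have h2 := H34T.integral_cut_eq h1 (toCut h) hf hinv' hi'
  rw [qint, qint, ← integral_const_mul]
  calc ∫ w, (χ w : ℂ) * f w = ∫ w, χ w • f w := by simp_rw [Complex.real_smul]
    _ = ∫ w, (χ' w / n) • f w := h2.symm
    _ = _ := by simp_rw [e]

/-- finiteness of the index from `FinIdx` -/
theorem finite_quot (hΓ : Γ ≤ SLO Eis) (h : FinIdx Eis Γ') :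
    Finite (Γ ⧸ Γ'.subgroupOf Γ) := by
  obtain ⟨-, T, hT, hT'⟩ := h
  choose! d hd γ hγ hg using hT'
  let φ : (Γ ⧸ Γ'.subgroupOf Γ) → T := fun q =>
    ⟨d (q.out : Γ), hd _ (hΓ (q.out : Γ).2)⟩
  refine Finite.of_injective φ ?_
  intro q q' hqq
  have h1 : d (q.out : Γ) = d (q'.out : Γ) := congrArg Subtype.val hqq
  have h2 := hg _ (hΓ (q.out : Γ).2)
  have h3 := hg _ (hΓ (q'.out : Γ).2)
  rw [← Quotient.out_eq' q, ← Quotient.out_eq' q']
  refine QuotientGroup.eq.mpr ?_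
  rw [Subgroup.mem_subgroupOf]
  show ((((q.out : Γ)⁻¹ * q'.out : Γ)) : GL (Fin 2) ℂ) ∈ Γ'
  rw [Subgroup.coe_mul, Subgroup.coe_inv, h2, h3, h1]
  have h4 : (d (q'.out : Γ) * γ (q.out : Γ))⁻¹ * (d (q'.out : Γ) * γ (q'.out : Γ)) =
      (γ (q.out : Γ))⁻¹ * γ (q'.out : Γ) := by group
  rw [h4]
  exact Γ'.mul_mem (Γ'.inv_mem (hγ _ (hΓ (q.out : Γ).2))) (hγ _ (hΓ (q'.out : Γ).2))

end Cut

section Theta

open Filter

variable {n : ℕ} {φ : S47T.Lat → ℂ} {τ : ℂ} {F : H3 → ℂ}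

theorem Theta_bound (hn : 0 < n) {M : ℝ} (hφ : ∀ x, ‖φ x‖ ≤ M) (hτ : 0 < τ.im) :
    ∃ K : ℝ, 0 ≤ K ∧ ∀ w : H3,
      Summable (fun x => φ x * H98T.th (H23T.qn n x) (H23T.mn n x w) τ) ∧
      ‖Theta n φ τ w‖ ≤ K * ht Eis w ^ 8 := by
  obtain ⟨K, hK, h⟩ := H23T.maj_adm H98T.adm_th hn hφ hτ
  refine ⟨K, hK, fun w => ?_⟩
  have h1 := h w
  have hne : ∑' x, ‖φ x * H98T.th (H23T.qn n x) (H23T.mn n x w) τ‖ₑ ≠ ⊤ :=
    ne_top_of_le_ne_top ENNReal.ofReal_ne_top h1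
  have hs : Summable (fun x => ‖φ x * H98T.th (H23T.qn n x) (H23T.mn n x w) τ‖) := by
    have h2 := ENNReal.summable_toReal hne
    simpa only [toReal_enorm] using h2
  refine ⟨hs.of_norm, ?_⟩
  rw [H23T.Theta_eq]
  refine (norm_tsum_le_tsum_norm hs).trans ?_
  have hnn : 0 ≤ K * ht Eis w ^ 8 := by
    have := (eucOrder_Eis.ht_pos w).le
    positivity
  have h3 : ENNReal.ofReal (∑' x, ‖φ x * H98T.th (H23T.qn n x) (H23T.mn n x w) τ‖) ≤
      ENNReal.ofReal (K * ht Eis w ^ 8) := by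
    rw [ENNReal.ofReal_tsum_of_nonneg (fun _ => norm_nonneg _) hs]
    simpa only [ofReal_norm] using h1
  exact (ENNReal.ofReal_le_ofReal_iff hnn).mp h3

theorem measurable_Theta (hn : 0 < n) {M : ℝ} (hφ : ∀ x, ‖φ x‖ ≤ M) (hτ : 0 < τ.im) :
    Measurable (fun w : H3 => Theta n φ τ w) := by
  obtain ⟨K, -, h⟩ := Theta_bound hn hφ hτ
  have h1 : ∀ x : S47T.Lat, Measurable (fun w : H3 =>
      φ x * H98T.th (H23T.qn n x) (H23T.mn n x w) τ) := fun x =>
    (continuous_const.mul (H23T.continuous_adm H98T.adm_th n x τ)).measurable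
  refine measurable_of_tendsto_metrizable' (u := (atTop : Filter (Finset S47T.Lat)))
    (f := fun s w => ∑ x ∈ s, φ x * H98T.th (H23T.qn n x) (H23T.mn n x w) τ) ?_ ?_
  · intro s
    exact Finset.measurable_fun_sum s fun x _ => h1 x
  · rw [tendsto_pi_nhds]
    intro w
    rw [H23T.Theta_eq]
    exact (h w).1.hasSum

theorem lift_integrable {Γ : Subgroup (GL (Fin 2) ℂ)} {χ : H3 → ℝ} (hΓ : FinIdx Eis Γ)
    (hχ : S47T.IsCut Γ χ) (hFc : Continuous F) {C c : ℝ} (hC : 0 < C) (hc : 0 < c)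
    (hF : ∀ w, ‖F w‖ ≤ C * Real.exp (-(c * ht Eis w)))
    (hn : 0 < n) {M : ℝ} (hφ : ∀ x, ‖φ x‖ ≤ M) (hτ : 0 < τ.im) :
    Integrable (fun w => (χ w : ℂ) * (F w * Theta n φ τ w)) := by
  obtain ⟨K, hK, h⟩ := Theta_bound hn hφ hτ
  refine S47T.IsCut.integrable_exp hχ hΓ (B := 8) (C := C * K) (c := c)
    ((hFc.measurable.mul (measurable_Theta hn hφ hτ)).aestronglyMeasurable) hc
    (by positivity) fun w => ?_
  have h8 : ht Eis w ^ (8 : ℝ) = ht Eis w ^ 8 := by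
    rw [← Real.rpow_natCast]
    norm_num
  rw [norm_mul, h8]
  calc ‖F w‖ * ‖Theta n φ τ w‖ ≤ (C * Real.exp (-(c * ht Eis w))) * (K * ht Eis w ^ 8) :=
        mul_le_mul (hF w) (h w).2 (norm_nonneg _) (by positivity)
    _ = _ := by ring

end Theta

section Main

/-- the analytic input for the lift of one test function -/
def LiftOK (χ : H3 → ℝ) (F : H3 → ℂ) (n : ℕ) (φ : S47T.Lat → ℂ) : Prop :=
  ∃ (xi : ℂ → ℂ) (C c : ℝ), 0 < c ∧
    (∀ τ : ℂ, 0 < τ.im → ∃ a : ℂ, HasFDerivAt (lift χ F n φ) (a • ContinuousLinearMap.id ℝ ℂ +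
      (2 / I * (xi τ / τ.im)) • Complex.ofRealCLM.comp Complex.imCLM) τ) ∧
    DifferentiableOn ℂ (fun τ => conj (xi τ)) {τ | 0 < τ.im} ∧
    ∀ τ : ℂ, 1/2 ≤ τ.im → ‖lift χ F n φ τ‖ ≤ C * (√τ.im * Real.exp (-(c * τ.im))) ∧
      ‖xi τ‖ ≤ C * (√τ.im * Real.exp (-(c * τ.im)))

theorem le_comb {C C' c c' v x : ℝ} (hv : 0 < v) (hC : |C| ≤ C') (hc : c' ≤ c)
    (h : x ≤ C * (√v * Real.exp (-(c * v)))) : x ≤ C' * (√v * Real.exp (-(c' * v))) := by
  have h1 : Real.exp (-(c * v)) ≤ Real.exp (-(c' * v)) := by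
    apply Real.exp_le_exp.mpr
    nlinarith
  have h2 : √v * Real.exp (-(c * v)) ≤ √v * Real.exp (-(c' * v)) :=
    mul_le_mul_of_nonneg_left h1 (Real.sqrt_nonneg _)
  have h3 : 0 ≤ √v * Real.exp (-(c * v)) := by positivity
  calc x ≤ C * (√v * Real.exp (-(c * v))) := h
    _ ≤ |C| * (√v * Real.exp (-(c * v))) := mul_le_mul_of_nonneg_right (le_abs_self C) h3
    _ ≤ C' * (√v * Real.exp (-(c' * v))) := mul_le_mul hC h2 h3 ((abs_nonneg C).trans hC)

/-- **Assembly of (T-HOL)**: from the analytic input for the test functions. -/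
theorem thol_of_liftOK {N : ℕ} {c : Eis → ℝ} {F : H3 → ℂ} (hI : ICT N c F)
    (hok : ∀ (m : ℕ) (φ : S47T.Lat → ℂ) (χ : H3 → ℝ), 3 ∣ m → N ∣ m → 0 < m →
      (∀ x, ‖φ x‖ ≤ 1) →
      (∀ g ∈ GamP m, ∀ (hE : ∀ i j, (g : Matrix (Fin 2) (Fin 2) ℂ) i j ∈ Eis) x,
        φ (gL (g : Matrix (Fin 2) (Fin 2) ℂ) hE x) = φ x) →
      IsCut (GamP m) χ → LiftOK χ F N φ) : THol N F := by
  intro χ hχ
  have hN := hI.pos
  obtain ⟨m, hm, ι, _, _, φs, A, B, a, h3m, hNm, hA, hB, hb, hinv, -, hT, hS, hphi⟩ :=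
    H98U.t1a_inv N hN
  obtain ⟨χ', hχ', -⟩ := exists_isCut (finIdx_GamP hm.ne')
  have hle : GamP m ≤ Gam N := by
    intro g hg
    obtain ⟨h1, h2, x, hx, h3⟩ := GamP_le_Gam m hg
    obtain ⟨k, rfl⟩ := hNm
    refine ⟨h1, h2, k * x, Eis.mul_mem (natCast_mem _ _) hx, ?_⟩
    rw [h3]
    push_cast
    ring
  obtain ⟨C0, c0, hC0, hc0, hdec⟩ := H8T.ict_decay_ht hI
  have hInt : ∀ i τ, 0 < τ.im → Integrable (fun w => (χ' w : ℂ) * (F w * Theta N (φs i) τ w)) :=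
    fun i τ hτ => lift_integrable (finIdx_GamP hm.ne') hχ' hI.cont hC0 hc0 hdec hN (hb i) hτ
  choose xi C c hc hd hxi hbd using fun i => hok m (φs i) χ' h3m hNm hm (hb i)
    (fun g hg hE x => hinv g hg hE i x) hχ'
  -- uniform constants
  obtain ⟨C', hC'⟩ : ∃ C' : ℝ, ∀ i, |C i| ≤ C' := by
    obtain ⟨C', hC'⟩ := (Set.finite_range fun i => |C i|).bddAbove
    exact ⟨C', fun i => hC' ⟨i, rfl⟩⟩
  obtain ⟨c', hc'0, hc'⟩ : ∃ c' : ℝ, 0 < c' ∧ ∀ i, c' ≤ c i := by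
    rcases isEmpty_or_nonempty ι with he | hne
    · exact ⟨1, one_pos, fun i => he.elim i⟩
    · obtain ⟨i0, hi0⟩ := Finite.exists_min c
      exact ⟨c i0, hc i0, hi0⟩
  have hTl : ∀ i (τ : ℂ), 0 < τ.im → lift χ' F N (φs i) (τ + 1) =
      ∑ j, A i j * lift χ' F N (φs j) τ := by
    intro i τ hτ
    simp only [S47T.lift, qint]
    rw [integral_congr_ae (Filter.Eventually.of_forall fun w => ?_),
      integral_finsetSum (f := fun j w => A i j * ((χ' w : ℂ) * (F w * Theta N (φs j) τ w)))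
        Finset.univ fun j _ => (hInt j τ hτ).const_mul _]
    · exact Finset.sum_congr rfl fun j _ => integral_const_mul _ _
    · rw [hT i τ w hτ, Finset.mul_sum, Finset.mul_sum]
      exact Finset.sum_congr rfl fun j _ => by ring
  have hSl : ∀ i (τ : ℂ), 0 < τ.im → lift χ' F N (φs i) (-1 / τ) =
      τ * ∑ j, B i j * lift χ' F N (φs j) τ := by
    intro i τ hτ
    rw [Finset.mul_sum]
    simp only [S47T.lift, qint]
    rw [integral_congr_ae (Filter.Eventually.of_forall fun w => ?_),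
      integral_finsetSum (f := fun j w => τ * (B i j * ((χ' w : ℂ) * (F w * Theta N (φs j) τ w))))
        Finset.univ fun j _ => ((hInt j τ hτ).const_mul _).const_mul _]
    · exact Finset.sum_congr rfl fun j _ => by rw [integral_const_mul, integral_const_mul]
    · rw [hS i τ w hτ, Finset.mul_sum, Finset.mul_sum, Finset.mul_sum]
      exact Finset.sum_congr rfl fun j _ => by ring
  obtain ⟨hol, K, hK⟩ := THol.thol (g := fun i => lift χ' F N (φs i)) (xi := xi) (C := C')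
    (c := c') hA hB hd hxi hTl hSl hc'0 fun i τ hτ =>
      ⟨le_comb (by linarith) (hC' i) (hc' i) (hbd i τ hτ).1,
        le_comb (by linarith) (hC' i) (hc' i) (hbd i τ hτ).2⟩
  -- the combination
  have hcomb : ∀ τ : ℂ, 0 < τ.im → lift χ' F 1 (phiN N) τ =
      ∑ i, a i * lift χ' F N (φs i) τ := by
    intro τ hτ
    simp only [S47T.lift, qint]
    rw [integral_congr_ae (Filter.Eventually.of_forall fun w => ?_),
      integral_finsetSum (f := fun j w => a j * ((χ' w : ℂ) * (F w * Theta N (φs j) τ w)))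
        Finset.univ fun j _ => (hInt j τ hτ).const_mul _]
    · exact Finset.sum_congr rfl fun j _ => integral_const_mul _ _
    · rw [hphi τ w hτ, Finset.mul_sum, Finset.mul_sum]
      exact Finset.sum_congr rfl fun j _ => by ring
  have hphi1 : ∀ x, ‖phiN N x‖ ≤ 1 := by
    intro x
    unfold phiN
    split_ifs <;> simp
  have : Finite (Gam N ⧸ (GamP m).subgroupOf (Gam N)) :=
    finite_quot (Gam_le_SLO N) (finIdx_GamP hm.ne')
  set n : ℂ := (Nat.card (Gam N ⧸ (GamP m).subgroupOf (Gam N)) : ℂ) with hn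
  have hlift : ∀ τ : ℂ, 0 < τ.im → lift χ F 1 (phiN N) τ =
      ∑ i, (n⁻¹ * a i) * lift χ' F N (φs i) τ := by
    intro τ hτ
    have h1 : lift χ F 1 (phiN N) τ = n⁻¹ * lift χ' F 1 (phiN N) τ := by
      refine qint_subgroup hle hχ hχ' ?_ ?_ ?_
      · exact (hI.cont.measurable.mul
          (measurable_Theta one_pos hphi1 hτ)).aestronglyMeasurable
      · intro g hg w
        show F (g • w) * Theta 1 (phiN N) τ (g • w) = F w * Theta 1 (phiN N) τ w
        rw [hI.inv g hg w, t1c N g hg τ w]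
      · exact lift_integrable (finIdx_GamP hm.ne') hχ' hI.cont hC0 hc0 hdec one_pos hphi1 hτ
    rw [h1, hcomb τ hτ, Finset.mul_sum]
    exact Finset.sum_congr rfl fun j _ => by ring
  constructor
  · have h1 : DifferentiableOn ℂ (fun τ => ∑ i, (n⁻¹ * a i) * lift χ' F N (φs i) τ)
        {τ | 0 < τ.im} := DifferentiableOn.fun_sum fun i _ => (hol i).const_mul _
    exact h1.congr fun τ hτ => hlift τ hτ
  · refine ⟨∑ i, ‖n⁻¹ * a i‖ * K, fun τ hτ => ?_⟩
    rw [hlift τ hτ, Finset.sum_div]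
    refine (norm_sum_le _ _).trans (Finset.sum_le_sum fun i _ => ?_)
    rw [norm_mul, mul_div_assoc]
    exact mul_le_mul_of_nonneg_left (hK i τ hτ) (norm_nonneg _)

end Main

end Fermat.Agent.H93.TAsm
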