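import Fermat.Agent.H93TFin
import Fermat.Agent.H60THdec
import Fermat.Agent.H15S47T2

/-!
# (T-HOL), unconditional, and block (T)
-/

set_option autoImplicit false
set_option maxHeartbeats 400000

noncomputable section

open Fermat.Agent Fermat.Agent.S47T

namespace Fermat.Agent.H93.TAsm

/-- **(T-HOL)** for every `F` of the interface (I-CT). -/
theorem thol_ict {N : ℕ} {c : Eis → ℝ} {F : H3 → ℂ} (hI : ICT N c F) : THol N F := by
  refine thol_of_dec hI fun m φ χ h3 hN hm hinv hT => ?_
  have hm3 : 3 ≤ m := Nat.le_of_dvd hm h3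
  obtain ⟨C, -, hC⟩ := H60T.hdec hm3 hT fun g x => by
    rw [H60T.smul_eq_gL]
    exact hinv g g.2 _ x
  refine ⟨C, Real.pi / 2 * (1 / (3 * (N : ℝ) ^ 2)), ?_, hC⟩
  have := hI.pos
  have := Real.pi_pos
  positivity

theorem pieceHol : H15S47.PieceHol := fun _ _ _ _ hI => thol_ict hI

/-- **Block (T)**, unconditional. -/
theorem blockT : H15S47.BlockT := H15S47.blockT_of_hol pieceHol

end Fermat.Agent.H93.TAsm
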