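import Fermat.Agent.H94BRDeg

/-!
# Atkin–Lehner involutions are realised by explicit matrices
-/

set_option autoImplicit false
set_option linter.unusedSectionVars false
set_option linter.unusedSimpArgs false

noncomputable section

namespace Fermat.Agent.H94.BR

open Fermat.Agent.H70.Coh CongruenceSubgroup ModularCurve Fermat.Agent.H24 Fermat.Agent.H61
open AlgebraicCurve Fermat.Agent.H90 Fermat.Agent.H4 Fermat.Agent.H67
open UpperHalfPlane hiding I
open scoped MatrixGroups Manifold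

/-- The Atkin–Lehner matrix `(Q a, b; N Q c, Q d)` of determinant `Q`. -/
def alMat (N Q : ℕ) [NeZero Q] (a b c d : ℤ) (h : (Q : ℤ) * a * d - N * b * c = 1) : DN 1 :=
  ⟨!![(Q : ℤ) * a, b; (N : ℤ) * Q * c, Q * d], by
    refine ⟨?_, by simp, isCoprime_one_right⟩
    rw [Matrix.det_fin_two_of]
    have hQ : (0 : ℤ) < Q := by exact_mod_cast Nat.pos_of_ne_zero (NeZero.ne Q)
    have e : (Q : ℤ) * a * (Q * d) - b * (N * Q * c) = Q * (Q * a * d - N * b * c) := by ring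
    rw [e, h, mul_one]
    exact hQ⟩

theorem alMat_val (N Q : ℕ) [NeZero Q] (a b c d : ℤ) (h : (Q : ℤ) * a * d - N * b * c = 1) :
    (alMat N Q a b c d h).1 = !![(Q : ℤ) * a, b; (N : ℤ) * Q * c, Q * d] := rfl

/-- The Atkin–Lehner family. -/
def alF (N Q : ℕ) [NeZero Q] (a b c d : ℤ) (h : (Q : ℤ) * a * d - N * b * c = 1) :
    HFam (gm (N * Q)) (gm (N * Q)) where
  J := Unit
  fin := inferInstance
  α := fun _ => alMat N Q a b c d h
  inv := by
    intro γ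
    obtain ⟨k, hk⟩ := (ZMod.intCast_zmod_eq_zero_iff_dvd _ _).mp (Gamma0_mem.mp γ.2)
    have hdet : ((γ : SL(2, ℤ)) : Matrix (Fin 2) (Fin 2) ℤ).det = 1 := (γ : SL(2, ℤ)).det_coe
    rw [Matrix.det_fin_two] at hdet
    set a' : ℤ := ((γ : SL(2, ℤ)) : Matrix (Fin 2) (Fin 2) ℤ) 0 0 with ha'
    set b' : ℤ := ((γ : SL(2, ℤ)) : Matrix (Fin 2) (Fin 2) ℤ) 0 1 with hb'
    set c' : ℤ := ((γ : SL(2, ℤ)) : Matrix (Fin 2) (Fin 2) ℤ) 1 0 with hc'
    set d' : ℤ := ((γ : SL(2, ℤ)) : Matrix (Fin 2) (Fin 2) ℤ) 1 1 with hd'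
    have hk' : c' = (N : ℤ) * Q * k := by
      have : c' = ((N * Q : ℕ) : ℤ) * k := hk
      rw [this]; push_cast; ring
    refine ⟨1, fun _ => ⟨⟨!![(Q : ℤ) * a * a' * d + b * c' * d - Q * a * b' * N * c - b * d' * N * c,
      -(a * a' * b) - b * b * N * k + Q * a * a * b' + a * b * d';
      (N : ℤ) * Q * (c * a' * d + Q * d * d * k - N * c * c * b' - d * d' * c),
      -(N * c * a' * b) - d * c' * b + N * Q * a * c * b' + Q * a * d * d'], ?_⟩, ?_⟩, fun _ => ?_⟩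
    · rw [Matrix.det_fin_two_of, hk']
      rw [hk'] at hdet
      linear_combination (↑Q * a * d - ↑N * b * c) ^ 2 * hdet +
        ((Q : ℤ) * a * d - N * b * c + 1) * h
    · refine Gamma0_mem.mpr ?_
      change ((((N : ℤ) * Q * (c * a' * d + Q * d * d * k - N * c * c * b' - d * d' * c)) : ℤ) :
        ZMod (N * Q)) = 0
      rw [ZMod.intCast_zmod_eq_zero_iff_dvd]
      push_cast
      exact Dvd.intro _ rfl
    · apply Subtype.ext
      change (!![(Q : ℤ) * a, b; (N : ℤ) * Q * c, Q * d]) *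
        ((γ : SL(2, ℤ)) : Matrix (Fin 2) (Fin 2) ℤ) =
        (!![(Q : ℤ) * a * a' * d + b * c' * d - Q * a * b' * N * c - b * d' * N * c,
      -(a * a' * b) - b * b * N * k + Q * a * a * b' + a * b * d';
      (N : ℤ) * Q * (c * a' * d + Q * d * d * k - N * c * c * b' - d * d' * c),
      -(N * c * a' * b) - d * c' * b + N * Q * a * c * b' + Q * a * d * d']) *
          (!![(Q : ℤ) * a, b; (N : ℤ) * Q * c, Q * d])
      ext i j
      fin_cases i <;> fin_cases j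
      · simp only [Matrix.mul_apply, Fin.sum_univ_two, Matrix.of_apply, Matrix.cons_val',
          Matrix.cons_val_zero, Matrix.cons_val_one, Matrix.cons_val_fin_one, Fin.zero_eta,
          Fin.mk_one, ← ha', ← hb', ← hc', ← hd']
        rw [hk']
        linear_combination (-((Q : ℤ) * a * a' + b * N * Q * k)) * h
      · simp only [Matrix.mul_apply, Fin.sum_univ_two, Matrix.of_apply, Matrix.cons_val',
          Matrix.cons_val_zero, Matrix.cons_val_one, Matrix.cons_val_fin_one, Fin.zero_eta,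
          Fin.mk_one, ← ha', ← hb', ← hc', ← hd']
        rw [hk']
        linear_combination (-((Q : ℤ) * a * b' + b * d')) * h
      · simp only [Matrix.mul_apply, Fin.sum_univ_two, Matrix.of_apply, Matrix.cons_val',
          Matrix.cons_val_zero, Matrix.cons_val_one, Matrix.cons_val_fin_one, Fin.zero_eta,
          Fin.mk_one, ← ha', ← hb', ← hc', ← hd']
        rw [hk']
        linear_combination (-((N : ℤ) * Q * c * a' + Q * d * N * Q * k)) * h
      · simp only [Matrix.mul_apply, Fin.sum_univ_two, Matrix.of_apply, Matrix.cons_val',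
          Matrix.cons_val_zero, Matrix.cons_val_one, Matrix.cons_val_fin_one, Fin.zero_eta,
          Fin.mk_one, ← ha', ← hb', ← hc', ← hd']
        rw [hk']
        linear_combination (-((N : ℤ) * Q * c * b' + Q * d * d')) * h

instance (N Q : ℕ) [NeZero Q] (a b c d : ℤ) (h : (Q : ℤ) * a * d - N * b * c = 1) :
    Unique (alF N Q a b c d h).J := inferInstanceAs (Unique Unit)

/-- The value of `j (m τ)` at `w τ`. -/
theorem jInv_scale_al {N Q : ℕ} [NeZero N] [NeZero Q] (a b c d : ℤ)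
    (h : (Q : ℤ) * a * d - N * b * c = 1) {m₁ m₂ : ℕ} [NeZero m₁] [NeZero m₂] [NeZero (Q / m₂)]
    (h1 : m₁ ∣ N) (h2 : m₂ ∣ Q) (τ : ℍ) :
    haveI : NeZero (m₁ * m₂) := ⟨mul_ne_zero (NeZero.ne m₁) (NeZero.ne m₂)⟩
    haveI : NeZero (m₁ * (Q / m₂)) := ⟨mul_ne_zero (NeZero.ne m₁) (NeZero.ne (Q / m₂))⟩
    jInv (scale (m₁ * m₂) (alMat N Q a b c d h • τ)) = jInv (scale (m₁ * (Q / m₂)) τ) := by
  have i1 : NeZero (m₁ * m₂) := ⟨mul_ne_zero (NeZero.ne m₁) (NeZero.ne m₂)⟩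
  have i2 : NeZero (m₁ * (Q / m₂)) := ⟨mul_ne_zero (NeZero.ne m₁) (NeZero.ne (Q / m₂))⟩
  obtain ⟨n₁, hn₁⟩ := h1
  obtain ⟨n₂, hn₂⟩ := h2
  have hn₂' : Q / m₂ = n₂ := by
    rw [hn₂, Nat.mul_div_cancel_left _ (Nat.pos_of_ne_zero (NeZero.ne m₂))]
  have hN : (N : ℤ) = m₁ * n₁ := by exact_mod_cast hn₁
  have hQ : (Q : ℤ) = m₂ * n₂ := by exact_mod_cast hn₂
  have hdet : (!![(m₂ : ℤ) * a, m₁ * b; n₁ * c, n₂ * d]).det = 1 := by
    rw [Matrix.det_fin_two_of, ← h, hN, hQ]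
    ring
  let γ : SL(2, ℤ) := ⟨!![(m₂ : ℤ) * a, m₁ * b; n₁ * c, n₂ * d], hdet⟩
  have key : dd (m₁ * m₂) * alMat N Q a b c d h = slD γ * (dd (m₁ * (Q / m₂)) * sc m₂) := by
    apply Subtype.ext
    show (!![((m₁ * m₂ : ℕ) : ℤ), 0; 0, 1]) * (!![(Q : ℤ) * a, b; (N : ℤ) * Q * c, Q * d]) =
      (!![(m₂ : ℤ) * a, m₁ * b; n₁ * c, n₂ * d]) *
        ((!![((m₁ * (Q / m₂) : ℕ) : ℤ), 0; 0, 1]) * (!![(m₂ : ℤ), 0; 0, (m₂ : ℤ)]))
    rw [hn₂', hN, hQ]
    push_cast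
    ext i j
    fin_cases i <;> fin_cases j <;> simp [Matrix.mul_apply, Fin.sum_univ_two] <;> ring
  have h3 := congrArg (fun x : DN 1 => jInv (x • τ)) key
  simp only [mul_smul, dd_smul, slD_smul, sc_smul, jInv_smul] at h3
  exact h3

variable {K : Type*} [Field K] [Algebra K ℂ] [IsAlgClosed K] [CharZero K] [Algebra ℚ K]

/-- The Atkin–Lehner automorphism of the function field. -/
structure IsAL {N Q : ℕ} [NeZero N] [NeZero Q] [NeZero (N * Q)]
    (W : FX K (N * Q) ≃ₐ[K] FX K (N * Q)) : Prop where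
  invol : ∀ x, W (W x) = x
  alpha : ∀ x, W (heckeAlphaBar K N Q x) = heckeBetaBar K N Q x
  beta : ∀ x, W (heckeBetaBar K N Q x) = heckeAlphaBar K N Q x
  jd : ∀ (m : ℕ) (hm : m ∣ N * Q),
    W ⟨H42.jd K m, H42.jd_mem_bar (mul_ne_zero (NeZero.ne N) (NeZero.ne Q)) hm⟩ =
      ⟨H42.jd K (H42.swapDiv N Q m),
        H42.jd_mem_bar (mul_ne_zero (NeZero.ne N) (NeZero.ne Q)) (H42.swapDiv_dvd m)⟩

theorem exists_isAL {N Q : ℕ} [NeZero N] [NeZero Q] [NeZero (N * Q)] (hNQ : N.Coprime Q) :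
    ∃ W : FX K (N * Q) ≃ₐ[K] FX K (N * Q), IsAL (N := N) (Q := Q) W := by
  obtain ⟨W, h1, h2, h3, h4⟩ := H42.exists_atkinLehner (L := K) (algebraMap K ℂ) hNQ
  exact ⟨W, h1, h2, h3, h4⟩

theorem IsAL.isPB {N Q : ℕ} [NeZero N] [NeZero Q] [NeZero (N * Q)] (hNQ : N.Coprime Q)
    {W : FX K (N * Q) ≃ₐ[K] FX K (N * Q)} (hW : IsAL (N := N) (Q := Q) W)
    (a b c d : ℤ) (h : (Q : ℤ) * a * d - N * b * c = 1) :
    IsPB W.toAlgHom (alMat N Q a b c d h) := by
  apply isPB_of_gen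
  intro m hm0 hm
  have hsd : H42.swapDiv N Q m ∣ N * Q := H42.swapDiv_dvd m
  have hs0 : H42.swapDiv N Q m ≠ 0 := fun h0 => (mul_ne_zero (NeZero.ne N) (NeZero.ne Q))
    (zero_dvd_iff.mp (h0 ▸ hsd))
  have hs0' : NeZero (H42.swapDiv N Q m) := ⟨hs0⟩
  refine ⟨⟨qExpand K (H42.swapDiv N Q m) (jqModC K),
    Algebra.subset_adjoin (mem_divisorExpansionsC K _ hsd)⟩, ?_, fun τ => ?_⟩
  · apply Subtype.ext
    have h1 := congrArg Subtype.val (hW.jd m hm)
    change ((W ⟨H42.jd K m, _⟩ : FX K (N * Q)) : LaurentSeries K) =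
      H42.jd K (H42.swapDiv N Q m) at h1
    rw [H42.jd_eq K (H42.swapDiv N Q m)] at h1
    refine Eq.trans ?_ h1
    have h2 : (toF K (N * Q) ⟨qExpand K m (jqModC K), Algebra.subset_adjoin
        (mem_divisorExpansionsC K (N * Q) hm)⟩ : FX K (N * Q)) =
        ⟨H42.jd K m, H42.jd_mem_bar (mul_ne_zero (NeZero.ne N) (NeZero.ne Q)) hm⟩ := by
      apply Subtype.ext
      show qExpand K m (jqModC K) = H42.jd K m
      rw [H42.jd_eq]
    exact congrArg (fun y : FX K (N * Q) => ((W y : FX K (N * Q)) : LaurentSeries K)) h2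
  · rw [ev_qExpand_jqModC]
    have i1 : NeZero (m.gcd N) := ⟨Nat.gcd_ne_zero_left (NeZero.ne m)⟩
    have i2 : NeZero (m.gcd Q) := ⟨Nat.gcd_ne_zero_left (NeZero.ne m)⟩
    have hQm : m.gcd Q ∣ Q := Nat.gcd_dvd_right _ _
    have i3 : NeZero (Q / m.gcd Q) := ⟨Nat.div_ne_zero_iff.mpr
      ⟨NeZero.ne _, Nat.le_of_dvd (Nat.pos_of_ne_zero (NeZero.ne Q)) hQm⟩⟩
    have h2 := jInv_scale_al a b c d h (m₁ := m.gcd N) (m₂ := m.gcd Q) (Nat.gcd_dvd_right _ _)
      hQm τ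
    have h3 := H42.gcd_mul_gcd hNQ hm
    have key : ∀ (m' : ℕ) [NeZero m'], m' = m → ∀ σ : ℍ, jInv (scale m' σ) = jInv (scale m σ) := by
      intro m' _ hm' σ
      subst hm'
      rfl
    have : NeZero (m.gcd N * m.gcd Q) := ⟨mul_ne_zero (NeZero.ne _) (NeZero.ne _)⟩
    rw [key _ h3] at h2
    rw [h2]
    rfl

/-- **Pull back along the Atkin–Lehner automorphism.** -/
theorem IsAL.realizes {N Q : ℕ} [NeZero N] [NeZero Q] [NeZero (N * Q)] (hNQ : N.Coprime Q)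
    {W : FX K (N * Q) ≃ₐ[K] FX K (N * Q)} (hW : IsAL (N := N) (Q := Q) W)
    (a b c d : ℤ) (h : (Q : ℤ) * a * d - N * b * c = 1) :
    Realizes K (pullP W.toAlgHom) (alF N Q a b c d h) :=
  realizes_pull (hW.isPB hNQ a b c d h) (alF N Q a b c d h) rfl

theorem IsAL.pushP_eq {N Q : ℕ} [NeZero N] [NeZero Q] [NeZero (N * Q)]
    {W : FX K (N * Q) ≃ₐ[K] FX K (N * Q)} (hW : IsAL (N := N) (Q := Q) W)
    (x : Pic0 K (FX K (N * Q))) : pushP W.toAlgHom x = pullP W.toAlgHom x := by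
  have h1 : W.symm = W := by
    apply AlgEquiv.ext
    intro y
    rw [AlgEquiv.symm_apply_eq, hW.invol]
  rw [pullP_equiv, h1]

theorem IsAL.pullP_pullP {N Q : ℕ} [NeZero N] [NeZero Q] [NeZero (N * Q)]
    {W : FX K (N * Q) ≃ₐ[K] FX K (N * Q)} (hW : IsAL (N := N) (Q := Q) W)
    (x : Pic0 K (FX K (N * Q))) : pullP W.toAlgHom (pullP W.toAlgHom x) = x := by
  rw [← pullP_comp]
  have h1 : W.toAlgHom.comp W.toAlgHom = AlgHom.id K _ := AlgHom.ext fun y => hW.invol y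
  rw [h1, pullP_id]

end Fermat.Agent.H94.BR
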