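import Fermat.Agent.H94BRHom
import Fermat.Agent.H22Hecke
import Fermat.Agent.H4GoodDiv
import Fermat.Agent.H4NormForm

/-!
# The action of integral matrices of positive determinant on the upper half plane
-/

set_option autoImplicit false

noncomputable section

namespace Fermat.Agent.H94.BR

open Fermat.Agent.H70.Coh CongruenceSubgroup ModularCurve Fermat.Agent.H24 Fermat.Agent.H61
open UpperHalfPlane hiding I
open scoped MatrixGroups Manifold

/-- the matrix as a real matrix -/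
def toGL : DN 1 →* GL (Fin 2) ℝ where
  toFun α := Matrix.GeneralLinearGroup.mkOfDetNeZero (α.1.map (Int.cast : ℤ → ℝ)) (by
    have h : (α.1.map (Int.cast : ℤ → ℝ)).det = ((α.1.det : ℤ) : ℝ) := by
      rw [show (Int.cast : ℤ → ℝ) = Int.castRingHom ℝ from rfl, ← RingHom.mapMatrix_apply,
        ← RingHom.map_det]
    rw [h]
    exact_mod_cast α.2.1.ne')
  map_one' := by
    apply Units.ext
    show ((1 : DN 1).1.map (Int.cast : ℤ → ℝ)) = 1
    ext i j
    fin_cases i <;> fin_cases j <;> simp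
  map_mul' α β := by
    apply Units.ext
    show ((α * β : DN 1).1.map (Int.cast : ℤ → ℝ)) =
      (α.1.map (Int.cast : ℤ → ℝ)) * (β.1.map (Int.cast : ℤ → ℝ))
    exact Matrix.map_mul (f := Int.castRingHom ℝ)

theorem toGL_val (α : DN 1) :
    ((toGL α : GL (Fin 2) ℝ) : Matrix (Fin 2) (Fin 2) ℝ) = α.1.map (Int.cast : ℤ → ℝ) := rfl

theorem det_toGL_pos (α : DN 1) : 0 < (toGL α).val.det := by
  rw [toGL_val]
  have h : (α.1.map (Int.cast : ℤ → ℝ)).det = ((α.1.det : ℤ) : ℝ) := by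
    rw [show (Int.cast : ℤ → ℝ) = Int.castRingHom ℝ from rfl, ← RingHom.mapMatrix_apply,
      ← RingHom.map_det]
  rw [h]
  exact_mod_cast α.2.1

theorem det_toGL_pos' (α : DN 1) : 0 < ((toGL α).det : ℝ) := by
  rw [Matrix.GeneralLinearGroup.val_det_apply]
  exact det_toGL_pos α

instance : MulAction (DN 1) ℍ := MulAction.compHom ℍ toGL

theorem dn_smul_eq (α : DN 1) (τ : ℍ) : α • τ = toGL α • τ := rfl

theorem coe_dn_smul (α : DN 1) (τ : ℍ) :
    ((α • τ : ℍ) : ℂ) = ((α.1 0 0 : ℂ) * τ + α.1 0 1) / ((α.1 1 0 : ℂ) * τ + α.1 1 1) := by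
  rw [dn_smul_eq, UpperHalfPlane.coe_smul_of_det_pos (det_toGL_pos' α)]
  simp [UpperHalfPlane.num, UpperHalfPlane.denom, toGL_val]

theorem gm_smul {M : ℕ} (γ : Gamma0 M) (τ : ℍ) : gm M γ • τ = (γ : SL(2, ℤ)) • τ := by
  apply UpperHalfPlane.ext
  rw [coe_dn_smul, coe_SL_smul]
  rfl

/-- the underlying element of `SL(2, ℤ)` as an element of `DN 1` -/
def slD (γ : SL(2, ℤ)) : DN 1 := ⟨(γ : Matrix (Fin 2) (Fin 2) ℤ), by
  refine ⟨?_, one_dvd _, isCoprime_one_right⟩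
  rw [γ.det_coe]; exact one_pos⟩

theorem slD_smul (γ : SL(2, ℤ)) (τ : ℍ) : slD γ • τ = γ • τ := by
  apply UpperHalfPlane.ext
  rw [coe_dn_smul, coe_SL_smul]
  rfl

theorem slD_mul (γ δ : SL(2, ℤ)) : slD (γ * δ) = slD γ * slD δ := by
  apply Subtype.ext
  show ((γ * δ : SL(2, ℤ)) : Matrix (Fin 2) (Fin 2) ℤ) = _
  rw [Matrix.SpecialLinearGroup.coe_mul]
  rfl

theorem slD_gamma0 {M : ℕ} (γ : Gamma0 M) : slD (γ : SL(2, ℤ)) = gm M γ := rfl

/-- the diagonal matrix `(d, 0; 0, 1)` -/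
def dd (d : ℕ) [NeZero d] : DN 1 := ut 1 d 0 1 (Nat.pos_of_ne_zero (NeZero.ne d)) one_pos
  (Nat.coprime_one_right d)

theorem dd_val (d : ℕ) [NeZero d] : (dd d).1 = !![(d : ℤ), 0; 0, 1] := rfl

theorem dd_smul (d : ℕ) [NeZero d] (τ : ℍ) : dd d • τ = scale d τ := by
  apply UpperHalfPlane.ext
  rw [coe_dn_smul, coe_scale, dd_val]
  simp

/-- the scalar matrix -/
def sc (d : ℕ) [NeZero d] : DN 1 := ut 1 d 0 d (Nat.pos_of_ne_zero (NeZero.ne d))
  (Nat.pos_of_ne_zero (NeZero.ne d)) (Nat.coprime_one_right d)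

theorem sc_val (d : ℕ) [NeZero d] : (sc d).1 = !![(d : ℤ), 0; 0, d] := rfl

theorem sc_smul (d : ℕ) [NeZero d] (τ : ℍ) : sc d • τ = τ := by
  apply UpperHalfPlane.ext
  rw [coe_dn_smul, sc_val]
  have : (d : ℂ) ≠ 0 := by exact_mod_cast NeZero.ne d
  simp only [Matrix.of_apply, Matrix.cons_val', Matrix.cons_val_zero, Matrix.cons_val_one,
    Matrix.cons_val_fin_one]
  push_cast
  rw [zero_mul, zero_add, add_zero, mul_div_cancel_left₀ _ this]

/-- the adjugate -/
def adj (α : DN 1) : DN 1 := ⟨α.1.adjugate, by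
  refine ⟨?_, one_dvd _, isCoprime_one_right⟩
  rw [Matrix.det_adjugate]
  simpa using α.2.1⟩

theorem adj_val (α : DN 1) : (adj α).1 = α.1.adjugate := rfl

theorem mul_adj_smul (α : DN 1) (τ : ℍ) : (α * adj α) • τ = τ := by
  apply UpperHalfPlane.ext
  rw [coe_dn_smul]
  have h : (α * adj α).1 = α.1.det • (1 : Matrix (Fin 2) (Fin 2) ℤ) := Matrix.mul_adjugate α.1
  rw [h]
  have h1 : ((α.1.det : ℤ) : ℂ) ≠ 0 := by exact_mod_cast α.2.1.ne'
  simp only [Matrix.smul_apply, smul_eq_mul, Matrix.one_apply_eq, mul_one]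
  rw [Matrix.one_apply_ne (by decide), Matrix.one_apply_ne (by decide)]
  rw [mul_zero, Int.cast_zero, zero_mul, zero_add, add_zero, mul_div_cancel_left₀ _ h1]

theorem mdiff_dn {f : ℍ → ℂ} (hf : f ∈ Hol) (α : DN 1) : (fun τ => f (α • τ)) ∈ Hol :=
  Fermat.Agent.H4.mdiff_comp_gl hf (toGL α) (det_toGL_pos α)

/-- upper triangular matrices act by affine maps -/
theorem smul_of_upper (α : DN 1) (a e : ℕ) [NeZero a] [NeZero e] (b : ℤ)
    (h : α.1 = !![(a : ℤ), b; 0, (e : ℤ)]) (τ : ℍ) : α • τ = affine a b e τ := by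
  apply UpperHalfPlane.ext
  rw [coe_dn_smul, coe_affine, h]
  simp

/-! ### injectivity -/

/-- comparison of expansions of `j ((a τ + b) / e)` -/
theorem affine_rigid {a e a' e' : ℕ} {b b' : ℤ} [NeZero a] [NeZero e] [NeZero a'] [NeZero e']
    (hd : a * e = a' * e') (h : ∀ τ, jInv (affine a b e τ) = jInv (affine a' b' e' τ)) :
    a = a' ∧ e = e' ∧ (e : ℤ) ∣ b - b' := by
  have hJ0 : jqModC ℂ ≠ 0 := jqModC_ne_zero_of_nontrivial ℂ
  have h1 : a = a' := by
    obtain ⟨F, hF, hFo, hFe⟩ := exists_expansion_affine isConv_jqModC evalAt_jqModC a b e a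
    obtain ⟨G, hG, hGo, hGe⟩ := exists_expansion_affine isConv_jqModC evalAt_jqModC a' b' e' a'
    have : NeZero (e * a) := ⟨mul_ne_zero (NeZero.ne e) (NeZero.ne a)⟩
    have hea : e' * a' = e * a := by rw [mul_comm, ← hd, mul_comm]
    have hFG : F = G := by
      refine eq_of_evalAt_eq hF hG fun z hz0 hz1 => ?_
      obtain ⟨τ, hτ⟩ := exists_qParam_eq (e * a) hz0 hz1
      have h1 := hFe τ
      have h2 := hGe τ
      rw [hτ] at h1
      rw [hea, hτ] at h2
      rw [h1, h2, h]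
    have h1 := (hFo hJ0).2
    have h2 := (hGo hJ0).2
    rw [hFG, h2, order_jqModC] at h1
    have h3 : a * a = a' * a' := by
      have : ((a * a : ℕ) : ℤ) = ((a' * a' : ℕ) : ℤ) := by linarith
      exact_mod_cast this
    exact Nat.mul_self_inj.mp h3
  subst h1
  have h2 : e = e' := Nat.eq_of_mul_eq_mul_left (Nat.pos_of_ne_zero (NeZero.ne a)) hd
  subst h2
  refine ⟨rfl, rfl, ?_⟩
  -- `j (τ + (b' - b) / e) = j (τ)`
  have he : (e : ℂ) ≠ 0 := by exact_mod_cast NeZero.ne e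
  have ha : (a : ℂ) ≠ 0 := by exact_mod_cast NeZero.ne a
  have h3 : ∀ τ : ℍ, jInv τ = jInv (affine 1 0 1 τ) := by
    intro τ
    congr 1
    apply UpperHalfPlane.ext
    rw [coe_affine]
    simp
  -- comparing coefficients
  obtain ⟨F, hF, hFo, hFe⟩ := exists_expansion_affine isConv_jqModC evalAt_jqModC a b e 1
  have hu0 : Complex.exp (2 * Real.pi * Complex.I * b / e) ≠ 0 := Complex.exp_ne_zero _
  have hu0' : Complex.exp (2 * Real.pi * Complex.I * b' / e) ≠ 0 := Complex.exp_ne_zero _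
  set u : ℂˣ := Units.mk0 _ hu0 with hu
  set u' : ℂˣ := Units.mk0 _ hu0' with hu'
  have hn : ∀ c : ℤ, ‖Complex.exp (2 * Real.pi * Complex.I * c / e)‖ = 1 := by
    intro c
    rw [show (2 * Real.pi * Complex.I * c / e : ℂ) =
      ((2 * Real.pi * c / e : ℝ) : ℂ) * Complex.I by push_cast; ring]
    exact Complex.norm_exp_ofReal_mul_I _
  have hu1 : ‖(u : ℂ)‖ = 1 := hn b
  have hu1' : ‖(u' : ℂ)‖ = 1 := hn b'
  have key : qExpand ℂ a (twist u (jqModC ℂ)) = qExpand ℂ a (twist u' (jqModC ℂ)) := by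
    refine eq_of_evalAt_eq (isConv_qExpand _ (isConv_twist hu1 isConv_jqModC))
      (isConv_qExpand _ (isConv_twist hu1' isConv_jqModC)) fun z hz0 hz1 => ?_
    obtain ⟨τ, hτ⟩ := exists_qParam_eq e hz0 hz1
    rw [evalAt_qExpand _ (isConv_twist hu1 isConv_jqModC) hz0 hz1,
      evalAt_qExpand _ (isConv_twist hu1' isConv_jqModC) hz0 hz1, evalAt_twist, evalAt_twist]
    have : NeZero (e * 1) := ⟨by rw [mul_one]; exact NeZero.ne e⟩
    have h4 := qParam_affine a b e 1 τ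
    have h5 := qParam_affine a b' e 1 τ
    rw [mul_one, mul_one, hτ] at h4 h5
    rw [hu, hu', Units.val_mk0, Units.val_mk0, ← h4, ← h5, evalAt_jqModC, evalAt_jqModC, h]
  have h6 := congrArg (fun F : LaurentSeries ℂ => F.coeff ((a : ℤ) * (-1))) key
  simp only [qExpand_coeff_mul, twist_coeff] at h6
  have h7 := mul_right_cancel₀ (by rw [coeff_jqModC_neg_one]; exact one_ne_zero) h6
  have h8 : (u : ℂ) = u' := by
    have h9 : ((u ^ (-1 : ℤ) : ℂˣ) : ℂ) = ((u' ^ (-1 : ℤ) : ℂˣ) : ℂ) := by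
      simpa using h7
    have h10 : (u ^ (-1 : ℤ) : ℂˣ) = u' ^ (-1 : ℤ) := Units.ext h9
    rw [zpow_neg_one, zpow_neg_one, inv_inj] at h10
    rw [h10]
  rw [hu, hu', Units.val_mk0, Units.val_mk0, Complex.exp_eq_exp_iff_exists_int] at h8
  obtain ⟨k, hk⟩ := h8
  refine ⟨k, ?_⟩
  have hpi : (2 * Real.pi * Complex.I : ℂ) ≠ 0 := Complex.two_pi_I_ne_zero
  have h11 : (b : ℂ) / e = b' / e + k := by
    apply mul_left_cancel₀ hpi
    linear_combination hk
  have h12 : (b : ℂ) - b' = e * k := by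
    field_simp at h11
    linear_combination h11
  exact_mod_cast h12

/-- Two integral matrices of the same determinant with `j (A τ) = j (B τ)` differ by an element
of `SL(2, ℤ)`. -/
theorem exists_sl_of_jInv_eq {α β : DN 1} (hdet : α.1.det = β.1.det)
    (h : ∀ τ, jInv (α • τ) = jInv (β • τ)) : ∃ γ : SL(2, ℤ), α = slD γ * β := by
  obtain ⟨g, U, hU, hU10, hU00, hU11⟩ := Fermat.Agent.H22.exists_decomp_int α.1 α.2.1
  obtain ⟨g', U', hU', hU10', hU00', hU11'⟩ := Fermat.Agent.H22.exists_decomp_int β.1 β.2.1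
  obtain ⟨a, ha⟩ := Int.eq_ofNat_of_zero_le hU00.le
  obtain ⟨e, he⟩ := Int.eq_ofNat_of_zero_le hU11.le
  obtain ⟨a', ha'⟩ := Int.eq_ofNat_of_zero_le hU00'.le
  obtain ⟨e', he'⟩ := Int.eq_ofNat_of_zero_le hU11'.le
  rw [ha] at hU00
  rw [he] at hU11
  rw [ha'] at hU00'
  rw [he'] at hU11'
  have : NeZero a := ⟨by rintro rfl; exact absurd hU00 (by simp)⟩
  have : NeZero e := ⟨by rintro rfl; exact absurd hU11 (by simp)⟩
  have : NeZero a' := ⟨by rintro rfl; exact absurd hU00' (by simp)⟩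
  have : NeZero e' := ⟨by rintro rfl; exact absurd hU11' (by simp)⟩
  have hUe : U = !![(a : ℤ), U 0 1; 0, (e : ℤ)] := by
    ext i j
    fin_cases i <;> fin_cases j <;> simp [ha, he, hU10]
  have hUe' : U' = !![(a' : ℤ), U' 0 1; 0, (e' : ℤ)] := by
    ext i j
    fin_cases i <;> fin_cases j <;> simp [ha', he', hU10']
  have hdU : U.det = (a : ℤ) * e := by rw [hUe, Matrix.det_fin_two_of]; simp
  have hdU' : U'.det = (a' : ℤ) * e' := by rw [hUe', Matrix.det_fin_two_of]; simp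
  have hUpos : 0 < U.det := by rw [hdU]; exact mul_pos hU00 hU11
  have hUpos' : 0 < U'.det := by rw [hdU']; exact mul_pos hU00' hU11'
  let u : DN 1 := ⟨U, hUpos, one_dvd _, isCoprime_one_right⟩
  let u' : DN 1 := ⟨U', hUpos', one_dvd _, isCoprime_one_right⟩
  have hα : α = slD g * u := Subtype.ext hU
  have hβ : β = slD g' * u' := Subtype.ext hU'
  have hd : a * e = a' * e' := by
    have h1 : α.1.det = U.det := by rw [hU, Matrix.det_mul, g.det_coe, one_mul]
    have h2 : β.1.det = U'.det := by rw [hU', Matrix.det_mul, g'.det_coe, one_mul]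
    rw [h1, h2, hdU, hdU'] at hdet
    exact_mod_cast hdet
  have hj : ∀ τ, jInv (affine a (U 0 1) e τ) = jInv (affine a' (U' 0 1) e' τ) := by
    intro τ
    have h1 := h τ
    rw [hα, hβ, mul_smul, mul_smul, slD_smul, slD_smul, jInv_smul, jInv_smul,
      smul_of_upper u a e (U 0 1) hUe, smul_of_upper u' a' e' (U' 0 1) hUe'] at h1
    exact h1
  obtain ⟨rfl, rfl, k, hk⟩ := affine_rigid hd hj
  refine ⟨g * ModularGroup.T ^ k * g'⁻¹, ?_⟩
  have h1 : u = slD (ModularGroup.T ^ k) * u' := by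
    apply Subtype.ext
    show U = ((ModularGroup.T ^ k : SL(2, ℤ)) : Matrix (Fin 2) (Fin 2) ℤ) * U'
    rw [ModularGroup.coe_T_zpow, hUe, hUe']
    ext i j
    fin_cases i <;> fin_cases j <;> simp [Matrix.mul_apply, Fin.sum_univ_two]
    linear_combination hk
  rw [hα, hβ, h1, ← mul_assoc, ← mul_assoc, ← slD_mul, ← slD_mul, inv_mul_cancel_right]

end Fermat.Agent.H94.BR
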