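import Fermat.Agent.H94BRReal

/-!
# Degeneracy maps and Atkin–Lehner involutions are realised by explicit families
-/

set_option autoImplicit false
set_option linter.unusedSectionVars false

noncomputable section

namespace Fermat.Agent.H94.BR

open Fermat.Agent.H70.Coh CongruenceSubgroup ModularCurve Fermat.Agent.H24 Fermat.Agent.H61
open AlgebraicCurve Fermat.Agent.H90 Fermat.Agent.H4 Fermat.Agent.H67
open UpperHalfPlane hiding I
open scoped MatrixGroups Manifold

variable {K : Type*} [Field K] [Algebra K ℂ] [IsAlgClosed K] [CharZero K] [Algebra ℚ K]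
variable {M M' M'' : ℕ} [NeZero M] [NeZero M'] [NeZero M'']

/-- `φ` is given by `τ ↦ g τ` as soon as this holds on generators. -/
theorem isPB_of_gen {φ : FX K M →ₐ[K] FX K M'} {g : DN 1}
    (H : ∀ (d : ℕ) [NeZero d] (hd : d ∣ M), ∃ a' : A K M',
      φ (toF K M ⟨qExpand K d (jqModC K), Algebra.subset_adjoin
        (mem_divisorExpansionsC K M hd)⟩) = toF K M' a' ∧
      ∀ τ, ev K a'.1 τ = jInv (scale d (g • τ))) : IsPB φ g := by
  rintro ⟨x, hx⟩
  induction hx using Algebra.adjoin_induction with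
  | mem x hx =>
    obtain ⟨d, hd0, hd, rfl⟩ := hx
    obtain ⟨a', h1, h2⟩ := H d hd
    exact ⟨a', h1, fun τ => by rw [h2]; exact (ev_qExpand_jqModC K d _).symm⟩
  | algebraMap r =>
    refine ⟨algebraMap K _ r, ?_, fun τ => ?_⟩
    · have h1 : toF K M ⟨algebraMap K (LaurentSeries K) r, Subalgebra.algebraMap_mem _ r⟩ =
        algebraMap K (FX K M) r := Subtype.ext rfl
      have h2 : toF K M' (algebraMap K _ r) = algebraMap K (FX K M') r := Subtype.ext rfl
      rw [h2]
      refine Eq.trans ?_ (φ.commutes r)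
      exact congrArg φ h1
    · show ev K (algebraMap K (LaurentSeries K) r) τ = ev K (algebraMap K (LaurentSeries K) r) _
      rw [ev_algebraMap]
      rfl
  | add x y hx hy ihx ihy =>
    obtain ⟨a, h1, h2⟩ := ihx
    obtain ⟨b, h3, h4⟩ := ihy
    refine ⟨a + b, ?_, fun τ => ?_⟩
    · rw [map_add, ← h1, ← h3, ← map_add, ← map_add]
      rfl
    · have h5 := congrFun (ev_add K (good_of_mem K a.2).conv (good_of_mem K b.2).conv) τ
      have h6 := congrFun (ev_add K (good_of_mem K hx).conv (good_of_mem K hy).conv) (g • τ)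
      refine Eq.trans h5 (Eq.trans ?_ h6.symm)
      rw [Pi.add_apply, Pi.add_apply, h2, h4]
  | mul x y hx hy ihx ihy =>
    obtain ⟨a, h1, h2⟩ := ihx
    obtain ⟨b, h3, h4⟩ := ihy
    refine ⟨a * b, ?_, fun τ => ?_⟩
    · rw [map_mul, ← h1, ← h3, ← map_mul, ← map_mul]
      rfl
    · have h5 := congrFun (ev_mul K (good_of_mem K a.2).conv (good_of_mem K b.2).conv) τ
      have h6 := congrFun (ev_mul K (good_of_mem K hx).conv (good_of_mem K hy).conv) (g • τ)
      refine Eq.trans h5 (Eq.trans ?_ h6.symm)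
      rw [Pi.mul_apply, Pi.mul_apply, h2, h4]

/-! ### the degeneracy maps -/

theorem scale_scale (d e : ℕ) [NeZero d] [NeZero e] (τ : ℍ) :
    haveI : NeZero (e * d) := ⟨mul_ne_zero (NeZero.ne e) (NeZero.ne d)⟩
    scale d (scale e τ) = scale (e * d) τ := by
  have : NeZero (e * d) := ⟨mul_ne_zero (NeZero.ne e) (NeZero.ne d)⟩
  apply UpperHalfPlane.ext
  rw [coe_scale, coe_scale, coe_scale]
  push_cast
  ring

theorem isPB_dg (e : ℕ) [NeZero e] (h : M * e ∣ M') : IsPB (dg K e h) (dd e) := by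
  apply isPB_of_gen
  intro d hd0 hd
  have : NeZero (e * d) := ⟨mul_ne_zero (NeZero.ne e) (NeZero.ne d)⟩
  have h1 : e * d ∣ M' := by
    rw [mul_comm]; exact (mul_dvd_mul_right hd e).trans h
  refine ⟨⟨qExpand K (e * d) (jqModC K), Algebra.subset_adjoin (mem_divisorExpansionsC K M' h1)⟩,
    ?_, fun τ => ?_⟩
  · apply Subtype.ext
    rw [coe_dg]
    exact qExpand_qExpand ..
  · rw [ev_qExpand_jqModC, dd_smul, scale_scale]

/-- restriction from `Γ₀(M)` to `Γ₀(M')` composed with `τ ↦ e τ`, for `M e ∣ M'` -/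
def degF (e : ℕ) [NeZero e] (h : M * e ∣ M') : HFam (gm M) (gm M') :=
  vFam (one_dvd M) (Nat.pos_of_ne_zero (NeZero.ne e)) (Nat.coprime_one_right e) h

instance (e : ℕ) [NeZero e] (h : M * e ∣ M') : Unique (degF (M := M) (M' := M') e h).J :=
  inferInstanceAs (Unique Unit)

theorem degF_α (e : ℕ) [NeZero e] (h : M * e ∣ M') (i : (degF (M := M) (M' := M') e h).J) :
    (degF (M := M) (M' := M') e h).α i = dd e := rfl

/-- **Pull back along degeneracy maps.** -/
theorem realizes_pullP_dg (e : ℕ) [NeZero e] (h : M * e ∣ M') :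
    Realizes K (pullP (dg K e h)) (degF e h) :=
  realizes_pull (isPB_dg e h) (degF e h) rfl

section card

theorem card_rightRel {G : Type*} [Group G] (H : Subgroup G)
    [Fintype (Quotient (QuotientGroup.rightRel H))] :
    Fintype.card (Quotient (QuotientGroup.rightRel H)) = H.index := by
  rw [← Nat.card_eq_fintype_card, Nat.card_congr
    (QuotientGroup.quotientRightRelEquivQuotientLeftRel H)]
  rfl

theorem index_subQ {q : ℕ} [NeZero q] (hq : q.Prime) : (subQ M q).index = cdeg M q := by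
  have : NeZero (M * q) := ⟨mul_ne_zero (NeZero.ne M) (NeZero.ne q)⟩
  have h1 : (Gamma0 (M * q)).relIndex (Gamma0 M) * (Gamma0 M).index = (Gamma0 (M * q)).index :=
    Subgroup.relIndex_mul_index (fun γ hγ => by
      rw [Gamma0_mem, ZMod.intCast_zmod_eq_zero_iff_dvd] at hγ ⊢
      exact (Int.natCast_dvd_natCast.mpr (dvd_mul_right M q)).trans hγ)
  rw [H45.index_Gamma0, H45.index_Gamma0, dedekindPsi_mul_prime (NeZero.ne M) hq] at h1
  exact Nat.eq_of_mul_eq_mul_right (dedekindPsi_pos M) h1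

theorem card_subQ'_le {q : ℕ} [NeZero q] (hq : q.Prime)
    [Fintype (Quotient (QuotientGroup.rightRel (subQ' M q)))] :
    cdeg M q ≤ Fintype.card (Quotient (QuotientGroup.rightRel (subQ' M q))) := by
  by_cases hqM : q ∣ M
  · have h0 : cdeg M q = Fintype.card (ZMod q) := by rw [cdeg, if_pos hqM, ZMod.card]
    rw [h0]
    let f : ZMod q → Quotient (QuotientGroup.rightRel (subQ' M q)) := fun i =>
      Quotient.mk _ (tpow M (i.val : ℤ))
    refine Fintype.card_le_of_injective f fun i j hij => ?_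
    have h1 := (HFam.mk_eq_mk (subQ' M q)).mp hij
    rw [mem_subQ'] at h1
    have h2 : (tpow M (j.val : ℤ) * (tpow M (i.val : ℤ))⁻¹ : Gamma0 M) =
        tpow M ((j.val : ℤ) - (i.val : ℤ)) := by
      apply Subtype.ext
      show (ModularGroup.T ^ (j.val : ℤ)) * (ModularGroup.T ^ (i.val : ℤ))⁻¹ = ModularGroup.T ^ _
      rw [← zpow_neg, ← zpow_add]
      rfl
    rw [h2] at h1
    have h3 : ((tpow M ((j.val : ℤ) - (i.val : ℤ)) : SL(2, ℤ)) 0 1) = (j.val : ℤ) - (i.val : ℤ) := by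
      show (ModularGroup.T ^ ((j.val : ℤ) - (i.val : ℤ)) : SL(2, ℤ)) 0 1 = _
      have := ModularGroup.coe_T_zpow ((j.val : ℤ) - (i.val : ℤ))
      have h4 := congrFun (congrFun this 0) 1
      exact h4
    rw [h3] at h1
    exact (val_eq_of_dvd h1).symm
  · rw [cdeg, if_neg hqM, card_subQ' hq hqM]

end card

variable (M) in
/-- the trace `Γ₀(Mq) → Γ₀(M)` -/
def trF (q : ℕ) [NeZero q] : HFam (gm (M * q)) (gm M) := trFam (N := 1) (one_dvd M)

variable (M) in
/-- the adjoint of the degeneracy map `τ ↦ q τ` -/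
def nuF {q : ℕ} [NeZero q] (hq : q.Prime) : HFam (gm (M * q)) (gm M) :=
  nuFam (N := 1) (one_dvd M) hq

theorem dc_inj {α : DN 1} {H : Subgroup (Gamma0 M)} [H.FiniteIndex]
    (hH : ∀ h ∈ H, ∃ γ : Gamma0 M', α * gm M h = gm M' γ * α)
    (hH' : ∀ (g : Gamma0 M) (γ : Gamma0 M'), α * gm M g = gm M' γ * α → g ∈ H)
    (i j : (HFam.dcFam (gm M') (gm M) α H hH).J) (γ : Gamma0 M')
    (h : (HFam.dcFam (gm M') (gm M) α H hH).α i =
      gm M' γ * (HFam.dcFam (gm M') (gm M) α H hH).α j) : i = j := by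
  change Quotient (QuotientGroup.rightRel H) at i j
  change α * gm M i.out = gm M' γ * (α * gm M j.out) at h
  have h1 : α * gm M (i.out * j.out⁻¹) = gm M' γ * α := by
    rw [map_mul, ← mul_assoc, h, mul_assoc, mul_assoc, ← map_mul, mul_inv_cancel, map_one,
      mul_one]
  have h2 := hH' _ _ h1
  rw [← Quotient.out_eq i, ← Quotient.out_eq j]
  exact ((HFam.mk_eq_mk H).mpr h2).symm

/-- **Push forward along the inclusion.** -/
theorem realizes_pushP_one [NeZero (M * M')] (hq : M'.Prime) (h : M * 1 ∣ M * M') :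
    Realizes K (pushP (dg K 1 h)) (trF M M') := by
  have e1 : ∀ (g : Gamma0 M) (γ : Gamma0 (M * M')), (1 : DN 1) * gm M g = gm (M * M') γ * 1 →
      g ∈ subQ M M' := by
    intro g γ hg
    rw [one_mul, mul_one] at hg
    have h1 := congrArg Subtype.val hg
    rw [gm_val, gm_val] at h1
    have h2 : (g : SL(2, ℤ)) = (γ : SL(2, ℤ)) := Subtype.ext h1
    rw [subQ, Subgroup.mem_subgroupOf, h2]
    exact γ.2
  refine realizes_push (isPB_dg 1 h) 1 (fun τ => ?_) (trF M M') (fun i => ⟨_, rfl⟩) ?_ ?_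
  · rw [mul_one, dd_smul, scale_one]
  · exact dc_inj (fun g hg => ⟨⟨g.1, by
      rw [subQ, Subgroup.mem_subgroupOf] at hg; exact hg⟩, by rw [one_mul, mul_one]; rfl⟩) e1
  · rw [finrank_dg_prime (algebraMap K ℂ) hq 1 h rfl, ← index_subQ hq]
    let _inst : Fintype (Quotient (QuotientGroup.rightRel (subQ M M'))) := (trF M M').fin
    rw [← card_rightRel]
    exact le_refl _

/-- **Push forward along `τ ↦ q τ`.** -/
theorem realizes_pushP_prime [NeZero (M * M')] (hq : M'.Prime) (h : M * M' ∣ M * M') :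
    Realizes K (pushP (dg K M' h)) (nuF M hq) := by
  have e1 : ∀ (g : Gamma0 M) (γ : Gamma0 (M * M')),
      (ut 1 1 0 M' one_pos hq.pos (Nat.coprime_one_left 1)) * gm M g =
        gm (M * M') γ * (ut 1 1 0 M' one_pos hq.pos (Nat.coprime_one_left 1)) →
      g ∈ subQ' M M' := by
    intro g γ hg
    have h1 := congrArg Subtype.val hg
    change (!![((1 : ℕ) : ℤ), 0; 0, (M' : ℤ)]) * ((g : SL(2, ℤ)) : Matrix (Fin 2) (Fin 2) ℤ) =
      ((γ : SL(2, ℤ)) : Matrix (Fin 2) (Fin 2) ℤ) * (!![((1 : ℕ) : ℤ), 0; 0, (M' : ℤ)]) at h1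
    have h01 := congrFun (congrFun h1 0) 1
    simp [Matrix.mul_apply, Fin.sum_univ_two] at h01
    exact mem_subQ'.mpr ⟨_, h01.trans (mul_comm _ _)⟩
  refine realizes_push (isPB_dg M' h) (ut 1 1 0 M' one_pos hq.pos (Nat.coprime_one_left 1))
    (fun τ => ?_) (nuF M hq) (fun i => ⟨_, rfl⟩)
    (dc_inj (fun g hg => nu_aux (one_dvd M) hq g hg) e1) ?_
  · have h1 : dd M' * (ut 1 1 0 M' one_pos hq.pos (Nat.coprime_one_left 1)) = sc M' := by
      apply Subtype.ext
      show (!![(M' : ℤ), 0; 0, 1]) * (!![((1 : ℕ) : ℤ), 0; 0, (M' : ℤ)]) =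
        !![(M' : ℤ), 0; 0, (M' : ℤ)]
      ext i j
      fin_cases i <;> fin_cases j <;> simp [Matrix.mul_apply, Fin.sum_univ_two]
    rw [h1, sc_smul]
  · rw [finrank_dg_prime (algebraMap K ℂ) hq M' h rfl]
    let _inst : Fintype (Quotient (QuotientGroup.rightRel (subQ' M M'))) := (nuF M hq).fin
    exact card_subQ'_le hq

end Fermat.Agent.H94.BR
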