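import Fermat.Agent.H94BRUse
import Fermat.Agent.H4EAJ
import Fermat.Agent.H4EANE

/-!
# (E34), (E35), (E36) for eigenclasses in `H¹(Γ₀(N), K)` (MODLIFT)

Combination of `exists_eigenvector_H1` / `exists_newvector_H1` with helper4's `E34_JZero`,
`E35_JZero`, `E36_JZero`.
-/

set_option autoImplicit false
set_option linter.unusedSectionVars false
set_option linter.style.haveILetI false

noncomputable section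

namespace Fermat.Agent.H94.BR

open Fermat.Agent.H70.Coh CongruenceSubgroup ModularCurve
open AlgebraicCurve Fermat.Agent.H4 Fermat.Agent.H67
open Fermat.Agent.H30 Fermat.Agent.H35 Fermat.Agent.H31 Fermat.Agent.H62
open IsLocalRing Polynomial
open scoped MatrixGroups TensorProduct

section Eig

variable {p : ℕ} [Fact p.Prime] {S : Finset ℕ} {𝒪' : Type} [CommRing 𝒪'] [IsDomain 𝒪']
  [CharZero 𝒪'] [Algebra ℤ_[p] 𝒪'] {K : Type*} [Field K] [Algebra 𝒪' K] [IsFractionRing 𝒪' K]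
  {N M : ℕ} [NeZero N] [NeZero M]

omit [IsFractionRing 𝒪' K] in
theorem padic_injective : Function.Injective (algebraMap ℤ_[p] 𝒪') := by
  rw [injective_iff_map_eq_zero]
  intro x hx
  by_contra hne
  have h1 := PadicInt.unitCoeff_spec hne
  rw [h1, map_mul, map_pow, map_natCast] at hx
  have h2 : IsUnit (algebraMap ℤ_[p] 𝒪' (PadicInt.unitCoeff hne)) :=
    (PadicInt.unitCoeff hne).isUnit.map _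
  have h3 : ((p : 𝒪') ^ x.valuation) = 0 := (h2.mul_right_eq_zero).mp hx
  have h4 : (p : 𝒪') ≠ 0 := Nat.cast_ne_zero.mpr (Nat.Prime.ne_zero Fact.out)
  exact pow_ne_zero _ h4 h3

omit [IsDomain 𝒪'] [CharZero 𝒪'] in
theorem chiOf_X' (lam : ℕ → 𝒪') (a : GoodPrimes N (↑S : Set ℕ)) :
    chiOf N S lam (MvPolynomial.X a) = lam (a.1 : ℕ) := by
  unfold chiOf
  rw [MvPolynomial.coe_eval₂Hom, MvPolynomial.eval₂_X]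

theorem isEigJ_of_mem {lam : ℕ → 𝒪'} {w : 𝒪' ⊗[ℤ_[p]] TateMod p (JZero N)}
    (hw : letI := heckeModuleBar N
      w ∈ chiSub (actTate p (JZero N) N (↑S : Set ℕ)) (chiOf N S lam)) :
    IsEigJ p N S lam w := by
  letI := heckeModuleBar N
  intro ℓ hℓN hℓS
  have hℓS' : (ℓ : ℕ) ∉ (↑S : Set ℕ) := by simpa using hℓS
  have h1 := hw (MvPolynomial.X (⟨ℓ, hℓN, hℓS'⟩ : GoodPrimes N (↑S : Set ℕ)))
  rw [actTate_X, chiOf_X'] at h1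
  exact h1

/-- **Eigenclasses in `H¹(Γ₀(N), K)` give eigenvectors in `𝒪' ⊗ T_p J₀(N)`.** -/
theorem exists_isEigJ {N₀ : ℕ} (hN : N₀ ∣ N) {lam : ℕ → 𝒪'}
    {y : H1 (gam N₀ N hN) (psiRep (1 : (ZMod N₀)ˣ →* Kˣ) K)} (hy0 : y ≠ 0)
    (hT : ∀ (ℓ : ℕ) (hℓ : ℓ.Prime) (hℓN : ¬ ℓ ∣ N), ℓ ∉ S →
      (tFam hN hℓ hℓN).opH (psiRep (1 : (ZMod N₀)ˣ →* Kˣ) K) y = algebraMap 𝒪' K (lam ℓ) • y)
    (hne : ∃ ℓ : ℕ, ℓ.Prime ∧ ¬ ℓ ∣ N ∧ ℓ ∉ S ∧ (N : ℤ) ∣ (ℓ : ℤ) - 1 ∧ lam ℓ ≠ 1 + (ℓ : 𝒪')) :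
    ∃ w : 𝒪' ⊗[ℤ_[p]] TateMod p (JZero N), w ≠ 0 ∧ IsEigJ p N S lam w ∧
      ∀ {M : ℕ} [NeZero M] (hM : N₀ ∣ M) (T : JZero N →+ JZero M) (h : HFam (gm N) (gm M))
        (_ : RealJ T h) (h' : HFam (gam N₀ N hN) (gam N₀ M hM)) (e : h'.J ≃ h.J)
        (_ : ∀ i, (h'.α i).1 = (h.α (e i)).1),
        h'.opH (psiRep (1 : (ZMod N₀)ˣ →* Kˣ) K) y = 0 → (tateMap T).baseChange 𝒪' w = 0 := by
  letI := heckeModuleBar N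
  obtain ⟨w, hw0, hw, hw2⟩ := exists_eigenvector_H1 (K := K) (padic_injective (p := p)) hN
    (chiOf N S lam) hy0 (fun ℓ hℓ hℓN hℓS => by
      rw [chiOf_X']
      exact hT ℓ hℓ hℓN (by simpa using hℓS)) (by
      obtain ⟨ℓ, hℓ, hℓN, hℓS, h1, h2⟩ := hne
      refine ⟨ℓ, hℓ, hℓN, by simpa using hℓS, h1, ?_⟩
      rw [chiOf_X']
      exact h2)
  exact ⟨w, hw0, isEigJ_of_mem hw, hw2⟩

/-- **Level `M q`, killed by both traces.** -/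
theorem exists_new_isEigJ {q : ℕ} [NeZero q] [NeZero (M * q)] (hq : q.Prime) {N₀ : ℕ}
    (hM : N₀ ∣ M) {lam : ℕ → 𝒪'}
    {y : H1 (gam N₀ (M * q) (dvd_mul_q hM)) (psiRep (1 : (ZMod N₀)ˣ →* Kˣ) K)} (hy0 : y ≠ 0)
    (hT : ∀ (ℓ : ℕ) (hℓ : ℓ.Prime) (hℓN : ¬ ℓ ∣ M * q), ℓ ∉ S →
      (tFam (dvd_mul_q hM) hℓ hℓN).opH (psiRep (1 : (ZMod N₀)ˣ →* Kˣ) K) y =
        algebraMap 𝒪' K (lam ℓ) • y)
    (hne : ∃ ℓ : ℕ, ℓ.Prime ∧ ¬ ℓ ∣ M * q ∧ ℓ ∉ S ∧ ((M * q : ℕ) : ℤ) ∣ (ℓ : ℤ) - 1 ∧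
      lam ℓ ≠ 1 + (ℓ : 𝒪'))
    (h1 : (trFam hM).opH (psiRep (1 : (ZMod N₀)ˣ →* Kˣ) K) y = 0)
    (h2 : (nuFam hM hq).opH (psiRep (1 : (ZMod N₀)ˣ →* Kˣ) K) y = 0) :
    ∃ w : 𝒪' ⊗[ℤ_[p]] TateMod p (JZero (M * q)), w ≠ 0 ∧ IsEigJ p (M * q) S lam w ∧
      (tateMap (degPush (M := M) (N := M * q) 1 (by simp))).baseChange 𝒪' w = 0 ∧
      (tateMap (degPush (M := M) (N := M * q) q (dvd_refl _))).baseChange 𝒪' w = 0 := by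
  obtain ⟨w, hw0, hw, hw2⟩ := exists_isEigJ (K := K) (p := p) (dvd_mul_q hM) hy0 hT hne
  refine ⟨w, hw0, hw, ?_, ?_⟩
  · exact hw2 hM _ (trF M q) (realJ_degPush_one hq _) (trFam hM) (Equiv.refl _) (fun i => rfl) h1
  · exact hw2 hM _ (nuF M hq) (realJ_degPush_prime hq _) (nuFam hM hq) (Equiv.refl _)
      (fun i => rfl) h2

end Eig

section E

variable {p : ℕ} [Fact p.Prime] {S : Finset ℕ}
    {𝒪' : Type} [CommRing 𝒪'] [IsDomain 𝒪'] [IsDiscreteValuationRing 𝒪']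
    [IsAdicComplete (IsLocalRing.maximalIdeal 𝒪') 𝒪'] [Finite (IsLocalRing.ResidueField 𝒪')]
    [CharZero 𝒪'] [Algebra ℤ_[p] 𝒪'] {K : Type*} [Field K] [Algebra 𝒪' K] [IsFractionRing 𝒪' K]
    {N M : ℕ} [NeZero N] [NeZero M]

/-- a good prime `ℓ ≡ 1 mod N` with `lam ℓ ≠ 1 + ℓ` -/
theorem exists_noneis (hp2 : p ≠ 2) (hNS : ∀ r : ℕ, r.Prime → r ∣ N → r ∈ S)
    (hp𝒪' : (p : 𝒪') ∈ IsLocalRing.maximalIdeal 𝒪') {lam : ℕ → 𝒪'}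
    (ρ : GaloisRepAdic 𝒪') (hρ : IsAttached S lam ρ) (hirr : ρ.residual.IsIrreducible) :
    ∃ ℓ : ℕ, ℓ.Prime ∧ ¬ ℓ ∣ N ∧ ℓ ∉ S ∧ (N : ℤ) ∣ (ℓ : ℤ) - 1 ∧ lam ℓ ≠ 1 + (ℓ : 𝒪') := by
  obtain ⟨ℓ, h1, h2, h3, h4⟩ := exists_nonEis hp2 hp𝒪' S lam ρ hρ hirr
    (Nat.pos_of_ne_zero (NeZero.ne N))
  refine ⟨ℓ, h1, fun h => h2 (hNS ℓ h1 h), h2, ?_, fun h => ?_⟩
  · rw [← ZMod.intCast_zmod_eq_zero_iff_dvd]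
    push_cast
    rw [h3, sub_self]
  · rw [h, sub_self] at h4
    exact not_isUnit_zero h4

/-- **(E34)** for eigenclasses in `H¹(Γ₀(N), K)`. -/
theorem E34_H1 (hp2 : p ≠ 2) (hpS : p ∈ S) (hNS : ∀ r : ℕ, r.Prime → r ∣ N → r ∈ S)
    (hp𝒪' : (p : 𝒪') ∈ IsLocalRing.maximalIdeal 𝒪') {lam : ℕ → 𝒪'}
    (ρ : GaloisRepAdic 𝒪') (hρ : IsAttached S lam ρ) (hirr : ρ.residual.IsIrreducible)
    {q : ℕ} (hq : q.Prime) (hqp : q ≠ p) (hss : UnipotentTorsion p q (JZero N))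
    {N₀ : ℕ} (hN : N₀ ∣ N)
    {y : H1 (gam N₀ N hN) (psiRep (1 : (ZMod N₀)ˣ →* Kˣ) K)} (hy0 : y ≠ 0)
    (hT : ∀ (ℓ : ℕ) (hℓ : ℓ.Prime) (hℓN : ¬ ℓ ∣ N), ℓ ∉ S →
      (tFam hN hℓ hℓN).opH (psiRep (1 : (ZMod N₀)ˣ →* Kˣ) K) y = algebraMap 𝒪' K (lam ℓ) • y) :
    ρ.IsUnipotentOnInertiaAt q := by
  obtain ⟨w, hw0, hw, -⟩ := exists_isEigJ (K := K) (p := p) hN hy0 hT
    (exists_noneis hp2 hNS hp𝒪' ρ hρ hirr)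
  exact E34_JZero hpS hNS hp𝒪' hw hw0 hq hqp hss ρ hρ

/-- **(E35)** for eigenclasses in `H¹(Γ₀(Mq), K)` killed by both traces, `q ∤ M`. -/
theorem E35_H1 {q : ℕ} [NeZero q] [NeZero (M * q)] (hp2 : p ≠ 2) (hpS : p ∈ S)
    (hNS : ∀ r : ℕ, r.Prime → r ∣ M * q → r ∈ S)
    (hp𝒪' : (p : 𝒪') ∈ IsLocalRing.maximalIdeal 𝒪') {lam : ℕ → 𝒪'}
    (ρ : GaloisRepAdic 𝒪') (hρ : IsAttached S lam ρ) (hirr : ρ.residual.IsIrreducible)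
    (hq : q.Prime) (hqp : q ≠ p) (hqM : ¬ q ∣ M) (hstar : StarInput p q M)
    {N₀ : ℕ} (hM : N₀ ∣ M)
    {y : H1 (gam N₀ (M * q) (dvd_mul_q hM)) (psiRep (1 : (ZMod N₀)ˣ →* Kˣ) K)} (hy0 : y ≠ 0)
    (hT : ∀ (ℓ : ℕ) (hℓ : ℓ.Prime) (hℓN : ¬ ℓ ∣ M * q), ℓ ∉ S →
      (tFam (dvd_mul_q hM) hℓ hℓN).opH (psiRep (1 : (ZMod N₀)ˣ →* Kˣ) K) y =
        algebraMap 𝒪' K (lam ℓ) • y)
    (h1 : (trFam hM).opH (psiRep (1 : (ZMod N₀)ˣ →* Kˣ) K) y = 0)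
    (h2 : (nuFam hM hq).opH (psiRep (1 : (ZMod N₀)ˣ →* Kˣ) K) y = 0) :
    ∃ u : 𝒪', (u = 1 ∨ u = -1) ∧
      ∀ (ρ : GaloisRepAdic 𝒪') (_ : IsAttached S lam ρ)
        (A : ValuationSubring (AlgebraicClosure ℚ)) (_ : A.LiesOverPrime q)
        (σ : H53.GQ) (_ : A.IsFrobeniusAt σ q),
        LinearMap.charpoly (ρ.ρ σ) = (X - C u) * (X - C (u * (q : 𝒪'))) := by
  obtain ⟨w, hw0, hw, h3, h4⟩ := exists_new_isEigJ (K := K) (p := p) hq hM hy0 hT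
    (exists_noneis hp2 hNS hp𝒪' ρ hρ hirr) h1 h2
  exact E35_JZero hpS hNS hp𝒪' hw hw0 hq hqp hqM hstar h3 h4

/-- **(E36)** for eigenclasses in `H¹(Γ₀(Mq), K)` killed by both traces, `q ∣ M`. -/
theorem E36_H1 {q : ℕ} [NeZero q] [NeZero (M * q)] (hp2 : p ≠ 2) (hpS : p ∈ S)
    (hNS : ∀ r : ℕ, r.Prime → r ∣ M * q → r ∈ S)
    (hp𝒪' : (p : 𝒪') ∈ IsLocalRing.maximalIdeal 𝒪') {lam : ℕ → 𝒪'}
    (ρ : GaloisRepAdic 𝒪') (hρ : IsAttached S lam ρ) (hirr : ρ.residual.IsIrreducible)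
    (hq : q.Prime) (hqp : q ≠ p) (hfix : FixedInput p q M)
    {N₀ : ℕ} (hM : N₀ ∣ M)
    {y : H1 (gam N₀ (M * q) (dvd_mul_q hM)) (psiRep (1 : (ZMod N₀)ˣ →* Kˣ) K)} (hy0 : y ≠ 0)
    (hT : ∀ (ℓ : ℕ) (hℓ : ℓ.Prime) (hℓN : ¬ ℓ ∣ M * q), ℓ ∉ S →
      (tFam (dvd_mul_q hM) hℓ hℓN).opH (psiRep (1 : (ZMod N₀)ˣ →* Kˣ) K) y =
        algebraMap 𝒪' K (lam ℓ) • y)
    (h1 : (trFam hM).opH (psiRep (1 : (ZMod N₀)ˣ →* Kˣ) K) y = 0)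
    (h2 : (nuFam hM hq).opH (psiRep (1 : (ZMod N₀)ˣ →* Kˣ) K) y = 0) :
    ¬ ρ.IsUnipotentOnInertiaAt q := by
  obtain ⟨w, hw0, hw, h3, h4⟩ := exists_new_isEigJ (K := K) (p := p) hq hM hy0 hT
    (exists_noneis hp2 hNS hp𝒪' ρ hρ hirr) h1 h2
  exact E36_JZero hpS hNS hp𝒪' hw hw0 hq hqp hfix h3 h4 ρ hρ

end E

end Fermat.Agent.H94.BR
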