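import Fermat.Agent.H94BRE
import Fermat.Agent.H89Inst

/-!
# Unconditional (E34), (E35) for eigenclasses in `H¹(Γ₀(N), K)` (MODLIFT)
-/

set_option autoImplicit false
set_option linter.unusedSectionVars false
set_option linter.style.haveILetI false

noncomputable section

namespace Fermat.Agent.H94.BR

open Fermat.Agent.H70.Coh CongruenceSubgroup ModularCurve
open AlgebraicCurve Fermat.Agent.H4 Fermat.Agent.H67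
open Fermat.Agent.H30 Fermat.Agent.H35 Fermat.Agent.H31 Fermat.Agent.H62
open IsLocalRing Polynomial
open scoped MatrixGroups TensorProduct

variable {p : ℕ} [Fact p.Prime] {S : Finset ℕ}
    {𝒪' : Type} [CommRing 𝒪'] [IsDomain 𝒪'] [IsDiscreteValuationRing 𝒪']
    [IsAdicComplete (IsLocalRing.maximalIdeal 𝒪') 𝒪'] [Finite (IsLocalRing.ResidueField 𝒪')]
    [CharZero 𝒪'] [Algebra ℤ_[p] 𝒪'] {K : Type*} [Field K] [Algebra 𝒪' K] [IsFractionRing 𝒪' K]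
    {M : ℕ} [NeZero M]

/-- **(E34), unconditional**: `q` exactly divides the level `M q`. -/
theorem E34_H1' {q : ℕ} [NeZero q] [NeZero (M * q)] (hp2 : p ≠ 2) (hpS : p ∈ S)
    (hNS : ∀ r : ℕ, r.Prime → r ∣ M * q → r ∈ S)
    (hp𝒪' : (p : 𝒪') ∈ IsLocalRing.maximalIdeal 𝒪') {lam : ℕ → 𝒪'}
    (ρ : GaloisRepAdic 𝒪') (hρ : IsAttached S lam ρ) (hirr : ρ.residual.IsIrreducible)
    (hq : q.Prime) (hqp : q ≠ p) (hqM : ¬ q ∣ M)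
    {N₀ : ℕ} (hN : N₀ ∣ M * q)
    {y : H1 (gam N₀ (M * q) hN) (psiRep (1 : (ZMod N₀)ˣ →* Kˣ) K)} (hy0 : y ≠ 0)
    (hT : ∀ (ℓ : ℕ) (hℓ : ℓ.Prime) (hℓN : ¬ ℓ ∣ M * q), ℓ ∉ S →
      (tFam hN hℓ hℓN).opH (psiRep (1 : (ZMod N₀)ˣ →* Kˣ) K) y = algebraMap 𝒪' K (lam ℓ) • y) :
    ρ.IsUnipotentOnInertiaAt q :=
  E34_H1 hp2 hpS hNS hp𝒪' ρ hρ hirr hq hqp
    (H89J.unipotentTorsion' hq hqM Fact.out (Ne.symm hqp)) hN hy0 hT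

/-- **(E35), unconditional**. -/
theorem E35_H1' {q : ℕ} [NeZero q] [NeZero (M * q)] (hp2 : p ≠ 2) (hpS : p ∈ S)
    (hNS : ∀ r : ℕ, r.Prime → r ∣ M * q → r ∈ S)
    (hp𝒪' : (p : 𝒪') ∈ IsLocalRing.maximalIdeal 𝒪') {lam : ℕ → 𝒪'}
    (ρ : GaloisRepAdic 𝒪') (hρ : IsAttached S lam ρ) (hirr : ρ.residual.IsIrreducible)
    (hq : q.Prime) (hqp : q ≠ p) (hqM : ¬ q ∣ M)
    {N₀ : ℕ} (hM : N₀ ∣ M)
    {y : H1 (gam N₀ (M * q) (dvd_mul_q hM)) (psiRep (1 : (ZMod N₀)ˣ →* Kˣ) K)} (hy0 : y ≠ 0)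
    (hT : ∀ (ℓ : ℕ) (hℓ : ℓ.Prime) (hℓN : ¬ ℓ ∣ M * q), ℓ ∉ S →
      (tFam (dvd_mul_q hM) hℓ hℓN).opH (psiRep (1 : (ZMod N₀)ˣ →* Kˣ) K) y =
        algebraMap 𝒪' K (lam ℓ) • y)
    (h1 : (trFam hM).opH (psiRep (1 : (ZMod N₀)ˣ →* Kˣ) K) y = 0)
    (h2 : (nuFam hM hq).opH (psiRep (1 : (ZMod N₀)ˣ →* Kˣ) K) y = 0) :
    ∃ u : 𝒪', (u = 1 ∨ u = -1) ∧
      ∀ (ρ : GaloisRepAdic 𝒪') (_ : IsAttached S lam ρ)
        (A : ValuationSubring (AlgebraicClosure ℚ)) (_ : A.LiesOverPrime q)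
        (σ : H53.GQ) (_ : A.IsFrobeniusAt σ q),
        LinearMap.charpoly (ρ.ρ σ) = (X - C u) * (X - C (u * (q : 𝒪'))) :=
  E35_H1 hp2 hpS hNS hp𝒪' ρ hρ hirr hq hqp hqM
    (H89J.starInput' hq hqM Fact.out (Ne.symm hqp)) hM hy0 hT h1 h2

end Fermat.Agent.H94.BR
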