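import Fermat.Agent.H70HeckeConc

/-!
# Hecke correspondences on `Hom(Γ₀(M), A)` (trivial coefficients)

For a Hecke family `h : HFam ι ι'` (helper70) and an abelian group `A` we define
`homOp h : (Additive Γ →+ A) →+ (Additive Γ' →+ A)`, `φ ↦ (γ' ↦ ∑ i, φ (δ i))` where
`α i * γ' = δ i * α (σ i)`.
-/

set_option autoImplicit false

noncomputable section

namespace Fermat.Agent.H94.BR

open Fermat.Agent.H70.Coh CongruenceSubgroup
open scoped MatrixGroups

section Abstract

variable {S : Type*} [Monoid S] (A : Type*) [AddCommGroup A]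

/-- trivial coefficients -/
def triv : S →* (Module.End ℤ A)ᵐᵒᵖ := 1

variable {A}

@[simp] theorem slash_triv (s : S) (a : A) : slash (triv A) s a = a := rfl

variable {Γ Γ' Γ'' : Type*} [Group Γ] [Group Γ'] [Group Γ''] {ι : Γ →* S} {ι' : Γ' →* S}
  {ι'' : Γ'' →* S}

/-- additive maps are cocycles with trivial coefficients -/
def toZ1 (ι : Γ →* S) (φ : Additive Γ →+ A) : Z1 ι (triv A) :=
  ⟨fun γ => φ (Additive.ofMul γ), fun γ δ => by
    show φ (Additive.ofMul (γ * δ)) = φ (Additive.ofMul γ) + φ (Additive.ofMul δ)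
    rw [ofMul_mul, map_add]⟩

/-- cocycles with trivial coefficients are additive maps -/
def ofZ1 (c : Z1 ι (triv A)) : Additive Γ →+ A :=
  AddMonoidHom.mk' (fun γ => c.1 γ.toMul) (fun a b => by
    have := c.2 a.toMul b.toMul
    rw [slash_triv] at this
    exact this)

theorem toZ1_apply (φ : Additive Γ →+ A) (γ : Γ) : (toZ1 ι φ).1 γ = φ (Additive.ofMul γ) := rfl

theorem ofZ1_apply (c : Z1 ι (triv A)) (γ : Γ) : ofZ1 c (Additive.ofMul γ) = c.1 γ := rfl

theorem ofZ1_toZ1 (φ : Additive Γ →+ A) : ofZ1 (toZ1 ι φ) = φ := rfl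

theorem toZ1_ofZ1 (c : Z1 ι (triv A)) : toZ1 ι (ofZ1 c) = c := rfl

variable (A)
variable [HFam.IsFreeOn ι]

/-- **The Hecke operator on homomorphisms.** -/
def homOp (h : HFam ι ι') : (Additive Γ →+ A) →+ (Additive Γ' →+ A) where
  toFun φ := ofZ1 (h.op (triv A) (toZ1 ι φ))
  map_zero' := by
    have : toZ1 ι (0 : Additive Γ →+ A) = 0 := rfl
    rw [this, map_zero]
    rfl
  map_add' φ ψ := by
    have : toZ1 ι (φ + ψ) = toZ1 ι φ + toZ1 ι ψ := rfl
    rw [this, map_add]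
    rfl

variable {A}

theorem homOp_apply (h : HFam ι ι') (φ : Additive Γ →+ A) (γ' : Γ') :
    homOp A h φ (Additive.ofMul γ') = ∑ i, φ (Additive.ofMul (h.δ γ' i)) := rfl

/-- The value does not depend on the choices. -/
theorem homOp_apply_of_eq (h : HFam ι ι') (φ : Additive Γ →+ A) (γ' : Γ')
    (σ : Equiv.Perm h.J) (δ : h.J → Γ) (hs : ∀ i, h.α i * ι' γ' = ι (δ i) * h.α (σ i)) :
    homOp A h φ (Additive.ofMul γ') = ∑ i, φ (Additive.ofMul (δ i)) :=
  h.op_apply_of_eq (ρ := triv A) (toZ1 ι φ) γ' σ δ hs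

theorem homOp_comp [HFam.IsFreeOn ι'] (h₁ : HFam ι ι') (h₂ : HFam ι' ι'') (φ : Additive Γ →+ A) :
    homOp A (h₁.comp h₂) φ = homOp A h₂ (homOp A h₁ φ) := by
  show ofZ1 ((h₁.comp h₂).op (triv A) (toZ1 ι φ)) = _
  rw [HFam.op_comp]
  rfl

theorem homOp_eq_of_opH {h₁ h₂ : HFam ι ι'} (h : h₁.opH (triv A) = h₂.opH (triv A)) :
    homOp A h₁ = homOp A h₂ := by
  refine AddMonoidHom.ext fun φ => ?_
  have h1 := LinearMap.congr_fun h (H1.mk ι (triv A) (toZ1 ι φ))
  change H1.mk ι' (triv A) (h₁.op (triv A) (toZ1 ι φ)) =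
    H1.mk ι' (triv A) (h₂.op (triv A) (toZ1 ι φ)) at h1
  rw [← sub_eq_zero, ← map_sub, Submodule.mkQ_apply, Submodule.Quotient.mk_eq_zero] at h1
  obtain ⟨v, hv⟩ := h1
  have h2 : cob ι' (triv A) v = 0 := by
    apply Subtype.ext
    funext γ
    rw [cob_apply, slash_triv, sub_self]
    rfl
  rw [h2] at hv
  exact congrArg ofZ1 (sub_eq_zero.mp hv.symm)

/-- Criterion for equality of Hecke operators. -/
theorem homOp_congr_of_card (h₁ h₂ : HFam ι ι') (hcard : Fintype.card h₁.J = Fintype.card h₂.J)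
    (hex : ∀ i, ∃ (j : h₂.J) (γ : Γ), h₁.α i = ι γ * h₂.α j)
    (hinj : ∀ (i i' : h₁.J) (γ : Γ), h₁.α i = ι γ * h₁.α i' → i = i') :
    homOp A h₁ = homOp A h₂ :=
  homOp_eq_of_opH (HFam.opH_congr_of_card h₁ h₂ hcard hex hinj)

theorem homOp_congr (h₁ h₂ : HFam ι ι') (e : h₁.J ≃ h₂.J)
    (he : ∀ i, ∃ γ : Γ, h₁.α i = ι γ * h₂.α (e i)) : homOp A h₁ = homOp A h₂ :=
  homOp_eq_of_opH (HFam.opH_congr h₁ h₂ e he)

/-- Naturality in the coefficients. -/
theorem homOp_map {B : Type*} [AddCommGroup B] (h : HFam ι ι') (f : A →+ B)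
    (φ : Additive Γ →+ A) : homOp B h (f.comp φ) = f.comp (homOp A h φ) := by
  refine AddMonoidHom.ext fun γ => ?_
  show homOp B h (f.comp φ) (Additive.ofMul γ.toMul) = f (homOp A h φ (Additive.ofMul γ.toMul))
  rw [homOp_apply, homOp_apply, map_sum]
  rfl

/-- Linearity over any ring of scalars. -/
theorem homOp_smul {R : Type*} [Monoid R] [DistribMulAction R A] (h : HFam ι ι') (r : R)
    (φ : Additive Γ →+ A) : homOp A h (r • φ) = r • homOp A h φ := by
  have h1 : r • φ = (DistribSMul.toAddMonoidHom A r).comp φ := rfl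
  rw [h1, homOp_map]
  rfl

/-- Compatibility with functions on a set with an action of `S` : multiplicative version. -/
theorem prod_smul_eq {X : Type*} [MulAction S X] {C : Type*} [CommMonoid C] (h : HFam ι ι')
    (F : X → C) (φ : Additive Γ →+ A) (v : A → C) (hv : ∀ a b, v (a + b) = v a * v b)
    (hv0 : v 0 = 1)
    (hF : ∀ (γ : Γ) (x : X), F (ι γ • x) = v (φ (Additive.ofMul γ)) * F x) (γ' : Γ') (x : X) :
    ∏ i, F (h.α i • (ι' γ' • x)) = v (homOp A h φ (Additive.ofMul γ')) * ∏ i, F (h.α i • x) := by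
  have hsum : ∀ (s : Finset h.J) (g : h.J → A), v (∑ i ∈ s, g i) = ∏ i ∈ s, v (g i) := by
    classical
    intro s g
    induction s using Finset.induction_on with
    | empty => rw [Finset.sum_empty, Finset.prod_empty, hv0]
    | insert i s hi ih => rw [Finset.sum_insert hi, Finset.prod_insert hi, hv, ih]
  rw [homOp_apply, hsum, ← Equiv.prod_comp (h.σ γ') (fun i => F (h.α i • x)),
    ← Finset.prod_mul_distrib]
  refine Finset.prod_congr rfl fun i _ => ?_
  rw [← mul_smul, h.spec, mul_smul, hF]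

end Abstract

/-- the inclusion of `Γ₀(M)` in the monoid of integral matrices with positive determinant -/
abbrev gm (M : ℕ) : Gamma0 M →* DN 1 := gam 1 M (one_dvd M)

theorem gm_val {M : ℕ} (γ : Gamma0 M) :
    (gm M γ).1 = ((γ : SL(2, ℤ)) : Matrix (Fin 2) (Fin 2) ℤ) := rfl

end Fermat.Agent.H94.BR
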