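import Fermat.Agent.H94BRAct
import Fermat.Agent.H90Kappa
import Fermat.Agent.H70Trace
import Fermat.Agent.H67Deg
import Fermat.Agent.H45P1Index

/-!
# Correspondences realised on functions and the Kummer relation
-/

set_option autoImplicit false
set_option linter.unusedSectionVars false

noncomputable section

namespace Fermat.Agent.H94.BR

open Fermat.Agent.H70.Coh CongruenceSubgroup ModularCurve Fermat.Agent.H24 Fermat.Agent.H61
open AlgebraicCurve Fermat.Agent.H90 Fermat.Agent.H4 Fermat.Agent.H67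
open UpperHalfPlane hiding I
open scoped MatrixGroups Manifold

variable (K : Type*) [Field K] [Algebra K ℂ] [IsAlgClosed K] [CharZero K] [Algebra ℚ K]
variable {M M' M'' : ℕ} [NeZero M] [NeZero M'] [NeZero M'']

/-- `T` is realised on functions by the family `h`. -/
def Realizes (T : Pic0 K (FX K M) →+ Pic0 K (FX K M')) (h : HFam (gm M) (gm M')) : Prop :=
  ∀ (D : Divisor.degZero (K := K) (F := FX K M)) (a : FX K M) (n : ℕ), a ≠ 0 →
    Good K M (a : LaurentSeries K) →
    (∀ v : Place K (FX K M), v.ord a = n * (D : Divisor K (FX K M)) v) →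
    ∃ (D' : Divisor.degZero (K := K) (F := FX K M')) (a' : FX K M'),
      Pic0.mk D' = T (Pic0.mk D) ∧ a' ≠ 0 ∧ Good K M' (a' : LaurentSeries K) ∧
      (∀ v : Place K (FX K M'), v.ord a' = n * (D' : Divisor K (FX K M')) v) ∧
      ∀ τ, ev K (a' : LaurentSeries K) τ = ∏ i, ev K (a : LaurentSeries K) (h.α i • τ)

variable {K}

theorem prod_dn_mem_Hol {h : HFam (gm M) (gm M')} {f : ℍ → ℂ} (hf : f ∈ Hol) :
    (fun τ => ∏ i, f (h.α i • τ)) ∈ Hol := by
  have h1 : (fun τ => ∏ i, f (h.α i • τ)) = ∏ i, (fun τ => f (h.α i • τ)) := by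
    funext τ; rw [Finset.prod_apply]
  rw [h1]
  exact Subalgebra.prod_mem _ fun x _ => mdiff_dn hf (h.α x)

/-- **The Kummer relation is compatible with realised correspondences.** -/
theorem Realizes.rel {T : Pic0 K (FX K M) →+ Pic0 K (FX K M')} {h : HFam (gm M) (gm M')}
    (H : Realizes K T h) {n : ℕ} {c : Pic0 K (FX K M)} {χ : Additive (Gamma0 M) →+ Mu}
    (hr : Rel n c χ) : Rel n (T c) (homOp Mu h χ) := by
  obtain ⟨D, a, f, hD, ha, hg, hord, hf, hfn, hχ⟩ := hr
  obtain ⟨D', a', hD', ha', hg', hord', hev⟩ := H D a n ha hg hord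
  refine ⟨D', a', fun τ => ∏ i, f (h.α i • τ), by rw [hD', hD], ha', hg', hord',
    prod_dn_mem_Hol hf, ?_, fun γ τ => ?_⟩
  · funext τ
    rw [hev, Pi.pow_apply, ← Finset.prod_pow]
    exact Finset.prod_congr rfl fun i _ => congrFun hfn (h.α i • τ)
  · have h1 := prod_smul_eq h f χ Mu.val Mu.val_add Mu.val_zero (fun γ x => by
      rw [gm_smul]; exact hχ γ x) γ τ
    rw [gm_smul] at h1
    exact h1

theorem Realizes.comp {T : Pic0 K (FX K M) →+ Pic0 K (FX K M')}
    {T' : Pic0 K (FX K M') →+ Pic0 K (FX K M'')} {h : HFam (gm M) (gm M')}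
    {h' : HFam (gm M') (gm M'')} (H : Realizes K T h) (H' : Realizes K T' h') :
    Realizes K (T'.comp T) (h.comp h') := by
  intro D a n ha hg hord
  obtain ⟨D', a', hD', ha', hg', hord', hev⟩ := H D a n ha hg hord
  obtain ⟨D'', a'', hD'', ha'', hg'', hord'', hev'⟩ := H' D' a' n ha' hg' hord'
  refine ⟨D'', a'', by rw [hD'', hD']; rfl, ha'', hg'', hord'', fun τ => ?_⟩
  rw [hev']
  change _ = ∏ p : h.J × h'.J, ev K (a : LaurentSeries K) ((h.α p.1 * h'.α p.2) • τ)
  rw [Fintype.prod_prod_type_right]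
  refine Finset.prod_congr rfl fun j _ => ?_
  rw [hev]
  exact Finset.prod_congr rfl fun i _ => by rw [mul_smul]

/-- `φ` is given by `τ ↦ g τ`. -/
def IsPB (φ : FX K M →ₐ[K] FX K M') (g : DN 1) : Prop :=
  ∀ a : A K M, ∃ a' : A K M', φ (toF K M a) = toF K M' a' ∧
    ∀ τ, ev K a'.1 τ = ev K a.1 (g • τ)

theorem IsPB.good {φ : FX K M →ₐ[K] FX K M'} {g : DN 1} (H : IsPB φ g) {a : FX K M}
    (ha : Good K M (a : LaurentSeries K)) : Good K M' (φ a : LaurentSeries K) ∧
      ev K (φ a : LaurentSeries K) = fun τ => ev K (a : LaurentSeries K) (g • τ) := by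
  obtain ⟨c, d, hd, hcd⟩ := exists_eq_div K a
  have h1 : a * toF K M d = toF K M c := by
    rw [hcd, div_mul_cancel₀ _ (toF_ne_zero K hd)]
  obtain ⟨c', hc', hce⟩ := H c
  obtain ⟨d', hd', hde⟩ := H d
  have hd0 : d'.1 ≠ 0 := by
    intro h
    have h2 : toF K M' d' = 0 := Subtype.ext h
    rw [← hd', map_eq_zero] at h2
    exact toF_ne_zero K hd h2
  have h2 : (φ a : LaurentSeries K) * d'.1 = c'.1 := by
    have := congrArg φ h1
    rw [map_mul, hc', hd'] at this
    exact congrArg Subtype.val this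
  refine good_of_div K (good_of_mem K c'.2) (good_of_mem K d'.2) hd0 h2 (mdiff_dn ha.hol g)
    fun τ => ?_
  rw [hde, hce]
  have h3 := ev_mul_of_good ha (good_of_mem K d.2) (congrArg Subtype.val h1) (g • τ)
  exact h3.symm

theorem IsPB.comp {φ : FX K M →ₐ[K] FX K M'} {φ' : FX K M' →ₐ[K] FX K M''} {g g' : DN 1}
    (H : IsPB φ g) (H' : IsPB φ' g') : IsPB (φ'.comp φ) (g * g') := by
  intro a
  obtain ⟨a', h1, h2⟩ := H a
  obtain ⟨a'', h3, h4⟩ := H' a'
  exact ⟨a'', by rw [AlgHom.comp_apply, h1, h3], fun τ => by rw [h4, h2, mul_smul]⟩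

/-- pull back is realised by a one element family -/
theorem realizes_pull {φ : FX K M →ₐ[K] FX K M'} {g : DN 1} (H : IsPB φ g)
    (h : HFam (gm M) (gm M')) [Unique h.J] (hα : h.α default = g) :
    Realizes K (pullP φ) h := by
  intro D a n ha hg hord
  obtain ⟨h1, h2⟩ := H.good hg
  refine ⟨⟨pullD φ D, (degree_pullD φ D.1).trans ((congrArg _ D.2).trans (mul_zero _))⟩, φ a,
    (pullP_mk φ D).symm, (map_ne_zero φ).mpr ha, h1, fun v => ?_, fun τ => ?_⟩
  · show v.ord (φ a) = n * (pullD φ D) v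
    rw [ord_res, hord, pullD_apply]
    ring
  · rw [h2, Fintype.prod_unique, hα]

/-! ### push forward -/

section push

variable (K M)

/-- conjugates of elements of `A K M` -/
def eA (σ : DN 1) : A K M →+* Hol where
  toFun y := ⟨fun τ => ev K y.1 (σ • τ), mdiff_dn (good_of_mem K y.2).hol σ⟩
  map_one' := by
    apply Subtype.ext
    funext τ
    have := congrFun (ev_algebraMap K 1) (σ • τ)
    simpa using this
  map_mul' x y := by
    apply Subtype.ext
    funext τ
    exact congrFun (ev_mul K (good_of_mem K x.2).conv (good_of_mem K y.2).conv) (σ • τ)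
  map_zero' := by
    apply Subtype.ext
    funext τ
    have := congrFun (ev_algebraMap K 0) (σ • τ)
    simpa using this
  map_add' x y := by
    apply Subtype.ext
    funext τ
    exact congrFun (ev_add K (good_of_mem K x.2).conv (good_of_mem K y.2).conv) (σ • τ)

variable {K M}

theorem eA_apply (σ : DN 1) (y : A K M) (τ : ℍ) :
    ((eA K M σ y : Hol) : ℍ → ℂ) τ = ev K y.1 (σ • τ) := rfl

/-- every point is of the form `σ • τ` -/
theorem exists_smul_eq (σ : DN 1) (τ : ℍ) : ∃ τ', σ • τ' = τ :=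
  ⟨(toGL σ)⁻¹ • τ, by rw [dn_smul_eq, smul_inv_smul]⟩

theorem eA_injective (σ : DN 1) : Function.Injective (eA K M σ) := by
  intro x y h
  apply Subtype.ext
  refine ev_injective_of_conv K (good_of_mem K x.2).conv (good_of_mem K y.2).conv ?_
  funext τ
  obtain ⟨τ', rfl⟩ := exists_smul_eq σ τ
  exact congrFun (congrArg Subtype.val h) τ'

theorem eE_injective (σ : DN 1) : Function.Injective
    ((algebraMap Hol (FractionRing Hol)).comp (eA K M σ)) :=
  (IsFractionRing.injective Hol (FractionRing Hol)).comp (eA_injective σ)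

variable (K M)

/-- conjugates of elements of the function field, in the field of fractions of the ring of
holomorphic functions -/
def eF (σ : DN 1) : FX K M →+* FractionRing Hol :=
  extF K ((algebraMap Hol (FractionRing Hol)).comp (eA K M σ)) (eE_injective σ)

variable {K M}

theorem eF_toF (σ : DN 1) (y : A K M) :
    eF K M σ (toF K M y) = algebraMap Hol (FractionRing Hol) (eA K M σ y) :=
  extF_toF K _ _ y

theorem eF_of_good (σ : DN 1) {a : FX K M} (ha : Good K M (a : LaurentSeries K)) :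
    eF K M σ a = algebraMap Hol (FractionRing Hol)
      ⟨fun τ => ev K (a : LaurentSeries K) (σ • τ), mdiff_dn ha.hol σ⟩ := by
  obtain ⟨c, d, hd, hcd⟩ := exists_eq_div K a
  have h1 : a * toF K M d = toF K M c := by
    rw [hcd, div_mul_cancel₀ _ (toF_ne_zero K hd)]
  have h2 : eF K M σ (toF K M d) ≠ 0 := (map_ne_zero _).mpr (toF_ne_zero K hd)
  apply mul_right_cancel₀ h2
  rw [← map_mul, h1, eF_toF, eF_toF, ← map_mul]
  congr 1
  apply Subtype.ext
  funext τ
  exact ev_mul_of_good ha (good_of_mem K d.2) (congrArg Subtype.val h1) (σ • τ)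

/-- distinct cosets give distinct embeddings -/
theorem exists_of_eF_eq {α β : DN 1} (hdet : α.1.det = β.1.det)
    (h : ∀ y : A K M, eF K M α (toF K M y) = eF K M β (toF K M y)) :
    ∃ γ : Gamma0 M, α = gm M γ * β := by
  have h1 : ∀ (y : A K M) (τ : ℍ), ev K y.1 (α • τ) = ev K y.1 (β • τ) := by
    intro y τ
    have := h y
    rw [eF_toF, eF_toF] at this
    exact congrFun (congrArg Subtype.val
      (IsFractionRing.injective Hol (FractionRing Hol) this)) τ
  obtain ⟨γ, hγ⟩ := exists_sl_of_jInv_eq hdet (fun τ => by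
    have hx : jqModC K ∈ A K M := by
      have h2 : qExpand K 1 (jqModC K) ∈ A K M :=
        Algebra.subset_adjoin (mem_divisorExpansionsC K M (one_dvd M))
      rwa [qExpand_one_apply] at h2
    have h3 := h1 ⟨_, hx⟩ τ
    rwa [ev_jqModC, ev_jqModC] at h3)
  have hγ0 : γ ∈ Gamma0 M := by
    apply mem_Gamma0_of_jInv_scale_eq isConv_jqModC order_jqModC evalAt_jqModC
    intro τ
    obtain ⟨τ', rfl⟩ := exists_smul_eq β τ
    have hx : qExpand K M (jqModC K) ∈ A K M :=
      Algebra.subset_adjoin (mem_divisorExpansionsC K M dvd_rfl)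
    have h3 := h1 ⟨_, hx⟩ τ'
    rw [ev_qExpand_jqModC, ev_qExpand_jqModC, hγ, mul_smul, slD_smul] at h3
    exact h3
  exact ⟨⟨γ, hγ0⟩, hγ⟩

variable {φ : FX K M →ₐ[K] FX K M'} {g : DN 1} (H : IsPB φ g) (α : DN 1)
  (hgα : ∀ τ : ℍ, (g * α) • τ = τ) (h : HFam (gm M') (gm M))
  (hα : ∀ i, ∃ δ : Gamma0 M, h.α i = α * gm M δ)
  (hinj : ∀ (i j : h.J) (γ : Gamma0 M'), h.α i = gm M' γ * h.α j → i = j)
  (hcard : finrankAlong K φ ≤ Fintype.card h.J)

include H hgα hα hinj hcard in
theorem eF_norm (y : FX K M') : eF K M 1 (H60.normAlong φ y) = ∏ i, eF K M' (h.α i) y := by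
  let _inst := algebraAlong φ
  have hfin : Module.Finite (FX K M) (FX K M') := finiteAlong_FB K φ
  have : CharZero (FX K M) := charZero_of_injective_algebraMap (algebraMap K (FX K M)).injective
  have : Algebra.IsSeparable (FX K M) (FX K M') := inferInstance
  refine norm_eq_prod_of_embeddings (F := FX K M) (F' := FX K M') (eF K M 1)
    (fun i => eF K M' (h.α i)) (fun i j hij => ?_) (fun i x => ?_) hcard y
  · have hdet : ∀ i, (h.α i).1.det = α.1.det := by
      intro i
      obtain ⟨δ, hδ⟩ := hα i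
      rw [hδ]
      show (α.1 * (gm M δ).1).det = _
      rw [Matrix.det_mul, gm_val, (δ : SL(2, ℤ)).det_coe, mul_one]
    obtain ⟨γ, hγ⟩ := exists_of_eF_eq ((hdet i).trans (hdet j).symm)
      (fun y => RingHom.congr_fun hij (toF K M' y))
    exact hinj i j γ hγ
  · have key := ext_of_toF K (f := (eF K M' (h.α i)).comp (φ : FX K M →+* FX K M'))
      (g := eF K M 1) (fun a => by
        obtain ⟨a', ha', hev⟩ := H a
        have e1 : (φ : FX K M →+* FX K M') (toF K M a) = toF K M' a' := ha'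
        rw [RingHom.comp_apply, e1, eF_toF, eF_toF]
        congr 1
        apply Subtype.ext
        funext τ
        obtain ⟨δ, hδ⟩ := hα i
        rw [eA_apply, eA_apply, hev, one_smul, ← mul_smul, hδ, ← mul_assoc, mul_smul, hgα,
          gm_smul]
        exact congrFun ((good_of_mem K a.2).inv _ δ.2) τ) x
    exact key

include H hgα hα hinj hcard in
theorem good_norm {y : FX K M'} (hy : Good K M' (y : LaurentSeries K)) :
    Good K M ((H60.normAlong φ y : FX K M) : LaurentSeries K) ∧
      ev K ((H60.normAlong φ y : FX K M) : LaurentSeries K) =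
        fun τ => ∏ i, ev K (y : LaurentSeries K) (h.α i • τ) := by
  obtain ⟨c, d, hd, hcd⟩ := exists_eq_div K (H60.normAlong φ y)
  have h1 : H60.normAlong φ y * toF K M d = toF K M c := by
    rw [hcd, div_mul_cancel₀ _ (toF_ne_zero K hd)]
  refine good_of_div K (good_of_mem K c.2) (good_of_mem K d.2) (fun h => hd (Subtype.ext h))
    (congrArg Subtype.val h1) (prod_dn_mem_Hol hy.hol) (fun τ => ?_)
  have h2 := congrArg (eF K M 1) h1
  rw [map_mul, eF_norm H α hgα h hα hinj hcard, eF_toF, eF_toF] at h2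
  have h3 : ∏ i, eF K M' (h.α i) y = algebraMap Hol (FractionRing Hol)
      (∏ i, ⟨fun τ => ev K (y : LaurentSeries K) (h.α i • τ), mdiff_dn hy.hol (h.α i)⟩) := by
    rw [map_prod]
    exact Finset.prod_congr rfl fun i _ => eF_of_good _ hy
  rw [h3, ← map_mul] at h2
  have h4 := congrFun (congrArg Subtype.val
    (IsFractionRing.injective Hol (FractionRing Hol) h2)) τ
  have h5 : ((∏ i, (⟨fun τ => ev K (y : LaurentSeries K) (h.α i • τ),
      mdiff_dn hy.hol (h.α i)⟩ : Hol) : Hol) : ℍ → ℂ) τ =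
      ∏ i, ev K (y : LaurentSeries K) (h.α i • τ) := by
    rw [SubmonoidClass.coe_finsetProd, Finset.prod_apply]
  rw [← h5]
  rw [eA_apply, one_smul] at h4
  rw [← h4]
  show _ = _ * ev K d.1 ((1 : DN 1) • τ)
  rw [one_smul]

include H hgα hα hinj hcard in
/-- push forward is realised by the adjoint family -/
theorem realizes_push : Realizes K (pushP φ) h := by
  intro D a n ha hg hord
  obtain ⟨h1, h2⟩ := good_norm H α hgα h hα hinj hcard hg
  refine ⟨⟨pushD φ D, (degree_pushD φ D.1).trans D.2⟩, H60.normAlong φ a,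
    (pushP_mk φ D).symm, normAlong_ne_zero' φ ha, h1, fun v => ?_, fun τ => by rw [h2]⟩
  have h3 : divF (K := K) a ha = (n : ℤ) • (D : Divisor K (FX K M')) :=
    Finsupp.ext fun w => by
      rw [divF_apply, hord, Finsupp.smul_apply, smul_eq_mul]
  have h4 := pushD_divF φ a ha
  rw [h3, map_zsmul] at h4
  have h5 := congrArg (fun E : Divisor K (FX K M) => E v) h4
  simp only [Finsupp.smul_apply, smul_eq_mul, divF_apply] at h5
  exact h5.symm

end push

end Fermat.Agent.H94.BR
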