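import Fermat.Agent.H94BRTate
import Fermat.Agent.H70Comp
import Fermat.Agent.H4Lattice
import Fermat.Agent.H35VChi

/-!
# `O ⊗ T_p J₀(N) ≃ Hom_PE(Γ₀(N), O)`

* `realizes_hecke` : the Hecke correspondence `T_ℓ`, `ℓ ∤ N`, is realised by helper70's `tFam`.
* `homOp_tF` : `homOp (tF) = heckeHom`.
* `ThetaR` : `R ⊗ T_p J₀(N) ≃ₗ[R] PES N R R` for domains `R ⊇ ℤ_p`;
  `thetaR_baseChange` : compatibility with all realised correspondences.
-/

set_option autoImplicit false
set_option linter.unusedSectionVars false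
set_option linter.style.haveILetI false

noncomputable section

namespace Fermat.Agent.H94.BR

open Fermat.Agent.H70.Coh CongruenceSubgroup ModularCurve Fermat.Agent.H24 Fermat.Agent.H61
open AlgebraicCurve Fermat.Agent.H90 Fermat.Agent.H4 Fermat.Agent.H67
open Fermat.Agent.H30 Fermat.Agent.H35
open UpperHalfPlane hiding I
open scoped MatrixGroups Manifold TensorProduct

section Hecke

variable {K : Type*} [Field K] [Algebra K ℂ] [IsAlgClosed K] [CharZero K] [Algebra ℚ K]
variable {N ℓ : ℕ} [NeZero N]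

/-- helper70's family of `T_ℓ` (auxiliary level `1`) -/
abbrev tF {N ℓ : ℕ} (hℓ : ℓ.Prime) (hℓN : ¬ ℓ ∣ N) : HFam (gm N) (gm N) :=
  tFam (N := 1) (one_dvd N) hℓ hℓN

theorem tF_smul [hℓ : Fact ℓ.Prime] (hℓN : ¬ ℓ ∣ N) (x : OnePoint (ZMod ℓ)) (τ : ℍ) :
    (tF hℓ.out hℓN).α x • τ = rep ℓ x • τ := by
  rw [dn_smul_eq]
  congr 1
  apply Units.ext
  rw [toGL_val]
  exact tRep_map (one_dvd N) hℓ.out hℓN x

theorem realizes_hecke [hℓ : Fact ℓ.Prime] [NeZero ℓ] (hℓN : ¬ ℓ ∣ N) :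
    Realizes K (heckeOperatorAlong K N ℓ) (tF hℓ.out hℓN) := by
  intro D a n ha hg hord
  obtain ⟨hα, hβ, hP, hfin, hFI, hN⟩ := H67.heckeInputsAlong K N ℓ
  haveI := hP
  obtain ⟨hgood, hev⟩ := good_normAlpha_beta hℓN hg
  refine ⟨Pic0.degZeroCorrespondence (heckeBetaBar K N ℓ) (heckeAlphaBar K N ℓ) hβ hα hFI D,
    normAlpha K N ℓ (heckeBetaBar K N ℓ a), ?_, ?_, hgood, ?_, ?_⟩
  · rw [heckeOperatorAlong_eq hα hβ hFI hfin hN]
    exact (Pic0.correspondence_mk _ _ hβ hα hFI hfin hN D).symm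
  · have hβa : heckeBetaBar K N ℓ a ≠ 0 := by
      rw [ne_eq, map_eq_zero]; exact ha
    letI := algebraAlong (heckeAlphaBar K N ℓ)
    haveI : Module.Finite (FN K N) (FN K (N * ℓ)) := hfin
    exact Algebra.norm_ne_zero_iff.mpr hβa
  · intro v
    exact ord_normAlpha_beta K ha hord hα hβ v
  · intro τ
    rw [hev]
    refine Fintype.prod_equiv (Equiv.refl _) _ _ fun x => ?_
    rw [← tF_smul hℓN]
    rfl

/-- **`homOp (tF) = heckeHom`.** -/
theorem homOp_tF [hℓ : Fact ℓ.Prime] (hℓN : ¬ ℓ ∣ N) {A : Type*} [AddCommGroup A]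
    (φ : Additive (Gamma0 N) →+ A) : homOp A (tF hℓ.out hℓN) φ = heckeHom hℓN φ := by
  refine AddMonoidHom.ext fun γ => ?_
  obtain ⟨γ, rfl⟩ := Additive.ofMul.surjective γ
  rw [homOp_apply_of_eq (tF hℓ.out hℓN) φ γ (act (ℓ := ℓ) (γ : SL(2, ℤ)))
    (fun x => coc hℓN γ x) (fun x => tRep_coc (one_dvd N) hℓN γ x), heckeHom_apply]
  exact Fintype.sum_equiv (Equiv.refl _) _ _ fun x => rfl

end Hecke

section Coeff

variable {K : Type*} [Field K] [Algebra K ℂ] [IsAlgClosed K] [CharZero K] [Algebra ℚ K]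
variable {N : ℕ} [NeZero N] {p : ℕ} [hp : Fact p.Prime]
variable (R : Type*) [CommRing R] [Algebra ℤ_[p] R]

variable (K N p) in
/-- the underlying map of `ThetaR` -/
def thetaRLin : R ⊗[ℤ_[p]] TateMod p (Pic0 K (FX K N)) →ₗ[R] (Additive (Gamma0 N) →+ R) :=
  LinearMap.liftBaseChange R
    { toFun := fun x => (algebraMap ℤ_[p] R).toAddMonoidHom.comp (Theta K N p x).1
      map_add' := fun x y => by
        refine AddMonoidHom.ext fun γ => ?_
        show algebraMap ℤ_[p] R ((Theta K N p (x + y)).1 γ) =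
          algebraMap ℤ_[p] R ((Theta K N p x).1 γ) + algebraMap ℤ_[p] R ((Theta K N p y).1 γ)
        rw [map_add, Submodule.coe_add, AddMonoidHom.add_apply, map_add]
      map_smul' := fun a x => by
        refine AddMonoidHom.ext fun γ => ?_
        show algebraMap ℤ_[p] R ((Theta K N p (a • x)).1 γ) =
          a • algebraMap ℤ_[p] R ((Theta K N p x).1 γ)
        rw [map_smul, Submodule.coe_smul, AddMonoidHom.smul_apply, smul_eq_mul, map_mul,
          Algebra.smul_def] }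

theorem thetaRLin_tmul (r : R) (x : TateMod p (Pic0 K (FX K N))) (γ : Additive (Gamma0 N)) :
    thetaRLin K N p R (r ⊗ₜ x) γ = r * algebraMap ℤ_[p] R ((Theta K N p x).1 γ) := by
  rw [thetaRLin, LinearMap.liftBaseChange_tmul]
  rfl

theorem isPE_thetaRLin (v : R ⊗[ℤ_[p]] TateMod p (Pic0 K (FX K N))) :
    IsPE (thetaRLin K N p R v) := by
  intro γ hγ
  induction v using TensorProduct.induction_on with
  | zero => rw [map_zero]; rfl
  | tmul r x => rw [thetaRLin_tmul, (Theta K N p x).2 γ hγ, map_zero, mul_zero]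
  | add v w hv hw => rw [map_add, AddMonoidHom.add_apply, hv, hw, add_zero]

variable {R}

/-- **Compatibility with realised correspondences.** -/
theorem thetaRLin_baseChange {M : ℕ} [NeZero M] {T : Pic0 K (FX K N) →+ Pic0 K (FX K M)}
    {h : HFam (gm N) (gm M)} (H : Realizes K T h)
    (v : R ⊗[ℤ_[p]] TateMod p (Pic0 K (FX K N))) :
    thetaRLin K M p R ((tateMap T).baseChange R v) = homOp R h (thetaRLin K N p R v) := by
  induction v using TensorProduct.induction_on with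
  | zero => simp only [map_zero]
  | tmul r x =>
    rw [LinearMap.baseChange_tmul]
    have h1 : thetaRLin K N p R (r ⊗ₜ x) =
        ((AddMonoidHom.mulLeft r).comp (algebraMap ℤ_[p] R).toAddMonoidHom).comp
          (Theta K N p x).1 := AddMonoidHom.ext fun γ => thetaRLin_tmul R r x γ
    have h2 : thetaRLin K M p R (r ⊗ₜ (tateMap T x)) =
        ((AddMonoidHom.mulLeft r).comp (algebraMap ℤ_[p] R).toAddMonoidHom).comp
          (Theta K M p (tateMap T x)).1 := AddMonoidHom.ext fun γ => thetaRLin_tmul R r _ γ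
    rw [h1, h2, homOp_map, theta_tateMap H]
  | add v w hv hw => rw [map_add, map_add, map_add, map_add, hv, hw]

variable [IsDomain R] (hinj : Function.Injective (algebraMap ℤ_[p] R))
include hinj

theorem thetaRLin_injective : Function.Injective (thetaRLin K N p R) := by
  rw [injective_iff_map_eq_zero]
  intro v hv
  obtain ⟨s, e, x, he, rfl⟩ := exists_split hinj v
  have hx : ∀ k, x k = 0 := by
    have h1 : ∀ γ k, (Theta K N p (x k)).1 γ = 0 := by
      intro γ
      refine Fintype.linearIndependent_iff.mp he (fun k => (Theta K N p (x k)).1 γ) ?_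
      have h2 := DFunLike.congr_fun hv γ
      rw [map_sum, AddMonoidHom.finsetSum_apply] at h2
      rw [AddMonoidHom.zero_apply] at h2
      rw [← h2]
      refine Finset.sum_congr rfl fun k _ => ?_
      rw [thetaRLin_tmul, Algebra.smul_def, mul_comm]
    intro k
    rw [← (Theta K N p).map_eq_zero_iff]
    exact Subtype.ext (AddMonoidHom.ext fun γ => h1 γ k)
  exact Finset.sum_eq_zero fun k _ => by rw [hx, TensorProduct.tmul_zero]

theorem exists_thetaRLin_eq {φ : Additive (Gamma0 N) →+ R} (hφ : IsPE φ) :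
    ∃ v, thetaRLin K N p R v = φ := by
  classical
  haveI : FaithfulSMul ℤ_[p] R := (faithfulSMul_iff_algebraMap_injective ℤ_[p] R).mpr hinj
  haveI : Module.IsTorsionFree ℤ_[p] R := inferInstance
  have h0 : AddGroup.FG (Additive (Gamma0 N)) := GroupFG.iff_add_fg.1 inferInstance
  obtain ⟨S, hS⟩ := (AddGroup.fg_iff_addSubgroup_fg _).mp (AddGroup.fg_range φ)
  let W : Submodule ℤ_[p] R := Submodule.span ℤ_[p] (S : Set R)
  haveI : Module.Finite ℤ_[p] W := Module.Finite.span_of_finite ℤ_[p] (Finset.finite_toSet _)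
  haveI : Module.Free ℤ_[p] W := inferInstance
  let b := Module.finBasis ℤ_[p] W
  have hmem : ∀ γ, φ γ ∈ W := by
    intro γ
    have h1 : AddSubgroup.closure (S : Set R) ≤ W.toAddSubgroup := by
      rw [AddSubgroup.closure_le]
      exact Submodule.subset_span
    rw [hS] at h1
    exact h1 ⟨γ, rfl⟩
  let ψ : Fin (Module.finrank ℤ_[p] W) → (Additive (Gamma0 N) →+ ℤ_[p]) := fun k =>
    AddMonoidHom.mk' (fun γ => b.repr ⟨φ γ, hmem γ⟩ k) (fun γ δ => by
      have h1 : (⟨φ (γ + δ), hmem (γ + δ)⟩ : W) = ⟨φ γ, hmem γ⟩ + ⟨φ δ, hmem δ⟩ :=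
        Subtype.ext (map_add φ γ δ)
      rw [h1, map_add, Finsupp.add_apply])
  have hψ : ∀ k, ψ k ∈ PES N ℤ_[p] ℤ_[p] := by
    intro k γ hγ
    show b.repr ⟨φ γ, hmem γ⟩ k = 0
    have h1 : (⟨φ γ, hmem γ⟩ : W) = 0 := Subtype.ext (hφ γ hγ)
    rw [h1, map_zero, Finsupp.zero_apply]
  refine ⟨∑ k, (b k : R) ⊗ₜ ((Theta K N p).symm ⟨ψ k, hψ k⟩), AddMonoidHom.ext fun γ => ?_⟩
  rw [map_sum, AddMonoidHom.finsetSum_apply]
  have h2 : φ γ = ∑ k, b.repr ⟨φ γ, hmem γ⟩ k • (b k : R) := by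
    have h3 := congrArg (Subtype.val) (b.sum_repr ⟨φ γ, hmem γ⟩)
    rw [Submodule.coe_sum] at h3
    exact h3.symm
  rw [h2]
  refine Finset.sum_congr rfl fun k _ => ?_
  rw [thetaRLin_tmul, LinearEquiv.apply_symm_apply, Algebra.smul_def, mul_comm]
  rfl

variable (K N p R) in
/-- **`R ⊗ T_p J₀(N) ≃ Hom_PE(Γ₀(N), R)`** for every domain `R ⊇ ℤ_p`. -/
def ThetaR : R ⊗[ℤ_[p]] TateMod p (Pic0 K (FX K N)) ≃ₗ[R] ↥(PES N R R) :=
  LinearEquiv.ofBijective ((thetaRLin K N p R).codRestrict (PES N R R) (isPE_thetaRLin R))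
    ⟨fun v w h => thetaRLin_injective hinj (congrArg Subtype.val h), fun φ => by
      obtain ⟨v, hv⟩ := exists_thetaRLin_eq (K := K) hinj φ.2
      exact ⟨v, Subtype.ext hv⟩⟩

theorem thetaR_apply (v : R ⊗[ℤ_[p]] TateMod p (Pic0 K (FX K N))) :
    (ThetaR K N p R hinj v).1 = thetaRLin K N p R v := rfl

/-- **Compatibility with realised correspondences.** -/
theorem thetaR_baseChange {M : ℕ} [NeZero M] {T : Pic0 K (FX K N) →+ Pic0 K (FX K M)}
    {h : HFam (gm N) (gm M)} (H : Realizes K T h)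
    (v : R ⊗[ℤ_[p]] TateMod p (Pic0 K (FX K N))) :
    (ThetaR K M p R hinj ((tateMap T).baseChange R v)).1 =
      homOp R h (ThetaR K N p R hinj v).1 := thetaRLin_baseChange H v

end Coeff

end Fermat.Agent.H94.BR
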