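import Fermat.Agent.H94Embed
set_option autoImplicit false

noncomputable section

open AlgebraicCurve IsDedekindDomain WithZero IntermediateField
open scoped IntermediateField.algebraAdjoinAdjoin

namespace Fermat.Agent.H94
variable {K F : Type*} [Field K] [Field F] [Algebra K F]

section Orbits

variable {C : Type*} [Field C] [Algebra K C] {ι : Type*} [Fintype ι]

theorem algHom_eq_on_adjoin {L : Type*} [Field L] [Algebra K L] {s t : F →ₐ[K] L} {x : F}
    (h : s x = t x) (z : K⟮x⟯) : s z = t z := by
  obtain ⟨z, hz⟩ := z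
  show s z = t z
  induction hz using IntermediateField.adjoin_induction with
  | mem y hy =>
    rw [Set.mem_singleton_iff] at hy
    rw [hy, h]
  | algebraMap a => rw [s.commutes, t.commutes]
  | add a b _ _ ha hb => rw [map_add, map_add, ha, hb]
  | inv a _ ha => rw [map_inv₀, map_inv₀, ha]
  | mul a b _ _ ha hb => rw [map_mul, map_mul, ha, hb]

/-- If `s i` are `n = [F : K(x)]` distinct embeddings of `F` in `C((t))` with the same value at
`x`, of positive order, then every place `v` with `ord_v x > 0` comes from some `s i`. -/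
theorem exists_embedding_of_place [CharZero K] [IsAlgClosed K] [FunField K F] {x : F}
    (hx : Transcendental K x) (s : ι → (F →ₐ[K] LaurentSeries C)) (hs : Function.Injective s)
    (hcard : Fintype.card ι = Module.finrank K⟮x⟯ F) {y : LaurentSeries C}
    (hy : ∀ i, s i x = y) (hypos : 0 < y.order) (v : Place K F) (hv : 0 < v.ord x) :
    ∃ i, v.toValuationSubring = pullbackRing (s i) := by
  classical
  have hfd := FunField.finiteDimensional (F := F) hx
  have hsep : Algebra.IsSeparable K⟮x⟯ F := isSeparable_adjoin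
  have hded := isDedekindDomain_intRing (F := F) hx
  have hfrac := isFractionRing_intRing (K := K) (x := x)
  have hpid := isPrincipalIdealRing_adjoin (F := F) hx
  by_contra hne
  push Not at hne
  have hcardpos : 0 < Fintype.card ι := by
    rw [hcard]; exact Module.finrank_pos
  obtain ⟨i₀⟩ : Nonempty ι := Fintype.card_pos_iff.mp hcardpos
  -- the places attached to `s i`
  have hpl : ∀ i, ∃ w : Place K F, w.toValuationSubring = pullbackRing (s i) := fun i =>
    exists_place_of_embedding (s i) (x := x) (by rw [hy]; exact hypos)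
  choose w hw using hpl
  have hwx : ∀ i, 0 < (w i).ord x := by
    intro i
    obtain ⟨m, hm, hmo⟩ := exists_order_eq_mul (w i) (s i) (hw i)
    have := hmo x
    rw [hy] at this
    rw [this] at hypos
    exact pos_of_mul_pos_right (by linarith) hm.le
  have hB : ∀ (u : Place K F), 0 < u.ord x → ∀ b : IntRing K x,
      algebraMap (IntRing K x) F b ∈ u.toValuationSubring := fun u hu b =>
    mem_of_intRing (mem_of_ord_nonneg u hu.le) b
  let q := primeBelow v (hB v hv)
  let qi : ι → HeightOneSpectrum (IntRing K x) := fun i => primeBelow (w i) (hB _ (hwx i))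
  have hqne : ∀ i, q ≠ qi i := by
    intro i h
    apply hne i
    rw [← hw i]
    have h1 := ofHeightOneSpectrum_primeBelow v (hB v hv)
    have h2 := ofHeightOneSpectrum_primeBelow (w i) (hB _ (hwx i))
    rw [← h1, ← h2]
    show (Place.ofHeightOneSpectrum q).toValuationSubring =
      (Place.ofHeightOneSpectrum (qi i)).toValuationSubring
    rw [h]
  -- prime avoidance
  obtain ⟨b, hbq, hbi⟩ : ∃ b ∈ q.asIdeal, ∀ i, b ∉ (qi i).asIdeal := by
    by_contra hcon
    push Not at hcon
    have hsub : (q.asIdeal : Set (IntRing K x)) ⊆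
        ⋃ i ∈ ((Finset.univ : Finset ι) : Set ι), ((qi i).asIdeal : Set (IntRing K x)) := by
      intro b hb
      obtain ⟨i, hi⟩ := hcon b hb
      simp only [Set.mem_iUnion]
      exact ⟨i, by simp, hi⟩
    rw [Ideal.subset_union_prime i₀ i₀ (fun i _ _ _ => (qi i).isPrime)] at hsub
    obtain ⟨i, -, hi⟩ := hsub
    have hqmax := q.isMaximal
    exact hqne i (HeightOneSpectrum.ext (hqmax.eq_of_le (qi i).isPrime.ne_top hi))
  have hbF0 : (b : F) ≠ 0 := by
    intro h
    have : b = 0 := Subtype.ext h
    exact hbi i₀ (this ▸ Ideal.zero_mem _)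
  -- all `s i b` have order zero
  have hord0 : ∀ i, (s i (b : F)).order = 0 := by
    intro i
    obtain ⟨m, hm, hmo⟩ := exists_order_eq_mul (w i) (s i) (hw i)
    have h1 := hbi i
    rw [mem_primeBelow_iff, not_or] at h1
    have h2 := ord_nonneg_of_mem (w i) (hB _ (hwx i) b)
    have h3 : (w i).ord (b : F) = 0 := le_antisymm (not_lt.mp h1.2) h2
    rw [hmo, h3, mul_zero]
  -- the algebraically closed field
  let L := LaurentSeries C
  let E := AlgebraicClosure L
  let φ : K⟮x⟯ →+* E := (algebraMap L E).comp ((s i₀ : F →+* L).comp (algebraMap K⟮x⟯ F))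
  let _ : Algebra K⟮x⟯ E := φ.toAlgebra
  have hagree : ∀ i (z : K⟮x⟯), s i z = s i₀ z := fun i z =>
    algHom_eq_on_adjoin (by rw [hy, hy]) z
  let s' : ι → (F →ₐ[K⟮x⟯] E) := fun i =>
    { toRingHom := (algebraMap L E).comp (s i : F →+* L)
      commutes' := fun z => by
        show algebraMap L E (s i z) = algebraMap L E (s i₀ z)
        rw [hagree] }
  have hs'inj : Function.Injective s' := by
    intro i j hij
    apply hs
    ext f : 1
    have : algebraMap L E (s i f) = algebraMap L E (s j f) := DFunLike.congr_fun hij f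
    exact (algebraMap L E).injective this
  have hs'bij : Function.Bijective s' := by
    rw [Fintype.bijective_iff_injective_and_card]
    exact ⟨hs'inj, by rw [hcard, AlgHom.card]⟩
  -- the minimal polynomial of `b`
  have hbint : IsIntegral (Algebra.adjoin K {x}) (b : F) := b.2
  let P := minpoly (Algebra.adjoin K {x}) (b : F)
  have hPmonic : P.Monic := minpoly.monic hbint
  have hPmap : minpoly K⟮x⟯ (b : F) = P.map (algebraMap (Algebra.adjoin K {x}) K⟮x⟯) :=
    minpoly.isIntegrallyClosed_eq_field_fractions' K⟮x⟯ hbint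
  let c := P.coeff 0
  have hcq : algebraMap (Algebra.adjoin K {x}) (IntRing K x) c ∈ q.asIdeal := by
    have h1 : Polynomial.aeval b P = 0 := by
      apply Subtype.ext
      have h2 := minpoly.aeval (Algebra.adjoin K {x}) (b : F)
      have h3 := Polynomial.aeval_algebraMap_apply F b P
      exact h3.symm.trans h2
    have h4 : P = Polynomial.X * P.divX + Polynomial.C c := by
      rw [mul_comm]; exact (Polynomial.divX_mul_X_add P).symm
    rw [h4, map_add, map_mul, Polynomial.aeval_X, Polynomial.aeval_C] at h1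
    have h5 : algebraMap (Algebra.adjoin K {x}) (IntRing K x) c =
        -(b * Polynomial.aeval b P.divX) := by
      rw [eq_neg_iff_add_eq_zero, add_comm]; exact h1
    rw [h5]
    exact neg_mem (Ideal.mul_mem_right _ _ hbq)
  have hcx : c ∈ xIdeal K x := by
    have hlies : q.asIdeal.LiesOver (xIdeal K x) := by
      have := q.isPrime
      refine liesOver_of_mem hx ?_
      refine (mem_primeBelow_iff v (hB v hv) _).mpr (Or.inr ?_)
      exact hv
    rw [hlies.over]
    exact hcq
  obtain ⟨c', hc'⟩ := Ideal.mem_span_singleton'.mp hcx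
  have hordc : s i₀ (c : F) = 0 ∨ 0 < (s i₀ (c : F)).order := by
    have h1 : (c : F) = (c' : F) * x := by
      rw [← hc']; rfl
    rw [h1, map_mul, hy]
    rcases eq_or_ne (s i₀ (c' : F)) 0 with h0 | h0
    · left; rw [h0, zero_mul]
    right
    have hy0 : y ≠ 0 := by
      rintro rfl; simp at hypos
    rw [HahnSeries.order_mul h0 hy0]
    have h2 : (0 : ℤ) ≤ (s i₀ (c' : F)).order := by
      have h3 := mem_valuationSubring_of_intRing (pullbackRing (s i₀))
        (algebraMap_mem_pullbackRing (s i₀)) (x := x)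
        (by rw [mem_pullbackRing, hy]; exact hypos.le)
        (algebraMap (Algebra.adjoin K {x}) (IntRing K x) c')
      exact h3
    omega
  -- product of the roots
  have hsplit : (P.map ((algebraMap K⟮x⟯ E).comp
      (algebraMap (Algebra.adjoin K {x}) K⟮x⟯))).Splits := IsAlgClosed.splits _
  have hcoeff := hsplit.coeff_zero_eq_prod_roots_of_monic (hPmonic.map _)
  have hroots : ∀ r ∈ (P.map ((algebraMap K⟮x⟯ E).comp
      (algebraMap (Algebra.adjoin K {x}) K⟮x⟯))).roots,
      ∃ z : L, z ≠ 0 ∧ z.order = 0 ∧ algebraMap L E z = r := by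
    intro r hr
    have h1 : r ∈ (minpoly K⟮x⟯ (b : F)).rootSet E := by
      rw [hPmap, Polynomial.rootSet, Polynomial.aroots, Polynomial.map_map]
      simpa using hr
    rw [← Algebra.IsAlgebraic.range_eval_eq_rootSet_minpoly] at h1
    obtain ⟨ψ, rfl⟩ := h1
    obtain ⟨i, rfl⟩ := hs'bij.2 ψ
    exact ⟨s i b, (map_ne_zero _).mpr hbF0, hord0 i, rfl⟩
  have hprod : ∃ z : L, z ≠ 0 ∧ z.order = 0 ∧ algebraMap L E z =
      (P.map ((algebraMap K⟮x⟯ E).comp
      (algebraMap (Algebra.adjoin K {x}) K⟮x⟯))).roots.prod := by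
    refine Multiset.prod_induction (fun r => ∃ z : L, z ≠ 0 ∧ z.order = 0 ∧ algebraMap L E z = r)
      _ ?_ ?_ hroots
    · rintro _ _ ⟨z, hz0, hz1, rfl⟩ ⟨z', hz0', hz1', rfl⟩
      exact ⟨z * z', mul_ne_zero hz0 hz0', by rw [HahnSeries.order_mul hz0 hz0', hz1, hz1']; rfl,
        map_mul _ _ _⟩
    · exact ⟨1, one_ne_zero, by simp, map_one _⟩
  obtain ⟨z, hz0, hz1, hz2⟩ := hprod
  rw [← hz2, Polynomial.coeff_map] at hcoeff
  have hcE : ((algebraMap K⟮x⟯ E).comp (algebraMap (Algebra.adjoin K {x}) K⟮x⟯)) (P.coeff 0) =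
      algebraMap L E (s i₀ (c : F)) := rfl
  rw [hcE] at hcoeff
  have hfin : s i₀ (c : F) = z ∨ s i₀ (c : F) = -z := by
    rcases neg_one_pow_eq_or E (P.map ((algebraMap K⟮x⟯ E).comp
      (algebraMap (Algebra.adjoin K {x}) K⟮x⟯))).natDegree with h | h
    · left
      rw [h, one_mul] at hcoeff
      exact (algebraMap L E).injective hcoeff
    · right
      rw [h, neg_one_mul, ← map_neg] at hcoeff
      exact (algebraMap L E).injective hcoeff
  rcases hfin with h | h
  · rcases hordc with h0 | h0
    · exact hz0 (h ▸ h0)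
    · rw [h, hz1] at h0; exact lt_irrefl _ h0
  · rcases hordc with h0 | h0
    · rw [h0] at h; exact hz0 (neg_eq_zero.mp h.symm)
    · rw [h, HahnSeries.order_neg, hz1] at h0; exact lt_irrefl _ h0

end Orbits
end Fermat.Agent.H94
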