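import Fermat.Agent.H94VConv
import Fermat.Agent.H94WNorm
import Fermat.Agent.H56ZReg2
import Fermat.Agent.H6ZExcl3

/-!
# C17, final form: the hypotheses `hE1 hE2 hF1 hF2` of `H57C.geom`

The component at `w₀` of the kernel is supported in the cell of `U^n`, the other components are
fixed (or have support in a fixed kernel `A`), `n` is large.
-/

set_option autoImplicit false
set_option linter.unusedSectionVars false

noncomputable section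

open MeasureTheory ENNReal IsDedekindDomain NumberField WithZero Matrix
open scoped MatrixGroups
open Matrix.ProjGenLinGroup (mk mk_surjective)

namespace Fermat.Agent.H94X

open Fermat.Agent.H59D Fermat.Agent.H59XF Fermat.Agent.H82 Fermat.Agent.H20.S47
open Fermat.Agent.H94U (IsCutoff)

variable {K : Type*} [Field K] [NumberField K] {J : Type*} [Fintype J] {m : Model K J}

theorem supp_le {κ : (J → ℝ) → ℂ} (hκ : H56Z.IsRC κ) :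
    ∃ R : ℝ, ∀ t, κ t ≠ 0 → ∀ j, t j ≤ R := by
  obtain ⟨R, hR⟩ := hκ.supp
  exact ⟨R, fun t ht j => by
    by_contra h
    exact ht (hR t ⟨j, not_le.mp h⟩)⟩

/-- no contributing element is upper triangular, for `n` large -/
theorem exists_excl (a : AutData m) {w₀ : HeightOneSpectrum (𝓞 K)} (h₀ : a.σ w₀ = w₀)
    (hI : ∀ g ∈ m.L.U w₀, g ∈ H51Z.Iw (w₀.valuation K)) (A : GlobKer m.L.fam)
    {κ : (J → ℝ) → ℂ} (hκ : H56Z.IsRC κ) :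
    ∃ M₀ : ℕ, ∀ n : ℕ, M₀ ≤ n → ∀ B : GlobKer m.L.fam,
      (∀ w ≠ w₀, ∀ y y', (B.loc w).k y y' ≠ 0 → (A.loc w).k y y' ≠ 0) →
      H56Z.CellAt m B w₀ n →
      ∀ (g : GL (Fin 2) K) (x : m.X), m.ker κ B.k x ((mk g : PGL(2, K)) • a.act x) ≠ 0 →
        g 1 0 ≠ 0 := by
  obtain ⟨R, hR⟩ := supp_le hκ
  obtain ⟨M₀, hM⟩ := H6.Z.excl_upper a h₀ hI A R
  exact ⟨M₀, fun n hn B hB hc g x hx => hM n hn B hB hc κ hR x g hx⟩

/-- **C17 over `E`**: `hE1` and `hE2`. -/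
theorem c17_E {F E : Type*} [Field F] [Field E] [NumberField E] [Algebra F E]
    {s : E ≃ₐ[F] E} (h3 : ∀ x, s (s (s x)) = x) {J : Type*} [Fintype J] {m : Model E J}
    (a : AutData m) (hs : ∀ x, a.s x = s x) {w₀ : HeightOneSpectrum (𝓞 E)} (h₀ : a.σ w₀ = w₀)
    (hI : ∀ g ∈ m.L.U w₀, g ∈ H51Z.Iw (w₀.valuation E)) (A : GlobKer m.L.fam)
    {κ : (J → ℝ) → ℂ} (hκ : H56Z.IsRC κ) :
    ∃ M₀ : ℕ, ∀ n : ℕ, M₀ ≤ n → ∀ B : GlobKer m.L.fam,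
      (∀ w ≠ w₀, ∀ y y', (B.loc w).k y y' ≠ 0 → (A.loc w).k y y' ≠ 0) →
      H56Z.CellAt m B w₀ n →
      (∀ (d : PGL(2, E)) (x : m.X), m.ker κ B.k x (d • a.act x) ≠ 0 → EllReg (nP s d)) ∧
      ∀ χ : m.X → ℝ≥0∞, IsCutoff PGL(2, E) χ →
        ∑' d : PGL(2, E), ∫⁻ x, ‖m.ker κ B.k x (d • a.act x)‖ₑ ∂(m.μ.withDensity χ) ≠ ⊤ := by
  obtain ⟨M₀, hM⟩ := exists_excl a h₀ hI A hκ
  refine ⟨max M₀ 1, fun n hn B hB hc => ?_⟩
  have hex := hM n ((le_max_left _ _).trans hn) B hB hc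
  exact ⟨H56Z.ellReg_E h3 a hs h₀ ((le_max_right _ _).trans hn) hc hex,
    fun χ hχ => H94V.conv_ker a hκ B hex hχ⟩

/-- **C17 over `F`**: `hF1` and `hF2`. -/
theorem c17_F {F E : Type} [Field F] [NumberField F] [IsTotallyComplex F] [Field E] [NumberField E]
    [Algebra F E] {s : E ≃ₐ[F] E} {ζ : F} (hζ : IsPrimitiveRoot ζ 3)
    (h3 : ∀ x, s (s (s x)) = x) (hs : s ≠ AlgEquiv.refl)
    (hfix : ∀ x, s x = x → x ∈ Set.range (algebraMap F E))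
    {J : Type*} [Fintype J] {m : Model F J} {v₀ : HeightOneSpectrum (𝓞 F)}
    (hI : ∀ g ∈ m.L.U v₀, g ∈ H51Z.Iw (v₀.valuation F)) (A : GlobKer m.L.fam)
    {κ : (J → ℝ) → ℂ} (hκ : H56Z.IsRC κ) :
    ∃ M₀ : ℕ, ∀ n : ℕ, M₀ ≤ n → ∀ B : GlobKer m.L.fam,
      (∀ v ≠ v₀, ∀ y y', (B.loc v).k y y' ≠ 0 → (A.loc v).k y y' ≠ 0) →
      H56Z.CellAt m B v₀ n →
      (∀ v, NonSplit E v → H94W.SuppOK E ζ v (B.loc v)) →
      (∀ (γ : PGL(2, F)) (y : m.X), m.ker κ B.k y (γ • y) ≠ 0 →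
        EllReg γ ∧ ∃ d : PGL(2, E), nP s d = incP E γ) ∧
      ∀ χ : m.X → ℝ≥0∞, IsCutoff PGL(2, F) χ →
        ∑' γ : PGL(2, F), ∫⁻ y, ‖m.ker κ B.k y (γ • y)‖ₑ ∂(m.μ.withDensity χ) ≠ ⊤ := by
  obtain ⟨M₀, hM⟩ := exists_excl (H56Z.idAut m) (w₀ := v₀) rfl hI A hκ
  refine ⟨max M₀ 1, fun n hn B hB hc hn' => ?_⟩
  have hex : ∀ (g : GL (Fin 2) F) (x : m.X), m.ker κ B.k x ((mk g : PGL(2, F)) • x) ≠ 0 →
      g 1 0 ≠ 0 := fun g x hx => hM n ((le_max_left _ _).trans hn) B hB hc g x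
    (by rwa [H56Z.idAut_act])
  refine ⟨fun γ y hy => ?_, fun χ hχ => H94V.conv_ker_one hκ B hex hχ⟩
  have h1 := H56Z.ellReg_F (w := v₀) ((le_max_right _ _).trans hn) hc hex γ y hy
  exact ⟨h1, H94W.exists_norm_of_ker hζ h3 hs hfix hn' hy h1⟩

end Fermat.Agent.H94X

end
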