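import Fermat.Agent.H31Hyp1

/-!
# Bounded kernel, part 1 (helper95): the first order mean value step on `(H3)^J`

* `H95S.tr u w`: horospherical translation of `w : J → H3` by `u : J → ℂ`;
* `H95S.volT T`: volume of the ball `{v | ch w v ≤ T}` (independent of `w`);
* `H95S.norm_RK_sub_le`: Lipschitz estimate of `w ↦ ∫ κ (ch (w j) (v j)) g v dv` under `tr u`.
-/

set_option autoImplicit false
set_option linter.unusedSectionVars false

noncomputable section

open MeasureTheory
open scoped ComplexConjugate Real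

namespace Fermat.Agent.H95S

open Fermat.Agent.H3

/-! ### One variable -/

/-- The affine map `v ↦ w ∗ v` (`w = (z, y)`, `v = (z', y')`, result `(z + y z', y y')`). -/
def aff (w v : H3) : H3 := ⟨w.z + w.y * v.z, w.y * v.y, mul_pos w.pos v.pos⟩

/-- The base point. -/
def o : H3 := ⟨0, 1, one_pos⟩

theorem ch_aff (w v : H3) : ch w (aff w v) = ch o v := by
  have h1 := w.pos
  have h2 := v.pos
  simp only [ch, aff, o]
  have e : w.z - (w.z + (w.y : ℂ) * v.z) = -((w.y : ℂ) * v.z) := by ring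
  rw [e, Complex.normSq_neg, Complex.normSq_mul, Complex.normSq_ofReal, zero_sub,
    Complex.normSq_neg]
  field_simp

theorem continuous_aff (w : H3) : Continuous (aff w) := by
  refine continuous_mk ?_ ?_
  · exact continuous_const.add (continuous_const.mul continuous_z)
  · exact continuous_const.mul continuous_y

theorem measurePreserving_aff (w : H3) : MeasurePreserving (aff w) volume volume := by
  -- in the coordinates: `(ζ, τ) ↦ (ζ + (z/y) e^{-τ}, τ + log y)`
  have h1 : MeasurePreserving (fun p : ℝ × ℂ => (p.1 + Real.log w.y,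
      p.2 + (w.z / w.y) * Real.exp (-p.1))) (volume.prod volume) (volume.prod volume) := by
    refine MeasurePreserving.skew_product (f := fun t : ℝ => t + Real.log w.y)
      (g := fun (t : ℝ) (x : ℂ) => x + (w.z / w.y) * Real.exp (-t))
      (measurePreserving_add_right volume (Real.log w.y)) ?_ ?_
    · exact (Continuous.measurable (by fun_prop))
    · exact Filter.Eventually.of_forall fun t => (measurePreserving_add_right volume _).map_eq
  have h2 : MeasurePreserving (Prod.swap : ℂ × ℝ → ℝ × ℂ) (volume.prod volume)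
      (volume.prod volume) := Measure.measurePreserving_swap
  have h3 : MeasurePreserving (Prod.swap : ℝ × ℂ → ℂ × ℝ) (volume.prod volume)
      (volume.prod volume) := Measure.measurePreserving_swap
  have h4 := (h3.comp (h1.comp h2))
  have h5 := measurePreserving_coord_symm.comp (h4.comp measurePreserving_coord)
  have e : (coord.symm : ℂ × ℝ → H3) ∘ ((Prod.swap ∘ ((fun p : ℝ × ℂ => (p.1 + Real.log w.y,
      p.2 + (w.z / w.y) * Real.exp (-p.1))) ∘ Prod.swap)) ∘ (coord : H3 → ℂ × ℝ)) = aff w := by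
    funext v
    have hv : (v.y : ℂ) ≠ 0 := v.y_ne
    have hw : (w.y : ℂ) ≠ 0 := w.y_ne
    ext
    · simp only [Function.comp, coord_apply, Prod.swap, coord_symm_z, aff]
      rw [Real.exp_add, Real.exp_neg, Real.exp_log v.pos, Real.exp_log w.pos]
      push_cast
      field_simp
      ring
    · simp only [Function.comp, coord_apply, Prod.swap, coord_symm_y, aff]
      rw [Real.exp_add, Real.exp_log v.pos, Real.exp_log w.pos, mul_comm]
  rw [e] at h5
  exact h5

theorem y_le_of_ch_le {T : ℝ} {w v : H3} (h : ch w v ≤ T) : v.y ≤ 2 * T * w.y := by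
  have h1 := w.pos
  have h2 := v.pos
  rw [ch, div_le_iff₀ (by positivity)] at h
  have h3 := Complex.normSq_nonneg (w.z - v.z)
  have h4 : v.y * v.y ≤ (2 * T * w.y) * v.y := by nlinarith [sq_nonneg w.y]
  exact le_of_mul_le_mul_right h4 h2

theorem norm_z_sub_le {T : ℝ} {w v : H3} (hT : 0 ≤ T) (h : ch w v ≤ T) :
    ‖w.z - v.z‖ ≤ 2 * T * w.y := by
  have h1 := w.pos
  have h2 := v.pos
  have h0 := y_le_of_ch_le h
  rw [ch, div_le_iff₀ (by positivity)] at h
  rw [Complex.normSq_eq_norm_sq] at h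
  refine abs_le_of_sq_le_sq' ?_ (by positivity) |>.2
  nlinarith [sq_nonneg w.y, sq_nonneg v.y, mul_le_mul_of_nonneg_left h0
    (by positivity : (0 : ℝ) ≤ 2 * T * w.y)]

theorem measurableSet_ball (w : H3) (T : ℝ) : MeasurableSet {v : H3 | ch w v ≤ T} := by
  have : Continuous fun v : H3 => ch w v :=
    continuous_ch.comp (continuous_const.prodMk continuous_id)
  exact measurableSet_le this.measurable measurable_const

/-- The volume of a ball. -/
def volT (T : ℝ) : ENNReal := volume {v : H3 | ch o v ≤ T}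

theorem volume_ball (w : H3) (T : ℝ) : volume {v : H3 | ch w v ≤ T} = volT T := by
  rw [volT, ← (measurePreserving_aff w).measure_preimage (measurableSet_ball w T).nullMeasurableSet]
  congr 1
  ext v
  simp only [Set.mem_preimage, Set.mem_ofPred_eq, ch_aff]

theorem volT_lt_top (T : ℝ) : volT T < ⊤ := by
  by_cases hT : 1 ≤ T
  swap
  · have : {v : H3 | ch o v ≤ T} = ∅ := by
      ext v
      simp only [Set.mem_ofPred_eq, Set.mem_empty_iff_false, iff_false, not_le]
      exact lt_of_lt_of_le (not_le.mp hT) (one_le_ch o v)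
    rw [volT, this, measure_empty]
    exact ENNReal.zero_lt_top
  rw [volT, ← measurePreserving_coord_symm.measure_preimage
    (measurableSet_ball o T).nullMeasurableSet]
  refine Bornology.IsBounded.measure_lt_top ?_
  refine (Metric.isBounded_closedBall (x := (0 : ℂ × ℝ)) (r := 4 * T ^ 2)).subset ?_
  intro p hp
  simp only [Set.mem_preimage, Set.mem_ofPred_eq] at hp
  rw [mem_closedBall_zero_iff, Prod.norm_def, max_le_iff]
  have h1 := y_le_of_ch_le hp
  have h2 : (o : H3).y ≤ 2 * T * (coord.symm p).y := y_le_of_ch_le (by rwa [ch_comm])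
  have h3 := norm_z_sub_le (by linarith) hp
  simp only [o, coord_symm_y, coord_symm_z, zero_sub, norm_neg, mul_one] at h1 h2 h3
  have hpos := Real.exp_pos p.2
  constructor
  · rw [norm_mul, Complex.norm_real, Real.norm_of_nonneg hpos.le] at h3
    have h4 : Real.exp p.2 * ‖p.1‖ ≤ Real.exp p.2 * (4 * T ^ 2) := by nlinarith
    exact le_of_mul_le_mul_left h4 hpos
  · rw [Real.norm_eq_abs, abs_le]
    constructor
    · have h5 : -p.2 + 1 ≤ Real.exp (-p.2) := Real.add_one_le_exp (-p.2)
      have h6 : Real.exp (-p.2) ≤ 2 * T := by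
        rw [Real.exp_neg, inv_le_comm₀ hpos (by linarith)]
        rw [inv_le_iff_one_le_mul₀ (by linarith)]
        linarith
      nlinarith
    · have h5 : p.2 + 1 ≤ Real.exp p.2 := Real.add_one_le_exp p.2
      nlinarith

/-- Variation of `ch` under a horospherical translation. -/
theorem abs_ch_sub_le {T : ℝ} (hT : 1 ≤ T) {w v : H3} {u : ℂ} {q : ℝ} (hq : 0 ≤ q)
    (hu : ‖u‖ ≤ q * w.y)
    (h : ch w v ≤ T ∨ ch ⟨w.z + u, w.y, w.pos⟩ v ≤ T) :
    |ch ⟨w.z + u, w.y, w.pos⟩ v - ch w v| ≤ 4 * T ^ 2 * (q + q ^ 2) := by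
  have h1 := w.pos
  have h2 := v.pos
  have hT0 : (0 : ℝ) ≤ T := by linarith
  have hvy : w.y ≤ 2 * T * v.y := by
    rcases h with h | h
    · exact y_le_of_ch_le (by rwa [ch_comm])
    · exact y_le_of_ch_le (T := T) (w := v) (v := ⟨w.z + u, w.y, w.pos⟩)
        ((ch_comm _ _).trans_le h)
  have hz : ‖w.z - v.z‖ ≤ 2 * T * w.y + ‖u‖ := by
    rcases h with h | h
    · have := norm_z_sub_le hT0 h
      have h3 := norm_nonneg u
      linarith
    · have h3 := norm_z_sub_le hT0 h
      simp only at h3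
      calc ‖w.z - v.z‖ = ‖(w.z + u - v.z) - u‖ := by congr 1; ring
        _ ≤ ‖w.z + u - v.z‖ + ‖u‖ := norm_sub_le _ _
        _ ≤ _ := by linarith
  have e : ch ⟨w.z + u, w.y, w.pos⟩ v - ch w v =
      (Complex.normSq (w.z + u - v.z) - Complex.normSq (w.z - v.z)) / (2 * w.y * v.y) := by
    simp only [ch]
    rw [← sub_div]
    congr 1
    ring
  rw [e, abs_div, abs_of_pos (by positivity : 0 < 2 * w.y * v.y), div_le_iff₀ (by positivity)]
  rw [Complex.normSq_eq_norm_sq, Complex.normSq_eq_norm_sq]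
  have h4 : |‖w.z + u - v.z‖ - ‖w.z - v.z‖| ≤ ‖u‖ := by
    have := abs_norm_sub_norm_le (w.z + u - v.z) (w.z - v.z)
    have e2 : w.z + u - v.z - (w.z - v.z) = u := by ring
    rwa [e2] at this
  have h5 : ‖w.z + u - v.z‖ + ‖w.z - v.z‖ ≤ 2 * (2 * T * w.y + ‖u‖) + ‖u‖ := by
    have h6 : ‖w.z + u - v.z‖ ≤ ‖w.z - v.z‖ + ‖u‖ := by
      calc ‖w.z + u - v.z‖ = ‖(w.z - v.z) + u‖ := by congr 1; ring
        _ ≤ _ := norm_add_le _ _
    linarith
  have e3 : ‖w.z + u - v.z‖ ^ 2 - ‖w.z - v.z‖ ^ 2 =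
      (‖w.z + u - v.z‖ - ‖w.z - v.z‖) * (‖w.z + u - v.z‖ + ‖w.z - v.z‖) := by ring
  rw [e3, abs_mul, abs_of_nonneg (by positivity : 0 ≤ ‖w.z + u - v.z‖ + ‖w.z - v.z‖)]
  have h7 : |‖w.z + u - v.z‖ - ‖w.z - v.z‖| * (‖w.z + u - v.z‖ + ‖w.z - v.z‖) ≤
      ‖u‖ * (4 * T * w.y + 3 * ‖u‖) := by
    refine mul_le_mul h4 (by linarith) (by positivity) (norm_nonneg _)
  refine h7.trans ?_
  have h8 : ‖u‖ * (4 * T * w.y + 3 * ‖u‖) ≤ (q * w.y) * (4 * T * w.y + 3 * (q * w.y)) := by
    refine mul_le_mul hu (by linarith) ?_ (by positivity)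
    positivity
  refine h8.trans ?_
  have h9 : (q * w.y) * (4 * T * w.y + 3 * (q * w.y)) = (4 * T * q + 3 * q ^ 2) * w.y * w.y := by
    ring
  rw [h9]
  have h10 : (4 * T * q + 3 * q ^ 2) * w.y * w.y ≤
      (4 * T * q + 3 * q ^ 2) * w.y * (2 * T * v.y) :=
    mul_le_mul_of_nonneg_left hvy (by positivity)
  refine h10.trans ?_
  have h11 : 4 * T * q + 3 * q ^ 2 ≤ 4 * T * (q + q ^ 2) := by nlinarith [sq_nonneg q]
  have h12 : (4 * T * q + 3 * q ^ 2) * (w.y * (2 * T * v.y)) ≤
      4 * T * (q + q ^ 2) * (w.y * (2 * T * v.y)) :=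
    mul_le_mul_of_nonneg_right h11 (by positivity)
  nlinarith [h12]

/-! ### Several variables -/

variable {J : Type*} [Fintype J]

/-- Horospherical translation. -/
def tr (u : J → ℂ) (w : J → H3) : J → H3 := fun j => ⟨(w j).z + u j, (w j).y, (w j).pos⟩

@[simp] theorem tr_y (u : J → ℂ) (w : J → H3) (j : J) : (tr u w j).y = (w j).y := rfl

@[simp] theorem tr_z (u : J → ℂ) (w : J → H3) (j : J) : (tr u w j).z = (w j).z + u j := rfl

/-- The product of balls. -/
def box (T : ℝ) (w : J → H3) : Set (J → H3) := {v | ∀ j, ch (w j) (v j) ≤ T}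

theorem box_eq (T : ℝ) (w : J → H3) :
    box T w = Set.pi Set.univ fun j => {v : H3 | ch (w j) v ≤ T} := by
  ext v
  simp [box]

theorem measurableSet_box (T : ℝ) (w : J → H3) : MeasurableSet (box T w) := by
  rw [box_eq]
  exact MeasurableSet.univ_pi fun j => measurableSet_ball (w j) T

theorem volume_box (T : ℝ) (w : J → H3) :
    volume (box T w) = volT T ^ Fintype.card J := by
  rw [box_eq, volume_pi_pi]
  simp [volume_ball]

theorem volume_box_lt_top (T : ℝ) (w : J → H3) : volume (box T w) < ⊤ := by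
  rw [volume_box]
  exact ENNReal.pow_lt_top (volT_lt_top T)

/-- The class of kernels that we use: `κ` Lipschitz, bounded, vanishing if some coordinate
is `> T`. -/
structure Ker (κ : (J → ℝ) → ℂ) (T L M : ℝ) : Prop where
  one_le : 1 ≤ T
  nonneg : 0 ≤ L
  zero : ∀ t, (∃ j, T < t j) → κ t = 0
  lip : ∀ t t', ‖κ t - κ t'‖ ≤ L * ∑ j, |t j - t' j|
  bdd : ∀ t, ‖κ t‖ ≤ M

theorem Ker.continuous {κ : (J → ℝ) → ℂ} {T L M : ℝ} (h : Ker κ T L M) : Continuous κ := by
  have hl : LipschitzWith (Real.toNNReal (L * Fintype.card J)) κ := by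
    refine LipschitzWith.of_dist_le_mul fun t t' => ?_
    rw [dist_eq_norm, Real.coe_toNNReal _ (mul_nonneg h.nonneg (Nat.cast_nonneg _))]
    refine (h.lip t t').trans ?_
    rw [mul_assoc]
    refine mul_le_mul_of_nonneg_left ?_ h.nonneg
    calc ∑ j, |t j - t' j| ≤ ∑ _j : J, dist t t' := by
          refine Finset.sum_le_sum fun j _ => ?_
          rw [← Real.dist_eq]
          exact dist_le_pi_dist t t' j
      _ = Fintype.card J * dist t t' := by simp
  exact hl.continuous

theorem continuous_chs (w : J → H3) : Continuous fun v : J → H3 => fun j => ch (w j) (v j) := by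
  refine continuous_pi fun j => ?_
  exact continuous_ch.comp (continuous_const.prodMk (continuous_apply j))

theorem Ker.measurable_comp {κ : (J → ℝ) → ℂ} {T L M : ℝ} (h : Ker κ T L M) (w : J → H3) :
    Measurable fun v : J → H3 => κ fun j => ch (w j) (v j) :=
  h.continuous.measurable.comp (measurable_pi_lambda _ fun j =>
    ((continuous_ch.comp (continuous_const.prodMk continuous_id)).measurable).comp
      (measurable_pi_apply j))

theorem Ker.eq_zero {κ : (J → ℝ) → ℂ} {T L M : ℝ} (h : Ker κ T L M) {w v : J → H3}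
    (hv : v ∉ box T w) : κ (fun j => ch (w j) (v j)) = 0 := by
  refine h.zero _ ?_
  simp only [box, Set.mem_ofPred_eq, not_forall, not_le] at hv
  exact hv

/-- The operator attached to a kernel. -/
def RK (κ : (J → ℝ) → ℂ) (g : (J → H3) → ℂ) (w : J → H3) : ℂ :=
  ∫ v, κ (fun j => ch (w j) (v j)) * g v

theorem Ker.integrable {κ : (J → ℝ) → ℂ} {T L M : ℝ} (h : Ker κ T L M) {w : J → H3}
    {g : (J → H3) → ℂ} (hg : Measurable g) {S : ℝ} (hS : ∀ v ∈ box T w, ‖g v‖ ≤ S) :
    Integrable fun v => κ (fun j => ch (w j) (v j)) * g v := by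
  have hM : 0 ≤ M := (norm_nonneg _).trans (h.bdd 0)
  have h1 : IntegrableOn (fun v => κ (fun j => ch (w j) (v j)) * g v) (box T w) := by
    refine Measure.integrableOn_of_bounded (M := M * S) (volume_box_lt_top T w).ne
      ((h.measurable_comp w).mul hg).aestronglyMeasurable ?_
    refine (ae_restrict_iff' (measurableSet_box T w)).mpr (Filter.Eventually.of_forall ?_)
    intro v hv
    rw [norm_mul]
    exact mul_le_mul (h.bdd _) (hS v hv) (norm_nonneg _) hM
  refine h1.integrable_of_forall_notMem_eq_zero ?_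
  intro v hv
  rw [h.eq_zero hv, zero_mul]

/-- The mean value inequality. -/
theorem norm_RK_sub_le {κ : (J → ℝ) → ℂ} {T L M : ℝ} (h : Ker κ T L M) {w : J → H3}
    {u : J → ℂ} {q Q : ℝ} (hq : 0 ≤ q) (hqQ : q ≤ Q) (hu : ∀ j, ‖u j‖ ≤ q * (w j).y)
    {g : (J → H3) → ℂ} (hg : Measurable g) {S : ℝ}
    (hS : ∀ v ∈ box T w ∪ box T (tr u w), ‖g v‖ ≤ S) :
    ‖RK κ g (tr u w) - RK κ g w‖ ≤
      L * (Fintype.card J * (4 * T ^ 2 * (1 + Q))) * (2 * (volT T).toReal ^ Fintype.card J) *
        q * S := by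
  have hT := h.one_le
  have hL := h.nonneg
  have hS1 : ∀ v ∈ box T w, ‖g v‖ ≤ S := fun v hv => hS v (Or.inl hv)
  have hS2 : ∀ v ∈ box T (tr u w), ‖g v‖ ≤ S := fun v hv => hS v (Or.inr hv)
  have hi1 := h.integrable hg hS1
  have hi2 := h.integrable hg hS2
  have hQ : (0 : ℝ) ≤ 1 + Q := by linarith
  have hS0 : 0 ≤ S := by
    refine (norm_nonneg (g w)).trans (hS1 w ?_)
    intro j
    rw [ch_self]
    exact hT
  rw [RK, RK, ← integral_sub hi2 hi1]
  set A := box T w ∪ box T (tr u w) with hA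
  have hAm : MeasurableSet A := (measurableSet_box T w).union (measurableSet_box T _)
  have hAv : volume A ≤ 2 * volT T ^ Fintype.card J := by
    refine (measure_union_le _ _).trans ?_
    rw [volume_box, volume_box, two_mul]
  have hAtop : volume A < ⊤ := lt_of_le_of_lt hAv
    (ENNReal.mul_lt_top (by simp) (ENNReal.pow_lt_top (volT_lt_top T)))
  rw [← setIntegral_eq_integral_of_forall_compl_eq_zero (s := A)]
  swap
  · intro v hv
    simp only [hA, Set.mem_union, not_or] at hv
    rw [h.eq_zero hv.1, h.eq_zero hv.2, zero_mul, sub_self]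
  have hb : ∀ v ∈ A, ‖κ (fun j => ch (tr u w j) (v j)) * g v - κ (fun j => ch (w j) (v j)) * g v‖ ≤
      L * (Fintype.card J * (4 * T ^ 2 * (1 + Q))) * q * S := by
    intro v hv
    rw [← sub_mul, norm_mul]
    refine mul_le_mul ?_ (hS v hv) (norm_nonneg _) (by positivity)
    refine (h.lip _ _).trans ?_
    rw [mul_assoc, mul_assoc]
    refine mul_le_mul_of_nonneg_left ?_ hL
    by_cases hall : ∀ j, ch (w j) (v j) ≤ T ∨ ch (tr u w j) (v j) ≤ T
    · calc ∑ j, |ch (tr u w j) (v j) - ch (w j) (v j)| ≤ ∑ _j : J, 4 * T ^ 2 * (q + q ^ 2) := by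
            refine Finset.sum_le_sum fun j _ => ?_
            exact abs_ch_sub_le hT hq (hu j) (hall j)
        _ = Fintype.card J * (4 * T ^ 2 * (q + q ^ 2)) := by simp
        _ ≤ Fintype.card J * (4 * T ^ 2 * ((1 + Q) * q)) := by
            refine mul_le_mul_of_nonneg_left ?_ (Nat.cast_nonneg _)
            refine mul_le_mul_of_nonneg_left ?_ (by positivity)
            nlinarith
        _ = _ := by ring
    · exfalso
      apply hall
      intro j
      rcases hv with hv | hv
      · exact Or.inl (hv j)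
      · exact Or.inr (hv j)
  have h3 := norm_setIntegral_le_of_norm_le_const hAtop hb
  refine h3.trans ?_
  have h4 : volume.real A ≤ 2 * (volT T).toReal ^ Fintype.card J := by
    rw [Measure.real]
    have := ENNReal.toReal_mono (ENNReal.mul_lt_top (by simp)
      (ENNReal.pow_lt_top (volT_lt_top T)) : (2 : ENNReal) * volT T ^ Fintype.card J < ⊤).ne hAv
    rwa [ENNReal.toReal_mul, ENNReal.toReal_pow, ENNReal.toReal_ofNat] at this
  calc L * (Fintype.card J * (4 * T ^ 2 * (1 + Q))) * q * S * volume.real A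
      ≤ L * (Fintype.card J * (4 * T ^ 2 * (1 + Q))) * q * S *
        (2 * (volT T).toReal ^ Fintype.card J) := by
        refine mul_le_mul_of_nonneg_left h4 ?_
        positivity
    _ = _ := by ring

end Fermat.Agent.H95S
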