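import Fermat.Agent.H95S2

/-!
# Bounded kernel, part 4 (helper95): cuspidal eigenfunctions of polynomial growth decay rapidly

* `H95S.decay_of_iterate`: `f = R(κ)^k g` with zero constant terms, `g` of polynomial growth;
* `H95S.rapid_of_eigen`, `H95S.bounded_of_eigen`: `R(κ) Φ = c₁ Φ`, `c₁ ≠ 0`, zero constant terms,
  polynomial growth imply rapid decay and boundedness.
-/

set_option autoImplicit false
set_option linter.unusedSectionVars false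

noncomputable section

open MeasureTheory
open scoped ComplexConjugate Real

namespace Fermat.Agent.H95S

open Fermat.Agent.H3

variable {J : Type*} [Fintype J] {Y : Type*}

/-- Decay of `F k` if `F (n + 1) = R(κ) (F n)`, all `F (n + 1)` have zero constant terms and `F 0` has
growth `ht ^ s`. -/
theorem decay_of_iterate {κ : (J → ℝ) → ℂ} {T L Mκ : ℝ} (hκ : Ker κ T L Mκ) (Y0 : Set Y)
    (hJ : 0 < Fintype.card J) {s : ℝ} (F : ℕ → (J → H3) × Y → ℂ) (k : ℕ)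
    (hbase : ∀ c > 0, ∃ M, ∀ η ∈ Y0, ∀ w : J → H3, (∀ j, c ≤ (w j).y) →
      ‖F 0 (w, η)‖ ≤ M * ht w ^ s)
    (hmeas : ∀ n < k, ∀ η ∈ Y0, Measurable fun v => F n (v, η))
    (hsucc : ∀ n < k, ∀ η ∈ Y0, ∀ w, F (n + 1) (w, η) = RK κ (fun v => F n (v, η)) w)
    {δ : ℝ} (hcusp : ∀ n < k, Cusp Y0 δ (F (n + 1)))
    {B : ℝ}
    (hbal : ∀ n < k, ∀ η ∈ Y0, ∀ w, ∃ w', F (n + 1) (w', η) = F (n + 1) (w, η) ∧
      ht w' = ht w ∧ ∀ j, ht w ^ (1 / (Fintype.card J : ℝ)) ≤ B * (w' j).y) :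
    ∀ c > 0, ∃ M, 0 ≤ M ∧ ∀ η ∈ Y0, ∀ w : J → H3, (∀ j, c ≤ (w j).y) →
      ‖F k (w, η)‖ ≤ M * ht w ^ (s - k / Fintype.card J) := by
  intro c hc
  have hb : Gr Y0 (fun _ : Unit => (1 : ℝ)) s (fun _ : Unit => F 0) := by
    intro c' hc'
    obtain ⟨M, hM⟩ := hbase c' hc'
    refine ⟨|M|, abs_nonneg M, fun _ η hη w hw => ?_⟩
    rw [mul_one]
    exact (hM η hη w hw).trans
      (mul_le_mul_of_nonneg_right (le_abs_self M) (Real.rpow_nonneg (ht_pos w).le _))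
  have h := Gr.iterate (F := fun n (_ : Unit) => F n) (δ := δ) (B := B) hκ hJ
    (fun _ => zero_le_one) k hb (fun n hn _ => hmeas n hn) (fun n hn _ => hsucc n hn)
    (fun n hn _ => hcusp n hn) (fun n hn _ => hbal n hn)
  obtain ⟨M, hM0, hM⟩ := h c hc
  refine ⟨M, hM0, fun η hη w hw => ?_⟩
  have h1 := hM () η hη w hw
  rwa [mul_one] at h1

/-- Rapid decay of cuspidal eigenfunctions of polynomial growth. -/
theorem rapid_of_eigen {κ : (J → ℝ) → ℂ} {T L Mκ : ℝ} (hκ : Ker κ T L Mκ) (Y0 : Set Y)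
    (hJ : 0 < Fintype.card J) {A : ℝ} (Φ : (J → H3) × Y → ℂ)
    (hgrow : ∀ c > 0, ∃ M, ∀ η ∈ Y0, ∀ w : J → H3, (∀ j, c ≤ (w j).y) →
      ‖Φ (w, η)‖ ≤ M * ht w ^ A)
    (hmeas : ∀ η ∈ Y0, Measurable fun v => Φ (v, η))
    {c₁ : ℂ} (hc₁ : c₁ ≠ 0)
    (heig : ∀ η ∈ Y0, ∀ w, RK κ (fun v => Φ (v, η)) w = c₁ * Φ (w, η))
    {δ : ℝ} (hcusp : Cusp Y0 δ Φ)
    {B : ℝ}
    (hbal : ∀ η ∈ Y0, ∀ w, ∃ w', Φ (w', η) = Φ (w, η) ∧
      ht w' = ht w ∧ ∀ j, ht w ^ (1 / (Fintype.card J : ℝ)) ≤ B * (w' j).y) (m : ℝ) :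
    ∀ c > 0, ∃ M, 0 ≤ M ∧ ∀ η ∈ Y0, ∀ w : J → H3, (∀ j, c ≤ (w j).y) →
      ‖Φ (w, η)‖ ≤ M * ht w ^ (-m) := by
  intro c hc
  have hr0 : (0 : ℝ) < Fintype.card J := by exact_mod_cast hJ
  obtain ⟨k, hk⟩ := exists_nat_ge ((A + m) * Fintype.card J)
  have hk' : A - k / Fintype.card J ≤ -m := by
    have : A + m ≤ k / Fintype.card J := by
      rw [le_div_iff₀ hr0]
      exact hk
    linarith
  obtain ⟨M, hM0, hM⟩ := decay_of_iterate (F := fun n x => c₁ ^ n * Φ x) (δ := δ) (B := B)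
    (s := A) hκ Y0 hJ k (fun c' hc' => by simpa using hgrow c' hc')
    (fun n _ η hη => (hmeas η hη).const_mul _)
    (fun n _ η hη w => by
      have h1 : RK κ (fun v => c₁ ^ n * Φ (v, η)) w = c₁ ^ n * RK κ (fun v => Φ (v, η)) w := by
        simp only [RK]
        rw [← integral_const_mul]
        congr 1
        funext v
        ring
      show c₁ ^ (n + 1) * Φ (w, η) = RK κ (fun v => c₁ ^ n * Φ (v, η)) w
      rw [h1, heig η hη]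
      ring)
    (fun n _ η hη => by
      obtain ⟨P, h1, h2, h3, h4⟩ := hcusp η hη
      refine ⟨P, h1, h2, h3, fun w => ?_⟩
      show ∫ u in P, c₁ ^ (n + 1) * Φ (tr u w, η) = 0
      rw [integral_const_mul, h4, mul_zero])
    (fun n _ η hη w => by
      obtain ⟨w', h1, h2, h3⟩ := hbal η hη w
      exact ⟨w', by show c₁ ^ (n + 1) * _ = c₁ ^ (n + 1) * _; rw [h1], h2, h3⟩) c hc
  -- compare the exponents on `ht w ≥ c ^ r`
  set C := c ^ Fintype.card J with hC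
  have hC0 : 0 < C := by positivity
  refine ⟨M * C ^ (A - k / Fintype.card J + m) * ‖c₁ ^ k‖⁻¹, by positivity, ?_⟩
  intro η hη w hw
  have h1 := hM η hη w hw
  rw [norm_mul] at h1
  have hck : 0 < ‖c₁ ^ k‖ := norm_pos_iff.mpr (pow_ne_zero k hc₁)
  have h2 : ht w ^ (A - k / Fintype.card J) ≤ C ^ (A - k / Fintype.card J + m) * ht w ^ (-m) := by
    calc ht w ^ (A - k / Fintype.card J) =
        ht w ^ (A - k / Fintype.card J + m) * ht w ^ (-m) := by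
          rw [← Real.rpow_add (ht_pos w)]
          congr 1
          ring
      _ ≤ C ^ (A - k / Fintype.card J + m) * ht w ^ (-m) := by
          refine mul_le_mul_of_nonneg_right ?_ (Real.rpow_nonneg (ht_pos w).le _)
          exact Real.rpow_le_rpow_of_nonpos hC0 (pow_le_ht hc.le hw) (by linarith)
  calc ‖Φ (w, η)‖ = ‖c₁ ^ k‖ * ‖Φ (w, η)‖ * ‖c₁ ^ k‖⁻¹ := by field_simp
    _ ≤ (M * ht w ^ (A - k / Fintype.card J)) * ‖c₁ ^ k‖⁻¹ :=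
        mul_le_mul_of_nonneg_right h1 (by positivity)
    _ ≤ (M * (C ^ (A - k / Fintype.card J + m) * ht w ^ (-m))) * ‖c₁ ^ k‖⁻¹ :=
        mul_le_mul_of_nonneg_right (mul_le_mul_of_nonneg_left h2 hM0) (by positivity)
    _ = _ := by ring

/-- Cuspidal eigenfunctions of polynomial growth are bounded. -/
theorem bounded_of_eigen {κ : (J → ℝ) → ℂ} {T L Mκ : ℝ} (hκ : Ker κ T L Mκ) (Y0 : Set Y)
    (hJ : 0 < Fintype.card J) {A : ℝ} (Φ : (J → H3) × Y → ℂ)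
    (hgrow : ∀ c > 0, ∃ M, ∀ η ∈ Y0, ∀ w : J → H3, (∀ j, c ≤ (w j).y) →
      ‖Φ (w, η)‖ ≤ M * ht w ^ A)
    (hmeas : ∀ η ∈ Y0, Measurable fun v => Φ (v, η))
    {c₁ : ℂ} (hc₁ : c₁ ≠ 0)
    (heig : ∀ η ∈ Y0, ∀ w, RK κ (fun v => Φ (v, η)) w = c₁ * Φ (w, η))
    {δ : ℝ} (hcusp : Cusp Y0 δ Φ) (rel : (J → H3) × Y → (J → H3) × Y → Prop)
    (hinv : ∀ x y, rel x y → Φ x = Φ y)
    {B c : ℝ} (hc : 0 < c)
    (hbal : ∀ η ∈ Y0, ∀ w, ∃ w', rel (w, η) (w', η) ∧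
      ht w' = ht w ∧ ∀ j, ht w ^ (1 / (Fintype.card J : ℝ)) ≤ B * (w' j).y)
    (hred : ∀ x, ∃ w, ∃ η ∈ Y0, rel x (w, η) ∧ ∀ j, c ≤ (w j).y) :
    ∃ M, ∀ x, ‖Φ x‖ ≤ M := by
  obtain ⟨M, hM0, hM⟩ := rapid_of_eigen (B := B) hκ Y0 hJ Φ hgrow hmeas hc₁ heig hcusp
    (fun η hη w => by
      obtain ⟨w', h1, h2, h3⟩ := hbal η hη w
      exact ⟨w', (hinv _ _ h1).symm, h2, h3⟩) 0 c hc
  refine ⟨M, fun x => ?_⟩
  obtain ⟨w, η, hη, h1, h2⟩ := hred x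
  rw [hinv _ _ h1]
  have h3 := hM η hη w h2
  rwa [neg_zero, Real.rpow_zero, mul_one] at h3

/-- If `C₁ Φ = c₂ Φ` with `c₂ ≠ 0` and `C₁ Φ` has zero constant terms then so has `Φ`. -/
theorem Cusp.of_eigen {Y0 : Set Y} {δ : ℝ} {Φ Ψ : (J → H3) × Y → ℂ} {c₂ : ℂ} (hc₂ : c₂ ≠ 0)
    (h : ∀ x, Ψ x = c₂ * Φ x) (hΨ : Cusp Y0 δ Ψ) : Cusp Y0 δ Φ := by
  intro η hη
  obtain ⟨P, h1, h2, h3, h4⟩ := hΨ η hη
  refine ⟨P, h1, h2, h3, fun w => ?_⟩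
  have h5 := h4 w
  simp only [h] at h5
  rw [integral_const_mul] at h5
  exact (mul_eq_zero.mp h5).resolve_left hc₂

end Fermat.Agent.H95S
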