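import Mathlib

/-!
# Saturation of a faithfully acting finite `ℤ`-algebra

If an abelian group `A` is embedded in `End M` for a finite torsion-free abelian group `M`, then
elements `a` with `a M ⊆ p ^ n M` are divisible by `p ^ (n - c)` in `A`, up to a prime-to-`p`
factor `u`, where `c` and `u` only depend on `A`, `M`, `p`.
-/

set_option autoImplicit false

namespace Fermat.Agent.H96

/-- Division by an integer in a finite torsion-free module, as a linear map. -/
theorem exists_linearMap_of_dvd {M : Type*} [AddCommGroup M] [IsAddTorsionFree M] {m : ℕ}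
    (hm : m ≠ 0) (f : M →ₗ[ℤ] M) (h : ∀ x, ∃ y, f x = m • y) :
    ∃ g : M →ₗ[ℤ] M, f = m • g := by
  choose y hy using h
  have hinj : Function.Injective fun x : M => m • x := nsmul_right_injective hm
  refine ⟨{ toFun := y, map_add' := fun a b => hinj ?_, map_smul' := fun c a => hinj ?_ }, ?_⟩
  · simp only [smul_add, ← hy, map_add]
  · simp only [RingHom.id_apply]
    rw [smul_comm m c (y a), ← hy, ← hy, map_smul]
  · ext x
    exact hy x

/-- The saturation lemma, for additive groups embedded in an endomorphism ring. -/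
theorem exists_saturation_const_of_injective {A M : Type*} [AddCommGroup A] [AddCommGroup M]
    [Module.Finite ℤ M] [IsAddTorsionFree M]
    (φ : A →ₗ[ℤ] (M →ₗ[ℤ] M)) (hφinj : Function.Injective φ) {p : ℕ} (hp : p.Prime) :
    ∃ c u : ℕ, ¬ p ∣ u ∧ ∀ (n : ℕ) (a : A), (∀ m : M, ∃ m' : M, φ a m = p ^ n • m') →
      ∃ y : A, u • a = p ^ (n - c) • y := by
  classical
  have hfreeM : Module.Free ℤ M := inferInstance
  have htfB : IsAddTorsionFree (M →ₗ[ℤ] M) := by
    refine ⟨fun n hn f g hfg => ?_⟩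
    ext m
    exact nsmul_right_injective hn (LinearMap.congr_fun hfg m)
  have htfA : ∀ (n : ℕ) (a : A), n ≠ 0 → n • a = 0 → a = 0 := by
    intro n a hn ha
    apply hφinj
    apply nsmul_right_injective hn
    show n • φ a = n • φ 0
    rw [map_zero, smul_zero, ← map_nsmul, ha, map_zero]
  -- the torsion of the quotient
  let Q := (M →ₗ[ℤ] M) ⧸ LinearMap.range φ
  have hQ : Module.Finite ℤ Q := inferInstance
  have htors : ∃ e : ℕ, e ≠ 0 ∧ ∀ (n : ℕ) (x : Q), n ≠ 0 → n • x = 0 → e • x = 0 := by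
    have hfin : Finite (Submodule.torsion ℤ Q) := by
      have : Module.Finite ℤ (Submodule.torsion ℤ Q) := inferInstance
      exact Module.finite_of_fg_torsion _ (Submodule.torsion_isTorsion)
    refine ⟨Nat.card (Submodule.torsion ℤ Q), Nat.card_pos.ne', fun n x hn hx => ?_⟩
    have hmem : x ∈ Submodule.torsion ℤ Q := by
      rw [Submodule.mem_torsion_iff]
      refine ⟨⟨(n : ℤ), mem_nonZeroDivisors_of_ne_zero (by exact_mod_cast hn)⟩, ?_⟩
      show (n : ℤ) • x = 0
      rw [natCast_zsmul, hx]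
    have h1 : Nat.card (Submodule.torsion ℤ Q) • (⟨x, hmem⟩ : Submodule.torsion ℤ Q) = 0 :=
      card_nsmul_eq_zero'
    exact congrArg Subtype.val h1
  obtain ⟨e, he0, he⟩ := htors
  obtain ⟨c, u, hu, heu⟩ := Nat.exists_eq_pow_mul_and_not_dvd he0 p hp.ne_one
  refine ⟨c, u, hu, fun n a ha => ?_⟩
  have hpn : p ^ n ≠ 0 := pow_ne_zero n hp.ne_zero
  obtain ⟨b, hb⟩ := exists_linearMap_of_dvd hpn (φ a) ha
  have h1 : (p ^ n) • (Submodule.Quotient.mk b : Q) = 0 := by
    rw [← Submodule.Quotient.mk_smul, ← hb, Submodule.Quotient.mk_eq_zero]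
    exact LinearMap.mem_range_self φ a
  have h2 := he _ _ hpn h1
  rw [← Submodule.Quotient.mk_smul, Submodule.Quotient.mk_eq_zero] at h2
  obtain ⟨a', ha'⟩ := h2
  have h3 : e • a = p ^ n • a' := by
    apply hφinj
    rw [map_nsmul, map_nsmul, ha', hb, smul_comm]
  rcases le_total c n with hcn | hcn
  · refine ⟨a', ?_⟩
    rw [← sub_eq_zero]
    apply htfA (p ^ c) _ (pow_ne_zero c hp.ne_zero)
    rw [smul_sub, sub_eq_zero, smul_smul, smul_smul, ← heu, ← pow_add, Nat.add_sub_cancel' hcn, h3]
  · exact ⟨u • a, by rw [Nat.sub_eq_zero_of_le hcn, pow_zero, one_smul]⟩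

/-- The saturation lemma for a faithfully acting ring. -/
theorem exists_saturation_const {A M : Type*} [CommRing A] [AddCommGroup M] [Module A M]
    [Module.Finite ℤ M] [IsAddTorsionFree M]
    (hfaith : ∀ a : A, (∀ m : M, a • m = 0) → a = 0) {p : ℕ} (hp : p.Prime) :
    ∃ c u : ℕ, ¬ p ∣ u ∧ ∀ (n : ℕ) (a : A), (∀ m : M, ∃ m' : M, a • m = p ^ n • m') →
      ∃ y : A, (u : A) * a = (p : A) ^ (n - c) * y := by
  let φ : A →ₗ[ℤ] (M →ₗ[ℤ] M) :=
    { toFun := fun a => (LinearMap.lsmul A M a).restrictScalars ℤ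
      map_add' := fun a b => by
        ext m
        simp
      map_smul' := fun c a => by
        ext m
        show (c • a) • m = c • (a • m)
        exact smul_assoc c a m }
  have hφ : ∀ a m, φ a m = a • m := fun a m => rfl
  have hφinj : Function.Injective φ := by
    rw [injective_iff_map_eq_zero]
    intro a ha
    exact hfaith a fun m => by rw [← hφ, ha]; rfl
  obtain ⟨c, u, hu, h⟩ := exists_saturation_const_of_injective φ hφinj hp
  refine ⟨c, u, hu, fun n a ha => ?_⟩
  obtain ⟨y, hy⟩ := h n a ha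
  refine ⟨y, ?_⟩
  simpa only [nsmul_eq_mul, Nat.cast_pow] using hy

/-- In a finite torsion-free abelian group, an endomorphism killed by all characters
`M →+ ℤ / m` is divisible by `m`. -/
theorem exists_smul_of_forall_hom {M : Type*} [AddCommGroup M] [Module.Finite ℤ M]
    [IsAddTorsionFree M] {m : ℕ} (x : M) (h : ∀ f : M →+ ZMod m, f x = 0) :
    ∃ y : M, x = m • y := by
  have hfreeM : Module.Free ℤ M := inferInstance
  let b := Module.Free.chooseBasis ℤ M
  have hdvd : ∀ i, (m : ℤ) ∣ b.repr x i := by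
    intro i
    have h1 := h ((Int.castAddHom (ZMod m)).comp (b.coord i).toAddMonoidHom)
    exact (ZMod.intCast_zmod_eq_zero_iff_dvd _ _).mp h1
  choose c hc using hdvd
  refine ⟨∑ i, c i • b i, ?_⟩
  conv_lhs => rw [← b.sum_repr x]
  rw [Finset.smul_sum]
  refine Finset.sum_congr rfl fun i _ => ?_
  rw [hc i, mul_smul, natCast_zsmul]

end Fermat.Agent.H96
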