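import Mathlib
import Fermat.Agent.H96Saturate
import Fermat.Agent.H31Mod
import Fermat.Agent.H21Inj
import Fermat.Agent.H4TransferPE

/-!
# Faithfulness of the Hecke action on torsion, from characters of `Γ₀(N)`
-/

set_option autoImplicit false

noncomputable section

open CongruenceSubgroup ModularCurve CuspForm UpperHalfPlane
open scoped MatrixGroups

namespace Fermat.Agent.H96

theorem sl2_sq (g : SL(2, ℤ)) : (g : Matrix (Fin 2) (Fin 2) ℤ) ^ 2 =
    (g : Matrix (Fin 2) (Fin 2) ℤ).trace • (g : Matrix (Fin 2) (Fin 2) ℤ) - 1 := by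
  have hdet := g.det_coe
  rw [Matrix.det_fin_two] at hdet
  rw [pow_two]
  ext i j
  fin_cases i <;> fin_cases j <;>
    simp [-zsmul_eq_mul, Matrix.smul_apply, Matrix.mul_apply, Fin.sum_univ_two, Matrix.trace_fin_two]
  · linear_combination (-hdet)
  · ring
  · ring
  · linear_combination (-hdet)

theorem sl2_pow_twelve (g : SL(2, ℤ)) (h : (g : Matrix (Fin 2) (Fin 2) ℤ).trace ^ 2 < 4) :
    g ^ 12 = 1 := by
  have h1 := sl2_sq g
  set M := (g : Matrix (Fin 2) (Fin 2) ℤ) with hM
  have h2 : M.trace = 0 ∨ M.trace = 1 ∨ M.trace = -1 := by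
    have a1 : M.trace < 2 := by nlinarith
    have a2 : -2 < M.trace := by nlinarith
    omega
  apply Subtype.ext
  rw [Matrix.SpecialLinearGroup.coe_pow, ← hM, Matrix.SpecialLinearGroup.coe_one]
  rcases h2 with h2 | h2 | h2
  · rw [h2, zero_smul, zero_sub] at h1
    calc M ^ 12 = (M ^ 2) ^ 6 := by rw [← pow_mul]
      _ = 1 := by rw [h1, Even.neg_pow (by decide), one_pow]
  · rw [h2, one_smul] at h1
    have h3 : M ^ 3 = -1 := by
      calc M ^ 3 = M * M ^ 2 := by rw [← pow_succ']
        _ = M ^ 2 - M := by rw [h1, mul_sub, mul_one, ← pow_two, h1]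
        _ = -1 := by rw [h1]; abel
    calc M ^ 12 = (M ^ 3) ^ 4 := by rw [← pow_mul]
      _ = 1 := by rw [h3, Even.neg_pow (by decide), one_pow]
  · rw [h2, _root_.neg_smul, one_smul] at h1
    have h3 : M ^ 3 = 1 := by
      calc M ^ 3 = M * M ^ 2 := by rw [← pow_succ']
        _ = -M ^ 2 - M := by rw [h1, mul_sub, mul_one, mul_neg, ← pow_two, h1]
        _ = 1 := by rw [h1]; abel
    calc M ^ 12 = (M ^ 3) ^ 4 := by rw [← pow_mul]
      _ = 1 := by rw [h3, one_pow]


section Period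

variable (N : ℕ) [NeZero N]

instance fg_SL2Z : Group.FG SL(2, ℤ) := by
  rw [Group.fg_iff]
  exact ⟨{ModularGroup.S, ModularGroup.T}, SpecialLinearGroup.SL2Z_generators,
    Set.toFinite _⟩

instance fg_Gamma0 : Group.FG (Gamma0 N) := Subgroup.fg_of_index_ne_zero _

/-- The period functionals `γ ↦ (f ↦ ∫_z^{γ z} f)`. -/
def perHom : Additive (Gamma0 N) →+ (CuspForm (Gamma0 N) 2 →ₗ[ℂ] ℂ) where
  toFun γ :=
    { toFun := fun f => periodMap N f γ
      map_add' := fun f g => by
        obtain ⟨pml, hpml⟩ := H21.existsPeriodMapLinear (N := N)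
        rw [← hpml, ← hpml, ← hpml, map_add]
        rfl
      map_smul' := fun c f => by
        obtain ⟨pml, hpml⟩ := H21.existsPeriodMapLinear (N := N)
        rw [← hpml, ← hpml, map_smul]
        rfl }
  map_zero' := by
    ext f
    exact map_zero (periodMap N f)
  map_add' γ γ' := by
    ext f
    exact map_add (periodMap N f) γ γ'

@[simp] theorem perHom_apply (γ : Additive (Gamma0 N)) (f : CuspForm (Gamma0 N) 2) :
    perHom N γ f = periodMap N f γ := rfl

/-- The lattice of periods. -/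
def perLattice : AddSubgroup (CuspForm (Gamma0 N) 2 →ₗ[ℂ] ℂ) := (perHom N).range

theorem perHom_mem (γ : Additive (Gamma0 N)) : perHom N γ ∈ perLattice N := ⟨γ, rfl⟩

instance : Module.Finite ℤ (perLattice N) := by
  rw [Module.Finite.iff_addGroup_fg]
  have h1 : AddGroup.FG (Additive (Gamma0 N)) := inferInstance
  exact AddGroup.fg_range (perHom N)

instance : IsAddTorsionFree (perLattice N) := by
  refine ⟨fun n hn f g hfg => ?_⟩
  apply Subtype.ext
  have h : (n : ℂ) • (f : CuspForm (Gamma0 N) 2 →ₗ[ℂ] ℂ) = (n : ℂ) • (g : CuspForm (Gamma0 N) 2 →ₗ[ℂ] ℂ) := by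
    rw [Nat.cast_smul_eq_nsmul, Nat.cast_smul_eq_nsmul]
    exact congrArg Subtype.val hfg
  exact smul_right_injective _ (Nat.cast_ne_zero.mpr hn) h

/-- Periods determine cusp forms. -/
theorem eq_zero_of_perHom {f : CuspForm (Gamma0 N) 2} (h : ∀ γ, perHom N γ f = 0) : f = 0 := by
  have h1 : periodMap N f = 0 := AddMonoidHom.ext h
  have h2 : periodHomPair N (f, 0) = 0 := by
    have h0 : periodMap N (0 : CuspForm (Gamma0 N) 2) = 0 :=
      AddMonoidHom.ext fun γ => map_zero (perHom N γ)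
    rw [H21.periodHomPair_apply, h1, h0]
    simp
  have h3 : ((f, 0) : CuspForm (Gamma0 N) 2 × CuspForm (Gamma0 N) 2) = 0 :=
    H21.periodHomPair_injective (N := N) (by rw [h2, map_zero])
  exact congrArg Prod.fst h3

/-- Hecke equivariance of the period map: input from `H4Periods`. -/
def PeriodEquivariant : Prop :=
  ∀ (ℓ : ℕ) [Fact ℓ.Prime] (hℓ : ℓ.Prime) (hℓN : ¬ ℓ ∣ N) (f : CuspForm (Gamma0 N) 2),
    H4.heckeHom hℓN (periodMap N f) = periodMap N (heckeTLin 2 hℓ hℓN f)

variable {N}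

theorem heckeHom_perHom (hT : PeriodEquivariant N) {ℓ : ℕ} [Fact ℓ.Prime] (hℓ : ℓ.Prime)
    (hℓN : ¬ ℓ ∣ N) (γ : Additive (Gamma0 N)) :
    H4.heckeHom hℓN (perHom N) γ = perHom N γ ∘ₗ heckeTLin 2 hℓ hℓN := by
  ext f
  have h1 := DFunLike.congr_fun (hT ℓ hℓ hℓN f) γ
  rw [H4.heckeHom_apply] at h1
  rw [H4.heckeHom_apply, LinearMap.sum_apply, LinearMap.comp_apply, perHom_apply, ← h1]
  rfl

theorem comp_mem_perLattice (hT : PeriodEquivariant N) {S : Set ℕ}
    (P : MvPolynomial (H31.GoodPrimes N S) ℤ) {L : CuspForm (Gamma0 N) 2 →ₗ[ℂ] ℂ}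
    (hL : L ∈ perLattice N) : L ∘ₗ (H31.evHecke N S P).1 ∈ perLattice N := by
  induction P using MvPolynomial.induction_on generalizing L with
  | C a =>
    have h1 : L ∘ₗ (H31.evHecke N S (MvPolynomial.C a)).1 = a • L := by
      have h2 : H31.evHecke N S (MvPolynomial.C a) = (a : heckeAlgebra N 2 S) :=
        MvPolynomial.eval₂_C _ _ _
      rw [h2]
      ext f
      show L ((a : heckeAlgebra N 2 S).1 f) = a • L f
      have h3 : (a : heckeAlgebra N 2 S).1 f = a • f := by
        rw [← zsmul_one]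
        rfl
      rw [h3, map_zsmul]
    rw [h1]
    exact zsmul_mem hL a
  | add P Q hP hQ =>
    rw [map_add]
    have h1 : L ∘ₗ (H31.evHecke N S P + H31.evHecke N S Q).1 =
        L ∘ₗ (H31.evHecke N S P).1 + L ∘ₗ (H31.evHecke N S Q).1 := LinearMap.comp_add _ _ _
    rw [h1]
    exact add_mem (hP hL) (hQ hL)
  | mul_X P ℓ hP =>
    rw [map_mul, H31.evHecke_X]
    have h1 : L ∘ₗ (H31.evHecke N S P * heckeAlgebra.T ℓ.1.2 ℓ.2.1 ℓ.2.2).1 =
        (L ∘ₗ (H31.evHecke N S P).1) ∘ₗ heckeTLin 2 ℓ.1.2 ℓ.2.1 := rfl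
    rw [h1]
    obtain ⟨γ, hγ⟩ := hP hL
    rw [← hγ]
    have : Fact (ℓ.1 : ℕ).Prime := ⟨ℓ.1.2⟩
    rw [← heckeHom_perHom hT ℓ.1.2 ℓ.2.1 γ, H4.heckeHom_apply]
    exact sum_mem fun x _ => perHom_mem N _

/-- The action of a polynomial in the good Hecke operators on the lattice of periods. -/
def latEnd (hT : PeriodEquivariant N) {S : Set ℕ} (t : (H31.evHecke N S).range) :
    perLattice N →ₗ[ℤ] perLattice N where
  toFun L := ⟨L.1 ∘ₗ t.1.1, by
    obtain ⟨P, hP⟩ := t.2
    rw [← hP]
    exact comp_mem_perLattice hT P L.2⟩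
  map_add' L L' := Subtype.ext (LinearMap.add_comp _ _ _)
  map_smul' a L := by
    apply Subtype.ext
    ext f
    rfl

theorem coe_latEnd (hT : PeriodEquivariant N) {S : Set ℕ} (t : (H31.evHecke N S).range)
    (L : perLattice N) : (latEnd hT t L : CuspForm (Gamma0 N) 2 →ₗ[ℂ] ℂ) = L.1 ∘ₗ t.1.1 := rfl

/-- `latEnd` as a linear map. -/
def latHom (hT : PeriodEquivariant N) (S : Set ℕ) :
    (H31.evHecke N S).range →ₗ[ℤ] (perLattice N →ₗ[ℤ] perLattice N) where
  toFun := latEnd hT
  map_add' t t' := by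
    ext1 L
    apply Subtype.ext
    exact LinearMap.comp_add _ _ _
  map_smul' a t := by
    ext1 L
    apply Subtype.ext
    ext f
    show L.1 ((a • t.1.1) f) = a • (L.1 (t.1.1 f))
    rw [LinearMap.smul_apply, map_zsmul]

theorem latHom_injective (hT : PeriodEquivariant N) (S : Set ℕ) :
    Function.Injective (latHom hT S) := by
  rw [injective_iff_map_eq_zero]
  intro t ht
  apply Subtype.ext
  apply Subtype.ext
  ext1 f
  apply eq_zero_of_perHom N
  intro γ
  have h1 := LinearMap.congr_fun ht ⟨perHom N γ, perHom_mem N γ⟩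
  have h2 := congrArg Subtype.val h1
  exact LinearMap.congr_fun h2 f

/-- The period functional of an elliptic or parabolic element vanishes. -/
theorem perHom_eq_zero (γ : Gamma0 N)
    (hγ : ((γ : SL(2, ℤ)) : Matrix (Fin 2) (Fin 2) ℤ).trace ^ 2 ≤ 4) :
    perHom N (Additive.ofMul γ) = 0 := by
  rcases hγ.lt_or_eq with h | h
  · have h1 : γ ^ 12 = 1 := Subtype.ext (sl2_pow_twelve _ h)
    have h2 : (12 : ℕ) • perHom N (Additive.ofMul γ) = 0 := by
      rw [← map_nsmul, ← ofMul_pow, h1, ofMul_one, map_zero]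
    have h3 : (12 : ℂ) • perHom N (Additive.ofMul γ) = 0 := by
      rw [← h2, ← Nat.cast_smul_eq_nsmul ℂ]
      norm_num
    exact (smul_eq_zero.mp h3).resolve_left (by norm_num)
  · ext f
    exact H21.periodMap_mem_parabolicHoms f γ h

end Period

section Main

variable {N : ℕ} [NeZero N]

/-- The Kummer relation between torsion points and characters. -/
structure KummerRel (S : Set ℕ) (m : ℕ) (J : Type*) [AddCommGroup J] [Module HeckeAlg J]
    (A : Type*) [AddCommGroup A] (rel : J → (Additive (Gamma0 N) →+ A) → Prop) : Prop where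
  /-- every `m`-torsion character trivial on parabolic and elliptic elements comes from an
  `m`-torsion point -/
  surj : ∀ φ : Additive (Gamma0 N) →+ A, H4.IsPE φ → m • φ = 0 → ∃ x, m • x = 0 ∧ rel x φ
  add : ∀ x y φ ψ, rel x φ → rel y ψ → rel (x + y) (φ + ψ)
  neg : ∀ x φ, rel x φ → rel (-x) (-φ)
  zero : ∀ φ, rel 0 φ → φ = 0
  hecke : ∀ (ℓ : H31.GoodPrimes N S) [Fact (ℓ.1 : ℕ).Prime] x φ, rel x φ →
    rel (heckeGen ℓ.1 • x) (H4.heckeHom ℓ.2.1 φ)

/-- The character attached to a homomorphism from the lattice of periods. -/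
def charOf (N : ℕ) [NeZero N] {A : Type*} [AddCommGroup A] (l : perLattice N →+ A) :
    Additive (Gamma0 N) →+ A :=
  l.comp (perHom N).rangeRestrict

variable {A : Type*} [AddCommGroup A]

theorem charOf_apply (l : perLattice N →+ A) (γ : Additive (Gamma0 N)) :
    charOf N l γ = l ⟨perHom N γ, perHom_mem N γ⟩ := rfl

theorem charOf_isPE (l : perLattice N →+ A) : H4.IsPE (charOf N l) := by
  intro γ hγ
  rw [charOf_apply]
  have h : (⟨perHom N (Additive.ofMul γ), perHom_mem N _⟩ : perLattice N) = 0 :=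
    Subtype.ext (perHom_eq_zero γ hγ)
  rw [h, map_zero]

theorem charOf_eq_zero {l : perLattice N →+ A} (h : charOf N l = 0) : l = 0 := by
  ext ⟨L, γ, rfl⟩
  exact DFunLike.congr_fun h γ

omit [NeZero N] in
theorem rel_nat {S : Set ℕ} {m : ℕ} {J : Type*} [AddCommGroup J] [Module HeckeAlg J]
    {rel : J → (Additive (Gamma0 N) →+ A) → Prop} (hrel : KummerRel S m J A rel)
    {x : J} {φ : Additive (Gamma0 N) →+ A} (h : rel x φ) (n : ℕ) : rel (n • x) (n • φ) := by
  induction n with
  | zero =>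
    rw [zero_smul, zero_smul]
    have := hrel.add _ _ _ _ h (hrel.neg _ _ h)
    rwa [add_neg_cancel, add_neg_cancel] at this
  | succ n ih =>
    rw [succ_nsmul, succ_nsmul]
    exact hrel.add _ _ _ _ ih h

omit [NeZero N] in
theorem rel_int {S : Set ℕ} {m : ℕ} {J : Type*} [AddCommGroup J] [Module HeckeAlg J]
    {rel : J → (Additive (Gamma0 N) →+ A) → Prop} (hrel : KummerRel S m J A rel)
    {x : J} {φ : Additive (Gamma0 N) →+ A} (h : rel x φ) (n : ℤ) : rel (n • x) (n • φ) := by
  obtain ⟨n, rfl | rfl⟩ := n.eq_nat_or_neg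
  · rw [natCast_zsmul, natCast_zsmul]
    exact rel_nat hrel h n
  · rw [_root_.neg_smul, _root_.neg_smul, natCast_zsmul, natCast_zsmul]
    exact hrel.neg _ _ (rel_nat hrel h n)

/-- Polynomials in the good Hecke operators act on the characters `charOf l`. -/
theorem rel_poly (hT : PeriodEquivariant N) {S : Set ℕ} {m : ℕ} {J : Type*} [AddCommGroup J]
    [Module HeckeAlg J] {rel : J → (Additive (Gamma0 N) →+ A) → Prop}
    (hrel : KummerRel S m J A rel) (P : MvPolynomial (H31.GoodPrimes N S) ℤ)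
    {x : J} {l : perLattice N →+ A} (h : rel x (charOf N l)) :
    rel (H31.inclHecke N S P • x)
      (charOf N (l.comp (latEnd hT ⟨H31.evHecke N S P, P, rfl⟩).toAddMonoidHom)) := by
  induction P using MvPolynomial.induction_on generalizing x l with
  | C a =>
    have h1 : H31.inclHecke N S (MvPolynomial.C a) • x = a • x := by
      have : H31.inclHecke N S (MvPolynomial.C a) = (a : HeckeAlg) := by
        rw [H31.inclHecke, MvPolynomial.rename_C]
        rfl
      rw [this, Int.cast_smul_eq_zsmul]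
    have h2 : charOf N (l.comp (latEnd hT ⟨H31.evHecke N S (MvPolynomial.C a), _, rfl⟩).toAddMonoidHom)
        = a • charOf N l := by
      ext γ
      show l _ = a • l _
      rw [← map_zsmul]
      congr 1
      apply Subtype.ext
      show (perHom N γ) ∘ₗ (H31.evHecke N S (MvPolynomial.C a)).1 = a • perHom N γ
      have h2 : H31.evHecke N S (MvPolynomial.C a) = (a : heckeAlgebra N 2 S) :=
        MvPolynomial.eval₂_C _ _ _
      rw [h2]
      ext f
      show (perHom N γ) ((a : heckeAlgebra N 2 S).1 f) = a • (perHom N γ) f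
      have h3 : (a : heckeAlgebra N 2 S).1 f = a • f := by
        rw [← zsmul_one]
        rfl
      rw [h3, map_zsmul]
    rw [h1, h2]
    exact rel_int hrel h a
  | add P Q hP hQ =>
    have h1 := hrel.add _ _ _ _ (hP h) (hQ h)
    rw [map_add, add_smul]
    convert h1 using 1
    ext γ
    show l _ = l _ + l _
    rw [← map_add]
    congr 1
    apply Subtype.ext
    show (perHom N γ) ∘ₗ (H31.evHecke N S (P + Q)).1 = (perHom N γ) ∘ₗ (H31.evHecke N S P).1 +
      (perHom N γ) ∘ₗ (H31.evHecke N S Q).1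
    rw [map_add]
    exact LinearMap.comp_add _ _ _
  | mul_X P ℓ hP =>
    have : Fact (ℓ.1 : ℕ).Prime := ⟨ℓ.1.2⟩
    have h1 := hrel.hecke ℓ _ _ (hP h)
    rw [map_mul, H31.inclHecke_X, mul_comm, mul_smul]
    convert h1 using 1
    refine AddMonoidHom.ext fun γ => ?_
    rw [H4.heckeHom_apply]
    show l _ = ∑ x, l _
    rw [← map_sum]
    congr 1
    apply Subtype.ext
    rw [AddSubmonoidClass.coe_finsetSum]
    show (perHom N γ) ∘ₗ (H31.evHecke N S (P * MvPolynomial.X ℓ)).1 =
      ∑ x, (perHom N (Additive.ofMul (H4.coc ℓ.2.1 (Additive.toMul γ) x))) ∘ₗ (H31.evHecke N S P).1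
    have h2 : ∑ x, (perHom N (Additive.ofMul (H4.coc ℓ.2.1 (Additive.toMul γ) x))) ∘ₗ
        (H31.evHecke N S P).1 = (H4.heckeHom ℓ.2.1 (perHom N) γ) ∘ₗ (H31.evHecke N S P).1 := by
      rw [H4.heckeHom_apply]
      ext f
      simp [LinearMap.sum_apply]
    rw [h2, heckeHom_perHom hT ℓ.1.2 ℓ.2.1, mul_comm P, map_mul, H31.evHecke_X]
    rfl

/-- Faithfulness of the Hecke action on the `p`-power torsion from the Kummer relation. -/
theorem heckeFaithful_of_kummer (hT : PeriodEquivariant N) {S : Set ℕ} {p : ℕ} (hp : p.Prime)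
    {J : Type*} [AddCommGroup J] [Module HeckeAlg J]
    (hK : ∀ n : ℕ, ∃ ι : ZMod (p ^ n) →+ A, Function.Injective ι ∧
      ∃ rel : J → (Additive (Gamma0 N) →+ A) → Prop, KummerRel S (p ^ n) J A rel) :
    H31.HeckeFaithful N S p J := by
  obtain ⟨c, u, hu, hsat⟩ := exists_saturation_const_of_injective (latHom hT S)
    (latHom_injective hT S) hp
  refine ⟨c, u, hu, fun n P hP => ?_⟩
  obtain ⟨ι, hι, rel, hrel⟩ := hK n
  obtain ⟨y, hy⟩ := hsat n ⟨H31.evHecke N S P, P, rfl⟩ (by
    intro L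
    apply exists_smul_of_forall_hom
    intro f
    -- the character attached to `f`
    obtain ⟨x, hx, hxrel⟩ := hrel.surj (charOf N (ι.comp f)) (charOf_isPE _) (by
      refine AddMonoidHom.ext fun γ => ?_
      show p ^ n • ι (f _) = 0
      rw [← map_nsmul]
      have h0 : ∀ z : ZMod (p ^ n), (p ^ n) • z = 0 := fun z => by
        rw [nsmul_eq_mul]
        simp
      rw [h0, map_zero])
    have h1 := rel_poly hT hrel P hxrel
    rw [hP x hx] at h1
    have h2 := charOf_eq_zero (hrel.zero _ h1)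
    have h3 := DFunLike.congr_fun h2 L
    exact hι (h3.trans (map_zero ι).symm))
  refine ⟨y.1, ?_⟩
  have h4 := congrArg Subtype.val hy
  have h5 : u • H31.evHecke N S P = p ^ (n - c) • y.1 := h4
  simpa only [nsmul_eq_mul, Nat.cast_pow] using h5

end Main

end Fermat.Agent.H96
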