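import Fermat.Agent.H46LTDefs
import Fermat.Agent.H80Final

/-!
# `LTEven` from the blocks of LT-MOD2
-/

set_option autoImplicit false

open WeierstrassCurve

namespace Fermat.Agent.H96

theorem squarefree_cond (W : WeierstrassCurve ℤ) : Squarefree (LT.cond W) := by
  refine Finset.squarefree_prod_of_pairwise_isCoprime (fun a ha b hb hab => ?_) (fun ℓ hℓ => ?_)
  · exact Nat.coprime_iff_isRelPrime.mp ((Nat.coprime_primes (Nat.prime_of_mem_primeFactors ha)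
      (Nat.prime_of_mem_primeFactors hb)).mpr hab)
  · exact (Nat.prime_of_mem_primeFactors hℓ).squarefree

theorem prime_dvd_cond {W : WeierstrassCurve ℤ} (hW : W.Δ ≠ 0) {ℓ : ℕ} (hℓ : ℓ.Prime) :
    ℓ ∣ LT.cond W ↔ (ℓ : ℤ) ∣ W.Δ := by
  rw [Int.natCast_dvd]
  constructor
  · intro h
    obtain ⟨q, hq, hd⟩ := (Prime.dvd_finsetProd_iff hℓ.prime _).mp h
    have hq' := Nat.mem_primeFactors.mp hq
    rw [(Nat.prime_dvd_prime_iff_eq hℓ hq'.1).mp hd]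
    exact hq'.2.1
  · intro h
    exact Finset.dvd_prod_of_mem _ (Nat.mem_primeFactors.mpr ⟨hℓ, h, Int.natAbs_ne_zero.mpr hW⟩)

/-- **LT, even case**, from the blocks. -/
theorem ltEven_of (h1 : LT.BlockM1) (hE : LT.BlockE) (h6 : LT.BlockM6) (hC : LT.BlockC)
    (h7 : LT.BlockM7) : H80.LTEven := by
  intro W hΔ hW h2 h3
  obtain ⟨W', hgood, hcong⟩ := h1 W hΔ hW h3 h2
  have hΔ' : W'.Δ ≠ 0 := hgood.neg.ne
  obtain ⟨f, hf, hcoeff⟩ := LT.ltC hE h6 hC h7 W' hgood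
  have hsq := squarefree_cond W'
  have hsqf := Nat.squarefree_iff_prime_squarefree.mp hsq
  refine ⟨LT.cond W', Nat.pos_of_ne_zero hsq.ne_zero, ?_,
    fun h => hsqf 3 (by norm_num) (by rwa [← pow_two]),
    fun q hq _ h => hsqf q hq ((Dvd.intro _ (by ring : q * q * q = q ^ 3)).trans h)⟩
  obtain ⟨𝔪, hmax, hpm⟩ := FLTPrelim.exists_maximalIdeal_natCast_prime_mem (p := 3) (by norm_num)
  refine ⟨f, 𝔪, hf, hmax, hpm, fun ℓ hℓ hg hℓN hℓ3 => ?_⟩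
  have hg' : W'.IsGoodPrimeFor ℓ := fun h => hℓN ((prime_dvd_cond hΔ' hℓ).mpr h)
  refine ⟨((W'.apOfModel ℓ : ℤ) : integralClosure ℤ ℂ), ?_, ?_⟩
  · rw [hcoeff ℓ hℓ hg' hℓN]; push_cast; rfl
  · obtain ⟨k, hk⟩ := hcong ℓ hℓ hg hg' hℓ3
    have e : ((W'.apOfModel ℓ : ℤ) : integralClosure ℤ ℂ) -
        ((W.apOfModel ℓ : ℤ) : integralClosure ℤ ℂ)
        = ((3 : ℕ) : integralClosure ℤ ℂ) * ((k : ℤ) : integralClosure ℤ ℂ) := by
      rw [← Int.cast_sub, hk]; push_cast; rfl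
    rw [e]
    exact 𝔪.mul_mem_right _ hpm

end Fermat.Agent.H96
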