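import Fermat.Agent.H96LTGlue
import Fermat.Agent.H3LTM1
import Fermat.Agent.H73LTEData
import Fermat.Agent.H6MDM6
import Fermat.Agent.H35LTMain

/-!
# `LTEven` from `BlockC` and the geometric input `MazurTwo` of `BlockM7`
-/

set_option autoImplicit false

namespace Fermat.Agent.H96

/-- `BlockM1`, `BlockE`, `BlockM6` are proved; `BlockM7` is proved from `MazurTwo`. -/
theorem ltEven_of_blockC (hC : LT.BlockC) (hM : H35.MazurTwo) : H80.LTEven :=
  ltEven_of H3LT.blockM1 H73LT.blockE H6.MD.blockM6_holds hC (H35.blockM7 hM)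

end Fermat.Agent.H96
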