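import Fermat.Agent.H3RR_Special

/-!
# Components of the special fibre, in function field language

`F/K` is a function field, `vK` a valuation of `K` with residue map `res : K → k`.  A *component*
is an extension `v` of `vK` to `F`, with the same value group, with a reduction map
`ρ : F → Fb` (meaningful on `{v ≤ 1}`).
-/

set_option autoImplicit false

open AlgebraicCurve WithZero IntermediateField

namespace Fermat.Agent.H97

section Comp

variable {K F k Fb Γ : Type*} [Field K] [Field F] [Algebra K F] [Field k] [Field Fb] [Algebra k Fb]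
  [LinearOrderedCommGroupWithZero Γ]

/-- `(v, ρ)` is a component of the reduction of `F/K`. -/
structure Comp (vK : Valuation K Γ) (res : K → k) (v : Valuation F Γ) (ρ : F → Fb) : Prop where
  v_alg : ∀ c : K, v (algebraMap K F c) = vK c
  ρ_one : ρ 1 = 1
  ρ_add : ∀ x y, v x ≤ 1 → v y ≤ 1 → ρ (x + y) = ρ x + ρ y
  ρ_mul : ∀ x y, v x ≤ 1 → v y ≤ 1 → ρ (x * y) = ρ x * ρ y
  ρ_eq_zero : ∀ x, v x ≤ 1 → (ρ x = 0 ↔ v x < 1)
  ρ_alg : ∀ c : K, vK c ≤ 1 → ρ (algebraMap K F c) = algebraMap k Fb (res c)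
  scale : ∀ f : F, f ≠ 0 → ∃ c : K, c ≠ 0 ∧ v f = vK c
  opt : ∀ w : F, (∀ c : K, w ≠ algebraMap K F c) → ∃ c l : K, l ≠ 0 ∧
    v (w - algebraMap K F c) ≤ vK l ∧
    ∀ e : k, ρ ((w - algebraMap K F c) / algebraMap K F l) ≠ algebraMap k Fb e

namespace Comp

variable {vK : Valuation K Γ} {res : K → k} {v : Valuation F Γ} {ρ : F → Fb}
  (C : Comp vK res v ρ)

include C

theorem ρ_zero : ρ 0 = 0 := (C.ρ_eq_zero 0 (by simp)).mpr (by simp)

theorem ρ_neg {x : F} (hx : v x ≤ 1) : ρ (-x) = -ρ x := by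
  have h := C.ρ_add x (-x) hx (by rwa [Valuation.map_neg])
  rw [add_neg_cancel, C.ρ_zero] at h
  exact (neg_eq_of_add_eq_zero_right h.symm).symm

theorem ρ_sub {x y : F} (hx : v x ≤ 1) (hy : v y ≤ 1) : ρ (x - y) = ρ x - ρ y := by
  rw [sub_eq_add_neg, C.ρ_add x (-y) hx (by rwa [Valuation.map_neg]), C.ρ_neg hy, sub_eq_add_neg]

theorem ρ_pow {x : F} (hx : v x ≤ 1) (n : ℕ) : ρ (x ^ n) = ρ x ^ n := by
  induction n with
  | zero => simp [C.ρ_one]
  | succ n ih =>
    rw [pow_succ, pow_succ, C.ρ_mul _ _ (by rw [map_pow]; exact pow_le_one' hx n) hx, ih]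

theorem ρ_ne_zero {x : F} (hx : v x = 1) : ρ x ≠ 0 := by
  rw [ne_eq, C.ρ_eq_zero x hx.le, hx]
  exact lt_irrefl _

theorem v_eq_one {x : F} (hx : v x ≤ 1) (h : ρ x ≠ 0) : v x = 1 := by
  rw [ne_eq, C.ρ_eq_zero x hx, not_lt] at h
  exact le_antisymm hx h

theorem ρ_inv {x : F} (hx : v x = 1) : ρ x⁻¹ = (ρ x)⁻¹ := by
  have hx0 : x ≠ 0 := by rintro rfl; simp at hx
  have h := C.ρ_mul x x⁻¹ hx.le (by rw [map_inv₀, hx, inv_one])
  rw [mul_inv_cancel₀ hx0, C.ρ_one] at h
  exact eq_inv_of_mul_eq_one_right h.symm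

theorem ρ_div {x y : F} (hx : v x ≤ 1) (hy : v y = 1) : ρ (x / y) = ρ x / ρ y := by
  rw [div_eq_mul_inv, C.ρ_mul _ _ hx (by rw [map_inv₀, hy, inv_one]), C.ρ_inv hy, div_eq_mul_inv]

theorem ρ_natCast (n : ℕ) : ρ (n : F) = n := by
  induction n with
  | zero => simpa using C.ρ_zero
  | succ n ih =>
    have hn : ∀ m : ℕ, v (m : F) ≤ 1 := by
      intro m
      induction m with
      | zero => simp
      | succ m ihm =>
        push_cast
        exact (Valuation.map_add _ _ _).trans (max_le ihm (by simp))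
    push_cast
    rw [C.ρ_add _ _ (hn n) (by simp), ih, C.ρ_one]

end Comp

theorem v_natCast_le {v : Valuation F Γ} (m : ℕ) : v (m : F) ≤ 1 := by
  induction m with
  | zero => simp
  | succ m ihm =>
    push_cast
    exact (Valuation.map_add _ _ _).trans (max_le ihm (by simp))

/-- Binomial expansion to second order. -/
theorem exists_one_sub_pow {v : Valuation F Γ} {y : F} (hy : v y ≤ 1) (n : ℕ) :
    ∃ r : F, v r ≤ 1 ∧ (1 - y) ^ n = 1 - n * y + y ^ 2 * r := by
  induction n with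
  | zero => exact ⟨0, by simp, by simp⟩
  | succ n ih =>
    obtain ⟨r, hr, h⟩ := ih
    refine ⟨r + n - r * y, ?_, ?_⟩
    · refine (Valuation.map_sub _ _ _).trans (max_le ?_ ?_)
      · exact (Valuation.map_add _ _ _).trans (max_le hr (v_natCast_le n))
      · rw [map_mul]; exact mul_le_one' hr hy
    · rw [pow_succ, h]
      push_cast
      ring

end Comp

end Fermat.Agent.H97
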