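import Fermat.Agent.H66DNum

/-!
# S47, block (D): volume of the lattice of a divisor ([D-VOL])

* `mem_frac_iff`: membership in a fractional ideal by valuations;
* `HIfun_ind`: the Haar functional of the indicator function of a lattice;
* `HIfun_frac`, `HIfun_div`: for a fractional ideal resp. for the lattice of a divisor.
-/

set_option autoImplicit false
set_option linter.unusedSectionVars false

open NumberField IsDedekindDomain HeightOneSpectrum WithZero FractionalIdeal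
open scoped nonZeroDivisors Pointwise

noncomputable section

namespace Fermat.Agent.H97D

open Fermat.Agent.H66D

section Dedekind

variable {R : Type*} [CommRing R] [IsDedekindDomain R] {K : Type*} [Field K] [Algebra R K]
  [IsFractionRing R K]

open Classical in
/-- membership in an ideal by valuations -/
theorem mem_ideal_iff {I : Ideal R} (hI : I ≠ 0) (r : R) :
    r ∈ I ↔ ∀ P : HeightOneSpectrum R, P.intValuation r ≤
      exp (-((Associates.mk P.asIdeal).count (Associates.mk I).factors : ℤ)) := by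
  conv_lhs => rw [← Ideal.iInf_maxPowDividing_eq hI]
  simp only [Submodule.mem_iInf, maxPowDividing, intValuation_le_pow_iff_mem]

open Classical in
theorem intValuation_eq_count (P : HeightOneSpectrum R) {a : R} (ha : a ≠ 0) :
    P.intValuation a =
      exp (-((Associates.mk P.asIdeal).count (Associates.mk (Ideal.span {a})).factors : ℤ)) := by
  rw [intValuation_if_neg _ ha]

theorem val_alg (P : HeightOneSpectrum R) (r : R) :
    P.valuation K (algebraMap R K r) = P.intValuation r := valuation_of_algebraMap P r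

/-- membership in a fractional ideal by valuations -/
theorem mem_frac_iff {I : FractionalIdeal R⁰ K} (hI : I ≠ 0) (x : K) :
    x ∈ I ↔ ∀ P : HeightOneSpectrum R, P.valuation K x ≤ exp (-(count K P I)) := by
  classical
  obtain ⟨a, J, ha, hJ⟩ := exists_eq_spanSingleton_mul I
  have ha' : (algebraMap R K) a ≠ 0 := fun h => ha ((FaithfulSMul.algebraMap_injective R K)
    (by rw [h, map_zero]))
  have hJ0 : J ≠ 0 := FractionalIdeal.ideal_factor_ne_zero hI hJ
  have hmem : x ∈ I ↔ ∃ r ∈ J, algebraMap R K r = algebraMap R K a * x := by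
    rw [hJ, mem_singleton_mul]
    constructor
    · rintro ⟨y, hy, rfl⟩
      obtain ⟨r, hr, rfl⟩ := (mem_coeIdeal _).1 hy
      exact ⟨r, hr, by rw [mul_inv_cancel_left₀ ha']⟩
    · rintro ⟨r, hr, h⟩
      exact ⟨algebraMap R K r, (mem_coeIdeal _).2 ⟨r, hr, rfl⟩, by
        rw [h, inv_mul_cancel_left₀ ha']⟩
  have hcount : ∀ P : HeightOneSpectrum R, exp (-(count K P I)) * P.valuation K (algebraMap R K a) =
      exp (-((Associates.mk P.asIdeal).count (Associates.mk J).factors : ℤ)) := by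
    intro P
    rw [count_well_defined K P hI hJ, valuation_of_algebraMap, intValuation_eq_count P ha, ← exp_add]
    congr 1
    ring
  have hva : ∀ P : HeightOneSpectrum R, 0 < P.valuation K (algebraMap R K a) := fun P =>
    zero_lt_iff.2 ((Valuation.ne_zero_iff _).2 ha')
  rw [hmem]
  constructor
  · rintro ⟨r, hr, h⟩ P
    have h1 := (mem_ideal_iff hJ0 r).1 hr P
    rw [← val_alg (K := K), h, map_mul, ← hcount, mul_comm] at h1
    exact le_of_mul_le_mul_right h1 (hva P)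
  · intro h
    have h1 : ∀ P : HeightOneSpectrum R, P.valuation K (algebraMap R K a * x) ≤
        exp (-((Associates.mk P.asIdeal).count (Associates.mk J).factors : ℤ)) := by
      intro P
      rw [map_mul, ← hcount, mul_comm]
      exact mul_le_mul' (h P) le_rfl
    obtain ⟨r, hr⟩ := mem_integers_of_valuation_le_one K (algebraMap R K a * x) (fun P =>
      (h1 P).trans (by rw [← exp_zero, exp_le_exp]; omega))
    refine ⟨r, (mem_ideal_iff hJ0 r).2 fun P => ?_, hr⟩
    rw [← val_alg (K := K), hr]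
    exact h1 P

/-- the fractional ideal of a divisor -/
def FI (K : Type*) [Field K] [Algebra R K] [IsFractionRing R K] (d : HeightOneSpectrum R → ℤ) :
    FractionalIdeal R⁰ K :=
  ∏ᶠ P : HeightOneSpectrum R, (P.asIdeal : FractionalIdeal R⁰ K) ^ d P

theorem FI_ne_zero (d : HeightOneSpectrum R → ℤ) : FI K d ≠ 0 := by
  unfold FI
  refine finprod_induction (p := fun I : FractionalIdeal R⁰ K => I ≠ 0) one_ne_zero
    (fun a b ha hb => mul_ne_zero ha hb) fun P => ?_
  exact zpow_ne_zero _ (coeIdeal_ne_zero.mpr P.ne_bot)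

theorem count_FI {d : HeightOneSpectrum R → ℤ} (hd : {P | d P ≠ 0}.Finite)
    (P : HeightOneSpectrum R) : count K P (FI K d) = d P :=
  count_finprod K P d (by
    rw [Filter.eventually_cofinite]
    exact hd)

theorem mem_FI {d : HeightOneSpectrum R → ℤ} (hd : {P | d P ≠ 0}.Finite) (x : K) :
    x ∈ FI K d ↔ ∀ P : HeightOneSpectrum R, P.valuation K x ≤ exp (-(d P)) := by
  rw [mem_frac_iff (FI_ne_zero d)]
  refine forall_congr' fun P => ?_
  rw [count_FI hd]

theorem FI_count {I : FractionalIdeal R⁰ K} (hI : I ≠ 0) : FI K (fun P => count K P I) = I :=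
  finprod_heightOneSpectrum_factorization' K hI

theorem mulSupport_finite {ι : Type*} {d : ι → ℤ} (hd : {P | d P ≠ 0}.Finite)
    {M : Type*} [DivisionMonoid M] (g : ι → M) :
    Function.HasFiniteMulSupport fun P => g P ^ d P := by
  refine hd.subset fun P hP h => hP ?_
  show g P ^ d P = 1
  rw [h, zpow_zero]

theorem FI_add {d d' : HeightOneSpectrum R → ℤ} (hd : {P | d P ≠ 0}.Finite)
    (hd' : {P | d' P ≠ 0}.Finite) : FI K (fun P => d P + d' P) = FI K d * FI K d' := by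
  unfold FI
  rw [← finprod_mul_distrib (mulSupport_finite hd _) (mulSupport_finite hd' _)]
  refine finprod_congr fun P => ?_
  rw [zpow_add₀ (coeIdeal_ne_zero.mpr P.ne_bot)]

/-- the lattice of a divisor -/
def LV (K : Type*) [Field K] [Algebra R K] [IsFractionRing R K] (d : HeightOneSpectrum R → ℤ) :
    AddSubgroup K where
  carrier := {x | ∀ P : HeightOneSpectrum R, P.valuation K x ≤ exp (-(d P))}
  zero_mem' P := by rw [map_zero]; exact zero_le
  add_mem' ha hb P := (Valuation.map_add _ _ _).trans (max_le (ha P) (hb P))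
  neg_mem' ha P := by rw [Valuation.map_neg]; exact ha P

theorem mem_LV {d : HeightOneSpectrum R → ℤ} {x : K} :
    x ∈ LV K d ↔ ∀ P : HeightOneSpectrum R, P.valuation K x ≤ exp (-(d P)) := Iff.rfl

theorem mem_LV_iff {d : HeightOneSpectrum R → ℤ} (hd : {P | d P ≠ 0}.Finite) {x : K} :
    x ∈ LV K d ↔ x ∈ FI K d := (mem_FI hd x).symm

end Dedekind

section Abstract

variable {V : Type*} [AddCommGroup V] [Module ℚ V] {Λ L : AddSubgroup V}

open Classical in
theorem isLevel_ind {m : ℕ} (hm : m ≠ 0) (h1 : mL Λ m ≤ L) (h2 : ∀ x ∈ L, m • x ∈ Λ) :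
    IsLevel Λ (fun x => if x ∈ L then (1 : ℂ) else 0) m := by
  refine ⟨hm, fun x hx => ?_, fun x y hy => ?_⟩
  · have hx' : x ∈ L := by
      by_contra h
      simp [h] at hx
    exact h2 x hx'
  · have : (x + m • y ∈ L) ↔ x ∈ L := L.add_mem_cancel_right (h1 (nsmul_mem_mL hy))
    simp [this]

/-- multiplication by `m` does not change indices -/
theorem relIndex_mL (H K : AddSubgroup V) {m : ℕ} (hm : m ≠ 0) :
    (mL H m).relIndex (mL K m) = H.relIndex K :=
  AddSubgroup.relIndex_map_map_of_injective _ _ fun _ _ h => nsmul_inj hm h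

theorem relIndex_ne_zero (hΛ : IsFull Λ) {m : ℕ} (hm : m ≠ 0) (h2 : ∀ x ∈ L, m • x ∈ Λ) :
    (mL Λ m).relIndex L ≠ 0 := by
  rw [← relIndex_mL _ _ hm, ← mL_mul]
  have hle : mL L m ≤ Λ := by
    intro x hx
    obtain ⟨y, hy, rfl⟩ := mem_mL.1 hx
    exact h2 y hy
  intro h
  exact hΛ.idx _ (mul_ne_zero hm hm) (AddSubgroup.relIndex_eq_zero_of_le_right hle h)

open Classical in
/-- the Haar functional of the indicator function of a lattice -/
theorem HIfun_ind (hΛ : IsFull Λ) {m : ℕ} (hm : m ≠ 0) (h1 : mL Λ m ≤ L)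
    (h2 : ∀ x ∈ L, m • x ∈ Λ) :
    HIfun Λ (fun x => if x ∈ L then (1 : ℂ) else 0) =
      ((mL Λ m).relIndex Λ : ℂ)⁻¹ * ((mL Λ m).relIndex L : ℂ) := by
  have hlev := isLevel_ind hm h1 h2
  rw [HIfun_eq hΛ hlev]
  unfold HIm
  congr 1
  have hper : ∀ x, ∀ y ∈ L, (fun x => if x ∈ L then (1 : ℂ) else 0) (x + y) =
      (fun x => if x ∈ L then (1 : ℂ) else 0) x := by
    intro x y hy
    have : (x + y ∈ L) ↔ x ∈ L := L.add_mem_cancel_right hy
    simp [this]
  have hone : ∀ q : V ⧸ L, (if q.out ∈ L then (1 : ℂ) else 0) = if q = 0 then 1 else 0 := by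
    intro q
    have : q.out ∈ L ↔ q = 0 := by
      conv_rhs => rw [← QuotientAddGroup.out_eq' q]
      exact (QuotientAddGroup.eq_zero_iff _).symm
    simp [this]
  have hfin : (Function.support fun q : V ⧸ L => (fun x => if x ∈ L then (1 : ℂ) else 0)
      q.out).Finite := by
    refine (Set.finite_singleton (0 : V ⧸ L)).subset ?_
    intro q hq
    by_contra hne
    apply hq
    show (if q.out ∈ L then (1 : ℂ) else 0) = 0
    have hne' : ¬ q = 0 := hne
    rw [hone, if_neg hne']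
  rw [qS_relIndex h1 hper (relIndex_ne_zero hΛ hm h2) hfin]
  unfold qS
  simp only [hone]
  rw [finsum_eq_single _ (0 : V ⧸ L) (fun q hq => if_neg hq), if_pos rfl, mul_one]

end Abstract

section NF

variable {B : Type*} [Field B] [NumberField B]

/-- the image of an ideal in the field -/
def imO (J : Ideal (𝓞 B)) : AddSubgroup B :=
  J.toAddSubgroup.map (algebraMap (𝓞 B) B).toAddMonoidHom

theorem mem_imO {J : Ideal (𝓞 B)} {x : B} : x ∈ imO J ↔ ∃ r ∈ J, algebraMap (𝓞 B) B r = x :=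
  AddSubgroup.mem_map

theorem imO_relIndex {J J' : Ideal (𝓞 B)} (h : J ≤ J') :
    (imO J).relIndex (imO J') * Ideal.absNorm J' = Ideal.absNorm J := by
  unfold imO
  rw [AddSubgroup.relIndex_map_map_of_injective _ _ (FaithfulSMul.algebraMap_injective (𝓞 B) B),
    Ideal.absNorm_apply, Ideal.absNorm_apply]
  exact AddSubgroup.relIndex_mul_index (H := J.toAddSubgroup) (K := J'.toAddSubgroup) h

theorem OLat_eq : OLat B = imO (⊤ : Ideal (𝓞 B)) := by
  ext x
  rw [mem_imO]
  constructor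
  · rintro ⟨y, rfl⟩
    exact ⟨y, trivial, rfl⟩
  · rintro ⟨y, -, rfl⟩
    exact ⟨y, rfl⟩

theorem mL_OLat (m : ℕ) : mL (OLat B) m = imO (Ideal.span {(m : 𝓞 B)}) := by
  ext x
  rw [mem_mL, mem_imO]
  constructor
  · rintro ⟨y, ⟨z, rfl⟩, rfl⟩
    refine ⟨m * z, Ideal.mem_span_singleton.2 (dvd_mul_right _ _), ?_⟩
    rw [map_mul, map_natCast, nsmul_eq_mul]
    rfl
  · rintro ⟨z, hz, rfl⟩
    obtain ⟨w, rfl⟩ := Ideal.mem_span_singleton.1 hz
    refine ⟨algebraMap (𝓞 B) B w, ⟨w, rfl⟩, ?_⟩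
    rw [map_mul, map_natCast, nsmul_eq_mul]

theorem relIndex_mul_left (H K : AddSubgroup B) {a : B} (ha : a ≠ 0) :
    (H.map (AddMonoidHom.mulLeft a)).relIndex (K.map (AddMonoidHom.mulLeft a)) = H.relIndex K :=
  AddSubgroup.relIndex_map_map_of_injective _ _ (mul_right_injective₀ ha)

theorem imO_map_mul (J : Ideal (𝓞 B)) (a : 𝓞 B) :
    (imO J).map (AddMonoidHom.mulLeft (algebraMap (𝓞 B) B a)) = imO (Ideal.span {a} * J) := by
  ext x
  rw [AddSubgroup.mem_map, mem_imO]
  constructor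
  · rintro ⟨y, hy, rfl⟩
    obtain ⟨r, hr, rfl⟩ := mem_imO.1 hy
    exact ⟨a * r, Ideal.mul_mem_mul (Ideal.mem_span_singleton_self a) hr, by
      rw [map_mul]; rfl⟩
  · rintro ⟨r, hr, rfl⟩
    obtain ⟨z, hz, rfl⟩ := Ideal.mem_span_singleton_mul.1 hr
    exact ⟨algebraMap (𝓞 B) B z, mem_imO.2 ⟨z, hz, rfl⟩, by rw [map_mul]; rfl⟩

open Classical in
/-- **the volume of a fractional ideal** -/
theorem HIfun_frac {I : FractionalIdeal (𝓞 B)⁰ B} (hI : I ≠ 0) :
    HIfun (OLat B) (fun x => if x ∈ I then (1 : ℂ) else 0) = ((absNorm I : ℚ) : ℂ)⁻¹ := by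
  set L : AddSubgroup B := (I : Submodule (𝓞 B) B).toAddSubgroup with hL
  have hmemL : ∀ x, x ∈ L ↔ x ∈ I := fun x => Iff.rfl
  set a : 𝓞 B := (I.den : 𝓞 B) with ha
  have ha0 : a ≠ 0 := nonZeroDivisors.coe_ne_zero _
  have ha0' : algebraMap (𝓞 B) B a ≠ 0 := fun h => ha0 ((FaithfulSMul.algebraMap_injective _ B)
    (by rw [h, map_zero]))
  have hnum0 : I.num ≠ 0 := by
    intro h
    exact hI (zero_of_num_eq_bot zero_notMem_nonZeroDivisors h)
  have hmap : L.map (AddMonoidHom.mulLeft (algebraMap (𝓞 B) B a)) = imO I.num := by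
    have h := den_mul_self_eq_num I
    ext x
    rw [AddSubgroup.mem_map, mem_imO]
    have h1 : x ∈ (I.den • (I : Submodule (𝓞 B) B)) ↔
        x ∈ Submodule.map (Algebra.linearMap (𝓞 B) B) I.num := by rw [h]
    rw [Submodule.mem_map] at h1
    constructor
    · rintro ⟨y, hy, rfl⟩
      exact h1.1 (Submodule.smul_mem_pointwise_smul y I.den _ hy)
    · intro hx
      obtain ⟨y, hy, rfl⟩ := (Submodule.mem_smul_pointwise_iff_exists _ _ _).1 (h1.2 hx)
      exact ⟨y, hy, rfl⟩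
  -- a common multiple
  set m1 : ℕ := Ideal.absNorm (Ideal.span {a}) with hm1
  set m2 : ℕ := Ideal.absNorm I.num with hm2
  have hm10 : m1 ≠ 0 := by
    rw [hm1, Ne, Ideal.absNorm_eq_zero_iff, Ideal.span_singleton_eq_bot]
    exact ha0
  have hm20 : m2 ≠ 0 := by
    rw [hm2, Ne, Ideal.absNorm_eq_zero_iff]
    exact hnum0
  have hm : m1 * m2 ≠ 0 := mul_ne_zero hm10 hm20
  have hnumI : ∀ r ∈ I.num, algebraMap (𝓞 B) B r ∈ L := by
    intro r hr
    have h1 : algebraMap (𝓞 B) B r ∈ imO I.num := mem_imO.2 ⟨r, hr, rfl⟩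
    rw [← hmap] at h1
    obtain ⟨y, hy, hy'⟩ := h1
    rw [← hy']
    show algebraMap (𝓞 B) B a * y ∈ L
    rw [← Algebra.smul_def]
    exact (I : Submodule (𝓞 B) B).smul_mem a hy
  have h1 : mL (OLat B) (m1 * m2) ≤ L := by
    intro x hx
    obtain ⟨y, ⟨z, rfl⟩, rfl⟩ := mem_mL.1 hx
    have h2 : ((m1 * m2 : ℕ) : 𝓞 B) * z ∈ I.num := by
      refine I.num.mul_mem_right _ ?_
      rw [Nat.cast_mul]
      exact I.num.mul_mem_left _ (Ideal.absNorm_mem I.num)
    have h3 := hnumI _ h2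
    rw [map_mul, map_natCast] at h3
    rw [nsmul_eq_mul]
    exact h3
  have h2 : ∀ x ∈ L, (m1 * m2) • x ∈ OLat B := by
    intro x hx
    obtain ⟨w, hw⟩ := Ideal.mem_span_singleton.1 (Ideal.absNorm_mem (Ideal.span {a}))
    have h3 : algebraMap (𝓞 B) B a * x ∈ imO I.num := by
      rw [← hmap]
      exact ⟨x, hx, rfl⟩
    obtain ⟨r, -, hr⟩ := mem_imO.1 h3
    refine ⟨(m2 : 𝓞 B) * (w * r), ?_⟩
    show algebraMap (𝓞 B) B ((m2 : 𝓞 B) * (w * r)) = _
    have h4 : algebraMap (𝓞 B) B (m1 : 𝓞 B) = algebraMap (𝓞 B) B a * algebraMap (𝓞 B) B w := by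
      rw [← map_mul, hm1, hw]
    rw [map_mul, map_mul, hr, nsmul_eq_mul, Nat.cast_mul]
    rw [map_natCast] at h4
    rw [map_natCast, h4]
    ring
  have key := HIfun_ind isFull_OLat hm h1 h2
  have e0 : (fun x : B => if x ∈ L then (1 : ℂ) else 0) = fun x => if x ∈ I then (1 : ℂ) else 0 := by
    funext x
    simp only [hmemL]
  rw [e0] at key
  rw [key]
  -- the indices
  set m : ℕ := m1 * m2 with hmdef
  have i1 : (mL (OLat B) m).relIndex (OLat B) = Ideal.absNorm (Ideal.span {(m : 𝓞 B)}) := by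
    have := imO_relIndex (B := B) (J := Ideal.span {(m : 𝓞 B)}) (J' := ⊤) le_top
    rw [Ideal.absNorm_top, mul_one, ← mL_OLat, ← OLat_eq] at this
    exact this
  have i2 : (mL (OLat B) m).relIndex L * Ideal.absNorm I.num =
      Ideal.absNorm (Ideal.span {a}) * Ideal.absNorm (Ideal.span {(m : 𝓞 B)}) := by
    rw [← relIndex_mul_left _ _ ha0', hmap, mL_OLat, imO_map_mul, imO_relIndex, map_mul]
    have h3 : (mL (OLat B) m).map (AddMonoidHom.mulLeft (algebraMap (𝓞 B) B a)) ≤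
        L.map (AddMonoidHom.mulLeft (algebraMap (𝓞 B) B a)) := AddSubgroup.map_mono h1
    rw [hmap, mL_OLat, imO_map_mul] at h3
    intro r hr
    obtain ⟨r', hr', h4⟩ := mem_imO.1 (h3 (mem_imO.2 ⟨r, hr, rfl⟩))
    rwa [FaithfulSMul.algebraMap_injective (𝓞 B) B h4] at hr'
  have n0 : (Ideal.absNorm (Ideal.span {(m : 𝓞 B)}) : ℂ) ≠ 0 := by
    rw [← i1]
    exact_mod_cast isFull_OLat.idx m hm
  have n1 : (Ideal.absNorm I.num : ℂ) ≠ 0 := by exact_mod_cast hm20
  have i2' : ((mL (OLat B) m).relIndex L : ℂ) * (Ideal.absNorm I.num : ℂ) =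
      (Ideal.absNorm (Ideal.span {a}) : ℂ) * (Ideal.absNorm (Ideal.span {(m : 𝓞 B)}) : ℂ) := by
    exact_mod_cast i2
  have habs : ((absNorm I : ℚ) : ℂ) = (Ideal.absNorm I.num : ℂ) /
      (Ideal.absNorm (Ideal.span {a}) : ℂ) := by
    rw [absNorm_eq, Ideal.absNorm_span_singleton, ← Nat.cast_natAbs (α := ℚ), Rat.cast_div,
      Rat.cast_natCast, Rat.cast_natCast]
  rw [habs, i1, inv_div, eq_div_iff n1, mul_assoc, i2']
  field_simp

/-- the norm of the fractional ideal of a divisor -/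
theorem absNorm_FI {d : HeightOneSpectrum (𝓞 B) → ℤ} (hd : {P | d P ≠ 0}.Finite) :
    absNorm (FI B d) = ∏ᶠ P : HeightOneSpectrum (𝓞 B), (Ideal.absNorm P.asIdeal : ℚ) ^ d P := by
  unfold FI
  rw [map_finprod (absNorm : FractionalIdeal (𝓞 B)⁰ B →*₀ ℚ) (mulSupport_finite hd _)]
  refine finprod_congr fun P => ?_
  rw [map_zpow₀, coeIdeal_absNorm]

theorem absNorm_FI_pos (d : HeightOneSpectrum (𝓞 B) → ℤ) : 0 < absNorm (FI B d) :=
  lt_of_le_of_ne (absNorm_nonneg _) fun h => FI_ne_zero d (absNorm_eq_zero_iff.1 h.symm)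

open Classical in
/-- **the volume of the lattice of a divisor** -/
theorem HIfun_LV {d : HeightOneSpectrum (𝓞 B) → ℤ} (hd : {P | d P ≠ 0}.Finite) :
    HIfun (OLat B) (fun x => if x ∈ LV B d then (1 : ℂ) else 0) =
      ((absNorm (FI B d) : ℚ) : ℂ)⁻¹ := by
  have h : (fun x : B => if x ∈ LV B d then (1 : ℂ) else 0) =
      fun x => if x ∈ FI B d then (1 : ℂ) else 0 := by
    funext x
    simp only [mem_LV_iff hd]
  rw [h, HIfun_frac (FI_ne_zero d)]

open Classical in
theorem HIfun_LV' {d : HeightOneSpectrum (𝓞 B) → ℤ} (hd : {P | d P ≠ 0}.Finite) :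
    HIfun (OLat B) (fun x => if x ∈ LV B d then (1 : ℂ) else 0) =
      ∏ᶠ P : HeightOneSpectrum (𝓞 B), (Ideal.absNorm P.asIdeal : ℂ) ^ (-d P) := by
  rw [HIfun_LV hd, absNorm_FI hd]
  have h : ((∏ᶠ P : HeightOneSpectrum (𝓞 B), (Ideal.absNorm P.asIdeal : ℚ) ^ d P : ℚ) : ℂ) =
      ∏ᶠ P : HeightOneSpectrum (𝓞 B), (((Ideal.absNorm P.asIdeal : ℚ) ^ d P : ℚ) : ℂ) :=
    map_finprod (Rat.castHom ℂ : ℚ →+* ℂ) (mulSupport_finite hd _)
  rw [h, ← finprod_inv_distrib]
  refine finprod_congr fun P => ?_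
  rw [zpow_neg]
  push_cast
  rfl

/-- the lattice of a divisor is commensurable with the ring of integers -/
theorem exists_LV {d : HeightOneSpectrum (𝓞 B) → ℤ} (hd : {P | d P ≠ 0}.Finite) :
    (∃ m : ℕ, m ≠ 0 ∧ ∀ x ∈ LV B d, m • x ∈ OLat B) ∧ ∃ m : ℕ, m ≠ 0 ∧ mL (OLat B) m ≤ LV B d := by
  set I := FI B d with hI
  have hI0 : I ≠ 0 := FI_ne_zero d
  have hmem : ∀ x, x ∈ LV B d ↔ x ∈ I := fun x => mem_LV_iff hd
  constructor
  · obtain ⟨a, ha, h⟩ := I.2
    have ha0 : a ≠ 0 := nonZeroDivisors.ne_zero ha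
    refine ⟨Ideal.absNorm (Ideal.span {a}), ?_, fun x hx => ?_⟩
    · rw [Ne, Ideal.absNorm_eq_zero_iff, Ideal.span_singleton_eq_bot]
      exact ha0
    · obtain ⟨z, hz⟩ := h x ((hmem x).1 hx)
      obtain ⟨w, hw⟩ := Ideal.mem_span_singleton.1 (Ideal.absNorm_mem (Ideal.span {a}))
      refine ⟨w * z, ?_⟩
      show algebraMap (𝓞 B) B (w * z) = _
      rw [map_mul, hz, Algebra.smul_def, nsmul_eq_mul, ← map_natCast (algebraMap (𝓞 B) B), hw,
        map_mul]
      ring
  · have hnum0 : I.num ≠ 0 := by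
      intro h
      exact hI0 (zero_of_num_eq_bot zero_notMem_nonZeroDivisors h)
    refine ⟨Ideal.absNorm I.num, ?_, ?_⟩
    · rw [Ne, Ideal.absNorm_eq_zero_iff]
      exact hnum0
    · intro x hx
      obtain ⟨y, ⟨z, rfl⟩, rfl⟩ := mem_mL.1 hx
      rw [hmem]
      have h1 : ((Ideal.absNorm I.num : ℕ) : 𝓞 B) * z ∈ I.num :=
        I.num.mul_mem_right _ (Ideal.absNorm_mem I.num)
      have h2 : algebraMap (𝓞 B) B (((Ideal.absNorm I.num : ℕ) : 𝓞 B) * z) ∈
          Submodule.map (Algebra.linearMap (𝓞 B) B) I.num := ⟨_, h1, rfl⟩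
      rw [← den_mul_self_eq_num] at h2
      obtain ⟨y, hy, hy'⟩ := (Submodule.mem_smul_pointwise_iff_exists _ _ _).1 h2
      rw [nsmul_eq_mul, ← map_natCast (algebraMap (𝓞 B) B)]
      show (algebraMap (𝓞 B) B) (Ideal.absNorm I.num : ℕ) * algebraMap (𝓞 B) B z ∈ I
      rw [← map_mul, ← hy']
      exact (I : Submodule (𝓞 B) B).smul_mem (I.den : 𝓞 B) hy

end NF

end Fermat.Agent.H97D
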