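import Fermat.Agent.H97DVol2
import Fermat.Agent.H66TCut

/-!
# S47, block (D): [D-VOL], final shapes for THETA
-/

set_option autoImplicit false
set_option linter.unusedSectionVars false

open NumberField IsDedekindDomain HeightOneSpectrum WithZero FractionalIdeal
open scoped nonZeroDivisors Pointwise

noncomputable section

namespace Fermat.Agent.H97D

open Fermat.Agent.H66D Fermat.Agent.H71D
open Fermat.Agent.H47 (smulPlace below)
open Fermat.Agent.H82 (above aboveSet NonSplit)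

variable {E B : Type*} [Field E] [NumberField E] [Field B] [NumberField B] [Algebra E B]
  {J : Type*} [Fintype J]

/-- helper66's lattice with orders `0` above `S` -/
theorem LB_dlt (d : DD E B J) {D : H71D.FI E} {h : H71D.FI B}
    (hD : ∀ w ∈ d.S, cE D w = 0)
    (hh : ∀ P ∈ aboveSet B (d.S : Set (HeightOneSpectrum (𝓞 E))), cE h P = 0) :
    H66T.LB (aboveSet B (d.S : Set (HeightOneSpectrum (𝓞 E)))) (d.dlt D h) 0 =
      LV B (d.dlt D h) := by
  ext x
  rw [mem_LV_dlt d hD hh, H66T.mem_LB, H66T.mem_RS, mem_RB, neg_zero, exp_zero]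

/-- **[D-VOL]** -/
theorem dvol_LB {d : DD E B J} (hd : d.Good) {A D : H71D.FI E} {h : H71D.FI B}
    (hS : ∀ w ∈ d.S, cE A w = 0 ∧ cE D w = 0) (hh : IsNm d.S d.tau h (cE (A * D))) :
    HIfun (OLat B) (H66T.cut (H66T.LB (aboveSet B (d.S : Set (HeightOneSpectrum (𝓞 E))))
      (d.dlt D h) 0) fun _ => 1) = ((aN (A * D⁻¹) : ℝ) : ℂ) := by
  rw [LB_dlt d (fun w hw => (hS w hw).2) hh.prime]
  exact HIfun_dlt d hd.deg hd.unr hS hh

open Classical in
/-- **[D-VOL]**, second form -/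
theorem dvol {d : DD E B J} (hd : d.Good) {A D : H71D.FI E} {h : H71D.FI B}
    (hS : ∀ w ∈ d.S, cE A w = 0 ∧ cE D w = 0) (hh : IsNm d.S d.tau h (cE (A * D))) :
    HIfun (OLat B) (fun x => if (∀ P ∈ aboveSet B (d.S : Set (HeightOneSpectrum (𝓞 E))),
      P.valuation B x ≤ 1) ∧ x ∈ RB B d.S (d.dlt D h) then (1 : ℂ) else 0) =
        ((aN (A * D⁻¹) : ℝ) : ℂ) := by
  rw [← HIfun_dlt d hd.deg hd.unr hS hh]
  congr 1
  funext x
  unfold H66T.cut
  have h1 := mem_LV_dlt d (x := x) (fun w hw => (hS w hw).2) hh.prime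
  by_cases hx : x ∈ LV B (d.dlt D h)
  · rw [if_pos hx, if_pos ⟨(h1.1 hx).2, (h1.1 hx).1⟩]
  · rw [if_neg hx, if_neg fun hc => hx (h1.2 ⟨hc.2, hc.1⟩)]

end Fermat.Agent.H97D
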