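import Fermat.Agent.H97InfA
import Fermat.Agent.H3RR_FF

/-!
# Functions which are regular wherever `x` is regular have bounded expansions
-/

set_option autoImplicit false

open ModularCurve IntermediateField Polynomial AlgebraicCurve

namespace Fermat.Agent.H97

section Bounded

variable {L : Type*} [Field L] {A : ValuationSubring L}

theorem exists_frac (N : ℕ) {f : LaurentSeries L} (hf : f ∈ modularFunctionFieldFullC L N) :
    ∃ y z : LaurentSeries L, y ∈ intL A ∧ z ∈ intL A ∧ z ≠ 0 ∧ f * z = y := by
  rw [modularFunctionFieldFullC] at hf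
  induction hf using IntermediateField.adjoin_induction with
  | mem y hy =>
    obtain ⟨d, hd, hdvd, rfl⟩ := hy
    refine ⟨_, 1, ?_, one_mem _, one_ne_zero, mul_one _⟩
    refine ⟨qExpand A d (jqModC A), ?_⟩
    rw [coeffMap_qExpand, coeffMap_jqModC]
  | algebraMap c =>
    rcases A.mem_or_inv_mem c with h | h
    · exact ⟨_, 1, C_mem_intL h, one_mem _, one_ne_zero, mul_one _⟩
    · by_cases hc : c = 0
      · exact ⟨0, 1, zero_mem _, one_mem _, one_ne_zero, by rw [hc, map_zero, mul_one]⟩
      · refine ⟨1, algebraMap L _ c⁻¹, one_mem _, C_mem_intL h, ?_, ?_⟩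
        · rw [ne_eq, map_eq_zero]; exact inv_ne_zero hc
        · rw [← map_mul, mul_inv_cancel₀ hc, map_one]
  | add f g _ _ hf hg =>
    obtain ⟨y, z, hy, hz, hz0, h⟩ := hf
    obtain ⟨y', z', hy', hz', hz0', h'⟩ := hg
    exact ⟨y * z' + y' * z, z * z', add_mem (mul_mem hy hz') (mul_mem hy' hz), mul_mem hz hz',
      mul_ne_zero hz0 hz0', by rw [← h, ← h']; ring⟩
  | inv f _ hf =>
    obtain ⟨y, z, hy, hz, hz0, h⟩ := hf
    by_cases h0 : f = 0
    · exact ⟨0, 1, zero_mem _, one_mem _, one_ne_zero, by rw [h0, inv_zero, mul_one]⟩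
    · refine ⟨z, y, hz, hy, ?_, ?_⟩
      · rw [← h]; exact mul_ne_zero h0 hz0
      · rw [← h, inv_mul_cancel_left₀ h0]
  | mul f g _ _ hf hg =>
    obtain ⟨y, z, hy, hz, hz0, h⟩ := hf
    obtain ⟨y', z', hy', hz', hz0', h'⟩ := hg
    exact ⟨y * y', z * z', mul_mem hy hy', mul_mem hz hz', mul_ne_zero hz0 hz0', by
      rw [← h, ← h']; ring⟩

theorem C_ne_zero {c : L} (hc : c ≠ 0) : algebraMap L (LaurentSeries L) c ≠ 0 := by
  rw [ne_eq, map_eq_zero]; exact hc

variable (A) in
/-- The Laurent series with bounded coefficients. -/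
def bddL : Subalgebra L (LaurentSeries L) where
  carrier := {g | ∃ c : A, c ≠ 0 ∧ algebraMap L (LaurentSeries L) c * g ∈ intL A}
  mul_mem' := by
    rintro f g ⟨c, hc, h⟩ ⟨d, hd, h'⟩
    refine ⟨c * d, mul_ne_zero hc hd, ?_⟩
    have h1 := mul_mem h h'
    have : algebraMap L (LaurentSeries L) ((c * d : A) : L) * (f * g) =
      algebraMap L (LaurentSeries L) c * f * (algebraMap L (LaurentSeries L) d * g) := by
      have h2 : ((c * d : A) : L) = (c : L) * (d : L) := rfl
      rw [h2, map_mul]; ring
    rw [this]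
    exact h1
  add_mem' := by
    rintro f g ⟨c, hc, h⟩ ⟨d, hd, h'⟩
    refine ⟨c * d, mul_ne_zero hc hd, ?_⟩
    have : algebraMap L (LaurentSeries L) ((c * d : A) : L) * (f + g) =
      algebraMap L (LaurentSeries L) d * (algebraMap L (LaurentSeries L) c * f) +
        algebraMap L (LaurentSeries L) c * (algebraMap L (LaurentSeries L) d * g) := by
      have h2 : ((c * d : A) : L) = (c : L) * (d : L) := rfl
      rw [h2, map_mul]; ring
    rw [this]
    exact add_mem (mul_mem (C_mem_intL d.2) h) (mul_mem (C_mem_intL c.2) h')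
  algebraMap_mem' c := by
    rcases A.mem_or_inv_mem c with h | h
    · exact ⟨1, one_ne_zero, by
        change algebraMap L (LaurentSeries L) (1 : L) * _ ∈ _
        rw [map_one, one_mul]; exact C_mem_intL h⟩
    · by_cases hc : c = 0
      · exact ⟨1, one_ne_zero, by rw [hc, map_zero, mul_zero]; exact zero_mem _⟩
      · refine ⟨⟨c⁻¹, h⟩, fun h0 => inv_ne_zero hc (congrArg Subtype.val h0), ?_⟩
        change algebraMap L (LaurentSeries L) c⁻¹ * _ ∈ _
        rw [← map_mul, inv_mul_cancel₀ hc, map_one]
        exact one_mem _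

theorem mem_bddL {g : LaurentSeries L} :
    g ∈ bddL A ↔ ∃ c : A, c ≠ 0 ∧ algebraMap L (LaurentSeries L) c * g ∈ intL A := Iff.rfl

theorem intL_le_bddL {g : LaurentSeries L} (h : g ∈ intL A) : g ∈ bddL A :=
  ⟨1, one_ne_zero, by
    change algebraMap L (LaurentSeries L) (1 : L) * _ ∈ _
    rw [map_one, one_mul]; exact h⟩

/-- Roots of monic relations with bounded coefficients are bounded. -/
theorem mem_bddL_of_rel (arch : Arch A) {f : LaurentSeries L} {d : ℕ} (a : ℕ → LaurentSeries L)
    (ha : ∀ i, a i ∈ bddL A) (hf : f ^ d = ∑ i ∈ Finset.range d, a i * f ^ i)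
    (hfrac : ∃ y z : LaurentSeries L, y ∈ intL A ∧ z ∈ intL A ∧ z ≠ 0 ∧ f * z = y) :
    f ∈ bddL A := by
  obtain ⟨y, z, hy, hz, hz0, hfz⟩ := hfrac
  choose c hc hca using ha
  set e : A := ∏ i ∈ Finset.range d, c i with he
  have he0 : e ≠ 0 := Finset.prod_ne_zero_iff.mpr fun i _ => hc i
  set E := algebraMap L (LaurentSeries L) (e : L) with hE
  have hEmem : E ∈ intL A := C_mem_intL e.2
  have hea : ∀ i ∈ Finset.range d, E * a i ∈ intL A := by
    intro i hi
    have h1 : (e : L) = (∏ j ∈ (Finset.range d).erase i, c j : A) * (c i : L) := by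
      rw [he, ← Finset.prod_erase_mul _ _ hi]
      rfl
    rw [hE, h1, map_mul, mul_assoc]
    exact mul_mem (C_mem_intL (Subtype.mem _)) (hca i)
  refine ⟨e, he0, mem_intL_of_pow arch (c := z ^ d) (pow_ne_zero d hz0) fun n => ?_⟩
  induction n using Nat.strong_induction_on with
  | _ n ih =>
    rcases lt_or_ge n d with hn | hn
    · have : z ^ d * (E * f) ^ n = z ^ (d - n) * (E * (f * z)) ^ n := by
        have h1 : z ^ d = z ^ (d - n) * z ^ n := by rw [← pow_add]; congr 1; omega
        rw [h1]; ring
      rw [this, hfz]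
      exact mul_mem (pow_mem hz _) (pow_mem (mul_mem hEmem hy) _)
    · have : z ^ d * (E * f) ^ n = ∑ i ∈ Finset.range d,
          (E ^ (d - i - 1) * (E * a i)) * (z ^ d * (E * f) ^ (n - d + i)) := by
        have h1 : (E * f) ^ n = (E * f) ^ (n - d) * (E ^ d * f ^ d) := by
          rw [← mul_pow, ← pow_add]; congr 1; omega
        rw [h1, hf, Finset.mul_sum, Finset.mul_sum, Finset.mul_sum]
        refine Finset.sum_congr rfl fun i hi => ?_
        have hid : i < d := Finset.mem_range.mp hi
        have h2 : E ^ d = E ^ (d - i - 1) * E * E ^ i := by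
          rw [← pow_succ, ← pow_add]; congr 1; omega
        rw [h2, pow_add (E * f) (n - d) i, mul_pow E f i]
        ring
      rw [this]
      refine Subring.sum_mem _ fun i hi => ?_
      have hid : i < d := Finset.mem_range.mp hi
      exact mul_mem (mul_mem (pow_mem hEmem _) (hea i hi)) (ih _ (by omega))

end Bounded

section Regular

variable {K F : Type*} [Field K] [Field F] [Algebra K F]

/-- A function which is regular wherever `x` is satisfies a monic relation over `K[x]`. -/
theorem exists_rel_of_regular [H3RR.IsFF K F] {x f : F}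
    (h : ∀ v : Place K F, x ∈ v.toValuationSubring → f ∈ v.toValuationSubring) :
    ∃ (d : ℕ) (a : ℕ → F), (∀ i, a i ∈ Algebra.adjoin K {x}) ∧
      f ^ d = ∑ i ∈ Finset.range d, a i * f ^ i := by
  have h0 := iInf_valuationSubring_superset (K := F)
    (s := ((Algebra.adjoin K {x} : Subalgebra K F) : Set F))
  have h1 : f ∈ (⨅ V : {V : ValuationSubring F //
      ((Algebra.adjoin K {x} : Subalgebra K F) : Set F) ⊆ V.toSubring}, V.1.toSubring) := by
    simp only [Subring.mem_iInf]
    rintro ⟨V, hV⟩
    have hK : ∀ a : K, algebraMap K F a ∈ V := fun a => hV (Subalgebra.algebraMap_mem _ a)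
    have hx : x ∈ V := hV (Algebra.subset_adjoin rfl)
    by_cases hT : V = ⊤
    · have h4 : f ∈ V := by rw [hT]; trivial
      exact h4
    · exact h (H3RR.placeOf V hK hT) hx
  rw [h0] at h1
  have h2 : IsIntegral (Subring.closure ((Algebra.adjoin K {x} : Subalgebra K F) : Set F)) f := h1
  obtain ⟨p, hp, hpf⟩ := h2
  refine ⟨p.natDegree, fun i => -(p.coeff i : F), fun i => ?_, ?_⟩
  · have h3 : (p.coeff i : F) ∈ (Algebra.adjoin K {x} : Subalgebra K F).toSubring := by
      have := (p.coeff i).2
      have h4 : Subring.closure ((Algebra.adjoin K {x} : Subalgebra K F) : Set F) ≤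
          (Algebra.adjoin K {x} : Subalgebra K F).toSubring := Subring.closure_le.mpr fun _ h => h
      exact h4 this
    exact neg_mem h3
  · rw [eval₂_eq_sum_range, Finset.sum_range_succ, coeff_natDegree, hp.leadingCoeff, map_one,
      one_mul] at hpf
    rw [eq_neg_of_add_eq_zero_right hpf, ← Finset.sum_neg_distrib]
    exact Finset.sum_congr rfl fun i _ => (neg_mul _ _).symm

end Regular

section Modular

variable {L : Type*} [Field L] {A : ValuationSubring L}

/-- Functions regular outside the poles of an integral function have bounded expansion. -/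
theorem mem_bddL_of_regular (arch : Arch A) (N : ℕ) (F : IntermediateField L (LaurentSeries L))
    (hF : F ≤ modularFunctionFieldFullC L N) [H3RR.IsFF L F] {x f : F}
    (hx : (x : LaurentSeries L) ∈ bddL A)
    (h : ∀ v : Place L F, x ∈ v.toValuationSubring → f ∈ v.toValuationSubring) :
    (f : LaurentSeries L) ∈ bddL A := by
  obtain ⟨d, a, ha, hf⟩ := exists_rel_of_regular h
  refine mem_bddL_of_rel arch (d := d) (fun i => ((a i : F) : LaurentSeries L)) (fun i => ?_) ?_
    (exists_frac N (hF f.2))
  · have h1 : ((a i : F) : LaurentSeries L) ∈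
        (Algebra.adjoin L {x} : Subalgebra L F).map F.val := ⟨a i, ha i, rfl⟩
    rw [AlgHom.map_adjoin] at h1
    have h2 : Algebra.adjoin L (F.val '' {x}) ≤ bddL A := by
      rw [Algebra.adjoin_le_iff, Set.image_singleton, Set.singleton_subset_iff]
      exact hx
    exact h2 h1
  · have := congrArg (fun t : F => (t : LaurentSeries L)) hf
    simpa using this

end Modular

end Fermat.Agent.H97
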