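import Fermat.Agent.H97InfB
import Fermat.Agent.H42RedInputs
import Fermat.Agent.H34GR
import Fermat.Agent.H90Place

/-!
# The cusp `∞` reduces to the cusp `∞`
-/

set_option autoImplicit false

open ModularCurve IntermediateField Polynomial AlgebraicCurve

namespace Fermat.Agent.H97

/-- `P` is the place given by the order of `t`-expansions. -/
def IsInf {K : Type*} [Field K] {F : IntermediateField K (LaurentSeries K)} (P : Place K F) :
    Prop := ∀ f : F, P.ord f = (f : LaurentSeries K).order

theorem le_order_of {K : Type*} [CommRing K] {g : LaurentSeries K} (hg : g ≠ 0) {n : ℤ}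
    (h : ∀ m < n, g.coeff m = 0) : n ≤ g.order := by
  by_contra hlt
  rw [not_le] at hlt
  exact HahnSeries.coeff_order_eq_zero.not.mpr hg (h _ hlt)

theorem order_jqModC (K : Type*) [Field K] : (jqModC K).order = -1 := by
  have h1 : (jqModC K).coeff (-1) = 1 := coeff_jqModC_neg_one K
  have h2 : ∀ m : ℤ, m < -1 → (jqModC K).coeff m = 0 := fun m hm => coeff_jqModC_of_lt K hm
  apply le_antisymm
  · exact HahnSeries.order_le_of_coeff_ne_zero (by rw [h1]; exact one_ne_zero)
  · refine le_order_of ?_ h2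
    intro h0
    rw [h0] at h1
    simp at h1

theorem jqModC_ne_zero (K : Type*) [Field K] : jqModC K ≠ 0 := by
  intro h
  have := order_jqModC K
  rw [h] at this
  simp at this

theorem exists_isInf {K : Type*} [Field K] (F : IntermediateField K (LaurentSeries K))
    (hj : jqModC K ∈ F) : ∃ P : Place K F, IsInf P := by
  have hφ : ∀ a : K, (F.val.toRingHom) (algebraMap K F a) =
      algebraMap K (LaurentSeries K) a := fun a => rfl
  have ht : ∃ t : F, (F.val.toRingHom t).order = 1 := by
    refine ⟨⟨jqModC K, hj⟩⁻¹, ?_⟩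
    have h0 : F.val.toRingHom (⟨jqModC K, hj⟩⁻¹ : F) = (jqModC K)⁻¹ :=
      IntermediateField.coe_inv _ _
    rw [h0]
    have h1 : (jqModC K)⁻¹ ≠ 0 := inv_ne_zero (jqModC_ne_zero K)
    have h2 := HahnSeries.order_mul (jqModC_ne_zero K) h1
    rw [mul_inv_cancel₀ (jqModC_ne_zero K), HahnSeries.order_one, order_jqModC] at h2
    omega
  exact ⟨H90.laurentPlace F.val.toRingHom hφ ht, fun f => H90.laurentPlace_ord _ hφ ht f⟩

theorem jqModC_mem_intL {L : Type*} [Field L] (A : ValuationSubring L) :
    jqModC L ∈ intL A := ⟨jqModC A, coeffMap_jqModC A.subtype⟩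

/-- The inverse of `j` is an integral power series. -/
theorem jqModC_inv_mem_intL {L : Type*} [Field L] (A : ValuationSubring L) :
    (jqModC L)⁻¹ ∈ intL A := by
  have h1 : IsUnit (jqModC A) := by
    rw [HahnSeries.isUnit_iff]
    have hc : (jqModC A).coeff (-1) = 1 := coeff_jqModC_neg_one A
    have hlt : ∀ m : ℤ, m < -1 → (jqModC A).coeff m = 0 := fun m hm => coeff_jqModC_of_lt A hm
    have h0 : jqModC A ≠ 0 := by
      intro h0
      rw [h0] at hc
      simp at hc
    have hord : (jqModC A).order = -1 := by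
      apply le_antisymm
      · exact HahnSeries.order_le_of_coeff_ne_zero (by rw [hc]; exact one_ne_zero)
      · exact le_order_of h0 hlt
    rw [HahnSeries.leadingCoeff_eq, hord, hc]
    exact isUnit_one
  obtain ⟨y, hy⟩ := h1.exists_right_inv
  refine ⟨y, ?_⟩
  have h2 := congrArg (coeffMap A.subtype) hy
  rw [map_mul, coeffMap_jqModC, map_one] at h2
  exact eq_inv_of_mul_eq_one_right h2

section Unit

variable {L : Type*} [Field L] {A : ValuationSubring L} {k : Type*} [Field k] {π : A →+* k}

/-- A series with nonzero reduction has a unit coefficient. -/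
theorem exists_unit_coeff [IsLocalHom π] {y : LaurentSeries A} (h : coeffMap π y ≠ 0) :
    ∃ n, ¬ ∀ h : (coeffMap A.subtype y).coeff n ∈ A,
      ¬ IsUnit (⟨(coeffMap A.subtype y).coeff n, h⟩ : A) := by
  have : ∃ n, (coeffMap π y).coeff n ≠ 0 := by
    by_contra h1
    push Not at h1
    exact h (by ext n; rw [h1, HahnSeries.coeff_zero])
  obtain ⟨n, hn⟩ := this
  refine ⟨n, fun h1 => ?_⟩
  rw [coeffMap_coeff] at hn
  have h2 : IsUnit (y.coeff n) := (isUnit_map_iff π _).mp (isUnit_iff_ne_zero.mpr hn)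
  have h3 : (coeffMap A.subtype y).coeff n = (y.coeff n : L) := coeffMap_coeff _ _ _
  have h4 : (coeffMap A.subtype y).coeff n ∈ A := h3 ▸ (y.coeff n).2
  apply h1 h4
  have h5 : (⟨(coeffMap A.subtype y).coeff n, h4⟩ : A) = y.coeff n := Subtype.ext h3
  rw [h5]
  exact h2

/-- Gauss integrality of a Laurent series. -/
def GaussInt (π : A →+* k) (f : LaurentSeries L) : Prop :=
  ∃ y z : LaurentSeries A, coeffMap π z ≠ 0 ∧ f * coeffMap A.subtype z = coeffMap A.subtype y

theorem gaussInt_of_mem_loc {f : LaurentSeries L} (h : f ∈ (H42.laurentRed A π).loc) :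
    GaussInt π f := by
  obtain ⟨⟨_, y, rfl⟩, ⟨_, z, rfl⟩, hz, hf⟩ := h
  refine ⟨y, z, fun h0 => hz ?_, hf⟩
  exact (H42.laurentRed_ρ A π z ⟨z, rfl⟩).trans h0

/-- Bounded Gauss integral series are integral. -/
theorem GaussInt.mem_intL [IsLocalHom π] (arch : Arch A) {f : LaurentSeries L}
    (h : GaussInt π f) (hb : f ∈ bddL A) : f ∈ intL A := by
  obtain ⟨y, z, hz, hf⟩ := h
  obtain ⟨c, hc, hcf⟩ := hb
  exact mem_intL_of_bounded arch (c := (c : L)) (fun h0 => hc (Subtype.ext h0)) hcf ⟨z, rfl⟩
    (exists_unit_coeff hz) ⟨y, hf.symm⟩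

end Unit

section Cusp

variable {L : Type*} [Field L] [Algebra ℚ L] [IsAlgClosed L] {A : ValuationSubring L}
  {k : Type*} [Field k] [IsAlgClosed k] {π : A →+* k} {N : ℕ} {hπ : Function.Surjective π}
  [IsLocalHom π] {hdeg : H42.DegLE L k N}

omit [IsAlgClosed L] [IsAlgClosed k] in
theorem isFF_left (hdeg : H42.DegLE L k N) :
    H3RR.IsFF L (laurentBaseChange L (modularFunctionFieldFull N)) :=
  ⟨(H42.funField_left N hdeg).out⟩

theorem jqModC_mem_bar (L : Type*) [Field L] [Algebra ℚ L] (N : ℕ) :
    jqModC L ∈ laurentBaseChange L (modularFunctionFieldFull N) := by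
  rw [H42.laurentBaseChange_full]; exact jqModC_mem_full L N

omit [IsAlgClosed L] [IsAlgClosed k] in
theorem gaussInt_of_mem_B {b : laurentBaseChange L (modularFunctionFieldFull N)}
    (hb : b ∈ (H42.modReductionData A π N hπ hdeg).B) : GaussInt π (b : LaurentSeries L) := by
  obtain ⟨y, z, hz, h⟩ := hb
  obtain ⟨y', hy'⟩ := (H42.mem_modGauss_B A π N hπ hdeg).mp y.2
  obtain ⟨z', hz'⟩ := (H42.mem_modGauss_B A π N hπ hdeg).mp z.2
  refine ⟨y', z', ?_, ?_⟩
  · intro h0
    apply hz
    apply Subtype.ext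
    obtain ⟨z₁, hz₁⟩ := z
    obtain ⟨z₂, hz₂⟩ := z₁
    obtain rfl : coeffMap A.subtype z' = z₂ := hz'
    exact (H42.coe_modGauss_ρ A π N hπ hdeg z' hz₂).trans h0
  · rw [hy', hz']
    have := congrArg (fun t : laurentBaseChange L (modularFunctionFieldFull N) =>
      (t : LaurentSeries L)) h
    simpa using this

omit [IsAlgClosed L] [IsAlgClosed k] in
/-- The reduction of an integral expansion. -/
theorem coe_ρ_of_eq {b : laurentBaseChange L (modularFunctionFieldFull N)}
    (hb : b ∈ (H42.modReductionData A π N hπ hdeg).B) {y : LaurentSeries A}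
    (hy : coeffMap A.subtype y = b) :
    (((H42.modReductionData A π N hπ hdeg).ρ ⟨b, hb⟩ : modularFunctionFieldFullC k N) :
      LaurentSeries k) = coeffMap π y := by
  obtain ⟨b₁, hb₁⟩ := b
  obtain rfl : coeffMap A.subtype y = b₁ := hy
  rw [H42.modReductionData_ρ A π N hπ hdeg y hb₁
    (H42.coeffMap_mem_full A π N hπ hdeg y hb₁) hb]

omit [IsAlgClosed L] [IsAlgClosed k] in
theorem mem_B_of_eq {b : laurentBaseChange L (modularFunctionFieldFull N)}
    {y : LaurentSeries A} (hy : coeffMap A.subtype y = b) :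
    b ∈ (H42.modReductionData A π N hπ hdeg).B := by
  have h1 : b ∈ (H42.modGauss A π N hπ hdeg).B := (H42.mem_modGauss_B A π N hπ hdeg).mpr ⟨y, hy⟩
  exact (H42.modGauss A π N hπ hdeg).le_loc h1

local notation "FB" => laurentBaseChange L (modularFunctionFieldFull N)

omit [IsAlgClosed k] in
/-- The cusp `∞` reduces to the cusp `∞`. -/
theorem red_inf (arch : Arch A) {g c : ℤ}
    (hE : H40.RiemannFor k (modularFunctionFieldFullC k N) g c)
    {r : Place L (laurentBaseChange L (modularFunctionFieldFull N)) →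
      Place k (modularFunctionFieldFullC k N)}
    (hr : ∀ D : Divisor L (laurentBaseChange L (modularFunctionFieldFull N)),
      c < Divisor.degree D →
        (H42.modReductionData A π N hπ hdeg).IsRed D (Finsupp.mapDomain r D))
    (hdF : ∀ v : Place L (laurentBaseChange L (modularFunctionFieldFull N)), v.deg = 1)
    (hdE : ∀ v : Place k (modularFunctionFieldFullC k N), v.deg = 1)
    {P₀ : Place L (laurentBaseChange L (modularFunctionFieldFull N))} (hP₀ : IsInf P₀)
    {P : Place k (modularFunctionFieldFullC k N)} (hP : IsInf P) : r P₀ = P := by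
  classical
  have := isFF_left (L := L) (k := k) (N := N) hdeg
  have := H42.funField_left (L := L) (k := k) N hdeg
  by_contra hne
  set j : FB := ⟨jqModC L, jqModC_mem_bar L N⟩ with hj
  have hjtr : Transcendental L j := by
    intro h1
    exact H42.transcendental_jqModC L (h1.algHom (FB).val)
  have hj0 : j ≠ 0 := by
    rintro h
    rw [h] at hjtr
    exact hjtr isAlgebraic_zero
  obtain ⟨Q, hQ⟩ := H18.exists_ord_pos (F := FB) hjtr
  have hPj : P₀.ord j = -1 := by rw [hP₀]; exact order_jqModC L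
  have hQP : P₀ ≠ Q := by rintro rfl; omega
  -- the divisor
  set n : ℤ := |c| + 2 with hn
  have hn0 : 0 < n := by have := abs_nonneg c; omega
  set D : Divisor L FB := Finsupp.single Q n - Finsupp.single P₀ 1 with hD
  have hdD : Divisor.degree D = n - 1 := by
    rw [hD, map_sub, Divisor.degree_single, Divisor.degree_single, hdF, hdF]; simp
  have hcD : c < Divisor.degree D := by rw [hdD]; have := le_abs_self c; omega
  obtain ⟨hred1, hred2⟩ := hr D hcD
  set E := Finsupp.mapDomain r D with hE'
  have hEeq : E = Finsupp.single (r Q) n - Finsupp.single (r P₀) 1 := by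
    rw [hE', hD, ← Finsupp.mapDomain.addMonoidHom_apply, map_sub]
    simp only [Finsupp.mapDomain.addMonoidHom_apply, Finsupp.mapDomain_single]
  obtain ⟨e, heE, he0, heP⟩ := H40.exists_ord_eq hE hdE (D := E) (by rw [hred1]; exact hcD) P
  rw [← hred2] at heE
  obtain ⟨b, hbD, rfl⟩ := heE
  have hb0 : (b : FB) ≠ 0 := (H42.modReductionData A π N hπ hdeg).ne_zero_of_ρ_ne_zero he0
  rw [H40.mem_L hb0] at hbD
  -- `b` is bounded
  have hbdd : ((b : FB) : LaurentSeries L) ∈ bddL A := by
    refine mem_bddL_of_regular arch N FB (by rw [H42.laurentBaseChange_full])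
      (x := j⁻¹) (f := (b : FB)) ?_ ?_
    · apply intL_le_bddL
      rw [IntermediateField.coe_inv]
      exact jqModC_inv_mem_intL A
    · intro v hv
      have h1 : 0 ≤ v.ord j⁻¹ := H94.ord_nonneg_of_mem _ hv
      rw [v.ord_inv] at h1
      have hvQ : v ≠ Q := by rintro rfl; omega
      apply H94.mem_of_ord_nonneg
      have h2 := hbD v
      rw [hD, Finsupp.sub_apply, Finsupp.single_apply, Finsupp.single_apply,
        if_neg (Ne.symm hvQ)] at h2
      split_ifs at h2 <;> omega
  have hbint := (gaussInt_of_mem_B b.2).mem_intL arch hbdd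
  obtain ⟨y, hy⟩ := hbint
  have hρ := coe_ρ_of_eq (hπ := hπ) (hdeg := hdeg) b.2 hy
  -- order of `b` at `P₀`
  have hbP := hbD P₀
  rw [hD, Finsupp.sub_apply, Finsupp.single_apply, Finsupp.single_apply, if_neg (Ne.symm hQP),
    if_pos rfl, hP₀] at hbP
  have hcoeff : ∀ m < (1 : ℤ), (coeffMap π y).coeff m = 0 := by
    intro m hm
    have h1 : (coeffMap A.subtype y).coeff m = 0 := by
      rw [hy]
      exact HahnSeries.coeff_eq_zero_of_lt_order (by omega)
    rw [coeffMap_coeff] at h1 ⊢
    have h2 : y.coeff m = 0 := Subtype.ext h1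
    rw [h2, map_zero]
  have heord : 1 ≤ P.ord ((H42.modReductionData A π N hπ hdeg).ρ b) := by
    rw [hP, hρ]
    refine le_order_of ?_ hcoeff
    rw [← hρ]
    intro h0
    exact he0 (Subtype.ext h0)
  rw [heP, hEeq, Finsupp.sub_apply, Finsupp.single_apply, Finsupp.single_apply, if_neg hne] at heord
  split_ifs at heord <;> omega

end Cusp

end Fermat.Agent.H97
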