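import Fermat.Agent.H97InfC
import Fermat.Agent.H88Trace
import Fermat.Agent.H60Norm

/-!
# The trace from level `m q` to level `m`
-/

set_option autoImplicit false

open ModularCurve IntermediateField Polynomial AlgebraicCurve WithZero

namespace Fermat.Agent.H97

/-- The trace as a sum over a family of distinct embeddings of the right cardinality. -/
theorem map_trace_eq_sum {F F' E : Type*} [Field F] [Field F'] [Field E] [Algebra F F']
    [FiniteDimensional F F'] [Algebra.IsSeparable F F'] (j : F →+* E) {ι : Type*} [Fintype ι]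
    (σ : ι → (F' →+* E)) (hj : ∀ i x, σ i (algebraMap F F' x) = j x)
    (hσ : Function.Injective σ)
    (hcard : Module.finrank F F' ≤ Fintype.card ι) (z : F') :
    j (Algebra.trace F F' z) = ∑ i, σ i z := by
  classical
  let _ : Algebra F E := j.toAlgebra
  let s : ι → (F' →ₐ[F] E) := fun i => { σ i with commutes' := fun x => hj i x }
  have hs : Function.Injective s := by
    intro i i' h
    apply hσ
    ext x
    exact DFunLike.congr_fun h x
  let Ω := AlgebraicClosure E
  let e0 : E →ₐ[F] Ω := IsScalarTower.toAlgHom F E Ω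
  have he0 : Function.Injective e0 := e0.toRingHom.injective
  apply he0
  let e : ι → (F' →ₐ[F] Ω) := fun i => e0.comp (s i)
  have he : Function.Injective e := by
    intro i i' h
    apply hs
    ext x
    exact he0 (DFunLike.congr_fun h x)
  have hcard' : Fintype.card (F' →ₐ[F] Ω) = Module.finrank F F' := AlgHom.card F F' Ω
  have hbij : Function.Bijective e := by
    rw [Fintype.bijective_iff_injective_and_card]
    refine ⟨he, le_antisymm (Fintype.card_le_of_injective e he) ?_⟩
    rw [hcard']; exact hcard
  have h1 : e0 (j (Algebra.trace F F' z)) = algebraMap F Ω (Algebra.trace F F' z) :=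
    (IsScalarTower.algebraMap_apply F E Ω (Algebra.trace F F' z)).symm
  rw [h1, trace_eq_sum_embeddings Ω, map_sum]
  exact (hbij.sum_comp (fun τ : F' →ₐ[F] Ω => τ z)).symm

section TraceVal

variable {K : Type*} [Field K] {E F : Type*} [Field E] [Field F] [Algebra K E] [Algebra K F]
  [Algebra E F] [IsScalarTower K E F]

/-- If `h` is regular at all places of `F` above `v`, then its trace is regular at `v`. -/
theorem trace_mem [FiniteDimensional E F] [Algebra.IsSeparable E F] [H3RR.IsFF K F]
    (v : Place K E) {h : F}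
    (hh : ∀ w : Place K F, (∀ e : E, e ∈ v.toValuationSubring ↔
      algebraMap E F e ∈ w.toValuationSubring) → h ∈ w.toValuationSubring) :
    Algebra.trace E F h ∈ v.toValuationSubring := by
  obtain ⟨e, he0, he⟩ := H3RR.adicValuation_surjective_exp v (-1)
  have h1 := H88.trace_lt_one (K := K) v (h := algebraMap E F e * h) (fun w hw => by
    have h2 : w.adicValuation (algebraMap E F e) < 1 := by
      have h3 : algebraMap E F e⁻¹ ∉ w.toValuationSubring := by
        rw [← hw, H3RR.mem_iff_adicValuation_le_one, map_inv₀, he]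
        intro h4
        rw [← exp_neg, ← exp_zero, exp_le_exp] at h4
        omega
      rw [H3RR.mem_iff_adicValuation_le_one, map_inv₀, map_inv₀, not_le] at h3
      have h5 : w.adicValuation (algebraMap E F e) ≠ 0 := by
        rw [Valuation.ne_zero_iff]; exact (_root_.map_ne_zero _).mpr he0
      exact (one_lt_inv₀ (zero_lt_iff.mpr h5)).mp h3
    have h6 : w.adicValuation h ≤ 1 := (H3RR.mem_iff_adicValuation_le_one w).mp (hh w hw)
    rw [map_mul]
    calc w.adicValuation (algebraMap E F e) * w.adicValuation h
        ≤ w.adicValuation (algebraMap E F e) * 1 := mul_le_mul_right h6 _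
      _ < 1 := by rw [mul_one]; exact h2)
  rw [← Algebra.smul_def, map_smul, smul_eq_mul, map_mul, he] at h1
  rw [H3RR.mem_iff_adicValuation_le_one]
  by_contra h7
  rw [not_le] at h7
  have h8 : exp (1 : ℤ) ≤ v.adicValuation (Algebra.trace E F h) := by
    have h9 : v.adicValuation (Algebra.trace E F h) ≠ 0 := (zero_lt_one.trans h7).ne'
    rw [← exp_log h9] at h7 ⊢
    rw [← exp_zero, exp_lt_exp] at h7
    rw [exp_le_exp]; omega
  have h10 : (1 : ℤᵐ⁰) ≤ exp (-1 : ℤ) * v.adicValuation (Algebra.trace E F h) := by
    calc (1 : ℤᵐ⁰) = exp (-1 : ℤ) * exp (1 : ℤ) := by rw [← exp_add]; simp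
      _ ≤ _ := mul_le_mul_right h8 _
  exact absurd h1 (not_lt.mpr h10)

end TraceVal

section Trace

variable {L : Type*} [Field L] [Algebra ℚ L] [CharZero L] {N ℓ : ℕ} [NeZero N] [NeZero ℓ]

/-- The trace along an embedding of fields. -/
noncomputable def traceAlong {K F F' : Type*} [Field K] [Field F] [Field F'] [Algebra K F]
    [Algebra K F'] (φ : F →ₐ[K] F') (z : F') : F :=
  letI := algebraAlong φ
  Algebra.trace F F' z

/-- **The trace formula in terms of expansions.** -/
theorem coeff_traceAlong
    {w : laurentBaseChange L (modularFunctionFieldFull (N * ℓ)) →+* LaurentSeries L}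
    (hw : H60.IsSwap w) (hℓ : 1 < ℓ) {ζ : Lˣ}
    (hζ : IsPrimitiveRoot ζ ℓ)
    (hfin : FiniteAlong L (heckeAlphaBar L N ℓ))
    (hdeg : finrankAlong L (heckeAlphaBar L N ℓ) ≤ ℓ + 1)
    (x : laurentBaseChange L (modularFunctionFieldFull (N * ℓ))) (n : ℤ) :
    ((traceAlong (heckeAlphaBar L N ℓ) x :
        laurentBaseChange L (modularFunctionFieldFull N)) : LaurentSeries L).coeff n =
      (x : LaurentSeries L).coeff n + ℓ * (w x).coeff (ℓ * n) := by
  letI := algebraAlong (heckeAlphaBar L N ℓ)
  haveI : FiniteDimensional (laurentBaseChange L (modularFunctionFieldFull N))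
    (laurentBaseChange L (modularFunctionFieldFull (N * ℓ))) := hfin
  haveI : CharZero (laurentBaseChange L (modularFunctionFieldFull N)) :=
    charZero_of_injective_algebraMap
      (algebraMap L (laurentBaseChange L (modularFunctionFieldFull N))).injective
  have h := map_trace_eq_sum
    (F := laurentBaseChange L (modularFunctionFieldFull N))
    (F' := laurentBaseChange L (modularFunctionFieldFull (N * ℓ)))
    (E := LaurentSeries L)
    ((qExpand L ℓ).comp (algebraMap (laurentBaseChange L (modularFunctionFieldFull N))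
      (LaurentSeries L)))
    (H60.heckeEmb w ζ)
    (fun o x => H60.heckeEmb_alpha hw hζ.pow_eq_one o x)
    (H60.heckeEmb_injective hw hℓ hζ)
    (by
      rw [Fintype.card_option, Fintype.card_fin]
      exact hdeg)
    x
  have h2 : qExpand L ℓ ((traceAlong (heckeAlphaBar L N ℓ) x :
        laurentBaseChange L (modularFunctionFieldFull N)) : LaurentSeries L) =
      ∑ i, H60.heckeEmb w ζ i x := h
  have h3 := congrArg (fun t : LaurentSeries L => t.coeff (ℓ * n)) h2
  simp only [qExpand_coeff_mul] at h3
  rw [h3, Fintype.sum_option, H60.heckeEmb_none, HahnSeries.coeff_add, qExpand_coeff_mul,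
    HahnSeries.coeff_sum]
  congr 1
  have h4 : ∀ i : Fin ℓ, (H60.heckeEmb w ζ (some i) x).coeff (ℓ * n) = (w x).coeff (ℓ * n) := by
    intro i
    rw [H60.heckeEmb_some, H60.twist_coeff]
    have h5 : ((ζ ^ (i : ℕ)) ^ ((ℓ : ℤ) * n) : Lˣ) = 1 := by
      rw [zpow_mul, zpow_natCast, ← pow_mul, mul_comm, pow_mul, hζ.pow_eq_one, one_pow, one_zpow]
    rw [h5, Units.val_one, one_mul]
  rw [Finset.sum_congr rfl fun i _ => h4 i, Finset.sum_const, Finset.card_univ, Fintype.card_fin,
    nsmul_eq_mul]

end Trace

end Fermat.Agent.H97
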