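import Fermat.Agent.H97InfD
import Fermat.Agent.H88Norm

/-!
# Poles specialise, and lifting: level `N ℓ` in residue characteristic `ℓ`
-/

set_option autoImplicit false
set_option linter.unusedSectionVars false

open ModularCurve IntermediateField Polynomial AlgebraicCurve WithZero

namespace Fermat.Agent.H97

theorem place_ext {K F : Type*} [Field K] [Field F] [Algebra K F] {v w : Place K F}
    (h : ∀ f, v.ord f = w.ord f) : v = w := by
  apply Place.ext
  ext f
  exact ⟨fun hf => H94.mem_of_ord_nonneg _ (h f ▸ H94.ord_nonneg_of_mem _ hf),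
    fun hf => H94.mem_of_ord_nonneg _ (h f ▸ H94.ord_nonneg_of_mem _ hf)⟩

theorem mem_iff_ord_nonneg {K F : Type*} [Field K] [Field F] [Algebra K F] (v : Place K F)
    {f : F} : f ∈ v.toValuationSubring ↔ 0 ≤ v.ord f :=
  ⟨H94.ord_nonneg_of_mem _, H94.mem_of_ord_nonneg _⟩

/-- The translate of a place by an automorphism. -/
theorem exists_comap_place {K F : Type*} [Field K] [Field F] [Algebra K F] (W : F ≃ₐ[K] F)
    (v : Place K F) : ∃ v' : Place K F, ∀ f, v'.ord f = v.ord (W f) := by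
  obtain ⟨t, ht0, ht⟩ := H3RR.adicValuation_surjective_exp v (-1)
  have hK : ∀ a : K, (v.adicValuation.comap (W : F →+* F)) (algebraMap K F a) ≤ 1 := by
    intro a
    have h1 : (v.adicValuation.comap (W : F →+* F)) (algebraMap K F a) =
        v.adicValuation (W (algebraMap K F a)) := rfl
    rw [h1, W.commutes]
    exact v.adicValuation_algebraMap_le_one a
  have hex : ∃ t : F, (v.adicValuation.comap (W : F →+* F)) t = exp (-1 : ℤ) := by
    refine ⟨W.symm t, ?_⟩
    have h1 : (v.adicValuation.comap (W : F →+* F)) (W.symm t) =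
        v.adicValuation (W (W.symm t)) := rfl
    rw [h1, W.apply_symm_apply, ht]
  refine ⟨H90.placeOfVal _ hK hex, fun f => ?_⟩
  rw [H90.placeOfVal_ord]
  change -(WithZero.log (v.adicValuation (W f))) = v.ord (W f)
  by_cases h0 : W f = 0
  · rw [h0]; simp
  · rw [v.adicValuation_eq_exp_neg_ord h0, log_exp, neg_neg]

/-- The function field of `X_0(M)`. -/
noncomputable abbrev FF (L : Type*) [Field L] [Algebra ℚ L] (M : ℕ) : IntermediateField L (LaurentSeries L) :=
  laurentBaseChange L (modularFunctionFieldFull M)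

theorem order_qExpand' {K : Type*} [Field K] (m : ℕ) [NeZero m] (x : LaurentSeries K) :
    (qExpand K m x).order = m * x.order := by
  by_cases hx : x = 0
  · simp [hx]
  have h1 : (qExpand K m x).coeff (m * x.order) ≠ 0 := by
    rw [qExpand_coeff_mul]
    exact fun h => hx (HahnSeries.coeff_order_eq_zero.1 h)
  have hm : (0 : ℤ) < m := by exact_mod_cast Nat.pos_of_ne_zero (NeZero.ne m)
  apply le_antisymm
  · exact HahnSeries.order_le_of_coeff_ne_zero h1
  · refine le_order_of (HahnSeries.ne_zero_of_coeff_ne_zero h1) ?_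
    intro i hi
    by_cases hd : (m : ℤ) ∣ i
    · obtain ⟨k, rfl⟩ := hd
      rw [qExpand_coeff_mul]
      exact HahnSeries.coeff_eq_zero_of_lt_order (lt_of_mul_lt_mul_left hi hm.le)
    · exact qExpand_coeff_of_not_dvd m x hd

section Level

variable {L : Type*} [Field L] [Algebra ℚ L] [CharZero L] [IsAlgClosed L] {A : ValuationSubring L}
  {k : Type*} [Field k] [IsAlgClosed k] {π : A →+* k} {N ℓ : ℕ} [NeZero N] [NeZero ℓ]

variable (L N ℓ) in
/-- The hypotheses on the Atkin–Lehner automorphism and on the two cusps. -/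
structure SwapData (W : FF L (N * ℓ) ≃ₐ[L] FF L (N * ℓ)) (P₀ : Place L (FF L N)) (P₁ P₂ : Place L (FF L (N * ℓ))) : Prop where
  alpha : ∀ x, W (heckeAlphaBar L N ℓ x) = heckeBetaBar L N ℓ x
  invol : ∀ x, W (W x) = x
  inf₀ : IsInf P₀
  inf₁ : IsInf P₁
  ord₂ : ∀ f : FF L (N * ℓ), P₂.ord f = P₁.ord (W f)

variable {W : FF L (N * ℓ) ≃ₐ[L] FF L (N * ℓ)} {P₀ : Place L (FF L N)} {P₁ P₂ : Place L (FF L (N * ℓ))}

namespace SwapData


theorem beta (h : SwapData L N ℓ W P₀ P₁ P₂) (x : FF L N) :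
    W (heckeBetaBar L N ℓ x) = heckeAlphaBar L N ℓ x := by
  rw [← h.alpha, h.invol]

theorem ord_W (h : SwapData L N ℓ W P₀ P₁ P₂) (f : FF L (N * ℓ)) : P₂.ord (W f) = P₁.ord f := by
  rw [h.ord₂, h.invol]

theorem ord_alpha (h : SwapData L N ℓ W P₀ P₁ P₂) (x : FF L N) :
    P₁.ord (heckeAlphaBar L N ℓ x) = P₀.ord x := by
  rw [h.inf₁, h.inf₀, coe_heckeAlphaBar]

theorem ord_alpha' (h : SwapData L N ℓ W P₀ P₁ P₂) (x : FF L N) :
    P₂.ord (heckeAlphaBar L N ℓ x) = ℓ * P₀.ord x := by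
  rw [h.ord₂, h.alpha, h.inf₁, h.inf₀, coe_heckeBetaBar, order_qExpand']

theorem ord_beta (h : SwapData L N ℓ W P₀ P₁ P₂) (x : FF L N) :
    P₁.ord (heckeBetaBar L N ℓ x) = ℓ * P₀.ord x := by
  rw [← h.alpha, ← h.ord₂, h.ord_alpha']

theorem ord_beta' (h : SwapData L N ℓ W P₀ P₁ P₂) (x : FF L N) :
    P₂.ord (heckeBetaBar L N ℓ x) = P₀.ord x := by
  rw [← h.alpha, h.ord_W, h.ord_alpha]

/-- the `j`-function at level `N` -/
noncomputable def j₀ : FF L N := ⟨jqModC L, jqModC_mem_bar L N⟩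

theorem ord_j₀ (h : SwapData L N ℓ W P₀ P₁ P₂) : P₀.ord j₀ = -1 := by
  rw [h.inf₀]; exact order_jqModC L

theorem ne (h : SwapData L N ℓ W P₀ P₁ P₂) (hℓ : 1 < ℓ) : P₁ ≠ P₂ := by
  intro he
  have h1 := h.ord_alpha j₀
  have h2 := h.ord_alpha' j₀
  rw [← he, h1, h.ord_j₀] at h2
  have : (1 : ℤ) < ℓ := by exact_mod_cast hℓ
  omega

/-- A function with poles at most at `P₁` and `P₂` is bounded. -/
theorem mem_bddL (h : SwapData L N ℓ W P₀ P₁ P₂) [H3RR.IsFF L (FF L (N * ℓ))] (arch : Arch A) {f : FF L (N * ℓ)}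
    (hf : ∀ v : Place L (FF L (N * ℓ)), v ≠ P₁ → v ≠ P₂ → f ∈ v.toValuationSubring) :
    (f : LaurentSeries L) ∈ bddL A := by
  refine mem_bddL_of_regular arch (N * ℓ) (FF L (N * ℓ))
    (H42.laurentBaseChange_full L (N * ℓ)).le
    (x := heckeAlphaBar L N ℓ j₀) (f := f) ?_ ?_
  · apply intL_le_bddL
    rw [coe_heckeAlphaBar]
    exact jqModC_mem_intL A
  · intro v hv
    rw [mem_iff_ord_nonneg] at hv
    apply hf v
    · rintro rfl
      rw [h.ord_alpha, h.ord_j₀] at hv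
      omega
    · rintro rfl
      rw [h.ord_alpha', h.ord_j₀] at hv
      have : (0 : ℤ) < ℓ := by exact_mod_cast Nat.pos_of_ne_zero (NeZero.ne ℓ)
      omega

theorem comap_eq (h : SwapData L N ℓ W P₀ P₁ P₂) {v v' : Place L (FF L (N * ℓ))}
    (hv : ∀ f, v'.ord f = v.ord (W f)) : (v' = P₁ ↔ v = P₂) ∧ (v' = P₂ ↔ v = P₁) := by
  have hv' : ∀ f, v'.ord (W f) = v.ord f := fun f => by rw [hv, h.invol]
  refine ⟨⟨?_, ?_⟩, ⟨?_, ?_⟩⟩
  · rintro rfl; exact place_ext fun f => by rw [← hv', ← h.ord₂]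
  · rintro rfl; exact place_ext fun f => by rw [hv, h.ord_W]
  · rintro rfl; exact place_ext fun f => by rw [← hv', h.ord_W]
  · rintro rfl; exact place_ext fun f => by rw [hv, h.ord₂]

/-- The involution acts on Riemann–Roch spaces. -/
theorem W_mem_L (h : SwapData L N ℓ W P₀ P₁ P₂) {i j : ℤ} {f : FF L (N * ℓ)}
    (hf : f ∈ riemannRochSpace (Finsupp.single P₁ i + Finsupp.single P₂ j : Divisor L (FF L (N * ℓ)))) :
    W f ∈ riemannRochSpace (Finsupp.single P₁ j + Finsupp.single P₂ i : Divisor L (FF L (N * ℓ))) := by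
  classical
  by_cases h0 : f = 0
  · rw [h0, map_zero]; exact zero_mem _
  have hW0 : W f ≠ 0 := by rwa [ne_eq, EmbeddingLike.map_eq_zero_iff]
  rw [H40.mem_L h0] at hf
  rw [H40.mem_L hW0]
  intro v
  obtain ⟨v', hv'⟩ := exists_comap_place W v
  obtain ⟨h1, h2⟩ := h.comap_eq hv'
  have h3 := hf v'
  rw [hv'] at h3
  rw [Finsupp.add_apply, Finsupp.single_apply, Finsupp.single_apply] at h3 ⊢
  have e1 : (P₁ = v') ↔ (P₂ = v) := by rw [eq_comm, h1, eq_comm]
  have e2 : (P₂ = v') ↔ (P₁ = v) := by rw [eq_comm, h2, eq_comm]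
  simp only [e1, e2] at h3
  split_ifs at h3 ⊢ <;> omega

/-- A place above `P₀` satisfies ... -/
theorem above_P₁ (h : SwapData L N ℓ W P₀ P₁ P₂) {v : Place L (FF L N)}
    (hv : ∀ e : FF L N, e ∈ v.toValuationSubring ↔
      (heckeAlphaBar L N ℓ e : FF L (N * ℓ)) ∈ P₁.toValuationSubring) : v = P₀ := by
  apply Place.ext
  ext e
  rw [hv, mem_iff_ord_nonneg, mem_iff_ord_nonneg, h.ord_alpha]

theorem above_P₂ (h : SwapData L N ℓ W P₀ P₁ P₂) {v : Place L (FF L N)}
    (hv : ∀ e : FF L N, e ∈ v.toValuationSubring ↔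
      (heckeAlphaBar L N ℓ e : FF L (N * ℓ)) ∈ P₂.toValuationSubring) : v = P₀ := by
  apply Place.ext
  ext e
  rw [hv, mem_iff_ord_nonneg, mem_iff_ord_nonneg, h.ord_alpha']
  have : (0 : ℤ) < ℓ := by exact_mod_cast Nat.pos_of_ne_zero (NeZero.ne ℓ)
  exact mul_nonneg_iff_of_pos_left this

end SwapData

end Level

end Fermat.Agent.H97
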