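import Fermat.Agent.H97InfE

/-!
# Poles specialise, and lifting: level `N ℓ` in residue characteristic `ℓ` (main results)
-/

set_option autoImplicit false
set_option linter.unusedSectionVars false

open ModularCurve IntermediateField Polynomial AlgebraicCurve WithZero

namespace Fermat.Agent.H97

variable {L : Type*} [Field L] [Algebra ℚ L] [CharZero L] [IsAlgClosed L] {A : ValuationSubring L}
  {k : Type*} [Field k] [IsAlgClosed k] {π : A →+* k} {N ℓ : ℕ} [NeZero N] [NeZero ℓ]

variable {W : FF L (N * ℓ) ≃ₐ[L] FF L (N * ℓ)} {P₀ : Place L (FF L N)}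
  {P₁ P₂ : Place L (FF L (N * ℓ))}

namespace SwapData

/-- The swap embedding. -/
theorem isSwap (h : SwapData L N ℓ W P₀ P₁ P₂) :
    H60.IsSwap ((algebraMap (FF L (N * ℓ)) (LaurentSeries L)).comp
      (W : FF L (N * ℓ) →+* FF L (N * ℓ))) :=
  H60.IsSwap.of_algHom _ h.alpha h.beta

theorem coeff_trace (h : SwapData L N ℓ W P₀ P₁ P₂) (hℓ : 1 < ℓ)
    (hfin : FiniteAlong L (heckeAlphaBar L N ℓ))
    (hdeg : finrankAlong L (heckeAlphaBar L N ℓ) ≤ ℓ + 1) (x : FF L (N * ℓ)) (n : ℤ) :
    ((traceAlong (heckeAlphaBar L N ℓ) x : FF L N) : LaurentSeries L).coeff n =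
      (x : LaurentSeries L).coeff n + ℓ * ((W x : FF L (N * ℓ)) : LaurentSeries L).coeff (ℓ * n) := by
  have : NeZero (ℓ : L) := ⟨Nat.cast_ne_zero.mpr (NeZero.ne ℓ)⟩
  obtain ⟨ζ, hζ⟩ := HasEnoughRootsOfUnity.exists_primitiveRoot L ℓ
  have hζu : IsPrimitiveRoot (hζ.isUnit (NeZero.ne ℓ)).unit ℓ :=
    IsPrimitiveRoot.coe_units_iff.mp hζ
  exact coeff_traceAlong h.isSwap hℓ hζu hfin hdeg x n

/-- The trace of a function with poles at `P₁, P₂` only has a pole at `P₀` at most. -/
theorem trace_mem (h : SwapData L N ℓ W P₀ P₁ P₂) [H3RR.IsFF L (FF L (N * ℓ))]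
    (hfin : FiniteAlong L (heckeAlphaBar L N ℓ)) {f : FF L (N * ℓ)}
    (hf : ∀ v : Place L (FF L (N * ℓ)), v ≠ P₁ → v ≠ P₂ → f ∈ v.toValuationSubring)
    {v : Place L (FF L N)} (hv : v ≠ P₀) :
    traceAlong (heckeAlphaBar L N ℓ) f ∈ v.toValuationSubring := by
  letI := algebraAlong (heckeAlphaBar L N ℓ)
  haveI := isScalarTower_along (heckeAlphaBar L N ℓ)
  haveI : FiniteDimensional (FF L N) (FF L (N * ℓ)) := hfin
  haveI : CharZero (FF L N) :=
    charZero_of_injective_algebraMap (algebraMap L (FF L N)).injective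
  refine H97.trace_mem v fun w hw => hf w ?_ ?_
  · rintro rfl
    exact hv (h.above_P₁ hw)
  · rintro rfl
    exact hv (h.above_P₂ hw)

/-- Gauss integral functions with poles at `P₁`, `P₂` only are integral. -/
theorem mem_intL [IsLocalHom π] (h : SwapData L N ℓ W P₀ P₁ P₂) [H3RR.IsFF L (FF L (N * ℓ))]
    (arch : Arch A) {f : FF L (N * ℓ)}
    (hf : ∀ v : Place L (FF L (N * ℓ)), v ≠ P₁ → v ≠ P₂ → f ∈ v.toValuationSubring)
    (hg : GaussInt π (f : LaurentSeries L)) : (f : LaurentSeries L) ∈ intL A :=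
  hg.mem_intL arch (h.mem_bddL arch hf)

theorem regular_of_mem_L {i j : ℤ} {f : FF L (N * ℓ)}
    (hf : f ∈ riemannRochSpace (Finsupp.single P₁ i + Finsupp.single P₂ j :
      Divisor L (FF L (N * ℓ)))) (v : Place L (FF L (N * ℓ))) (h1 : v ≠ P₁) (h2 : v ≠ P₂) :
    f ∈ v.toValuationSubring := by
  classical
  by_cases h0 : f = 0
  · rw [h0]; exact zero_mem _
  rw [H40.mem_L h0] at hf
  have := hf v
  rw [Finsupp.add_apply, Finsupp.single_apply, Finsupp.single_apply, if_neg (Ne.symm h1),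
    if_neg (Ne.symm h2)] at this
  rw [mem_iff_ord_nonneg]
  omega

variable (hπ : Function.Surjective π) [IsLocalHom π] (hdeg : H42.DegLE L k N)

/-- **Poles specialise.** -/
theorem red_mem (h : SwapData L N ℓ W P₀ P₁ P₂) [H3RR.IsFF L (FF L (N * ℓ))] (arch : Arch A)
    (hℓ : 1 < ℓ) (hℓk : (ℓ : k) = 0)
    (hfin : FiniteAlong L (heckeAlphaBar L N ℓ))
    (hfr : finrankAlong L (heckeAlphaBar L N ℓ) ≤ ℓ + 1)
    [HasPrincipalDivisors L (FF L N)]
    {r : Place L (FF L N) → Place k (modularFunctionFieldFullC k N)}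
    (hr : H34.GR.DivCompat (H42.modReductionData A π N hπ hdeg) r)
    {P : Place k (modularFunctionFieldFullC k N)} (hP : IsInf P) (hrP : r P₀ = P)
    {i j : ℤ} {f : FF L (N * ℓ)}
    (hf : f ∈ riemannRochSpace (Finsupp.single P₁ i + Finsupp.single P₂ j :
      Divisor L (FF L (N * ℓ))))
    (hg₁ : GaussInt π (f : LaurentSeries L))
    (hg₂ : GaussInt π ((W f : FF L (N * ℓ)) : LaurentSeries L)) :
    ∃ y : LaurentSeries A, coeffMap A.subtype y = f ∧
      ∃ hy : coeffMap π y ∈ modularFunctionFieldFullC k N,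
        (⟨coeffMap π y, hy⟩ : modularFunctionFieldFullC k N) ∈
          riemannRochSpace (Finsupp.single P i :
            Divisor k (modularFunctionFieldFullC k N)) := by
  classical
  obtain ⟨y, hy⟩ := h.mem_intL arch (regular_of_mem_L hf) hg₁
  obtain ⟨y', hy'⟩ := h.mem_intL arch (regular_of_mem_L (h.W_mem_L hf)) hg₂
  refine ⟨y, hy, ?_⟩
  set T : FF L N := traceAlong (heckeAlphaBar L N ℓ) f with hT
  -- coefficients of the trace
  have hTc : ∀ n, ((T : FF L N) : LaurentSeries L).coeff n =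
      ((y.coeff n + ℓ * y'.coeff (ℓ * n) : A) : L) := by
    intro n
    rw [hT, h.coeff_trace hℓ hfin hfr, ← hy, ← hy', coeffMap_coeff, coeffMap_coeff]
    rfl
  have hTint : ((T : FF L N) : LaurentSeries L) ∈ intL A := by
    rw [H97.mem_intL]
    intro n
    rw [hTc]
    exact Subtype.mem _
  obtain ⟨t, ht⟩ := hTint
  have htc : ∀ n, t.coeff n = y.coeff n + ℓ * y'.coeff (ℓ * n) := by
    intro n
    apply Subtype.ext
    rw [← hTc, ← ht, coeffMap_coeff]
    rfl
  have hty : coeffMap π t = coeffMap π y := by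
    ext n
    rw [coeffMap_coeff, coeffMap_coeff, htc, map_add, map_mul, map_natCast, hℓk, zero_mul,
      add_zero]
  have htF : coeffMap A.subtype t ∈ laurentBaseChange L (modularFunctionFieldFull N) := by
    rw [ht]; exact T.2
  have hymem : coeffMap π y ∈ modularFunctionFieldFullC k N := by
    rw [← hty]
    exact H42.coeffMap_mem_full A π N hπ hdeg t htF
  refine ⟨hymem, ?_⟩
  by_cases h0 : coeffMap π y = 0
  · have : (⟨coeffMap π y, hymem⟩ : modularFunctionFieldFullC k N) = 0 := Subtype.ext h0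
    rw [this]
    exact zero_mem _
  have hne : (⟨coeffMap π y, hymem⟩ : modularFunctionFieldFullC k N) ≠ 0 := fun h1 =>
    h0 (congrArg Subtype.val h1)
  have hTB : T ∈ (H42.modReductionData A π N hπ hdeg).B := mem_B_of_eq ht
  have hρ : (H42.modReductionData A π N hπ hdeg).ρ ⟨T, hTB⟩ = ⟨coeffMap π y, hymem⟩ := by
    apply Subtype.ext
    rw [coe_ρ_of_eq hTB ht, hty]
  rw [H40.mem_L hne]
  intro Q
  by_cases hQ : Q = P
  · subst hQ
    rw [Finsupp.single_eq_same, hP]
    refine le_order_of h0 fun m hm => ?_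
    rw [coeffMap_coeff]
    have hf0 : f ≠ 0 := by
      rintro rfl
      apply h0
      have : y = 0 := by
        apply H42.subtype_injective' A
        rw [hy, map_zero]; rfl
      rw [this, map_zero]
    rw [H40.mem_L hf0] at hf
    have h1 := hf P₁
    rw [Finsupp.add_apply, Finsupp.single_eq_same, Finsupp.single_apply,
      if_neg (h.ne hℓ).symm, add_zero, h.inf₁] at h1
    have h2 : (f : LaurentSeries L).coeff m = 0 :=
      HahnSeries.coeff_eq_zero_of_lt_order (by omega)
    have h3 : y.coeff m = 0 := by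
      apply Subtype.ext
      rw [← hy, coeffMap_coeff] at h2
      exact h2
    rw [h3, map_zero]
  · rw [Finsupp.single_apply, if_neg (Ne.symm hQ), neg_zero, ← hρ]
    refine H34.GR.ord_red_nonneg hr (x := ⟨T, hTB⟩) (by rw [hρ]; exact hne) fun P' hP' => ?_
    have hP'0 : P' ≠ P₀ := by
      rintro rfl
      exact hQ (hP'.symm.trans hrP)
    have h1 := h.trace_mem hfin (regular_of_mem_L hf) hP'0
    exact (mem_iff_ord_nonneg _).mp h1

end SwapData

end Fermat.Agent.H97
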