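import Fermat.Agent.H97InfF

/-!
# The places above the cusp `∞` and lifting
-/

set_option autoImplicit false
set_option linter.unusedSectionVars false
set_option linter.style.haveILetI false

open ModularCurve IntermediateField Polynomial AlgebraicCurve WithZero

namespace Fermat.Agent.H97

variable {L : Type*} [Field L] [Algebra ℚ L] [CharZero L] [IsAlgClosed L] {A : ValuationSubring L}
  {k : Type*} [Field k] [IsAlgClosed k] {π : A →+* k} {N ℓ : ℕ} [NeZero N] [NeZero ℓ]

variable {W : FF L (N * ℓ) ≃ₐ[L] FF L (N * ℓ)} {P₀ : Place L (FF L N)}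
  {P₁ P₂ : Place L (FF L (N * ℓ))}

/-- Two places exhausting the fibre. -/
theorem eq_or_eq_aux {K E F : Type*} [Field K] [Field E] [Field F] [Algebra K E] [Algebra K F]
    [IsAlgClosed K] [H3RR.IsFF K E] [H3RR.IsFF K F] [Algebra E F] [IsScalarTower K E F]
    [FiniteDimensional E F] {P₀ : Place K E} {P₁ P₂ : Place K F} {e₁ e₂ : ℕ}
    (he₁ : 0 < e₁) (he₂ : 0 < e₂)
    (h₁ : ∀ x : E, P₁.ord (algebraMap E F x) = e₁ * P₀.ord x)
    (h₂ : ∀ x : E, P₂.ord (algebraMap E F x) = e₂ * P₀.ord x) (hne12 : P₁ ≠ P₂)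
    (hfr : Module.finrank E F ≤ e₁ + e₂) {y : E}
    (hy : ∀ v : Place K E, v ≠ P₀ → y ∈ v.toValuationSubring)
    {w : Place K F} (hw : algebraMap E F y ∉ w.toValuationSubring) :
    w = P₁ ∨ w = P₂ := by
  classical
  have : H94.FunField K F := H3RR.funField_of_isFF
  have : H94.FunField K E := H3RR.funField_of_isFF
  have hytr : Transcendental K (algebraMap E F y) := by
    intro halg
    obtain ⟨c, hc⟩ := H3RR.exists_const_of_isAlgebraic halg
    exact hw (hc ▸ w.algebraMap_mem' c)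
  have hytr₀ : Transcendental K y := by
    intro halg
    exact hytr (halg.algHom (IsScalarTower.toAlgHom K E F))
  by_contra hne
  push Not at hne
  -- downstairs
  have h1 := H18.sum_ord_neg (K := K) hytr₀
  have hP₀ : P₀.ord y < 0 := by
    obtain ⟨v, hv⟩ := H18.exists_ord_neg (K := K) hytr₀
    have : v = P₀ := by
      by_contra hvP
      have := (mem_iff_ord_nonneg v).mp (hy v hvP)
      omega
    rwa [this] at hv
  have hset : (H18.finite_setOf_ord_neg (K := K) hytr₀).toFinset = {P₀} := by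
    ext v
    rw [Set.Finite.mem_toFinset, Finset.mem_singleton]
    constructor
    · intro hv
      by_contra hvP
      have h2 := (mem_iff_ord_nonneg v).mp (hy v hvP)
      have h3 : v.ord y < 0 := hv
      omega
    · rintro rfl
      exact hP₀
  rw [hset, Finset.sum_singleton] at h1
  -- upstairs
  have h2 := H18.sum_ord_neg (K := K) hytr
  have h3 : Module.finrank K⟮algebraMap E F y⟯ F =
      Module.finrank K⟮y⟯ E * Module.finrank E F :=
    H88.finrank_adjoin_algebraMap (K := K) (F' := F) y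
  have hwneg : w.ord (algebraMap E F y) < 0 := by
    by_contra h4
    exact hw ((mem_iff_ord_nonneg w).mpr (not_lt.mp h4))
  have he₁' : (0 : ℤ) < e₁ := by exact_mod_cast he₁
  have he₂' : (0 : ℤ) < e₂ := by exact_mod_cast he₂
  have h5 : ∑ v ∈ (H18.finite_setOf_ord_neg (K := K) hytr).toFinset,
      v.ord (algebraMap E F y) ≤ ∑ v ∈ ({P₁, P₂, w} : Finset _),
        v.ord (algebraMap E F y) := by
    rw [← neg_le_neg_iff, ← Finset.sum_neg_distrib, ← Finset.sum_neg_distrib]
    apply Finset.sum_le_sum_of_subset_of_nonneg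
    · intro v hv
      rw [Set.Finite.mem_toFinset]
      rw [Finset.mem_insert, Finset.mem_insert, Finset.mem_singleton] at hv
      change v.ord _ < 0
      rcases hv with hv | hv | hv
      · rw [hv, h₁]; exact mul_neg_of_pos_of_neg he₁' hP₀
      · rw [hv, h₂]; exact mul_neg_of_pos_of_neg he₂' hP₀
      · rw [hv]; exact hwneg
    · intro v hv _
      rw [Set.Finite.mem_toFinset] at hv
      exact neg_nonneg.mpr (le_of_lt hv)
  rw [Finset.sum_insert, Finset.sum_insert, Finset.sum_singleton, h₁, h₂, h2, h3] at h5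
  · have h6 : (Module.finrank K⟮y⟯ E : ℤ) * (Module.finrank E F : ℤ) ≤
        Module.finrank K⟮y⟯ E * (e₁ + e₂) := by
      apply mul_le_mul_of_nonneg_left _ (Int.natCast_nonneg _)
      exact_mod_cast hfr
    rw [h1] at h5
    push_cast at h5
    nlinarith
  · rw [Finset.mem_singleton]; exact hne.2.symm
  · rw [Finset.mem_insert, Finset.mem_singleton, not_or]
    exact ⟨hne12, hne.1.symm⟩

namespace SwapData

/-- The places above `∞` are `P₁` and `P₂`. -/
theorem eq_or_eq (h : SwapData L N ℓ W P₀ P₁ P₂) [H3RR.IsFF L (FF L (N * ℓ))]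
    [H3RR.IsFF L (FF L N)] (hℓ : 1 < ℓ)
    (hfin : FiniteAlong L (heckeAlphaBar L N ℓ))
    (hfr : finrankAlong L (heckeAlphaBar L N ℓ) ≤ ℓ + 1) {y : FF L N}
    (hy : ∀ v : Place L (FF L N), v ≠ P₀ → y ∈ v.toValuationSubring)
    {w : Place L (FF L (N * ℓ))} (hw : heckeAlphaBar L N ℓ y ∉ w.toValuationSubring) :
    w = P₁ ∨ w = P₂ := by
  letI := algebraAlong (heckeAlphaBar L N ℓ)
  haveI := isScalarTower_along (heckeAlphaBar L N ℓ)
  haveI : FiniteDimensional (FF L N) (FF L (N * ℓ)) := hfin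
  refine eq_or_eq_aux (K := L) (E := FF L N) (F := FF L (N * ℓ)) (P₀ := P₀) (P₁ := P₁)
    (P₂ := P₂) (e₁ := 1) (e₂ := ℓ) one_pos (zero_lt_one.trans hℓ) ?_ ?_ (h.ne hℓ)
    (by rw [add_comm]; exact hfr) hy hw
  · intro x
    rw [Nat.cast_one, one_mul]
    exact h.ord_alpha x
  · intro x
    exact h.ord_alpha' x

/-- The pull-back of a function with poles at `∞` only. -/
theorem alpha_mem_L (h : SwapData L N ℓ W P₀ P₁ P₂) [H3RR.IsFF L (FF L (N * ℓ))]
    [H3RR.IsFF L (FF L N)] (hℓ : 1 < ℓ)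
    (hfin : FiniteAlong L (heckeAlphaBar L N ℓ))
    (hfr : finrankAlong L (heckeAlphaBar L N ℓ) ≤ ℓ + 1) {i : ℤ} {f : FF L N}
    (hf : f ∈ riemannRochSpace (Finsupp.single P₀ i : Divisor L (FF L N))) :
    heckeAlphaBar L N ℓ f ∈ riemannRochSpace
      (Finsupp.single P₁ i + Finsupp.single P₂ (ℓ * i) : Divisor L (FF L (N * ℓ))) := by
  classical
  by_cases h0 : f = 0
  · rw [h0, map_zero]; exact zero_mem _
  have hα0 : heckeAlphaBar L N ℓ f ≠ 0 := (_root_.map_ne_zero _).mpr h0
  rw [H40.mem_L h0] at hf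
  rw [H40.mem_L hα0]
  have hreg : ∀ v : Place L (FF L N), v ≠ P₀ → f ∈ v.toValuationSubring := by
    intro v hv
    have := hf v
    rw [Finsupp.single_apply, if_neg (Ne.symm hv)] at this
    rw [mem_iff_ord_nonneg]; omega
  have hP := hf P₀
  rw [Finsupp.single_eq_same] at hP
  intro w
  by_cases hw1 : w = P₁
  · subst hw1
    rw [Finsupp.add_apply, Finsupp.single_eq_same, Finsupp.single_apply,
      if_neg (h.ne hℓ).symm, add_zero, h.ord_alpha]
    exact hP
  by_cases hw2 : w = P₂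
  · subst hw2
    rw [Finsupp.add_apply, Finsupp.single_eq_same, Finsupp.single_apply,
      if_neg (h.ne hℓ), zero_add, h.ord_alpha']
    have hℓ0 : (0 : ℤ) < ℓ := by exact_mod_cast Nat.pos_of_ne_zero (NeZero.ne ℓ)
    nlinarith
  · rw [Finsupp.add_apply, Finsupp.single_apply, Finsupp.single_apply, if_neg (Ne.symm hw1),
      if_neg (Ne.symm hw2), add_zero, neg_zero]
    by_contra hlt
    have h4 : heckeAlphaBar L N ℓ f ∉ w.toValuationSubring := by
      rw [mem_iff_ord_nonneg]; exact hlt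
    rcases h.eq_or_eq hℓ hfin hfr hreg h4 with h5 | h5
    · exact hw1 h5
    · exact hw2 h5

variable (hπ : Function.Surjective π) [IsLocalHom π] (hdeg : H42.DegLE L k N)

/-- **Lifting** of functions with a pole at `∞`. -/
theorem lift (h : SwapData L N ℓ W P₀ P₁ P₂) [H3RR.IsFF L (FF L (N * ℓ))]
    [H3RR.IsFF L (FF L N)] (arch : Arch A) (hℓ : 1 < ℓ)
    (hfin : FiniteAlong L (heckeAlphaBar L N ℓ))
    (hfr : finrankAlong L (heckeAlphaBar L N ℓ) ≤ ℓ + 1)
    {r : Place L (FF L N) → Place k (modularFunctionFieldFullC k N)} {c : ℤ}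
    (hr : ∀ D : Divisor L (FF L N), c < Divisor.degree D →
        (H42.modReductionData A π N hπ hdeg).IsRed D (Finsupp.mapDomain r D))
    {P : Place k (modularFunctionFieldFullC k N)} (hrP : r P₀ = P)
    {i : ℤ} (hi : c < i) {a : modularFunctionFieldFullC k N}
    (ha : a ∈ riemannRochSpace (Finsupp.single P i : Divisor k (modularFunctionFieldFullC k N))) :
    ∃ (y : LaurentSeries A) (x : FF L (N * ℓ)), coeffMap A.subtype y = x ∧
      coeffMap A.subtype (qExpand A ℓ y) = (W x : FF L (N * ℓ)) ∧ coeffMap π y = a ∧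
      x ∈ riemannRochSpace
        (Finsupp.single P₁ i + Finsupp.single P₂ (ℓ * i) : Divisor L (FF L (N * ℓ))) := by
  classical
  have hdegi : Divisor.degree (Finsupp.single P₀ i : Divisor L (FF L N)) = i := by
    rw [Divisor.degree_single, H3RR.deg_eq_one]; simp
  obtain ⟨-, h2⟩ := hr (Finsupp.single P₀ i) (by rw [hdegi]; exact hi)
  rw [Finsupp.mapDomain_single, hrP] at h2
  rw [← h2] at ha
  obtain ⟨b, hb, rfl⟩ := ha
  -- `b` is bounded
  have hbreg : ∀ v : Place L (FF L N), (⟨jqModC L, jqModC_mem_bar L N⟩ : FF L N) ∈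
      v.toValuationSubring → (b : FF L N) ∈ v.toValuationSubring := by
    intro v hv
    by_cases h0 : (b : FF L N) = 0
    · rw [h0]; exact zero_mem _
    rw [H40.mem_L h0] at hb
    have h3 := hb v
    have hvP : v ≠ P₀ := by
      rintro rfl
      rw [mem_iff_ord_nonneg] at hv
      have := h.ord_j₀
      rw [j₀] at this
      omega
    rw [Finsupp.single_apply, if_neg (Ne.symm hvP)] at h3
    rw [mem_iff_ord_nonneg]; omega
  have hbb : ((b : FF L N) : LaurentSeries L) ∈ bddL A :=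
    mem_bddL_of_regular arch N (FF L N) (H42.laurentBaseChange_full L N).le
      (intL_le_bddL (jqModC_mem_intL A)) hbreg
  obtain ⟨y, hy⟩ := (gaussInt_of_mem_B b.2).mem_intL arch hbb
  refine ⟨y, heckeAlphaBar L N ℓ (b : FF L N), ?_, ?_, ?_, h.alpha_mem_L hℓ hfin hfr hb⟩
  · rw [coe_heckeAlphaBar]; exact hy
  · rw [h.alpha, coe_heckeBetaBar, ← hy, coeffMap_qExpand]
  · exact (coe_ρ_of_eq b.2 hy).symm

end SwapData

end Fermat.Agent.H97
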