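import Fermat.Agent.H97Model

/-!
# The injectivity theorem for semistable models
-/

set_option autoImplicit false

open AlgebraicCurve WithZero IntermediateField

namespace Fermat.Agent.H97

namespace Comp

variable {K F k Fb Γ : Type*} [Field K] [Field F] [Algebra K F] [Field k] [Field Fb] [Algebra k Fb]
  [LinearOrderedCommGroupWithZero Γ] {vK : Valuation K Γ} {res : K → k} {v : Valuation F Γ}
  {ρ : F → Fb} (C : Comp vK res v ρ)

include C

/-- Distance of `w` to the constants. -/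
theorem exists_opt (w : F) (hw : ∀ c : K, w ≠ algebraMap K F c) :
    ∃ c l : K, l ≠ 0 ∧ ∀ c' : K, vK l ≤ v (w - algebraMap K F c') ∧
      vK (c' - c) ≤ v (w - algebraMap K F c') ∧
      v (w - algebraMap K F c') ≤ max (vK (c' - c)) (vK l) := by
  obtain ⟨c, l, hl, h1, h2⟩ := C.opt w hw
  have hlF : algebraMap K F l ≠ 0 := (_root_.map_ne_zero _).mpr hl
  have hl0 : 0 < vK l := zero_lt_iff.mpr ((Valuation.ne_zero_iff _).mpr hl)
  refine ⟨c, l, hl, fun c' => ?_⟩
  have hle : v (w - algebraMap K F c') ≤ max (vK (c' - c)) (vK l) := by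
    have : w - algebraMap K F c' = (w - algebraMap K F c) - algebraMap K F (c' - c) := by
      rw [map_sub]; ring
    rw [this]
    refine (Valuation.map_sub _ _ _).trans (max_le (h1.trans (le_max_right _ _)) ?_)
    rw [C.v_alg]
    exact le_max_left _ _
  have hdec : w - algebraMap K F c' = (w - algebraMap K F c) - algebraMap K F (c' - c) := by
    rw [map_sub]; ring
  rcases lt_or_ge (vK l) (vK (c' - c)) with h | h
  · have h3 : v (w - algebraMap K F c') = vK (c' - c) := by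
      rw [hdec, Valuation.map_sub_eq_of_lt_right, C.v_alg]
      rw [C.v_alg]
      exact h1.trans_lt h
    rw [h3]
    exact ⟨h.le, le_rfl, le_max_left _ _⟩
  · -- `vK (c' - c) ≤ vK l`
    have h3 : v (w - algebraMap K F c') = vK l := by
      apply le_antisymm (hle.trans (max_le h le_rfl))
      by_contra hcon
      rw [not_le] at hcon
      have e1 : v ((w - algebraMap K F c) / algebraMap K F l) ≤ 1 := by
        rw [map_div₀, C.v_alg]; exact (div_le_one₀ hl0).mpr h1
      have e2 : vK ((c' - c) / l) ≤ 1 := by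
        rw [map_div₀]; exact (div_le_one₀ hl0).mpr h
      have e3 : v ((w - algebraMap K F c') / algebraMap K F l) < 1 := by
        rw [map_div₀, C.v_alg]; exact (div_lt_one₀ hl0).mpr hcon
      have e4 : ρ ((w - algebraMap K F c') / algebraMap K F l) = 0 :=
        (C.ρ_eq_zero _ e3.le).mpr e3
      have e5 : (w - algebraMap K F c') / algebraMap K F l
          = (w - algebraMap K F c) / algebraMap K F l - algebraMap K F ((c' - c) / l) := by
        rw [map_div₀, hdec, sub_div]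
      rw [e5, C.ρ_sub e1 (by rw [C.v_alg]; exact e2), C.ρ_alg _ e2, sub_eq_zero] at e4
      exact h2 _ e4
    rw [h3]
    exact ⟨le_rfl, h, le_max_right _ _⟩

end Comp

namespace Model

variable {K F k Fb Γ ι ν : Type*} [Field K] [Field F] [Algebra K F] [Field k] [Field Fb]
    [Algebra k Fb] [LinearOrderedCommGroupWithZero Γ] (M : Model K F k Fb Γ ι ν)

/-- A finite set `S` of smooth points of the special fibre such that the only functions on the
special fibre with at most simple poles at `S` are the constants. -/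
structure Nonspecial (S : Finset (ι × Place k Fb)) : Prop where
  smooth : ∀ x ∈ S, ∀ s, x ∉ M.br s
  lift : ∀ x ∈ S, ∃ P, M.sp P = Sum.inl x ∧ ∃ h, M.IsParam x P h
  card : genusFF K F ≤ S.card
  ns : ∀ g : ι → Fb, (∀ x : ι × Place k Fb, x ∉ S → x.2.adicValuation (g x.1) ≤ 1) →
    (∀ x ∈ S, x.2.adicValuation (g x.1) ≤ exp 1) →
    (∀ s, ∃ c : k, ∀ x ∈ M.br s, x.2.adicValuation (g x.1 - algebraMap k Fb c) < 1) →
      ∃ c : k, ∀ i, g i = algebraMap k Fb c

variable [IsAlgClosed K] [H3RR.IsFF K F] [IsAlgClosed k] [H3RR.IsFF k Fb]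

/-- `g` is a local generator at the node `s` of the divisor `D`, normalised on all components,
whose reductions take the same value at all branches. -/
def IsLocGen (s : ν) (D : Divisor K F) (g : F) : Prop :=
  (∀ i, M.v i g = 1) ∧ (∀ P, M.sp P = Sum.inr s → P.ord g = D P) ∧
    ∃ c : k, c ≠ 0 ∧ ∀ x ∈ M.br s, x.2.adicValuation (M.ρ x.1 g - algebraMap k Fb c) < 1

omit [IsAlgClosed K] [H3RR.IsFF K F] [IsAlgClosed k] [H3RR.IsFF k Fb] in
theorem vK_lift {c : k} (hc : c ≠ 0) [Nonempty ι] {a : K} (ha : M.vK a ≤ 1) (hac : M.res a = c) :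
    M.vK a = 1 := by
  obtain ⟨i⟩ := ‹Nonempty ι›
  have h1 : M.v i (algebraMap K F a) ≤ 1 := by rw [(M.comp i).v_alg]; exact ha
  have h2 := (M.comp i).v_eq_one h1 (by
    rw [(M.comp i).ρ_alg a ha, hac]
    exact (_root_.map_ne_zero _).mpr hc)
  rwa [(M.comp i).v_alg] at h2

/-- Consequence of `ns` in terms of functions with prescribed behaviour. -/
theorem Nonspecial.const {S : Finset (ι × Place k Fb)} (hS : M.Nonspecial S) (b : F)
    (hb : ∀ i, M.v i b ≤ 1)
    (h1 : ∀ x : ι × Place k Fb, (∀ s, x ∉ M.br s) → x ∉ S →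
      x.2.adicValuation (M.ρ x.1 b) ≤ 1)
    (h2 : ∀ x ∈ S, x.2.adicValuation (M.ρ x.1 b) ≤ exp 1)
    (h3 : ∀ s, ∃ c : k, ∀ x ∈ M.br s, x.2.adicValuation (M.ρ x.1 b - algebraMap k Fb c) < 1) :
    ∃ c : k, ∀ i, M.ρ i b = algebraMap k Fb c := by
  refine hS.ns (fun i => M.ρ i b) (fun x hx => ?_) h2 h3
  by_cases hbr : ∃ s, x ∈ M.br s
  · obtain ⟨s, hs⟩ := hbr
    obtain ⟨c, hc⟩ := h3 s
    have : M.ρ x.1 b = (M.ρ x.1 b - algebraMap k Fb c) + algebraMap k Fb c := by ring
    rw [this]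
    exact (Valuation.map_add _ _ _).trans
      (max_le (hc x hs).le (x.2.adicValuation_algebraMap_le_one c))
  · push Not at hbr
    exact h1 x hbr hx

/-- **The injectivity theorem.** -/
theorem exists_of_locGen [Finite ι] [Nonempty ι] {S : Finset (ι × Place k Fb)}
    (hS : M.Nonspecial S) {n : ℕ} (hn : (n : k) ≠ 0) {h : F} {D : Divisor K F}
    (hD : ∀ P, P.ord h = n * D P) (hv : ∀ i, M.v i h = 1) (hρ : ∀ i, M.ρ i h = 1)
    (hloc : ∀ s, ∃ g, M.IsLocGen s D g) :
    ∃ φ : F, φ ≠ 0 ∧ ∀ P : Place K F, P.ord φ = D P := by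
  classical
  have hn0 : n ≠ 0 := by rintro rfl; simp at hn
  obtain ⟨i₀⟩ := ‹Nonempty ι›
  have hh0 : h ≠ 0 := by rintro rfl; simpa using hv i₀
  -- the divisor `E`
  choose! pl hplsp hplparam using hS.lift
  set E : Divisor K F := ∑ x ∈ S, Finsupp.single (pl x) 1 with hE
  have hEapp : ∀ P, E P = ∑ x ∈ S, (Finsupp.single (pl x) (1 : ℤ)) P := fun P => by
    rw [hE, Finsupp.finsetSum_apply]
  have hE0 : ∀ P, 0 ≤ E P := fun P => by
    rw [hEapp]
    refine Finset.sum_nonneg fun x _ => ?_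
    rw [Finsupp.single_apply]
    split_ifs <;> norm_num
  have hEnode : ∀ s P, M.sp P = Sum.inr s → E P = 0 := by
    intro s P hP
    rw [hEapp]
    refine Finset.sum_eq_zero fun x hx => ?_
    rw [Finsupp.single_apply, if_neg]
    rintro rfl
    rw [hplsp x hx] at hP
    cases hP
  have hEcls : ∀ x : ι × Place k Fb, cls M.sp E (Sum.inl x) = if x ∈ S then 1 else 0 := by
    intro x
    have h1 : E.mapDomain M.sp = ∑ y ∈ S, Finsupp.single (Sum.inl y) (1 : ℤ) := by
      rw [hE, Finsupp.mapDomain_finset_sum]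
      refine Finset.sum_congr rfl fun y hy => ?_
      rw [Finsupp.mapDomain_single, hplsp y hy]
    rw [cls, h1, Finsupp.finsetSum_apply]
    simp only [Finsupp.single_apply, Sum.inl.injEq]
    rw [Finset.sum_ite_eq' S x (fun _ => (1 : ℤ))]
  have hEin : ∀ x ∈ S, ∀ P, M.sp P = Sum.inl x →
      E P = (Finsupp.single (pl x) (1 : ℤ) : Divisor K F) P := by
    intro x hx P hP
    rw [hEapp, Finset.sum_eq_single x]
    · intro y hy hyx
      rw [Finsupp.single_apply, if_neg]
      rintro rfl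
      rw [hplsp y hy, Sum.inl.injEq] at hP
      exact hyx hP
    · exact fun h => absurd hx h
  have hEout : ∀ x, x ∉ S → ∀ P, M.sp P = Sum.inl x → E P = 0 := by
    intro x hx P hP
    rw [hEapp]
    refine Finset.sum_eq_zero fun y hy => ?_
    rw [Finsupp.single_apply, if_neg]
    rintro rfl
    rw [hplsp y hy, Sum.inl.injEq] at hP
    exact hx (hP ▸ hy)
  have hdegE : Divisor.degree E = S.card := by
    rw [hE, map_sum]
    simp [Divisor.degree_single, H3RR.deg_eq_one]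
  -- `D` has degree zero
  have hnD : (n : ℤ) • D = H3RR.divOf h := by
    ext P
    rw [Finsupp.smul_apply, H3RR.divOf_apply hh0, hD P, smul_eq_mul]
  have hdegD : Divisor.degree D = 0 := by
    have h1 := H3RR.degree_divOf (K := K) hh0
    rw [← hnD, map_zsmul, smul_eq_mul] at h1
    rcases mul_eq_zero.mp h1 with h2 | h2
    · exact absurd (by exact_mod_cast h2) hn0
    · exact h2
  -- a function in `L(D + E)`
  obtain ⟨f₁, hf₁, hf₁E⟩ := H3RR.exists_effective (D := D + E) (by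
    rw [map_add, hdegD, hdegE, zero_add]
    exact_mod_cast hS.card)
  -- normalise it
  have := Fintype.ofFinite ι
  obtain ⟨i₁, hi₁⟩ : ∃ i₁, ∀ i, M.v i f₁ ≤ M.v i₁ f₁ := by
    have : Nonempty ι := ⟨i₀⟩
    exact Finite.exists_max _
  obtain ⟨c₁, hc₁, hvc₁⟩ := (M.comp i₁).scale f₁ hf₁
  have hc₁F : algebraMap K F c₁ ≠ 0 := (_root_.map_ne_zero _).mpr hc₁
  have hc₁0 : 0 < M.vK c₁ := zero_lt_iff.mpr ((Valuation.ne_zero_iff _).mpr hc₁)
  set f₂ := f₁ / algebraMap K F c₁ with hf₂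
  have hf₂0 : f₂ ≠ 0 := div_ne_zero hf₁ hc₁F
  have hordconst : ∀ (P : Place K F) (c : K), c ≠ 0 → P.ord (algebraMap K F c) = 0 := by
    intro P c hc
    have h1 := H3RR.adicValuation_algebraMap P hc
    rw [P.adicValuation_eq_exp_neg_ord ((_root_.map_ne_zero _).mpr hc), ← exp_zero, exp_inj] at h1
    omega
  have horddiv : ∀ (P : Place K F) (f : F) (c : K), f ≠ 0 → c ≠ 0 →
      P.ord (f / algebraMap K F c) = P.ord f := by
    intro P f c hf hc
    rw [div_eq_mul_inv, P.ord_mul hf (inv_ne_zero ((_root_.map_ne_zero _).mpr hc)), P.ord_inv,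
      hordconst P c hc, neg_zero, add_zero]
  have hvf₂ : ∀ i, M.v i f₂ ≤ 1 := by
    intro i
    rw [hf₂, map_div₀, (M.comp i).v_alg]
    exact (div_le_one₀ hc₁0).mpr (hvc₁ ▸ hi₁ i)
  have hvf₂1 : M.v i₁ f₂ = 1 := by
    rw [hf₂, map_div₀, (M.comp i₁).v_alg, hvc₁, div_self hc₁0.ne']
  have hE'₂ : ∀ P : Place K F, 0 ≤ D P + E P + P.ord f₂ := by
    intro P
    rw [hf₂, horddiv P f₁ c₁ hf₁ hc₁]
    have h1 := hf₁E P
    simpa [H3RR.divOf_apply hf₁] using h1
  -- classes of `D` at smooth points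
  have hclsD : ∀ x : ι × Place k Fb, (∀ s, x ∉ M.br s) → cls M.sp D (Sum.inl x) = 0 := by
    intro x hx
    have h1 := M.smooth_deg x hx h hh0 (hv x.1) (H3RR.divOf h) (H3RR.divOf_apply hh0)
    rw [hρ x.1, x.2.ord_one, ← hnD, cls_smul] at h1
    rcases mul_eq_zero.mp h1 with h2 | h2
    · exact absurd (by exact_mod_cast h2) hn0
    · exact h2
  -- local behaviour of `ρ f₂`
  have hsm : ∀ x : ι × Place k Fb, (∀ s, x ∉ M.br s) → x.2.adicValuation (M.ρ x.1 f₂) ≤
      exp (if x ∈ S then 1 else 0) := by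
    intro x hx
    rcases (hvf₂ x.1).lt_or_eq with hlt | heq
    · rw [((M.comp x.1).ρ_eq_zero _ hlt.le).mpr hlt, map_zero]
      exact zero_le'
    · have h1 := M.smooth_deg x hx f₂ hf₂0 heq (H3RR.divOf f₂) (H3RR.divOf_apply hf₂0)
      have h2 : 0 ≤ cls M.sp (D + E + H3RR.divOf f₂) (Sum.inl x) := by
        apply cls_nonneg
        intro P _
        simpa [H3RR.divOf_apply hf₂0] using hE'₂ P
      rw [cls_add, cls_add, hclsD x hx, hEcls x, h1] at h2
      rw [x.2.adicValuation_eq_exp_neg_ord ((M.comp x.1).ρ_ne_zero heq), exp_le_exp]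
      omega
  have hnode : ∀ s, ∃ c : k, ∀ x ∈ M.br s,
      x.2.adicValuation (M.ρ x.1 f₂ - algebraMap k Fb c) < 1 := by
    intro s
    obtain ⟨g, hg1, hg2, c, hc, hg3⟩ := hloc s
    have hg0 : g ≠ 0 := by rintro rfl; simpa using hg1 i₀
    obtain ⟨c', hc'⟩ := M.node_val s (f₂ * g)
      (fun i => by rw [map_mul, hg1 i, mul_one]; exact hvf₂ i) (fun P hP => by
        rw [P.adicValuation_le_one_iff]
        right
        rw [P.ord_mul hf₂0 hg0, hg2 P hP]
        have := hE'₂ P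
        rw [hEnode s P hP] at this
        omega)
    refine ⟨c' / c, fun x hx => ?_⟩
    have hx1 := hc' x hx
    have hx2 := hg3 x hx
    have hcF : algebraMap k Fb c ≠ 0 := (_root_.map_ne_zero _).mpr hc
    have hvg : x.2.adicValuation (M.ρ x.1 g) = 1 := by
      have : M.ρ x.1 g = (M.ρ x.1 g - algebraMap k Fb c) + algebraMap k Fb c := by ring
      rw [this, Valuation.map_add_eq_of_lt_right, H3RR.adicValuation_algebraMap _ hc]
      rw [H3RR.adicValuation_algebraMap _ hc]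
      exact hx2
    have hρg0 : M.ρ x.1 g ≠ 0 := (M.comp x.1).ρ_ne_zero (hg1 x.1)
    rw [(M.comp x.1).ρ_mul _ _ (hvf₂ x.1) (hg1 x.1).le] at hx1
    have key : M.ρ x.1 f₂ - algebraMap k Fb (c' / c) =
        ((M.ρ x.1 f₂ * M.ρ x.1 g - algebraMap k Fb c')
          - algebraMap k Fb (c' / c) * (M.ρ x.1 g - algebraMap k Fb c)) / M.ρ x.1 g := by
      rw [map_div₀]
      field_simp
      ring
    rw [key, map_div₀, hvg, div_one]
    refine (Valuation.map_sub _ _ _).trans_lt (max_lt hx1 ?_)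
    rw [map_mul]
    exact (mul_le_of_le_one_left' (x.2.adicValuation_algebraMap_le_one _)).trans_lt hx2
  -- hence `ρ f₂` is constant
  obtain ⟨c₂, hc₂⟩ := Nonspecial.const M hS f₂ hvf₂
    (fun x hx hxS => by
      have h1 := hsm x hx
      rwa [if_neg hxS, exp_zero] at h1)
    (fun x hx => by
      have h1 := hsm x (hS.smooth x hx)
      rwa [if_pos hx] at h1) hnode
  have hc₂0 : c₂ ≠ 0 := by
    rintro rfl
    have h1 := (M.comp i₁).ρ_ne_zero hvf₂1
    rw [hc₂ i₁, map_zero] at h1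
    exact h1 rfl
  obtain ⟨a₂, ha₂, ha₂c⟩ := M.res_surj c₂
  have hva₂ : M.vK a₂ = 1 := by
    have : Nonempty ι := ⟨i₀⟩
    exact M.vK_lift hc₂0 ha₂ ha₂c
  have ha₂0 : a₂ ≠ 0 := by rintro rfl; simp at hva₂
  set f := f₂ / algebraMap K F a₂ with hf
  have hf0 : f ≠ 0 := div_ne_zero hf₂0 ((_root_.map_ne_zero _).mpr ha₂0)
  have hvf₂' : ∀ i, M.v i f₂ = 1 := fun i =>
    (M.comp i).v_eq_one (hvf₂ i) (by rw [hc₂ i]; exact (_root_.map_ne_zero _).mpr hc₂0)
  have hvf : ∀ i, M.v i f = 1 := fun i => by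
    rw [hf, map_div₀, hvf₂' i, (M.comp i).v_alg, hva₂, div_one]
  have hρf : ∀ i, M.ρ i f = 1 := fun i => by
    rw [hf, (M.comp i).ρ_div (hvf₂ i) (by rw [(M.comp i).v_alg, hva₂]), hc₂ i,
      (M.comp i).ρ_alg _ ha₂, ha₂c, div_self]
    exact (_root_.map_ne_zero _).mpr hc₂0
  have hordf : ∀ P : Place K F, P.ord f = P.ord f₂ := fun P => horddiv P f₂ a₂ hf₂0 ha₂0
  set E' : Divisor K F := D + E + H3RR.divOf f with hE'
  have hE'app : ∀ P, E' P = D P + E P + P.ord f := fun P => by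
    rw [hE', Finsupp.add_apply, Finsupp.add_apply, H3RR.divOf_apply hf0]
  have hE'0 : ∀ P, 0 ≤ E' P := fun P => by rw [hE'app, hordf]; exact hE'₂ P
  have hE'cls : ∀ x : ι × Place k Fb, (∀ s, x ∉ M.br s) →
      cls M.sp E' (Sum.inl x) = if x ∈ S then 1 else 0 := by
    intro x hx
    rw [hE', cls_add, cls_add, hclsD x hx, hEcls x,
      M.smooth_deg x hx f hf0 (hvf x.1) (H3RR.divOf f) (H3RR.divOf_apply hf0), hρf, x.2.ord_one]
    ring
  have hE'node : ∀ s P, M.sp P = Sum.inr s → E' P = 0 := by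
    intro s P hP
    obtain ⟨g, hg1, hg2, c, hc, hg3⟩ := hloc s
    have hg0 : g ≠ 0 := by rintro rfl; simpa using hg1 i₀
    have hfg0 : f * g ≠ 0 := mul_ne_zero hf0 hg0
    refine eq_zero_of_cls_eq_zero M.sp (a := Sum.inr s) (fun Q _ => hE'0 Q) ?_ hP
    have h1 : cls M.sp E' (Sum.inr s) = cls M.sp (H3RR.divOf (f * g)) (Sum.inr s) := by
      refine cls_congr M.sp fun Q hQ => ?_
      rw [hE'app, hEnode s Q hQ, H3RR.divOf_apply hfg0, Q.ord_mul hf0 hg0, hg2 Q hQ]
      ring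
    rw [h1, M.node_deg s (f * g) hfg0 (fun i => by rw [map_mul, hvf, hg1, one_mul]) _
      (H3RR.divOf_apply hfg0)]
    refine Finset.sum_eq_zero fun x hx => ?_
    rw [(M.comp x.1).ρ_mul _ _ (hvf x.1).le (hg1 x.1).le, hρf, one_mul]
    have hx2 := hg3 x hx
    have hvg : x.2.adicValuation (M.ρ x.1 g) = 1 := by
      have : M.ρ x.1 g = (M.ρ x.1 g - algebraMap k Fb c) + algebraMap k Fb c := by ring
      rw [this, Valuation.map_add_eq_of_lt_right, H3RR.adicValuation_algebraMap _ hc]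
      rw [H3RR.adicValuation_algebraMap _ hc]
      exact hx2
    rw [x.2.adicValuation_eq_exp_neg_ord ((M.comp x.1).ρ_ne_zero (hg1 x.1)), ← exp_zero,
      exp_inj] at hvg
    omega
  have hE'out : ∀ x, x ∉ S → ∀ P, M.sp P = Sum.inl x → E' P = 0 := by
    intro x hx P hP
    refine eq_zero_of_cls_eq_zero M.sp (a := Sum.inl x) (fun Q _ => hE'0 Q) ?_ hP
    rw [hE'cls x (M.sp_smooth P x hP), if_neg hx]
  -- the function `w`
  set w := h * f ^ n with hw
  have hw0 : w ≠ 0 := mul_ne_zero hh0 (pow_ne_zero _ hf0)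
  have hordw : ∀ P : Place K F, P.ord w = n * (E' P - E P) := by
    intro P
    have h2 : P.ord (f ^ n) = n * P.ord f := by
      have := P.ord_zpow f n
      rwa [zpow_natCast] at this
    rw [hw, P.ord_mul hh0 (pow_ne_zero _ hf0), hD P, h2, hE'app]
    ring
  have hvw : ∀ i, M.v i w = 1 := fun i => by rw [hw, map_mul, map_pow, hv, hvf, one_pow, one_mul]
  have hρw : ∀ i, M.ρ i w = 1 := fun i => by
    rw [hw, (M.comp i).ρ_mul _ _ (hv i).le (by rw [map_pow, hvf, one_pow]),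
      (M.comp i).ρ_pow (hvf i).le, hρ, hρf, one_pow, one_mul]
  by_cases hconst : ∃ c : K, w = algebraMap K F c
  · obtain ⟨c, hc⟩ := hconst
    have hc0 : c ≠ 0 := by rintro rfl; rw [map_zero] at hc; exact hw0 hc
    refine ⟨f⁻¹, inv_ne_zero hf0, fun P => ?_⟩
    have h1 := hordw P
    rw [hc, hordconst P c hc0, hE'app] at h1
    rcases mul_eq_zero.mp h1.symm with h2 | h2
    · exact absurd (by exact_mod_cast h2) hn0
    · rw [P.ord_inv]
      omega
  exfalso
  push Not at hconst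
  choose c l hl hopt using fun i => (M.comp i).exists_opt w hconst
  -- optimal constant
  set c₀ := c i₀ with hc₀
  obtain ⟨i₂, hi₂⟩ : ∃ i₂, ∀ i, M.v i (w - algebraMap K F c₀) ≤
      M.v i₂ (w - algebraMap K F c₀) := by
    have : Nonempty ι := ⟨i₀⟩
    exact Finite.exists_max _
  have hmin : ∀ c' : K, ∃ i, M.v i₂ (w - algebraMap K F c₀) ≤ M.v i (w - algebraMap K F c') := by
    intro c'
    have h1 := (hopt i₂ c₀).2.2
    rcases le_total (M.vK (c₀ - c i₂)) (M.vK (l i₂)) with h2 | h2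
    · rw [max_eq_right h2] at h1
      exact ⟨i₂, h1.trans (hopt i₂ c').1⟩
    · rw [max_eq_left h2] at h1
      have h3 : M.vK (c₀ - c i₂) ≤ max (M.vK (c' - c₀)) (M.vK (c' - c i₂)) := by
        have : c₀ - c i₂ = (c' - c i₂) - (c' - c₀) := by ring
        rw [this]
        exact (Valuation.map_sub _ _ _).trans (max_comm _ _).le
      rcases le_total (M.vK (c' - c₀)) (M.vK (c' - c i₂)) with h4 | h4
      · rw [max_eq_right h4] at h3
        exact ⟨i₂, h1.trans (h3.trans (hopt i₂ c').2.1)⟩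
      · rw [max_eq_left h4] at h3
        exact ⟨i₀, h1.trans (h3.trans (hopt i₀ c').2.1)⟩
  obtain ⟨l₀, hl₀, hvl₀⟩ := (M.comp i₂).scale (w - algebraMap K F c₀)
    (sub_ne_zero.mpr (hconst c₀))
  have hl₀F : algebraMap K F l₀ ≠ 0 := (_root_.map_ne_zero _).mpr hl₀
  have hl₀0 : 0 < M.vK l₀ := zero_lt_iff.mpr ((Valuation.ne_zero_iff _).mpr hl₀)
  rw [hvl₀] at hmin hi₂
  -- `vK l₀ < 1`
  have hw1 : ∀ i, M.v i (w - algebraMap K F 1) < 1 := by
    intro i
    have h1 : M.v i (w - 1) ≤ 1 :=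
      (Valuation.map_sub _ _ _).trans (max_le (hvw i).le (by simp))
    rw [map_one, ← (M.comp i).ρ_eq_zero _ h1,
      (M.comp i).ρ_sub (hvw i).le (by simp), hρw, (M.comp i).ρ_one, sub_self]
  have hl₀1 : M.vK l₀ < 1 := by
    obtain ⟨i, hi⟩ := hmin 1
    exact hi.trans_lt (hw1 i)
  have hc₀1 : M.vK c₀ = 1 := by
    have h1 : M.vK (c₀ - 1) < 1 := by
      rw [← (M.comp i₀).v_alg]
      have : algebraMap K F (c₀ - 1) = (w - algebraMap K F 1) - (w - algebraMap K F c₀) := by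
        rw [map_sub]; ring
      rw [this]
      exact (Valuation.map_sub _ _ _).trans_lt (max_lt (hw1 i₀) ((hi₂ i₀).trans_lt hl₀1))
    have : c₀ = (c₀ - 1) + 1 := by ring
    rw [this, Valuation.map_add_eq_of_lt_right, map_one]
    rw [map_one]; exact h1
  have hc₀0 : c₀ ≠ 0 := by intro h0; rw [h0] at hc₀1; simp at hc₀1
  have hc₀F : algebraMap K F c₀ ≠ 0 := (_root_.map_ne_zero _).mpr hc₀0
  set b := (w - algebraMap K F c₀) / algebraMap K F l₀ with hb
  have hvb : ∀ i, M.v i b ≤ 1 := fun i => by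
    rw [hb, map_div₀, (M.comp i).v_alg]
    exact (div_le_one₀ hl₀0).mpr (hi₂ i)
  have hwb : w / algebraMap K F c₀ = 1 + algebraMap K F (l₀ / c₀) * b := by
    rw [hb, map_div₀]
    field_simp
    ring
  have hvlc : M.vK (l₀ / c₀) < 1 := by rw [map_div₀, hc₀1, div_one]; exact hl₀1
  have hregb : ∀ P : Place K F, E' P = 0 → E P = 0 → P.adicValuation b ≤ 1 := by
    intro P h1 h2
    have h3 : P.adicValuation w = 1 := by
      rw [P.adicValuation_eq_exp_neg_ord hw0, hordw P, h1, h2, sub_zero, mul_zero, neg_zero,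
        exp_zero]
    rw [hb, map_div₀, H3RR.adicValuation_algebraMap _ hl₀, div_one]
    exact (Valuation.map_sub _ _ _).trans (max_le h3.le (P.adicValuation_algebraMap_le_one _))
  obtain ⟨c₃, hc₃⟩ := Nonspecial.const M hS b hvb
    (fun x hx hxS => M.reg hx (hvb x.1) fun P hP =>
      hregb P (hE'out x hxS P hP) (hEout x hxS P hP))
    (fun x hxS => by
      have hx := hS.smooth x hxS
      obtain ⟨Q, hQ, hQ1, hQ2⟩ := exists_of_cls_eq_one M.sp (D := E') (a := Sum.inl x)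
        (fun P _ => hE'0 P) (by rw [hE'cls x hx, if_pos hxS])
      obtain ⟨hx', hhx'⟩ := hplparam x hxS
      refine M.simple_pole hx (hplsp x hxS) hQ hhx' hn (l := l₀ / c₀)
        (div_ne_zero hl₀ hc₀0) hvlc (hvb x.1) hwb ?_
      intro R hR
      rw [horddiv R w c₀ hw0 hc₀0, hordw R, Finsupp.sub_apply, ← hEin x hxS R hR]
      congr 2
      rw [Finsupp.single_apply]
      split_ifs with hQR
      · rw [← hQR, hQ1]
      · exact hQ2 R hR (Ne.symm hQR))
    (fun s => M.node_val s b hvb fun P hP =>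
      hregb P (hE'node s P hP) (hEnode s P hP))
  obtain ⟨a₃, ha₃, ha₃c⟩ := M.res_surj c₃
  have hlt : ∀ i, M.v i (b - algebraMap K F a₃) < 1 := by
    intro i
    have h1 : M.v i (algebraMap K F a₃) ≤ 1 := by rw [(M.comp i).v_alg]; exact ha₃
    have h2 : M.v i (b - algebraMap K F a₃) ≤ 1 :=
      (Valuation.map_sub _ _ _).trans (max_le (hvb i) h1)
    rw [← (M.comp i).ρ_eq_zero _ h2, (M.comp i).ρ_sub (hvb i) h1, hc₃ i,
      (M.comp i).ρ_alg _ ha₃, ha₃c, sub_self]
  obtain ⟨i₃, hi₃⟩ := hmin (c₀ + l₀ * a₃)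
  have h1 : w - algebraMap K F (c₀ + l₀ * a₃) = algebraMap K F l₀ * (b - algebraMap K F a₃) := by
    rw [hb, map_add, map_mul]
    field_simp
    ring
  rw [h1, map_mul, (M.comp i₃).v_alg] at hi₃
  have h2 : M.vK l₀ * M.v i₃ (b - algebraMap K F a₃) < M.vK l₀ * 1 :=
    mul_lt_mul_of_pos_left (hlt i₃) hl₀0
  rw [mul_one] at h2
  exact absurd hi₃ (not_le.mpr h2)

end Model

end Fermat.Agent.H97
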