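import Fermat.Agent.H97Model
import Fermat.Agent.H67Calc

/-!
# Two sheets over a curve with good reduction

`F/F₀` is an extension of function fields over `K`; `F₀` has good reduction (`v₀`, `ρ₀`, `r`), and
`v₀` has two extensions `v false`, `v true` to `F`, of residue degree one resp. purely inseparable
of degree `q`.  We construct the specialisation map of places of `F` and the semistable model.
-/

set_option autoImplicit false
set_option linter.unusedSectionVars false

open AlgebraicCurve WithZero IntermediateField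

namespace Fermat.Agent.H97

section Generic

/-- Roots of monic relations with integral coefficients are integral. -/
theorem le_one_of_rel {R Γ : Type*} [Field R] [LinearOrderedCommGroupWithZero Γ]
    (w : Valuation R Γ) {c : R} {n : ℕ} (a : ℕ → R) (ha : ∀ i, w (a i) ≤ 1)
    (h : c ^ n = ∑ i ∈ Finset.range n, a i * c ^ i) : w c ≤ 1 := by
  by_contra hc
  rw [not_le] at hc
  have h1 : w (∑ i ∈ Finset.range n, a i * c ^ i) < w c ^ n := by
    apply Valuation.map_sum_lt
    · exact pow_ne_zero _ (zero_lt_one.trans hc).ne'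
    · intro i hi
      rw [map_mul, map_pow]
      calc w (a i) * w c ^ i ≤ 1 * w c ^ i := by gcongr; exact ha i
        _ = w c ^ i := one_mul _
        _ < w c ^ n := pow_lt_pow_right₀ hc (Finset.mem_range.mp hi)
  rw [← h, map_pow] at h1
  exact lt_irrefl _ h1

variable {K F k Fb Γ : Type*} [Field K] [Field F] [Algebra K F] [Field k] [Field Fb] [Algebra k Fb]
  [LinearOrderedCommGroupWithZero Γ]

namespace Comp

variable {vK : Valuation K Γ} {res : K → k} {v : Valuation F Γ} {ρ : F → Fb}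
  (C : Comp vK res v ρ)

include C

theorem ρ_sum {ι : Type*} (s : Finset ι) (f : ι → F) (hf : ∀ i ∈ s, v (f i) ≤ 1) :
    ρ (∑ i ∈ s, f i) = ∑ i ∈ s, ρ (f i) := by
  classical
  induction s using Finset.induction_on with
  | empty => simpa using C.ρ_zero
  | insert a s ha ih =>
    rw [Finset.sum_insert ha, Finset.sum_insert ha, C.ρ_add, ih]
    · exact fun i hi => hf i (Finset.mem_insert_of_mem hi)
    · exact hf a (Finset.mem_insert_self a s)
    · exact Valuation.map_sum_le _ fun i hi => hf i (Finset.mem_insert_of_mem hi)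

theorem ρ_prod {ι : Type*} (s : Finset ι) (f : ι → F) (hf : ∀ i ∈ s, v (f i) ≤ 1) :
    ρ (∏ i ∈ s, f i) = ∏ i ∈ s, ρ (f i) := by
  classical
  induction s using Finset.induction_on with
  | empty => simpa using C.ρ_one
  | insert a s ha ih =>
    rw [Finset.prod_insert ha, Finset.prod_insert ha, C.ρ_mul, ih]
    · exact fun i hi => hf i (Finset.mem_insert_of_mem hi)
    · exact hf a (Finset.mem_insert_self a s)
    · rw [map_prod]
      exact Finset.prod_le_one' fun i hi => hf i (Finset.mem_insert_of_mem hi)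

theorem res_zero : algebraMap k Fb (res 0) = 0 := by
  have h := C.ρ_alg 0 (by simp)
  rw [map_zero, C.ρ_zero] at h
  exact h.symm

theorem res_eq_zero {c : K} (hc : vK c ≤ 1) : res c = 0 ↔ vK c < 1 := by
  have h := C.ρ_eq_zero (algebraMap K F c) (by rw [C.v_alg]; exact hc)
  rw [C.ρ_alg c hc, C.v_alg] at h
  rw [← h]
  exact (map_eq_zero_iff _ (algebraMap k Fb).injective).symm

theorem res_add {c d : K} (hc : vK c ≤ 1) (hd : vK d ≤ 1) : res (c + d) = res c + res d := by
  apply (algebraMap k Fb).injective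
  have hcd : vK (c + d) ≤ 1 := (Valuation.map_add _ _ _).trans (max_le hc hd)
  rw [map_add, ← C.ρ_alg _ hcd, ← C.ρ_alg _ hc, ← C.ρ_alg _ hd, map_add,
    C.ρ_add _ _ (by rw [C.v_alg]; exact hc) (by rw [C.v_alg]; exact hd)]

theorem res_mul {c d : K} (hc : vK c ≤ 1) (hd : vK d ≤ 1) : res (c * d) = res c * res d := by
  apply (algebraMap k Fb).injective
  have hcd : vK (c * d) ≤ 1 := by rw [map_mul]; exact mul_le_one' hc hd
  rw [map_mul, ← C.ρ_alg _ hcd, ← C.ρ_alg _ hc, ← C.ρ_alg _ hd, map_mul,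
    C.ρ_mul _ _ (by rw [C.v_alg]; exact hc) (by rw [C.v_alg]; exact hd)]

theorem res_one : res 1 = 1 := by
  apply (algebraMap k Fb).injective
  rw [← C.ρ_alg 1 (by simp), map_one, map_one, C.ρ_one]

theorem res_sub {c d : K} (hc : vK c ≤ 1) (hd : vK d ≤ 1) : res (c - d) = res c - res d := by
  have h1 : vK (c - d) ≤ 1 := (Valuation.map_sub _ _ _).trans (max_le hc hd)
  have h := C.res_add h1 hd
  rw [sub_add_cancel] at h
  rw [h]; ring

theorem res_pow {c : K} (hc : vK c ≤ 1) (n : ℕ) : res (c ^ n) = res c ^ n := by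
  induction n with
  | zero => simpa using C.res_one
  | succ n ih =>
    rw [pow_succ, pow_succ, C.res_mul _ hc, ih]
    rw [map_pow]; exact pow_le_one' hc n

end Comp

end Generic

/-- Two sheets over a curve with good reduction. -/
structure Sheets (K F₀ F k κ Γ : Type*) [Field K] [Field F₀] [Field F] [Algebra K F₀] [Algebra K F]
    [Field k] [Field κ] [Algebra k κ] [LinearOrderedCommGroupWithZero Γ] (q : ℕ) where
  φ : F₀ →ₐ[K] F
  vK : Valuation K Γ
  res : K → k
  v₀ : Valuation F₀ Γ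
  ρ₀ : F₀ → κ
  comp₀ : Comp vK res v₀ ρ₀
  v : Bool → Valuation F Γ
  ρ : Bool → F → κ
  comp : ∀ i, Comp vK res (v i) (ρ i)
  res_surj : ∀ e : k, ∃ c : K, vK c ≤ 1 ∧ res c = e
  arch : ∀ c d : K, vK c < 1 → d ≠ 0 → ∃ n : ℕ, vK c ^ n < vK d
  r : Place K F₀ → Place k κ
  deg₀ : ∀ f : F₀, f ≠ 0 → v₀ f = 1 → ∀ D : Divisor K F₀, (∀ P, D P = P.ord f) →
    ∀ x, cls r D x = x.ord (ρ₀ f)
  lift₀ : ∀ (x : Place k κ) (h : κ), x.adicValuation h ≤ 1 → ∃ b : F₀, v₀ b ≤ 1 ∧
    (∀ P, r P = x → P.adicValuation b ≤ 1) ∧ ρ₀ b = h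
  σ : κ ≃+* κ
  Φ : κ →+* κ
  Φσ : ∀ h, Φ (σ h) = h ^ q
  tw : Place k κ ≃ Place k κ
  tw_val : ∀ x h, x.adicValuation (σ h) = (tw x).adicValuation h
  σ_alg : ∀ c : k, σ (algebraMap k κ c) = algebraMap k κ (c ^ q)
  Φ_alg : ∀ c : k, Φ (algebraMap k κ c) = algebraMap k κ c
  v_φ : ∀ i b, v i (φ b) = v₀ b
  ρ_false : ∀ b, v₀ b ≤ 1 → ρ false (φ b) = ρ₀ b
  ρ_true : ∀ b, v₀ b ≤ 1 → ρ true (φ b) = Φ (ρ₀ b)
  norm_val : ∀ f, v₀ (H60.normAlong φ f) = v false f * v true f ^ q
  norm_red : ∀ f, v false f = 1 → v true f = 1 →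
    ρ₀ (H60.normAlong φ f) = ρ false f * σ (ρ true f)
  rel : ∀ f, (∀ i, v i f ≤ 1) → ∃ (n : ℕ) (a : ℕ → F₀), (∀ i, v₀ (a i) ≤ 1) ∧
    f ^ n = ∑ i ∈ Finset.range n, φ (a i) * f ^ i ∧
    ∀ P' : Place K F₀, (∀ P : Place K F, (∀ b : F₀, b ∈ P'.toValuationSubring ↔
      φ b ∈ P.toValuationSubring) → f ∈ P.toValuationSubring) →
        ∀ i, a i ∈ P'.toValuationSubring

namespace Sheets

variable {K F₀ F k κ Γ : Type*} [Field K] [Field F₀] [Field F] [Algebra K F₀] [Algebra K F]
    [Field k] [Field κ] [Algebra k κ] [LinearOrderedCommGroupWithZero Γ] {q : ℕ}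
    (S : Sheets K F₀ F k κ Γ q)

/-- The two points over `x`. -/
def pt (i : Bool) (x : Place k κ) : Place k κ := if i then S.tw x else x

@[simp] theorem pt_false (x : Place k κ) : S.pt false x = x := rfl
@[simp] theorem pt_true (x : Place k κ) : S.pt true x = S.tw x := rfl

variable [IsAlgClosed K] [CharZero K] [H3RR.IsFF K F₀] [H3RR.IsFF K F]
  [IsAlgClosed k] [H3RR.IsFF k κ] [H94.FunField K F₀] [H94.FunField K F]

/-- The reduction of the image in `F₀` of a place of `F`. -/
noncomputable def red (P : Place K F) : Place k κ := S.r (H67.res S.φ P)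

/-- The semilocal ring at the two points over `x`. -/
def InR (x : Place k κ) (f : F) : Prop :=
  (∀ i, S.v i f ≤ 1) ∧ ∀ P, S.red P = x → P.adicValuation f ≤ 1

variable {S}

theorem InR.add {x : Place k κ} {f g : F} (hf : S.InR x f) (hg : S.InR x g) : S.InR x (f + g) :=
  ⟨fun i => (Valuation.map_add _ _ _).trans (max_le (hf.1 i) (hg.1 i)),
    fun P hP => (Valuation.map_add _ _ _).trans (max_le (hf.2 P hP) (hg.2 P hP))⟩

theorem InR.sub {x : Place k κ} {f g : F} (hf : S.InR x f) (hg : S.InR x g) : S.InR x (f - g) :=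
  ⟨fun i => (Valuation.map_sub _ _ _).trans (max_le (hf.1 i) (hg.1 i)),
    fun P hP => (Valuation.map_sub _ _ _).trans (max_le (hf.2 P hP) (hg.2 P hP))⟩

theorem InR.mul {x : Place k κ} {f g : F} (hf : S.InR x f) (hg : S.InR x g) : S.InR x (f * g) :=
  ⟨fun i => by rw [map_mul]; exact mul_le_one' (hf.1 i) (hg.1 i),
    fun P hP => by rw [map_mul]; exact mul_le_one' (hf.2 P hP) (hg.2 P hP)⟩

theorem InR.one {x : Place k κ} : S.InR x 1 := ⟨fun i => by simp, fun P _ => by simp⟩

theorem InR.pow {x : Place k κ} {f : F} (hf : S.InR x f) (n : ℕ) : S.InR x (f ^ n) :=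
  ⟨fun i => by rw [map_pow]; exact pow_le_one' (hf.1 i) n,
    fun P hP => by rw [map_pow]; exact pow_le_one' (hf.2 P hP) n⟩

theorem InR.const {x : Place k κ} {c : K} (hc : S.vK c ≤ 1) : S.InR x (algebraMap K F c) :=
  ⟨fun i => by rw [(S.comp i).v_alg]; exact hc, fun P _ => P.adicValuation_algebraMap_le_one c⟩

theorem InR.prod {x : Place k κ} {ι : Type*} (s : Finset ι) {f : ι → F}
    (hf : ∀ i ∈ s, S.InR x (f i)) : S.InR x (∏ i ∈ s, f i) := by
  classical
  induction s using Finset.induction_on with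
  | empty => simpa using InR.one
  | insert a s ha ih =>
    rw [Finset.prod_insert ha]
    exact (hf a (Finset.mem_insert_self a s)).mul
      (ih fun i hi => hf i (Finset.mem_insert_of_mem hi))

variable (S)

theorem mem_iff_val (P : Place K F) {f : F} : f ∈ P.toValuationSubring ↔ P.adicValuation f ≤ 1 :=
  H3RR.mem_iff_adicValuation_le_one P

/-- pull-backs of functions which are regular at `x` -/
theorem InR_φ {x : Place k κ} {b : F₀} (hb : S.v₀ b ≤ 1)
    (hreg : ∀ P, S.r P = x → P.adicValuation b ≤ 1) : S.InR x (S.φ b) := by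
  refine ⟨fun i => by rw [S.v_φ]; exact hb, fun P hP => ?_⟩
  rw [← H3RR.mem_iff_adicValuation_le_one, ← H67.mem_res, H3RR.mem_iff_adicValuation_le_one]
  exact hreg _ hP

/-- Values at level `F₀`. -/
theorem val₀ {x : Place k κ} {b : F₀} (hb : S.v₀ b ≤ 1)
    (hreg : ∀ P, S.r P = x → P.adicValuation b ≤ 1) {P : Place K F₀} (hP : S.r P = x) {c : K}
    (hc : P.adicValuation (b - algebraMap K F₀ c) < 1) :
    S.vK c ≤ 1 ∧ x.adicValuation (S.ρ₀ b - algebraMap k κ (S.res c)) < 1 := by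
  have C := S.comp₀
  -- general principle: an integral function regular on the class and vanishing somewhere
  have key : ∀ g : F₀, g ≠ 0 → S.v₀ g = 1 → (∀ P, S.r P = x → P.adicValuation g ≤ 1) →
      P.adicValuation g < 1 → 0 < x.ord (S.ρ₀ g) := by
    intro g hg0 hg hgreg hgP
    rw [← S.deg₀ g hg0 hg (H3RR.divOf g) (H3RR.divOf_apply hg0) x]
    have h1 : 0 < P.ord g := H3RR.ord_pos_of_lt_one hg0 hgP
    have h2 := le_cls S.r (D := (H3RR.divOf g : Divisor K F₀)) (a := x) (fun Q hQ => by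
      rw [H3RR.divOf_apply hg0]
      exact ((Q.adicValuation_le_one_iff).mp (hgreg Q hQ)).resolve_left hg0) hP
    rw [H3RR.divOf_apply hg0] at h2
    omega
  have hcA : S.vK c ≤ 1 := by
    by_contra hcon
    rw [not_le] at hcon
    have hc0 : c ≠ 0 := by rintro rfl; simp at hcon
    have hcF : algebraMap K F₀ c ≠ 0 := (_root_.map_ne_zero _).mpr hc0
    have hv : S.v₀ (b / algebraMap K F₀ c) < 1 := by
      rw [map_div₀, C.v_alg]
      rcases hb.lt_or_eq with h | h
      · exact (div_lt_one₀ (zero_lt_one.trans hcon)).mpr (h.trans hcon)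
      · rw [h, one_div]; exact inv_lt_one_of_one_lt₀ hcon
    set g := b / algebraMap K F₀ c - 1 with hg
    have hgv : S.v₀ g = 1 := by
      rw [hg, Valuation.map_sub_swap, Valuation.map_sub_eq_of_lt_left _ (by simpa using hv),
        map_one]
    have hg0 : g ≠ 0 := by rintro h; rw [h] at hgv; simp at hgv
    have hρ : S.ρ₀ g = -1 := by
      rw [hg, C.ρ_sub hv.le (by simp), C.ρ_one, (C.ρ_eq_zero _ hv.le).mpr hv, zero_sub]
    have h1 := key g hg0 hgv (fun Q hQ => by
      refine (Valuation.map_sub _ _ _).trans (max_le ?_ (by simp))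
      rw [map_div₀, H3RR.adicValuation_algebraMap _ hc0, div_one]
      exact hreg Q hQ) (by
      have : g = (b - algebraMap K F₀ c) / algebraMap K F₀ c := by
        rw [hg, sub_div, div_self hcF]
      rw [this, map_div₀, H3RR.adicValuation_algebraMap _ hc0, div_one]
      exact hc)
    rw [hρ] at h1
    have h2 : x.ord (-1 : κ) = 0 := by
      have h3 : (-1 : κ) = algebraMap k κ (-1) := by simp
      rw [h3, H94.ord_algebraMap]
    omega
  refine ⟨hcA, ?_⟩
  have hcv : S.v₀ (algebraMap K F₀ c) ≤ 1 := by rw [C.v_alg]; exact hcA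
  have hsub : S.v₀ (b - algebraMap K F₀ c) ≤ 1 := (Valuation.map_sub _ _ _).trans (max_le hb hcv)
  rw [← C.ρ_alg c hcA, ← C.ρ_sub hb hcv]
  rcases hsub.lt_or_eq with h | h
  · rw [(C.ρ_eq_zero _ h.le).mpr h, map_zero]; exact zero_lt_one
  · have hg0 : b - algebraMap K F₀ c ≠ 0 := by rintro h0; rw [h0] at h; simp at h
    have h1 := key _ hg0 h (fun Q hQ => (Valuation.map_sub _ _ _).trans
      (max_le (hreg Q hQ) (Q.adicValuation_algebraMap_le_one c))) hc
    have hρ0 := C.ρ_ne_zero h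
    rw [x.adicValuation_eq_exp_neg_ord hρ0, ← exp_zero, exp_lt_exp]
    omega

/-- Regularity of reductions at level `F₀`. -/
theorem reg₀ {x : Place k κ} {b : F₀} (hb : S.v₀ b ≤ 1)
    (hreg : ∀ P, S.r P = x → P.adicValuation b ≤ 1) : x.adicValuation (S.ρ₀ b) ≤ 1 := by
  have C := S.comp₀
  rcases hb.lt_or_eq with h | h
  · rw [(C.ρ_eq_zero b hb).mpr h, map_zero]; exact zero_le_one
  · have hb0 : b ≠ 0 := by rintro rfl; simp at h
    have h1 := S.deg₀ b hb0 h (H3RR.divOf b) (H3RR.divOf_apply hb0) x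
    have h2 : 0 ≤ cls S.r (H3RR.divOf b : Divisor K F₀) x := by
      apply cls_nonneg
      intro P hP
      rw [H3RR.divOf_apply hb0]
      exact ((P.adicValuation_le_one_iff).mp (hreg P hP)).resolve_left hb0
    rw [h1] at h2
    exact (x.adicValuation_le_one_iff).mpr (Or.inr h2)

theorem Φ_val {x : Place k κ} (h : κ) :
    (S.tw x).adicValuation (S.Φ h) = x.adicValuation h ^ q := by
  obtain ⟨g, rfl⟩ := S.σ.surjective h
  rw [S.Φσ, map_pow, S.tw_val]

/-- The monic relation of an element of the semilocal ring. -/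
theorem rel_InR {x : Place k κ} {f : F} (hf : S.InR x f) :
    ∃ (n : ℕ) (a : ℕ → F₀), (∀ i, S.v₀ (a i) ≤ 1) ∧
      (∀ i P, S.r P = x → P.adicValuation (a i) ≤ 1) ∧
      f ^ n = ∑ i ∈ Finset.range n, S.φ (a i) * f ^ i := by
  obtain ⟨n, a, ha, hrel, hreg⟩ := S.rel f hf.1
  refine ⟨n, a, ha, fun i P' hP' => ?_, hrel⟩
  rw [← H3RR.mem_iff_adicValuation_le_one]
  apply hreg P' (fun P hP => ?_) i
  have h1 : H67.res S.φ P = P' := by
    apply Place.ext
    ext b
    rw [hP, H67.mem_res]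
  rw [H3RR.mem_iff_adicValuation_le_one]
  apply hf.2 P
  rw [red, h1, hP']

theorem v_pow_le {i : Bool} {f : F} (hf : S.v i f ≤ 1) (n : ℕ) : S.v i (f ^ n) ≤ 1 := by
  rw [map_pow]; exact pow_le_one' hf n

/-- Reductions of elements of the semilocal ring are regular. -/
theorem reg {x : Place k κ} {f : F} (hf : S.InR x f) (i : Bool) :
    (S.pt i x).adicValuation (S.ρ i f) ≤ 1 := by
  obtain ⟨n, a, ha, hreg, hrel⟩ := S.rel_InR hf
  have C := S.comp i
  have h1 := congrArg (S.ρ i) hrel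
  rw [C.ρ_pow (hf.1 i), C.ρ_sum] at h1
  · have h2 : ∀ j ∈ Finset.range n, S.ρ i (S.φ (a j) * f ^ j) =
        S.ρ i (S.φ (a j)) * S.ρ i f ^ j := by
      intro j _
      rw [C.ρ_mul _ _ (by rw [S.v_φ]; exact ha j) (S.v_pow_le (hf.1 i) j), C.ρ_pow (hf.1 i)]
    rw [Finset.sum_congr rfl h2] at h1
    refine le_one_of_rel _ (fun j => S.ρ i (S.φ (a j))) (fun j => ?_) h1
    have h3 := S.reg₀ (ha j) (hreg j)
    cases i with
    | false => rw [S.ρ_false _ (ha j)]; exact h3
    | true =>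
      rw [S.ρ_true _ (ha j), pt_true, S.Φ_val]
      exact pow_le_one' h3 q
  · intro j _
    rw [map_mul, S.v_φ]
    exact mul_le_one' (ha j) (S.v_pow_le (hf.1 i) j)

end Sheets

end Fermat.Agent.H97
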