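import Fermat.Agent.H97MdA

/-!
# Two sheets: values and the dichotomy
-/

set_option autoImplicit false
set_option linter.unusedSectionVars false

open AlgebraicCurve WithZero IntermediateField

namespace Fermat.Agent.H97.Sheets

variable {K F₀ F k κ Γ : Type*} [Field K] [Field F₀] [Field F] [Algebra K F₀] [Algebra K F]
    [Field k] [Field κ] [Algebra k κ] [LinearOrderedCommGroupWithZero Γ] {q : ℕ}
    (S : Sheets K F₀ F k κ Γ q)

variable [IsAlgClosed K] [CharZero K] [H3RR.IsFF K F₀] [H3RR.IsFF K F]
  [IsAlgClosed k] [H3RR.IsFF k κ] [H94.FunField K F₀] [H94.FunField K F]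

theorem mul_lt_one_aux {Γ : Type*} [LinearOrderedCommGroupWithZero Γ] {a b : Γ} (ha : a ≤ 1)
    (hb : b < 1) : a * b < 1 := (mul_le_of_le_one_left' ha).trans_lt hb

/-- `c` is the value of `f` at `P`. -/
def Val (P : Place K F) (f : F) (c : K) : Prop := P.adicValuation (f - algebraMap K F c) < 1

omit [CharZero K] [H94.FunField K F] in
theorem exists_val {P : Place K F} {f : F} (hf : P.adicValuation f ≤ 1) : ∃ c, Val P f c :=
  H3RR.exists_const_sub_lt_one P hf

omit [IsAlgClosed K] [CharZero K] [H3RR.IsFF K F] [H94.FunField K F] in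
theorem Val.add {P : Place K F} {f g : F} {c d : K} (hf : Val P f c) (hg : Val P g d) :
    Val P (f + g) (c + d) := by
  have : f + g - algebraMap K F (c + d) = (f - algebraMap K F c) + (g - algebraMap K F d) := by
    rw [map_add]; ring
  rw [Val, this]
  exact Valuation.map_add_lt _ hf hg

omit [IsAlgClosed K] [CharZero K] [H3RR.IsFF K F] [H94.FunField K F] in
theorem Val.mul {P : Place K F} {f g : F} {c d : K} (hfr : P.adicValuation f ≤ 1)
    (hf : Val P f c) (hg : Val P g d) : Val P (f * g) (c * d) := by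
  have : f * g - algebraMap K F (c * d) =
      f * (g - algebraMap K F d) + (f - algebraMap K F c) * algebraMap K F d := by
    rw [map_mul]; ring
  rw [Val, this]
  refine Valuation.map_add_lt _ ?_ ?_
  · rw [map_mul]; exact mul_lt_one_aux hfr hg
  · rw [map_mul]
    exact mul_lt_one_of_lt_of_le hf (P.adicValuation_algebraMap_le_one d)

omit [IsAlgClosed K] [CharZero K] [H3RR.IsFF K F] [H94.FunField K F] in
theorem Val.const {P : Place K F} (c : K) : Val P (algebraMap K F c) c := by
  rw [Val, sub_self, map_zero]; exact zero_lt_one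

omit [IsAlgClosed K] [CharZero K] [H3RR.IsFF K F] [H94.FunField K F] in
theorem Val.sub_const {P : Place K F} {f : F} {c : K} (hf : Val P f c) (d : K) :
    Val P (f - algebraMap K F d) (c - d) := by
  rw [Val]
  have : f - algebraMap K F d - algebraMap K F (c - d) = f - algebraMap K F c := by
    rw [map_sub]; ring
  rw [this]; exact hf

omit [CharZero K] [H94.FunField K F] in
theorem Val.unique {P : Place K F} {f : F} {c d : K} (hc : Val P f c) (hd : Val P f d) :
    c = d := by
  by_contra hne
  have h1 : P.adicValuation (algebraMap K F (c - d)) < 1 := by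
    have : algebraMap K F (c - d) = (f - algebraMap K F d) - (f - algebraMap K F c) := by
      rw [map_sub]; ring
    rw [this]
    exact Valuation.map_sub_lt _ hd hc
  rw [H3RR.adicValuation_algebraMap _ (sub_ne_zero.mpr hne)] at h1
  exact lt_irrefl _ h1

omit [IsAlgClosed K] [CharZero K] [H3RR.IsFF K F] [H94.FunField K F] in
theorem Val.pow {P : Place K F} {f : F} {c : K} (hfr : P.adicValuation f ≤ 1) (hf : Val P f c)
    (n : ℕ) : Val P (f ^ n) (c ^ n) := by
  induction n with
  | zero => simpa using Val.const (P := P) (1 : K)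
  | succ n ih =>
    rw [pow_succ, pow_succ]
    exact Val.mul (by rw [map_pow]; exact pow_le_one' hfr n) ih hf

omit [CharZero K] [H94.FunField K F] in
theorem Val.adic_eq_one {P : Place K F} {f : F} {c : K} (hf : Val P f c) (hc : c ≠ 0) :
    P.adicValuation f = 1 := by
  have h1 : P.adicValuation (algebraMap K F c) = 1 := H3RR.adicValuation_algebraMap _ hc
  have h2 : f = algebraMap K F c + (f - algebraMap K F c) := by ring
  rw [h2, Valuation.map_add_eq_of_lt_left _ (by rw [h1]; exact hf), h1]

omit [CharZero K] [H94.FunField K F] in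
theorem Val.adic_lt_one {P : Place K F} {f : F} (hf : Val P f 0) : P.adicValuation f < 1 := by
  rw [Val, map_zero, sub_zero] at hf; exact hf

omit [IsAlgClosed K] [CharZero K] [H3RR.IsFF K F] [H94.FunField K F] in
theorem val_zero_of_lt {P : Place K F} {f : F} (hf : P.adicValuation f < 1) : Val P f 0 := by
  rw [Val, map_zero, sub_zero]; exact hf

variable {S}

/-- values of elements of the semilocal ring are integral -/
theorem InR.val_le {x : Place k κ} {f : F} (hf : S.InR x f) {P : Place K F} (hP : S.red P = x)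
    {c : K} (hc : Val P f c) : S.vK c ≤ 1 := by
  obtain ⟨n, a, ha, hreg, hrel⟩ := S.rel_InR hf
  have hP' : S.r (H67.res S.φ P) = x := hP
  choose b hb using fun i => H3RR.exists_const_sub_lt_one (H67.res S.φ P) (hreg i _ hP')
  have hbint : ∀ i, S.vK (b i) ≤ 1 := fun i => (S.val₀ (ha i) (hreg i) hP' (hb i)).1
  have hbval : ∀ i, Val P (S.φ (a i)) (b i) := by
    intro i
    have h1 : P.adicValuation (S.φ (a i - algebraMap K F₀ (b i))) < 1 := by
      by_contra hcon
      rw [not_lt] at hcon
      have h2 : (H67.res S.φ P).adicValuation (a i - algebraMap K F₀ (b i)) < 1 := hb i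
      by_cases h0 : a i - algebraMap K F₀ (b i) = 0
      · rw [h0, map_zero, map_zero] at hcon
        exact absurd hcon (not_le.mpr zero_lt_one)
      · have h3 : (a i - algebraMap K F₀ (b i))⁻¹ ∉ (H67.res S.φ P).toValuationSubring := by
          rw [H3RR.mem_iff_adicValuation_le_one, map_inv₀, not_le]
          exact (one_lt_inv₀ (zero_lt_iff.mpr ((Valuation.ne_zero_iff _).mpr h0))).mpr h2
        apply h3
        rw [H67.mem_res, H3RR.mem_iff_adicValuation_le_one, map_inv₀, map_inv₀]
        exact inv_le_one_of_one_le₀ hcon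
    rw [map_sub] at h1
    have h2 : S.φ (algebraMap K F₀ (b i)) = algebraMap K F (b i) := S.φ.commutes _
    rw [h2] at h1
    exact h1
  have hfP := hf.2 P hP
  -- the relation for the value
  have hsum : ∀ m, Val P (∑ i ∈ Finset.range m, S.φ (a i) * f ^ i)
      (∑ i ∈ Finset.range m, b i * c ^ i) := by
    intro m
    induction m with
    | zero => simpa using Val.const (P := P) (0 : K)
    | succ m ih =>
      rw [Finset.sum_range_succ, Finset.sum_range_succ]
      refine ih.add (Val.mul ?_ (hbval m) (hc.pow hfP m))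
      rw [← H3RR.mem_iff_adicValuation_le_one, ← H67.mem_res, H3RR.mem_iff_adicValuation_le_one]
      exact hreg m _ hP'
  have h1 := hsum n
  rw [← hrel] at h1
  have h2 := (hc.pow hfP n).unique h1
  exact le_one_of_rel S.vK b hbint h2

/-- the value of `φ b` -/
theorem val_φ {x : Place k κ} {b : F₀} (hb : S.v₀ b ≤ 1)
    (hreg : ∀ P, S.r P = x → P.adicValuation b ≤ 1) {P : Place K F} (hP : S.red P = x) :
    ∃ c, Val P (S.φ b) c ∧ S.vK c ≤ 1 ∧
      x.adicValuation (S.ρ₀ b - algebraMap k κ (S.res c)) < 1 := by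
  obtain ⟨c, hc⟩ := H3RR.exists_const_sub_lt_one (H67.res S.φ P) (hreg _ hP)
  obtain ⟨h1, h2⟩ := S.val₀ hb hreg hP hc
  refine ⟨c, ?_, h1, h2⟩
  obtain ⟨d, hd⟩ := exists_val ((S.InR_φ hb hreg).2 P hP)
  have hdc : d = c := by
    by_contra hne
    have h3 : Val P (S.φ (b - algebraMap K F₀ c)) (d - c) := by
      rw [map_sub]
      have h4 : S.φ (algebraMap K F₀ c) = algebraMap K F c := S.φ.commutes _
      rw [h4]
      exact hd.sub_const c
    have h5 := h3.adic_eq_one (sub_ne_zero.mpr hne)
    have h6 : (b - algebraMap K F₀ c)⁻¹ ∈ (H67.res S.φ P).toValuationSubring := by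
      rw [H67.mem_res, H3RR.mem_iff_adicValuation_le_one, map_inv₀, map_inv₀, h5, inv_one]
    rw [H3RR.mem_iff_adicValuation_le_one, map_inv₀] at h6
    have h0 : b - algebraMap K F₀ c ≠ 0 := by
      intro h0
      rw [h0, map_zero] at h5
      simp at h5
    exact absurd h6 (not_le.mpr
      ((one_lt_inv₀ (zero_lt_iff.mpr ((Valuation.ne_zero_iff _).mpr h0))).mpr hc))
  rwa [← hdc]

variable (S)

/-- `P` specialises to the point over `x` on the component `i`. -/
def On (i : Bool) (P : Place K F) : Prop :=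
  ∀ f, S.InR (S.red P) f → ∀ c, Val P f c →
    (S.pt i (S.red P)).adicValuation (S.ρ i f - algebraMap k κ (S.res c)) < 1

variable {S}

/-- values of reductions at points of `κ` -/
theorem exists_valκ {y : Place k κ} {h : κ} (hh : y.adicValuation h ≤ 1) :
    ∃ e : k, y.adicValuation (h - algebraMap k κ e) < 1 :=
  H3RR.exists_const_sub_lt_one y hh

theorem valκ_unique {y : Place k κ} {h : κ} {d e : k} (hd : y.adicValuation (h - algebraMap k κ d) < 1)
    (he : y.adicValuation (h - algebraMap k κ e) < 1) : d = e := by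
  by_contra hne
  have h1 : y.adicValuation (algebraMap k κ (d - e)) < 1 := by
    have : algebraMap k κ (d - e) = (h - algebraMap k κ e) - (h - algebraMap k κ d) := by
      rw [map_sub]; ring
    rw [this]
    exact Valuation.map_sub_lt _ he hd
  rw [H3RR.adicValuation_algebraMap _ (sub_ne_zero.mpr hne)] at h1
  exact lt_irrefl _ h1

theorem valκ_adic_eq_one {y : Place k κ} {h : κ} {d : k}
    (hd : y.adicValuation (h - algebraMap k κ d) < 1) (h0 : d ≠ 0) : y.adicValuation h = 1 := by
  have h1 : y.adicValuation (algebraMap k κ d) = 1 := H3RR.adicValuation_algebraMap _ h0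
  have h2 : h = algebraMap k κ d + (h - algebraMap k κ d) := by ring
  rw [h2, Valuation.map_add_eq_of_lt_left _ (by rw [h1]; exact hd), h1]

theorem valκ_ne_zero {y : Place k κ} {h : κ} {d : k}
    (hd : y.adicValuation (h - algebraMap k κ d) < 1) (h1 : y.adicValuation h = 1) : d ≠ 0 := by
  rintro rfl
  rw [map_zero, sub_zero, h1] at hd
  exact lt_irrefl _ hd

theorem valκ_mul {y : Place k κ} {g h : κ} {d e : k} (hg1 : y.adicValuation g ≤ 1)
    (hg : y.adicValuation (g - algebraMap k κ d) < 1)
    (hh : y.adicValuation (h - algebraMap k κ e) < 1) :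
    y.adicValuation (g * h - algebraMap k κ (d * e)) < 1 := by
  have : g * h - algebraMap k κ (d * e) =
      g * (h - algebraMap k κ e) + (g - algebraMap k κ d) * algebraMap k κ e := by
    rw [map_mul]; ring
  rw [this]
  refine Valuation.map_add_lt _ ?_ ?_
  · rw [map_mul]; exact mul_lt_one_aux hg1 hh
  · rw [map_mul]; exact mul_lt_one_of_lt_of_le hg (y.adicValuation_algebraMap_le_one e)

theorem valκ_add {y : Place k κ} {g h : κ} {d e : k}
    (hg : y.adicValuation (g - algebraMap k κ d) < 1)
    (hh : y.adicValuation (h - algebraMap k κ e) < 1) :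
    y.adicValuation (g + h - algebraMap k κ (d + e)) < 1 := by
  have : g + h - algebraMap k κ (d + e) =
      (h - algebraMap k κ e) + (g - algebraMap k κ d) := by
    rw [map_add]; ring
  rw [this]
  exact Valuation.map_add_lt _ hh hg

/-- Correction by a pull-back: on the component `false`. -/
theorem exists_kill_false {x : Place k κ} {f : F} (hf : S.InR x f) :
    ∃ b : F₀, S.v₀ b ≤ 1 ∧ (∀ P, S.r P = x → P.adicValuation b ≤ 1) ∧ S.ρ₀ b = S.ρ false f ∧
      S.InR x (f - S.φ b) ∧ S.ρ false (f - S.φ b) = 0 := by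
  obtain ⟨b, hb, hreg, hρ⟩ := S.lift₀ x (S.ρ false f) (S.reg hf false)
  refine ⟨b, hb, hreg, hρ, hf.sub (S.InR_φ hb hreg), ?_⟩
  rw [(S.comp false).ρ_sub (hf.1 false) (by rw [S.v_φ]; exact hb), S.ρ_false b hb, hρ, sub_self]

/-- Correction by a pull-back: on the component `true`. -/
theorem exists_kill_true {x : Place k κ} {f : F} (hf : S.InR x f) :
    ∃ b : F₀, S.v₀ b ≤ 1 ∧ (∀ P, S.r P = x → P.adicValuation b ≤ 1) ∧
      S.ρ₀ b = S.σ (S.ρ true f) ∧
      S.InR x (f ^ q - S.φ b) ∧ S.ρ true (f ^ q - S.φ b) = 0 := by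
  obtain ⟨b, hb, hreg, hρ⟩ := S.lift₀ x (S.σ (S.ρ true f)) (by
    rw [S.tw_val]; exact S.reg hf true)
  refine ⟨b, hb, hreg, hρ, (hf.pow q).sub (S.InR_φ hb hreg), ?_⟩
  rw [(S.comp true).ρ_sub ((hf.pow q).1 true) (by rw [S.v_φ]; exact hb), S.ρ_true b hb, hρ,
    S.Φσ, (S.comp true).ρ_pow (hf.1 true), sub_self]

theorem σ_val {x : Place k κ} {h : κ} {d : k}
    (hd : (S.tw x).adicValuation (h - algebraMap k κ d) < 1) :
    x.adicValuation (S.σ h - algebraMap k κ (d ^ q)) < 1 := by
  rw [← S.σ_alg, ← map_sub, S.tw_val]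
  exact hd

theorem Φ_val' {x : Place k κ} (hq : q ≠ 0) {h : κ} {d : k}
    (hd : x.adicValuation (h - algebraMap k κ d) < 1) :
    (S.tw x).adicValuation (S.Φ h - algebraMap k κ d) < 1 := by
  rw [← S.Φ_alg, ← map_sub, S.Φ_val]
  exact pow_lt_one₀ bot_le hd hq

variable [hqF : Fact q.Prime] [CharP k q]

/-- The product of two functions vanishing on the two components is small. -/
theorem val_lt_of_zero {x : Place k κ} {f : F} (hf : S.InR x f) (h0 : ∀ i, S.v i f < 1)
    {P : Place K F} (hP : S.red P = x) {c : K} (hc : Val P f c) : S.vK c < 1 := by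
  by_cases hf0 : f = 0
  · subst hf0
    have : c = 0 := by
      have h1 : Val P (0 : F) 0 := by simpa using Val.const (P := P) (0 : K)
      exact hc.unique h1
    rw [this, map_zero]; exact zero_lt_one
  · -- the larger of the two valuations
    obtain ⟨i, hi⟩ : ∃ i, ∀ j, S.v j f ≤ S.v i f := by
      rcases le_total (S.v false f) (S.v true f) with h | h
      · exact ⟨true, fun j => by cases j; exacts [h, le_rfl]⟩
      · exact ⟨false, fun j => by cases j; exacts [le_rfl, h]⟩
    obtain ⟨d, hd0, hd⟩ := (S.comp i).scale f hf0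
    have hdF : algebraMap K F d ≠ 0 := (_root_.map_ne_zero _).mpr hd0
    have hvd : 0 < S.vK d := zero_lt_iff.mpr ((Valuation.ne_zero_iff _).mpr hd0)
    have hg : S.InR x (f / algebraMap K F d) := by
      refine ⟨fun j => ?_, fun Q hQ => ?_⟩
      · rw [map_div₀, (S.comp j).v_alg, ← hd]
        exact (div_le_one₀ (by rw [hd]; exact hvd)).mpr (hi j)
      · rw [map_div₀, H3RR.adicValuation_algebraMap _ hd0, div_one]
        exact hf.2 Q hQ
    have hval : Val P (f / algebraMap K F d) (c / d) := by
      rw [Val]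
      have : f / algebraMap K F d - algebraMap K F (c / d) =
          (f - algebraMap K F c) / algebraMap K F d := by rw [map_div₀, sub_div]
      rw [this, map_div₀, H3RR.adicValuation_algebraMap _ hd0, div_one]
      exact hc
    have h1 := hg.val_le hP hval
    rw [map_div₀, div_le_one₀ hvd] at h1
    exact lt_of_le_of_lt h1 (hd ▸ h0 i)

/-- The dichotomy. -/
theorem on_false_or_true (P : Place K F) : S.On false P ∨ S.On true P := by
  classical
  have hq : q ≠ 0 := hqF.out.ne_zero
  by_contra hcon
  rw [not_or] at hcon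
  obtain ⟨hF, hT⟩ := hcon
  simp only [On] at hF hT
  push Not at hF hT
  obtain ⟨f, hf, c, hc, hfc⟩ := hF
  obtain ⟨g, hg, d, hd, hgd⟩ := hT
  set x := S.red P with hx
  -- first function
  obtain ⟨b, hb, hbreg, hbρ, hf1, hf1ρ⟩ := exists_kill_false hf
  obtain ⟨β, hβ, hβ1, hβρ⟩ := val_φ (S := S) hb hbreg (P := P) rfl
  have hcA := hf.val_le (P := P) rfl hc
  have hf1val : Val P (f - S.φ b) (c - β) := by
    rw [Val]
    have : f - S.φ b - algebraMap K F (c - β) =
      (f - algebraMap K F c) - (S.φ b - algebraMap K F β) := by rw [map_sub]; ring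
    rw [this]
    exact Valuation.map_sub_lt _ hc hβ
  have hcβ : S.res (c - β) ≠ 0 := by
    rw [(S.comp false).res_sub hcA hβ1, sub_ne_zero]
    intro h
    rw [hbρ, ← h] at hβρ
    exact absurd hβρ (not_lt.mpr hfc)
  -- second function
  obtain ⟨b', hb', hb'reg, hb'ρ, hg1, hg1ρ⟩ := exists_kill_true hg
  obtain ⟨β', hβ', hβ'1, hβ'ρ⟩ := val_φ (S := S) hb' hb'reg (P := P) rfl
  have hdA := hg.val_le (P := P) rfl hd
  have hgP := hg.2 P rfl
  have hg1val : Val P (g ^ q - S.φ b') (d ^ q - β') := by
    rw [Val]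
    have : g ^ q - S.φ b' - algebraMap K F (d ^ q - β') =
      (g ^ q - algebraMap K F (d ^ q)) - (S.φ b' - algebraMap K F β') := by rw [map_sub]; ring
    rw [this]
    exact Valuation.map_sub_lt _ (hd.pow hgP q) hβ'
  have hdβ' : S.res (d ^ q - β') ≠ 0 := by
    have hdq : S.vK (d ^ q) ≤ 1 := by rw [map_pow]; exact pow_le_one' hdA q
    rw [(S.comp false).res_sub hdq hβ'1, (S.comp false).res_pow hdA, sub_ne_zero]
    intro h
    -- `σ (ρ true g)` has value `(res d)^q` at `x`
    obtain ⟨e, he⟩ := exists_valκ (S.reg hg true)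
    have h2 := σ_val (S := S) (x := x) he
    rw [hb'ρ, ← h] at hβ'ρ
    have h3 := valκ_unique h2 hβ'ρ
    have h4 : e = S.res d := by
      have h5 : (e - S.res d) ^ q = 0 := by
        rw [sub_pow_char, h3, sub_self]
      exact sub_eq_zero.mp (pow_eq_zero_iff hq |>.mp h5)
    rw [h4] at he
    exact absurd he (not_lt.mpr hgd)
  -- the product
  have hprod := hf1.mul hg1
  have hsmall : ∀ i, S.v i ((f - S.φ b) * (g ^ q - S.φ b')) < 1 := by
    intro i
    rw [map_mul]
    cases i with
    | false =>
      exact mul_lt_one_of_lt_of_le (((S.comp false).ρ_eq_zero _ (hf1.1 false)).mp hf1ρ)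
        (hg1.1 false)
    | true =>
      exact mul_lt_one_aux (hf1.1 true)
        (((S.comp true).ρ_eq_zero _ (hg1.1 true)).mp hg1ρ)
  have hv := val_lt_of_zero hprod hsmall (P := P) rfl
    (Val.mul (hf1.2 P rfl) hf1val hg1val)
  have hA1 := hf1.val_le (P := P) rfl hf1val
  have hA2 := hg1.val_le (P := P) rfl hg1val
  have hres := ((S.comp false).res_eq_zero (c := (c - β) * (d ^ q - β')) hv.le).mpr hv
  rw [(S.comp false).res_mul hA1 hA2] at hres
  exact mul_ne_zero hcβ hdβ' hres

end Fermat.Agent.H97.Sheets
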