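import Fermat.Agent.H97MdB

/-!
# Two sheets: nodes, the specialisation map, degrees
-/

set_option autoImplicit false
set_option linter.unusedSectionVars false

open AlgebraicCurve WithZero IntermediateField

namespace Fermat.Agent.H97

section ClsMore

variable {K F : Type*} [Field K] [Field F] [Algebra K F] {α : Type*} (sp : Place K F → α)

theorem cls_sub (D E : Divisor K F) (a : α) : cls sp (D - E) a = cls sp D a - cls sp E a := by
  have h : D - E = D + (-1 : ℤ) • E := by rw [neg_one_smul, sub_eq_add_neg]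
  rw [h, cls_add, cls_smul]; ring

theorem cls_mono {D E : Divisor K F} {a : α} (h : ∀ P, sp P = a → D P ≤ E P) :
    cls sp D a ≤ cls sp E a := by
  have h1 : 0 ≤ cls sp (E - D) a := cls_nonneg sp fun P hP => by
    rw [Finsupp.sub_apply]
    have := h P hP
    omega
  rw [cls_sub] at h1
  omega

theorem cls_eq_zero {D : Divisor K F} {a : α} (h : ∀ P, sp P = a → D P = 0) :
    cls sp D a = 0 := by
  have h1 := cls_congr sp (D := D) (E := 0) (a := a) fun P hP => by rw [h P hP]; rfl
  rw [h1, cls, Finsupp.mapDomain_zero]; rfl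

theorem cls_eq_add {β : Type*} (sp' : Place K F → β) {a b : α} {c : β} (hab : a ≠ b)
    (h : ∀ P, sp' P = c ↔ sp P = a ∨ sp P = b) (D : Divisor K F) :
    cls sp' D c = cls sp D a + cls sp D b := by
  classical
  have hs : ∀ P (m : ℤ), cls sp' (Finsupp.single P m) c =
      cls sp (Finsupp.single P m) a + cls sp (Finsupp.single P m) b := by
    intro P m
    rw [cls, cls, cls, Finsupp.mapDomain_single, Finsupp.mapDomain_single, Finsupp.single_apply,
      Finsupp.single_apply, Finsupp.single_apply]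
    by_cases ha : sp P = a
    · rw [if_pos ((h P).mpr (Or.inl ha)), if_pos ha, if_neg (by rw [ha]; exact hab), add_zero]
    · by_cases hb : sp P = b
      · rw [if_pos ((h P).mpr (Or.inr hb)), if_neg ha, if_pos hb, zero_add]
      · rw [if_neg (fun hc => ((h P).mp hc).elim ha hb), if_neg ha, if_neg hb, add_zero]
  induction D using Finsupp.induction_linear with
  | zero => simp [cls, Finsupp.mapDomain_zero]
  | add D E hD hE => rw [cls_add, cls_add, cls_add, hD, hE]; ring
  | single P m => exact hs P m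

end ClsMore

theorem ord_eq_of_adic_eq {k κ : Type*} [Field k] [Field κ] [Algebra k κ] {x y : Place k κ}
    {g h : κ} (hg : g ≠ 0) (hh : h ≠ 0) (he : x.adicValuation g = y.adicValuation h) :
    x.ord g = y.ord h := by
  rw [x.adicValuation_eq_exp_neg_ord hg, y.adicValuation_eq_exp_neg_ord hh, exp_inj] at he
  omega

theorem ord_eq_zero_of_adic {k κ : Type*} [Field k] [Field κ] [Algebra k κ] {x : Place k κ}
    {g : κ} (hg : x.adicValuation g = 1) : x.ord g = 0 := by
  have h0 : g ≠ 0 := by rintro rfl; simp at hg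
  rw [x.adicValuation_eq_exp_neg_ord h0, ← exp_zero, exp_inj] at hg
  omega

namespace Sheets

variable {K F₀ F k κ Γ : Type*} [Field K] [Field F₀] [Field F] [Algebra K F₀] [Algebra K F]
    [Field k] [Field κ] [Algebra k κ] [LinearOrderedCommGroupWithZero Γ] {q : ℕ}
    (S : Sheets K F₀ F k κ Γ q)

variable [IsAlgClosed K] [CharZero K] [H3RR.IsFF K F₀] [H3RR.IsFF K F]
  [IsAlgClosed k] [H3RR.IsFF k κ] [H94.FunField K F₀] [H94.FunField K F]

/-- `x` is a node: the two points over `x` coincide. -/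
def Node (x : Place k κ) : Prop :=
  ∀ f, S.InR x f → ∃ c : k, ∀ i, (S.pt i x).adicValuation (S.ρ i f - algebraMap k κ c) < 1

open Classical in
/-- The specialisation map. -/
noncomputable def sp (P : Place K F) : (Bool × Place k κ) ⊕ {x : Place k κ // S.Node x} :=
  if h : S.Node (S.red P) then Sum.inr ⟨_, h⟩
  else Sum.inl (if S.On false P then (false, S.red P) else (true, S.tw (S.red P)))

theorem sp_eq_inr {P : Place K F} {s : {x : Place k κ // S.Node x}} :
    S.sp P = Sum.inr s ↔ S.red P = s.1 := by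
  classical
  rw [sp]
  split_ifs with h1
  · rw [Sum.inr.injEq, Subtype.ext_iff]
  · refine ⟨fun h => by simp at h, fun h => absurd (h ▸ s.2) h1⟩

variable [hqF : Fact q.Prime] [CharP k q]

/-- Separating functions. -/
theorem exists_sep {x : Place k κ} (hx : ¬ S.Node x) (i : Bool) :
    ∃ e, S.InR x e ∧ S.ρ i e = 0 ∧ (S.pt (!i) x).adicValuation (S.ρ (!i) e) = 1 := by
  have hq : q ≠ 0 := hqF.out.ne_zero
  simp only [Node] at hx
  push Not at hx
  obtain ⟨f, hf, hne⟩ := hx
  obtain ⟨e₀, he₀⟩ := exists_valκ (S.reg hf false)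
  obtain ⟨e₁, he₁⟩ := exists_valκ (S.reg hf true)
  have hee : e₀ ≠ e₁ := by
    rintro rfl
    obtain ⟨i, hi⟩ := hne e₀
    cases i with
    | false => exact absurd he₀ (not_lt.mpr hi)
    | true => exact absurd he₁ (not_lt.mpr hi)
  cases i with
  | false =>
    obtain ⟨b, hb, hbreg, hbρ, hf1, hf1ρ⟩ := exists_kill_false hf
    refine ⟨_, hf1, hf1ρ, ?_⟩
    have h1 : S.ρ true (f - S.φ b) = S.ρ true f - S.Φ (S.ρ false f) := by
      rw [(S.comp true).ρ_sub (hf.1 true) (by rw [S.v_φ]; exact hb), S.ρ_true b hb, hbρ]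
    have h2 : (S.tw x).adicValuation (S.ρ true (f - S.φ b) - algebraMap k κ (e₁ - e₀)) < 1 := by
      have h3 := Φ_val' (S := S) hq he₀
      have : S.ρ true (f - S.φ b) - algebraMap k κ (e₁ - e₀) =
          (S.ρ true f - algebraMap k κ e₁) - (S.Φ (S.ρ false f) - algebraMap k κ e₀) := by
        rw [h1, map_sub]; ring
      rw [this]
      exact Valuation.map_sub_lt _ he₁ h3
    exact valκ_adic_eq_one h2 (sub_ne_zero.mpr hee.symm)
  | true =>
    obtain ⟨b, hb, hbreg, hbρ, hf1, hf1ρ⟩ := exists_kill_true hf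
    refine ⟨_, hf1, hf1ρ, ?_⟩
    have h1 : S.ρ false (f ^ q - S.φ b) = S.ρ false f ^ q - S.σ (S.ρ true f) := by
      rw [(S.comp false).ρ_sub ((hf.pow q).1 false) (by rw [S.v_φ]; exact hb), S.ρ_false b hb,
        hbρ, (S.comp false).ρ_pow (hf.1 false)]
    have h4 : x.adicValuation (S.ρ false f ^ q - algebraMap k κ (e₀ ^ q)) < 1 := by
      have h5 : S.ρ false f ^ q - algebraMap k κ (e₀ ^ q) =
          (S.ρ false f - algebraMap k κ e₀) ^ q := by
        have : CharP κ q := charP_of_injective_algebraMap (algebraMap k κ).injective q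
        rw [sub_pow_char, map_pow]
      rw [h5, map_pow]
      exact pow_lt_one₀ bot_le he₀ hq
    have h2 : x.adicValuation (S.ρ false (f ^ q - S.φ b) -
        algebraMap k κ (e₀ ^ q - e₁ ^ q)) < 1 := by
      have h3 := σ_val (S := S) he₁
      have : S.ρ false (f ^ q - S.φ b) - algebraMap k κ (e₀ ^ q - e₁ ^ q) =
          (S.ρ false f ^ q - algebraMap k κ (e₀ ^ q)) -
            (S.σ (S.ρ true f) - algebraMap k κ (e₁ ^ q)) := by
        rw [h1, map_sub]; ring
      rw [this]
      exact Valuation.map_sub_lt _ h4 h3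
    refine valκ_adic_eq_one h2 ?_
    rw [← sub_pow_char]
    exact pow_ne_zero _ (sub_ne_zero.mpr hee)

theorem on_unique {x : Place k κ} (hx : ¬ S.Node x) {P : Place K F} (hP : S.red P = x) {i : Bool}
    (h1 : S.On i P) (h2 : S.On (!i) P) : False := by
  obtain ⟨e, he, he0, he1⟩ := S.exists_sep hx i
  subst hP
  obtain ⟨c, hc⟩ := exists_val (he.2 P rfl)
  have h3 := h1 e he c hc
  have h4 := h2 e he c hc
  rw [he0, zero_sub, Valuation.map_neg] at h3
  have h5 : S.res c = 0 := by
    by_contra hne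
    rw [H3RR.adicValuation_algebraMap _ hne] at h3
    exact lt_irrefl _ h3
  rw [h5, map_zero, sub_zero, he1] at h4
  exact lt_irrefl _ h4

theorem sp_eq_inl {x : Place k κ} (hx : ¬ S.Node x) {P : Place K F} {i : Bool} :
    S.sp P = Sum.inl (i, S.pt i x) ↔ S.red P = x ∧ S.On i P := by
  classical
  rw [sp]
  split_ifs with h1 h2
  · refine ⟨fun h => by simp at h, fun h => absurd (h.1 ▸ h1) hx⟩
  · rw [Sum.inl.injEq, Prod.mk.injEq]
    cases i with
    | false => exact ⟨fun h => ⟨h.2, h2⟩, fun h => ⟨rfl, h.1⟩⟩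
    | true =>
      refine ⟨fun h => by simp at h, fun h => ?_⟩
      exact (S.on_unique hx h.1 h2 h.2).elim
  · rw [Sum.inl.injEq, Prod.mk.injEq]
    cases i with
    | false => exact ⟨fun h => by simp at h, fun h => absurd h.2 h2⟩
    | true =>
      have h3 : S.On true P := (S.on_false_or_true P).resolve_left h2
      exact ⟨fun h => ⟨S.tw.injective h.2, h3⟩, fun h => ⟨rfl, by rw [h.1]; rfl⟩⟩

theorem red_eq_iff {x : Place k κ} (hx : ¬ S.Node x) (P : Place K F) (i : Bool) :
    S.red P = x ↔ S.sp P = Sum.inl (i, S.pt i x) ∨ S.sp P = Sum.inl (!i, S.pt (!i) x) := by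
  rw [S.sp_eq_inl hx, S.sp_eq_inl hx]
  constructor
  · intro h
    rcases S.on_false_or_true P with h1 | h1 <;> cases i
    · exact Or.inl ⟨h, h1⟩
    · exact Or.inr ⟨h, h1⟩
    · exact Or.inr ⟨h, h1⟩
    · exact Or.inl ⟨h, h1⟩
  · rintro (h | h) <;> exact h.1

omit hqF [CharP k q] in
/-- The degree of a divisor of a function over `x`. -/
theorem deg_red {f : F} (hf : f ≠ 0) (h : ∀ i, S.v i f = 1) {D : Divisor K F}
    (hD : ∀ P, D P = P.ord f) (x : Place k κ) :
    cls S.red D x = x.ord (S.ρ false f) + (S.tw x).ord (S.ρ true f) := by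
  have hN0 := H67.normAlong_ne_zero' S.φ hf
  have h1 : S.v₀ (H60.normAlong S.φ f) = 1 := by
    rw [S.norm_val, h false, h true, one_pow, mul_one]
  have hD' : D = H67.divF f hf := by ext P; rw [hD, H67.divF_apply]
  have h2 := S.deg₀ _ hN0 h1 (H67.divF (H60.normAlong S.φ f) hN0) (H67.divF_apply _ hN0) x
  rw [← H67.pushD_divF (hf := hf), H67.pushD_eq, cls, ← Finsupp.mapDomain_comp, ← hD'] at h2
  have h3 : cls S.red D x = x.ord (S.ρ₀ (H60.normAlong S.φ f)) := h2
  have hρ0 : S.ρ false f ≠ 0 := (S.comp false).ρ_ne_zero (h false)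
  have hρ1 : S.ρ true f ≠ 0 := (S.comp true).ρ_ne_zero (h true)
  have hσ : S.σ (S.ρ true f) ≠ 0 := (map_ne_zero_iff _ S.σ.injective).mpr hρ1
  rw [h3, S.norm_red f (h false) (h true), x.ord_mul hρ0 hσ]
  congr 1
  exact ord_eq_of_adic_eq hσ hρ1 (S.tw_val x _)

theorem pt_inj {x : Place k κ} {i : Bool} :
    (Sum.inl (i, S.pt i x) : (Bool × Place k κ) ⊕ {x : Place k κ // S.Node x}) ≠
      Sum.inl (!i, S.pt (!i) x) := by
  rw [ne_eq, Sum.inl.injEq, Prod.mk.injEq]
  cases i <;> simp

/-- The degree over a smooth point. -/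
theorem deg_split {x : Place k κ} (hx : ¬ S.Node x) (i : Bool) {f : F} (hf : f ≠ 0)
    (h : ∀ i, S.v i f = 1) {D : Divisor K F} (hD : ∀ P, D P = P.ord f) :
    cls S.sp D (Sum.inl (i, S.pt i x)) + cls S.sp D (Sum.inl (!i, S.pt (!i) x)) =
      (S.pt i x).ord (S.ρ i f) + (S.pt (!i) x).ord (S.ρ (!i) f) := by
  rw [← cls_eq_add S.sp S.red S.pt_inj (fun P => S.red_eq_iff hx P i), S.deg_red hf h hD]
  cases i
  · rfl
  · rw [add_comm]; rfl

omit hqF [CharP k q] in
/-- The degree over a node. -/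
theorem deg_node (s : {x : Place k κ // S.Node x}) {f : F} (hf : f ≠ 0)
    (h : ∀ i, S.v i f = 1) {D : Divisor K F} (hD : ∀ P, D P = P.ord f) :
    cls S.sp D (Sum.inr s) = s.1.ord (S.ρ false f) + (S.tw s.1).ord (S.ρ true f) := by
  classical
  rw [← S.deg_red hf h hD, cls_eq_sum, cls_eq_sum]
  refine Finset.sum_congr ?_ fun _ _ => rfl
  ext P
  rw [Finset.mem_filter, Finset.mem_filter, S.sp_eq_inr]

end Sheets

end Fermat.Agent.H97
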