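import Fermat.Agent.H97MdC

/-!
# Two sheets: degrees on smooth residue classes
-/

set_option autoImplicit false
set_option linter.unusedSectionVars false

open AlgebraicCurve WithZero IntermediateField

namespace Fermat.Agent.H97

theorem adic_le_exp {K F : Type*} [Field K] [Field F] [Algebra K F] {P : Place K F} {f : F}
    {n : ℤ} (hf : f ≠ 0) (h : n ≤ P.ord f) : P.adicValuation f ≤ exp (-n) := by
  rw [P.adicValuation_eq_exp_neg_ord hf, exp_le_exp]; omega

theorem ord_ge_of_adic {K F : Type*} [Field K] [Field F] [Algebra K F] {P : Place K F} {f : F}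
    {n : ℤ} (hf : f ≠ 0) (h : P.adicValuation f ≤ exp (-n)) : n ≤ P.ord f := by
  rw [P.adicValuation_eq_exp_neg_ord hf, exp_le_exp] at h; omega

namespace Sheets

variable {K F₀ F k κ Γ : Type*} [Field K] [Field F₀] [Field F] [Algebra K F₀] [Algebra K F]
    [Field k] [Field κ] [Algebra k κ] [LinearOrderedCommGroupWithZero Γ] {q : ℕ}
    (S : Sheets K F₀ F k κ Γ q)

variable [IsAlgClosed K] [CharZero K] [H3RR.IsFF K F₀] [H3RR.IsFF K F]
  [IsAlgClosed k] [H3RR.IsFF k κ] [H94.FunField K F₀] [H94.FunField K F]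
  [hqF : Fact q.Prime] [CharP k q]

theorem regular_on {x : Place k κ} {i : Bool} {f : F} (hf : S.InR x f) {P : Place K F}
    (hP : S.sp P = Sum.inl (i, S.pt i x)) (hx : ¬ S.Node x) : P.adicValuation f ≤ 1 :=
  hf.2 P ((S.sp_eq_inl hx).mp hP).1

/-- No zeros on the class if the reduction is a unit at the point. -/
theorem adic_eq_one_on {x : Place k κ} (hx : ¬ S.Node x) {i : Bool} {f : F} (hf : S.InR x f)
    (hu : (S.pt i x).adicValuation (S.ρ i f) = 1) {P : Place K F}
    (hP : S.sp P = Sum.inl (i, S.pt i x)) : P.adicValuation f = 1 := by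
  obtain ⟨h1, h2⟩ := (S.sp_eq_inl hx).mp hP
  subst h1
  obtain ⟨c, hc⟩ := exists_val (hf.2 P rfl)
  refine hc.adic_eq_one ?_
  rintro rfl
  have h3 := h2 f hf 0 hc
  have h4 : S.res 0 = 0 := ((S.comp i).res_eq_zero (by simp)).mpr (by simp)
  rw [h4, map_zero, sub_zero, hu] at h3
  exact lt_irrefl _ h3

/-- The value at a point of the class reduces to the value of the reduction. -/
theorem vK_lt_of_zero {x : Place k κ} (hx : ¬ S.Node x) {i : Bool} {f : F} (hf : S.InR x f)
    (h0 : (S.pt i x).adicValuation (S.ρ i f) < 1) {P : Place K F}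
    (hP : S.sp P = Sum.inl (i, S.pt i x)) {c : K} (hc : Val P f c) : S.vK c < 1 := by
  obtain ⟨h1, h2⟩ := (S.sp_eq_inl hx).mp hP
  subst h1
  have h3 := h2 f hf c hc
  have h4 := hf.val_le rfl hc
  rw [← (S.comp i).res_eq_zero h4]
  by_contra hne
  have h5 : (S.pt i (S.red P)).adicValuation (algebraMap k κ (S.res c)) < 1 := by
    have : algebraMap k κ (S.res c) = S.ρ i f - (S.ρ i f - algebraMap k κ (S.res c)) := by ring
    rw [this]
    exact Valuation.map_sub_lt _ h0 h3
  rw [H3RR.adicValuation_algebraMap _ hne] at h5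
  exact lt_irrefl _ h5

/-- Upper bound for the number of zeros on a class. -/
theorem le_ord {x : Place k κ} (hx : ¬ S.Node x) (i : Bool) {f : F} (hf : S.InR x f)
    (hv : S.v i f = 1) {D : Divisor K F} (hD : ∀ P, D P = P.ord f) :
    cls S.sp D (Sum.inl (i, S.pt i x)) ≤ (S.pt i x).ord (S.ρ i f) := by
  classical
  have Ci := S.comp i
  have Cj := S.comp (!i)
  have hf0 : f ≠ 0 := by rintro rfl; simp at hv
  obtain ⟨e, he, hei, hej⟩ := S.exists_sep hx i
  have hred : ∀ P, S.sp P = Sum.inl (i, S.pt i x) → S.red P = x := fun P hP =>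
    ((S.sp_eq_inl hx).mp hP).1
  -- values of `e`
  have hc : ∀ P, ∃ c : K, S.sp P = Sum.inl (i, S.pt i x) → Val P e c := by
    intro P
    by_cases hP : S.sp P = Sum.inl (i, S.pt i x)
    · obtain ⟨c, hc⟩ := exists_val (he.2 P (hred P hP))
      exact ⟨c, fun _ => hc⟩
    · exact ⟨0, fun h => absurd h hP⟩
  choose c hc using hc
  have hcv : ∀ P, S.sp P = Sum.inl (i, S.pt i x) → S.vK (c P) < 1 := fun P hP =>
    S.vK_lt_of_zero hx he (by rw [hei, map_zero]; exact zero_lt_one) hP (hc P hP)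
  set Z := D.support.filter (fun P => S.sp P = Sum.inl (i, S.pt i x)) with hZ
  set b : Place K F → F := fun P => e - algebraMap K F (c P) with hb
  set m : Place K F → ℕ := fun P => (D P).toNat with hm
  have hZsp : ∀ P ∈ Z, S.sp P = Sum.inl (i, S.pt i x) := fun P hP => (Finset.mem_filter.mp hP).2
  have hbR : ∀ P ∈ Z, S.InR x (b P) := fun P hP =>
    he.sub (InR.const (hcv P (hZsp P hP)).le)
  have hρc : ∀ P ∈ Z, ∀ l, S.ρ l (algebraMap K F (c P)) = 0 := by
    intro P hP l
    have h1 : S.v l (algebraMap K F (c P)) < 1 := by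
      rw [(S.comp l).v_alg]; exact hcv P (hZsp P hP)
    exact ((S.comp l).ρ_eq_zero _ h1.le).mpr h1
  have hbρ : ∀ P ∈ Z, ∀ l, S.ρ l (b P) = S.ρ l e := by
    intro P hP l
    rw [hb]
    simp only
    rw [(S.comp l).ρ_sub (he.1 l) (by
      rw [(S.comp l).v_alg]; exact (hcv P (hZsp P hP)).le), hρc P hP l, sub_zero]
  set E := e * ∏ P ∈ Z, b P ^ m P with hE
  have hprodR : S.InR x (∏ P ∈ Z, b P ^ m P) := InR.prod Z fun P hP => (hbR P hP).pow _
  have hER : S.InR x E := he.mul hprodR
  have hEi : S.ρ i E = 0 := by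
    rw [hE, Ci.ρ_mul _ _ (he.1 i) (hprodR.1 i), hei, zero_mul]
  have hEj : (S.pt (!i) x).adicValuation (S.ρ (!i) E) = 1 := by
    rw [hE, Cj.ρ_mul _ _ (he.1 _) (hprodR.1 _), map_mul, hej, one_mul,
      Cj.ρ_prod _ _ (fun P hP => ((hbR P hP).pow _).1 _), map_prod]
    refine Finset.prod_eq_one fun P hP => ?_
    rw [Cj.ρ_pow ((hbR P hP).1 _), hbρ P hP, map_pow, hej, one_pow]
  have hEP : ∀ P ∈ Z, P.adicValuation E ≤ exp (-(m P : ℤ)) := by
    intro P hP
    have hPx := hred P (hZsp P hP)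
    rw [hE, map_mul, ← Finset.mul_prod_erase Z _ hP, map_mul]
    have h1 : P.adicValuation e ≤ 1 := he.2 P hPx
    have h2 : P.adicValuation (∏ Q ∈ Z.erase P, b Q ^ m Q) ≤ 1 :=
      (InR.prod (S := S) (x := x) (Z.erase P) fun Q hQ =>
        (hbR Q (Finset.mem_of_mem_erase hQ)).pow _).2 P hPx
    have h3 : P.adicValuation (b P) < 1 := hc P (hZsp P hP)
    have h4 : P.adicValuation (b P ^ m P) ≤ exp (-(m P : ℤ)) := by
      rw [map_pow]
      have h5 : P.adicValuation (b P) ≤ exp (-1 : ℤ) := (H3RR.adicValuation_lt_one_iff P).mp h3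
      calc P.adicValuation (b P) ^ m P ≤ exp (-1 : ℤ) ^ m P := by gcongr
        _ = exp (-(m P : ℤ)) := by rw [← exp_nsmul]; simp
    calc P.adicValuation e * (P.adicValuation (b P ^ m P) *
          P.adicValuation (∏ Q ∈ Z.erase P, b Q ^ m Q))
        ≤ 1 * (exp (-(m P : ℤ)) * 1) := by gcongr
      _ = exp (-(m P : ℤ)) := by rw [one_mul, mul_one]
  -- choice of the constant
  obtain ⟨a, ha⟩ := exists_valκ (S.reg hf (!i))
  obtain ⟨u, hu⟩ := exists_valκ (S.reg hER (!i))
  have hu0 : u ≠ 0 := valκ_ne_zero hu hEj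
  have : Infinite k := IsAlgClosed.instInfinite
  obtain ⟨t, ht⟩ := Infinite.exists_notMem_finset ({0, -a / u} : Finset k)
  rw [Finset.mem_insert, Finset.mem_singleton, not_or] at ht
  obtain ⟨ht0, ht1⟩ := ht
  obtain ⟨l, hl1, hl⟩ := S.res_surj t
  have hlF : S.InR x (algebraMap K F l) := InR.const hl1
  set f' := f + algebraMap K F l * E with hf'
  have hf'R : S.InR x f' := hf.add (hlF.mul hER)
  have hρl : ∀ j, S.ρ j (algebraMap K F l * E) = algebraMap k κ t * S.ρ j E := by
    intro j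
    rw [(S.comp j).ρ_mul _ _ (hlF.1 j) (hER.1 j), (S.comp j).ρ_alg l hl1, hl]
  have hρf' : ∀ j, S.ρ j f' = S.ρ j f + algebraMap k κ t * S.ρ j E := by
    intro j
    rw [hf', (S.comp j).ρ_add _ _ (hf.1 j) ((hlF.mul hER).1 j), hρl]
  have hf'i : S.ρ i f' = S.ρ i f := by rw [hρf', hEi, mul_zero, add_zero]
  have hf'j : (S.pt (!i) x).adicValuation (S.ρ (!i) f') = 1 := by
    have h1 : (S.pt (!i) x).adicValuation (S.ρ (!i) f' - algebraMap k κ (a + t * u)) < 1 := by
      rw [hρf']
      refine valκ_add ha (valκ_mul ((S.pt (!i) x).adicValuation_algebraMap_le_one t) ?_ hu)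
      rw [sub_self, map_zero]; exact zero_lt_one
    refine valκ_adic_eq_one h1 ?_
    intro h2
    apply ht1
    field_simp
    linear_combination h2
  have hvi : S.v i f' = 1 := Ci.v_eq_one (hf'R.1 i) (by rw [hf'i]; exact Ci.ρ_ne_zero hv)
  have hvj : S.v (!i) f' = 1 := Cj.v_eq_one (hf'R.1 _) (by
    intro h0
    rw [h0, map_zero] at hf'j
    exact zero_ne_one hf'j)
  have hv' : ∀ j, S.v j f' = 1 := by
    intro j
    rcases Bool.eq_or_eq_not j i with h | h
    · rw [h]; exact hvi
    · rw [h]; exact hvj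
  have hf'0 : f' ≠ 0 := by
    intro h0; rw [h0, map_zero] at hvi; exact zero_ne_one hvi
  have hdeg := S.deg_split hx i hf'0 hv' (D := H3RR.divOf f') (H3RR.divOf_apply hf'0)
  rw [hf'i, ord_eq_zero_of_adic hf'j, add_zero] at hdeg
  have hnn : 0 ≤ cls S.sp (H3RR.divOf f' : Divisor K F) (Sum.inl (!i, S.pt (!i) x)) := by
    apply cls_nonneg
    intro P hP
    rw [H3RR.divOf_apply hf'0]
    exact ((P.adicValuation_le_one_iff).mp (S.regular_on hf'R hP hx)).resolve_left hf'0
  have hmono : cls S.sp D (Sum.inl (i, S.pt i x)) ≤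
      cls S.sp (H3RR.divOf f' : Divisor K F) (Sum.inl (i, S.pt i x)) := by
    apply cls_mono
    intro P hP
    rw [H3RR.divOf_apply hf'0]
    have hPx := hred P hP
    by_cases hDP : D P = 0
    · rw [hDP]
      exact ((P.adicValuation_le_one_iff).mp (S.regular_on hf'R hP hx)).resolve_left hf'0
    · have hPZ : P ∈ Z := Finset.mem_filter.mpr ⟨Finsupp.mem_support_iff.mpr hDP, hP⟩
      have hDnn : 0 ≤ D P := by
        rw [hD]
        exact ((P.adicValuation_le_one_iff).mp (hf.2 P hPx)).resolve_left hf0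
      have hmP : (m P : ℤ) = D P := Int.toNat_of_nonneg hDnn
      rw [← hmP]
      apply ord_ge_of_adic hf'0
      refine (Valuation.map_add _ _ _).trans (max_le ?_ ?_)
      · apply adic_le_exp hf0
        rw [hmP, hD]
      · rw [map_mul]
        calc P.adicValuation (algebraMap K F l) * P.adicValuation E ≤ 1 * exp (-(m P : ℤ)) := by
              gcongr
              · exact P.adicValuation_algebraMap_le_one l
              · exact hEP P hPZ
          _ = _ := one_mul _
  omega

/-- Equality if both valuations are trivial. -/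
theorem eq_ord₁ {x : Place k κ} (hx : ¬ S.Node x) (i : Bool) {f : F} (hf : S.InR x f)
    (hv : ∀ j, S.v j f = 1) {D : Divisor K F} (hD : ∀ P, D P = P.ord f) :
    cls S.sp D (Sum.inl (i, S.pt i x)) = (S.pt i x).ord (S.ρ i f) := by
  have hf0 : f ≠ 0 := by
    rintro rfl
    have := hv false
    rw [map_zero] at this
    exact zero_ne_one this
  have h1 := S.le_ord hx i hf (hv i) hD
  have h2 := S.le_ord hx (!i) hf (hv _) hD
  have h3 := S.deg_split hx i hf0 hv hD
  omega

end Sheets

end Fermat.Agent.H97
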