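import Fermat.Agent.H97MdD

/-!
# Two sheets: degrees on smooth residue classes, general case, and the model
-/

set_option autoImplicit false
set_option linter.unusedSectionVars false

open AlgebraicCurve WithZero IntermediateField

namespace Fermat.Agent.H97.Sheets

variable {K F₀ F k κ Γ : Type*} [Field K] [Field F₀] [Field F] [Algebra K F₀] [Algebra K F]
    [Field k] [Field κ] [Algebra k κ] [LinearOrderedCommGroupWithZero Γ] {q : ℕ}
    (S : Sheets K F₀ F k κ Γ q)

variable [IsAlgClosed K] [CharZero K] [H3RR.IsFF K F₀] [H3RR.IsFF K F]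
  [IsAlgClosed k] [H3RR.IsFF k κ] [H94.FunField K F₀] [H94.FunField K F]
  [hqF : Fact q.Prime] [CharP k q]

/-- Separating function, small on the other component. -/
theorem exists_sep' {x : Place k κ} (hx : ¬ S.Node x) (i : Bool) :
    ∃ (e : F) (d : K), S.InR x e ∧ S.ρ (!i) e = 0 ∧ (S.pt i x).adicValuation (S.ρ i e) = 1 ∧
      S.v i e = 1 ∧ d ≠ 0 ∧ S.v (!i) e = S.vK d ∧ S.vK d < 1 := by
  obtain ⟨e, he, h0, h1⟩ := S.exists_sep hx (!i)
  rw [Bool.not_not] at h1
  have hρ : S.ρ i e ≠ 0 := by intro h; rw [h, map_zero] at h1; exact zero_ne_one h1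
  have hv : S.v i e = 1 := (S.comp i).v_eq_one (he.1 i) hρ
  have he0 : e ≠ 0 := by rintro rfl; simp at hv
  obtain ⟨d, hd0, hd⟩ := (S.comp (!i)).scale e he0
  exact ⟨e, d, he, h0, h1, hv, hd0, hd, hd ▸ ((S.comp (!i)).ρ_eq_zero _ (he.1 _)).mp h0⟩

/-- Equality, if `f` is integral. -/
theorem eq_ord₂ {x : Place k κ} (hx : ¬ S.Node x) (i : Bool) {f : F} (hf : S.InR x f)
    (hv : S.v i f = 1) {D : Divisor K F} (hD : ∀ P, D P = P.ord f) :
    cls S.sp D (Sum.inl (i, S.pt i x)) = (S.pt i x).ord (S.ρ i f) := by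
  classical
  have Ci := S.comp i
  have Cj := S.comp (!i)
  have hf0 : f ≠ 0 := by rintro rfl; simp at hv
  obtain ⟨c, hc0, hc⟩ := Cj.scale f hf0
  have hcK : 0 < S.vK c := zero_lt_iff.mpr ((Valuation.ne_zero_iff _).mpr hc0)
  rcases (hf.1 (!i)).lt_or_eq with hlt | heq
  swap
  · refine S.eq_ord₁ hx i hf (fun j => ?_) hD
    rcases Bool.eq_or_eq_not j i with h | h
    · rw [h]; exact hv
    · rw [h]; exact heq
  -- `e` small on `i`, `e'` small on `!i`
  obtain ⟨e, d, he, he0, he1, hve, hd0, hd, hd1⟩ := S.exists_sep' hx (!i)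
  rw [Bool.not_not] at he0 hd
  obtain ⟨e', d', he', he'0, he'1, hve', hd'0, hd', hd'1⟩ := S.exists_sep' hx i
  obtain ⟨n, hn⟩ := S.arch d c hd1 hc0
  obtain ⟨m, hm⟩ := S.arch d' d hd'1 hd0
  have hdK : 0 < S.vK d := zero_lt_iff.mpr ((Valuation.ne_zero_iff _).mpr hd0)
  have hcF : algebraMap K F c ≠ 0 := (_root_.map_ne_zero _).mpr hc0
  set h := e ^ n / algebraMap K F c with hh
  have hvih : S.v i h < 1 := by
    rw [hh, map_div₀, map_pow, hd, Ci.v_alg]
    exact (div_lt_one₀ hcK).mpr hn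
  have hvjh : S.v (!i) h = (S.vK c)⁻¹ := by
    rw [hh, map_div₀, map_pow, hve, one_pow, Cj.v_alg, one_div]
  have hvjh1 : 1 < S.v (!i) h := by
    rw [hvjh]
    exact (one_lt_inv₀ hcK).mpr (hc ▸ hlt)
  set g := 1 + h with hg
  have hvig : S.v i g = 1 := by
    rw [hg, Valuation.map_add_eq_of_lt_left _ (by simpa using hvih), map_one]
  have hvjg : S.v (!i) g = (S.vK c)⁻¹ := by
    rw [hg, Valuation.map_add_eq_of_lt_right _ (by simpa using hvjh1), hvjh]
  have hg0 : g ≠ 0 := by intro h0; rw [h0, map_zero] at hvig; exact zero_ne_one hvig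
  have hρig : S.ρ i g = 1 := by
    rw [hg, Ci.ρ_add _ _ (by simp) hvih.le, Ci.ρ_one, (Ci.ρ_eq_zero _ hvih.le).mpr hvih, add_zero]
  have hgreg : ∀ P, S.red P = x → P.adicValuation g ≤ 1 := by
    intro P hP
    refine (Valuation.map_add _ _ _).trans (max_le (by simp) ?_)
    rw [hh, map_div₀, H3RR.adicValuation_algebraMap _ hc0, div_one, map_pow]
    exact pow_le_one' (he.2 P hP) n
  have hfg : S.InR x (f * g) := by
    refine ⟨fun j => ?_, fun P hP => ?_⟩
    · rcases Bool.eq_or_eq_not j i with hj | hj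
      · rw [hj, map_mul, hv, hvig, one_mul]
      · rw [hj, map_mul, hvjg, hc, mul_inv_cancel₀ hcK.ne']
    · rw [map_mul]; exact mul_le_one' (hf.2 P hP) (hgreg P hP)
  have hvfg : ∀ j, S.v j (f * g) = 1 := by
    intro j
    rcases Bool.eq_or_eq_not j i with hj | hj
    · rw [hj, map_mul, hv, hvig, one_mul]
    · rw [hj, map_mul, hvjg, hc, mul_inv_cancel₀ hcK.ne']
  have hfg0 : f * g ≠ 0 := mul_ne_zero hf0 hg0
  -- `g` is a unit on the class
  have hgP : ∀ P, S.sp P = Sum.inl (i, S.pt i x) → P.adicValuation g = 1 := by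
    intro P hP
    have hPx : S.red P = x := ((S.sp_eq_inl hx).mp hP).1
    obtain ⟨γ, hγ⟩ := exists_val (he.2 P hPx)
    obtain ⟨γ', hγ'⟩ := exists_val (he'.2 P hPx)
    have hγ'A := he'.val_le hPx hγ'
    have hγ'1 : S.vK γ' = 1 := by
      refine le_antisymm hγ'A ?_
      by_contra hcon
      rw [not_le] at hcon
      obtain ⟨-, hon⟩ := (S.sp_eq_inl hx).mp hP
      have h1 := hon e' (hPx ▸ he') γ' hγ'
      rw [((S.comp i).res_eq_zero hγ'A).mpr hcon, map_zero, sub_zero, hPx, he'1] at h1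
      exact lt_irrefl _ h1
    -- the auxiliary function
    have haux : S.InR x (e * e' ^ m / algebraMap K F d) := by
      refine ⟨fun j => ?_, fun Q hQ => ?_⟩
      · rcases Bool.eq_or_eq_not j i with hj | hj
        · rw [hj, map_div₀, map_mul, map_pow, hd, hve', one_pow, mul_one, Ci.v_alg,
            div_self hdK.ne']
        · rw [hj, map_div₀, map_mul, map_pow, hve, hd', one_mul, Cj.v_alg]
          exact (div_le_one₀ hdK).mpr hm.le
      · rw [map_div₀, H3RR.adicValuation_algebraMap _ hd0, div_one, map_mul, map_pow]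
        exact mul_le_one' (he.2 Q hQ) (pow_le_one' (he'.2 Q hQ) m)
    have hval : Val P (e * e' ^ m / algebraMap K F d) (γ * γ' ^ m / d) := by
      have h1 := Val.mul (he.2 P hPx) hγ (hγ'.pow (he'.2 P hPx) m)
      rw [Val] at h1 ⊢
      have h2 : e * e' ^ m / algebraMap K F d - algebraMap K F (γ * γ' ^ m / d) =
          (e * e' ^ m - algebraMap K F (γ * γ' ^ m)) / algebraMap K F d := by
        rw [map_div₀, sub_div]
      rw [h2, map_div₀, H3RR.adicValuation_algebraMap _ hd0, div_one]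
      exact h1
    have hγd : S.vK γ ≤ S.vK d := by
      have h1 := haux.val_le hPx hval
      rw [map_div₀, map_mul, map_pow, hγ'1, one_pow, mul_one] at h1
      exact (div_le_one₀ hdK).mp h1
    have hgval : Val P g (1 + γ ^ n / c) := by
      have h1 := hγ.pow (he.2 P hPx) n
      have h2 : g - algebraMap K F (1 + γ ^ n / c) =
          (e ^ n - algebraMap K F (γ ^ n)) / algebraMap K F c := by
        rw [hg, hh, map_add, map_one, map_div₀, sub_div]; ring
      rw [Val, h2, map_div₀, H3RR.adicValuation_algebraMap _ hc0, div_one]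
      exact h1
    refine hgval.adic_eq_one ?_
    intro h0
    have h1 : S.vK (γ ^ n / c) < 1 := by
      rw [map_div₀, map_pow]
      refine (div_lt_one₀ hcK).mpr (lt_of_le_of_lt ?_ hn)
      gcongr
    have h2 : S.vK (1 + γ ^ n / c) = 1 := by
      rw [Valuation.map_add_eq_of_lt_left _ (by simpa using h1), map_one]
    rw [h0, map_zero] at h2
    exact zero_ne_one h2
  have h1 := S.eq_ord₁ hx i hfg hvfg (D := H3RR.divOf (f * g)) (H3RR.divOf_apply hfg0)
  rw [Ci.ρ_mul _ _ hv.le hvig.le, hρig, mul_one] at h1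
  rw [← h1]
  apply cls_congr
  intro P hP
  rw [hD, H3RR.divOf_apply hfg0, P.ord_mul hf0 hg0, ord_eq_zero_of_adic (hgP P hP), add_zero]

/-- Clearing poles by a function from level `F₀`. -/
theorem exists_clear {x : Place k κ} {f : F} (hf0 : f ≠ 0) :
    ∃ b : F₀, S.v₀ b = 1 ∧ (∀ P, S.r P = x → P.adicValuation b ≤ 1) ∧
      ∀ P, S.red P = x → P.adicValuation (f * S.φ b) ≤ 1 := by
  classical
  obtain ⟨h, hh0, hh⟩ := H3RR.adicValuation_surjective_exp x (-1)
  obtain ⟨t, ht, htreg, htρ⟩ := S.lift₀ x h (by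
    rw [hh, ← exp_zero, exp_le_exp]; omega)
  -- `t - c` has value one
  have hsub : ∀ c : K, S.vK c ≤ 1 → S.v₀ (t - algebraMap K F₀ c) = 1 := by
    intro c hc
    have hcv : S.v₀ (algebraMap K F₀ c) ≤ 1 := by rw [S.comp₀.v_alg]; exact hc
    refine S.comp₀.v_eq_one ((Valuation.map_sub _ _ _).trans (max_le ht hcv)) ?_
    rw [S.comp₀.ρ_sub ht hcv, htρ, S.comp₀.ρ_alg c hc]
    intro h0
    rw [sub_eq_zero] at h0
    have h1 : x.adicValuation h = 1 ∨ h = 0 := by
      rw [h0]
      by_cases hres : S.res c = 0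
      · right; rw [hres, map_zero]
      · left; exact H3RR.adicValuation_algebraMap _ hres
    rcases h1 with h1 | h1
    · rw [hh, ← exp_zero, exp_inj] at h1; omega
    · exact hh0 h1
  have hval : ∀ P, ∃ c : K, S.vK c ≤ 1 ∧ (S.red P = x → Val P (S.φ t) c) := by
    intro P
    by_cases hP : S.red P = x
    · obtain ⟨c, h1, h2, -⟩ := val_φ (S := S) ht htreg hP
      exact ⟨c, h2, fun _ => h1⟩
    · exact ⟨0, by simp, fun h => absurd h hP⟩
  choose c hc hcval using hval
  set D : Divisor K F := H3RR.divOf f with hDdef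
  have hD : ∀ P, D P = P.ord f := H3RR.divOf_apply hf0
  set Z := D.support.filter (fun P => S.red P = x) with hZ
  set m : Place K F → ℕ := fun P => (-(D P)).toNat with hm
  refine ⟨∏ P ∈ Z, (t - algebraMap K F₀ (c P)) ^ m P, ?_, ?_, ?_⟩
  · rw [map_prod]
    refine Finset.prod_eq_one fun P _ => ?_
    rw [map_pow, hsub _ (hc P), one_pow]
  · intro P hP
    rw [map_prod]
    refine Finset.prod_le_one' fun Q _ => ?_
    rw [map_pow]
    refine pow_le_one' ?_ _
    exact (Valuation.map_sub _ _ _).trans (max_le (htreg P hP)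
      (P.adicValuation_algebraMap_le_one _))
  · intro P hP
    rw [map_prod]
    have hfac : ∀ Q, P.adicValuation (S.φ ((t - algebraMap K F₀ (c Q)) ^ m Q)) ≤ 1 := by
      intro Q
      rw [map_pow, map_pow, map_sub]
      refine pow_le_one' ?_ _
      have h1 : S.φ (algebraMap K F₀ (c Q)) = algebraMap K F (c Q) := S.φ.commutes _
      rw [h1]
      exact (Valuation.map_sub _ _ _).trans (max_le ((S.InR_φ ht htreg).2 P hP)
        (P.adicValuation_algebraMap_le_one _))
    rw [map_mul, map_prod]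
    by_cases hPZ : P ∈ Z
    · rw [← Finset.mul_prod_erase Z _ hPZ]
      have h2 : P.adicValuation (S.φ ((t - algebraMap K F₀ (c P)) ^ m P)) ≤ exp (-(m P : ℤ)) := by
        rw [map_pow, map_pow, map_sub]
        have h1 : S.φ (algebraMap K F₀ (c P)) = algebraMap K F (c P) := S.φ.commutes _
        rw [h1]
        have h5 := (H3RR.adicValuation_lt_one_iff P).mp (hcval P hP)
        calc P.adicValuation (S.φ t - algebraMap K F (c P)) ^ m P ≤ exp (-1 : ℤ) ^ m P := by
              gcongr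
          _ = exp (-(m P : ℤ)) := by rw [← exp_nsmul]; simp
      have h3 : P.adicValuation f ≤ exp (m P : ℤ) := by
        have : P.adicValuation f ≤ exp (-(-(m P : ℤ))) := by
          apply adic_le_exp hf0
          rw [← hD P]
          have := Int.self_le_toNat (-(D P))
          simp only [hm]
          omega
        rwa [neg_neg] at this
      have h4 : ∏ Q ∈ Z.erase P, P.adicValuation (S.φ ((t - algebraMap K F₀ (c Q)) ^ m Q)) ≤ 1 :=
        Finset.prod_le_one' fun Q _ => hfac Q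
      calc P.adicValuation f * (P.adicValuation (S.φ ((t - algebraMap K F₀ (c P)) ^ m P)) *
            ∏ Q ∈ Z.erase P, P.adicValuation (S.φ ((t - algebraMap K F₀ (c Q)) ^ m Q)))
          ≤ exp (m P : ℤ) * (exp (-(m P : ℤ)) * 1) := by gcongr
        _ = 1 := by rw [mul_one, ← exp_add]; simp
    · have h3 : P.adicValuation f ≤ 1 := by
        by_cases hDP : D P = 0
        · rw [hD] at hDP
          rw [P.adicValuation_eq_exp_neg_ord hf0, hDP]; simp
        · exact absurd (Finset.mem_filter.mpr ⟨Finsupp.mem_support_iff.mpr hDP, hP⟩) hPZ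
      exact mul_le_one' h3 (Finset.prod_le_one' fun Q _ => hfac Q)

/-- **Degrees on smooth residue classes.** -/
theorem deg_smooth {x : Place k κ} (hx : ¬ S.Node x) (i : Bool) {f : F}
    (hv : S.v i f = 1) {D : Divisor K F} (hD : ∀ P, D P = P.ord f) :
    cls S.sp D (Sum.inl (i, S.pt i x)) = (S.pt i x).ord (S.ρ i f) := by
  classical
  have Ci := S.comp i
  have Cj := S.comp (!i)
  have hf0 : f ≠ 0 := by rintro rfl; simp at hv
  obtain ⟨b, hb, hbreg, hfb⟩ := S.exists_clear (x := x) hf0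
  obtain ⟨e', d', he', he'0, he'1, hve', hd'0, hd', hd'1⟩ := S.exists_sep' hx i
  obtain ⟨c, hc0, hc⟩ := Cj.scale f hf0
  have hcK : 0 < S.vK c := zero_lt_iff.mpr ((Valuation.ne_zero_iff _).mpr hc0)
  obtain ⟨n, hn⟩ := S.arch d' c⁻¹ hd'1 (inv_ne_zero hc0)
  have hφb : S.InR x (S.φ b) := S.InR_φ hb.le hbreg
  have hφv : ∀ j, S.v j (S.φ b) = 1 := fun j => by rw [S.v_φ]; exact hb
  have hφ0 : S.φ b ≠ 0 := by
    intro h0
    have := hφv false
    rw [h0, map_zero] at this
    exact zero_ne_one this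
  have he'F : e' ≠ 0 := by rintro rfl; simp at hve'
  set g := f * S.φ b * e' ^ n with hg
  have hgi : S.v i g = 1 := by
    rw [hg, map_mul, map_mul, map_pow, hv, hφv, hve', one_mul, one_pow, one_mul]
  have hgj : S.v (!i) g ≤ 1 := by
    rw [hg, map_mul, map_mul, map_pow, hc, hφv, hd', mul_one]
    rw [map_inv₀] at hn
    calc S.vK c * S.vK d' ^ n ≤ S.vK c * (S.vK c)⁻¹ := by gcongr
      _ = 1 := mul_inv_cancel₀ hcK.ne'
  have hgR : S.InR x g := by
    refine ⟨fun j => ?_, fun P hP => ?_⟩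
    · rcases Bool.eq_or_eq_not j i with hj | hj
      · rw [hj]; exact hgi.le
      · rw [hj]; exact hgj
    · rw [hg, map_mul, map_pow]
      exact mul_le_one' (hfb P hP) (pow_le_one' (he'.2 P hP) n)
  have hg0 : g ≠ 0 := mul_ne_zero (mul_ne_zero hf0 hφ0) (pow_ne_zero _ he'F)
  have h1 := S.eq_ord₂ hx i hgR hgi (D := H3RR.divOf g) (H3RR.divOf_apply hg0)
  have h2 := S.eq_ord₂ hx i hφb (hφv i) (D := H3RR.divOf (S.φ b)) (H3RR.divOf_apply hφ0)
  have hρf : S.ρ i f ≠ 0 := Ci.ρ_ne_zero hv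
  have hρb : S.ρ i (S.φ b) ≠ 0 := Ci.ρ_ne_zero (hφv i)
  have hρe : S.ρ i e' ≠ 0 := Ci.ρ_ne_zero hve'
  have h3 : S.ρ i g = S.ρ i f * S.ρ i (S.φ b) * S.ρ i e' ^ n := by
    rw [hg, Ci.ρ_mul _ _ (by rw [map_mul, hv, hφv, one_mul]) (by rw [map_pow, hve', one_pow]),
      Ci.ρ_mul _ _ hv.le (hφv i).le, Ci.ρ_pow hve'.le]
  have hpow : ∀ (y : Place k κ) (h : κ) (m : ℕ), h ≠ 0 → y.ord h = 0 → y.ord (h ^ m) = 0 := by
    intro y h m hh hy
    have := y.ord_zpow h m
    rw [zpow_natCast] at this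
    rw [this, hy, mul_zero]
  rw [h3, (S.pt i x).ord_mul (mul_ne_zero hρf hρb) (pow_ne_zero _ hρe),
    (S.pt i x).ord_mul hρf hρb, hpow _ _ n hρe (ord_eq_zero_of_adic he'1), add_zero, ← h2] at h1
  have h4 : cls S.sp (H3RR.divOf g : Divisor K F) (Sum.inl (i, S.pt i x)) =
      cls S.sp (D + H3RR.divOf (S.φ b)) (Sum.inl (i, S.pt i x)) := by
    apply cls_congr
    intro P hP
    have h5 : P.ord (e' ^ n) = 0 := by
      have h6 := P.ord_zpow e' n
      rw [zpow_natCast] at h6
      rw [h6, ord_eq_zero_of_adic (S.adic_eq_one_on hx he' he'1 hP), mul_zero]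
    rw [H3RR.divOf_apply hg0, hg, P.ord_mul (mul_ne_zero hf0 hφ0) (pow_ne_zero _ he'F),
      P.ord_mul hf0 hφ0, h5, add_zero, Finsupp.add_apply, hD, H3RR.divOf_apply hφ0]
  rw [h4, cls_add] at h1
  omega

open Classical in
/-- **The semistable model attached to two sheets.** -/
noncomputable def model : Model K F k κ Γ Bool {x : Place k κ // S.Node x} where
  vK := S.vK
  res := S.res
  v := S.v
  ρ := S.ρ
  comp := S.comp
  res_surj := S.res_surj
  br s := {(false, s.1), (true, S.tw s.1)}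
  sp := S.sp
  sp_smooth P x hP s := by
    rw [sp] at hP
    split_ifs at hP with h1 h2
    · rw [Sum.inl.injEq] at hP
      subst hP
      rw [Finset.mem_insert, Finset.mem_singleton, Prod.mk.injEq, Prod.mk.injEq]
      rintro (⟨-, h⟩ | ⟨h, -⟩)
      · exact h1 (h ▸ s.2)
      · simp at h
    · rw [Sum.inl.injEq] at hP
      subst hP
      rw [Finset.mem_insert, Finset.mem_singleton, Prod.mk.injEq, Prod.mk.injEq]
      rintro (⟨h, -⟩ | ⟨-, h⟩)
      · simp at h
      · exact h1 (S.tw.injective h ▸ s.2)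
  smooth_deg := by
    rintro ⟨i, y⟩ hx f hf hv D hD
    cases i with
    | false =>
      have hN : ¬ S.Node y := fun h => hx ⟨y, h⟩ (by
        rw [Finset.mem_insert]; exact Or.inl rfl)
      exact S.deg_smooth hN false hv hD
    | true =>
      have hN : ¬ S.Node (S.tw.symm y) := fun h => hx ⟨_, h⟩ (by
        rw [Finset.mem_insert, Finset.mem_singleton, Prod.mk.injEq, Prod.mk.injEq]
        exact Or.inr ⟨rfl, (S.tw.apply_symm_apply y).symm⟩)
      have h1 := S.deg_smooth hN true hv hD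
      rw [pt_true, S.tw.apply_symm_apply] at h1
      exact h1
  node_deg s f hf h D hD := by
    rw [Finset.sum_pair (by simp), S.deg_node s hf h hD]
  node_val s f hf hreg := by
    have hR : S.InR s.1 f := ⟨hf, fun P hP => hreg P (S.sp_eq_inr.mpr hP)⟩
    obtain ⟨c, hc⟩ := s.2 f hR
    refine ⟨c, fun x hx => ?_⟩
    rw [Finset.mem_insert, Finset.mem_singleton] at hx
    rcases hx with rfl | rfl
    · exact hc false
    · exact hc true

end Fermat.Agent.H97.Sheets
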