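import Fermat.Agent.H97MdF

/-!
# Integral relations from norms
-/

set_option autoImplicit false
set_option linter.unusedSectionVars false
set_option linter.style.haveILetI false

open AlgebraicCurve IntermediateField Polynomial

namespace Fermat.Agent.H97

/-- Interpolation: integral values at integral nodes with unit differences. -/
theorem coeff_mem_of_eval {E : Type*} [Field E] (O : Subring E) {n : ℕ} {P : E[X]}
    (hP : P.degree < n) (c : Fin n → E) (hc : ∀ i, c i ∈ O)
    (hd : ∀ i j, i ≠ j → (c i - c j)⁻¹ ∈ O) (hcd : Function.Injective c)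
    (h : ∀ i, P.eval (c i) ∈ O) (m : ℕ) : P.coeff m ∈ O := by
  classical
  have h1 : P = Lagrange.interpolate Finset.univ c (fun i => P.eval (c i)) :=
    Lagrange.eq_interpolate (hcd.injOn) (by simpa using hP)
  have hr : ∀ x ∈ O, x ∈ Set.range O.subtype := fun x hx => ⟨⟨x, hx⟩, rfl⟩
  have h2 : P ∈ lifts O.subtype := by
    rw [h1, Lagrange.interpolate_apply]
    refine sum_mem fun i _ => mul_mem (C'_mem_lifts (hr _ (h i))) ?_
    rw [Lagrange.basis]
    refine prod_mem fun j hj => ?_
    rw [Lagrange.basisDivisor]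
    refine mul_mem (C'_mem_lifts (hr _ (hd i j (Finset.ne_of_mem_erase hj).symm))) ?_
    rw [sub_eq_add_neg, ← C_neg]
    exact add_mem (X_mem_lifts _) (C'_mem_lifts (hr _ (neg_mem (hc j))))
  obtain ⟨x, hx⟩ := (lifts_iff_coeff_lifts P).mp h2 m
  rw [← hx]
  exact x.2

section Charpoly

variable {E F : Type*} [Field E] [Field F] [Algebra E F] [FiniteDimensional E F]

/-- The characteristic polynomial. -/
noncomputable def chp (f : F) : E[X] := (Algebra.lmul E F f).charpoly

theorem chp_monic (f : F) : (chp (E := E) f).Monic := LinearMap.charpoly_monic _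

theorem chp_natDegree (f : F) : (chp (E := E) f).natDegree = Module.finrank E F :=
  LinearMap.charpoly_natDegree _

theorem eval_chp (f : F) (t : E) :
    (chp (E := E) f).eval t = Algebra.norm E (algebraMap E F t - f) := by
  rw [chp, LinearMap.eval_charpoly, Algebra.norm_apply, ← (Algebra.lmul E F).commutes t,
    ← map_sub (Algebra.lmul E F)]

theorem aeval_chp (f : F) : aeval f (chp (E := E) f) = 0 := by
  have h := LinearMap.aeval_self_charpoly (Algebra.lmul E F f)
  have h1 : aeval (Algebra.lmul E F f) (Algebra.lmul E F f).charpoly =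
      Algebra.lmul E F (aeval f (Algebra.lmul E F f).charpoly) :=
    Polynomial.aeval_algHom_apply (Algebra.lmul E F) f _
  rw [h1] at h
  have h2 := LinearMap.congr_fun h 1
  have h3 : (Algebra.lmul E F) (aeval f (Algebra.lmul E F f).charpoly) 1 =
      aeval f (Algebra.lmul E F f).charpoly * 1 := rfl
  rw [h3, mul_one] at h2
  exact h2

theorem chp_rel (f : F) : f ^ Module.finrank E F =
    ∑ i ∈ Finset.range (Module.finrank E F),
      algebraMap E F (-(chp (E := E) f).coeff i) * f ^ i := by
  have h := aeval_chp (E := E) f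
  rw [(chp_monic (E := E) f).as_sum, chp_natDegree, map_add, map_pow, aeval_X, map_sum] at h
  rw [eq_neg_of_add_eq_zero_left h, ← Finset.sum_neg_distrib]
  refine Finset.sum_congr rfl fun i _ => ?_
  rw [map_mul, aeval_C, map_pow, aeval_X, map_neg, neg_mul]

end Charpoly

section Rel

variable {K F₀ F Γ : Type*} [Field K] [Field F₀] [Field F] [Algebra K F₀] [Algebra K F]
  [LinearOrderedCommGroupWithZero Γ]

variable [IsAlgClosed K] [CharZero K] [H3RR.IsFF K F₀] [H3RR.IsFF K F]
  [H94.FunField K F₀] [H94.FunField K F]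

/-- The norm of a function regular over `P'` is regular at `P'`. -/
theorem norm_mem (φ : F₀ →ₐ[K] F) {P' : Place K F₀} {f : F}
    (h : ∀ P : Place K F, (∀ b : F₀, b ∈ P'.toValuationSubring ↔ φ b ∈ P.toValuationSubring) →
      f ∈ P.toValuationSubring) : H60.normAlong φ f ∈ P'.toValuationSubring := by
  by_cases hf : f = 0
  · have h0 : H60.normAlong φ f = 0 := by
      letI := algebraAlong φ
      haveI : Module.Finite F₀ F := H67.finiteAlong_of_funField φ
      rw [hf]
      exact Algebra.norm_zero
    rw [h0]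
    exact zero_mem _
  · have h1 := H67.pushD_divF φ f hf
    have h2 := congrArg (fun D : Divisor K F₀ => D P') h1
    simp only [H67.divF_apply] at h2
    rw [H3RR.mem_iff_adicValuation_le_one, P'.adicValuation_le_one_iff, ← h2, H67.pushD_eq]
    refine Or.inr ?_
    have h3 : 0 ≤ cls (H67.res φ) (H67.divF f hf) P' := by
      apply cls_nonneg
      intro P hP
      rw [H67.divF_apply]
      have h4 := h P (fun b => by rw [← hP, H67.mem_res])
      rw [H3RR.mem_iff_adicValuation_le_one, P.adicValuation_le_one_iff] at h4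
      exact h4.resolve_left hf
    exact h3

/-- **Integral relations from integrality of norms.** -/
theorem rel_of_norm (φ : F₀ →ₐ[K] F) {vK : Valuation K Γ} {v₀ : Valuation F₀ Γ}
    (hv₀ : ∀ c : K, v₀ (algebraMap K F₀ c) = vK c) {v : Bool → Valuation F Γ}
    (hv : ∀ i (c : K), v i (algebraMap K F c) = vK c)
    (hN : ∀ f, (∀ i, v i f ≤ 1) → v₀ (H60.normAlong φ f) ≤ 1)
    (hc : ∀ n : ℕ, ∃ c : Fin n → K, (∀ i, vK (c i) ≤ 1) ∧ ∀ i j, i ≠ j → vK (c i - c j) = 1)
    (f : F) (hf : ∀ i, v i f ≤ 1) : ∃ (n : ℕ) (a : ℕ → F₀), (∀ i, v₀ (a i) ≤ 1) ∧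
      f ^ n = ∑ i ∈ Finset.range n, φ (a i) * f ^ i ∧
      ∀ P' : Place K F₀, (∀ P : Place K F, (∀ b : F₀, b ∈ P'.toValuationSubring ↔
        φ b ∈ P.toValuationSubring) → f ∈ P.toValuationSubring) →
          ∀ i, a i ∈ P'.toValuationSubring := by
  letI := algebraAlong φ
  haveI : FiniteDimensional F₀ F := H67.finiteAlong_of_funField φ
  set n := Module.finrank F₀ F with hn
  obtain ⟨c, hc1, hc2⟩ := hc (n + 1)
  have hdeg : (chp (E := F₀) f).degree < ((n + 1 : ℕ) : WithBot ℕ) := by
    rw [degree_eq_natDegree (chp_monic f).ne_zero, chp_natDegree]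
    exact_mod_cast Nat.lt_succ_self n
  have hinj : Function.Injective (fun i => algebraMap K F₀ (c i)) := by
    intro i j hij
    by_contra h
    have h1 := hc2 i j h
    rw [(algebraMap K F₀).injective hij, sub_self, map_zero] at h1
    exact zero_ne_one h1
  have hev : ∀ i, (chp (E := F₀) f).eval (algebraMap K F₀ (c i)) =
      H60.normAlong φ (algebraMap K F (c i) - f) := by
    intro i
    rw [eval_chp]
    have h1 : algebraMap F₀ F (algebraMap K F₀ (c i)) = algebraMap K F (c i) := φ.commutes (c i)
    rw [h1]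
    rfl
  refine ⟨n, fun i => -(chp (E := F₀) f).coeff i, fun m => ?_, chp_rel f, fun P' hP' m => ?_⟩
  · rw [Valuation.map_neg]
    refine coeff_mem_of_eval v₀.integer hdeg (fun i => algebraMap K F₀ (c i)) (fun i => ?_)
      (fun i j hij => ?_) hinj (fun i => ?_) m
    · rw [Valuation.mem_integer_iff, hv₀]; exact hc1 i
    · rw [Valuation.mem_integer_iff, ← map_sub, map_inv₀, hv₀, hc2 i j hij, inv_one]
    · rw [Valuation.mem_integer_iff, hev]
      refine hN _ fun j => (Valuation.map_sub _ _ _).trans (max_le ?_ (hf j))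
      rw [hv]; exact hc1 i
  · refine neg_mem (coeff_mem_of_eval P'.toValuationSubring.toSubring hdeg
      (fun i => algebraMap K F₀ (c i)) (fun i => P'.algebraMap_mem' _) (fun i j hij => ?_) hinj
      (fun i => ?_) m)
    · rw [← map_sub, ← map_inv₀]
      exact P'.algebraMap_mem' _
    · rw [hev]
      exact norm_mem φ fun P hP => sub_mem (P.algebraMap_mem' _) (hP' P hP)

end Rel

section Nodes

variable {K k : Type*} [Field K] [Field k] {A : ValuationSubring K} {π : A →+* k}

/-- Constants with unit differences. -/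
theorem exists_nodes [Infinite k] (hπ : Function.Surjective π) [IsLocalHom π] (n : ℕ) :
    ∃ c : Fin n → K, (∀ i, A.valuation (c i) ≤ 1) ∧
      ∀ i j, i ≠ j → A.valuation (c i - c j) = 1 := by
  let e : Fin n ↪ k := Fin.valEmbedding.trans (Infinite.natEmbedding k)
  choose c hc using fun i => hπ (e i)
  refine ⟨fun i => (c i : K), fun i => A.valuation_le_one (c i), fun i j hij => ?_⟩
  have h1 : IsUnit (c i - c j) := by
    rw [← isUnit_map_iff π, map_sub, hc, hc, isUnit_iff_ne_zero, sub_ne_zero]
    exact fun h => hij (e.injective h)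
  exact (A.valuation_eq_one_iff (c i - c j)).mp h1

end Nodes

end Fermat.Agent.H97
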