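import Fermat.Agent.H97MdI

/-!
# The norm formulae
-/

set_option autoImplicit false
set_option linter.unusedSectionVars false
set_option linter.style.haveILetI false

noncomputable section

open AlgebraicCurve ModularCurve IntermediateField Fermat.Agent.H34.Two

namespace Fermat.Agent.H97

theorem normAlong_zero {K F F' : Type*} [Field K] [Field F] [Field F'] [Algebra K F]
    [Algebra K F'] (φ : F →ₐ[K] F') (h : FiniteAlong K φ) : H60.normAlong φ 0 = 0 := by
  letI := algebraAlong φ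
  haveI : Module.Finite F F' := h
  exact Algebra.norm_zero

section Root

variable {L : Type*} [Field L] {A : ValuationSubring L} {k : Type*} [Field k] {π : A →+* k}
  {q : ℕ} [hq : Fact q.Prime] [CharP k q]

theorem exists_root [IsAlgClosed L] [CharZero L] : ∃ (ζ : Lˣ) (ξ : Aˣ),
    IsPrimitiveRoot ζ q ∧ ((ξ : A) : L) = ζ ∧ π ξ = 1 := by
  have : NeZero q := ⟨hq.out.ne_zero⟩
  obtain ⟨z, hz⟩ := HasEnoughRootsOfUnity.exists_primitiveRoot L q
  obtain ⟨ζ, hζz⟩ : IsUnit z := hz.isUnit hq.out.ne_zero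
  have hζ : IsPrimitiveRoot ζ q := by
    rw [← IsPrimitiveRoot.coe_units_iff, hζz]; exact hz
  have hzq : z ^ q = 1 := hz.pow_eq_one
  have hzA : z ∈ A := by
    rw [← A.valuation_le_one_iff]
    by_contra h
    rw [not_le] at h
    have h1 : 1 < A.valuation z ^ q := one_lt_pow₀ h hq.out.ne_zero
    rw [← map_pow, hzq, map_one] at h1
    exact lt_irrefl _ h1
  have h1 : (⟨z, hzA⟩ : A) ^ q = 1 := Subtype.ext hzq
  obtain ⟨ξ, hξ⟩ : IsUnit (⟨z, hzA⟩ : A) := IsUnit.of_pow_eq_one h1 hq.out.ne_zero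
  refine ⟨ζ, ξ, hζ, by rw [hξ, hζz], ?_⟩
  rw [hξ]
  apply frobenius_inj k q
  rw [frobenius_def, frobenius_def, ← map_pow, h1, map_one, one_pow]

theorem hasG_twist_pow {f : LaurentSeries L} {c : L} {r : LaurentSeries k} (h : HasG π f c r)
    {ζ : Lˣ} {ξ : Aˣ} (hξ : ((ξ : A) : L) = ζ) (hξ1 : π ξ = 1) (i : ℕ) :
    HasG π (H60.twist (ζ ^ i) f) c r := by
  refine h.twist (ξ := ξ ^ i) ?_ ?_
  · rw [Units.val_pow_eq_pow_val, Units.val_pow_eq_pow_val, ← hξ]
    rfl
  · rw [Units.val_pow_eq_pow_val, map_pow, hξ1, one_pow]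

end Root

section Frob

variable (k : Type*) [Field k] (m q : ℕ) [hq : Fact q.Prime] [CharP k q] [IsAlgClosed k]

/-- The Frobenius of the constants as an automorphism. -/
def frobC : k ≃+* k :=
  haveI : PerfectRing k q := PerfectField.toPerfectRing q
  frobeniusEquiv k q

theorem frobC_apply (x : k) : frobC k q x = x ^ q := rfl

/-- The coefficientwise Frobenius. -/
def sig : modularFunctionFieldFullC k m ≃+* modularFunctionFieldFullC k m :=
  H60.coeffRingAut m (frobC k q)

theorem coe_sig (x : modularFunctionFieldFullC k m) : (sig k m q x : LaurentSeries k) =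
    coeffMap (frobC k q : k →+* k) (x : LaurentSeries k) := rfl

variable [NeZero q]

theorem qExpand_sig (x : modularFunctionFieldFullC k m) :
    qExpand k q (sig k m q x : LaurentSeries k) = (x : LaurentSeries k) ^ q := by
  have h := phi_fr (m := m) (q := q) (frobC_apply k q) x
  exact congrArg (fun y : modularFunctionFieldFullC k m => (y : LaurentSeries k)) h

end Frob

section Inst

variable {L : Type*} [Field L] [Algebra ℚ L] (A : ValuationSubring L) {k : Type*} [Field k]
  (π : A →+* k) {m q : ℕ} [NeZero m] [NeZero q] [hq : Fact q.Prime]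
  [CharP k q] [IsAlgClosed k] [Infinite k] (w : H99.AL L m q)
  (hπ : Function.Surjective π) (hD : H67.DegreeFact L)
  (hdeg : H42.DegLE L k m) (hqm : ¬ q ∣ m)

variable [IsAlgClosed L] [CharZero L]

theorem norm_ne_zero {f : H99.FX L (m * q)} (hf : f ≠ 0) :
    H60.normAlong (heckeAlphaBar L m q) f ≠ 0 := by
  have : H94.FunField L (H99.FX L m) := H67.funField_of_degreeFact (H42.degreeFact L) m
  have : H94.FunField L (H99.FX L (m * q)) := H67.funField_of_degreeFact (H42.degreeFact L) (m * q)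
  exact H67.normAlong_ne_zero' _ hf

/-- **Values of norms.** -/
theorem v0_norm [IsLocalHom π] (f : H99.FX L (m * q)) :
    v0 A π w hπ hD hdeg hqm (H60.normAlong (heckeAlphaBar L m q) f) =
      v1 A π w hπ hD hdeg hqm f * v2 A π w hπ hD hdeg hqm f ^ q := by
  have hfin : FiniteAlong L (heckeAlphaBar L m q) := H67.finiteAlong_alpha (H42.degreeFact L) m q
  by_cases hf : f = 0
  · rw [hf, normAlong_zero _ hfin, map_zero, map_zero, zero_mul]
  have hWf : w.W f ≠ 0 := (map_ne_zero_iff _ w.W.injective).mpr hf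
  obtain ⟨c₁, r₁, hc₁, h₁, e₁, -⟩ := hasG1 A π w hπ hD hdeg hqm hf
  obtain ⟨c₂, r₂, hc₂, h₂, e₂, -⟩ := hasG1 A π w hπ hD hdeg hqm hWf
  obtain ⟨c₀, r₀, hc₀, h₀, e₀, -⟩ := hasG0 A π w hπ hD hdeg hqm (norm_ne_zero hf)
  obtain ⟨ζ, ξ, hζ, hξ, hξ1⟩ := exists_root (L := L) (A := A) (π := π) (q := q)
  have hN := qExpand_normAlong_gen w hq.out.one_lt hζ hfin (finrank_alpha_le hq.out) f
  have h3 := (h₁.qExpand q).mul (HasG.prod Finset.univ (fun (i : Fin q) _ =>
    hasG_twist_pow h₂ hξ hξ1 (i : ℕ)))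
  rw [← hN] at h3
  have h4 := (h₀.qExpand q).val_eq hc₀ (mul_ne_zero hc₁
    (Finset.prod_ne_zero_iff.mpr fun _ _ => hc₂)) h3
  rw [Finset.prod_const, Finset.card_univ, Fintype.card_fin, map_mul, map_pow] at h4
  rw [e₀, h4, e₁, ← v1_W, e₂]

/-- **Reductions of norms.** -/
theorem red0_norm [IsLocalHom π] {f : H99.FX L (m * q)} (h1 : v1 A π w hπ hD hdeg hqm f = 1)
    (h2 : v2 A π w hπ hD hdeg hqm f = 1) :
    (comp0 A π w hπ hD hdeg hqm).red (H60.normAlong (heckeAlphaBar L m q) f) =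
      (comp1 A π w hπ hD hdeg hqm).red f *
        sig k m q ((comp2 A π w hπ hD hdeg hqm).red f) := by
  have hfin : FiniteAlong L (heckeAlphaBar L m q) := H67.finiteAlong_alpha (H42.degreeFact L) m q
  have hv0 : v0 A π w hπ hD hdeg hqm (H60.normAlong (heckeAlphaBar L m q) f) = 1 := by
    rw [v0_norm, h1, h2, one_pow, one_mul]
  obtain ⟨ζ, ξ, hζ, hξ, hξ1⟩ := exists_root (L := L) (A := A) (π := π) (q := q)
  have hN := qExpand_normAlong_gen w hq.out.one_lt hζ hfin (finrank_alpha_le hq.out) f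
  have g1 := hasG1_one A π w hπ hD hdeg hqm h1
  have g2 := hasG1_one A π w hπ hD hdeg hqm (f := w.W f) (by rw [v1_W]; exact h2)
  rw [← red2_eq] at g2
  have h3 := (g1.qExpand q).mul (HasG.prod Finset.univ (fun (i : Fin q) _ =>
    hasG_twist_pow g2 hξ hξ1 (i : ℕ)))
  rw [← hN, Finset.prod_const_one, mul_one, Finset.prod_const, Finset.card_univ,
    Fintype.card_fin, ← qExpand_sig, ← map_mul] at h3
  have h4 := ((hasG0_one A π w hπ hD hdeg hqm hv0).qExpand q).unique one_ne_zero h3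
  have h5 := qExpand_injective' q h4
  exact (Subtype.ext h5).symm

end Inst

end Fermat.Agent.H97
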