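import Fermat.Agent.H97MdJ

/-!
# Degrees and lifting at the good level
-/

set_option autoImplicit false
set_option linter.unusedSectionVars false
set_option linter.style.haveILetI false

noncomputable section

open AlgebraicCurve ModularCurve IntermediateField Fermat.Agent.H34.Two

namespace Fermat.Agent.H97

section Lift

variable {K F k E : Type*} [Field K] [Field F] [Algebra K F] [Field k] [Field E] [Algebra k E]
  [IsAlgClosed K] [CharZero K] [H3RR.IsFF K F] [IsAlgClosed k] [H3RR.IsFF k E]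

/-- Lifting of functions regular at `x`. -/
theorem lift_of_isRed (R : H40.ReductionData K F k E) {r : Place K F → Place k E}
    (hsurj : Function.Surjective r) {c : ℕ}
    (h : ∀ D : Divisor K F, (c : ℤ) < Divisor.degree D → R.IsRed D (Finsupp.mapDomain r D))
    (hdF : ∀ v : Place K F, v.deg = 1) (x : Place k E) (e : E) (he : x.adicValuation e ≤ 1) :
    ∃ b : R.B, R.ρ b = e ∧ ∀ P, r P = x → P.adicValuation (b : F) ≤ 1 := by
  classical
  by_cases he0 : e = 0
  · exact ⟨0, by rw [map_zero, he0], fun P _ => by simp⟩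
  choose s hs using hsurj
  have hsinj : Function.Injective s := fun y y' hy => by rw [← hs y, ← hs y', hy]
  obtain ⟨y₀, hy₀⟩ := Infinite.exists_notMem_finset ({x} : Finset (Place k E))
  rw [Finset.mem_singleton] at hy₀
  have hpole : ∀ v, (0 : ℤ) ≤ (H3RR.poleDiv e : Divisor k E) v := fun v => by
    rw [H3RR.poleDiv_apply he0]; exact le_max_right _ _
  have hx0 : (H3RR.poleDiv e : Divisor k E) x = 0 := by
    rw [H3RR.poleDiv_apply he0]
    have := ((x.adicValuation_le_one_iff).mp he).resolve_left he0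
    exact max_eq_right (by omega)
  set D₁ : Divisor K F := Finsupp.mapDomain s (H3RR.poleDiv e : Divisor k E) with hD₁
  have hD₁s : ∀ y, D₁ (s y) = (H3RR.poleDiv e : Divisor k E) y := fun y =>
    Finsupp.mapDomain_apply hsinj _ _
  have hD₁0 : 0 ≤ D₁ := by
    intro P
    by_cases hP : P ∈ Set.range s
    · obtain ⟨y, rfl⟩ := hP
      rw [hD₁s]; exact hpole y
    · rw [hD₁, Finsupp.mapDomain_of_notMem_range _ _ hP]; rfl
  set D : Divisor K F := D₁ + Finsupp.single (s y₀) ((c : ℤ) + 1) with hD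
  have hdeg : (c : ℤ) < Divisor.degree D := by
    rw [hD, map_add, Divisor.degree_single, hdF]
    have := H40.degree_nonneg hdF hD₁0
    push_cast
    omega
  have hred := (h D hdeg).2
  have hmap : Finsupp.mapDomain r D = (H3RR.poleDiv e : Divisor k E) +
      Finsupp.single y₀ ((c : ℤ) + 1) := by
    rw [hD, Finsupp.mapDomain_add, Finsupp.mapDomain_single, hs, hD₁, ← Finsupp.mapDomain_comp]
    congr 1
    have : r ∘ s = id := funext hs
    rw [this, Finsupp.mapDomain_id]
  have heL : e ∈ riemannRochSpace (Finsupp.mapDomain r D) := by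
    rw [mem_riemannRochSpace_iff]
    intro v
    right
    rw [hmap, Finsupp.add_apply, H3RR.poleDiv_apply he0]
    have h1 := le_max_left (-v.ord e) 0
    have h2 : (0 : ℤ) ≤ (Finsupp.single y₀ ((c : ℤ) + 1)) v := by
      rw [Finsupp.single_apply]; split_ifs <;> omega
    omega
  rw [← hred] at heL
  obtain ⟨b, hb, hbe⟩ := heL
  refine ⟨b, hbe, fun P hP => ?_⟩
  have h1 := (mem_riemannRochSpace_iff.mp hb) P
  rw [P.adicValuation_le_one_iff]
  refine h1.imp_right fun h2 => ?_
  have h3 : D P = 0 := by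
    rw [hD, Finsupp.add_apply]
    have h4 : D₁ P = 0 := by
      by_cases hP' : P ∈ Set.range s
      · obtain ⟨y, rfl⟩ := hP'
        rw [hs] at hP
        rw [hD₁s, hP, hx0]
      · rw [hD₁, Finsupp.mapDomain_of_notMem_range _ _ hP']
    have h5 : (Finsupp.single (s y₀) ((c : ℤ) + 1)) P = 0 := by
      rw [Finsupp.single_apply, if_neg]
      rintro rfl
      rw [hs] at hP
      exact hy₀ hP
    rw [h4, h5, add_zero]
  omega

end Lift

section Inst

variable {L : Type*} [Field L] [Algebra ℚ L] (A : ValuationSubring L) {k : Type*} [Field k]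
  (π : A →+* k) {m q : ℕ} [NeZero m] [NeZero q] [hq : Fact q.Prime]
  [CharP k q] [IsAlgClosed k] [Infinite k] (w : H99.AL L m q)
  (hπ : Function.Surjective π) (hD : H67.DegreeFact L)
  (hdeg : H42.DegLE L k m) (hqm : ¬ q ∣ m)

/-- The valuation ring and the reduction at the good level. -/
theorem mem_R_of_v0 [IsLocalHom π] {f : H99.FX L m} (hf : v0 A π w hπ hD hdeg hqm f ≤ 1) :
    ∃ h : f ∈ (H42.modReductionData A π m hπ hdeg).B,
      (H42.modReductionData A π m hπ hdeg).ρ ⟨f, h⟩ = (comp0 A π w hπ hD hdeg hqm).red f := by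
  by_cases hf0 : f = 0
  · subst hf0
    refine ⟨(H42.modReductionData A π m hπ hdeg).B.zero_mem, ?_⟩
    rw [H84.Comp.red_zero]
    exact map_zero _
  obtain ⟨c, y, z, hc, hy, hz, h⟩ := (H42.modGauss A π m hπ hdeg).exists_eq_const_mul hf0
  obtain ⟨y', hy'⟩ := y.2
  obtain ⟨z', hz'⟩ := z.2
  have ey : ((H42.modGauss A π m hπ hdeg).ρ y : LaurentSeries k) = coeffMap π y' := by
    have := H42.coe_modGauss_ρ A π m hπ hdeg y' (by rw [hy']; exact y.1.2)
    rw [← this]
    congr 2
    exact Subtype.ext (Subtype.ext hy'.symm)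
  have ez : ((H42.modGauss A π m hπ hdeg).ρ z : LaurentSeries k) = coeffMap π z' := by
    have := H42.coe_modGauss_ρ A π m hπ hdeg z' (by rw [hz']; exact z.1.2)
    rw [← this]
    congr 2
    exact Subtype.ext (Subtype.ext hz'.symm)
  have hy0 : coeffMap π y' ≠ 0 := by
    rw [← ey]; exact fun h0 => hy (Subtype.ext h0)
  have hz0 : coeffMap π z' ≠ 0 := by
    rw [← ez]; exact fun h0 => hz (Subtype.ext h0)
  have hfz : (f : LaurentSeries L) * coeffMap A.subtype z' =
      algebraMap L (LaurentSeries L) c * coeffMap A.subtype y' := by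
    have h1 := congrArg (fun x : H99.FX L m => (x : LaurentSeries L)) h
    have h2 : coeffMap A.subtype z' = ((z : H99.FX L m) : LaurentSeries L) := hz'
    have h3 : coeffMap A.subtype y' = ((y : H99.FX L m) : LaurentSeries L) := hy'
    rw [h2, h3]
    exact h1
  have hG : HasG π (f : LaurentSeries L) c (coeffMap π y' / coeffMap π z') :=
    ⟨y', z', hy0, hz0, hfz, div_mul_cancel₀ _ hz0⟩
  obtain ⟨c', r', hc', hG', hv, -⟩ := hasG0 A π w hπ hD hdeg hqm hf0
  have hcA : c ∈ A := by
    rw [← A.valuation_le_one_iff, hG.val_eq hc hc' hG', ← hv]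
    exact hf
  have hmul : f * (z : H99.FX L m) = ((H42.modGauss A π m hπ hdeg).const ⟨c, hcA⟩ * y :
      (H42.modGauss A π m hπ hdeg).B) := h
  refine ⟨⟨_, z, hz, hmul⟩, ?_⟩
  have h1 := (H42.modGauss A π m hπ hdeg).res_mul_eq ⟨f, ⟨_, z, hz, hmul⟩⟩ hz hmul
  rw [map_mul, (H42.modGauss A π m hπ hdeg).ρ_const] at h1
  have h2 : (comp0 A π w hπ hD hdeg hqm).red f * (H42.modGauss A π m hπ hdeg).ρ z =
      algebraMap k _ (π ⟨c, hcA⟩) * (H42.modGauss A π m hπ hdeg).ρ y := by
    apply Subtype.ext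
    show ((comp0 A π w hπ hD hdeg hqm).red f : LaurentSeries k) *
      ((H42.modGauss A π m hπ hdeg).ρ z : LaurentSeries k) =
      algebraMap k (LaurentSeries k) (π ⟨c, hcA⟩) *
        ((H42.modGauss A π m hπ hdeg).ρ y : LaurentSeries k)
    rw [coe_red0, ey, ez]
    have h3 := red_gaussComp_mul A π (isQuot_FX m) (f := f) hz0
      (y := HahnSeries.single 0 ⟨c, hcA⟩ * y') (by
        rw [hfz, map_mul, ← algebraMap_eq_coeffMap])
    rw [map_mul, coeffMap_algebraMap'] at h3
    exact h3
  exact mul_right_cancel₀ hz (h1.trans h2.symm)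

theorem v0_le_of_mem_R [IsLocalHom π] (b : (H42.modReductionData A π m hπ hdeg).B) :
    v0 A π w hπ hD hdeg hqm (b : H99.FX L m) ≤ 1 := by
  by_contra hcon
  rw [not_le] at hcon
  have hb0 : (b : H99.FX L m) ≠ 0 := by
    intro h0
    rw [h0, map_zero] at hcon
    exact absurd hcon (by simp)
  -- the inverse has reduction zero
  have hinv : v0 A π w hπ hD hdeg hqm (b : H99.FX L m)⁻¹ < 1 := by
    rw [map_inv₀]; exact inv_lt_one_of_one_lt₀ hcon
  obtain ⟨h, hρ⟩ := mem_R_of_v0 A π w hπ hD hdeg hqm hinv.le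
  rw [(red_eq_zero_iff hπ (comp0_scalable A π w hπ hD hdeg hqm) hinv.le).mpr hinv] at hρ
  have h1 : (⟨(b : H99.FX L m)⁻¹, h⟩ : (H42.modReductionData A π m hπ hdeg).B) * b = 1 :=
    Subtype.ext (inv_mul_cancel₀ hb0)
  have h2 := congrArg (H42.modReductionData A π m hπ hdeg).ρ h1
  rw [map_mul, hρ, zero_mul, map_one] at h2
  exact zero_ne_one h2

end Inst

end Fermat.Agent.H97
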