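import Fermat.Agent.H97Comp

/-!
# Semistable models in function field language and the injectivity theorem

A `Model` of a function field `F/K` consists of finitely many components
(valuations `v i` with reduction maps `ρ i : F → Fb`), finitely many nodes, and a specialisation
map of places.  We prove: if `div h = n D`, `ρ i h = 1` for all `i` and the local generators of
`D` at the nodes can be normalised, then `D` is principal.
-/

set_option autoImplicit false

open AlgebraicCurve WithZero IntermediateField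

namespace Fermat.Agent.H97

section Cls

variable {K F : Type*} [Field K] [Field F] [Algebra K F] {α : Type*} (sp : Place K F → α)

/-- Degree of a divisor on a residue class. -/
noncomputable def cls (D : Divisor K F) (a : α) : ℤ := D.mapDomain sp a

theorem cls_add (D E : Divisor K F) (a : α) : cls sp (D + E) a = cls sp D a + cls sp E a := by
  simp [cls, Finsupp.mapDomain_add]

theorem cls_smul (n : ℤ) (D : Divisor K F) (a : α) : cls sp (n • D) a = n * cls sp D a := by
  simp [cls, Finsupp.mapDomain_smul]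

theorem cls_eq_sum (D : Divisor K F) (a : α) [DecidableEq α] :
    cls sp D a = ∑ P ∈ D.support.filter (fun P => sp P = a), D P := by
  rw [cls, Finsupp.mapDomain, Finsupp.sum, Finsupp.finsetSum_apply, Finset.sum_filter]
  refine Finset.sum_congr rfl fun P _ => ?_
  rw [Finsupp.single_apply]

theorem cls_nonneg {D : Divisor K F} {a : α} (h : ∀ P, sp P = a → 0 ≤ D P) : 0 ≤ cls sp D a := by
  classical
  rw [cls_eq_sum]
  exact Finset.sum_nonneg fun P hP => h P (Finset.mem_filter.mp hP).2

theorem le_cls {D : Divisor K F} {a : α} (h : ∀ P, sp P = a → 0 ≤ D P) {P : Place K F}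
    (hP : sp P = a) : D P ≤ cls sp D a := by
  classical
  rw [cls_eq_sum]
  by_cases hP0 : D P = 0
  · rw [hP0]
    exact Finset.sum_nonneg fun P hP => h P (Finset.mem_filter.mp hP).2
  · exact Finset.single_le_sum (f := fun P => D P)
      (fun P hP => h P (Finset.mem_filter.mp hP).2)
      (Finset.mem_filter.mpr ⟨Finsupp.mem_support_iff.mpr hP0, hP⟩)

theorem cls_congr {D E : Divisor K F} {a : α} (h : ∀ P, sp P = a → D P = E P) :
    cls sp D a = cls sp E a := by
  classical
  have h1 : D = E + (D - E) := by abel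
  have h2 : cls sp (D - E) a = 0 := by
    rw [cls_eq_sum]
    refine Finset.sum_eq_zero fun P hP => ?_
    rw [Finsupp.sub_apply, h P (Finset.mem_filter.mp hP).2, sub_self]
  rw [h1, cls_add, h2, add_zero]

theorem cls_single (P : Place K F) (a : α) [DecidableEq α] :
    cls sp (Finsupp.single P 1) a = if sp P = a then 1 else 0 := by
  rw [cls, Finsupp.mapDomain_single, Finsupp.single_apply]

/-- An effective divisor of degree one on a class. -/
theorem eq_one_of_cls_eq_one {D : Divisor K F} {a : α} (h : ∀ P, sp P = a → 0 ≤ D P)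
    (h1 : cls sp D a = 1) {P : Place K F} (hP : sp P = a) (hP0 : 0 < D P) :
    D P = 1 ∧ ∀ Q, sp Q = a → Q ≠ P → D Q = 0 := by
  classical
  have hP1 : D P = 1 := le_antisymm (h1 ▸ le_cls sp h hP) hP0
  refine ⟨hP1, fun Q hQ hQP => ?_⟩
  have h2 : cls sp (D + (-1 : ℤ) • Finsupp.single P (1 : ℤ)) a = 0 := by
    rw [cls_add, cls_smul, cls_single, if_pos hP, h1]; norm_num
  have h3 : ∀ R, sp R = a → 0 ≤ (D + (-1 : ℤ) • Finsupp.single P (1 : ℤ)) R := by
    intro R hR
    rw [Finsupp.add_apply, Finsupp.smul_apply, Finsupp.single_apply]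
    split_ifs with hRP
    · rw [← hRP, hP1]; norm_num
    · simpa using h R hR
  have h4 := le_cls sp h3 hQ
  rw [h2, Finsupp.add_apply, Finsupp.smul_apply, Finsupp.single_apply, if_neg (Ne.symm hQP)] at h4
  have h5 := h Q hQ
  simp only [smul_zero, add_zero] at h4
  omega

theorem exists_of_cls_eq_one {D : Divisor K F} {a : α} (h : ∀ P, sp P = a → 0 ≤ D P)
    (h1 : cls sp D a = 1) : ∃ P, sp P = a ∧ D P = 1 ∧ ∀ Q, sp Q = a → Q ≠ P → D Q = 0 := by
  classical
  have h2 : ∃ P, sp P = a ∧ 0 < D P := by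
    by_contra hcon
    push Not at hcon
    have h3 : cls sp D a = 0 := by
      rw [cls_eq_sum]
      refine Finset.sum_eq_zero fun P hP => ?_
      have h4 := (Finset.mem_filter.mp hP).2
      exact le_antisymm (hcon P h4) (h P h4)
    omega
  obtain ⟨P, hP, hP0⟩ := h2
  exact ⟨P, hP, eq_one_of_cls_eq_one sp h h1 hP hP0⟩

theorem eq_zero_of_cls_eq_zero {D : Divisor K F} {a : α} (h : ∀ P, sp P = a → 0 ≤ D P)
    (h1 : cls sp D a = 0) {P : Place K F} (hP : sp P = a) : D P = 0 :=
  le_antisymm (h1 ▸ le_cls sp h hP) (h P hP)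

end Cls

/-- A (semistable) model of a function field. -/
structure Model (K F k Fb Γ ι ν : Type*) [Field K] [Field F] [Algebra K F] [Field k] [Field Fb]
    [Algebra k Fb] [LinearOrderedCommGroupWithZero Γ] where
  vK : Valuation K Γ
  res : K → k
  v : ι → Valuation F Γ
  ρ : ι → F → Fb
  comp : ∀ i, Comp vK res (v i) (ρ i)
  res_surj : ∀ e : k, ∃ c : K, vK c ≤ 1 ∧ res c = e
  br : ν → Finset (ι × Place k Fb)
  sp : Place K F → (ι × Place k Fb) ⊕ ν
  sp_smooth : ∀ P x, sp P = Sum.inl x → ∀ s, x ∉ br s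
  smooth_deg : ∀ x : ι × Place k Fb, (∀ s, x ∉ br s) → ∀ f : F, f ≠ 0 → v x.1 f = 1 →
    ∀ D : Divisor K F, (∀ P, D P = P.ord f) → cls sp D (Sum.inl x) = x.2.ord (ρ x.1 f)
  node_deg : ∀ s, ∀ f : F, f ≠ 0 → (∀ i, v i f = 1) →
    ∀ D : Divisor K F, (∀ P, D P = P.ord f) →
      cls sp D (Sum.inr s) = ∑ x ∈ br s, x.2.ord (ρ x.1 f)
  node_val : ∀ s, ∀ f : F, (∀ i, v i f ≤ 1) →
    (∀ P, sp P = Sum.inr s → P.adicValuation f ≤ 1) →
      ∃ c : k, ∀ x ∈ br s, x.2.adicValuation (ρ x.1 f - algebraMap k Fb c) < 1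

namespace Model

variable {K F k Fb Γ ι ν : Type*} [Field K] [Field F] [Algebra K F] [Field k] [Field Fb]
    [Algebra k Fb] [LinearOrderedCommGroupWithZero Γ] (M : Model K F k Fb Γ ι ν)

/-- A parameter at the smooth point `x`, vanishing at `P`. -/
def IsParam (x : ι × Place k Fb) (P : Place K F) (h : F) : Prop :=
  M.v x.1 h = 1 ∧ P.adicValuation h < 1 ∧
    (∀ P', M.sp P' = Sum.inl x → P'.adicValuation h ≤ 1) ∧ x.2.ord (M.ρ x.1 h) = 1

variable [IsAlgClosed K] [H3RR.IsFF K F] [IsAlgClosed k] [H3RR.IsFF k Fb]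

omit [IsAlgClosed k] [H3RR.IsFF k Fb] in
/-- Regularity of reductions. -/
theorem reg {x : ι × Place k Fb} (hx : ∀ s, x ∉ M.br s) {f : F} (hf : M.v x.1 f ≤ 1)
    (hreg : ∀ P, M.sp P = Sum.inl x → P.adicValuation f ≤ 1) :
    x.2.adicValuation (M.ρ x.1 f) ≤ 1 := by
  rcases hf.lt_or_eq with h | h
  · rw [((M.comp x.1).ρ_eq_zero f hf).mpr h, map_zero]
    exact zero_le_one
  · have hf0 : f ≠ 0 := by rintro rfl; simp at h
    have h1 := M.smooth_deg x hx f hf0 h (H3RR.divOf f) (H3RR.divOf_apply hf0)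
    have h2 : 0 ≤ cls M.sp (H3RR.divOf f) (Sum.inl x) := by
      apply cls_nonneg
      intro P hP
      rw [H3RR.divOf_apply hf0]
      have := (P.adicValuation_le_one_iff (f := f)).mp (hreg P hP)
      exact this.resolve_left hf0
    rw [h1] at h2
    exact (x.2.adicValuation_le_one_iff).mpr (Or.inr h2)

/-- The key local estimate: the deviation from `1` of a function with divisor `n(Q - P)` on a
smooth residue class has reduction with at most a simple pole. -/
theorem simple_pole {x : ι × Place k Fb} (hx : ∀ s, x ∉ M.br s) {P Q : Place K F}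
    (hP : M.sp P = Sum.inl x) (hQ : M.sp Q = Sum.inl x) {h : F} (hh : M.IsParam x P h)
    {n : ℕ} (hn : (n : k) ≠ 0) {w b : F} {l : K} (hl : l ≠ 0) (hl1 : M.vK l < 1)
    (hb : M.v x.1 b ≤ 1) (hw : w = 1 + algebraMap K F l * b)
    (hword : ∀ R, M.sp R = Sum.inl x →
      R.ord w = n * ((Finsupp.single Q (1 : ℤ) - Finsupp.single P 1 : Divisor K F) R)) :
    x.2.adicValuation (M.ρ x.1 b) ≤ exp 1 := by
  classical
  obtain ⟨hv, hPh, hreg, hord⟩ := hh
  set v := M.v x.1 with hvdef
  set ρ := M.ρ x.1 with hρdef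
  have C : Comp M.vK M.res v ρ := M.comp x.1
  have hh0 : h ≠ 0 := by rintro rfl; simp at hv
  have hρh0 : ρ h ≠ 0 := C.ρ_ne_zero hv
  -- value of `h` at `Q`
  obtain ⟨a, ha⟩ := H3RR.exists_const_sub_lt_one Q (hreg Q hQ)
  -- `vK a < 1`
  have hρhlt : x.2.adicValuation (ρ h) < 1 := by
    rw [x.2.adicValuation_eq_exp_neg_ord hρh0, hord, ← exp_zero, exp_lt_exp]; norm_num
  have ha1 : M.vK a < 1 := by
    by_contra hcon
    rw [not_lt] at hcon
    have ha0 : a ≠ 0 := by rintro rfl; simp at hcon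
    have haF : algebraMap K F a ≠ 0 := (_root_.map_ne_zero _).mpr ha0
    -- consider `u = h / a - 1`
    set u := h / algebraMap K F a - 1 with hu
    have hva : v (algebraMap K F a) = M.vK a := C.v_alg a
    have h1 : v (h / algebraMap K F a) ≤ 1 := by
      rw [map_div₀, hv, hva, one_div]
      exact inv_le_one_of_one_le₀ hcon
    have hu1 : v u ≤ 1 := (Valuation.map_sub _ _ _).trans (max_le h1 (by simp))
    have hρu : ρ u = ρ (h / algebraMap K F a) - 1 := by
      rw [hu, C.ρ_sub h1 (by simp), C.ρ_one]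
    have hval : x.2.adicValuation (ρ (h / algebraMap K F a)) < 1 := by
      rcases hcon.lt_or_eq with hlt | heq
      · have : ρ (h / algebraMap K F a) = 0 := by
          rw [C.ρ_eq_zero _ h1, map_div₀, hv, hva, one_div]
          exact inv_lt_one_of_one_lt₀ hlt
        rw [this, map_zero]; exact zero_lt_one
      · have hva1 : v (algebraMap K F a) = 1 := by rw [hva, ← heq]
        rw [C.ρ_div hv.le hva1, C.ρ_alg a heq.symm.le, map_div₀]
        have hres : M.res a ≠ 0 := by
          intro h0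
          have := C.ρ_ne_zero hva1
          rw [C.ρ_alg a heq.symm.le, h0, map_zero] at this
          exact this rfl
        rw [H3RR.adicValuation_algebraMap _ hres, div_one]
        exact hρhlt
    have hρu1 : x.2.adicValuation (ρ u) = 1 := by
      rw [hρu, Valuation.map_sub_eq_of_lt_right _ (by simpa using hval), map_one]
    have hρu0 : ρ u ≠ 0 := by
      intro h0
      rw [h0, map_zero] at hρu1
      exact zero_ne_one hρu1
    have hvu : v u = 1 := C.v_eq_one hu1 hρu0
    have hu0 : u ≠ 0 := by rintro h0; rw [h0] at hvu; simp at hvu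
    have h2 := M.smooth_deg x hx u hu0 hvu (H3RR.divOf u) (H3RR.divOf_apply hu0)
    have h3 : x.2.ord (ρ u) = 0 := by
      rw [x.2.adicValuation_eq_exp_neg_ord hρu0, ← exp_zero, exp_inj] at hρu1
      omega
    rw [← hρdef, h3] at h2
    have huval : ∀ R, M.sp R = Sum.inl x → R.adicValuation u ≤ 1 := by
      intro R hR
      refine (Valuation.map_sub _ _ _).trans (max_le ?_ (by simp))
      rw [map_div₀, H3RR.adicValuation_algebraMap _ ha0, div_one]
      exact hreg R hR
    have h4 : ∀ R, M.sp R = Sum.inl x → 0 ≤ (H3RR.divOf u : Divisor K F) R := by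
      intro R hR
      rw [H3RR.divOf_apply hu0]
      exact ((R.adicValuation_le_one_iff).mp (huval R hR)).resolve_left hu0
    have h5 := eq_zero_of_cls_eq_zero M.sp h4 h2 hQ
    rw [H3RR.divOf_apply hu0] at h5
    have h6 : Q.adicValuation u < 1 := by
      have : u = (h - algebraMap K F a) / algebraMap K F a := by
        rw [hu, sub_div, div_self haF]
      rw [this, map_div₀, H3RR.adicValuation_algebraMap _ ha0, div_one]
      exact ha
    have h7 := H3RR.ord_pos_of_lt_one hu0 h6
    omega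
  -- divisor of `h`
  have hdivh : cls M.sp (H3RR.divOf h) (Sum.inl x) = 1 := by
    rw [M.smooth_deg x hx h hh0 hv (H3RR.divOf h) (H3RR.divOf_apply hh0)]
    exact hord
  have hnonneg : ∀ R, M.sp R = Sum.inl x → 0 ≤ (H3RR.divOf h : Divisor K F) R := by
    intro R hR
    rw [H3RR.divOf_apply hh0]
    exact ((R.adicValuation_le_one_iff).mp (hreg R hR)).resolve_left hh0
  have hhord : ∀ R, M.sp R = Sum.inl x → R.ord h = (Finsupp.single P (1 : ℤ) : Divisor K F) R := by
    obtain ⟨h1, h2⟩ := eq_one_of_cls_eq_one M.sp hnonneg hdivh hP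
      (by rw [H3RR.divOf_apply hh0]; exact H3RR.ord_pos_of_lt_one hh0 hPh)
    intro R hR
    by_cases hRP : R = P
    · subst hRP
      rw [Finsupp.single_eq_same, ← H3RR.divOf_apply hh0, h1]
    · rw [Finsupp.single_apply, if_neg (Ne.symm hRP), ← H3RR.divOf_apply hh0, h2 R hR hRP]
  -- divisor of `h - a`
  set h' := h - algebraMap K F a with hh'
  have hva : v (algebraMap K F a) < 1 := by rw [C.v_alg]; exact ha1
  have hvh' : v h' = 1 := by
    rw [hh', Valuation.map_sub_eq_of_lt_left _ (by rw [hv]; exact hva), hv]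
  have hh'0 : h' ≠ 0 := by intro h0; rw [h0] at hvh'; simp at hvh'
  have hρa : ρ (algebraMap K F a) = 0 := (C.ρ_eq_zero _ hva.le).mpr hva
  have hρh' : ρ h' = ρ h := by rw [hh', C.ρ_sub hv.le hva.le, hρa, sub_zero]
  have hdivh' : cls M.sp (H3RR.divOf h') (Sum.inl x) = 1 := by
    rw [M.smooth_deg x hx h' hh'0 hvh' (H3RR.divOf h') (H3RR.divOf_apply hh'0), ← hρdef, hρh']
    exact hord
  have hreg' : ∀ R, M.sp R = Sum.inl x → R.adicValuation h' ≤ 1 := by
    intro R hR
    exact (Valuation.map_sub _ _ _).trans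
      (max_le (hreg R hR) (R.adicValuation_algebraMap_le_one a))
  have hnonneg' : ∀ R, M.sp R = Sum.inl x → 0 ≤ (H3RR.divOf h' : Divisor K F) R := by
    intro R hR
    rw [H3RR.divOf_apply hh'0]
    exact ((R.adicValuation_le_one_iff).mp (hreg' R hR)).resolve_left hh'0
  have hh'ord : ∀ R, M.sp R = Sum.inl x →
      R.ord h' = (Finsupp.single Q (1 : ℤ) : Divisor K F) R := by
    obtain ⟨h1, h2⟩ := eq_one_of_cls_eq_one M.sp hnonneg' hdivh' hQ
      (by rw [H3RR.divOf_apply hh'0]; exact H3RR.ord_pos_of_lt_one hh'0 ha)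
    intro R hR
    by_cases hRQ : R = Q
    · subst hRQ
      rw [Finsupp.single_eq_same, ← H3RR.divOf_apply hh'0, h1]
    · rw [Finsupp.single_apply, if_neg (Ne.symm hRQ), ← H3RR.divOf_apply hh'0, h2 R hR hRQ]
  -- the function `ε`
  have hlF : algebraMap K F l ≠ 0 := (_root_.map_ne_zero _).mpr hl
  have hvl : v (algebraMap K F l) = M.vK l := C.v_alg l
  have hvlb : v (algebraMap K F l * b) < 1 := by
    rw [map_mul, hvl]
    exact mul_lt_one_of_lt_of_le hl1 hb
  have hvw : v w = 1 := by
    rw [hw, Valuation.map_add_eq_of_lt_left _ (by simpa using hvlb), map_one]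
  have hw0 : w ≠ 0 := by intro h0; rw [h0] at hvw; simp at hvw
  set ε := w * (h / h') ^ n with hε
  have hε0 : ε ≠ 0 := mul_ne_zero hw0 (pow_ne_zero _ (div_ne_zero hh0 hh'0))
  have hεord : ∀ R, M.sp R = Sum.inl x → R.adicValuation ε = 1 := by
    intro R hR
    have h1 : R.ord ε = 0 := by
      rw [hε, R.ord_mul hw0 (pow_ne_zero _ (div_ne_zero hh0 hh'0)), hword R hR]
      have h2 : R.ord ((h / h') ^ n) = n * (R.ord h - R.ord h') := by
        have := R.ord_zpow (h / h') n
        rw [zpow_natCast] at this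
        rw [this, div_eq_mul_inv, R.ord_mul hh0 (inv_ne_zero hh'0), R.ord_inv, sub_eq_add_neg]
      rw [h2, hhord R hR, hh'ord R hR, Finsupp.sub_apply]
      ring
    rw [R.adicValuation_eq_exp_neg_ord hε0, h1, neg_zero, exp_zero]
  have hεreg : ∀ R, M.sp R = Sum.inl x → ∀ c : K, c ≠ 0 →
      R.adicValuation ((ε - 1) / algebraMap K F c) ≤ 1 := by
    intro R hR c hc
    rw [map_div₀, H3RR.adicValuation_algebraMap _ hc, div_one]
    exact (Valuation.map_sub _ _ _).trans (max_le (hεord R hR).le (by simp))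
  -- expansion
  set y := algebraMap K F a / h with hy
  have hvy : v y = M.vK a := by rw [hy, map_div₀, hv, div_one, C.v_alg]
  have hvy1 : v y ≤ 1 := hvy.le.trans ha1.le
  obtain ⟨r, hr, hexp⟩ := exists_one_sub_pow hvy1 n
  have hy1 : 1 - y = h' / h := by rw [hy, hh', sub_div, div_self hh0]
  have hv1y : v (1 - y) = 1 := by rw [hy1, map_div₀, hv, hvh', div_one]
  have hρ1y : ρ (1 - y) = 1 := by
    rw [hy1, C.ρ_div hvh'.le hv, hρh', div_self hρh0]
  have hvpow : v ((1 - y) ^ n) = 1 := by rw [map_pow, hv1y, one_pow]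
  have hρpow : ρ ((1 - y) ^ n) = 1 := by rw [C.ρ_pow hv1y.le, hρ1y, one_pow]
  have hεw : ε * (1 - y) ^ n = w := by
    rw [hε, hy1, mul_assoc, ← mul_pow]
    have : h / h' * (h' / h) = 1 := by field_simp
    rw [this, one_pow, mul_one]
  have hkey : (ε - 1) * (1 - y) ^ n = algebraMap K F l * b + n * y - y ^ 2 * r := by
    rw [sub_mul, hεw, one_mul, hexp, hw]
    ring
  have hρn : ρ (n : F) = n := C.ρ_natCast n
  have hnk : (n : Fb) ≠ 0 := by
    have : (n : Fb) = algebraMap k Fb (n : k) := by simp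
    rw [this]
    exact (_root_.map_ne_zero _).mpr hn
  -- division by a constant `c` with `vK c ≥ vK a, vK l`
  have hdiv : ∀ c : K, c ≠ 0 → M.vK a ≤ M.vK c → M.vK l ≤ M.vK c → M.vK c < 1 →
      v ((ε - 1) / algebraMap K F c) ≤ 1 ∧
      ρ ((ε - 1) / algebraMap K F c) =
        ρ (algebraMap K F (l / c)) * ρ b + n * (ρ (algebraMap K F (a / c)) * (ρ h)⁻¹) := by
    intro c hc hac hlc hc1
    have hcF : algebraMap K F c ≠ 0 := (_root_.map_ne_zero _).mpr hc
    have hc0 : 0 < M.vK c := zero_lt_iff.mpr ((Valuation.ne_zero_iff _).mpr hc)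
    have e1 : (ε - 1) / algebraMap K F c * (1 - y) ^ n =
        algebraMap K F (l / c) * b + n * (algebraMap K F (a / c) * h⁻¹)
          - algebraMap K F (a / c) * (algebraMap K F a * (h⁻¹ * (h⁻¹ * r))) := by
      rw [div_mul_eq_mul_div, hkey, hy]
      simp only [map_div₀]
      field_simp
    have b1 : v (algebraMap K F (l / c)) ≤ 1 := by
      rw [C.v_alg, map_div₀]; exact (div_le_one₀ hc0).mpr hlc
    have b2 : v (algebraMap K F (a / c)) ≤ 1 := by
      rw [C.v_alg, map_div₀]; exact (div_le_one₀ hc0).mpr hac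
    have b3 : v h⁻¹ = 1 := by rw [map_inv₀, hv, inv_one]
    have b4 : v (algebraMap K F (l / c) * b) ≤ 1 := by rw [map_mul]; exact mul_le_one' b1 hb
    have b5 : v (algebraMap K F (a / c) * h⁻¹) ≤ 1 := by rw [map_mul, b3, mul_one]; exact b2
    have b6 : v ((n : F) * (algebraMap K F (a / c) * h⁻¹)) ≤ 1 := by
      rw [map_mul]; exact mul_le_one' (v_natCast_le n) b5
    have b7 : v (algebraMap K F (a / c) * (algebraMap K F a * (h⁻¹ * (h⁻¹ * r)))) < 1 := by
      rw [map_mul, map_mul, map_mul, map_mul, b3, one_mul, one_mul]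
      exact ((mul_le_of_le_one_left' b2).trans (mul_le_of_le_one_right' hr)).trans_lt hva
    have b8 : v (algebraMap K F (l / c) * b + n * (algebraMap K F (a / c) * h⁻¹)) ≤ 1 :=
      (Valuation.map_add _ _ _).trans (max_le b4 b6)
    have b9 : v ((ε - 1) / algebraMap K F c) ≤ 1 := by
      have h1 : v ((ε - 1) / algebraMap K F c * (1 - y) ^ n) ≤ 1 := by
        rw [e1]
        exact (Valuation.map_sub _ _ _).trans (max_le b8 b7.le)
      rwa [map_mul, hvpow, mul_one] at h1
    refine ⟨b9, ?_⟩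
    have h1 := C.ρ_mul _ _ b9 hvpow.le
    rw [e1, hρpow, mul_one, C.ρ_sub b8 b7.le, (C.ρ_eq_zero _ b7.le).mpr b7, sub_zero,
      C.ρ_add _ _ b4 b6, C.ρ_mul _ _ b1 hb, C.ρ_mul _ _ (v_natCast_le n) b5,
      C.ρ_mul _ _ b2 b3.le, C.ρ_inv hv, hρn] at h1
    exact h1.symm
  have hinvord : x.2.adicValuation (ρ h)⁻¹ = exp 1 := by
    rw [map_inv₀, x.2.adicValuation_eq_exp_neg_ord hρh0, hord, ← exp_neg, neg_neg]
  rcases lt_or_ge (M.vK l) (M.vK a) with hla | hal
  · -- contradiction
    exfalso
    have ha0 : a ≠ 0 := by rintro rfl; simp at hla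
    obtain ⟨h1, h2⟩ := hdiv a ha0 le_rfl hla.le ha1
    have h3 := M.reg hx h1 (fun R hR => hεreg R hR a ha0)
    rw [← hρdef, h2] at h3
    have h4 : ρ (algebraMap K F (l / a)) = 0 := by
      have : v (algebraMap K F (l / a)) < 1 := by
        rw [C.v_alg, map_div₀]
        exact (div_lt_one₀ (zero_lt_iff.mpr ((Valuation.ne_zero_iff _).mpr ha0))).mpr hla
      exact (C.ρ_eq_zero _ this.le).mpr this
    rw [h4, div_self ha0, map_one, C.ρ_one, zero_mul, zero_add, one_mul, map_mul, hinvord] at h3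
    have h5 : x.2.adicValuation (n : Fb) = 1 := by
      have : (n : Fb) = algebraMap k Fb (n : k) := by simp
      rw [this]
      exact H3RR.adicValuation_algebraMap _ hn
    rw [h5, one_mul, ← exp_zero, exp_le_exp] at h3
    omega
  · obtain ⟨h1, h2⟩ := hdiv l hl hal le_rfl hl1
    have h3 := M.reg hx h1 (fun R hR => hεreg R hR l hl)
    rw [← hρdef] at h3
    rw [div_self hl, map_one, C.ρ_one, one_mul] at h2
    have h4 : ρ b = ρ ((ε - 1) / algebraMap K F l)
        - n * (ρ (algebraMap K F (a / l)) * (ρ h)⁻¹) := by rw [h2]; ring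
    rw [h4]
    refine (Valuation.map_sub _ _ _).trans (max_le (h3.trans ?_) ?_)
    · rw [← exp_zero, exp_le_exp]; norm_num
    · have h5 : x.2.adicValuation (n : Fb) ≤ 1 := v_natCast_le n
      have h6 : x.2.adicValuation (ρ (algebraMap K F (a / l))) ≤ 1 := by
        have hc0 : 0 < M.vK l := zero_lt_iff.mpr ((Valuation.ne_zero_iff _).mpr hl)
        rw [C.ρ_alg _ (by rw [map_div₀]; exact (div_le_one₀ hc0).mpr hal)]
        exact x.2.adicValuation_algebraMap_le_one _
      rw [map_mul, map_mul, hinvord]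
      calc x.2.adicValuation (n : Fb) * (x.2.adicValuation (ρ (algebraMap K F (a / l))) * exp 1)
          ≤ 1 * (1 * exp 1) := by gcongr
        _ = exp 1 := by rw [one_mul, one_mul]

end Model

end Fermat.Agent.H97
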