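import Fermat.Agent.H97Comp

/-!
# Finite dimensional subspaces and several components

For a finite family of components `(v i, ρ i)` of `F/K` and a finite dimensional subspace `W`
having a basis with independent reductions, distances to `W` are attained.
-/

set_option autoImplicit false

open WithZero

namespace Fermat.Agent.H97

section Norm

variable {K F k κ Γ ι : Type*} [Field K] [Field F] [Algebra K F] [Field k] [Field κ] [Algebra k κ]
  [LinearOrderedCommGroupWithZero Γ]

/-- A finite family of components. -/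
structure Fam (K F k κ Γ ι : Type*) [Field K] [Field F] [Algebra K F] [Field k] [Field κ]
    [Algebra k κ] [LinearOrderedCommGroupWithZero Γ] where
  vK : Valuation K Γ
  res : K → k
  v : ι → Valuation F Γ
  ρ : ι → F → κ
  res_surj : ∀ e : k, ∃ c : K, vK c ≤ 1 ∧ res c = e
  comp : ∀ i, Comp vK res (v i) (ρ i)

namespace Fam

variable (S : Fam K F k κ Γ ι)

/-- Integrality. -/
def Int (x : F) : Prop := ∀ i, S.v i x ≤ 1

/-- The joint reduction. -/
def red (x : F) : ι → κ := fun i => S.ρ i x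

variable {S}

theorem Int.add {x y : F} (hx : S.Int x) (hy : S.Int y) : S.Int (x + y) := fun i =>
  (Valuation.map_add _ _ _).trans (max_le (hx i) (hy i))

theorem Int.sub {x y : F} (hx : S.Int x) (hy : S.Int y) : S.Int (x - y) := fun i =>
  (Valuation.map_sub _ _ _).trans (max_le (hx i) (hy i))

theorem Int.mul {x y : F} (hx : S.Int x) (hy : S.Int y) : S.Int (x * y) := fun i => by
  rw [map_mul]; exact mul_le_one' (hx i) (hy i)

theorem Int.pow {x : F} (hx : S.Int x) (n : ℕ) : S.Int (x ^ n) := fun i => by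
  rw [map_pow]; exact pow_le_one' (hx i) n

theorem Int.const {c : K} (hc : S.vK c ≤ 1) : S.Int (algebraMap K F c) := fun i => by
  rw [(S.comp i).v_alg]; exact hc

theorem Int.zero : S.Int 0 := fun i => by simp

theorem Int.one : S.Int 1 := fun i => by simp

theorem Int.smul {c : K} (hc : S.vK c ≤ 1) {x : F} (hx : S.Int x) : S.Int (c • x) := by
  rw [Algebra.smul_def]; exact (Int.const hc).mul hx

theorem Int.sum {α : Type*} {s : Finset α} {x : α → F} (hx : ∀ a ∈ s, S.Int (x a)) :
    S.Int (∑ a ∈ s, x a) := fun i => Valuation.map_sum_le _ fun a ha => hx a ha i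

theorem red_add {x y : F} (hx : S.Int x) (hy : S.Int y) : S.red (x + y) = S.red x + S.red y :=
  funext fun i => (S.comp i).ρ_add _ _ (hx i) (hy i)

theorem red_sub {x y : F} (hx : S.Int x) (hy : S.Int y) : S.red (x - y) = S.red x - S.red y :=
  funext fun i => (S.comp i).ρ_sub (hx i) (hy i)

theorem red_mul {x y : F} (hx : S.Int x) (hy : S.Int y) : S.red (x * y) = S.red x * S.red y :=
  funext fun i => (S.comp i).ρ_mul _ _ (hx i) (hy i)

theorem red_pow {x : F} (hx : S.Int x) (n : ℕ) : S.red (x ^ n) = S.red x ^ n :=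
  funext fun i => (S.comp i).ρ_pow (hx i) n

theorem red_zero : S.red 0 = 0 := funext fun i => (S.comp i).ρ_zero

theorem red_one : S.red 1 = 1 := funext fun i => (S.comp i).ρ_one

theorem red_natCast (n : ℕ) : S.red (n : F) = (n : ι → κ) :=
  funext fun i => by rw [red, (S.comp i).ρ_natCast]; rfl

theorem red_smul {c : K} (hc : S.vK c ≤ 1) {x : F} (hx : S.Int x) :
    S.red (c • x) = S.res c • S.red x := by
  funext i
  rw [Algebra.smul_def]
  show S.ρ i _ = _
  rw [(S.comp i).ρ_mul _ _ (by rw [(S.comp i).v_alg]; exact hc) (hx i), (S.comp i).ρ_alg c hc,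
    Pi.smul_apply, Algebra.smul_def]
  rfl

theorem red_sum {α : Type*} {s : Finset α} {x : α → F} (hx : ∀ a ∈ s, S.Int (x a)) :
    S.red (∑ a ∈ s, x a) = ∑ a ∈ s, S.red (x a) := by
  classical
  induction s using Finset.induction with
  | empty => simpa using red_zero
  | insert a s ha ih =>
    rw [Finset.sum_insert ha, Finset.sum_insert ha,
      red_add (hx a (Finset.mem_insert_self _ _))
        (Int.sum fun b hb => hx b (Finset.mem_insert_of_mem hb)),
      ih fun b hb => hx b (Finset.mem_insert_of_mem hb)]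

theorem red_eq_zero_iff {x : F} (hx : S.Int x) : S.red x = 0 ↔ ∀ i, S.v i x < 1 := by
  constructor
  · intro h i
    exact ((S.comp i).ρ_eq_zero x (hx i)).mp (congrFun h i)
  · intro h
    exact funext fun i => ((S.comp i).ρ_eq_zero x (hx i)).mpr (h i)

theorem res_one [Nonempty ι] : S.res 1 = 1 := by
  obtain ⟨i⟩ := ‹Nonempty ι›
  have h := (S.comp i).ρ_alg 1 (by simp)
  rw [map_one, (S.comp i).ρ_one, ← map_one (algebraMap k κ)] at h
  exact ((algebraMap k κ).injective h).symm

variable (S)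

/-- `W` has a `K`-basis of integral elements whose joint reductions are linearly independent. -/
def RedBasis {α : Type*} (W : Submodule K F) (w : α → F) : Prop :=
  Submodule.span K (Set.range w) = W ∧ (∀ j, S.Int (w j)) ∧
    LinearIndependent k (fun j => S.red (w j))

/-- The joint reduction of the integral elements of `W`. -/
def redSpace [Nonempty ι] (W : Submodule K F) : Submodule k (ι → κ) where
  carrier := {b | ∃ x ∈ W, S.Int x ∧ S.red x = b}
  zero_mem' := ⟨0, W.zero_mem, Int.zero, red_zero⟩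
  add_mem' := by
    rintro _ _ ⟨x, hx, hx1, rfl⟩ ⟨y, hy, hy1, rfl⟩
    exact ⟨x + y, W.add_mem hx hy, hx1.add hy1, red_add hx1 hy1⟩
  smul_mem' := by
    rintro c _ ⟨x, hx, hx1, rfl⟩
    obtain ⟨a, ha, rfl⟩ := S.res_surj c
    exact ⟨a • x, W.smul_mem a hx, Int.smul ha hx1, red_smul ha hx1⟩

variable {S}

theorem mem_redSpace [Nonempty ι] {W : Submodule K F} {b : ι → κ} :
    b ∈ S.redSpace W ↔ ∃ x ∈ W, S.Int x ∧ S.red x = b := Iff.rfl

theorem red_mem_redSpace [Nonempty ι] {W : Submodule K F} {x : F} (hx : x ∈ W) (h : S.Int x) :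
    S.red x ∈ S.redSpace W := ⟨x, hx, h, rfl⟩

theorem redSpace_mono [Nonempty ι] {W W' : Submodule K F} (h : W ≤ W') :
    S.redSpace W ≤ S.redSpace W' := by
  rintro _ ⟨x, hx, hx1, rfl⟩
  exact ⟨x, h hx, hx1, rfl⟩

/-- Coordinates in a reduction basis of an integral element are integral. -/
theorem coord_le_one [Nonempty ι] {α : Type*} [Fintype α] {w : α → F}
    (hw : ∀ j, S.Int (w j)) (hli : LinearIndependent k (fun j => S.red (w j))) {c : α → K}
    (hx : S.Int (∑ j, c j • w j)) (j : α) : S.vK (c j) ≤ 1 := by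
  classical
  obtain ⟨i⟩ := ‹Nonempty ι›
  have hne : Nonempty ι := ⟨i⟩
  have hα : Nonempty α := ⟨j⟩
  obtain ⟨j₀, hj₀⟩ := Finite.exists_max (fun j => S.vK (c j))
  by_contra hcon
  rw [not_le] at hcon
  have h1 : 1 < S.vK (c j₀) := hcon.trans_le (hj₀ j)
  have hc0 : c j₀ ≠ 0 := by intro h0; rw [h0] at h1; simp at h1
  have hinv : S.vK (c j₀)⁻¹ < 1 := by rw [map_inv₀]; exact inv_lt_one_of_one_lt₀ h1
  have hle : ∀ a, S.vK ((c j₀)⁻¹ * c a) ≤ 1 := by
    intro a
    rw [map_mul, map_inv₀]
    calc (S.vK (c j₀))⁻¹ * S.vK (c a) ≤ (S.vK (c j₀))⁻¹ * S.vK (c j₀) := by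
          gcongr
          exact hj₀ a
      _ = 1 := inv_mul_cancel₀ ((Valuation.ne_zero_iff _).mpr hc0)
  have e1 : (c j₀)⁻¹ • ∑ a, c a • w a = ∑ a, ((c j₀)⁻¹ * c a) • w a := by
    rw [Finset.smul_sum]
    exact Finset.sum_congr rfl fun a _ => smul_smul _ _ _
  have e2 : S.red ((c j₀)⁻¹ • ∑ a, c a • w a) = 0 := by
    rw [red_eq_zero_iff (Int.smul hinv.le hx)]
    intro i'
    rw [Algebra.smul_def, map_mul, (S.comp i').v_alg]
    exact (mul_le_of_le_one_right' (hx i')).trans_lt hinv
  rw [e1, red_sum (fun a _ => Int.smul (hle a) (hw a))] at e2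
  have e3 : ∑ a, S.res ((c j₀)⁻¹ * c a) • S.red (w a) = 0 := by
    rw [← e2]
    exact Finset.sum_congr rfl fun a _ => (red_smul (hle a) (hw a)).symm
  have e4 := Fintype.linearIndependent_iff.mp hli _ e3 j₀
  rw [inv_mul_cancel₀ hc0, res_one] at e4
  exact one_ne_zero e4

theorem RedBasis.redSpace_eq [Nonempty ι] {α : Type*} [Fintype α] {W : Submodule K F}
    {w : α → F} (hw : S.RedBasis W w) :
    S.redSpace W = Submodule.span k (Set.range fun j => S.red (w j)) := by
  apply le_antisymm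
  · rintro _ ⟨x, hx, hx1, rfl⟩
    rw [← hw.1] at hx
    obtain ⟨c, rfl⟩ := (Submodule.mem_span_range_iff_exists_fun K).mp hx
    have hc := coord_le_one hw.2.1 hw.2.2 hx1
    rw [red_sum fun a _ => Int.smul (hc a) (hw.2.1 a)]
    refine Submodule.sum_mem _ fun a _ => ?_
    rw [red_smul (hc a) (hw.2.1 a)]
    exact Submodule.smul_mem _ _ (Submodule.subset_span ⟨a, rfl⟩)
  · rw [Submodule.span_le]
    rintro _ ⟨j, rfl⟩
    exact red_mem_redSpace (hw.1 ▸ Submodule.subset_span ⟨j, rfl⟩) (hw.2.1 j)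

theorem RedBasis.linearIndependent [Nonempty ι] {α : Type*} [Finite α] {W : Submodule K F}
    {w : α → F} (hw : S.RedBasis W w) : LinearIndependent K w := by
  classical
  have := Fintype.ofFinite α
  rw [Fintype.linearIndependent_iff]
  intro c hc
  by_contra hcon
  push Not at hcon
  obtain ⟨j, hj⟩ := hcon
  have hα : Nonempty α := ⟨j⟩
  have e3 : ∑ a, S.res ((c j)⁻¹ * c a) • S.red (w a) = 0 := by
    have hle : ∀ a, S.vK ((c j)⁻¹ * c a) ≤ 1 := by
      intro a
      refine coord_le_one (S := S) (w := w) (c := fun a => (c j)⁻¹ * c a) hw.2.1 hw.2.2 ?_ a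
      have h2 : ∑ a, ((c j)⁻¹ * c a) • w a = (c j)⁻¹ • ∑ a, c a • w a := by
        rw [Finset.smul_sum]
        exact Finset.sum_congr rfl fun a _ => (smul_smul _ _ _).symm
      rw [h2, hc, smul_zero]
      exact Int.zero
    have h3 : ∑ a, S.res ((c j)⁻¹ * c a) • S.red (w a)
        = S.red (∑ a, ((c j)⁻¹ * c a) • w a) := by
      rw [red_sum fun a _ => Int.smul (hle a) (hw.2.1 a)]
      exact Finset.sum_congr rfl fun a _ => (red_smul (hle a) (hw.2.1 a)).symm
    rw [h3]
    have h2 : ∑ a, ((c j)⁻¹ * c a) • w a = (c j)⁻¹ • ∑ a, c a • w a := by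
      rw [Finset.smul_sum]
      exact Finset.sum_congr rfl fun a _ => (smul_smul _ _ _).symm
    rw [h2, hc, smul_zero, red_zero]
  have e4 := Fintype.linearIndependent_iff.mp hw.2.2 _ e3 j
  rw [inv_mul_cancel₀ hj, res_one] at e4
  exact one_ne_zero e4

theorem RedBasis.finrank_redSpace [Nonempty ι] {α : Type*} [Fintype α] {W : Submodule K F}
    {w : α → F} (hw : S.RedBasis W w) :
    Module.finrank k (S.redSpace W) = Module.finrank K W := by
  rw [hw.redSpace_eq, finrank_span_eq_card hw.2.2, ← hw.1,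
    finrank_span_eq_card hw.linearIndependent]

theorem RedBasis.finite_redSpace [Nonempty ι] {α : Type*} [Finite α] {W : Submodule K F}
    {w : α → F} (hw : S.RedBasis W w) : Module.Finite k (S.redSpace W) := by
  have := Fintype.ofFinite α
  rw [hw.redSpace_eq]
  exact FiniteDimensional.span_of_finite k (Set.finite_range _)

variable (S)

/-- Hypothesis (H1): every finite dimensional subspace has a reduction basis. -/
def H1 : Prop := ∀ W : Submodule K F, FiniteDimensional K W →
  ∃ (r : ℕ) (w : Fin r → F), S.RedBasis W w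

variable {S}

/-- Distances to finite dimensional subspaces are attained. -/
theorem exists_best [Nonempty ι] (hH : S.H1) (W : Submodule K F) [FiniteDimensional K W] {x : F}
    (hx : x ∉ W) : ∃ (l : F) (c : K) (z : F), l ∈ W ∧ c ≠ 0 ∧ S.Int z ∧ x = l + c • z ∧
      S.red z ∉ S.redSpace W := by
  obtain ⟨r, w, hw⟩ := hH W inferInstance
  obtain ⟨r', w', hw'⟩ := hH (W ⊔ Submodule.span K {x}) inferInstance
  have hlt : W < W ⊔ Submodule.span K {x} := by
    refine lt_of_le_of_ne le_sup_left fun h => hx ?_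
    rw [h]
    exact Submodule.mem_sup_right (Submodule.mem_span_singleton_self x)
  have hfin := hw.finite_redSpace
  have hfin' := hw'.finite_redSpace
  have h1 : Module.finrank k (S.redSpace W)
      < Module.finrank k (S.redSpace (W ⊔ Submodule.span K {x})) := by
    rw [hw.finrank_redSpace, hw'.finrank_redSpace]
    exact Submodule.finrank_lt_finrank_of_lt hlt
  obtain ⟨b, hb, hbW⟩ : ∃ b ∈ S.redSpace (W ⊔ Submodule.span K {x}), b ∉ S.redSpace W := by
    by_contra hcon
    push Not at hcon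
    exact absurd (Submodule.finrank_mono (show S.redSpace (W ⊔ Submodule.span K {x})
      ≤ S.redSpace W from hcon)) (not_le.mpr h1)
  obtain ⟨z, hz, hzI, rfl⟩ := hb
  obtain ⟨l, hl, y, hy, rfl⟩ := Submodule.mem_sup.mp hz
  obtain ⟨e, rfl⟩ := Submodule.mem_span_singleton.mp hy
  have he : e ≠ 0 := by
    rintro rfl
    rw [zero_smul, add_zero] at hbW hzI
    exact hbW (red_mem_redSpace hl hzI)
  refine ⟨-(e⁻¹ • l), e⁻¹, l + e • x, W.neg_mem (W.smul_mem _ hl), inv_ne_zero he, hzI, ?_, hbW⟩
  rw [smul_add, smul_smul, inv_mul_cancel₀ he, one_smul]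
  abel

/-- Optimality in `exists_best`. -/
theorem best_le [Nonempty ι] {W : Submodule K F} {x l z : F} {c : K} (hl : l ∈ W) (hc : c ≠ 0)
    (hz : S.Int z) (hx : x = l + c • z) (hred : S.red z ∉ S.redSpace W) {l' z' : F} {c' : K}
    (hl' : l' ∈ W) (hz' : S.Int z') (hx' : x = l' + c' • z') : S.vK c ≤ S.vK c' := by
  by_contra hcon
  rw [not_le] at hcon
  apply hred
  have hc0 : 0 < S.vK c := zero_lt_iff.mpr ((Valuation.ne_zero_iff _).mpr hc)
  have hlt : S.vK (c⁻¹ * c') < 1 := by
    rw [map_mul, map_inv₀, inv_mul_lt_one₀ hc0]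
    exact hcon
  have e1 : z = c⁻¹ • (l' - l) + (c⁻¹ * c') • z' := by
    have h1 : c • z = l' - l + c' • z' := by
      rw [eq_sub_of_add_eq' hx.symm, hx']; abel
    have h2 : z = c⁻¹ • (c • z) := by rw [smul_smul, inv_mul_cancel₀ hc, one_smul]
    rw [h2, h1, smul_add, smul_smul]
  have e2 : S.red ((c⁻¹ * c') • z') = 0 := by
    rw [red_eq_zero_iff (Int.smul hlt.le hz')]
    intro i
    rw [Algebra.smul_def, map_mul, (S.comp i).v_alg]
    exact (mul_le_of_le_one_right' (hz' i)).trans_lt hlt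
  have e3 : S.Int (c⁻¹ • (l' - l)) := by
    have : c⁻¹ • (l' - l) = z - (c⁻¹ * c') • z' := by rw [e1]; abel
    rw [this]
    exact hz.sub (Int.smul hlt.le hz')
  refine ⟨c⁻¹ • (l' - l), W.smul_mem _ (W.sub_mem hl' hl), e3, ?_⟩
  rw [e1, red_add e3 (Int.smul hlt.le hz'), e2, add_zero]

end Fam

end Norm

end Fermat.Agent.H97
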