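import Fermat.Agent.H97Norm
import Mathlib.RingTheory.Nullstellensatz

/-!
# Extraction of roots: step (4) of the semistable core

Let `f` be a function congruent to `1` on all components, `M`, `L`, `M₂`, `Ld` finite dimensional
spaces (think `L(nD+E)`, `L(nD)`, `L(2nD+E)`, `L(dnD)` with `div f = dE`).  If the reductions of `M`
and `L` coincide (and some formal conditions hold), then `f` is a `d`-th power.
-/

set_option autoImplicit false

open WithZero

namespace Fermat.Agent.H97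

namespace Fam

variable {K F k κ Γ ι : Type*} [Field K] [Field F] [Algebra K F] [Field k] [Field κ] [Algebra k κ]
  [LinearOrderedCommGroupWithZero Γ] {S : Fam K F k κ Γ ι}

/-- `1 + h` raised to the powers `q ^ r` converges to `1`. -/
theorem pow_q_pow {q : ℕ} {a : Γ} (ha : a < 1) (hq : ∀ i, S.v i (q : F) ≤ a) {h : F}
    (hh : ∀ i, S.v i h ≤ a) (r : ℕ) : ∀ i, S.v i ((1 + h) ^ q ^ r - 1) ≤ a ^ (r + 1) := by
  induction r with
  | zero => intro i; simpa using hh i
  | succ r ih =>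
    intro i
    set g := (1 + h) ^ q ^ r - 1 with hg
    have hg1 : S.v i g ≤ a := (ih i).trans (pow_le_of_le_one zero_le ha.le (Nat.succ_ne_zero _))
    have hng : S.v i (-g) ≤ 1 := by rw [Valuation.map_neg]; exact hg1.trans ha.le
    obtain ⟨s, hs, hexp⟩ := exists_one_sub_pow hng q
    have e1 : (1 + h) ^ q ^ (r + 1) - 1 = q * g + g ^ 2 * s := by
      have : (1 + h) ^ q ^ (r + 1) = (1 - -g) ^ q := by
        rw [pow_succ, pow_mul, sub_neg_eq_add, hg]; congr 1; ring
      rw [this, hexp]; ring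
    rw [e1]
    refine (Valuation.map_add _ _ _).trans (max_le ?_ ?_)
    · rw [map_mul]
      calc S.v i (q : F) * S.v i g ≤ a * a ^ (r + 1) := mul_le_mul' (hq i) (ih i)
        _ = a ^ (r + 1 + 1) := by rw [pow_succ a (r + 1), mul_comm]
    · rw [map_mul, map_pow]
      calc S.v i g ^ 2 * S.v i s ≤ S.v i g ^ 2 := mul_le_of_le_one_right' hs
        _ = S.v i g * S.v i g := sq _
        _ ≤ a * a ^ (r + 1) := mul_le_mul' hg1 (ih i)
        _ = a ^ (r + 1 + 1) := by rw [pow_succ a (r + 1), mul_comm]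

theorem v_pow_sub_one_le {v : Valuation F Γ} {x : F} (hx : v x ≤ 1) (s : ℕ) :
    v (x ^ s - 1) ≤ v (x - 1) := by
  have h : x ^ s - 1 = (x - 1) * ∑ j ∈ Finset.range s, x ^ j := by
    rw [mul_comm, geom_sum_mul]
  rw [h, map_mul]
  refine mul_le_of_le_one_right' (Valuation.map_sum_le _ fun j _ => ?_)
  rw [map_pow]
  exact pow_le_one' hx j

/-- Approximate `d`-th roots of a function congruent to `1`. -/
theorem exists_approx_root [Finite ι] [Nonempty ι] {q d : ℕ} (hd : Nat.Coprime d q) (hd0 : d ≠ 0)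
    (hq : S.vK (q : K) < 1) (harch : ∀ a : K, S.vK a < 1 → ∀ b : K, b ≠ 0 →
      ∃ N : ℕ, S.vK a ^ N ≤ S.vK b) {f : F} (hf : ∀ i, S.v i f ≤ 1) (hf1 : S.red f = 1)
    {e : K} (he : e ≠ 0) :
    ∃ y : F, S.Int y ∧ S.red y = 1 ∧ ∀ i, S.v i (y ^ d - f) ≤ S.vK e := by
  classical
  obtain ⟨i₀⟩ := ‹Nonempty ι›
  have hne : Nonempty ι := ⟨i₀⟩
  -- a common bound
  obtain ⟨a, ha1, haq, haf⟩ : ∃ a : K, S.vK a < 1 ∧ S.vK (q : K) ≤ S.vK a ∧
      ∀ i, S.v i (f - 1) ≤ S.vK a := by
    obtain ⟨i₁, hi₁⟩ := Finite.exists_max (fun i => S.v i (f - 1))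
    have h1 : ∀ i, S.v i (f - 1) < 1 := by
      have hI : S.Int (f - 1) := Int.sub hf Int.one
      rw [← red_eq_zero_iff hI, red_sub hf Int.one, hf1, red_one, sub_self]
    by_cases h0 : f - 1 = 0
    · exact ⟨q, hq, le_rfl, fun i => by rw [h0, map_zero]; exact zero_le⟩
    · obtain ⟨c, hc, hvc⟩ := (S.comp i₁).scale _ h0
      rcases le_total (S.vK (q : K)) (S.vK c) with h2 | h2
      · exact ⟨c, hvc ▸ h1 i₁, h2, fun i => hvc ▸ hi₁ i⟩
      · exact ⟨q, hq, le_rfl, fun i => (hi₁ i).trans (hvc ▸ h2)⟩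
  obtain ⟨N, hN⟩ := harch a ha1 e he
  -- `d M = 1 + q^N s`
  obtain ⟨M, s, hMs⟩ : ∃ M s : ℕ, d * M = 1 + q ^ N * s := by
    have hcop : Nat.Coprime d (q ^ N) := Nat.Coprime.pow_right N hd
    rcases lt_trichotomy (q ^ N) 1 with hz | hz | hz
    · -- `q = 0`
      have hz' : q ^ N = 0 := by omega
      rw [hz', Nat.coprime_zero_right] at hcop
      exact ⟨1, 0, by rw [hcop]; rfl⟩
    · exact ⟨1, d - 1, by rw [hz]; omega⟩
    · obtain ⟨M, -, hM⟩ := Nat.exists_mul_mod_eq_one_of_coprime hcop hz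
      have h1 := Nat.div_add_mod (d * M) (q ^ N)
      rw [hM, add_comm] at h1
      exact ⟨M, d * M / q ^ N, h1.symm⟩
  refine ⟨f ^ M, Int.pow hf M, by rw [red_pow hf, hf1, one_pow], fun i => ?_⟩
  have e1 : (f ^ M) ^ d - f = f * ((f ^ q ^ N) ^ s - 1) := by
    rw [← pow_mul, mul_comm M d, hMs, pow_add, pow_one, pow_mul]; ring
  rw [e1, map_mul]
  have hfN : S.v i (f ^ q ^ N) ≤ 1 := by rw [map_pow]; exact pow_le_one' (hf i) _
  calc S.v i f * S.v i ((f ^ q ^ N) ^ s - 1) ≤ S.v i ((f ^ q ^ N) ^ s - 1) :=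
        mul_le_of_le_one_left' (hf i)
    _ ≤ S.v i (f ^ q ^ N - 1) := v_pow_sub_one_le hfN s
    _ ≤ S.vK a ^ (N + 1) := by
        have := pow_q_pow (S := S) (q := q) (a := S.vK a) ha1 (fun i => by
          have : ((q : F)) = algebraMap K F (q : K) := by simp
          rw [this, (S.comp i).v_alg]; exact haq) (h := f - 1) haf N i
        rwa [add_sub_cancel] at this
    _ ≤ S.vK a ^ N := by
        rw [pow_succ]; exact mul_le_of_le_one_right' ha1.le
    _ ≤ S.vK e := hN

theorem exists_add_pow (x y : F) (c : K) (hx : S.Int x) (hy : S.Int y) (hc : S.vK c ≤ 1) (n : ℕ) :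
    ∃ r : F, S.Int r ∧ (x + c • y) ^ (n + 1) =
      x ^ (n + 1) + c • ((n + 1 : ℕ) * (x ^ n * y)) + c • c • r := by
  induction n with
  | zero => exact ⟨0, Int.zero, by simp⟩
  | succ n ih =>
    obtain ⟨r, hr, h⟩ := ih
    have hn : S.Int ((n + 1 : ℕ) : F) := fun i => v_natCast_le _
    refine ⟨r * x + c • (r * y) + (n + 1 : ℕ) * (x ^ n * y) * y, ?_, ?_⟩
    · exact ((hr.mul hx).add (Int.smul hc (hr.mul hy))).add
        ((hn.mul ((hx.pow n).mul hy)).mul hy)
    · rw [pow_succ, h]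
      simp only [Algebra.smul_def]
      push_cast
      ring

/-- The key claim: `M y ⊆ L` up to precision `e`. -/
theorem exists_near [Finite ι] [Nonempty ι] (hH : S.H1) {d : ℕ} (hd : (d : k) ≠ 0) {f : F}
    {M L M₂ Ld : Submodule K F} [FiniteDimensional K M] [FiniteDimensional K L]
    (hML : ∀ u ∈ M, ∀ l ∈ L, u * l ∈ M₂)
    (hMd : ∀ u ∈ M, ∀ u' ∈ M, u * u' ^ (d - 1) * f ∈ Ld)
    (hLd : ∀ u ∈ L, ∀ u' ∈ L, u * u' ^ (d - 1) ∈ Ld)
    (hred : S.redSpace M = S.redSpace L) (hone : 1 ∈ S.redSpace L)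
    (hred2 : ∀ b ∈ S.redSpace M₂, ∀ c ∈ S.redSpace L, c ^ (d - 2) * b ∈ S.redSpace Ld)
    {vs : ι → κ} (hvs : vs ∈ S.redSpace L)
    (hkey : ∀ b, b ∈ S.redSpace Ld → vs ^ (d - 1) * b ∈ S.redSpace Ld → b ∈ S.redSpace L)
    {e : K} (hd2 : 2 ≤ d) {y : F} (hy : S.Int y) (hy1 : S.red y = 1)
    (hyf : ∀ i, S.v i (y ^ d - f) ≤ S.vK e) :
    ∀ u ∈ M, S.Int u → ∃ l ∈ L, S.Int l ∧ ∀ i, S.v i (u * y - l) ≤ S.vK e := by
  classical
  obtain ⟨r, w, hw⟩ := hH M inferInstance
  -- best approximations of the basis vectors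
  have hbest : ∀ j, ∃ (l z : F) (c : K), l ∈ L ∧ S.Int l ∧ S.Int z ∧ S.vK c ≤ 1 ∧
      w j * y = l + c • z ∧ (c = 0 ∨ S.red z ∉ S.redSpace L) := by
    intro j
    have hwy : S.Int (w j * y) := (hw.2.1 j).mul hy
    by_cases hx : w j * y ∈ L
    · exact ⟨w j * y, 0, 0, hx, hwy, Int.zero, by simp, by simp, Or.inl rfl⟩
    · obtain ⟨l, c, z, hl, hc, hz, hxe, hzr⟩ := exists_best hH L hx
      have hc1 : S.vK c ≤ 1 := by
        have h2 := best_le hl hc hz hxe hzr (l' := 0) (z' := w j * y) (c' := 1) L.zero_mem hwy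
          (by rw [zero_add, one_smul])
        simpa using h2
      refine ⟨l, z, c, hl, ?_, hz, hc1, hxe, Or.inr hzr⟩
      have : l = w j * y - c • z := by rw [hxe]; abel
      rw [this]
      exact hwy.sub (Int.smul hc1 hz)
  choose l z c hl hlI hzI hc1 hwy hcz using hbest
  -- the worst basis vector
  by_cases hworst : ∀ j, S.vK (c j) ≤ S.vK e
  · intro u hu huI
    rw [← hw.1] at hu
    obtain ⟨a, rfl⟩ := (Submodule.mem_span_range_iff_exists_fun K).mp hu
    have ha := coord_le_one hw.2.1 hw.2.2 huI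
    refine ⟨∑ j, a j • l j, Submodule.sum_mem _ fun j _ => L.smul_mem _ (hl j),
      Int.sum fun j _ => Int.smul (ha j) (hlI j), fun i => ?_⟩
    have e1 : (∑ j, a j • w j) * y - ∑ j, a j • l j = ∑ j, a j • c j • z j := by
      rw [Finset.sum_mul, ← Finset.sum_sub_distrib]
      refine Finset.sum_congr rfl fun j _ => ?_
      rw [smul_mul_assoc, hwy, smul_add]
      abel
    rw [e1]
    refine Valuation.map_sum_le _ fun j _ => ?_
    rw [Algebra.smul_def, Algebra.smul_def, map_mul, map_mul, (S.comp i).v_alg,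
      (S.comp i).v_alg]
    calc S.vK (a j) * (S.vK (c j) * S.v i (z j)) ≤ 1 * (S.vK e * 1) :=
          mul_le_mul' (ha j) (mul_le_mul' (hworst j) (hzI j i))
      _ = S.vK e := by rw [one_mul, mul_one]
  exfalso
  push Not at hworst
  obtain ⟨j₁, hj₁⟩ := hworst
  have : Nonempty (Fin r) := ⟨j₁⟩
  obtain ⟨j₀, hj₀⟩ := Finite.exists_max (fun j => S.vK (c j))
  have hlt : S.vK e < S.vK (c j₀) := hj₁.trans_le (hj₀ j₁)
  have hc0 : c j₀ ≠ 0 := by
    intro h0
    rw [h0, map_zero] at hlt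
    exact not_lt_zero hlt
  have hpos : 0 < S.vK (c j₀) := zero_lt_iff.mpr ((Valuation.ne_zero_iff _).mpr hc0)
  have hb := (hcz j₀).resolve_left hc0
  -- every integral `u'` of `M`
  have hall : ∀ u' ∈ M, S.Int u' → ∃ l' z' : F, l' ∈ L ∧ S.Int l' ∧ S.Int z' ∧
      u' * y = l' + c j₀ • z' := by
    intro u hu huI
    rw [← hw.1] at hu
    obtain ⟨a, rfl⟩ := (Submodule.mem_span_range_iff_exists_fun K).mp hu
    have ha := coord_le_one hw.2.1 hw.2.2 huI
    have hcj : ∀ j, S.vK ((c j₀)⁻¹ * c j) ≤ 1 := by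
      intro j
      rw [map_mul, map_inv₀, inv_mul_le_one₀ hpos]
      exact hj₀ j
    refine ⟨∑ j, a j • l j, ∑ j, a j • ((c j₀)⁻¹ * c j) • z j,
      Submodule.sum_mem _ fun j _ => L.smul_mem _ (hl j),
      Int.sum fun j _ => Int.smul (ha j) (hlI j),
      Int.sum fun j _ => Int.smul (ha j) (Int.smul (hcj j) (hzI j)), ?_⟩
    rw [Finset.sum_mul, Finset.smul_sum, ← Finset.sum_add_distrib]
    refine Finset.sum_congr rfl fun j _ => ?_
    rw [smul_mul_assoc, hwy, smul_add, smul_comm (c j₀) (a j), smul_smul (c j₀),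
      mul_inv_cancel_left₀ hc0]
  -- main computation
  have hmain : ∀ u' ∈ M, S.Int u' →
      S.red u' ^ (d - 1) * S.red (z j₀) ∈ S.redSpace Ld := by
    intro u' hu' hu'I
    obtain ⟨l', z', hl', hl'I, hz'I, hl'e⟩ := hall u' hu' hu'I
    have hwM : w j₀ ∈ M := hw.1 ▸ Submodule.subset_span ⟨j₀, rfl⟩
    have hwI := hw.2.1 j₀
    have hvc : S.vK (c j₀) ≤ 1 := hc1 j₀
    have hvc1 : S.vK (c j₀) < 1 ∨ S.vK (c j₀) = 1 := lt_or_eq_of_le hvc
    -- `vK c < 1`
    have hclt : S.vK (c j₀) < 1 := by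
      rcases hvc1 with h | h
      · exact h
      · exfalso
        -- otherwise `red z ∈ redSpace L`
        have h1 : S.red (w j₀) ∈ S.redSpace L := hred ▸ red_mem_redSpace hwM hwI
        have h2 : S.red (w j₀ * y) = S.red (w j₀) := by rw [red_mul hwI hy, hy1, mul_one]
        have h3 : c j₀ • z j₀ = w j₀ * y - l j₀ := by rw [hwy]; abel
        have h4 : z j₀ = (c j₀)⁻¹ • (w j₀ * y - l j₀) := by
          rw [← h3, smul_smul, inv_mul_cancel₀ hc0, one_smul]
        have h5 : S.vK (c j₀)⁻¹ ≤ 1 := by rw [map_inv₀, h, inv_one]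
        apply hb
        rw [h4, red_smul h5 ((hwI.mul hy).sub (hlI j₀)), red_sub (hwI.mul hy) (hlI j₀), h2]
        exact Submodule.smul_mem _ _ (Submodule.sub_mem _ h1 (red_mem_redSpace (hl j₀) (hlI j₀)))
    have hredc : ∀ x : F, S.Int x → S.red (c j₀ • x) = 0 := by
      intro x hx
      rw [red_eq_zero_iff (Int.smul hvc hx)]
      intro i
      rw [Algebra.smul_def, map_mul, (S.comp i).v_alg]
      exact (mul_le_of_le_one_right' (hx i)).trans_lt hclt
    have hredl : S.red (l j₀) = S.red (w j₀) := by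
      have h2 : S.red (w j₀ * y) = S.red (w j₀) := by rw [red_mul hwI hy, hy1, mul_one]
      rw [← h2, hwy, red_add (hlI j₀) (Int.smul hvc (hzI j₀)), hredc _ (hzI j₀), add_zero]
    have hredl' : S.red l' = S.red u' := by
      have h2 : S.red (u' * y) = S.red u' := by rw [red_mul hu'I hy, hy1, mul_one]
      rw [← h2, hl'e, red_add hl'I (Int.smul hvc hz'I), hredc _ hz'I, add_zero]
    -- first relation
    have hR1 : S.red (w j₀) * S.red z' - S.red u' * S.red (z j₀) ∈ S.redSpace M₂ := by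
      refine ⟨(c j₀)⁻¹ • (u' * l j₀ - w j₀ * l'),
        M₂.smul_mem _ (M₂.sub_mem (hML _ hu' _ (hl j₀)) (hML _ hwM _ hl')), ?_⟩
      have h1 : (c j₀)⁻¹ • (u' * l j₀ - w j₀ * l') = w j₀ * z' - u' * z j₀ := by
        have h2 : u' * (w j₀ * y) = w j₀ * (u' * y) := by ring
        rw [hwy, hl'e, mul_add, mul_add, mul_smul_comm, mul_smul_comm] at h2
        have h3 : u' * l j₀ - w j₀ * l' = c j₀ • (w j₀ * z' - u' * z j₀) := by
          rw [smul_sub]
          linear_combination h2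
        rw [h3, smul_smul, inv_mul_cancel₀ hc0, one_smul]
      rw [h1]
      refine ⟨(hwI.mul hz'I).sub (hu'I.mul (hzI j₀)), ?_⟩
      rw [red_sub (hwI.mul hz'I) (hu'I.mul (hzI j₀)), red_mul hwI hz'I, red_mul hu'I (hzI j₀)]
    -- second relation
    obtain ⟨m, rfl⟩ : ∃ m, d = m + 2 := ⟨d - 2, by omega⟩
    simp only [Nat.add_sub_cancel, show m + 2 - 1 = m + 1 from rfl] at *
    obtain ⟨s, hs, hexp⟩ := exists_add_pow (S := S) l' z' (c j₀) hl'I hz'I hvc m
    have hR2 : S.red u' ^ (m + 1) * S.red (z j₀) +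
        ((m + 1 : ℕ) : ι → κ) * (S.red (w j₀) * (S.red u' ^ m * S.red z')) ∈
          S.redSpace Ld := by
      set t := (c j₀)⁻¹ • (w j₀ * u' ^ (m + 1) * f - l j₀ * l' ^ (m + 1)) with ht
      have htmem : t ∈ Ld :=
        Ld.smul_mem _ (Ld.sub_mem (hMd _ hwM _ hu') (hLd _ (hl j₀) _ hl'))
      -- expansion of `t`
      set g := z j₀ * l' ^ (m + 1) + (m + 1 : ℕ) * (l j₀ * (l' ^ m * z')) with hg
      set h := l j₀ * s + (m + 1 : ℕ) * (z j₀ * (l' ^ m * z')) + c j₀ • (z j₀ * s) with hh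
      have hgI : S.Int g := ((hzI j₀).mul (hl'I.pow _)).add
        (Int.mul (fun i => v_natCast_le _) ((hlI j₀).mul ((hl'I.pow m).mul hz'I)))
      have hhI : S.Int h := (((hlI j₀).mul hs).add
        (Int.mul (fun i => v_natCast_le _) ((hzI j₀).mul ((hl'I.pow m).mul hz'I)))).add
        (Int.smul hvc ((hzI j₀).mul hs))
      have hprod : w j₀ * u' ^ (m + 1) * y ^ (m + 2) =
          l j₀ * l' ^ (m + 1) + c j₀ • g + c j₀ • c j₀ • h := by
        have h1 : w j₀ * u' ^ (m + 1) * y ^ (m + 2) = (w j₀ * y) * (u' * y) ^ (m + 1) := by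
          rw [mul_pow]; ring
        rw [h1, hwy, hl'e, hexp, hg, hh]
        simp only [Algebra.smul_def]
        ring
      have hte : t = g + (c j₀ • h + (c j₀)⁻¹ • (w j₀ * u' ^ (m + 1) * (f - y ^ (m + 2)))) := by
        have h1 : w j₀ * u' ^ (m + 1) * f - l j₀ * l' ^ (m + 1) =
            c j₀ • (g + c j₀ • h) + w j₀ * u' ^ (m + 1) * (f - y ^ (m + 2)) := by
          rw [mul_sub, hprod, smul_add]
          ring
        rw [ht, h1, smul_add, smul_smul, inv_mul_cancel₀ hc0, one_smul]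
        ring
      have herrv : ∀ i, S.v i ((c j₀)⁻¹ • (w j₀ * u' ^ (m + 1) * (f - y ^ (m + 2)))) < 1 := by
        intro i
        rw [Algebra.smul_def, map_mul, (S.comp i).v_alg, map_mul, map_inv₀]
        have h1 : S.v i (w j₀ * u' ^ (m + 1)) ≤ 1 := (hwI.mul (hu'I.pow _)) i
        have h2 : S.v i (f - y ^ (m + 2)) ≤ S.vK e := by
          rw [Valuation.map_sub_swap]; exact hyf i
        calc (S.vK (c j₀))⁻¹ * (S.v i (w j₀ * u' ^ (m + 1)) * S.v i (f - y ^ (m + 2)))
            ≤ (S.vK (c j₀))⁻¹ * (1 * S.vK e) := by gcongr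
          _ = (S.vK (c j₀))⁻¹ * S.vK e := by rw [one_mul]
          _ < 1 := (inv_mul_lt_one₀ hpos).mpr hlt
      have herrI : S.Int (c j₀ • h + (c j₀)⁻¹ • (w j₀ * u' ^ (m + 1) * (f - y ^ (m + 2)))) :=
        (Int.smul hvc hhI).add fun i => (herrv i).le
      have herr0 : S.red (c j₀ • h +
          (c j₀)⁻¹ • (w j₀ * u' ^ (m + 1) * (f - y ^ (m + 2)))) = 0 := by
        rw [red_add (Int.smul hvc hhI) (fun i => (herrv i).le), hredc h hhI, zero_add,
          red_eq_zero_iff fun i => (herrv i).le]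
        exact herrv
      refine ⟨t, htmem, ?_, ?_⟩
      · rw [hte]; exact hgI.add herrI
      · have hnI : S.Int ((m + 1 : ℕ) : F) := fun i => v_natCast_le _
        have hI3 : S.Int (l j₀ * (l' ^ m * z')) := (hlI j₀).mul ((hl'I.pow m).mul hz'I)
        rw [hte, red_add hgI herrI, herr0, add_zero, hg,
          red_add ((hzI j₀).mul (hl'I.pow _)) (hnI.mul hI3), red_mul (hzI j₀) (hl'I.pow _),
          red_mul hnI hI3, red_mul (hlI j₀) ((hl'I.pow m).mul hz'I), red_mul (hl'I.pow m) hz'I,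
          red_pow hl'I, red_pow hl'I, hredl, hredl', red_natCast]
        ring
    -- combine
    have hR1' := hred2 _ hR1 _ (hred ▸ red_mem_redSpace hu' hu'I)
    have hcomb : ((m + 2 : ℕ) : k) • (S.red u' ^ (m + 1) * S.red (z j₀)) ∈ S.redSpace Ld := by
      have h1 : ((m + 2 : ℕ) : k) • (S.red u' ^ (m + 1) * S.red (z j₀)) =
          (S.red u' ^ (m + 1) * S.red (z j₀) +
            ((m + 1 : ℕ) : ι → κ) * (S.red (w j₀) * (S.red u' ^ m * S.red z'))) -
          ((m + 1 : ℕ) : k) • (S.red u' ^ m *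
            (S.red (w j₀) * S.red z' - S.red u' * S.red (z j₀))) := by
        simp only [Nat.cast_smul_eq_nsmul, nsmul_eq_mul]
        push_cast
        ring
      rw [h1]
      exact Submodule.sub_mem _ hR2 (Submodule.smul_mem _ _ hR1')
    have h2 := Submodule.smul_mem (S.redSpace Ld) ((m + 2 : ℕ) : k)⁻¹ hcomb
    rwa [smul_smul, inv_mul_cancel₀ hd, one_smul] at h2
  -- contradiction
  obtain ⟨u₁, hu₁, hu₁I, hu₁r⟩ := (hred.symm ▸ hone : (1 : ι → κ) ∈ S.redSpace M)
  obtain ⟨u₂, hu₂, hu₂I, hu₂r⟩ := (hred.symm ▸ hvs : vs ∈ S.redSpace M)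
  have h1 := hmain u₁ hu₁ hu₁I
  have h2 := hmain u₂ hu₂ hu₂I
  rw [hu₁r, one_pow, one_mul] at h1
  rw [hu₂r] at h2
  exact hb (hkey _ h1 h2)

open MvPolynomial in
/-- Approximate solutions of `l ^ d = t` in a finite dimensional space yield an exact one. -/
theorem exists_exact [IsAlgClosed K] [Nonempty ι] (hH : S.H1) {d : ℕ} {L : Submodule K F}
    [FiniteDimensional K L] {t : F} {π : K} (hπ0 : π ≠ 0) (hπ : S.vK π < 1)
    (happ : ∀ e : K, e ≠ 0 → ∃ l ∈ L, S.Int l ∧ ∀ i, S.v i (l ^ d - t) ≤ S.vK e) :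
    ∃ l ∈ L, l ^ d = t := by
  classical
  obtain ⟨r, w, hw⟩ := hH L inferInstance
  set P : MvPolynomial (Fin r) F := (∑ j, X j * C (w j)) ^ d - C t with hP
  have hPeval : ∀ x : Fin r → K, eval (fun j => algebraMap K F (x j)) P =
      (∑ j, x j • w j) ^ d - t := by
    intro x
    rw [hP]
    simp only [map_sub, map_pow, map_sum, map_mul, eval_X, eval_C, Algebra.smul_def]
  -- the span of the coefficients
  set W : Submodule K F := Submodule.span K ((fun α => P.coeff α) '' (P.support : Set _)) with hW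
  have hWfin : FiniteDimensional K W :=
    FiniteDimensional.span_of_finite K (P.support.finite_toSet.image _)
  obtain ⟨s, z, hz⟩ := hH W hWfin
  have hcoef : ∀ α, ∃ a : Fin s → K, α ∈ P.support → ∑ m, a m • z m = P.coeff α := by
    intro α
    by_cases hα : α ∈ P.support
    · have h1 : P.coeff α ∈ Submodule.span K (Set.range z) := by
        rw [hz.1]
        exact Submodule.subset_span ⟨α, hα, rfl⟩
      obtain ⟨a, ha⟩ := (Submodule.mem_span_range_iff_exists_fun K).mp h1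
      exact ⟨a, fun _ => ha⟩
    · exact ⟨0, fun h => absurd h hα⟩
  choose a ha using hcoef
  set Q : Fin s → MvPolynomial (Fin r) K := fun m => ∑ α ∈ P.support, monomial α (a α m) with hQ
  have hPQ : P = ∑ m, C (z m) * (Q m).map (algebraMap K F) := by
    conv_lhs => rw [← support_sum_monomial_coeff P]
    simp only [hQ, map_sum, map_monomial, Finset.mul_sum, C_mul_monomial]
    rw [Finset.sum_comm]
    refine Finset.sum_congr rfl fun α hα => ?_
    rw [← ha α hα, map_sum]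
    refine Finset.sum_congr rfl fun m _ => ?_
    rw [Algebra.smul_def, mul_comm]
  have hQeval : ∀ x : Fin r → K, (∑ j, x j • w j) ^ d - t = ∑ m, eval x (Q m) • z m := by
    intro x
    rw [← hPeval x, hPQ, map_sum]
    refine Finset.sum_congr rfl fun m _ => ?_
    rw [map_mul, eval_C, eval_map, Algebra.smul_def, mul_comm]
    congr 1
    exact aeval_algebraMap_apply F x (Q m)
  by_cases hzero : (zeroLocus K (Ideal.span (Set.range Q))).Nonempty
  · obtain ⟨x, hx⟩ := hzero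
    rw [mem_zeroLocus_iff] at hx
    refine ⟨∑ j, x j • w j, ?_, ?_⟩
    · rw [← hw.1]
      exact Submodule.sum_mem _ fun j _ => Submodule.smul_mem _ _ (Submodule.subset_span ⟨j, rfl⟩)
    · rw [← sub_eq_zero, hQeval x]
      refine Finset.sum_eq_zero fun m _ => ?_
      have := hx (Q m) (Ideal.subset_span ⟨m, rfl⟩)
      rw [show eval x (Q m) = 0 from this, zero_smul]
  · exfalso
    rw [Set.not_nonempty_iff_eq_empty] at hzero
    have htop : (Ideal.span (Set.range Q)).radical = ⊤ := by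
      rw [← vanishingIdeal_zeroLocus_eq_radical (K := K), hzero]
      exact vanishingIdeal_empty
    rw [Ideal.radical_eq_top, Ideal.eq_top_iff_one, Ideal.mem_span_range_iff_exists_fun] at htop
    obtain ⟨R, hR⟩ := htop
    -- a bound for the coefficients of the `R m`
    obtain ⟨e, he, hbound⟩ : ∃ e : K, e ≠ 0 ∧ ∀ m α, S.vK e * S.vK ((R m).coeff α) < 1 := by
      by_cases hs : ∃ m α, (R m).coeff α ≠ 0
      · obtain ⟨m₁, α₁, h1⟩ := hs
        set T : Finset (Fin s × (Fin r →₀ ℕ)) :=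
          Finset.univ.sigma (fun m => (R m).support) |>.image (fun x => (x.1, x.2)) with hT
        have hTne : T.Nonempty := ⟨(m₁, α₁), by
          rw [hT, Finset.mem_image]
          exact ⟨⟨m₁, α₁⟩, by simpa using h1, rfl⟩⟩
        obtain ⟨⟨m₂, α₂⟩, h2, h3⟩ := T.exists_max_image (fun x => S.vK ((R x.1).coeff x.2)) hTne
        have hmem : ∀ m α, (R m).coeff α ≠ 0 → (m, α) ∈ T := by
          intro m α h
          rw [hT, Finset.mem_image]
          exact ⟨⟨m, α⟩, by simpa using h, rfl⟩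
        have hne : (R m₂).coeff α₂ ≠ 0 := by
          rw [hT, Finset.mem_image] at h2
          obtain ⟨⟨m, α⟩, h4, h5⟩ := h2
          simp only [Prod.mk.injEq] at h5
          obtain ⟨rfl, rfl⟩ := h5
          simpa using h4
        have hpos : 0 < S.vK ((R m₂).coeff α₂) :=
          zero_lt_iff.mpr ((Valuation.ne_zero_iff _).mpr hne)
        refine ⟨π * ((R m₂).coeff α₂)⁻¹, mul_ne_zero hπ0 (inv_ne_zero hne), fun m α => ?_⟩
        by_cases h4 : (R m).coeff α = 0
        · rw [h4, map_zero, mul_zero]; exact zero_lt_one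
        · rw [map_mul, map_inv₀, mul_assoc]
          have h5 : (S.vK ((R m₂).coeff α₂))⁻¹ * S.vK ((R m).coeff α) ≤ 1 := by
            rw [inv_mul_le_one₀ hpos]
            exact h3 _ (hmem m α h4)
          exact (mul_le_of_le_one_right' h5).trans_lt hπ
      · push Not at hs
        exact ⟨1, one_ne_zero, fun m α => by rw [hs m α, map_zero, mul_zero]; exact zero_lt_one⟩
    obtain ⟨l, hl, hlI, hle⟩ := happ e he
    rw [← hw.1] at hl
    obtain ⟨x, rfl⟩ := (Submodule.mem_span_range_iff_exists_fun K).mp hl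
    have hx := coord_le_one hw.2.1 hw.2.2 hlI
    have hepos : 0 < S.vK e := zero_lt_iff.mpr ((Valuation.ne_zero_iff _).mpr he)
    have hQx : ∀ m, S.vK (eval x (Q m)) ≤ S.vK e := by
      intro m
      have h1 : S.Int (∑ m, (e⁻¹ * eval x (Q m)) • z m) := by
        have h2 : ∑ m, (e⁻¹ * eval x (Q m)) • z m = e⁻¹ • ((∑ j, x j • w j) ^ d - t) := by
          rw [hQeval, Finset.smul_sum]
          exact Finset.sum_congr rfl fun m _ => (smul_smul _ _ _).symm
        rw [h2]
        intro i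
        rw [Algebra.smul_def, map_mul, (S.comp i).v_alg, map_inv₀, inv_mul_le_one₀ hepos]
        exact hle i
      have h2 := coord_le_one hz.2.1 hz.2.2 h1 m
      rwa [map_mul, map_inv₀, inv_mul_le_one₀ hepos] at h2
    have hone := congrArg (eval x) hR
    rw [map_one, map_sum] at hone
    have hlt : S.vK (∑ m, eval x (R m * Q m)) < 1 := by
      rcases isEmpty_or_nonempty (Fin s) with hemp | hne
      · rw [Finset.univ_eq_empty, Finset.sum_empty, map_zero]; exact zero_lt_one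
      refine Valuation.map_sum_lt' _ zero_lt_one fun m _ => ?_
      rw [map_mul, map_mul]
      have h1 : S.vK e * S.vK (eval x (R m)) < 1 := by
        rw [← map_mul, eval_eq, Finset.mul_sum]
        refine Valuation.map_sum_lt' _ zero_lt_one fun α _ => ?_
        rw [map_mul, map_mul, map_prod, ← mul_assoc]
        refine (mul_le_of_le_one_right' (Finset.prod_le_one' fun j _ => ?_)).trans_lt (hbound m α)
        rw [map_pow]
        exact pow_le_one' (hx j) _
      calc S.vK (eval x (R m)) * S.vK (eval x (Q m))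
          ≤ S.vK (eval x (R m)) * S.vK e := by gcongr; exact hQx m
        _ = S.vK e * S.vK (eval x (R m)) := mul_comm _ _
        _ < 1 := h1
    rw [hone, map_one] at hlt
    exact lt_irrefl _ hlt

/-- **Step (4)**: extraction of `d`-th roots. -/
theorem exists_root [IsAlgClosed K] [Finite ι] [Nonempty ι] (hH : S.H1) {q d : ℕ}
    (hdq : Nat.Coprime d q) (hd : (d : k) ≠ 0) (hd2 : 2 ≤ d) (hq : S.vK (q : K) < 1)
    {π : K} (hπ0 : π ≠ 0) (hπ : S.vK π < 1)
    (harch : ∀ a : K, S.vK a < 1 → ∀ b : K, b ≠ 0 → ∃ N : ℕ, S.vK a ^ N ≤ S.vK b)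
    {f : F} (hf : S.Int f) (hf1 : S.red f = 1)
    {M L M₂ Ld : Submodule K F} [FiniteDimensional K M] [FiniteDimensional K L]
    (hML : ∀ u ∈ M, ∀ l ∈ L, u * l ∈ M₂)
    (hMd : ∀ u ∈ M, ∀ u' ∈ M, u * u' ^ (d - 1) * f ∈ Ld)
    (hLd : ∀ u ∈ L, ∀ u' ∈ L, u * u' ^ (d - 1) ∈ Ld)
    (hred : S.redSpace M = S.redSpace L) (hone : 1 ∈ S.redSpace L)
    (hred2 : ∀ b ∈ S.redSpace M₂, ∀ c ∈ S.redSpace L, c ^ (d - 2) * b ∈ S.redSpace Ld)
    {vs : ι → κ} (hvs : vs ∈ S.redSpace L)
    (hkey : ∀ b, b ∈ S.redSpace Ld → vs ^ (d - 1) * b ∈ S.redSpace Ld → b ∈ S.redSpace L) :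
    ∃ φ : F, φ ^ d = f := by
  obtain ⟨u, hu, huI, hur⟩ := (hred.symm ▸ hone : (1 : ι → κ) ∈ S.redSpace M)
  have hu0 : u ≠ 0 := by
    rintro rfl
    rw [red_zero] at hur
    obtain ⟨i⟩ := ‹Nonempty ι›
    exact zero_ne_one (congrFun hur i)
  obtain ⟨l, -, hl⟩ := exists_exact hH (L := L) (d := d) (t := u ^ d * f) hπ0 hπ (by
    intro e he
    obtain ⟨y, hyI, hy1, hyf⟩ := exists_approx_root hdq (by omega) hq harch hf hf1 he
    obtain ⟨l, hl, hlI, hle⟩ := exists_near hH hd hML hMd hLd hred hone hred2 hvs hkey hd2 hyI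
      hy1 hyf u hu huI
    refine ⟨l, hl, hlI, fun i => ?_⟩
    have e1 : l ^ d - u ^ d * f = -((u * y) ^ d - l ^ d) + u ^ d * (y ^ d - f) := by
      rw [mul_pow]; ring
    rw [e1]
    refine (Valuation.map_add _ _ _).trans (max_le ?_ ?_)
    · rw [Valuation.map_neg]
      obtain ⟨g, hg⟩ := sub_dvd_pow_sub_pow (u * y) l d
      have hgI : S.v i g ≤ 1 ∨ u * y - l = 0 := by
        by_cases h0 : u * y - l = 0
        · exact Or.inr h0
        · left
          have h1 := (Commute.all (u * y) l).geom_sum₂_mul d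
          have h2 : g = ∑ j ∈ Finset.range d, (u * y) ^ j * l ^ (d - 1 - j) := by
            rw [hg, mul_comm] at h1
            exact (mul_left_cancel₀ h0 h1).symm
          rw [h2]
          refine Valuation.map_sum_le _ fun j _ => ?_
          exact (((huI.mul hyI).pow j).mul (hlI.pow _)) i
      rcases hgI with h1 | h1
      · rw [hg, map_mul]
        exact (mul_le_of_le_one_right' h1).trans (hle i)
      · rw [hg, h1, zero_mul, map_zero]; exact zero_le
    · rw [map_mul, map_pow]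
      exact (mul_le_of_le_one_left' (pow_le_one' (huI i) d)).trans (hyf i))
  refine ⟨l / u, ?_⟩
  rw [div_pow, hl, mul_comm, mul_div_assoc, div_self (pow_ne_zero _ hu0), mul_one]

end Fam

end Fermat.Agent.H97
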