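import Fermat.Agent.H98T1

/-!
# Fourier coefficients of the theta integral
-/

set_option autoImplicit false

open Complex MeasureTheory Real
open Fermat.Agent.H98T (th gT Dat)

namespace Fermat.Agent.H97T

theorem th_eq (q m u : ℝ) {v : ℝ} :
    th q m (u + v * I) = (√v : ℂ) * cexp (-(2 * π * v * m)) * cexp (2 * π * I * q * u) := by
  have him : ((u : ℂ) + v * I).im = v := by simp
  rw [H98T.th, him, mul_assoc (√v : ℂ), mul_assoc (√v : ℂ), ← Complex.exp_add, ← Complex.exp_add]
  congr 2
  have hI : I * I = -1 := Complex.I_mul_I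
  linear_combination (2 * π * q * v) * hI

/-- orthogonality of characters -/
theorem integral_char (n : ℤ) :
    ∫ u in (0 : ℝ)..3, cexp (2 * π * I * n * u / 3) = if n = 0 then 3 else 0 := by
  split_ifs with hn
  · subst hn
    simp
  · have hc : (2 * π * I * n / 3 : ℂ) ≠ 0 := by
      have h1 : (n : ℂ) ≠ 0 := Int.cast_ne_zero.mpr hn
      have h2 : (π : ℂ) ≠ 0 := Complex.ofReal_ne_zero.mpr Real.pi_ne_zero
      exact div_ne_zero (mul_ne_zero (mul_ne_zero (mul_ne_zero two_ne_zero h2)
        Complex.I_ne_zero) h1) (by norm_num)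
    have h1 := integral_exp_mul_complex (a := 0) (b := 3) hc
    have h2 : ∀ u : ℝ, cexp (2 * π * I * n * u / 3) = cexp ((2 * π * I * n / 3) * u) := by
      intro u
      congr 1
      ring
    simp_rw [h2]
    rw [h1]
    have h3 : cexp ((2 * π * I * n / 3) * ((3 : ℝ) : ℂ)) = 1 := by
      rw [Complex.exp_eq_one_iff]
      exact ⟨n, by push_cast; ring⟩
    rw [h3]
    simp

section Four

variable {Y : Type*} [MeasurableSpace Y] {M : Measure Y} {A : Y → ℂ} {q m : Y → ℝ}

/-- the amplitude at height `v` -/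
noncomputable def amp (A : Y → ℂ) (m : Y → ℝ) (v : ℝ) (y : Y) : ℂ :=
  A y * ((√v * rexp (-(2 * π * v * m y)) : ℝ) : ℂ)

theorem integrable_amp (D : Dat M A q m) {v : ℝ} (hv : 0 < v) : Integrable (amp A m v) M := by
  have h1 := (D.int (2 * π * v) (by positivity)).const_mul √v
  refine h1.mono' ?_ (Filter.Eventually.of_forall fun y => ?_)
  · refine D.measA.mul ?_
    have h2 : Continuous fun x : ℝ => ((√v * rexp (-(2 * π * v * x)) : ℝ) : ℂ) := by fun_prop
    exact h2.comp_aestronglyMeasurable D.measm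
  · rw [amp, norm_mul, Complex.norm_real, Real.norm_of_nonneg (by positivity)]
    exact le_of_eq (by ring)

theorem gT_eq (u v : ℝ) :
    gT M A q m (u + v * I) = ∫ y, amp A m v y * cexp (2 * π * I * q y * u) ∂M := by
  refine integral_congr_ae (Filter.Eventually.of_forall fun y => ?_)
  simp only [amp]
  rw [th_eq]
  push_cast
  ring

/-- **Fourier coefficients of the theta integral** (P2). -/
theorem fourier_gT [SFinite M] (D : Dat M A q m) {k : Y → ℤ} (hk : Measurable k)
    (hq : ∀ y, q y = k y / 3) {v : ℝ} (hv : 0 < v) (j : ℤ) :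
    (1 / 3 : ℂ) * ∫ u in (0 : ℝ)..3, gT M A q m (u + v * I) * cexp (-(2 * π * I * j * u / 3)) =
      ∫ y in {y | k y = j}, A y * ((√v * rexp (-(2 * π * v * m y)) : ℝ) : ℂ) ∂M := by
  have ha := integrable_amp D hv
  have h1 : ∀ u : ℝ, gT M A q m (u + v * I) * cexp (-(2 * π * I * j * u / 3)) =
      ∫ y, amp A m v y * cexp (2 * π * I * ((k y - j : ℤ) : ℂ) * u / 3) ∂M := by
    intro u
    rw [gT_eq, ← integral_mul_const]
    refine integral_congr_ae (Filter.Eventually.of_forall fun y => ?_)
    simp only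
    rw [mul_assoc, ← Complex.exp_add, hq y]
    congr 2
    push_cast
    ring
  simp_rw [h1]
  rw [intervalIntegral.integral_of_le (by norm_num)]
  have hint : Integrable (Function.uncurry fun (u : ℝ) (y : Y) =>
      amp A m v y * cexp (2 * π * I * ((k y - j : ℤ) : ℂ) * u / 3))
      ((volume.restrict (Set.Ioc (0 : ℝ) 3)).prod M) := by
    have h2 := ha.comp_snd (volume.restrict (Set.Ioc (0 : ℝ) 3))
    refine h2.norm.mono' ?_ (Filter.Eventually.of_forall fun p => ?_)
    · refine AEStronglyMeasurable.mul h2.aestronglyMeasurable ?_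
      have h3 : Measurable fun p : ℝ × Y => cexp (2 * π * I * ((k p.2 - j : ℤ) : ℂ) * p.1 / 3) := by
        have h4 : Measurable fun p : ℝ × Y => ((k p.2 - j : ℤ) : ℂ) :=
          (measurable_from_top (f := fun n : ℤ => ((n - j : ℤ) : ℂ))).comp
            (hk.comp measurable_snd)
        have h5 : Measurable fun p : ℝ × Y => (p.1 : ℂ) :=
          Complex.measurable_ofReal.comp measurable_fst
        exact Complex.measurable_exp.comp (((h4.const_mul _).mul h5).div_const _)
      exact h3.aestronglyMeasurable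
    · simp only [Function.uncurry]
      rw [norm_mul, Complex.norm_exp]
      have h6 : (2 * π * I * ((k p.2 - j : ℤ) : ℂ) * p.1 / 3).re = 0 := by
        have : (2 * π * I * ((k p.2 - j : ℤ) : ℂ) * p.1 / 3 : ℂ) =
          ((2 * π * ((k p.2 - j : ℤ) : ℝ) * p.1 / 3 : ℝ) : ℂ) * I := by push_cast; ring
        rw [this]
        simp
      rw [h6, Real.exp_zero, mul_one]
  rw [integral_integral_swap hint]
  have h7 : ∀ y, ∫ u in Set.Ioc (0 : ℝ) 3,
      amp A m v y * cexp (2 * π * I * ((k y - j : ℤ) : ℂ) * u / 3) =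
      3 * ({y | k y = j} : Set Y).indicator (amp A m v) y := by
    intro y
    rw [integral_const_mul, ← intervalIntegral.integral_of_le (by norm_num), integral_char]
    by_cases hy : k y = j
    · rw [if_pos (by omega), Set.indicator_of_mem (by exact hy), mul_comm]
    · rw [if_neg (by omega), Set.indicator_of_notMem (by exact hy), mul_zero, mul_zero]
  simp_rw [h7]
  have hms : MeasurableSet {y | k y = j} := hk (measurableSet_singleton j)
  rw [integral_const_mul, integral_indicator hms, ← mul_assoc,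
    show (1 / 3 : ℂ) * 3 = 1 by norm_num, one_mul]
  rfl

/-- If the theta integral vanishes, so do its Fourier coefficients. -/
theorem fourier_eq_zero [SFinite M] (D : Dat M A q m) {k : Y → ℤ} (hk : Measurable k)
    (hq : ∀ y, q y = k y / 3) (h0 : ∀ τ : ℂ, 0 < τ.im → gT M A q m τ = 0) {v : ℝ} (hv : 0 < v)
    (j : ℤ) : ∫ y in {y | k y = j}, A y * ((√v * rexp (-(2 * π * v * m y)) : ℝ) : ℂ) ∂M = 0 := by
  rw [← fourier_gT D hk hq hv j]
  have h1 : ∀ u : ℝ, gT M A q m (u + v * I) = 0 := fun u => h0 _ (by simpa using hv)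
  simp [h1]

end Four

end Fermat.Agent.H97T
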