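import Mathlib

/-!
# Abstract unfolding

`G` acts on `X` (preserving `μ`) and on `S`; `χ`, `χ₂` are cut-off functions for `G` and for the
stabiliser `H` of `s₀`; then `∑_{s ∈ G s₀} ∫ χ F h_s = ∫ χ₂ F h_{s₀}`.
-/

set_option autoImplicit false

open MeasureTheory Set
open scoped ENNReal NNReal

namespace Fermat.Agent.H97T

section Unfold

variable {G X S : Type*} [Group G] [Countable G] [MulAction G X] [MulAction G S]
  [MeasurableSpace X] {μ : Measure X}

omit [Countable G] in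
theorem measurableEmbedding_smul (hmu : ∀ g : G, MeasurePreserving (fun w : X => g • w) μ μ)
    (g : G) : MeasurableEmbedding (fun w : X => g • w) :=
  ({ toFun := fun w => g • w
     invFun := fun w => g⁻¹ • w
     left_inv := fun w => inv_smul_smul g w
     right_inv := fun w => smul_inv_smul g w
     measurable_toFun := (hmu g).measurable
     measurable_invFun := (hmu g⁻¹).measurable } : X ≃ᵐ X).measurableEmbedding

/-- **Abstract unfolding** (P1). -/
theorem unfold_orbit (hmu : ∀ g : G, MeasurePreserving (fun w : X => g • w) μ μ)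
    {χ χ₂ : X → ℝ} (hχm : Measurable χ) (hχ₂m : Measurable χ₂) (hχ0 : ∀ w, 0 ≤ χ w)
    (hχ₂0 : ∀ w, 0 ≤ χ₂ w) (hχ : ∀ w, HasSum (fun g : G => χ (g • w)) 1)
    (H : Subgroup G) (hχ₂ : ∀ w, HasSum (fun g : H => χ₂ ((g : G) • w)) 1)
    {F : X → ℂ} (hFm : AEStronglyMeasurable F μ) (hF : ∀ (g : G) w, F (g • w) = F w)
    (s₀ : S) (hs : ∀ g : G, g • s₀ = s₀ ↔ g ∈ H) {h : S → X → ℂ}
    (hhm : ∀ s, AEStronglyMeasurable (h s) μ) (hh : ∀ (g : G) s w, h (g • s) (g • w) = h s w)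
    (hint : Integrable (fun w => (χ₂ w : ℂ) * F w * h s₀ w) μ) :
    (∀ s : MulAction.orbit G s₀, Integrable (fun w => (χ w : ℂ) * F w * h s w) μ) ∧
      HasSum (fun s : MulAction.orbit G s₀ => ∫ w, (χ w : ℂ) * F w * h s w ∂μ)
        (∫ w, (χ₂ w : ℂ) * F w * h s₀ w ∂μ) := by
  classical
  -- the functions
  let Φ : X → ℂ := fun w => (χ₂ w : ℂ) * F w * h s₀ w
  let f : G → X → ℂ := fun g w => (χ (g • w) : ℂ) * Φ w
  let u : G → X → ℂ := fun g w => (χ₂ (g⁻¹ • w) : ℂ) * ((χ w : ℂ) * F w * h (g • s₀) w)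
  have hfu : ∀ g w, f g w = u g (g • w) := by
    intro g w
    simp only [f, u, Φ]
    rw [inv_smul_smul, hF, hh]
    ring
  have hfm : ∀ g, AEStronglyMeasurable (f g) μ := by
    intro g
    refine AEStronglyMeasurable.mul ?_ hint.aestronglyMeasurable
    exact (Complex.measurable_ofReal.comp (hχm.comp (hmu g).measurable)).aestronglyMeasurable
  have hum : ∀ g, AEStronglyMeasurable (u g) μ := by
    intro g
    refine AEStronglyMeasurable.mul ?_ ((AEStronglyMeasurable.mul ?_ hFm).mul (hhm _))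
    · exact (Complex.measurable_ofReal.comp (hχ₂m.comp (hmu g⁻¹).measurable)).aestronglyMeasurable
    · exact (Complex.measurable_ofReal.comp hχm).aestronglyMeasurable
  -- sums of norms
  have hsumχ : ∀ w, ∑' g : G, ENNReal.ofReal (χ (g • w)) = 1 := by
    intro w
    rw [← ENNReal.ofReal_tsum_of_nonneg (fun g => hχ0 _) (hχ w).summable, (hχ w).tsum_eq,
      ENNReal.ofReal_one]
  have hsumχ₂ : ∀ w, ∑' g : H, ENNReal.ofReal (χ₂ ((g : G) • w)) = 1 := by
    intro w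
    rw [← ENNReal.ofReal_tsum_of_nonneg (fun g => hχ₂0 _) (hχ₂ w).summable, (hχ₂ w).tsum_eq,
      ENNReal.ofReal_one]
  have hnf : ∀ g w, ‖f g w‖ₑ = ENNReal.ofReal (χ (g • w)) * ‖Φ w‖ₑ := by
    intro g w
    simp only [f]
    rw [enorm_mul, ← ofReal_norm, Complex.norm_real, Real.norm_of_nonneg (hχ0 _)]
  have hL : ∑' g : G, ∫⁻ w, ‖f g w‖ₑ ∂μ = ∫⁻ w, ‖Φ w‖ₑ ∂μ := by
    rw [← lintegral_tsum fun g => (hfm g).enorm]
    refine lintegral_congr fun w => ?_
    simp_rw [hnf]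
    rw [ENNReal.tsum_mul_right, hsumχ, one_mul]
  have hLfin : ∑' g : G, ∫⁻ w, ‖f g w‖ₑ ∂μ ≠ ∞ := by
    rw [hL]
    exact hint.2.ne
  have hfint : ∀ g, Integrable (f g) μ := fun g =>
    ⟨hfm g, (ENNReal.le_tsum g).trans_lt (lt_top_iff_ne_top.mpr hLfin)⟩
  have hufe : ∀ g, ∫⁻ w, ‖u g w‖ₑ ∂μ = ∫⁻ w, ‖f g w‖ₑ ∂μ := by
    intro g
    rw [← (hmu g).lintegral_comp_emb (measurableEmbedding_smul hmu g)]
    exact lintegral_congr fun w => by rw [hfu]
  have hufi : ∀ g, ∫ w, u g w ∂μ = ∫ w, f g w ∂μ := by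
    intro g
    rw [← (hmu g).integral_comp (measurableEmbedding_smul hmu g)]
    exact integral_congr_ae (Filter.Eventually.of_forall fun w => (hfu g w).symm)
  have huint : ∀ g, Integrable (u g) μ := fun g =>
    ⟨hum g, by
      change ∫⁻ w, ‖u g w‖ₑ ∂μ < ∞
      rw [hufe]
      exact (hfint g).2⟩
  -- the sum over `G`
  have hsumf : Summable fun g => ∫ w, ‖f g w‖ ∂μ := by
    have := ENNReal.summable_toReal hLfin
    refine this.congr fun g => ?_
    rw [integral_norm_eq_lintegral_enorm (hfm g)]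
  have hG : HasSum (fun g : G => ∫ w, f g w ∂μ) (∫ w, Φ w ∂μ) := by
    have h1 := hasSum_integral_of_summable_integral_norm hfint hsumf
    have h2 : ∀ w, ∑' g : G, f g w = Φ w := by
      intro w
      have h3 : HasSum (fun g : G => (χ (g • w) : ℂ) * Φ w) ((1 : ℂ) * Φ w) := by
        have h4 : HasSum (fun g : G => (χ (g • w) : ℂ)) ((1 : ℝ) : ℂ) :=
          Complex.hasSum_ofReal.mpr (hχ w)
        rw [Complex.ofReal_one] at h4
        exact h4.mul_right _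
      rw [one_mul] at h3
      exact h3.tsum_eq
    simp_rw [h2] at h1
    exact h1
  -- representatives
  choose γ hγ using fun s : MulAction.orbit G s₀ => s.2
  have hγ' : ∀ s : MulAction.orbit G s₀, γ s • s₀ = s := hγ
  let e : MulAction.orbit G s₀ × H ≃ G := Equiv.ofBijective (fun p => γ p.1 * p.2) (by
    constructor
    · rintro ⟨s, d⟩ ⟨s', d'⟩ hp
      simp only at hp
      have h1 : s = s' := by
        apply Subtype.ext
        rw [← hγ' s, ← hγ' s']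
        have h2 : (γ s * d) • s₀ = (γ s' * d') • s₀ := by rw [hp]
        rwa [mul_smul, mul_smul, (hs _).mpr d.2, (hs _).mpr d'.2] at h2
      subst h1
      rw [Subtype.ext (mul_left_cancel hp)]
    · intro g
      refine ⟨⟨⟨g • s₀, g, rfl⟩, ⟨(γ ⟨g • s₀, g, rfl⟩)⁻¹ * g, ?_⟩⟩, mul_inv_cancel_left _ _⟩
      rw [← hs, mul_smul, inv_smul_eq_iff]
      exact (hγ' ⟨g • s₀, g, rfl⟩).symm)
  have he : ∀ s d, e (s, d) = γ s * d := fun _ _ => rfl
  have hes : ∀ s d, e (s, d) • s₀ = s := fun s d => by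
    rw [he, mul_smul, (hs _).mpr d.2, hγ']
  -- the sum over `H`
  have hud : ∀ s d w, u (e (s, d)) w =
      (χ₂ (((d⁻¹ : H) : G) • (γ s)⁻¹ • w) : ℂ) * ((χ w : ℂ) * F w * h s w) := by
    intro s d w
    simp only [u]
    rw [hes, he, mul_inv_rev, mul_smul]
    rfl
  have hprod : ∑' p : MulAction.orbit G s₀ × H, ∫⁻ w, ‖f (e p) w‖ₑ ∂μ =
      ∑' g : G, ∫⁻ w, ‖f g w‖ₑ ∂μ := e.tsum_eq (fun g => ∫⁻ w, ‖f g w‖ₑ ∂μ)
  have hHfin : ∀ s, ∑' d : H, ∫⁻ w, ‖u (e (s, d)) w‖ₑ ∂μ ≠ ∞ := by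
    intro s
    simp_rw [hufe]
    have h1 : ∑' d : H, ∫⁻ w, ‖f (e (s, d)) w‖ₑ ∂μ ≤
        ∑' s, ∑' d : H, ∫⁻ w, ‖f (e (s, d)) w‖ₑ ∂μ :=
      ENNReal.le_tsum (f := fun s => ∑' d : H, ∫⁻ w, ‖f (e (s, d)) w‖ₑ ∂μ) s
    rw [← ENNReal.tsum_prod, hprod] at h1
    exact (h1.trans_lt (lt_top_iff_ne_top.mpr hLfin)).ne
  have hnu : ∀ s w, ∑' d : H, ‖u (e (s, d)) w‖ₑ = ‖(χ w : ℂ) * F w * h s w‖ₑ := by
    intro s w
    have h1 : ∀ d : H, ‖u (e (s, d)) w‖ₑ =
        ENNReal.ofReal (χ₂ (((d⁻¹ : H) : G) • (γ s)⁻¹ • w)) * ‖(χ w : ℂ) * F w * h s w‖ₑ := by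
      intro d
      rw [hud, enorm_mul, ← ofReal_norm, Complex.norm_real, Real.norm_of_nonneg (hχ₂0 _)]
    simp_rw [h1]
    rw [ENNReal.tsum_mul_right]
    have h2 := (Equiv.inv H).tsum_eq (fun d : H => ENNReal.ofReal (χ₂ ((d : G) • (γ s)⁻¹ • w)))
    simp only [Equiv.inv_apply] at h2
    rw [h2, hsumχ₂, one_mul]
  have hintS : ∀ s : MulAction.orbit G s₀,
      Integrable (fun w => (χ w : ℂ) * F w * h s w) μ := by
    intro s
    refine ⟨(AEStronglyMeasurable.mul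
      ((Complex.measurable_ofReal.comp hχm).aestronglyMeasurable) hFm).mul (hhm _), ?_⟩
    change ∫⁻ w, ‖(χ w : ℂ) * F w * h s w‖ₑ ∂μ < ∞
    simp_rw [← hnu s]
    rw [lintegral_tsum fun d => (hum _).enorm]
    exact lt_top_iff_ne_top.mpr (hHfin s)
  refine ⟨hintS, ?_⟩
  have hHs : ∀ s : MulAction.orbit G s₀,
      HasSum (fun d : H => ∫ w, f (e (s, d)) w ∂μ) (∫ w, (χ w : ℂ) * F w * h s w ∂μ) := by
    intro s
    have h1 : Summable fun d : H => ∫ w, ‖u (e (s, d)) w‖ ∂μ := by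
      have := ENNReal.summable_toReal (hHfin s)
      refine this.congr fun d => ?_
      rw [integral_norm_eq_lintegral_enorm (hum _)]
    have h2 := hasSum_integral_of_summable_integral_norm (fun d : H => huint (e (s, d))) h1
    have h3 : ∀ w, ∑' d : H, u (e (s, d)) w = (χ w : ℂ) * F w * h s w := by
      intro w
      simp_rw [hud]
      have h4 : HasSum (fun d : H => (χ₂ ((d : G) • (γ s)⁻¹ • w) : ℂ)) ((1 : ℝ) : ℂ) :=
        Complex.hasSum_ofReal.mpr (hχ₂ _)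
      have h5 := (Equiv.inv H).hasSum_iff.mpr h4
      have h6 := h5.mul_right ((χ w : ℂ) * F w * h s w)
      rw [Complex.ofReal_one, one_mul] at h6
      exact h6.tsum_eq
    simp_rw [h3, hufi] at h2
    exact h2
  exact ((e.hasSum_iff.mpr hG).prod_fiberwise fun s => hHs s)

end Unfold

end Fermat.Agent.H97T
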