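import Mathlib
import Fermat.Agent.H26AV

/-!
# S26-J5 (T3.1): the tangent space of an abstract group variety has no `n`-torsion (helper98)
-/

set_option autoImplicit false

noncomputable section

namespace Fermat.Agent.H26

universe u

namespace AV

open TrivSqZeroExt

variable {K : Type u} [Field K] {𝒜 : AV K} {L : Type u} [Field L] [Algebra K L]

section tsze

variable {M N : Type u} [AddCommGroup M] [Module L M] [Module Lᵐᵒᵖ M] [IsCentralScalar L M]
  [Module K M] [IsScalarTower K L M] [AddCommGroup N] [Module L N] [Module Lᵐᵒᵖ N]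
  [IsCentralScalar L N] [Module K N] [IsScalarTower K L N]

instance isLocalRing_tsze : IsLocalRing (TrivSqZeroExt L M) where
  isUnit_or_isUnit_of_add_one {a b} h := by
    rw [add_comm, ← eq_sub_iff_add_eq] at h
    rcases eq_or_ne (fst a) 0 with ha | ha <;>
    simp [isUnit_iff_isUnit_fst, h, ha]

instance isLocalHom_fst : IsLocalHom (fstHom K L M).toRingHom :=
  ⟨fun x hx => by
    rw [isUnit_iff_isUnit_fst]
    exact hx⟩

/-- functoriality of the trivial extension as a `K`-algebra homomorphism -/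
def tmap (K : Type u) [Field K] {L : Type u} [Field L] [Algebra K L]
    {M N : Type u} [AddCommGroup M] [Module L M] [Module Lᵐᵒᵖ M] [IsCentralScalar L M]
    [Module K M] [IsScalarTower K L M] [AddCommGroup N] [Module L N] [Module Lᵐᵒᵖ N]
    [IsCentralScalar L N] [Module K N] [IsScalarTower K L N]
    (f : M →ₗ[L] N) : TrivSqZeroExt L M →ₐ[K] TrivSqZeroExt L N where
  toFun := TrivSqZeroExt.map f
  map_one' := map_one _
  map_mul' := map_mul _
  map_zero' := map_zero _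
  map_add' := map_add _
  commutes' c := by
    rw [algebraMap_eq_inl', algebraMap_eq_inl', map_inl]

@[simp] theorem fst_tmap (f : M →ₗ[L] N) (x : TrivSqZeroExt L M) :
    fst (tmap K f x) = fst x := fst_map f x

@[simp] theorem snd_tmap (f : M →ₗ[L] N) (x : TrivSqZeroExt L M) :
    snd (tmap K f x) = f (snd x) := snd_map f x

instance isLocalHom_tmap (f : M →ₗ[L] N) : IsLocalHom (tmap K f).toRingHom :=
  ⟨fun x hx => by
    rw [isUnit_iff_isUnit_fst] at hx ⊢
    simpa using hx⟩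

instance isLocalHom_inl : IsLocalHom (inlAlgHom K L M).toRingHom :=
  ⟨fun x hx => by
    rw [isUnit_iff_isUnit_fst] at hx
    simpa using hx⟩

end tsze

theorem dom_of_map_fst_eq_zero {x : 𝒜.Pt (DualNumber L)}
    (h0 : 𝒜.map (TrivSqZeroExt.fstHom K L L) x = 0) : 𝒜.dom x = 𝒜.dom (0 : 𝒜.Pt L) := by
  rw [← h0]
  exact (dom_map_of_isLocalHom (fstHom K L L) x).symm

/-- the tangent vectors add -/
theorem snd_val_add {x y : 𝒜.Pt (DualNumber L)}
    (hx : 𝒜.map (fstHom K L L) x = 0) (hy : 𝒜.map (fstHom K L L) y = 0) {w : 𝒜.F}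
    (hw : w ∈ 𝒜.dom (0 : 𝒜.Pt L)) :
    snd (𝒜.val (x + y) w) = snd (𝒜.val x w) + snd (𝒜.val y w) := by
  let i₁ : DualNumber L →ₐ[K] TrivSqZeroExt L (L × L) := tmap K (LinearMap.inl L L L)
  let i₂ : DualNumber L →ₐ[K] TrivSqZeroExt L (L × L) := tmap K (LinearMap.inr L L L)
  let p₁ : TrivSqZeroExt L (L × L) →ₐ[K] DualNumber L := tmap K (LinearMap.fst L L L)
  let p₂ : TrivSqZeroExt L (L × L) →ₐ[K] DualNumber L := tmap K (LinearMap.snd L L L)
  let s : TrivSqZeroExt L (L × L) →ₐ[K] DualNumber L :=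
    tmap K (LinearMap.fst L L L + LinearMap.snd L L L)
  have h11 : p₁.comp i₁ = AlgHom.id K _ := by
    refine AlgHom.ext fun z => ?_
    apply TrivSqZeroExt.ext
    · simp only [AlgHom.comp_apply, p₁, i₁, fst_tmap, AlgHom.coe_id, id]
    · simp only [AlgHom.comp_apply, p₁, i₁, snd_tmap, AlgHom.coe_id, id]
      rfl
  have h22 : p₂.comp i₂ = AlgHom.id K _ := by
    refine AlgHom.ext fun z => ?_
    apply TrivSqZeroExt.ext
    · simp only [AlgHom.comp_apply, p₂, i₂, fst_tmap, AlgHom.coe_id, id]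
    · simp only [AlgHom.comp_apply, p₂, i₂, snd_tmap, AlgHom.coe_id, id]
      rfl
  have h12 : p₁.comp i₂ = (inlAlgHom K L L).comp (fstHom K L L) := by
    refine AlgHom.ext fun z => ?_
    apply TrivSqZeroExt.ext
    · simp only [AlgHom.comp_apply, p₁, i₂, fst_tmap]
      rfl
    · simp only [AlgHom.comp_apply, p₁, i₂, snd_tmap]
      rfl
  have h21 : p₂.comp i₁ = (inlAlgHom K L L).comp (fstHom K L L) := by
    refine AlgHom.ext fun z => ?_
    apply TrivSqZeroExt.ext
    · simp only [AlgHom.comp_apply, p₂, i₁, fst_tmap]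
      rfl
    · simp only [AlgHom.comp_apply, p₂, i₁, snd_tmap]
      rfl
  have hs1 : s.comp i₁ = AlgHom.id K _ := by
    refine AlgHom.ext fun z => ?_
    apply TrivSqZeroExt.ext
    · simp only [AlgHom.comp_apply, s, i₁, fst_tmap, AlgHom.coe_id, id]
    · simp only [AlgHom.comp_apply, s, i₁, snd_tmap, AlgHom.coe_id, id]
      simp
  have hs2 : s.comp i₂ = AlgHom.id K _ := by
    refine AlgHom.ext fun z => ?_
    apply TrivSqZeroExt.ext
    · simp only [AlgHom.comp_apply, s, i₂, fst_tmap, AlgHom.coe_id, id]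
    · simp only [AlgHom.comp_apply, s, i₂, snd_tmap, AlgHom.coe_id, id]
      simp
  let Z : 𝒜.Pt (TrivSqZeroExt L (L × L)) := 𝒜.map i₁ x + 𝒜.map i₂ y
  have hZ1 : 𝒜.map p₁ Z = x := by
    simp only [Z]
    rw [map_add, map_map, map_map, h11, map_id, h12, ← map_map, hy, map_zero, add_zero]
  have hZ2 : 𝒜.map p₂ Z = y := by
    simp only [Z]
    rw [map_add, map_map, map_map, h22, map_id, h21, ← map_map, hx, map_zero, zero_add]
  have hZs : 𝒜.map s Z = x + y := by
    simp only [Z]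
    rw [map_add, map_map, map_map, hs1, hs2, map_id, map_id]
  have hdZ : 𝒜.dom Z = 𝒜.dom (0 : 𝒜.Pt L) := by
    have h1 : 𝒜.dom (𝒜.map p₁ Z) = 𝒜.dom Z := dom_map_of_isLocalHom p₁ Z
    rw [← h1, hZ1]
    exact dom_of_map_fst_eq_zero hx
  have hwZ : w ∈ 𝒜.dom Z := by rwa [hdZ]
  rw [← hZs, val_map hwZ]
  have e1 : 𝒜.val x w = p₁ (𝒜.val Z w) := by rw [← val_map hwZ, hZ1]
  have e2 : 𝒜.val y w = p₂ (𝒜.val Z w) := by rw [← val_map hwZ, hZ2]
  rw [e1, e2]
  simp only [s, p₁, p₂, snd_tmap]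
  rfl

theorem snd_val_zero {w : 𝒜.F} (hw : w ∈ 𝒜.dom (0 : 𝒜.Pt L)) :
    snd (𝒜.val (0 : 𝒜.Pt (DualNumber L)) w) = 0 := by
  have h : 𝒜.map (inlAlgHom K L L) (0 : 𝒜.Pt L) = 0 := map_zero _
  rw [← h, val_map hw]
  rfl

theorem map_fst_nsmul {x : 𝒜.Pt (DualNumber L)}
    (hx : 𝒜.map (fstHom K L L) x = 0) (n : ℕ) : 𝒜.map (fstHom K L L) (n • x) = 0 := by
  rw [map_nsmul, hx, smul_zero]

theorem snd_val_nsmul {x : 𝒜.Pt (DualNumber L)}
    (hx : 𝒜.map (fstHom K L L) x = 0) (n : ℕ) {w : 𝒜.F}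
    (hw : w ∈ 𝒜.dom (0 : 𝒜.Pt L)) :
    snd (𝒜.val (n • x) w) = (n : L) * snd (𝒜.val x w) := by
  induction n with
  | zero => rw [zero_smul, snd_val_zero hw, Nat.cast_zero, zero_mul]
  | succ n ih =>
    rw [succ_nsmul, snd_val_add (map_fst_nsmul hx n) hx hw, ih, Nat.cast_succ, add_mul, one_mul]

/-- T3.1: the kernel of reduction modulo `ε` has no `n`-torsion -/
theorem dual_eq_zero (n : ℕ) (hn : (n : K) ≠ 0) (x : 𝒜.Pt (DualNumber L))
    (h0 : 𝒜.map (TrivSqZeroExt.fstHom K L L) x = 0) (h : n • x = 0) : x = 0 := by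
  have hnL : (n : L) ≠ 0 := by
    intro h1
    apply hn
    apply (algebraMap K L).injective
    rw [map_natCast, h1, map_zero]
  have hd : 𝒜.dom x = 𝒜.dom (0 : 𝒜.Pt (DualNumber L)) := by
    rw [dom_of_map_fst_eq_zero h0, dom_of_map_fst_eq_zero (map_zero _)]
  refine ext_val hd fun w hw => ?_
  have hw0 : w ∈ 𝒜.dom (0 : 𝒜.Pt L) := by rwa [dom_of_map_fst_eq_zero h0] at hw
  apply TrivSqZeroExt.ext
  · have e1 := val_map (ι := fstHom K L L) hw
    have e2 := val_map (ι := fstHom K L L) (P := (0 : 𝒜.Pt (DualNumber L))) (w := w)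
      (by rwa [← hd])
    rw [h0] at e1
    rw [map_zero] at e2
    exact e1.symm.trans e2
  · rw [snd_val_zero hw0]
    have h1 := snd_val_nsmul h0 n hw0
    rw [h, snd_val_zero hw0] at h1
    exact (mul_eq_zero.mp h1.symm).resolve_left hnL

end AV

end Fermat.Agent.H26
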