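import Fermat.Agent.H98AV1
import Fermat.Agent.H26CDiv

/-!
# S26-J5 (T3.2, T3.5): fields of definition of division points (helper98)
-/

set_option autoImplicit false

noncomputable section

namespace Fermat.Agent.H26

universe u

namespace AV

open TrivSqZeroExt

variable {K : Type u} [Field K] {𝒜 : AV K} {L : Type u} [Field L] [Algebra K L]

section fieldOver
variable (L₀ : Type u) [Field L₀] [Algebra K L₀] [Algebra L₀ L] [IsScalarTower K L₀ L]

/-- the field generated by `L₀` and the coordinates of `x` -/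
def fieldOver (x : 𝒜.Pt L) : IntermediateField L₀ L :=
  IntermediateField.adjoin L₀ (Set.range (𝒜.ev x))

omit [Algebra K L₀] [IsScalarTower K L₀ L] in
theorem val_mem_fieldOver (x : 𝒜.Pt L) (w : 𝒜.F) : 𝒜.val x w ∈ fieldOver L₀ x := by
  by_cases h : w ∈ 𝒜.dom x
  · rw [val_eq h]
    exact IntermediateField.subset_adjoin _ _ ⟨_, rfl⟩
  · rw [val, dif_neg h]
    exact zero_mem _

/-- evaluation with values in the field of definition -/
def evOver (x : 𝒜.Pt L) : 𝒜.dom x →ₐ[K] fieldOver L₀ x where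
  toFun w := ⟨𝒜.ev x w, IntermediateField.subset_adjoin _ _ ⟨w, rfl⟩⟩
  map_one' := Subtype.ext (map_one _)
  map_mul' a b := Subtype.ext (map_mul _ _ _)
  map_zero' := Subtype.ext (map_zero _)
  map_add' a b := Subtype.ext (map_add _ _ _)
  commutes' c := Subtype.ext (by
    change 𝒜.ev x (algebraMap K _ c) = algebraMap K L c
    rw [AlgHom.commutes])

theorem exists_map_fieldOver (x : 𝒜.Pt L) :
    ∃ y : 𝒜.Pt (fieldOver L₀ x), 𝒜.map (((fieldOver L₀ x).val).restrictScalars K) y = x := by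
  refine ⟨𝒜.map (evOver L₀ x) (𝒜.taut x), ?_⟩
  rw [map_map]
  have : (((fieldOver L₀ x).val).restrictScalars K).comp (evOver L₀ x) = 𝒜.ev x :=
    AlgHom.ext fun w => rfl
  rw [this, map_ev_taut]

/-- the field of definition is generated by finitely many elements -/
theorem essFiniteType_fieldOver (x : 𝒜.Pt L) : Algebra.EssFiniteType L₀ (fieldOver L₀ x) := by
  classical
  rw [IntermediateField.essFiniteType_iff]
  obtain ⟨σ, hσ⟩ := (Algebra.essFiniteType_iff K (𝒜.dom x)).mp (𝒜.essFiniteType_dom x)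
  refine ⟨σ.image (𝒜.ev x), le_antisymm ?_ ?_⟩
  · apply IntermediateField.adjoin.mono
    intro z hz
    obtain ⟨w, -, rfl⟩ := Finset.mem_image.mp (Finset.mem_coe.mp hz)
    exact ⟨w, rfl⟩
  · unfold fieldOver
    rw [IntermediateField.adjoin_le_iff]
    rintro _ ⟨w, rfl⟩
    set N := IntermediateField.adjoin L₀ (↑(σ.image (𝒜.ev x)) : Set L) with hN
    have hadj : ∀ z ∈ Algebra.adjoin K (σ : Set (𝒜.dom x)), 𝒜.ev x z ∈ N := by
      intro z hz
      induction hz using Algebra.adjoin_induction with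
      | mem z hz =>
        apply IntermediateField.subset_adjoin
        rw [Finset.coe_image]
        exact ⟨z, hz, rfl⟩
      | algebraMap c =>
        rw [AlgHom.commutes, IsScalarTower.algebraMap_apply K L₀ L]
        exact N.algebraMap_mem _
      | add a b _ _ ha hb => rw [map_add]; exact add_mem ha hb
      | mul a b _ _ ha hb => rw [map_mul]; exact mul_mem ha hb
    obtain ⟨t, ht, htu, hwt⟩ := hσ w
    have h1 := hadj _ ht
    have h2 := hadj _ hwt
    have h0 : 𝒜.ev x t ≠ 0 := (htu.map (𝒜.ev x)).ne_zero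
    rw [map_mul] at h2
    have : 𝒜.ev x w = (𝒜.ev x w * 𝒜.ev x t) / 𝒜.ev x t := by
      rw [mul_div_cancel_right₀ _ h0]
    rw [SetLike.mem_coe, this]
    exact div_mem h2 h1

end fieldOver

section der

variable {L₀ : Type u} [Field L₀] [Algebra K L₀] [Algebra L₀ L] [IsScalarTower K L₀ L]

/-- the homomorphism `x ↦ x + ε D x` -/
def derHom (K : Type u) [Field K] {L : Type u} [Field L] [Algebra K L]
    {L₀ : Type u} [Field L₀] [Algebra K L₀] [Algebra L₀ L] [IsScalarTower K L₀ L]
    (D : Derivation L₀ L L) : L →ₐ[K] DualNumber L where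
  toFun z := inl z + inr (D z)
  map_one' := by rw [Derivation.map_one_eq_zero, inr_zero, add_zero, inl_one]
  map_mul' a b := by
    apply TrivSqZeroExt.ext
    · simp
    · simp [mul_comm]
  map_zero' := by rw [map_zero, inl_zero, inr_zero, add_zero]
  map_add' a b := by rw [map_add, inl_add, inr_add]; abel
  commutes' c := by
    rw [IsScalarTower.algebraMap_apply K L₀ L, Derivation.map_algebraMap, inr_zero, add_zero,
      algebraMap_eq_inl', IsScalarTower.algebraMap_apply K L₀ L]

theorem derHom_apply (D : Derivation L₀ L L) (z : L) :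
    derHom K D z = inl z + inr (D z) := rfl

theorem fst_comp_derHom (D : Derivation L₀ L L) :
    (fstHom K L L).comp (derHom K D) = AlgHom.id K L := by
  refine AlgHom.ext fun z => ?_
  change fst (inl z + inr (D z)) = z
  simp

theorem derHom_comp (D : Derivation L₀ L L) :
    (derHom K D).comp (IsScalarTower.toAlgHom K L₀ L) =
      (inlAlgHom K L L).comp (IsScalarTower.toAlgHom K L₀ L) := by
  refine AlgHom.ext fun z => ?_
  change inl (algebraMap L₀ L z) + inr (D (algebraMap L₀ L z)) = inl (algebraMap L₀ L z)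
  rw [Derivation.map_algebraMap, inr_zero, add_zero]

theorem derivation_val_eq_zero (n : ℕ) (hn : (n : K) ≠ 0) (x : 𝒜.Pt L) (y : 𝒜.Pt L₀)
    (h : n • x = 𝒜.map (IsScalarTower.toAlgHom K L₀ L) y) (D : Derivation L₀ L L)
    {w : 𝒜.F} (hw : w ∈ 𝒜.dom x) : D (𝒜.val x w) = 0 := by
  have hz : 𝒜.map (derHom K D) x - 𝒜.map (inlAlgHom K L L) x = 0 := by
    apply dual_eq_zero n hn
    · rw [map_sub, map_map, map_map, fst_comp_derHom]
      have : (fstHom K L L).comp (inlAlgHom K L L) = AlgHom.id K L := AlgHom.ext fun z => rfl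
      rw [this, sub_self]
    · rw [smul_sub, ← map_nsmul, ← map_nsmul, h, map_map, map_map, derHom_comp, sub_self]
  rw [sub_eq_zero] at hz
  have h1 := val_map (ι := derHom K D) hw
  have h2 := val_map (ι := inlAlgHom K L L) hw
  rw [hz, h2] at h1
  have h3 := congrArg snd h1
  rw [derHom_apply] at h3
  simpa using h3.symm

end der

section fieldOver2

variable (L₀ : Type u) [Field L₀] [Algebra K L₀] [Algebra L₀ L] [IsScalarTower K L₀ L]

instance isScalarTower_fieldOver (x : 𝒜.Pt L) : IsScalarTower K L₀ (fieldOver L₀ x) :=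
  IsScalarTower.of_algebraMap_eq fun c => Subtype.ext (by
    change algebraMap K L c = algebraMap L₀ L (algebraMap K L₀ c)
    exact IsScalarTower.algebraMap_apply K L₀ L c)

/-- the point over its field of definition -/
def ptOver (x : 𝒜.Pt L) : 𝒜.Pt (fieldOver L₀ x) := (exists_map_fieldOver L₀ x).choose

theorem map_ptOver (x : 𝒜.Pt L) :
    𝒜.map (((fieldOver L₀ x).val).restrictScalars K) (ptOver L₀ x) = x :=
  (exists_map_fieldOver L₀ x).choose_spec

theorem dom_ptOver (x : 𝒜.Pt L) : 𝒜.dom (ptOver L₀ x) = 𝒜.dom x := by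
  conv_rhs => rw [← map_ptOver L₀ x]
  exact (dom_map_field _ _).symm

theorem val_ptOver (x : 𝒜.Pt L) (w : 𝒜.F) :
    ((𝒜.val (ptOver L₀ x) w : fieldOver L₀ x) : L) = 𝒜.val x w := by
  conv_rhs => rw [← map_ptOver L₀ x]
  rw [val_map_field]
  rfl

theorem nsmul_ptOver (n : ℕ) (x : 𝒜.Pt L) (y : 𝒜.Pt L₀)
    (h : n • x = 𝒜.map (IsScalarTower.toAlgHom K L₀ L) y) :
    n • ptOver L₀ x = 𝒜.map (IsScalarTower.toAlgHom K L₀ (fieldOver L₀ x)) y := by
  apply 𝒜.map_injective (((fieldOver L₀ x).val).restrictScalars K)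
    (fun a b hab => Subtype.ext hab)
  rw [map_nsmul, map_ptOver, h, map_map]
  rfl

/-- T3.2 -/
theorem finite_separable_fieldOver (n : ℕ) (hn : (n : K) ≠ 0) (x : 𝒜.Pt L) (y : 𝒜.Pt L₀)
    (h : n • x = 𝒜.map (IsScalarTower.toAlgHom K L₀ L) y) :
    FiniteDimensional L₀ (fieldOver L₀ x) ∧ Algebra.IsSeparable L₀ (fieldOver L₀ x) := by
  have hD : ∀ D : Derivation L₀ (fieldOver L₀ x) (fieldOver L₀ x), D = 0 := by
    intro D
    refine Derivation.ext fun z => ?_
    rw [Derivation.zero_apply]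
    obtain ⟨z, hz⟩ := z
    unfold fieldOver at hz
    induction hz using IntermediateField.adjoin_induction with
    | mem z hz =>
      obtain ⟨w, rfl⟩ := hz
      have h1 := derivation_val_eq_zero n hn (ptOver L₀ x) y (nsmul_ptOver L₀ n x y h) D
        (w := w) (by rw [dom_ptOver]; exact w.2)
      convert h1 using 2
      apply Subtype.ext
      rw [val_ptOver, val_coe]
    | algebraMap c =>
      exact Derivation.map_algebraMap D c
    | add a b ha hb h1 h2 =>
      have : (⟨a + b, add_mem ha hb⟩ : fieldOver L₀ x) = ⟨a, ha⟩ + ⟨b, hb⟩ := rfl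
      rw [this, map_add, h1, h2, add_zero]
    | inv a ha h1 =>
      have : (⟨a⁻¹, inv_mem ha⟩ : fieldOver L₀ x) = (⟨a, ha⟩ : fieldOver L₀ x)⁻¹ := rfl
      rw [this, Derivation.leibniz_inv, h1, smul_zero]
    | mul a b ha hb h1 h2 =>
      have : (⟨a * b, mul_mem ha hb⟩ : fieldOver L₀ x) = ⟨a, ha⟩ * ⟨b, hb⟩ := rfl
      rw [this, Derivation.leibniz, h1, h2, smul_zero, smul_zero, add_zero]
  have hess := essFiniteType_fieldOver L₀ x
  have hun : Algebra.FormallyUnramified L₀ (fieldOver L₀ x) := by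
    constructor
    rw [← not_nontrivial_iff_subsingleton]
    intro hnt
    obtain ⟨v, hv⟩ := exists_ne (0 : Ω[(fieldOver L₀ x)⁄L₀])
    apply hv
    rw [← Module.forall_dual_apply_eq_zero_iff (fieldOver L₀ x)]
    intro f
    have h1 := hD ((KaehlerDifferential.linearMapEquivDerivation L₀ (fieldOver L₀ x)) f)
    have h2 : f = 0 := (KaehlerDifferential.linearMapEquivDerivation L₀
      (fieldOver L₀ x)).injective (h1.trans (map_zero _).symm)
    rw [h2, LinearMap.zero_apply]
  exact ⟨Algebra.FormallyUnramified.finite_of_free L₀ _,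
    Algebra.FormallyUnramified.isSeparable L₀ _⟩

/-- T3.5 -/
theorem mem_range_of_nsmul [IsAlgClosed L₀] (n : ℕ) (hn : (n : K) ≠ 0) (x : 𝒜.Pt L) (y : 𝒜.Pt L₀)
    (h : n • x = 𝒜.map (IsScalarTower.toAlgHom K L₀ L) y) :
    ∃ x₀ : 𝒜.Pt L₀, 𝒜.map (IsScalarTower.toAlgHom K L₀ L) x₀ = x := by
  obtain ⟨hfin, -⟩ := finite_separable_fieldOver L₀ n hn x y h
  have hbij : Function.Bijective (algebraMap L₀ (fieldOver L₀ x)) :=
    IsAlgClosed.algebraMap_bijective_of_isIntegral
  let e : L₀ ≃ₐ[K] fieldOver L₀ x :=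
    AlgEquiv.ofBijective (IsScalarTower.toAlgHom K L₀ (fieldOver L₀ x)) hbij
  have hcomp : (IsScalarTower.toAlgHom K L₀ L).comp (e.symm : fieldOver L₀ x →ₐ[K] L₀) =
      ((fieldOver L₀ x).val).restrictScalars K := by
    refine AlgHom.ext fun z => ?_
    have := e.apply_symm_apply z
    exact congrArg Subtype.val this
  exact ⟨𝒜.map (e.symm : fieldOver L₀ x →ₐ[K] L₀) (ptOver L₀ x), by
    rw [map_map, hcomp, map_ptOver]⟩

end fieldOver2

end AV

end Fermat.Agent.H26
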