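import Fermat.Agent.H98AV2

/-!
# S26-J5 (T3.3): multiplication by `n` is dominant (helper98)
-/

set_option autoImplicit false

noncomputable section

namespace Fermat.Agent.H26

universe u

namespace AV

open Cardinal

section trdeg

theorem injective_of_trdeg {K B M : Type u} [Field K] [CommRing B] [IsDomain B] [Algebra K B]
    [Field M] [Algebra K M] (φ : B →ₐ[K] M)
    [Algebra.IsAlgebraic (Algebra.adjoin K (Set.range φ)) M]
    (hfin : Algebra.trdeg K B < ℵ₀) (hle : Algebra.trdeg K B ≤ Algebra.trdeg K M) :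
    Function.Injective φ := by
  obtain ⟨u, -, hu, hub⟩ := exists_isTranscendenceBasis_between (R := K) (∅ : Set M) (Set.range φ)
    (Set.empty_subset _)
    ((algebraicIndependent_empty_iff ..).mpr <| FaithfulSMul.algebraMap_injective K M)
  choose b hb using fun i : u => hu i.2
  have hcomp : (φ ∘ b) = ((↑) : u → M) := funext hb
  have hbi : AlgebraicIndependent K b := by
    apply AlgebraicIndependent.of_comp φ
    rw [hcomp]
    exact hub.1
  have hbt : IsTranscendenceBasis K b := by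
    apply hbi.isTranscendenceBasis_of_trdeg_le hfin
    rw [hub.cardinalMk_eq_trdeg]
    exact hle
  have hal := hbt.isAlgebraic
  rw [injective_iff_map_eq_zero]
  intro q hq
  by_contra hq0
  obtain ⟨r, hr, c, hc⟩ := (hal.1 q).exists_nonzero_dvd (mem_nonZeroDivisors_of_ne_zero hq0)
  apply hr
  obtain ⟨r, hrm⟩ := r
  have hr' := hrm
  rw [Algebra.adjoin_range_eq_range_aeval] at hr'
  obtain ⟨p, rfl⟩ := hr'
  have h1 : φ (MvPolynomial.aeval b p) = 0 := by
    have : MvPolynomial.aeval b p = q * c := hc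
    rw [this, map_mul, hq, zero_mul]
  have h2 : MvPolynomial.aeval ((↑) : u → M) p = 0 := by
    have h3 := MvPolynomial.comp_aeval_apply (f := b) φ p
    rw [h1] at h3
    rw [← hcomp]
    exact h3.symm
  have h3 : p = 0 := by
    have := (algebraicIndependent_iff.mp hub.1) p h2
    exact this
  apply Subtype.ext
  simp [h3]

open scoped IntermediateField.algebraAdjoinAdjoin in
theorem isAlgebraic_adjoin {K M : Type u} [Field K] [Field M] [Algebra K M] (S : Set M)
    [Algebra.IsAlgebraic (IntermediateField.adjoin K S) M] :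
    Algebra.IsAlgebraic (Algebra.adjoin K S) M :=
  Algebra.IsAlgebraic.trans (Algebra.adjoin K S) (IntermediateField.adjoin K S) M

end trdeg

variable {K : Type u} [Field K] {𝒜 : AV K} {L : Type u} [Field L] [Algebra K L]

variable (𝒜) in
theorem essFiniteType_F : Algebra.EssFiniteType K 𝒜.F := by
  have h := 𝒜.essFiniteType_dom 𝒜.η
  exact Algebra.EssFiniteType.of_surjective (𝒜.dom 𝒜.η).val
    (fun w => ⟨⟨w, by rw [𝒜.dom_η]; exact Algebra.mem_top⟩, rfl⟩)

variable (𝒜) in
theorem trdeg_F_lt : Algebra.trdeg K 𝒜.F < ℵ₀ := by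
  have := essFiniteType_F 𝒜
  exact trdeg_lt_aleph0 K 𝒜.F

theorem trdeg_dom_le {R : Type u} [CommRing R] [Algebra K R] [IsLocalRing R] (P : 𝒜.Pt R) :
    Algebra.trdeg K (𝒜.dom P) ≤ Algebra.trdeg K 𝒜.F :=
  trdeg_le_of_injective (𝒜.dom P).val Subtype.val_injective

theorem isGeneric_of_injective {x : 𝒜.Pt L} (h : Function.Injective (𝒜.ev x)) :
    IsGeneric x := by
  rw [isGeneric_iff]
  intro w hw h0
  rw [val_eq hw] at h0
  have := h (h0.trans (map_zero _).symm)
  exact congrArg Subtype.val this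

variable (𝒜) in
theorem fieldOver_eta (L₀ : Type u) [Field L₀] [Algebra L₀ 𝒜.F] : fieldOver L₀ 𝒜.η = ⊤ := by
  rw [eq_top_iff]
  intro w _
  have h : w ∈ 𝒜.dom 𝒜.η := by rw [𝒜.dom_η]; exact Algebra.mem_top
  have h1 := 𝒜.ev_η ⟨w, h⟩
  exact IntermediateField.subset_adjoin _ _ ⟨⟨w, h⟩, h1⟩

theorem isGeneric_nsmul_eta (n : ℕ) (hn : (n : K) ≠ 0) : IsGeneric (n • 𝒜.η) := by
  set y := n • 𝒜.η with hy
  have hfin := (finite_separable_fieldOver (fieldOver K y) n hn 𝒜.η (ptOver K y)
    (by rw [← hy]; exact (map_ptOver K y).symm)).1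
  rw [fieldOver_eta] at hfin
  have halg : Algebra.IsAlgebraic (fieldOver K y) 𝒜.F := by
    have h1 : FiniteDimensional (fieldOver K y) 𝒜.F :=
      Module.Finite.of_surjective
        (IntermediateField.topEquiv (F := fieldOver K y) (E := 𝒜.F)).toLinearEquiv.toLinearMap
        (IntermediateField.topEquiv (F := fieldOver K y) (E := 𝒜.F)).surjective
    exact Algebra.IsAlgebraic.of_finite _ _
  have halg2 : Algebra.IsAlgebraic (Algebra.adjoin K (Set.range (𝒜.ev y))) 𝒜.F := by
    have : Algebra.IsAlgebraic (IntermediateField.adjoin K (Set.range (𝒜.ev y))) 𝒜.F := halg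
    exact isAlgebraic_adjoin _
  exact isGeneric_of_injective
    (injective_of_trdeg (𝒜.ev y) ((trdeg_dom_le y).trans_lt (trdeg_F_lt 𝒜)) (trdeg_dom_le y))

/-- T3.3 -/
theorem isGeneric_nsmul {x : 𝒜.Pt L} (hx : IsGeneric x) (n : ℕ) (hn : (n : K) ≠ 0) :
    IsGeneric (n • x) := by
  have h : n • x = 𝒜.map (evHom x hx) (n • 𝒜.η) := by
    rw [map_nsmul, map_evHom_eta]
  rw [h, isGeneric_map]
  exact isGeneric_nsmul_eta n hn

theorem adjoin_range_ev_ptOver (x : 𝒜.Pt L) :
    IntermediateField.adjoin K (Set.range (𝒜.ev (ptOver K x))) = ⊤ := by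
  apply IntermediateField.map_injective (fieldOver K x).val
  rw [IntermediateField.adjoin_map, ← AlgHom.fieldRange_eq_map, IntermediateField.fieldRange_val]
  have : (fieldOver K x).val '' Set.range (𝒜.ev (ptOver K x)) = Set.range (𝒜.ev x) := by
    ext z
    constructor
    · rintro ⟨_, ⟨w, rfl⟩, rfl⟩
      have hw : (w : 𝒜.F) ∈ 𝒜.dom x := by rw [← dom_ptOver K x]; exact w.2
      refine ⟨⟨w, hw⟩, ?_⟩
      rw [← val_coe, ← val_coe]
      exact (val_ptOver K x w).symm
    · rintro ⟨w, rfl⟩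
      have hw : (w : 𝒜.F) ∈ 𝒜.dom (ptOver K x) := by rw [dom_ptOver K x]; exact w.2
      refine ⟨_, ⟨⟨w, hw⟩, rfl⟩, ?_⟩
      rw [← val_coe, ← val_coe]
      exact val_ptOver K x w
  rw [this]
  rfl

theorem isGeneric_of_nsmul {x : 𝒜.Pt L} (n : ℕ) (hn : (n : K) ≠ 0) (hx : IsGeneric (n • x)) :
    IsGeneric x := by
  have _ := hn
  have hx' : IsGeneric (n • ptOver K x) := by
    rw [← isGeneric_map (((fieldOver K x).val).restrictScalars K), map_nsmul, map_ptOver]
    exact hx
  have h1 : Algebra.trdeg K 𝒜.F ≤ Algebra.trdeg K (fieldOver K x) :=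
    trdeg_le_of_injective (evHom _ hx') (evHom _ hx').toRingHom.injective
  have h2 : Algebra.IsAlgebraic (Algebra.adjoin K (Set.range (𝒜.ev (ptOver K x))))
      (fieldOver K x) := by
    have : Algebra.IsAlgebraic
        (IntermediateField.adjoin K (Set.range (𝒜.ev (ptOver K x)))) (fieldOver K x) := by
      rw [adjoin_range_ev_ptOver]
      refine ⟨fun z => ?_⟩
      exact isAlgebraic_algebraMap (⟨z, IntermediateField.mem_top⟩ :
        (⊤ : IntermediateField K (fieldOver K x)))
    exact isAlgebraic_adjoin _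
  have h3 : IsGeneric (ptOver K x) := isGeneric_of_injective
    (injective_of_trdeg (𝒜.ev (ptOver K x)) ((trdeg_dom_le _).trans_lt (trdeg_F_lt 𝒜))
      ((trdeg_dom_le _).trans h1))
  rw [← isGeneric_map (((fieldOver K x).val).restrictScalars K), map_ptOver] at h3
  exact h3

end AV

end Fermat.Agent.H26
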