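import Fermat.Agent.H98AV3

/-!
# S26-J5 (T3.4, T3.6, T3.7): divisibility, finiteness of the torsion (helper98)
-/

set_option autoImplicit false

noncomputable section

namespace Fermat.Agent.H26

universe u

namespace AV

variable {K : Type u} [Field K] {𝒜 : AV K} {L : Type u} [Field L] [Algebra K L]

/-- `[n]^* : F → F` -/
def nStar (𝒜 : AV K) (n : ℕ) (hn : (n : K) ≠ 0) : 𝒜.F →ₐ[K] 𝒜.F :=
  evHom (n • 𝒜.η) (isGeneric_nsmul isGeneric_eta n hn)

@[simp] theorem map_nStar_eta (n : ℕ) (hn : (n : K) ≠ 0) :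
    𝒜.map (𝒜.nStar n hn) 𝒜.η = n • 𝒜.η := map_evHom_eta _ _

/-- homomorphisms out of the function field are determined by the image of the generic point -/
theorem algHom_ext_eta {β γ : 𝒜.F →ₐ[K] L} (h : 𝒜.map β 𝒜.η = 𝒜.map γ 𝒜.η) : β = γ := by
  refine AlgHom.ext fun w => ?_
  rw [← val_map_eta β w, h, val_map_eta]

theorem finite_of_nsmul_eta {L₀ : Type u} [Field L₀] [Algebra K L₀] (β : L₀ →ₐ[K] 𝒜.F)
    (n : ℕ) (hn : (n : K) ≠ 0) (y : 𝒜.Pt L₀) (h : n • 𝒜.η = 𝒜.map β y) :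
    β.toRingHom.Finite := by
  algebraize [β.toRingHom]
  have : IsScalarTower K L₀ 𝒜.F := IsScalarTower.of_algebraMap_eq fun c => (β.commutes c).symm
  have hfin := (finite_separable_fieldOver L₀ n hn 𝒜.η y h).1
  rw [fieldOver_eta] at hfin
  have h1 : FiniteDimensional L₀ 𝒜.F :=
      Module.Finite.of_surjective
        (IntermediateField.topEquiv (F := L₀) (E := 𝒜.F)).toLinearEquiv.toLinearMap
        (IntermediateField.topEquiv (F := L₀) (E := 𝒜.F)).surjective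
  exact h1

theorem finite_nStar (𝒜 : AV K) (n : ℕ) (hn : (n : K) ≠ 0) : (𝒜.nStar n hn).toRingHom.Finite :=
  finite_of_nsmul_eta (𝒜.nStar n hn) n hn 𝒜.η (map_nStar_eta n hn).symm

/-- T3.4 -/
theorem exists_nsmul_eq [IsAlgClosed K] (n : ℕ) (hn : (n : K) ≠ 0) (P : 𝒜.Pt K) :
    ∃ Q : 𝒜.Pt K, n • Q = P := by
  let f : 𝒜.dom P →ₐ[K] 𝒜.F := (𝒜.nStar n hn).comp (𝒜.dom P).val
  obtain ⟨A, hA, hloc⟩ := IsLocalRing.exists_factor_valuationRing f.toRingHom
  let V : VSub K 𝒜.F := VSub.ofValuationSubring A fun c => by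
    have := hA (algebraMap K _ c)
    have h2 : f.toRingHom (algebraMap K _ c) = algebraMap K 𝒜.F c := f.commutes c
    rw [h2] at this
    exact this
  let β : 𝒜.dom P →ₐ[K] V.toSubalgebra := f.codRestrict V.toSubalgebra hA
  have hβ : IsLocalHom β.toRingHom := hloc
  have hβP : 𝒜.map β (𝒜.taut P) = n • 𝒜.lift V 𝒜.η := by
    rw [← lift_nsmul]
    refine (𝒜.lift_eq_of_map_eq ?_).symm
    rw [map_map]
    have : (V.toSubalgebra.val).comp β = (𝒜.nStar n hn).comp (𝒜.dom P).val := AlgHom.ext fun b => rfl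
    rw [this, ← map_map, map_val_taut, map_nStar_eta]
  let π : V.toSubalgebra →ₐ[K] IsLocalRing.ResidueField V.toSubalgebra :=
    IsScalarTower.toAlgHom K V.toSubalgebra (IsLocalRing.ResidueField V.toSubalgebra)
  have hπβ : π.comp β = (Algebra.ofId K (IsLocalRing.ResidueField V.toSubalgebra)).comp
      (𝒜.ev P) := by
    refine AlgHom.ext fun b => ?_
    have h1 : ¬ IsUnit (b - algebraMap K _ (𝒜.ev P b)) := by
      intro hu
      have := hu.map (𝒜.ev P)
      rw [map_sub, AlgHom.commutes] at this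
      simp at this
    have h2 : ¬ IsUnit (β (b - algebraMap K _ (𝒜.ev P b))) := fun hu =>
      h1 (isUnit_of_map_unit β.toRingHom _ hu)
    have h3 : π (β (b - algebraMap K _ (𝒜.ev P b))) = 0 := by
      change IsLocalRing.residue _ _ = 0
      rw [IsLocalRing.residue_eq_zero_iff]
      exact h2
    rw [map_sub, map_sub, sub_eq_zero, AlgHom.commutes, AlgHom.commutes] at h3
    exact h3
  let x : 𝒜.Pt (IsLocalRing.ResidueField V.toSubalgebra) := 𝒜.map π (𝒜.lift V 𝒜.η)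
  have hx : n • x = 𝒜.map (IsScalarTower.toAlgHom K K
      (IsLocalRing.ResidueField V.toSubalgebra)) P := by
    rw [← map_nsmul, ← hβP, map_map, hπβ, ← map_map, map_ev_taut]
    congr 1
  obtain ⟨Q, hQ⟩ := mem_range_of_nsmul K n hn x P hx
  refine ⟨Q, ?_⟩
  apply 𝒜.map_injective (IsScalarTower.toAlgHom K K (IsLocalRing.ResidueField V.toSubalgebra))
    (IsScalarTower.toAlgHom K K (IsLocalRing.ResidueField V.toSubalgebra)).toRingHom.injective
  rw [map_nsmul, hQ, hx]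

section torsion

variable (𝒜) in
/-- `η + x` -/
def etaAdd (x : 𝒜.Pt K) : 𝒜.Pt 𝒜.F := 𝒜.η + 𝒜.map (Algebra.ofId K 𝒜.F) x

theorem nsmul_etaAdd (n : ℕ) (x : 𝒜.Pt K) (hx : n • x = 0) :
    n • 𝒜.etaAdd x = n • 𝒜.η := by
  rw [etaAdd, smul_add, ← map_nsmul, hx, map_zero, add_zero]

theorem isGeneric_etaAdd (n : ℕ) (hn : (n : K) ≠ 0) (x : 𝒜.Pt K) (hx : n • x = 0) :
    IsGeneric (𝒜.etaAdd x) :=
  isGeneric_of_nsmul n hn (by rw [nsmul_etaAdd n x hx]; exact isGeneric_nsmul_eta n hn)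

variable (𝒜) in
/-- translation by a torsion point, on the function field -/
def transl (n : ℕ) (hn : (n : K) ≠ 0) (x : {x : 𝒜.Pt K // n • x = 0}) : 𝒜.F →ₐ[K] 𝒜.F :=
  evHom (𝒜.etaAdd x.1) (isGeneric_etaAdd n hn x.1 x.2)

theorem map_transl_eta (n : ℕ) (hn : (n : K) ≠ 0) (x : {x : 𝒜.Pt K // n • x = 0}) :
    𝒜.map (𝒜.transl n hn x) 𝒜.η = 𝒜.etaAdd x.1 := map_evHom_eta _ _

theorem transl_injective (n : ℕ) (hn : (n : K) ≠ 0) :
    Function.Injective (𝒜.transl n hn) := by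
  intro x y h
  have h1 : 𝒜.etaAdd x.1 = 𝒜.etaAdd y.1 := by
    rw [← map_transl_eta n hn x, ← map_transl_eta n hn y, h]
  have h2 := add_left_cancel h1
  exact Subtype.ext (𝒜.map_injective (Algebra.ofId K 𝒜.F)
    (Algebra.ofId K 𝒜.F).toRingHom.injective h2)

theorem transl_comp_nStar (n : ℕ) (hn : (n : K) ≠ 0) (x : {x : 𝒜.Pt K // n • x = 0}) :
    (𝒜.transl n hn x).comp (𝒜.nStar n hn) = 𝒜.nStar n hn := by
  apply algHom_ext_eta
  rw [← map_map, map_nStar_eta, map_nsmul, map_transl_eta, nsmul_etaAdd n x.1 x.2]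

theorem torsion_aux {L₀ : Type u} [Field L₀] [Algebra K L₀] (β : L₀ →ₐ[K] 𝒜.F)
    (hfin : β.toRingHom.Finite) {T : Type u} (τ : T → (𝒜.F →ₐ[K] 𝒜.F))
    (hinj : Function.Injective τ) (hτ : ∀ x, (τ x).comp β = β) :
    Finite T ∧ ∃ u : T → 𝒜.F, ∀ c : T →₀ L₀, (c.sum fun i a => β a * u i) = 0 → c = 0 := by
  classical
  algebraize [β.toRingHom]
  have hfd : FiniteDimensional L₀ 𝒜.F := hfin
  let σ : T → (𝒜.F →ₐ[L₀] 𝒜.F) := fun x =>
    { τ x with
      commutes' := fun c => by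
        change τ x (β c) = β c
        rw [← AlgHom.comp_apply, hτ] }
  have hσ : Function.Injective σ := by
    intro x y h
    apply hinj
    refine AlgHom.ext fun w => ?_
    exact AlgHom.congr_fun h w
  have hT : Finite T := Finite.of_injective σ hσ
  refine ⟨hT, ?_⟩
  have := Fintype.ofFinite T
  have hcard : Fintype.card T ≤ Module.finrank L₀ 𝒜.F :=
    (Fintype.card_le_of_injective σ hσ).trans (AlgHom.card_le)
  let b := Module.finBasis L₀ 𝒜.F
  have hcard' : Fintype.card T ≤ Fintype.card (Fin (Module.finrank L₀ 𝒜.F)) := by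
    rw [Fintype.card_fin]; exact hcard
  obtain ⟨j⟩ := Function.Embedding.nonempty_of_card_le hcard'
  have hli : LinearIndependent L₀ (b ∘ j) := b.linearIndependent.comp j j.injective
  refine ⟨b ∘ j, fun c hc => ?_⟩
  rw [linearIndependent_iff] at hli
  apply hli
  rw [← hc, Finsupp.linearCombination_apply]
  rfl

/-- T3.6 -/
theorem finite_torsion [IsAlgClosed K] (𝒜 : AV K) (n : ℕ) (hn : (n : K) ≠ 0) :
    Finite {x : 𝒜.Pt K // n • x = 0} :=
  (torsion_aux (𝒜.nStar n hn) (finite_nStar 𝒜 n hn) (𝒜.transl n hn) (transl_injective n hn)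
    (transl_comp_nStar n hn)).1

/-- T3.7 -/
theorem exists_linearIndependent_nStar [IsAlgClosed K] (𝒜 : AV K) (n : ℕ) (hn : (n : K) ≠ 0) :
    ∃ u : {x : 𝒜.Pt K // n • x = 0} → 𝒜.F, ∀ c : {x : 𝒜.Pt K // n • x = 0} →₀ 𝒜.F,
      (c.sum fun i a => 𝒜.nStar n hn a * u i) = 0 → c = 0 :=
  (torsion_aux (𝒜.nStar n hn) (finite_nStar 𝒜 n hn) (𝒜.transl n hn) (transl_injective n hn)
    (transl_comp_nStar n hn)).2

end torsion

end AV

end Fermat.Agent.H26
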