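import Fermat.Agent.H98AV4

/-!
# S26-J5 (T3.8): cardinality of the torsion (helper98)
-/

set_option autoImplicit false

noncomputable section

namespace Fermat.Agent.H26

universe u

namespace AV

section group

variable {G : Type*} [AddCommGroup G]

theorem card_torsion_mul_group {m n : ℕ} (h : m.Coprime n) :
    Nat.card {x : G // (m * n) • x = 0} =
      Nat.card {x : G // m • x = 0} * Nat.card {x : G // n • x = 0} := by
  rw [← Nat.card_prod]
  obtain ⟨u, v, huv⟩ : ∃ u v : ℤ, u * m + v * n = 1 := by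
    have := Nat.isCoprime_iff_coprime.mpr h
    exact this
  have hz : ∀ (k : ℕ) (x : G), ((k : ℤ)) • x = k • x := fun k x => natCast_zsmul x k
  refine Nat.card_congr
    { toFun := fun x => (⟨(v * n) • x.1, ?_⟩, ⟨(u * m) • x.1, ?_⟩)
      invFun := fun y => ⟨y.1.1 + y.2.1, ?_⟩
      left_inv := fun x => Subtype.ext ?_
      right_inv := fun y => Prod.ext (Subtype.ext ?_) (Subtype.ext ?_) }
  · rw [← hz, smul_smul, show ((m : ℤ) * (v * n)) = v * ((m * n : ℕ) : ℤ) by push_cast; ring,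
      mul_smul, hz, x.2, smul_zero]
  · rw [← hz, smul_smul, show ((n : ℤ) * (u * m)) = u * ((m * n : ℕ) : ℤ) by push_cast; ring,
      mul_smul, hz, x.2, smul_zero]
  · rw [smul_add, mul_smul m n y.2.1, y.2.2, smul_zero, add_zero, mul_comm, mul_smul, y.1.2,
      smul_zero]
  · change (v * n) • x.1 + (u * m) • x.1 = x.1
    rw [← add_smul, add_comm, huv, one_smul]
  · change (v * n) • (y.1.1 + y.2.1) = y.1.1
    rw [smul_add, mul_smul v n y.2.1, hz, y.2.2, smul_zero, add_zero,
      show v * n = 1 - u * m by rw [← huv]; ring, sub_smul, one_smul, mul_smul, hz, y.1.2,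
      smul_zero, sub_zero]
  · change (u * m) • (y.1.1 + y.2.1) = y.2.1
    rw [smul_add, mul_smul u m y.1.1, hz, y.1.2, smul_zero, zero_add,
      show u * m = 1 - v * n by rw [← huv]; ring, sub_smul, one_smul, mul_smul, hz, y.2.2,
      smul_zero, sub_zero]

theorem exists_card_torsion_pow_group (ℓ : ℕ) (hℓ : ℓ.Prime)
    (hfin : Finite {x : G // ℓ • x = 0}) (hdiv : ∀ x : G, ∃ y : G, ℓ • y = x) :
    ∃ r : ℕ, ∀ k : ℕ, Nat.card {x : G // (ℓ ^ k) • x = 0} = ℓ ^ (k * r) := by
  -- the subgroups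
  let H : ℕ → AddSubgroup G := fun k => (nsmulAddMonoidHom (α := G) k).ker
  have hH : ∀ k, Nat.card {x : G // k • x = 0} = Nat.card (H k) := fun k =>
    Nat.card_congr (Equiv.refl _)
  have hfinH : Finite (H ℓ) := hfin
  obtain ⟨r, hr⟩ : ∃ r, Nat.card (H ℓ) = ℓ ^ r := by
    have : Fact ℓ.Prime := ⟨hℓ⟩
    have hp : IsPGroup ℓ (Multiplicative (H ℓ)) := by
      intro x
      refine ⟨1, ?_⟩
      rw [pow_one]
      apply Multiplicative.toAdd.injective
      rw [toAdd_pow, toAdd_one]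
      apply Subtype.ext
      exact (Multiplicative.toAdd x).2
    have hf : Finite (Multiplicative (H ℓ)) := hfinH
    obtain ⟨r, hr⟩ := IsPGroup.iff_card.mp hp
    exact ⟨r, hr⟩
  refine ⟨r, fun k => ?_⟩
  rw [hH]
  induction k with
  | zero =>
    rw [pow_zero, zero_mul, pow_zero]
    have : H 1 = ⊥ := by
      ext x
      change 1 • x = 0 ↔ x ∈ (⊥ : AddSubgroup G)
      rw [one_smul, AddSubgroup.mem_bot]
    rw [this]
    exact Nat.card_unique
  | succ k ih =>
    let φ : H (ℓ ^ (k + 1)) →+ H (ℓ ^ k) :=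
      { toFun := fun x => ⟨ℓ • x.1, by
          change (ℓ ^ k) • (ℓ • x.1) = 0
          rw [smul_smul, ← pow_succ]
          exact x.2⟩
        map_zero' := Subtype.ext (smul_zero _)
        map_add' := fun x y => Subtype.ext (smul_add _ _ _) }
    have hφ : Function.Surjective φ := by
      intro y
      obtain ⟨x, hx⟩ := hdiv y.1
      refine ⟨⟨x, ?_⟩, Subtype.ext hx⟩
      change (ℓ ^ (k + 1)) • x = 0
      rw [pow_succ, mul_smul, hx]
      exact y.2
    have hker : Nat.card φ.ker = Nat.card (H ℓ) := by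
      refine Nat.card_congr
        { toFun := fun x => ⟨x.1.1, ?_⟩
          invFun := fun y => ⟨⟨y.1, ?_⟩, ?_⟩
          left_inv := fun x => rfl
          right_inv := fun y => rfl }
      · exact congrArg Subtype.val (AddMonoidHom.mem_ker.mp x.2)
      · change (ℓ ^ (k + 1)) • y.1 = 0
        rw [pow_succ, mul_smul]
        have : ℓ • y.1 = 0 := y.2
        rw [this, smul_zero]
      · rw [AddMonoidHom.mem_ker]
        exact Subtype.ext y.2
    have h1 := AddSubgroup.card_eq_card_quotient_mul_card_addSubgroup φ.ker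
    rw [h1, Nat.card_congr (QuotientAddGroup.quotientKerEquivOfSurjective φ hφ).toEquiv, hker, hr,
      ih, ← pow_add]
    congr 1
    ring

end group

variable {K : Type u} [Field K] {𝒜 : AV K}

/-- T3.8 -/
theorem card_torsion_mul [IsAlgClosed K] (𝒜 : AV K) {m n : ℕ} (h : m.Coprime n)
    (hn : ((m * n : ℕ) : K) ≠ 0) :
    Nat.card {x : 𝒜.Pt K // (m * n) • x = 0} =
      Nat.card {x : 𝒜.Pt K // m • x = 0} * Nat.card {x : 𝒜.Pt K // n • x = 0} := by
  have _ := hn
  exact card_torsion_mul_group h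

theorem exists_card_torsion_pow [IsAlgClosed K] (𝒜 : AV K) (ℓ : ℕ) (hℓ : ℓ.Prime)
    (hn : (ℓ : K) ≠ 0) : ∃ r : ℕ, ∀ k : ℕ, Nat.card {x : 𝒜.Pt K // (ℓ ^ k) • x = 0} = ℓ ^ (k * r) :=
  exists_card_torsion_pow_group ℓ hℓ (finite_torsion 𝒜 ℓ hn) (exists_nsmul_eq ℓ hn)

end AV

end Fermat.Agent.H26
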