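import Mathlib

/-!
# The fibre lemma: `B`-module structures on `k[X]^n`, `B` a Dedekind domain free of rank `n`
over `k[t]`

For every `a : k` there is a vector `e` such that the determinant of `B → k[X]^n`, `b ↦ ρ b e`
does not vanish at `a`.
-/

set_option autoImplicit false

namespace Fermat.Agent.H98

open Polynomial Matrix

section Gen

variable {k B A : Type*} [CommRing k] [CommRing B] [Algebra k B] [CommRing A] [Algebra k A]
  {n : ℕ}

/-- the matrix of `b ↦ ρ b *ᵥ e` in the basis `β`. -/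
noncomputable def orb (ρ : B →ₐ[k] Matrix (Fin n) (Fin n) A[X]) (β : Fin n → B)
    (e : Fin n → A[X]) : Matrix (Fin n) (Fin n) A[X] :=
  Matrix.of fun i j => (ρ (β j) *ᵥ e) i

theorem rho_aeval (ρ : B →ₐ[k] Matrix (Fin n) (Fin n) A[X]) (t : B)
    (hρ : ρ t = (X : A[X]) • (1 : Matrix (Fin n) (Fin n) A[X])) (p : k[X]) :
    ρ (aeval t p) = (p.map (algebraMap k A)) • (1 : Matrix (Fin n) (Fin n) A[X]) := by
  induction p using Polynomial.induction_on' with
  | add p q hp hq => rw [map_add, map_add, hp, hq, Polynomial.map_add, add_smul]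
  | monomial m c =>
    rw [aeval_monomial, map_mul, AlgHom.commutes, map_pow, hρ, _root_.smul_pow, one_pow,
      Polynomial.map_monomial, ← C_mul_X_pow_eq_monomial, mul_smul, Algebra.algebraMap_eq_smul_one,
      smul_mul_assoc, one_mul, ← Polynomial.algebraMap_eq, algebraMap_smul, algebraMap_smul]

theorem rho_sum_mulVec (ρ : B →ₐ[k] Matrix (Fin n) (Fin n) A[X]) (t : B) (β : Fin n → B)
    (hρ : ρ t = (X : A[X]) • (1 : Matrix (Fin n) (Fin n) A[X])) (f : Fin n → k[X])
    (e : Fin n → A[X]) :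
    ρ (∑ i, aeval t (f i) * β i) *ᵥ e = orb ρ β e *ᵥ (fun i => (f i).map (algebraMap k A)) := by
  rw [map_sum, Matrix.sum_mulVec]
  ext i : 1
  rw [Finset.sum_apply]
  simp only [map_mul, rho_aeval ρ t hρ, smul_mul_assoc, one_mul, Matrix.smul_mulVec,
    Pi.smul_apply, smul_eq_mul]
  simp only [orb, Matrix.mulVec, dotProduct, Matrix.of_apply]
  exact Finset.sum_congr rfl fun j _ => mul_comm _ _

end Gen

section Fiber

variable {k B : Type*} [Field k] [CommRing B] [IsDedekindDomain B] [Algebra k B]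
  {n : ℕ} (t : B) (β : Fin n → B)
  (hβ : Function.Bijective (fun f : Fin n → k[X] => ∑ i, aeval t (f i) * β i))

include hβ

theorem pos_of_basis : 0 < n := by
  rcases Nat.eq_zero_or_pos n with h | h
  · subst h
    obtain ⟨f, hf⟩ := hβ.2 (1 : B)
    simp at hf
  · exact h

theorem aeval_inj_of_basis : Function.Injective (aeval t : k[X] →ₐ[k] B) := by
  rw [injective_iff_map_eq_zero]
  intro p hp
  have hn := pos_of_basis t β hβ
  have h0 : (fun f : Fin n → k[X] => ∑ i, aeval t (f i) * β i) (Pi.single ⟨0, hn⟩ p) =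
      (fun f : Fin n → k[X] => ∑ i, aeval t (f i) * β i) 0 := by
    simp only [Pi.zero_apply, map_zero, zero_mul, Finset.sum_const_zero]
    refine Finset.sum_eq_zero fun i _ => ?_
    by_cases hi : i = ⟨0, hn⟩
    · subst hi
      rw [Pi.single_eq_same, hp, zero_mul]
    · rw [Pi.single_eq_of_ne hi, map_zero, zero_mul]
  have h := hβ.1 h0
  simpa using congrFun h ⟨0, hn⟩

theorem exists_mul_eq_aeval {b : B} (hb : b ≠ 0) :
    ∃ (r : k[X]) (c : B), r ≠ 0 ∧ c * b = aeval t r := by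
  classical
  let _ : Algebra k[X] B := (aeval t : k[X] →ₐ[k] B).toRingHom.toAlgebra
  have hmap : ∀ p : k[X], algebraMap k[X] B p = aeval t p := fun p => rfl
  have : Module.Finite k[X] B := by
    refine ⟨⟨Finset.univ.image β, ?_⟩⟩
    rw [eq_top_iff]
    rintro x -
    obtain ⟨f, rfl⟩ := hβ.2 x
    refine Submodule.sum_mem _ fun i _ => ?_
    have : aeval t (f i) * β i = f i • β i := by
      rw [Algebra.smul_def, hmap]
    rw [this]
    refine Submodule.smul_mem _ _ (Submodule.subset_span ?_)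
    simp
  have hint : IsIntegral k[X] b := Algebra.IsIntegral.isIntegral b
  have halg : IsAlgebraic k[X] b := hint.isAlgebraic
  obtain ⟨r, hr, c, hc⟩ := halg.exists_nonzero_dvd (mem_nonZeroDivisors_of_ne_zero hb)
  exact ⟨r, c, hr, by rw [← hmap, hc, mul_comm]⟩

theorem fiber_lemma (ρ : B →ₐ[k] Matrix (Fin n) (Fin n) k[X])
    (hρ : ρ t = (X : k[X]) • (1 : Matrix (Fin n) (Fin n) k[X])) (a : k) :
    ∃ e : Fin n → k[X], (orb ρ β e).det.eval a ≠ 0 := by
  classical
  have hρp : ∀ p : k[X], ρ (aeval t p) = p • (1 : Matrix (Fin n) (Fin n) k[X]) := by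
    intro p
    have := rho_aeval ρ t hρ p
    simpa using this
  have hact : ∀ (f : Fin n → k[X]) (e : Fin n → k[X]),
      ρ (∑ i, aeval t (f i) * β i) *ᵥ e = orb ρ β e *ᵥ f := by
    intro f e
    have := rho_sum_mulVec ρ t β hρ f e
    simpa using this
  have hact' : ∀ (b : B), ∃ f : Fin n → k[X], b = ∑ i, aeval t (f i) * β i ∧
      ∀ e, ρ b *ᵥ e = orb ρ β e *ᵥ f := by
    intro b
    obtain ⟨f, hf⟩ := hβ.2 b
    exact ⟨f, hf.symm, fun e => by rw [← hact]; simp only at hf; rw [hf]⟩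
  have hpe : ∀ (p : k[X]) (e : Fin n → k[X]), ρ (aeval t p) *ᵥ e = p • e := by
    intro p e
    rw [hρp, Matrix.smul_mulVec, Matrix.one_mulVec]
  -- torsion free
  have htf : ∀ (b : B) (e : Fin n → k[X]), b ≠ 0 → ρ b *ᵥ e = 0 → e = 0 := by
    intro b e hb h
    obtain ⟨r, c, hr, hc⟩ := exists_mul_eq_aeval t β hβ hb
    have h1 : r • e = 0 := by
      rw [← hpe, ← hc, map_mul, ← Matrix.mulVec_mulVec, h, Matrix.mulVec_zero]
    ext i : 1
    have h2 := congrFun h1 i
    simp only [Pi.smul_apply, smul_eq_mul, Pi.zero_apply] at h2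
    exact (mul_eq_zero.mp h2).resolve_left hr
  set e₁ : Fin n → k[X] := fun _ => 1 with he₁
  set d : k[X] := (orb ρ β e₁).det with hd
  have hd0 : d ≠ 0 := by
    intro h0
    obtain ⟨f, hf, hf0⟩ := Matrix.exists_mulVec_eq_zero_iff.mpr h0
    rw [← hact] at hf0
    by_cases hb : (∑ i, aeval t (f i) * β i) = 0
    · apply hf
      apply hβ.1
      simpa using hb
    · have h3 := htf _ _ hb hf0
      apply hf
      ext i : 1
      exact absurd (congrFun h3 i) one_ne_zero
  let I : Ideal B :=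
    { carrier := {b | ∃ x : Fin n → k[X], ρ b *ᵥ e₁ = d • x}
      add_mem' := by
        rintro a b ⟨x, hx⟩ ⟨y, hy⟩
        exact ⟨x + y, by rw [map_add, Matrix.add_mulVec, hx, hy, smul_add]⟩
      zero_mem' := ⟨0, by rw [map_zero, Matrix.zero_mulVec, smul_zero]⟩
      smul_mem' := by
        rintro c b ⟨x, hx⟩
        refine ⟨ρ c *ᵥ x, ?_⟩
        rw [smul_eq_mul, map_mul, ← Matrix.mulVec_mulVec, hx, Matrix.mulVec_smul] }
  have hI : ∀ b, b ∈ I ↔ ∃ x : Fin n → k[X], ρ b *ᵥ e₁ = d • x := fun b => Iff.rfl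
  have hIx : ∀ x : Fin n → k[X], ∃ b ∈ I, ρ b *ᵥ e₁ = d • x := by
    intro x
    have h1 : orb ρ β e₁ *ᵥ ((orb ρ β e₁).adjugate *ᵥ x) = d • x := by
      rw [Matrix.mulVec_mulVec, Matrix.mul_adjugate, Matrix.smul_mulVec, Matrix.one_mulVec]
    rw [← hact] at h1
    exact ⟨_, ⟨x, h1⟩, h1⟩
  have hta : (t - algebraMap k B a) ≠ 0 := by
    have h1 : aeval t (X - C a : k[X]) = t - algebraMap k B a := by simp
    rw [← h1]
    intro h2
    have h3 := aeval_inj_of_basis t β hβ (h2.trans (map_zero _).symm)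
    exact Polynomial.X_sub_C_ne_zero a h3
  have hρta : ρ (t - algebraMap k B a) = (X - C a : k[X]) • (1 : Matrix (Fin n) (Fin n) k[X]) := by
    rw [← hρp]
    simp
  have hJ0 : Ideal.span {t - algebraMap k B a} * I ≠ 0 := by
    rw [Ne, Ideal.zero_eq_bot, Ideal.mul_eq_bot, not_or]
    refine ⟨by simpa using hta, ?_⟩
    intro hI0
    have h1 : aeval t d ∈ I := ⟨e₁, hpe d e₁⟩
    rw [hI0, Ideal.mem_bot] at h1
    exact hd0 (aeval_inj_of_basis t β hβ (h1.trans (map_zero _).symm))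
  obtain ⟨b₀, hb₀⟩ := IsDedekindDomain.exists_sup_span_eq
    (Ideal.mul_le_right : Ideal.span {t - algebraMap k B a} * I ≤ I) hJ0
  have hb₀I : b₀ ∈ I := by
    rw [← hb₀]
    exact Ideal.mem_sup_right (Ideal.mem_span_singleton_self b₀)
  obtain ⟨e₀, he₀⟩ := hb₀I
  have hcan : ∀ x y : Fin n → k[X], d • x = d • y → x = y := by
    intro x y h
    ext i : 1
    exact mul_left_cancel₀ hd0 (congrFun h i)
  have hgen : ∀ x : Fin n → k[X], ∃ (x' : Fin n → k[X]) (f : Fin n → k[X]),
      x = (X - C a : k[X]) • x' + orb ρ β e₀ *ᵥ f := by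
    intro x
    obtain ⟨b, hb, hbx⟩ := hIx x
    rw [← hb₀, Submodule.mem_sup] at hb
    obtain ⟨y, hy, z, hz, rfl⟩ := hb
    rw [Ideal.mem_span_singleton_mul] at hy
    obtain ⟨b', ⟨x', hx'⟩, rfl⟩ := hy
    obtain ⟨c, rfl⟩ := Ideal.mem_span_singleton'.mp hz
    obtain ⟨f, hf, hfe⟩ := hact' c
    refine ⟨x', f, hcan _ _ ?_⟩
    rw [← hbx, map_add, Matrix.add_mulVec, map_mul, map_mul, ← Matrix.mulVec_mulVec,
      ← Matrix.mulVec_mulVec, hx', he₀, hρta, Matrix.smul_mulVec, Matrix.one_mulVec,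
      Matrix.mulVec_smul, hfe, smul_add, smul_comm]
  refine ⟨e₀, ?_⟩
  choose x' f hxf using hgen
  -- evaluate at `a`
  let N : Matrix (Fin n) (Fin n) k := (orb ρ β e₀).map (evalRingHom a)
  let V : Matrix (Fin n) (Fin n) k := Matrix.of fun i j => (f (Pi.single j 1) i).eval a
  have hNV : N * V = 1 := by
    ext i j
    have h1 := congrFun (hxf (Pi.single j 1)) i
    have h2 := congrArg (eval a) h1
    rw [Pi.add_apply, eval_add, Pi.smul_apply, smul_eq_mul, eval_mul, eval_sub, eval_X, eval_C,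
      sub_self, zero_mul, zero_add] at h2
    have h3 : eval a ((Pi.single j 1 : Fin n → k[X]) i) = (1 : Matrix (Fin n) (Fin n) k) i j := by
      rw [Pi.single_apply, Matrix.one_apply]
      split_ifs <;> simp
    rw [← h3, h2, Matrix.mul_apply]
    simp only [Matrix.mulVec, dotProduct, eval_finsetSum, eval_mul, N, V, Matrix.map_apply,
      Matrix.of_apply, coe_evalRingHom]
  have hdet : N.det ≠ 0 := by
    intro h0
    have := congrArg Matrix.det hNV
    rw [Matrix.det_mul, h0, zero_mul, Matrix.det_one] at this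
    exact zero_ne_one this
  have : N.det = (orb ρ β e₀).det.eval a := by
    rw [← coe_evalRingHom, RingHom.map_det]
    rfl
  rwa [← this]

end Fiber

end Fermat.Agent.H98
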