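import Fermat.Agent.H98Inv
import Fermat.Agent.H98Fiber

/-!
# S25-D5: modules over `A ⊗ B` which are free of rank `n` over `A[t]` are invertible

`k` algebraically closed, `B` a Dedekind domain over `k`, free of rank `n` over `k[t]`
with basis `β`, `A` an arbitrary commutative `k`-algebra.

* `orb_span_top` : for `ρ : B →ₐ[k] Mₙ(A[X])` with `ρ t = X` the determinants of the maps
  `b ↦ ρ b *ᵥ e` generate the unit ideal of `A[X]`;
* `invertible_chart` : a module over `S = A ⊗ B` which is free of rank `n` over `A[t]` is invertible.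
-/

set_option autoImplicit false

namespace Fermat.Agent.H98

open Polynomial Matrix TensorProduct

section Map

variable {k B A A' : Type*} [CommRing k] [CommRing B] [Algebra k B] [CommRing A] [Algebra k A]
  [CommRing A'] [Algebra k A'] {n : ℕ}

theorem orb_map (φ : A →ₐ[k] A') (ρ : B →ₐ[k] Matrix (Fin n) (Fin n) A[X])
    (β : Fin n → B) (e : Fin n → A[X]) :
    orb ((Polynomial.mapAlgHom φ).mapMatrix.comp ρ) β (fun i => (e i).map (φ : A →+* A')) =
      (orb ρ β e).map (Polynomial.mapAlgHom φ) := by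
  ext1 i j
  change ∑ x, Polynomial.mapAlgHom φ (ρ (β j) i x) * Polynomial.mapAlgHom φ (e x) =
    Polynomial.mapAlgHom φ (∑ x, ρ (β j) i x * e x)
  rw [map_sum]
  exact Finset.sum_congr rfl fun x _ => (map_mul _ _ _).symm

theorem det_orb_map (φ : A →ₐ[k] A') (ρ : B →ₐ[k] Matrix (Fin n) (Fin n) A[X])
    (β : Fin n → B) (e : Fin n → A[X]) :
    (orb ((Polynomial.mapAlgHom φ).mapMatrix.comp ρ) β
      (fun i => (e i).map (φ : A →+* A'))).det = (orb ρ β e).det.map (φ : A →+* A') := by
  rw [orb_map]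
  exact ((Polynomial.mapAlgHom φ).map_det (orb ρ β e)).symm

end Map

section Main

variable {k B A : Type*} [Field k] [IsAlgClosed k] [CommRing B] [IsDedekindDomain B]
  [Algebra k B] [CommRing A] [Algebra k A]
  {n : ℕ} (t : B) (β : Fin n → B)
  (hβ : Function.Bijective (fun f : Fin n → k[X] => ∑ i, aeval t (f i) * β i))

omit [CommRing B] [IsDedekindDomain B] [Algebra k B] in
/-- Nullstellensatz: closed points of a finite type algebra over an algebraically closed field
are rational. -/
theorem exists_algHom_of_isMaximal {B : Type*} [CommRing B] [Algebra k B]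
    [Algebra.FiniteType k B] (m : Ideal B) [hm : m.IsMaximal] :
    ∃ φ : B →ₐ[k] k, RingHom.ker φ = m := by
  let _ : Field (B ⧸ m) := Ideal.Quotient.field m
  have : Module.Finite k (B ⧸ m) := finite_of_finite_type_of_isJacobsonRing k (B ⧸ m)
  have hbij : Function.Bijective (algebraMap k (B ⧸ m)) :=
    IsAlgClosed.algebraMap_bijective_of_isIntegral
  let e : k ≃ₐ[k] (B ⧸ m) := AlgEquiv.ofBijective (Algebra.ofId k (B ⧸ m)) hbij
  refine ⟨(e.symm : (B ⧸ m) →ₐ[k] k).comp (Ideal.Quotient.mkₐ k m), ?_⟩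
  ext x
  rw [RingHom.mem_ker]
  change e.symm (Ideal.Quotient.mk m x) = 0 ↔ _
  rw [EmbeddingLike.map_eq_zero_iff, Ideal.Quotient.eq_zero_iff_mem]

include hβ in
theorem orb_span_top_of_finiteType [Algebra.FiniteType k A]
    (ρ : B →ₐ[k] Matrix (Fin n) (Fin n) A[X])
    (hρ : ρ t = (X : A[X]) • (1 : Matrix (Fin n) (Fin n) A[X])) :
    Ideal.span (Set.range fun e : Fin n → A[X] => (orb ρ β e).det) = ⊤ := by
  by_contra hne
  obtain ⟨m, hm, hle⟩ := Ideal.exists_le_maximal _ hne
  obtain ⟨φ, hφ⟩ := exists_algHom_of_isMaximal (k := k) m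
  let φ₀ : A →ₐ[k] k := φ.comp (Polynomial.CAlgHom)
  let a : k := φ X
  let ρ' : B →ₐ[k] Matrix (Fin n) (Fin n) k[X] := (Polynomial.mapAlgHom φ₀).mapMatrix.comp ρ
  have hρ' : ρ' t = (X : k[X]) • (1 : Matrix (Fin n) (Fin n) k[X]) := by
    ext1 i j
    simp only [ρ', AlgHom.comp_apply, hρ, AlgHom.mapMatrix_apply, Matrix.map_apply,
      Matrix.smul_apply, smul_eq_mul, Matrix.one_apply]
    split_ifs <;> simp
  obtain ⟨e, he⟩ := fiber_lemma t β hβ ρ' hρ' a
  let e' : Fin n → A[X] := fun i => (e i).map (algebraMap k A)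
  have h1 : (fun i => (e' i).map (φ₀ : A →+* k)) = e := by
    ext1 i
    simp only [e', Polynomial.map_map]
    have : (φ₀ : A →+* k).comp (algebraMap k A) = RingHom.id k := by
      ext c
      simp
    rw [this, Polynomial.map_id]
  have h2 : (orb ρ' β e).det = (orb ρ β e').det.map (φ₀ : A →+* k) := by
    rw [← det_orb_map, h1]
  have h3 : ∀ p : A[X], (p.map (φ₀ : A →+* k)).eval a = φ p := by
    intro p
    have : (Polynomial.evalRingHom a).comp (Polynomial.mapRingHom (φ₀ : A →+* k)) =
        (φ : A[X] →+* k) := by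
      apply Polynomial.ringHom_ext
      · intro c
        simp [φ₀]
      · simp [a]
    exact RingHom.congr_fun this p
  have h4 : (orb ρ β e').det ∈ m := hle (Ideal.subset_span ⟨e', rfl⟩)
  rw [← hφ, RingHom.mem_ker] at h4
  rw [h2, h3] at he
  exact he h4

include hβ in
/-- **Main determinant statement**, for an arbitrary commutative `k`-algebra `A`. -/
theorem orb_span_top (ρ : B →ₐ[k] Matrix (Fin n) (Fin n) A[X])
    (hρ : ρ t = (X : A[X]) • (1 : Matrix (Fin n) (Fin n) A[X])) :
    Ideal.span (Set.range fun e : Fin n → A[X] => (orb ρ β e).det) = ⊤ := by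
  classical
  -- the subalgebra generated by the coefficients
  let s : Finset A := Finset.univ.biUnion fun (x : Fin n × Fin n × Fin n) =>
    (ρ (β x.1) x.2.1 x.2.2).coeffs
  let A₀ : Subalgebra k A := Algebra.adjoin k (s : Set A)
  have : Algebra.FiniteType k A₀ :=
    (Subalgebra.fg_iff_finiteType A₀).mp ⟨s, rfl⟩
  let ι : A₀ →ₐ[k] A := A₀.val
  let ιM : Matrix (Fin n) (Fin n) A₀[X] →ₐ[k] Matrix (Fin n) (Fin n) A[X] :=
    (Polynomial.mapAlgHom ι).mapMatrix
  have hιX : Function.Injective (Polynomial.mapAlgHom ι) :=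
    Polynomial.map_injective _ Subtype.val_injective
  have hιM : Function.Injective ιM := by
    intro M N h
    ext1 i j
    exact hιX (congrFun (congrFun h i) j)
  have hrangeP : ∀ p : A[X], (∀ m, p.coeff m ∈ A₀) → ∃ q : A₀[X], Polynomial.mapAlgHom ι q = p := by
    intro p hp
    have : p ∈ Polynomial.lifts (ι : A₀ →+* A) := by
      rw [Polynomial.lifts_iff_coeff_lifts]
      intro m
      exact ⟨⟨_, hp m⟩, rfl⟩
    rw [Polynomial.mem_lifts] at this
    exact this
  have hβr : ∀ j, ρ (β j) ∈ ιM.range := by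
    intro j
    have : ∀ i l, ∃ q : A₀[X], Polynomial.mapAlgHom ι q = ρ (β j) i l := by
      intro i l
      apply hrangeP
      intro m
      by_cases h0 : (ρ (β j) i l).coeff m = 0
      · rw [h0]; exact A₀.zero_mem
      · apply Algebra.subset_adjoin
        simp only [s, Finset.coe_biUnion, Set.mem_iUnion]
        exact ⟨(j, i, l), Finset.mem_coe.mpr (Finset.mem_univ _),
          Finset.mem_coe.mpr (Polynomial.coeff_mem_coeffs h0)⟩
    choose q hq using this
    exact ⟨Matrix.of q, by ext1 i l; exact hq i l⟩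
  have hr : ∀ b, ρ b ∈ ιM.range := by
    intro b
    obtain ⟨f, rfl⟩ := hβ.2 b
    simp only [map_sum, map_mul, rho_aeval ρ t hρ]
    refine Subalgebra.sum_mem _ fun i _ => Subalgebra.mul_mem _ ?_ (hβr i)
    refine ⟨((f i).map (algebraMap k A₀)) • (1 : Matrix (Fin n) (Fin n) A₀[X]), ?_⟩
    ext1 a c
    change Polynomial.mapAlgHom ι (((f i).map (algebraMap k A₀)) *
      (1 : Matrix (Fin n) (Fin n) A₀[X]) a c) = ((f i).map (algebraMap k A)) *
      (1 : Matrix (Fin n) (Fin n) A[X]) a c
    rw [map_mul, Matrix.one_apply, Matrix.one_apply]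
    congr 1
    · change ((f i).map (algebraMap k A₀)).map (ι : A₀ →+* A) = _
      rw [Polynomial.map_map]
      congr 1
    · split_ifs <;> simp
  let ρ₀ : B →ₐ[k] Matrix (Fin n) (Fin n) A₀[X] :=
    ((AlgEquiv.ofInjective ιM hιM).symm : ιM.range →ₐ[k] _).comp (ρ.codRestrict ιM.range hr)
  have hρ₀ : ιM.comp ρ₀ = ρ := by
    ext1 b
    have := (AlgEquiv.ofInjective ιM hιM).apply_symm_apply ⟨ρ b, hr b⟩
    exact congrArg Subtype.val this
  have hρ₀t : ρ₀ t = (X : A₀[X]) • (1 : Matrix (Fin n) (Fin n) A₀[X]) := by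
    apply hιM
    have := AlgHom.congr_fun hρ₀ t
    rw [AlgHom.comp_apply] at this
    rw [this, hρ]
    ext1 a c
    simp only [ιM, AlgHom.mapMatrix_apply, Matrix.map_apply, Matrix.smul_apply, smul_eq_mul,
      Matrix.one_apply]
    split_ifs <;> simp
  have h0 := orb_span_top_of_finiteType t β hβ ρ₀ hρ₀t
  have h1 := congrArg (Ideal.map (Polynomial.mapAlgHom ι)) h0
  rw [Ideal.map_span, Ideal.map_top] at h1
  rw [eq_top_iff, ← h1]
  apply Ideal.span_mono
  rintro _ ⟨_, ⟨e, rfl⟩, rfl⟩
  refine ⟨fun i => (e i).map (ι : A₀ →+* A), ?_⟩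
  have := det_orb_map ι ρ₀ β e
  rw [show (Polynomial.mapAlgHom ι).mapMatrix.comp ρ₀ = ρ from hρ₀] at this
  exact this

include hβ in
/-- **S25-D5.**  `S` is a commutative ring with compatible maps from `A` and `B`, which is free over
`A[t]` on `β` (e.g. `S = A ⊗ B`), and `M` is an `S`-module which is free of rank `n` over
`A[t]`. Then `M` is invertible. -/
theorem invertible_chart {S M : Type*} [CommRing S] [AddCommGroup M] [Module S M]
    (α : A →+* S) (γ : B →+* S) (hαγ : ∀ c : k, α (algebraMap k A c) = γ (algebraMap k B c))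
    (hS : Function.Bijective fun f : Fin n → A[X] => ∑ i, (f i).eval₂ α (γ t) * γ (β i))
    (m : Fin n → M)
    (hM : Function.Bijective fun f : Fin n → A[X] => ∑ i, (f i).eval₂ α (γ t) • m i) :
    Module.Invertible S M := by
  classical
  let _ : Algebra A[X] S := (Polynomial.eval₂RingHom α (γ t)).toAlgebra
  let _ : Module A[X] M := Module.compHom M (Polynomial.eval₂RingHom α (γ t))
  have : IsScalarTower A[X] S M := IsScalarTower.of_algebraMap_smul fun _ _ => rfl
  have hsm : ∀ (p : A[X]) (x : M), p • x = (p.eval₂ α (γ t)) • x := fun _ _ => rfl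
  have hss : ∀ (p : A[X]) (x : S), p • x = (p.eval₂ α (γ t)) * x := fun _ _ => rfl
  let LS : (Fin n → A[X]) →ₗ[A[X]] S := Fintype.linearCombination A[X] fun i => γ (β i)
  let LM : (Fin n → A[X]) →ₗ[A[X]] M := Fintype.linearCombination A[X] m
  have hLS : Function.Bijective LS := by
    convert hS using 1
    ext f
    simp [LS, Fintype.linearCombination_apply, hss]
  have hLM : Function.Bijective LM := by
    convert hM using 1
    ext f
    simp [LM, Fintype.linearCombination_apply, hsm]
  let bS : Module.Basis (Fin n) A[X] S := Module.Basis.ofEquivFun (LinearEquiv.ofBijective LS hLS).symm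
  let bM : Module.Basis (Fin n) A[X] M := Module.Basis.ofEquivFun (LinearEquiv.ofBijective LM hLM).symm
  have hbS : ∀ j, bS j = γ (β j) := by
    intro j
    simp [bS, LS, Fintype.linearCombination_apply, Pi.single_apply, ite_smul]
  -- the representation
  let ρ₀ : B →+* Matrix (Fin n) (Fin n) A[X] :=
    ((LinearMap.toMatrixAlgEquiv bM : _ ≃ₐ[A[X]] _) : _ →+* _).comp
      ((Module.toModuleEnd A[X] (S := S) M).comp γ)
  have hρ₀ : ∀ b, ρ₀ b = LinearMap.toMatrix bM bM (Module.toModuleEnd A[X] (S := S) M (γ b)) :=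
    fun b => rfl
  let ρ : B →ₐ[k] Matrix (Fin n) (Fin n) A[X] :=
    { ρ₀ with
      commutes' := fun c => by
        change ρ₀ _ = _
        have h1 : (Module.toModuleEnd A[X] (S := S) M (γ (algebraMap k B c))) =
            (C (algebraMap k A c) : A[X]) • (1 : Module.End A[X] M) := by
          ext x
          change γ (algebraMap k B c) • x = (C (algebraMap k A c) : A[X]) • x
          rw [hsm, eval₂_C, hαγ]
        rw [hρ₀, h1, map_smul, LinearMap.toMatrix_one]
        rw [← Polynomial.algebraMap_eq, algebraMap_smul, ← Algebra.algebraMap_eq_smul_one]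
        exact (IsScalarTower.algebraMap_apply k A _ c).symm }
  have hρm : ∀ (b : B) (x : M), ρ b *ᵥ (bM.repr x) = bM.repr (γ b • x) := by
    intro b x
    change ρ₀ b *ᵥ _ = _
    rw [hρ₀, LinearMap.toMatrix_mulVec_repr]
    rfl
  have hρt : ρ t = (X : A[X]) • (1 : Matrix (Fin n) (Fin n) A[X]) := by
    change ρ₀ t = _
    have h1 : (Module.toModuleEnd A[X] (S := S) M (γ t)) = (X : A[X]) • (1 : Module.End A[X] M) := by
      ext x
      change γ t • x = (X : A[X]) • x
      rw [hsm, eval₂_X]
    rw [hρ₀, h1, map_smul, LinearMap.toMatrix_one]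
  have htop := orb_span_top t β hβ ρ hρt
  apply invertible_of_det bS bM
  rw [eq_top_iff, ← htop]
  apply Ideal.span_mono
  rintro _ ⟨e, rfl⟩
  refine ⟨bM.equivFun.symm e, ?_⟩
  change (orbitMat bS bM _).det = (orb ρ β e).det
  congr 1
  ext1 i j
  rw [orbitMat_apply, hbS, orb, Matrix.of_apply]
  have h2 : (bM.repr (bM.equivFun.symm e) : Fin n → A[X]) = e := by
    have := bM.equivFun.apply_symm_apply e
    rwa [Module.Basis.equivFun_apply] at this
  conv_rhs => rw [← h2]
  rw [hρm]

end Main

end Fermat.Agent.H98
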