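import Fermat.Agent.H94OrdDiff
import Fermat.Agent.H18Div

/-!
# Derivations and places in any characteristic (helper98, MZ-F1c)
-/

set_option autoImplicit false

noncomputable section

open AlgebraicCurve IsDedekindDomain WithZero IntermediateField KaehlerDifferential
open scoped IntermediateField.algebraAdjoinAdjoin
open Fermat.Agent.H94

namespace Fermat.Agent.H98

variable {K F : Type*} [Field K] [Field F] [Algebra K F]

/-- The order of a derivation is bounded below on a valuation ring. -/
theorem exists_der_bound {x : F} [FiniteDimensional K⟮x⟯ F] [Algebra.IsSeparable K⟮x⟯ F]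
    (hx : Transcendental K x) (D : Derivation K F F) (v : Place K F) {t : F} (ht : v.ord t = 1)
    (hxv : x ∈ v.toValuationSubring) :
    ∃ c : ℕ, ∀ f ∈ v.toValuationSubring, t ^ c * D f ∈ v.toValuationSubring := by
  classical
  have ht0 : t ≠ 0 := by rintro rfl; simp at ht
  have htmem : t ∈ v.toValuationSubring := mem_of_ord_nonneg v (by omega)
  have hded := H18.isDedekindDomain_intRing_sep (F := F) hx
  have hfrac := isFractionRing_intRing (K := K) (F := F) (x := x)
  have hfin := H18.finite_intRing_sep (F := F) hx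
  have hB : ∀ b : IntRing K x, algebraMap (IntRing K x) F b ∈ v.toValuationSubring := fun b =>
    mem_of_intRing hxv b
  obtain ⟨S, hS⟩ := hfin.fg_top
  have h1 : ∀ f : F, ∃ c : ℕ, ∀ c' ≥ c, t ^ c' * f ∈ v.toValuationSubring := by
    intro f
    refine ⟨(v.ord f).natAbs, fun c' hc' => ?_⟩
    rcases eq_or_ne f 0 with rfl | hf
    · simp
    apply mem_of_ord_nonneg
    rw [v.ord_mul (pow_ne_zero _ ht0) hf, ← zpow_natCast, v.ord_zpow, ht]
    omega
  choose cf hcf using h1
  let c := max (cf (D x)) (S.sup fun s => cf (D (s : F)))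
  have hc : ∀ b : IntRing K x, t ^ c * D (b : F) ∈ v.toValuationSubring := by
    intro b
    have hb : b ∈ Submodule.span (Algebra.adjoin K {x}) (S : Set (IntRing K x)) :=
      hS ▸ Submodule.mem_top
    induction hb using Submodule.span_induction with
    | mem s hs =>
      exact hcf _ _ ((Finset.le_sup (f := fun s : IntRing K x => cf (D (s : F))) hs).trans
        (le_max_right _ _))
    | zero => simp
    | add a b _ _ ha hb =>
      have : ((a + b : IntRing K x) : F) = (a : F) + (b : F) := rfl
      rw [this, map_add, mul_add]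
      exact add_mem ha hb
    | smul a b _ hb =>
      have : ((a • b : IntRing K x) : F) = (a : F) * (b : F) := rfl
      rw [this, Derivation.leibniz, smul_eq_mul, smul_eq_mul, mul_add]
      have ha1 : (a : F) ∈ v.toValuationSubring :=
        hB (algebraMap (Algebra.adjoin K {x}) (IntRing K x) a)
      have ha2 : t ^ c * D (a : F) ∈ v.toValuationSubring := by
        obtain ⟨a, ha⟩ := a
        rw [Algebra.adjoin_singleton_eq_range_aeval] at ha
        obtain ⟨p, rfl⟩ := ha
        show t ^ c * D (Polynomial.aeval x p) ∈ _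
        rw [Derivation.map_aeval, smul_eq_mul]
        have : t ^ c * (Polynomial.aeval x (Polynomial.derivative p) * D x) =
          Polynomial.aeval x (Polynomial.derivative p) * (t ^ c * D x) := by ring
        rw [this]
        exact mul_mem (aeval_mem v hxv _) (hcf _ _ (le_max_left _ _))
      refine add_mem ?_ ?_
      · have : t ^ c * ((a : F) * D (b : F)) = (a : F) * (t ^ c * D (b : F)) := by ring
        rw [this]
        exact mul_mem ha1 hb
      · have : t ^ c * ((b : F) * D (a : F)) = (b : F) * (t ^ c * D (a : F)) := by ring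
        rw [this]
        exact mul_mem (hB b) ha2
  refine ⟨c, fun f hf => ?_⟩
  obtain ⟨n, d, hnd⟩ := (primeBelow v hB).exists_primeCompl_mul_eq_of_integer f (by
    have h2 := ofHeightOneSpectrum_primeBelow v hB
    have h3 : f ∈ (Place.ofHeightOneSpectrum (K := K) (primeBelow v hB)).toValuationSubring := by
      rw [h2]; exact hf
    exact h3)
  have hd : (d : IntRing K x) ∉ (primeBelow v hB).asIdeal := d.2
  rw [mem_primeBelow_iff, not_or] at hd
  have hd0 : algebraMap (IntRing K x) F d ≠ 0 := by
    rw [ne_eq, map_eq_zero_iff _ (IsFractionRing.injective (IntRing K x) F)]; exact hd.1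
  have hordd : v.ord (algebraMap (IntRing K x) F d) = 0 :=
    le_antisymm (not_lt.mp hd.2) (ord_nonneg_of_mem v (hB _))
  have hinv : (algebraMap (IntRing K x) F d)⁻¹ ∈ v.toValuationSubring :=
    mem_of_ord_nonneg v (by rw [v.ord_inv, hordd, neg_zero])
  have h4 : D (algebraMap (IntRing K x) F n) =
      f * D (algebraMap (IntRing K x) F d) + algebraMap (IntRing K x) F d * D f := by
    rw [← hnd, Derivation.leibniz, smul_eq_mul, smul_eq_mul]
  have h5 : t ^ c * D f = (t ^ c * D (algebraMap (IntRing K x) F n) -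
      f * (t ^ c * D (algebraMap (IntRing K x) F d))) * (algebraMap (IntRing K x) F d)⁻¹ := by
    rw [h4]
    field_simp
    ring
  show t ^ c * D f ∈ _
  rw [h5]
  exact mul_mem (sub_mem (hc n) (mul_mem hf (hc d))) hinv

variable [IsAlgClosed K] [FunField K F]

theorem exists_der_approx (D : Derivation K F F) (v : Place K F) {t : F} (ht : v.ord t = 1)
    {c : ℕ} (hc : ∀ f ∈ v.toValuationSubring, t ^ c * D f ∈ v.toValuationSubring) {f : F}
    (hf : f ∈ v.toValuationSubring) (n : ℕ) :
    ∃ a ∈ v.toValuationSubring, ∃ b ∈ v.toValuationSubring, D f = a * D t + t ^ n * b := by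
  have ht0 : t ≠ 0 := by rintro rfl; simp at ht
  have htmem : t ∈ v.toValuationSubring := mem_of_ord_nonneg v (by omega)
  obtain ⟨p, g, hg, hfg⟩ := exists_poly_approx v ht hf (n + c)
  refine ⟨Polynomial.aeval t (Polynomial.derivative p) +
    ((n + c : ℕ) : F) * t ^ (n + c - 1) * g, ?_, t ^ c * D g, hc g hg, ?_⟩
  · exact add_mem (aeval_mem v htmem _)
      (mul_mem (mul_mem (natCast_mem _ _) (pow_mem htmem _)) hg)
  · rw [hfg, map_add, Derivation.map_aeval, Derivation.leibniz, Derivation.leibniz_pow]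
    simp only [smul_eq_mul, nsmul_eq_mul]
    ring

omit [IsAlgClosed K] [FunField K F] in
theorem ord_le_of_mem_span (v : Place K F) {a b c t : F} (ht : v.ord t = 1)
    (hb : b ∈ v.toValuationSubring) (hc : c ≠ 0) (ha : a ∈ v.toValuationSubring) {n : ℕ}
    (hn : v.ord c ≤ n) : (a * c + t ^ n * b) * c⁻¹ ∈ v.toValuationSubring := by
  have ht0 : t ≠ 0 := by rintro rfl; simp at ht
  have h1 : (a * c + t ^ n * b) * c⁻¹ = a + t ^ n * c⁻¹ * b := by
    field_simp
  rw [h1]
  refine add_mem ha (mul_mem (mem_of_ord_nonneg v ?_) hb)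
  rw [v.ord_mul (pow_ne_zero _ ht0) (inv_ne_zero hc), v.ord_inv, ← zpow_natCast, v.ord_zpow, ht]
  omega

/-- `D t ≠ 0` for a uniformizer `t`. -/
theorem der_unif_ne_zero (D : Derivation K F F) (v : Place K F) {t : F} (ht : v.ord t = 1)
    {c : ℕ} (hc : ∀ f ∈ v.toValuationSubring, t ^ c * D f ∈ v.toValuationSubring) {y : F}
    (hy : y ∈ v.toValuationSubring) (hDy : D y ≠ 0) : D t ≠ 0 := by
  intro h0
  have ht0 : t ≠ 0 := by rintro rfl; simp at ht
  obtain ⟨a, -, b, hb, hab⟩ := exists_der_approx D v ht hc hy ((v.ord (D y)).toNat + 1)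
  rw [h0, mul_zero, zero_add] at hab
  have hb0 : b ≠ 0 := by rintro rfl; rw [mul_zero] at hab; exact hDy hab
  have h1 := congrArg v.ord hab
  rw [v.ord_mul (pow_ne_zero _ ht0) hb0, ← zpow_natCast, v.ord_zpow, ht] at h1
  have h2 := ord_nonneg_of_mem v hb
  omega

/-- `d/dt` preserves the valuation ring. -/
theorem der_div_mem (D : Derivation K F F) (v : Place K F) {t : F} (ht : v.ord t = 1)
    {c : ℕ} (hc : ∀ f ∈ v.toValuationSubring, t ^ c * D f ∈ v.toValuationSubring)
    (hDt : D t ≠ 0) {f : F} (hf : f ∈ v.toValuationSubring) :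
    D f * (D t)⁻¹ ∈ v.toValuationSubring := by
  obtain ⟨a, ha, b, hb, hab⟩ := exists_der_approx D v ht hc hf (v.ord (D t)).toNat
  rw [hab]
  exact ord_le_of_mem_span v ht hb hDt ha (Int.self_le_toNat _)

/-- **Logarithmic derivatives have residue `ord`.** If `D h = φ h` where `φ / D t` is regular
then `ord h = 0` in `K`. -/
theorem ord_cast_eq_zero (D : Derivation K F F) (v : Place K F) {t : F} (ht : v.ord t = 1)
    {c : ℕ} (hc : ∀ f ∈ v.toValuationSubring, t ^ c * D f ∈ v.toValuationSubring)
    (hDt : D t ≠ 0) {h φ : F} (hh : h ≠ 0) (hφ : φ * (D t)⁻¹ ∈ v.toValuationSubring)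
    (hDh : D h = φ * h) : ((v.ord h : ℤ) : K) = 0 := by
  have ht0 : t ≠ 0 := by rintro rfl; simp at ht
  set n := v.ord h with hn
  let u := h * t ^ (-n)
  have hu0 : u ≠ 0 := mul_ne_zero hh (zpow_ne_zero _ ht0)
  have hu : v.ord u = 0 := by
    rw [v.ord_mul hh (zpow_ne_zero _ ht0), v.ord_zpow, ht]; omega
  have humem : u ∈ v.toValuationSubring := mem_of_ord_nonneg v hu.ge
  have huinv : u⁻¹ ∈ v.toValuationSubring := mem_of_ord_nonneg v (by rw [v.ord_inv, hu]; simp)
  have hyu : h = u * t ^ n := by
    show h = h * t ^ (-n) * t ^ n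
    rw [mul_assoc, ← zpow_add₀ ht0]; simp
  have hdu := der_div_mem D v ht hc hDt humem
  have h1 : (n : F) * t⁻¹ = φ * (D t)⁻¹ - D u * (D t)⁻¹ * u⁻¹ := by
    have h2 : D h = u * (n * t ^ (n - 1) * D t) + t ^ n * D u := by
      conv_lhs => rw [hyu]
      rw [Derivation.leibniz, Derivation.leibniz_zpow]
      simp only [smul_eq_mul, zsmul_eq_mul]
      ring
    rw [hDh] at h2
    rw [zpow_sub_one₀ ht0] at h2
    rw [hyu] at h2
    have h3 : t ^ n ≠ 0 := zpow_ne_zero _ ht0
    have h4 : φ * u = u * (n * t⁻¹ * D t) + D u := by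
      apply mul_right_cancel₀ h3
      linear_combination h2
    field_simp
    field_simp at h4
    linear_combination -h4
  have h5 : (n : F) * t⁻¹ ∈ v.toValuationSubring := by
    rw [h1]
    exact sub_mem hφ (mul_mem hdu huinv)
  by_contra hne
  have h6 : (n : F) = algebraMap K F (n : K) := by simp
  have h7 : (n : F) ≠ 0 := by
    rw [h6]
    exact (map_ne_zero _).mpr hne
  have h8 := ord_nonneg_of_mem v h5
  rw [v.ord_mul h7 (inv_ne_zero ht0), h6, H94.ord_algebraMap, v.ord_inv, ht] at h8
  omega

end Fermat.Agent.H98
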