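import Fermat.Agent.H98Div1
import Fermat.Agent.H34GR

/-!
# Reduction of differentials on residue discs (helper98, MZ-F1c)
-/

set_option autoImplicit false

noncomputable section

open AlgebraicCurve IsDedekindDomain WithZero IntermediateField KaehlerDifferential
open Fermat.Agent.H94

namespace Fermat.Agent.H98

section Zero

variable {K F : Type*} [Field K] [Field F] [Algebra K F] [CharZero K] [FunField K F]

theorem der_eq_dd (D : Derivation K F F) {t : F} (ht : Transcendental K t) (f : F) :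
    D f = dd ht f * D t := by
  have := FunField.finiteDimensional (F := F) ht
  have hsep := isSeparable_adjoin (K := K) (x := t)
  have h0 := derivation_eq_zero (x := t) (D - D t • dd ht) (by
    rw [Derivation.sub_apply, Derivation.smul_apply, dd_self, smul_eq_mul, mul_one, sub_self])
  have h1 := DFunLike.congr_fun h0 f
  rw [Derivation.sub_apply, Derivation.smul_apply, smul_eq_mul, Derivation.zero_apply,
    sub_eq_zero] at h1
  rw [h1, mul_comm]

/-- the order of `dt/dj` at a finite place -/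
theorem ord_der_unif [IsAlgClosed K] (D : Derivation K F F) {j : F} (hj : D j = 1)
    (P : Place K F) {t : F} (ht : P.ord t = 1) {c : K} (hc : P.ord (j - algebraMap K F c) ≠ 0) :
    P.ord (D t) = 1 - P.ord (j - algebraMap K F c) ∧ D t ≠ 0 := by
  have htr := transcendental_of_ord_eq_one ht
  have h1 := der_eq_dd D htr (j - algebraMap K F c)
  rw [map_sub, Derivation.map_algebraMap, sub_zero, hj] at h1
  obtain ⟨h2, h3⟩ := ord_dd P ht hc
  have h4 : D t ≠ 0 := right_ne_zero_of_mul_eq_one h1.symm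
  have h5 := congrArg P.ord h1
  rw [P.ord_one, P.ord_mul h3 h4, h2] at h5
  exact ⟨by omega, h4⟩

end Zero

section Red

variable {K F k E : Type*} [Field K] [Field F] [Algebra K F] [Field k] [Field E] [Algebra k E]
  [CharZero K] [FunField K F] [IsAlgClosed K]
  {R : H40.ReductionData K F k E} {r : Place K F → Place k E}

/-- compatible derivations -/
def DerCompat (R : H40.ReductionData K F k E) (D : Derivation K F F) (D' : Derivation k E E) :
    Prop :=
  ∀ x : R.B, ∃ y z : R.B, R.ρ z ≠ 0 ∧ D (x : F) * z = y ∧ D' (R.ρ x) * R.ρ z = R.ρ y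

omit [CharZero K] [FunField K F] [IsAlgClosed K] in
theorem derCompat_frac (D : Derivation K F F) (D' : Derivation k E E) {x y z : F} (hx : x ∈ R.B)
    (hy : y ∈ R.B) (hz : z ∈ R.B) (hdy : D y ∈ R.B) (hdz : D z ∈ R.B)
    (hρdy : R.ρ ⟨D y, hdy⟩ = D' (R.ρ ⟨y, hy⟩)) (hρdz : R.ρ ⟨D z, hdz⟩ = D' (R.ρ ⟨z, hz⟩))
    (hz0 : R.ρ ⟨z, hz⟩ ≠ 0) (hxz : x * z = y) :
    ∃ y' z' : R.B, R.ρ z' ≠ 0 ∧ D x * z' = y' ∧ D' (R.ρ ⟨x, hx⟩) * R.ρ z' = R.ρ y' := by
  have hxz' : (⟨x, hx⟩ : R.B) * ⟨z, hz⟩ = ⟨y, hy⟩ := Subtype.ext hxz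
  refine ⟨⟨D y, hdy⟩ * ⟨z, hz⟩ - ⟨y, hy⟩ * ⟨D z, hdz⟩, ⟨z, hz⟩ * ⟨z, hz⟩,
    by rw [map_mul]; exact mul_ne_zero hz0 hz0, ?_, ?_⟩
  · have h1 : D (x * z) = D y := by rw [hxz]
    rw [Derivation.leibniz, smul_eq_mul, smul_eq_mul] at h1
    show D x * (z * z) = D y * z - y * D z
    rw [← h1, ← hxz]
    ring
  · have h2 : R.ρ ⟨x, hx⟩ * R.ρ ⟨z, hz⟩ = R.ρ ⟨y, hy⟩ := by rw [← map_mul, hxz']
    have h1 : D' (R.ρ ⟨x, hx⟩ * R.ρ ⟨z, hz⟩) = D' (R.ρ ⟨y, hy⟩) := by rw [h2]
    rw [Derivation.leibniz, smul_eq_mul, smul_eq_mul] at h1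
    rw [map_sub, map_mul, map_mul, map_mul, hρdy, hρdz, ← h1, ← h2]
    ring

/-- Holomorphic differentials have regular reductions. -/
theorem ord_der_red_le [HasPrincipalDivisors K F] (hr : H34.GR.DivCompat R r)
    {D : Derivation K F F} {D' : Derivation k E E} (hD : DerCompat R D D') {j : F} (hj : D j = 1)
    {G : R.B} (hG : R.ρ G ≠ 0)
    (hGb : ∀ (P : Place K F) (c : K), 0 < P.ord (j - algebraMap K F c) →
      1 - P.ord (j - algebraMap K F c) ≤ P.ord (G : F))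
    {Q : Place k E} (hQj : ∀ P, r P = Q → 0 ≤ P.ord j) {t : R.B} (htQ : Q.ord (R.ρ t) = 1)
    (htreg : ∀ P, r P = Q → 0 ≤ P.ord (t : F)) (hDt : D' (R.ρ t) ≠ 0) :
    Q.ord (D' (R.ρ t)) ≤ Q.ord (R.ρ G) := by
  have hdF : ∀ v : Place K F, v.deg = 1 := fun v => H94.deg_eq_one v
  obtain ⟨y, z, hz, hyz, hρ⟩ := hD t
  have hy : R.ρ y ≠ 0 := by
    rw [← hρ]; exact mul_ne_zero hDt hz
  have hz0 : (z : F) ≠ 0 := R.ne_zero_of_ρ_ne_zero hz
  have hG0 : (G : F) ≠ 0 := R.ne_zero_of_ρ_ne_zero hG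
  have hjK : ∀ c : K, j - algebraMap K F c ≠ 0 := by
    intro c h0
    have h1 : D (j - algebraMap K F c) = 0 := by rw [h0, map_zero]
    rw [map_sub, Derivation.map_algebraMap, sub_zero, hj] at h1
    exact one_ne_zero h1
  have h1 := H34.GR.le_ord_red hr (x := G * z) (z := y)
    (by rw [map_mul]; exact mul_ne_zero hG hz) hy (Q := Q) 1 (fun P hP => by
      obtain ⟨a, -, haP, -⟩ := H34.GR.exists_coord hr hdF htQ htreg hP
      obtain ⟨c, hc⟩ := exists_sub_algebraMap_ord_pos P (mem_of_ord_nonneg P (hQj P hP))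
      have hc1 := hc.resolve_left (hjK c)
      have hcoe : ((t - R.const a : R.B) : F) = (t : F) - algebraMap K F (a : K) := rfl
      rw [hcoe] at haP
      obtain ⟨h2, h3⟩ := ord_der_unif D hj P haP hc1.ne'
      rw [map_sub, Derivation.map_algebraMap, sub_zero] at h2 h3
      have h4 := hGb P c hc1
      rw [← hyz, Subring.coe_mul, P.ord_mul h3 hz0, P.ord_mul hG0 hz0, h2]
      push_cast
      omega)
  rw [← hρ, map_mul, Q.ord_mul hDt hz, Q.ord_mul hG hz] at h1
  push_cast at h1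
  omega

end Red

end Fermat.Agent.H98
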