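import Fermat.Agent.H98Div2
import Fermat.Agent.H98Diff
import Fermat.Agent.H97InfH

/-!
# The derivation `d/dj` of the modular function fields and its reduction (helper98, MZ-F1c)
-/

set_option autoImplicit false

noncomputable section

open AlgebraicCurve IsDedekindDomain WithZero IntermediateField KaehlerDifferential ModularCurve
open Fermat.Agent.H94

namespace Fermat.Agent.H98

section Identify

/-- a copy of `LaurentSeries K` (avoids the module structure `HahnSeries.instModule`) -/
def LSc (K : Type*) [Field K] : Type _ := LaurentSeries K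

instance instFieldLSc (K : Type*) [Field K] : Field (LSc K) :=
  inferInstanceAs (Field (LaurentSeries K))

instance instAlgebraLSc (K : Type*) [Field K] : Algebra K (LSc K) :=
  inferInstanceAs (Algebra K (LaurentSeries K))

variable {K F : Type*} [Field K] [CharZero K] [Field F] [Algebra K F] [FunField K F]

/-- `d/dX` on a field of Laurent series -/
theorem map_dd_eq_ddX (φ : F →ₐ[K] LaurentSeries K) {X : F} (hX : Transcendental K X)
    (hθ : H1.thetaL K (φ X) ≠ 0) (f : F) : φ (dd hX f) = H1.ddX (φ X) (φ f) := by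
  have := FunField.finiteDimensional (F := F) hX
  have hsep := isSeparable_adjoin (K := K) (x := X)
  let ψ : F →+* LSc K := φ.toRingHom
  have hψ : ∀ f, ψ f = φ f := fun f => rfl
  let : Algebra F (LSc K) := ψ.toAlgebra
  have hsm : ∀ (f : F) (m : LSc K), f • m = ψ f * m := fun f m => rfl
  have hKs : ∀ (a : K) (m : LSc K), a • m = algebraMap K (LSc K) a * m := fun a m =>
    Algebra.smul_def a m
  have hst : IsScalarTower K F (LSc K) := IsScalarTower.of_algebraMap_eq fun a =>
    (φ.commutes a).symm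
  let D1 : Derivation K F (LSc K) := Derivation.mk'
    { toFun := fun f => ψ (dd hX f)
      map_add' := fun f g => by rw [map_add, map_add]
      map_smul' := fun a f => by
        rw [RingHom.id_apply, hKs, Derivation.map_smul, Algebra.smul_def, map_mul]
        congr 1
        exact φ.commutes a }
    (fun f g => by
      show ψ (dd hX (f * g)) = f • ψ (dd hX g) + g • ψ (dd hX f)
      rw [hsm, hsm, Derivation.leibniz, smul_eq_mul, smul_eq_mul, map_add, map_mul, map_mul])
  let δ : LSc K →+ LSc K := H1.ddX (φ X)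
  have hδmul : ∀ x y : LSc K, δ (x * y) = δ x * y + x * δ y := H1.ddX_mul (φ X)
  have hδalg : ∀ a : K, δ (algebraMap K (LSc K) a) = 0 := H1.ddX_algebraMap (φ X)
  let D2 : Derivation K F (LSc K) := Derivation.mk'
    { toFun := fun f => δ (ψ f)
      map_add' := fun f g => by rw [map_add, map_add]
      map_smul' := fun a f => by
        rw [RingHom.id_apply, hKs, Algebra.smul_def, map_mul, hδmul]
        have h1 : ψ (algebraMap K F a) = algebraMap K (LSc K) a := φ.commutes a
        rw [h1, hδalg, zero_mul, zero_add] }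
    (fun f g => by
      show δ (ψ (f * g)) = f • δ (ψ g) + g • δ (ψ f)
      rw [hsm, hsm, map_mul, hδmul]
      ring)
  have h0 : D1 - D2 = 0 := by
    apply derivation_eq_zero (x := X)
    show ψ (dd hX X) - δ (ψ X) = 0
    rw [dd_self, map_one, sub_eq_zero]
    exact (H1.ddX_self hθ).symm
  have h1 := DFunLike.congr_fun h0 f
  have h2 : ψ (dd hX f) - δ (ψ f) = 0 := h1
  exact sub_eq_zero.mp h2

end Identify

section CharP

variable {k : Type*} [Field k]

theorem ddX_mem_of_gen (r : ℕ) [Fact r.Prime] [CharP k r]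
    (κ : Subfield (LaurentSeries k)) {j : LaurentSeries k}
    (hj : j ∈ κ) (hθ : H1.thetaL k j ≠ 0)
    (hgen : κ ≤ Subfield.closure ((fun x => x ^ r) '' (κ : Set (LaurentSeries k)) ∪ {j})) :
    ∀ x ∈ κ, H1.ddX j x ∈ κ := by
  have hr : r.Prime := Fact.out
  have hchar : CharP (LaurentSeries k) r :=
    charP_of_injective_algebraMap (algebraMap k (LaurentSeries k)).injective r
  let S : Subfield (LaurentSeries k) :=
    { carrier := {x | x ∈ κ ∧ H1.ddX j x ∈ κ}
      mul_mem' := fun {x y} hx hy => ⟨mul_mem hx.1 hy.1, by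
        rw [H1.ddX_mul]
        exact add_mem (mul_mem hx.2 hy.1) (mul_mem hx.1 hy.2)⟩
      one_mem' := ⟨one_mem _, by rw [H1.ddX_apply, H1.thetaL_one, zero_div]; exact zero_mem _⟩
      add_mem' := fun {x y} hx hy => ⟨add_mem hx.1 hy.1, by
        rw [map_add]; exact add_mem hx.2 hy.2⟩
      zero_mem' := ⟨zero_mem _, by rw [map_zero]; exact zero_mem _⟩
      neg_mem' := fun {x} hx => ⟨neg_mem hx.1, by rw [map_neg]; exact neg_mem hx.2⟩
      inv_mem' := fun x hx => ⟨inv_mem hx.1, by
        by_cases h0 : x = 0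
        · rw [h0, inv_zero, map_zero]; exact zero_mem _
        · have h1 : H1.ddX j (x * x⁻¹) = 0 := by
            rw [mul_inv_cancel₀ h0, H1.ddX_apply, H1.thetaL_one, zero_div]
          rw [H1.ddX_mul] at h1
          have h2 : H1.ddX j x⁻¹ = - (H1.ddX j x * x⁻¹ * x⁻¹) := by
            field_simp at h1 ⊢
            linear_combination h1
          rw [h2]
          exact neg_mem (mul_mem (mul_mem hx.2 (inv_mem hx.1)) (inv_mem hx.1))⟩ }
  have hS : κ ≤ S := by
    refine hgen.trans (Subfield.closure_le.mpr ?_)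
    rintro x (⟨y, hy, rfl⟩ | hx)
    · refine ⟨pow_mem hy r, ?_⟩
      have h1 := der_pow (H1.ddX j) (H1.ddX_mul j) y r
      rw [CharP.cast_eq_zero, zero_mul, zero_mul] at h1
      change H1.ddX j (y ^ r) ∈ κ
      rw [h1]
      exact zero_mem _
    · rw [Set.mem_singleton_iff] at hx
      subst hx
      exact ⟨hj, by rw [H1.ddX_self hθ]; exact one_mem _⟩
  exact fun x hx => (hS hx).2

variable (k) in
/-- `d/dj` on the modular function field in characteristic `r` -/
def derJ (r : ℕ) [Fact r.Prime] [CharP k r] [IsAlgClosed k] (N : ℕ) [NeZero N]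
    (hN : (N : k) ≠ 0) :
    Derivation k (modularFunctionFieldFullC k N) (modularFunctionFieldFullC k N) :=
  H1.mkDer
    { toFun := fun x => ⟨H1.ddX (jqModC k) x, ddX_mem_of_gen r
        (modularFunctionFieldFullC k N).toSubfield (H33.jqModC_mem k N)
        thetaL_jqModC_ne_zero (H33.mem_closure_pow r N hN) x x.2⟩
      map_zero' := Subtype.ext (map_zero _)
      map_add' := fun x y => Subtype.ext (map_add (H1.ddX (jqModC k)) (x : LaurentSeries k) y) }
    (fun x y => Subtype.ext (H1.ddX_mul (jqModC k) (x : LaurentSeries k) y))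
    (fun c => Subtype.ext (H1.ddX_algebraMap (jqModC k) c))

theorem coe_derJ (r : ℕ) [Fact r.Prime] [CharP k r] [IsAlgClosed k] (N : ℕ) [NeZero N]
    (hN : (N : k) ≠ 0) (x : modularFunctionFieldFullC k N) :
    (derJ k r N hN x : LaurentSeries k) = H1.ddX (jqModC k) (x : LaurentSeries k) := rfl

end CharP

section Compat

variable {L : Type*} [Field L] [Algebra ℚ L] [CharZero L] [IsAlgClosed L] {A : ValuationSubring L}
  {k : Type*} [Field k] [IsAlgClosed k] {π : A →+* k} {N : ℕ} [NeZero N]

theorem exists_theta_unit (R : Type*) [CommRing R] : ∃ u : LaurentSeries R,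
    u * H1.thetaL R (jqModC R) = 1 := by
  obtain ⟨u, hu⟩ := isUnit_thetaL_jqModC_int
  refine ⟨coeffMap (Int.castRingHom R) ↑u⁻¹, ?_⟩
  rw [← coeffMap_jqModC (Int.castRingHom R), ← H1.coeffMap_thetaL, ← hu, ← map_mul,
    Units.inv_mul, map_one]

omit [Algebra ℚ L] [CharZero L] [IsAlgClosed L] [IsAlgClosed k] in
/-- the derivative of an integral series is integral -/
theorem exists_der_series (Y : LaurentSeries A) : ∃ dY : LaurentSeries A,
    coeffMap A.subtype dY = H1.ddX (jqModC L) (coeffMap A.subtype Y) ∧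
    coeffMap π dY = H1.ddX (jqModC k) (coeffMap π Y) := by
  obtain ⟨u, hu⟩ := exists_theta_unit A
  have key : ∀ {M : Type _} [Field M] (φ : A →+* M),
      coeffMap φ (H1.thetaL A Y * u) = H1.ddX (jqModC M) (coeffMap φ Y) := by
    intro M _ φ
    have h1 : coeffMap φ u * H1.thetaL M (jqModC M) = 1 := by
      rw [← coeffMap_jqModC φ, ← H1.coeffMap_thetaL, ← map_mul, hu, map_one]
    rw [map_mul, H1.coeffMap_thetaL, H1.ddX_apply, eq_div_iff (right_ne_zero_of_mul_eq_one h1),
      mul_assoc, h1, mul_one]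
  have key' : ∀ {M : Type _} [Field M] (φ : A →+* M),
      coeffMap φ (H1.thetaL A Y * u) = H1.ddX (jqModC M) (coeffMap φ Y) := by
    intro M _ φ
    have h1 : coeffMap φ u * H1.thetaL M (jqModC M) = 1 := by
      rw [← coeffMap_jqModC φ, ← H1.coeffMap_thetaL, ← map_mul, hu, map_one]
    rw [map_mul, H1.coeffMap_thetaL, H1.ddX_apply, eq_div_iff (right_ne_zero_of_mul_eq_one h1),
      mul_assoc, h1, mul_one]
  exact ⟨H1.thetaL A Y * u, key A.subtype, key' π⟩

/-- the derivation `d/dj` in characteristic zero -/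
def derJ0 [FunField L (laurentBaseChange L (modularFunctionFieldFull N))]
    {j : laurentBaseChange L (modularFunctionFieldFull N)} (hj : Transcendental L j) :
    Derivation L (laurentBaseChange L (modularFunctionFieldFull N))
      (laurentBaseChange L (modularFunctionFieldFull N)) := dd hj

omit [IsAlgClosed L] [NeZero N] in
theorem coe_derJ0 [FunField L (laurentBaseChange L (modularFunctionFieldFull N))]
    {j : laurentBaseChange L (modularFunctionFieldFull N)} (hj : Transcendental L j)
    (hjq : (j : LaurentSeries L) = jqModC L)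
    (x : laurentBaseChange L (modularFunctionFieldFull N)) :
    (derJ0 hj x : LaurentSeries L) = H1.ddX (jqModC L) (x : LaurentSeries L) := by
  have h := map_dd_eq_ddX (laurentBaseChange L (modularFunctionFieldFull N)).val hj (by
    show H1.thetaL L (j : LaurentSeries L) ≠ 0
    rw [hjq]; exact thetaL_jqModC_ne_zero) x
  rw [← hjq]
  exact h

theorem derCompat (r : ℕ) [Fact r.Prime] [CharP k r] (hN : (N : k) ≠ 0)
    (hπ : Function.Surjective π) [IsLocalHom π] (hdeg : H42.DegLE L k N)
    [FunField L (laurentBaseChange L (modularFunctionFieldFull N))]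
    {j : laurentBaseChange L (modularFunctionFieldFull N)} (hj : Transcendental L j)
    (hjq : (j : LaurentSeries L) = jqModC L) :
    DerCompat (H42.modReductionData A π N hπ hdeg) (derJ0 hj) (derJ k r N hN) := by
  set R := H42.modReductionData A π N hπ hdeg with hR
  set G := H42.modGauss A π N hπ hdeg with hG
  -- represented elements
  have hrep : ∀ Y : LaurentSeries A,
      ∀ hY : coeffMap A.subtype Y ∈ laurentBaseChange L (modularFunctionFieldFull N),
      ∀ hB : (⟨coeffMap A.subtype Y, hY⟩ : laurentBaseChange L (modularFunctionFieldFull N)) ∈ R.B,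
      ∃ h : derJ0 hj ⟨coeffMap A.subtype Y, hY⟩ ∈ R.B,
        R.ρ ⟨_, h⟩ = derJ k r N hN (R.ρ ⟨⟨coeffMap A.subtype Y, hY⟩, hB⟩) := by
    intro Y hY hB
    obtain ⟨dY, h1, h2⟩ := exists_der_series (L := L) (π := π) Y
    have h3 : coeffMap A.subtype dY = (derJ0 hj ⟨coeffMap A.subtype Y, hY⟩ :
        laurentBaseChange L (modularFunctionFieldFull N)) := by
      rw [coe_derJ0 hj hjq, h1]
    have hdY : coeffMap A.subtype dY ∈ laurentBaseChange L (modularFunctionFieldFull N) := by
      rw [h3]; exact SetLike.coe_mem _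
    have h4 : (⟨coeffMap A.subtype dY, hdY⟩ :
        laurentBaseChange L (modularFunctionFieldFull N)) =
        derJ0 hj ⟨coeffMap A.subtype Y, hY⟩ := Subtype.ext h3
    have hB' : (⟨coeffMap A.subtype dY, hdY⟩ :
        laurentBaseChange L (modularFunctionFieldFull N)) ∈ R.B := G.le_loc ⟨dY, rfl⟩
    have h5 := H42.modReductionData_ρ A π N hπ hdeg dY hdY
      (H42.coeffMap_mem_full A π N hπ hdeg dY hdY) hB'
    have h6 := H42.modReductionData_ρ A π N hπ hdeg Y hY
      (H42.coeffMap_mem_full A π N hπ hdeg Y hY) hB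
    have h7 : ∀ (z : laurentBaseChange L (modularFunctionFieldFull N)) (hz : z ∈ R.B),
        z = ⟨coeffMap A.subtype dY, hdY⟩ → R.ρ ⟨z, hz⟩ = R.ρ ⟨_, hB'⟩ := by
      rintro z hz rfl; rfl
    refine ⟨h4 ▸ hB', ?_⟩
    rw [h7 _ _ h4.symm]
    apply Subtype.ext
    rw [coe_derJ]
    have h8 := congrArg Subtype.val h5
    have h9 := congrArg Subtype.val h6
    change ((R.ρ _ : modularFunctionFieldFullC k N) : LaurentSeries k) = coeffMap π dY at h8
    change ((R.ρ _ : modularFunctionFieldFullC k N) : LaurentSeries k) = coeffMap π Y at h9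
    rw [h8, h9, h2]
  have hrep' : ∀ b : G.B, ∃ (hB : (b : laurentBaseChange L (modularFunctionFieldFull N)) ∈ R.B)
      (h : derJ0 hj (b : laurentBaseChange L (modularFunctionFieldFull N)) ∈ R.B),
      R.ρ ⟨_, hB⟩ = G.ρ b ∧ R.ρ ⟨_, h⟩ = derJ k r N hN (R.ρ ⟨_, hB⟩) := by
    rintro ⟨b, hb⟩
    have hB : b ∈ R.B := G.le_loc hb
    obtain ⟨Y, hY⟩ := id hb
    have hY2 : coeffMap A.subtype Y = (b : LaurentSeries L) := hY
    have hYm : coeffMap A.subtype Y ∈ laurentBaseChange L (modularFunctionFieldFull N) := by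
      rw [hY2]; exact b.2
    obtain rfl : (⟨coeffMap A.subtype Y, hYm⟩ :
      laurentBaseChange L (modularFunctionFieldFull N)) = b := Subtype.ext hY2
    obtain ⟨h, h'⟩ := hrep Y hYm hB
    exact ⟨hB, h, G.res_coe ⟨_, hb⟩, h'⟩
  rintro ⟨x, hx⟩
  obtain ⟨y, z, hz, hxz⟩ := id hx
  obtain ⟨hyB, hdy, hρy, hρdy⟩ := hrep' y
  obtain ⟨hzB, hdz, hρz, hρdz⟩ := hrep' z
  exact derCompat_frac _ _ hx hyB hzB hdy hdz hρdy hρdz (by rw [hρz]; exact hz) hxz

end Compat

end Fermat.Agent.H98
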