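import Fermat.Agent.H98Ev2
import Fermat.Agent.H98Calc

/-!
# S26-J11, part 3: the vanishing step (helper98)
-/

set_option autoImplicit false

noncomputable section

open AlgebraicCurve IntermediateField

namespace Fermat.Agent.H26

universe u

namespace AV

variable {K : Type u} [Field K] {𝒜 : AV K}

theorem fieldOver_ptOver {L₀ L : Type u} [Field L₀] [Field L] [Algebra K L₀] [Algebra K L]
    [Algebra L₀ L] [IsScalarTower K L₀ L] (x : 𝒜.Pt L) :
    fieldOver L₀ (ptOver L₀ x) = ⊤ := by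
  apply IntermediateField.map_injective (fieldOver L₀ x).val
  change (IntermediateField.adjoin L₀ (Set.range (𝒜.ev (ptOver L₀ x)))).map _ = _
  rw [IntermediateField.adjoin_map, ← AlgHom.fieldRange_eq_map, IntermediateField.fieldRange_val]
  have : (fieldOver L₀ x).val '' Set.range (𝒜.ev (ptOver L₀ x)) = Set.range (𝒜.ev x) := by
    ext z
    constructor
    · rintro ⟨_, ⟨w, rfl⟩, rfl⟩
      have hw : (w : 𝒜.F) ∈ 𝒜.dom x := by rw [← dom_ptOver L₀ x]; exact w.2
      refine ⟨⟨w, hw⟩, ?_⟩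
      rw [← val_coe, ← val_coe]
      exact (val_ptOver L₀ x w).symm
    · rintro ⟨w, rfl⟩
      have hw : (w : 𝒜.F) ∈ 𝒜.dom (ptOver L₀ x) := by rw [dom_ptOver L₀ x]; exact w.2
      refine ⟨_, ⟨⟨w, hw⟩, rfl⟩, ?_⟩
      rw [← val_coe, ← val_coe]
      exact val_ptOver L₀ x w
  rw [this]
  rfl

variable [IsAlgClosed K] {k E₀ L : Type u} [Field k] [Field E₀] [Field L] [Algebra K k]
  [Algebra K E₀] [Algebra K L] [Algebra k E₀] [Algebra k L] [Algebra E₀ L] [IsScalarTower K k E₀]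
  [IsScalarTower K k L] [IsScalarTower K E₀ L] [IsScalarTower k E₀ L] [IsAlgClosed k]
  [H3RR.IsFF k E₀]

/-- The vanishing step: a section which vanishes at sufficiently many specialisations of an
`n`-division point vanishes there. -/
theorem step_vanish (n : ℕ) (hn : (n : K) ≠ 0) (D : 𝒜.CDiv) {φ : 𝒜.F} (hφ : φ ∈ D.sections)
    (hquad : ∀ (E' : Type u) [Field E'] [Algebra K E'] [Algebra k E'] [IsScalarTower K k E']
      [H3RR.IsFF k E'] (Y : 𝒜.Pt E'), (n ^ 2 : ℤ) * D.ht k Y = D.ht k (n • Y))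
    (f₀ : 𝒜.Pt E₀) (P : 𝒜.Pt k)
    (hadd : D.ht k (f₀ + 𝒜.map (IsScalarTower.toAlgHom K k E₀) P) = D.ht k f₀)
    (x : 𝒜.Pt L) (hx : n • x = 𝒜.map (IsScalarTower.toAlgHom K E₀ L)
      (f₀ + 𝒜.map (IsScalarTower.toAlgHom K k E₀) P))
    (S₀ : Finset (Place k E₀))
    (hvan : ∀ c ∈ S₀, ∀ z : 𝒜.Pt k, n • z = redPt f₀ c + P → 𝒜.val z (φ * D.eqn (𝒜.dom z)) = 0)
    (hht : D.ht k f₀ < (n ^ 2 : ℤ) * S₀.card) :
    𝒜.val x (φ * D.eqn (𝒜.dom x)) = 0 := by
  classical
  obtain ⟨hfin, hsep⟩ := finite_separable_fieldOver E₀ n hn x _ hx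
  have t1 : IsScalarTower k E₀ (fieldOver E₀ x) := inferInstance
  have t2 : IsScalarTower K k (fieldOver E₀ x) :=
    IsScalarTower.of_algebraMap_eq fun c => Subtype.ext (IsScalarTower.algebraMap_apply K k L c)
  have hff : H3RR.IsFF k (fieldOver E₀ x) := isFF_of_finite k E₀ (fieldOver E₀ x)
  by_contra hne
  set x' := ptOver E₀ x with hx'
  have hnx' : n • x' = 𝒜.map (IsScalarTower.toAlgHom K E₀ (fieldOver E₀ x))
      (f₀ + 𝒜.map (IsScalarTower.toAlgHom K k E₀) P) := nsmul_ptOver E₀ n x _ hx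
  have hne' : 𝒜.val x' (φ * D.eqn (𝒜.dom x')) ≠ 0 := by
    intro h0
    apply hne
    rw [← dom_ptOver E₀ x, ← val_ptOver E₀ x, h0]
    rfl
  have hgen : fieldOver E₀ x' = ⊤ := fieldOver_ptOver x
  choose S hScard hSmem using fun c : Place k E₀ => exists_places_above n hn x' _ hnx' hgen c
  -- the number of places
  have hdisj : (S₀ : Set (Place k E₀)).PairwiseDisjoint S := by
    intro c _ c' _ hcc'
    rw [Function.onFun, Finset.disjoint_left]
    intro v hv hv'
    apply hcc'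
    apply Place.ext
    ext e
    rw [hSmem c v hv, hSmem c' v hv']
  have hcard : (S₀.biUnion S).card = S₀.card * Module.finrank E₀ (fieldOver E₀ x) := by
    rw [Finset.card_biUnion hdisj, Finset.sum_const_nat fun c _ => hScard c]
  have hle := D.card_le_ht k x' hφ hne' (S₀.biUnion S) (by
    intro v hv
    obtain ⟨c, hc, hvc⟩ := Finset.mem_biUnion.mp hv
    have h1 : n • redPt x' v = redPt f₀ c + P := by
      rw [← redPt_nsmul, hnx']
      have h2 := redPt_map (K := K) c v (IsScalarTower.toAlgHom K E₀ (fieldOver E₀ x)) (AlgHom.id K k)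
        (fun a => (IsScalarTower.algebraMap_apply k E₀ (fieldOver E₀ x) a).symm) (hSmem c v hvc)
        (f₀ + 𝒜.map (IsScalarTower.toAlgHom K k E₀) P)
      rw [h2, map_id, redPt_add, redPt_const]
    have h3 := hvan c hc (redPt x' v) h1
    rw [dom_redPt, val_redPt _ _ (CDiv.mem_sections.mp hφ (liftP x' v))] at h3
    intro hu
    have := hu.map (red K v)
    rw [h3] at this
    exact not_isUnit_zero this)
  have h1 := hquad (fieldOver E₀ x) x'
  rw [hnx', D.ht_finite k, hadd] at h1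
  rw [hcard] at hle
  have hd : (0 : ℤ) < Module.finrank E₀ (fieldOver E₀ x) := by
    exact_mod_cast (Module.finrank_pos (R := E₀) (M := fieldOver E₀ x))
  have hn2 : (0 : ℤ) < (n : ℤ) ^ 2 := by
    have : n ≠ 0 := by rintro rfl; simp at hn
    positivity
  push_cast at hle
  nlinarith [mul_lt_mul_of_pos_left hht hd, mul_le_mul_of_nonneg_left hle hn2.le]

end AV

end Fermat.Agent.H26
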