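import Fermat.Agent.H98Ev3
import Fermat.Agent.H26CE3

/-!
# S26-J11, part 4: genericity of translates of the generic point (helper98)
-/

set_option autoImplicit false

noncomputable section

open AlgebraicCurve IntermediateField Cardinal TensorProduct

namespace Fermat.Agent.H26

universe u

namespace AV

section trdeg

/-- a version of `injective_of_trdeg` with a bigger base field for `M` -/
theorem injective_of_trdeg' {K k B M : Type u} [Field K] [Field k] [Algebra K k] [CommRing B]
    [IsDomain B] [Algebra K B] [Field M] [Algebra K M] [Algebra k M] [IsScalarTower K k M]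
    (φ : B →ₐ[K] M) [Algebra.IsAlgebraic (Algebra.adjoin k (Set.range φ)) M]
    (hfin : Algebra.trdeg K B < ℵ₀) (hle : Algebra.trdeg K B ≤ Algebra.trdeg k M) :
    Function.Injective φ := by
  obtain ⟨u, -, hu, hub⟩ := exists_isTranscendenceBasis_between (R := k) (∅ : Set M) (Set.range φ)
    (Set.empty_subset _)
    ((algebraicIndependent_empty_iff ..).mpr <| FaithfulSMul.algebraMap_injective k M)
  have huK : AlgebraicIndependent K ((↑) : u → M) :=
    hub.1.restrictScalars (algebraMap K k).injective
  choose b hb using fun i : u => hu i.2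
  have hcomp : (φ ∘ b) = ((↑) : u → M) := funext hb
  have hbi : AlgebraicIndependent K b := by
    apply AlgebraicIndependent.of_comp φ
    rw [hcomp]
    exact huK
  have hbt : IsTranscendenceBasis K b := by
    apply hbi.isTranscendenceBasis_of_trdeg_le hfin
    rw [hub.cardinalMk_eq_trdeg]
    exact hle
  have hal := hbt.isAlgebraic
  rw [injective_iff_map_eq_zero]
  intro q hq
  by_contra hq0
  obtain ⟨r, hr, c, hc⟩ := (hal.1 q).exists_nonzero_dvd (mem_nonZeroDivisors_of_ne_zero hq0)
  apply hr
  obtain ⟨r, hrm⟩ := r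
  have hr' := hrm
  rw [Algebra.adjoin_range_eq_range_aeval] at hr'
  obtain ⟨p, rfl⟩ := hr'
  have h1 : φ (MvPolynomial.aeval b p) = 0 := by
    have : MvPolynomial.aeval b p = q * c := hc
    rw [this, map_mul, hq, zero_mul]
  have h2 : MvPolynomial.aeval ((↑) : u → M) p = 0 := by
    have h3 := MvPolynomial.comp_aeval_apply (f := b) φ p
    rw [h1] at h3
    rw [← hcomp]
    exact h3.symm
  have h3 : p = 0 := (algebraicIndependent_iff.mp huK) p h2
  apply Subtype.ext
  simp [h3]

end trdeg

variable {K : Type u} [Field K] {𝒜 : AV K}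

theorem isGeneric_of_trdeg {k L : Type u} [Field k] [Field L] [Algebra K k] [Algebra k L]
    [Algebra K L] [IsScalarTower K k L] (x : 𝒜.Pt L)
    (h : Algebra.trdeg K 𝒜.F ≤ Algebra.trdeg k (fieldOver k x)) : IsGeneric x := by
  have h2 : Algebra.IsAlgebraic (Algebra.adjoin k (Set.range (𝒜.ev (ptOver k x))))
      (fieldOver k x) := by
    have : Algebra.IsAlgebraic
        (IntermediateField.adjoin k (Set.range (𝒜.ev (ptOver k x)))) (fieldOver k x) := by
      have htop : IntermediateField.adjoin k (Set.range (𝒜.ev (ptOver k x))) = ⊤ :=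
        fieldOver_ptOver (L₀ := k) x
      rw [htop]
      refine ⟨fun z => ?_⟩
      exact isAlgebraic_algebraMap (⟨z, IntermediateField.mem_top⟩ :
        (⊤ : IntermediateField k (fieldOver k x)))
    exact isAlgebraic_adjoin _
  have h3 : IsGeneric (ptOver k x) := isGeneric_of_injective
    (injective_of_trdeg' (k := k) (𝒜.ev (ptOver k x)) ((trdeg_dom_le _).trans_lt (trdeg_F_lt 𝒜))
      ((trdeg_dom_le _).trans h))
  rw [← isGeneric_map (((fieldOver k x).val).restrictScalars K), map_ptOver] at h3
  exact h3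

/-- algebraic independence is preserved by constant field extension -/
theorem algebraicIndependent_map {K k F F' : Type u} [Field K] [Field k] [Field F] [Field F']
    [Algebra K k] [Algebra K F] [Algebra k F'] [Algebra F F'] [Algebra K F']
    [IsScalarTower K k F'] [IsScalarTower K F F'] [IsCE K k F F'] {ι : Type u} {t : ι → F}
    (ht : AlgebraicIndependent K t) :
    AlgebraicIndependent k fun i => algebraMap F F' (t i) := by
  classical
  -- linear independence of the monomials
  let e : (ι →₀ ℕ) → F := fun m => m.prod fun i n => t i ^ n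
  have he : LinearIndependent K e := by
    have h1 := (MvPolynomial.basisMonomials ι K).linearIndependent.map'
      (MvPolynomial.aeval t).toLinearMap (LinearMap.ker_eq_bot.mpr ht)
    have h2 : (⇑(MvPolynomial.aeval (R := K) t).toLinearMap ∘
        ⇑(MvPolynomial.basisMonomials ι K)) = e := by
      funext m
      simp [e, MvPolynomial.aeval_monomial]
    rwa [h2] at h1
  have he' := IsCE.linInd (k := K) (k' := k) (E' := F') e he
  rw [algebraicIndependent_iff]
  intro p hp
  let b := MvPolynomial.basisMonomials ι k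
  have h3 : MvPolynomial.aeval (fun i => algebraMap F F' (t i)) p =
      Finsupp.linearCombination k (fun m => algebraMap F F' (e m)) (b.repr p) := by
    conv_lhs => rw [← b.linearCombination_repr p]
    rw [Finsupp.linearCombination_apply, Finsupp.linearCombination_apply, Finsupp.sum,
      Finsupp.sum, map_sum]
    refine Finset.sum_congr rfl fun m _ => ?_
    rw [map_smul]
    congr 1
    simp [b, e, MvPolynomial.aeval_monomial, Finsupp.prod]
  rw [h3] at hp
  have h4 := (linearIndependent_iff.mp he') _ hp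
  exact b.repr.map_eq_zero_iff.mp h4

section eta

variable {k F' : Type u} [Field k] [Field F'] [Algebra K k] [Algebra k F'] [Algebra 𝒜.F F']
  [Algebra K F'] [IsScalarTower K k F'] [IsScalarTower K 𝒜.F F'] [IsCE K k 𝒜.F F']

variable (F') in
/-- the translate of the generic point by a point with values in a field of constants is generic -/
theorem isGeneric_add_eta (s : 𝒜.Pt k) :
    IsGeneric (𝒜.map (IsScalarTower.toAlgHom K k F') s +
      𝒜.map (IsScalarTower.toAlgHom K 𝒜.F F') 𝒜.η) := by
  set x := 𝒜.map (IsScalarTower.toAlgHom K k F') s +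
      𝒜.map (IsScalarTower.toAlgHom K 𝒜.F F') 𝒜.η with hx
  apply isGeneric_of_trdeg (k := k)
  obtain ⟨ι, t, ht⟩ := exists_isTranscendenceBasis' K 𝒜.F
  have hmem : ∀ w : 𝒜.F, algebraMap 𝒜.F F' w ∈ fieldOver k x := by
    intro w
    have h1 : 𝒜.map (((fieldOver k x).val).restrictScalars K) (ptOver k x -
        𝒜.map (IsScalarTower.toAlgHom K k (fieldOver k x)) s) =
        𝒜.map (IsScalarTower.toAlgHom K 𝒜.F F') 𝒜.η := by
      rw [map_sub, map_ptOver, map_map]
      have : (((fieldOver k x).val).restrictScalars K).comp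
          (IsScalarTower.toAlgHom K k (fieldOver k x)) = IsScalarTower.toAlgHom K k F' :=
        AlgHom.ext fun a => rfl
      rw [this, hx, add_sub_cancel_left]
    have h2 : algebraMap 𝒜.F F' w = ((𝒜.val (ptOver k x -
        𝒜.map (IsScalarTower.toAlgHom K k (fieldOver k x)) s) w : fieldOver k x) : F') := by
      have h3 := val_map_field (((fieldOver k x).val).restrictScalars K) (ptOver k x -
        𝒜.map (IsScalarTower.toAlgHom K k (fieldOver k x)) s) w
      rw [h1, val_map_eta] at h3
      exact h3
    rw [h2]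
    exact (𝒜.val (ptOver k x - 𝒜.map (IsScalarTower.toAlgHom K k (fieldOver k x)) s) w).2
  have hai : AlgebraicIndependent k fun i => (⟨algebraMap 𝒜.F F' (t i), hmem (t i)⟩ :
      fieldOver k x) := by
    apply AlgebraicIndependent.of_comp (fieldOver k x).val
    have hfin : AlgebraicIndependent k (fun i => algebraMap 𝒜.F F' (t i)) :=
      algebraicIndependent_map (K := K) (F := 𝒜.F) ht.1
    exact hfin
  rw [← ht.cardinalMk_eq_trdeg]
  exact hai.cardinalMk_le_trdeg

end eta

/-! ### evaluation homomorphisms -/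

section evOn

variable {R R' : Type u} [CommRing R] [Algebra K R] [IsLocalRing R] [CommRing R'] [Algebra K R']
  [IsLocalRing R']

/-- evaluation at a point, on a subring of its local ring -/
def evOn (Q : 𝒜.Pt R) (B : Subalgebra K 𝒜.F) (h : B ≤ 𝒜.dom Q) : B →ₐ[K] R where
  toFun w := 𝒜.val Q w
  map_one' := val_one Q
  map_mul' v w := val_mul (h v.2) (h w.2)
  map_zero' := val_zero Q
  map_add' v w := val_add (h v.2) (h w.2)
  commutes' c := val_algebraMap Q c

@[simp] theorem evOn_apply (Q : 𝒜.Pt R) (B : Subalgebra K 𝒜.F) (h : B ≤ 𝒜.dom Q) (w : B) :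
    evOn Q B h w = 𝒜.val Q w := rfl

theorem map_evOn_taut (P : 𝒜.Pt R) (Q : 𝒜.Pt R') (h : 𝒜.dom Q = 𝒜.dom P) :
    𝒜.map (evOn Q (𝒜.dom P) h.ge) (𝒜.taut P) = Q := by
  have hloc : IsLocalHom (evOn Q (𝒜.dom P) h.ge).toRingHom := by
    refine ⟨fun w hw => ?_⟩
    have hw' : IsUnit (𝒜.val Q w) := hw
    obtain ⟨h0, h1, h2⟩ := unitIn_of_isUnit_val (h.ge w.2) hw'
    refine IsUnit.of_mul_eq_one (⟨(w : 𝒜.F)⁻¹, h.le h2⟩ : 𝒜.dom P) ?_
    exact Subtype.ext (mul_inv_cancel₀ h0)
  refine ext_val ?_ fun w hw => ?_
  · rw [dom_map_of_isLocalHom, dom_taut, h]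
  · have hw' : w ∈ 𝒜.dom P := by
      rwa [dom_map_of_isLocalHom, dom_taut] at hw
    rw [map_taut_comp P _ hw', evOn_apply]

end evOn

/-- nonvanishing in a constant field extension -/
theorem tens_ne_zero {K k E E' R₀ : Type u} [Field K] [Field k] [Field E] [Field E']
    [Algebra K k] [Algebra K E] [Algebra k E'] [Algebra E E'] [Algebra K E']
    [IsScalarTower K k E'] [IsScalarTower K E E'] [IsCE K k E E'] [CommRing R₀] [Algebra K R₀]
    (ψ : R₀ →ₐ[K] E) {ι : Type u} [DecidableEq ι] (b : Module.Basis ι K k) (a : R₀ ⊗[K] k) (i : ι)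
    (h : ψ (TensorProduct.equivFinsuppOfBasisRight b a i) ≠ 0)
    (γ : R₀ ⊗[K] k →ₐ[K] E')
    (hγ : ∀ r c, γ (r ⊗ₜ c) = algebraMap E E' (ψ r) * algebraMap k E' c) :
    γ a ≠ 0 := by
  intro h0
  apply h
  have h1 := IsCE.linInd' (k := K) (E := E) (E' := E') b b.linearIndependent
  set c := TensorProduct.equivFinsuppOfBasisRight (M := R₀) b a with hc
  have h2 : a = c.sum fun i m => m ⊗ₜ[K] b i := by
    rw [← TensorProduct.equivFinsuppOfBasisRight_symm_apply, hc, LinearEquiv.symm_apply_apply]
  rw [h2, Finsupp.sum, map_sum] at h0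
  rw [linearIndependent_iff'] at h1
  by_cases hi : i ∈ c.support
  · refine h1 c.support (fun j => ψ (c j)) ?_ i hi
    rw [← h0]
    refine Finset.sum_congr rfl fun j _ => ?_
    rw [hγ, Algebra.smul_def]
  · rw [Finsupp.notMem_support_iff.mp hi, map_zero]

end AV

end Fermat.Agent.H26
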