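import Fermat.Agent.H98Ev4

/-!
# S26-J11, part 5: translates of functions (helper98)
-/

set_option autoImplicit false

noncomputable section

open AlgebraicCurve IntermediateField Cardinal TensorProduct

namespace Fermat.Agent.H26

universe u

namespace AV

variable {K : Type u} [Field K] {𝒜 : AV K}

section translate

variable {k : Type u} [Field k] [Algebra K k]

variable (𝒜 k) in
/-- evaluation at the origin and constants -/
def theta : 𝒜.dom (0 : 𝒜.Pt K) ⊗[K] k →ₐ[K] k :=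
  Algebra.TensorProduct.lift ((Algebra.ofId K k).comp (𝒜.ev 0)) (AlgHom.id K k)
    (fun _ _ => Commute.all _ _)

@[simp] theorem theta_tmul (r : 𝒜.dom (0 : 𝒜.Pt K)) (c : k) :
    theta 𝒜 k (r ⊗ₜ c) = algebraMap K k (𝒜.ev 0 r) * c := by
  simp [theta]

instance isPrime_ker_theta : (RingHom.ker (theta 𝒜 k)).IsPrime := RingHom.ker_isPrime _

variable (𝒜 k) in
/-- the local ring at the origin of the constant extension -/
def TS : Type u := Localization.AtPrime (RingHom.ker (theta 𝒜 k))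

instance : CommRing (TS 𝒜 k) :=
  inferInstanceAs (CommRing (Localization.AtPrime (RingHom.ker (theta 𝒜 k))))

instance : Algebra (𝒜.dom (0 : 𝒜.Pt K) ⊗[K] k) (TS 𝒜 k) :=
  inferInstanceAs (Algebra _ (Localization.AtPrime (RingHom.ker (theta 𝒜 k))))

instance : Algebra K (TS 𝒜 k) :=
  inferInstanceAs (Algebra K (Localization.AtPrime (RingHom.ker (theta 𝒜 k))))

instance : IsScalarTower K (𝒜.dom (0 : 𝒜.Pt K) ⊗[K] k) (TS 𝒜 k) :=
  inferInstanceAs (IsScalarTower K _ (Localization.AtPrime (RingHom.ker (theta 𝒜 k))))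

instance : IsLocalization.AtPrime (TS 𝒜 k) (RingHom.ker (theta 𝒜 k)) :=
  inferInstanceAs (IsLocalization.AtPrime (Localization.AtPrime (RingHom.ker (theta 𝒜 k))) _)

instance : IsLocalRing (TS 𝒜 k) :=
  inferInstanceAs (IsLocalRing (Localization.AtPrime (RingHom.ker (theta 𝒜 k))))

/-- extension of homomorphisms to the localisation -/
def liftS {M : Type u} [CommRing M] [Algebra K M] (γ : 𝒜.dom (0 : 𝒜.Pt K) ⊗[K] k →ₐ[K] M)
    (h : ∀ a, theta 𝒜 k a ≠ 0 → IsUnit (γ a)) : TS 𝒜 k →ₐ[K] M :=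
  IsLocalization.liftAlgHom (M := (RingHom.ker (theta 𝒜 k)).primeCompl) (f := γ)
    fun y => h y y.2

theorem liftS_algebraMap {M : Type u} [CommRing M] [Algebra K M]
    (γ : 𝒜.dom (0 : 𝒜.Pt K) ⊗[K] k →ₐ[K] M)
    (h : ∀ a, theta 𝒜 k a ≠ 0 → IsUnit (γ a)) (a : 𝒜.dom (0 : 𝒜.Pt K) ⊗[K] k) :
    liftS γ h (algebraMap _ (TS 𝒜 k) a) = γ a :=
  IsLocalization.lift_eq _ a

variable (𝒜 k) in
/-- the residue map of the local ring `TS` -/
def thetaS : TS 𝒜 k →ₐ[K] k := liftS (theta 𝒜 k) fun _ h => h.isUnit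

instance isLocalHom_thetaS : IsLocalHom (thetaS 𝒜 k).toRingHom := by
  refine IsLocalHom.of_surjective (thetaS 𝒜 k).toRingHom ?_
  intro c
  refine ⟨algebraMap _ (TS 𝒜 k) ((1 : 𝒜.dom (0 : 𝒜.Pt K)) ⊗ₜ[K] c), ?_⟩
  change thetaS 𝒜 k _ = c
  rw [thetaS, liftS_algebraMap, theta_tmul, map_one, map_one, one_mul]

variable (s : 𝒜.Pt k)

/-- the translate of the tautological point by a constant point -/
def YA : 𝒜.Pt (𝒜.dom (0 : 𝒜.Pt K) ⊗[K] k) :=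
  𝒜.map (Algebra.TensorProduct.includeLeft (R := K) (S := K)) (𝒜.taut (0 : 𝒜.Pt K)) +
    𝒜.map (Algebra.TensorProduct.includeRight (R := K)) s

def YS : 𝒜.Pt (TS 𝒜 k) := 𝒜.map (IsScalarTower.toAlgHom K _ (TS 𝒜 k)) (YA s)

theorem map_liftS_YS {M : Type u} [CommRing M] [Algebra K M]
    (γ : 𝒜.dom (0 : 𝒜.Pt K) ⊗[K] k →ₐ[K] M)
    (h : ∀ a, theta 𝒜 k a ≠ 0 → IsUnit (γ a)) :
    𝒜.map (liftS γ h) (YS s) = 𝒜.map (γ.comp (Algebra.TensorProduct.includeLeft (R := K) (S := K)))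
      (𝒜.taut (0 : 𝒜.Pt K)) + 𝒜.map (γ.comp (Algebra.TensorProduct.includeRight (R := K))) s := by
  have h1 : (liftS γ h).comp (IsScalarTower.toAlgHom K _ (TS 𝒜 k)) = γ :=
    AlgHom.ext fun a => liftS_algebraMap γ h a
  rw [YS, map_map, h1, YA, map_add, map_map, map_map]

theorem map_thetaS_YS : 𝒜.map (thetaS 𝒜 k) (YS s) = s := by
  rw [thetaS, map_liftS_YS]
  have h1 : (theta 𝒜 k).comp (Algebra.TensorProduct.includeRight (R := K)) = AlgHom.id K k := by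
    refine AlgHom.ext fun c => ?_
    change theta 𝒜 k (1 ⊗ₜ c) = c
    rw [theta_tmul, map_one, map_one, one_mul]
  have h2 : (theta 𝒜 k).comp (Algebra.TensorProduct.includeLeft (R := K) (S := K)) =
      (Algebra.ofId K k).comp (𝒜.ev 0) := by
    refine AlgHom.ext fun r => ?_
    change theta 𝒜 k (r ⊗ₜ 1) = _
    rw [theta_tmul, mul_one]
    rfl
  rw [h1, h2, map_id, ← map_map, map_ev_taut, map_zero, zero_add]

theorem dom_YS : 𝒜.dom (YS s) = 𝒜.dom s := by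
  conv_rhs => rw [← map_thetaS_YS s]
  exact (dom_map_of_isLocalHom (thetaS 𝒜 k) _).symm

theorem exists_rep_TS (σ : TS 𝒜 k) (hσ : σ ≠ 0) :
    ∃ a : 𝒜.dom (0 : 𝒜.Pt K) ⊗[K] k, a ≠ 0 ∧ ∀ {M : Type u} [Field M] [Algebra K M]
      (γ : 𝒜.dom (0 : 𝒜.Pt K) ⊗[K] k →ₐ[K] M) (h : ∀ a, theta 𝒜 k a ≠ 0 → IsUnit (γ a)),
      γ a ≠ 0 → liftS γ h σ ≠ 0 := by
  obtain ⟨⟨a, u⟩, hau⟩ := IsLocalization.surj (RingHom.ker (theta 𝒜 k)).primeCompl σ
  refine ⟨a, ?_, ?_⟩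
  · rintro rfl
    rw [map_zero] at hau
    exact hσ ((IsLocalization.map_units (TS 𝒜 k) u).mul_left_eq_zero.mp hau)
  · intro M _ _ γ h ha h0
    apply ha
    have h1 := congrArg (liftS γ h) hau
    rw [map_mul, h0, zero_mul, liftS_algebraMap] at h1
    exact h1.symm

end translate

section translate2

variable {k E E' : Type u} [Field k] [Field E] [Field E'] [Algebra K k] [Algebra K E]
  [Algebra K E'] [Algebra k E'] [Algebra E E'] [IsScalarTower K k E'] [IsScalarTower K E E']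

variable (k E') in
/-- functions and constants -/
def gam (ψ : 𝒜.dom (0 : 𝒜.Pt K) →ₐ[K] E) : 𝒜.dom (0 : 𝒜.Pt K) ⊗[K] k →ₐ[K] E' :=
  Algebra.TensorProduct.lift ((IsScalarTower.toAlgHom K E E').comp ψ)
    (IsScalarTower.toAlgHom K k E') (fun _ _ => Commute.all _ _)

@[simp] theorem gam_tmul (ψ : 𝒜.dom (0 : 𝒜.Pt K) →ₐ[K] E) (r : 𝒜.dom (0 : 𝒜.Pt K)) (c : k) :
    gam k E' ψ (r ⊗ₜ c) = algebraMap E E' (ψ r) * algebraMap k E' c := by
  simp [gam]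

theorem map_gam (ψ : 𝒜.dom (0 : 𝒜.Pt K) →ₐ[K] E)
    (h : ∀ a, theta 𝒜 k a ≠ 0 → IsUnit (gam k E' ψ a)) (s : 𝒜.Pt k) :
    𝒜.map (liftS (gam k E' ψ) h) (YS s) =
      𝒜.map (IsScalarTower.toAlgHom K E E') (𝒜.map ψ (𝒜.taut (0 : 𝒜.Pt K))) +
      𝒜.map (IsScalarTower.toAlgHom K k E') s := by
  rw [map_liftS_YS]
  have h1 : (gam k E' ψ).comp (Algebra.TensorProduct.includeRight (R := K)) =
      IsScalarTower.toAlgHom K k E' := by
    refine AlgHom.ext fun c => ?_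
    change gam k E' ψ (1 ⊗ₜ[K] c) = algebraMap k E' c
    rw [gam_tmul, map_one, map_one, one_mul]
  have h2 : (gam k E' ψ).comp (Algebra.TensorProduct.includeLeft (R := K) (S := K)) =
      (IsScalarTower.toAlgHom K E E').comp ψ := by
    refine AlgHom.ext fun r => ?_
    change gam k E' ψ (r ⊗ₜ[K] 1) = algebraMap E E' (ψ r)
    rw [gam_tmul, map_one, mul_one]
  rw [h1, h2, ← map_map]

theorem val_translate (ψ : 𝒜.dom (0 : 𝒜.Pt K) →ₐ[K] E)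
    (h : ∀ a, theta 𝒜 k a ≠ 0 → IsUnit (gam k E' ψ a)) (s : 𝒜.Pt k) {φ : 𝒜.F}
    (hφ : φ ∈ 𝒜.dom s) :
    𝒜.val (𝒜.map (IsScalarTower.toAlgHom K E E') (𝒜.map ψ (𝒜.taut (0 : 𝒜.Pt K))) +
      𝒜.map (IsScalarTower.toAlgHom K k E') s) φ = liftS (gam k E' ψ) h (𝒜.val (YS s) φ) := by
  rw [← map_gam ψ h s, val_map (by rwa [dom_YS])]

theorem gam_ne_zero [IsCE K k E E'] (ψ : 𝒜.dom (0 : 𝒜.Pt K) →ₐ[K] E) {ι : Type u} [DecidableEq ι]
    (b : Module.Basis ι K k) (a : 𝒜.dom (0 : 𝒜.Pt K) ⊗[K] k) (i : ι)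
    (h : ψ (TensorProduct.equivFinsuppOfBasisRight b a i) ≠ 0) : gam k E' ψ a ≠ 0 := by
  exact tens_ne_zero ψ b a i h (gam k E' ψ) fun r c => gam_tmul ψ r c

theorem exists_coord_ne_zero {ι : Type u} [DecidableEq ι] (b : Module.Basis ι K k)
    {a : 𝒜.dom (0 : 𝒜.Pt K) ⊗[K] k} (ha : a ≠ 0) :
    ∃ i, TensorProduct.equivFinsuppOfBasisRight b a i ≠ 0 := by
  by_contra hcon
  push Not at hcon
  apply ha
  rw [← (TensorProduct.equivFinsuppOfBasisRight (M := 𝒜.dom (0 : 𝒜.Pt K)) b).map_eq_zero_iff]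
  exact Finsupp.ext hcon

end translate2

theorem val_YS_ne_zero [IsAlgClosed K] {k : Type u} [Field k] [Algebra K k] (s : 𝒜.Pt k) {φ : 𝒜.F}
    (hφ : φ ∈ 𝒜.dom s) (h0 : φ ≠ 0) : 𝒜.val (YS s) φ ≠ 0 := by
  classical
  obtain ⟨F', _, _, aK, ak, aF, _, _, _, tk, tF, hCE⟩ := exists_CE K K k 𝒜.F
  have hgam : ∀ a, theta 𝒜 k a ≠ 0 → IsUnit (gam k F' (𝒜.dom (0 : 𝒜.Pt K)).val a) := by
    intro a ha
    have ha0 : a ≠ 0 := by rintro rfl; exact ha (map_zero _)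
    obtain ⟨i, hi⟩ := exists_coord_ne_zero (Module.Free.chooseBasis K k) ha0
    refine IsUnit.mk0 _ (gam_ne_zero _ (Module.Free.chooseBasis K k) a i ?_)
    exact fun h => hi (Subtype.ext h)
  intro h1
  have h2 := val_translate (E' := F') (𝒜.dom (0 : 𝒜.Pt K)).val hgam s hφ
  rw [h1, map_zero, map_val_taut, add_comm] at h2
  exact h0 (isGeneric_iff.mp (isGeneric_add_eta F' s) φ (by
    rw [isGeneric_add_eta F' s]; exact Algebra.mem_top) h2)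

/-- the nonvanishing criterion for translates -/
theorem exists_coeff [IsAlgClosed K] {k : Type u} [Field k] [Algebra K k] (s : 𝒜.Pt k) {φ : 𝒜.F}
    (hφ : φ ∈ 𝒜.dom s) (h0 : φ ≠ 0) :
    ∃ a : 𝒜.dom (0 : 𝒜.Pt K), a ≠ 0 ∧ ∀ {E E' : Type u} [Field E] [Field E'] [Algebra K E]
      [Algebra K E'] [Algebra k E'] [Algebra E E'] [IsScalarTower K k E'] [IsScalarTower K E E']
      [IsCE K k E E'] (ψ : 𝒜.dom (0 : 𝒜.Pt K) →ₐ[K] E)
      (_ : ∀ a, theta 𝒜 k a ≠ 0 → IsUnit (gam k E' ψ a)) (_ : ψ a ≠ 0),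
      𝒜.val (𝒜.map (IsScalarTower.toAlgHom K E E') (𝒜.map ψ (𝒜.taut (0 : 𝒜.Pt K))) +
        𝒜.map (IsScalarTower.toAlgHom K k E') s) φ ≠ 0 := by
  classical
  obtain ⟨a, ha, hprop⟩ := exists_rep_TS (𝒜.val (YS s) φ) (val_YS_ne_zero s hφ h0)
  obtain ⟨i, hi⟩ := exists_coord_ne_zero (Module.Free.chooseBasis K k) ha
  refine ⟨_, hi, ?_⟩
  intro E E' _ _ _ _ _ _ _ _ _ ψ h hψ
  rw [val_translate ψ h s hφ]
  exact hprop _ h (gam_ne_zero ψ (Module.Free.chooseBasis K k) a i hψ)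

end AV

end Fermat.Agent.H26
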