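import Fermat.Agent.H98Ev5

/-!
# S26-J11, part 6: curves through the origin and the tower of fields (helper98)
-/

set_option autoImplicit false

noncomputable section

open AlgebraicCurve IntermediateField Cardinal TensorProduct

namespace Fermat.Agent.H26

universe u

/-- a constant field extension of `E/K` -/
structure CED (K k E : Type u) [Field K] [Field k] [Field E] [Algebra K k] [Algebra K E] where
  E' : Type u
  [field : Field E']
  [algK : Algebra K E']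
  [algk : Algebra k E']
  [algE : Algebra E E']
  [tk : IsScalarTower K k E']
  [tE : IsScalarTower K E E']
  [ce : IsCE K k E E']

attribute [instance] CED.field CED.algK CED.algk CED.algE CED.tk CED.tE CED.ce

/-- a choice of constant field extension -/
def ced (K k E : Type u) [Field K] [Field k] [Field E] [Algebra K k] [Algebra K E]
    [IsAlgClosed K] : CED K k E :=
  Classical.choice (by
    obtain ⟨F', _, _, aK, ak, aF, _, _, _, tk, tF, hCE⟩ := exists_CE K K k E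
    exact ⟨⟨F'⟩⟩)

namespace AV

variable {K : Type u} [Field K] [IsAlgClosed K] {𝒜 : AV K}

omit [IsAlgClosed K] in
variable (𝒜) in
/-- A curve through the origin, defined over `K` -/
structure Curve0 where
  E : Type u
  [fieldE : Field E]
  [algE : Algebra K E]
  [ff : H3RR.IsFF K E]
  c : Place K E
  f : 𝒜.Pt E
  π : (plV K c).toSubalgebra →ₐ[K] K
  map_lift : 𝒜.map π (𝒜.lift (plV K c) f) = 0

attribute [instance] Curve0.fieldE Curve0.algE Curve0.ff

theorem Curve0.redPt_eq (C : Curve0 𝒜) : redPt C.f C.c = 0 := by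
  have h1 : C.π = red K C.c := by
    have l1 : IsLocalHom C.π.toRingHom := by
      refine IsLocalHom.of_surjective C.π.toRingHom fun c => ⟨algebraMap K _ c, ?_⟩
      exact C.π.commutes c
    apply algHom_ext_place
    refine AlgHom.ext fun c => ?_
    rw [show c = algebraMap K K c from rfl, AlgHom.commutes, AlgHom.commutes]
  have h2 := C.map_lift
  rw [h1] at h2
  exact h2

section curve

variable {k E E' : Type u} [Field k] [Field E] [Field E'] [Algebra K k] [Algebra K E]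
  [Algebra K E'] [Algebra k E'] [Algebra E E'] [IsScalarTower K k E'] [IsScalarTower K E E']
  [IsCE K k E E'] [IsAlgClosed k] [H3RR.IsFF K E] [H3RR.IsFF k E']

theorem redPt_pl (f : 𝒜.Pt E) (c : Place K E) :
    redPt (𝒜.map (IsScalarTower.toAlgHom K E E') f) (IsCE.pl k E' c) =
      𝒜.map (Algebra.ofId K k) (redPt f c) := by
  refine redPt_map (K := K) c (IsCE.pl k E' c) (IsScalarTower.toAlgHom K E E') (Algebra.ofId K k)
    (fun a => ?_) (fun x => ?_) f
  · change algebraMap E E' (algebraMap K E a) = algebraMap k E' (algebraMap K k a)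
    rw [← IsScalarTower.algebraMap_apply, ← IsScalarTower.algebraMap_apply]
  · exact (IsCE.algebraMap_mem_plRing_iff (k' := k) (E' := E')).symm

/-- the sum of a curve and a constant point -/
def addC (f : 𝒜.Pt E) (s : 𝒜.Pt k) : 𝒜.Pt E' :=
  𝒜.map (IsScalarTower.toAlgHom K E E') f + 𝒜.map (IsScalarTower.toAlgHom K k E') s

theorem redPt_addC (f : 𝒜.Pt E) (s : 𝒜.Pt k) (c : Place K E) (h : redPt f c = 0) :
    redPt (addC (E' := E') f s) (IsCE.pl k E' c) = s := by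
  rw [addC, redPt_add, redPt_pl, h, map_zero, zero_add, redPt_const]

theorem dom_le_dom_addC (f : 𝒜.Pt E) (s : 𝒜.Pt k) (c : Place K E) (h : redPt f c = 0) :
    𝒜.dom s ≤ 𝒜.dom (addC (E' := E') f s) := by
  conv_lhs => rw [← redPt_addC (E' := E') f s c h, dom_redPt]
  exact dom_liftP_le _ _

theorem val_eq_zero_of_addC (f : 𝒜.Pt E) (s : 𝒜.Pt k) (c : Place K E) (h : redPt f c = 0)
    {φ : 𝒜.F} (hφ : φ ∈ 𝒜.dom s) (h0 : 𝒜.val (addC (E' := E') f s) φ = 0) : 𝒜.val s φ = 0 := by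
  have h1 : φ ∈ 𝒜.dom (liftP (addC (E' := E') f s) (IsCE.pl k E' c)) := by
    rw [← dom_redPt, redPt_addC f s c h]
    exact hφ
  have h2 := val_redPt (addC (E' := E') f s) (IsCE.pl k E' c) h1
  rw [redPt_addC f s c h] at h2
  rw [h2]
  have h3 : 𝒜.val (liftP (addC (E' := E') f s) (IsCE.pl k E' c)) φ = 0 := by
    apply Subtype.ext
    have h4 := val_lift (plV K (IsCE.pl k E' c)) (addC (E' := E') f s) h1
    rw [h0] at h4
    exact h4
  rw [h3, map_zero]

theorem dom_zero_le {f : 𝒜.Pt E} {c : Place K E} (h : redPt f c = 0) :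
    𝒜.dom (0 : 𝒜.Pt K) ≤ 𝒜.dom f := by
  rw [← h, dom_redPt]
  exact dom_liftP_le _ _

theorem map_evOn_curve {f : 𝒜.Pt E} {c : Place K E} (h : redPt f c = 0) :
    𝒜.map (evOn f (𝒜.dom (0 : 𝒜.Pt K)) (dom_zero_le h)) (𝒜.taut (0 : 𝒜.Pt K)) = f := by
  have hd : 𝒜.dom (liftP f c) = 𝒜.dom (0 : 𝒜.Pt K) := by rw [← dom_redPt, h]
  have h1 := map_evOn_taut (0 : 𝒜.Pt K) (liftP f c) hd
  have h2 : evOn f (𝒜.dom (0 : 𝒜.Pt K)) (dom_zero_le h) =
      ((plV K c).toSubalgebra.val).comp (evOn (liftP f c) (𝒜.dom (0 : 𝒜.Pt K)) hd.ge) := by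
    refine AlgHom.ext fun w => ?_
    exact (val_lift (plV K c) f (hd.ge w.2)).symm
  rw [h2, ← map_map, h1]
  exact map_lift 𝒜 (plV K c) f

theorem red_restr_pl (c : Place K E) (hv : ∀ x, x ∈ (plV K c).toSubalgebra →
      IsScalarTower.toAlgHom K E E' x ∈ (plV K (IsCE.pl k E' c)).toSubalgebra) :
    (red K (IsCE.pl k E' c)).comp (restr (IsScalarTower.toAlgHom K E E') (plV K c)
      (plV K (IsCE.pl k E' c)) hv) = (Algebra.ofId K k).comp (red K c) := by
  have hloc : IsLocalHom (restr (IsScalarTower.toAlgHom K E E') (plV K c)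
      (plV K (IsCE.pl k E' c)) hv).toRingHom := isLocalHom_restr _ _ _ fun x =>
    (IsCE.algebraMap_mem_plRing_iff (k' := k) (E' := E')).symm
  have l1 : IsLocalHom ((red K (IsCE.pl k E' c)).comp (restr (IsScalarTower.toAlgHom K E E')
      (plV K c) (plV K (IsCE.pl k E' c)) hv)).toRingHom :=
    RingHom.isLocalHom_comp (red K (IsCE.pl k E' c)).toRingHom (restr
      (IsScalarTower.toAlgHom K E E') (plV K c) (plV K (IsCE.pl k E' c)) hv).toRingHom
  have l2 : IsLocalHom ((Algebra.ofId K k).comp (red K c)).toRingHom :=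
    RingHom.isLocalHom_comp (Algebra.ofId K k).toRingHom (red K c).toRingHom
  apply algHom_ext_place
  refine AlgHom.ext fun a => ?_
  rw [show a = algebraMap K K a from rfl, AlgHom.commutes, AlgHom.commutes]

theorem isUnit_gam_curve {f : 𝒜.Pt E} {c : Place K E} (h : redPt f c = 0) 
    (a : 𝒜.dom (0 : 𝒜.Pt K) ⊗[K] k) (ha : theta 𝒜 k a ≠ 0) :
    IsUnit (gam k E' (evOn f (𝒜.dom (0 : 𝒜.Pt K)) (dom_zero_le h)) a) := by
  have hd : 𝒜.dom (liftP f c) = 𝒜.dom (0 : 𝒜.Pt K) := by rw [← dom_redPt, h]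
  have hv : ∀ x, x ∈ (plV K c).toSubalgebra →
      IsScalarTower.toAlgHom K E E' x ∈ (plV K (IsCE.pl k E' c)).toSubalgebra := fun x hx =>
    (IsCE.algebraMap_mem_plRing_iff (k' := k) (E' := E')).mpr hx
  let γ' : 𝒜.dom (0 : 𝒜.Pt K) ⊗[K] k →ₐ[K] (plV K (IsCE.pl k E' c)).toSubalgebra :=
    Algebra.TensorProduct.lift ((restr (IsScalarTower.toAlgHom K E E') (plV K c)
      (plV K (IsCE.pl k E' c)) hv).comp (evOn (liftP f c) (𝒜.dom (0 : 𝒜.Pt K)) hd.ge))
      (cst K (IsCE.pl k E' c)) (fun _ _ => Commute.all _ _)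
  have h1 : ∀ a, ((γ' a : (plV K (IsCE.pl k E' c)).toSubalgebra) : E') =
      gam k E' (evOn f (𝒜.dom (0 : 𝒜.Pt K)) (dom_zero_le h)) a := by
    intro a
    have h2 : ((plV K (IsCE.pl k E' c)).toSubalgebra.val).comp γ' =
        gam k E' (evOn f (𝒜.dom (0 : 𝒜.Pt K)) (dom_zero_le h)) := by
      apply Algebra.TensorProduct.ext
      · refine AlgHom.ext fun r => ?_
        change ((γ' (r ⊗ₜ[K] 1) : (plV K (IsCE.pl k E' c)).toSubalgebra) : E') =
          gam k E' (evOn f (𝒜.dom (0 : 𝒜.Pt K)) (dom_zero_le h)) (r ⊗ₜ[K] 1)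
        rw [gam_tmul, map_one, mul_one, Algebra.TensorProduct.lift_tmul, map_one, mul_one]
        change algebraMap E E' _ = _
        congr 1
        exact val_lift (plV K c) f (hd.ge r.2)
      · refine AlgHom.ext fun r => ?_
        change ((γ' (1 ⊗ₜ[K] r) : (plV K (IsCE.pl k E' c)).toSubalgebra) : E') =
          gam k E' (evOn f (𝒜.dom (0 : 𝒜.Pt K)) (dom_zero_le h)) (1 ⊗ₜ[K] r)
        rw [gam_tmul, map_one, map_one, one_mul, Algebra.TensorProduct.lift_tmul, map_one, one_mul]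
        rfl
    exact AlgHom.congr_fun h2 a
  have h3 : (red K (IsCE.pl k E' c)).comp γ' = theta 𝒜 k := by
    apply Algebra.TensorProduct.ext
    · refine AlgHom.ext fun r => ?_
      change red K (IsCE.pl k E' c) (γ' (r ⊗ₜ[K] 1)) = theta 𝒜 k (r ⊗ₜ[K] 1)
      rw [theta_tmul, mul_one, Algebra.TensorProduct.lift_tmul, map_one, mul_one]
      have h5 := AlgHom.congr_fun (red_restr_pl (k := k) (E' := E') c hv)
        (evOn (liftP f c) (𝒜.dom (0 : 𝒜.Pt K)) hd.ge r)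
      refine h5.trans ?_
      change algebraMap K k (red K c (𝒜.val (liftP f c) r)) = _
      rw [← val_redPt f c (hd.ge r.2), h, val_coe]
    · refine AlgHom.ext fun r => ?_
      change red K (IsCE.pl k E' c) (γ' (1 ⊗ₜ[K] r)) = theta 𝒜 k (1 ⊗ₜ[K] r)
      rw [theta_tmul, map_one, map_one, one_mul, Algebra.TensorProduct.lift_tmul, map_one,
        one_mul, red_cst]
  have h4 : IsUnit (γ' a) := by
    apply isUnit_of_map_unit (red K (IsCE.pl k E' c)).toRingHom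
    change IsUnit (((red K (IsCE.pl k E' c)).comp γ') a)
    rw [h3]
    exact ha.isUnit
  rw [← h1]
  exact h4.map (plV K (IsCE.pl k E' c)).toSubalgebra.val

theorem val_addC_ne_zero (s : 𝒜.Pt k) {φ : 𝒜.F} (hφ : φ ∈ 𝒜.dom s) (h0 : φ ≠ 0) :
    ∃ a : 𝒜.dom (0 : 𝒜.Pt K), a ≠ 0 ∧ ∀ {E E' : Type u} [Field E] [Field E'] [Algebra K E]
      [Algebra K E'] [Algebra k E'] [Algebra E E'] [IsScalarTower K k E'] [IsScalarTower K E E']
      [IsCE K k E E'] [H3RR.IsFF K E] (f : 𝒜.Pt E) (c : Place K E) (_ : redPt f c = 0)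
      (_ : 𝒜.val f a ≠ 0), 𝒜.val (addC (E' := E') f s) φ ≠ 0 := by
  obtain ⟨a, ha, hprop⟩ := exists_coeff s hφ h0
  refine ⟨a, ha, ?_⟩
  intro E E' _ _ _ _ _ _ _ _ _ _ f c hfc hfa
  have hff : H3RR.IsFF k E' := IsCE.isFF K k E E'
  have h1 := hprop (E' := E') (evOn f (𝒜.dom (0 : 𝒜.Pt K)) (dom_zero_le hfc))
    (isUnit_gam_curve hfc) hfa
  rw [map_evOn_curve hfc] at h1
  exact h1

end curve

/-! ### the tower -/

variable (𝒜) in
/-- a level of the tower -/
structure Lev where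
  k : Type u
  [field : Field k]
  [alg : Algebra K k]
  [closed : IsAlgClosed k]
  s : 𝒜.Pt k

attribute [instance] Lev.field Lev.alg Lev.closed

variable (𝒜) in
/-- the bottom level -/
def Lev.base : Lev 𝒜 := ⟨K, 0⟩

/-- the function field used in the next level -/
abbrev Lev.EE (ℓ : Lev 𝒜) (C : Curve0 𝒜) : Type u := (ced K ℓ.k C.E).E'

instance (ℓ : Lev 𝒜) (C : Curve0 𝒜) : H3RR.IsFF ℓ.k (ℓ.EE C) := IsCE.isFF K ℓ.k C.E (ℓ.EE C)

/-- the next level -/
def Lev.step (ℓ : Lev 𝒜) (C : Curve0 𝒜) : Lev 𝒜 :=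
  ⟨AlgebraicClosure (ℓ.EE C), 𝒜.map (IsScalarTower.toAlgHom K (ℓ.EE C)
    (AlgebraicClosure (ℓ.EE C))) (addC C.f ℓ.s)⟩

theorem Lev.dom_le_step (ℓ : Lev 𝒜) (C : Curve0 𝒜) : 𝒜.dom ℓ.s ≤ 𝒜.dom (ℓ.step C).s := by
  rw [Lev.step, dom_map_field]
  exact dom_le_dom_addC _ _ C.c C.redPt_eq

theorem Lev.val_eq_zero_of_step (ℓ : Lev 𝒜) (C : Curve0 𝒜) {φ : 𝒜.F} (hφ : φ ∈ 𝒜.dom ℓ.s)
    (h0 : 𝒜.val (ℓ.step C).s φ = 0) : 𝒜.val ℓ.s φ = 0 := by
  rw [Lev.step, val_map_field] at h0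
  exact val_eq_zero_of_addC C.f ℓ.s C.c C.redPt_eq hφ ((map_eq_zero _).mp h0)

/-- existence of a curve in the direction of which a function does not vanish -/
theorem Lev.exists_step {g : ℕ} (hG : 𝒜.Good g) (ℓ : Lev 𝒜) {φ : 𝒜.F} (hφ : φ ∈ 𝒜.dom ℓ.s)
    (h0 : φ ≠ 0) : ∃ C : Curve0 𝒜, 𝒜.val (ℓ.step C).s φ ≠ 0 := by
  obtain ⟨a, ha, hprop⟩ := val_addC_ne_zero ℓ.s hφ h0
  obtain ⟨E, fE, aE, ff, c, f, π, hπ, hfa⟩ := hG.exists_curve a a.2 (fun h => ha (Subtype.ext h))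
  let C : Curve0 𝒜 := ⟨E, c, f, π, hπ⟩
  refine ⟨C, ?_⟩
  rw [Lev.step, val_map_field]
  have h1 : 𝒜.val (addC (E' := ℓ.EE C) C.f ℓ.s) φ ≠ 0 := hprop C.f C.c C.redPt_eq hfa
  exact (map_ne_zero _).mpr h1

/-- the tower of fields and points defined by a list of curves -/
def tower : List (Curve0 𝒜) → Lev 𝒜
  | [] => Lev.base 𝒜
  | C :: l => (tower l).step C

@[simp] theorem tower_nil : tower ([] : List (Curve0 𝒜)) = Lev.base 𝒜 := rfl

@[simp] theorem tower_cons (C : Curve0 𝒜) (l : List (Curve0 𝒜)) :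
    tower (C :: l) = (tower l).step C := rfl

theorem dom_zero_le_tower (l : List (Curve0 𝒜)) : 𝒜.dom (0 : 𝒜.Pt K) ≤ 𝒜.dom (tower l).s := by
  induction l with
  | nil => exact le_rfl
  | cons C l ih => exact ih.trans (Lev.dom_le_step _ _)

/-- the prime of functions vanishing on the sum of the curves -/
def pr (l : List (Curve0 𝒜)) : Ideal (𝒜.dom (0 : 𝒜.Pt K)) :=
  RingHom.ker (evOn (tower l).s (𝒜.dom (0 : 𝒜.Pt K)) (dom_zero_le_tower l))

theorem mem_pr {l : List (Curve0 𝒜)} {w : 𝒜.dom (0 : 𝒜.Pt K)} :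
    w ∈ pr l ↔ 𝒜.val (tower l).s w = 0 := Iff.rfl

instance isPrime_pr (l : List (Curve0 𝒜)) : (pr l).IsPrime := RingHom.ker_isPrime _

theorem pr_cons_le (C : Curve0 𝒜) (l : List (Curve0 𝒜)) : pr (C :: l) ≤ pr l := fun w hw =>
  mem_pr.mpr (Lev.val_eq_zero_of_step _ C (dom_zero_le_tower l w.2) (mem_pr.mp hw))

theorem exists_pr_lt {g : ℕ} (hG : 𝒜.Good g) (l : List (Curve0 𝒜)) (h : pr l ≠ ⊥) :
    ∃ C, pr (C :: l) < pr l := by
  obtain ⟨w, hw, hw0⟩ := Submodule.exists_mem_ne_zero_of_ne_bot h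
  obtain ⟨C, hC⟩ := Lev.exists_step hG (tower l) (φ := w) (dom_zero_le_tower l w.2)
    (fun h => hw0 (Subtype.ext h))
  exact ⟨C, lt_of_le_of_ne (pr_cons_le C l) fun h => hC (mem_pr.mp (h ▸ hw))⟩

end AV

end Fermat.Agent.H26
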