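import Fermat.Agent.H98Ev6

/-!
# S26-J11, part 7: a generic point on a sum of at most `g` curves (helper98)
-/

set_option autoImplicit false

noncomputable section

open AlgebraicCurve IntermediateField Cardinal TensorProduct

namespace Fermat.Agent.H26

universe u

namespace AV

variable {K : Type u} [Field K] [IsAlgClosed K] {𝒜 : AV K}

theorem exists_chain {g : ℕ} (hG : 𝒜.Good g) (m : ℕ) :
    (∃ l : List (Curve0 𝒜), l.length ≤ m ∧ pr l = ⊥) ∨
      ∃ (l : List (Curve0 𝒜)) (p : LTSeries (PrimeSpectrum (𝒜.dom (0 : 𝒜.Pt K)))),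
        l.length = m ∧ pr l ≠ ⊥ ∧ p.length = m ∧ p.head = ⟨pr l, isPrime_pr l⟩ := by
  induction m with
  | zero =>
    by_cases h : pr ([] : List (Curve0 𝒜)) = ⊥
    · exact Or.inl ⟨[], le_rfl, h⟩
    · exact Or.inr ⟨[], RelSeries.singleton _ ⟨pr [], isPrime_pr []⟩, rfl, h, rfl, rfl⟩
  | succ m ih =>
    rcases ih with ⟨l, hl, h⟩ | ⟨l, p, hl, h, hp, hh⟩
    · exact Or.inl ⟨l, hl.trans (Nat.le_succ m), h⟩
    · obtain ⟨C, hC⟩ := exists_pr_lt hG l h
      by_cases h' : pr (C :: l) = ⊥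
      · exact Or.inl ⟨C :: l, by simp [hl], h'⟩
      · refine Or.inr ⟨C :: l, p.cons ⟨pr (C :: l), isPrime_pr _⟩ ?_, by simp [hl], h', ?_, ?_⟩
        · rw [hh]
          exact hC
        · rw [RelSeries.cons_length, hp]
        · rw [RelSeries.head_cons]

theorem exists_list {g : ℕ} (hG : 𝒜.Good g) :
    ∃ l : List (Curve0 𝒜), l.length ≤ g ∧ pr l = ⊥ := by
  rcases exists_chain hG g with h | ⟨l, p, -, h, hp, hh⟩
  · exact h
  · exfalso
    have hb : (⟨⊥, Ideal.isPrime_bot⟩ : PrimeSpectrum (𝒜.dom (0 : 𝒜.Pt K))) < p.head := by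
      rw [hh]
      exact show (⊥ : Ideal (𝒜.dom (0 : 𝒜.Pt K))) < pr l from bot_lt_iff_ne_bot.mpr h
    have h1 := Order.LTSeries.length_le_krullDim (p.cons _ hb)
    have h2 := h1.trans hG.dim_le
    rw [RelSeries.cons_length, hp] at h2
    have h3 : ((g + 1 : ℕ) : WithBot ℕ∞) ≤ ((g : ℕ) : WithBot ℕ∞) := h2
    have h4 : g + 1 ≤ g := by exact_mod_cast h3
    omega

theorem isGeneric_tower {l : List (Curve0 𝒜)} (h : pr l = ⊥) : IsGeneric (tower l).s := by
  rw [isGeneric_iff]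
  intro w hw h0
  have h1 : w ∈ 𝒜.dom (𝒜.map (𝒜.dom (0 : 𝒜.Pt K)).val (𝒜.taut 0)) := by
    rw [map_val_taut, dom_eta]; exact Algebra.mem_top
  obtain ⟨a, ha, b, hb, hu, e⟩ := mem_dom_map_iff.mp h1
  rw [dom_taut] at ha hb
  have hb0 : b ≠ 0 := by
    rintro rfl
    rw [val_zero, map_zero] at hu
    exact not_isUnit_zero hu
  have h2 : 𝒜.val (tower l).s a = 0 := by
    rw [← e, val_mul hw (dom_zero_le_tower l hb), h0, zero_mul]
  have h3 : (⟨a, ha⟩ : 𝒜.dom (0 : 𝒜.Pt K)) ∈ pr l := mem_pr.mpr h2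
  rw [h, Ideal.mem_bot] at h3
  have h4 : a = 0 := congrArg Subtype.val h3
  rw [h4] at e
  exact (mul_eq_zero.mp e).resolve_right hb0

omit [IsAlgClosed K] in
theorem exists_extend {F F₁ L : Type u} [Field F] [Field F₁] [Field L] [Algebra K F]
    [Algebra K F₁] [Algebra K L] [IsAlgClosed L] (ν : F →ₐ[K] F₁) (hν : ν.toRingHom.Finite)
    (s : F →ₐ[K] L) : ∃ β : F₁ →ₐ[K] L, β.comp ν = s := by
  let _ : Algebra F F₁ := ν.toRingHom.toAlgebra
  let _ : Algebra F L := s.toRingHom.toAlgebra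
  have hfin : Module.Finite F F₁ := hν
  let β : F₁ →ₐ[F] L := IsAlgClosed.lift
  refine ⟨{ β.toRingHom with commutes' := fun c => ?_ }, ?_⟩
  · have h1 : algebraMap K F₁ c = ν (algebraMap K F c) := (ν.commutes c).symm
    change β (algebraMap K F₁ c) = _
    rw [h1]
    exact (β.commutes (algebraMap K F c)).trans (s.commutes c)
  · refine AlgHom.ext fun w => ?_
    exact β.commutes w

omit [IsAlgClosed K] in
/-- division of generic points over algebraically closed fields -/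
theorem exists_generic_nsmul_eq (n : ℕ) (hn : (n : K) ≠ 0) {L : Type u} [Field L] [Algebra K L]
    [IsAlgClosed L] (s : 𝒜.Pt L) (hs : IsGeneric s) :
    ∃ x : 𝒜.Pt L, IsGeneric x ∧ n • x = s := by
  obtain ⟨β, hβ⟩ := exists_extend (𝒜.nStar n hn) (finite_nStar 𝒜 n hn) (evHom s hs)
  refine ⟨𝒜.map β 𝒜.η, isGeneric_map_eta β, ?_⟩
  rw [← map_nsmul, ← map_nStar_eta n hn, map_map, hβ, map_evHom_eta]

end AV

end Fermat.Agent.H26
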