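import Mathlib

set_option autoImplicit false

/-!
# A Runge type argument for the quartic `z⁴ - 6 A z² - 8 B z - 3 A²`

If for all large `k` the quartic has an integral root at the parameter `τ = M p ^ k` which is
congruent modulo `p` to a fixed simple root, then the quartic has a polynomial root.
-/

open Polynomial

namespace Fermat.Agent.H98

/-- the (weighted homogeneous) 3-division quartic -/
def quart {R : Type*} [CommRing R] (A B z : R) : R :=
  z ^ 4 - 6 * A * z ^ 2 - 8 * B * z - 3 * A ^ 2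

section size

/-- polynomial growth of integer polynomials on positive integers -/
theorem exists_abs_eval_le (P : ℤ[X]) (d : ℕ) (hd : P.natDegree ≤ d) :
    ∃ C : ℤ, 0 ≤ C ∧ ∀ x : ℤ, 1 ≤ x → |P.eval x| ≤ C * x ^ d := by
  refine ⟨∑ i ∈ Finset.range (d + 1), |P.coeff i|, Finset.sum_nonneg fun i _ => abs_nonneg _,
    fun x hx => ?_⟩
  rw [Polynomial.eval_eq_sum_range' (Nat.lt_succ_of_le hd) x, Finset.sum_mul]
  refine (Finset.abs_sum_le_sum_abs _ _).trans (Finset.sum_le_sum fun i hi => ?_)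
  rw [abs_mul]
  have h0 : (0 : ℤ) ≤ x := by omega
  rw [abs_of_nonneg (pow_nonneg h0 i)]
  refine mul_le_mul_of_nonneg_left ?_ (abs_nonneg _)
  exact pow_le_pow_right₀ hx (Nat.lt_succ_iff.mp (Finset.mem_range.mp hi))

/-- size of a root of the quartic -/
theorem abs_root_le (A B z C r : ℤ) (hC : 1 ≤ C) (hr : 1 ≤ r)
    (hA : |A| ≤ C * r ^ 2) (hB : |B| ≤ C * r ^ 3) (hz : quart A B z = 0) :
    |z| ≤ 18 * C * r := by
  by_contra hlt
  push Not at hlt
  set y := |z| with hy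
  have hy0 : 0 < y := lt_of_le_of_lt (by positivity) hlt
  have h4 : y ^ 4 = 6 * A * z ^ 2 + 8 * B * z + 3 * A ^ 2 := by
    have : y ^ 4 = z ^ 4 := by
      rw [hy]; exact Even.pow_abs (by decide) z
    rw [this]
    unfold quart at hz
    linarith
  have hz2 : z ^ 2 = y ^ 2 := by rw [hy, sq_abs]
  have hle : y ^ 4 ≤ 6 * |A| * y ^ 2 + 8 * |B| * y + 3 * |A| ^ 2 := by
    have h1 : A * z ^ 2 ≤ |A| * y ^ 2 := by
      rw [hz2]; exact mul_le_mul_of_nonneg_right (le_abs_self A) (by positivity)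
    have h2 : B * z ≤ |B| * y := by
      calc B * z ≤ |B * z| := le_abs_self _
        _ = |B| * y := by rw [abs_mul, hy]
    have h3 : A ^ 2 = |A| ^ 2 := (sq_abs A).symm
    rw [h4]; nlinarith
  have hA2 : |A| ^ 2 ≤ (C * r ^ 2) ^ 2 := pow_le_pow_left₀ (abs_nonneg _) hA 2
  have hle2 : y ^ 4 ≤ 6 * (C * r ^ 2) * y ^ 2 + 8 * (C * r ^ 3) * y + 3 * (C * r ^ 2) ^ 2 := by
    have e1 : 6 * |A| * y ^ 2 ≤ 6 * (C * r ^ 2) * y ^ 2 := by
      have := mul_le_mul_of_nonneg_right hA (show (0:ℤ) ≤ y ^ 2 by positivity)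
      nlinarith
    have e2 : 8 * |B| * y ≤ 8 * (C * r ^ 3) * y := by
      have := mul_le_mul_of_nonneg_right hB (show (0:ℤ) ≤ y by positivity)
      nlinarith
    linarith
  -- set s = C r, s > 0, s < y / 18
  set s := C * r with hs
  have hs1 : 1 ≤ s := by nlinarith
  have hsy : 18 * s < y := by
    have : 18 * C * r = 18 * s := by rw [hs]; ring
    linarith [hlt]
  have b1 : C * r ^ 2 ≤ s ^ 2 := by
    rw [hs, mul_pow]
    have : C ≤ C ^ 2 := by nlinarith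
    exact mul_le_mul_of_nonneg_right this (by positivity)
  have b2 : C * r ^ 3 ≤ s ^ 3 := by
    rw [hs, mul_pow]
    have : C ≤ C ^ 3 := by nlinarith [sq_nonneg C, mul_pos (show (0:ℤ) < C by omega) (show (0:ℤ) < C by omega)]
    exact mul_le_mul_of_nonneg_right this (by positivity)
  have b0 : (0:ℤ) ≤ C * r ^ 2 := by positivity
  have hle3 : y ^ 4 ≤ 6 * s ^ 2 * y ^ 2 + 8 * s ^ 3 * y + 3 * s ^ 4 := by
    have e1 : 6 * (C * r ^ 2) * y ^ 2 ≤ 6 * s ^ 2 * y ^ 2 := by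
      have := mul_le_mul_of_nonneg_right b1 (show (0:ℤ) ≤ y ^ 2 by positivity)
      nlinarith
    have e2 : 8 * (C * r ^ 3) * y ≤ 8 * s ^ 3 * y := by
      have := mul_le_mul_of_nonneg_right b2 (show (0:ℤ) ≤ y by positivity)
      nlinarith
    have e3 : 3 * (C * r ^ 2) ^ 2 ≤ 3 * s ^ 4 := by
      have := pow_le_pow_left₀ b0 b1 2
      nlinarith [this]
    linarith
  -- contradiction
  have c1 : 324 * s ^ 2 ≤ y ^ 2 := by nlinarith
  have c2 : 6 * s ^ 2 * y ^ 2 * 54 ≤ y ^ 4 := by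
    have := mul_le_mul_of_nonneg_right c1 (show (0:ℤ) ≤ y ^ 2 by positivity)
    nlinarith
  have c3 : 18 * s ^ 3 * y ≤ s ^ 2 * y ^ 2 := by
    have h := mul_le_mul_of_nonneg_right hsy.le (show (0:ℤ) ≤ s ^ 2 * y by positivity)
    nlinarith
  have c4 : 324 * s ^ 4 ≤ s ^ 2 * y ^ 2 := by
    have h := mul_le_mul_of_nonneg_right c1 (show (0:ℤ) ≤ s ^ 2 by positivity)
    nlinarith
  have c5 : 0 < s ^ 2 * y ^ 2 := by positivity
  nlinarith

end size

section lifting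

theorem quart_taylor {R : Type*} [CommRing R] (A B P c d : R) :
    quart (c ^ 2 * A) (c ^ 3 * B) (c * P - d) = c ^ 4 * quart A B P
      - d * c ^ 3 * (4 * P ^ 3 - 12 * A * P - 8 * B)
      + d ^ 2 * (6 * (c * P) ^ 2 - 6 * (c ^ 2 * A) - 4 * (c * P) * d + d ^ 2) := by
  unfold quart; ring

theorem quart_scale {R : Type*} [CommRing R] (A B P c : R) :
    quart (c ^ 2 * A) (c ^ 3 * B) (c * P) = c ^ 4 * quart A B P := by
  unfold quart; ring

theorem exists_lift (A B : ℤ[X]) (z₀ N : ℤ) (h0 : quart (A.eval 0) (B.eval 0) z₀ = 0)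
    (hN : N = 4 * z₀ ^ 3 - 12 * A.eval 0 * z₀ - 8 * B.eval 0) (n : ℕ) :
    ∃ (P : ℤ[X]) (e : ℕ), P.natDegree ≤ n ∧ P.eval 0 = N ^ e * z₀ ∧
      X ^ (n + 1) ∣ quart ((C N ^ e) ^ 2 * A) ((C N ^ e) ^ 3 * B) P := by
  induction n with
  | zero =>
    refine ⟨C z₀, 0, by simp, by simp, ?_⟩
    rw [zero_add, pow_one, X_dvd_iff, coeff_zero_eq_eval_zero]
    simpa [quart] using h0
  | succ n ih =>
    obtain ⟨P, e, hdeg, hP0, R, hR⟩ := ih
    set r : ℤ := R.eval 0 with hr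
    set a : ℕ := 3 * e + 1 with ha
    refine ⟨C N ^ a * P - C r * X ^ (n + 1), e + a, ?_, ?_, ?_⟩
    · refine (natDegree_sub_le _ _).trans (max_le ?_ ?_)
      · rw [← C_pow]
        exact (natDegree_C_mul_le _ _).trans (hdeg.trans (Nat.le_succ n))
      · exact natDegree_C_mul_X_pow_le _ _
    · simp [hP0]
      ring
    · -- divisibility
      have key : quart ((C N ^ (e + a)) ^ 2 * A) ((C N ^ (e + a)) ^ 3 * B)
            (C N ^ a * P - C r * X ^ (n + 1)) =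
          X ^ (n + 1) * ((C N ^ a) ^ 4 * R
            - C r * (C N ^ a) ^ 3 *
              (4 * P ^ 3 - 12 * ((C N ^ e) ^ 2 * A) * P - 8 * ((C N ^ e) ^ 3 * B))
            + X ^ (n + 1) * (C r ^ 2 * (6 * (C N ^ a * P) ^ 2
              - 6 * ((C N ^ a) ^ 2 * ((C N ^ e) ^ 2 * A)) - 4 * (C N ^ a * P) * (C r * X ^ (n + 1))
              + (C r * X ^ (n + 1)) ^ 2))) := by
        have h1 : (C N ^ (e + a)) ^ 2 * A = (C N ^ a) ^ 2 * ((C N ^ e) ^ 2 * A) := by ring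
        have h2 : (C N ^ (e + a)) ^ 3 * B = (C N ^ a) ^ 3 * ((C N ^ e) ^ 3 * B) := by ring
        rw [h1, h2, quart_taylor, hR]
        ring
      rw [key, pow_succ]
      refine mul_dvd_mul_left _ ?_
      rw [X_dvd_iff, coeff_zero_eq_eval_zero]
      simp only [eval_add, eval_sub, eval_mul, eval_pow, eval_X, eval_C, eval_ofNat, hP0, ← hr]
      have h3 : 4 * (N ^ e * z₀) ^ 3 - 12 * ((N ^ e) ^ 2 * A.eval 0) * (N ^ e * z₀)
          - 8 * ((N ^ e) ^ 3 * B.eval 0) = (N ^ e) ^ 3 * N := by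
        linear_combination (-(N ^ e) ^ 3) * hN
      rw [h3, zero_pow (Nat.succ_ne_zero n), ha]
      ring

end lifting

section runge

theorem quart_sub_quart {R : Type*} [CommRing R] (A B y w : R) :
    quart A B y - quart A B w =
      (y - w) * (y ^ 3 + y ^ 2 * w + y * w ^ 2 + w ^ 3 - 6 * A * (y + w) - 8 * B) := by
  unfold quart; ring

theorem exists_poly_root (A B : ℤ[X]) (hA : A.natDegree ≤ 20) (hB : B.natDegree ≤ 30)
    (z₀ M : ℤ) (hM : 1 ≤ M) (p : ℕ) (hp : p.Prime)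
    (h0 : quart (A.eval 0) (B.eval 0) z₀ = 0)
    (hN : ¬ (p : ℤ) ∣ 4 * z₀ ^ 3 - 12 * A.eval 0 * z₀ - 8 * B.eval 0)
    (hroot : ∀ k : ℕ, 2 ≤ k → ∃ z : ℤ, (p : ℤ) ∣ z - z₀ ∧
      quart (A.eval (M * (p : ℤ) ^ k)) (B.eval (M * (p : ℤ) ^ k)) z = 0) :
    ∃ (P : ℤ[X]) (n : ℤ), n ≠ 0 ∧ P.natDegree ≤ 10 ∧
      quart (C n ^ 2 * A) (C n ^ 3 * B) P = 0 := by
  set N : ℤ := 4 * z₀ ^ 3 - 12 * A.eval 0 * z₀ - 8 * B.eval 0 with hNdef
  have hN0 : N ≠ 0 := by
    intro h; exact hN (h ▸ dvd_zero _)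
  obtain ⟨P, e, hPdeg, hP0, R, hR⟩ := exists_lift A B z₀ N h0 rfl 10
  obtain ⟨CA, hCA0, hCA⟩ := exists_abs_eval_le A 20 hA
  obtain ⟨CB, hCB0, hCB⟩ := exists_abs_eval_le B 30 hB
  obtain ⟨CP, hCP0, hCP⟩ := exists_abs_eval_le P 10 hPdeg
  have hpZ : (0 : ℤ) < p := by exact_mod_cast hp.pos
  have hp2 : (2 : ℤ) ≤ p := by exact_mod_cast hp.two_le
  -- the constant
  set K : ℤ := CA + CB + 1 with hK
  set L : ℤ := (|N| ^ e * (18 * K) + CP) * M ^ 10 with hL
  -- main claim: P specialises to the root for large k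
  have main : ∀ k : ℕ, 2 ≤ k → L < (p : ℤ) ^ k →
      (quart ((C N ^ e) ^ 2 * A) ((C N ^ e) ^ 3 * B) P).eval (M * (p : ℤ) ^ k) = 0 := by
    intro k hk hLk
    obtain ⟨z, hz1, hz2⟩ := hroot k hk
    set τ : ℤ := M * (p : ℤ) ^ k with hτ
    have hpk1 : (1 : ℤ) ≤ (p : ℤ) ^ k := one_le_pow₀ (by omega)
    have hτ1 : 1 ≤ τ := by nlinarith
    have hpτ : (p : ℤ) ∣ τ := (dvd_pow_self (p : ℤ) (by omega)).mul_left M
    have hpkτ : (p : ℤ) ^ (11 * k) ∣ τ ^ 11 := by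
      rw [hτ, mul_pow, ← pow_mul, mul_comm k 11]
      exact Dvd.intro_left _ rfl
    -- y and w
    set y : ℤ := N ^ e * z with hy
    set w : ℤ := P.eval τ with hw
    have hev : (quart ((C N ^ e) ^ 2 * A) ((C N ^ e) ^ 3 * B) P).eval τ =
        quart ((N ^ e) ^ 2 * A.eval τ) ((N ^ e) ^ 3 * B.eval τ) w := by
      simp [quart, hw]
    have hy0 : quart ((N ^ e) ^ 2 * A.eval τ) ((N ^ e) ^ 3 * B.eval τ) y = 0 := by
      rw [hy, quart_scale, hz2, mul_zero]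
    have hdvd : (p : ℤ) ^ (11 * k) ∣ quart ((N ^ e) ^ 2 * A.eval τ) ((N ^ e) ^ 3 * B.eval τ) w := by
      rw [← hev, hR, eval_mul, eval_pow, eval_X]
      exact hpkτ.mul_right _
    have hfac := quart_sub_quart ((N ^ e) ^ 2 * A.eval τ) ((N ^ e) ^ 3 * B.eval τ) y w
    rw [hy0, zero_sub] at hfac
    -- the cofactor is prime to p
    have hmodP : (p : ℤ) ∣ w - N ^ e * z₀ := by
      have := sub_dvd_eval_sub τ 0 P
      rw [sub_zero, hP0] at this
      exact hpτ.trans this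
    have hmodA : (p : ℤ) ∣ A.eval τ - A.eval 0 := by
      have := sub_dvd_eval_sub τ 0 A
      rw [sub_zero] at this
      exact hpτ.trans this
    have hmodB : (p : ℤ) ∣ B.eval τ - B.eval 0 := by
      have := sub_dvd_eval_sub τ 0 B
      rw [sub_zero] at this
      exact hpτ.trans this
    have hmody : (p : ℤ) ∣ y - N ^ e * z₀ := by
      rw [hy, ← mul_sub]; exact hz1.mul_left _
    have hcof : ¬ (p : ℤ) ∣ (y ^ 3 + y ^ 2 * w + y * w ^ 2 + w ^ 3
        - 6 * ((N ^ e) ^ 2 * A.eval τ) * (y + w) - 8 * ((N ^ e) ^ 3 * B.eval τ)) := by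
      intro hdiv
      have hpr : Prime (p : ℤ) := Nat.prime_iff_prime_int.mp hp
      obtain ⟨k1, hk1⟩ := hmodP
      obtain ⟨k2, hk2⟩ := hmodA
      obtain ⟨k3, hk3⟩ := hmodB
      obtain ⟨k4, hk4⟩ := hmody
      have e1 : w = N ^ e * z₀ + p * k1 := by linarith
      have e2 : A.eval τ = A.eval 0 + p * k2 := by linarith
      have e3 : B.eval τ = B.eval 0 + p * k3 := by linarith
      have e4 : y = N ^ e * z₀ + p * k4 := by linarith
      rw [e1, e2, e3, e4] at hdiv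
      have hfin : (p : ℤ) ∣ (N ^ e) ^ 3 * N := by
        refine (dvd_add_right (a := (p : ℤ))
          (b := ((N ^ e * z₀ + p * k4) ^ 3 + (N ^ e * z₀ + p * k4) ^ 2 * (N ^ e * z₀ + p * k1)
            + (N ^ e * z₀ + p * k4) * (N ^ e * z₀ + p * k1) ^ 2 + (N ^ e * z₀ + p * k1) ^ 3
            - 6 * ((N ^ e) ^ 2 * (A.eval 0 + p * k2)) * ((N ^ e * z₀ + p * k4)
              + (N ^ e * z₀ + p * k1)) - 8 * ((N ^ e) ^ 3 * (B.eval 0 + p * k3)))
            - (N ^ e) ^ 3 * N) ?_).mp ?_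
        · rw [hNdef]
          set E := N ^ e with hE
          refine ⟨
            (3 * (E * z₀) ^ 2 * k4 + 3 * (E * z₀) * p * k4 ^ 2 + p ^ 2 * k4 ^ 3)
            + ((E * z₀) ^ 2 * k1 + 2 * (E * z₀) * k4 * (E * z₀ + p * k1)
                + p * k4 ^ 2 * (E * z₀ + p * k1))
            + (k4 * (E * z₀ + p * k1) ^ 2 + (E * z₀) * (2 * (E * z₀) * k1 + p * k1 ^ 2))
            + (3 * (E * z₀) ^ 2 * k1 + 3 * (E * z₀) * p * k1 ^ 2 + p ^ 2 * k1 ^ 3)
            - 6 * E ^ 2 * (k2 * (2 * (E * z₀) + p * k4 + p * k1) + A.eval 0 * (k4 + k1))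
            - 8 * E ^ 3 * k3, ?_⟩
          ring
        · rw [sub_add_cancel]; exact hdiv
      rcases hpr.dvd_or_dvd hfin with h | h
      · exact hN (hpr.dvd_of_dvd_pow (hpr.dvd_of_dvd_pow h))
      · exact hN h
    have hcop : IsCoprime ((p : ℤ) ^ (11 * k)) (y ^ 3 + y ^ 2 * w + y * w ^ 2 + w ^ 3
        - 6 * ((N ^ e) ^ 2 * A.eval τ) * (y + w) - 8 * ((N ^ e) ^ 3 * B.eval τ)) := by
      apply IsCoprime.pow_left
      exact (Prime.coprime_iff_not_dvd (Nat.prime_iff_prime_int.mp hp)).mpr hcof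
    have hyw : (p : ℤ) ^ (11 * k) ∣ y - w := by
      refine hcop.dvd_of_dvd_mul_right ?_
      rw [← hfac]
      exact (dvd_neg).mpr hdvd
    -- size
    have hsA : |A.eval τ| ≤ K * (τ ^ 10) ^ 2 := by
      refine (hCA τ hτ1).trans ?_
      rw [← pow_mul]
      exact mul_le_mul_of_nonneg_right (by rw [hK]; omega) (by positivity)
    have hsB : |B.eval τ| ≤ K * (τ ^ 10) ^ 3 := by
      refine (hCB τ hτ1).trans ?_
      rw [← pow_mul]
      exact mul_le_mul_of_nonneg_right (by rw [hK]; omega) (by positivity)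
    have hsz : |z| ≤ 18 * K * τ ^ 10 :=
      abs_root_le _ _ z K (τ ^ 10) (by rw [hK]; omega) (one_le_pow₀ hτ1) hsA hsB hz2
    have hsw : |w| ≤ CP * τ ^ 10 := hCP τ hτ1
    have hsy : |y| ≤ |N| ^ e * (18 * K) * τ ^ 10 := by
      rw [hy, abs_mul, abs_pow]
      have := mul_le_mul_of_nonneg_left hsz (show (0 : ℤ) ≤ |N| ^ e by positivity)
      linarith
    have hdiff : |y - w| ≤ L * ((p : ℤ) ^ k) ^ 10 := by
      have h1 : |y - w| ≤ |y| + |w| := abs_sub _ _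
      have h2 : τ ^ 10 = M ^ 10 * ((p : ℤ) ^ k) ^ 10 := by rw [hτ, mul_pow]
      rw [hL]
      rw [h2] at hsy hsw
      nlinarith
    have hlt : |y - w| < (p : ℤ) ^ (11 * k) := by
      refine lt_of_le_of_lt hdiff ?_
      have : (p : ℤ) ^ (11 * k) = (p : ℤ) ^ k * ((p : ℤ) ^ k) ^ 10 := by ring
      rw [this]
      exact mul_lt_mul_of_pos_right hLk (by positivity)
    have hzero : y - w = 0 := Int.eq_zero_of_abs_lt_dvd hyw hlt
    rw [hev]
    have : w = y := by linarith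
    rw [this]; exact hy0
  refine ⟨P, N ^ e, pow_ne_zero _ hN0, hPdeg, ?_⟩
  rw [C_pow]
  apply Polynomial.eq_zero_of_infinite_isRoot
  -- infinitely many k
  set k₀ : ℕ := max 2 (L.toNat + 1) with hk₀
  have hinj : Function.Injective fun j : ℕ => M * (p : ℤ) ^ (k₀ + j) := by
    intro i j hij
    have hM0 : M ≠ 0 := by omega
    have h1 : (p : ℤ) ^ (k₀ + i) = (p : ℤ) ^ (k₀ + j) := mul_left_cancel₀ hM0 hij
    have h2 := Int.pow_right_injective (by rw [Int.natAbs_natCast]; exact hp.two_le) h1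
    omega
  refine (Set.infinite_range_of_injective hinj).mono ?_
  rintro _ ⟨j, rfl⟩
  refine main (k₀ + j) (by omega) ?_
  have h1 : L < 2 ^ (k₀ + j) := by
    have h2 : L ≤ (L.toNat : ℤ) := Int.self_le_toNat L
    have h3 : L.toNat < 2 ^ (k₀ + j) := by
      calc L.toNat < k₀ + j := by omega
        _ < 2 ^ (k₀ + j) := Nat.lt_two_pow_self
    calc L ≤ (L.toNat : ℤ) := h2
      _ < ((2 ^ (k₀ + j) : ℕ) : ℤ) := by exact_mod_cast h3
      _ = 2 ^ (k₀ + j) := by push_cast; rfl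
  exact lt_of_lt_of_le h1 (pow_le_pow_left₀ (by norm_num) hp2 _)

end runge

end Fermat.Agent.H98
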