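import Fermat.Agent.H98Bezout
import Fermat.Agent.H98Runge

set_option autoImplicit false
set_option linter.unusedVariables false
set_option linter.unusedSimpArgs false

/-!
# Polynomial facts on the family: degrees, derivative, functoriality
-/

open Polynomial

namespace Fermat.Agent.H98

section identities

variable {R S : Type*} [CommRing R] [CommRing S]

/-- auxiliary chunk of `D12d` -/
def D12d_0 (a b t : R) : R :=
    -132*t*a + 1320*t^2*b - 5940*t^3*a^2 + 15840*t^4*a*b - 63360*t^5*b^2 + 35640*t^5*a^3 +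
    33264*t^6*a^2*b + 506880*t^7*a*b^2 - 534600*t^7*a^4 - 1267200*t^8*b^3 + 1283040*t^8*a^3*b +
    1330560*t^9*a^2*b^2 - 1336500*t^9*a^5 - 675840*t^10*a*b^3 + 677160*t^10*a^4*b +
    1228800*t^11*b^4 - 2322432*t^11*a^3*b^2 + 1093500*t^11*a^6

/-- the derivative of `D12` with respect to `t` -/
def D12d (a b t : R) : R :=
    D12d_0 a b t

/-- auxiliary chunk of `D12e` -/
def D12e_0 (a b t : R) : R :=
    -12*a + 240*t*b - 1620*t^2*a^2 + 5760*t^3*a*b - 28800*t^4*b^2 + 16200*t^4*a^3 +
    18144*t^5*a^2*b + 322560*t^6*a*b^2 - 340200*t^6*a^4 - 921600*t^7*b^3 + 933120*t^7*a^3*b +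
    1088640*t^8*a^2*b^2 - 1093500*t^8*a^5 - 614400*t^9*a*b^3 + 615600*t^9*a^4*b +
    1228800*t^10*b^4 - 2322432*t^10*a^3*b^2 + 1093500*t^10*a^6

/-- one eleventh of the second derivative of `D12` with respect to `t` -/
def D12e (a b t : R) : R :=
    D12e_0 a b t


theorem D12d_sq (a b t : R) :
    D12d a b t ^ 2 = 12 * D12 a b t * D12e a b t + 144 * C20 a b t := by
  simp only [D12d, D12e, D12, C20, D12d_0, D12e_0, D12_0, C20_0, C20_1, C20_2]
  ring

theorem map_D12 (f : R →+* S) (a b t : R) : f (D12 a b t) = D12 (f a) (f b) (f t) := by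
  simp only [D12, D12_0, map_add, map_sub, map_mul, map_pow, map_ofNat, map_one]

theorem map_D12e (f : R →+* S) (a b t : R) : f (D12e a b t) = D12e (f a) (f b) (f t) := by
  simp only [D12e, D12e_0, map_add, map_sub, map_neg, map_mul, map_pow, map_ofNat, map_one]

theorem map_D12d (f : R →+* S) (a b t : R) : f (D12d a b t) = D12d (f a) (f b) (f t) := by
  simp only [D12d, D12d_0, map_add, map_sub, map_neg, map_mul, map_pow, map_ofNat, map_one]

theorem map_C20 (f : R →+* S) (a b t : R) : f (C20 a b t) = C20 (f a) (f b) (f t) := by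
  simp only [C20, C20_0, C20_1, C20_2, map_add, map_sub, map_neg, map_mul, map_pow, map_ofNat, map_one]

theorem map_C30 (f : R →+* S) (a b t : R) : f (C30 a b t) = C30 (f a) (f b) (f t) := by
  simp only [C30, C30_0, C30_1, C30_2, C30_3, C30_4, C30_5, map_add, map_sub, map_neg, map_mul, map_pow, map_ofNat, map_one]

theorem map_quart (f : R →+* S) (A B z : R) : f (quart A B z) = quart (f A) (f B) (f z) := by
  simp only [quart, map_sub, map_mul, map_pow, map_ofNat]

theorem star (c d z : R) : 64 * z ^ 2 * (c ^ 3 - d ^ 2) - (9 * c - z ^ 2) * (z ^ 2 - c) ^ 3 =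
    quart c d z * (quart c d z + 16 * d * z) := by
  unfold quart; ring

end identities

section poly

variable {R : Type*} [CommRing R]

theorem D12_poly (a b : R) : D12 (C a) (C b) (X : R[X]) =
        C (102400*b^4 - 193536*a^3*b^2 + 91125*a^6) * X ^ 12 +
        C (-61440*a*b^3 + 61560*a^4*b) * X ^ 11 +
        C (133056*a^2*b^2 - 133650*a^5) * X ^ 10 +
        C (-140800*b^3 + 142560*a^3*b) * X ^ 9 +
        C (63360*a*b^2 - 66825*a^4) * X ^ 8 +
        C (4752*a^2*b) * X ^ 7 +
        C (-10560*b^2 + 5940*a^3) * X ^ 6 +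
        C (3168*a*b) * X ^ 5 +
        C (-1485*a^2) * X ^ 4 +
        C (440*b) * X ^ 3 +
        C (-66*a) * X ^ 2 +
        1 := by
  simp only [D12, D12_0, C_add, C_sub, C_neg, C_mul, C_pow, map_ofNat, C_1]
  ring

theorem derivative_D12 (a b : R) :
    derivative (D12 (C a) (C b) (X : R[X])) = D12d (C a) (C b) X := by
  rw [D12_poly]
  simp only [derivative_add, derivative_C_mul, derivative_X_pow, derivative_one]
  simp only [D12d, D12d_0, C_add, C_sub, C_neg, C_mul, C_pow, map_ofNat, map_natCast]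
  push_cast
  ring

theorem natDegree_D12_le (a b : R) : (D12 (C a) (C b) (X : R[X])).natDegree ≤ 12 := by
  rw [D12_poly]
  compute_degree

theorem coeff_D12_12 (a b : R) : (D12 (C a) (C b) (X : R[X])).coeff 12 =
    102400*b^4 - 193536*a^3*b^2 + 91125*a^6 := by
  rw [D12_poly]
  simp only [coeff_add, coeff_C_mul, coeff_X_pow, coeff_one]
  norm_num

theorem coeff_D12_11 (a b : R) : (D12 (C a) (C b) (X : R[X])).coeff 11 =
    -61440*a*b^3 + 61560*a^4*b := by
  rw [D12_poly]
  simp only [coeff_add, coeff_C_mul, coeff_X_pow, coeff_one]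
  norm_num

theorem natDegree_C20_le (a b : R) : (C20 (C a) (C b) (X : R[X])).natDegree ≤ 20 := by
  simp only [C20, C20_0, C20_1, C20_2]
  compute_degree

theorem natDegree_C30_le (a b : R) : (C30 (C a) (C b) (X : R[X])).natDegree ≤ 30 := by
  simp only [C30, C30_0, C30_1, C30_2, C30_3, C30_4, C30_5]
  compute_degree

end poly

end Fermat.Agent.H98
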