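import Mathlib

/-!
# A local criterion for invertible modules, and the determinant criterion

* `invertible_of_local` : a module which is locally "generated by one element with annihilator
  zero" (in an elementwise form) is invertible.
* `invertible_of_det` : `R → S` comm. rings, `S` free of rank `n` over `R`, `M` an `S`-module free of
  rank `n` over `R`; if the determinants of the maps `S → M`, `s ↦ s • e` (`e : M`) generate the
  unit ideal, then `M` is an invertible `S`-module.
-/

set_option autoImplicit false

namespace Fermat.Agent.H98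

open TensorProduct

theorem invertible_of_local {S M : Type*} [CommRing S] [AddCommGroup M] [Module S M]
    {ι : Type*} (f : ι → S) (e : ι → M) (ψ : ι → (M →ₗ[S] S))
    (h1 : Ideal.span (Set.range f) = ⊤)
    (h2 : ∀ i x, ψ i x • e i = f i • x)
    (h3 : ∀ i, ψ i (e i) = f i) : Module.Invertible S M := by
  refine ⟨?_, ?_⟩
  · rw [injective_iff_map_eq_zero]
    intro T hT
    have key : ∀ (i : ι) (T : Module.Dual S M ⊗[S] M), (f i) ^ 2 • T =
        (f i * contractLeft S M T) • ((ψ i : Module.Dual S M) ⊗ₜ[S] e i) := by
      intro i T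
      induction T using TensorProduct.induction_on with
      | zero => simp
      | add x y hx hy => rw [smul_add, hx, hy, map_add, mul_add, add_smul]
      | tmul φ x =>
        have e1 : f i • (φ ⊗ₜ[S] x) = (ψ i x • φ) ⊗ₜ[S] e i := by
          rw [← TensorProduct.tmul_smul, ← h2, TensorProduct.tmul_smul, TensorProduct.smul_tmul']
        have e2 : f i • (ψ i x • φ) = (f i * φ x) • (ψ i : Module.Dual S M) := by
          ext y
          simp only [LinearMap.smul_apply, smul_eq_mul]
          have a1 : f i * φ y = ψ i y * φ (e i) := by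
            rw [← smul_eq_mul, ← map_smul, ← h2, map_smul, smul_eq_mul]
          have a2 : f i * φ x = ψ i x * φ (e i) := by
            rw [← smul_eq_mul, ← map_smul, ← h2, map_smul, smul_eq_mul]
          rw [a2]
          calc f i * (ψ i x * φ y) = ψ i x * (f i * φ y) := by ring
            _ = ψ i x * φ (e i) * ψ i y := by rw [a1]; ring
        rw [pow_two, mul_smul, e1, TensorProduct.smul_tmul', e2, contractLeft_apply,
          TensorProduct.smul_tmul']
    have hzero : ∀ i, (f i) ^ 2 • T = 0 := by
      intro i
      rw [key, hT, mul_zero, zero_smul]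
    have htop := Ideal.span_pow_eq_top _ h1 2
    have hle : Ideal.span ((fun x : S => x ^ 2) '' Set.range f) ≤
        LinearMap.ker (LinearMap.toSpanSingleton S _ T) := by
      rw [Ideal.span_le]
      rintro _ ⟨_, ⟨i, rfl⟩, rfl⟩
      simpa using hzero i
    rw [htop] at hle
    have := hle (Submodule.mem_top (x := (1 : S)))
    simpa using this
  · rw [← LinearMap.range_eq_top]
    have hle : Ideal.span (Set.range f) ≤ LinearMap.range (contractLeft S M) := by
      rw [Ideal.span_le]
      rintro _ ⟨i, rfl⟩
      exact ⟨(ψ i : Module.Dual S M) ⊗ₜ[S] e i, by rw [contractLeft_apply, h3]⟩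
    rw [h1] at hle
    exact top_unique hle

section Det

variable {R S M : Type*} [CommRing R] [CommRing S] [Algebra R S] [AddCommGroup M] [Module R M]
  [Module S M] [IsScalarTower R S M] {n : Type*} [Fintype n] [DecidableEq n]

/-- the matrix of `s ↦ s • e`. -/
noncomputable def orbitMat (bS : Module.Basis n R S) (bM : Module.Basis n R M) (e : M) :
    Matrix n n R :=
  LinearMap.toMatrix bS bM ((LinearMap.toSpanSingleton S M e).restrictScalars R)

theorem orbitMat_apply (bS : Module.Basis n R S) (bM : Module.Basis n R M) (e : M) (i j : n) :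
    orbitMat bS bM e i j = bM.repr (bS j • e) i := by
  simp [orbitMat, LinearMap.toMatrix_apply]

theorem invertible_of_det (bS : Module.Basis n R S) (bM : Module.Basis n R M)
    (h : Ideal.span (Set.range fun e : M => (orbitMat bS bM e).det) = ⊤) :
    Module.Invertible S M := by
  classical
  -- the map `ψ₀ e : M → S` adjugate to `s ↦ s • e`
  let L : M → (S →ₗ[R] M) := fun e => (LinearMap.toSpanSingleton S M e).restrictScalars R
  let ψ₀ : M → (M →ₗ[R] S) := fun e => Matrix.toLin bM bS (orbitMat bS bM e).adjugate
  let d : M → R := fun e => (orbitMat bS bM e).det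
  have hL : ∀ e s, L e s = s • e := fun e s => rfl
  have hLm : ∀ e, L e = Matrix.toLin bS bM (orbitMat bS bM e) := by
    intro e
    rw [orbitMat, Matrix.toLin_toMatrix]
  have c1 : ∀ e x, (ψ₀ e x) • e = d e • x := by
    intro e x
    rw [← hL, hLm]
    have := Matrix.toLin_mul bM bS bM (orbitMat bS bM e) (orbitMat bS bM e).adjugate
    rw [Matrix.mul_adjugate, map_smul, Matrix.toLin_one] at this
    have h2 := LinearMap.congr_fun this x
    simpa [ψ₀, d] using h2.symm
  have c2 : ∀ e s, ψ₀ e (s • e) = d e • s := by
    intro e s
    rw [← hL, hLm]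
    have := Matrix.toLin_mul bS bM bS (orbitMat bS bM e).adjugate (orbitMat bS bM e)
    rw [Matrix.adjugate_mul, map_smul, Matrix.toLin_one] at this
    have h2 := LinearMap.congr_fun this s
    simpa [ψ₀, d] using h2.symm
  have c3 : ∀ e (s : S) x, d e • ψ₀ e (s • x) = d e • (s * ψ₀ e x) := by
    intro e s x
    have h0 : (ψ₀ e (s • x)) • e = (s * ψ₀ e x) • e := by
      rw [c1, mul_smul, c1, smul_comm]
    have := congrArg (ψ₀ e) h0
    rwa [c2, c2] at this
  let ψ : M → (M →ₗ[S] S) := fun e =>
    { toFun := fun x => d e • ψ₀ e x
      map_add' := fun x y => by rw [map_add, smul_add]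
      map_smul' := fun s x => by
        rw [c3, RingHom.id_apply, smul_eq_mul, mul_smul_comm] }
  refine invertible_of_local (fun e : M => algebraMap R S (d e ^ 2)) (fun e => e) ψ ?_ ?_ ?_
  · have h2 := Ideal.span_pow_eq_top _ h 2
    have h3 := congrArg (Ideal.map (algebraMap R S)) h2
    rw [Ideal.map_span, Ideal.map_top] at h3
    rw [← h3]
    congr 1
    ext y
    simp [d]
  · intro e x
    change (d e • ψ₀ e x) • e = _
    rw [smul_assoc, c1, algebraMap_smul, pow_two, mul_smul]
  · intro e
    change d e • ψ₀ e e = _
    have := c2 e 1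
    rw [one_smul] at this
    rw [this, smul_smul, pow_two, Algebra.algebraMap_eq_smul_one]

end Det

end Fermat.Agent.H98
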