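import Fermat.Agent.H98U1
import Fermat.Agent.H45TC
import Fermat.Agent.H8T2

/-!
# S47 block (T), [T1-U], part 2: the theta kernels of the classes of the discriminant group
(helper98)

`tm n τ w x` is the term of `Theta n` without the test function; `cls n h` is the indicator
of the class `h : DD n`. `theta_T`, `theta_S`: the laws of `Theta n (cls n h)` under `τ ↦ τ + 1`,
`τ ↦ -1/τ`; `theta_sum`: every bounded periodic test function is a combination of the classes.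
-/

set_option autoImplicit false

noncomputable section

open scoped ComplexConjugate Real

namespace Fermat.Agent.H98U

open Fermat.Agent.S47T
open Fermat.Agent.H45.TK (fK e1 Bin emb ip Ix Qv tw)

local notation "LL" => Fermat.Agent.S47T.Lat

/-- one term of the theta kernel -/
def tm (n : ℕ) (τ : ℂ) (w : H3) (x : LL) : ℂ :=
  fK τ w.z w.y (x.1 / n) ((x.2.1 : ℂ) / sq3 / n) (x.2.2 / n)

theorem Qv_eq (n : ℕ) (x : LL) :
    Qv (x.1 / n) ((x.2.1 : ℂ) / sq3 / n) (x.2.2 / n) = qL x / n ^ 2 := by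
  rw [Qv, qL, hQ, Complex.normSq_eq_norm_sq, norm_div, Complex.norm_natCast]
  ring

theorem tw_eq (n : ℕ) (w : H3) (x : LL) :
    tw w.z w.y (x.1 / n) ((x.2.1 : ℂ) / sq3 / n) (x.2.2 / n) = pL x w / n := by
  rw [tw, pL, pair, Complex.normSq_eq_norm_sq]
  have h : ((x.2.1 : ℂ) / sq3 / n * conj w.z).re = ((x.2.1 : ℂ) / sq3 * conj w.z).re / n := by
    rw [div_mul_eq_mul_div, Complex.div_natCast_re]
  rw [h]
  ring

theorem tm_eq (n : ℕ) (τ : ℂ) (w : H3) (x : LL) :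
    tm n τ w x = (Real.sqrt τ.im : ℝ) * (ee (τ * (qL x / n ^ 2 : ℝ)) *
      (Real.exp (-4 * π * τ.im * (pL x w / n) ^ 2) : ℝ)) := by
  rw [tm, fK, Qv_eq, tw_eq, ee, mul_assoc, Complex.ofReal_exp]
  congr 2
  · congr 1
    ring
  · congr 1
    push_cast
    ring

theorem Theta_eq (n : ℕ) (φ : LL → ℂ) (τ : ℂ) (w : H3) :
    Theta n φ τ w = ∑' x : LL, φ x * tm n τ w x := by
  rw [Theta, ← tsum_mul_left]
  refine tsum_congr fun x => ?_
  rw [tm_eq]
  ring

/-! ### The lattices in `ℂ` -/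

theorem ip_dual (n : ℕ) [NeZero n] (a b c d : ℤ) :
    ip ((n : ℂ) * (a + b * om)) ((c + d * om) / sq3 / n) = a * d - b * c := by
  have hn : (n : ℂ) ≠ 0 := Nat.cast_ne_zero.mpr (NeZero.ne n)
  have h3 := sq3_ne_zero
  have h : (((2 * ((n : ℂ) * (a + b * om) * conj ((c + d * om) / sq3 / n)).re : ℝ)) : ℂ) =
      ((a * d - b * c : ℝ) : ℂ) := by
    have h1 := Complex.re_eq_add_conj ((n : ℂ) * (a + b * om) * conj ((c + d * om) / sq3 / n))
    push_cast
    rw [h1]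
    simp only [map_mul, map_add, map_sub, map_neg, map_one, map_div₀, conj_sq3, conj_om,
      map_natCast, map_intCast]
    field_simp
    rw [sq3_eq]
    ring
  exact_mod_cast h

/-- the lattice `n ℤ[ω]` with its dual -/
def BB (n : ℕ) [NeZero n] : Bin where
  e := ![(n : ℂ) * ((1 : ℤ) + (0 : ℤ) * om), (n : ℂ) * ((0 : ℤ) + (1 : ℤ) * om)]
  f := ![(((0 : ℤ) : ℂ) + (1 : ℤ) * om) / sq3 / n, (((-1 : ℤ) : ℂ) + (0 : ℤ) * om) / sq3 / n]
  dual i j := by
    fin_cases i <;> fin_cases j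
    · exact (ip_dual n 1 0 0 1).trans (by norm_num)
    · exact (ip_dual n 1 0 (-1) 0).trans (by norm_num)
    · exact (ip_dual n 0 1 0 1).trans (by norm_num)
    · exact (ip_dual n 0 1 (-1) 0).trans (by norm_num)

/-- the index sets agree: the side of the lattice -/
def ixE : Ix ≃ LL := Equiv.prodCongr (Equiv.refl ℤ)
  (Equiv.prodCongr ((finTwoArrowEquiv ℤ).trans eisEquiv) (Equiv.refl ℤ))

/-- `(a, b) ↦ (-b, a)` -/
def rotE : ℤ × ℤ ≃ ℤ × ℤ where
  toFun p := (-p.2, p.1)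
  invFun p := (p.2, -p.1)
  left_inv p := by simp
  right_inv p := by simp

/-- the index sets agree: the side of the dual lattice -/
def ixF : Ix ≃ LL := Equiv.prodCongr (Equiv.refl ℤ)
  (Equiv.prodCongr (((finTwoArrowEquiv ℤ).trans rotE).trans eisEquiv) (Equiv.refl ℤ))

theorem ixE_apply (p : Ix) : ixE p = (p.1, eisEquiv (p.2.1 0, p.2.1 1), p.2.2) := rfl
theorem ixF_apply (p : Ix) : ixF p = (p.1, eisEquiv (-p.2.1 1, p.2.1 0), p.2.2) := rfl

theorem emb_e (n : ℕ) [NeZero n] (x : Fin 2 → ℤ) :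
    emb (BB n).e (fun i => x i) = (n : ℂ) * (eisEquiv (x 0, x 1) : Eis) := by
  rw [emb, coe_eisEquiv]
  simp only [BB, Matrix.cons_val_zero, Matrix.cons_val_one]
  push_cast
  ring

theorem emb_f (n : ℕ) [NeZero n] (x : Fin 2 → ℤ) :
    emb (BB n).f (fun i => x i) = ((eisEquiv (-x 1, x 0) : Eis) : ℂ) / sq3 / n := by
  rw [emb, coe_eisEquiv]
  simp only [BB, Matrix.cons_val_zero, Matrix.cons_val_one]
  push_cast
  ring

theorem ip_eis (n : ℕ) (a b c d : ℤ) :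
    ip ((n : ℂ) * (a + b * om)) ((n : ℂ) * (c + d * om)) =
      n ^ 2 * (2 * a * c - a * d - b * c + 2 * b * d) := by
  have h : (((2 * ((n : ℂ) * (a + b * om) * conj ((n : ℂ) * (c + d * om))).re : ℝ)) : ℂ) =
      ((n ^ 2 * (2 * a * c - a * d - b * c + 2 * b * d) : ℝ) : ℂ) := by
    have h1 := Complex.re_eq_add_conj ((n : ℂ) * (a + b * om) * conj ((n : ℂ) * (c + d * om)))
    push_cast
    rw [h1]
    simp only [map_mul, map_add, map_sub, map_neg, map_one, conj_om, map_natCast, map_intCast]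
    linear_combination (-2 * (n : ℂ) ^ 2 * b * d) * om_rel
  exact_mod_cast h

theorem vol_BB (n : ℕ) [NeZero n] : (BB n).vol = √3 * n ^ 2 := by
  have h : (BB n).gr.det = 3 * (n ^ 2) ^ 2 := by
    rw [Matrix.det_fin_two]
    show ip _ _ * ip _ _ - ip _ _ * ip _ _ = _
    simp only [BB, Matrix.cons_val_zero, Matrix.cons_val_one, ip_eis]
    push_cast
    ring
  rw [Bin.vol, h, Real.sqrt_mul (by norm_num), Real.sqrt_sq (by positivity)]

/-! ### Classes -/

/-- the indicator of a class -/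
def cls (n : ℕ) (h : DD n) (x : LL) : ℂ := if (x : DD n) = h then 1 else 0

theorem norm_cls_le (n : ℕ) (h : DD n) (x : LL) : ‖cls n h x‖ ≤ 1 := by
  rw [cls]
  split_ifs <;> simp

/-- absolute convergence -/
theorem summable_tm (n : ℕ) [NeZero n] {τ : ℂ} (hτ : 0 < τ.im) (w : H3) {φ : LL → ℂ} {M : ℝ}
    (hφ : ∀ x, ‖φ x‖ ≤ M) : Summable fun x : LL => φ x * tm n τ w x := by
  have hn : (0 : ℝ) < n := Nat.cast_pos.mpr (Nat.pos_of_ne_zero (NeZero.ne n))
  have h := Fermat.Agent.H45.TK.summable_fK (BB n).dualB (α := (n : ℝ)⁻¹) (δ := (n : ℝ)⁻¹)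
    (inv_pos.mpr hn) (inv_pos.mpr hn) 0 0 0 hτ w.z w.pos (ψ := fun p => φ (ixF p)) (M := M)
    (fun p => hφ _)
  rw [← ixF.summable_iff]
  refine h.congr fun p => ?_
  rw [Function.comp_apply, tm, mul_comm, ixF_apply, zero_add, zero_add, zero_add, Bin.dualB_e,
    emb_f]
  simp only [div_eq_inv_mul]

/-! ### The law under `τ ↦ τ + 1` -/

theorem stdAddChar_int (n : ℕ) [NeZero n] (k : ℤ) :
    (ZMod.stdAddChar ((k : ZMod (3 * n ^ 2))) : ℂ) = e1 ((k : ℝ) / (3 * n ^ 2)) := by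
  rw [ZMod.stdAddChar_coe, e1]
  congr 1
  push_cast
  ring

theorem tm_add_one (n : ℕ) [NeZero n] (τ : ℂ) (w : H3) (x : LL) :
    tm n (τ + 1) w x = ZMod.stdAddChar (qD n (x : DD n)) * tm n τ w x := by
  rw [tm_eq, tm_eq, qD_mk, stdAddChar_int, e1, ee, ee, add_mul, mul_add (2 * π * Complex.I),
    Complex.exp_add, one_mul, Complex.add_im, Complex.one_im, add_zero, qL_eq]
  rw [show ((qI x : ℝ) / 3 / n ^ 2) = (qI x : ℝ) / (3 * n ^ 2) by rw [div_div]]
  ring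

theorem theta_T (n : ℕ) [NeZero n] (h : DD n) (τ : ℂ) (w : H3) :
    Theta n (cls n h) (τ + 1) w = ZMod.stdAddChar (qD n h) * Theta n (cls n h) τ w := by
  rw [Theta_eq, Theta_eq, ← tsum_mul_left]
  refine tsum_congr fun x => ?_
  rw [tm_add_one, cls]
  split_ifs with hx
  · rw [hx]; ring
  · ring

/-! ### The law under `τ ↦ -1/τ` -/

theorem lam_injective (n : ℕ) [NeZero n] : Function.Injective (lam n) := by
  have hn : ((n : ℤ) ^ 2) ≠ 0 := pow_ne_zero 2 (Nat.cast_ne_zero.mpr (NeZero.ne n))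
  intro x y hxy
  rw [lam_apply, lam_apply] at hxy
  obtain ⟨h1, h2, h3⟩ := (Prod.mk.injEq _ _ _ _).mp hxy |>.imp id (Prod.mk.injEq _ _ _ _).mp
  refine Prod.ext (mul_left_cancel₀ hn h1) (Prod.ext ?_ (mul_left_cancel₀ hn h3))
  have h4 := congrArg (fun z : Eis => (z : ℂ)) h2
  simp only [Subring.coe_mul, Subring.coe_intCast, coe_sq3E] at h4
  exact Subtype.ext (mul_left_cancel₀ sq3_ne_zero (mul_left_cancel₀ (Int.cast_ne_zero.mpr hn) h4))

/-- a sum over a class -/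
theorem tsum_cls (n : ℕ) [NeZero n] (x₀ : LL) (f : LL → ℂ) :
    ∑' x : LL, cls n (x₀ : DD n) x * f x = ∑' y : LL, f (x₀ + lam n y) := by
  have hi : Function.Injective fun y : LL => x₀ + lam n y :=
    fun y z hyz => lam_injective n (add_left_cancel hyz)
  rw [← hi.tsum_eq]
  · refine tsum_congr fun y => ?_
    have : ((x₀ + lam n y : LL) : DD n) = (x₀ : DD n) := by
      rw [QuotientAddGroup.mk_add, (QuotientAddGroup.eq_zero_iff (N := (lam n).range)
        (lam n y)).mpr (AddMonoidHom.mem_range.mpr ⟨y, rfl⟩), add_zero]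
    rw [cls, if_pos this, one_mul]
  · intro x hx
    rw [Function.mem_support, cls] at hx
    split_ifs at hx with h
    · have h1 : ((x - x₀ : LL) : DD n) = 0 := by rw [QuotientAddGroup.mk_sub, h, sub_self]
      obtain ⟨y, hy⟩ := (QuotientAddGroup.eq_zero_iff _).mp h1
      exact ⟨y, by show x₀ + lam n y = x; rw [hy]; abel⟩
    · exact absurd (zero_mul _) hx

/-- the constant of the `S` law -/
def kap (n : ℕ) : ℂ := -Complex.I / (√3 * n ^ 4 : ℝ)

theorem theta_S (n : ℕ) [NeZero n] (h : DD n) {τ : ℂ} (hτ : 0 < τ.im) (w : H3) :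
    Theta n (cls n h) (-1 / τ) w = τ * ∑ k, Bmat n (kap n) h k * Theta n (cls n k) τ w := by
  have hn : (0 : ℝ) < n := Nat.cast_pos.mpr (Nat.pos_of_ne_zero (NeZero.ne n))
  have hnC : (n : ℂ) ≠ 0 := Nat.cast_ne_zero.mpr (NeZero.ne n)
  induction h using QuotientAddGroup.induction_on with
  | H x₀ =>
  rw [Theta_eq, tsum_cls]
  -- the left side
  have hP := Fermat.Agent.H45.TK.poissonV (BB n) hn hn (x₀.1 / n) (x₀.2.2 / n) 0 0
    ((x₀.2.1 : ℂ) / sq3 / n) 0 hτ w.z w.pos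
  have hL : ∑' y : LL, tm n (-1 / τ) w (x₀ + lam n y) =
      ∑' p : Ix, fK (-1 / τ) w.z w.y (x₀.1 / n + n * p.1)
        ((x₀.2.1 : ℂ) / sq3 / n + emb (BB n).e fun i => p.2.1 i) (x₀.2.2 / n + n * p.2.2) *
        e1 (ip ((x₀.2.1 : ℂ) / sq3 / n + emb (BB n).e fun i => p.2.1 i) 0 -
          (x₀.1 / n + n * p.1) * 0 - (x₀.2.2 / n + n * p.2.2) * 0) := by
    rw [← ixE.tsum_eq]
    refine tsum_congr fun p => ?_
    have h0 : e1 (ip ((x₀.2.1 : ℂ) / sq3 / n + emb (BB n).e fun i => p.2.1 i) 0 -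
          (x₀.1 / n + n * p.1) * 0 - (x₀.2.2 / n + n * p.2.2) * 0) = 1 := by
      rw [ip, map_zero, mul_zero, Complex.zero_re, mul_zero, mul_zero, mul_zero, sub_zero,
        sub_zero, Fermat.Agent.H45.TK.e1_zero]
    rw [h0, mul_one, emb_e, tm, ixE_apply, lam_apply]
    have a1 : (((x₀ + ((n : ℤ) ^ 2 * p.1, (((n : ℤ) ^ 2 : ℤ) : Eis) *
        (sq3E * eisEquiv (p.2.1 0, p.2.1 1)), (n : ℤ) ^ 2 * p.2.2) : LL).1 : ℤ) : ℝ) / n =
        x₀.1 / n + n * p.1 := by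
      rw [Prod.fst_add]
      push_cast
      field_simp
    have a2 : (((x₀ + ((n : ℤ) ^ 2 * p.1, (((n : ℤ) ^ 2 : ℤ) : Eis) *
        (sq3E * eisEquiv (p.2.1 0, p.2.1 1)), (n : ℤ) ^ 2 * p.2.2) : LL).2.2 : ℤ) : ℝ) / n =
        x₀.2.2 / n + n * p.2.2 := by
      rw [Prod.snd_add, Prod.snd_add]
      push_cast
      field_simp
    have a3 : (((x₀ + ((n : ℤ) ^ 2 * p.1, (((n : ℤ) ^ 2 : ℤ) : Eis) *
        (sq3E * eisEquiv (p.2.1 0, p.2.1 1)), (n : ℤ) ^ 2 * p.2.2) : LL).2.1 : Eis) : ℂ) / sq3 / n =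
        (x₀.2.1 : ℂ) / sq3 / n + n * (eisEquiv (p.2.1 0, p.2.1 1) : Eis) := by
      rw [Prod.snd_add, Prod.fst_add, Subring.coe_add, Subring.coe_mul, Subring.coe_mul,
        Subring.coe_intCast, coe_sq3E]
      have := sq3_ne_zero
      push_cast
      field_simp
    rw [a1, a2, a3]
  rw [hL, hP]
  -- the right side
  have hR : ∑' p : Ix, fK τ w.z w.y (0 + p.1 / n) (0 + emb (BB n).f fun i => p.2.1 i)
      (0 + p.2.2 / n) * e1 (-(ip ((x₀.2.1 : ℂ) / sq3 / n) (emb (BB n).f fun i => p.2.1 i) -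
        x₀.1 / n * (p.2.2 / n) - x₀.2.2 / n * (p.1 / n))) =
      ∑' y : LL, ZMod.stdAddChar (-(bD n (x₀ : DD n) (y : DD n))) * tm n τ w y := by
    rw [← ixF.tsum_eq]
    refine tsum_congr fun p => ?_
    rw [bD_mk, ← Int.cast_neg, stdAddChar_int, mul_comm, zero_add, zero_add, zero_add, emb_f, tm]
    simp only [ixF_apply]
    congr 2
    have h1 := two_re_mul_conj x₀.2.1 (eisEquiv (-p.2.1 1, p.2.1 0))
    have h2 : ip ((x₀.2.1 : ℂ) / sq3 / n)
        (((eisEquiv (-p.2.1 1, p.2.1 0) : Eis) : ℂ) / sq3 / n) =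
        (tE x₀.2.1 (eisEquiv (-p.2.1 1, p.2.1 0)) : ℝ) / (3 * n ^ 2) := by
      rw [← h1, ip]
      have h3 : (x₀.2.1 : ℂ) / sq3 / n *
          conj (((eisEquiv (-p.2.1 1, p.2.1 0) : Eis) : ℂ) / sq3 / n) =
          (((3 * n ^ 2 : ℝ)⁻¹ : ℝ) : ℂ) * ((x₀.2.1 : ℂ) *
            conj ((eisEquiv (-p.2.1 1, p.2.1 0) : Eis) : ℂ)) := by
        rw [map_div₀, map_div₀, conj_sq3, map_natCast]
        have h4 : (sq3 : ℂ)⁻¹ * (-sq3)⁻¹ = 3⁻¹ := by
          rw [← mul_inv, mul_neg, sq3_mul_sq3, neg_neg]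
        push_cast
        linear_combination ((x₀.2.1 : ℂ) * conj ((eisEquiv (-p.2.1 1, p.2.1 0) : Eis) : ℂ) *
          ((n : ℂ) ^ 2)⁻¹) * h4
      rw [h3, Complex.re_ofReal_mul]
      field_simp
    rw [h2, bI]
    push_cast
    field_simp
    ring
  rw [hR]
  have hsum : ∑' y : LL, (ZMod.stdAddChar (-(bD n (x₀ : DD n) (y : DD n))) : ℂ) * tm n τ w y =
      ∑ k : DD n, (ZMod.stdAddChar (-(bD n (x₀ : DD n) k)) : ℂ) * Theta n (cls n k) τ w := by
    have h1 : ∀ k : DD n, (ZMod.stdAddChar (-(bD n (x₀ : DD n) k)) : ℂ) * Theta n (cls n k) τ w =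
        ∑' y : LL, (ZMod.stdAddChar (-(bD n (x₀ : DD n) k)) : ℂ) * (cls n k y * tm n τ w y) := by
      intro k
      rw [Theta_eq, tsum_mul_left]
    rw [Finset.sum_congr rfl fun k _ => h1 k, ← Summable.tsum_finsetSum]
    · refine tsum_congr fun y => ?_
      rw [Finset.sum_eq_single (y : DD n)]
      · rw [cls, if_pos rfl, one_mul]
      · intro k _ hk
        rw [cls, if_neg fun h => hk h.symm, zero_mul, mul_zero]
      · intro h; exact absurd (Finset.mem_univ _) h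
    · intro k _
      exact (summable_tm n hτ w (norm_cls_le n k)).mul_left _
  rw [hsum, Finset.mul_sum, Finset.mul_sum]
  refine Finset.sum_congr rfl fun k _ => ?_
  rw [Bmat, kap, vol_BB]
  push_cast
  have h3 : ((√3 : ℝ) : ℂ) ≠ 0 := by
    rw [Complex.ofReal_ne_zero]
    exact (Real.sqrt_pos.mpr (by norm_num)).ne'
  field_simp

end Fermat.Agent.H98U
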