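import Fermat.Agent.H98U2
import Fermat.Agent.H96TIface

/-!
# S47 block (T), [T1-U], part 3: the statement `T1a N` (helper98)
-/

set_option autoImplicit false

noncomputable section

open scoped ComplexConjugate Real

namespace Fermat.Agent.H98U

open Fermat.Agent.S47T
open Fermat.Agent.H8T (hmatL actL permL hmatL_actL hmatL_injective qL_actL pL_actL)

local notation "LL" => Fermat.Agent.S47T.Lat

/-! ### Periodic test functions -/

/-- every bounded periodic test function is a combination of classes -/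
theorem theta_sum (n : ℕ) [NeZero n] {φ : LL → ℂ} (hφ : ∀ x y, φ (x + lam n y) = φ x) :
    ∃ a : DD n → ℂ, (∀ x : LL, a (x : DD n) = φ x) ∧ ∀ {τ : ℂ}, 0 < τ.im → ∀ w,
      Theta n φ τ w = ∑ h, a h * Theta n (cls n h) τ w := by
  refine ⟨fun h => φ h.out, ?_, ?_⟩
  · intro x
    have h1 : (((x : DD n).out : LL) : DD n) = (x : DD n) := QuotientAddGroup.out_eq' _
    have h2 : ((((x : DD n).out - x : LL)) : DD n) = 0 := by
      rw [QuotientAddGroup.mk_sub, h1, sub_self]
    obtain ⟨y, hy⟩ := AddMonoidHom.mem_range.mp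
      ((QuotientAddGroup.eq_zero_iff (N := (lam n).range) _).mp h2)
    have h3 : (x : DD n).out = x + lam n y := by rw [hy]; abel
    show φ (x : DD n).out = φ x
    rw [h3, hφ]
  · intro τ hτ w
    have h0 : ∀ x : LL, φ ((x : DD n).out) = φ x := by
      intro x
      have h1 : (((x : DD n).out : LL) : DD n) = (x : DD n) := QuotientAddGroup.out_eq' _
      have h2 : ((((x : DD n).out - x : LL)) : DD n) = 0 := by
        rw [QuotientAddGroup.mk_sub, h1, sub_self]
      obtain ⟨y, hy⟩ := AddMonoidHom.mem_range.mp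
        ((QuotientAddGroup.eq_zero_iff (N := (lam n).range) _).mp h2)
      have h3 : (x : DD n).out = x + lam n y := by rw [hy]; abel
      rw [h3, hφ]
    have h1 : ∀ h : DD n, φ h.out * Theta n (cls n h) τ w =
        ∑' x : LL, φ h.out * (cls n h x * tm n τ w x) := fun h => by rw [Theta_eq, tsum_mul_left]
    rw [Finset.sum_congr rfl fun h _ => h1 h, ← Summable.tsum_finsetSum, Theta_eq]
    · refine tsum_congr fun x => ?_
      rw [Finset.sum_eq_single (x : DD n)]
      · rw [cls, if_pos rfl, one_mul, h0]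
      · intro k _ hk
        rw [cls, if_neg fun h => hk h.symm, zero_mul, mul_zero]
      · intro h; exact absurd (Finset.mem_univ _) h
    · intro h _
      exact (summable_tm n hτ w (norm_cls_le n h)).mul_left _

/-! ### Unitarity of the matrix of `S` -/

theorem tm_I (n : ℕ) (w : H3) (x : LL) : ∃ r : ℝ, 0 < r ∧ tm n Complex.I w x = (r : ℂ) := by
  refine ⟨Real.sqrt 1 * (Real.exp (-(2 * π * (qL x / n ^ 2))) *
    Real.exp (-4 * π * 1 * (pL x w / n) ^ 2)), ?_, ?_⟩
  · rw [Real.sqrt_one]; positivity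
  · rw [tm_eq, Complex.I_im, ee]
    push_cast
    congr 3
    linear_combination (2 * (π : ℂ) * ((qL x : ℂ) / (n : ℂ) ^ 2)) * Complex.I_mul_I

theorem theta_zero_I_ne (n : ℕ) [NeZero n] (w : H3) :
    Theta n (cls n 0) Complex.I w ≠ 0 := by
  choose r hr hr' using tm_I n w
  have hs := summable_tm n (τ := Complex.I) (by rw [Complex.I_im]; exact one_pos) w
    (norm_cls_le n 0)
  have h1 : ∀ x : LL, cls n 0 x * tm n Complex.I w x =
      (((if (x : DD n) = 0 then r x else 0 : ℝ)) : ℂ) := by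
    intro x
    rw [cls, hr' x]
    split_ifs
    · rw [one_mul]
    · rw [zero_mul, Complex.ofReal_zero]
  rw [Theta_eq]
  simp only [h1] at hs ⊢
  rw [← Complex.ofReal_tsum, Complex.ofReal_ne_zero]
  have hs' : Summable fun x : LL => (if (x : DD n) = 0 then r x else 0 : ℝ) :=
    Complex.summable_ofReal.mp hs
  refine (hs'.tsum_pos (fun x => ?_) 0 ?_).ne'
  · split_ifs
    · exact (hr x).le
    · exact le_rfl
  · rw [if_pos (QuotientAddGroup.mk_zero _)]
    exact hr 0

theorem card_DD (n : ℕ) [NeZero n] : (Complex.I * kap n) ^ 2 * Fintype.card (DD n) = 1 := by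
  have w : H3 := ⟨0, 1, one_pos⟩
  have hI : (0 : ℝ) < Complex.I.im := by rw [Complex.I_im]; exact one_pos
  have hI' : (-1 / Complex.I : ℂ) = Complex.I := by
    rw [div_eq_iff Complex.I_ne_zero, Complex.I_mul_I]
  have hS : ∀ h, Theta n (cls n h) Complex.I w =
      Complex.I * ∑ k, Bmat n (kap n) h k * Theta n (cls n k) Complex.I w := by
    intro h
    have := theta_S n h hI w
    rwa [hI'] at this
  have h0 : Theta n (cls n 0) Complex.I w =
      Complex.I * kap n * ∑ k, Theta n (cls n k) Complex.I w := by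
    rw [hS 0, mul_assoc, Finset.mul_sum (a := kap n)]
    congr 1
    refine Finset.sum_congr rfl fun k _ => ?_
    rw [Bmat, map_zero, AddMonoidHom.zero_apply, neg_zero, AddChar.map_zero_eq_one, mul_one]
  have h1 : ∑ k, Theta n (cls n k) Complex.I w =
      Complex.I * kap n * Fintype.card (DD n) * Theta n (cls n 0) Complex.I w := by
    rw [Finset.sum_congr rfl fun k _ => hS k, ← Finset.mul_sum, Finset.sum_comm, mul_assoc,
      mul_assoc]
    congr 1
    have h2 : ∀ l, ∑ k, Bmat n (kap n) k l * Theta n (cls n l) Complex.I w =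
        if l = 0 then kap n * (Fintype.card (DD n) * Theta n (cls n l) Complex.I w) else 0 := by
      intro l
      rw [← Finset.sum_mul]
      have h3 : ∑ k, Bmat n (kap n) k l = kap n * ∑ k, (ZMod.stdAddChar (bD n (-l) k) : ℂ) := by
        rw [Finset.mul_sum]
        refine Finset.sum_congr rfl fun k _ => ?_
        rw [Bmat, bD_comm, map_neg (bD n) l, AddMonoidHom.neg_apply]
      rw [h3, sum_stdAddChar]
      by_cases hl : l = 0
      · rw [if_pos (by rw [hl, neg_zero]), if_pos hl]; ring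
      · rw [if_neg (fun h => hl (neg_eq_zero.mp h)), if_neg hl]; ring
    rw [Finset.sum_congr rfl fun l _ => h2 l, Finset.sum_ite_eq' Finset.univ (0 : DD n),
      if_pos (Finset.mem_univ _)]
  have h2 := theta_zero_I_ne n w
  rw [h1] at h0
  apply mul_right_cancel₀ h2
  rw [one_mul]
  conv_rhs => rw [h0]
  ring

theorem Bmat_unitary (n : ℕ) [NeZero n] : Bmat n (kap n) ∈ Matrix.unitaryGroup (DD n) ℂ := by
  rw [Matrix.mem_unitaryGroup_iff, Bmat_mul_star]
  have h := card_DD n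
  have h1 : kap n * star (kap n) = (Complex.I * kap n) ^ 2 := by
    rw [kap, Complex.star_def, map_div₀, map_neg, Complex.conj_I, Complex.conj_ofReal]
    ring_nf
    rw [Complex.I_pow_four, Complex.I_sq]
    ring
  rw [h1, h, one_smul]

theorem Amat_mem (n : ℕ) [NeZero n] : Amat n ∈ Matrix.unitaryGroup (DD n) ℂ := by
  rw [Matrix.mem_unitaryGroup_iff]
  exact Amat_unitary n

/-! ### Invariance in `w` -/

theorem memMul {A B : Matrix (Fin 2) (Fin 2) ℂ} (hA : ∀ i j, A i j ∈ Eis)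
    (hB : ∀ i j, B i j ∈ Eis) (i j : Fin 2) : (A * B) i j ∈ Eis := by
  rw [Matrix.mul_apply]
  exact Eis.sum_mem fun k _ => Eis.mul_mem (hA i k) (hB k j)

theorem GamP_le (m : ℕ) {g : GL (Fin 2) ℂ} (hg : g ∈ GamP m) : g ∈ Gam 1 := by
  obtain ⟨h1, h2⟩ := hg
  have h3 : ∀ i j, (g : Matrix (Fin 2) (Fin 2) ℂ) i j ∈ Eis := by
    intro i j
    obtain ⟨x, hx, h⟩ := h2 i j
    rw [h]
    refine Eis.add_mem ?_ (Eis.mul_mem (natCast_mem _ _) hx)
    rw [Matrix.one_apply]
    split_ifs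
    · exact Eis.one_mem
    · exact Eis.zero_mem
  exact ⟨h1, h3, _, h3 1 0, by rw [Nat.cast_one, one_mul]⟩

theorem actL_GamP (n : ℕ) [NeZero n] {g : GL (Fin 2) ℂ} (hg : g ∈ GamP (3 * n ^ 2)) (x : LL) :
    ((actL (GamP_le _ hg) x : LL) : DD n) = (x : DD n) := by
  have hn : ((n : ℂ) ^ 2) ≠ 0 := pow_ne_zero 2 (Nat.cast_ne_zero.mpr (NeZero.ne n))
  have h3 := sq3_ne_zero
  set G := (g : Matrix (Fin 2) (Fin 2) ℂ) with hG
  choose E hE hGE using hg.2
  set E' : Matrix (Fin 2) (Fin 2) ℂ := Matrix.of E with hE'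
  have hGE' : G = 1 + ((3 * n ^ 2 : ℕ) : ℂ) • E' := by
    ext i j
    rw [Matrix.add_apply, Matrix.smul_apply, smul_eq_mul, hE', Matrix.of_apply]
    exact hGE i j
  have hEE : ∀ i j, E' i j ∈ Eis := hE
  have hEE' : ∀ i j, E'.conjTranspose i j ∈ Eis := fun i j => conj_mem (hE j i)
  set X := hmatL x with hX
  have hXE : ∀ i j, (sq3 • X) i j ∈ Eis := by
    intro i j
    rw [Matrix.smul_apply, smul_eq_mul, hX, hmatL, hmat]
    fin_cases i <;> fin_cases j
    · exact Eis.mul_mem sq3_mem (intCast_mem Eis x.1)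
    · show sq3 * ((x.2.1 : ℂ) / sq3) ∈ Eis
      rw [mul_div_cancel₀ _ h3]
      exact x.2.1.2
    · show sq3 * conj ((x.2.1 : ℂ) / sq3) ∈ Eis
      rw [map_div₀, conj_sq3, div_neg, mul_neg, mul_div_cancel₀ _ h3]
      exact Eis.neg_mem (conj_mem x.2.1.2)
    · exact Eis.mul_mem sq3_mem (intCast_mem Eis x.2.2)
  set D := E' * (sq3 • X) + (sq3 • X) * E'.conjTranspose +
    ((3 * n ^ 2 : ℕ) : ℂ) • (E' * (sq3 • X) * E'.conjTranspose) with hD
  have hDE : ∀ i j, D i j ∈ Eis := by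
    intro i j
    rw [hD, Matrix.add_apply, Matrix.add_apply, Matrix.smul_apply, smul_eq_mul]
    exact Eis.add_mem (Eis.add_mem (memMul hEE hXE i j) (memMul hXE hEE' i j))
      (Eis.mul_mem (natCast_mem _ _) (memMul (memMul hEE hXE) hEE' i j))
  have key : sq3 • hmatL (actL (GamP_le _ hg) x) - sq3 • X = ((3 * n ^ 2 : ℕ) : ℂ) • D := by
    rw [hmatL_actL, ← hG, ← hX, hGE', hD]
    rw [Matrix.conjTranspose_add, Matrix.conjTranspose_smul, Matrix.conjTranspose_one,
      Complex.star_def, map_natCast]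
    simp only [Matrix.add_mul, Matrix.mul_add, Matrix.one_mul, Matrix.mul_one, Matrix.smul_mul,
      Matrix.mul_smul, smul_add, smul_comm sq3]
    abel
  set x' := actL (GamP_le _ hg) x with hx'
  have hint : ∀ (z : ℂ) (k l : ℤ), z ∈ Eis → sq3 * (k : ℂ) - sq3 * (l : ℂ) =
      ((3 * n ^ 2 : ℕ) : ℂ) * z → ∃ u : ℤ, (n : ℤ) ^ 2 * u = k - l := by
    intro z k l hz hzk
    obtain ⟨u, v, huv⟩ := Eis.neg_mem (Eis.mul_mem sq3_mem hz)
    have h1 : (k : ℂ) - l = (n : ℂ) ^ 2 * (u + v * om) := by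
      rw [← huv]
      apply mul_left_cancel₀ h3
      push_cast at hzk
      linear_combination hzk + (n : ℂ) ^ 2 * z * sq3_mul_sq3
    have h2 := om_indep (a := k - l - (n : ℤ) ^ 2 * u) (b := -((n : ℤ) ^ 2 * v)) (by
      push_cast
      linear_combination h1)
    exact ⟨u, by linarith [h2.1]⟩
  have k00 := congrFun (congrFun key 0) 0
  have k01 := congrFun (congrFun key 0) 1
  have k11 := congrFun (congrFun key 1) 1
  simp only [Matrix.sub_apply, Matrix.smul_apply, smul_eq_mul, hX, hmatL, hmat, Matrix.of_apply,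
    Matrix.cons_val', Matrix.cons_val_one, Matrix.cons_val_zero, Matrix.cons_val_fin_one,
    Complex.ofReal_intCast] at k00 k01 k11
  obtain ⟨u, hu⟩ := hint _ _ _ (hDE 0 0) k00
  obtain ⟨u', hu'⟩ := hint _ _ _ (hDE 1 1) k11
  rw [mul_div_cancel₀ _ h3, mul_div_cancel₀ _ h3] at k01
  have h4 : x' - x = lam n (u, ⟨-(sq3 * D 0 1), Eis.neg_mem (Eis.mul_mem sq3_mem (hDE 0 1))⟩, u') := by
    rw [lam_apply]
    refine Prod.ext ?_ (Prod.ext ?_ ?_)
    · exact hu.symm
    · apply Subtype.ext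
      show (x'.2.1 : ℂ) - (x.2.1 : ℂ) = (((n : ℤ) ^ 2 : ℤ) : ℂ) * (sq3 * -(sq3 * D 0 1))
      rw [k01]
      push_cast
      linear_combination (n : ℂ) ^ 2 * D 0 1 * sq3_mul_sq3
    · exact hu'.symm
  have h5 : ((x' - x : LL) : DD n) = 0 := by
    rw [h4]
    exact (QuotientAddGroup.eq_zero_iff (N := (lam n).range) _).mpr
      (AddMonoidHom.mem_range.mpr ⟨_, rfl⟩)
  rw [QuotientAddGroup.mk_sub, sub_eq_zero] at h5
  exact h5

theorem tm_actL (n : ℕ) (τ : ℂ) {g : GL (Fin 2) ℂ} (hg : g ∈ Gam 1) (w : H3) (x : LL) :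
    tm n τ (g • w) (actL hg x) = tm n τ w x := by
  rw [tm_eq, tm_eq, qL_actL, pL_actL]

theorem theta_w (n : ℕ) [NeZero n] {g : GL (Fin 2) ℂ} (hg : g ∈ GamP (3 * n ^ 2)) (h : DD n)
    (τ : ℂ) (w : H3) : Theta n (cls n h) τ (g • w) = Theta n (cls n h) τ w := by
  rw [Theta_eq, Theta_eq, ← (permL (GamP_le _ hg)).tsum_eq]
  refine tsum_congr fun x => ?_
  rw [Fermat.Agent.H8T.permL_apply, tm_actL, cls, cls, actL_GamP n hg]

/-! ### The test function `phiN N` -/

/-- multiplication by `n` on `Lat` -/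
def nsm (n : ℕ) (x : LL) : LL := ((n : ℤ) * x.1, (n : Eis) * x.2.1, (n : ℤ) * x.2.2)

theorem nsm_add (n : ℕ) (x y : LL) : nsm n (x + y) = nsm n x + nsm n y := by
  refine Prod.ext ?_ (Prod.ext ?_ ?_)
  · simp [nsm, mul_add]
  · simp [nsm, mul_add]
  · simp [nsm, mul_add]

theorem nsm_injective (n : ℕ) [NeZero n] : Function.Injective (nsm n) := by
  have hn : (n : ℤ) ≠ 0 := Nat.cast_ne_zero.mpr (NeZero.ne n)
  intro x y hxy
  obtain ⟨h1, h2, h3⟩ := (Prod.mk.injEq _ _ _ _).mp hxy |>.imp id (Prod.mk.injEq _ _ _ _).mp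
  refine Prod.ext (mul_left_cancel₀ hn h1) (Prod.ext ?_ (mul_left_cancel₀ hn h3))
  have h4 := congrArg (fun z : Eis => (z : ℂ)) h2
  simp only [Subring.coe_mul, Subring.coe_natCast] at h4
  exact Subtype.ext (mul_left_cancel₀ (Nat.cast_ne_zero.mpr (NeZero.ne n)) h4)

theorem tm_nsm (n : ℕ) [NeZero n] (τ : ℂ) (w : H3) (x : LL) :
    tm n τ w (nsm n x) = tm 1 τ w x := by
  have hn : (n : ℝ) ≠ 0 := Nat.cast_ne_zero.mpr (NeZero.ne n)
  have hn' : (n : ℂ) ≠ 0 := Nat.cast_ne_zero.mpr (NeZero.ne n)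
  rw [tm, tm, nsm]
  congr 1
  · push_cast; field_simp
  · rw [Subring.coe_mul, Subring.coe_natCast, Nat.cast_one, div_one]
    field_simp
  · push_cast; field_simp

/-- the test function at scale `n` -/
def up (n : ℕ) (φ : LL → ℂ) (x : LL) : ℂ :=
  haveI := Classical.propDecidable
  if h : ∃ y, nsm n y = x then φ (Classical.choose h) else 0

theorem up_nsm (n : ℕ) [NeZero n] (φ : LL → ℂ) (y : LL) : up n φ (nsm n y) = φ y := by
  have h : ∃ z, nsm n z = nsm n y := ⟨y, rfl⟩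
  rw [up, dif_pos h, nsm_injective n (Classical.choose_spec h)]

theorem up_of_not (n : ℕ) (φ : LL → ℂ) {x : LL} (h : ¬ ∃ y, nsm n y = x) : up n φ x = 0 := by
  rw [up, dif_neg h]

/-- change of scale -/
theorem theta_up (n : ℕ) [NeZero n] (φ : LL → ℂ) (τ : ℂ) (w : H3) :
    Theta 1 φ τ w = Theta n (up n φ) τ w := by
  rw [Theta_eq, Theta_eq]
  symm
  rw [← (nsm_injective n).tsum_eq]
  · exact tsum_congr fun y => by rw [up_nsm, tm_nsm]
  · intro x hx
    rw [Function.mem_support] at hx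
    by_contra hne
    exact hx (by rw [up_of_not n φ hne, zero_mul])

/-- `lam n y = nsm n (mu n y)` -/
def mu (n : ℕ) (y : LL) : LL := ((n : ℤ) * y.1, (n : Eis) * (sq3E * y.2.1), (n : ℤ) * y.2.2)

theorem lam_eq_nsm (n : ℕ) (y : LL) : lam n y = nsm n (mu n y) := by
  rw [lam_apply, nsm, mu]
  refine Prod.ext ?_ (Prod.ext ?_ ?_)
  · show (n : ℤ) ^ 2 * y.1 = n * (n * y.1); ring
  · show (((n : ℤ) ^ 2 : ℤ) : Eis) * (sq3E * y.2.1) = n * (n * (sq3E * y.2.1))
    push_cast; ring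
  · show (n : ℤ) ^ 2 * y.2.2 = n * (n * y.2.2); ring

theorem phiN_mu (N : ℕ) (x y : LL) : phiN N (x + mu N y) = phiN N x := by
  have h1 : (N : ℤ) ∣ (x + mu N y).2.2 ↔ (N : ℤ) ∣ x.2.2 := by
    rw [Prod.snd_add, Prod.snd_add]
    exact dvd_add_left (Dvd.intro _ rfl)
  have h2 : IsCoprime (x + mu N y).2.1 (N : Eis) ↔ IsCoprime x.2.1 (N : Eis) := by
    rw [Prod.snd_add, Prod.fst_add]
    exact IsCoprime.add_mul_left_left_iff
  by_cases h : (N : ℤ) ∣ x.2.2 ∧ IsCoprime x.2.1 (N : Eis)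
  · rw [phiN, phiN]
    exact (if_pos ⟨h1.mpr h.1, h2.mpr h.2⟩).trans (if_pos h).symm
  · rw [phiN, phiN]
    exact (if_neg fun h' => h ⟨h1.mp h'.1, h2.mp h'.2⟩).trans (if_neg h).symm

theorem up_phiN (N : ℕ) [NeZero N] (x y : LL) :
    up N (phiN N) (x + lam N y) = up N (phiN N) x := by
  by_cases h : ∃ z, nsm N z = x
  · obtain ⟨z, rfl⟩ := h
    rw [lam_eq_nsm, ← nsm_add, up_nsm, up_nsm, phiN_mu]
  · rw [up_of_not N _ h, up_of_not]
    rintro ⟨z, hz⟩
    refine h ⟨z - mu N y, ?_⟩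
    have h1 : nsm N (z - mu N y) + nsm N (mu N y) = nsm N z := by rw [← nsm_add, sub_add_cancel]
    rw [hz, lam_eq_nsm] at h1
    exact add_right_cancel h1

/-- **`T1a N`** -/
theorem t1a (N : ℕ) (hN : 0 < N) : T1a N := by
  have : NeZero N := ⟨hN.ne'⟩
  obtain ⟨a, -, ha⟩ := theta_sum N (up_phiN N)
  refine ⟨3 * N ^ 2, by positivity, DD N, inferInstance, inferInstance, cls N, Amat N,
    Bmat N (kap N), a, Amat_mem N, Bmat_unitary N, norm_cls_le N, ?_, ?_, ?_, ?_⟩
  · intro g hg h τ w _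
    exact theta_w N hg h τ w
  · intro h τ w _
    rw [theta_T]
    rw [Finset.sum_eq_single h]
    · rw [Amat, Matrix.diagonal_apply_eq]
    · intro k _ hk
      rw [Amat, Matrix.diagonal_apply_ne' _ hk, zero_mul]
    · intro h; exact absurd (Finset.mem_univ _) h
  · intro h τ w hτ
    exact theta_S N h hτ w
  · intro τ w hτ
    rw [theta_up N, ha hτ]

end Fermat.Agent.H98U
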