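import Mathlib

/-!
# Unfolding over the strip (S47, nonvanishing of the period, part NV4)

For the invariant measure `dx dy / y ^ 2` of the upper half plane and a function `u` which is
invariant under `τ ↦ τ + 1`:
`∑_r ∫_𝒟 u (σ_r τ) = 2 ∫_{0 ≤ x < 1} u`, the sum over all coprime pairs `r` of integers.
-/

namespace Fermat.Agent.H99C

open UpperHalfPlane MeasureTheory ModularGroup Matrix.SpecialLinearGroup
open scoped Modular MatrixGroups ENNReal

noncomputable section

theorem measurePreserving_sl (g : SL(2, ℤ)) :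
    MeasurePreserving (fun τ : ℍ => g • τ) volume volume :=
  measurePreserving_smul ((toGL ((map (Int.castRingHom ℝ)) g)) : GL (Fin 2) ℝ) volume

theorem measurable_sl (g : SL(2, ℤ)) : Measurable (fun τ : ℍ => g • τ) :=
  (measurePreserving_sl g).measurable

instance countable_sl : Countable SL(2, ℤ) := by
  have : Countable (Matrix (Fin 2) (Fin 2) ℤ) := inferInstanceAs (Countable (Fin 2 → Fin 2 → ℤ))
  exact Subtype.countable

/-- The line `re z = c` is a null set. -/
theorem volume_re_eq (c : ℝ) : volume {z : ℂ | z.re = c} = 0 := by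
  have h := Complex.volume_preserving_equiv_real_prod.measure_preimage_equiv ({c} ×ˢ Set.univ)
  have h2 : (Complex.measurableEquivRealProd ⁻¹' ({c} ×ˢ Set.univ)) = {z : ℂ | z.re = c} := by
    ext z; simp [Complex.measurableEquivRealProd_apply]
  rw [h2] at h
  rw [h, Measure.volume_eq_prod, Measure.prod_prod]
  simp

theorem volume_null_of_coe {s : Set ℍ} (h : volume ((↑) '' s : Set ℂ) = 0) :
    (volume : Measure ℍ) s = 0 := by
  rw [volume_eq_lintegral]
  exact setLIntegral_measure_zero _ _ h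

theorem volume_fd_diff_fdo : (volume : Measure ℍ) (𝒟 \ 𝒟ᵒ) = 0 := by
  apply volume_null_of_coe
  have hsub : ((↑) '' (𝒟 \ 𝒟ᵒ) : Set ℂ) ⊆
      Metric.sphere (0 : ℂ) 1 ∪ ({z : ℂ | z.re = 1 / 2} ∪ {z : ℂ | z.re = -(1 / 2)}) := by
    rintro _ ⟨τ, ⟨hD, hDo⟩, rfl⟩
    rw [Set.mem_union, Set.mem_union]
    obtain ⟨h1, h2⟩ := hD
    by_contra hcon
    push Not at hcon
    obtain ⟨h3, h4, h5⟩ := hcon
    apply hDo
    refine ⟨lt_of_le_of_ne h1 ?_, lt_of_le_of_ne h2 ?_⟩
    · intro h
      apply h3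
      rw [mem_sphere_zero_iff_norm]
      have : ‖(τ : ℂ)‖ ^ 2 = 1 := by rw [← Complex.normSq_eq_norm_sq]; exact h.symm
      nlinarith [norm_nonneg (τ : ℂ)]
    · intro h
      rcases abs_cases τ.re with ⟨h6, _⟩ | ⟨h6, _⟩
      · exact h4 (by show τ.re = 1 / 2; linarith)
      · exact h5 (by show τ.re = -(1 / 2); linarith)
  refine measure_mono_null hsub ?_
  rw [measure_union_null_iff, measure_union_null_iff]
  exact ⟨Measure.addHaar_sphere _ _ _, volume_re_eq _, volume_re_eq _⟩

theorem measurableSet_fd : MeasurableSet 𝒟 := isClosed_fd.measurableSet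

/-- Almost every point is moved into the open fundamental domain. -/
theorem ae_exists_smul_mem_fdo : ∀ᵐ τ : ℍ, ∃ g : SL(2, ℤ), g • τ ∈ 𝒟ᵒ := by
  have hnull : (volume : Measure ℍ) (⋃ g : SL(2, ℤ), (fun τ : ℍ => g • τ) ⁻¹' (𝒟 \ 𝒟ᵒ)) = 0 := by
    rw [measure_iUnion_null_iff]
    intro g
    rw [(measurePreserving_sl g).measure_preimage
      (measurableSet_fd.diff isOpen_fdo.measurableSet).nullMeasurableSet]
    exact volume_fd_diff_fdo
  rw [ae_iff]
  refine measure_mono_null ?_ hnull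
  intro τ hτ
  obtain ⟨g, hg⟩ := exists_smul_mem_fd τ
  exact Set.mem_iUnion.mpr ⟨g, hg, fun h => hτ ⟨g, h⟩⟩

theorem tsum_indicator_fd {τ : ℍ} (h : ∃ g : SL(2, ℤ), g • τ ∈ 𝒟ᵒ) :
    ∑' g : SL(2, ℤ), (𝒟).indicator (1 : ℍ → ℝ≥0∞) (g⁻¹ • τ) = 2 := by
  obtain ⟨g0, hg0⟩ := h
  have hne : g0⁻¹ ≠ -g0⁻¹ := by
    intro h
    have h1 : (1 : SL(2, ℤ)) = -1 := by
      have := congrArg (fun x => g0 * x) h
      simpa using this
    have h2 := congrArg (fun x : SL(2, ℤ) => (x 0 0 : ℤ)) h1
    simp at h2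
  rw [tsum_eq_sum (s := {g0⁻¹, -g0⁻¹})]
  · rw [Finset.sum_pair hne]
    have h1 : (g0⁻¹)⁻¹ • τ ∈ 𝒟 := by rw [inv_inv]; exact fdo_subset_fd hg0
    have h2 : (-g0⁻¹)⁻¹ • τ ∈ 𝒟 := by
      have : (-g0⁻¹)⁻¹ = -g0 := by
        rw [inv_eq_iff_mul_eq_one]; simp
      rw [this, SL_neg_smul]; exact fdo_subset_fd hg0
    rw [Set.indicator_of_mem h1, Set.indicator_of_mem h2]
    norm_num
  · intro g hg
    apply Set.indicator_of_notMem
    intro hmem
    apply hg
    have h1 : (g⁻¹ * g0⁻¹) • (g0 • τ) ∈ 𝒟 := by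
      rw [smul_smul]; simpa [mul_assoc] using hmem
    rcases eq_one_or_neg_one_of_mem_fdo_mem_fd hg0 h1 with h2 | h2
    · have : g = g0⁻¹ := by
        have := mul_eq_one_iff_eq_inv.mp h2
        rw [inv_inv] at this
        rw [← this, inv_inv]
      simp [this]
    · have : g = -g0⁻¹ := by
        have h3 : g⁻¹ = -g0 := by
          have := congrArg (fun x => x * g0) h2
          simpa using this
        have h4 : g * g⁻¹ = 1 := mul_inv_cancel g
        rw [h3] at h4
        have h5 : g = g * (-g0) * (-g0)⁻¹ := by simp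
        rw [h4, one_mul] at h5
        rw [h5, inv_eq_iff_mul_eq_one]; simp
      simp [this]

/-- The unfolding over the whole group: the `𝒟`-translates cover the plane twice. -/
theorem tsum_lintegral_fd (g : ℍ → ℝ≥0∞) (hg : Measurable g) :
    ∑' γ : SL(2, ℤ), ∫⁻ τ in 𝒟, g (γ • τ) = 2 * ∫⁻ τ, g τ := by
  have h1 : ∀ γ : SL(2, ℤ), ∫⁻ τ in 𝒟, g (γ • τ) =
      ∫⁻ τ, (𝒟).indicator (1 : ℍ → ℝ≥0∞) (γ⁻¹ • τ) * g τ := by
    intro γ
    have h2 := (measurePreserving_sl γ).lintegral_comp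
      (f := fun τ => (𝒟).indicator (1 : ℍ → ℝ≥0∞) (γ⁻¹ • τ) * g τ) ?_
    · rw [← h2, ← lintegral_indicator measurableSet_fd]
      refine lintegral_congr fun τ => ?_
      by_cases h : τ ∈ 𝒟 <;> simp [h]
    · exact (((measurable_one.indicator measurableSet_fd).comp (measurable_sl γ⁻¹)).mul hg)
  simp_rw [h1]
  rw [← lintegral_tsum]
  · rw [← lintegral_const_mul _ hg]
    refine lintegral_congr_ae ?_
    filter_upwards [ae_exists_smul_mem_fdo] with τ hτ
    rw [ENNReal.tsum_mul_right, tsum_indicator_fd hτ]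
  · intro γ
    exact (((measurable_one.indicator measurableSet_fd).comp (measurable_sl γ⁻¹)).mul
      hg).aemeasurable

/-- Coprime pairs of integers. -/
abbrev CP : Type := {r : Fin 2 → ℤ // IsCoprime (r 0) (r 1)}

/-- A matrix with given bottom row. -/
def sec (r : CP) : SL(2, ℤ) := (bottom_row_surj (R := ℤ) r.2).choose

theorem sec_row (r : CP) : (sec r : Matrix (Fin 2) (Fin 2) ℤ) 1 = r.1 :=
  (bottom_row_surj (R := ℤ) r.2).choose_spec.2

theorem sec_c (r : CP) : (sec r : Matrix (Fin 2) (Fin 2) ℤ) 1 0 = r.1 0 := by rw [sec_row]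

theorem sec_d (r : CP) : (sec r : Matrix (Fin 2) (Fin 2) ℤ) 1 1 = r.1 1 := by rw [sec_row]

/-- Two matrices with the same bottom row differ by a power of `T`. -/
theorem exists_T_zpow_mul {g h : SL(2, ℤ)} (h0 : g 1 0 = h 1 0) (h1 : g 1 1 = h 1 1) :
    ∃ n : ℤ, g = T ^ n * h := by
  refine ⟨g 0 1 * h 0 0 - g 0 0 * h 0 1, ?_⟩
  have hdg := g.det_coe
  have hdh := h.det_coe
  rw [Matrix.det_fin_two] at hdg hdh
  have hg : (g : Matrix (Fin 2) (Fin 2) ℤ) = !![g 0 0, g 0 1; g 1 0, g 1 1] :=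
    Matrix.eta_fin_two _
  have hh : (h : Matrix (Fin 2) (Fin 2) ℤ) = !![h 0 0, h 0 1; h 1 0, h 1 1] :=
    Matrix.eta_fin_two _
  rw [h0, h1] at hdg
  apply Subtype.ext
  rw [Matrix.SpecialLinearGroup.coe_mul, coe_T_zpow]
  ext i j
  fin_cases i <;> fin_cases j <;>
    simp [Matrix.mul_apply, Fin.sum_univ_two, h0, h1]
  · linear_combination (h 0 0 : ℤ) * hdg - (g 0 0 : ℤ) * hdh
  · linear_combination (h 0 1 : ℤ) * hdg - (g 0 1 : ℤ) * hdh

theorem T_zpow_row (n : ℤ) (h : SL(2, ℤ)) :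
    (T ^ n * h) 1 0 = h 1 0 ∧ (T ^ n * h) 1 1 = h 1 1 := by
  constructor <;> simp

theorem T_zpow_injective : Function.Injective (fun n : ℤ => (T ^ n : SL(2, ℤ))) := by
  intro m n h
  have := congrArg (fun g : SL(2, ℤ) => (g : Matrix (Fin 2) (Fin 2) ℤ) 0 1) h
  simpa [coe_T_zpow] using this

/-- `SL(2, ℤ)` is `ℤ × {coprime pairs}`. -/
def cpEquiv : CP × ℤ ≃ SL(2, ℤ) :=
  Equiv.ofBijective (fun p => T ^ p.2 * sec p.1) (by
    constructor
    · rintro ⟨r, m⟩ ⟨r', n⟩ h
      simp only at h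
      have h0 : (sec r) 1 0 = (sec r') 1 0 := by
        rw [← (T_zpow_row m (sec r)).1, h, (T_zpow_row n (sec r')).1]
      have h1 : (sec r) 1 1 = (sec r') 1 1 := by
        rw [← (T_zpow_row m (sec r)).2, h, (T_zpow_row n (sec r')).2]
      have hr : r = r' := by
        apply Subtype.ext
        ext i
        fin_cases i
        · simpa [sec_c] using h0
        · simpa [sec_d] using h1
      subst hr
      have := T_zpow_injective (mul_right_cancel h)
      simp [this]
    · intro g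
      have hcop : IsCoprime (g 1 0) (g 1 1) := bottom_row_coprime g
      obtain ⟨n, hn⟩ := exists_T_zpow_mul (g := g) (h := sec ⟨g 1, hcop⟩)
        (by rw [sec_c]) (by rw [sec_d])
      exact ⟨⟨⟨g 1, hcop⟩, n⟩, hn.symm⟩)

theorem cpEquiv_apply (p : CP × ℤ) : cpEquiv p = T ^ p.2 * sec p.1 := rfl

/-- The strip `0 ≤ x < 1`. -/
def strip : Set ℍ := {τ | 0 ≤ τ.re ∧ τ.re < 1}

theorem measurable_re : Measurable (fun τ : ℍ => τ.re) :=
  Complex.measurable_re.comp measurable_coe

theorem measurable_im : Measurable (fun τ : ℍ => τ.im) :=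
  Complex.measurable_im.comp measurable_coe

theorem measurableSet_strip : MeasurableSet strip :=
  (measurableSet_le measurable_const measurable_re).inter
    (measurableSet_lt measurable_re measurable_const)

theorem tsum_indicator_strip (τ : ℍ) :
    ∑' n : ℤ, strip.indicator (1 : ℍ → ℝ≥0∞) (T ^ n • τ) = 1 := by
  rw [tsum_eq_single (-⌊τ.re⌋)]
  · rw [Set.indicator_of_mem]
    · rfl
    · show 0 ≤ (T ^ (-⌊τ.re⌋) • τ).re ∧ (T ^ (-⌊τ.re⌋) • τ).re < 1
      rw [re_T_zpow_smul]
      push_cast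
      constructor
      · linarith [Int.floor_le τ.re]
      · linarith [Int.lt_floor_add_one τ.re]
  · intro n hn
    apply Set.indicator_of_notMem
    intro hmem
    apply hn
    have h1 : 0 ≤ (T ^ n • τ).re ∧ (T ^ n • τ).re < 1 := hmem
    rw [re_T_zpow_smul] at h1
    have : ⌊τ.re⌋ = -n := by
      rw [Int.floor_eq_iff]
      push_cast
      constructor <;> linarith
    rw [this, neg_neg]

/-- Unfolding for nonnegative functions invariant under `T`. -/
theorem tsum_lintegral_cp (g : ℍ → ℝ≥0∞) (hg : Measurable g) (hT : ∀ (n : ℤ) τ, g (T ^ n • τ) = g τ) :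
    ∑' r : CP, ∫⁻ τ in 𝒟, g (sec r • τ) = 2 * ∫⁻ τ in strip, g τ := by
  rw [← lintegral_indicator measurableSet_strip, ← tsum_lintegral_fd _ (hg.indicator measurableSet_strip),
    ← cpEquiv.tsum_eq, ENNReal.tsum_prod']
  congr 1
  ext r
  rw [← lintegral_tsum]
  · refine lintegral_congr fun τ => ?_
    have h1 : ∀ n : ℤ, strip.indicator g (cpEquiv (r, n) • τ) =
        strip.indicator (1 : ℍ → ℝ≥0∞) (T ^ n • sec r • τ) * g (sec r • τ) := by
      intro n
      rw [cpEquiv_apply, mul_smul]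
      by_cases h : T ^ n • sec r • τ ∈ strip
      · rw [Set.indicator_of_mem h, Set.indicator_of_mem h, hT]; simp
      · rw [Set.indicator_of_notMem h, Set.indicator_of_notMem h, zero_mul]
    simp_rw [h1]
    rw [ENNReal.tsum_mul_right, tsum_indicator_strip, one_mul]
  · intro n
    exact ((hg.indicator measurableSet_strip).comp (measurable_sl _)).aemeasurable

/-- The reduction of a point to the strip. -/
def red (τ : ℍ) : ℍ := T ^ (-⌊τ.re⌋) • τ

theorem measurable_red : Measurable red := by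
  rw [← measurableEmbedding_coe.measurable_comp_iff]
  have : (UpperHalfPlane.coe ∘ red) = fun τ : ℍ => (τ : ℂ) + ((-⌊τ.re⌋ : ℤ) : ℂ) := by
    ext τ
    simp only [Function.comp, red]
    rw [coe_T_zpow_smul_eq]
  rw [this]
  refine measurable_coe.add ?_
  have h2 : Measurable (fun n : ℤ => ((-n : ℤ) : ℂ)) := measurable_from_top
  exact h2.comp (Int.measurable_floor.comp measurable_re)

theorem red_of_mem_strip {τ : ℍ} (h : τ ∈ strip) : red τ = τ := by
  have : ⌊τ.re⌋ = 0 := by
    rw [Int.floor_eq_iff]; push_cast; exact ⟨h.1, by linarith [h.2]⟩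
  rw [red, this]; simp

theorem red_T_zpow (n : ℤ) (τ : ℍ) : red (T ^ n • τ) = red τ := by
  rw [red, red, re_T_zpow_smul, Int.floor_add_intCast, smul_smul, ← zpow_add]
  congr 2
  ring

theorem measure_eq :
    Measure.sum (fun r : CP => ((volume : Measure ℍ).restrict 𝒟).map (fun τ => red (sec r • τ))) =
      (2 : ℝ≥0∞) • (volume : Measure ℍ).restrict strip := by
  ext s hs
  rw [Measure.sum_apply _ hs, Measure.smul_apply, smul_eq_mul]
  have hm : Measurable (fun τ : ℍ => s.indicator (1 : ℍ → ℝ≥0∞) (red τ)) :=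
    (measurable_one.indicator hs).comp measurable_red
  have h1 := tsum_lintegral_cp (fun τ => s.indicator (1 : ℍ → ℝ≥0∞) (red τ)) hm
    (fun n τ => by rw [red_T_zpow])
  have h2 : ∀ r : CP, ((volume : Measure ℍ).restrict 𝒟).map (fun τ => red (sec r • τ)) s =
      ∫⁻ τ in 𝒟, s.indicator (1 : ℍ → ℝ≥0∞) (red (sec r • τ)) := by
    intro r
    have hmr : Measurable (fun τ : ℍ => red (sec r • τ)) := measurable_red.comp (measurable_sl _)
    rw [Measure.map_apply hmr hs, ← lintegral_indicator_one (hmr hs)]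
    rfl
  have h3 : (volume : Measure ℍ).restrict strip s =
      ∫⁻ τ in strip, s.indicator (1 : ℍ → ℝ≥0∞) (red τ) := by
    rw [← lintegral_indicator_one hs]
    refine setLIntegral_congr_fun measurableSet_strip fun τ hτ => ?_
    show _ = s.indicator 1 (red τ)
    rw [red_of_mem_strip hτ]
  simp_rw [h2]
  rw [h3, ← h1]

/-- **Unfolding** for integrable functions invariant under `T`. -/
theorem hasSum_integral_cp {u : ℍ → ℂ} (hum : Measurable u) (hT : ∀ (n : ℤ) τ, u (T ^ n • τ) = u τ)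
    (hu : IntegrableOn u strip) :
    HasSum (fun r : CP => ∫ τ in 𝒟, u (sec r • τ)) (2 * ∫ τ in strip, u τ) := by
  have hred : ∀ τ, u (red τ) = u τ := fun τ => hT _ τ
  have hint : Integrable u
      (Measure.sum (fun r : CP => ((volume : Measure ℍ).restrict 𝒟).map
        (fun τ => red (sec r • τ)))) := by
    rw [measure_eq]
    exact hu.integrable.smul_measure (by norm_num)
  have h1 := hasSum_integral_measure hint
  have h3 : (fun r : CP => ∫ τ, u τ ∂(((volume : Measure ℍ).restrict 𝒟).map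
      (fun τ => red (sec r • τ)))) = fun r : CP => ∫ τ in 𝒟, u (sec r • τ) := by
    funext r
    have hmr : Measurable (fun τ : ℍ => red (sec r • τ)) := measurable_red.comp (measurable_sl _)
    rw [integral_map hmr.aemeasurable hum.aestronglyMeasurable]
    exact integral_congr_ae (Filter.Eventually.of_forall fun τ => hred _)
  have h2 : (∫ τ, u τ ∂((2 : ℝ≥0∞) • (volume : Measure ℍ).restrict strip)) =
      2 * ∫ τ in strip, u τ := by
    rw [integral_smul_measure]
    simp
  rw [h3, measure_eq, h2] at h1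
  exact h1

end

end Fermat.Agent.H99C
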