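import Mathlib

/-!
# Elementary estimate of the row sums of a lattice (S47, nonvanishing of the period)
-/

namespace Fermat.Agent.H99C

open MeasureTheory Set

noncomputable section

/-- `(x² + b²)^{-s}`. -/
def hk (s b x : ℝ) : ℝ := (x ^ 2 + b ^ 2) ^ (-s)

theorem sq_add_pos {b : ℝ} (hb : 0 < b) (x : ℝ) : 0 < x ^ 2 + b ^ 2 := by positivity

theorem hk_pos {s b : ℝ} (hb : 0 < b) (x : ℝ) : 0 < hk s b x :=
  Real.rpow_pos_of_pos (sq_add_pos hb x) _

theorem continuous_hk {s b : ℝ} (hb : 0 < b) : Continuous (hk s b) := by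
  unfold hk
  exact (by fun_prop : Continuous fun x : ℝ => x ^ 2 + b ^ 2).rpow_const
    (fun x => Or.inl (sq_add_pos hb x).ne')

/-- The derivative of `hk`. -/
def hkd (s b x : ℝ) : ℝ := (2 * x) * (-s) * (x ^ 2 + b ^ 2) ^ (-s - 1)

theorem hasDerivAt_hk {s b : ℝ} (hb : 0 < b) (x : ℝ) : HasDerivAt (hk s b) (hkd s b x) x := by
  have h1 : HasDerivAt (fun x : ℝ => x ^ 2 + b ^ 2) (2 * x) x := by
    simpa using (hasDerivAt_pow 2 x).add_const (b ^ 2)
  exact h1.rpow_const (Or.inl (sq_add_pos hb x).ne')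

theorem continuous_hkd {s b : ℝ} (hb : 0 < b) : Continuous (hkd s b) := by
  unfold hkd
  refine Continuous.mul (by fun_prop) ?_
  exact (by fun_prop : Continuous fun x : ℝ => x ^ 2 + b ^ 2).rpow_const
    (fun x => Or.inl (sq_add_pos hb x).ne')

theorem abs_hkd_le {s b : ℝ} (hb : 0 < b) (hs : 0 ≤ s) (x : ℝ) :
    |hkd s b x| ≤ s / b * hk s b x := by
  have h0 := sq_add_pos hb x
  have h1 : (x ^ 2 + b ^ 2) ^ (-s) = (x ^ 2 + b ^ 2) ^ (-s - 1) * (x ^ 2 + b ^ 2) := by
    rw [Real.rpow_sub_one h0.ne']; field_simp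
  have h2 : 0 < (x ^ 2 + b ^ 2) ^ (-s - 1) := Real.rpow_pos_of_pos h0 _
  unfold hkd hk
  rw [h1, abs_mul, abs_mul, abs_neg, abs_of_pos h2, abs_of_nonneg hs]
  have h3 : |2 * x| ≤ (x ^ 2 + b ^ 2) / b := by
    rw [le_div_iff₀ hb, abs_mul, abs_two]
    nlinarith [sq_nonneg (|x| - b), sq_abs x]
  calc |2 * x| * s * (x ^ 2 + b ^ 2) ^ (-s - 1)
      ≤ ((x ^ 2 + b ^ 2) / b) * s * (x ^ 2 + b ^ 2) ^ (-s - 1) := by gcongr
    _ = _ := by ring

theorem hk_one_le {s : ℝ} (hs : 1 ≤ s) (x : ℝ) : hk s 1 x ≤ (1 + x ^ 2)⁻¹ := by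
  unfold hk
  rw [one_pow, add_comm, ← Real.rpow_neg_one]
  exact Real.rpow_le_rpow_of_exponent_le (by nlinarith [sq_nonneg x]) (by linarith)

theorem integrable_hk_one {s : ℝ} (hs : 1 ≤ s) : Integrable (hk s 1) := by
  refine integrable_inv_one_add_sq.mono' (continuous_hk one_pos).aestronglyMeasurable ?_
  refine Filter.Eventually.of_forall fun x => ?_
  rw [Real.norm_of_nonneg (hk_pos one_pos x).le]
  exact hk_one_le hs x

theorem hk_scale {s b : ℝ} (hb : 0 < b) (x : ℝ) : hk s b x = b ^ (-2 * s) * hk s 1 (x / b) := by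
  unfold hk
  have h1 : x ^ 2 + b ^ 2 = b ^ 2 * ((x / b) ^ 2 + 1 ^ 2) := by field_simp
  rw [h1, Real.mul_rpow (by positivity) (by positivity)]
  congr 1
  rw [← Real.rpow_natCast, ← Real.rpow_mul hb.le]
  norm_num

/-- The constant `∫ (1 + x²)^{-s} dx`. -/
def Bs (s : ℝ) : ℝ := ∫ x, hk s 1 x

theorem Bs_nonneg (s : ℝ) : 0 ≤ Bs s := integral_nonneg fun x => (hk_pos one_pos x).le

theorem Bs_le {s : ℝ} (hs : 1 ≤ s) : Bs s ≤ Real.pi := by
  rw [← integral_univ_inv_one_add_sq]
  exact integral_mono (integrable_hk_one hs) integrable_inv_one_add_sq (hk_one_le hs)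

theorem integrable_hk {s b : ℝ} (hb : 0 < b) (hs : 1 ≤ s) : Integrable (hk s b) := by
  have h : hk s b = fun x => b ^ (-2 * s) * hk s 1 (x / b) := funext fun x => hk_scale hb x
  rw [h]
  exact ((integrable_hk_one hs).comp_div hb.ne').const_mul _

theorem integral_hk {s b : ℝ} (hb : 0 < b) : ∫ x, hk s b x = b ^ (1 - 2 * s) * Bs s := by
  have h : hk s b = fun x => b ^ (-2 * s) * hk s 1 (x / b) := funext fun x => hk_scale hb x
  rw [h, integral_const_mul, Measure.integral_comp_div, Bs, abs_of_pos hb, smul_eq_mul,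
    ← mul_assoc]
  congr 1
  rw [sub_eq_add_neg, add_comm, Real.rpow_add hb, Real.rpow_one]
  congr 2
  ring

/-- One step of the comparison between the sum and the integral. -/
theorem step_estimate {s b : ℝ} (hb : 0 < b) (hs : 1 ≤ s) (p : ℝ) :
    |hk s b p - ∫ x in Ioc p (p + 1), hk s b x| ≤ s / b * ∫ x in Ioc p (p + 1), hk s b x := by
  have hpp : p ≤ p + 1 := by linarith
  have hpoint : ∀ x ∈ Ioc p (p + 1),
      |hk s b p - hk s b x| ≤ s / b * ∫ x in Ioc p (p + 1), hk s b x := by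
    intro x hx
    have h1 : ∫ t in p..x, hkd s b t = hk s b x - hk s b p :=
      intervalIntegral.integral_eq_sub_of_hasDerivAt (fun t _ => hasDerivAt_hk hb t)
        ((continuous_hkd hb).intervalIntegrable _ _)
    have h2 : |∫ t in p..x, hkd s b t| ≤ ∫ t in p..x, s / b * hk s b t := by
      rw [← Real.norm_eq_abs]
      refine intervalIntegral.norm_integral_le_of_norm_le hx.1.le ?_
        ((continuous_const.mul (continuous_hk hb)).intervalIntegrable _ _)
      exact Filter.Eventually.of_forall fun t _ => abs_hkd_le hb (by linarith) t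
    have h3 : ∫ t in p..x, s / b * hk s b t ≤ s / b * ∫ x in Ioc p (p + 1), hk s b x := by
      rw [intervalIntegral.integral_const_mul, intervalIntegral.integral_of_le hx.1.le]
      refine mul_le_mul_of_nonneg_left ?_ (by positivity)
      refine setIntegral_mono_set ((integrable_hk hb hs).integrableOn)
        (Filter.Eventually.of_forall fun t => (hk_pos hb t).le) ?_
      exact (Ioc_subset_Ioc_right hx.2).eventuallyLE
    rw [abs_sub_comm, ← h1]
    exact h2.trans h3
  have hconst : hk s b p = ∫ _ in Ioc p (p + 1), hk s b p := by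
    rw [setIntegral_const]; simp
  have hI : IntegrableOn (hk s b) (Ioc p (p + 1)) := (integrable_hk hb hs).integrableOn
  have hI0 : IntegrableOn (fun _ : ℝ => hk s b p) (Ioc p (p + 1)) := by
    rw [integrableOn_const_iff]; right; simp
  calc |hk s b p - ∫ x in Ioc p (p + 1), hk s b x|
      = |∫ x in Ioc p (p + 1), (hk s b p - hk s b x)| := by
        rw [integral_sub hI0 hI, ← hconst]
    _ ≤ ∫ x in Ioc p (p + 1), |hk s b p - hk s b x| := abs_integral_le_integral_abs
    _ ≤ ∫ _ in Ioc p (p + 1), (s / b * ∫ x in Ioc p (p + 1), hk s b x) := by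
        refine setIntegral_mono_on (hI0.sub hI).abs ?_ measurableSet_Ioc hpoint
        rw [integrableOn_const_iff]; right; simp
    _ = _ := by rw [setIntegral_const]; simp

theorem hasSum_Ioc {s b : ℝ} (hb : 0 < b) (hs : 1 ≤ s) (a : ℝ) :
    HasSum (fun d : ℤ => ∫ x in Ioc (a + d) (a + d + 1), hk s b x) (∫ x, hk s b x) := by
  have h := hasSum_integral_iUnion (f := hk s b) (μ := volume)
    (s := fun d : ℤ => Ioc (a + d) (a + d + 1)) (fun _ => measurableSet_Ioc)
    (pairwise_disjoint_Ioc_add_intCast a) (integrable_hk hb hs).integrableOn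
  rwa [iUnion_Ioc_add_intCast, setIntegral_univ] at h

/-- **Row estimate**: sum against integral. -/
theorem row_estimate {s b : ℝ} (hb : 0 < b) (hs : 1 ≤ s) (a : ℝ) :
    Summable (fun d : ℤ => hk s b (a + d)) ∧
      |∑' d : ℤ, hk s b (a + d) - b ^ (1 - 2 * s) * Bs s| ≤ s * b ^ (-2 * s) * Bs s := by
  have h1 := hasSum_Ioc hb hs a
  have h2 := h1.mul_left (s / b)
  have hdiff : Summable fun d : ℤ => (hk s b (a + d) - ∫ x in Ioc (a + d) (a + d + 1), hk s b x) :=
    Summable.of_norm_bounded h2.summable fun d => step_estimate hb hs (a + d)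
  have hsum : Summable (fun d : ℤ => hk s b (a + d)) := by
    have := hdiff.add h1.summable
    simpa using this
  refine ⟨hsum, ?_⟩
  have h3 : ∑' d : ℤ, hk s b (a + d) - b ^ (1 - 2 * s) * Bs s =
      ∑' d : ℤ, (hk s b (a + d) - ∫ x in Ioc (a + d) (a + d + 1), hk s b x) := by
    rw [hsum.tsum_sub h1.summable, h1.tsum_eq, integral_hk hb]
  rw [h3]
  have h4 : |∑' d : ℤ, (hk s b (a + d) - ∫ x in Ioc (a + d) (a + d + 1), hk s b x)| ≤
      ∑' d : ℤ, s / b * ∫ x in Ioc (a + d) (a + d + 1), hk s b x := by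
    rw [← Real.norm_eq_abs]
    exact tsum_of_norm_bounded h2 (fun d => step_estimate hb hs (a + d)) |>.trans_eq h2.tsum_eq.symm
  refine h4.trans_eq ?_
  rw [h2.tsum_eq, integral_hk hb, sub_eq_add_neg, Real.rpow_add hb, Real.rpow_one]
  have : (-2 * s : ℝ) = -(2 * s) := by ring
  rw [this]
  field_simp

end

end Fermat.Agent.H99C
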