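import Fermat.Agent.H99C2

/-!
# The lattice sum `∑' (y / |c z + d|²)^s` for `s → 1+` (S47, nonvanishing of the period)
-/

namespace Fermat.Agent.H99C

open MeasureTheory Set

noncomputable section

/-- `m^{1-t} - (m+1)^{1-t} ≥ (t-1) (m+1)^{-t}`. -/
theorem telescope_step {t m : ℝ} (ht : 1 < t) (hm : 0 < m) :
    (m + 1) ^ (-t) ≤ (m ^ (1 - t) - (m + 1) ^ (1 - t)) / (t - 1) := by
  have hm1 : 0 < m + 1 := by linarith
  rw [le_div_iff₀ (by linarith)]
  have hu : 0 < (m + 1) / m := by positivity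
  have h1 : 1 - 1 / ((m + 1) / m) ≤ Real.log ((m + 1) / m) := by
    have := Real.one_sub_inv_le_log_of_pos hu
    simpa using this
  have h2 : 1 + (t - 1) * Real.log ((m + 1) / m) ≤ ((m + 1) / m) ^ (t - 1) := by
    rw [Real.rpow_def_of_pos hu, mul_comm (Real.log _)]
    linarith [Real.add_one_le_exp ((t - 1) * Real.log ((m + 1) / m))]
  have h3 : 1 + (t - 1) * (1 / (m + 1)) ≤ ((m + 1) / m) ^ (t - 1) := by
    refine le_trans ?_ h2
    have h4 : 1 - 1 / ((m + 1) / m) = 1 / (m + 1) := by field_simp; ring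
    rw [h4] at h1
    have := mul_le_mul_of_nonneg_left h1 (by linarith : (0 : ℝ) ≤ t - 1)
    linarith
  have h5 : m ^ (1 - t) = (m + 1) ^ (1 - t) * ((m + 1) / m) ^ (t - 1) := by
    rw [Real.div_rpow hm1.le hm.le, mul_div_assoc', ← Real.rpow_add hm1]
    have : (1 - t + (t - 1)) = 0 := by ring
    rw [this, Real.rpow_zero, one_div, ← Real.rpow_neg hm.le]
    congr 1; ring
  have h6 : (m + 1) ^ (-t) = (m + 1) ^ (1 - t) * (1 / (m + 1)) := by
    rw [sub_eq_add_neg, Real.rpow_add hm1, Real.rpow_one]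
    field_simp
  have h7 : 0 < (m + 1) ^ (1 - t) := Real.rpow_pos_of_pos hm1 _
  rw [h5, h6]
  nlinarith [mul_le_mul_of_nonneg_left h3 h7.le]

theorem sum_range_le {t : ℝ} (ht : 1 < t) (n : ℕ) :
    ∑ i ∈ Finset.range (n + 1), ((i : ℝ) + 1) ^ (-t) ≤
      1 + (1 - ((n : ℝ) + 1) ^ (1 - t)) / (t - 1) := by
  induction n with
  | zero => simp
  | succ n ih =>
    rw [Finset.sum_range_succ]
    have h := telescope_step ht (show (0 : ℝ) < (n : ℝ) + 1 by positivity)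
    push_cast
    have h2 : (1 - ((n : ℝ) + 1 + 1) ^ (1 - t)) / (t - 1) =
        (1 - ((n : ℝ) + 1) ^ (1 - t)) / (t - 1) +
          (((n : ℝ) + 1) ^ (1 - t) - ((n : ℝ) + 1 + 1) ^ (1 - t)) / (t - 1) := by ring
    rw [h2]
    linarith

theorem tsum_nat_le {t : ℝ} (ht : 1 < t) :
    ∑' i : ℕ, ((i : ℝ) + 1) ^ (-t) ≤ 1 + 1 / (t - 1) := by
  refine Real.tsum_le_of_sum_range_le (fun i => by positivity) fun n => ?_
  refine le_trans (Finset.sum_le_sum_of_subset_of_nonneg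
    (Finset.range_subset_range.mpr (Nat.le_succ n)) (fun i _ _ => by positivity)) ?_
  refine (sum_range_le ht n).trans ?_
  have h1 : 0 ≤ ((n : ℝ) + 1) ^ (1 - t) := by positivity
  have h2 : (1 - ((n : ℝ) + 1) ^ (1 - t)) / (t - 1) ≤ 1 / (t - 1) :=
    div_le_div_of_nonneg_right (by linarith) (by linarith)
  linarith

/-- `∑_{n ≠ 0} |n|^{-t}`. -/
def Zs (t : ℝ) : ℝ := ∑' n : ℤ, |(n : ℝ)| ^ (-t)

theorem Zs_nonneg (t : ℝ) : 0 ≤ Zs t := tsum_nonneg fun n => by positivity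

theorem Zs_le {t : ℝ} (ht : 1 < t) : Zs t ≤ 2 * (1 + 1 / (t - 1)) := by
  have hs := Real.summable_abs_int_rpow ht
  have hs1 : Summable fun n : ℕ => |((n : ℤ) : ℝ)| ^ (-t) :=
    hs.comp_injective Nat.cast_injective
  have hs2 : Summable fun n : ℕ => |((-((n : ℤ) + 1) : ℤ) : ℝ)| ^ (-t) :=
    hs.comp_injective fun a b h => by simpa using h
  have h1 : Zs t = (∑' n : ℕ, |((n : ℤ) : ℝ)| ^ (-t)) +
      ∑' n : ℕ, |((-((n : ℤ) + 1) : ℤ) : ℝ)| ^ (-t) :=
    tsum_of_nat_of_neg_add_one hs1 hs2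
  have h2 : ∑' n : ℕ, |((-((n : ℤ) + 1) : ℤ) : ℝ)| ^ (-t) = ∑' i : ℕ, ((i : ℝ) + 1) ^ (-t) := by
    refine tsum_congr fun n => ?_
    push_cast
    rw [abs_neg, abs_of_nonneg (by positivity)]
  have h3 : ∑' n : ℕ, |((n : ℤ) : ℝ)| ^ (-t) = ∑' i : ℕ, ((i : ℝ) + 1) ^ (-t) := by
    rw [hs1.tsum_eq_zero_add]
    have : |(((0 : ℕ) : ℤ) : ℝ)| ^ (-t) = 0 := by
      simp; rw [Real.zero_rpow (by linarith)]
    rw [this, zero_add]
    refine tsum_congr fun n => ?_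
    push_cast
    rw [abs_of_nonneg (by positivity)]
  rw [h1, h2, h3]
  linarith [tsum_nat_le ht]

/-- One term `(y / |c z + d|²)^s`, `z = x + i y`. -/
def tm (x y s : ℝ) (p : ℤ × ℤ) : ℝ := (y / ((p.1 * x + p.2) ^ 2 + (p.1 * y) ^ 2)) ^ s

theorem tm_nonneg {x y s : ℝ} (hy : 0 < y) (p : ℤ × ℤ) : 0 ≤ tm x y s p := by
  unfold tm; positivity

theorem tm_ne {x y s : ℝ} (hy : 0 < y) {c : ℤ} (hc : c ≠ 0) (d : ℤ) :
    tm x y s (c, d) = y ^ s * hk s (|(c : ℝ)| * y) (c * x + d) := by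
  unfold tm hk
  have hc' : (0 : ℝ) < |(c : ℝ)| := by positivity
  have h1 : (c * y) ^ 2 = (|(c : ℝ)| * y) ^ 2 := by rw [mul_pow, mul_pow, sq_abs]
  simp only
  rw [h1, Real.div_rpow hy.le (by positivity), Real.rpow_neg (by positivity), div_eq_mul_inv]

theorem tm_zero {x y s : ℝ} (hy : 0 < y) (hs : 0 < s) (d : ℤ) :
    tm x y s (0, d) = y ^ s * |(d : ℝ)| ^ (-(2 * s)) := by
  unfold tm
  simp only [Int.cast_zero, zero_mul, zero_add]
  rcases eq_or_ne d 0 with rfl | hd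
  · simp
    rw [Real.zero_rpow (by linarith), Real.zero_rpow (by linarith)]; simp
  · have hd' : (0 : ℝ) < |(d : ℝ)| := by positivity
    rw [← sq_abs (d : ℝ)]
    have h0 : |(d : ℝ)| ^ 2 + 0 ^ 2 = |(d : ℝ)| ^ 2 := by ring
    rw [h0, Real.div_rpow hy.le (by positivity), div_eq_mul_inv, ← Real.rpow_natCast,
      ← Real.rpow_mul hd'.le, ← Real.rpow_neg hd'.le]
    norm_num

theorem summable_row {x y s : ℝ} (hy : 0 < y) (hs : 1 < s) (c : ℤ) :
    Summable fun d : ℤ => tm x y s (c, d) := by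
  rcases eq_or_ne c 0 with rfl | hc
  · simp_rw [tm_zero hy (by linarith : 0 < s)]
    exact (Real.summable_abs_int_rpow (by linarith)).mul_left _
  · simp_rw [tm_ne hy hc]
    exact ((row_estimate (by positivity : 0 < |(c : ℝ)| * y) hs.le (c * x)).1).mul_left _

/-- The main term of a row. -/
def mn (y s : ℝ) (c : ℤ) : ℝ := Bs s * y ^ (1 - s) * |(c : ℝ)| ^ (-(2 * s - 1))

/-- The error term of a row. -/
def er (y s : ℝ) (c : ℤ) : ℝ :=
  (if c = 0 then y ^ s * Zs (2 * s) else 0) + s * Bs s * y ^ (-s) * |(c : ℝ)| ^ (-(2 * s))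

theorem row_le {x y s : ℝ} (hy : 0 < y) (hs : 1 < s) (c : ℤ) :
    |∑' d : ℤ, tm x y s (c, d) - mn y s c| ≤ er y s c := by
  have hB := Bs_nonneg s
  rcases eq_or_ne c 0 with rfl | hc
  · have h1 : ∑' d : ℤ, tm x y s (0, d) = y ^ s * Zs (2 * s) := by
      simp_rw [tm_zero hy (by linarith : 0 < s)]
      rw [tsum_mul_left]; rfl
    have h2 : mn y s 0 = 0 := by
      unfold mn; simp; rw [Real.zero_rpow (by linarith)]; simp
    rw [h1, h2, sub_zero, abs_of_nonneg (mul_nonneg (by positivity) (Zs_nonneg _))]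
    unfold er
    rw [if_pos rfl]
    have : 0 ≤ s * Bs s * y ^ (-s) * |((0 : ℤ) : ℝ)| ^ (-(2 * s)) := by positivity
    linarith
  · have hc' : (0 : ℝ) < |(c : ℝ)| := by positivity
    have hb : 0 < |(c : ℝ)| * y := by positivity
    obtain ⟨_, h2⟩ := row_estimate hb hs.le (c * x)
    simp_rw [tm_ne hy hc]
    rw [tsum_mul_left]
    unfold er mn
    rw [if_neg hc, zero_add]
    have h3 : Bs s * y ^ (1 - s) * |(c : ℝ)| ^ (-(2 * s - 1)) =
        y ^ s * ((|(c : ℝ)| * y) ^ (1 - 2 * s) * Bs s) := by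
      rw [Real.mul_rpow hc'.le hy.le]
      have : y ^ (1 - s) = y ^ s * y ^ (1 - 2 * s) := by
        rw [← Real.rpow_add hy]; congr 1; ring
      rw [this]
      have h4 : (-(2 * s - 1)) = 1 - 2 * s := by ring
      rw [h4]; ring
    have h5 : s * Bs s * y ^ (-s) * |(c : ℝ)| ^ (-(2 * s)) =
        y ^ s * (s * (|(c : ℝ)| * y) ^ (-2 * s) * Bs s) := by
      rw [Real.mul_rpow hc'.le hy.le]
      have : y ^ (-s) = y ^ s * y ^ (-2 * s) := by
        rw [← Real.rpow_add hy]; congr 1; ring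
      rw [this]
      have h4 : (-(2 * s)) = -2 * s := by ring
      rw [h4]; ring
    rw [h3, h5, ← mul_sub, abs_mul, abs_of_pos (by positivity : 0 < y ^ s)]
    exact mul_le_mul_of_nonneg_left h2 (by positivity)

theorem summable_er {y s : ℝ} (hs : 1 < s) : Summable (er y s) := by
  unfold er
  refine Summable.add ?_ ((Real.summable_abs_int_rpow (by linarith)).mul_left _)
  exact summable_of_ne_finset_zero (s := {0}) fun c hc => by
    rw [if_neg]; simpa using hc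

theorem tsum_er {y s : ℝ} (hs : 1 < s) :
    ∑' c, er y s c = y ^ s * Zs (2 * s) + s * Bs s * y ^ (-s) * Zs (2 * s) := by
  have h1 : Summable fun c : ℤ => if c = 0 then y ^ s * Zs (2 * s) else 0 :=
    summable_of_ne_finset_zero (s := {0}) fun c hc => by rw [if_neg]; simpa using hc
  have h2 : Summable fun c : ℤ => s * Bs s * y ^ (-s) * |(c : ℝ)| ^ (-(2 * s)) :=
    (Real.summable_abs_int_rpow (by linarith)).mul_left _
  unfold er
  rw [h1.tsum_add h2, tsum_ite_eq, tsum_mul_left]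
  rfl

theorem summable_mn {y s : ℝ} (hs : 1 < s) : Summable (mn y s) := by
  unfold mn
  exact (Real.summable_abs_int_rpow (by linarith)).mul_left _

theorem tsum_mn {y s : ℝ} : ∑' c, mn y s c = Bs s * y ^ (1 - s) * Zs (2 * s - 1) := by
  unfold mn
  rw [tsum_mul_left]; rfl

theorem summable_tm {x y s : ℝ} (hy : 0 < y) (hs : 1 < s) : Summable (tm x y s) := by
  rw [summable_prod_of_nonneg fun p => tm_nonneg hy p]
  refine ⟨fun c => summable_row hy hs c, ?_⟩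
  have h1 : Summable fun c : ℤ => (∑' d : ℤ, tm x y s (c, d) - mn y s c) :=
    Summable.of_norm_bounded (summable_er hs) fun c => row_le hy hs c
  simpa using h1.add (summable_mn (y := y) hs)

/-- The lattice sum. -/
def Gs (x y s : ℝ) : ℝ := ∑' p : ℤ × ℤ, tm x y s p

theorem Gs_main {x y s : ℝ} (hy : 0 < y) (hs : 1 < s) :
    |Gs x y s - Bs s * y ^ (1 - s) * Zs (2 * s - 1)| ≤
      y ^ s * Zs (2 * s) + s * Bs s * y ^ (-s) * Zs (2 * s) := by
  have h0 : Gs x y s = ∑' c : ℤ, ∑' d : ℤ, tm x y s (c, d) :=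
    (summable_tm hy hs).tsum_prod
  have h2 : Summable fun c : ℤ => (∑' d : ℤ, tm x y s (c, d) - mn y s c) :=
    Summable.of_norm_bounded (summable_er hs) fun c => row_le hy hs c
  have h1 : Summable fun c : ℤ => ∑' d : ℤ, tm x y s (c, d) := by
    simpa using h2.add (summable_mn (y := y) hs)
  rw [h0, ← tsum_mn, ← h1.tsum_sub (summable_mn hs), ← tsum_er hs, ← Real.norm_eq_abs]
  exact tsum_of_norm_bounded (summable_er hs).hasSum fun c => row_le hy hs c

/-- The main constant. -/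
def Ks (s : ℝ) : ℝ := Bs s * Zs (2 * s - 1)

theorem Ks_nonneg (s : ℝ) : 0 ≤ Ks s := mul_nonneg (Bs_nonneg s) (Zs_nonneg _)

theorem Ks_le {s : ℝ} (hs : 1 < s) (hs2 : s ≤ 2) : (s - 1) * Ks s ≤ 3 * Real.pi := by
  have h1 := Zs_le (t := 2 * s - 1) (by linarith)
  have h2 := Bs_le hs.le
  have h3 := Bs_nonneg s
  have h4 := Zs_nonneg (2 * s - 1)
  have h5 : (s - 1) * Zs (2 * s - 1) ≤ 3 := by
    calc (s - 1) * Zs (2 * s - 1) ≤ (s - 1) * (2 * (1 + 1 / (2 * s - 1 - 1))) :=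
          mul_le_mul_of_nonneg_left h1 (by linarith)
      _ = 2 * (s - 1) + 1 := by
          have : (s - 1) ≠ 0 := by linarith
          have h6 : 2 * s - 1 - 1 = 2 * (s - 1) := by ring
          rw [h6]; field_simp
      _ ≤ 3 := by linarith
  unfold Ks
  calc (s - 1) * (Bs s * Zs (2 * s - 1)) = ((s - 1) * Zs (2 * s - 1)) * Bs s := by ring
    _ ≤ 3 * Real.pi := by
      refine mul_le_mul h5 h2 h3 (by norm_num)

theorem rpow_sub_one_le {s y : ℝ} (hs : 1 < s) (hs2 : s ≤ 2) (hy : 1 / 2 ≤ y) :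
    |y ^ (1 - s) - 1| ≤ 4 * (s - 1) * y := by
  have hy0 : 0 < y := by linarith
  have hlog : 1 - 1 / y ≤ Real.log y := by
    have := Real.one_sub_inv_le_log_of_pos hy0
    simpa using this
  have hlog2 : Real.log y ≤ y - 1 := Real.log_le_sub_one_of_pos hy0
  have h1 : 1 + (1 - s) * Real.log y ≤ y ^ (1 - s) := by
    rw [Real.rpow_def_of_pos hy0]
    linarith [Real.add_one_le_exp (Real.log y * (1 - s))]
  have h2 : 1 + (s - 1) * Real.log y ≤ y ^ (s - 1) := by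
    rw [Real.rpow_def_of_pos hy0]
    linarith [Real.add_one_le_exp (Real.log y * (s - 1))]
  have h3 : y ^ (1 - s) * y ^ (s - 1) = 1 := by
    rw [← Real.rpow_add hy0]; simp
  have hp : 0 < y ^ (1 - s) := Real.rpow_pos_of_pos hy0 _
  have h4 : y ^ (1 - s) ≤ 2 := by
    have h5 : y ^ (1 - s) ≤ (1 / 2 : ℝ) ^ (1 - s) :=
      Real.rpow_le_rpow_of_nonpos (by norm_num) hy (by linarith)
    refine h5.trans ?_
    have h6 : (1 / 2 : ℝ) ^ (1 - s) = 2 ^ (s - 1) := by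
      rw [one_div, Real.inv_rpow (by norm_num), ← Real.rpow_neg (by norm_num)]
      congr 1; ring
    rw [h6]
    calc (2 : ℝ) ^ (s - 1) ≤ 2 ^ (1 : ℝ) :=
          Real.rpow_le_rpow_of_exponent_le (by norm_num) (by linarith)
      _ = 2 := by norm_num
  -- upper bound: y^(1-s) (1 + (s-1) log y) ≤ 1
  have h5 : y ^ (1 - s) * (1 + (s - 1) * Real.log y) ≤ 1 := by
    calc y ^ (1 - s) * (1 + (s - 1) * Real.log y) ≤ y ^ (1 - s) * y ^ (s - 1) :=
          mul_le_mul_of_nonneg_left h2 hp.le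
      _ = 1 := h3
  have h7 : 1 - 1 / y ≥ -1 := by
    have : 1 / y ≤ 2 := by rw [div_le_iff₀ hy0]; linarith
    linarith
  rw [abs_le]
  constructor
  · nlinarith [mul_nonneg (by linarith : (0:ℝ) ≤ s - 1) (by linarith : (0 : ℝ) ≤ y - 1 / 2)]
  · have h8 : -(Real.log y) ≤ 1 := by linarith
    have h9 : y ^ (1 - s) - 1 ≤ y ^ (1 - s) * ((s - 1) * (-(Real.log y))) := by nlinarith
    have h10 : y ^ (1 - s) * ((s - 1) * (-(Real.log y))) ≤ y ^ (1 - s) * ((s - 1) * 1) := by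
      refine mul_le_mul_of_nonneg_left ?_ hp.le
      exact mul_le_mul_of_nonneg_left h8 (by linarith)
    have h11 : y ^ (1 - s) * ((s - 1) * 1) ≤ 2 * (s - 1) := by nlinarith
    nlinarith

/-- **Level one estimate.** -/
theorem Gs_estimate : ∃ C : ℝ, 0 < C ∧ ∀ s : ℝ, 1 < s → s ≤ 2 → ∀ x y : ℝ, 1 / 2 ≤ y →
    |Gs x y s - Ks s| ≤ C * y ^ 2 := by
  refine ⟨700, by norm_num, fun s hs hs2 x y hy => ?_⟩
  have hy0 : 0 < y := by linarith
  have h1 := Gs_main (x := x) hy0 hs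
  have h2 := rpow_sub_one_le hs hs2 hy
  have h3 := Ks_le hs hs2
  have hpi : Real.pi ≤ 4 := Real.pi_le_four
  have hpi0 : 0 < Real.pi := Real.pi_pos
  have hB := Bs_le hs.le
  have hB0 := Bs_nonneg s
  have hZ0 := Zs_nonneg (2 * s)
  have hZ : Zs (2 * s) ≤ 4 := by
    refine (Zs_le (by linarith)).trans ?_
    have : 1 / (2 * s - 1) ≤ 1 := by
      rw [div_le_one (by linarith)]; linarith
    linarith
  have hys : y ^ s ≤ 4 * y ^ 2 := by
    rcases le_total 1 y with h | h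
    · calc y ^ s ≤ y ^ (2 : ℝ) := Real.rpow_le_rpow_of_exponent_le h hs2
        _ = y ^ 2 := by norm_cast
        _ ≤ 4 * y ^ 2 := by nlinarith [sq_nonneg y]
    · calc y ^ s ≤ 1 := Real.rpow_le_one hy0.le h (by linarith)
        _ ≤ 4 * y ^ 2 := by nlinarith
  have hyms : y ^ (-s) ≤ 16 * y ^ 2 := by
    have h5 : y ^ (-s) ≤ (1 / 2 : ℝ) ^ (-s) :=
      Real.rpow_le_rpow_of_nonpos (by norm_num) hy (by linarith)
    have h6 : (1 / 2 : ℝ) ^ (-s) ≤ (1 / 2 : ℝ) ^ (-2 : ℝ) :=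
      Real.rpow_le_rpow_of_exponent_ge (by norm_num) (by norm_num) (by linarith)
    have h7 : (1 / 2 : ℝ) ^ (-2 : ℝ) = 4 := by
      rw [Real.rpow_neg (by norm_num)]; norm_num
    nlinarith
  have hys0 : 0 < y ^ s := Real.rpow_pos_of_pos hy0 _
  have hyms0 : 0 < y ^ (-s) := Real.rpow_pos_of_pos hy0 _
  have hK : |Bs s * y ^ (1 - s) * Zs (2 * s - 1) - Ks s| ≤ 48 * y := by
    have : Bs s * y ^ (1 - s) * Zs (2 * s - 1) - Ks s = Ks s * (y ^ (1 - s) - 1) := by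
      unfold Ks; ring
    rw [this, abs_mul, abs_of_nonneg (Ks_nonneg s)]
    calc Ks s * |y ^ (1 - s) - 1| ≤ Ks s * (4 * (s - 1) * y) :=
          mul_le_mul_of_nonneg_left h2 (Ks_nonneg s)
      _ = 4 * ((s - 1) * Ks s) * y := by ring
      _ ≤ 4 * (3 * Real.pi) * y := by gcongr
      _ ≤ 48 * y := by nlinarith
  have hE1 : y ^ s * Zs (2 * s) ≤ (4 * y ^ 2) * 4 :=
    mul_le_mul hys hZ hZ0 (by positivity)
  have hE2 : s * Bs s * y ^ (-s) * Zs (2 * s) ≤ 2 * 4 * (16 * y ^ 2) * 4 := by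
    refine mul_le_mul ?_ hZ hZ0 (by positivity)
    refine mul_le_mul ?_ hyms hyms0.le (by norm_num)
    exact mul_le_mul hs2 (hB.trans hpi) hB0 (by norm_num)
  have h6 : |Gs x y s - Ks s| ≤ |Gs x y s - Bs s * y ^ (1 - s) * Zs (2 * s - 1)| +
      |Bs s * y ^ (1 - s) * Zs (2 * s - 1) - Ks s| := abs_sub_le _ _ _
  nlinarith

end

end Fermat.Agent.H99C
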