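import Fermat.Agent.H99C1
import Fermat.Agent.H99C3

/-!
# Eisenstein series of level `N` for real `s → 1+` (S47, nonvanishing of the period)
-/

namespace Fermat.Agent.H99C

open UpperHalfPlane MeasureTheory ModularGroup Matrix.SpecialLinearGroup
open scoped Modular MatrixGroups ENNReal

noncomputable section

theorem tm_eq (z : ℍ) (s : ℝ) (p : ℤ × ℤ) :
    tm z.re z.im s p = (z.im / Complex.normSq ((p.1 : ℂ) * z + p.2)) ^ s := by
  unfold tm
  congr 2
  rw [Complex.normSq_apply]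
  simp
  ring

/-- Right multiplication of a row by a matrix. -/
def rowEquiv (g : SL(2, ℤ)) : ℤ × ℤ ≃ ℤ × ℤ where
  toFun p := (p.1 * g 0 0 + p.2 * g 1 0, p.1 * g 0 1 + p.2 * g 1 1)
  invFun q := (q.1 * g 1 1 - q.2 * g 1 0, -(q.1 * g 0 1) + q.2 * g 0 0)
  left_inv p := by
    have h := g.det_coe
    rw [Matrix.det_fin_two] at h
    ext <;> simp only
    · linear_combination p.1 * h
    · linear_combination p.2 * h
  right_inv q := by
    have h := g.det_coe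
    rw [Matrix.det_fin_two] at h
    ext <;> simp only
    · linear_combination q.1 * h
    · linear_combination q.2 * h

theorem im_div_normSq_smul (g : SL(2, ℤ)) (z : ℍ) (p : ℤ × ℤ) :
    (g • z).im / Complex.normSq ((p.1 : ℂ) * (g • z : ℍ) + p.2) =
      z.im / Complex.normSq (((rowEquiv g p).1 : ℂ) * z + (rowEquiv g p).2) := by
  have hd : ((g 1 0 : ℤ) : ℂ) * z + ((g 1 1 : ℤ) : ℂ) ≠ 0 := by
    have := denom_ne_zero (toGL ((Matrix.SpecialLinearGroup.map (Int.castRingHom ℝ)) g)) z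
    simpa [denom] using this
  have him : (g • z).im = z.im / Complex.normSq (((g 1 0 : ℤ) : ℂ) * z + ((g 1 1 : ℤ) : ℂ)) := by
    rw [ModularGroup.im_smul_eq_div_normSq]
    simp [denom]
  have hco : ((g • z : ℍ) : ℂ) = (((g 0 0 : ℤ) : ℂ) * z + ((g 0 1 : ℤ) : ℂ)) /
      (((g 1 0 : ℤ) : ℂ) * z + ((g 1 1 : ℤ) : ℂ)) := by
    rw [specialLinearGroup_apply]; simp
  have hnum : (p.1 : ℂ) * (g • z : ℍ) + p.2 =
      (((rowEquiv g p).1 : ℂ) * z + (rowEquiv g p).2) /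
        (((g 1 0 : ℤ) : ℂ) * z + ((g 1 1 : ℤ) : ℂ)) := by
    rw [hco, eq_div_iff hd, add_mul, mul_assoc, div_mul_cancel₀ _ hd]
    simp only [rowEquiv, Equiv.coe_fn_mk]
    push_cast
    ring
  have hn : Complex.normSq (((g 1 0 : ℤ) : ℂ) * z + ((g 1 1 : ℤ) : ℂ)) ≠ 0 := by
    rwa [Ne, Complex.normSq_eq_zero]
  rw [hnum, him, map_div₀]
  by_cases h0 : Complex.normSq (((rowEquiv g p).1 : ℂ) * z + (rowEquiv g p).2) = 0
  · rw [h0]; simp
  · field_simp

theorem tm_smul (g : SL(2, ℤ)) (z : ℍ) (s : ℝ) (p : ℤ × ℤ) :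
    tm (g • z).re (g • z).im s p = tm z.re z.im s (rowEquiv g p) := by
  rw [tm_eq, tm_eq, im_div_normSq_smul]

theorem Gs_smul (g : SL(2, ℤ)) (z : ℍ) (s : ℝ) :
    Gs (g • z).re (g • z).im s = Gs z.re z.im s := by
  unfold Gs
  simp_rw [tm_smul]
  exact (rowEquiv g).tsum_eq (tm z.re z.im s)

/-- The height of every translate is controlled by any large translate. -/
theorem im_div_le (z : ℍ) (g : SL(2, ℤ)) (hg : 1 / 2 ≤ (g • z).im) (p : ℤ × ℤ) (hp : p ≠ 0) :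
    z.im / Complex.normSq ((p.1 : ℂ) * z + p.2) ≤ 4 * (g • z).im := by
  obtain ⟨q, rfl⟩ := (rowEquiv g).surjective p
  rw [← im_div_normSq_smul]
  have hq : q ≠ 0 := by
    rintro rfl
    apply hp
    simp [rowEquiv]
  set w := g • z with hw
  have hw0 : 0 < w.im := w.im_pos
  have hns : Complex.normSq ((q.1 : ℂ) * w + q.2) = (q.1 * w.re + q.2) ^ 2 + (q.1 * w.im) ^ 2 := by
    rw [Complex.normSq_apply]; simp; ring
  rw [hns]
  rcases eq_or_ne q.1 0 with h1 | h1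
  · have h2 : q.2 ≠ 0 := fun h2 => hq (Prod.ext h1 h2)
    have h3 : (1 : ℝ) ≤ (q.2 : ℝ) ^ 2 := by
      have : (1 : ℤ) ≤ q.2 ^ 2 := by
        have := pow_pos (abs_pos.mpr h2) 2
        rw [sq_abs] at this
        omega
      exact_mod_cast this
    rw [h1]
    simp only [Int.cast_zero, zero_mul, zero_add]
    rw [div_le_iff₀ (by nlinarith)]
    nlinarith
  · have h3 : (1 : ℝ) ≤ (q.1 : ℝ) ^ 2 := by
      have : (1 : ℤ) ≤ q.1 ^ 2 := by
        have := pow_pos (abs_pos.mpr h1) 2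
        rw [sq_abs] at this
        omega
      exact_mod_cast this
    have h4 : w.im ^ 2 ≤ (q.1 * w.re + q.2) ^ 2 + (q.1 * w.im) ^ 2 := by
      nlinarith [sq_nonneg ((q.1 : ℝ) * w.re + q.2), sq_nonneg w.im]
    have h5 : 0 < w.im ^ 2 := by positivity
    rw [div_le_iff₀ (by linarith)]
    nlinarith [mul_le_mul_of_nonneg_left h4 (by linarith : (0 : ℝ) ≤ 4 * w.im)]

/-- Multiplication by a positive integer. -/
def scl (f : ℕ) (hf : 0 < f) (z : ℍ) : ℍ :=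
  ⟨(f : ℂ) * z, by
    have : (0 : ℝ) < f := by exact_mod_cast hf
    simpa using mul_pos this z.im_pos⟩

theorem scl_re (f : ℕ) (hf : 0 < f) (z : ℍ) : (scl f hf z).re = f * z.re := by
  show ((f : ℂ) * z).re = _
  simp

theorem scl_im (f : ℕ) (hf : 0 < f) (z : ℍ) : (scl f hf z).im = f * z.im := by
  show ((f : ℂ) * z).im = _
  simp

theorem exists_scl (f : ℕ) (hf : 0 < f) (z : ℍ) (g : SL(2, ℤ)) (hg : 1 / 2 ≤ (g • z).im) :
    ∃ g' : SL(2, ℤ), 1 / 2 ≤ (g' • scl f hf z).im ∧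
      (g' • scl f hf z).im ≤ f * (4 * (g • z).im) := by
  obtain ⟨g', hg'⟩ := exists_one_half_le_im_smul (scl f hf z)
  refine ⟨g', hg', ?_⟩
  have hrow : IsCoprime (g' 1 0) (g' 1 1) := bottom_row_coprime g'
  have hp : ((g' 1 0 * f, g' 1 1) : ℤ × ℤ) ≠ 0 := by
    intro h
    rw [Prod.mk_eq_zero] at h
    have hf' : (f : ℤ) ≠ 0 := by exact_mod_cast hf.ne'
    have h1 : g' 1 0 = 0 := by
      rcases mul_eq_zero.mp h.1 with h | h
      · exact h
      · exact absurd h hf'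
    rw [h1, h.2] at hrow
    exact not_isCoprime_zero_zero hrow
  have h1 := im_div_le z g hg _ hp
  have h2 : (g' • scl f hf z).im = f * (z.im /
      Complex.normSq ((((g' 1 0 * f, g' 1 1) : ℤ × ℤ).1 : ℂ) * z + ((g' 1 0 * f, g' 1 1) : ℤ × ℤ).2)) := by
    rw [ModularGroup.im_smul_eq_div_normSq, scl_im, mul_div_assoc]
    congr 3
    simp [denom, scl]
    ring
  rw [h2]
  have hf' : (0 : ℝ) ≤ f := by positivity
  exact mul_le_mul_of_nonneg_left h1 hf'

/-- The level one estimate, in terms of any large translate. -/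
theorem Gs_scl_estimate : ∃ C : ℝ, 0 < C ∧ ∀ (f : ℕ), 0 < f → ∀ s : ℝ, 1 < s → s ≤ 2 →
    ∀ (z : ℍ) (g : SL(2, ℤ)), 1 / 2 ≤ (g • z).im →
      |Gs (f * z.re) (f * z.im) s - Ks s| ≤ C * f ^ 2 * (g • z).im ^ 2 := by
  obtain ⟨C, hC, h⟩ := Gs_estimate
  refine ⟨16 * C, by positivity, fun f hf s hs hs2 z g hg => ?_⟩
  obtain ⟨g', h1, h2⟩ := exists_scl f hf z g hg
  have h3 := h s hs hs2 (g' • scl f hf z).re (g' • scl f hf z).im h1
  rw [Gs_smul, scl_re, scl_im] at h3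
  refine h3.trans ?_
  have h4 : (g' • scl f hf z).im ^ 2 ≤ (f * (4 * (g • z).im)) ^ 2 :=
    pow_le_pow_left₀ (g' • scl f hf z).im_pos.le h2 2
  calc C * (g' • scl f hf z).im ^ 2 ≤ C * (f * (4 * (g • z).im)) ^ 2 :=
        mul_le_mul_of_nonneg_left h4 hC.le
    _ = _ := by ring

/-- The weight `N ∣ c`, `(d, N) = 1`. -/
def wN (N : ℕ) (p : ℤ × ℤ) : ℝ := by
  classical exact if (N : ℤ) ∣ p.1 ∧ IsCoprime p.2 (N : ℤ) then 1 else 0

/-- The weight `N ∣ c`, `e ∣ d`. -/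
def vN (N e : ℕ) (p : ℤ × ℤ) : ℝ := by
  classical exact if (N : ℤ) ∣ p.1 ∧ (e : ℤ) ∣ p.2 then 1 else 0

theorem moebius_sum (n : ℕ) (hn : n ≠ 0) :
    ∑ e ∈ n.divisors, (ArithmeticFunction.moebius e : ℝ) = if n = 1 then 1 else 0 := by
  have h := congrArg (fun f => f n) ArithmeticFunction.moebius_mul_coe_zeta
  simp only [ArithmeticFunction.coe_mul_zeta_apply, ArithmeticFunction.one_apply] at h
  have h2 := congrArg (fun x : ℤ => (x : ℝ)) h
  push_cast at h2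
  exact h2

theorem wN_eq (N : ℕ) (hN : 0 < N) (p : ℤ × ℤ) :
    wN N p = ∑ e ∈ N.divisors, (ArithmeticFunction.moebius e : ℝ) * vN N e p := by
  classical
  unfold wN vN
  by_cases h1 : (N : ℤ) ∣ p.1
  · simp only [h1, true_and]
    have hg : Nat.gcd p.2.natAbs N ≠ 0 := (Nat.gcd_pos_of_pos_right _ hN).ne'
    have h2 : (if IsCoprime p.2 (N : ℤ) then (1 : ℝ) else 0) =
        if Nat.gcd p.2.natAbs N = 1 then 1 else 0 := by
      congr 1
      rw [Int.isCoprime_iff_gcd_eq_one, Int.gcd_def]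
      simp
    rw [h2, ← moebius_sum _ hg]
    simp_rw [mul_ite, mul_one, mul_zero]
    rw [← Finset.sum_filter]
    refine Finset.sum_congr ?_ fun _ _ => rfl
    ext e
    rw [Nat.mem_divisors, Finset.mem_filter, Nat.mem_divisors, Nat.dvd_gcd_iff,
      Int.natCast_dvd]
    constructor
    · rintro ⟨⟨h3, h4⟩, _⟩
      exact ⟨⟨h4, hN.ne'⟩, h3⟩
    · rintro ⟨⟨h3, _⟩, h4⟩
      exact ⟨⟨h4, h3⟩, hg⟩
  · simp [h1]

theorem wN_nonneg (N : ℕ) (p : ℤ × ℤ) : 0 ≤ wN N p := by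
  classical
  unfold wN; split_ifs <;> norm_num

theorem wN_le_one (N : ℕ) (p : ℤ × ℤ) : wN N p ≤ 1 := by
  classical
  unfold wN; split_ifs <;> norm_num

theorem vN_nonneg (N e : ℕ) (p : ℤ × ℤ) : 0 ≤ vN N e p := by
  classical
  unfold vN; split_ifs <;> norm_num

theorem vN_le_one (N e : ℕ) (p : ℤ × ℤ) : vN N e p ≤ 1 := by
  classical
  unfold vN; split_ifs <;> norm_num

theorem summable_vN {x y s : ℝ} (hy : 0 < y) (hs : 1 < s) (N e : ℕ) :
    Summable fun p => vN N e p * tm x y s p :=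
  Summable.of_nonneg_of_le (fun p => mul_nonneg (vN_nonneg N e p) (tm_nonneg hy p))
    (fun p => mul_le_of_le_one_left (tm_nonneg hy p) (vN_le_one N e p)) (summable_tm hy hs)

theorem summable_wN {x y s : ℝ} (hy : 0 < y) (hs : 1 < s) (N : ℕ) :
    Summable fun p => wN N p * tm x y s p :=
  Summable.of_nonneg_of_le (fun p => mul_nonneg (wN_nonneg N p) (tm_nonneg hy p))
    (fun p => mul_le_of_le_one_left (tm_nonneg hy p) (wN_le_one N p)) (summable_tm hy hs)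

theorem tm_scale {x y s : ℝ} {N e f : ℕ} (he : 0 < e) (hf : 0 < f) (hN : N = e * f)
    (hy : 0 < y) (q : ℤ × ℤ) :
    tm x y s (N * q.1, e * q.2) = ((N : ℝ) * e) ^ (-s) * tm (f * x) (f * y) s q := by
  have he' : (0 : ℝ) < e := by exact_mod_cast he
  have hf' : (0 : ℝ) < f := by exact_mod_cast hf
  have hN' : (0 : ℝ) < N := by rw [hN]; push_cast; positivity
  unfold tm
  rw [Real.rpow_neg (by positivity), ← Real.inv_rpow (by positivity),
    ← Real.mul_rpow (by positivity) (by positivity)]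
  congr 1
  simp only
  have h1 : (((N * q.1 : ℤ) : ℝ) * x + ((e * q.2 : ℤ) : ℝ)) ^ 2 + (((N * q.1 : ℤ) : ℝ) * y) ^ 2 =
      e ^ 2 * (((q.1 : ℝ) * (f * x) + q.2) ^ 2 + ((q.1 : ℝ) * (f * y)) ^ 2) := by
    push_cast
    rw [hN]; push_cast; ring
  rw [h1, hN]
  push_cast
  by_cases h0 : ((q.1 : ℝ) * (f * x) + q.2) ^ 2 + ((q.1 : ℝ) * (f * y)) ^ 2 = 0
  · rw [h0]; simp
  · field_simp

theorem tsum_vN {x y s : ℝ} {N e f : ℕ} (he : 0 < e) (hf : 0 < f) (hN : N = e * f) (hy : 0 < y) :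
    ∑' p, vN N e p * tm x y s p = ((N : ℝ) * e) ^ (-s) * Gs (f * x) (f * y) s := by
  classical
  have hN0 : (N : ℤ) ≠ 0 := by rw [hN]; push_cast; positivity
  have he0 : (e : ℤ) ≠ 0 := by exact_mod_cast he.ne'
  have hinj : Function.Injective fun q : ℤ × ℤ => ((N : ℤ) * q.1, (e : ℤ) * q.2) := by
    rintro ⟨a, b⟩ ⟨c, d⟩ h
    simp only [Prod.mk.injEq] at h
    exact Prod.ext (mul_left_cancel₀ hN0 h.1) (mul_left_cancel₀ he0 h.2)
  rw [Gs, ← tsum_mul_left, ← hinj.tsum_eq]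
  · refine tsum_congr fun q => ?_
    rw [tm_scale he hf hN hy]
    have : vN N e (N * q.1, e * q.2) = 1 := by
      unfold vN
      rw [if_pos]
      exact ⟨dvd_mul_right _ _, dvd_mul_right _ _⟩
    rw [this, one_mul]
  · intro p hp
    rw [Function.mem_support] at hp
    have h1 : vN N e p ≠ 0 := left_ne_zero_of_mul hp
    unfold vN at h1
    by_cases h2 : (N : ℤ) ∣ p.1 ∧ (e : ℤ) ∣ p.2
    · obtain ⟨⟨a, ha⟩, ⟨b, hb⟩⟩ := h2
      exact ⟨(a, b), Prod.ext ha.symm hb.symm⟩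
    · rw [if_neg h2] at h1
      exact absurd rfl h1

/-- The constant of level `N`. -/
def KN (N : ℕ) (s : ℝ) : ℝ :=
  ∑ e ∈ N.divisors, (ArithmeticFunction.moebius e : ℝ) * (((N : ℝ) * e) ^ (-s) * Ks s)

theorem tsum_wN {x y s : ℝ} {N : ℕ} (hN : 0 < N) (hy : 0 < y) (hs : 1 < s) :
    ∑' p, wN N p * tm x y s p = ∑ e ∈ N.divisors, (ArithmeticFunction.moebius e : ℝ) *
      (((N : ℝ) * e) ^ (-s) * Gs (((N / e : ℕ) : ℝ) * x) (((N / e : ℕ) : ℝ) * y) s) := by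
  have h1 : ∀ p, wN N p * tm x y s p =
      ∑ e ∈ N.divisors, (ArithmeticFunction.moebius e : ℝ) * (vN N e p * tm x y s p) := by
    intro p
    rw [wN_eq N hN, Finset.sum_mul]
    exact Finset.sum_congr rfl fun e _ => by ring
  simp_rw [h1]
  rw [Summable.tsum_finsetSum fun e _ => (summable_vN hy hs N e).mul_left _]
  refine Finset.sum_congr rfl fun e he => ?_
  rw [tsum_mul_left]
  have hd : e ∣ N := Nat.dvd_of_mem_divisors he
  have he0 : 0 < e := Nat.pos_of_dvd_of_pos hd hN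
  rw [tsum_vN he0 (Nat.div_pos (Nat.le_of_dvd hN hd) he0) (Nat.mul_div_cancel' hd).symm hy]

/-- The level `N` estimate for the non-primitive sum. -/
theorem wN_estimate (N : ℕ) (hN : 0 < N) : ∃ C : ℝ, 0 < C ∧ ∀ s : ℝ, 1 < s → s ≤ 2 →
    ∀ (z : ℍ) (g : SL(2, ℤ)), 1 / 2 ≤ (g • z).im →
      |∑' p, wN N p * tm z.re z.im s p - KN N s| ≤ C * (g • z).im ^ 2 := by
  obtain ⟨C, hC, h⟩ := Gs_scl_estimate
  refine ⟨∑ e ∈ N.divisors, C * (N : ℝ) ^ 2, ?_, fun s hs hs2 z g hg => ?_⟩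
  · rw [Finset.sum_const, nsmul_eq_mul]
    have : 0 < N.divisors.card := Finset.card_pos.mpr ⟨1, by simp [hN.ne']⟩
    positivity
  · rw [tsum_wN hN z.im_pos hs, KN, ← Finset.sum_sub_distrib, Finset.sum_mul]
    refine (Finset.abs_sum_le_sum_abs _ _).trans (Finset.sum_le_sum fun e he => ?_)
    have hd : e ∣ N := Nat.dvd_of_mem_divisors he
    have he0 : 0 < e := Nat.pos_of_dvd_of_pos hd hN
    have hf : 0 < N / e := Nat.div_pos (Nat.le_of_dvd hN hd) he0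
    have h1 := h (N / e) hf s hs hs2 z g hg
    have hmu : |(ArithmeticFunction.moebius e : ℝ)| ≤ 1 := by
      have := ArithmeticFunction.abs_moebius_le_one (n := e)
      exact_mod_cast this
    have hNe : (1 : ℝ) ≤ (N : ℝ) * e := by
      have h2 : (1 : ℝ) ≤ N := by exact_mod_cast hN
      have h3 : (1 : ℝ) ≤ e := by exact_mod_cast he0
      nlinarith
    have h2 : ((N : ℝ) * e) ^ (-s) ≤ 1 := Real.rpow_le_one_of_one_le_of_nonpos hNe (by linarith)
    have h3 : 0 ≤ ((N : ℝ) * e) ^ (-s) := by positivity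
    have h4 : ((N / e : ℕ) : ℝ) ^ 2 ≤ (N : ℝ) ^ 2 := by
      have : ((N / e : ℕ) : ℝ) ≤ N := by exact_mod_cast Nat.div_le_self N e
      exact pow_le_pow_left₀ (by positivity) this 2
    rw [← mul_sub, ← mul_sub, abs_mul, abs_mul, abs_of_nonneg h3]
    calc |(ArithmeticFunction.moebius e : ℝ)| * (((N : ℝ) * e) ^ (-s) *
          |Gs (((N / e : ℕ) : ℝ) * z.re) (((N / e : ℕ) : ℝ) * z.im) s - Ks s|)
        ≤ 1 * (1 * (C * ((N / e : ℕ) : ℝ) ^ 2 * (g • z).im ^ 2)) := by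
          gcongr
      _ ≤ C * (N : ℝ) ^ 2 * (g • z).im ^ 2 := by
          rw [one_mul, one_mul]
          gcongr

end

end Fermat.Agent.H99C
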