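import Fermat.Agent.H99C4

/-!
# The primitive Eisenstein series of level `N`, real `s → 1+` (S47, nonvanishing of the period)
-/

namespace Fermat.Agent.H99C

open UpperHalfPlane MeasureTheory ModularGroup Matrix.SpecialLinearGroup
open scoped Modular MatrixGroups ENNReal

noncomputable section

/-- Coprime pairs `(c, d)` with `N ∣ c`. -/
abbrev CPN (N : ℕ) : Type := {r : CP // (N : ℤ) ∣ r.1 0}

/-- Positive integers prime to `N`. -/
abbrev KK (N : ℕ) : Type := {k : ℕ // 0 < k ∧ Nat.Coprime k N}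

/-- A coprime pair as an element of `ℤ × ℤ`. -/
def cpPair (r : CP) : ℤ × ℤ := (r.1 0, r.1 1)

theorem cpPair_injective : Function.Injective cpPair := by
  intro r r' h
  unfold cpPair at h
  rw [Prod.mk.injEq] at h
  apply Subtype.ext
  ext i
  fin_cases i
  · exact h.1
  · exact h.2

theorem sec_im (r : CP) (z : ℍ) (s : ℝ) :
    (sec r • z).im ^ s = tm z.re z.im s (cpPair r) := by
  rw [tm_eq, ModularGroup.im_smul_eq_div_normSq]
  congr 3
  simp [denom, cpPair, sec_row]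

/-- The primitive Eisenstein series. -/
def EN (N : ℕ) (z : ℍ) (s : ℝ) : ℝ := ∑' r : CPN N, (sec r.1 • z).im ^ s

/-- The partial zeta function. -/
def LN (N : ℕ) (s : ℝ) : ℝ := ∑' k : KK N, ((k : ℕ) : ℝ) ^ (-(2 * s))

theorem summable_EN (N : ℕ) (z : ℍ) {s : ℝ} (hs : 1 < s) :
    Summable fun r : CPN N => (sec r.1 • z).im ^ s := by
  simp_rw [sec_im]
  exact (summable_tm z.im_pos hs).comp_injective
    (cpPair_injective.comp Subtype.val_injective)

theorem EN_nonneg (N : ℕ) (z : ℍ) (s : ℝ) : 0 ≤ EN N z s :=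
  tsum_nonneg fun r => Real.rpow_nonneg (im_pos _).le _

theorem summable_LN (N : ℕ) {s : ℝ} (hs : 1 < s) :
    Summable fun k : KK N => ((k : ℕ) : ℝ) ^ (-(2 * s)) :=
  (Real.summable_nat_rpow.mpr (by linarith)).comp_injective Subtype.val_injective

theorem one_le_LN (N : ℕ) {s : ℝ} (hs : 1 < s) : 1 ≤ LN N s := by
  have h := (summable_LN N hs).le_tsum ⟨1, one_pos, Nat.coprime_one_left N⟩
    (fun k _ => by positivity)
  simpa [LN] using h

/-- `(k, r) ↦ k r`. -/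
def mulPair (N : ℕ) (p : KK N × CPN N) : ℤ × ℤ :=
  ((p.1 : ℕ) * p.2.1.1 0, (p.1 : ℕ) * p.2.1.1 1)

theorem gcd_mulPair (N : ℕ) (p : KK N × CPN N) :
    Int.gcd (mulPair N p).1 (mulPair N p).2 = (p.1 : ℕ) := by
  have h := p.2.1.2
  rw [Int.isCoprime_iff_gcd_eq_one] at h
  simp only [mulPair]
  rw [Int.gcd_mul_left, h]
  simp

theorem mulPair_injective (N : ℕ) : Function.Injective (mulPair N) := by
  intro p q h
  have h1 : (p.1 : ℕ) = q.1 := by rw [← gcd_mulPair, h, gcd_mulPair]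
  have hk : ((p.1 : ℕ) : ℤ) ≠ 0 := by exact_mod_cast p.1.2.1.ne'
  have h2 : p.2 = q.2 := by
    apply Subtype.ext
    apply cpPair_injective
    unfold mulPair at h
    rw [← h1, Prod.mk.injEq] at h
    exact Prod.ext (mul_left_cancel₀ hk h.1) (mul_left_cancel₀ hk h.2)
  exact Prod.ext (Subtype.ext h1) h2

theorem tm_mulPair {N : ℕ} {z : ℍ} {s : ℝ} (p : KK N × CPN N) :
    tm z.re z.im s (mulPair N p) = ((p.1 : ℕ) : ℝ) ^ (-(2 * s)) * (sec p.2.1 • z).im ^ s := by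
  have hk : (0 : ℝ) < ((p.1 : ℕ) : ℝ) := by exact_mod_cast p.1.2.1
  rw [sec_im]
  unfold tm mulPair cpPair
  have h1 : ((p.1 : ℕ) : ℝ) ^ (-(2 * s)) = ((((p.1 : ℕ) : ℝ) ^ 2)⁻¹) ^ s := by
    rw [Real.rpow_neg hk.le, Real.rpow_mul hk.le, Real.inv_rpow (by positivity)]
    norm_cast
  rw [h1, ← Real.mul_rpow (by positivity) (by
    have := z.im_pos
    positivity)]
  congr 1
  push_cast
  have h2 : (((p.1 : ℕ) : ℝ) * (p.2.1.1 0 : ℝ) * z.re + ((p.1 : ℕ) : ℝ) * (p.2.1.1 1 : ℝ)) ^ 2 +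
      (((p.1 : ℕ) : ℝ) * (p.2.1.1 0 : ℝ) * z.im) ^ 2 =
      ((p.1 : ℕ) : ℝ) ^ 2 * (((p.2.1.1 0 : ℝ) * z.re + (p.2.1.1 1 : ℝ)) ^ 2 +
        ((p.2.1.1 0 : ℝ) * z.im) ^ 2) := by ring
  rw [h2]
  by_cases h0 : ((p.2.1.1 0 : ℝ) * z.re + (p.2.1.1 1 : ℝ)) ^ 2 +
        ((p.2.1.1 0 : ℝ) * z.im) ^ 2 = 0
  · rw [h0]; simp
  · field_simp

theorem tm_zero_pair {x y s : ℝ} (hs : 0 < s) : tm x y s 0 = 0 := by
  unfold tm
  simp
  rw [Real.zero_rpow hs.ne']

theorem wN_mulPair {N : ℕ} (p : KK N × CPN N) : wN N (mulPair N p) = 1 := by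
  classical
  unfold wN
  rw [if_pos]
  refine ⟨Dvd.dvd.mul_left p.2.2 _, ?_⟩
  show IsCoprime (((p.1 : ℕ) : ℤ) * p.2.1.1 1) (N : ℤ)
  refine IsCoprime.mul_left (Nat.isCoprime_iff_coprime.mpr p.1.2.2) ?_
  exact (p.2.1.2.of_isCoprime_of_dvd_left p.2.2).symm

theorem LN_mul_EN {N : ℕ} (z : ℍ) {s : ℝ} (hs : 1 < s) :
    LN N s * EN N z s = ∑' p, wN N p * tm z.re z.im s p := by
  classical
  rw [← (mulPair_injective N).tsum_eq]
  · have h1 : ∀ p : KK N × CPN N, wN N (mulPair N p) * tm z.re z.im s (mulPair N p) =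
        ((p.1 : ℕ) : ℝ) ^ (-(2 * s)) * (sec p.2.1 • z).im ^ s := by
      intro p
      rw [wN_mulPair, one_mul, tm_mulPair]
    simp_rw [h1]
    unfold LN EN
    refine tsum_mul_tsum_of_summable_norm ?_ ?_
    · exact (summable_LN N hs).norm
    · exact (summable_EN N z hs).norm
  · intro p hp
    rw [Function.mem_support] at hp
    have h1 : wN N p ≠ 0 := left_ne_zero_of_mul hp
    have h2 : tm z.re z.im s p ≠ 0 := right_ne_zero_of_mul hp
    have hp0 : p ≠ 0 := by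
      rintro rfl
      exact h2 (tm_zero_pair (by linarith))
    unfold wN at h1
    by_cases h3 : (N : ℤ) ∣ p.1 ∧ IsCoprime p.2 (N : ℤ)
    swap
    · rw [if_neg h3] at h1; exact absurd rfl h1
    obtain ⟨h3, h4⟩ := h3
    set k := Int.gcd p.1 p.2 with hk
    have hk0 : 0 < k := by
      rw [hk, Int.gcd_pos_iff]
      by_contra hcon
      push Not at hcon
      exact hp0 (Prod.ext hcon.1 hcon.2)
    have hkz : (k : ℤ) ≠ 0 := by exact_mod_cast hk0.ne'
    obtain ⟨a, ha⟩ : (k : ℤ) ∣ p.1 := Int.gcd_dvd_left ..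
    obtain ⟨b, hb⟩ : (k : ℤ) ∣ p.2 := Int.gcd_dvd_right ..
    have hcop : IsCoprime a b := by
      rw [Int.isCoprime_iff_gcd_eq_one]
      have h5 : Int.gcd (k * a) (k * b) = k := by rw [← ha, ← hb]
      rw [Int.gcd_mul_left] at h5
      have : (k : ℤ).natAbs = k := Int.natAbs_natCast k
      rw [this] at h5
      exact Nat.eq_of_mul_eq_mul_left hk0 (by rw [h5, mul_one])
    have hkN : Nat.Coprime k N := by
      rw [← Nat.isCoprime_iff_coprime]
      exact h4.of_isCoprime_of_dvd_left ⟨b, hb⟩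
    have hNa : (N : ℤ) ∣ a := by
      rw [ha] at h3
      exact (Nat.isCoprime_iff_coprime.mpr hkN).symm.dvd_of_dvd_mul_left h3
    refine ⟨(⟨k, hk0, hkN⟩, ⟨⟨![a, b], by simpa using hcop⟩, by simpa using hNa⟩), ?_⟩
    unfold mulPair
    exact Prod.ext (by simpa using ha.symm) (by simpa using hb.symm)

/-- **The level `N` estimate.** -/
theorem EN_estimate (N : ℕ) (hN : 0 < N) : ∃ C : ℝ, 0 < C ∧ ∀ s : ℝ, 1 < s → s ≤ 2 →
    ∀ (z : ℍ) (g : SL(2, ℤ)), 1 / 2 ≤ (g • z).im →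
      |LN N s * EN N z s - KN N s| ≤ C * (g • z).im ^ 2 := by
  obtain ⟨C, hC, h⟩ := wN_estimate N hN
  refine ⟨C, hC, fun s hs hs2 z g hg => ?_⟩
  rw [LN_mul_EN z hs]
  exact h s hs hs2 z g hg

end

end Fermat.Agent.H99C
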