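import Fermat.Agent.H99C5

/-!
# Unfolding with cut-off functions of `Γ₀(N)` (S47, nonvanishing of the period)
-/

namespace Fermat.Agent.H99C

open UpperHalfPlane MeasureTheory ModularGroup Matrix.SpecialLinearGroup
open scoped Modular MatrixGroups ENNReal

noncomputable section

theorem T_zpow_mul_sec_mem {N : ℕ} (r : CPN N) (n : ℤ) :
    T ^ n * sec r.1 ∈ CongruenceSubgroup.Gamma0 N := by
  rw [CongruenceSubgroup.Gamma0_mem, (T_zpow_row n (sec r.1)).1, sec_c,
    ZMod.intCast_zmod_eq_zero_iff_dvd]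
  exact r.2

/-- `Γ₀(N)` is `{coprime pairs with N ∣ c} × ℤ`. -/
def gEquiv (N : ℕ) : CPN N × ℤ ≃ CongruenceSubgroup.Gamma0 N :=
  Equiv.ofBijective (fun p => ⟨T ^ p.2 * sec p.1.1, T_zpow_mul_sec_mem p.1 p.2⟩) (by
    constructor
    · rintro ⟨r, m⟩ ⟨r', n⟩ h
      have h1 : cpEquiv (r.1, m) = cpEquiv (r'.1, n) := congrArg Subtype.val h
      have h2 := cpEquiv.injective h1
      rw [Prod.mk.injEq] at h2
      exact Prod.ext (Subtype.ext h2.1) h2.2
    · rintro ⟨g, hg⟩
      obtain ⟨⟨r, n⟩, hrn⟩ := cpEquiv.surjective g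
      have hr : (N : ℤ) ∣ r.1 0 := by
        rw [CongruenceSubgroup.Gamma0_mem, ← hrn, cpEquiv_apply, (T_zpow_row n (sec r)).1, sec_c,
          ZMod.intCast_zmod_eq_zero_iff_dvd] at hg
        exact hg
      exact ⟨⟨⟨r, hr⟩, n⟩, Subtype.ext hrn⟩)

theorem gEquiv_apply {N : ℕ} (p : CPN N × ℤ) :
    ((gEquiv N p : CongruenceSubgroup.Gamma0 N) : SL(2, ℤ)) = T ^ p.2 * sec p.1.1 := rfl

section

variable {N : ℕ} {χ : ℍ → ℝ≥0∞}

theorem tsum_cut_inv (hχ : ∀ τ, ∑' g : CongruenceSubgroup.Gamma0 N, χ ((g : SL(2, ℤ)) • τ) = 1)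
    (τ : ℍ) : ∑' r : CPN N, ∑' n : ℤ, χ ((sec r.1)⁻¹ • (T ^ (-n)) • τ) = 1 := by
  rw [← ENNReal.tsum_prod (f := fun (r : CPN N) (n : ℤ) => χ ((sec r.1)⁻¹ • (T ^ (-n)) • τ)),
    ← hχ τ, ← (Equiv.inv (CongruenceSubgroup.Gamma0 N)).tsum_eq, ← (gEquiv N).tsum_eq]
  refine tsum_congr fun p => ?_
  congr 1
  rw [smul_smul, Equiv.inv_apply]
  congr 1
  rw [Subgroup.coe_inv, gEquiv_apply, mul_inv_rev, zpow_neg]

/-- Unfolding of a cut-off integral, nonnegative functions. -/
theorem tsum_lintegral_cut (hχm : Measurable χ)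
    (hχ : ∀ τ, ∑' g : CongruenceSubgroup.Gamma0 N, χ ((g : SL(2, ℤ)) • τ) = 1)
    (g : ℍ → ℝ≥0∞) (hg : Measurable g) (hT : ∀ (n : ℤ) τ, g (T ^ n • τ) = g τ) :
    ∑' r : CPN N, ∫⁻ τ, χ τ * g (sec r.1 • τ) = ∫⁻ τ in strip, g τ := by
  have h1 : ∀ r : CPN N, ∫⁻ τ, χ τ * g (sec r.1 • τ) =
      ∑' n : ℤ, ∫⁻ τ, strip.indicator g τ * χ ((sec r.1)⁻¹ • (T ^ (-n)) • τ) := by
    intro r
    have hm1 : Measurable fun τ => χ ((sec r.1)⁻¹ • τ) * g τ :=
      (hχm.comp (measurable_sl _)).mul hg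
    have h2 := (measurePreserving_sl (sec r.1)).lintegral_comp hm1
    simp only [inv_smul_smul] at h2
    rw [h2]
    have h3 : ∀ τ, χ ((sec r.1)⁻¹ • τ) * g τ =
        ∑' n : ℤ, strip.indicator g (T ^ n • τ) * χ ((sec r.1)⁻¹ • (T ^ (-n)) • (T ^ n • τ)) := by
      intro τ
      have h4 : ∀ n : ℤ, strip.indicator g (T ^ n • τ) *
          χ ((sec r.1)⁻¹ • (T ^ (-n)) • (T ^ n • τ)) =
          strip.indicator (1 : ℍ → ℝ≥0∞) (T ^ n • τ) * (g τ * χ ((sec r.1)⁻¹ • τ)) := by
        intro n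
        have h5 : (T ^ (-n) : SL(2, ℤ)) • (T ^ n : SL(2, ℤ)) • τ = τ := by
          rw [smul_smul, ← zpow_add]; simp
        rw [h5]
        by_cases h : T ^ n • τ ∈ strip
        · rw [Set.indicator_of_mem h, Set.indicator_of_mem h, hT]; simp
        · rw [Set.indicator_of_notMem h, Set.indicator_of_notMem h, zero_mul, zero_mul]
      simp_rw [h4]
      rw [ENNReal.tsum_mul_right, tsum_indicator_strip, one_mul, mul_comm]
    simp_rw [h3]
    rw [lintegral_tsum]
    · refine tsum_congr fun n => ?_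
      have hm2 : Measurable fun τ => strip.indicator g τ * χ ((sec r.1)⁻¹ • (T ^ (-n)) • τ) :=
        (hg.indicator measurableSet_strip).mul
          (hχm.comp ((measurable_sl _).comp (measurable_sl _)))
      exact (measurePreserving_sl (T ^ n)).lintegral_comp hm2
    · intro n
      exact (((hg.indicator measurableSet_strip).comp (measurable_sl _)).mul
        (hχm.comp ((measurable_sl _).comp ((measurable_sl _).comp
          (measurable_sl _))))).aemeasurable
  simp_rw [h1]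
  have h2 : ∀ r : CPN N, ∑' n : ℤ, ∫⁻ τ, strip.indicator g τ * χ ((sec r.1)⁻¹ • (T ^ (-n)) • τ) =
      ∫⁻ τ, strip.indicator g τ * ∑' n : ℤ, χ ((sec r.1)⁻¹ • (T ^ (-n)) • τ) := by
    intro r
    rw [← lintegral_tsum]
    · simp_rw [ENNReal.tsum_mul_left]
    · intro n
      exact ((hg.indicator measurableSet_strip).mul
          (hχm.comp ((measurable_sl _).comp (measurable_sl _)))).aemeasurable
  simp_rw [h2]
  rw [← lintegral_tsum]
  · simp_rw [ENNReal.tsum_mul_left, tsum_cut_inv hχ, mul_one]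
    rw [lintegral_indicator measurableSet_strip]
  · intro r
    refine ((hg.indicator measurableSet_strip).mul ?_).aemeasurable
    exact Measurable.tsum fun n => hχm.comp ((measurable_sl _).comp (measurable_sl _))

/-- The measure identity behind the unfolding. -/
theorem measure_cut_eq (hχm : Measurable χ)
    (hχ : ∀ τ, ∑' g : CongruenceSubgroup.Gamma0 N, χ ((g : SL(2, ℤ)) • τ) = 1) :
    Measure.sum (fun r : CPN N => ((volume : Measure ℍ).withDensity χ).map
      (fun τ => red (sec r.1 • τ))) = (volume : Measure ℍ).restrict strip := by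
  ext s hs
  rw [Measure.sum_apply _ hs]
  have hm : Measurable (fun τ : ℍ => s.indicator (1 : ℍ → ℝ≥0∞) (red τ)) :=
    (measurable_one.indicator hs).comp measurable_red
  have h1 := tsum_lintegral_cut hχm hχ (fun τ => s.indicator (1 : ℍ → ℝ≥0∞) (red τ)) hm
    (fun n τ => by rw [red_T_zpow])
  have h2 : ∀ r : CPN N, ((volume : Measure ℍ).withDensity χ).map
      (fun τ => red (sec r.1 • τ)) s =
      ∫⁻ τ, χ τ * s.indicator (1 : ℍ → ℝ≥0∞) (red (sec r.1 • τ)) := by
    intro r
    have hmr : Measurable (fun τ : ℍ => red (sec r.1 • τ)) := measurable_red.comp (measurable_sl _)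
    rw [Measure.map_apply hmr hs, ← lintegral_indicator_one (hmr hs),
      lintegral_withDensity_eq_lintegral_mul _ hχm (measurable_one.indicator (hmr hs))]
    rfl
  have h3 : (volume : Measure ℍ).restrict strip s =
      ∫⁻ τ in strip, s.indicator (1 : ℍ → ℝ≥0∞) (red τ) := by
    rw [← lintegral_indicator_one hs]
    refine setLIntegral_congr_fun measurableSet_strip fun τ hτ => ?_
    show _ = s.indicator 1 (red τ)
    rw [red_of_mem_strip hτ]
  simp_rw [h2]
  rw [h3, ← h1]

/-- **Unfolding with a cut-off**, complex valued functions. -/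
theorem hasSum_integral_cut (hχm : Measurable χ)
    (hχ : ∀ τ, ∑' g : CongruenceSubgroup.Gamma0 N, χ ((g : SL(2, ℤ)) • τ) = 1)
    {u : ℍ → ℂ} (hum : Measurable u) (hT : ∀ (n : ℤ) τ, u (T ^ n • τ) = u τ)
    (hu : IntegrableOn u strip) :
    HasSum (fun r : CPN N => ∫ τ, u (sec r.1 • τ) ∂((volume : Measure ℍ).withDensity χ))
      (∫ τ in strip, u τ) := by
  have hred : ∀ τ, u (red τ) = u τ := fun τ => hT _ τ
  have hint : Integrable u
      (Measure.sum (fun r : CPN N => ((volume : Measure ℍ).withDensity χ).map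
        (fun τ => red (sec r.1 • τ)))) := by
    rw [measure_cut_eq hχm hχ]
    exact hu
  have h1 := hasSum_integral_measure hint
  have h3 : (fun r : CPN N => ∫ τ, u τ ∂(((volume : Measure ℍ).withDensity χ).map
      (fun τ => red (sec r.1 • τ)))) =
      fun r : CPN N => ∫ τ, u (sec r.1 • τ) ∂((volume : Measure ℍ).withDensity χ) := by
    funext r
    have hmr : Measurable (fun τ : ℍ => red (sec r.1 • τ)) :=
      measurable_red.comp (measurable_sl _)
    rw [integral_map hmr.aemeasurable hum.aestronglyMeasurable]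
    exact integral_congr_ae (Filter.Eventually.of_forall fun τ => hred _)
  rw [h3, measure_cut_eq hχm hχ] at h1
  exact h1

end

end

end Fermat.Agent.H99C
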