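import Mathlib

/-!
# `(ζ - 1)^(q-1) / q ≡ -1`
-/

set_option autoImplicit false

open Polynomial

namespace Fermat.Agent.H99

variable {R : Type*} [CommRing R] [IsDomain R] {q : ℕ} (hq : q.Prime) {ζ : R}
  (hζ : IsPrimitiveRoot ζ q)

include hq hζ

theorem prod_one_sub_pow_root : ∏ i ∈ Finset.Ico 1 q, (1 - ζ ^ i) = (q : R) := by
  classical
  have h1 : (X : R[X]) ^ q - 1 = ∏ i ∈ Finset.range q, (X - C (ζ ^ i)) := by
    rw [X_pow_sub_one_eq_prod hq.pos hζ]
    have h2 : nthRootsFinset q (1 : R) = (Finset.range q).image (fun i => ζ ^ i) := by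
      symm
      apply Finset.eq_of_subset_of_card_le
      · intro x hx
        rw [Finset.mem_image] at hx
        obtain ⟨i, -, rfl⟩ := hx
        rw [Polynomial.mem_nthRootsFinset hq.pos, ← pow_mul, mul_comm, pow_mul, hζ.pow_eq_one,
          one_pow]
      · rw [hζ.card_nthRootsFinset, Finset.card_image_of_injOn, Finset.card_range]
        intro i hi j hj hij
        exact hζ.pow_inj (Finset.mem_range.1 hi) (Finset.mem_range.1 hj) hij
    rw [h2, Finset.prod_image]
    intro i hi j hj hij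
    exact hζ.pow_inj (Finset.mem_range.1 hi) (Finset.mem_range.1 hj) hij
  rw [← geom_sum_mul (X : R[X]) q, Finset.range_eq_Ico, Finset.prod_eq_prod_Ico_succ_bot hq.pos,
    pow_zero, C_1, mul_comm] at h1
  have h3 := mul_left_cancel₀ (X_sub_C_ne_zero (1 : R)) h1
  have h4 := congrArg (eval 1) h3
  rw [eval_finsetSum, eval_prod] at h4
  simp only [eval_pow, eval_X, one_pow, Finset.sum_const, Nat.card_Ico, Nat.sub_zero,
    nsmul_eq_mul, mul_one, eval_sub, eval_C, zero_add] at h4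
  exact h4.symm

theorem one_sub_pow_mul : (1 - ζ) ^ (q - 1) *
    ∏ i ∈ Finset.Ico 1 q, (∑ j ∈ Finset.range i, ζ ^ j) = (q : R) := by
  rw [← prod_one_sub_pow_root hq hζ]
  have h1 : ∀ i ∈ Finset.Ico 1 q, 1 - ζ ^ i = (1 - ζ) * ∑ j ∈ Finset.range i, ζ ^ j :=
    fun i _ => (mul_neg_geom_sum ζ i).symm
  rw [Finset.prod_congr rfl h1, Finset.prod_mul_distrib, Finset.prod_const, Nat.card_Ico]

omit hq hζ [IsDomain R] in
theorem prod_geom_eq {k : Type*} [Field k] [CharP k q] (hq : q.Prime) (f : R →+* k)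
    (h1 : f ζ = 1) : f (∏ i ∈ Finset.Ico 1 q, (∑ j ∈ Finset.range i, ζ ^ j)) = -1 := by
  have : Fact q.Prime := ⟨hq⟩
  rw [map_prod]
  have h2 : ∀ i ∈ Finset.Ico 1 q, f (∑ j ∈ Finset.range i, ζ ^ j) = (i : k) := by
    intro i _
    rw [map_sum]
    simp [h1]
  rw [Finset.prod_congr rfl h2]
  have h3 : ∏ i ∈ Finset.Ico 1 q, (i : k) = ((((q - 1).factorial : ℕ) : ZMod q).cast : k) := by
    rw [ZMod.cast_natCast (dvd_refl q), ← Finset.prod_Ico_id_eq_factorial, Nat.cast_prod,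
      Nat.sub_add_cancel hq.one_lt.le]
  rw [h3, ZMod.wilsons_lemma, ← ZMod.castHom_apply (h := dvd_refl q), map_neg, map_one]

end Fermat.Agent.H99
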