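import Mathlib

set_option autoImplicit false

/-!
# `p`-adic roots of the 3-division quartic `x⁴ - 6 c₄ x² - 8 c₆ x - 3 c₄²`

If the quartic has one integer root, then for a suitable prime `p` all its roots in `ℤ_p` are
rational integers.
-/

namespace Fermat.Agent.H99

/-- an integer all of whose valuations are divisible by 3 is a cube -/
theorem exists_cube_of_dvd (n : ℤ) (hn : n ≠ 0)
    (h : ∀ p : ℕ, p.Prime → 3 ∣ padicValInt p n) : ∃ m : ℤ, m ^ 3 = n := by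
  have hN : n.natAbs ≠ 0 := Int.natAbs_ne_zero.2 hn
  have h1 := Nat.prod_factorization_pow_eq_self hN
  have h2 : (∏ p ∈ n.natAbs.factorization.support, p ^ (n.natAbs.factorization p / 3)) ^ 3
      = n.natAbs := by
    conv_rhs => rw [← h1]
    rw [Finsupp.prod, ← Finset.prod_pow]
    refine Finset.prod_congr rfl fun p hp => ?_
    have hp' : p.Prime := Nat.prime_of_mem_primeFactors (n := n.natAbs) (by simpa using hp)
    have h3 := h p hp'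
    rw [padicValInt, ← Nat.factorization_def _ hp'] at h3
    rw [← pow_mul, Nat.div_mul_cancel h3]
  generalize (∏ p ∈ n.natAbs.factorization.support, p ^ (n.natAbs.factorization p / 3)) = P at h2
  have h5 : ((P : ℤ)) ^ 3 = (n.natAbs : ℤ) := by exact_mod_cast h2
  rcases Int.natAbs_eq n with h4 | h4
  · exact ⟨P, h5.trans h4.symm⟩
  · refine ⟨-P, ?_⟩
    rw [Odd.neg_pow (by decide), h5]
    exact h4.symm

/-- cubes are injective on `ℤ_2` -/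
theorem cube_injective_two {z y : ℤ_[2]} (h : z ^ 3 = y ^ 3) : z = y := by
  by_cases hy : y = 0
  · rw [hy] at h ⊢
    simpa using h
  have hy' : (y : ℚ_[2]) ≠ 0 := fun h0 => hy (PadicInt.ext h0)
  have h' : (z : ℚ_[2]) ^ 3 = (y : ℚ_[2]) ^ 3 := by
    rw [← PadicInt.coe_pow, h, PadicInt.coe_pow]
  have hu : ((z : ℚ_[2]) / y) ^ 3 = 1 := by
    rw [div_pow, h', div_self (pow_ne_zero _ hy')]
  have hn : ‖(z : ℚ_[2]) / y‖ = 1 := by
    have h1 := congrArg norm hu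
    rw [norm_pow, norm_one] at h1
    exact (pow_eq_one_iff_of_nonneg (norm_nonneg _) (by norm_num)).1 h1
  set u : ℤ_[2] := ⟨(z : ℚ_[2]) / y, hn.le⟩ with hudef
  have hu3 : u ^ 3 = 1 := by
    apply PadicInt.ext
    push_cast
    exact hu
  have hfac : (u - 1) * (u ^ 2 + u + 1) = 0 := by linear_combination hu3
  have hne : u ^ 2 + u + 1 ≠ 0 := by
    intro h0
    have h1 := congrArg (PadicInt.toZMod (p := 2)) h0
    simp only [map_add, map_pow, map_one, map_zero] at h1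
    generalize PadicInt.toZMod (p := 2) u = w at h1
    revert w
    decide
  have hu1 : u = 1 := sub_eq_zero.1 ((mul_eq_zero.1 hfac).resolve_right hne)
  have : (z : ℚ_[2]) / y = 1 := by
    have := congrArg (fun x : ℤ_[2] => (x : ℚ_[2])) hu1
    simpa [hudef] using this
  rw [div_eq_one_iff_eq hy'] at this
  exact PadicInt.ext this

section

variable (c4 c6 : ℤ)

theorem root_ne_zero {c4 c6 r : ℤ} (h4 : c4 ≠ 0)
    (hr : r ^ 4 - 6 * c4 * r ^ 2 - 8 * c6 * r - 3 * c4 ^ 2 = 0) : r ≠ 0 := by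
  rintro rfl
  apply h4
  have : 3 * c4 ^ 2 = 0 := by linear_combination -hr
  have h2 : c4 ^ 2 = 0 := by omega
  exact pow_eq_zero_iff (two_ne_zero) |>.1 h2

theorem root_cubic {c4 c6 r : ℤ}
    (hr : r ^ 4 - 6 * c4 * r ^ 2 - 8 * c6 * r - 3 * c4 ^ 2 = 0) :
    (r ^ 2 - c4) ^ 3 * (9 * c4 - r ^ 2) = 64 * r ^ 2 * (c4 ^ 3 - c6 ^ 2) := by
  linear_combination (-(r ^ 4 - 6 * c4 * r ^ 2 - 3 * c4 ^ 2) - 8 * c6 * r) * hr

theorem root_facts {c4 c6 r : ℤ} (h4 : c4 ≠ 0) (hκ : c4 ^ 3 - c6 ^ 2 ≠ 0)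
    (hr : r ^ 4 - 6 * c4 * r ^ 2 - 8 * c6 * r - 3 * c4 ^ 2 = 0) :
    r ≠ 0 ∧ r ^ 2 - c4 ≠ 0 ∧ 9 * c4 - r ^ 2 ≠ 0 := by
  have h1 := root_ne_zero h4 hr
  have h2 := root_cubic hr
  have h3 : 64 * r ^ 2 * (c4 ^ 3 - c6 ^ 2) ≠ 0 :=
    mul_ne_zero (mul_ne_zero (by norm_num) (pow_ne_zero _ h1)) hκ
  rw [← h2] at h3
  have h5 := left_ne_zero_of_mul h3
  have h6 := right_ne_zero_of_mul h3
  exact ⟨h1, fun h => h5 (by rw [h]; norm_num), h6⟩

theorem root_deriv {c4 c6 r : ℤ} (h4 : c4 ≠ 0) (hκ : c4 ^ 3 - c6 ^ 2 ≠ 0)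
    (hr : r ^ 4 - 6 * c4 * r ^ 2 - 8 * c6 * r - 3 * c4 ^ 2 = 0) :
    4 * r ^ 3 - 12 * c4 * r - 8 * c6 ≠ 0 := by
  intro h
  obtain ⟨h1, h2, h3⟩ := root_facts h4 hκ hr
  have : 3 * (r ^ 2 - c4) ^ 2 = 0 := by linear_combination r * h - hr
  have h5 := pow_ne_zero 2 h2
  omega

/-- an element of `ℤ_p` which is a rational number and integral over `ℤ` is an integer -/
theorem int_of_rational {p : ℕ} [Fact p.Prime] {c4 c6 : ℤ} {x : ℤ_[p]} {s t : ℤ} (hs : s ≠ 0)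
    (hst : (s : ℤ_[p]) * x = t)
    (hx : x ^ 4 - 6 * (c4 : ℤ_[p]) * x ^ 2 - 8 * (c6 : ℤ_[p]) * x - 3 * (c4 : ℤ_[p]) ^ 2 = 0) :
    ∃ r : ℤ, x = r := by
  have hs' : (s : ℚ_[p]) ≠ 0 := by exact_mod_cast hs
  have hxq : (x : ℚ_[p]) = ((t / s : ℚ) : ℚ_[p]) := by
    push_cast
    rw [eq_div_iff hs', mul_comm]
    exact_mod_cast congrArg (fun x : ℤ_[p] => (x : ℚ_[p])) hst
  have hroot : (t / s : ℚ) ^ 4 - 6 * c4 * (t / s : ℚ) ^ 2 - 8 * c6 * (t / s : ℚ)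
      - 3 * (c4 : ℚ) ^ 2 = 0 := by
    have h1 : (x : ℚ_[p]) ^ 4 - 6 * (c4 : ℚ_[p]) * (x : ℚ_[p]) ^ 2 - 8 * (c6 : ℚ_[p]) * (x : ℚ_[p])
        - 3 * (c4 : ℚ_[p]) ^ 2 = 0 := by
      exact_mod_cast congrArg (fun x : ℤ_[p] => (x : ℚ_[p])) hx
    rw [hxq] at h1
    exact_mod_cast h1
  have hint : IsIntegral ℤ (t / s : ℚ) := by
    refine ⟨Polynomial.X ^ 4 + (Polynomial.C (-6 * c4) * Polynomial.X ^ 2
      + Polynomial.C (-8 * c6) * Polynomial.X + Polynomial.C (-3 * c4 ^ 2)), ?_, ?_⟩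
    · apply Polynomial.monic_X_pow_add
      refine lt_of_le_of_lt (b := ((2 : ℕ) : WithBot ℕ)) ?_ (by norm_num)
      compute_degree!
    · simp only [Polynomial.eval₂_add, Polynomial.eval₂_mul, Polynomial.eval₂_pow,
        Polynomial.eval₂_X, Polynomial.eval₂_C, algebraMap_int_eq, Int.coe_castRingHom]
      push_cast
      linear_combination hroot
  obtain ⟨r, hr⟩ := IsIntegrallyClosed.isIntegral_iff.1 hint
  refine ⟨r, ?_⟩
  apply PadicInt.ext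
  rw [hxq, ← hr]
  simp

theorem padic_roots {c4 c6 r₀ : ℤ} (h4 : c4 ≠ 0) (hκ : c4 ^ 3 - c6 ^ 2 ≠ 0)
    (hr₀ : r₀ ^ 4 - 6 * c4 * r₀ ^ 2 - 8 * c6 * r₀ - 3 * c4 ^ 2 = 0) :
    ∃ (p : ℕ) (_ : Fact p.Prime), ∀ x : ℤ_[p],
      x ^ 4 - 6 * (c4 : ℤ_[p]) * x ^ 2 - 8 * (c6 : ℤ_[p]) * x - 3 * (c4 : ℤ_[p]) ^ 2 = 0 →
      ∃ r : ℤ, x = r := by
  obtain ⟨h0, ha, hb⟩ := root_facts h4 hκ hr₀
  set a : ℤ := r₀ ^ 2 - c4 with ha'
  set b : ℤ := 9 * c4 - r₀ ^ 2 with hb'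
  have hn : r₀ * b ≠ 0 := mul_ne_zero h0 hb
  -- the key relation
  have key : ∀ (p : ℕ) [Fact p.Prime] (x : ℤ_[p]),
      x ^ 4 - 6 * (c4 : ℤ_[p]) * x ^ 2 - 8 * (c6 : ℤ_[p]) * x - 3 * (c4 : ℤ_[p]) ^ 2 = 0 →
      x = r₀ ∨ (x ≠ r₀ ∧ (3 * (a : ℤ_[p]) + 2 * r₀ * (x - r₀)) ^ 3
        = ((r₀ * b : ℤ) : ℤ_[p]) * (x - r₀) ^ 3) := by
    intro p _ x hx
    have hr : (r₀ : ℤ_[p]) ^ 4 - 6 * c4 * (r₀ : ℤ_[p]) ^ 2 - 8 * c6 * (r₀ : ℤ_[p])
      - 3 * (c4 : ℤ_[p]) ^ 2 = 0 := by exact_mod_cast congrArg (Int.cast : ℤ → ℤ_[p]) hr₀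
    by_cases hxr : x = r₀
    · exact Or.inl hxr
    · refine Or.inr ⟨hxr, ?_⟩
      have hne : x - (r₀ : ℤ_[p]) ≠ 0 := sub_ne_zero.2 hxr
      have : (x - (r₀ : ℤ_[p])) * ((3 * (a : ℤ_[p]) + 2 * r₀ * (x - r₀)) ^ 3
          - ((r₀ * b : ℤ) : ℤ_[p]) * (x - r₀) ^ 3) = 0 := by
        rw [ha', hb']
        push_cast
        linear_combination (9 * ((r₀ : ℤ_[p]) ^ 2 - c4) * r₀) * hx
          - (9 * ((r₀ : ℤ_[p]) ^ 2 - c4) * x) * hr
      exact sub_eq_zero.1 ((mul_eq_zero.1 this).resolve_left hne)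
  by_cases hcube : ∃ m : ℤ, m ^ 3 = r₀ * b
  · obtain ⟨m, hm⟩ := hcube
    refine ⟨2, Nat.fact_prime_two, fun x hx => ?_⟩
    rcases key 2 x hx with h | ⟨hne, h⟩
    · exact ⟨r₀, h⟩
    · rw [← hm, Int.cast_pow, ← mul_pow] at h
      have h2 := cube_injective_two h
      have h3 : ((m - 2 * r₀ : ℤ) : ℤ_[2]) * x = ((3 * a + r₀ * (m - 2 * r₀) : ℤ) : ℤ_[2]) := by
        push_cast
        linear_combination -h2
      refine int_of_rational (s := m - 2 * r₀) ?_ h3 hx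
      intro hs
      rw [hs] at h3
      apply ha
      have : ((3 * a : ℤ) : ℤ_[2]) = 0 := by
        simpa using h3.symm
      have h5 : 3 * a = 0 := by exact_mod_cast this
      omega
  · have : ∃ p : ℕ, p.Prime ∧ ¬ 3 ∣ padicValInt p (r₀ * b) := by
      by_contra hcon
      push Not at hcon
      exact hcube (exists_cube_of_dvd _ hn hcon)
    obtain ⟨p, hp, h3⟩ := this
    have : Fact p.Prime := ⟨hp⟩
    refine ⟨p, inferInstance, fun x hx => ?_⟩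
    rcases key p x hx with h | ⟨hne, h⟩
    · exact ⟨r₀, h⟩
    · exfalso
      apply h3
      have hne' : (x : ℚ_[p]) - r₀ ≠ 0 := by
        intro h0
        apply hne
        apply PadicInt.ext
        push_cast
        exact sub_eq_zero.1 h0
      have hn' : ((r₀ * b : ℤ) : ℚ_[p]) ≠ 0 := by exact_mod_cast hn
      have hq : (3 * (a : ℚ_[p]) + 2 * r₀ * (x - r₀)) ^ 3
        = ((r₀ * b : ℤ) : ℚ_[p]) * (x - r₀) ^ 3 := by
        exact_mod_cast congrArg (fun x : ℤ_[p] => (x : ℚ_[p])) h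
      have hv := congrArg Padic.valuation hq
      rw [Padic.valuation_pow, Padic.valuation_mul hn' (pow_ne_zero _ hne'), Padic.valuation_pow,
        Padic.valuation_intCast] at hv
      push_cast at hv
      omega

end

end Fermat.Agent.H99
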