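import Mathlib

set_option autoImplicit false

namespace Fermat.Agent.H99

open Polynomial Filter Topology

section Formal

variable {K : Type*} [Field K]

/-- the quartic `X⁴ + A X² + B X + C` -/
def quart {R : Type*} [CommRing R] (A B C T : R) : R := T ^ 4 + A * T ^ 2 + B * T + C

/-- divided difference -/
def quartH {R : Type*} [CommRing R] (A B X T : R) : R :=
  X ^ 3 + X ^ 2 * T + X * T ^ 2 + T ^ 3 + A * (X + T) + B

lemma quart_sub {R : Type*} [CommRing R] (A B C X T : R) :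
    quart A B C X - quart A B C T = (X - T) * quartH A B X T := by
  simp only [quart, quartH]; ring

/-- formal branch through a simple root, truncated at degree `n` -/
lemma exists_branch (A B C : K[X]) (r : K) (h0 : quart (A.eval 0) (B.eval 0) (C.eval 0) r = 0)
    (hd : 4 * r ^ 3 + 2 * A.eval 0 * r + B.eval 0 ≠ 0) (n : ℕ) :
    ∃ T : K[X], T.natDegree ≤ n ∧ T.eval 0 = r ∧ X ^ (n + 1) ∣ quart A B C T := by
  induction n with
  | zero =>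
    refine ⟨Polynomial.C r, by simp, by simp, ?_⟩
    rw [zero_add, pow_one, X_dvd_iff, coeff_zero_eq_eval_zero]
    simpa [quart] using h0
  | succ n ih =>
    obtain ⟨T, hT, hT0, Q, hQ⟩ := ih
    set c : K := -(Q.eval 0) / (4 * r ^ 3 + 2 * A.eval 0 * r + B.eval 0) with hc
    refine ⟨T + Polynomial.C c * X ^ (n + 1), ?_, by simp [hT0], ?_⟩
    · refine (natDegree_add_le _ _).trans (max_le (hT.trans (Nat.le_succ n)) ?_)
      exact natDegree_C_mul_X_pow_le c (n + 1)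
    · have h1 := quart_sub A B C (T + Polynomial.C c * X ^ (n + 1)) T
      have h2 : quart A B C (T + Polynomial.C c * X ^ (n + 1)) =
          X ^ (n + 1) * (Q + Polynomial.C c * quartH A B (T + Polynomial.C c * X ^ (n + 1)) T) := by
        rw [sub_eq_iff_eq_add] at h1
        rw [h1, hQ]; ring
      rw [h2, pow_succ X (n + 1)]
      refine mul_dvd_mul_left _ ?_
      rw [X_dvd_iff, coeff_zero_eq_eval_zero]
      simp only [quartH, eval_add, eval_mul, eval_pow, eval_C, eval_X, hT0]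
      have h3 : (0 : K) ^ (n + 1) = 0 := by simp
      rw [h3, mul_zero, add_zero, hc]
      have h4 : r ^ 3 + r ^ 2 * r + r * r ^ 2 + r ^ 3 + eval 0 A * (r + r) + eval 0 B =
          4 * r ^ 3 + 2 * A.eval 0 * r + B.eval 0 := by ring
      rw [h4, div_mul_cancel₀ _ hd, add_neg_cancel]

end Formal

/-- archimedean bound for a polynomial -/
lemma exists_bound (P : ℤ[X]) (d : ℕ) (hP : P.natDegree ≤ d) :
    ∃ C : ℝ, 0 ≤ C ∧ ∀ m : ℤ, m ≠ 0 → |((P.eval m : ℤ) : ℝ)| ≤ C * |(m : ℝ)| ^ d := by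
  refine ⟨∑ i ∈ Finset.range (d + 1), |((P.coeff i : ℤ) : ℝ)|,
    Finset.sum_nonneg fun i _ => abs_nonneg _, fun m hm => ?_⟩
  have h1 : (1:ℝ) ≤ |(m : ℝ)| := by
    have : (1:ℤ) ≤ |m| := Int.one_le_abs hm
    exact_mod_cast this
  rw [eval_eq_sum_range' (lt_of_le_of_lt hP (Nat.lt_succ_self d)) m]
  push_cast
  rw [Finset.sum_mul]
  refine (Finset.abs_sum_le_sum_abs _ _).trans (Finset.sum_le_sum fun i hi => ?_)
  rw [abs_mul, abs_pow]
  refine mul_le_mul_of_nonneg_left ?_ (abs_nonneg _)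
  exact pow_le_pow_right₀ h1 (Nat.lt_succ_iff.mp (Finset.mem_range.mp hi))

/-- size bound for integer roots -/
lemma root_bound (A B C : ℤ[X]) (hA : A.natDegree ≤ 20) (hB : B.natDegree ≤ 30)
    (hC : C.natDegree ≤ 40) : ∃ K : ℝ, 0 ≤ K ∧ ∀ m x : ℤ, m ≠ 0 →
      quart (A.eval m) (B.eval m) (C.eval m) x = 0 → |(x : ℝ)| ≤ K * |(m : ℝ)| ^ 10 := by
  obtain ⟨a, ha0, ha⟩ := exists_bound A 20 hA
  obtain ⟨b, hb0, hb⟩ := exists_bound B 30 hB
  obtain ⟨c, hc0, hc⟩ := exists_bound C 40 hC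
  refine ⟨1 + a + b + c, by positivity, fun m x hm hx => ?_⟩
  have h1 : (1:ℝ) ≤ |(m : ℝ)| := by
    have : (1:ℤ) ≤ |m| := Int.one_le_abs hm
    exact_mod_cast this
  by_contra hlt
  push Not at hlt
  set y : ℝ := |(m : ℝ)| ^ 10 with hy
  have hy1 : 1 ≤ y := one_le_pow₀ h1
  set X : ℝ := |(x : ℝ)| with hX
  have hx' : (x : ℝ) ^ 4 + (A.eval m : ℤ) * (x : ℝ) ^ 2 + (B.eval m : ℤ) * (x : ℝ) +
      (C.eval m : ℤ) = 0 := by
    have := congrArg (fun z : ℤ => (z : ℝ)) hx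
    simpa [quart] using this
  have h2 : X ^ 4 ≤ a * y ^ 2 * X ^ 2 + b * y ^ 3 * X + c * y ^ 4 := by
    have e1 : (x : ℝ) ^ 4 = -((A.eval m : ℤ) * (x : ℝ) ^ 2 + (B.eval m : ℤ) * (x : ℝ) +
      (C.eval m : ℤ)) := by linarith
    have e2 : X ^ 4 = |(x : ℝ) ^ 4| := by rw [hX, abs_pow]
    rw [e2, e1, abs_neg]
    refine (abs_add_le _ _).trans (add_le_add ((abs_add_le _ _).trans (add_le_add ?_ ?_)) ?_)
    · rw [abs_mul, abs_pow]
      refine mul_le_mul_of_nonneg_right ((ha m hm).trans (le_of_eq ?_)) (by positivity)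
      rw [hy]; ring
    · rw [abs_mul]
      refine mul_le_mul_of_nonneg_right ((hb m hm).trans (le_of_eq ?_)) (by positivity)
      rw [hy]; ring
    · refine (hc m hm).trans (le_of_eq ?_)
      rw [hy]; ring
  have hyX : y ≤ X := by nlinarith
  have hX0 : 0 < X := by linarith
  have h3 : a * y ^ 2 * X ^ 2 ≤ a * y * X ^ 3 := by
    have : y * X ^ 2 * (X - y) ≥ 0 := by
      apply mul_nonneg (by positivity); linarith
    nlinarith
  have h4 : b * y ^ 3 * X ≤ b * y * X ^ 3 := by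
    have : y ^ 2 ≤ X ^ 2 := pow_le_pow_left₀ (by linarith) hyX 2
    have h5 : y * X * y ^ 2 ≤ y * X * X ^ 2 := mul_le_mul_of_nonneg_left this (by positivity)
    nlinarith
  have h5 : c * y ^ 4 ≤ c * y * X ^ 3 := by
    have : y ^ 3 ≤ X ^ 3 := pow_le_pow_left₀ (by linarith) hyX 3
    have h6 : y * y ^ 3 ≤ y * X ^ 3 := mul_le_mul_of_nonneg_left this (by positivity)
    nlinarith
  have h6 : X ^ 4 ≤ (a + b + c) * y * X ^ 3 := by linarith
  have h7 : X ≤ (a + b + c) * y := by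
    have : X * X ^ 3 ≤ (a + b + c) * y * X ^ 3 := by nlinarith
    exact le_of_mul_le_mul_right this (by positivity)
  nlinarith

/-- elementary product formula inequality -/
lemma one_le_abs_mul_norm (p : ℕ) [hp : Fact p.Prime] (y : ℤ) (hy : y ≠ 0) :
    1 ≤ |(y : ℝ)| * ‖(y : ℚ_[p])‖ := by
  have hne : ((y : ℤ) : ℚ_[p]) ≠ 0 := by exact_mod_cast hy
  have hval := Padic.norm_eq_zpow_neg_valuation hne
  rw [Padic.valuation_intCast] at hval
  rw [hval, zpow_neg, zpow_natCast]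
  have hdvd : (p : ℤ) ^ (padicValInt p y) ∣ y := by
    rw [padicValInt_dvd_iff]; right; exact le_rfl
  have hle : ((p : ℤ) ^ (padicValInt p y)) ≤ |y| := Int.le_of_dvd (abs_pos.mpr hy)
    ((dvd_abs _ _).mpr hdvd)
  have hle' : ((p : ℝ) ^ (padicValInt p y)) ≤ |(y : ℝ)| := by exact_mod_cast hle
  have hpos : (0:ℝ) < (p : ℝ) ^ (padicValInt p y) := by
    have := hp.out.pos
    positivity
  rw [← div_eq_mul_inv, one_le_div hpos]
  exact hle'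

/-- evaluation of integer polynomials along a sequence tending to `0` `p`-adically -/
lemma tendsto_eval (p : ℕ) [Fact p.Prime] (P : ℚ[X]) (m : ℕ → ℤ)
    (hm : Tendsto (fun n => ((m n : ℤ) : ℚ_[p])) atTop (𝓝 0)) :
    Tendsto (fun n => (((P.eval ((m n : ℤ) : ℚ)) : ℚ) : ℚ_[p])) atTop
      (𝓝 ((P.eval 0 : ℚ) : ℚ_[p])) := by
  have h1 : Continuous fun x : ℚ_[p] => (P.map (algebraMap ℚ ℚ_[p])).eval x :=
    Polynomial.continuous _
  have h2 := (h1.tendsto 0).comp hm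
  have h3 : ∀ q : ℚ, ((P.eval q : ℚ) : ℚ_[p]) = (P.map (algebraMap ℚ ℚ_[p])).eval (q : ℚ_[p]) := by
    intro q
    rw [← eq_ratCast (algebraMap ℚ ℚ_[p]) q, Polynomial.eval_map_apply]
    simp
  have h4 := h3 0
  rw [Rat.cast_zero] at h4
  rw [h4]
  refine h2.congr fun n => ?_
  rw [Function.comp_apply, h3]
  simp

theorem runge (A B C : ℤ[X]) (hA : A.natDegree ≤ 20) (hB : B.natDegree ≤ 30)
    (hC : C.natDegree ≤ 40) (p : ℕ) [hp : Fact p.Prime] (M : ℤ) (hM : M ≠ 0)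
    (hroots : ∀ x : ℤ_[p], quart ((A.eval 0 : ℤ) : ℤ_[p]) ((B.eval 0 : ℤ) : ℤ_[p])
      ((C.eval 0 : ℤ) : ℤ_[p]) x = 0 →
      ∃ r : ℤ, x = r ∧ 4 * r ^ 3 + 2 * A.eval 0 * r + B.eval 0 ≠ 0)
    (k₀ : ℕ) (hX : ∀ k ≥ k₀, ∃ x : ℤ, quart (A.eval (M * (p : ℤ) ^ k)) (B.eval (M * (p : ℤ) ^ k))
      (C.eval (M * (p : ℤ) ^ k)) x = 0) :
    ∃ T : ℚ[X], T.natDegree ≤ 10 ∧ quart (A.map (Int.castRingHom ℚ)) (B.map (Int.castRingHom ℚ))
      (C.map (Int.castRingHom ℚ)) T = 0 := by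
  classical
  have hX' : ∀ n : ℕ, ∃ x : ℤ, quart (A.eval (M * (p : ℤ) ^ (n + k₀)))
      (B.eval (M * (p : ℤ) ^ (n + k₀))) (C.eval (M * (p : ℤ) ^ (n + k₀))) x = 0 :=
    fun n => hX _ (Nat.le_add_left _ _)
  choose x hx using hX'
  obtain ⟨y, -, φ, hφ, hlim⟩ := isCompact_univ.tendsto_subseq
    (x := fun n => ((x n : ℤ) : ℤ_[p])) (fun n => Set.mem_univ _)
  -- the sequence of parameters
  set m : ℕ → ℤ := fun n => M * (p : ℤ) ^ (φ n + k₀) with hm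
  have hp1 : (1 : ℝ) < p := by exact_mod_cast hp.out.one_lt
  have hm_norm : ∀ n, ‖((m n : ℤ) : ℚ_[p])‖ ≤ ((p : ℝ)⁻¹) ^ (φ n + k₀) := by
    intro n
    have h1 : ‖((M : ℤ) : ℚ_[p])‖ ≤ 1 := Padic.norm_int_le_one M
    have h2 : ((m n : ℤ) : ℚ_[p]) = (M : ℚ_[p]) * (p : ℚ_[p]) ^ (φ n + k₀) := by
      simp [hm]
    rw [h2, norm_mul, norm_pow, Padic.norm_p]
    calc ‖((M : ℤ) : ℚ_[p])‖ * ((p : ℝ)⁻¹) ^ (φ n + k₀) ≤ 1 * ((p : ℝ)⁻¹) ^ (φ n + k₀) :=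
          mul_le_mul_of_nonneg_right h1 (by positivity)
      _ = _ := one_mul _
  have hinv : Tendsto (fun n : ℕ => ((p : ℝ)⁻¹) ^ (φ n + k₀)) atTop (𝓝 0) := by
    have h1 := tendsto_pow_atTop_nhds_zero_of_lt_one (r := (p : ℝ)⁻¹) (by positivity)
      (inv_lt_one_of_one_lt₀ hp1)
    refine h1.comp (tendsto_atTop_mono (fun n => ?_) tendsto_id)
    exact (hφ.id_le n).trans (Nat.le_add_right _ _)
  have hm_lim : Tendsto (fun n => ((m n : ℤ) : ℚ_[p])) atTop (𝓝 0) := by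
    refine squeeze_zero_norm hm_norm hinv
  have hm0 : ∀ n, m n ≠ 0 := fun n =>
    mul_ne_zero hM (pow_ne_zero _ (by exact_mod_cast hp.out.ne_zero))
  -- limit of the x's in ℚ_p
  have hxlim : Tendsto (fun n => ((x (φ n) : ℤ) : ℚ_[p])) atTop (𝓝 (y : ℚ_[p])) := by
    have := (continuous_subtype_val.tendsto y).comp hlim
    exact this
  set AQ := A.map (Int.castRingHom ℚ) with hAQ
  set BQ := B.map (Int.castRingHom ℚ) with hBQ
  set CQ := C.map (Int.castRingHom ℚ) with hCQ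
  have hevA : ∀ z : ℤ, (((AQ.eval ((z : ℤ) : ℚ)) : ℚ) : ℚ_[p]) = ((A.eval z : ℤ) : ℚ_[p]) := by
    intro z
    rw [hAQ, Polynomial.eval_intCast_map]; simp
  have hevB : ∀ z : ℤ, (((BQ.eval ((z : ℤ) : ℚ)) : ℚ) : ℚ_[p]) = ((B.eval z : ℤ) : ℚ_[p]) := by
    intro z
    rw [hBQ, Polynomial.eval_intCast_map]; simp
  have hevC : ∀ z : ℤ, (((CQ.eval ((z : ℤ) : ℚ)) : ℚ) : ℚ_[p]) = ((C.eval z : ℤ) : ℚ_[p]) := by
    intro z
    rw [hCQ, Polynomial.eval_intCast_map]; simp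
  have hA_lim := tendsto_eval p AQ m hm_lim
  have hB_lim := tendsto_eval p BQ m hm_lim
  have hC_lim := tendsto_eval p CQ m hm_lim
  have hzero : quart ((A.eval 0 : ℤ) : ℚ_[p]) ((B.eval 0 : ℤ) : ℚ_[p]) ((C.eval 0 : ℤ) : ℚ_[p])
      (y : ℚ_[p]) = 0 := by
    have h1 : Tendsto (fun n => quart (((AQ.eval ((m n : ℤ) : ℚ)) : ℚ) : ℚ_[p])
        (((BQ.eval ((m n : ℤ) : ℚ)) : ℚ) : ℚ_[p]) (((CQ.eval ((m n : ℤ) : ℚ)) : ℚ) : ℚ_[p])
        ((x (φ n) : ℤ) : ℚ_[p])) atTop (𝓝 (quart ((AQ.eval 0 : ℚ) : ℚ_[p])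
          ((BQ.eval 0 : ℚ) : ℚ_[p]) ((CQ.eval 0 : ℚ) : ℚ_[p]) (y : ℚ_[p]))) := by
      simp only [quart]
      exact (((hxlim.pow 4).add (hA_lim.mul (hxlim.pow 2))).add (hB_lim.mul hxlim)).add hC_lim
    have h2 : ∀ n, quart (((AQ.eval ((m n : ℤ) : ℚ)) : ℚ) : ℚ_[p])
        (((BQ.eval ((m n : ℤ) : ℚ)) : ℚ) : ℚ_[p]) (((CQ.eval ((m n : ℤ) : ℚ)) : ℚ) : ℚ_[p])
        ((x (φ n) : ℤ) : ℚ_[p]) = 0 := by
      intro n
      rw [hevA, hevB, hevC]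
      have := congrArg (fun z : ℤ => (z : ℚ_[p])) (hx (φ n))
      simpa [quart, hm] using this
    have h3 := tendsto_nhds_unique h1 (tendsto_const_nhds.congr fun n => (h2 n).symm)
    have e1 := hevA 0
    have e2 := hevB 0
    have e3 := hevC 0
    rw [Int.cast_zero] at e1 e2 e3
    rw [e1, e2, e3] at h3
    exact h3
  obtain ⟨r, hyr, hd⟩ := hroots y (by
    apply Subtype.coe_injective
    have := hzero
    simp only [quart] at this ⊢
    push_cast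
    simpa using this)
  -- the branch
  have hyr' : (y : ℚ_[p]) = (r : ℚ_[p]) := by rw [hyr]; simp
  have hzeroZ : quart (A.eval 0) (B.eval 0) (C.eval 0) r = 0 := by
    rw [hyr'] at hzero
    have : ((quart (A.eval 0) (B.eval 0) (C.eval 0) r : ℤ) : ℚ_[p]) = 0 := by
      rw [← hzero]; simp [quart]
    exact_mod_cast this
  have eA0 : AQ.eval 0 = ((A.eval 0 : ℤ) : ℚ) := by
    have := Polynomial.eval_intCast_map (Int.castRingHom ℚ) A 0
    rw [Int.cast_zero] at this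
    rw [hAQ, this]; simp
  have eB0 : BQ.eval 0 = ((B.eval 0 : ℤ) : ℚ) := by
    have := Polynomial.eval_intCast_map (Int.castRingHom ℚ) B 0
    rw [Int.cast_zero] at this
    rw [hBQ, this]; simp
  have eC0 : CQ.eval 0 = ((C.eval 0 : ℤ) : ℚ) := by
    have := Polynomial.eval_intCast_map (Int.castRingHom ℚ) C 0
    rw [Int.cast_zero] at this
    rw [hCQ, this]; simp
  have hdQ : 4 * (r : ℚ) ^ 3 + 2 * AQ.eval 0 * r + BQ.eval 0 ≠ 0 := by
    rw [eA0, eB0]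
    exact_mod_cast hd
  obtain ⟨T, hTdeg, hT0, Q, hQ⟩ := exists_branch AQ BQ CQ (r : ℚ) (by
    rw [eA0, eB0, eC0]
    have := congrArg (fun z : ℤ => (z : ℚ)) hzeroZ
    simpa [quart] using this) hdQ 10
  refine ⟨T, hTdeg, ?_⟩
  -- limits
  have hT_lim := tendsto_eval p T m hm_lim
  rw [hT0] at hT_lim
  have hQ_lim := tendsto_eval p Q m hm_lim
  set d : ℚ_[p] := ((4 * r ^ 3 + 2 * A.eval 0 * r + B.eval 0 : ℤ) : ℚ_[p]) with hdd
  have hd0 : d ≠ 0 := by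
    rw [hdd]; exact_mod_cast hd
  have hH_lim : Tendsto (fun n => quartH (((AQ.eval ((m n : ℤ) : ℚ)) : ℚ) : ℚ_[p])
      (((BQ.eval ((m n : ℤ) : ℚ)) : ℚ) : ℚ_[p]) ((x (φ n) : ℤ) : ℚ_[p])
      ((T.eval ((m n : ℤ) : ℚ) : ℚ) : ℚ_[p])) atTop (𝓝 d) := by
    have h1 : d = quartH ((AQ.eval 0 : ℚ) : ℚ_[p]) ((BQ.eval 0 : ℚ) : ℚ_[p]) (y : ℚ_[p])
        (((r : ℚ)) : ℚ_[p]) := by
      rw [hdd, hyr', eA0, eB0]
      simp only [quartH]
      push_cast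
      ring
    rw [h1]
    simp only [quartH]
    exact ((((((hxlim.pow 3).add ((hxlim.pow 2).mul hT_lim)).add
      (hxlim.mul (hT_lim.pow 2))).add (hT_lim.pow 3)).add
      (hA_lim.mul (hxlim.add hT_lim))).add hB_lim)
  -- the integer-normalised branch
  obtain ⟨E, hE, hTE⟩ := IsLocalization.integerNormalization_spec (nonZeroDivisors ℤ) T
  set T' := IsLocalization.integerNormalization (nonZeroDivisors ℤ) T with hT'
  have hE0 : E ≠ 0 := nonZeroDivisors.ne_zero hE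
  have hT'deg : T'.natDegree ≤ 10 := by
    refine le_trans ?_ hTdeg
    have h1 : (T'.map (algebraMap ℤ ℚ)).natDegree = T'.natDegree :=
      Polynomial.natDegree_map_eq_of_injective (algebraMap ℤ ℚ).injective_int T'
    rw [← h1, hTE]
    exact natDegree_smul_le E T
  have hT'ev : ∀ z : ℤ, ((T'.eval z : ℤ) : ℚ) = E * T.eval (z : ℚ) := by
    intro z
    have h1 := congrArg (fun P : ℚ[X] => P.eval (z : ℚ)) hTE
    simp only [eval_smul] at h1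
    have h2 : (T'.map (algebraMap ℤ ℚ)).eval (z : ℚ) = ((T'.eval z : ℤ) : ℚ) := by
      have := Polynomial.eval_intCast_map (algebraMap ℤ ℚ) T' z
      simp
    rw [h2] at h1
    rw [h1, zsmul_eq_mul]
  obtain ⟨K₁, hK₁0, hK₁⟩ := root_bound A B C hA hB hC
  obtain ⟨K₂, hK₂0, hK₂⟩ := exists_bound T' 10 hT'deg
  -- eventual vanishing
  have key : ∀ᶠ n in atTop, ((x (φ n) : ℤ) : ℚ) = T.eval ((m n : ℤ) : ℚ) := by
    set c : ℝ := ‖((Q.eval 0 : ℚ) : ℚ_[p])‖ + 1 with hc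
    have hQb : ∀ᶠ n in atTop, ‖((Q.eval ((m n : ℤ) : ℚ) : ℚ) : ℚ_[p])‖ < c :=
      (hQ_lim.norm).eventually_lt_const (lt_add_one _)
    have hHb : ∀ᶠ n in atTop, ‖d‖ / 2 < ‖quartH (((AQ.eval ((m n : ℤ) : ℚ)) : ℚ) : ℚ_[p])
      (((BQ.eval ((m n : ℤ) : ℚ)) : ℚ) : ℚ_[p]) ((x (φ n) : ℤ) : ℚ_[p])
      ((T.eval ((m n : ℤ) : ℚ) : ℚ) : ℚ_[p])‖ :=
      (hH_lim.norm).eventually_const_lt (half_lt_self (norm_pos_iff.mpr hd0))
    set K : ℝ := (|(E : ℝ)| * K₁ + K₂) * |(M : ℝ)| ^ 10 with hK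
    have hKlim : Tendsto (fun n : ℕ => K * (c / (‖d‖ / 2)) * ((p : ℝ)⁻¹) ^ (φ n + k₀)) atTop
        (𝓝 0) := by
      simpa using hinv.const_mul (K * (c / (‖d‖ / 2)))
    have hlt : ∀ᶠ n in atTop, K * (c / (‖d‖ / 2)) * ((p : ℝ)⁻¹) ^ (φ n + k₀) < 1 :=
      hKlim.eventually_lt_const one_pos
    filter_upwards [hQb, hHb, hlt] with n h1 h2 h3
    by_contra hne
    set z : ℤ := E * x (φ n) - T'.eval (m n) with hz
    have hzQ : ((z : ℤ) : ℚ) = E * (((x (φ n) : ℤ) : ℚ) - T.eval ((m n : ℤ) : ℚ)) := by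
      rw [hz]; push_cast; rw [hT'ev]; ring
    have hz0 : z ≠ 0 := by
      intro h0
      rw [h0, Int.cast_zero] at hzQ
      rcases mul_eq_zero.mp hzQ.symm with h | h
      · exact hE0 (by exact_mod_cast h)
      · exact hne (sub_eq_zero.mp h)
    have hprod := one_le_abs_mul_norm p z hz0
    -- p-adic size
    have hsub : (((x (φ n) : ℤ) : ℚ_[p]) - ((T.eval ((m n : ℤ) : ℚ) : ℚ) : ℚ_[p])) *
        quartH (((AQ.eval ((m n : ℤ) : ℚ)) : ℚ) : ℚ_[p])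
          (((BQ.eval ((m n : ℤ) : ℚ)) : ℚ) : ℚ_[p]) ((x (φ n) : ℤ) : ℚ_[p])
          ((T.eval ((m n : ℤ) : ℚ) : ℚ) : ℚ_[p]) =
        - (((m n : ℤ) : ℚ_[p]) ^ 11 * ((Q.eval ((m n : ℤ) : ℚ) : ℚ) : ℚ_[p])) := by
      rw [← quart_sub _ _ (((CQ.eval ((m n : ℤ) : ℚ)) : ℚ) : ℚ_[p])]
      have e1 : quart (((AQ.eval ((m n : ℤ) : ℚ)) : ℚ) : ℚ_[p])
        (((BQ.eval ((m n : ℤ) : ℚ)) : ℚ) : ℚ_[p]) (((CQ.eval ((m n : ℤ) : ℚ)) : ℚ) : ℚ_[p])
        ((x (φ n) : ℤ) : ℚ_[p]) = 0 := by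
        rw [hevA, hevB, hevC]
        have := congrArg (fun z : ℤ => (z : ℚ_[p])) (hx (φ n))
        simpa [quart, hm] using this
      have e2 : quart (((AQ.eval ((m n : ℤ) : ℚ)) : ℚ) : ℚ_[p])
        (((BQ.eval ((m n : ℤ) : ℚ)) : ℚ) : ℚ_[p]) (((CQ.eval ((m n : ℤ) : ℚ)) : ℚ) : ℚ_[p])
        ((T.eval ((m n : ℤ) : ℚ) : ℚ) : ℚ_[p]) =
          ((m n : ℤ) : ℚ_[p]) ^ 11 * ((Q.eval ((m n : ℤ) : ℚ) : ℚ) : ℚ_[p]) := by
        have := congrArg (fun P : ℚ[X] => ((P.eval ((m n : ℤ) : ℚ) : ℚ) : ℚ_[p])) hQ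
        simpa [quart] using this
      rw [e1, e2, zero_sub]
    have hnorm := congrArg norm hsub
    rw [norm_mul, norm_neg, norm_mul, norm_pow] at hnorm
    have hdpos : 0 < ‖d‖ / 2 := half_pos (norm_pos_iff.mpr hd0)
    have hsmall : ‖((x (φ n) : ℤ) : ℚ_[p]) - ((T.eval ((m n : ℤ) : ℚ) : ℚ) : ℚ_[p])‖ ≤
        (((p : ℝ)⁻¹) ^ (φ n + k₀)) ^ 11 * (c / (‖d‖ / 2)) := by
      rw [← mul_div_assoc, le_div_iff₀ hdpos]
      calc _ ≤ ‖((x (φ n) : ℤ) : ℚ_[p]) - ((T.eval ((m n : ℤ) : ℚ) : ℚ) : ℚ_[p])‖ *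
            ‖quartH (((AQ.eval ((m n : ℤ) : ℚ)) : ℚ) : ℚ_[p])
              (((BQ.eval ((m n : ℤ) : ℚ)) : ℚ) : ℚ_[p]) ((x (φ n) : ℤ) : ℚ_[p])
              ((T.eval ((m n : ℤ) : ℚ) : ℚ) : ℚ_[p])‖ :=
            mul_le_mul_of_nonneg_left h2.le (norm_nonneg _)
        _ = ‖((m n : ℤ) : ℚ_[p])‖ ^ 11 * ‖((Q.eval ((m n : ℤ) : ℚ) : ℚ) : ℚ_[p])‖ := hnorm
        _ ≤ _ := by
            refine mul_le_mul (pow_le_pow_left₀ (norm_nonneg _) (hm_norm n) 11) h1.le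
              (norm_nonneg _) (by positivity)
    have hznorm : ‖((z : ℤ) : ℚ_[p])‖ ≤ (((p : ℝ)⁻¹) ^ (φ n + k₀)) ^ 11 * (c / (‖d‖ / 2)) := by
      have e1 : ((z : ℤ) : ℚ_[p]) = (E : ℚ_[p]) * (((x (φ n) : ℤ) : ℚ_[p]) -
          ((T.eval ((m n : ℤ) : ℚ) : ℚ) : ℚ_[p])) := by
        have := congrArg (fun q : ℚ => (q : ℚ_[p])) hzQ
        push_cast at this
        exact this
      rw [e1, norm_mul]
      exact (mul_le_of_le_one_left (norm_nonneg _) (Padic.norm_int_le_one E)).trans hsmall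
    -- archimedean size
    have harch : |(z : ℝ)| ≤ K * ((p : ℝ) ^ (φ n + k₀)) ^ 10 := by
      have e1 : |((x (φ n) : ℤ) : ℝ)| ≤ K₁ * |((m n : ℤ) : ℝ)| ^ 10 := hK₁ (m n) _ (hm0 n) (hx (φ n))
      have e2 : |((T'.eval (m n) : ℤ) : ℝ)| ≤ K₂ * |((m n : ℤ) : ℝ)| ^ 10 := hK₂ (m n) (hm0 n)
      have e3 : |((m n : ℤ) : ℝ)| ^ 10 = |(M : ℝ)| ^ 10 * ((p : ℝ) ^ (φ n + k₀)) ^ 10 := by
        rw [hm]
        push_cast
        rw [abs_mul, mul_pow, abs_of_nonneg (by positivity : (0:ℝ) ≤ (p : ℝ) ^ (φ n + k₀))]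
      rw [hz]
      push_cast
      calc |(E : ℝ) * (x (φ n) : ℝ) - ((T'.eval (m n) : ℤ) : ℝ)| ≤
            |(E : ℝ) * (x (φ n) : ℝ)| + |((T'.eval (m n) : ℤ) : ℝ)| := abs_sub _ _
        _ ≤ |(E : ℝ)| * (K₁ * |((m n : ℤ) : ℝ)| ^ 10) + K₂ * |((m n : ℤ) : ℝ)| ^ 10 := by
            rw [abs_mul]
            exact add_le_add (mul_le_mul_of_nonneg_left e1 (abs_nonneg _)) e2
        _ = K * ((p : ℝ) ^ (φ n + k₀)) ^ 10 := by rw [e3, hK]; ring
    have hfin : |(z : ℝ)| * ‖((z : ℤ) : ℚ_[p])‖ ≤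
        K * (c / (‖d‖ / 2)) * ((p : ℝ)⁻¹) ^ (φ n + k₀) := by
      calc |(z : ℝ)| * ‖((z : ℤ) : ℚ_[p])‖ ≤ (K * ((p : ℝ) ^ (φ n + k₀)) ^ 10) *
            ((((p : ℝ)⁻¹) ^ (φ n + k₀)) ^ 11 * (c / (‖d‖ / 2))) :=
            mul_le_mul harch hznorm (norm_nonneg _) (by positivity)
        _ = K * (c / (‖d‖ / 2)) * ((p : ℝ)⁻¹) ^ (φ n + k₀) *
            (((p : ℝ) * (p : ℝ)⁻¹) ^ (φ n + k₀)) ^ 10 := by
            rw [mul_pow (p : ℝ) ((p : ℝ)⁻¹)]; ring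
        _ = _ := by
            rw [mul_inv_cancel₀ (by positivity : (p : ℝ) ≠ 0), one_pow, one_pow, mul_one]
    linarith
  -- infinitely many roots
  by_contra hne
  have hfin := (quart AQ BQ CQ T).roots.toFinset.finite_toSet
  have hinj : Function.Injective (fun n => ((m n : ℤ) : ℚ)) := by
    intro a b hab
    have hab' : ((m a : ℤ) : ℚ) = ((m b : ℤ) : ℚ) := hab
    have h1 : m a = m b := by exact_mod_cast hab'
    have h2 : (p : ℤ) ^ (φ a + k₀) = (p : ℤ) ^ (φ b + k₀) := mul_left_cancel₀ hM h1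
    have h3 : φ a + k₀ = φ b + k₀ := by
      have h4 : p ^ (φ a + k₀) = p ^ (φ b + k₀) := by exact_mod_cast h2
      exact Nat.pow_right_injective hp.out.two_le h4
    exact hφ.injective (by omega)
  obtain ⟨N, hN⟩ := eventually_atTop.mp key
  have hsub : Set.range (fun n => ((m (n + N) : ℤ) : ℚ)) ⊆
      ((quart AQ BQ CQ T).roots.toFinset : Set ℚ) := by
    rintro _ ⟨n, rfl⟩
    simp only [Finset.mem_coe, Multiset.mem_toFinset]
    rw [mem_roots hne, IsRoot.def]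
    have h1 := hN (n + N) (Nat.le_add_left _ _)
    have h2 : (quart AQ BQ CQ T).eval ((m (n + N) : ℤ) : ℚ) =
        quart (AQ.eval ((m (n + N) : ℤ) : ℚ)) (BQ.eval ((m (n + N) : ℤ) : ℚ))
          (CQ.eval ((m (n + N) : ℤ) : ℚ)) (T.eval ((m (n + N) : ℤ) : ℚ)) := by
      simp [quart]
    rw [h2, ← h1]
    have h3 := congrArg (fun z : ℤ => (z : ℚ)) (hx (φ (n + N)))
    have e1 : AQ.eval ((m (n + N) : ℤ) : ℚ) = ((A.eval (m (n + N)) : ℤ) : ℚ) := by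
      rw [hAQ, Polynomial.eval_intCast_map]; simp
    have e2 : BQ.eval ((m (n + N) : ℤ) : ℚ) = ((B.eval (m (n + N)) : ℤ) : ℚ) := by
      rw [hBQ, Polynomial.eval_intCast_map]; simp
    have e3 : CQ.eval ((m (n + N) : ℤ) : ℚ) = ((C.eval (m (n + N)) : ℤ) : ℚ) := by
      rw [hCQ, Polynomial.eval_intCast_map]; simp
    rw [e1, e2, e3]
    simpa [quart, hm] using h3
  have hinj2 : Function.Injective (fun n => ((m (n + N) : ℤ) : ℚ)) := by
    intro a b hab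
    have := hinj hab
    omega
  exact Set.infinite_range_of_injective hinj2 (hfin.subset hsub)

end Fermat.Agent.H99
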