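import Mathlib
import Fermat.Agent.H99Runge
import Fermat.Agent.H98Bezout

set_option autoImplicit false

/-!
# The 3-division quartic of the 5-congruent pencil has no polynomial root
-/

open Polynomial

namespace Fermat.Agent.H99

open Fermat.Agent.H98

section Pencil

variable {R : Type*} [CommRing R]

/-- first derivative of `D12` in `t` -/
def D12d (a b t : R) : R :=
    -132*t*a + 1320*t^2*b - 5940*t^3*a^2 + 15840*t^4*a*b - 63360*t^5*b^2 + 35640*t^5*a^3 +
    33264*t^6*a^2*b + 506880*t^7*a*b^2 - 534600*t^7*a^4 - 1267200*t^8*b^3 + 1283040*t^8*a^3*b +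
    1330560*t^9*a^2*b^2 - 1336500*t^9*a^5 - 675840*t^10*a*b^3 + 677160*t^10*a^4*b +
    1228800*t^11*b^4 - 2322432*t^11*a^3*b^2 + 1093500*t^11*a^6

/-- second derivative of `D12` in `t` -/
def D12dd (a b t : R) : R :=
    -132*a + 2640*t*b - 17820*t^2*a^2 + 63360*t^3*a*b - 316800*t^4*b^2 + 178200*t^4*a^3 +
    199584*t^5*a^2*b + 3548160*t^6*a*b^2 - 3742200*t^6*a^4 - 10137600*t^7*b^3 +
    10264320*t^7*a^3*b + 11975040*t^8*a^2*b^2 - 12028500*t^8*a^5 - 6758400*t^9*a*b^3 +
    6771600*t^9*a^4*b + 13516800*t^10*b^4 - 25546752*t^10*a^3*b^2 + 12028500*t^10*a^6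

set_option maxHeartbeats 4000000 in
set_option maxRecDepth 10000 in
theorem D12_hessian (a b t : R) :
    12 * D12 a b t * D12dd a b t - 11 * D12d a b t ^ 2 = -1584 * C20 a b t := by
  simp only [D12, C20, D12_0, C20_0, C20_1, C20_2, D12d, D12dd]
  ring

set_option maxHeartbeats 4000000 in
set_option maxRecDepth 10000 in
theorem derivative_D12 (a b : R) :
    derivative (D12 (C a) (C b) (X : R[X])) = D12d (C a) (C b) (X : R[X]) := by
  simp only [D12, D12_0, D12d, derivative_mul, derivative_add, derivative_sub, derivative_C,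
    derivative_pow, derivative_ofNat, derivative_one, derivative_X, Nat.cast_ofNat, map_ofNat]
  ring

end Pencil


/-- key divisibility: at the (simple) zeros of `D` the factor `T ^ 2 - E` cannot vanish -/
theorem pow_dvd_of_cubic {K : Type*} [Field K] (D E T : K[X]) (k : K) (hk : k ≠ 0)
    (hsq : Squarefree D) (hcop : IsCoprime D E) (h8 : (8 : K) ≠ 0)
    (h : (T ^ 2 - E) ^ 3 * (9 * E - T ^ 2) = C k * T ^ 2 * D ^ 5) :
    D ^ 5 ∣ 9 * E - T ^ 2 := by
  have hD0 : D ≠ 0 := hsq.ne_zero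
  have hcopS : IsCoprime D (T ^ 2 - E) := by
    refine isCoprime_of_prime_dvd (fun h => hD0 h.1) ?_
    intro q hq hqD hqS
    have hqE : ¬ q ∣ E := fun hqE => hq.not_isUnit (hcop.isUnit_of_dvd' hqD hqE)
    have hqT : ¬ q ∣ T ^ 2 := by
      intro hqT
      apply hqE
      have := dvd_sub hqT hqS
      simpa using this
    have hqR : ¬ q ∣ 9 * E - T ^ 2 := by
      intro hqR
      apply hqE
      have h1 := dvd_add hqS hqR
      have h2 : (T ^ 2 - E) + (9 * E - T ^ 2) = C (8 : K) * E := by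
        rw [map_ofNat]; ring
      rw [h2] at h1
      have hu : IsUnit (C (8 : K)) := by
        rw [Polynomial.isUnit_C]
        exact isUnit_iff_ne_zero.2 h8
      exact (hu.dvd_mul_left).1 h1
    have hqk : ¬ q ∣ C k := by
      intro hqk
      apply hq.not_isUnit
      refine isUnit_of_dvd_unit hqk ?_
      rw [Polynomial.isUnit_C]
      exact isUnit_iff_ne_zero.2 hk
    have hD1 : emultiplicity q D = 1 := by
      apply le_antisymm
      · rcases (squarefree_iff_emultiplicity_le_one D).1 hsq q with h | h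
        · exact h
        · exact absurd h hq.not_isUnit
      · rw [← Nat.cast_one, ← pow_dvd_iff_le_emultiplicity]
        simpa using hqD
    have e := congrArg (emultiplicity q) h
    rw [emultiplicity_mul hq, emultiplicity_pow hq, emultiplicity_mul hq, emultiplicity_mul hq,
      emultiplicity_pow hq (a := D), hD1, emultiplicity_eq_zero.2 hqR,
      emultiplicity_eq_zero.2 hqT, emultiplicity_eq_zero.2 hqk] at e
    simp only [add_zero, zero_add, mul_one] at e
    rcases hn : emultiplicity q (T ^ 2 - E) with _ | n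
    · rw [hn] at e
      exact absurd e (by decide)
    · rw [hn] at e
      have e' : ((3 * n : ℕ) : ℕ∞) = ((5 : ℕ) : ℕ∞) := by
        push_cast
        exact e
      have e'' : 3 * n = 5 := by exact_mod_cast e'
      omega
  have h1 : D ^ 5 ∣ (T ^ 2 - E) ^ 3 * (9 * E - T ^ 2) := by
    rw [h]
    exact Dvd.intro_left _ rfl
  exact ((hcopS.pow_left (m := 5)).pow_right (n := 3)).dvd_of_dvd_mul_left h1

theorem isCoprime_of_eq_C {K : Type*} [Field K] {P Q u v : K[X]} {c : K} (hc : c ≠ 0)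
    (h : u * P + v * Q = C c) : IsCoprime P Q := by
  refine ⟨C c⁻¹ * u, C c⁻¹ * v, ?_⟩
  calc C c⁻¹ * u * P + C c⁻¹ * v * Q = C c⁻¹ * (u * P + v * Q) := by ring
    _ = 1 := by rw [h, ← C_mul, inv_mul_cancel₀ hc, C_1]

theorem bezout_ne_zero {a b : ℚ} (hκ : a ^ 3 - b ^ 2 ≠ 0) :
    (2 ^ 26 * 3 ^ 12 * 5 ^ 5 * (a ^ 3 - b ^ 2) ^ 6 : ℚ) ≠ 0 := by
  have := pow_ne_zero 6 hκ
  positivity

theorem coprime_D12_C20 {a b : ℚ} (hκ : a ^ 3 - b ^ 2 ≠ 0) :
    IsCoprime (D12 (C a) (C b) (X : ℚ[X])) (C20 (C a) (C b) X) := by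
  refine isCoprime_of_eq_C (c := 2 ^ 26 * 3 ^ 12 * 5 ^ 5 * (a ^ 3 - b ^ 2) ^ 6)
    (u := bezA (C a) (C b) X) (v := bezB (C a) (C b) X) (bezout_ne_zero hκ) ?_
  rw [bezout]
  simp only [map_mul, map_pow, map_sub, map_ofNat]

theorem squarefree_D12 {a b : ℚ} (hκ : a ^ 3 - b ^ 2 ≠ 0) :
    Squarefree (D12 (C a) (C b) (X : ℚ[X])) := by
  apply Separable.squarefree
  rw [Separable, derivative_D12]
  refine isCoprime_of_eq_C (c := -1584 * (2 ^ 26 * 3 ^ 12 * 5 ^ 5 * (a ^ 3 - b ^ 2) ^ 6))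
    (u := -1584 * bezA (C a) (C b) X + bezB (C a) (C b) X * 12 * D12dd (C a) (C b) X)
    (v := - (bezB (C a) (C b) X * 11 * D12d (C a) (C b) X))
    (mul_ne_zero (by norm_num) (bezout_ne_zero hκ)) ?_
  have h1 := bezout (C a) (C b) (X : ℚ[X])
  have h2 := D12_hessian (C a) (C b) (X : ℚ[X])
  have h3 : (C (-1584 * (2 ^ 26 * 3 ^ 12 * 5 ^ 5 * (a ^ 3 - b ^ 2) ^ 6)) : ℚ[X]) =
      -1584 * (2 ^ 26 * 3 ^ 12 * 5 ^ 5 * (C a ^ 3 - C b ^ 2) ^ 6) := by
    simp only [map_mul, map_pow, map_sub, map_ofNat, map_neg]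
  rw [h3, ← h1]
  linear_combination (bezB (C a) (C b) X) * h2

theorem D12_expand (a b : ℚ) : D12 (C a) (C b) (X : ℚ[X]) =
    C 1 + C (-66 * a) * X ^ 2 + C (440 * b) * X ^ 3 + C (-1485 * a ^ 2) * X ^ 4
    + C (3168 * a * b) * X ^ 5 + C (-10560 * b ^ 2 + 5940 * a ^ 3) * X ^ 6
    + C (4752 * a ^ 2 * b) * X ^ 7 + C (63360 * a * b ^ 2 - 66825 * a ^ 4) * X ^ 8
    + C (-140800 * b ^ 3 + 142560 * a ^ 3 * b) * X ^ 9
    + C (133056 * a ^ 2 * b ^ 2 - 133650 * a ^ 5) * X ^ 10
    + C (-61440 * a * b ^ 3 + 61560 * a ^ 4 * b) * X ^ 11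
    + C (102400 * b ^ 4 - 193536 * a ^ 3 * b ^ 2 + 91125 * a ^ 6) * X ^ 12 := by
  simp only [D12, D12_0, map_mul, map_pow, map_sub, map_add, map_neg, map_ofNat, map_one]
  ring

theorem five_le_natDegree_D12 {a b : ℚ} (ha : a ≠ 0) :
    5 ≤ (D12 (C a) (C b) (X : ℚ[X])).natDegree := by
  by_cases hb : b = 0
  · have : 12 ≤ (D12 (C a) (C b) (X : ℚ[X])).natDegree := by
      apply le_natDegree_of_ne_zero
      rw [D12_expand]
      simp only [coeff_add, coeff_C_mul, coeff_X_pow, coeff_C, hb]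
      norm_num
      exact ha
    omega
  · apply le_natDegree_of_ne_zero
    rw [D12_expand]
    simp only [coeff_add, coeff_C_mul, coeff_X_pow, coeff_C]
    norm_num
    exact ⟨ha, hb⟩

set_option maxHeartbeats 1000000 in
theorem natDegree_C20 (R : Type*) [CommRing R] (a b : R) :
    (C20 (C a) (C b) (X : R[X])).natDegree ≤ 20 := by
  have h0 : (C20_0 (C a) (C b) (X : R[X])).natDegree ≤ 7 := by
    unfold C20_0; compute_degree
  have h1 : (C20_1 (C a) (C b) (X : R[X])).natDegree ≤ 7 := by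
    unfold C20_1; compute_degree
  have h2 : (C20_2 (C a) (C b) (X : R[X])).natDegree ≤ 4 := by
    unfold C20_2; compute_degree
  unfold C20
  refine (natDegree_add_le _ _).trans (max_le ((natDegree_add_le _ _).trans (max_le ?_ ?_)) ?_)
  · omega
  · exact natDegree_mul_le.trans (by have := natDegree_X_pow_le (R := R) 8; omega)
  · exact natDegree_mul_le.trans (by have := natDegree_X_pow_le (R := R) 16; omega)

set_option maxHeartbeats 4000000 in
theorem natDegree_C30 (R : Type*) [CommRing R] (a b : R) :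
    (C30 (C a) (C b) (X : R[X])).natDegree ≤ 30 := by
  have h0 : (C30_0 (C a) (C b) (X : R[X])).natDegree ≤ 5 := by
    unfold C30_0; compute_degree
  have h1 : (C30_1 (C a) (C b) (X : R[X])).natDegree ≤ 5 := by
    unfold C30_1; compute_degree
  have h2 : (C30_2 (C a) (C b) (X : R[X])).natDegree ≤ 5 := by
    unfold C30_2; compute_degree
  have h3 : (C30_3 (C a) (C b) (X : R[X])).natDegree ≤ 5 := by
    unfold C30_3; compute_degree
  have h4 : (C30_4 (C a) (C b) (X : R[X])).natDegree ≤ 5 := by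
    unfold C30_4; compute_degree
  have h5 : (C30_5 (C a) (C b) (X : R[X])).natDegree ≤ 0 := by
    unfold C30_5; compute_degree
  have e6 := natDegree_X_pow_le (R := R) 6
  have e12 := natDegree_X_pow_le (R := R) 12
  have e18 := natDegree_X_pow_le (R := R) 18
  have e24 := natDegree_X_pow_le (R := R) 24
  have e30 := natDegree_X_pow_le (R := R) 30
  unfold C30
  refine (natDegree_add_le _ _).trans (max_le ((natDegree_add_le _ _).trans (max_le
    ((natDegree_add_le _ _).trans (max_le ((natDegree_add_le _ _).trans (max_le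
    ((natDegree_add_le _ _).trans (max_le ?_ ?_)) ?_)) ?_)) ?_)) ?_)
  · omega
  all_goals exact natDegree_mul_le.trans (by omega)

theorem C20_zero {R : Type*} [CommRing R] (a b : R) : C20 a b 0 = a := by
  simp [C20, C20_0]

theorem C30_zero {R : Type*} [CommRing R] (a b : R) : C30 a b 0 = b := by
  simp [C30, C30_0]

theorem D12_zero {R : Type*} [CommRing R] (a b : R) : D12 a b 0 = 1 := by
  simp [D12, D12_0]

set_option maxHeartbeats 1000000 in
theorem map_C20 {R S : Type*} [CommRing R] [CommRing S] (f : R →+* S) (a b t : R) :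
    f (C20 a b t) = C20 (f a) (f b) (f t) := by
  simp only [C20, C20_0, C20_1, C20_2, map_add, map_sub, map_mul, map_pow, map_ofNat]

set_option maxHeartbeats 4000000 in
theorem map_C30 {R S : Type*} [CommRing R] [CommRing S] (f : R →+* S) (a b t : R) :
    f (C30 a b t) = C30 (f a) (f b) (f t) := by
  simp only [C30, C30_0, C30_1, C30_2, C30_3, C30_4, C30_5, map_add, map_sub, map_mul, map_pow,
    map_ofNat, map_neg]

theorem map_D12 {R S : Type*} [CommRing R] [CommRing S] (f : R →+* S) (a b t : R) :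
    f (D12 a b t) = D12 (f a) (f b) (f t) := by
  simp only [D12, D12_0, map_add, map_sub, map_mul, map_pow, map_ofNat, map_one]

/-- the 3-division quartic of the pencil has no root in `ℚ[X]` of degree `≤ 10` -/
theorem no_poly_root {a b : ℚ} (ha : a ≠ 0) (hκ : a ^ 3 - b ^ 2 ≠ 0) (T : ℚ[X])
    (hT : T.natDegree ≤ 10)
    (h : T ^ 4 - 6 * C20 (C a) (C b) X * T ^ 2 - 8 * C30 (C a) (C b) X * T
      - 3 * C20 (C a) (C b) X ^ 2 = 0) : False := by
  set D : ℚ[X] := D12 (C a) (C b) X with hD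
  set E : ℚ[X] := C20 (C a) (C b) X with hE
  set F : ℚ[X] := C30 (C a) (C b) X with hF
  have hkey : E ^ 3 - F ^ 2 = (C a ^ 3 - C b ^ 2) * D ^ 5 := C20_pow_sub_C30_sq _ _ _
  have h64 : (64 * (a ^ 3 - b ^ 2) : ℚ) ≠ 0 := mul_ne_zero (by norm_num) hκ
  have hprod : (T ^ 2 - E) ^ 3 * (9 * E - T ^ 2) = C (64 * (a ^ 3 - b ^ 2)) * T ^ 2 * D ^ 5 := by
    have e1 : (C (64 * (a ^ 3 - b ^ 2)) : ℚ[X]) = 64 * (C a ^ 3 - C b ^ 2) := by
      simp only [map_mul, map_pow, map_sub, map_ofNat]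
    rw [e1]
    have e2 : 8 * F * T = T ^ 4 - 6 * E * T ^ 2 - 3 * E ^ 2 := by linear_combination -h
    have e3 : (8 * F * T) ^ 2 = (T ^ 4 - 6 * E * T ^ 2 - 3 * E ^ 2) ^ 2 := by rw [e2]
    linear_combination (64 * T ^ 2) * hkey + e3
  have hdvd : D ^ 5 ∣ 9 * E - T ^ 2 :=
    pow_dvd_of_cubic D E T _ h64 (squarefree_D12 hκ) (coprime_D12_C20 hκ) (by norm_num) hprod
  have hDne : D ≠ 0 := (squarefree_D12 hκ).ne_zero
  have hdegD : 5 ≤ D.natDegree := five_le_natDegree_D12 ha
  have hdegE : E.natDegree ≤ 20 := natDegree_C20 _ _ _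
  have hR : 9 * E - T ^ 2 = 0 := by
    apply eq_zero_of_dvd_of_natDegree_lt hdvd
    have h1 : (9 * E - T ^ 2).natDegree ≤ 20 := by
      refine (natDegree_sub_le _ _).trans (max_le ?_ ?_)
      · refine natDegree_mul_le.trans ?_
        have : (9 : ℚ[X]).natDegree = 0 := natDegree_ofNat 9
        omega
      · exact natDegree_pow_le.trans (by omega)
    rw [natDegree_pow]
    omega
  rw [hR, mul_zero] at hprod
  have hT0 : T = 0 := by
    rcases mul_eq_zero.1 hprod.symm with h1 | h1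
    · rcases mul_eq_zero.1 h1 with h2 | h2
      · exact absurd (C_eq_zero.1 h2) h64
      · exact pow_eq_zero_iff (two_ne_zero) |>.1 h2
    · exact absurd h1 (pow_ne_zero _ hDne)
  have hE0 : E = 0 := by
    have : (9 : ℚ[X]) * E = 0 := by rw [hT0] at hR; linear_combination hR
    rcases mul_eq_zero.1 this with h9 | h9
    · exact absurd h9 (by norm_num)
    · exact h9
  apply ha
  have : E.eval 0 = a := by
    have := map_C20 (evalRingHom (0 : ℚ)) (C a) (C b) X
    simp only [coe_evalRingHom, eval_C, eval_X] at this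
    rw [hE, this, C20_zero]
  rw [← this, hE0, eval_zero]

end Fermat.Agent.H99
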