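import Mathlib
import Fermat.Agent.H99Pencil
import Fermat.Agent.H99PadicRoots

set_option autoImplicit false

/-!
# Part [C] of S52: some member of the 5-congruent pencil has irreducible 3-division quartic
-/

open Polynomial Filter

namespace Fermat.Agent.H99

open Fermat.Agent.H98

theorem eval_C20 {R : Type*} [CommRing R] (a b m : R) :
    (C20 (C a) (C b) (X : R[X])).eval m = C20 a b m := by
  have := map_C20 (evalRingHom m) (C a) (C b) X
  simpa only [coe_evalRingHom, eval_C, eval_X] using this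

theorem eval_C30 {R : Type*} [CommRing R] (a b m : R) :
    (C30 (C a) (C b) (X : R[X])).eval m = C30 a b m := by
  have := map_C30 (evalRingHom m) (C a) (C b) X
  simpa only [coe_evalRingHom, eval_C, eval_X] using this

theorem eval_D12 {R : Type*} [CommRing R] (a b m : R) :
    (D12 (C a) (C b) (X : R[X])).eval m = D12 a b m := by
  have := map_D12 (evalRingHom m) (C a) (C b) X
  simpa only [coe_evalRingHom, eval_C, eval_X] using this

/-- `D12` is nonzero at `M p ^ k` for large `k` -/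
theorem exists_D12_ne_zero (c4 c6 M : ℤ) (hM : M ≠ 0) (p : ℕ) (hp : p.Prime) :
    ∃ k₀ : ℕ, ∀ k ≥ k₀, D12 c4 c6 (M * (p : ℤ) ^ k) ≠ 0 := by
  have hne : (D12 (C c4) (C c6) (X : ℤ[X])) ≠ 0 := by
    intro h
    have := eval_D12 c4 c6 0
    rw [h, D12_zero, eval_zero] at this
    exact zero_ne_one this
  have hfin : {x | IsRoot (D12 (C c4) (C c6) (X : ℤ[X])) x}.Finite :=
    finite_setOfPred_isRoot hne
  have hinj : Function.Injective (fun k : ℕ => M * (p : ℤ) ^ k) := by
    intro a b hab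
    have h2 : (p : ℤ) ^ a = (p : ℤ) ^ b := mul_left_cancel₀ hM hab
    exact Nat.pow_right_injective hp.two_le (by exact_mod_cast h2)
  have h := hinj.tendsto_cofinite.eventually hfin.eventually_cofinite_notMem
  rw [Nat.cofinite_eq_atTop, eventually_atTop] at h
  obtain ⟨k₀, hk⟩ := h
  refine ⟨k₀, fun k hk' h0 => hk k hk' ?_⟩
  simp only [Set.mem_ofPred_eq, IsRoot.def, eval_D12]
  exact h0

/-- **Part [C] of S52.**  For `c₄ ≠ 0` and `c₄ ^ 3 ≠ c₆ ^ 2` and any modulus `M ≠ 0` there is a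
member `μ ≡ 0 mod M` of the 5-congruent pencil which is nonsingular and whose 3-division quartic
has no integer root. -/
theorem exists_no_root (c4 c6 : ℤ) (h4 : c4 ≠ 0) (hκ : c4 ^ 3 - c6 ^ 2 ≠ 0) (M : ℤ)
    (hM : M ≠ 0) :
    ∃ μ : ℤ, M ∣ μ ∧ D12 c4 c6 μ ≠ 0 ∧ ∀ x : ℤ,
      x ^ 4 - 6 * C20 c4 c6 μ * x ^ 2 - 8 * C30 c4 c6 μ * x - 3 * C20 c4 c6 μ ^ 2 ≠ 0 := by
  by_cases h0 : ∃ r₀ : ℤ, r₀ ^ 4 - 6 * c4 * r₀ ^ 2 - 8 * c6 * r₀ - 3 * c4 ^ 2 = 0
  swap
  · refine ⟨0, dvd_zero _, ?_, fun x hx => h0 ⟨x, ?_⟩⟩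
    · rw [D12_zero]; exact one_ne_zero
    · rwa [C20_zero, C30_zero] at hx
  obtain ⟨r₀, hr₀⟩ := h0
  obtain ⟨p, hp, hroots⟩ := padic_roots h4 hκ hr₀
  by_contra hcon
  push Not at hcon
  obtain ⟨k₀, hk₀⟩ := exists_D12_ne_zero c4 c6 M hM p hp.out
  obtain ⟨T, hT, hTroot⟩ := runge (-6 * C20 (C c4) (C c6) X) (-8 * C30 (C c4) (C c6) X)
    (-3 * C20 (C c4) (C c6) X ^ 2) (by
      refine natDegree_mul_le.trans ?_
      have h1 := natDegree_C20 ℤ c4 c6
      have h2 : (-6 : ℤ[X]).natDegree = 0 := by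
        rw [natDegree_neg]; exact natDegree_ofNat 6
      omega) (by
      refine natDegree_mul_le.trans ?_
      have h1 := natDegree_C30 ℤ c4 c6
      have h2 : (-8 : ℤ[X]).natDegree = 0 := by
        rw [natDegree_neg]; exact natDegree_ofNat 8
      omega) (by
      refine natDegree_mul_le.trans ?_
      have h1 := natDegree_C20 ℤ c4 c6
      have h2 : (-3 : ℤ[X]).natDegree = 0 := by
        rw [natDegree_neg]; exact natDegree_ofNat 3
      have h3 : (C20 (C c4) (C c6) (X : ℤ[X]) ^ 2).natDegree ≤ 40 :=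
        natDegree_pow_le.trans (by omega)
      omega) p M hM (by
      intro x hx
      have e1 : (-6 * C20 (C c4) (C c6) (X : ℤ[X])).eval 0 = -6 * c4 := by
        simp only [eval_mul, eval_neg, eval_ofNat, eval_C20, C20_zero]
      have e2 : (-8 * C30 (C c4) (C c6) (X : ℤ[X])).eval 0 = -8 * c6 := by
        simp only [eval_mul, eval_neg, eval_ofNat, eval_C30, C30_zero]
      have e3 : (-3 * C20 (C c4) (C c6) (X : ℤ[X]) ^ 2).eval 0 = -3 * c4 ^ 2 := by
        simp only [eval_mul, eval_neg, eval_ofNat, eval_pow, eval_C20, C20_zero]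
      rw [e1, e2, e3, quart] at hx
      rw [e1, e2]
      have hx' : x ^ 4 - 6 * (c4 : ℤ_[p]) * x ^ 2 - 8 * (c6 : ℤ_[p]) * x
        - 3 * (c4 : ℤ_[p]) ^ 2 = 0 := by
        push_cast at hx
        linear_combination hx
      obtain ⟨r, rfl⟩ := hroots x hx'
      refine ⟨r, rfl, ?_⟩
      have hr : r ^ 4 - 6 * c4 * r ^ 2 - 8 * c6 * r - 3 * c4 ^ 2 = 0 := by
        exact_mod_cast hx'
      have := root_deriv h4 hκ hr
      intro h
      apply this
      linear_combination h) k₀ (by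
      intro k hk
      obtain ⟨x, hx⟩ := hcon (M * (p : ℤ) ^ k) (Dvd.intro _ rfl) (hk₀ k hk)
      refine ⟨x, ?_⟩
      simp only [quart, eval_mul, eval_pow, eval_neg, eval_ofNat, eval_C20, eval_C30]
      linear_combination hx)
  have h4' : (c4 : ℚ) ≠ 0 := by exact_mod_cast h4
  have hκ' : (c4 : ℚ) ^ 3 - (c6 : ℚ) ^ 2 ≠ 0 := by exact_mod_cast hκ
  refine no_poly_root h4' hκ' T hT ?_
  have e1 : (C20 (C c4) (C c6) (X : ℤ[X])).map (Int.castRingHom ℚ)
      = C20 (C (c4 : ℚ)) (C (c6 : ℚ)) X := by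
    have := map_C20 (mapRingHom (Int.castRingHom ℚ)) (C c4) (C c6) X
    simpa only [coe_mapRingHom, map_C, map_X, Int.coe_castRingHom] using this
  have e2 : (C30 (C c4) (C c6) (X : ℤ[X])).map (Int.castRingHom ℚ)
      = C30 (C (c4 : ℚ)) (C (c6 : ℚ)) X := by
    have := map_C30 (mapRingHom (Int.castRingHom ℚ)) (C c4) (C c6) X
    simpa only [coe_mapRingHom, map_C, map_X, Int.coe_castRingHom] using this
  simp only [quart, Polynomial.map_mul, Polynomial.map_pow, Polynomial.map_neg,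
    Polynomial.map_ofNat, e1, e2] at hTroot
  linear_combination hTroot

end Fermat.Agent.H99
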