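import Fermat.Agent.H68TwoBase
import Fermat.Agent.H99Cyclo
import Fermat.Agent.H99Hor

/-!
# CARAYOL C4, part 1: the ramified extension `K(ζ_q)` and the three embeddings
-/

set_option autoImplicit false
set_option linter.unusedSectionVars false

noncomputable section

open ModularCurve Polynomial IntermediateField AlgebraicCurve Module Fermat.Agent.H60
  Fermat.Agent.H66 Fermat.Agent.H42

namespace Fermat.Agent.H99

section Unif

variable {K : Type*} [Field K] {A : ValuationSubring K} {k : Type*} [Field k] {π : A →+* k}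
  {ϖ : A} (hϖ : Unif A π ϖ)

include hϖ in
theorem Unif.isUnit {u : A} (hu : π u ≠ 0) : IsUnit u := by
  have hu0 : (u : K) ≠ 0 := by
    intro h0
    apply hu
    have : u = 0 := Subtype.ext h0
    rw [this, map_zero]
  obtain ⟨n, v, hv, he⟩ := exists_zpow hϖ (inv_ne_zero hu0)
  have hϖ0 : (ϖ : K) ≠ 0 := fun h => hϖ.ne_zero (Subtype.ext h)
  have h1 : (1 : K) = (ϖ : K) ^ n * ((v * u : A) : K) := by
    rw [MulMemClass.coe_mul, ← mul_assoc, ← he, inv_mul_cancel₀ hu0]
  have h2 : π (v * u) ≠ 0 := by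
    rw [map_mul]
    exact mul_ne_zero hv hu
  rcases lt_trichotomy n 0 with hn | hn | hn
  · exfalso
    obtain ⟨j, rfl⟩ : ∃ j : ℕ, n = -(j + 1 : ℕ) := ⟨(-n - 1).toNat, by omega⟩
    have h3 : v * u = ϖ ^ (j + 1) := by
      apply Subtype.ext
      rw [zpow_neg, zpow_natCast, eq_inv_mul_iff_mul_eq₀ (pow_ne_zero _ hϖ0), mul_one] at h1
      rw [← h1]
      rfl
    rw [h3, map_pow, hϖ.map, zero_pow (Nat.succ_ne_zero j)] at h2
    exact h2 rfl
  · rw [hn, zpow_zero, one_mul] at h1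
    exact IsUnit.of_mul_eq_one v (Subtype.ext (by
      rw [mul_comm]
      exact h1.symm))
  · exfalso
    obtain ⟨j, rfl⟩ : ∃ j : ℕ, n = (j + 1 : ℕ) := ⟨(n - 1).toNat, by omega⟩
    have h3 : 1 = ϖ ^ (j + 1) * (v * u) := by
      apply Subtype.ext
      rw [zpow_natCast] at h1
      exact h1
    have h4 := congrArg π h3
    rw [map_mul, map_pow, hϖ.map, zero_pow (Nat.succ_ne_zero j), zero_mul, map_one] at h4
    exact one_ne_zero h4

end Unif

/-- The totally ramified extension `K' = K(ζ_q)` of discretely valued fields, with uniformizer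
`ζ_q - 1` and the same residue field `k`. -/
structure RamData {K K' k : Type*} [Field K] [Field K'] [Algebra K K'] [Field k]
    (A : ValuationSubring K) (π : A →+* k) (A' : ValuationSubring K') (π' : A' →+* k)
    (q : ℕ) where
  /-- a primitive `q`-th root of unity -/
  ζ : K'ˣ
  prim : IsPrimitiveRoot ζ q
  /-- the uniformizer `ζ - 1` -/
  ϖ : A'
  coe_ϖ : (ϖ : K') = (ζ : K') - 1
  unif : Unif A π (q : A)
  unif' : Unif A' π' ϖ
  mem : ∀ a : A, algebraMap K K' (a : K) ∈ A'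
  map : ∀ a : A, π' ⟨algebraMap K K' (a : K), mem a⟩ = π a

namespace RamData

variable {K K' k : Type*} [Field K] [Field K'] [Algebra K K'] [Field k]
  {A : ValuationSubring K} {π : A →+* k} {A' : ValuationSubring K'} {π' : A' →+* k} {q : ℕ}
  (D : RamData A π A' π' q)

/-- the inclusion `A → A'` -/
def incl : A →+* A' where
  toFun a := ⟨algebraMap K K' a, D.mem a⟩
  map_one' := Subtype.ext (map_one _)
  map_mul' _ _ := Subtype.ext (map_mul _ _ _)
  map_zero' := Subtype.ext (map_zero _)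
  map_add' _ _ := Subtype.ext (map_add _ _ _)

/-- extension of the coefficients -/
def hom : SeriesHom A π A' π' where
  g := coeffMap (algebraMap K K')
  gA := coeffMap D.incl
  gk := RingHom.id _
  comm y := by
    ext n
    simp only [coeffMap_coeff]
    rfl
  comm' y := by
    ext n
    simp only [coeffMap_coeff, RingHom.id_apply]
    exact (D.map _).symm

include D in
theorem coeff_mem {x : LaurentSeries K} (hx : x ∈ GR A π) :
    coeffMap (algebraMap K K') x ∈ GR A' π' := D.hom.mem hx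

include D in
theorem gres_coeff {x : LaurentSeries K} (hx : x ∈ GR A π) :
    gres A' π' (coeffMap (algebraMap K K') x) = gres A π x := D.hom.gres hx

include D in
theorem coeff_mem_iff {x : LaurentSeries K} (hx : x ∈ Bdd A) :
    coeffMap (algebraMap K K') x ∈ GR A' π' ↔ x ∈ GR A π := D.hom.mem_iff D.unif hx

include D in
theorem gres_coeff' {x : LaurentSeries K} (hx : x ∈ Bdd A) :
    gres A' π' (coeffMap (algebraMap K K') x) = gres A π x := by
  by_cases h : x ∈ GR A π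
  · exact D.gres_coeff h
  · have h' : coeffMap (algebraMap K K') x ∉ GR A' π' := fun h' => h ((D.coeff_mem_iff hx).1 h')
    unfold gres
    rw [dif_neg h, dif_neg h']

/-- `ζ` as a unit of `A'` -/
theorem exists_unit : ∃ u : A'ˣ, ((u : A') : K') = D.ζ ∧ π' u = 1 ∧ (u : A') = 1 + D.ϖ := by
  have h1 : π' (1 + D.ϖ) = 1 := by
    rw [map_add, map_one, D.unif'.map, add_zero]
  obtain ⟨u, hu⟩ := D.unif'.isUnit (u := 1 + D.ϖ) (by rw [h1]; exact one_ne_zero)
  refine ⟨u, ?_, by rw [hu, h1], hu⟩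
  rw [hu]
  show (1 : K') + (D.ϖ : K') = _
  rw [D.coe_ϖ]
  ring

/-- `ζ` as a unit of `A'` -/
def u : A'ˣ := D.exists_unit.choose

theorem coe_u : ((D.u : A') : K') = D.ζ := D.exists_unit.choose_spec.1

theorem map_u : π' D.u = 1 := D.exists_unit.choose_spec.2.1

theorem u_eq : (D.u : A') = 1 + D.ϖ := D.exists_unit.choose_spec.2.2

theorem u_prim : IsPrimitiveRoot (D.u : A') q := by
  have h1 : IsPrimitiveRoot ((D.ζ : K')) q := IsPrimitiveRoot.coe_units_iff.2 D.prim
  refine IsPrimitiveRoot.of_map_of_injective (f := A'.subtype) ?_ A'.subtype_injective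
  show IsPrimitiveRoot (((D.u : A')) : K') q
  rw [D.coe_u]
  exact h1

theorem coe_u_pow (i : ℕ) : (((D.u ^ i : A'ˣ) : A') : K') = ((D.ζ ^ i : K'ˣ) : K') := by
  rw [Units.val_pow_eq_pow_val, Units.val_pow_eq_pow_val, SubmonoidClass.coe_pow, D.coe_u]

theorem map_u_pow (i : ℕ) : π' ((D.u ^ i : A'ˣ) : A') = 1 := by
  rw [Units.val_pow_eq_pow_val, map_pow, D.map_u, one_pow]

/-- `(ζ - 1)^(q-1) = q u` with `u ≡ -1` -/
theorem exists_pow_eq [CharP k q] (hq : q.Prime) :
    ∃ v : A', π' v = -1 ∧ D.ϖ ^ (q - 1) = (q : A') * v := by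
  set P : A' := ∏ i ∈ Finset.Ico 1 q, (∑ j ∈ Finset.range i, (D.u : A') ^ j) with hP
  have h1 : (1 - (D.u : A')) ^ (q - 1) * P = (q : A') := one_sub_pow_mul hq D.u_prim
  have h2 : π' P = -1 := prod_geom_eq hq π' D.map_u
  obtain ⟨U, hU⟩ := D.unif'.isUnit (u := P) (by
    rw [h2]
    exact neg_ne_zero.2 one_ne_zero)
  have h3 : π' ((U⁻¹ : A'ˣ) : A') = -1 := by
    have h4 : π' ((U : A') * ((U⁻¹ : A'ˣ) : A')) = 1 := by
      rw [Units.mul_inv, map_one]
    rw [map_mul, hU, h2] at h4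
    linear_combination (-1 : k) * h4
  have h5 : (1 - (D.u : A')) = -D.ϖ := by
    rw [D.u_eq]
    ring
  refine ⟨(-1) ^ (q - 1) * ((U⁻¹ : A'ˣ) : A'), ?_, ?_⟩
  · rw [map_mul, map_pow, map_neg, map_one, h3]
    have h6 : ((-1 : k)) ^ (q - 1) = 1 := by
      have h7 : ((-1 : k)) ^ q = -1 := by
        have : Fact q.Prime := ⟨hq⟩
        have h8 : ((-1 : k)) ^ q = frobenius k q (-1) := rfl
        rw [h8, map_neg, map_one]
      have h9 : ((-1 : k)) ^ (q - 1) * (-1) = -1 := by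
        rw [← pow_succ, Nat.sub_add_cancel hq.one_lt.le, h7]
      linear_combination (-1 : k) * h9
    rw [h6, one_mul]
  · rw [h5] at h1
    have h8 : ((-1 : A')) ^ (q - 1) * (-1) ^ (q - 1) = 1 := by
      rw [← mul_pow]
      norm_num
    calc D.ϖ ^ (q - 1) = (-1) ^ (q - 1) * ((-1) ^ (q - 1) * D.ϖ ^ (q - 1)) := by
          rw [← mul_assoc, h8, one_mul]
      _ = (-1) ^ (q - 1) * (-D.ϖ) ^ (q - 1) := by
          rw [← mul_pow (-1 : A') D.ϖ]
          congr 2
          ring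
      _ = (-1) ^ (q - 1) * ((-D.ϖ) ^ (q - 1) * (P * ((U⁻¹ : A'ˣ) : A'))) := by
          rw [← hU, Units.mul_inv, mul_one]
      _ = (q : A') * ((-1) ^ (q - 1) * ((U⁻¹ : A'ˣ) : A')) := by
          rw [← mul_assoc ((-D.ϖ) ^ (q - 1)), h1]
          ring

/-- `ζ^n - 1 = (ζ - 1) g` with `g ≡ n` -/
theorem exists_zpow_sub_one (n : ℤ) :
    ∃ g : A', π' g = (n : k) ∧ (((D.u ^ n : A'ˣ) : A')) - 1 = D.ϖ * g := by
  have key : ∀ j : ℕ, (((D.u ^ j : A'ˣ) : A')) - 1 =
      D.ϖ * ∑ i ∈ Finset.range j, (D.u : A') ^ i := by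
    intro j
    have h1 := mul_geom_sum (D.u : A') j
    rw [Units.val_pow_eq_pow_val, ← h1, D.u_eq]
    ring
  have keyπ : ∀ j : ℕ, π' (∑ i ∈ Finset.range j, (D.u : A') ^ i) = (j : k) := by
    intro j
    rw [map_sum]
    simp [D.map_u]
  rcases Int.eq_nat_or_neg n with ⟨j, rfl | rfl⟩
  · exact ⟨∑ i ∈ Finset.range j, (D.u : A') ^ i, by rw [keyπ]; simp, by rw [zpow_natCast, key]⟩
  · refine ⟨-(((D.u ^ (-(j : ℤ)) : A'ˣ) : A')) * ∑ i ∈ Finset.range j, (D.u : A') ^ i, ?_, ?_⟩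
    · have h1 : π' (((D.u ^ (-(j : ℤ)) : A'ˣ) : A')) = 1 := by
        have h2 : π' (((D.u ^ (-(j : ℤ)) : A'ˣ) : A') * ((D.u ^ j : A'ˣ) : A')) = 1 := by
          rw [← Units.val_mul, zpow_neg, zpow_natCast, inv_mul_cancel, Units.val_one, map_one]
        rwa [map_mul, D.map_u_pow, mul_one] at h2
      rw [map_mul, map_neg, h1, keyπ]
      push_cast
      ring
    · have h3 := key j
      have h4 : (((D.u ^ (-(j : ℤ)) : A'ˣ) : A')) * ((D.u ^ j : A'ˣ) : A') = 1 := by
        rw [← Units.val_mul, zpow_neg, zpow_natCast, inv_mul_cancel, Units.val_one]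
      linear_combination (-(((D.u ^ (-(j : ℤ)) : A'ˣ) : A'))) * h3 + h4

/-- **The derivative**: `(X(ζ t) - X(t)) / (ζ - 1) ≡ θ X`. -/
theorem exists_twist_sub (X : LaurentSeries A') :
    ∃ Y : LaurentSeries A', H60.twist D.u X - X = HahnSeries.single 0 D.ϖ * Y ∧
      coeffMap π' Y = H61.theta (coeffMap π' X) := by
  have h0 : coeffMap π' (H60.twist D.u X - X) = 0 := by
    have h1 : Units.map (π' : A' →* k) D.u = 1 := Units.ext D.map_u
    rw [map_sub, coeffMap_twist π' D.u X, h1, twist_one, sub_self]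
  obtain ⟨Y, hY⟩ := exists_eq_smul D.unif' h0
  refine ⟨Y, hY, ?_⟩
  ext n
  rw [coeffMap_coeff, H61.coeff_theta, coeffMap_coeff]
  obtain ⟨g, hg, hg'⟩ := D.exists_zpow_sub_one n
  have h2 : D.ϖ * Y.coeff n = D.ϖ * (g * X.coeff n) := by
    have h3 := congrArg (fun z : LaurentSeries A' => z.coeff n) hY
    rw [HahnSeries.coeff_single_mul, sub_zero] at h3
    rw [← h3, HahnSeries.coeff_sub, twist_coeff]
    linear_combination (X.coeff n) * hg'
  rw [mul_left_cancel₀ D.unif'.ne_zero h2, map_mul, hg]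

end RamData

end Fermat.Agent.H99

end
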