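import Fermat.Agent.H99Three1

/-!
# CARAYOL C4, part 2: trace formulas at level `m q²`, boundedness of the middle embedding
-/

set_option autoImplicit false
set_option linter.unusedSectionVars false

noncomputable section

open ModularCurve Polynomial IntermediateField AlgebraicCurve Module Fermat.Agent.H60
  Fermat.Agent.H66 Fermat.Agent.H42

namespace Fermat.Agent.H99

section Gen

variable {L : Type*} [Field L] [Algebra ℚ L]

/-- values of a homomorphism on `F_{Nℓ}` lie in a subfield as soon as those on the images of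
the two degeneracy maps do -/
theorem forall_mem_of_alpha_beta (N ℓ : ℕ) [NeZero N] [NeZero ℓ] (hℓ : ℓ.Prime) {E : Type*}
    [Field E] [Algebra L E] (φ : FX L (N * ℓ) →ₐ[L] E) (G : IntermediateField L E)
    (h1 : ∀ x, φ (heckeAlphaBar L N ℓ x) ∈ G) (h2 : ∀ x, φ (heckeBetaBar L N ℓ x) ∈ G)
    (x : FX L (N * ℓ)) : φ x ∈ G := by
  let Q : IntermediateField L (FX L (N * ℓ)) := G.comap φ
  let F : IntermediateField L (LaurentSeries L) := Q.map (FX L (N * ℓ)).val
  have hF : ∀ x : FX L (N * ℓ), (x : LaurentSeries L) ∈ F ↔ φ x ∈ G := by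
    intro x
    constructor
    · rintro ⟨y, hy, hyx⟩
      have : y = x := Subtype.ext hyx
      rw [← this]
      exact hy
    · intro hx
      exact ⟨x, hx, rfl⟩
  have hall : FX L (N * ℓ) ≤ F := by
    refine full_le_of N ℓ hℓ F ?_ ?_
    · intro y hy
      have h3 := (hF (heckeAlphaBar L N ℓ ⟨y, hy⟩)).2 (h1 _)
      rwa [coe_heckeAlphaBar] at h3
    · intro y
      have h3 := (hF (heckeBetaBar L N ℓ y)).2 (h2 _)
      rwa [coe_heckeBetaBar] at h3
  exact (hF x).1 (hall x.2)

end Gen

section Trace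

variable {L : Type*} [Field L] [Algebra ℚ L] [hL : Fact (HasRoots L)] [CharZero L]
variable {m q : ℕ} [NeZero m] [NeZero q] (hq : q.Prime) (hqm : ¬ q ∣ m) (w : AL L m q)

theorem finrank_alpha_q (hq : q.Prime) :
    finrankAlong L (heckeAlphaBar L (m * q) q) = q :=
  finrank_alpha_of_dvd (m * q) q hq (dvd_mul_left _ _)

/-- **Trace formula** from level `m q²` to level `m q` (degeneracy `α`). -/
theorem coe_traceAlong_alpha {u : Lˣ} (hu : IsPrimitiveRoot u q) (z : FX L (m * q * q)) :
    ((H34.Two.traceAlong (heckeAlphaBar L (m * q) q) z : FX L (m * q)) : LaurentSeries L) =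
      ∑ i, allEmb hq hqm w hu i z := by
  let _ := algebraAlong (heckeAlphaBar L (m * q) q)
  have hfin : FiniteDimensional (FX L (m * q)) (FX L (m * q * q)) :=
    H67.finiteAlong_alpha (degreeFact L) (m * q) q
  have : CharZero (FX L (m * q)) :=
    charZero_of_injective_algebraMap (algebraMap L (FX L (m * q))).injective
  have hdeg : Module.finrank (FX L (m * q)) (FX L (m * q * q)) = q := finrank_alpha_q hq
  exact H34.Two.map_trace_eq_sum (F := FX L (m * q)) (F' := FX L (m * q * q))
    (E := LaurentSeries L)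
    (algebraMap (FX L (m * q)) (LaurentSeries L))
    (fun i => (allEmb hq hqm w hu i).toRingHom)
    (fun i x => allEmb_alpha hq hqm w hu i x)
    (fun i j hij => allEmb_injective hq hqm w hu (AlgHom.ext fun x => RingHom.congr_fun hij x))
    (by rw [hdeg, Fintype.card_fin]) z

variable {w} (w₂ : AL2 L m q w)

include hq w w₂ in
/-- **Trace formula**, second form: `(Tr_α z)` followed by `w_q` and `t ↦ t^q`. -/
theorem qExpand_W_traceAlong_alpha {u : Lˣ} (hu : IsPrimitiveRoot u q) (z : FX L (m * q * q)) :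
    qExpand L q ((w.W (H34.Two.traceAlong (heckeAlphaBar L (m * q) q) z) : FX L (m * q)) :
        LaurentSeries L) =
      ∑ i : Fin q, twist (u ^ (i : ℕ)) ((w₂.W₂ z : FX L (m * q * q)) : LaurentSeries L) := by
  let _ := algebraAlong (heckeAlphaBar L (m * q) q)
  have hfin : FiniteDimensional (FX L (m * q)) (FX L (m * q * q)) :=
    H67.finiteAlong_alpha (degreeFact L) (m * q) q
  have : CharZero (FX L (m * q)) :=
    charZero_of_injective_algebraMap (algebraMap L (FX L (m * q))).injective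
  have hdeg : Module.finrank (FX L (m * q)) (FX L (m * q * q)) = q := finrank_alpha_q hq
  have hmq : m * q ≠ 0 := mul_ne_zero (NeZero.ne m) (NeZero.ne q)
  have hmqq : m * q * q ≠ 0 := mul_ne_zero hmq (NeZero.ne q)
  have hx : J L (q * q) ∈ FX L (m * q * q) := J_mem_FX hmqq ⟨m, by ring⟩
  have hW₂J : ((w₂.W₂ ⟨J L (q * q), hx⟩ : FX L (m * q * q)) : LaurentSeries L) = J L 1 := by
    have e2 : (⟨J L (q * q), hx⟩ : FX L (m * q * q)) =
        heckeBetaBar L (m * q) q ⟨J L q, J_mem_FX hmq (dvd_mul_left _ _)⟩ := by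
      apply Subtype.ext
      rw [coe_heckeBetaBar, qExpand_J]
    have hJ1 : J L 1 ∈ FX L (m * q) := J_mem_FX hmq (one_dvd _)
    have hJq : J L (q * 1) ∈ FX L (m * q) := by
      rw [mul_one]; exact J_mem_FX hmq (dvd_mul_left _ _)
    have e3 : (⟨J L q, J_mem_FX hmq (dvd_mul_left _ _)⟩ : FX L (m * q)) = ⟨J L (q * 1), hJq⟩ :=
      mk_congr (mul_one q).symm _ _
    rw [e2, w₂.beta, coe_heckeAlphaBar, e3, w.W_Jq (one_dvd m) hJ1 hJq]
  exact H34.Two.map_trace_eq_sum (F := FX L (m * q)) (F' := FX L (m * q * q))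
    (E := LaurentSeries L)
    ((qExpand L q).comp ((algebraMap (FX L (m * q)) (LaurentSeries L)).comp
      (w.W : FX L (m * q) →+* FX L (m * q))))
    (fun i : Fin q => (twist (u ^ (i : ℕ))).comp
      ((algebraMap (FX L (m * q * q)) (LaurentSeries L)).comp
        (w₂.W₂ : FX L (m * q * q) →+* FX L (m * q * q))))
    (fun i x => by
      show twist (u ^ (i : ℕ)) ((w₂.W₂ (heckeAlphaBar L (m * q) q x) : FX L (m * q * q)) :
        LaurentSeries L) = qExpand L q ((w.W x : FX L (m * q)) : LaurentSeries L)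
      rw [w₂.alpha, coe_heckeBetaBar, twist_qExpand_of_pow_eq_one]
      rw [← pow_mul, mul_comm, pow_mul, hu.pow_eq_one, one_pow])
    (fun i j hij => by
      have h1 := congrArg (fun φ : FX L (m * q * q) →+* LaurentSeries L =>
        (φ ⟨J L (q * q), hx⟩).coeff (-1)) hij
      have hval : ∀ i : Fin q, (twist (u ^ (i : ℕ)) ((w₂.W₂ ⟨J L (q * q), hx⟩ :
          FX L (m * q * q)) : LaurentSeries L)).coeff (-1) =
          (((u ^ (i : ℕ)) ^ (-1 : ℤ) : Lˣ) : L) := by
        intro i
        rw [hW₂J, twist_coeff, J_one, coeff_jqModC_neg_one, mul_one]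
      have h2 : (((u ^ (i : ℕ)) ^ (-1 : ℤ) : Lˣ) : L) = (((u ^ (j : ℕ)) ^ (-1 : ℤ) : Lˣ) : L) := by
        rw [← hval i, ← hval j]
        exact h1
      have h3 := Units.ext h2
      rw [zpow_neg_one, zpow_neg_one, inv_inj] at h3
      exact Fin.ext (hu.pow_inj i.2 j.2 h3))
    (by rw [hdeg, Fintype.card_fin]) z

end Trace

section Bounded

variable {L : Type*} [Field L] [Algebra ℚ L] [hL : Fact (HasRoots L)] [CharZero L]
variable {m q : ℕ} [NeZero m] [NeZero q] (hq : q.Prime) (hqm : ¬ q ∣ m) (w : AL L m q)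

theorem midEmb_mem_Bdd (A : ValuationSubring L) {v : Lˣ} (hv : IsPrimitiveRoot v q)
    (u : Aˣ) (huv : (v : L) = (u : A)) (x : FX L (m * q * q)) :
    midEmb hq hqm w hv x ∈ Bdd A := by
  apply forall_mem_of_alpha_beta (m * q) q hq (midEmb hq hqm w hv) (Bdd A)
  · intro y
    rw [midEmb_alpha]
    exact FX_le_Bdd A (m * q) (NeZero.ne _) y.2
  · intro y
    rw [midEmb_beta]
    exact Bdd_twist A u huv (FX_le_Bdd A (m * q) (NeZero.ne _) (w.W y).2)

end Bounded

end Fermat.Agent.H99

end
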