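import Fermat.Agent.H99Three3

/-!
# CARAYOL C4, part 4: degeneracy maps, norms, and the specification of the level `m q` data
-/

set_option autoImplicit false
set_option linter.unusedSectionVars false

noncomputable section

open ModularCurve Polynomial IntermediateField AlgebraicCurve Module Fermat.Agent.H60
  Fermat.Agent.H66 Fermat.Agent.H42

namespace Fermat.Agent.H99

section General

variable {K : Type*} [Field K] {A : ValuationSubring K} {k : Type*} [Field k] {π : A →+* k}
  {ϖ : A} (hϖ : Unif A π ϖ)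

include hϖ in
theorem SeriesHom.gres' {K' : Type*} [Field K'] {A' : ValuationSubring K'} {k' : Type*}
    [Field k'] {π' : A' →+* k'} (G : SeriesHom A π A' π') {x : LaurentSeries K} (hx : x ∈ Bdd A) :
    Fermat.Agent.H99.gres A' π' (G.g x) = G.gk (Fermat.Agent.H99.gres A π x) := by
  by_cases h : x ∈ GR A π
  · exact G.gres h
  · have h' : G.g x ∉ GR A' π' := fun h' => h ((G.mem_iff hϖ hx).1 h')
    unfold Fermat.Agent.H99.gres
    rw [dif_neg h, dif_neg h', map_zero]

include hϖ in
theorem expand_mem_iff (d : ℕ) [NeZero d] {x : LaurentSeries K} (hx : x ∈ Bdd A) :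
    qExpand K d x ∈ GR A π ↔ x ∈ GR A π := (SeriesHom.expand A π d).mem_iff hϖ hx

include hϖ in
theorem gres_expand' (d : ℕ) [NeZero d] {x : LaurentSeries K} (hx : x ∈ Bdd A) :
    gres A π (qExpand K d x) = qExpand k d (gres A π x) :=
  (SeriesHom.expand A π d).gres' hϖ hx

theorem twist_mem_iff (u : Aˣ) (hu : π u = 1) {v : Kˣ} (hv : (v : K) = (u : A))
    {x : LaurentSeries K} : H60.twist v x ∈ GR A π ↔ x ∈ GR A π := by
  refine ⟨fun h => ?_, fun h => twist_mem u hu hv h⟩
  have hu' : π ((u⁻¹ : Aˣ) : A) = 1 := by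
    have h1 : π ((u : A) * ((u⁻¹ : Aˣ) : A)) = 1 := by rw [Units.mul_inv, map_one]
    rwa [map_mul, hu, one_mul] at h1
  have hv' : ((v⁻¹ : Kˣ) : K) = ((u⁻¹ : Aˣ) : A) := by
    have h1 : v = Units.map (A.subtype : A →* K) u := Units.ext hv
    rw [h1, ← map_inv]
    rfl
  have h1 := twist_mem u⁻¹ hu' hv' h
  rwa [twist_twist, inv_mul_cancel, twist_one] at h1

theorem gres_twist' (u : Aˣ) (hu : π u = 1) {v : Kˣ} (hv : (v : K) = (u : A))
    (x : LaurentSeries K) : gres A π (H60.twist v x) = gres A π x := by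
  by_cases h : x ∈ GR A π
  · exact gres_twist u hu hv h
  · have h' : H60.twist v x ∉ GR A π := fun h' => h ((twist_mem_iff u hu hv).1 h')
    unfold gres
    rw [dif_neg h, dif_neg h']

end General

section Norm

/-- the norm along a homomorphism of fields, as a homomorphism of monoids -/
def normHom {K F F' : Type*} [Field K] [Field F] [Field F'] [Algebra K F] [Algebra K F']
    (φ : F →ₐ[K] F') : F' →* F :=
  letI := algebraAlong φ
  Algebra.norm F

theorem normHom_apply {K F F' : Type*} [Field K] [Field F] [Field F'] [Algebra K F] [Algebra K F']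
    (φ : F →ₐ[K] F') (x : F') : normHom φ x = normAlong φ x := rfl

theorem normHom_self {K F F' : Type*} [Field K] [Field F] [Field F'] [Algebra K F] [Algebra K F']
    (φ : F →ₐ[K] F') (x : F) : normHom φ (φ x) = x ^ finrankAlong K φ := by
  let _ := algebraAlong φ
  exact Algebra.norm_algebraMap (S := F') x

variable {L : Type*} [Field L] [Algebra ℚ L] {m q : ℕ} [NeZero m] [NeZero q]
  {w : AL L m q} (w₂ : AL2 L m q w)

/-- transport of the norm by `w_{q²}`, any field of constants -/
theorem normAlong_beta' (z : FX L (m * q * q)) :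
    normAlong (heckeBetaBar L (m * q) q) (w₂.W₂ z) =
      w.W (normAlong (heckeAlphaBar L (m * q) q) z) := by
  have h := @Algebra.norm_eq_of_equiv_equiv (FX L (m * q)) (FX L (m * q * q)) (FX L (m * q))
    (FX L (m * q * q)) _ _ _ _ (algebraAlong (heckeAlphaBar L (m * q) q))
    (algebraAlong (heckeBetaBar L (m * q) q)) w.W.toRingEquiv w₂.W₂.toRingEquiv
    (by
      refine RingHom.ext fun x => ?_
      exact (w₂.alpha x).symm) z
  unfold normAlong
  rw [h]
  exact (w.W.apply_symm_apply _).symm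

theorem normHom_beta (z : FX L (m * q * q)) :
    normHom (heckeBetaBar L (m * q) q) z =
      w.W (normHom (heckeAlphaBar L (m * q) q) (w₂.W₂ z)) := by
  rw [normHom_apply, normHom_apply, ← normAlong_beta' w₂, w₂.invol]

theorem normHom_alpha_self (hq : q.Prime) (x : FX L (m * q)) :
    normHom (heckeAlphaBar L (m * q) q) (heckeAlphaBar L (m * q) q x) = x ^ q := by
  rw [normHom_self, finrank_alpha_of_dvd (m * q) q hq (dvd_mul_left _ _)]

include w₂ in
theorem normHom_beta_self (hq : q.Prime) (x : FX L (m * q)) :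
    normHom (heckeBetaBar L (m * q) q) (heckeBetaBar L (m * q) q x) = x ^ q := by
  rw [normHom_beta w₂, w₂.beta, normHom_alpha_self hq, map_pow, w.invol]

end Norm

variable {K K' k : Type*} [Field K] [Field K'] [Algebra K K'] [Field k]
  {A : ValuationSubring K} {π : A →+* k} {A' : ValuationSubring K'} {π' : A' →+* k} {q : ℕ}
variable [Algebra ℚ K] [Algebra ℚ K'] [CharZero K'] [hL : Fact (HasRoots K')]
variable {m : ℕ} [NeZero m] [NeZero q] (hq : q.Prime) (hqm : ¬ q ∣ m)
variable {w : AL K m q} (w' : AL K' m q) (w₂ : AL2 K m q w) (w₂' : AL2 K' m q w')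
variable (D : RamData A π A' π' q)

section EmbFormulas

theorem emb3_zero_alpha (x : FX K (m * q)) :
    emb3 hq hqm w' w₂ D 0 (heckeAlphaBar K (m * q) q x) =
      coeffMap (algebraMap K K') (x : LaurentSeries K) := by
  rw [emb3_zero, coe_heckeAlphaBar]

theorem emb3_zero_beta (x : FX K (m * q)) :
    emb3 hq hqm w' w₂ D 0 (heckeBetaBar K (m * q) q x) =
      qExpand K' q (coeffMap (algebraMap K K') (x : LaurentSeries K)) := by
  rw [emb3_zero, coe_heckeBetaBar, coeffMap_qExpand_H60]

theorem emb3_one_alpha (x : FX K (m * q)) :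
    emb3 hq hqm w' w₂ D 1 (heckeAlphaBar K (m * q) q x) =
      coeffMap (algebraMap K K') (x : LaurentSeries K) := by
  rw [emb3_one, midK_alpha]

theorem emb3_one_beta (x : FX K (m * q)) :
    emb3 hq hqm w' w₂ D 1 (heckeBetaBar K (m * q) q x) =
      twist D.ζ (coeffMap (algebraMap K K') (w.W x : LaurentSeries K)) := by
  rw [emb3_one, midK_beta hq hqm w' w]

theorem emb3_two_alpha (x : FX K (m * q)) :
    emb3 hq hqm w' w₂ D 2 (heckeAlphaBar K (m * q) q x) =
      qExpand K' q (coeffMap (algebraMap K K') (w.W x : LaurentSeries K)) := by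
  rw [emb3_two, w₂.alpha, coe_heckeBetaBar, coeffMap_qExpand_H60]

theorem emb3_two_beta (x : FX K (m * q)) :
    emb3 hq hqm w' w₂ D 2 (heckeBetaBar K (m * q) q x) =
      coeffMap (algebraMap K K') (w.W x : LaurentSeries K) := by
  rw [emb3_two, w₂.beta, coe_heckeAlphaBar]

end EmbFormulas

/-- Specification of the level `m q` data. -/
structure TwoSpec {R : H83.ResData k (LaurentSeries k) q} (T : H83.TwoData R (FX K (m * q)))
    (w : AL K m q) (π : A →+* k) (X₀ : LaurentSeries ℤ) : Prop where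
  hor : T.hor = H68.hor K (m * q)
  V0 : ∀ x : FX K (m * q), x ∈ T.V 0 ↔ (x : LaurentSeries K) ∈ GR A π
  res0 : ∀ x : FX K (m * q), T.toCompSys.res 0 x = gres A π (x : LaurentSeries K)
  W : ∀ x, T.W x = w.W x
  X : (T.X : LaurentSeries K) = coeffMap (Int.castRingHom K) X₀
  WX : (w.W T.X : LaurentSeries K) = qExpand K q (coeffMap (Int.castRingHom K) X₀)
  der : ∀ x, (T.der x : LaurentSeries K) * H61.theta (T.X : LaurentSeries K) =
    H61.theta (x : LaurentSeries K)
  θX : H61.theta (coeffMap (Int.castRingHom k) X₀) ≠ 0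
  Φ : ∀ x, R.Φ x = qExpand k q x

variable {R : H83.ResData k (LaurentSeries k) q} {T : H83.TwoData R (FX K (m * q))}
  {X₀ : LaurentSeries ℤ} (hT : TwoSpec T w π X₀)

namespace TwoSpec

include D hT

theorem V0' (x : FX K (m * q)) :
    x ∈ T.V 0 ↔ coeffMap (algebraMap K K') (x : LaurentSeries K) ∈ GR A' π' := by
  rw [hT.V0, D.coeff_mem_iff (FX_le_Bdd A _ (NeZero.ne _) x.2)]

theorem V1' (x : FX K (m * q)) :
    x ∈ T.V 1 ↔ coeffMap (algebraMap K K') (w.W x : LaurentSeries K) ∈ GR A' π' := by
  rw [T.W_V, hT.W, hT.V0' D]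

theorem res0' (x : FX K (m * q)) : T.toCompSys.res 0 x =
    gres A' π' (coeffMap (algebraMap K K') (x : LaurentSeries K)) := by
  rw [hT.res0, D.gres_coeff' (FX_le_Bdd A _ (NeZero.ne _) x.2)]

theorem res1' (x : FX K (m * q)) : T.toCompSys.res 1 x =
    gres A' π' (coeffMap (algebraMap K K') (w.W x : LaurentSeries K)) := by
  rw [T.W_res, hT.W, hT.res0' D]

end TwoSpec

end Fermat.Agent.H99

end
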