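import Fermat.Agent.H99Three4

/-!
# CARAYOL C4, part 5: the `ThreeData` instance
-/

set_option autoImplicit false
set_option linter.unusedSectionVars false

noncomputable section

open ModularCurve Polynomial IntermediateField AlgebraicCurve Module Fermat.Agent.H60
  Fermat.Agent.H66 Fermat.Agent.H42

open scoped nonZeroDivisors

namespace Fermat.Agent.H99

/-- almost integral elements of a Dedekind subring of a field -/
theorem mem_of_almost {k E : Type*} [Field k] [Field E] [Algebra k E] (C : Subalgebra k E)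
    [IsDedekindDomain C] {a x : E} (ha : a ∈ C) (ha0 : a ≠ 0) (h : ∀ n : ℕ, a * x ^ n ∈ C) :
    x ∈ C := by
  have h1 : IsAlmostIntegral C x := by
    refine ⟨⟨a, ha⟩, ?_, fun n => ⟨⟨a * x ^ n, h n⟩, rfl⟩⟩
    rw [mem_nonZeroDivisors_iff_ne_zero]
    intro h0
    exact ha0 (congrArg Subtype.val h0)
  have h2 : IsIntegral C x := h1.isIntegral
  -- `x` is a fraction
  let Q := FractionRing C
  let f : Q →+* E := IsFractionRing.lift (A := C) (K := Q) (g := algebraMap C E)
    Subtype.val_injective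
  have hf : ∀ c : C, f (algebraMap C Q c) = c := fun c => IsFractionRing.lift_algebraMap _ c
  let y : Q := algebraMap C Q ⟨a * x, by simpa using h 1⟩ / algebraMap C Q ⟨a, ha⟩
  have hy : f y = x := by
    rw [map_div₀, hf, hf]
    field_simp
  have h3 : IsIntegral C y := by
    obtain ⟨p, hp, hpx⟩ := h2
    refine ⟨p, hp, f.injective ?_⟩
    rw [map_zero, hom_eval₂, hy]
    have h4 : f.comp (algebraMap C Q) = algebraMap C E := RingHom.ext fun c => hf c
    rw [h4]
    exact hpx
  obtain ⟨z, hz⟩ := IsIntegrallyClosed.isIntegral_iff.1 h3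
  rw [← hy, ← hz, hf]
  exact z.2

variable {K K' k : Type*} [Field K] [Field K'] [Algebra K K'] [Field k]
  {A : ValuationSubring K} {π : A →+* k} {A' : ValuationSubring K'} {π' : A' →+* k} {q : ℕ}
variable [Algebra ℚ K] [Algebra ℚ K'] [CharZero K'] [hL : Fact (HasRoots K')]
variable {m : ℕ} [NeZero m] [NeZero q] (hq : q.Prime) (hqm : ¬ q ∣ m)
variable {w : AL K m q} (w' : AL K' m q) (w₂ : AL2 K m q w) (w₂' : AL2 K' m q w')
variable (D : RamData A π A' π' q)

/-! ### norm and trace at the components -/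

section NT

theorem allEmb_baseIncl (i : Fin q) (x : FX K (m * q * q)) :
    allEmb hq hqm w' D.prim i (H90.baseIncl K K' _ x) =
      if h : (i : ℕ) = 0 then coeffMap (algebraMap K K') (x : LaurentSeries K)
      else midK hq hqm w' (D.prim.pow_of_coprime (i : ℕ)
        ((Nat.coprime_of_lt_prime h i.2 hq).symm)) x := by
  unfold allEmb
  split_ifs with h
  · rfl
  · rfl

variable (hG : D.Gal)

include w hG in
theorem allEmb_mem (i : Fin q) {x : FX K (m * q * q)}
    (h0 : coeffMap (algebraMap K K') (x : LaurentSeries K) ∈ GR A' π')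
    (h1 : midK hq hqm w' D.prim x ∈ GR A' π') :
    allEmb hq hqm w' D.prim i (H90.baseIncl K K' _ x) ∈ GR A' π' := by
  rw [allEmb_baseIncl]
  split_ifs with h
  · exact h0
  · exact midK_mem hq hqm w' D hG w _ rfl
      (fun h' => absurd (Nat.le_of_dvd (Nat.pos_of_ne_zero h) h') (not_le.2 i.2)) h1

include w hG in
theorem gres_allEmb (i : Fin q) {x : FX K (m * q * q)}
    (h1 : midK hq hqm w' D.prim x ∈ GR A' π') :
    gres A' π' (allEmb hq hqm w' D.prim i (H90.baseIncl K K' _ x)) =
      if (i : ℕ) = 0 then gres A' π' (coeffMap (algebraMap K K') (x : LaurentSeries K))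
      else gres A' π' (midK hq hqm w' D.prim x) := by
  rw [allEmb_baseIncl]
  split_ifs with h
  · rfl
  · exact gres_midK hq hqm w' D hG w _ rfl
      (fun h' => absurd (Nat.le_of_dvd (Nat.pos_of_ne_zero h) h') (not_le.2 i.2)) h1

theorem prod_fin_ite {E : Type*} [CommRing E] (hq : 0 < q) (a b : E) :
    ∏ i : Fin q, (if (i : ℕ) = 0 then a else b) = a * b ^ (q - 1) := by
  obtain ⟨n, rfl⟩ : ∃ n, q = n + 1 := ⟨q - 1, by omega⟩
  rw [Fin.prod_univ_succ]
  simp

theorem sum_fin_ite {E : Type*} [CommRing E] (hq : 0 < q) (a b : E) :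
    ∑ i : Fin q, (if (i : ℕ) = 0 then a else b) = a + ((q - 1 : ℕ) : E) * b := by
  obtain ⟨n, rfl⟩ : ∃ n, q = n + 1 := ⟨q - 1, by omega⟩
  rw [Fin.sum_univ_succ]
  simp

include hqm w hG w' in
/-- the norm `N_α` at the component `0` -/
theorem normHom_alpha_zero {x : FX K (m * q * q)}
    (h0 : coeffMap (algebraMap K K') (x : LaurentSeries K) ∈ GR A' π')
    (h1 : midK hq hqm w' D.prim x ∈ GR A' π') :
    coeffMap (algebraMap K K') ((normHom (heckeAlphaBar K (m * q) q) x : FX K (m * q)) :
      LaurentSeries K) ∈ GR A' π' ∧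
    gres A' π' (coeffMap (algebraMap K K') ((normHom (heckeAlphaBar K (m * q) q) x :
      FX K (m * q)) : LaurentSeries K)) =
      gres A' π' (coeffMap (algebraMap K K') (x : LaurentSeries K)) *
        gres A' π' (midK hq hqm w' D.prim x) ^ (q - 1) := by
  have h2 : coeffMap (algebraMap K K') ((normHom (heckeAlphaBar K (m * q) q) x : FX K (m * q)) :
      LaurentSeries K) = ∏ i, allEmb hq hqm w' D.prim i (H90.baseIncl K K' _ x) := by
    rw [← coe_normAlong_alpha hq hqm w' D.prim, baseIncl_normAlong, H90.coe_baseIncl]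
    rfl
  rw [h2]
  refine ⟨prod_mem fun i _ => allEmb_mem hq hqm (w := w) w' D hG i h0 h1, ?_⟩
  rw [gres_prod _ _ fun i _ => allEmb_mem hq hqm (w := w) w' D hG i h0 h1]
  rw [Finset.prod_congr rfl fun i _ => gres_allEmb hq hqm (w := w) w' D hG i h1,
    prod_fin_ite hq.pos]

include hqm w hG w' in
/-- the trace `Tr_α` at the component `0` -/
theorem trace_alpha_zero [CharP k q] {x : FX K (m * q * q)}
    (h0 : coeffMap (algebraMap K K') (x : LaurentSeries K) ∈ GR A' π')
    (h1 : midK hq hqm w' D.prim x ∈ GR A' π') :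
    coeffMap (algebraMap K K') ((H34.Two.traceAlong (heckeAlphaBar K (m * q) q) x :
      FX K (m * q)) : LaurentSeries K) ∈ GR A' π' ∧
    gres A' π' (coeffMap (algebraMap K K') ((H34.Two.traceAlong (heckeAlphaBar K (m * q) q) x :
      FX K (m * q)) : LaurentSeries K)) =
      gres A' π' (coeffMap (algebraMap K K') (x : LaurentSeries K)) -
        gres A' π' (midK hq hqm w' D.prim x) := by
  have h2 : coeffMap (algebraMap K K') ((H34.Two.traceAlong (heckeAlphaBar K (m * q) q) x :
      FX K (m * q)) : LaurentSeries K) =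
      ∑ i, allEmb hq hqm w' D.prim i (H90.baseIncl K K' _ x) := by
    rw [← coe_traceAlong_alpha hq hqm w' D.prim, baseIncl_traceAlong, H90.coe_baseIncl]
  rw [h2]
  refine ⟨sum_mem fun i _ => allEmb_mem hq hqm (w := w) w' D hG i h0 h1, ?_⟩
  rw [gres_sum _ _ fun i _ => allEmb_mem hq hqm (w := w) w' D hG i h0 h1]
  rw [Finset.sum_congr rfl fun i _ => gres_allEmb hq hqm (w := w) w' D hG i h1,
    sum_fin_ite hq.pos]
  have h3 : (((q - 1 : ℕ) : LaurentSeries k)) = -1 := by
    rw [Nat.cast_sub hq.one_lt.le]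
    have h4 : ((q : ℕ) : LaurentSeries k) = 0 := by
      rw [← map_natCast (algebraMap k (LaurentSeries k)), CharP.cast_eq_zero k q, map_zero]
    rw [h4, Nat.cast_one, zero_sub]
  rw [h3]
  ring

include D in
theorem twist_D_mem (i : ℕ) {y : LaurentSeries K'} (hy : y ∈ GR A' π') :
    twist (D.ζ ^ i) y ∈ GR A' π' ∧ gres A' π' (twist (D.ζ ^ i) y) = gres A' π' y := by
  have h1 : ((D.ζ ^ i : K'ˣ) : K') = ((D.u ^ i : A'ˣ) : A') := (D.coe_u_pow i).symm
  exact ⟨twist_mem (D.u ^ i) (D.map_u_pow i) h1 hy, gres_twist (D.u ^ i) (D.map_u_pow i) h1 hy⟩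

include hq hL w₂ w' w₂' D in
/-- the norm `N_α` at the component `1` -/
theorem normHom_alpha_one {x : FX K (m * q * q)}
    (h2 : coeffMap (algebraMap K K') (w₂.W₂ x : LaurentSeries K) ∈ GR A' π') :
    coeffMap (algebraMap K K') (w.W (normHom (heckeAlphaBar K (m * q) q) x) :
      LaurentSeries K) ∈ GR A' π' ∧
    qExpand k q (gres A' π' (coeffMap (algebraMap K K')
      (w.W (normHom (heckeAlphaBar K (m * q) q) x) : LaurentSeries K))) =
      gres A' π' (coeffMap (algebraMap K K') (w₂.W₂ x : LaurentSeries K)) ^ q := by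
  have h3 : qExpand K' q (coeffMap (algebraMap K K')
      (w.W (normHom (heckeAlphaBar K (m * q) q) x) : LaurentSeries K)) =
      ∏ i : Fin q, twist (D.ζ ^ (i : ℕ)) (coeffMap (algebraMap K K')
        (w₂.W₂ x : LaurentSeries K)) := by
    have h4 := qExpand_W_normAlong_alpha hq w' w₂' D.prim (H90.baseIncl K K' _ x)
    rw [baseIncl_normAlong, ← baseIncl_W hq w w', ← baseIncl_W₂ hq w w' w₂ w₂',
      H90.coe_baseIncl, H90.coe_baseIncl] at h4
    exact h4
  have hB : coeffMap (algebraMap K K')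
      (w.W (normHom (heckeAlphaBar K (m * q) q) x) : LaurentSeries K) ∈ Bdd A' :=
    coeff_mem_Bdd D (NeZero.ne _) _
  have h5 : qExpand K' q (coeffMap (algebraMap K K')
      (w.W (normHom (heckeAlphaBar K (m * q) q) x) : LaurentSeries K)) ∈ GR A' π' := by
    rw [h3]
    exact prod_mem fun i _ => (twist_D_mem D i h2).1
  refine ⟨(expand_mem_iff D.unif' q hB).1 h5, ?_⟩
  rw [← gres_expand' D.unif' q hB, h3,
    gres_prod Finset.univ (fun i : Fin q => twist (D.ζ ^ (i : ℕ)) (coeffMap (algebraMap K K')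
        (w₂.W₂ x : LaurentSeries K))) (fun i _ => (twist_D_mem D (i : ℕ) h2).1),
    Finset.prod_congr rfl fun (i : Fin q) _ => (twist_D_mem D (i : ℕ) h2).2, Finset.prod_const,
    Finset.card_univ, Fintype.card_fin]

include hq hL w₂ w' w₂' D in
/-- the trace `Tr_α` at the component `1` -/
theorem trace_alpha_one {x : FX K (m * q * q)}
    (h2 : coeffMap (algebraMap K K') (w₂.W₂ x : LaurentSeries K) ∈ GR A' π') :
    coeffMap (algebraMap K K') (w.W (H34.Two.traceAlong (heckeAlphaBar K (m * q) q) x) :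
      LaurentSeries K) ∈ GR A' π' := by
  have h3 : qExpand K' q (coeffMap (algebraMap K K')
      (w.W (H34.Two.traceAlong (heckeAlphaBar K (m * q) q) x) : LaurentSeries K)) =
      ∑ i : Fin q, twist (D.ζ ^ (i : ℕ)) (coeffMap (algebraMap K K')
        (w₂.W₂ x : LaurentSeries K)) := by
    have h4 := qExpand_W_traceAlong_alpha hq w₂' D.prim (H90.baseIncl K K' _ x)
    rw [baseIncl_traceAlong, ← baseIncl_W hq w w', ← baseIncl_W₂ hq w w' w₂ w₂',
      H90.coe_baseIncl, H90.coe_baseIncl] at h4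
    exact h4
  have hB : coeffMap (algebraMap K K')
      (w.W (H34.Two.traceAlong (heckeAlphaBar K (m * q) q) x) : LaurentSeries K) ∈ Bdd A' :=
    coeff_mem_Bdd D (NeZero.ne _) _
  rw [← expand_mem_iff D.unif' q hB, h3]
  exact sum_mem fun (i : Fin q) _ => (twist_D_mem D (i : ℕ) h2).1

end NT

end Fermat.Agent.H99

end
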