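import Fermat.Agent.H99Three6
import Fermat.Agent.H89Car2
import Fermat.Agent.H68TwoInst
import Fermat.Agent.H16Inst

/-!
# CARAYOL C4, part 7: the specification holds for helper68's `twoData`; noetherianity
-/

set_option autoImplicit false
set_option linter.unusedSectionVars false

noncomputable section

open ModularCurve Polynomial IntermediateField AlgebraicCurve Module Fermat.Agent.H60
  Fermat.Agent.H66 Fermat.Agent.H42

namespace Fermat.Agent.H99

section Spec

variable {K : Type*} [Field K] [Algebra ℚ K] [CharZero K] {c m q : ℕ} [NeZero m] [NeZero q]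
  [hq : Fact q.Prime]
variable {A : ValuationSubring K} {k : Type*} [Field k] [IsAlgClosed k] [CharP k q] {π : A →+* k}
variable (hc : c = 4 ∨ c = 9) (hcm : c ∣ m) (w : AL K m q) (hϖ : Unif A π (q : A))
variable (R : H83.ResData k (LaurentSeries k) q)

theorem coeffMap_Xc_int (S : Type*) [CommRing S] (c : ℕ) :
    coeffMap (Int.castRingHom S) (H1.Xc c ℤ) = H1.Xc c S :=
  H1.coeffMap_Xc c (Int.castRingHom S)

/-- **The specification holds for `twoData`.** -/
theorem twoSpec_twoData (ι : K →+* ℂ) (hπ : Function.Surjective π) (hqm : ¬ q ∣ m)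
    (hRC : ∀ x, x ∈ R.C ↔ x ∈ H18.Cm k m) (hRX : R.X = H1.Xc c k)
    (hRD : ∀ x, R.D x = H61.theta x / H61.theta (H1.Xc c k)) (hlift : H68.LiftK K m A π)
    (hRΦ : ∀ x, R.Φ x = qExpand k q x) :
    TwoSpec (H68.twoData hc hcm w hϖ R ι hπ hqm hRC hRX hRD hlift) w π (H1.Xc c ℤ) where
  hor := rfl
  V0 _ := Iff.rfl
  res0 x := H68.twoSys_res w hϖ 0 x
  W _ := rfl
  X := by
    rw [coeffMap_Xc_int]
    rfl
  WX := by
    rw [coeffMap_Xc_int]
    exact H68.W_XF hc hcm w
  der x := by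
    show (H61.theta (x : LaurentSeries K) / H61.theta (H1.Xc c K)) * H61.theta (H1.Xc c K) = _
    rw [div_mul_cancel₀ _ (H68.theta_Xc_ne_zero c K)]
  θX := by
    rw [coeffMap_Xc_int]
    exact H68.theta_Xc_ne_zero c k
  Φ := hRΦ

end Spec

variable {K K' k : Type*} [Field K] [Field K'] [Algebra K K'] [Field k]
  {A : ValuationSubring K} {π : A →+* k} {A' : ValuationSubring K'} {π' : A' →+* k} {q : ℕ}
variable [Algebra ℚ K] [Algebra ℚ K'] [CharZero K'] [hL : Fact (HasRoots K')]
variable {m : ℕ} [NeZero m] [NeZero q] (hq : q.Prime) (hqm : ¬ q ∣ m)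
variable {w : AL K m q} (w' : AL K' m q) (w₂ : AL2 K m q w) (w₂' : AL2 K' m q w')
variable (D : RamData A π A' π' q) (hG : D.Gal)
variable [CharP k q] [CharZero K]
variable {R : H83.ResData k (LaurentSeries k) q} {T : H83.TwoData R (FX K (m * q))}
  {X₀ : LaurentSeries ℤ} (hT : TwoSpec T w π X₀)

local notation "S" => threeSys hq hqm w' w₂ D



section Noeth

include hT

/-- the degeneracy data of the three components, in the form of helper16 -/
theorem preThree : H16.Ch.PreThree T (S)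
    (heckeAlphaBar K (m * q) q : FX K (m * q) →+* FX K (m * q * q))
    (heckeBetaBar K (m * q) q : FX K (m * q) →+* FX K (m * q * q)) where
  e_zero := rfl
  e_one := rfl
  e_two := rfl
  α_V0 := alpha_V0 hq hqm w' w₂ D hT
  α_V1 := alpha_V1 hq hqm w' w₂ D hT
  α_V2 := alpha_V2 hq hqm w' w₂ D hT
  α_res0 := alpha_res0 hq hqm w' w₂ D hT
  α_res1 := alpha_res1 hq hqm w' w₂ D hT
  α_res2 := alpha_res2 hq hqm w' w₂ D hT
  β_V0 := beta_V0 hq hqm w' w₂ D hT
  β_V1 := beta_V1 hq hqm w' w₂ D hT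
  β_V2 := beta_V2 hq hqm w' w₂ D hT
  β_res0 := beta_res0 hq hqm w' w₂ D hT
  β_res1 := beta_res1 hq hqm w' w₂ D hT
  β_res2 := beta_res2 hq hqm w' w₂ D hT
  w_res := res_wElt_one hq hqm w' w₂ D hT
  w_pow := (w_pow_aux hq hqm w' w₂ D hT).1
  w_pow_res := by
    show (S).res 1 (wElt T ^ (q - 1) / (q : FX K (m * q * q))) = _
    rw [threeSys_res, (w_pow_aux hq hqm w' w₂ D hT).2, res_der_WX hq D hT]

/-- **Noetherianity of the chart ring at level `m q²`.** -/
theorem isNoetherianRing_B [IsDiscreteValuationRing A] [IsAlgClosed k] {hϖ : Unif A π (q : A)}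
    (hTS : T.toCompSys = H68.twoSys w hϖ) (hC : ∀ x, x ∈ R.C ↔ x ∈ H18.Cm k m)
    (hφX : R.φ R.X = R.X) : IsNoetherianRing (S).B := by
  have : Fact q.Prime := ⟨hq⟩
  have hφ : ∀ x, R.φ x = coeffMap (frobenius k q) x := by
    intro x
    apply R.Φ.injective
    rw [← R.pow_q, hT.Φ, ← laurent_pow_char q x]
  have hhor : (S).hor = H36.chart K (H68.jF K (m * q * q)) := by
    ext x
    show x ∈ H68.hor K (m * q * q) ↔ _
    rw [H36.mem_chart_iff_adjoin]
    rfl
  exact (H16.Ch.B_eq_inst hqm hTS hC hφ hφX (threeSys_consts hq hqm w' w₂ D) rfl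
    (preThree hq hqm w' w₂ D hT) (H68.jF K (m * q * q)) (Or.inl rfl) hhor).2

end Noeth

end Fermat.Agent.H99

end
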