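import Fermat.Agent.H9Unit

/-!
# The cuspidal class on `X_0(p)`
-/

set_option autoImplicit false
set_option linter.unusedSectionVars false

noncomputable section

open ModularCurve Polynomial IntermediateField AlgebraicCurve
open Fermat.Agent.H61 Fermat.Agent.H28 Fermat.Agent.H66

namespace Fermat.Agent.H9

variable (K : Type*) [Field K] [IsAlgClosed K] (p : ℕ) [Fact p.Prime] (hp0 : (p : K) ≠ 0)

include hp0 in
theorem hasPrincipalDivisors : HasPrincipalDivisors K (modularFunctionFieldFullC K p) := by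
  have := funField_full K p hp0
  exact H18.hasPrincipalDivisors K _

/-- The cuspidal divisor `(0) - (∞)`. -/
def cuspDiv : Divisor K (modularFunctionFieldFullC K p) :=
  Finsupp.single (zeroPl K p hp0) 1 - Finsupp.single (infPl K p) 1

include hp0 in
theorem deg_pl (v : Place K (modularFunctionFieldFullC K p)) : v.deg = 1 := by
  have := funField_full K p hp0
  exact H94.deg_eq_one v

theorem cuspDiv_mem : cuspDiv K p hp0 ∈
    Divisor.degZero (K := K) (F := modularFunctionFieldFullC K p) := by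
  rw [Divisor.mem_degZero, cuspDiv, map_sub, Divisor.degree_single, Divisor.degree_single,
    deg_pl K p hp0, deg_pl K p hp0, sub_self]

/-- The cuspidal class `c = [(0) - (∞)]`. -/
def cuspClass : JZeroC K p := Pic0.mk ⟨cuspDiv K p hp0, cuspDiv_mem K p hp0⟩

theorem cuspDiv_zeroPl : cuspDiv K p hp0 (zeroPl K p hp0) = 1 := by
  rw [cuspDiv, Finsupp.sub_apply, Finsupp.single_eq_same,
    Finsupp.single_eq_of_ne (infPl_ne_zeroPl K p hp0).symm, sub_zero]

theorem cuspDiv_infPl : cuspDiv K p hp0 (infPl K p) = -1 := by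
  rw [cuspDiv, Finsupp.sub_apply, Finsupp.single_eq_same,
    Finsupp.single_eq_of_ne (infPl_ne_zeroPl K p hp0), zero_sub]

theorem cuspDiv_of_ne {v : Place K (modularFunctionFieldFullC K p)} (h1 : v ≠ zeroPl K p hp0)
    (h2 : v ≠ infPl K p) : cuspDiv K p hp0 v = 0 := by
  rw [cuspDiv, Finsupp.sub_apply, Finsupp.single_eq_of_ne h1, Finsupp.single_eq_of_ne h2,
    sub_zero]

/-- degree-zero divisors supported on the cusps are multiples of the cuspidal divisor. -/
theorem eq_smul_cuspDiv {D : Divisor K (modularFunctionFieldFullC K p)}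
    (hD : D ∈ Divisor.degZero (K := K) (F := modularFunctionFieldFullC K p))
    (hs : ∀ v, v ≠ zeroPl K p hp0 → v ≠ infPl K p → D v = 0) :
    D = -(D (infPl K p)) • cuspDiv K p hp0 := by
  have h1 : D = Finsupp.single (zeroPl K p hp0) (D (zeroPl K p hp0)) +
      Finsupp.single (infPl K p) (D (infPl K p)) := by
    ext v
    rw [Finsupp.add_apply]
    by_cases hv : v = zeroPl K p hp0
    · subst hv
      rw [Finsupp.single_eq_same, Finsupp.single_eq_of_ne (infPl_ne_zeroPl K p hp0).symm,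
        add_zero]
    · by_cases hv' : v = infPl K p
      · subst hv'
        rw [Finsupp.single_eq_same, Finsupp.single_eq_of_ne (infPl_ne_zeroPl K p hp0),
          zero_add]
      · rw [hs v hv hv', Finsupp.single_eq_of_ne hv, Finsupp.single_eq_of_ne hv', add_zero]
  have h2 : D (zeroPl K p hp0) = -D (infPl K p) := by
    rw [h1, Divisor.mem_degZero, map_add, Divisor.degree_single, Divisor.degree_single,
      deg_pl K p hp0, deg_pl K p hp0] at hD
    push_cast at hD
    linarith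
  ext v
  rw [Finsupp.smul_apply, smul_eq_mul]
  by_cases hv : v = zeroPl K p hp0
  · subst hv
    rw [cuspDiv_zeroPl, h2, mul_one]
  · by_cases hv' : v = infPl K p
    · subst hv'
      rw [cuspDiv_infPl]
      ring
    · rw [hs v hv hv', cuspDiv_of_ne K p hp0 hv hv', mul_zero]

theorem ord_j₁_nonneg {v : Place K (modularFunctionFieldFullC K p)} (h1 : v ≠ zeroPl K p hp0)
    (h2 : v ≠ infPl K p) : 0 ≤ v.ord (j₁ K p) := by
  by_contra h
  rw [not_le] at h
  rcases eq_cusp_of_ord_neg K p hp0 h with h3 | h3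
  · exact h2 h3
  · exact h1 h3

/-- The divisor of `Δ(pτ)/Δ(τ)` is `(p-1)((∞) - (0))`. -/
theorem ord_ratio (v : Place K (modularFunctionFieldFullC K p)) :
    v.ord (ratio K p hp0) = (-((p : ℤ) - 1) • cuspDiv K p hp0) v := by
  have := hasPrincipalDivisors K p hp0
  obtain ⟨D, hD, hdeg⟩ := HasPrincipalDivisors.exists_divisor (K := K) _ (ratio_ne_zero K p hp0)
  have h1 := eq_smul_cuspDiv K p hp0 hdeg fun v h1 h2 => by
    rw [hD v, ord_ratio_of_nonneg K p hp0 (ord_j₁_nonneg K p hp0 h1 h2)]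
  rw [hD, infPl_ord_ratio] at h1
  rw [← hD, h1]

/-- `(p-1) c = 0`. -/
theorem smul_cuspClass_eq_zero : (p - 1) • cuspClass K p hp0 = 0 := by
  have h1 : ((p : ℤ) - 1) • cuspClass K p hp0 = 0 := by
    have h2 : ((p : ℤ) - 1) • cuspClass K p hp0 =
        Pic0.mk (((p : ℤ) - 1) • ⟨cuspDiv K p hp0, cuspDiv_mem K p hp0⟩) := rfl
    rw [h2]
    refine (QuotientAddGroup.eq_zero_iff _).mpr ?_
    rw [AddSubgroup.mem_addSubgroupOf]
    refine ⟨(ratio K p hp0)⁻¹, inv_ne_zero (ratio_ne_zero K p hp0), fun v => ?_⟩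
    rw [v.ord_inv, ord_ratio, Finsupp.smul_apply]
    show ((p : ℤ) - 1) • cuspDiv K p hp0 v = _
    simp only [smul_eq_mul]
    ring
  have hp := (Fact.out : p.Prime).pos
  rw [← Nat.cast_smul_eq_nsmul ℤ, Nat.cast_sub hp, Nat.cast_one]
  exact h1

/-- If `m c = 0` then `Δ(pτ)/Δ(τ)` is a `(p-1)/gcd(m,p-1)`-th power. -/
theorem exists_pow_eq_ratio {m : ℕ} (hm : m ≠ 0) (hmc : m • cuspClass K p hp0 = 0) :
    ∃ h : modularFunctionFieldFullC K p, h ^ ((p - 1) / Nat.gcd m (p - 1)) = ratio K p hp0 := by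
  have := funField_full K p hp0
  have hp : p.Prime := Fact.out
  have h1 : m • cuspClass K p hp0 = Pic0.mk (m • ⟨cuspDiv K p hp0, cuspDiv_mem K p hp0⟩) := rfl
  rw [h1] at hmc
  have h2 := (QuotientAddGroup.eq_zero_iff _).mp hmc
  rw [AddSubgroup.mem_addSubgroupOf] at h2
  obtain ⟨g, hg0, hg⟩ := h2
  have hg' : ∀ v, v.ord g = m * cuspDiv K p hp0 v := by
    intro v
    rw [← hg v]
    show (m • cuspDiv K p hp0) v = _
    rw [Finsupp.smul_apply, nsmul_eq_mul]
  set d := Nat.gcd m (p - 1) with hd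
  have hdpos : 0 < d := Nat.gcd_pos_of_pos_left _ (Nat.pos_of_ne_zero hm)
  obtain ⟨m', hm'⟩ : d ∣ m := Nat.gcd_dvd_left _ _
  obtain ⟨k, hk⟩ : d ∣ p - 1 := Nat.gcd_dvd_right _ _
  have hkdiv : (p - 1) / d = k := by rw [hk]; exact Nat.mul_div_cancel_left k hdpos
  rw [hkdiv]
  have hcop : Nat.Coprime m' k := by
    have h3 : Nat.gcd m (p - 1) = d * Nat.gcd m' k := by
      conv_lhs => rw [hm', hk]
      exact Nat.gcd_mul_left d m' k
    have h4 : d * Nat.gcd m' k = d * 1 := by rw [← h3, mul_one]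
    exact Nat.eq_of_mul_eq_mul_left hdpos h4
  have hkpos : 0 < k := by
    rcases Nat.eq_zero_or_pos k with h | h
    · rw [h, mul_zero] at hk
      have := hp.two_le
      omega
    · exact h
  have hR0 := ratio_ne_zero K p hp0
  obtain ⟨c, hc⟩ := H18.exists_eq_algebraMap_of_forall_ord_eq_zero (K := K)
    (f := g ^ (k : ℤ) * ratio K p hp0 ^ (m' : ℤ)) (fun v => by
      rw [v.ord_mul (zpow_ne_zero _ hg0) (zpow_ne_zero _ hR0), v.ord_zpow, v.ord_zpow, hg',
        ord_ratio, Finsupp.smul_apply, smul_eq_mul]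
      have h5 : (p : ℤ) - 1 = d * k := by
        have : ((p - 1 : ℕ) : ℤ) = ((d * k : ℕ) : ℤ) := by rw [hk]
        rw [Nat.cast_sub hp.one_le] at this
        push_cast at this
        exact this
      rw [h5, hm']
      push_cast
      ring)
  have hc0 : c ≠ 0 := by
    rintro rfl
    rw [map_zero] at hc
    exact (mul_ne_zero (zpow_ne_zero _ hg0) (zpow_ne_zero _ hR0)) hc
  -- Bezout
  have hbez : (m' : ℤ) * Nat.gcdA m' k + k * Nat.gcdB m' k = 1 := by
    rw [← Nat.gcd_eq_gcd_ab, hcop.gcd_eq_one, Nat.cast_one]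
  set a := Nat.gcdA m' k
  set b := Nat.gcdB m' k
  obtain ⟨e, he⟩ := IsAlgClosed.exists_pow_nat_eq (c ^ a) hkpos
  refine ⟨algebraMap K _ e * g ^ (-a) * ratio K p hp0 ^ b, ?_⟩
  rw [mul_pow, mul_pow, ← map_pow, he, map_zpow₀, ← hc]
  have h6 : ratio K p hp0 = ratio K p hp0 ^ ((m' : ℤ) * a + k * b) := by rw [hbez, zpow_one]
  conv_rhs => rw [h6]
  rw [zpow_add₀ hR0, ← zpow_natCast (g ^ (-a)), ← zpow_natCast (ratio K p hp0 ^ b), ← zpow_mul,
    ← zpow_mul, mul_zpow, ← zpow_mul, ← zpow_mul]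
  have h7 : g ^ ((k : ℤ) * a) * g ^ (-a * (k : ℤ)) = 1 := by
    rw [← zpow_add₀ hg0]
    ring_nf
    exact zpow_zero g
  have h8 : b * (k : ℤ) = k * b := mul_comm _ _
  rw [h8]
  linear_combination (ratio K p hp0 ^ ((m' : ℤ) * a) * ratio K p hp0 ^ ((k : ℤ) * b)) * h7

end Fermat.Agent.H9
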