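import Fermat.Agent.H88Mod
import Fermat.Agent.H42Inputs
import Fermat.Agent.H67Deg

/-!
# MZ-J2: reduction of the Hecke norm of a function with reduction `1`
-/

set_option autoImplicit false
set_option linter.unusedSectionVars false
set_option linter.style.haveILetI false

noncomputable section

open AlgebraicCurve Polynomial IntermediateField ModularCurve Fermat.Agent.H40

namespace Fermat.Agent.H9

section Beta

variable {L : Type*} [Field L] [Algebra ℚ L] (A : ValuationSubring L) {k : Type*} [Field k]
  (π : A →+* k) (hπ : Function.Surjective π) [IsLocalHom π] (N q : ℕ) [NeZero N] [NeZero q]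

/-- `f(t) ↦ f(t^q)` is compatible with the Gauss reductions -/
theorem comp_gauss_beta (hdN : H42.DegLE L k N) (hdM : H42.DegLE L k (N * q))
    (z : (H42.modGauss A π N hπ hdN).B) : ∃ z' : (H42.modGauss A π (N * q) hπ hdM).B,
      (z' : laurentBaseChange L (modularFunctionFieldFull (N * q))) = heckeBetaBar L N q
        (z : laurentBaseChange L (modularFunctionFieldFull N)) ∧
      (((H42.modGauss A π (N * q) hπ hdM).ρ z' : modularFunctionFieldFullC k (N * q)) :
        LaurentSeries k) =
        qExpand k q (((H42.modGauss A π N hπ hdN).ρ z : modularFunctionFieldFullC k N) :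
          LaurentSeries k) := by
  obtain ⟨⟨g, hf'⟩, y, hyg⟩ := z
  obtain rfl : coeffMap A.subtype y = g := hyg
  have h1 : coeffMap A.subtype (qExpand A q y) =
      (heckeBetaBar L N q ⟨coeffMap A.subtype y, hf'⟩ : LaurentSeries L) :=
    H60.coeffMap_qExpand_H60 _ q y
  have hmem : coeffMap A.subtype (qExpand A q y) ∈
      laurentBaseChange L (modularFunctionFieldFull (N * q)) := by
    rw [h1]; exact (heckeBetaBar L N q ⟨coeffMap A.subtype y, hf'⟩).2
  refine ⟨⟨⟨coeffMap A.subtype (qExpand A q y), hmem⟩, qExpand A q y, rfl⟩, Subtype.ext h1, ?_⟩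
  have h2 := H42.coe_modGauss_ρ A π (N * q) hπ hdM (qExpand A q y) hmem
  have h3 := H42.coe_modGauss_ρ A π N hπ hdN y hf'
  refine h2.trans ?_
  rw [H60.coeffMap_qExpand_H60]
  exact congrArg (qExpand k q) h3.symm

/-- functions with reduction `1` -/
theorem beta_red_one (hdN : H42.DegLE L k N) (hdM : H42.DegLE L k (N * q))
    (f : (H42.modReductionData A π N hπ hdN).B)
    (hf1 : (H42.modReductionData A π N hπ hdN).ρ f = 1) :
      ∃ h : heckeBetaBar L N q (f : laurentBaseChange L (modularFunctionFieldFull N)) ∈
          (H42.modReductionData A π (N * q) hπ hdM).B,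
        (H42.modReductionData A π (N * q) hπ hdM).ρ ⟨_, h⟩ = 1 := by
  obtain ⟨f, y, z, hz, hf⟩ := f
  obtain ⟨y', hy', hρy⟩ := comp_gauss_beta A π hπ N q hdN hdM y
  obtain ⟨z', hz', hρz⟩ := comp_gauss_beta A π hπ N q hdN hdM z
  have h2 : (H42.modReductionData A π N hπ hdN).ρ ⟨f, y, z, hz, hf⟩ =
      (H42.modGauss A π N hπ hdN).ρ y / (H42.modGauss A π N hπ hdN).ρ z :=
    (H42.modGauss A π N hπ hdN).res_eq_div ⟨f, y, z, hz, hf⟩ hz hf
  have h3 : (H42.modGauss A π N hπ hdN).ρ y = (H42.modGauss A π N hπ hdN).ρ z := by
    rw [h2] at hf1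
    exact (div_eq_one_iff_eq hz).mp hf1
  have h4 : (H42.modGauss A π (N * q) hπ hdM).ρ y' = (H42.modGauss A π (N * q) hπ hdM).ρ z' := by
    apply Subtype.ext
    rw [hρy, hρz, h3]
  have hz0 : (H42.modGauss A π (N * q) hπ hdM).ρ z' ≠ 0 := by
    intro h0
    rw [h0] at hρz
    apply hz
    apply Subtype.ext
    apply qExpand_injective q
    rw [← hρz]
    exact (map_zero (qExpand k q)).symm
  have hf' : heckeBetaBar L N q f *
      (z' : laurentBaseChange L (modularFunctionFieldFull (N * q))) = y' := by
    rw [hz', hy', ← map_mul, hf]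
  refine ⟨⟨y', z', hz0, hf'⟩, ?_⟩
  have h1 : (H42.modReductionData A π (N * q) hπ hdM).ρ ⟨_, ⟨y', z', hz0, hf'⟩⟩ =
      (H42.modGauss A π (N * q) hπ hdM).ρ y' / (H42.modGauss A π (N * q) hπ hdM).ρ z' :=
    (H42.modGauss A π (N * q) hπ hdM).res_eq_div ⟨_, ⟨y', z', hz0, hf'⟩⟩ hz0 hf'
  rw [h1, h4, div_self hz0]

end Beta

section Norm

variable {L : Type*} [Field L] [Algebra ℚ L] (A : ValuationSubring L) {k : Type*} [Field k]
  (π : A →+* k) (hπ : Function.Surjective π) [IsLocalHom π] (N q : ℕ) [NeZero N] [NeZero q]

include hπ in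
/-- the norm of a function with reduction `1` has reduction `1` -/
theorem norm_red_one [IsAlgClosed L] [IsAlgClosed k] (hM : ((N * q : ℕ) : k) ≠ 0)
    (hdN : H42.DegLE L k N) (hdM : H42.DegLE L k (N * q))
    (f : (H42.modReductionData A π (N * q) hπ hdM).B)
    (hf1 : (H42.modReductionData A π (N * q) hπ hdM).ρ f = 1) :
      ∃ h : H60.normAlong (heckeAlphaBar L N q)
          (f : laurentBaseChange L (modularFunctionFieldFull (N * q))) ∈
          (H42.modReductionData A π N hπ hdN).B,
        (H42.modReductionData A π N hπ hdN).ρ ⟨_, h⟩ = 1 := by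
  have hN : (N : k) ≠ 0 := by
    rintro h0
    exact hM (by rw [Nat.cast_mul, h0, zero_mul])
  have hM0 : N * q ≠ 0 := mul_ne_zero (NeZero.ne N) (NeZero.ne q)
  have hN0 : N ≠ 0 := NeZero.ne N
  have : CharZero L := algebraRat.charZero L
  have i1 := H42.funField_left (L := L) (k := k) N hdN
  have i2 := H42.funField_left (L := L) (k := k) (N * q) hdM
  have i3 := H42.funField_right (L := L) (k := k) N hdN
  have i4 := H42.funField_right (L := L) (k := k) (N * q) hdM
  have hEle : modularFunctionFieldFullC k N ≤ modularFunctionFieldFullC k (N * q) :=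
    H66.full_mono k hN0 hM0 (dvd_mul_right N q)
  have hFle : laurentBaseChange L (modularFunctionFieldFull N) ≤
      laurentBaseChange L (modularFunctionFieldFull (N * q)) := by
    rw [H42.laurentBaseChange_full, H42.laurentBaseChange_full]
    exact H66.full_mono L hN0 hM0 (dvd_mul_right N q)
  have hjN : jqModC L ∈ laurentBaseChange L (modularFunctionFieldFull N) := by
    rw [H42.laurentBaseChange_full]; exact jqModC_mem_full L N
  have hjM : jqModC L ∈ laurentBaseChange L (modularFunctionFieldFull (N * q)) := by
    rw [H42.laurentBaseChange_full]; exact jqModC_mem_full L (N * q)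
  have d1 := H88.finrank_j L N _ (H42.laurentBaseChange_full L N) hjN (Nat.cast_ne_zero.mpr hN0)
  have d2 := H88.finrank_j L (N * q) _ (H42.laurentBaseChange_full L (N * q)) hjM
    (Nat.cast_ne_zero.mpr hM0)
  have d3 := H88.finrank_j k N _ rfl (jqModC_mem_full k N) hN
  have d4 := H88.finrank_j k (N * q) _ rfl (jqModC_mem_full k (N * q)) hM
  obtain ⟨x, hx1, hx2⟩ := H88.exists_j A π hπ hdN hjN
  let aE : Algebra (modularFunctionFieldFullC k N) (modularFunctionFieldFullC k (N * q)) :=
    (inclusion hEle).toAlgebra
  let aF : Algebra (laurentBaseChange L (modularFunctionFieldFull N))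
      (laurentBaseChange L (modularFunctionFieldFull (N * q))) := (inclusion hFle).toAlgebra
  have tE : IsScalarTower k (modularFunctionFieldFullC k N) (modularFunctionFieldFullC k (N * q)) :=
    IsScalarTower.of_algebraMap_eq fun c => ((inclusion hEle).commutes c).symm
  have tF : IsScalarTower L (laurentBaseChange L (modularFunctionFieldFull N))
      (laurentBaseChange L (modularFunctionFieldFull (N * q))) :=
    IsScalarTower.of_algebraMap_eq fun c => ((inclusion hFle).commutes c).symm
  have e1 := H88.finrank_adjoin_algebraMap (K := L)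
    (F' := laurentBaseChange L (modularFunctionFieldFull (N * q)))
    (x : laurentBaseChange L (modularFunctionFieldFull N))
  have e2 := H88.finrank_adjoin_algebraMap (K := k)
    (F' := modularFunctionFieldFullC k (N * q))
    ((H42.modReductionData A π N hπ hdN).ρ x)
  rw [hx1] at e1
  rw [hx2] at e2
  have e1' : dedekindPsi (N * q) = dedekindPsi N * Module.finrank
      (laurentBaseChange L (modularFunctionFieldFull N))
      (laurentBaseChange L (modularFunctionFieldFull (N * q))) := by
    rw [← d1.1, ← d2.1]; exact e1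
  have e2' : dedekindPsi (N * q) = dedekindPsi N * Module.finrank
      (modularFunctionFieldFullC k N) (modularFunctionFieldFullC k (N * q)) := by
    rw [← d3.1, ← d4.1]; exact e2
  have hd : Module.finrank (laurentBaseChange L (modularFunctionFieldFull N))
      (laurentBaseChange L (modularFunctionFieldFull (N * q))) = Module.finrank
      (modularFunctionFieldFullC k N) (modularFunctionFieldFullC k (N * q)) :=
    Nat.eq_of_mul_eq_mul_left (Nat.pos_of_ne_zero d1.2) (e1'.symm.trans e2')
  have f1 : Module.Finite (laurentBaseChange L (modularFunctionFieldFull N))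
      (laurentBaseChange L (modularFunctionFieldFull (N * q))) := by
    apply Module.finite_of_finrank_pos
    apply Nat.pos_of_ne_zero
    intro h0
    rw [h0, mul_zero] at e1'
    exact d2.2 e1'
  have f2 : Module.Finite (modularFunctionFieldFullC k N)
      (modularFunctionFieldFullC k (N * q)) := by
    apply Module.finite_of_finrank_pos
    apply Nat.pos_of_ne_zero
    intro h0
    rw [h0, mul_zero] at e2'
    exact d2.2 e2'
  have C : H88.RedCompat (H42.modReductionData A π N hπ hdN)
      (H42.modReductionData A π (N * q) hπ hdM) :=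
    { mem := fun f hf => (H88.comp_red A π hπ hdN hdM hFle hEle ⟨f, hf⟩).1
      comm := fun f _ => (H88.comp_red A π hπ hdN hdM hFle hEle f).2 }
  obtain ⟨⟨b, hb1, hb2⟩, -⟩ := C.norm_trace hd f
  rw [hf1, map_one] at hb2
  have hb3 : (b : laurentBaseChange L (modularFunctionFieldFull N)) =
      H60.normAlong (heckeAlphaBar L N q)
        (f : laurentBaseChange L (modularFunctionFieldFull (N * q))) := hb1
  rw [← hb3]
  exact ⟨b.2, hb2⟩

end Norm

end Fermat.Agent.H9
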