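import Fermat.Agent.H9HeckeCusp

/-!
# `T_ℓ c = (1 + ℓ) c` and `U_p c = c` for the cuspidal class of `X_0(p)`
-/

set_option autoImplicit false
set_option linter.unusedSectionVars false
set_option linter.style.haveILetI false

noncomputable section

open ModularCurve Polynomial IntermediateField AlgebraicCurve
open Fermat.Agent.H61 Fermat.Agent.H28 Fermat.Agent.H66

namespace Fermat.Agent.H9

section Degrees

variable (L : Type*) [Field L] [Algebra ℚ L] [IsAlgClosed L]

theorem finrank_alpha (N p : ℕ) [NeZero N] [Fact p.Prime] :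
    finrankAlong L (heckeAlphaBar L N p)
      = relfinrank (modularFunctionFieldFullC L N) (modularFunctionFieldFullC L (N * p)) := by
  have hp : p.Prime := Fact.out
  have hle : modularFunctionFieldFullC L N ≤ modularFunctionFieldFullC L (N * p) :=
    full_mono L (NeZero.ne N) (mul_ne_zero (NeZero.ne N) hp.ne_zero) (Dvd.intro p rfl)
  rw [relfinrank_eq_finrank_of_le hle]
  letI := algebraAlong (heckeAlphaBar L N p)
  refine Algebra.finrank_eq_of_equiv_equiv
    (IntermediateField.equivOfEq (H67.laurentBaseChange_full L N)).toRingEquiv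
    (IntermediateField.equivOfEq (H67.laurentBaseChange_full L (N * p))).toRingEquiv ?_
  ext x
  rfl

theorem psi_mul_finrank_alpha [CharZero L] (N p : ℕ) [NeZero N] [Fact p.Prime] :
    dedekindPsi N * finrankAlong L (heckeAlphaBar L N p) = dedekindPsi (N * p) := by
  have hp : p.Prime := Fact.out
  have hp0 : (p : L) ≠ 0 := by exact_mod_cast hp.ne_zero
  rw [finrank_alpha]
  have hle : modularFunctionFieldFullC L N ≤ modularFunctionFieldFullC L (N * p) :=
    full_mono L (NeZero.ne N) (mul_ne_zero (NeZero.ne N) hp.ne_zero) (Dvd.intro p rfl)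
  have h2 := relfinrank_mul_relfinrank (adjoin_j_le_full L N) hle
  rw [relfinrank_full L N (by exact_mod_cast NeZero.ne N)] at h2
  rw [h2]
  haveI : NeZero (N * p) := ⟨mul_ne_zero (NeZero.ne N) hp.ne_zero⟩
  exact relfinrank_full L (N * p) (by exact_mod_cast NeZero.ne (N * p))

theorem finrank_beta_of_ne [CharZero L] (p ℓ : ℕ) [Fact p.Prime] [Fact ℓ.Prime] (hne : ℓ ≠ p) :
    finrankAlong L (heckeBetaBar L p ℓ) = ℓ + 1 := by
  have hp : p.Prime := Fact.out
  have h := psi_mul_finrank_beta L p ℓ
  rw [psi_mul_of_ne hp Fact.out hne, dedekindPsi_prime hp] at h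
  exact Nat.eq_of_mul_eq_mul_left (by omega) h

theorem finrank_beta_self [CharZero L] (p : ℕ) [Fact p.Prime] :
    finrankAlong L (heckeBetaBar L p p) = p := by
  have hp : p.Prime := Fact.out
  have h := psi_mul_finrank_beta L p p
  rw [psi_sq hp, dedekindPsi_prime hp, mul_comm p (p + 1)] at h
  exact Nat.eq_of_mul_eq_mul_left (by omega) h

theorem finrank_alpha_self [CharZero L] (p : ℕ) [Fact p.Prime] :
    finrankAlong L (heckeAlphaBar L p p) = p := by
  have hp : p.Prime := Fact.out
  have h := psi_mul_finrank_alpha L p p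
  rw [psi_sq hp, dedekindPsi_prime hp, mul_comm p (p + 1)] at h
  exact Nat.eq_of_mul_eq_mul_left (by omega) h

end Degrees

section Act

variable {L : Type*} [Field L] [Algebra ℚ L] [IsAlgClosed L] [CharZero L]
  {p : ℕ} [Fact p.Prime] {i z : Place L (laurentBaseChange L (modularFunctionFieldFull p))}
  (S : CuspSpec L p (laurentBaseChange L (modularFunctionFieldFull p)) i z)
  (ℓ : ℕ) [Fact ℓ.Prime]

include S

/-- the action of a Hecke operator on the cuspidal class from the action on divisors -/
theorem heckeAlong_cls {a : ℤ}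
    (h : ∀ (hα : HeckeAlphaBarIntegral L p ℓ) (hβ : HeckeBetaBarIntegral L p ℓ)
      [HasPrincipalDivisors L (laurentBaseChange L (modularFunctionFieldFull (p * ℓ)))]
      (_ : FundamentalIdentityAlong L (heckeBetaBar L p ℓ) hβ)
      (_ : FundamentalIdentityAlong L (heckeAlphaBar L p ℓ) hα),
      Divisor.correspondence (heckeBetaBar L p ℓ) (heckeAlphaBar L p ℓ) hβ hα
        (Finsupp.single z 1 - Finsupp.single i 1) =
        a • (Finsupp.single z 1 - Finsupp.single i 1)) :
    heckeOperatorAlong L p ℓ S.cls = a • S.cls := by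
  have hp : p.Prime := Fact.out
  have hℓ : ℓ.Prime := Fact.out
  haveI : NeZero (p * ℓ) := ⟨mul_ne_zero hp.ne_zero hℓ.ne_zero⟩
  haveI := H67.funField_of_degreeFact (degreeFact L) (p * ℓ)
  haveI := H67.funField_of_degreeFact (degreeFact L) p
  obtain ⟨hα, hβ, hP, hfin, hFI, hN⟩ := H67.heckeInputsAlong_of_degreeFact (degreeFact L) p ℓ
  have hFI' : FundamentalIdentityAlong L (heckeAlphaBar L p ℓ) hα := by
    letI := algebraAlong (heckeAlphaBar L p ℓ)
    haveI := isScalarTower_along (heckeAlphaBar L p ℓ)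
    haveI : Module.Finite (laurentBaseChange L (modularFunctionFieldFull p))
      (laurentBaseChange L (modularFunctionFieldFull (p * ℓ))) := hfin
    exact H67.fundamentalIdentity
  rw [heckeOperatorAlong_eq hα hβ hFI hfin hN]
  have h1 : a • S.cls = Pic0.mk (a • ⟨Finsupp.single z 1 - Finsupp.single i 1, S.mem_degZero⟩) :=
    rfl
  rw [h1, heckePic0Bar, S.cls_def, Pic0.correspondence_mk]
  congr 1
  apply Subtype.ext
  exact h hα hβ hFI hFI'

theorem heckeAlong_cls_of_ne (hne : ℓ ≠ p) :
    heckeOperatorAlong L p ℓ S.cls = (1 + (ℓ : ℤ)) • S.cls := by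
  have hp : p.Prime := Fact.out
  have hℓ : ℓ.Prime := Fact.out
  haveI : NeZero (p * ℓ) := ⟨mul_ne_zero hp.ne_zero hℓ.ne_zero⟩
  haveI := H67.funField_of_degreeFact (degreeFact L) (p * ℓ)
  refine heckeAlong_cls S ℓ (a := 1 + (ℓ : ℤ)) ?_
  intro hα hβ _ hFI _
  rw [map_sub, correspondence_single_of_forall _ _ hβ hα hFI (H94.deg_eq_one) z (S.deg_eq z)
    (fun W hW => restrict_alpha_of_beta_zero S ℓ hα hβ W hne hW),
    correspondence_single_of_forall _ _ hβ hα hFI (H94.deg_eq_one) i (S.deg_eq i)
    (fun W hW => restrict_alpha_of_beta_inf S ℓ hα hβ W hne hW),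
    finrank_beta_of_ne L p ℓ hne, smul_sub, Finsupp.smul_single, Finsupp.smul_single,
    smul_eq_mul, mul_one]
  push_cast
  rw [add_comm (ℓ : ℤ) 1]

end Act

section Up

variable {L : Type*} [Field L] [Algebra ℚ L] [IsAlgClosed L] [CharZero L]
  {p : ℕ} [Fact p.Prime] {i z : Place L (laurentBaseChange L (modularFunctionFieldFull p))}
  (S : CuspSpec L p (laurentBaseChange L (modularFunctionFieldFull p)) i z)
  (hα : HeckeAlphaBarIntegral L p p) (hβ : HeckeBetaBarIntegral L p p)

theorem exists_inf_place (K : Type*) [Field K] [IsAlgClosed K] (N : ℕ) [NeZero N]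
    (F : IntermediateField K (LaurentSeries K)) (hF : F = modularFunctionFieldFullC K N) :
    ∃ W : Place K F, ∀ f : F, W.ord f = (f : LaurentSeries K).order := by
  subst hF
  exact ⟨infPl K N, infPl_ord K N⟩

theorem alpha_Jₚ_eq : heckeAlphaBar L p p ⟨J L p, Jₚ_mem_F S⟩ =
    heckeBetaBar L p p ⟨J L 1, J₁_mem_F S⟩ := by
  apply Subtype.ext
  rw [coe_heckeAlphaBar, coe_heckeBetaBar]
  show J L p = qExpand L p (J L 1)
  rw [qExpand_J, mul_one]

variable (W : Place L (laurentBaseChange L (modularFunctionFieldFull (p * p))))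

include S in
theorem restrict_alpha_cases (h : W.restrictAlong (heckeBetaBar L p p) hβ = z) :
    W.restrictAlong (heckeAlphaBar L p p) hα = i ∨
      W.restrictAlong (heckeAlphaBar L p p) hα = z := by
  have hp : p.Prime := Fact.out
  apply restrict_cases' S
  rw [alpha_Jₚ_eq S]
  obtain ⟨b1, b2⟩ := ord_of_restrict_eq_zero S _ hβ W h
  have hpos := ramificationIndexAlong_pos _ hβ W
  have := Nat.mul_pos hp.pos hpos
  rw [b1]
  zify at this
  linarith

include S in
theorem restrict_beta_cases (h : W.restrictAlong (heckeAlphaBar L p p) hα = z) :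
    W.restrictAlong (heckeBetaBar L p p) hβ = i ∨
      W.restrictAlong (heckeBetaBar L p p) hβ = z := by
  apply restrict_cases S
  rw [← alpha_Jₚ_eq S]
  obtain ⟨b1, b2⟩ := ord_of_restrict_eq_zero S _ hα W h
  have hpos := ramificationIndexAlong_pos _ hα W
  rw [b2]
  omega

include S in
/-- the place `∞` of `F_{p²}` -/
theorem inf_restrict (hW : ∀ f : laurentBaseChange L (modularFunctionFieldFull (p * p)),
      W.ord f = (f : LaurentSeries L).order) :
    W.restrictAlong (heckeAlphaBar L p p) hα = i ∧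
      W.restrictAlong (heckeBetaBar L p p) hβ = i ∧
      W.ramificationIndexAlong (heckeBetaBar L p p) = p := by
  have hp : p.Prime := Fact.out
  have h1 : W.ord (heckeAlphaBar L p p ⟨J L 1, J₁_mem_F S⟩) = -1 := by
    rw [hW, coe_heckeAlphaBar]
    exact_mod_cast order_J L 1
  have h2 : W.ord (heckeAlphaBar L p p ⟨J L p, Jₚ_mem_F S⟩) = -p := by
    rw [hW, coe_heckeAlphaBar]
    exact order_J L p
  have h3 : W.ord (heckeBetaBar L p p ⟨J L 1, J₁_mem_F S⟩) = -p := by
    rw [← alpha_Jₚ_eq S]
    exact h2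
  have h4 : W.ord (heckeBetaBar L p p ⟨J L p, Jₚ_mem_F S⟩) = -(p * p) := by
    rw [hW, coe_heckeBetaBar]
    show (qExpand L p (J L p)).order = _
    rw [qExpand_J]
    exact_mod_cast order_J L (p * p)
  have hp2 : (2 : ℤ) ≤ p := by exact_mod_cast hp.two_le
  refine ⟨?_, ?_⟩
  · rcases restrict_cases S _ hα W (by rw [h1]; norm_num) with h | h
    · exact h
    · exfalso
      obtain ⟨a1, a2⟩ := ord_of_restrict_eq_zero S _ hα W h
      rw [h1] at a1
      rw [h2] at a2
      nlinarith
  · rcases restrict_cases S _ hβ W (by rw [h3]; linarith) with h | h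
    · refine ⟨h, ?_⟩
      obtain ⟨a1, a2⟩ := ord_of_restrict_eq_inf S _ hβ W h
      rw [h3] at a1
      zify
      linarith
    · exfalso
      obtain ⟨a1, a2⟩ := ord_of_restrict_eq_zero S _ hβ W h
      rw [h3] at a1
      rw [h4] at a2
      nlinarith

variable [HasPrincipalDivisors L (laurentBaseChange L (modularFunctionFieldFull (p * p)))]

include S in
theorem up_divisor (hFI : FundamentalIdentityAlong L (heckeBetaBar L p p) hβ)
    (hFI' : FundamentalIdentityAlong L (heckeAlphaBar L p p) hα)
    (hdeg : ∀ w : Place L (laurentBaseChange L (modularFunctionFieldFull (p * p))), w.deg = 1) :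
    Divisor.correspondence (heckeBetaBar L p p) (heckeAlphaBar L p p) hβ hα
        (Finsupp.single i 1) = Finsupp.single i (p : ℤ) ∧
      Divisor.correspondence (heckeBetaBar L p p) (heckeAlphaBar L p p) hβ hα
        (Finsupp.single z 1) = Finsupp.single z 1 + Finsupp.single i ((p : ℤ) - 1) := by
  classical
  have hp : p.Prime := Fact.out
  haveI : NeZero (p * p) := ⟨mul_ne_zero hp.ne_zero hp.ne_zero⟩
  obtain ⟨Wi, hWi⟩ := exists_inf_place L (p * p) _ (H67.laurentBaseChange_full L (p * p))
  obtain ⟨c1, c2, c3⟩ := inf_restrict S hα hβ Wi hWi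
  have hsum := sum_ramificationIndexAlong _ hβ hFI hdeg i (S.deg_eq i)
  have hsum' := sum_ramificationIndexAlong _ hβ hFI hdeg z (S.deg_eq z)
  have hsumα := sum_ramificationIndexAlong _ hα hFI' hdeg z (S.deg_eq z)
  rw [finrank_beta_self] at hsum hsum'
  rw [finrank_alpha_self] at hsumα
  have hmemi : Wi ∈ Place.fiberAlong (heckeBetaBar L p p) hβ i := Place.mem_fiberAlong.mpr c2
  have hfib : ∀ W : Place L (laurentBaseChange L (modularFunctionFieldFull (p * p))), W.restrictAlong (heckeBetaBar L p p) hβ = i → W = Wi := by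
    intro W hW
    by_contra hne
    have hmem : W ∈ (Place.fiberAlong (heckeBetaBar L p p) hβ i).erase Wi :=
      Finset.mem_erase.mpr ⟨hne, Place.mem_fiberAlong.mpr hW⟩
    rw [← Finset.add_sum_erase _ _ hmemi, c3] at hsum
    have h0 : ∑ W ∈ (Place.fiberAlong (heckeBetaBar L p p) hβ i).erase Wi,
        (W.ramificationIndexAlong (heckeBetaBar L p p) : ℤ) = 0 := by linarith
    rw [Finset.sum_eq_zero_iff_of_nonneg (fun _ _ => by positivity)] at h0
    have h5 := h0 W hmem
    have h6 := ramificationIndexAlong_pos _ hβ W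
    omega
  constructor
  · rw [correspondence_single_of_forall _ _ hβ hα hFI hdeg i (S.deg_eq i), finrank_beta_self]
    intro W hW
    rw [hfib W hW, c1]
  -- places over `0`
  have hz : ∀ W : Place L (laurentBaseChange L (modularFunctionFieldFull (p * p))), W.restrictAlong (heckeAlphaBar L p p) hα = z →
      W.restrictAlong (heckeBetaBar L p p) hβ = z ∧
        W.ramificationIndexAlong (heckeAlphaBar L p p) =
          p * W.ramificationIndexAlong (heckeBetaBar L p p) := by
    intro W hW
    have h1 : W.restrictAlong (heckeBetaBar L p p) hβ = z := by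
      rcases restrict_beta_cases S hα hβ W hW with h | h
      · exfalso
        rw [hfib W h, c1] at hW
        exact S.ne hW
      · exact h
    refine ⟨h1, ?_⟩
    obtain ⟨a1, a2⟩ := ord_of_restrict_eq_zero S _ hα W hW
    obtain ⟨b1, b2⟩ := ord_of_restrict_eq_zero S _ hβ W h1
    rw [alpha_Jₚ_eq S, b1] at a2
    zify
    linarith
  have hex : ∃ W0, W0 ∈ Place.fiberAlong (heckeAlphaBar L p p) hα z := by
    by_contra hcon
    push Not at hcon
    rw [Finset.eq_empty_of_forall_notMem hcon, Finset.sum_empty] at hsumα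
    exact hp.ne_zero (by exact_mod_cast hsumα.symm)
  obtain ⟨W0, hW0⟩ := hex
  have hW0' := Place.mem_fiberAlong.mp hW0
  obtain ⟨d1, d2⟩ := hz W0 hW0'
  have hbpos := ramificationIndexAlong_pos _ hβ W0
  have hle : (W0.ramificationIndexAlong (heckeAlphaBar L p p) : ℤ) ≤ p := by
    rw [← hsumα]
    exact Finset.single_le_sum (f := fun W : Place L _ =>
      (W.ramificationIndexAlong (heckeAlphaBar L p p) : ℤ)) (fun _ _ => by positivity) hW0
  have he : W0.ramificationIndexAlong (heckeBetaBar L p p) = 1 := by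
    rw [d2] at hle
    push_cast at hle
    have hp2 : (0 : ℤ) < p := by exact_mod_cast hp.pos
    have h7 : (W0.ramificationIndexAlong (heckeBetaBar L p p) : ℤ) ≤ 1 := by
      by_contra hcon
      rw [not_le] at hcon
      nlinarith
    omega
  have huniq : ∀ W : Place L (laurentBaseChange L (modularFunctionFieldFull (p * p))), W.restrictAlong (heckeAlphaBar L p p) hα = z → W = W0 := by
    intro W hW
    by_contra hne
    have hmem : W ∈ (Place.fiberAlong (heckeAlphaBar L p p) hα z).erase W0 :=
      Finset.mem_erase.mpr ⟨hne, Place.mem_fiberAlong.mpr hW⟩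
    rw [← Finset.add_sum_erase _ _ hW0, d2, he, mul_one] at hsumα
    have h0 : ∑ W ∈ (Place.fiberAlong (heckeAlphaBar L p p) hα z).erase W0,
        (W.ramificationIndexAlong (heckeAlphaBar L p p) : ℤ) = 0 := by linarith
    rw [Finset.sum_eq_zero_iff_of_nonneg (fun _ _ => by positivity)] at h0
    have h5 := h0 W hmem
    have h6 := ramificationIndexAlong_pos _ hα W
    omega
  have hW0β : W0 ∈ Place.fiberAlong (heckeBetaBar L p p) hβ z := Place.mem_fiberAlong.mpr d1
  rw [correspondence_single _ _ hβ hα hdeg, ← Finset.add_sum_erase _ _ hW0β, hW0', he,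
    Nat.cast_one]
  congr 1
  rw [← Finset.add_sum_erase _ _ hW0β, he, Nat.cast_one] at hsum'
  rw [← (by linarith : ∑ W ∈ (Place.fiberAlong (heckeBetaBar L p p) hβ z).erase W0,
        (W.ramificationIndexAlong (heckeBetaBar L p p) : ℤ) = (p : ℤ) - 1),
    Finsupp.single_finsetSum]
  refine Finset.sum_congr rfl fun W hW => ?_
  obtain ⟨hWne, hWmem⟩ := Finset.mem_erase.mp hW
  rcases restrict_alpha_cases S hα hβ W (Place.mem_fiberAlong.mp hWmem) with h | h
  · rw [h]
  · exact absurd (huniq W h) hWne

end Up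

section Up2

variable {L : Type*} [Field L] [Algebra ℚ L] [IsAlgClosed L] [CharZero L]
  {p : ℕ} [Fact p.Prime] {i z : Place L (laurentBaseChange L (modularFunctionFieldFull p))}
  (S : CuspSpec L p (laurentBaseChange L (modularFunctionFieldFull p)) i z)

include S in
theorem heckeAlong_cls_self : heckeOperatorAlong L p p S.cls = (1 : ℤ) • S.cls := by
  have hp : p.Prime := Fact.out
  haveI : NeZero (p * p) := ⟨mul_ne_zero hp.ne_zero hp.ne_zero⟩
  haveI := H67.funField_of_degreeFact (degreeFact L) (p * p)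
  refine heckeAlong_cls S p (a := 1) ?_
  intro hα hβ _ hFI hFI'
  obtain ⟨h1, h2⟩ := up_divisor S hα hβ hFI hFI' (H94.deg_eq_one)
  rw [map_sub, h1, h2, one_smul, add_sub_assoc, ← Finsupp.single_sub]
  rw [show (p : ℤ) - 1 - p = -1 by ring, Finsupp.single_neg, ← sub_eq_add_neg]

end Up2

end Fermat.Agent.H9
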