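import Fermat.Agent.H9Spec
import Fermat.Prelude.Def_ModularCurve_HeckeModule

/-!
# Hecke operators on the cuspidal class of `X_0(p)`: `T_ℓ c = (1+ℓ) c`, `U_p c = c`
-/

set_option autoImplicit false
set_option linter.unusedSectionVars false
set_option linter.style.haveILetI false

noncomputable section

open ModularCurve Polynomial IntermediateField AlgebraicCurve
open Fermat.Agent.H61 Fermat.Agent.H28 Fermat.Agent.H66

namespace Fermat.Agent.H9

section Restrict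

variable {K : Type*} [Field K] {p : ℕ} [Fact p.Prime]
  {F : IntermediateField K (LaurentSeries K)} {i z : Place K F} (S : CuspSpec K p F i z)
  {E : Type*} [Field E] [Algebra K E]

include S in
theorem J₁_mem_F : J K 1 ∈ F := S.eq_full ▸ J_one_mem

include S in
theorem Jₚ_mem_F : J K p ∈ F := S.eq_full ▸ J_p_mem

variable (ψ : F →ₐ[K] E) (hψ : ψ.toRingHom.IsIntegral) (W : Place K E)

theorem ord_of_restrict_eq_inf (h : W.restrictAlong ψ hψ = i) :
    W.ord (ψ ⟨J K 1, J₁_mem_F S⟩) = -(W.ramificationIndexAlong ψ : ℤ) ∧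
      W.ord (ψ ⟨J K p, Jₚ_mem_F S⟩) = -(p * W.ramificationIndexAlong ψ : ℤ) := by
  rw [W.ord_restrictAlong ψ hψ, W.ord_restrictAlong ψ hψ, h, S.inf_J₁ _ rfl, S.inf_Jₚ _ rfl]
  constructor <;> ring

theorem ord_of_restrict_eq_zero (h : W.restrictAlong ψ hψ = z) :
    W.ord (ψ ⟨J K 1, J₁_mem_F S⟩) = -(p * W.ramificationIndexAlong ψ : ℤ) ∧
      W.ord (ψ ⟨J K p, Jₚ_mem_F S⟩) = -(W.ramificationIndexAlong ψ : ℤ) := by
  rw [W.ord_restrictAlong ψ hψ, W.ord_restrictAlong ψ hψ, h, S.zero_J₁ _ rfl, S.zero_Jₚ _ rfl]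
  constructor <;> ring

theorem restrict_cases (h : W.ord (ψ ⟨J K 1, J₁_mem_F S⟩) < 0) :
    W.restrictAlong ψ hψ = i ∨ W.restrictAlong ψ hψ = z := by
  apply S.cusp (W.restrictAlong ψ hψ) ⟨J K 1, J₁_mem_F S⟩ rfl
  rw [W.ord_restrictAlong ψ hψ] at h
  by_contra hcon
  rw [not_lt] at hcon
  exact absurd h (not_lt.mpr (mul_nonneg (by positivity) hcon))

theorem restrict_cases' (h : W.ord (ψ ⟨J K p, Jₚ_mem_F S⟩) < 0) :
    W.restrictAlong ψ hψ = i ∨ W.restrictAlong ψ hψ = z := by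
  apply S.cusp' (W.restrictAlong ψ hψ) ⟨J K p, Jₚ_mem_F S⟩ rfl
  rw [W.ord_restrictAlong ψ hψ] at h
  by_contra hcon
  rw [not_lt] at hcon
  exact absurd h (not_lt.mpr (mul_nonneg (by positivity) hcon))

end Restrict

section Incl

variable (L : Type*) [Field L] [Algebra ℚ L]

theorem full_le_bar (N M : ℕ) (h : N ∣ M) (hM : M ≠ 0) :
    modularFunctionFieldFullC L N ≤ laurentBaseChange L (modularFunctionFieldFull M) := by
  have hN : N ≠ 0 := fun h0 => hM (by rw [h0] at h; exact Nat.eq_zero_of_zero_dvd h)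
  rw [H67.laurentBaseChange_full]
  exact full_mono L hN hM h

/-- The inclusion of function fields `F_N → F_M` for `N ∣ M`. -/
def inclE (N M : ℕ) (h : N ∣ M) (hM : M ≠ 0) :
    modularFunctionFieldFullC L N →ₐ[L] laurentBaseChange L (modularFunctionFieldFull M) :=
  IntermediateField.inclusion (full_le_bar L N M h hM)

theorem coe_inclE (N M : ℕ) (h : N ∣ M) (hM : M ≠ 0) (x : modularFunctionFieldFullC L N) :
    (inclE L N M h hM x : LaurentSeries L) = x :=
  IntermediateField.coe_inclusion (full_le_bar L N M h hM) x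

/-- `f(q) ↦ f(q^d)` on subfields. -/
theorem map_le_bar (N d M : ℕ) [NeZero d] [NeZero N] (h : N * d ∣ M) (hM : M ≠ 0) :
    (modularFunctionFieldFullC L N).map (qExpandAlgHomC L d) ≤
      laurentBaseChange L (modularFunctionFieldFull M) := by
  rw [H67.laurentBaseChange_full]
  exact (full_degeneracyC_map_le L N d).trans
    (full_mono L (mul_ne_zero (NeZero.ne N) (NeZero.ne d)) hM h)

/-- The embedding `f(q) ↦ f(q^d)` of function fields `F_N → F_M` for `N d ∣ M`. -/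
def inclQ (N d M : ℕ) [NeZero d] [NeZero N] (h : N * d ∣ M) (hM : M ≠ 0) :
    modularFunctionFieldFullC L N →ₐ[L] laurentBaseChange L (modularFunctionFieldFull M) :=
  (IntermediateField.inclusion (map_le_bar L N d M h hM)).comp
    ((modularFunctionFieldFullC L N).equivMap (qExpandAlgHomC L d)).toAlgHom

theorem coe_inclQ (N d M : ℕ) [NeZero d] [NeZero N] (h : N * d ∣ M) (hM : M ≠ 0)
    (x : modularFunctionFieldFullC L N) :
    (inclQ L N d M h hM x : LaurentSeries L) = qExpand L d x := by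
  rw [inclQ, AlgHom.comp_apply, IntermediateField.coe_inclusion]
  rfl
end Incl

section Psi

variable (L : Type*) [Field L] [IsAlgClosed L] [CharZero L]

theorem psi_mul_of_ne {p ℓ : ℕ} (hp : p.Prime) (hℓ : ℓ.Prime) (hne : ℓ ≠ p) :
    dedekindPsi (p * ℓ) = (p + 1) * (ℓ + 1) := by
  have : Fact p.Prime := ⟨hp⟩
  have hp0 : (p : AlgebraicClosure ℚ) ≠ 0 := by exact_mod_cast hp.ne_zero
  have hℓ0 : (ℓ : AlgebraicClosure ℚ) ≠ 0 := by exact_mod_cast hℓ.ne_zero
  have : NeZero ℓ := ⟨hℓ.ne_zero⟩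
  have : NeZero (p * ℓ) := ⟨mul_ne_zero hp.ne_zero hℓ.ne_zero⟩
  have h1 := relfinrank_step (K := AlgebraicClosure ℚ) (hasRoots_of_isAlgClosed _) (p := p)
    (a := 0) (m := ℓ) (fun h => hne ((Nat.prime_dvd_prime_iff_eq hp hℓ).mp h).symm) hℓ0 hp0 (by
      rw [pow_zero, one_mul, relfinrank_full _ ℓ hℓ0, dedekindPsi_prime hℓ]
      omega)
  rw [pow_zero, one_mul, zero_add, pow_one, relfinrank_full _ ℓ hℓ0,
    relfinrank_full _ (p * ℓ) (by push_cast; exact mul_ne_zero hp0 hℓ0), if_pos rfl,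
    dedekindPsi_prime hℓ] at h1
  exact h1

theorem psi_sq {p : ℕ} (hp : p.Prime) : dedekindPsi (p * p) = p * (p + 1) := by
  have : Fact p.Prime := ⟨hp⟩
  have hp0 : (p : AlgebraicClosure ℚ) ≠ 0 := by exact_mod_cast hp.ne_zero
  have : NeZero p := ⟨hp.ne_zero⟩
  have : NeZero (p * p) := ⟨mul_ne_zero hp.ne_zero hp.ne_zero⟩
  have h1 := relfinrank_step (K := AlgebraicClosure ℚ) (hasRoots_of_isAlgClosed _) (p := p)
    (a := 1) (m := 1) (fun h => hp.one_lt.ne' (Nat.dvd_one.1 h)) (by simp) hp0 (by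
      rw [pow_one, mul_one, relfinrank_full _ p hp0, dedekindPsi_prime hp]
      omega)
  rw [pow_one, mul_one, mul_one, relfinrank_full _ p hp0, pow_succ, pow_one,
    relfinrank_full _ (p * p) (by push_cast; exact mul_ne_zero hp0 hp0), if_neg one_ne_zero,
    dedekindPsi_prime hp] at h1
  exact h1

end Psi

theorem arith_cusps {p ℓ e f : ℕ} (hp : p.Prime) (hℓ : ℓ.Prime) (hne : ℓ ≠ p) (he : 0 < e)
    (hf : 0 < f) (h2 : e = ℓ * (p * f) ∨ p * f = ℓ * e) (h5 : p * e = ℓ * f ∨ f = ℓ * (p * e)) :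
    False := by
  have hp1 := hp.one_lt
  have hℓ1 := hℓ.one_lt
  rcases h2 with h2 | h2 <;> rcases h5 with h5 | h5
  · have h : (p * p) * (ℓ * f) = 1 * (ℓ * f) := by
      calc (p * p) * (ℓ * f) = p * (ℓ * (p * f)) := by ring
        _ = p * e := by rw [← h2]
        _ = 1 * (ℓ * f) := by rw [h5, one_mul]
    have := Nat.eq_of_mul_eq_mul_right (by positivity) h
    nlinarith
  · have h : (ℓ * p * (ℓ * p)) * f = 1 * f := by
      calc (ℓ * p * (ℓ * p)) * f = ℓ * (p * (ℓ * (p * f))) := by ring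
        _ = ℓ * (p * e) := by rw [← h2]
        _ = 1 * f := by rw [← h5, one_mul]
    have := Nat.eq_of_mul_eq_mul_right hf h
    have h7 : 1 < ℓ * p := Nat.one_lt_mul_iff.mpr ⟨by omega, by omega, Or.inl hℓ1⟩
    nlinarith
  · have h : (p * p) * f = (ℓ * ℓ) * f := by
      calc (p * p) * f = p * (p * f) := by ring
        _ = ℓ * (p * e) := by rw [h2]; ring
        _ = (ℓ * ℓ) * f := by rw [h5]; ring
    have := Nat.eq_of_mul_eq_mul_right hf h
    exact hne (Nat.mul_self_inj.mp this).symm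
  · have h : (p * p) * (ℓ * e) = 1 * (ℓ * e) := by
      calc (p * p) * (ℓ * e) = p * (ℓ * (p * e)) := by ring
        _ = p * f := by rw [← h5]
        _ = 1 * (ℓ * e) := by rw [h2, one_mul]
    have := Nat.eq_of_mul_eq_mul_right (by positivity) h
    nlinarith

section Good

variable {L : Type*} [Field L] [Algebra ℚ L] [IsAlgClosed L] [CharZero L]
  {p : ℕ} [Fact p.Prime] {i z : Place L (laurentBaseChange L (modularFunctionFieldFull p))}
  (S : CuspSpec L p (laurentBaseChange L (modularFunctionFieldFull p)) i z)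
  (ℓ : ℕ) [Fact ℓ.Prime]
  (hα : HeckeAlphaBarIntegral L p ℓ) (hβ : HeckeBetaBarIntegral L p ℓ)
  (W : Place L (laurentBaseChange L (modularFunctionFieldFull (p * ℓ))))

/-- The four orders at a place of `F_{pℓ}`. -/
theorem ord_four (hneg : W.ord (heckeBetaBar L p ℓ ⟨J L 1, J₁_mem_F S⟩) < 0) :
    W.ord (heckeAlphaBar L p ℓ ⟨J L 1, J₁_mem_F S⟩) < 0 ∧
    (W.ord (heckeBetaBar L p ℓ ⟨J L 1, J₁_mem_F S⟩) =
        ℓ * W.ord (heckeAlphaBar L p ℓ ⟨J L 1, J₁_mem_F S⟩) ∨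
      W.ord (heckeAlphaBar L p ℓ ⟨J L 1, J₁_mem_F S⟩) =
        ℓ * W.ord (heckeBetaBar L p ℓ ⟨J L 1, J₁_mem_F S⟩)) ∧
    (W.ord (heckeAlphaBar L p ℓ ⟨J L p, Jₚ_mem_F S⟩) < 0 →
      (W.ord (heckeBetaBar L p ℓ ⟨J L p, Jₚ_mem_F S⟩) =
          ℓ * W.ord (heckeAlphaBar L p ℓ ⟨J L p, Jₚ_mem_F S⟩) ∨
        W.ord (heckeAlphaBar L p ℓ ⟨J L p, Jₚ_mem_F S⟩) =
          ℓ * W.ord (heckeBetaBar L p ℓ ⟨J L p, Jₚ_mem_F S⟩))) := by
  have hp : p.Prime := Fact.out
  have hℓ : ℓ.Prime := Fact.out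
  have hℓ0 : (ℓ : L) ≠ 0 := by exact_mod_cast hℓ.ne_zero
  have hM : p * ℓ ≠ 0 := mul_ne_zero hp.ne_zero hℓ.ne_zero
  haveI : NeZero (p * ℓ) := ⟨hM⟩
  haveI := H67.funField_of_degreeFact (degreeFact L) (p * ℓ)
  have e1 : heckeAlphaBar L p ℓ ⟨J L 1, J₁_mem_F S⟩ =
      inclE L ℓ (p * ℓ) (Dvd.intro_left p rfl) hM (j₁ L ℓ) := by
    apply Subtype.ext
    rw [coe_heckeAlphaBar, coe_inclE]
    rfl
  have e2 : heckeBetaBar L p ℓ ⟨J L 1, J₁_mem_F S⟩ =
      inclE L ℓ (p * ℓ) (Dvd.intro_left p rfl) hM (jₚ L ℓ) := by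
    apply Subtype.ext
    rw [coe_heckeBetaBar, coe_inclE]
    show qExpand L ℓ (J L 1) = J L ℓ
    rw [qExpand_J, mul_one]
  have e3 : heckeAlphaBar L p ℓ ⟨J L p, Jₚ_mem_F S⟩ =
      inclQ L ℓ p (p * ℓ) (by rw [mul_comm]) hM (j₁ L ℓ) := by
    apply Subtype.ext
    rw [coe_heckeAlphaBar, coe_inclQ]
    show J L p = qExpand L p (J L 1)
    rw [qExpand_J, mul_one]
  have e4 : heckeBetaBar L p ℓ ⟨J L p, Jₚ_mem_F S⟩ =
      inclQ L ℓ p (p * ℓ) (by rw [mul_comm]) hM (jₚ L ℓ) := by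
    apply Subtype.ext
    rw [coe_heckeBetaBar, coe_inclQ]
    show qExpand L ℓ (J L p) = qExpand L p (J L ℓ)
    rw [qExpand_J, qExpand_J, mul_comm]
  rw [e2] at hneg ⊢
  rw [e1, e3, e4]
  have h1 := ord_neg_of_ord_jₚ_neg L ℓ hℓ0 _ W hneg
  exact ⟨h1, ord_ratio_cases L ℓ hℓ0 _ W h1, fun h => ord_ratio_cases L ℓ hℓ0 _ W h⟩

include S in
theorem restrict_alpha_of_beta_inf (hne : ℓ ≠ p)
    (h : W.restrictAlong (heckeBetaBar L p ℓ) hβ = i) :
    W.restrictAlong (heckeAlphaBar L p ℓ) hα = i := by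
  have hp : p.Prime := Fact.out
  have hℓ : ℓ.Prime := Fact.out
  obtain ⟨b1, b2⟩ := ord_of_restrict_eq_inf S _ hβ W h
  have hpos := ramificationIndexAlong_pos _ hβ W
  obtain ⟨h1, h2, h3⟩ := ord_four S ℓ W (by rw [b1]; omega)
  rcases restrict_cases S _ hα W h1 with h4 | h4
  · exact h4
  exfalso
  obtain ⟨a1, a2⟩ := ord_of_restrict_eq_zero S _ hα W h4
  have hpos' := ramificationIndexAlong_pos _ hα W
  have h5 := h3 (by rw [a2]; omega)
  rw [a1, b1] at h2
  rw [a2, b2] at h5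
  refine arith_cusps (e := W.ramificationIndexAlong (heckeBetaBar L p ℓ))
    (f := W.ramificationIndexAlong (heckeAlphaBar L p ℓ)) hp hℓ hne hpos hpos' ?_ ?_
  · rcases h2 with h2 | h2
    · left; zify; linarith
    · right; zify; linarith
  · rcases h5 with h5 | h5
    · left; zify; linarith
    · right; zify; linarith

include S in
theorem restrict_alpha_of_beta_zero (hne : ℓ ≠ p)
    (h : W.restrictAlong (heckeBetaBar L p ℓ) hβ = z) :
    W.restrictAlong (heckeAlphaBar L p ℓ) hα = z := by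
  have hp : p.Prime := Fact.out
  have hℓ : ℓ.Prime := Fact.out
  obtain ⟨b1, b2⟩ := ord_of_restrict_eq_zero S _ hβ W h
  have hpos := ramificationIndexAlong_pos _ hβ W
  have hppos := hp.pos
  obtain ⟨h1, h2, h3⟩ := ord_four S ℓ W (by rw [b1]; have := Nat.mul_pos hppos hpos; zify at this; linarith)
  rcases restrict_cases S _ hα W h1 with h4 | h4
  swap
  · exact h4
  exfalso
  obtain ⟨a1, a2⟩ := ord_of_restrict_eq_inf S _ hα W h4
  have hpos' := ramificationIndexAlong_pos _ hα W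
  have h5 := h3 (by rw [a2]; have := Nat.mul_pos hppos hpos'; zify at this; linarith)
  rw [a1, b1] at h2
  rw [a2, b2] at h5
  refine arith_cusps (e := W.ramificationIndexAlong (heckeBetaBar L p ℓ))
    (f := W.ramificationIndexAlong (heckeAlphaBar L p ℓ)) hp hℓ hne hpos hpos' ?_ ?_
  · rcases h5 with h5 | h5
    · left; zify; linarith
    · right; zify; linarith
  · rcases h2 with h2 | h2
    · left; zify; linarith
    · right; zify; linarith

end Good

end Fermat.Agent.H9
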