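import Fermat.Agent.H85Fit

/-!
# MZ-J9, algebra: primary parts of Hecke modules and characteristic polynomials
-/

set_option autoImplicit false
set_option linter.unusedSectionVars false
set_option linter.style.haveILetI false

noncomputable section

open Polynomial

namespace Fermat.Agent.H9

section Part

variable {R : Type*} [CommRing R] {F : Type*} [Field F] {V W : Type*} [AddCommGroup V] [Module F V]
  [AddCommGroup W] [Module F W]

/-- the `P`-primary part of a module given by a ring homomorphism -/
def part (ρ : R →+* Module.End F V) (P : Ideal R) : Submodule F V where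
  carrier := {x | ∃ n : ℕ, ∀ t ∈ P ^ n, ρ t x = 0}
  zero_mem' := ⟨0, fun t _ => map_zero _⟩
  add_mem' := by
    rintro x y ⟨n, hn⟩ ⟨m, hm⟩
    refine ⟨n + m, fun t ht => ?_⟩
    rw [map_add, hn t (Ideal.pow_le_pow_right (by omega) ht),
      hm t (Ideal.pow_le_pow_right (by omega) ht), add_zero]
  smul_mem' := by
    rintro c x ⟨n, hn⟩
    exact ⟨n, fun t ht => by rw [map_smul, hn t ht, smul_zero]⟩

theorem mem_part {ρ : R →+* Module.End F V} {P : Ideal R} {x : V} :
    x ∈ part ρ P ↔ ∃ n : ℕ, ∀ t ∈ P ^ n, ρ t x = 0 := Iff.rfl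

/-- the dimension of the image part from a projector -/
theorem finrank_part_of_proj [FiniteDimensional F V] (ρ : R →+* Module.End F V) (P : Ideal R)
    (e : R) (h1 : ∀ x, ρ e x ∈ part ρ P) (h2 : ∀ x ∈ part ρ P, ρ e x = x) :
    Module.finrank F (part ρ P) = (ρ (1 - e)).charpoly.natTrailingDegree := by
  rw [← LinearMap.finrank_maxGenEigenspace_zero_eq]
  have hidem : ∀ x, ρ (1 - e) (ρ (1 - e) x) = ρ (1 - e) x := by
    intro x
    have h3 : ρ e (ρ e x) = ρ e x := h2 _ (h1 x)
    simp only [map_sub, map_one, LinearMap.sub_apply, Module.End.one_apply, h3]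
    abel
  have hpow : ∀ (n : ℕ) (x : V), ((ρ (1 - e)) ^ (n + 1)) x = ρ (1 - e) x := by
    intro n x
    induction n with
    | zero => rw [zero_add, pow_one]
    | succ n ih => rw [pow_succ', Module.End.mul_apply, ih, hidem]
  have heq : part ρ P = (ρ (1 - e)).maxGenEigenspace 0 := by
    ext x
    rw [Module.End.mem_maxGenEigenspace]
    constructor
    · intro hx
      refine ⟨1, ?_⟩
      rw [zero_smul, sub_zero, pow_one, map_sub, map_one, LinearMap.sub_apply,
        Module.End.one_apply, h2 x hx, sub_self]
    · rintro ⟨n, hn⟩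
      rw [zero_smul, sub_zero] at hn
      have h3 : ρ (1 - e) x = 0 := by
        rcases n with _ | n
        · rw [pow_zero, Module.End.one_apply] at hn
          rw [hn, map_zero]
        · rwa [hpow] at hn
      rw [map_sub, map_one, LinearMap.sub_apply, Module.End.one_apply, sub_eq_zero] at h3
      rw [h3]
      exact h1 x
  rw [heq]

theorem natTrailingDegree_pow' (p : F[X]) (m : ℕ) :
    (p ^ m).natTrailingDegree = m * p.natTrailingDegree := by
  rcases eq_or_ne p 0 with rfl | hp
  · rcases m with _ | m <;> simp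
  · induction m with
    | zero => simp
    | succ m ih => rw [pow_succ, natTrailingDegree_mul (pow_ne_zero _ hp) hp, ih]; ring

/-- If the characteristic polynomials on `V` are the `m`-th powers of those on `W`, then the
dimensions of the `P`-primary parts are related by the factor `m`. -/
theorem finrank_part_eq_mul [Finite V] [Finite W] (m : ℕ)
    (ρ : R →+* Module.End F V) (σ : R →+* Module.End F W) (P : Ideal R)
    (h : ∀ a : R, (ρ a).charpoly = (σ a).charpoly ^ m) :
    Module.finrank F (part ρ P) = m * Module.finrank F (part σ P) := by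
  haveI : FiniteDimensional F V := Module.Finite.of_finite
  haveI : FiniteDimensional F W := Module.Finite.of_finite
  letI mV : Module R V := Module.compHom V ρ
  letI mW : Module R W := Module.compHom W σ
  obtain ⟨e, he1, he2⟩ := H85.exists_fitting (M := V × W) P
  have hV : ∀ (t : R) (x : V), t • ((x, 0) : V × W) = (ρ t x, 0) := fun t x =>
    Prod.ext rfl (smul_zero t)
  have hW : ∀ (t : R) (x : W), t • ((0, x) : V × W) = (0, σ t x) := fun t x =>
    Prod.ext (smul_zero t) rfl
  have hV1 : ∀ x, ρ e x ∈ part ρ P := by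
    intro x
    obtain ⟨n, hn⟩ := he1 (x, 0)
    refine ⟨n, fun t ht => ?_⟩
    have := hn t ht
    rw [hV, hV] at this
    exact congrArg Prod.fst this
  have hW1 : ∀ x, σ e x ∈ part σ P := by
    intro x
    obtain ⟨n, hn⟩ := he1 (0, x)
    refine ⟨n, fun t ht => ?_⟩
    have := hn t ht
    rw [hW, hW] at this
    exact congrArg Prod.snd this
  have hV2 : ∀ x ∈ part ρ P, ρ e x = x := by
    rintro x ⟨n, hn⟩
    have := he2 (x, 0) ⟨n, fun t ht => by rw [hV, hn t ht]; rfl⟩
    rw [hV] at this
    exact congrArg Prod.fst this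
  have hW2 : ∀ x ∈ part σ P, σ e x = x := by
    rintro x ⟨n, hn⟩
    have := he2 (0, x) ⟨n, fun t ht => by rw [hW, hn t ht]; rfl⟩
    rw [hW] at this
    exact congrArg Prod.snd this
  rw [finrank_part_of_proj ρ P e hV1 hV2, finrank_part_of_proj σ P e hW1 hW2, h]
  exact natTrailingDegree_pow' _ _

end Part

end Fermat.Agent.H9
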