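import Fermat.Agent.H9S2

/-!
# MZ-J9: the dimension of the Eisenstein part of mod `r` cusp forms is independent of the field
-/

set_option autoImplicit false
set_option linter.unusedSectionVars false
set_option linter.style.haveILetI false

noncomputable section

open CongruenceSubgroup ModularFormClass
open Fermat.Agent.H15 (Tq S2 TEis EisPart)

namespace Fermat.Agent.H9

variable {N : ℕ} [NeZero N] {r : ℕ} [Fact r.Prime] {k : Type} [Field k] [CharP k r]

variable (r k) in
/-- the inclusion of power series over the prime field -/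
def inc : PowerSeries (ZMod r) →+* PowerSeries k := PowerSeries.map (ZMod.castHom (dvd_refl r) k)

theorem coeff_inc (f : PowerSeries (ZMod r)) (n : ℕ) :
    PowerSeries.coeff n (inc r k f) = ZMod.castHom (dvd_refl r) k (PowerSeries.coeff n f) := by
  rw [inc, PowerSeries.coeff_map]

theorem inc_redZ (G : PowerSeries ℤ) : inc r k (redZ (ZMod r) G) = redZ k G := by
  ext n
  show PowerSeries.coeff n (inc r k (PowerSeries.map (Int.castRingHom _) G)) =
    PowerSeries.coeff n (PowerSeries.map (Int.castRingHom k) G)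
  rw [coeff_inc, PowerSeries.coeff_map, PowerSeries.coeff_map, eq_intCast, eq_intCast, map_intCast]

theorem inc_smul (a : ZMod r) (f : PowerSeries (ZMod r)) :
    inc r k (a • f) = ZMod.castHom (dvd_refl r) k a • inc r k f := by
  ext n
  simp only [coeff_inc, PowerSeries.coeff_smul, smul_eq_mul, map_mul]

/-- functionals -/
abbrev Fun (r : ℕ) (k : Type) [Field k] : Type := k →+ ZMod r

/-- apply an additive functional coefficientwise -/
def lam (l : Fun r k) : PowerSeries k →+ PowerSeries (ZMod r) where
  toFun f := PowerSeries.mk fun n => l (PowerSeries.coeff n f)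
  map_zero' := by ext n; simp
  map_add' f g := by ext n; simp

theorem coeff_lam (l : Fun r k) (f : PowerSeries k) (n : ℕ) :
    PowerSeries.coeff n (lam l f) = l (PowerSeries.coeff n f) := by
  show PowerSeries.coeff n (PowerSeries.mk fun n => l (PowerSeries.coeff n f)) = _
  rw [PowerSeries.coeff_mk]

theorem map_cast_mul (l : Fun r k) (a : ZMod r) (x : k) :
    l (ZMod.castHom (dvd_refl r) k a * x) = a * l x := by
  obtain ⟨m, rfl⟩ := ZMod.natCast_zmod_surjective a
  rw [map_natCast, ← nsmul_eq_mul, map_nsmul, nsmul_eq_mul]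

/-- scaling a functional -/
def mulFun (l : Fun r k) (c : k) : Fun r k := l.comp (AddMonoidHom.mulLeft c)

theorem lam_smul (l : Fun r k) (c : k) (f : PowerSeries k) :
    lam l (c • f) = lam (mulFun l c) f := by
  ext n
  rw [coeff_lam, coeff_lam, PowerSeries.coeff_smul]
  rfl

theorem lam_inc (l : Fun r k) (f : PowerSeries (ZMod r)) : lam l (inc r k f) = l 1 • f := by
  ext n
  rw [coeff_lam, coeff_inc, PowerSeries.coeff_smul, smul_eq_mul]
  have := map_cast_mul l (PowerSeries.coeff n f) 1
  rw [mul_one] at this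
  rw [this, mul_comm]

theorem lam_Tq (l : Fun r k) (q : ℕ) (f : PowerSeries k) :
    lam l (Tq k q f) = Tq (ZMod r) q (lam l f) := by
  ext n
  rw [coeff_lam, coeff_Tq, coeff_Tq, coeff_lam, coeff_lam, map_add]
  congr 1
  split_ifs
  · have := map_cast_mul l (q : ZMod r) (PowerSeries.coeff (n / q) f)
    rwa [map_natCast] at this
  · rw [map_zero]

theorem lam_TEis (l : Fun r k) (q : ℕ) (f : PowerSeries k) :
    lam l (TEis k q f) = TEis (ZMod r) q (lam l f) := by
  rw [TEis_apply, TEis_apply, map_sub, lam_Tq]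
  congr 1
  ext n
  rw [coeff_lam, PowerSeries.coeff_smul, PowerSeries.coeff_smul, coeff_lam, smul_eq_mul,
    smul_eq_mul]
  have := map_cast_mul l (1 + (q : ZMod r)) (PowerSeries.coeff n f)
  rwa [map_add, map_one, map_natCast] at this

theorem lam_prod (l : Fun r k) (L : List ℕ) (f : PowerSeries k) :
    lam l ((L.map (TEis k)).prod f) = (L.map (TEis (ZMod r))).prod (lam l f) := by
  induction L with
  | nil => rfl
  | cons a L ih =>
    rw [List.map_cons, List.prod_cons, Module.End.mul_apply, lam_TEis, ih, List.map_cons,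
      List.prod_cons, Module.End.mul_apply]

theorem inc_Tq (q : ℕ) (f : PowerSeries (ZMod r)) :
    inc r k (Tq (ZMod r) q f) = Tq k q (inc r k f) := by
  ext n
  rw [coeff_inc, coeff_Tq, coeff_Tq, coeff_inc, coeff_inc, map_add]
  congr 1
  split_ifs
  · rw [map_mul, map_natCast]
  · rw [map_zero]

theorem inc_TEis (q : ℕ) (f : PowerSeries (ZMod r)) :
    inc r k (TEis (ZMod r) q f) = TEis k q (inc r k f) := by
  rw [TEis_apply, TEis_apply, map_sub, inc_Tq, inc_smul, map_add, map_one, map_natCast]

theorem inc_prod (L : List ℕ) (f : PowerSeries (ZMod r)) :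
    inc r k ((L.map (TEis (ZMod r))).prod f) = (L.map (TEis k)).prod (inc r k f) := by
  induction L with
  | nil => rfl
  | cons a L ih =>
    rw [List.map_cons, List.prod_cons, Module.End.mul_apply, inc_TEis, ih, List.map_cons,
      List.prod_cons, Module.End.mul_apply]

theorem inc_mem_S2 {f : PowerSeries (ZMod r)} (hf : f ∈ S2 N (ZMod r)) : inc r k f ∈ S2 N k := by
  rw [S2_eq] at hf ⊢
  induction hf using Submodule.span_induction with
  | mem x hx =>
    obtain ⟨G, hG, rfl⟩ := hx
    rw [inc_redZ]
    exact Submodule.subset_span ⟨_, hG, rfl⟩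
  | zero => rw [map_zero]; exact zero_mem _
  | add x y _ _ ihx ihy => rw [map_add]; exact add_mem ihx ihy
  | smul a x _ ih => rw [inc_smul]; exact Submodule.smul_mem _ _ ih

theorem lam_mem_S2 {f : PowerSeries k} (hf : f ∈ S2 N k) (l : Fun r k) :
    lam l f ∈ S2 N (ZMod r) := by
  rw [S2_eq] at hf
  induction hf using Submodule.span_induction generalizing l with
  | mem x hx =>
    obtain ⟨G, hG, rfl⟩ := hx
    rw [← inc_redZ (r := r), lam_inc]
    refine Submodule.smul_mem _ _ ?_
    rw [S2_eq]
    exact Submodule.subset_span ⟨_, hG, rfl⟩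
  | zero => rw [map_zero]; exact zero_mem _
  | add x y _ _ ihx ihy => rw [map_add]; exact add_mem (ihx l) (ihy l)
  | smul a x _ ih => rw [lam_smul]; exact ih _

theorem inc_mem_EisPart {f : PowerSeries (ZMod r)} (hf : f ∈ EisPart N (ZMod r)) :
    inc r k f ∈ EisPart N k := by
  obtain ⟨h1, n, hn⟩ := hf
  exact ⟨inc_mem_S2 h1, n, fun l hl hp => by rw [← inc_prod, hn l hl hp, map_zero]⟩

theorem lam_mem_EisPart {f : PowerSeries k} (hf : f ∈ EisPart N k) (l : Fun r k) :
    lam l f ∈ EisPart N (ZMod r) := by
  obtain ⟨h1, n, hn⟩ := hf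
  exact ⟨lam_mem_S2 h1 l, n, fun L hl hp => by rw [← lam_prod, hn L hl hp, map_zero]⟩

theorem eq_zero_of_forall_fun (x : k) (h : ∀ l : Fun r k, l x = 0) : x = 0 := by
  letI := ZMod.algebra k r
  rw [← Module.forall_dual_apply_eq_zero_iff (ZMod r)]
  exact fun l => h l.toAddMonoidHom

theorem eq_zero_of_forall_lam (f : PowerSeries k) (h : ∀ l : Fun r k, lam l f = 0) : f = 0 := by
  ext n
  rw [map_zero]
  refine eq_zero_of_forall_fun (r := r) _ fun l => ?_
  rw [← coeff_lam, h, map_zero]

theorem span_inc (V : Submodule (ZMod r) (PowerSeries (ZMod r))) {f : PowerSeries k}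
    (hf : f ∈ Submodule.span k (inc r k '' (V : Set (PowerSeries (ZMod r))))) (l : Fun r k) :
    lam l f ∈ V := by
  induction hf using Submodule.span_induction generalizing l with
  | mem x hx =>
    obtain ⟨G, hG, rfl⟩ := hx
    rw [lam_inc]
    exact Submodule.smul_mem _ _ hG
  | zero => rw [map_zero]; exact zero_mem _
  | add x y _ _ ihx ihy => rw [map_add]; exact add_mem (ihx l) (ihy l)
  | smul a x _ ih => rw [lam_smul]; exact ih _

theorem S2_eq_span_inc : S2 N k = Submodule.span k (inc r k '' (S2 N (ZMod r) : Set _)) := by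
  apply le_antisymm
  · rw [S2_eq, Submodule.span_le]
    rintro _ ⟨G, hG, rfl⟩
    refine Submodule.subset_span ⟨redZ (ZMod r) G, ?_, inc_redZ G⟩
    rw [S2_eq]
    exact Submodule.subset_span ⟨G, hG, rfl⟩
  · rw [Submodule.span_le]
    rintro _ ⟨G, hG, rfl⟩
    exact inc_mem_S2 hG

theorem EisPart_eq_span_inc :
    EisPart N k = Submodule.span k (inc r k '' (EisPart N (ZMod r) : Set _)) := by
  apply le_antisymm
  · obtain ⟨C, hC⟩ := Submodule.exists_isCompl (EisPart N (ZMod r))
    intro y hy
    have hle : EisPart N (ZMod r) ≤ S2 N (ZMod r) := EisPart_le_S2 N (ZMod r)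
    have hsup : S2 N (ZMod r) = EisPart N (ZMod r) ⊔ (C ⊓ S2 N (ZMod r)) := by
      rw [← sup_inf_assoc_of_le C hle, hC.sup_eq_top, top_inf_eq]
    have h1 : y ∈ Submodule.span k (inc r k '' (EisPart N (ZMod r) : Set _)) ⊔
        Submodule.span k (inc r k '' ((C ⊓ S2 N (ZMod r) : Submodule _ _) : Set _)) := by
      have hyS : y ∈ S2 N k := hy.1
      rw [S2_eq_span_inc (r := r)] at hyS
      refine Submodule.span_le.mpr ?_ hyS
      rintro _ ⟨G, hG, rfl⟩
      have hG' : G ∈ EisPart N (ZMod r) ⊔ (C ⊓ S2 N (ZMod r)) := hsup ▸ hG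
      obtain ⟨a, ha, b, hb, rfl⟩ := Submodule.mem_sup.mp hG'
      rw [map_add]
      exact Submodule.add_mem_sup (Submodule.subset_span ⟨a, ha, rfl⟩)
        (Submodule.subset_span ⟨b, hb, rfl⟩)
    obtain ⟨a, ha, b, hb, rfl⟩ := Submodule.mem_sup.mp h1
    have haE : a ∈ EisPart N k := by
      refine Submodule.span_le.mpr ?_ ha
      rintro _ ⟨G, hG, rfl⟩
      exact inc_mem_EisPart hG
    have hbE : b ∈ EisPart N k := by
      have := sub_mem hy haE
      rwa [add_sub_cancel_left] at this
    have hb0 : b = 0 := by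
      refine eq_zero_of_forall_lam (r := r) b fun l => ?_
      have h2 := lam_mem_EisPart (r := r) hbE l
      have h3 := (span_inc _ hb l).1
      exact (Submodule.disjoint_def.mp hC.disjoint) _ h2 h3
    rw [hb0, add_zero]
    exact ha
  · rw [Submodule.span_le]
    rintro _ ⟨G, hG, rfl⟩
    exact inc_mem_EisPart hG

/-- The dimension of the Eisenstein part does not depend on the field. -/
theorem finrank_EisPart :
    Module.finrank k (EisPart N k) = Module.finrank (ZMod r) (EisPart N (ZMod r)) := by
  let b := Module.finBasis (ZMod r) (EisPart N (ZMod r))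
  let v : Fin (Module.finrank (ZMod r) (EisPart N (ZMod r))) → PowerSeries k :=
    fun i => inc r k (b i : PowerSeries (ZMod r))
  have hspan : Submodule.span k (Set.range v) = EisPart N k := by
    refine Eq.trans ?_ (EisPart_eq_span_inc (r := r) (k := k) (N := N)).symm
    apply le_antisymm
    · rw [Submodule.span_le]
      rintro _ ⟨i, rfl⟩
      exact Submodule.subset_span ⟨_, (b i).2, rfl⟩
    · rw [Submodule.span_le]
      rintro _ ⟨G, hG, rfl⟩
      have h1 : (⟨G, hG⟩ : EisPart N (ZMod r)) = ∑ i, b.repr ⟨G, hG⟩ i • b i :=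
        (b.sum_repr _).symm
      have h2 : G = ∑ i, b.repr ⟨G, hG⟩ i • (b i : PowerSeries (ZMod r)) := by
        have := congrArg Subtype.val h1
        rwa [Submodule.coe_sum] at this
      rw [h2, map_sum]
      refine sum_mem fun i _ => ?_
      rw [inc_smul]
      exact Submodule.smul_mem _ _ (Submodule.subset_span ⟨i, rfl⟩)
  have hli : LinearIndependent k v := by
    rw [Fintype.linearIndependent_iff]
    intro g hg i
    refine eq_zero_of_forall_fun (r := r) _ fun l => ?_
    have h1 : ∑ j, l (g j) • (b j : PowerSeries (ZMod r)) = 0 := by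
      have h2 := congrArg (lam l) hg
      rw [map_zero, map_sum] at h2
      rw [← h2]
      refine Finset.sum_congr rfl fun j _ => ?_
      rw [lam_smul, lam_inc]
      show _ = l (g j * 1) • _
      rw [mul_one]
    have h3 : ∑ j, l (g j) • b j = 0 := by
      apply Subtype.ext
      rw [Submodule.coe_sum]
      exact h1
    exact (Fintype.linearIndependent_iff.mp b.linearIndependent) _ h3 i
  rw [← hspan, finrank_span_eq_card hli, Fintype.card_fin]

end Fermat.Agent.H9
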