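import Fermat.Agent.H9J9A
import Fermat.Agent.H9J9B
import Fermat.Agent.H35Abs

/-!
# MZ-J9: characteristic polynomials of Hecke operators on integral, complex and mod `r` cusp forms
-/

set_option autoImplicit false
set_option linter.unusedSectionVars false
set_option linter.style.haveILetI false

noncomputable section

open CongruenceSubgroup ModularFormClass
open Fermat.Agent.H15 (Tq S2 TEis EisPart)

namespace Fermat.Agent.H9

section EvalC

variable {ι A : Type*} [Ring A]

open scoped IsMulCommutative in
/-- evaluation of polynomials at a family of commuting elements -/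
def evalC (T : ι → A) (h : ∀ i j, T i * T j = T j * T i) : MvPolynomial ι ℤ →+* A :=
  haveI : IsMulCommutative (Algebra.adjoin ℤ (Set.range T)) :=
    Algebra.isMulCommutative_adjoin ℤ (by
      rintro _ ⟨i, rfl⟩ _ ⟨j, rfl⟩
      exact h i j)
  ((Algebra.adjoin ℤ (Set.range T)).val.comp (MvPolynomial.aeval fun i =>
    (⟨T i, Algebra.subset_adjoin (Set.mem_range_self i)⟩ :
      Algebra.adjoin ℤ (Set.range T)))).toRingHom

open scoped IsMulCommutative in
theorem evalC_X (T : ι → A) (h : ∀ i j, T i * T j = T j * T i) (i : ι) :
    evalC T h (MvPolynomial.X i) = T i := by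
  haveI : IsMulCommutative (Algebra.adjoin ℤ (Set.range T)) :=
    Algebra.isMulCommutative_adjoin ℤ (by
      rintro _ ⟨i, rfl⟩ _ ⟨j, rfl⟩
      exact h i j)
  show ((MvPolynomial.aeval fun i =>
    (⟨T i, Algebra.subset_adjoin (Set.mem_range_self i)⟩ :
      Algebra.adjoin ℤ (Set.range T))) (MvPolynomial.X i) : A) = T i
  rw [MvPolynomial.aeval_X]

theorem evalC_C (T : ι → A) (h : ∀ i j, T i * T j = T j * T i) (a : ℤ) :
    evalC T h (MvPolynomial.C a) = (a : A) := by
  rw [show (MvPolynomial.C a : MvPolynomial ι ℤ) = (a : MvPolynomial ι ℤ) by simp, map_intCast]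

variable {R R' M M' : Type*} [Ring R] [Ring R'] [AddCommGroup M] [Module R M]
  [AddCommGroup M'] [Module R' M']

/-- an additive map intertwining the operators intertwines all polynomials in them -/
theorem evalC_intertwine [SMulCommClass R ℤ M] (T : ι → Module.End R M)
    (h : ∀ i j, T i * T j = T j * T i)
    (T' : ι → Module.End R' M') (h' : ∀ i j, T' i * T' j = T' j * T' i) (f : M →+ M')
    (hf : ∀ i x, f (T i x) = T' i (f x)) (a : MvPolynomial ι ℤ) (x : M) :
    f (evalC T h a x) = evalC T' h' a (f x) := by
  induction a using MvPolynomial.induction_on generalizing x with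
  | C a =>
    rw [evalC_C, evalC_C, Module.End.intCast_apply, Module.End.intCast_apply, map_zsmul]
  | add p q hp hq =>
    rw [map_add, map_add, LinearMap.add_apply, LinearMap.add_apply, map_add, hp, hq]
  | mul_X p i hp =>
    rw [map_mul, map_mul, evalC_X, evalC_X, Module.End.mul_apply, Module.End.mul_apply, hp, hf]

end EvalC

section Charpoly

variable {A B : Type*} [CommRing A] [CommRing B] (φ : A →+* B) {M M' : Type*} [AddCommGroup M]
  [Module A M] [AddCommGroup M'] [Module B M'] {n : Type*} [Fintype n] [DecidableEq n]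

theorem charpoly_of_semilinear [Nontrivial B] (b : Module.Basis n A M) (b' : Module.Basis n B M')
    (f : M →+ M')
    (hfs : ∀ (a : A) (x : M), f (a • x) = φ a • f x) (hb : ∀ i, f (b i) = b' i)
    (T : Module.End A M) (T' : Module.End B M') (h : ∀ x, f (T x) = T' (f x)) :
    (haveI := Module.Free.of_basis b'; haveI := Module.Finite.of_basis b'; T'.charpoly) =
    (haveI := Module.Free.of_basis b; haveI := Module.Finite.of_basis b; T.charpoly.map φ) := by
  haveI := Module.Free.of_basis b'
  haveI := Module.Finite.of_basis b'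
  haveI := Module.Free.of_basis b
  haveI := Module.Finite.of_basis b
  show T'.charpoly = T.charpoly.map φ
  haveI : Nontrivial A := φ.domain_nontrivial
  rw [← LinearMap.charpoly_toMatrix T' b', ← LinearMap.charpoly_toMatrix T b,
    ← Matrix.charpoly_map]
  congr 1
  ext i j
  rw [Matrix.map_apply, LinearMap.toMatrix_apply, LinearMap.toMatrix_apply, ← hb j, ← h]
  conv_lhs => rw [← b.sum_repr (T (b j)), map_sum]
  rw [map_sum, Finsupp.finset_sum_apply]
  simp only [hfs, hb, map_smul, Module.Basis.repr_self, Finsupp.smul_apply, smul_eq_mul]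
  rw [Finset.sum_eq_single i]
  · simp
  · intro k _ hk
    rw [Finsupp.single_eq_of_ne (Ne.symm hk), mul_zero]
  · intro hi
    exact absurd (Finset.mem_univ i) hi

end Charpoly

end Fermat.Agent.H9
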