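import Fermat.Agent.H9J9C
import Fermat.Agent.H23Main

/-!
# MZ-J9: integral, complex and mod `r` Hecke operators in weight two
-/

set_option autoImplicit false
set_option linter.unusedSectionVars false
set_option linter.style.haveILetI false

noncomputable section

open CongruenceSubgroup ModularFormClass
open Fermat.Agent.H15 (Tq S2 TEis EisPart)
open Fermat.Agent.H49 (qCoeff_add qCoeff_zero qCoeff_zsmul qCoeff_heckeTLin qCoeff_smul
  eq_zero_of_qCoeff_sturm sturmB ext_of_forall_qCoeff qCoeff_sub)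

namespace Fermat.Agent.H9

/-- the primes different from `N` -/
abbrev Idx (N : ℕ) : Type := {q : Nat.Primes // (q : ℕ) ≠ N}

/-- the polynomial ring in the Hecke operators `T_q`, `q ≠ N` -/
abbrev R0 (N : ℕ) : Type := MvPolynomial (Idx N) ℤ

theorem Idx.not_dvd {N : ℕ} (hN : N.Prime) (q : Idx N) : ¬ ((q.1 : Nat.Primes) : ℕ) ∣ N :=
  fun h => q.2 ((Nat.prime_dvd_prime_iff_eq q.1.2 hN).mp h)

section Ops

variable {N : ℕ} [NeZero N]

theorem coeff_TZ (q n : ℕ) (G : PowerSeries ℤ) : PowerSeries.coeff n (TZ q G) =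
    PowerSeries.coeff (q * n) G + if q ∣ n then (q : ℤ) * PowerSeries.coeff (n / q) G else 0 := by
  rw [TZ, PowerSeries.coeff_mk]

theorem redZ_injective : Function.Injective (redZ ℚ) := by
  intro G G' h
  ext n
  have h1 := congrArg (PowerSeries.coeff n) h
  have h2 : ∀ H : PowerSeries ℤ, PowerSeries.coeff n (redZ ℚ H) =
      ((PowerSeries.coeff n H : ℤ) : ℚ) := by
    intro H
    show PowerSeries.coeff n (PowerSeries.map (Int.castRingHom ℚ) H) = _
    rw [PowerSeries.coeff_map]
    rfl
  rw [h2, h2] at h1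
  exact_mod_cast h1

theorem TZ_comm {q q' : ℕ} (hq : q.Prime) (hq' : q'.Prime) (G : PowerSeries ℤ) :
    TZ q (TZ q' G) = TZ q' (TZ q G) := by
  apply redZ_injective
  rw [← Tq_redZ, ← Tq_redZ, ← Tq_redZ, ← Tq_redZ, Tq_comm hq hq']

/-- `T_q` on integral `q`-expansions -/
def TMZ (hN : N.Prime) (q : Idx N) : Module.End ℤ (MZ N) where
  toFun G := ⟨TZ (q.1 : ℕ) G, TZ_mem q.1.2 (q.not_dvd hN) G.2⟩
  map_add' G G' := by
    apply Subtype.ext
    ext n
    simp only [Submodule.coe_add, coeff_TZ, map_add]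
    split_ifs <;> ring
  map_smul' c G := by
    apply Subtype.ext
    ext n
    simp only [Submodule.coe_smul, coeff_TZ, RingHom.id_apply]
    have h : ∀ (m : ℕ) (H : PowerSeries ℤ), PowerSeries.coeff m (c • H) =
        c * PowerSeries.coeff m H := by
      intro m H
      have h1 : c • H = PowerSeries.C c * H := by
        rw [zsmul_eq_mul]; congr 1; ext m; simp
      rw [h1, PowerSeries.coeff_C_mul]
    rw [h, h, h, coeff_TZ]
    split_ifs <;> ring

theorem TMZ_comm (hN : N.Prime) (q q' : Idx N) : TMZ hN q * TMZ hN q' = TMZ hN q' * TMZ hN q :=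
  LinearMap.ext fun G => Subtype.ext (TZ_comm q.1.2 q'.1.2 G)

variable (k : Type) [Field k]

/-- `T_q` on mod `r` cusp forms -/
def TS (hN : N.Prime) (q : Idx N) : Module.End k (S2 N k) :=
  (Tq k (q.1 : ℕ)).restrict fun _ hf => Tq_mem_S2 q.1.2 (q.not_dvd hN) hf

theorem coe_TS (hN : N.Prime) (q : Idx N) (f : S2 N k) :
    (TS k hN q f : PowerSeries k) = Tq k (q.1 : ℕ) f := rfl

theorem TS_comm (hN : N.Prime) (q q' : Idx N) :
    TS k hN q * TS k hN q' = TS k hN q' * TS k hN q :=
  LinearMap.ext fun f => Subtype.ext (Tq_comm q.1.2 q'.1.2 (f : PowerSeries k))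

/-- `T_q` on complex cusp forms -/
def TC (hN : N.Prime) (q : Idx N) : Module.End ℂ (CuspForm (Gamma0 N) 2) :=
  CuspForm.heckeTLin 2 q.1.2 (q.not_dvd hN)

/-- the `q`-expansion -/
def qexp (F : CuspForm (Gamma0 N) 2) : PowerSeries ℂ := PowerSeries.mk fun n => qCoeff F n

theorem qexp_injective : Function.Injective (qexp (N := N)) := by
  intro F F' h
  refine ext_of_forall_qCoeff fun n => ?_
  have := congrArg (PowerSeries.coeff n) h
  simpa only [qexp, PowerSeries.coeff_mk] using this

theorem qexp_heckeTLin {q : ℕ} (hq : q.Prime) (hqN : ¬ q ∣ N) (F : CuspForm (Gamma0 N) 2) :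
    qexp (CuspForm.heckeTLin 2 hq hqN F) = Tq ℂ q (qexp F) := by
  ext n
  rw [coeff_Tq, qexp, qexp, PowerSeries.coeff_mk, PowerSeries.coeff_mk, PowerSeries.coeff_mk,
    qCoeff_heckeTLin, mul_comm n q]
  congr 1
  split_ifs
  · norm_num
  · rfl

theorem qexp_TC (hN : N.Prime) (q : Idx N) (F : CuspForm (Gamma0 N) 2) :
    qexp (TC hN q F) = Tq ℂ (q.1 : ℕ) (qexp F) := qexp_heckeTLin _ _ F

theorem TC_comm (hN : N.Prime) (q q' : Idx N) : TC hN q * TC hN q' = TC hN q' * TC hN q := by
  refine LinearMap.ext fun F => qexp_injective ?_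
  rw [Module.End.mul_apply, Module.End.mul_apply, qexp_TC, qexp_TC, qexp_TC, qexp_TC,
    Tq_comm q.1.2 q'.1.2]

/-- the cusp form attached to an integral `q`-expansion -/
def toForm : MZ N →+ CuspForm (Gamma0 N) 2 where
  toFun G := G.2.choose
  map_zero' := by
    refine ext_of_forall_qCoeff fun n => ?_
    rw [(0 : MZ N).2.choose_spec n, qCoeff_zero]
    simp
  map_add' G G' := by
    refine ext_of_forall_qCoeff fun n => ?_
    rw [(G + G').2.choose_spec n, qCoeff_add, G.2.choose_spec n, G'.2.choose_spec n]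
    simp

theorem qCoeff_toForm (G : MZ N) (n : ℕ) :
    qCoeff (toForm G) n = ((PowerSeries.coeff n (G : PowerSeries ℤ) : ℤ) : ℂ) :=
  G.2.choose_spec n

theorem toForm_TMZ (hN : N.Prime) (q : Idx N) (G : MZ N) :
    toForm (TMZ hN q G) = TC hN q (toForm G) := by
  refine ext_of_forall_qCoeff fun n => ?_
  rw [qCoeff_toForm, TC, qCoeff_heckeTLin, qCoeff_toForm, qCoeff_toForm]
  show ((PowerSeries.coeff n (TZ (q.1 : ℕ) G) : ℤ) : ℂ) = _
  rw [coeff_TZ, mul_comm n _]
  push_cast
  congr 1
  split_ifs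
  · norm_num
  · simp

theorem toForm_injective : Function.Injective (toForm (N := N)) := by
  refine (injective_iff_map_eq_zero _).mpr fun G hG => ?_
  apply Subtype.ext
  ext n
  have := qCoeff_toForm G n
  rw [hG, qCoeff_zero] at this
  have h1 : PowerSeries.coeff n (G : PowerSeries ℤ) = 0 := by exact_mod_cast this.symm
  rw [h1]
  simp

variable {k}
/-- reduction of integral cusp forms -/
def redS : MZ N →+ S2 N k where
  toFun G := ⟨redZ k G, by rw [S2_eq]; exact Submodule.subset_span ⟨G, G.2, rfl⟩⟩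
  map_zero' := Subtype.ext (map_zero _)
  map_add' G G' := Subtype.ext (map_add _ _ _)

theorem coe_redS (G : MZ N) : (redS (k := k) G : PowerSeries k) = redZ k G := rfl

theorem redS_TMZ (hN : N.Prime) (q : Idx N) (G : MZ N) :
    redS (TMZ hN q G) = TS k hN q (redS G) := by
  apply Subtype.ext
  rw [coe_TS, coe_redS, coe_redS, Tq_redZ]
  rfl

end Ops

section Bases

variable (N : ℕ) [NeZero N]

instance finite_MZ' : Module.Finite ℤ (MZ N) := finite_MZ N

instance free_MZ : Module.Free ℤ (MZ N) := by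
  haveI : NoZeroSMulDivisors ℤ (MZ N) := by
    constructor
    rintro c G h
    by_cases hc : c = 0
    · exact Or.inl hc
    right
    apply Subtype.ext
    ext n
    have h1 : PowerSeries.coeff n (c • (G : PowerSeries ℤ)) = 0 := by
      have := congrArg Subtype.val h
      rw [Submodule.coe_smul] at this
      rw [this]
      simp
    have h2 : c • (G : PowerSeries ℤ) = PowerSeries.C c * G := by
      rw [zsmul_eq_mul]; congr 1; ext m; simp
    rw [h2, PowerSeries.coeff_C_mul] at h1
    simpa [hc] using h1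
  infer_instance

/-- the rank of the lattice of integral cusp forms -/
abbrev rk : ℕ := Module.finrank ℤ (MZ N)

/-- a basis of the lattice -/
def bMZ : Module.Basis (Fin (rk N)) ℤ (MZ N) := Module.finBasis ℤ (MZ N)

variable {N}

/-- saturation -/
theorem mem_MZ_of_smul {c : ℤ} (hc : c ≠ 0) {G : PowerSeries ℤ}
    (h : PowerSeries.C c * G ∈ MZ N) : G ∈ MZ N := by
  obtain ⟨F, hF⟩ := h
  refine ⟨((c : ℂ)⁻¹) • F, fun n => ?_⟩
  have hc' : (c : ℂ) ≠ 0 := by exact_mod_cast hc
  rw [qCoeff_smul, hF, PowerSeries.coeff_C_mul]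
  push_cast
  field_simp

theorem toForm_smul (c : ℤ) (G : MZ N) : toForm (c • G) = (c : ℂ) • toForm G := by
  rw [map_zsmul, Int.cast_smul_eq_zsmul]

theorem toForm_mem_intLattice (G : MZ N) : toForm G ∈ CuspForm.intLattice N 2 :=
  (H71.mem_intLattice_iff _).mpr fun n => ⟨_, qCoeff_toForm G n⟩

theorem exists_toForm_eq {F : CuspForm (Gamma0 N) 2} (hF : F ∈ CuspForm.intLattice N 2) :
    ∃ G : MZ N, toForm G = F := by
  choose a ha using (H71.mem_intLattice_iff _).mp hF
  have hmem : PowerSeries.mk a ∈ MZ N := ⟨F, fun n => by rw [ha, PowerSeries.coeff_mk]⟩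
  refine ⟨⟨_, hmem⟩, ext_of_forall_qCoeff fun n => ?_⟩
  rw [qCoeff_toForm, ha]
  show ((PowerSeries.coeff n (PowerSeries.mk a) : ℤ) : ℂ) = _
  rw [PowerSeries.coeff_mk]

variable (N) in
theorem li_toForm : LinearIndependent ℂ fun i => toForm (bMZ N i) := by
  have hli : LinearIndependent ℤ fun i => toForm (bMZ N i) := by
    rw [Fintype.linearIndependent_iff]
    intro g hg i
    have h1 : toForm (∑ j, g j • bMZ N j) = 0 := by
      rw [map_sum, ← hg]
      exact Finset.sum_congr rfl fun j _ => map_zsmul _ _ _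
    have h2 := (injective_iff_map_eq_zero _).mp toForm_injective _ h1
    exact (Fintype.linearIndependent_iff.mp (bMZ N).linearIndependent) _ h2 i
  rw [Fintype.linearIndependent_iff]
  intro v hv
  have := H35.sum_ne_zero_of_intCoeff (fun i => toForm (bMZ N i))
    (fun i n => ⟨_, qCoeff_toForm _ n⟩) hli v hv
  exact fun i => congrFun this i

theorem sum_repr_bMZ (G : MZ N) : G = ∑ i, (bMZ N).repr G i • bMZ N i := ((bMZ N).sum_repr G).symm

variable (N) in
theorem span_toForm : ⊤ ≤ Submodule.span ℂ (Set.range fun i => toForm (bMZ N i)) := by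
  have h := H23.hasIntegralStructure N 2
  rw [CuspForm.HasIntegralStructure] at h
  rw [← h, Submodule.span_le]
  intro F hF
  obtain ⟨G, rfl⟩ := exists_toForm_eq hF
  rw [sum_repr_bMZ G, map_sum]
  refine sum_mem fun i _ => ?_
  rw [toForm_smul]
  exact Submodule.smul_mem _ _ (Submodule.subset_span ⟨i, rfl⟩)

variable (N) in
/-- the basis of complex cusp forms -/
def bC : Module.Basis (Fin (rk N)) ℂ (CuspForm (Gamma0 N) 2) :=
  Module.Basis.mk (li_toForm N) (span_toForm N)

theorem bC_apply (i : Fin (rk N)) : bC N i = toForm (bMZ N i) := by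
  rw [bC, Module.Basis.mk_apply]

section Modr

variable {r : ℕ} [Fact r.Prime]

theorem redS_smul (c : ℤ) (G : MZ N) : redS (k := ZMod r) (c • G) =
    (c : ZMod r) • redS (k := ZMod r) G := by
  rw [map_zsmul]
  exact (Int.cast_smul_eq_zsmul (ZMod r) c _).symm

theorem exists_of_redS_eq_zero {G : MZ N} (h : redS (k := ZMod r) G = 0) :
    ∃ G' : MZ N, G = (r : ℤ) • G' := by
  have hr : (r : ℤ) ≠ 0 := by exact_mod_cast (Fact.out : r.Prime).ne_zero
  have h1 : ∀ n, ∃ m : ℤ, PowerSeries.coeff n (G : PowerSeries ℤ) = r * m := by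
    intro n
    have h2 := congrArg (PowerSeries.coeff n) (congrArg Subtype.val h)
    rw [coe_redS] at h2
    have h3 : ((PowerSeries.coeff n (G : PowerSeries ℤ) : ℤ) : ZMod r) = 0 := by
      have h4 : PowerSeries.coeff n (redZ (ZMod r) (G : PowerSeries ℤ)) =
          ((PowerSeries.coeff n (G : PowerSeries ℤ) : ℤ) : ZMod r) := by
        show PowerSeries.coeff n (PowerSeries.map (Int.castRingHom (ZMod r)) _) = _
        rw [PowerSeries.coeff_map]
        rfl
      rw [← h4, h2]
      simp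
    exact (ZMod.intCast_zmod_eq_zero_iff_dvd _ r).mp h3
  choose m hm using h1
  have hG : (G : PowerSeries ℤ) = PowerSeries.C (r : ℤ) * PowerSeries.mk m := by
    ext n
    rw [hm, PowerSeries.coeff_C_mul, PowerSeries.coeff_mk]
  have hmem : PowerSeries.mk m ∈ MZ N := mem_MZ_of_smul hr (hG ▸ G.2)
  refine ⟨⟨_, hmem⟩, Subtype.ext ?_⟩
  rw [Submodule.coe_smul, hG]
  show _ = (r : ℤ) • PowerSeries.mk m
  rw [zsmul_eq_mul]
  congr 1

variable (N r) in
theorem li_redS : LinearIndependent (ZMod r) fun i => redS (k := ZMod r) (bMZ N i) := by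
  rw [Fintype.linearIndependent_iff]
  intro g hg i
  choose m hm using fun j => ZMod.intCast_surjective (g j)
  have h1 : redS (k := ZMod r) (∑ j, m j • bMZ N j) = 0 := by
    rw [map_sum, ← hg]
    refine Finset.sum_congr rfl fun j _ => ?_
    rw [redS_smul, hm]
  obtain ⟨G', hG'⟩ := exists_of_redS_eq_zero h1
  have h2 := congrArg (fun G => (bMZ N).repr G i) hG'
  simp only [map_smul, Finsupp.smul_apply, Module.Basis.repr_sum_self] at h2
  rw [← hm i, h2, smul_eq_mul, Int.cast_mul, Int.cast_natCast, ZMod.natCast_self, zero_mul]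

variable (N r) in
theorem span_redS : ⊤ ≤ Submodule.span (ZMod r) (Set.range fun i => redS (k := ZMod r) (bMZ N i)) := by
  rintro ⟨f, hf⟩ -
  have hf' := hf
  rw [S2_eq] at hf'
  suffices h : ∀ f (hf : f ∈ Submodule.span (ZMod r)
      (redZ (ZMod r) '' (MZ N : Set (PowerSeries ℤ)))) (hf' : f ∈ S2 N (ZMod r)),
      (⟨f, hf'⟩ : S2 N (ZMod r)) ∈
        Submodule.span (ZMod r) (Set.range fun i => redS (k := ZMod r) (bMZ N i)) from h f hf' hf
  intro f hf hf'
  induction hf using Submodule.span_induction with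
  | mem x hx =>
    obtain ⟨G, hG, rfl⟩ := hx
    have h1 : (⟨redZ (ZMod r) G, hf'⟩ : S2 N (ZMod r)) = redS ⟨G, hG⟩ := rfl
    rw [h1, sum_repr_bMZ ⟨G, hG⟩, map_sum]
    refine sum_mem fun i _ => ?_
    rw [redS_smul]
    exact Submodule.smul_mem _ _ (Submodule.subset_span ⟨i, rfl⟩)
  | zero => exact zero_mem _
  | add x y hx hy ihx ihy =>
    have hx' : x ∈ S2 N (ZMod r) := by rw [S2_eq]; exact hx
    have hy' : y ∈ S2 N (ZMod r) := by rw [S2_eq]; exact hy
    exact add_mem (ihx hx') (ihy hy')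
  | smul a x hx ih =>
    have hx' : x ∈ S2 N (ZMod r) := by rw [S2_eq]; exact hx
    exact Submodule.smul_mem _ a (ih hx')

variable (N r) in
/-- the basis of mod `r` cusp forms -/
def bS : Module.Basis (Fin (rk N)) (ZMod r) (S2 N (ZMod r)) :=
  Module.Basis.mk (li_redS N r) (span_redS N r)

theorem bS_apply (i : Fin (rk N)) : bS N r i = redS (bMZ N i) := by
  rw [bS, Module.Basis.mk_apply]

end Modr

section Charpoly

variable (hN : N.Prime)

/-- the actions of the polynomial ring in the Hecke operators -/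
def evMZ : R0 N →+* Module.End ℤ (MZ N) := evalC (TMZ hN) (TMZ_comm hN)

def evC : R0 N →+* Module.End ℂ (CuspForm (Gamma0 N) 2) := evalC (TC hN) (TC_comm hN)

def evS (k : Type) [Field k] : R0 N →+* Module.End k (S2 N k) := evalC (TS k hN) (TS_comm k hN)

/-- characteristic polynomials on mod `r` cusp forms -/
theorem charpoly_evS (r : ℕ) [Fact r.Prime] (a : R0 N) :
    (evS hN (ZMod r) a).charpoly = (evMZ hN a).charpoly.map (Int.castRingHom (ZMod r)) :=
  charpoly_of_semilinear (Int.castRingHom (ZMod r)) (bMZ N) (bS N r) redS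
    (fun c G => redS_smul c G) (fun i => (bS_apply i).symm) _ _
    (fun x => evalC_intertwine (TMZ hN) (TMZ_comm hN) (TS (ZMod r) hN) (TS_comm (ZMod r) hN)
      redS (fun q G => redS_TMZ hN q G) a x)

/-- characteristic polynomials on complex cusp forms -/
theorem charpoly_evC (a : R0 N) :
    (haveI := Module.Free.of_basis (bC N); haveI := Module.Finite.of_basis (bC N);
      (evC hN a).charpoly) = (evMZ hN a).charpoly.map (Int.castRingHom ℂ) :=
  charpoly_of_semilinear (Int.castRingHom ℂ) (bMZ N) (bC N) toForm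
    (fun c G => toForm_smul c G) (fun i => (bC_apply i).symm) _ _
    (fun x => evalC_intertwine (TMZ hN) (TMZ_comm hN) (TC hN) (TC_comm hN)
      toForm (fun q G => toForm_TMZ hN q G) a x)

end Charpoly

end Bases

end Fermat.Agent.H9
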