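import Fermat.Agent.H9J9E
import Fermat.Agent.H90Exist
import Fermat.Agent.H17DivMod

/-!
# MZ-J9: `T_cardW` from the characteristic polynomials on `J_0(N)[r]`
-/

set_option autoImplicit false
set_option linter.unusedSectionVars false
set_option linter.style.haveILetI false

noncomputable section

open ModularCurve AlgebraicCurve
open Fermat.Agent.H15 (Tq S2 TEis EisPart WSub eisP)

namespace Fermat.Agent.H9

local notation "Qb" => AlgebraicClosure ℚ

section Words

variable {R : Type*} [CommRing R] {F : Type*} [Field F] {M : Type*} [AddCommGroup M] [Module F M]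
  (ρ : R →+* Module.End F M)

/-- an element killed by all words of length `n` in generators is killed by the `n`-th power of the
ideal -/
theorem kill_of_words (S : Set R) (n : ℕ) (y : M)
    (h : ∀ l : List R, l.length = n → (∀ s ∈ l, s ∈ S) → ρ l.prod y = 0) :
    ∀ t ∈ (Ideal.span S) ^ n, ρ t y = 0 := by
  induction n generalizing y with
  | zero =>
    intro t _
    have h1 := h [] rfl (by simp)
    rw [List.prod_nil, map_one, Module.End.one_apply] at h1
    rw [h1, map_zero]
  | succ n ih =>
    intro t ht
    rw [pow_succ] at ht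
    induction ht using Submodule.mul_induction_on' with
    | mem_mul_mem a ha b hb =>
      have hb' : b ∈ Submodule.span R S := hb
      induction hb' using Submodule.span_induction with
      | mem s hs =>
        rw [map_mul, Module.End.mul_apply]
        refine ih (ρ s y) (fun l hl hlS => ?_) a ha
        have h1 := h (s :: l) (by rw [List.length_cons, hl]) (by
          intro x hx
          rcases List.mem_cons.mp hx with rfl | hx
          · exact hs
          · exact hlS x hx)
        rw [List.prod_cons, mul_comm, map_mul, Module.End.mul_apply] at h1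
        exact h1
      | zero => rw [mul_zero, map_zero, LinearMap.zero_apply]
      | add x z _ _ ihx ihz =>
        rw [mul_add, map_add, LinearMap.add_apply, ihx (by assumption), ihz (by assumption),
          add_zero]
      | smul c x _ ihx =>
        rw [smul_eq_mul, mul_left_comm, map_mul, Module.End.mul_apply, ihx (by assumption),
          map_zero]
    | add x _ z _ ihx ihz => rw [map_add, LinearMap.add_apply, ihx, ihz, add_zero]

end Words

variable {N : ℕ} [NeZero N] {r : ℕ} [Fact r.Prime]

variable (N r) in
/-- the generators of the Eisenstein ideal -/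
def genP : Set (R0 N) :=
  {(r : R0 N)} ∪ {t | ∃ q : Idx N, t = MvPolynomial.X q - MvPolynomial.C (1 + ((q.1 : ℕ) : ℤ))}

variable (N r) in
/-- the Eisenstein ideal in the polynomial ring in the `T_q`, `q ≠ N` -/
def P0 : Ideal (R0 N) := Ideal.span (genP N r)

section Forms

variable (hN : N.Prime)

theorem evS_gen (q : Idx N) (f : S2 N (ZMod r)) :
    (evS hN (ZMod r) (MvPolynomial.X q - MvPolynomial.C (1 + ((q.1 : ℕ) : ℤ))) f :
      PowerSeries (ZMod r)) = TEis (ZMod r) (q.1 : ℕ) f := by
  have h1 : ((1 + ((q.1 : ℕ) : ℤ)) • f : S2 N (ZMod r)) =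
      ((1 + ((q.1 : ℕ) : ZMod r)) • f : S2 N (ZMod r)) := by
    have h2 := (Int.cast_smul_eq_zsmul (ZMod r) (1 + ((q.1 : ℕ) : ℤ)) f).symm
    rwa [Int.cast_add, Int.cast_one, Int.cast_natCast] at h2
  rw [map_sub, evS, evalC_X, evalC_C, LinearMap.sub_apply, TEis_apply,
    Submodule.coe_sub, coe_TS, Module.End.intCast_apply, h1]
  rfl

theorem evS_r (f : S2 N (ZMod r)) : evS hN (ZMod r) (r : R0 N) f = 0 := by
  rw [map_natCast, Module.End.natCast_apply, ← Nat.cast_smul_eq_nsmul (ZMod r), ZMod.natCast_self,
    zero_smul]

theorem mem_part_evS (f : S2 N (ZMod r)) :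
    f ∈ part (evS hN (ZMod r)) (P0 N r) ↔ (f : PowerSeries (ZMod r)) ∈ EisPart N (ZMod r) := by
  constructor
  · rintro ⟨n, hn⟩
    refine ⟨f.2, n, fun l hl hp => ?_⟩
    have key : ∀ l : List ℕ, (∀ q ∈ l, q.Prime ∧ q ≠ N) → ∃ t ∈ P0 N r ^ l.length,
        ∀ f : S2 N (ZMod r), (evS hN (ZMod r) t f : PowerSeries (ZMod r)) =
          (l.map (TEis (ZMod r))).prod f := by
      intro l
      induction l with
      | nil =>
        intro _
        exact ⟨1, by simp, fun f => by rw [map_one]; rfl⟩
      | cons a l ih =>
        intro hl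
        obtain ⟨t, ht, htf⟩ := ih fun q hq => hl q (List.mem_cons_of_mem a hq)
        obtain ⟨ha, haN⟩ := hl a List.mem_cons_self
        let q : Idx N := ⟨⟨a, ha⟩, haN⟩
        refine ⟨(MvPolynomial.X q - MvPolynomial.C (1 + ((q.1 : ℕ) : ℤ))) * t, ?_, fun f => ?_⟩
        · rw [List.length_cons, pow_succ']
          exact Ideal.mul_mem_mul (Ideal.subset_span (Or.inr ⟨q, rfl⟩)) ht
        · rw [map_mul, Module.End.mul_apply, evS_gen, htf, List.map_cons, List.prod_cons,
            Module.End.mul_apply]
    obtain ⟨t, ht, htf⟩ := key l hp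
    rw [hl] at ht
    rw [← htf, hn t ht]
    rfl
  · rintro ⟨-, n, hn⟩
    refine ⟨n, fun t ht => ?_⟩
    refine kill_of_words (evS hN (ZMod r)) (genP N r) n f ?_ t ht
    intro l hl hS
    by_cases hr : (r : R0 N) ∈ l
    · obtain ⟨s, hs⟩ := List.dvd_prod hr
      rw [hs, map_mul, Module.End.mul_apply, evS_r]
    · have key2 : ∀ l : List (R0 N), (∀ s ∈ l, s ∈ genP N r) → (r : R0 N) ∉ l →
          ∃ l' : List ℕ, l'.length = l.length ∧ (∀ q ∈ l', q.Prime ∧ q ≠ N) ∧
          ∀ f : S2 N (ZMod r), (evS hN (ZMod r) l.prod f : PowerSeries (ZMod r)) =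
            (l'.map (TEis (ZMod r))).prod f := by
        intro l
        induction l with
        | nil => intro _ _; exact ⟨[], rfl, by simp, fun f => by rw [List.prod_nil, map_one]; rfl⟩
        | cons a l ih =>
          intro hl hr
          obtain ⟨l', h1, h2, h3⟩ := ih (fun s hs => hl s (List.mem_cons_of_mem a hs))
            (fun h => hr (List.mem_cons_of_mem a h))
          rcases hl a List.mem_cons_self with ha | ⟨q, ha⟩
          · exact absurd (List.mem_cons.mpr (Or.inl (Set.mem_singleton_iff.mp ha).symm)) hr
          refine ⟨(q.1 : ℕ) :: l', by rw [List.length_cons, List.length_cons, h1], ?_, fun f => ?_⟩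
          · intro x hx
            rcases List.mem_cons.mp hx with rfl | hx
            · exact ⟨q.1.2, q.2⟩
            · exact h2 x hx
          · rw [List.prod_cons, map_mul, Module.End.mul_apply, ha, evS_gen, h3, List.map_cons,
              List.prod_cons, Module.End.mul_apply]
      obtain ⟨l', h1, h2, h3⟩ := key2 l hS hr
      apply Subtype.ext
      rw [h3, hn l' (h1.trans hl) h2]
      rfl

theorem finrank_part_evS :
    Module.finrank (ZMod r) (part (evS hN (ZMod r)) (P0 N r)) =
      Module.finrank (ZMod r) (EisPart N (ZMod r)) := by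
  refine LinearEquiv.finrank_eq
    { toFun := fun f => ⟨(f : S2 N (ZMod r)), (mem_part_evS hN _).mp f.2⟩
      invFun := fun f => ⟨⟨(f : PowerSeries (ZMod r)), f.2.1⟩, (mem_part_evS hN _).mpr f.2⟩
      left_inv := fun f => rfl
      right_inv := fun f => rfl
      map_add' := fun f g => rfl
      map_smul' := fun c f => rfl }

end Forms

end Fermat.Agent.H9
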