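import Fermat.Agent.H9J9F

/-!
# MZ-J9: the Eisenstein part of `J_0(N)` and `T_cardW` from `charpoly_evJ`
-/

set_option autoImplicit false
set_option linter.unusedSectionVars false
set_option linter.style.haveILetI false

noncomputable section

open ModularCurve AlgebraicCurve
open Fermat.Agent.H15 (Tq S2 TEis EisPart WSub eisP CardW T_cardW)

namespace Fermat.Agent.H9

local notation "Qb" => AlgebraicClosure ℚ

section CardK

variable {N r : ℕ} {J : Type} [AddCommGroup J] [Module HeckeAlg J]

/-- the orders of `W_k`, for a divisible group `J` -/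
theorem card_WSub (hdiv : ∀ x : J, ∃ y : J, r • y = x)
    (hfin : ∀ k : ℕ, {x : J | (r ^ k : ℕ) • x = 0}.Finite) (k : ℕ) :
    Nat.card (WSub N r J k) = Nat.card (WSub N r J 1) ^ k := by
  induction k with
  | zero =>
    have h0 : WSub N r J 0 = ⊥ := by
      rw [eq_bot_iff]
      rintro x ⟨h, -⟩
      rw [pow_zero, one_smul] at h
      exact h
    rw [pow_zero, h0]
    exact Nat.card_unique
  | succ k ih =>
    have hfi : Finite (WSub N r J (k + 1)) :=
      Set.Finite.to_subtype ((hfin (k + 1)).subset fun x hx => hx.1)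
    let φ : WSub N r J (k + 1) →+ WSub N r J k :=
      { toFun := fun x => ⟨r • (x : J), by
          obtain ⟨h1, n, hn⟩ := x.2
          refine ⟨?_, n, fun t ht => ?_⟩
          · rw [← mul_smul, ← pow_succ]; exact h1
          · rw [smul_comm, hn t ht, smul_zero]⟩
        map_zero' := Subtype.ext (smul_zero _)
        map_add' := fun x y => Subtype.ext (smul_add _ _ _) }
    have hsurj : Function.Surjective φ := by
      intro x
      obtain ⟨y, hy, hyx⟩ := H85.exists_smul_eq hdiv k (hfin (k + 1)) x.2
      exact ⟨⟨y, hy⟩, Subtype.ext hyx⟩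
    have h1 := AddSubgroup.card_eq_card_quotient_mul_card_addSubgroup φ.ker
    rw [Nat.card_congr (QuotientAddGroup.quotientKerEquivOfSurjective φ hsurj).toEquiv, ih] at h1
    have h2 : Nat.card φ.ker = Nat.card (WSub N r J 1) := by
      refine Nat.card_congr
        { toFun := fun x => ⟨(x : WSub N r J (k + 1)), ?_⟩
          invFun := fun x => ⟨⟨(x : J), H85.WSub_mono (Nat.le_add_left 1 k) x.2⟩, ?_⟩
          left_inv := fun x => rfl
          right_inv := fun x => rfl }
      · refine ⟨?_, (x : WSub N r J (k + 1)).2.2⟩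
        rw [pow_one]
        exact congrArg Subtype.val (AddMonoidHom.mem_ker.mp x.2)
      · rw [AddMonoidHom.mem_ker]
        apply Subtype.ext
        have := x.2.1
        rw [pow_one] at this
        exact this
    rw [h1, h2, pow_succ]

end CardK

section JSide

variable (N : ℕ) [NeZero N] (r : ℕ)

/-- the inclusion of the polynomial ring in the `T_q`, `q ≠ N`, into the Hecke algebra -/
def ren : R0 N →+* HeckeAlg := (MvPolynomial.rename (R := ℤ) (Subtype.val : Idx N → Nat.Primes)).toRingHom

theorem ren_X (q : Idx N) : ren N (MvPolynomial.X q) = heckeGen q.1 :=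
  MvPolynomial.rename_X _ _

theorem ren_C (a : ℤ) : ren N (MvPolynomial.C a) = MvPolynomial.C a :=
  MvPolynomial.rename_C _ _

attribute [local instance] heckeModuleBar

theorem ren_smul (t : R0 N) (x : Jr N r) :
    ren N t • (x : JZero N) = ((evJ N r t x : Jr N r) : JZero N) := by
  induction t using MvPolynomial.induction_on generalizing x with
  | C a =>
    rw [ren_C, evJ, evalC_C, heckeModuleBar_C_smul, Module.End.intCast_apply]
    rfl
  | add p q hp hq =>
    rw [map_add, add_smul, hp, hq, map_add, LinearMap.add_apply]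
    rfl
  | mul_X p q hp =>
    rw [map_mul, mul_smul, ren_X, heckeModuleBar_heckeGen_smul (H67.heckeOperatorsCommuteBar N),
      ← coe_TJ, hp, map_mul, Module.End.mul_apply]
    congr 2
    rw [evJ, evalC_X]

theorem map_P0 : Ideal.map (ren N) (P0 N r) = eisP N r := by
  rw [P0, Ideal.map_span, eisP, genP, Set.image_union, Set.image_singleton, map_natCast]
  congr 2
  ext t
  constructor
  · rintro ⟨-, ⟨q, rfl⟩, rfl⟩
    exact ⟨q.1, q.2, by rw [map_sub, ren_X, ren_C]⟩
  · rintro ⟨q, hq, rfl⟩
    exact ⟨_, ⟨⟨q, hq⟩, rfl⟩, by rw [map_sub, ren_X, ren_C]⟩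

theorem mem_part_evJ [Fact r.Prime] (x : Jr N r) :
    x ∈ part (evJ N r) (P0 N r) ↔ (x : JZero N) ∈ WSub N r (JZero N) 1 := by
  constructor
  · rintro ⟨n, hn⟩
    refine ⟨?_, n, ?_⟩
    · have := x.2
      rw [Pic0.mem_torsion, natCast_zsmul] at this
      rw [pow_one]
      exact this
    · intro t ht
      rw [← map_P0, ← Ideal.map_pow] at ht
      induction ht using Submodule.span_induction with
      | mem s hs =>
        obtain ⟨s, hs, rfl⟩ := hs
        show ren N s • (x : JZero N) = 0
        rw [ren_smul, hn s hs]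
        rfl
      | zero => exact zero_smul HeckeAlg (x : JZero N)
      | add a b _ _ iha ihb => rw [add_smul, iha, ihb, add_zero]
      | smul a b _ ih =>
        rw [smul_eq_mul, mul_smul, ih]
        exact smul_zero (A := JZero N) a
  · rintro ⟨-, n, hn⟩
    refine ⟨n, fun t ht => Subtype.ext ?_⟩
    rw [← ren_smul]
    refine hn _ ?_
    rw [← map_P0, ← Ideal.map_pow]
    exact Ideal.mem_map_of_mem _ ht

theorem card_part_evJ [Fact r.Prime] :
    Nat.card (WSub N r (JZero N) 1) = Nat.card (part (evJ N r) (P0 N r)) := by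
  refine Nat.card_congr
    { toFun := fun x => ⟨⟨(x : JZero N), ?_⟩, ?_⟩
      invFun := fun x => ⟨((x : Jr N r) : JZero N), (mem_part_evJ N r _).mp x.2⟩
      left_inv := fun x => rfl
      right_inv := fun x => rfl }
  · rw [Pic0.mem_torsion, natCast_zsmul]
    have := x.2.1
    rw [pow_one] at this
    exact this
  · rw [mem_part_evJ]
    exact x.2

end JSide

section Final

variable (N : ℕ) [NeZero N] (r : ℕ) [hr : Fact r.Prime]

instance finite_Jr : Finite (Jr N r) := H90.finite_torsion_bar N hr.1.ne_zero

instance finite_S2_zmod : Finite (S2 N (ZMod r)) := Module.finite_of_finite (ZMod r)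

attribute [local instance] heckeModuleBar

/-- the orders of `W_k` in terms of mod `r` cusp forms -/
theorem cardW_aux (hN : N.Prime)
    (hJ : ∀ a : R0 N, (evJ N r a).charpoly =
      ((evMZ hN a).charpoly.map (Int.castRingHom (ZMod r))) ^ 2) :
    CardW N r (JZero N) (Module.finrank (ZMod r) (EisPart N (ZMod r))) := by
  have h1 : Module.finrank (ZMod r) (part (evJ N r) (P0 N r)) =
      2 * Module.finrank (ZMod r) (EisPart N (ZMod r)) := by
    rw [← finrank_part_evS hN]
    refine finrank_part_eq_mul 2 (evJ N r) (evS hN (ZMod r)) (P0 N r) fun a => ?_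
    rw [hJ, charpoly_evS]
  intro k
  rw [card_WSub (fun x => H17.jzero_divisible N hr.1.ne_zero x)
    (fun k => H90.finite_jzero N (pow_ne_zero k hr.1.ne_zero)) k, card_part_evJ,
    Module.natCard_eq_pow_finrank (K := ZMod r), Nat.card_zmod, h1, ← pow_mul]

end Final

/-- **MZ-J9** from the characteristic polynomials of Hecke operators on `J_0(N)[r]` -/
theorem cardW_of (hJ : ∀ (N : ℕ) [NeZero N] (hN : N.Prime) (r : ℕ) [Fact r.Prime], r ≠ N →
    ∀ a : R0 N, (evJ N r a).charpoly =
      ((evMZ hN a).charpoly.map (Int.castRingHom (ZMod r))) ^ 2) : T_cardW := by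
  intro N _ hN r hr hrN
  haveI : Fact r.Prime := ⟨hr⟩
  exact ⟨Module.finrank (ZMod r) (EisPart N (ZMod r)), cardW_aux N r hN (hJ N hN r hrN),
    fun k _ _ => finrank_EisPart⟩

end Fermat.Agent.H9
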