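import Fermat.Agent.H49HeckeBasic
import Fermat.Agent.H15Defs

/-!
# Mod `r` cusp forms: finiteness, Hecke operators, Eisenstein part
-/

set_option autoImplicit false
set_option linter.unusedSectionVars false

noncomputable section

open CongruenceSubgroup ModularFormClass
open Fermat.Agent.H49 (qCoeff_add qCoeff_zero qCoeff_zsmul qCoeff_heckeTLin
  eq_zero_of_qCoeff_sturm sturmB ext_of_forall_qCoeff qCoeff_sub)
open Fermat.Agent.H15 (Tq S2 TEis EisPart)

namespace Fermat.Agent.H9

section MZ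

variable (N : ℕ)

/-- integral `q`-expansions of cusp forms of weight two -/
def MZ : Submodule ℤ (PowerSeries ℤ) where
  carrier := {G | ∃ F : CuspForm (Gamma0 N) 2, ∀ n : ℕ,
    qCoeff F n = ((PowerSeries.coeff n G : ℤ) : ℂ)}
  zero_mem' := ⟨0, fun n => by rw [qCoeff_zero]; simp⟩
  add_mem' := by
    rintro G G' ⟨F, hF⟩ ⟨F', hF'⟩
    exact ⟨F + F', fun n => by rw [qCoeff_add, hF, hF', map_add, Int.cast_add]⟩
  smul_mem' := by
    rintro c G ⟨F, hF⟩
    exact ⟨c • F, fun n => by
      have h : PowerSeries.coeff n (c • G) = c * PowerSeries.coeff n G := by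
        have h1 : c • G = PowerSeries.C c * G := by
          rw [zsmul_eq_mul]; congr 1; ext m; simp
        rw [h1, PowerSeries.coeff_C_mul]
      rw [qCoeff_zsmul, hF, h, Int.cast_mul]⟩

theorem finite_MZ [NeZero N] : Module.Finite ℤ (MZ N) := by
  let t : MZ N →ₗ[ℤ] (Fin (sturmB N 2 + 1) → ℤ) :=
    (LinearMap.pi fun i : Fin (sturmB N 2 + 1) =>
      (PowerSeries.coeff (i : ℕ) : PowerSeries ℤ →ₗ[ℤ] ℤ)).comp (MZ N).subtype
  have ht : Function.Injective t := by
    refine (injective_iff_map_eq_zero t).mpr fun G hG => ?_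
    obtain ⟨G, F, hF⟩ := G
    have h0 : F = 0 := by
      refine eq_zero_of_qCoeff_sturm F fun n hn => ?_
      have h1 := congrFun hG ⟨n, Nat.lt_succ_of_le hn⟩
      have h2 : PowerSeries.coeff n G = 0 := h1
      rw [hF, h2, Int.cast_zero]
    apply Subtype.ext
    ext n
    have h3 := hF n
    rw [h0, qCoeff_zero] at h3
    have h4 : PowerSeries.coeff n G = 0 := by exact_mod_cast h3.symm
    rw [h4]
    simp
  exact Module.Finite.of_injective t ht

variable (k : Type) [Field k]

/-- reduction of integral power series -/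
def redZ : PowerSeries ℤ →+ PowerSeries k := (PowerSeries.map (Int.castRingHom k)).toAddMonoidHom

theorem S2_eq : S2 N k = Submodule.span k (redZ k '' (MZ N : Set (PowerSeries ℤ))) := by
  rw [S2]
  congr 1
  ext f
  constructor
  · rintro ⟨F, G, hF, rfl⟩
    exact ⟨G, ⟨F, hF⟩, rfl⟩
  · rintro ⟨G, ⟨F, hF⟩, rfl⟩
    exact ⟨F, G, hF, rfl⟩

theorem exists_finset_span_S2 [NeZero N] : ∃ s : Finset (PowerSeries ℤ),
    (∀ G ∈ s, G ∈ MZ N) ∧ S2 N k = Submodule.span k (redZ k '' (s : Set (PowerSeries ℤ))) := by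
  obtain ⟨s, hs⟩ := (Module.Finite.iff_fg.mp (finite_MZ N) : (MZ N).FG)
  refine ⟨s, fun G hG => hs ▸ Submodule.subset_span hG, ?_⟩
  rw [S2_eq]
  apply le_antisymm
  · rw [Submodule.span_le]
    rintro _ ⟨G, hG, rfl⟩
    have hG' : G ∈ Submodule.span ℤ (s : Set (PowerSeries ℤ)) := by rw [hs]; exact hG
    induction hG' using Submodule.span_induction with
    | mem x hx => exact Submodule.subset_span ⟨x, hx, rfl⟩
    | zero => rw [map_zero]; exact zero_mem _
    | add x y hx hy ihx ihy =>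
      rw [map_add]
      exact add_mem (ihx (hs ▸ hx)) (ihy (hs ▸ hy))
    | smul a x hx ih =>
      rw [map_zsmul, ← Int.cast_smul_eq_zsmul k]
      exact Submodule.smul_mem _ _ (ih (hs ▸ hx))
  · apply Submodule.span_mono
    apply Set.image_mono
    intro G hG
    rw [← hs]
    exact Submodule.subset_span hG

instance finite_S2 [NeZero N] : Module.Finite k (S2 N k) := by
  obtain ⟨s, -, hs⟩ := exists_finset_span_S2 N k
  rw [hs]
  exact Module.Finite.iff_fg.mpr (Submodule.fg_span ((Finset.finite_toSet s).image _))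

theorem EisPart_le_S2 [NeZero N] : EisPart N k ≤ S2 N k := fun _ hf => hf.1

instance finite_EisPart [NeZero N] : Module.Finite k (EisPart N k) :=
  Submodule.finiteDimensional_of_le (EisPart_le_S2 N k)

end MZ

section Hecke

variable {N : ℕ} [NeZero N] {k : Type} [Field k]

/-- the Hecke operator on integral power series -/
def TZ (q : ℕ) (G : PowerSeries ℤ) : PowerSeries ℤ :=
  PowerSeries.mk fun n =>
    PowerSeries.coeff (q * n) G + if q ∣ n then (q : ℤ) * PowerSeries.coeff (n / q) G else 0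

theorem TZ_mem {q : ℕ} (hq : q.Prime) (hqN : ¬ q ∣ N) {G : PowerSeries ℤ} (hG : G ∈ MZ N) :
    TZ q G ∈ MZ N := by
  obtain ⟨F, hF⟩ := hG
  refine ⟨CuspForm.heckeTLin 2 hq hqN F, fun n => ?_⟩
  rw [qCoeff_heckeTLin, TZ, PowerSeries.coeff_mk, hF, hF, mul_comm q n]
  push_cast
  congr 1
  split_ifs with h
  · norm_num
  · simp

theorem Tq_redZ (q : ℕ) (G : PowerSeries ℤ) : Tq k q (redZ k G) = redZ k (TZ q G) := by
  ext n
  show PowerSeries.coeff n (PowerSeries.mk fun n =>
    PowerSeries.coeff (q * n) (redZ k G) +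
      if q ∣ n then (q : k) * PowerSeries.coeff (n / q) (redZ k G) else 0) = _
  have h : ∀ (H : PowerSeries ℤ) (m : ℕ), PowerSeries.coeff m (redZ k H) =
      ((PowerSeries.coeff m H : ℤ) : k) := by
    intro H m
    show PowerSeries.coeff m (PowerSeries.map (Int.castRingHom k) H) = _
    rw [PowerSeries.coeff_map]
    rfl
  rw [PowerSeries.coeff_mk, h, h, h, TZ, PowerSeries.coeff_mk]
  push_cast
  rfl

theorem Tq_mem_S2 {q : ℕ} (hq : q.Prime) (hqN : ¬ q ∣ N) {f : PowerSeries k} (hf : f ∈ S2 N k) :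
    Tq k q f ∈ S2 N k := by
  rw [S2_eq] at hf ⊢
  induction hf using Submodule.span_induction with
  | mem x hx =>
    obtain ⟨G, hG, rfl⟩ := hx
    rw [Tq_redZ]
    exact Submodule.subset_span ⟨_, TZ_mem hq hqN hG, rfl⟩
  | zero => rw [map_zero]; exact zero_mem _
  | add x y _ _ ihx ihy => rw [map_add]; exact add_mem ihx ihy
  | smul a x _ ih => rw [map_smul]; exact Submodule.smul_mem _ _ ih

theorem coeff_Tq (q n : ℕ) (f : PowerSeries k) : PowerSeries.coeff n (Tq k q f) =
    PowerSeries.coeff (q * n) f + if q ∣ n then (q : k) * PowerSeries.coeff (n / q) f else 0 := by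
  show PowerSeries.coeff n (PowerSeries.mk fun n =>
    PowerSeries.coeff (q * n) f + if q ∣ n then (q : k) * PowerSeries.coeff (n / q) f else 0) = _
  rw [PowerSeries.coeff_mk]

/-- The Hecke operators at distinct primes commute on all power series. -/
theorem Tq_comm_of_ne {q q' : ℕ} (hq : q.Prime) (hq' : q'.Prime) (hne : q ≠ q')
    (f : PowerSeries k) : Tq k q (Tq k q' f) = Tq k q' (Tq k q f) := by
  have hcop : Nat.Coprime q q' := (Nat.coprime_primes hq hq').mpr hne
  ext n
  rw [coeff_Tq, coeff_Tq, coeff_Tq, coeff_Tq, coeff_Tq, coeff_Tq]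
  have e1 : q' * (q * n) = q * (q' * n) := by ring
  have e2 : (q' ∣ q * n) ↔ q' ∣ n := hcop.symm.dvd_mul_left
  have e3 : (q ∣ q' * n) ↔ q ∣ n := hcop.dvd_mul_left
  rw [e1]
  simp only [e2, e3]
  by_cases h1 : q ∣ n <;> by_cases h2 : q' ∣ n
  · obtain ⟨m, hm⟩ := hcop.mul_dvd_of_dvd_of_dvd h1 h2
    subst hm
    have d1 : q * q' * m / q = q' * m := by
      rw [mul_assoc, Nat.mul_div_cancel_left _ hq.pos]
    have d2 : q * q' * m / q' = q * m := by
      rw [show q * q' * m = q' * (q * m) by ring, Nat.mul_div_cancel_left _ hq'.pos]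
    have d3 : q * (q * q' * m) / q' = q * (q * m) := by
      rw [show q * (q * q' * m) = q' * (q * (q * m)) by ring, Nat.mul_div_cancel_left _ hq'.pos]
    have d4 : q' * (q * q' * m) / q = q' * (q' * m) := by
      rw [show q' * (q * q' * m) = q * (q' * (q' * m)) by ring, Nat.mul_div_cancel_left _ hq.pos]
    have d5 : q' * m / q' = m := Nat.mul_div_cancel_left _ hq'.pos
    have d6 : q * m / q = m := Nat.mul_div_cancel_left _ hq.pos
    rw [if_pos h1, if_pos h2, if_pos h2, if_pos h1, d1, d2, d3, d4, d5, d6,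
      if_pos (Dvd.intro m rfl), if_pos (Dvd.intro m rfl)]
    ring
  · have h3 : ¬ q' ∣ n / q := fun h => h2 (h.trans (Nat.div_dvd_of_dvd h1))
    obtain ⟨m, rfl⟩ := h1
    have d1 : q * m / q = m := Nat.mul_div_cancel_left _ hq.pos
    have d4 : q' * (q * m) / q = q' * m := by
      rw [show q' * (q * m) = q * (q' * m) by ring, Nat.mul_div_cancel_left _ hq.pos]
    rw [d1] at h3 ⊢
    rw [if_neg h2, if_pos (Dvd.intro m rfl), if_neg h3, if_pos (Dvd.intro m rfl), if_neg h2, d4]
    ring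
  · have h3 : ¬ q ∣ n / q' := fun h => h1 (h.trans (Nat.div_dvd_of_dvd h2))
    obtain ⟨m, rfl⟩ := h2
    have d1 : q' * m / q' = m := Nat.mul_div_cancel_left _ hq'.pos
    have d4 : q * (q' * m) / q' = q * m := by
      rw [show q * (q' * m) = q' * (q * m) by ring, Nat.mul_div_cancel_left _ hq'.pos]
    rw [d1] at h3 ⊢
    rw [if_neg h1, if_pos (Dvd.intro m rfl), if_neg h3, if_pos (Dvd.intro m rfl), if_neg h1, d4]
    ring
  · rw [if_neg h1, if_neg h2, if_neg h1, if_neg h2]

theorem Tq_comm {q q' : ℕ} (hq : q.Prime) (hq' : q'.Prime) (f : PowerSeries k) :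
    Tq k q (Tq k q' f) = Tq k q' (Tq k q f) := by
  by_cases h : q = q'
  · subst h; rfl
  · exact Tq_comm_of_ne hq hq' h f

theorem TEis_apply (q : ℕ) (f : PowerSeries k) : TEis k q f = Tq k q f - (1 + (q : k)) • f := rfl

theorem TEis_Tq {q q' : ℕ} (hq : q.Prime) (hq' : q'.Prime) (f : PowerSeries k) :
    TEis k q (Tq k q' f) = Tq k q' (TEis k q f) := by
  rw [TEis_apply, TEis_apply, map_sub, map_smul, Tq_comm hq hq']

theorem prod_TEis_Tq {q : ℕ} (hq : q.Prime) (l : List ℕ) (hl : ∀ x ∈ l, x.Prime)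
    (f : PowerSeries k) : (l.map (TEis k)).prod (Tq k q f) = Tq k q ((l.map (TEis k)).prod f) := by
  induction l with
  | nil => rfl
  | cons a l ih =>
    rw [List.map_cons, List.prod_cons, Module.End.mul_apply, Module.End.mul_apply,
      ih fun x hx => hl x (List.mem_cons_of_mem a hx), TEis_Tq (hl a List.mem_cons_self) hq]

theorem Tq_mem_EisPart {q : ℕ} (hq : q.Prime) (hqN : ¬ q ∣ N) {f : PowerSeries k}
    (hf : f ∈ EisPart N k) : Tq k q f ∈ EisPart N k := by
  obtain ⟨h1, n, hn⟩ := hf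
  refine ⟨Tq_mem_S2 hq hqN h1, n, fun l hl hp => ?_⟩
  rw [prod_TEis_Tq hq l (fun x hx => (hp x hx).1), hn l hl hp, map_zero]

end Hecke

end Fermat.Agent.H9
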