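import Fermat.Agent.H9Theta

/-!
# The Atkin-Lehner involution of the function field of `X_0(p)` (any characteristic `≠ p`)
-/

set_option autoImplicit false
set_option linter.unusedSectionVars false

noncomputable section

open ModularCurve Polynomial IntermediateField
open Fermat.Agent.H61 Fermat.Agent.H28 Fermat.Agent.H66

namespace Fermat.Agent.H9

variable {K : Type*} [Field K] {p : ℕ} [Fact p.Prime]

theorem J_one_mem : J K 1 ∈ modularFunctionFieldFullC K p :=
  J_mem (Fact.out : p.Prime).ne_zero (one_dvd _)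

theorem J_p_mem : J K p ∈ modularFunctionFieldFullC K p :=
  J_mem (Fact.out : p.Prime).ne_zero dvd_rfl

variable (K p) in
/-- `j` as an element of the function field of `X_0(p)`. -/
def j₁ : modularFunctionFieldFullC K p := ⟨J K 1, J_one_mem⟩

variable (K p) in
/-- `j(pτ)` as an element of the function field of `X_0(p)`. -/
def jₚ : modularFunctionFieldFullC K p := ⟨J K p, J_p_mem⟩

theorem full_eq_adjoin : modularFunctionFieldFullC K p = adjoin K {J K 1, J K p} := by
  have hp : p.Prime := Fact.out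
  apply le_antisymm
  · rw [full_le_iff hp.ne_zero]
    intro d hd
    rcases (Nat.dvd_prime hp).1 hd with rfl | rfl
    · exact subset_adjoin _ _ (by simp)
    · exact subset_adjoin _ _ (by simp)
  · rw [adjoin_le_iff]
    rintro x (rfl | rfl)
    · exact J_one_mem
    · exact J_p_mem

/-- Two homomorphisms out of `F_p` agreeing on `j`, `j_p` are equal. -/
theorem algHom_ext {L : Type*} [Field L] [Algebra K L]
    {f g : modularFunctionFieldFullC K p →ₐ[K] L} (h1 : f (j₁ K p) = g (j₁ K p))
    (h2 : f (jₚ K p) = g (jₚ K p)) : f = g := by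
  refine IntermediateField.algHom_ext_of_eq_adjoin K full_eq_adjoin ?_
  rintro x (rfl | rfl)
  · exact h1
  · exact h2

section Swap

variable {u : Kˣ}

theorem exists_algHom_swap (hp0 : (p : K) ≠ 0) (hu : IsPrimitiveRoot u p) :
    ∃ W : modularFunctionFieldFullC K p →ₐ[K] LaurentSeries K,
      W (j₁ K p) = J K p ∧ W (jₚ K p) = J K 1 := by
  have hp : p.Prime := Fact.out
  have hmod := modEq_field K p u hu
  obtain ⟨Φ, hmon, hdeg, hΦ⟩ := exists_poly _ hmod.phi
  set F := modularFunctionFieldFullC K p with hF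
  set E : IntermediateField K (LaurentSeries K) := K⟮jqModC K⟯ with hE
  have hJ1E : J K 1 ∈ E := by rw [J_one]; exact mem_adjoin_simple_self K _
  have hEF : E ≤ F := adjoin_j_le_full K _
  have hJp : J K p ∉ E := J_notMem hmod hp0
  have hroot1 : (phiAt K Φ (J K 1)).eval (J K p) = 0 := by
    have := eval_root1 hΦ 1
    rwa [mul_one] at this
  have hroot2 : (phiAt K Φ (J K p)).eval (J K 1) = 0 := by
    have := eval_root2 hΦ 1
    rwa [mul_one] at this
  have hint : IsIntegral E (J K p) := isIntegral_of_root hmon E hJ1E hroot1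
  have hgen : extendScalars hEF = E⟮J K p⟯ :=
    extendScalars_eq_adjoin hEF J_p_mem fun F' h1 h2 => by
      rw [hF, full_eq_adjoin, adjoin_le_iff]
      rintro x (rfl | rfl)
      · exact h1 hJ1E
      · exact h2
  -- minimal polynomial
  have hp1 : ¬ p ∣ 1 := fun h => hp.one_lt.ne' (Nat.dvd_one.1 h)
  have hmd : (minpoly E (J K p)).natDegree = p + 1 := by
    have := natDegree_minpoly_eq hmon hΦ E 1 hp1 hJ1E (by rwa [mul_one])
    rwa [mul_one] at this
  have hmin : (minpoly E (J K p)).map (algebraMap E (LaurentSeries K)) = phiAt K Φ (J K 1) := by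
    symm
    refine Polynomial.eq_of_monic_of_dvd_of_natDegree_le ((minpoly.monic hint).map _)
      (phiAt_monic hmon _) (minpoly_dvd_phiAt hmon E hJ1E hroot1) ?_
    rw [natDegree_map, hmd, ← hdeg, phiAt]
    exact natDegree_map_le
  -- the twisted embedding of `E`
  let s : E →+* LaurentSeries K := (qExpand K p).comp (algebraMap E (LaurentSeries K))
  have hs : (minpoly E (J K p)).eval₂ s (J K 1) = 0 := by
    rw [← Polynomial.eval_map, ← Polynomial.map_map, hmin, phiAt_map, qExpand_J, mul_one]
    exact hroot2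
  let W1 : AdjoinRoot (minpoly E (J K p)) →+* LaurentSeries K := AdjoinRoot.lift s (J K 1) hs
  let e : AdjoinRoot (minpoly E (J K p)) ≃ₐ[E] E⟮J K p⟯ := adjoinRootEquivAdjoin E hint
  let inc : F →+* E⟮J K p⟯ :=
    { toFun := fun x => ⟨x.1, by rw [← hgen]; exact x.2⟩
      map_one' := rfl
      map_mul' := fun _ _ => rfl
      map_zero' := rfl
      map_add' := fun _ _ => rfl }
  let W2 : F →+* LaurentSeries K := W1.comp ((e.symm : E⟮J K p⟯ →+* _).comp inc)
  have hW_E : ∀ (x : LaurentSeries K) (hx : x ∈ E), W2 ⟨x, hEF hx⟩ = qExpand K p x := by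
    intro x hx
    have h1 : inc ⟨x, hEF hx⟩ = algebraMap E E⟮J K p⟯ ⟨x, hx⟩ := rfl
    show W1 (e.symm (inc ⟨x, hEF hx⟩)) = _
    rw [h1, e.symm.commutes]
    show AdjoinRoot.lift s (J K 1) hs (AdjoinRoot.of _ _) = _
    rw [AdjoinRoot.lift_of]
    rfl
  refine ⟨{ W2 with commutes' := fun c => ?_ }, ?_, ?_⟩
  · show W2 (algebraMap K F c) = _
    have h1 := hW_E (algebraMap K (LaurentSeries K) c) (E.algebraMap_mem c)
    have h2 : (⟨algebraMap K (LaurentSeries K) c, hEF (E.algebraMap_mem c)⟩ : F) =
      algebraMap K F c := rfl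
    rw [h2] at h1
    rw [h1, algebraMap_eq_C, qExpand_C]
  · show W2 (j₁ K p) = J K p
    rw [j₁, hW_E (J K 1) hJ1E, qExpand_J, mul_one]
  · show W2 (jₚ K p) = J K 1
    have h1 : inc (jₚ K p) = AdjoinSimple.gen E (J K p) := rfl
    show W1 (e.symm (inc (jₚ K p))) = _
    rw [h1]
    have h2 : e.symm (AdjoinSimple.gen E (J K p)) = AdjoinRoot.root _ := by
      rw [AlgEquiv.symm_apply_eq]
      exact (adjoinRootEquivAdjoin_apply_root E hint).symm
    rw [h2]
    exact AdjoinRoot.lift_root hs

/-- The Atkin-Lehner involution `w : j ↔ j_p`. -/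
theorem exists_swap (hp0 : (p : K) ≠ 0) (hu : IsPrimitiveRoot u p) :
    ∃ w : modularFunctionFieldFullC K p ≃ₐ[K] modularFunctionFieldFullC K p,
      w (j₁ K p) = jₚ K p ∧ w (jₚ K p) = j₁ K p := by
  obtain ⟨W, h1, h2⟩ := exists_algHom_swap hp0 hu
  have hmem : ∀ x, W x ∈ modularFunctionFieldFullC K p := by
    intro x
    set S := (modularFunctionFieldFullC K p).comap W with hS
    have hle : modularFunctionFieldFullC K p ≤ S.map (modularFunctionFieldFullC K p).val := by
      conv_lhs => rw [full_eq_adjoin]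
      rw [adjoin_le_iff]
      rintro y (rfl | rfl)
      · have h3 : W (j₁ K p) ∈ modularFunctionFieldFullC K p := by rw [h1]; exact J_p_mem
        exact ⟨j₁ K p, h3, rfl⟩
      · have h3 : W (jₚ K p) ∈ modularFunctionFieldFullC K p := by rw [h2]; exact J_one_mem
        exact ⟨jₚ K p, h3, rfl⟩
    obtain ⟨y, hy, hyx⟩ := hle x.2
    have : y = x := Subtype.ext hyx
    subst this
    exact hy
  let w : modularFunctionFieldFullC K p →ₐ[K] modularFunctionFieldFullC K p :=
    W.codRestrict (modularFunctionFieldFullC K p).toSubalgebra hmem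
  have hw1 : w (j₁ K p) = jₚ K p := Subtype.ext h1
  have hw2 : w (jₚ K p) = j₁ K p := Subtype.ext h2
  have hww : w.comp w = AlgHom.id K _ := by
    apply algHom_ext
    · show w (w (j₁ K p)) = j₁ K p
      rw [hw1, hw2]
    · show w (w (jₚ K p)) = jₚ K p
      rw [hw2, hw1]
  exact ⟨AlgEquiv.ofAlgHom w w hww hww, hw1, hw2⟩

end Swap

end Fermat.Agent.H9
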