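import Fermat.Agent.H61Formal
import Fermat.Agent.H66Degree

/-!
# The modular unit `Δ(pτ)/Δ(τ)` lies in the function field of `X_0(p)` (any characteristic)

`(θ j)^6 = j^4 (j - 1728)^3 Δ` and `θ j_p / θ j ∈ F_p`.
-/

set_option autoImplicit false
set_option linter.unusedSectionVars false

noncomputable section

open ModularCurve Polynomial IntermediateField
open Fermat.Agent.H61 Fermat.Agent.H28 Fermat.Agent.H66

namespace Fermat.Agent.H9

section Theta

variable {R : Type*} [CommRing R]

theorem theta_qExpand (p : ℕ) [NeZero p] (a : LaurentSeries R) :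
    theta (qExpand R p a) = (p : LaurentSeries R) * qExpand R p (theta a) := by
  have hC : (p : LaurentSeries R) = HahnSeries.C (p : R) := by simp
  ext n
  rw [coeff_theta, hC, HahnSeries.C_mul_eq_smul, HahnSeries.coeff_smul, smul_eq_mul]
  by_cases hn : (p : ℤ) ∣ n
  · obtain ⟨m, rfl⟩ := hn
    rw [qExpand_coeff_mul, qExpand_coeff_mul, coeff_theta]
    push_cast
    ring
  · rw [qExpand_coeff_of_not_dvd p a hn, qExpand_coeff_of_not_dvd p _ hn, mul_zero, mul_zero]

/-- `(θ j)^6 = j^4 (j - 1728)^3 Δ`. -/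
theorem theta_jqModC_pow_six :
    theta (jqModC R) ^ 6 = jqModC R ^ 4 * (jqModC R - 1728) ^ 3 * deltaL R := by
  have h1 := jqModC_mul_deltaL (R := R)
  have h2 := jqModC_sub_mul_deltaL (R := R)
  have h3 := theta_jqModC_mul_deltaL (R := R)
  have h4 := deltaL_mul_deltaInvL R
  have h5 : theta (jqModC R) ^ 6 * deltaL R ^ 6 =
      (jqModC R ^ 4 * (jqModC R - 1728) ^ 3 * deltaL R) * deltaL R ^ 6 := by
    calc theta (jqModC R) ^ 6 * deltaL R ^ 6 = (theta (jqModC R) * deltaL R) ^ 6 := by ring
      _ = (E4L R ^ 3) ^ 4 * (E6L R ^ 2) ^ 3 := by rw [h3]; ring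
      _ = (jqModC R * deltaL R) ^ 4 * ((jqModC R - 1728) * deltaL R) ^ 3 := by rw [h1, h2]
      _ = _ := by ring
  have h6 : deltaL R ^ 6 * deltaInvL R ^ 6 = 1 := by
    rw [← mul_pow, h4, one_pow]
  calc theta (jqModC R) ^ 6 = theta (jqModC R) ^ 6 * deltaL R ^ 6 * deltaInvL R ^ 6 := by
        rw [mul_assoc, h6, mul_one]
    _ = (jqModC R ^ 4 * (jqModC R - 1728) ^ 3 * deltaL R) * (deltaL R ^ 6 * deltaInvL R ^ 6) := by
        rw [h5]; ring
    _ = _ := by rw [h6, mul_one]

end Theta

section Field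

variable {K : Type*} [Field K]

/-- The derivative of a polynomial relation. -/
theorem exists_theta_eval (F : IntermediateField K (LaurentSeries K)) {x y : LaurentSeries K}
    (hx : x ∈ F) (hy : y ∈ F) (Φ : K[X][X]) :
    ∃ a ∈ F, theta ((phiAt K Φ x).eval y) =
      a * theta x + (phiAt K Φ x).derivative.eval y * theta y := by
  induction Φ using Polynomial.induction_on' with
  | add P Q hP hQ =>
    obtain ⟨a, ha, h1⟩ := hP
    obtain ⟨b, hb, h2⟩ := hQ
    refine ⟨a + b, add_mem ha hb, ?_⟩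
    have hadd : phiAt K (P + Q) x = phiAt K P x + phiAt K Q x := by
      rw [phiAt, phiAt, phiAt, Polynomial.map_add]
    rw [hadd, eval_add, theta_add, h1, h2, derivative_add, eval_add]
    ring
  | monomial n P =>
    have hmon : phiAt K (monomial n P) x = monomial n (aeval x P) := by
      rw [phiAt, Polynomial.map_monomial]
      rfl
    have hP : ∀ P : K[X], ∃ a ∈ F, theta (aeval x P) = a * theta x := by
      intro P
      induction P using Polynomial.induction_on' with
      | add P Q hP hQ =>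
        obtain ⟨a, ha, h1⟩ := hP
        obtain ⟨b, hb, h2⟩ := hQ
        exact ⟨a + b, add_mem ha hb, by rw [map_add, theta_add, h1, h2]; ring⟩
      | monomial m c =>
        refine ⟨HahnSeries.C c * ((m : LaurentSeries K) * x ^ (m - 1)), ?_, ?_⟩
        · refine mul_mem ?_ (mul_mem (_root_.natCast_mem _ _) (pow_mem hx _))
          rw [← algebraMap_eq_C]
          exact F.algebraMap_mem c
        · rw [aeval_monomial, algebraMap_eq_C, theta_mul, theta_C, theta_pow]
          ring
    obtain ⟨a, ha, h1⟩ := hP P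
    refine ⟨a * y ^ n, mul_mem ha (pow_mem hy n), ?_⟩
    rw [hmon, eval_monomial, theta_mul, h1, theta_pow, derivative_monomial, eval_monomial]
    ring

/-- `Δ(pτ)/Δ(τ)` as a Laurent series. -/
def deltaRatio (K : Type*) [Field K] (p : ℕ) [NeZero p] : LaurentSeries K :=
  qExpand K p (deltaL K) * deltaInvL K

theorem deltaL_ne_zero : deltaL K ≠ 0 := (hasLead_deltaL K).ne_zero one_ne_zero

theorem deltaInvL_eq : deltaInvL K = (deltaL K)⁻¹ :=
  eq_inv_of_mul_eq_one_right (deltaL_mul_deltaInvL K)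

theorem deltaRatio_eq_div (p : ℕ) [NeZero p] :
    deltaRatio K p = qExpand K p (deltaL K) / deltaL K := by
  rw [deltaRatio, deltaInvL_eq, div_eq_mul_inv]

theorem hasLead_deltaRatio (p : ℕ) [NeZero p] : HasLead (deltaRatio K p) (p - 1) 1 := by
  have h := ((hasLead_deltaL K).qExpand p).mul (hasLead_deltaInvL K)
  rw [mul_one, mul_one] at h
  exact h

theorem deltaRatio_ne_zero (p : ℕ) [NeZero p] : deltaRatio K p ≠ 0 :=
  (hasLead_deltaRatio p).ne_zero one_ne_zero

theorem theta_jqModC_ne_zero : theta (jqModC K) ≠ 0 := by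
  intro h
  have h1 : (theta (jqModC K)).coeff (-1) = 0 := by rw [h]; rfl
  rw [coeff_theta, coeff_jqModC_neg_one] at h1
  simp at h1

theorem J_sub_ne_zero (d : ℕ) [NeZero d] : J K d - 1728 ≠ 0 := by
  intro h
  have h1 := (hasLead_J K d).1
  rw [sub_eq_zero.mp h] at h1
  have h2 : (1728 : LaurentSeries K) = HahnSeries.C (1728 : K) := (map_ofNat HahnSeries.C 1728).symm
  have hd : (-(d : ℤ)) ≠ 0 := by
    have := NeZero.ne d
    omega
  rw [h2, HahnSeries.C_apply, HahnSeries.coeff_single_of_ne hd] at h1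
  exact zero_ne_one h1

theorem J_ne_zero (d : ℕ) [NeZero d] : J K d ≠ 0 := (hasLead_J K d).ne_zero one_ne_zero

section Ratio

variable {p : ℕ} [Fact p.Prime] {u : Kˣ} {Φ : K[X][X]}

/-- distinctness of the conjugates of `j(pτ)`: the derivative of the modular polynomial at
`(j, j_p)` is nonzero. -/
theorem eval_derivative_phiAt_one_ne_zero
    (hΦ : phiAt K Φ (J K p) = ∏ a, (X - C (jf K p u a))) :
    (phiAt K Φ (J K 1)).derivative.eval (J K p) ≠ 0 := by
  have hp : p.Prime := Fact.out
  intro h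
  have h1 := congrArg (qExpand K p) h
  rw [map_zero, ← Polynomial.eval_map_apply, ← Polynomial.derivative_map, phiAt_map_p hΦ,
    qExpand_J] at h1
  simp only [qExpand_one_apply] at h1
  rw [Fintype.prod_option, derivative_mul, eval_add, eval_mul, eval_mul, derivative_sub,
    derivative_X, derivative_C, sub_zero, eval_one, one_mul] at h1
  have h2 : J K (p * p) = jf K p u none := by
    rw [jf_none, ← J_one, qExpand_J, qExpand_J, mul_one]
  rw [h2, eval_sub, eval_X, eval_C, sub_self, zero_mul, add_zero, eval_prod,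
    Finset.prod_eq_zero_iff] at h1
  obtain ⟨i, -, hi⟩ := h1
  rw [eval_sub, eval_X, eval_C, sub_eq_zero] at hi
  refine (hasLead_jf_none p u).ne (hasLead_jf_some p u i) one_ne_zero (Units.ne_zero _) ?_ hi
  have := hp.one_lt
  nlinarith

/-- `θ j_p = z θ j` with `z ∈ F_p`. -/
theorem exists_theta_J_eq (hu : IsPrimitiveRoot u p) :
    ∃ z ∈ modularFunctionFieldFullC K p, theta (J K p) = z * theta (J K 1) := by
  have hp : p.Prime := Fact.out
  obtain ⟨Φ, hmon, hdeg, hΦ⟩ := exists_poly _ (modEq_field K p u hu).phi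
  set F := modularFunctionFieldFullC K p with hF
  have hx : J K 1 ∈ F := J_mem hp.ne_zero (one_dvd _)
  have hy : J K p ∈ F := J_mem hp.ne_zero dvd_rfl
  have hroot : (phiAt K Φ (J K 1)).eval (J K p) = 0 := by
    have := eval_root1 hΦ 1
    rwa [mul_one] at this
  obtain ⟨a, ha, h⟩ := exists_theta_eval F hx hy Φ
  rw [hroot, theta_zero] at h
  set B := (phiAt K Φ (J K 1)).derivative.eval (J K p) with hB
  have hB0 : B ≠ 0 := eval_derivative_phiAt_one_ne_zero hΦ
  have hBF : B ∈ F := by
    obtain ⟨G, hG, -⟩ := exists_phiAt_field F hx Φ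
    have : B = algebraMap F (LaurentSeries K) (G.derivative.eval ⟨J K p, hy⟩) := by
      rw [hB, ← hG, Polynomial.derivative_map, Polynomial.eval_map_algebraMap,
        Polynomial.aeval_def, Polynomial.eval₂_eq_eval_map]
      rw [← Polynomial.eval_map_apply]
      rfl
    rw [this]
    exact SetLike.coe_mem _
  refine ⟨-a / B, div_mem (neg_mem ha) hBF, ?_⟩
  field_simp
  linear_combination -h

/-- `Δ(pτ)/Δ(τ)` is in the function field of `X_0(p)`, in any characteristic `≠ p`. -/
theorem deltaRatio_mem (hp0 : (p : K) ≠ 0) (hu : IsPrimitiveRoot u p) :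
    deltaRatio K p ∈ modularFunctionFieldFullC K p := by
  have hp : p.Prime := Fact.out
  obtain ⟨z, hz, h⟩ := exists_theta_J_eq hu
  set F := modularFunctionFieldFullC K p with hF
  have hx : J K 1 ∈ F := J_mem hp.ne_zero (one_dvd _)
  have hy : J K p ∈ F := J_mem hp.ne_zero dvd_rfl
  have h1 : theta (J K 1) ^ 6 = J K 1 ^ 4 * (J K 1 - 1728) ^ 3 * deltaL K := by
    rw [J_one]; exact theta_jqModC_pow_six
  have h2 := congrArg (qExpand K p) h1
  rw [map_pow, map_mul, map_mul, map_pow, map_pow, map_sub, qExpand_J, mul_one, map_ofNat] at h2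
  have h3 : theta (J K p) = (p : LaurentSeries K) * qExpand K p (theta (J K 1)) := by
    rw [← theta_qExpand, qExpand_J, mul_one]
  have h4 : z ^ 6 * (J K 1 ^ 4 * (J K 1 - 1728) ^ 3 * deltaL K) =
      (p : LaurentSeries K) ^ 6 * (J K p ^ 4 * (J K p - 1728) ^ 3 * qExpand K p (deltaL K)) := by
    rw [← h1, ← h2, ← mul_pow, ← mul_pow, ← h, h3]
  have hpL : (p : LaurentSeries K) ≠ 0 := by
    have : (p : LaurentSeries K) = HahnSeries.C (p : K) := by simp
    rw [this]
    exact (_root_.map_ne_zero HahnSeries.C).mpr hp0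
  have hΔ := deltaL_ne_zero (K := K)
  have hy0 := J_ne_zero (K := K) p
  have hy1 := J_sub_ne_zero (K := K) p
  have h5 : deltaRatio K p = z ^ 6 * (J K 1 ^ 4 * (J K 1 - 1728) ^ 3) /
      ((p : LaurentSeries K) ^ 6 * (J K p ^ 4 * (J K p - 1728) ^ 3)) := by
    rw [deltaRatio_eq_div, div_eq_div_iff hΔ (by positivity)]
    linear_combination -h4
  rw [h5]
  have h1728 : (1728 : LaurentSeries K) ∈ F := by exact_mod_cast _root_.natCast_mem F 1728
  exact div_mem (mul_mem (pow_mem hz _) (mul_mem (pow_mem hx _) (pow_mem (sub_mem hx h1728) _)))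
    (mul_mem (pow_mem (_root_.natCast_mem _ _) _) (mul_mem (pow_mem hy _)
      (pow_mem (sub_mem hy h1728) _)))

end Ratio

end Field

end Fermat.Agent.H9
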