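import Fermat.Agent.H9ZRad

/-!
# Kernels on `(H3)^ι`, part 2 (helper9): continuity, tensors, approximate identities

* `Ker.continuous_Rk`: `Rk κ Φ` is continuous for locally integrable `Φ`;
* `tens k t = ∏ j, k j (t j)`, `ker_tens`, `hat_tens`;
* `ap n : ℝ → ℝ` smooth, `≥ 0`, zero for `t ≥ 1 + 1/(n+1)`, `hat1 (ap n) = 1`;
* `tendsto_ap`: `Rk (tens fun _ => ap n) Φ → Φ` locally uniformly for continuous `Φ`;
* `eig1_of_tensor`: the one variable property follows from the property of pure tensors.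
-/

set_option autoImplicit false
set_option linter.unusedSectionVars false

noncomputable section

open MeasureTheory Set Filter Topology
open scoped Real ContDiff

namespace Fermat.Agent.H9Z

open Fermat.Agent.H5Z (chv Rk continuous_chv)

variable {ι : Type*} [Fintype ι]

/-! ### Uniform compactness, continuity -/

lemma exists_compact_pball {N : Set (ι → H3)} (hN : IsCompact N) (T : ℝ) :
    ∃ K : Set (ι → H3), IsCompact K ∧ ∀ w ∈ N, pball w T ⊆ K := by
  set T' := max T 1 with hT'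
  have h1T : 1 ≤ T' := le_max_right _ _
  have hz : ∀ j : ι, ∃ A, ∀ w ∈ N, ‖(w j).z‖ ≤ A := fun j =>
    hN.exists_bound_of_continuousOn (H3.continuous_z.comp (continuous_apply j)).continuousOn
  have hy : ∀ j : ι, ∃ B, ∀ w ∈ N, ‖Real.log (w j).y‖ ≤ B := fun j =>
    hN.exists_bound_of_continuousOn
      (((H3.continuous_y.comp (continuous_apply j)).log fun w => (w j).pos.ne').continuousOn)
  choose A hA using hz
  choose B hB using hy
  refine ⟨Set.pi univ fun j => H3.coord.symm ''
    ((Metric.closedBall (0 : ℂ) ((A j + 2 * T' * Real.exp (B j)) * (2 * T' * Real.exp (B j)))) ×ˢ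
      (Icc (-(B j + Real.log (2 * T'))) (B j + Real.log (2 * T')))), ?_, ?_⟩
  · refine isCompact_univ_pi fun j => ?_
    exact ((isCompact_closedBall _ _).prod isCompact_Icc).image H3.coord.symm.continuous
  · intro w hw w' hw'
    rw [Set.mem_pi]
    intro j _
    have h := hw' j
    obtain ⟨h1, h2⟩ := coord_mem_of_ch_le (T := T') h1T (hA j w hw)
      (by simpa using hB j w hw) (h.trans (le_max_left _ _))
    refine ⟨H3.coord (w' j), ⟨?_, ?_⟩, H3.coord.symm_apply_apply _⟩
    · rwa [mem_closedBall_zero_iff]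
    · rw [mem_Icc]; exact abs_le.mp h2

lemma Ker.exists_bound {κ : (ι → ℝ) → ℂ} (hκ : Ker κ) :
    ∃ M : ℝ, 0 ≤ M ∧ ∀ t : ι → ℝ, (∀ j, 1 ≤ t j) → ‖κ t‖ ≤ M := by
  obtain ⟨T, hT⟩ := hκ.supp
  have hc : IsCompact (Set.pi univ fun _ : ι => Icc (1 : ℝ) T) :=
    isCompact_univ_pi fun _ => isCompact_Icc
  obtain ⟨M, hM⟩ := hc.exists_bound_of_continuousOn
    (hκ.cont.mono fun t ht j => (ht j (mem_univ j)).1)
  refine ⟨max M 0, le_max_right _ _, fun t ht => ?_⟩
  by_cases h : ∃ j, T < t j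
  · rw [hT t ht h, norm_zero]; exact le_max_right _ _
  · push Not at h
    exact (hM t fun j _ => ⟨ht j, h j⟩).trans (le_max_left _ _)

/-- `Rk κ Φ` is continuous. -/
theorem Ker.continuous_Rk {κ : (ι → ℝ) → ℂ} (hκ : Ker κ) {Φ : (ι → H3) → ℂ}
    (hΦ : LocallyIntegrable Φ) : Continuous (Rk κ Φ) := by
  rw [continuous_iff_continuousAt]
  intro w0
  obtain ⟨N, hN, hwN⟩ := exists_compact_mem_nhds w0
  obtain ⟨T, hT⟩ := hκ.supp
  obtain ⟨K, hK, hKN⟩ := exists_compact_pball hN T
  obtain ⟨M, hM0, hM⟩ := hκ.exists_bound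
  have hbi : Integrable (K.indicator fun w' => M * ‖Φ w'‖) := by
    rw [integrable_indicator_iff hK.measurableSet]
    exact ((hΦ.integrableOn_isCompact hK).norm).const_mul M
  refine continuousAt_of_dominated (bound := K.indicator fun w' => M * ‖Φ w'‖) ?_ ?_ hbi ?_
  · exact Eventually.of_forall fun w => (hκ.integrable w hΦ).aestronglyMeasurable
  · filter_upwards [hwN] with w hw
    refine Eventually.of_forall fun w' => ?_
    by_cases h : w' ∈ K
    · rw [indicator_of_mem h, norm_mul]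
      exact mul_le_mul_of_nonneg_right (hM _ (one_le_chv _ _)) (norm_nonneg _)
    · rw [indicator_of_notMem h]
      have h1 : w' ∉ pball w T := fun h1 => h (hKN w hw h1)
      simp only [pball, mem_ofPred_eq, not_forall, not_le] at h1
      rw [hT _ (one_le_chv _ _) h1, zero_mul, norm_zero]
  · refine Eventually.of_forall fun w' => ?_
    have h1 : Continuous fun w => κ (chv w w') :=
      hκ.continuous.comp (continuous_id.prodMk continuous_const)
    exact (h1.mul continuous_const).continuousAt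

/-! ### Tensors -/

/-- Pure tensors. -/
def tens (k : ι → ℝ → ℂ) (t : ι → ℝ) : ℂ := ∏ j, k j (t j)

lemma ker_tens {k : ι → ℝ → ℂ} (hk : ∀ j, Ker1 (k j)) : Ker (tens k) := by
  constructor
  · refine continuousOn_finsetProd _ fun j _ => ?_
    exact (hk j).cont.comp (continuous_apply j).continuousOn fun t ht => ht j
  · choose T hT using fun j => (hk j).supp
    refine ⟨∑ j, |T j|, fun t ht ⟨j, hj⟩ => ?_⟩
    refine Finset.prod_eq_zero (Finset.mem_univ j) (hT j _ (ht j) (lt_of_le_of_lt ?_ hj))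
    exact (le_abs_self _).trans
      (Finset.single_le_sum (f := fun j => |T j|) (fun i _ => abs_nonneg _) (Finset.mem_univ j))

lemma hat_tens (k : ι → ℝ → ℂ) : hat (tens k) = ∏ j, hat1 (k j) := by
  simp only [hat, hat1, Rk, R1, tens, chv_apply]
  rw [← integral_fintype_prod_volume_eq_prod
    (fun (j : ι) (u : H3) => k j (H3.ch H3.base u) * (u.y : ℂ))]
  congr 1
  funext w'
  rw [← Finset.prod_mul_distrib]

/-! ### Invariance -/

lemma integral_ch_eq {E : Type*} [NormedAddCommGroup E] [NormedSpace ℝ E] (f : ℝ → E)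
    (w w0 : H3) : ∫ u, f (H3.ch w u) = ∫ u, f (H3.ch w0 u) := by
  obtain ⟨g, rfl⟩ := H3.exists_smul_eq w0 w
  have hg : MeasurableEmbedding (fun u : H3 => g • u) :=
    (Homeomorph.smul g).measurableEmbedding
  rw [← (H3.measurePreserving_smul g).integral_comp hg (fun u => f (H3.ch (g • w0) u))]
  simp only [H3.ch_smul]

/-! ### The bump functions -/

/-- A smooth bump: `1` for `t ≤ 1`, `0` for `t ≥ 1 + 1/(n+1)`. -/
def bump (n : ℕ) (t : ℝ) : ℝ := Real.smoothTransition ((n + 1) * (1 - t) + 1)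

lemma contDiff_bump (n : ℕ) : ContDiff ℝ ∞ (bump n) := by
  unfold bump
  exact Real.smoothTransition.contDiff.comp (by fun_prop)

lemma bump_nonneg (n : ℕ) (t : ℝ) : 0 ≤ bump n t := Real.smoothTransition.nonneg _

lemma bump_le_one (n : ℕ) (t : ℝ) : bump n t ≤ 1 := Real.smoothTransition.le_one _

lemma bump_one (n : ℕ) : bump n 1 = 1 := by
  unfold bump
  exact Real.smoothTransition.one_of_one_le (by simp)

lemma bump_zero {n : ℕ} {t : ℝ} (h : 1 + 1 / ((n : ℝ) + 1) ≤ t) : bump n t = 0 := by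
  refine Real.smoothTransition.zero_of_nonpos ?_
  have hn : (0 : ℝ) < n + 1 := by positivity
  have h1 : 1 / ((n : ℝ) + 1) ≤ t - 1 := by linarith
  rw [div_le_iff₀ hn] at h1
  linarith

lemma continuous_bump (n : ℕ) : Continuous (bump n) := (contDiff_bump n).continuous

lemma ker1_bump (n : ℕ) (c : ℝ) : Ker1 (fun t => ((bump n t / c : ℝ) : ℂ)) := by
  constructor
  · exact (Complex.continuous_ofReal.comp ((continuous_bump n).div_const c)).continuousOn
  · refine ⟨2, fun t _ ht => ?_⟩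
    rw [bump_zero, zero_div, Complex.ofReal_zero]
    have : 1 / ((n : ℝ) + 1) ≤ 1 := by
      rw [div_le_one (by positivity)]
      linarith [(Nat.cast_nonneg n : (0 : ℝ) ≤ n)]
    linarith

/-- The real number `hat1 (bump n)`. -/
def hb (n : ℕ) : ℝ := ∫ u : H3, bump n (H3.ch H3.base u) * u.y

instance : (volume : Measure H3).IsOpenPosMeasure := by
  constructor
  intro U hU hne h0
  have h1 : volume (H3.coord.symm ⁻¹' U) = 0 := by
    rw [H3.measurePreserving_coord_symm.measure_preimage hU.measurableSet.nullMeasurableSet, h0]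
  have h2 : IsOpen (H3.coord.symm ⁻¹' U) := hU.preimage H3.coord.symm.continuous
  rw [h2.measure_eq_zero_iff volume] at h1
  obtain ⟨w, hw⟩ := hne
  have : H3.coord w ∈ H3.coord.symm ⁻¹' U := by
    rw [mem_preimage, H3.coord.symm_apply_apply]; exact hw
  rw [h1] at this
  exact this

lemma hb_pos (n : ℕ) : 0 < hb n := by
  have hc : Continuous fun u : H3 => bump n (H3.ch H3.base u) * u.y :=
    ((continuous_bump n).comp (H3.continuous_ch.comp
      (continuous_const.prodMk continuous_id))).mul H3.continuous_y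
  have hcs : HasCompactSupport fun u : H3 => bump n (H3.ch H3.base u) * u.y := by
    refine HasCompactSupport.intro (isCompact_ball H3.base 2) fun u hu => ?_
    rw [bump_zero, zero_mul]
    have h1 : 2 < H3.ch H3.base u := not_le.mp hu
    have : 1 / ((n : ℝ) + 1) ≤ 1 := by
      rw [div_le_one (by positivity)]
      linarith [(Nat.cast_nonneg n : (0 : ℝ) ≤ n)]
    linarith
  refine hc.integral_pos_of_hasCompactSupport_nonneg_nonzero hcs
    (fun u => mul_nonneg (bump_nonneg _ _) u.pos.le) (x := H3.base) ?_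
  rw [H3.ch_self, bump_one]
  simp

/-- The normalised bump. -/
def ap (n : ℕ) (t : ℝ) : ℝ := bump n t / hb n

lemma contDiff_ap (n : ℕ) : ContDiff ℝ ∞ (ap n) := (contDiff_bump n).div_const _

lemma ap_nonneg (n : ℕ) (t : ℝ) : 0 ≤ ap n t := div_nonneg (bump_nonneg _ _) (hb_pos n).le

lemma ap_zero {n : ℕ} {t : ℝ} (h : 1 + 1 / ((n : ℝ) + 1) ≤ t) : ap n t = 0 := by
  rw [ap, bump_zero h, zero_div]

/-- The normalised bump as a complex kernel. -/
def apC (n : ℕ) (t : ℝ) : ℂ := ((ap n t : ℝ) : ℂ)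

lemma ker1_apC (n : ℕ) : Ker1 (apC n) := ker1_bump n (hb n)

lemma hat1_ofReal (f : ℝ → ℝ) : hat1 (fun t => ((f t : ℝ) : ℂ)) =
    ((∫ u : H3, f (H3.ch H3.base u) * u.y : ℝ) : ℂ) := by
  rw [hat1, R1, ← integral_complex_ofReal]
  congr 1
  funext u
  push_cast
  rfl

lemma hat1_apC (n : ℕ) : hat1 (apC n) = 1 := by
  have h1 : hat1 (apC n) = ((∫ u : H3, ap n (H3.ch H3.base u) * u.y : ℝ) : ℂ) := hat1_ofReal (ap n)
  rw [h1]
  have h2 : ∫ u : H3, ap n (H3.ch H3.base u) * u.y = 1 := by
    have h3 : ∀ u : H3, ap n (H3.ch H3.base u) * u.y =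
        (hb n)⁻¹ * (bump n (H3.ch H3.base u) * u.y) := by
      intro u; rw [ap]; ring
    simp_rw [h3]
    rw [integral_const_mul]
    exact inv_mul_cancel₀ (hb_pos n).ne'
  rw [h2]
  simp

/-- Shrinking of the balls, uniformly. -/
lemma exists_pball_near {N : Set (ι → H3)} (hN : IsCompact N) {U : Set ((ι → H3) × (ι → H3))}
    (hU : ∀ w, U ∈ 𝓝 (w, w)) :
    ∃ n0 : ℕ, ∀ n ≥ n0, ∀ w ∈ N, ∀ w' ∈ pball w (1 + 1 / ((n : ℝ) + 1)), (w, w') ∈ U := by
  set V : ℕ → Set ((ι → H3) × (ι → H3)) := fun n =>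
    {p | p.1 ∈ N ∧ p.2 ∈ pball p.1 (1 + 1 / ((n : ℝ) + 1))} with hV
  have hmono : ∀ m n : ℕ, m ≤ n → V n ⊆ V m := by
    intro m n hmn p hp
    refine ⟨hp.1, fun j => (hp.2 j).trans ?_⟩
    have : (m : ℝ) ≤ n := by exact_mod_cast hmn
    gcongr
  obtain ⟨K, hK, hKN⟩ := exists_compact_pball hN 2
  have hclosed : ∀ n, IsClosed (V n) := by
    intro n
    have : V n = (Prod.fst ⁻¹' N) ∩ 
        ⋂ j, {p | chv p.1 p.2 j ≤ 1 + 1 / ((n : ℝ) + 1)} := by
      ext p; simp [hV, pball]
    rw [this]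
    refine (hN.isClosed.preimage continuous_fst).inter (isClosed_iInter fun j => ?_)
    exact isClosed_le ((continuous_apply j).comp continuous_chv) continuous_const
  have hcompact : ∀ n, IsCompact (V n) := by
    intro n
    refine (hN.prod hK).of_isClosed_subset (hclosed n) fun p hp => ⟨hp.1, ?_⟩
    refine hKN p.1 hp.1 fun j => (hp.2 j).trans ?_
    have : 1 / ((n : ℝ) + 1) ≤ 1 := by
      rw [div_le_one (by positivity)]
      linarith [(Nat.cast_nonneg n : (0 : ℝ) ≤ n)]
    linarith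
  have hdir : Directed (· ⊇ ·) V := by
    intro m n
    exact ⟨max m n, hmono _ _ (le_max_left _ _), hmono _ _ (le_max_right _ _)⟩
  obtain ⟨n0, hn0⟩ := exists_subset_nhds_of_isCompact' hdir hcompact hclosed (U := U) (by
    intro p hp
    rw [mem_iInter] at hp
    have h1 : ∀ j, chv p.1 p.2 j = 1 := by
      intro j
      refine le_antisymm ?_ (one_le_chv _ _ _)
      refine le_of_forall_pos_le_add fun ε hε => ?_
      obtain ⟨n, hn⟩ := exists_nat_one_div_lt hε
      exact ((hp n).2 j).trans (by linarith)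
    have h2 : p = (p.1, p.1) := by
      refine Prod.ext rfl ?_
      funext j
      exact (H3.ch_eq_one_iff.mp (h1 j)).symm
    rw [h2]
    exact hU _)
  exact ⟨n0, fun n hn w hw w' hw' => hn0 (hmono _ _ hn ⟨hw, hw'⟩)⟩

/-- Kernel estimate for the approximate identity. -/
lemma norm_Rk_tens_apC_sub_le {Φ : (ι → H3) → ℂ} (hΦ : LocallyIntegrable Φ) (n : ℕ) (w : ι → H3)
    (c : ℂ) {ε : ℝ} (h : ∀ w' ∈ pball w (1 + 1 / ((n : ℝ) + 1)), ‖Φ w' - c‖ ≤ ε) :
    ‖Rk (tens fun _ => apC n) Φ w - ((∫ u, ap n (H3.ch H3.base u) : ℝ) ^ Fintype.card ι : ℝ) * c‖ ≤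
      ε * (∫ u, ap n (H3.ch H3.base u) : ℝ) ^ Fintype.card ι := by
  have hK : Ker (tens fun _ : ι => apC n) := ker_tens fun _ => ker1_apC n
  have hreal : ∀ w' : ι → H3, tens (fun _ => apC n) (chv w w') =
      ((∏ j, ap n (H3.ch (w j) (w' j)) : ℝ) : ℂ) := by
    intro w'
    rw [tens]; push_cast; rfl
  have hint0 : Integrable (fun w' : ι → H3 => tens (fun _ => apC n) (chv w w')) := by
    have := hK.integrable w (Φ := fun _ => 1) continuous_const.locallyIntegrable
    simpa using this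
  have hm : ∫ w' : ι → H3, ∏ j, ap n (H3.ch (w j) (w' j)) =
      (∫ u, ap n (H3.ch H3.base u) : ℝ) ^ Fintype.card ι := by
    rw [integral_fintype_prod_volume_eq_prod (fun (j : ι) (u : H3) => ap n (H3.ch (w j) u))]
    rw [Finset.prod_congr rfl fun j _ => integral_ch_eq (ap n) (w j) H3.base, Finset.prod_const,
      Finset.card_univ]
  have hint1 : Integrable (fun w' : ι → H3 => ∏ j, ap n (H3.ch (w j) (w' j))) := by
    have := hint0.re
    refine this.congr (Eventually.of_forall fun w' => ?_)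
    simp only [hreal]
    exact Complex.ofReal_re _
  have e1 : (((∫ u, ap n (H3.ch H3.base u) : ℝ) ^ Fintype.card ι : ℝ) : ℂ) * c =
      ∫ w' : ι → H3, tens (fun _ => apC n) (chv w w') * c := by
    rw [integral_mul_const, ← hm, ← integral_complex_ofReal]
    simp only [hreal]
  rw [e1, Rk, ← integral_sub (hK.integrable w hΦ) (hint0.mul_const c), ← hm,
    ← integral_const_mul]
  refine norm_integral_le_of_norm_le (hint1.const_mul ε) (Eventually.of_forall fun w' => ?_)
  rw [← mul_sub, norm_mul, hreal, Complex.norm_real, Real.norm_eq_abs,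
    abs_of_nonneg (Finset.prod_nonneg fun j _ => ap_nonneg _ _)]
  by_cases hw' : w' ∈ pball w (1 + 1 / ((n : ℝ) + 1))
  · rw [mul_comm]
    exact mul_le_mul_of_nonneg_right (h w' hw') (Finset.prod_nonneg fun j _ => ap_nonneg _ _)
  · simp only [pball, mem_ofPred_eq, not_forall, not_le] at hw'
    obtain ⟨j, hj⟩ := hw'
    have : ∏ j, ap n (H3.ch (w j) (w' j)) = 0 :=
      Finset.prod_eq_zero (Finset.mem_univ j) (ap_zero hj.le)
    rw [this]; simp

/-- The total mass of `tens (ap n)` tends to `1`. -/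
lemma mass_tendsto (ι : Type*) [Fintype ι] : ∀ ε : ℝ, 0 < ε → ∃ n0 : ℕ, ∀ n ≥ n0,
    |(∫ u, ap n (H3.ch H3.base u) : ℝ) ^ Fintype.card ι - 1| ≤ ε := by
  intro ε hε
  set δ : ℝ := min (1 / 2) (ε / 2) with hδ
  have hδ0 : 0 < δ := lt_min (by norm_num) (by positivity)
  have hδ1 : δ ≤ 1 / 2 := min_le_left _ _
  have hδ2 : δ ≤ ε / 2 := min_le_right _ _
  set Y : (ι → H3) → ℂ := fun w => ∏ j, ((w j).y : ℂ) with hY
  have hYc : Continuous Y := by
    refine continuous_finsetProd _ fun j _ => ?_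
    exact Complex.continuous_ofReal.comp (H3.continuous_y.comp (continuous_apply j))
  set b : ι → H3 := fun _ => H3.base with hb
  have hYb : Y b = 1 := by simp [hY, hb]
  obtain ⟨n0, hn0⟩ := exists_pball_near (N := {b}) isCompact_singleton
    (U := {p | ‖Y p.2 - Y p.1‖ < δ}) (by
      intro w
      refine (isOpen_lt ?_ continuous_const).mem_nhds (by simpa using hδ0)
      exact ((hYc.comp continuous_snd).sub (hYc.comp continuous_fst)).norm)
  refine ⟨n0, fun n hn => ?_⟩
  set M : ℝ := (∫ u, ap n (H3.ch H3.base u) : ℝ) ^ Fintype.card ι with hM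
  have h1 := norm_Rk_tens_apC_sub_le (ι := ι) hYc.locallyIntegrable n b 1 (ε := δ) (by
    intro w' hw'
    have := hn0 n hn b rfl w' hw'
    rw [mem_ofPred_eq, hYb] at this
    exact this.le)
  have h2 : Rk (tens fun _ => apC n) Y b = 1 := by
    have := hat_tens (fun _ : ι => apC n)
    simp only [hat1_apC, Finset.prod_const_one] at this
    exact this
  rw [h2, ← hM, mul_one] at h1
  have h3 : |1 - M| ≤ δ * M := by
    have : ‖(1 : ℂ) - (M : ℂ)‖ = |1 - M| := by
      rw [← Complex.ofReal_one, ← Complex.ofReal_sub, Complex.norm_real, Real.norm_eq_abs]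
    rwa [this] at h1
  have h4 := le_abs_self (1 - M)
  have h5 := neg_abs_le (1 - M)
  have h6 : M ≤ 2 := by nlinarith
  rw [abs_sub_comm]
  nlinarith

/-- **Approximate identity**, locally uniformly. -/
theorem tendsto_ap_uniform {Φ : (ι → H3) → ℂ} (hΦ : Continuous Φ) {N : Set (ι → H3)}
    (hN : IsCompact N) {ε : ℝ} (hε : 0 < ε) : ∃ n0 : ℕ, ∀ n ≥ n0, ∀ w ∈ N,
      ‖Rk (tens fun _ => apC n) Φ w - Φ w‖ ≤ ε := by
  obtain ⟨C, hC⟩ := hN.exists_bound_of_continuousOn hΦ.continuousOn
  set C' : ℝ := max C 0 with hC'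
  have hC0 : 0 ≤ C' := le_max_right _ _
  set δ : ℝ := min 1 (ε / (3 + C')) with hδ
  have hpos : 0 < 3 + C' := by positivity
  have hδ0 : 0 < δ := lt_min one_pos (by positivity)
  have hδ1 : δ ≤ 1 := min_le_left _ _
  have hδ2 : δ * (3 + C') ≤ ε := by
    have : δ ≤ ε / (3 + C') := min_le_right _ _
    rwa [le_div_iff₀ hpos] at this
  obtain ⟨n1, hn1⟩ := mass_tendsto ι δ hδ0
  obtain ⟨n2, hn2⟩ := exists_pball_near hN
    (U := {p | ‖Φ p.2 - Φ p.1‖ < δ}) (by
      intro w
      refine (isOpen_lt ?_ continuous_const).mem_nhds (by simpa using hδ0)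
      exact ((hΦ.comp continuous_snd).sub (hΦ.comp continuous_fst)).norm)
  refine ⟨max n1 n2, fun n hn w hw => ?_⟩
  have h1 := hn1 n ((le_max_left _ _).trans hn)
  set M : ℝ := (∫ u, ap n (H3.ch H3.base u) : ℝ) ^ Fintype.card ι with hM
  have h2 := norm_Rk_tens_apC_sub_le hΦ.locallyIntegrable n w (Φ w) (ε := δ)
    (fun w' hw' => (hn2 n ((le_max_right _ _).trans hn) w hw w' hw').le)
  rw [← hM] at h2
  have h3 : M ≤ 1 + δ := by
    have := le_abs_self (M - 1)
    linarith
  have h4 : ‖(M : ℂ) * Φ w - Φ w‖ ≤ δ * C' := by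
    have : (M : ℂ) * Φ w - Φ w = ((M - 1 : ℝ) : ℂ) * Φ w := by push_cast; ring
    rw [this, norm_mul, Complex.norm_real, Real.norm_eq_abs]
    exact mul_le_mul h1 ((hC w hw).trans (le_max_left _ _)) (norm_nonneg _) hδ0.le
  calc ‖Rk (tens fun _ => apC n) Φ w - Φ w‖
      = ‖(Rk (tens fun _ => apC n) Φ w - (M : ℂ) * Φ w) + ((M : ℂ) * Φ w - Φ w)‖ := by
        congr 1; ring
    _ ≤ δ * M + δ * C' := (norm_add_le _ _).trans (add_le_add h2 h4)
    _ ≤ δ * (3 + C') := by nlinarith
    _ ≤ ε := hδ2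

theorem tendsto_ap {Φ : (ι → H3) → ℂ} (hΦ : Continuous Φ) (w : ι → H3) :
    Tendsto (fun n => Rk (tens fun _ => apC n) Φ w) atTop (𝓝 (Φ w)) := by
  rw [Metric.tendsto_atTop]
  intro ε hε
  obtain ⟨n0, hn0⟩ := tendsto_ap_uniform hΦ (N := {w}) isCompact_singleton (half_pos hε)
  refine ⟨n0, fun n hn => ?_⟩
  rw [dist_eq_norm]
  exact (hn0 n hn w rfl).trans_lt (half_lt_self hε)

/-! ### One variable -/

lemma Rk_unit (k : ℝ → ℂ) (f : H3 → ℂ) (x : H3) :
    Rk (J := Unit) (fun t => k (t ())) (fun w => f (w ())) (fun _ => x) = R1 k f x := by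
  rw [Rk, R1, ← (volume_preserving_funUnique Unit H3).integral_comp'
    (fun u => k (H3.ch x u) * f u)]
  rfl

lemma tens_unit (k : ℝ → ℂ) : tens (ι := Unit) (fun _ => k) = fun t => k (t ()) := by
  funext t; simp [tens]

/-- One variable approximate identity, locally uniformly. -/
theorem tendsto_ap1_uniform {f : H3 → ℂ} (hf : Continuous f) {N : Set H3}
    (hN : IsCompact N) {ε : ℝ} (hε : 0 < ε) : ∃ n0 : ℕ, ∀ n ≥ n0, ∀ x ∈ N,
      ‖R1 (apC n) f x - f x‖ ≤ ε := by
  have hc : Continuous fun x : H3 => (fun _ : Unit => x) := continuous_pi fun _ => continuous_id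
  obtain ⟨n0, hn0⟩ := tendsto_ap_uniform (ι := Unit) (Φ := fun w => f (w ()))
    (hf.comp (continuous_apply ())) (hN.image hc) hε
  refine ⟨n0, fun n hn x hx => ?_⟩
  have := hn0 n hn _ (mem_image_of_mem _ hx)
  rwa [tens_unit, Rk_unit] at this

theorem tendsto_ap1 {f : H3 → ℂ} (hf : Continuous f) (x : H3) :
    Tendsto (fun n => R1 (apC n) f x) atTop (𝓝 (f x)) := by
  rw [Metric.tendsto_atTop]
  intro ε hε
  obtain ⟨n0, hn0⟩ := tendsto_ap1_uniform hf (N := {x}) isCompact_singleton (half_pos hε)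
  refine ⟨n0, fun n hn => ?_⟩
  rw [dist_eq_norm]
  exact (hn0 n hn x rfl).trans_lt (half_lt_self hε)

/-- `R1 k f` is continuous. -/
theorem Ker1.continuous_R1 {k : ℝ → ℂ} (hk : Ker1 k) {f : H3 → ℂ} (hf : Continuous f) :
    Continuous (R1 k f) := by
  have hc : Continuous fun x : H3 => (fun _ : Unit => x) := continuous_pi fun _ => continuous_id
  have h1 : Ker (ι := Unit) (fun t => k (t ())) := by
    have := ker_tens (ι := Unit) (k := fun _ => k) fun _ => hk
    rwa [tens_unit] at this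
  have h2 := (h1.continuous_Rk (Φ := fun w => f (w ()))
    (hf.comp (continuous_apply ())).locallyIntegrable).comp hc
  have h3 : (Rk (J := Unit) (fun t => k (t ())) fun w => f (w ())) ∘ (fun (x : H3) (_ : Unit) => x) =
      R1 k f := by
    funext x
    exact Rk_unit k f x
  rwa [h3] at h2

/-! ### From tensors to one variable -/

section

variable [DecidableEq ι]

/-- Splitting off one variable in a tensor. -/
lemma Rk_tens_split {Φ : (ι → H3) → ℂ} (hΦ : LocallyIntegrable Φ) {k : ι → ℝ → ℂ}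
    (hk : ∀ i, Ker1 (k i)) (j : ι) (w : ι → H3) :
    Rk (tens k) Φ w = Rk (tens fun i : {i // ¬ i = j} => k i)
      (fun v => ∫ u, k j (H3.ch (w j) u) * Φ (glue j v u)) (fun i => w i) := by
  rw [Rk, integral_glue j ((ker_tens hk).integrable w hΦ), Rk]
  congr 1
  funext v
  rw [← integral_const_mul]
  congr 1
  funext u
  rw [← mul_assoc]
  congr 1
  rw [tens, tens, Fintype.prod_eq_mul_prod_compl j, Finset.prod_subtype ({j}ᶜ : Finset ι)
    (p := fun i => ¬ i = j) (by simp) (fun i => k i (chv w (glue j v u) i)), mul_comm]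
  congr 1
  · refine Finset.prod_congr rfl fun i _ => ?_
    rw [chv_apply, chv_apply, glue_of_ne i.2]
  · rw [chv_apply, glue_same]

/-- The partial integral over one variable is continuous. -/
lemma continuous_partial {Φ : (ι → H3) → ℂ} (hΦ : Continuous Φ) {k : ℝ → ℂ} (hk : Ker1 k)
    (j : ι) (x : H3) :
    Continuous (fun v : {i // ¬ i = j} → H3 => ∫ u, k (H3.ch x u) * Φ (glue j v u)) := by
  obtain ⟨T, hT⟩ := hk.supp
  have h1 : Continuous (Function.uncurry fun (v : {i // ¬ i = j} → H3) (u : H3) =>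
      k (H3.ch x u) * Φ (glue j v u)) :=
    ((hk.continuous_right x).comp continuous_snd).mul (hΦ.comp (continuous_glue j))
  have h2 := continuous_parametric_integral_of_continuous (μ := (volume : Measure H3)) h1
    (isCompact_ball x T)
  convert h2 using 2 with v
  rw [setIntegral_eq_integral_of_forall_compl_eq_zero]
  intro u hu
  rw [hT _ (H3.one_le_ch _ _) (not_le.mp hu), zero_mul]

/-- **From tensors to one variable.** -/
theorem eig1_of_tensor {Φ : (ι → H3) → ℂ} (hΦ : Continuous Φ) (j : ι) {k : ℝ → ℂ} (hk : Ker1 k)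
    (w : ι → H3) {c : ℂ} (h : ∀ n, Rk (tens (Function.update (fun _ => apC n) j k)) Φ w = c) :
    R1 k (fun u => Φ (Function.update w j u)) (w j) = c := by
  set G : ({i // ¬ i = j} → H3) → ℂ := fun v => ∫ u, k (H3.ch (w j) u) * Φ (glue j v u) with hG
  have hGc : Continuous G := continuous_partial hΦ hk j (w j)
  have h1 : ∀ n, Rk (tens fun _ : {i // ¬ i = j} => apC n) G (fun i => w i) = c := by
    intro n
    rw [← h n, Rk_tens_split hΦ.locallyIntegrable (j := j) (w := w)
      (k := Function.update (fun _ => apC n) j k)]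
    · have e1 : (fun i : {i // ¬ i = j} => Function.update (fun _ => apC n) j k (i : ι)) =
          fun _ => apC n := by
        funext i
        rw [Function.update_of_ne i.2]
      rw [e1, Function.update_self]
    · intro i
      by_cases hi : i = j
      · subst hi; rwa [Function.update_self]
      · rw [Function.update_of_ne hi]; exact ker1_apC n
  have h2 := tendsto_ap hGc (fun i => w i)
  simp only [h1] at h2
  have h3 := tendsto_nhds_unique h2 tendsto_const_nhds
  rw [← h3, hG, R1]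
  congr 1
  funext u
  congr 2
  funext i
  by_cases hi : i = j
  · subst hi; simp
  · rw [Function.update_of_ne hi, glue_of_ne hi]

end

end Fermat.Agent.H9Z
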