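import Fermat.Agent.H9ZApp

/-!
# Kernels on `(H3)^ι`, part 3 (helper9): a countable separating family

* `mk n m t = χ_n(t) t^m` : smooth, real, compactly supported on `[1, ∞)`;
* `P n m = tens (fun j => mkC n (m j))`, `n : ℕ`, `m : ι → ℕ` : countable family of kernels;
* `Rk_ext`: an identity `Rk κ Φ w = c * Rk κ Ψ w₀` for all `κ = P n m` implies it for every kernel;
* `eig_of_countable`: `Rk (P n m) Φ = hat (P n m) Φ` for all `n m` implies everything.
-/

set_option autoImplicit false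
set_option linter.unusedSectionVars false

noncomputable section

open MeasureTheory Set Filter Topology
open scoped Real ContDiff

namespace Fermat.Agent.H9Z

open Fermat.Agent.H5Z (chv Rk continuous_chv)

variable {ι : Type*} [Fintype ι]

/-- Smooth cut-off: `1` for `t ≤ n`, `0` for `t ≥ n + 1`. -/
def cut (n : ℕ) (t : ℝ) : ℝ := Real.smoothTransition (n + 1 - t)

lemma contDiff_cut (n : ℕ) : ContDiff ℝ ∞ (cut n) := by
  unfold cut
  exact Real.smoothTransition.contDiff.comp (by fun_prop)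

lemma cut_nonneg (n : ℕ) (t : ℝ) : 0 ≤ cut n t := Real.smoothTransition.nonneg _

lemma cut_le_one (n : ℕ) (t : ℝ) : cut n t ≤ 1 := Real.smoothTransition.le_one _

lemma cut_one {n : ℕ} {t : ℝ} (h : t ≤ n) : cut n t = 1 :=
  Real.smoothTransition.one_of_one_le (by linarith)

lemma cut_zero {n : ℕ} {t : ℝ} (h : (n : ℝ) + 1 ≤ t) : cut n t = 0 :=
  Real.smoothTransition.zero_of_nonpos (by linarith)

/-- The one variable kernels `χ_n(t) t^m`. -/
def mk (n m : ℕ) (t : ℝ) : ℝ := cut n t * t ^ m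

lemma contDiff_mk (n m : ℕ) : ContDiff ℝ ∞ (mk n m) :=
  (contDiff_cut n).mul (contDiff_id.pow m)

/-- The same with complex values. -/
def mkC (n m : ℕ) (t : ℝ) : ℂ := ((mk n m t : ℝ) : ℂ)

lemma contDiff_mkC (n m : ℕ) : ContDiff ℝ ∞ (mkC n m) :=
  Complex.ofRealCLM.contDiff.comp (contDiff_mk n m)

lemma ker1_mkC (n m : ℕ) : Ker1 (mkC n m) := by
  constructor
  · exact (contDiff_mkC n m).continuous.continuousOn
  · refine ⟨n + 1, fun t _ ht => ?_⟩
    rw [mkC, mk, cut_zero ht.le, zero_mul, Complex.ofReal_zero]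

/-- The countable family. -/
def P (n : ℕ) (m : ι → ℕ) : (ι → ℝ) → ℂ := tens fun j => mkC n (m j)

lemma ker_P (n : ℕ) (m : ι → ℕ) : Ker (P n m) := ker_tens fun _ => ker1_mkC _ _

lemma P_zero {n : ℕ} {m : ι → ℕ} {t : ι → ℝ} (h : ∃ j, (n : ℝ) + 1 < t j) : P n m t = 0 := by
  obtain ⟨j, hj⟩ := h
  refine Finset.prod_eq_zero (Finset.mem_univ j) ?_
  simp only [mkC, mk, cut_zero hj.le, zero_mul, Complex.ofReal_zero]

/-! ### Linearity and bounds -/

lemma Ker.add {κ κ' : (ι → ℝ) → ℂ} (h : Ker κ) (h' : Ker κ') : Ker (fun t => κ t + κ' t) := by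
  refine ⟨h.cont.add h'.cont, ?_⟩
  obtain ⟨T, hT⟩ := h.supp
  obtain ⟨T', hT'⟩ := h'.supp
  refine ⟨max T T', fun t ht ⟨j, hj⟩ => ?_⟩
  rw [hT t ht ⟨j, (le_max_left _ _).trans_lt hj⟩, hT' t ht ⟨j, (le_max_right _ _).trans_lt hj⟩,
    add_zero]

lemma Ker.const_mul {κ : (ι → ℝ) → ℂ} (h : Ker κ) (c : ℂ) : Ker (fun t => c * κ t) := by
  refine ⟨continuousOn_const.mul h.cont, ?_⟩
  obtain ⟨T, hT⟩ := h.supp
  exact ⟨T, fun t ht hj => by rw [hT t ht hj, mul_zero]⟩

lemma Ker.sum {α : Type*} (s : Finset α) {κ : α → (ι → ℝ) → ℂ} (h : ∀ a ∈ s, Ker (κ a)) :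
    Ker (fun t => ∑ a ∈ s, κ a t) := by
  classical
  induction s using Finset.induction_on with
  | empty =>
    simp only [Finset.sum_empty]
    exact ⟨continuousOn_const, 0, fun t _ _ => rfl⟩
  | insert a s ha ih =>
    simp only [Finset.sum_insert ha]
    exact (h a (Finset.mem_insert_self _ _)).add
      (ih fun b hb => h b (Finset.mem_insert_of_mem hb))

lemma Rk_add {κ κ' : (ι → ℝ) → ℂ} (h : Ker κ) (h' : Ker κ') {Φ : (ι → H3) → ℂ}
    (hΦ : LocallyIntegrable Φ) (w : ι → H3) :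
    Rk (fun t => κ t + κ' t) Φ w = Rk κ Φ w + Rk κ' Φ w := by
  simp only [Rk, add_mul]
  exact integral_add (h.integrable w hΦ) (h'.integrable w hΦ)

lemma Rk_const_mul (κ : (ι → ℝ) → ℂ) (c : ℂ) (Φ : (ι → H3) → ℂ) (w : ι → H3) :
    Rk (fun t => c * κ t) Φ w = c * Rk κ Φ w := by
  simp only [Rk, mul_assoc]
  exact integral_const_mul _ _

lemma Rk_sum {α : Type*} (s : Finset α) {κ : α → (ι → ℝ) → ℂ} (h : ∀ a ∈ s, Ker (κ a))
    {Φ : (ι → H3) → ℂ} (hΦ : LocallyIntegrable Φ) (w : ι → H3) :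
    Rk (fun t => ∑ a ∈ s, κ a t) Φ w = ∑ a ∈ s, Rk (κ a) Φ w := by
  simp only [Rk, Finset.sum_mul]
  exact integral_finsetSum _ fun a ha => (h a ha).integrable w hΦ

lemma norm_Rk_sub_le {κ κ' : (ι → ℝ) → ℂ} (h : Ker κ) (h' : Ker κ') {T ε : ℝ}
    (hT : ∀ t : ι → ℝ, (∀ j, 1 ≤ t j) → (∃ j, T < t j) → κ t = 0 ∧ κ' t = 0)
    (hε : ∀ t : ι → ℝ, (∀ j, 1 ≤ t j) → (∀ j, t j ≤ T) → ‖κ t - κ' t‖ ≤ ε) {Φ : (ι → H3) → ℂ}
    (hΦ : LocallyIntegrable Φ) (w : ι → H3) :
    ‖Rk κ Φ w - Rk κ' Φ w‖ ≤ ε * ∫ w' in pball w T, ‖Φ w'‖ := by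
  have hK := isCompact_pball w T
  rw [Rk, Rk, ← integral_sub (h.integrable w hΦ) (h'.integrable w hΦ), ← integral_const_mul,
    ← integral_indicator hK.measurableSet]
  refine norm_integral_le_of_norm_le ?_ (Eventually.of_forall fun w' => ?_)
  · rw [integrable_indicator_iff hK.measurableSet]
    exact ((hΦ.integrableOn_isCompact hK).norm).const_mul ε
  · by_cases hw : w' ∈ pball w T
    · rw [indicator_of_mem hw, ← sub_mul, norm_mul]
      exact mul_le_mul_of_nonneg_right (hε _ (one_le_chv _ _) hw) (norm_nonneg _)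
    · rw [indicator_of_notMem hw]
      simp only [pball, mem_ofPred_eq, not_forall, not_le] at hw
      obtain ⟨h1, h2⟩ := hT _ (one_le_chv _ _) hw
      rw [h1, h2]; simp

/-! ### Stone-Weierstrass -/

/-- Real polynomials approximate continuous functions on a cube. -/
lemma exists_poly_near {a b : ℝ} {f : (ι → ℝ) → ℝ}
    (hf : ContinuousOn f (Set.pi univ fun _ => Icc a b)) {ε : ℝ} (hε : 0 < ε) :
    ∃ p : MvPolynomial ι ℝ, ∀ t : ι → ℝ, (∀ j, t j ∈ Icc a b) →
      |MvPolynomial.eval t p - f t| ≤ ε := by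
  set Q : Set (ι → ℝ) := Set.pi univ fun _ => Icc a b with hQ
  have : CompactSpace Q := isCompact_iff_compactSpace.mp (isCompact_univ_pi fun _ => isCompact_Icc)
  set co : ι → C(Q, ℝ) := fun j => ⟨fun x => x.1 j, (continuous_apply j).comp continuous_subtype_val⟩
    with hco
  have hev : ∀ (p : MvPolynomial ι ℝ) (x : Q),
      (MvPolynomial.aeval co p) x = MvPolynomial.eval (x : ι → ℝ) p := by
    intro p x
    induction p using MvPolynomial.induction_on with
    | C r => simp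
    | add p q hp hq => simp [hp, hq]
    | mul_X p j hp =>
      rw [map_mul, map_mul, ContinuousMap.mul_apply, hp, MvPolynomial.aeval_X, MvPolynomial.eval_X]
      rfl
  set A : Subalgebra ℝ C(Q, ℝ) := (MvPolynomial.aeval co : MvPolynomial ι ℝ →ₐ[ℝ] C(Q, ℝ)).range
    with hA
  have hsep : A.SeparatesPoints := by
    intro x y hxy
    have : (x : ι → ℝ) ≠ y := fun h => hxy (Subtype.ext h)
    obtain ⟨j, hj⟩ := Function.ne_iff.mp this
    refine ⟨co j, ⟨co j, ⟨MvPolynomial.X j, by simp⟩, rfl⟩, hj⟩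
  obtain ⟨g, hg⟩ := ContinuousMap.exists_mem_subalgebra_near_continuous_of_separatesPoints A hsep
    (fun x : Q => f x) (continuousOn_iff_continuous_domRestrict.mp hf) ε hε
  obtain ⟨p, hp⟩ := g.2
  refine ⟨p, fun t ht => ?_⟩
  have h1 : t ∈ Q := fun j _ => ht j
  have h2 := (hg ⟨t, h1⟩).le
  have h3 : (g : C(Q, ℝ)) ⟨t, h1⟩ = MvPolynomial.eval t p := by
    rw [← hev p ⟨t, h1⟩]
    have : (g : C(Q, ℝ)) = MvPolynomial.aeval co p := hp.symm
    rw [this]
  rw [h3, Real.norm_eq_abs] at h2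
  exact h2

/-- The kernel `χ_n p`. -/
lemma cut_poly_eq (n : ℕ) (p : MvPolynomial ι ℝ) (t : ι → ℝ) :
    (((∏ j, cut n (t j)) * MvPolynomial.eval t p : ℝ) : ℂ) =
      ∑ m ∈ p.support, ((p.coeff m : ℝ) : ℂ) * P n (fun j => m j) t := by
  rw [MvPolynomial.eval_eq', Finset.mul_sum]
  push_cast
  refine Finset.sum_congr rfl fun m _ => ?_
  simp only [P, tens, mkC, mk]
  push_cast
  rw [Finset.prod_mul_distrib]
  ring

/-- **Density**, real kernels. -/
lemma Rk_ext_real {Φ Ψ : (ι → H3) → ℂ} (hΦ : LocallyIntegrable Φ) (hΨ : LocallyIntegrable Ψ)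
    {w w₀ : ι → H3} {c : ℂ} (h : ∀ n m, Rk (P n m) Φ w = c * Rk (P n m) Ψ w₀)
    {f : (ι → ℝ) → ℝ} (hf : Ker (fun t => ((f t : ℝ) : ℂ))) :
    Rk (fun t => ((f t : ℝ) : ℂ)) Φ w = c * Rk (fun t => ((f t : ℝ) : ℂ)) Ψ w₀ := by
  obtain ⟨T, hT⟩ := hf.supp
  obtain ⟨n, hn⟩ := exists_nat_ge T
  set C : ℝ := (∫ w' in pball w (n + 1), ‖Φ w'‖) + ‖c‖ * ∫ w' in pball w₀ (n + 1), ‖Ψ w'‖ with hC
  have hC0 : 0 ≤ C := by
    have h1 : 0 ≤ ∫ w' in pball w (n + 1), ‖Φ w'‖ := integral_nonneg fun _ => norm_nonneg _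
    have h2 : 0 ≤ ∫ w' in pball w₀ (n + 1), ‖Ψ w'‖ := integral_nonneg fun _ => norm_nonneg _
    positivity
  rw [← sub_eq_zero, ← norm_eq_zero]
  refine le_antisymm (le_of_forall_pos_le_add fun ε hε => ?_) (norm_nonneg _)
  rw [zero_add]
  set δ : ℝ := ε / (C + 1) with hδ
  have hδ0 : 0 < δ := by positivity
  have hfc : ContinuousOn f (Set.pi univ fun _ : ι => Icc (1 : ℝ) (n + 1)) := by
    have h1 : ContinuousOn (fun t : ι → ℝ => ((f t : ℝ) : ℂ).re)
        (Set.pi univ fun _ : ι => Icc (1 : ℝ) (n + 1)) :=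
      Complex.continuous_re.comp_continuousOn (hf.cont.mono fun t ht j => (ht j (mem_univ j)).1)
    simpa using h1
  obtain ⟨p, hp⟩ := exists_poly_near hfc hδ0
  set q : (ι → ℝ) → ℂ := fun t => ∑ m ∈ p.support, ((p.coeff m : ℝ) : ℂ) * P n (fun j => m j) t with hq
  have hqK : Ker q := Ker.sum _ fun m _ => (ker_P n _).const_mul _
  have hqD : Rk q Φ w = c * Rk q Ψ w₀ := by
    rw [hq, Rk_sum _ (fun m _ => (ker_P n _).const_mul _) hΦ,
      Rk_sum _ (fun m _ => (ker_P n _).const_mul _) hΨ, Finset.mul_sum]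
    refine Finset.sum_congr rfl fun m _ => ?_
    rw [Rk_const_mul, Rk_const_mul, h]
    ring
  have hz : ∀ t : ι → ℝ, (∀ j, 1 ≤ t j) → (∃ j, (n : ℝ) + 1 < t j) →
      ((f t : ℝ) : ℂ) = 0 ∧ q t = 0 := by
    intro t ht hj
    refine ⟨?_, ?_⟩
    · obtain ⟨j, hj⟩ := hj
      exact hT t ht ⟨j, by linarith⟩
    · rw [hq]
      refine Finset.sum_eq_zero fun m _ => ?_
      rw [P_zero hj, mul_zero]
  have hnear : ∀ t : ι → ℝ, (∀ j, 1 ≤ t j) → (∀ j, t j ≤ (n : ℝ) + 1) →
      ‖((f t : ℝ) : ℂ) - q t‖ ≤ δ := by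
    intro t ht ht'
    rw [hq]
    simp only
    rw [← cut_poly_eq n p t, ← Complex.ofReal_sub, Complex.norm_real, Real.norm_eq_abs]
    set χ : ℝ := ∏ j, cut n (t j) with hχ
    have hχ0 : 0 ≤ χ := Finset.prod_nonneg fun j _ => cut_nonneg _ _
    have hχ1 : χ ≤ 1 := Finset.prod_le_one (fun j _ => cut_nonneg _ _) fun j _ => cut_le_one _ _
    have h1 : f t = χ * f t := by
      by_cases hj : ∃ j, T < t j
      · have : ((f t : ℝ) : ℂ) = 0 := hT t ht hj
        have h0 : f t = 0 := by exact_mod_cast this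
        rw [h0, mul_zero]
      · push Not at hj
        have : χ = 1 := Finset.prod_eq_one fun j _ => cut_one ((hj j).trans hn)
        rw [this, one_mul]
    rw [h1, ← mul_sub, abs_mul, abs_of_nonneg hχ0]
    have h2 := hp t fun j => ⟨ht j, ht' j⟩
    rw [abs_sub_comm] at h2
    calc χ * |f t - MvPolynomial.eval t p| ≤ 1 * δ :=
          mul_le_mul hχ1 h2 (abs_nonneg _) zero_le_one
      _ = δ := one_mul _
  have e1 := norm_Rk_sub_le hf hqK hz hnear hΦ w
  have e2 := norm_Rk_sub_le hf hqK hz hnear hΨ w₀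
  have e3 : Rk (fun t => ((f t : ℝ) : ℂ)) Φ w - c * Rk (fun t => ((f t : ℝ) : ℂ)) Ψ w₀ =
      (Rk (fun t => ((f t : ℝ) : ℂ)) Φ w - Rk q Φ w) -
        c * (Rk (fun t => ((f t : ℝ) : ℂ)) Ψ w₀ - Rk q Ψ w₀) := by
    rw [hqD]; ring
  rw [e3]
  calc _ ≤ ‖Rk (fun t => ((f t : ℝ) : ℂ)) Φ w - Rk q Φ w‖ +
        ‖c * (Rk (fun t => ((f t : ℝ) : ℂ)) Ψ w₀ - Rk q Ψ w₀)‖ := norm_sub_le _ _
    _ ≤ δ * (∫ w' in pball w (n + 1), ‖Φ w'‖) +
        ‖c‖ * (δ * ∫ w' in pball w₀ (n + 1), ‖Ψ w'‖) := by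
        rw [norm_mul]
        exact add_le_add e1 (mul_le_mul_of_nonneg_left e2 (norm_nonneg _))
    _ = δ * C := by rw [hC]; ring
    _ ≤ ε := by
        rw [hδ, div_mul_eq_mul_div, div_le_iff₀ (by positivity)]
        nlinarith

/-- **Density**: an identity between kernel integrals for the countable family holds for every
kernel. -/
theorem Rk_ext {Φ Ψ : (ι → H3) → ℂ} (hΦ : LocallyIntegrable Φ) (hΨ : LocallyIntegrable Ψ)
    {w w₀ : ι → H3} {c : ℂ} (h : ∀ n m, Rk (P n m) Φ w = c * Rk (P n m) Ψ w₀)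
    {κ : (ι → ℝ) → ℂ} (hκ : Ker κ) : Rk κ Φ w = c * Rk κ Ψ w₀ := by
  have hre : Ker (fun t => (((κ t).re : ℝ) : ℂ)) := by
    refine ⟨(Complex.continuous_ofReal.comp Complex.continuous_re).comp_continuousOn hκ.cont, ?_⟩
    obtain ⟨T, hT⟩ := hκ.supp
    exact ⟨T, fun t ht hj => by rw [hT t ht hj]; simp⟩
  have him : Ker (fun t => (((κ t).im : ℝ) : ℂ)) := by
    refine ⟨(Complex.continuous_ofReal.comp Complex.continuous_im).comp_continuousOn hκ.cont, ?_⟩
    obtain ⟨T, hT⟩ := hκ.supp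
    exact ⟨T, fun t ht hj => by rw [hT t ht hj]; simp⟩
  have e : κ = fun t => (((κ t).re : ℝ) : ℂ) + Complex.I * (((κ t).im : ℝ) : ℂ) := by
    funext t
    rw [mul_comm Complex.I]
    exact (Complex.re_add_im _).symm
  rw [e, Rk_add hre (him.const_mul _) hΦ, Rk_add hre (him.const_mul _) hΨ, Rk_const_mul,
    Rk_const_mul, Rk_ext_real hΦ hΨ h hre, Rk_ext_real hΦ hΨ h him]
  ring

lemma continuous_prod_y : Continuous (fun w : ι → H3 => ∏ j, ((w j).y : ℂ)) :=
  continuous_finsetProd _ fun j _ =>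
    Complex.continuous_ofReal.comp (H3.continuous_y.comp (continuous_apply j))

/-- At one point: the countable family suffices. -/
theorem Rk_eq_hat_mul_of_countable {Φ : (ι → H3) → ℂ} (hΦ : LocallyIntegrable Φ) {w : ι → H3}
    {c : ℂ} (h : ∀ n m, Rk (P n m) Φ w = hat (P n m) * c) {κ : (ι → ℝ) → ℂ} (hκ : Ker κ) :
    Rk κ Φ w = hat κ * c := by
  rw [mul_comm]
  exact Rk_ext hΦ continuous_prod_y.locallyIntegrable (w₀ := fun _ => H3.base) (c := c)
    (fun n m => by rw [h n m, mul_comm]; rfl) hκ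

/-- If `Rk κ g w = hat κ * c` for the countable family and `g` is continuous, then `g w = c`. -/
theorem eq_of_countable {g : (ι → H3) → ℂ} (hg : Continuous g) {w : ι → H3} {c : ℂ}
    (h : ∀ n m, Rk (P n m) g w = hat (P n m) * c) : g w = c := by
  have h1 : ∀ n, Rk (tens fun _ => apC n) g w = c := by
    intro n
    rw [Rk_eq_hat_mul_of_countable hg.locallyIntegrable h (ker_tens fun _ => ker1_apC n), hat_tens]
    simp [hat1_apC]
  have h2 := tendsto_ap hg w
  simp only [h1] at h2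
  exact (tendsto_nhds_unique h2 tendsto_const_nhds)

/-- **The backward theorem for the countable family**: if `Φ` is locally integrable and
`Rk (P n m) Φ = hat (P n m) Φ` everywhere for all `n, m`, then `Φ` is continuous, every kernel acts
by `hat`, and in each variable every one variable kernel acts by `hat1`. -/
theorem eig_of_countable [DecidableEq ι] {Φ : (ι → H3) → ℂ} (hΦ : LocallyIntegrable Φ)
    (h : ∀ n m w, Rk (P n m) Φ w = hat (P n m) * Φ w) :
    Continuous Φ ∧ (∀ κ, Ker κ → ∀ w, Rk κ Φ w = hat κ * Φ w) ∧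
      ∀ (j : ι) (w : ι → H3), Eig1 (fun u => Φ (Function.update w j u)) := by
  have h1 : ∀ κ, Ker κ → ∀ w, Rk κ Φ w = hat κ * Φ w := fun κ hκ w =>
    Rk_eq_hat_mul_of_countable hΦ (fun n m => h n m w) hκ
  have hK : Ker (tens fun _ : ι => apC 0) := ker_tens fun _ => ker1_apC 0
  have h2 : Rk (tens fun _ : ι => apC 0) Φ = Φ := by
    funext w
    rw [h1 _ hK w, hat_tens]
    simp [hat1_apC]
  have hc : Continuous Φ := h2 ▸ hK.continuous_Rk hΦ
  refine ⟨hc, h1, fun j w k hk x => ?_⟩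
  have h3 := eig1_of_tensor hc j hk (Function.update w j x) (c := hat1 k * Φ (Function.update w j x))
    (fun n => by
      rw [h1 _ (ker_tens fun i => ?_) _, hat_tens]
      · congr 1
        rw [Finset.prod_eq_single j]
        · rw [Function.update_self]
        · intro i _ hi
          rw [Function.update_of_ne hi, hat1_apC]
        · intro hj; exact absurd (Finset.mem_univ j) hj
      · by_cases hi : i = j
        · subst hi; rwa [Function.update_self]
        · rw [Function.update_of_ne hi]; exact ker1_apC n)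
  simp only [Function.update_self, Function.update_idem] at h3
  exact h3

/-! ### One variable -/

lemma hat_unit (k : ℝ → ℂ) : hat (ι := Unit) (fun t => k (t ())) = hat1 k := by
  rw [← tens_unit, hat_tens]; simp

lemma P_unit (n : ℕ) (m : Unit → ℕ) : P n m = fun t => mkC n (m ()) (t ()) := by
  funext t; simp [P, tens]

/-- One variable: the countable family suffices. -/
theorem R1_eq_hat1_mul_of_countable {f : H3 → ℂ} (hf : Continuous f) {x : H3} {c : ℂ}
    (h : ∀ n m, R1 (mkC n m) f x = hat1 (mkC n m) * c) {k : ℝ → ℂ} (hk : Ker1 k) :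
    R1 k f x = hat1 k * c := by
  have hK : Ker (ι := Unit) (fun t => k (t ())) := by
    have := ker_tens (ι := Unit) (k := fun _ => k) fun _ => hk
    rwa [tens_unit] at this
  have := Rk_eq_hat_mul_of_countable (ι := Unit) (Φ := fun w => f (w ()))
    (hf.comp (continuous_apply ())).locallyIntegrable (w := fun _ => x) (c := c) (fun n m => by
      rw [P_unit, Rk_unit (mkC n (m ())) f x, hat_unit (mkC n (m ())), h]) hK
  rwa [Rk_unit, hat_unit] at this

theorem eq_of_countable1 {f : H3 → ℂ} (hf : Continuous f) {x : H3} {c : ℂ}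
    (h : ∀ n m, R1 (mkC n m) f x = hat1 (mkC n m) * c) : f x = c := by
  have h1 : ∀ n, R1 (apC n) f x = c := by
    intro n
    rw [R1_eq_hat1_mul_of_countable hf h (ker1_apC n), hat1_apC, one_mul]
  have h2 := tendsto_ap1 hf x
  simp only [h1] at h2
  exact (tendsto_nhds_unique h2 tendsto_const_nhds)

theorem eig1_of_countable {f : H3 → ℂ} (hf : Continuous f)
    (h : ∀ n m x, R1 (mkC n m) f x = hat1 (mkC n m) * f x) : Eig1 f := fun _ hk x =>
  R1_eq_hat1_mul_of_countable hf (fun n m => h n m x) hk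

/-- **Two factors** -/
theorem eig1_of_comp2 {f : H3 → ℂ} (hf : Continuous f)
    (h : ∀ n₁ m₁ n₂ m₂ x, R1 (mkC n₁ m₁) (R1 (mkC n₂ m₂) f) x =
      hat1 (mkC n₁ m₁) * (hat1 (mkC n₂ m₂) * f x)) : Eig1 f := by
  refine eig1_of_countable hf fun n m x => ?_
  exact eq_of_countable1 ((ker1_mkC n m).continuous_R1 hf) fun n' m' => h n' m' n m x

/-- **Three factors** (descent from a cubic extension): if all triple products of kernels act by
the product of the `hat1`, then every kernel acts by `hat1`. -/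
theorem eig1_of_comp3 {f : H3 → ℂ} (hf : Continuous f)
    (h : ∀ n₁ m₁ n₂ m₂ n₃ m₃ x, R1 (mkC n₁ m₁) (R1 (mkC n₂ m₂) (R1 (mkC n₃ m₃) f)) x =
      hat1 (mkC n₁ m₁) * (hat1 (mkC n₂ m₂) * (hat1 (mkC n₃ m₃) * f x))) : Eig1 f := by
  refine eig1_of_comp2 hf fun n₂ m₂ n₃ m₃ x => ?_
  exact eq_of_countable1 ((ker1_mkC n₂ m₂).continuous_R1 ((ker1_mkC n₃ m₃).continuous_R1 hf))
    fun n' m' => h n' m' n₂ m₂ n₃ m₃ x

end Fermat.Agent.H9Z
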