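import Fermat.Statements.S03
import Fermat.Agent.H42Last
import Fermat.Agent.S12
import Fermat.Agent.S43
import Fermat.Agent.S44

set_option autoImplicit false
open FreyPackage

namespace Fermat.Agent.S03

theorem result (P : FreyPackage) : False :=
  H42X.S03_of_even H42X.even_exact S12.result S43.result S44.result P

end Fermat.Agent.S03
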