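import Fermat.Statements.S16
import Fermat.Agent.H16Upper
import Fermat.Agent.H16Alg
import Fermat.Agent.H16Lower
import Fermat.Agent.H16Theta

set_option autoImplicit false
open ModularCurve CuspForm
open ModularCurve

namespace Fermat.Agent.S16

theorem result
    (p : ℕ) [Fact p.Prime] :
    Nat.card (↥(heckeLatticeAlgebra p ∅) ⧸
        Ideal.map ((latticeRestrictHom p ∅).toRingHom.comp (heckeEvalForms p 2))
          (eisensteinIdeal p)) =
      eisensteinNumerator p := by
  have hp : p.Prime := Fact.out
  by_cases hp5 : 5 ≤ p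
  · have hlow : Fermat.Agent.H16.EisCong p (eisensteinNumerator p) :=
      Fermat.Agent.H16.eisCong_eisensteinNumerator_of_theta p hp
        (Fermat.Agent.H16.exists_theta p hp hp5)
    have hpos : 0 < eisensteinNumerator p := by
      refine Nat.pos_of_ne_zero fun h0 => ?_
      have h1 := eisensteinNumerator_dvd p
      rw [h0] at h1
      have := Nat.eq_zero_of_zero_dvd h1
      omega
    refine Fermat.Agent.H16.natCard_quotient_eq p _ hpos fun m hm => ⟨fun h => ?_, fun h => ?_⟩
    · exact Fermat.Agent.H16.EisCong.dvd hp hp5 hm h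
    · obtain ⟨f, hf⟩ := hlow
      refine ⟨f, fun k => ?_⟩
      obtain ⟨a, ha, hac⟩ := hf k
      exact ⟨a, ha, fun hk => (Int.natCast_dvd_natCast.mpr h).trans (hac hk)⟩
  · have hp23 : p = 2 ∨ p = 3 := by
      have := hp.two_le
      rcases (by omega : p = 2 ∨ p = 3 ∨ p = 4) with h | h | h
      · exact Or.inl h
      · exact Or.inr h
      · subst h; norm_num at hp
    have h1 : eisensteinNumerator p = 1 := by
      rcases hp23 with rfl | rfl <;> decide
    rw [h1]
    exact Fermat.Agent.H16.natCard_quotient_eq p 1 one_pos fun m hm =>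
      Fermat.Agent.H16.eisCong_small hp23 m

end Fermat.Agent.S16
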