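import Fermat.Statements.S26
import Fermat.Agent.H26Final
import Fermat.Agent.H87AVScheme
import Fermat.Agent.H87AVGood

set_option autoImplicit false
set_option autoImplicit false
open CategoryTheory CategoryTheory.Limits AlgebraicGeometry NeronModelInfra GoodReductionJacobian
universe u
open GoodReductionJacobian GoodReductionJacobian.RelativeGroupLaw

namespace Fermat.Agent.S26

theorem result
    (K : Type u) [Field K] [IsAlgClosed K] {A : Scheme.{u}} (f : A ⟶ Spec (CommRingCat.of K))
    (L : RelativeGroupLaw K f) (hc : L.IsCommutative) (hA : AbelianSchemePropertyBundle K f)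
    (g : ℕ) [SmoothOfRelativeDimension g f] (n : ℕ) (hn : (n : K) ≠ 0) :
    Nat.card {x : SchemeHomOver (𝟙 (Spec (CommRingCat.of K))) f //
        L.IsTorsionPoint (𝟙 (Spec (CommRingCat.of K))) n x} = n ^ (2 * g) := by
  obtain ⟨e⟩ := Fermat.Agent.H26.AV.exists_equiv_ofScheme K f L hc hA n
  rw [Nat.card_congr e]
  exact Fermat.Agent.H26.AV.card_torsion
    (Fermat.Agent.H26.AV.good_ofScheme K f L hc hA g) n hn

end Fermat.Agent.S26
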