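import Fermat.Statements.S47
import Fermat.Agent.S01
import Fermat.Agent.H15S47Three
import Fermat.Agent.H16D8
import Fermat.Agent.H17CF
import Fermat.Agent.H79SCmp

/-!
# S47

Serre modularity modulo 3 in the surjective case (the theorem of Langlands and Tunnell), by cubic
descent from the sextic field cut out by the normaliser of the quaternion group, theta lifts and
weight one forms. The proof is the composition of the following blocks.

* (D) `H16D.blockD`: the dihedral form over the sextic field;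
* (C) `H79S.blockC_of`: descent to the field of cube roots of unity (`H43Z.setupEx`,
  `H56Z.tgtA`, `H17S.cfamEx`, `H79S.compar`, `H15S47.ictOut`);
* (T) `H15S47.blockT`: theta lift to weight one over the rationals;
* (N) `H91.Z.blockN`: nonvanishing;
* (Z) `H15S47.blockZ`: the end of the proof.
-/

set_option autoImplicit false
set_option autoImplicit false
open AutomorphicForm FLT.ExplicitLift EisensteinWeightOne open WeierstrassCurve
open scoped MatrixGroups
local notation "Γℚ" => (AlgebraicClosure ℚ ≃ₐ[ℚ] AlgebraicClosure ℚ)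
open LanglandsTunnell

namespace Fermat.Agent.S47

theorem result
    (ρ : Γℚ →* GL (Fin 2) (ZMod 3)) (hρ : Continuous ρ) (hsurj : Function.Surjective ρ)
    (hdet : ∀ σ : Γℚ, Matrix.GeneralLinearGroup.det (ρ σ) = modThreeCyclotomicChar σ)
    (Ψ : GL (Fin 2) (ZMod 3) →* GL (Fin 2) (ℤ√(-2)))
    (hΨ : ∀ g, Matrix.GeneralLinearGroup.map red (Ψ g) = g) :
    ∃ (N : ℕ) (_ : NeZero N) (b : ℕ → ℤ√(-2)),
      FormalHecke.IsEigensystem
        (fun ℓ => if ℓ ∣ N then 0 else ((chiNegThree ℓ : ℤ) : ℤ√(-2))) b ∧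
      CuspForm.IsWeightOneChiNegThreeRealized N b ∧
      ∀ p : ℕ, p.Prime → ¬ p ∣ 3 * N →
        ∀ A : ValuationSubring (AlgebraicClosure ℚ), A.LiesOverPrime p →
          ∀ σ : Γℚ, A.IsFrobeniusAt σ p →
            b p = ((Ψ (ρ σ) : GL (Fin 2) (ℤ√(-2))) : Matrix (Fin 2) (Fin 2) (ℤ√(-2))).trace :=
  Fermat.Agent.H15S47.S47_of_three Fermat.Agent.H16D.blockD Fermat.Agent.H17S.cfamEx
    Fermat.Agent.H79S.compar ρ hρ hsurj hdet Ψ hΨ

end Fermat.Agent.S47
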